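-- Statement S02: a counterexample to Fermat for a prime exponent p ≥ 5 yields a Frey package.
import Fermat.Statements.S02

set_option autoImplicit false
open FreyPackage

namespace Fermat.Agent.S02

theorem cast_four_of_emod {a : ℤ} (h : a % 4 = 3) : (a : ZMod 4) = 3 := by
  have h' : (a : ZMod 4) = ((3 : ℤ) : ZMod 4) :=
    (ZMod.intCast_eq_intCast_iff' (a := a) (b := 3) (c := 4)).2 (by omega)
  simpa using h'

theorem of_even_b (a b c : ℤ) (ha : a ≠ 0) (hb : b ≠ 0) (hc : c ≠ 0) (p : ℕ) (pp : p.Prime)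
    (hp5 : 5 ≤ p) (H : a ^ p + b ^ p = c ^ p) (hab : gcd a b = 1) (h2 : (2 : ℤ) ∣ b) :
    Nonempty FreyPackage := by
  have hodd : Odd p := pp.odd_of_ne_two (by omega)
  have hb2 : (b : ZMod 2) = 0 := (ZMod.intCast_zmod_eq_zero_iff_dvd b 2).2 h2
  have ha_odd : ¬ (2 : ℤ) ∣ a := by
    intro h
    have h' : (2 : ℤ) ∣ gcd a b := dvd_gcd h h2
    rw [hab] at h'
    norm_num at h'
  have h4 : a % 4 = 1 ∨ a % 4 = 3 := by omega
  rcases h4 with h4 | h4
  · refine ⟨⟨-a, -b, -c, neg_ne_zero.2 ha, neg_ne_zero.2 hb, neg_ne_zero.2 hc, p, pp, hp5,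
      ?_, ?_, ?_, ?_⟩⟩
    · rw [hodd.neg_pow, hodd.neg_pow, hodd.neg_pow, ← H]; ring
    · rw [gcd_neg, neg_gcd]; exact hab
    · exact cast_four_of_emod (by omega)
    · rw [Int.cast_neg, hb2, neg_zero]
  · exact ⟨⟨a, b, c, ha, hb, hc, p, pp, hp5, H, hab, cast_four_of_emod h4, hb2⟩⟩

theorem of_coprime (a b c : ℤ) (ha : a ≠ 0) (hb : b ≠ 0) (hc : c ≠ 0) (p : ℕ) (pp : p.Prime)
    (hp5 : 5 ≤ p) (H : a ^ p + b ^ p = c ^ p) (hab : gcd a b = 1) :
    Nonempty FreyPackage := by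
  have hodd : Odd p := pp.odd_of_ne_two (by omega)
  have hp0 : p ≠ 0 := pp.ne_zero
  by_cases hb2 : (2 : ℤ) ∣ b
  · exact of_even_b a b c ha hb hc p pp hp5 H hab hb2
  by_cases ha2 : (2 : ℤ) ∣ a
  · exact of_even_b b a c hb ha hc p pp hp5 (by rw [add_comm]; exact H)
      (by rw [gcd_comm]; exact hab) ha2
  -- both odd, so c is even
  have hc2 : (2 : ℤ) ∣ c := by
    have hao : Odd a := Int.not_even_iff_odd.1 (fun h => ha2 (even_iff_two_dvd.1 h))
    have hbo : Odd b := Int.not_even_iff_odd.1 (fun h => hb2 (even_iff_two_dvd.1 h))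
    have hce : Even (c ^ p) := by
      rw [← H]
      exact (hao.pow).add_odd (hbo.pow)
    exact even_iff_two_dvd.1 ((Int.even_pow' hp0).1 hce)
  have hac : gcd a c = 1 := by
    rw [← FreyPackage.gcdab_eq_gcdac (Nat.pos_of_ne_zero hp0) H]; exact hab
  refine of_even_b a (-c) (-b) ha (neg_ne_zero.2 hc) (neg_ne_zero.2 hb) p pp hp5 ?_ ?_
    ((dvd_neg).2 hc2)
  · rw [hodd.neg_pow, hodd.neg_pow, ← H]; ring
  · rw [gcd_neg]; exact hac

theorem result (a b c : ℤ) (ha : a ≠ 0) (hb : b ≠ 0) (hc : c ≠ 0) (p : ℕ) (pp : p.Prime) (hp5 : 5 ≤ p) (H : a ^ p + b ^ p = c ^ p) : Nonempty FreyPackage := by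
  have hp0 : p ≠ 0 := pp.ne_zero
  obtain ⟨a', b', ha', hb', hcop⟩ : ∃ a' b' : ℤ, a = a' * gcd a b ∧ b = b' * gcd a b ∧
      IsCoprime a' b' := by
    have hg : 0 < Int.gcd a b := Int.gcd_pos_of_ne_zero_left b ha
    obtain ⟨a', b', hcop, h1, h2⟩ := Int.exists_gcd_one hg
    refine ⟨a', b', ?_, ?_, ?_⟩
    · rw [← Int.coe_gcd]; exact h1
    · rw [← Int.coe_gcd]; exact h2
    · exact Int.isCoprime_iff_gcd_eq_one.2 hcop
  set d : ℤ := gcd a b with hd
  have hd0 : d ≠ 0 := by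
    intro h
    rw [h, mul_zero] at ha'
    exact ha ha'
  have hdc : d ∣ c := by
    rw [← Int.pow_dvd_pow_iff hp0, ← H, ha', hb', mul_pow, mul_pow]
    exact dvd_add (dvd_mul_left _ _) (dvd_mul_left _ _)
  obtain ⟨c', hc'⟩ := hdc
  have ha'0 : a' ≠ 0 := by
    rintro rfl
    rw [zero_mul] at ha'
    exact ha ha'
  have hb'0 : b' ≠ 0 := by
    rintro rfl
    rw [zero_mul] at hb'
    exact hb hb'
  have hc'0 : c' ≠ 0 := by
    rintro rfl
    rw [mul_zero] at hc'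
    exact hc hc'
  have H' : a' ^ p + b' ^ p = c' ^ p := by
    have hdp : d ^ p ≠ 0 := pow_ne_zero p hd0
    apply mul_right_cancel₀ hdp
    calc (a' ^ p + b' ^ p) * d ^ p = (a' * d) ^ p + (b' * d) ^ p := by ring
      _ = a ^ p + b ^ p := by rw [← ha', ← hb']
      _ = c ^ p := H
      _ = c' ^ p * d ^ p := by rw [hc']; ring
  exact of_coprime a' b' c' ha'0 hb'0 hc'0 p pp hp5 H'
    (by rw [← Int.coe_gcd, Int.isCoprime_iff_gcd_eq_one.1 hcop]; rfl)

end Fermat.Agent.S02
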