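-- Helper for S05: rational-valued valuations on a field (junk value at zero).
import Mathlib

set_option autoImplicit false

namespace Fermat.Agent.S05_RatVal

/-- A rational valued (additive) valuation on a field; the value at `0` is junk. -/
structure RatVal (K : Type*) [Field K] where
  v : K → ℚ
  v_mul : ∀ x y : K, x ≠ 0 → y ≠ 0 → v (x * y) = v x + v y
  v_add : ∀ x y : K, x ≠ 0 → y ≠ 0 → x + y ≠ 0 → min (v x) (v y) ≤ v (x + y)

namespace RatVal

variable {K : Type*} [Field K] (v : RatVal K)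

theorem v_one : v.v 1 = 0 := by
  have h := v.v_mul 1 1 one_ne_zero one_ne_zero
  rw [mul_one] at h
  linarith

theorem v_neg_one : v.v (-1) = 0 := by
  have h := v.v_mul (-1) (-1) (neg_ne_zero.2 one_ne_zero) (neg_ne_zero.2 one_ne_zero)
  rw [neg_mul_neg, mul_one, v.v_one] at h
  linarith

theorem v_neg (x : K) : v.v (-x) = v.v x := by
  by_cases hx : x = 0
  · rw [hx, neg_zero]
  · have h := v.v_mul (-1) x (neg_ne_zero.2 one_ne_zero) hx
    rw [neg_one_mul, v.v_neg_one, zero_add] at h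
    exact h

theorem v_inv {x : K} (hx : x ≠ 0) : v.v x⁻¹ = -v.v x := by
  have h := v.v_mul x x⁻¹ hx (inv_ne_zero hx)
  rw [mul_inv_cancel₀ hx, v.v_one] at h
  linarith

theorem v_div {x y : K} (hx : x ≠ 0) (hy : y ≠ 0) : v.v (x / y) = v.v x - v.v y := by
  rw [div_eq_mul_inv, v.v_mul x y⁻¹ hx (inv_ne_zero hy), v.v_inv hy]
  ring

theorem v_pow {x : K} (hx : x ≠ 0) (n : ℕ) : v.v (x ^ n) = n * v.v x := by
  induction n with
  | zero => simp [v.v_one]
  | succ n ih =>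
    rw [pow_succ, v.v_mul _ _ (pow_ne_zero n hx) hx, ih]
    push_cast
    ring

theorem v_zpow {x : K} (hx : x ≠ 0) (n : ℤ) : v.v (x ^ n) = n * v.v x := by
  cases n with
  | ofNat n =>
    simp only [Int.ofNat_eq_natCast, zpow_natCast, Int.cast_natCast]
    exact v.v_pow hx n
  | negSucc n =>
    rw [zpow_negSucc, v.v_inv (pow_ne_zero _ hx), v.v_pow hx]
    push_cast
    ring

theorem v_sub_ge {x y : K} (hx : x ≠ 0) (hy : y ≠ 0) (hxy : x - y ≠ 0) :
    min (v.v x) (v.v y) ≤ v.v (x - y) := by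
  have h := v.v_add x (-y) hx (neg_ne_zero.2 hy) (by rwa [← sub_eq_add_neg])
  rwa [v.v_neg, ← sub_eq_add_neg] at h

theorem v_add_of_lt {x y : K} (hx : x ≠ 0) (hy : y ≠ 0) (h : v.v x < v.v y) :
    x + y ≠ 0 ∧ v.v (x + y) = v.v x := by
  have hne : x + y ≠ 0 := by
    intro h0
    have : x = -y := eq_neg_of_add_eq_zero_left h0
    rw [this, v.v_neg] at h
    exact lt_irrefl _ h
  refine ⟨hne, le_antisymm ?_ ?_⟩
  · by_contra hlt
    push Not at hlt
    have h1 := v.v_sub_ge hne hy (by rwa [add_sub_cancel_right])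
    rw [add_sub_cancel_right] at h1
    rcases min_le_iff.1 h1 with h2 | h2 <;> linarith
  · have h1 := v.v_add x y hx hy hne
    rwa [min_eq_left h.le] at h1

theorem v_add_of_gt {x y : K} (hx : x ≠ 0) (hy : y ≠ 0) (h : v.v y < v.v x) :
    x + y ≠ 0 ∧ v.v (x + y) = v.v y := by
  rw [add_comm]
  exact v.v_add_of_lt hy hx h

theorem v_sub_of_lt {x y : K} (hx : x ≠ 0) (hy : y ≠ 0) (h : v.v x < v.v y) :
    x - y ≠ 0 ∧ v.v (x - y) = v.v x := by
  rw [sub_eq_add_neg]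
  exact v.v_add_of_lt hx (neg_ne_zero.2 hy) (by rwa [v.v_neg])

theorem v_sub_of_gt {x y : K} (hx : x ≠ 0) (hy : y ≠ 0) (h : v.v y < v.v x) :
    x - y ≠ 0 ∧ v.v (x - y) = v.v y := by
  rw [sub_eq_add_neg]
  have := v.v_add_of_gt hx (neg_ne_zero.2 hy) (by rwa [v.v_neg])
  rwa [v.v_neg] at this

/-- `x` is zero or has valuation at least `r`. -/
def Ge (x : K) (r : ℚ) : Prop := x = 0 ∨ r ≤ v.v x

/-- `x` is zero or has valuation greater than `r`. -/
def Gt (x : K) (r : ℚ) : Prop := x = 0 ∨ r < v.v x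

variable {v}

theorem Ge.zero (r : ℚ) : v.Ge 0 r := Or.inl rfl
theorem Gt.zero (r : ℚ) : v.Gt 0 r := Or.inl rfl

theorem Gt.ge {x : K} {r : ℚ} (h : v.Gt x r) : v.Ge x r := h.imp id le_of_lt

theorem Ge.mono {x : K} {r s : ℚ} (h : v.Ge x r) (hs : s ≤ r) : v.Ge x s :=
  h.imp id (le_trans hs)

theorem Gt.mono {x : K} {r s : ℚ} (h : v.Gt x r) (hs : s ≤ r) : v.Gt x s :=
  h.imp id (lt_of_le_of_lt hs)

theorem Ge.gt_of_lt {x : K} {r s : ℚ} (h : v.Ge x r) (hs : s < r) : v.Gt x s :=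
  h.imp id (lt_of_lt_of_le hs)

theorem Ge.le_v {x : K} {r : ℚ} (h : v.Ge x r) (hx : x ≠ 0) : r ≤ v.v x :=
  h.resolve_left hx

theorem Gt.lt_v {x : K} {r : ℚ} (h : v.Gt x r) (hx : x ≠ 0) : r < v.v x :=
  h.resolve_left hx

theorem Ge.neg {x : K} {r : ℚ} (h : v.Ge x r) : v.Ge (-x) r := by
  rcases h with h | h
  · left; rw [h, neg_zero]
  · right; rwa [v.v_neg]

theorem Gt.neg {x : K} {r : ℚ} (h : v.Gt x r) : v.Gt (-x) r := by
  rcases h with h | h
  · left; rw [h, neg_zero]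
  · right; rwa [v.v_neg]

theorem Ge.add {x y : K} {r : ℚ} (hx : v.Ge x r) (hy : v.Ge y r) : v.Ge (x + y) r := by
  rcases hx with hx | hx
  · rwa [hx, zero_add]
  rcases hy with hy | hy
  · rw [hy, add_zero]; exact Or.inr hx
  by_cases hx0 : x = 0
  · rw [hx0, zero_add]; exact Or.inr hy
  by_cases hy0 : y = 0
  · rw [hy0, add_zero]; exact Or.inr hx
  by_cases hxy : x + y = 0
  · exact Or.inl hxy
  · exact Or.inr (le_trans (le_min hx hy) (v.v_add x y hx0 hy0 hxy))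

theorem Gt.add {x y : K} {r : ℚ} (hx : v.Gt x r) (hy : v.Gt y r) : v.Gt (x + y) r := by
  rcases hx with hx | hx
  · rwa [hx, zero_add]
  rcases hy with hy | hy
  · rw [hy, add_zero]; exact Or.inr hx
  by_cases hx0 : x = 0
  · rw [hx0, zero_add]; exact Or.inr hy
  by_cases hy0 : y = 0
  · rw [hy0, add_zero]; exact Or.inr hx
  by_cases hxy : x + y = 0
  · exact Or.inl hxy
  · exact Or.inr (lt_of_lt_of_le (lt_min hx hy) (v.v_add x y hx0 hy0 hxy))

theorem Ge.sub {x y : K} {r : ℚ} (hx : v.Ge x r) (hy : v.Ge y r) : v.Ge (x - y) r := by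
  rw [sub_eq_add_neg]; exact hx.add hy.neg

theorem Gt.sub {x y : K} {r : ℚ} (hx : v.Gt x r) (hy : v.Gt y r) : v.Gt (x - y) r := by
  rw [sub_eq_add_neg]; exact hx.add hy.neg

theorem Ge.mul {x y : K} {r s : ℚ} (hx : v.Ge x r) (hy : v.Ge y s) : v.Ge (x * y) (r + s) := by
  by_cases hx0 : x = 0
  · left; rw [hx0, zero_mul]
  by_cases hy0 : y = 0
  · left; rw [hy0, mul_zero]
  right
  rw [v.v_mul x y hx0 hy0]
  exact add_le_add (hx.le_v hx0) (hy.le_v hy0)

theorem Gt.mul_ge {x y : K} {r s : ℚ} (hx : v.Gt x r) (hy : v.Ge y s) : v.Gt (x * y) (r + s) := by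
  by_cases hx0 : x = 0
  · left; rw [hx0, zero_mul]
  by_cases hy0 : y = 0
  · left; rw [hy0, mul_zero]
  right
  rw [v.v_mul x y hx0 hy0]
  exact add_lt_add_of_lt_of_le (hx.lt_v hx0) (hy.le_v hy0)

theorem Ge.mul_gt {x y : K} {r s : ℚ} (hx : v.Ge x r) (hy : v.Gt y s) : v.Gt (x * y) (r + s) := by
  rw [mul_comm, add_comm]; exact hy.mul_ge hx

theorem Ge.pow {x : K} {r : ℚ} (hx : v.Ge x r) (n : ℕ) : v.Ge (x ^ n) (n * r) := by
  induction n with
  | zero =>
    right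
    simp [v.v_one]
  | succ n ih =>
    rw [pow_succ]
    have := ih.mul hx
    convert this using 1
    push_cast; ring

theorem ge_of_ne {x : K} {r : ℚ} (h : r ≤ v.v x) : v.Ge x r := Or.inr h
theorem gt_of_ne {x : K} {r : ℚ} (h : r < v.v x) : v.Gt x r := Or.inr h

/-- If `x ≠ 0` and `y` has strictly larger valuation (or is zero), `x + y` has the valuation
of `x`. -/
theorem v_add_gt {x y : K} (hx : x ≠ 0) (hy : v.Gt y (v.v x)) :
    x + y ≠ 0 ∧ v.v (x + y) = v.v x := by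
  by_cases hy0 : y = 0
  · rw [hy0, add_zero]; exact ⟨hx, rfl⟩
  · exact v.v_add_of_lt hx hy0 (hy.lt_v hy0)

theorem v_sub_gt {x y : K} (hx : x ≠ 0) (hy : v.Gt y (v.v x)) :
    x - y ≠ 0 ∧ v.v (x - y) = v.v x := by
  rw [sub_eq_add_neg]; exact v_add_gt hx hy.neg

end RatVal

end Fermat.Agent.S05_RatVal
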