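-- Helper for S05: x-coordinate identities on a Weierstrass curve whose 2-division cubic splits.
import Mathlib
import Fermat.Agent.S05_RatVal

set_option autoImplicit false

namespace Fermat.Agent.S05_Basic

open WeierstrassCurve WeierstrassCurve.Affine
open Fermat.Agent.S05_RatVal

variable {K : Type*} [Field K]

/-- Shifted x-coordinate of a point (junk value `0` at the origin). -/
def Xc (W : Affine K) (e : K) : W.Point → K
  | .zero => 0
  | .some x _ _ => x - e

/-- The quantity `2y + a₁x + a₃` of a point (junk value `0` at the origin). -/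
def Eta (W : Affine K) : W.Point → K
  | .zero => 0
  | .some x y _ => 2 * y + W.a₁ * x + W.a₃

/-- The hypotheses: the 2-division cubic is `4 (x - e) (x - e - D) (x - e - E)`. -/
structure Split (W : Affine K) (e D E : K) : Prop where
  two_ne : (2 : K) ≠ 0
  hb₂ : W.b₂ = -4 * (3 * e + D + E)
  hb₄ : W.b₄ = 2 * (3 * e ^ 2 + 2 * e * (D + E) + D * E)
  hb₆ : W.b₆ = -4 * e * (e + D) * (e + E)

variable {W : Affine K} {e D E : K}

theorem eta_sq_coord (hS : Split W e D E) {x y : K} (h : W.Equation x y) :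
    (2 * y + W.a₁ * x + W.a₃) ^ 2 = 4 * (x - e) * (x - e - D) * (x - e - E) := by
  rw [equation_iff] at h
  have h2 := hS.hb₂
  have h4 := hS.hb₄
  have h6 := hS.hb₆
  simp only [WeierstrassCurve.b₂, WeierstrassCurve.b₄, WeierstrassCurve.b₆] at h2 h4 h6
  linear_combination 4 * h + x ^ 2 * h2 + 2 * x * h4 + h6

@[simp] theorem Xc_zero : Xc W e (0 : W.Point) = 0 := rfl
@[simp] theorem Eta_zero : Eta W (0 : W.Point) = 0 := rfl
@[simp] theorem Xc_some {x y : K} (h : W.Nonsingular x y) : Xc W e (Point.some x y h) = x - e := rfl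
@[simp] theorem Eta_some {x y : K} (h : W.Nonsingular x y) :
    Eta W (Point.some x y h) = 2 * y + W.a₁ * x + W.a₃ := rfl

theorem Eta_sq (hS : Split W e D E) (R : W.Point) (hR : R ≠ 0) :
    Eta W R ^ 2 = 4 * Xc W e R * (Xc W e R - D) * (Xc W e R - E) := by
  rcases R with _ | ⟨x, y, h⟩
  · exact absurd rfl hR
  · exact eta_sq_coord hS h.1

theorem Xc_neg (R : W.Point) : Xc W e (-R) = Xc W e R := by
  rcases R with _ | ⟨x, y, h⟩
  · rfl
  · rfl

theorem Eta_neg (R : W.Point) : Eta W (-R) = -Eta W R := by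
  rcases R with _ | ⟨x, y, h⟩
  · show (0 : K) = -0
    rw [neg_zero]
  · simp only [Point.neg_some, Eta_some, negY]
    ring

theorem eq_or_eq_neg_of_Xc_eq {R S : W.Point} (hR : R ≠ 0) (hS' : S ≠ 0)
    (h : Xc W e R = Xc W e S) : R = S ∨ R = -S := by
  rcases R with _ | ⟨x₁, y₁, h₁⟩
  · exact absurd rfl hR
  rcases S with _ | ⟨x₂, y₂, h₂⟩
  · exact absurd rfl hS'
  simp only [Xc_some, sub_left_inj] at h
  exact Point.X_eq_iff.1 h

theorem eq_of_Xc_eq_of_Eta_eq (hS : Split W e D E) {R S : W.Point} (hR : R ≠ 0) (hS' : S ≠ 0)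
    (hX : Xc W e R = Xc W e S) (hη : Eta W R = Eta W S) : R = S := by
  rcases R with _ | ⟨x₁, y₁, h₁⟩
  · exact absurd rfl hR
  rcases S with _ | ⟨x₂, y₂, h₂⟩
  · exact absurd rfl hS'
  simp only [Xc_some, sub_left_inj] at hX
  subst hX
  simp only [Eta_some] at hη
  have : y₁ = y₂ := by
    have h2 : (2 : K) * y₁ = 2 * y₂ := by linear_combination hη
    exact mul_left_cancel₀ hS.two_ne h2
  subst this
  rfl

variable [DecidableEq K]

theorem add_self_eq_zero_iff (hS : Split W e D E) (R : W.Point) :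
    R + R = 0 ↔ R = 0 ∨ Eta W R = 0 := by
  rcases R with _ | ⟨x, y, h⟩
  · simp [Point.zero_def]
  · have hne : Point.some x y h ≠ 0 := Point.some_ne_zero h
    constructor
    · intro h0
      right
      by_contra hη
      have hy : y ≠ W.negY x y := by
        intro hy
        apply hη
        simp only [Eta_some]
        rw [negY] at hy
        linear_combination hy
      rw [Point.add_self_of_Y_ne hy] at h0
      exact Point.some_ne_zero _ h0
    · rintro (h0 | h0)
      · exact absurd h0 hne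
      · have hy : y = W.negY x y := by
          simp only [Eta_some] at h0
          rw [negY]
          have h2 : (2 : K) * y = 2 * (-y - W.a₁ * x - W.a₃) := by linear_combination 2 * h0
          exact mul_left_cancel₀ hS.two_ne h2
        exact Point.add_self_of_Y_eq hy

/-- x-coordinate of a sum of two points with distinct x-coordinates. -/
theorem Xc_add (hS : Split W e D E) {R S : W.Point} (hR : R ≠ 0) (hS' : S ≠ 0)
    (hX : Xc W e R ≠ Xc W e S) :
    R + S ≠ 0 ∧ 4 * Xc W e (R + S) * (Xc W e R - Xc W e S) ^ 2 =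
      (Eta W R - Eta W S) ^ 2 -
        4 * (Xc W e R + Xc W e S - D - E) * (Xc W e R - Xc W e S) ^ 2 := by
  rcases R with _ | ⟨x₁, y₁, h₁⟩
  · exact absurd rfl hR
  rcases S with _ | ⟨x₂, y₂, h₂⟩
  · exact absurd rfl hS'
  simp only [Xc_some] at hX
  have hx : x₁ ≠ x₂ := fun h => hX (by rw [h])
  have hx' : x₁ - x₂ ≠ 0 := sub_ne_zero.2 hx
  rw [Point.add_of_X_ne hx]
  refine ⟨Point.some_ne_zero _, ?_⟩
  simp only [Xc_some, Eta_some, slope_of_X_ne hx, addX]
  have h2 := hS.hb₂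
  simp only [WeierstrassCurve.b₂] at h2
  have hℓ : (y₁ - y₂) / (x₁ - x₂) * (x₁ - x₂) = y₁ - y₂ := div_mul_cancel₀ _ hx'
  set ℓ := (y₁ - y₂) / (x₁ - x₂)
  linear_combination (4 * (ℓ * (x₁ - x₂) + (y₁ - y₂)) + 4 * W.a₁ * (x₁ - x₂)) * hℓ
    - (x₁ - x₂) ^ 2 * h2

theorem Xc_sub (hS : Split W e D E) {R S : W.Point} (hR : R ≠ 0) (hS' : S ≠ 0)
    (hX : Xc W e R ≠ Xc W e S) :
    R - S ≠ 0 ∧ 4 * Xc W e (R - S) * (Xc W e R - Xc W e S) ^ 2 =
      (Eta W R + Eta W S) ^ 2 -
        4 * (Xc W e R + Xc W e S - D - E) * (Xc W e R - Xc W e S) ^ 2 := by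
  have hS'' : -S ≠ 0 := neg_ne_zero.2 hS'
  have hX' : Xc W e R ≠ Xc W e (-S) := by rw [Xc_neg]; exact hX
  have := Xc_add hS hR hS'' hX'
  rw [Xc_neg, Eta_neg, ← sub_eq_add_neg, sub_neg_eq_add] at this
  exact this

/-- The product formula for the x-coordinates of `R + S` and `R - S`. -/
theorem Xc_add_mul_Xc_sub (hS : Split W e D E) {R S : W.Point} (hR : R ≠ 0) (hS' : S ≠ 0)
    (hX : Xc W e R ≠ Xc W e S) :
    Xc W e (R + S) * Xc W e (R - S) * (Xc W e R - Xc W e S) ^ 2 =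
      (Xc W e R * Xc W e S - D * E) ^ 2 := by
  have h1 := (Xc_add hS hR hS' hX).2
  have h2 := (Xc_sub hS hR hS' hX).2
  have e1 := Eta_sq hS R hR
  have e2 := Eta_sq hS S hS'
  have hd : (Xc W e R - Xc W e S) ^ 2 ≠ 0 := pow_ne_zero 2 (sub_ne_zero.2 hX)
  have h16 : (16 : K) ≠ 0 := by
    have : (16 : K) = 2 ^ 4 := by norm_num
    rw [this]; exact pow_ne_zero 4 hS.two_ne
  apply mul_left_cancel₀ (mul_ne_zero h16 hd)
  set a := Xc W e R
  set b := Xc W e S
  set u := Eta W R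
  set w := Eta W S
  set s := Xc W e (R + S)
  set t := Xc W e (R - S)
  linear_combination (4 * t * (a - b) ^ 2) * h1 +
    ((u - w) ^ 2 - 4 * (a + b - D - E) * (a - b) ^ 2) * h2 +
    (u ^ 2 - w ^ 2 - 8 * (a + b - D - E) * (a - b) ^ 2 + 4 * (a * (a - D) * (a - E))
      - 4 * (b * (b - D) * (b - E))) * e1 +
    (-(u ^ 2 - w ^ 2) - 8 * (a + b - D - E) * (a - b) ^ 2 - 4 * (a * (a - D) * (a - E))
      + 4 * (b * (b - D) * (b - E))) * e2

/-- The sum formula for the x-coordinates of `R + S` and `R - S`. -/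
theorem Xc_add_add_Xc_sub (hS : Split W e D E) {R S : W.Point} (hR : R ≠ 0) (hS' : S ≠ 0)
    (hX : Xc W e R ≠ Xc W e S) :
    (Xc W e (R + S) + Xc W e (R - S)) * (Xc W e R - Xc W e S) ^ 2 =
      2 * (Xc W e R + Xc W e S) * (Xc W e R * Xc W e S + D * E)
        - 4 * (D + E) * (Xc W e R * Xc W e S) := by
  have h1 := (Xc_add hS hR hS' hX).2
  have h2 := (Xc_sub hS hR hS' hX).2
  have e1 := Eta_sq hS R hR
  have e2 := Eta_sq hS S hS'
  have h4 : (4 : K) ≠ 0 := by
    have : (4 : K) = 2 ^ 2 := by norm_num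
    rw [this]; exact pow_ne_zero 2 hS.two_ne
  apply mul_left_cancel₀ h4
  linear_combination h1 + h2 + 2 * e1 + 2 * e2

/-- The duplication formula for the x-coordinate. -/
theorem Xc_add_self (hS : Split W e D E) {R : W.Point} (hR : R ≠ 0) (hη : Eta W R ≠ 0) :
    R + R ≠ 0 ∧ Xc W e (R + R) * Eta W R ^ 2 = (Xc W e R ^ 2 - D * E) ^ 2 := by
  rcases R with _ | ⟨x, y, h⟩
  · exact absurd rfl hR
  simp only [Eta_some] at hη
  have hy : y ≠ W.negY x y := by
    intro hy
    apply hη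
    rw [negY] at hy
    linear_combination hy
  have hd : y - W.negY x y ≠ 0 := sub_ne_zero.2 hy
  rw [Point.add_self_of_Y_ne hy]
  refine ⟨Point.some_ne_zero _, ?_⟩
  simp only [Xc_some, Eta_some, slope_of_Y_ne rfl hy, addX]
  have hQ := eta_sq_coord hS h.1
  have h2 := hS.hb₂
  have h4 := hS.hb₄
  simp only [WeierstrassCurve.b₂, WeierstrassCurve.b₄] at h2 h4
  have hden : y - W.negY x y = 2 * y + W.a₁ * x + W.a₃ := by rw [negY]; ring
  rw [hden]
  set η := 2 * y + W.a₁ * x + W.a₃ with hηdef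
  set N := 3 * x ^ 2 + 2 * W.a₂ * x + W.a₄ - W.a₁ * y with hN
  have hNM : 2 * N = 6 * (x - e) ^ 2 - 4 * (D + E) * (x - e) + 2 * D * E - W.a₁ * η := by
    rw [hN, hηdef]
    linear_combination x * h2 + h4
  have h4' : (4 : K) ≠ 0 := by
    have : (4 : K) = 2 ^ 2 := by norm_num
    rw [this]; exact pow_ne_zero 2 hS.two_ne
  apply mul_left_cancel₀ h4'
  have hℓ : N / η * η = N := div_mul_cancel₀ _ hη
  set ℓ := N / η
  linear_combination (4 * (ℓ * η + N) + 4 * W.a₁ * η) * hℓ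
    + (2 * N + (6 * (x - e) ^ 2 - 4 * (D + E) * (x - e) + 2 * D * E - W.a₁ * η) + 2 * W.a₁ * η) * hNM
    - η ^ 2 * h2 - (8 * (x - e) - 4 * (D + E)) * hQ


/-- The 2-torsion point with shifted x-coordinate `0`. -/
theorem exists_T0 (hS : Split W e D E) (hD : D ≠ 0) (hE : E ≠ 0) :
    ∃ T : W.Point, T ≠ 0 ∧ Xc W e T = 0 ∧ Eta W T = 0 ∧ T + T = 0 := by
  have h2 := hS.hb₂
  have h4 := hS.hb₄
  have h6 := hS.hb₆
  simp only [WeierstrassCurve.b₂, WeierstrassCurve.b₄, WeierstrassCurve.b₆] at h2 h4 h6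
  have h2ne := hS.two_ne
  have h4' : (4 : K) ≠ 0 := by
    have : (4 : K) = 2 ^ 2 := by norm_num
    rw [this]; exact pow_ne_zero 2 hS.two_ne
  obtain ⟨y, hy2⟩ : ∃ y : K, 2 * y = -(W.a₁ * e + W.a₃) :=
    ⟨-(W.a₁ * e + W.a₃) / 2, by field_simp⟩
  have heq : W.Equation e y := by
    rw [equation_iff]
    apply mul_left_cancel₀ h4'
    linear_combination (2 * y + W.a₁ * e + W.a₃) * hy2 - e ^ 2 * h2 - 2 * e * h4 - h6
  have hns : W.Nonsingular e y := by
    rw [nonsingular_iff]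
    refine ⟨heq, Or.inl ?_⟩
    intro h
    have : (2 : K) * (D * E) = 0 := by
      linear_combination (-2 : K) * h + W.a₁ * hy2 - e * h2 - h4
    rcases mul_eq_zero.1 this with h' | h'
    · exact h2ne h'
    · rcases mul_eq_zero.1 h' with h'' | h''
      · exact hD h''
      · exact hE h''
  refine ⟨Point.some e y hns, Point.some_ne_zero _, ?_, ?_, ?_⟩
  · simp
  · simp only [Eta_some]; linear_combination hy2
  · rw [add_self_eq_zero_iff hS]
    right
    simp only [Eta_some]; linear_combination hy2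

/-- Translation by a 2-torsion point with shifted x-coordinate `0`. -/
theorem Xc_add_T0 (hS : Split W e D E) {T : W.Point} (hT : T ≠ 0) (hTX : Xc W e T = 0)
    (hTη : Eta W T = 0) {R : W.Point} (hR : R ≠ 0) (hX : Xc W e R ≠ 0) :
    R + T ≠ 0 ∧ Xc W e (R + T) * Xc W e R = D * E := by
  have hne : Xc W e R ≠ Xc W e T := by rw [hTX]; exact hX
  obtain ⟨h1, h2⟩ := Xc_add hS hR hT hne
  refine ⟨h1, ?_⟩
  have e1 := Eta_sq hS R hR
  rw [hTX, hTη] at h2
  have h4' : (4 : K) ≠ 0 := by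
    have : (4 : K) = 2 ^ 2 := by norm_num
    rw [this]; exact pow_ne_zero 2 hS.two_ne
  apply mul_left_cancel₀ (mul_ne_zero h4' hX)
  linear_combination h2 + e1


/-- The standing hypotheses for the valuation-theoretic lemmas: the 2-division cubic is
`4 X (X - D) (X - E)` in the shifted coordinate `X = x - e`, with `2`, `E`, `D - E` units and
`D` integral for the valuation `v`. -/
structure Setup (W : Affine K) (e D E : K) (v : RatVal K) : Prop extends Split W e D E where
  v_two : v.v 2 = 0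
  D_ne : D ≠ 0
  E_ne : E ≠ 0
  DE_ne : D - E ≠ 0
  vD : 0 ≤ v.v D
  vE : v.v E = 0
  vDE : v.v (D - E) = 0

end Fermat.Agent.S05_Basic
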