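-- Helper for S05 (lemmas L2, L4): a point congruent to `R` differs from `R` by an element of
-- the kernel of reduction.
import Mathlib
import Fermat.Agent.S05_Basic

set_option autoImplicit false

namespace Fermat.Agent.S05_Cong

open WeierstrassCurve WeierstrassCurve.Affine
open Fermat.Agent.S05_RatVal Fermat.Agent.S05_Basic

variable {K : Type*} [Field K] [DecidableEq K] {W : Affine K} {e D E : K} {v : RatVal K}

omit [DecidableEq K] in
theorem four_ne (h : Setup W e D E v) : (4 : K) ≠ 0 ∧ v.v (4 : K) = 0 := by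
  have h2 := h.two_ne
  refine ⟨?_, ?_⟩
  · have : (4 : K) = 2 * 2 := by norm_num
    rw [this]; exact mul_ne_zero h2 h2
  · have : (4 : K) = 2 * 2 := by norm_num
    rw [this, v.v_mul 2 2 h2 h2, h.v_two]; norm_num

/-- The final step common to L2 and L4: if the right-hand side of the subtraction formula
has valuation smaller than that of `(X' - X)^2`, the difference lies in the kernel of
reduction. -/
theorem ker_of_sub_formula (h : Setup W e D E v) {R R' : W.Point} (hR : R ≠ 0) (hR' : R' ≠ 0)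
    (hne : Xc W e R' ≠ Xc W e R)
    (hrhs : (Eta W R' + Eta W R) ^ 2 -
        4 * (Xc W e R' + Xc W e R - D - E) * (Xc W e R' - Xc W e R) ^ 2 ≠ 0)
    (hlt : v.v ((Eta W R' + Eta W R) ^ 2 -
        4 * (Xc W e R' + Xc W e R - D - E) * (Xc W e R' - Xc W e R) ^ 2) <
        2 * v.v (Xc W e R' - Xc W e R)) :
    R' - R ≠ 0 ∧ Xc W e (R' - R) ≠ 0 ∧ v.v (Xc W e (R' - R)) < 0 := by
  obtain ⟨h1, h2⟩ := Xc_sub h.toSplit hR' hR hne
  have h4 := four_ne h
  have hδ : Xc W e R' - Xc W e R ≠ 0 := sub_ne_zero.2 hne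
  rw [← h2] at hrhs hlt
  have hX0 : Xc W e (R' - R) ≠ 0 := by
    intro h0
    apply hrhs
    rw [h0]; ring
  refine ⟨h1, hX0, ?_⟩
  rw [v.v_mul _ _ (mul_ne_zero h4.1 hX0) (pow_ne_zero 2 hδ), v.v_mul _ _ h4.1 hX0, h4.2,
    v.v_pow hδ] at hlt
  push_cast at hlt
  linarith


/-- `η` is integral when `X` is. -/
theorem eta_ge (h : Setup W e D E v) {R : W.Point} (hR : R ≠ 0) (hX : v.Ge (Xc W e R) 0) :
    v.Ge (Eta W R) 0 := by
  by_cases hη : Eta W R = 0
  · exact Or.inl hη
  right
  have hsq := Eta_sq h.toSplit R hR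
  have h4 := four_ne h
  have hD : v.Ge D 0 := RatVal.ge_of_ne h.vD
  have hE : v.Ge E 0 := RatVal.ge_of_ne h.vE.ge
  have h4' : v.Ge (4 : K) 0 := RatVal.ge_of_ne h4.2.ge
  have hprod : v.Ge (4 * Xc W e R * (Xc W e R - D) * (Xc W e R - E)) 0 := by
    have := ((h4'.mul hX).mul (hX.sub hD)).mul (hX.sub hE)
    simpa using this
  rw [← hsq] at hprod
  have h2 := hprod.le_v (pow_ne_zero 2 hη)
  rw [v.v_pow hη] at h2
  push_cast at h2
  linarith

omit [DecidableEq K] in
/-- If `X` is congruent to a root `r` of the cubic and `(r - s)(r - t)` is a unit, then the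
difference quotient `G(X', X)` is a unit for every `X'` congruent to `X`. -/
theorem G_unit_of_root {X X' r s t : K} (hr : v.Ge r 0) (hs : v.Ge s 0) (ht : v.Ge t 0)
    (hU : (r - s) * (r - t) ≠ 0) (hvU : v.v ((r - s) * (r - t)) = 0)
    (hsum : r + s + t = D + E) (hprod : r * s + r * t + s * t = D * E)
    (hXr : v.Gt (X - r) 0) (hX : v.Ge X 0) (hX' : v.Gt (X' - X) 0) :
    X' ^ 2 + X' * X + X ^ 2 - (D + E) * (X' + X) + D * E ≠ 0 ∧
      v.v (X' ^ 2 + X' * X + X ^ 2 - (D + E) * (X' + X) + D * E) = 0 := by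
  have hX'int : v.Ge X' 0 := by
    have : X' = X + (X' - X) := by ring
    rw [this]; exact hX.add hX'.ge
  have hX'r : v.Gt (X' - r) 0 := by
    have : X' - r = (X' - X) + (X - r) := by ring
    rw [this]; exact hX'.add hXr
  have hid : X' ^ 2 + X' * X + X ^ 2 - (D + E) * (X' + X) + D * E =
      (r - s) * (r - t) + ((X' - r) * (X' + r - s - t) + (X - r) * (X' + X - s - t)) := by
    rw [← hsum, ← hprod]; ring
  rw [hid]
  have hm : v.Gt ((X' - r) * (X' + r - s - t) + (X - r) * (X' + X - s - t)) 0 := by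
    have t1 := hX'r.mul_ge (((hX'int.add hr).sub hs).sub ht)
    have t2 := hXr.mul_ge (((hX'int.add hX).sub hs).sub ht)
    rw [zero_add] at t1 t2
    exact t1.add t2
  have := RatVal.v_add_gt (v := v) hU (by rw [hvU]; exact hm)
  rw [hvU] at this
  exact this

/-- If `η(R)` lies in the maximal ideal and `R` has nonsingular reduction then the difference
quotient `G(X', X)` is a unit for every `X'` congruent to `X`. -/
theorem G_unit (h : Setup W e D E v) {R : W.Point} (hR : R ≠ 0) (hint : v.Ge (Xc W e R) 0)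
    (hns : v.v D = 0 ∨ (Xc W e R ≠ 0 ∧ v.v (Xc W e R) = 0)) (hη : v.Gt (Eta W R) 0)
    {X' : K} (hX' : v.Gt (X' - Xc W e R) 0) :
    X' ^ 2 + X' * Xc W e R + Xc W e R ^ 2 - (D + E) * (X' + Xc W e R) + D * E ≠ 0 ∧
      v.v (X' ^ 2 + X' * Xc W e R + Xc W e R ^ 2 - (D + E) * (X' + Xc W e R) + D * E) = 0 := by
  have hS := h.toSplit
  have h4 := four_ne h
  set X := Xc W e R with hXdef
  have hD : v.Ge D 0 := RatVal.ge_of_ne h.vD
  have hE : v.Ge E 0 := RatVal.ge_of_ne h.vE.ge
  have h0 : v.Ge (0 : K) 0 := RatVal.Ge.zero 0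
  have hsq := Eta_sq hS R hR
  rw [← hXdef] at hsq
  -- the three cases
  have hcases : (v.Gt X 0 ∧ v.v D = 0) ∨ (v.Gt (X - D) 0 ∧ v.v D = 0) ∨ v.Gt (X - E) 0 := by
    by_cases hX0 : X = 0
    · left
      refine ⟨Or.inl hX0, ?_⟩
      rcases hns with h1 | h1
      · exact h1
      · exact absurd hX0 h1.1
    by_cases hXD0 : X - D = 0
    · right; left
      refine ⟨Or.inl hXD0, ?_⟩
      rcases hns with h1 | h1
      · exact h1
      · have : X = D := sub_eq_zero.1 hXD0
        rw [← this]; exact h1.2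
    by_cases hXE0 : X - E = 0
    · right; right; exact Or.inl hXE0
    have hprod0 : 4 * X * (X - D) * (X - E) ≠ 0 :=
      mul_ne_zero (mul_ne_zero (mul_ne_zero h4.1 hX0) hXD0) hXE0
    have hη0 : Eta W R ≠ 0 := by
      intro h'
      rw [h'] at hsq
      apply hprod0
      rw [← hsq]; ring
    have hvη := hη.lt_v hη0
    have hv : v.v (Eta W R ^ 2) = v.v X + v.v (X - D) + v.v (X - E) := by
      rw [hsq, v.v_mul _ _ (mul_ne_zero (mul_ne_zero h4.1 hX0) hXD0) hXE0,
        v.v_mul _ _ (mul_ne_zero h4.1 hX0) hXD0, v.v_mul _ _ h4.1 hX0, h4.2]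
      ring
    rw [v.v_pow hη0] at hv
    push_cast at hv
    have a1 := hint.le_v hX0
    have a2 := (hint.sub hD).le_v hXD0
    have a3 := (hint.sub hE).le_v hXE0
    by_cases b1 : 0 < v.v X
    · left
      refine ⟨Or.inr b1, ?_⟩
      rcases hns with h1 | h1
      · exact h1
      · linarith [h1.2]
    by_cases b2 : 0 < v.v (X - D)
    · right; left
      refine ⟨Or.inr b2, ?_⟩
      rcases hns with h1 | h1
      · exact h1
      · by_contra hD0
        have hDpos : 0 < v.v D := lt_of_le_of_ne h.vD (Ne.symm hD0)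
        have := v.v_sub_of_lt hX0 h.D_ne (by rw [h1.2]; exact hDpos)
        linarith [this.2, h1.2]
    · right; right
      right
      linarith
  rcases hcases with ⟨c1, c2⟩ | ⟨c1, c2⟩ | c1
  · -- root `0`
    refine G_unit_of_root (r := 0) (s := D) (t := E) h0 hD hE ?_ ?_ (by ring) (by ring)
      (by simpa using c1) hint hX'
    · simpa using mul_ne_zero h.D_ne h.E_ne
    · have : (0 - D) * (0 - E) = D * E := by ring
      rw [this, v.v_mul _ _ h.D_ne h.E_ne, c2, h.vE]; ring
  · -- root `D`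
    refine G_unit_of_root (r := D) (s := 0) (t := E) hD h0 hE ?_ ?_ (by ring) (by ring)
      c1 hint hX'
    · simpa using mul_ne_zero h.D_ne h.DE_ne
    · have : (D - 0) * (D - E) = D * (D - E) := by ring
      rw [this, v.v_mul _ _ h.D_ne h.DE_ne, c2, h.vDE]; ring
  · -- root `E`
    have hED : E - D ≠ 0 := by
      intro h'
      apply h.DE_ne
      have : D - E = -(E - D) := by ring
      rw [this, h', neg_zero]
    have hvED : v.v (E - D) = 0 := by
      have : E - D = -(D - E) := by ring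
      rw [this, v.v_neg, h.vDE]
    refine G_unit_of_root (r := E) (s := 0) (t := D) hE h0 hD ?_ ?_ (by ring) (by ring)
      c1 hint hX'
    · simpa using mul_ne_zero h.E_ne hED
    · have : (E - 0) * (E - D) = E * (E - D) := by ring
      rw [this, v.v_mul _ _ h.E_ne hED, h.vE, hvED]; ring

/-- L2. Let `R` have integral shifted x-coordinate `X` and nonsingular reduction (this is
automatic when `v(D) = 0`, and holds when `v(X) = 0`).  If `R'` is congruent to `R`
(`X(R') - X(R)` and `η(R') - η(R)` in the maximal ideal), then `R' = R` or `R' - R` lies in the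
kernel of reduction. -/
theorem sub_mem_ker_of_nonsing (h : Setup W e D E v) {R R' : W.Point} (hR : R ≠ 0)
    (hR' : R' ≠ 0) (hint : v.Ge (Xc W e R) 0)
    (hns : v.v D = 0 ∨ (Xc W e R ≠ 0 ∧ v.v (Xc W e R) = 0))
    (hXc : v.Gt (Xc W e R' - Xc W e R) 0) (hEta : v.Gt (Eta W R' - Eta W R) 0) :
    R' = R ∨ (R' - R ≠ 0 ∧ Xc W e (R' - R) ≠ 0 ∧ v.v (Xc W e (R' - R)) < 0) := by
  have hS := h.toSplit
  have h4 := four_ne h
  set X := Xc W e R with hXdef
  set η := Eta W R with hηdef
  have hD : v.Ge D 0 := RatVal.ge_of_ne h.vD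
  have hE : v.Ge E 0 := RatVal.ge_of_ne h.vE.ge
  have h2int : v.Ge (2 : K) 0 := RatVal.ge_of_ne h.v_two.ge
  have h4int : v.Ge (4 : K) 0 := RatVal.ge_of_ne h4.2.ge
  have hηint : v.Ge η 0 := eta_ge h hR hint
  have hsq := Eta_sq hS R hR
  rw [← hXdef, ← hηdef] at hsq
  by_cases hXX : Xc W e R' = X
  · rcases eq_or_eq_neg_of_Xc_eq (e := e) hR' hR hXX with h1 | h1
    · exact Or.inl h1
    · -- `R' = -R`
      rw [h1, Eta_neg, ← hηdef] at hEta
      have hηm : v.Gt η 0 := by
        by_cases hη0 : η = 0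
        · exact Or.inl hη0
        · right
          have h2 : -η - η = -(2 * η) := by ring
          rw [h2] at hEta
          have h3 := hEta.lt_v (neg_ne_zero.2 (mul_ne_zero h.two_ne hη0))
          rw [v.v_neg, v.v_mul _ _ h.two_ne hη0, h.v_two] at h3
          linarith
      by_cases hη0 : η = 0
      · left
        have : R + R = 0 := (add_self_eq_zero_iff hS R).2 (Or.inr hη0)
        rw [h1]
        exact (eq_neg_of_add_eq_zero_left this).symm
      · right
        have hvη := hηm.lt_v hη0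
        obtain ⟨hG0, hvG⟩ := G_unit h hR hint hns hηm (X' := X)
          (by rw [sub_self]; exact RatVal.Gt.zero 0)
        obtain ⟨hRR, hdup⟩ := Xc_add_self hS hR hη0
        rw [← hXdef, ← hηdef] at hdup
        set G := X ^ 2 + X * X + X ^ 2 - (D + E) * (X + X) + D * E with hGdef
        have hid : (X ^ 2 - D * E) ^ 2 = G ^ 2 - (2 * X - D - E) * η ^ 2 := by
          rw [hsq, hGdef]; ring
        have hG2 : G ^ 2 ≠ 0 := pow_ne_zero 2 hG0
        have hvG2 : v.v (G ^ 2) = 0 := by rw [v.v_pow hG0, hvG]; ring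
        have hm : v.Gt ((2 * X - D - E) * η ^ 2) 0 := by
          have t1 : v.Ge (2 * X - D - E) 0 := by
            have t0 : v.Ge (2 * X) 0 := by simpa using h2int.mul hint
            exact (t0.sub hD).sub hE
          have t2 : v.Gt (η ^ 2) 0 := by
            right; rw [v.v_pow hη0]; push_cast; linarith
          have := t1.mul_gt t2
          rwa [zero_add] at this
        have hunit := RatVal.v_sub_gt (v := v) hG2 (by rw [hvG2]; exact hm)
        rw [← hid, hvG2] at hunit
        rw [← hdup] at hunit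
        have hXc0 : Xc W e (R + R) ≠ 0 := by
          intro h0
          apply hunit.1
          rw [h0]; ring
        have hv := hunit.2
        rw [v.v_mul _ _ hXc0 (pow_ne_zero 2 hη0), v.v_pow hη0] at hv
        push_cast at hv
        have hsub : R' - R = -(R + R) := by rw [h1]; abel
        rw [hsub]
        refine ⟨neg_ne_zero.2 hRR, ?_, ?_⟩
        · rw [Xc_neg]; exact hXc0
        · rw [Xc_neg]; linarith
  · right
    have hδ0 : Xc W e R' - X ≠ 0 := sub_ne_zero.2 hXX
    have hvδ : 0 < v.v (Xc W e R' - X) := hXc.lt_v hδ0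
    have hX'int : v.Ge (Xc W e R') 0 := by
      have : Xc W e R' = X + (Xc W e R' - X) := by ring
      rw [this]
      exact hint.add hXc.ge
    have hcoef : v.Ge (4 * (Xc W e R' + X - D - E)) 0 := by
      have := h4int.mul (((hX'int.add hint).sub hD).sub hE)
      simpa using this
    have hδ2 : v.Ge ((Xc W e R' - X) ^ 2) (2 * v.v (Xc W e R' - X)) := by
      right
      rw [v.v_pow hδ0]; push_cast; linarith
    have hterm : v.Ge (4 * (Xc W e R' + X - D - E) * (Xc W e R' - X) ^ 2)
        (2 * v.v (Xc W e R' - X)) := by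
      have := hcoef.mul hδ2
      rwa [zero_add] at this
    by_cases hηunit : η ≠ 0 ∧ v.v η = 0
    · obtain ⟨hη0, hvη⟩ := hηunit
      have h2η0 : 2 * η ≠ 0 := mul_ne_zero h.two_ne hη0
      have hv2η : v.v (2 * η) = 0 := by
        rw [v.v_mul _ _ h.two_ne hη0, h.v_two, hvη]; ring
      have hsum : Eta W R' + η = 2 * η + (Eta W R' - η) := by ring
      have hηη := RatVal.v_add_gt (v := v) h2η0 (by rw [hv2η]; exact hEta)
      rw [← hsum, hv2η] at hηη
      have hsq0 : (Eta W R' + η) ^ 2 ≠ 0 := pow_ne_zero 2 hηη.1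
      have hvsq : v.v ((Eta W R' + η) ^ 2) = 0 := by
        rw [v.v_pow hηη.1, hηη.2]; ring
      have hrhs := RatVal.v_sub_gt (v := v) hsq0
        (by rw [hvsq]; exact hterm.gt_of_lt (by linarith))
      rw [hvsq] at hrhs
      apply ker_of_sub_formula h hR hR' hXX hrhs.1
      rw [hrhs.2]
      linarith
    · have hηm : v.Gt η 0 := by
        by_cases hη0 : η = 0
        · exact Or.inl hη0
        · right
          have h1 := hηint.le_v hη0
          rcases h1.lt_or_eq with h2 | h2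
          · exact h2
          · exact absurd ⟨hη0, h2.symm⟩ hηunit
      obtain ⟨hG0, hvG⟩ := G_unit h hR hint hns hηm hXc
      rw [← hXdef] at hG0 hvG
      set G := Xc W e R' ^ 2 + Xc W e R' * X + X ^ 2 - (D + E) * (Xc W e R' + X) + D * E
        with hGdef
      have hsq' := Eta_sq hS R' hR'
      have hfac : (Eta W R' + η) * (Eta W R' - η) = 4 * (Xc W e R' - X) * G := by
        have : (Eta W R' + η) * (Eta W R' - η) = Eta W R' ^ 2 - η ^ 2 := by ring
        rw [this, hsq', hsq, hGdef]; ring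
      have hrhs0 : 4 * (Xc W e R' - X) * G ≠ 0 := mul_ne_zero (mul_ne_zero h4.1 hδ0) hG0
      have hvrhs : v.v (4 * (Xc W e R' - X) * G) = v.v (Xc W e R' - X) := by
        rw [v.v_mul _ _ (mul_ne_zero h4.1 hδ0) hG0, v.v_mul _ _ h4.1 hδ0, h4.2, hvG]; ring
      rw [← hfac] at hrhs0 hvrhs
      have hp0 : Eta W R' + η ≠ 0 := fun h0 => hrhs0 (by rw [h0, zero_mul])
      have hm0 : Eta W R' - η ≠ 0 := fun h0 => hrhs0 (by rw [h0, mul_zero])
      rw [v.v_mul _ _ hp0 hm0] at hvrhs
      have hvm := hEta.lt_v hm0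
      have hsq0 : (Eta W R' + η) ^ 2 ≠ 0 := pow_ne_zero 2 hp0
      have hvsq : v.v ((Eta W R' + η) ^ 2) = 2 * v.v (Eta W R' + η) := by
        rw [v.v_pow hp0]; push_cast; ring
      have hrhs := RatVal.v_sub_gt (v := v) hsq0
        (by rw [hvsq]; exact hterm.gt_of_lt (by linarith))
      rw [hvsq] at hrhs
      apply ker_of_sub_formula h hR hR' hXX hrhs.1
      rw [hrhs.2]
      linarith

/-- L4. Let `0 < v(X(R)) < v(D)`.  If `X(R') - X(R)` and `η(R') - η(R)` have valuation
`> v(X(R))` (or vanish), then `R' = R` or `R' - R` lies in the kernel of reduction. -/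
theorem sub_mem_ker_of_mid (h : Setup W e D E v) {R R' : W.Point} (hR : R ≠ 0)
    (hR' : R' ≠ 0) (hX0 : Xc W e R ≠ 0) (hpos : 0 < v.v (Xc W e R))
    (hlt : v.v (Xc W e R) < v.v D)
    (hXc : v.Gt (Xc W e R' - Xc W e R) (v.v (Xc W e R)))
    (hEta : v.Gt (Eta W R' - Eta W R) (v.v (Xc W e R))) :
    R' = R ∨ (R' - R ≠ 0 ∧ Xc W e (R' - R) ≠ 0 ∧ v.v (Xc W e (R' - R)) < 0) := by
  have hS := h.toSplit
  have h4 := four_ne h
  set X := Xc W e R with hXdef
  set η := Eta W R with hηdef
  -- valuation of `η`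
  have hXD := v.v_sub_of_lt hX0 h.D_ne hlt
  have hXE := v.v_sub_of_gt hX0 h.E_ne (by rw [h.vE]; exact hpos)
  have hsq := Eta_sq hS R hR
  rw [← hXdef, ← hηdef] at hsq
  have hη2 : η ^ 2 ≠ 0 := by
    rw [hsq]
    exact mul_ne_zero (mul_ne_zero (mul_ne_zero h4.1 hX0) hXD.1) hXE.1
  have hη0 : η ≠ 0 := fun h0 => hη2 (by rw [h0]; ring)
  have hvη : v.v η = v.v X := by
    have h1 : v.v (η ^ 2) = 2 * v.v X := by
      rw [hsq, v.v_mul _ _ (mul_ne_zero (mul_ne_zero h4.1 hX0) hXD.1) hXE.1,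
        v.v_mul _ _ (mul_ne_zero h4.1 hX0) hXD.1, v.v_mul _ _ h4.1 hX0, h4.2, hXD.2, hXE.2,
        h.vE]
      ring
    rw [v.v_pow hη0] at h1
    push_cast at h1
    linarith
  have h2η0 : 2 * η ≠ 0 := mul_ne_zero h.two_ne hη0
  have hv2η : v.v (2 * η) = v.v X := by
    rw [v.v_mul _ _ h.two_ne hη0, h.v_two, hvη]; ring
  by_cases hXX : Xc W e R' = X
  · left
    rcases eq_or_eq_neg_of_Xc_eq (e := e) hR' hR hXX with h1 | h1
    · exact h1
    · exfalso
      rw [h1, Eta_neg, ← hηdef] at hEta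
      have h2 : -η - η = -(2 * η) := by ring
      rw [h2] at hEta
      have h3 := hEta.lt_v (neg_ne_zero.2 h2η0)
      rw [v.v_neg, hv2η] at h3
      exact lt_irrefl _ h3
  · right
    have hδ0 : Xc W e R' - X ≠ 0 := sub_ne_zero.2 hXX
    have hvδ : v.v X < v.v (Xc W e R' - X) := hXc.lt_v hδ0
    -- `η' + η`
    have hsum : Eta W R' + η = 2 * η + (Eta W R' - η) := by ring
    have hηη := RatVal.v_add_gt (v := v) h2η0 (by rw [hv2η]; exact hEta)
    rw [← hsum, hv2η] at hηη
    have hsq0 : (Eta W R' + η) ^ 2 ≠ 0 := pow_ne_zero 2 hηη.1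
    have hvsq : v.v ((Eta W R' + η) ^ 2) = 2 * v.v X := by
      rw [v.v_pow hηη.1, hηη.2]; push_cast; ring
    -- the second term
    have hXint : v.Ge X 0 := RatVal.ge_of_ne hpos.le
    have hX'int : v.Ge (Xc W e R') 0 := by
      have : Xc W e R' = X + (Xc W e R' - X) := by ring
      rw [this]
      exact hXint.add (RatVal.ge_of_ne (le_trans hpos.le hvδ.le))
    have hDint : v.Ge D 0 := RatVal.ge_of_ne h.vD
    have hEint : v.Ge E 0 := RatVal.ge_of_ne h.vE.ge
    have hcoef : v.Ge (4 * (Xc W e R' + X - D - E)) 0 := by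
      have := (RatVal.ge_of_ne (v := v) (x := (4 : K)) h4.2.ge).mul
        (((hX'int.add hXint).sub hDint).sub hEint)
      simpa using this
    have hδ2 : v.Gt ((Xc W e R' - X) ^ 2) (2 * v.v X) := by
      right
      rw [v.v_pow hδ0]; push_cast; linarith
    have hterm : v.Gt (4 * (Xc W e R' + X - D - E) * (Xc W e R' - X) ^ 2) (2 * v.v X) := by
      have := hcoef.mul_gt hδ2
      rwa [zero_add] at this
    have hrhs := RatVal.v_sub_gt (v := v) hsq0 (by rw [hvsq]; exact hterm)
    rw [hvsq] at hrhs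
    apply ker_of_sub_formula h hR hR' hXX hrhs.1
    rw [hrhs.2]
    linarith

end Fermat.Agent.S05_Cong
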