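-- Helper for S05 (lemma L1): the kernel of reduction {v(X) < 0} has no m-torsion when v(m) = 0.
import Mathlib
import Fermat.Agent.S05_Basic

set_option autoImplicit false

namespace Fermat.Agent.S05_Ker

open WeierstrassCurve WeierstrassCurve.Affine
open Fermat.Agent.S05_RatVal Fermat.Agent.S05_Basic

variable {K : Type*} [Field K] [DecidableEq K] {W : Affine K} {e D E : K} {v : RatVal K}

omit [DecidableEq K] in
theorem four_ne (h : Setup W e D E v) : (4 : K) ≠ 0 ∧ v.v (4 : K) = 0 := by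
  have h2 := h.two_ne
  refine ⟨?_, ?_⟩
  · have : (4 : K) = 2 * 2 := by norm_num
    rw [this]; exact mul_ne_zero h2 h2
  · have : (4 : K) = 2 * 2 := by norm_num
    rw [this, v.v_mul 2 2 h2 h2, h.v_two]; norm_num

/-- Doubling a point of the kernel of reduction. -/
theorem dbl (h : Setup W e D E v) {R : W.Point} (hR : R ≠ 0)
    (hX : Xc W e R ≠ 0) (hv : v.v (Xc W e R) < 0) :
    R + R ≠ 0 ∧ Xc W e (R + R) ≠ 0 ∧ v.v (Xc W e (R + R)) = v.v (Xc W e R) ∧
      v.Gt (Xc W e R / Xc W e (R + R) - 4) 0 := by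
  have hS := h.toSplit
  have h4 := four_ne h
  set X := Xc W e R with hXdef
  have hD : v.Ge D 0 := RatVal.ge_of_ne h.vD
  have hE : v.Ge E 0 := RatVal.ge_of_ne h.vE.ge
  have h2int : v.Ge (2 : K) 0 := RatVal.ge_of_ne h.v_two.ge
  have hXge : v.Ge X (v.v X) := RatVal.ge_of_ne (le_refl _)
  have hXD := v.v_sub_of_lt hX h.D_ne (lt_of_lt_of_le hv h.vD)
  have hXE := v.v_sub_of_lt hX h.E_ne (by rw [h.vE]; exact hv)
  have hsq := Eta_sq hS R hR
  rw [← hXdef] at hsq
  have hη2 : Eta W R ^ 2 ≠ 0 := by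
    rw [hsq]
    exact mul_ne_zero (mul_ne_zero (mul_ne_zero h4.1 hX) hXD.1) hXE.1
  have hη0 : Eta W R ≠ 0 := fun h0 => hη2 (by rw [h0]; ring)
  have hvη2 : v.v (Eta W R ^ 2) = 3 * v.v X := by
    rw [hsq, v.v_mul _ _ (mul_ne_zero (mul_ne_zero h4.1 hX) hXD.1) hXE.1,
      v.v_mul _ _ (mul_ne_zero h4.1 hX) hXD.1, v.v_mul _ _ h4.1 hX, h4.2, hXD.2, hXE.2]
    ring
  obtain ⟨hRR, hdup⟩ := Xc_add_self hS hR hη0
  rw [← hXdef] at hdup
  have hDE0 : D * E ≠ 0 := mul_ne_zero h.D_ne h.E_ne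
  have hvDE : 0 ≤ v.v (D * E) := by
    rw [v.v_mul _ _ h.D_ne h.E_ne, h.vE]; linarith [h.vD]
  have hX2 : X ^ 2 ≠ 0 := pow_ne_zero 2 hX
  have hvX2 : v.v (X ^ 2) = 2 * v.v X := by rw [v.v_pow hX]; push_cast; ring
  have hq := v.v_sub_of_lt hX2 hDE0 (by rw [hvX2]; linarith)
  rw [hvX2] at hq
  have hq2 : (X ^ 2 - D * E) ^ 2 ≠ 0 := pow_ne_zero 2 hq.1
  have hvq2 : v.v ((X ^ 2 - D * E) ^ 2) = 4 * v.v X := by
    rw [v.v_pow hq.1, hq.2]; push_cast; ring
  have hXc0 : Xc W e (R + R) ≠ 0 := by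
    intro h0
    apply hq2
    rw [← hdup, h0]; ring
  have hvXc : v.v (Xc W e (R + R)) = v.v X := by
    have := hvq2
    rw [← hdup, v.v_mul _ _ hXc0 hη2, hvη2] at this
    linarith
  refine ⟨hRR, hXc0, hvXc, ?_⟩
  -- the congruence
  set N := -((D + E) * X ^ 3) + (D * E * X ^ 2 + 2 * (D * E * X ^ 2)) - (D * E) ^ 2 with hN
  have hkey : (X / Xc W e (R + R) - 4) * (X ^ 2 - D * E) ^ 2 = 4 * N := by
    have h1 : X / Xc W e (R + R) * (X ^ 2 - D * E) ^ 2 = X * Eta W R ^ 2 := by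
      rw [← hdup]; field_simp
    have : (X / Xc W e (R + R) - 4) * (X ^ 2 - D * E) ^ 2 =
        X / Xc W e (R + R) * (X ^ 2 - D * E) ^ 2 - 4 * (X ^ 2 - D * E) ^ 2 := by ring
    rw [this, h1, hsq, hN]; ring
  have hNge : v.Ge N (3 * v.v X) := by
    have t1 : v.Ge ((D + E) * X ^ 3) (3 * v.v X) := by
      have := (hD.add hE).mul (hXge.pow 3)
      simpa using this
    have t2 : v.Ge (D * E * X ^ 2) (3 * v.v X) := by
      have := ((hD.mul hE).mul (hXge.pow 2))
      exact this.mono (by push_cast; linarith)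
    have t3 : v.Ge (2 * (D * E * X ^ 2)) (3 * v.v X) := by
      have := h2int.mul t2
      rwa [zero_add] at this
    have t4 : v.Ge ((D * E) ^ 2) (3 * v.v X) := by
      have := (hD.mul hE).pow 2
      exact this.mono (by push_cast; linarith)
    exact ((t1.neg).add (t2.add t3)).sub t4
  by_cases hN0 : N = 0
  · left
    rw [hN0, mul_zero] at hkey
    rcases mul_eq_zero.1 hkey with h' | h'
    · exact h'
    · exact absurd h' hq2
  · right
    have hδ0 : X / Xc W e (R + R) - 4 ≠ 0 := by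
      intro h0
      rw [h0, zero_mul] at hkey
      exact (mul_ne_zero h4.1 hN0) hkey.symm
    have hv1 := congrArg v.v hkey
    rw [v.v_mul _ _ hδ0 hq2, hvq2, v.v_mul _ _ h4.1 hN0, h4.2] at hv1
    have := hNge.le_v hN0
    linarith

/-- The invariant: `T` is zero or lies at least as deep in the kernel of reduction as `R`. -/
def Inv (v : RatVal K) (W : Affine K) (e : K) (X : K) (T : W.Point) : Prop :=
  T = 0 ∨ (Xc W e T ≠ 0 ∧ v.v (Xc W e T) ≤ v.v X)

omit [DecidableEq K] in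
theorem ratio_ge {X : K} (hX : X ≠ 0) {T : W.Point} (hT : Inv v W e X T) :
    v.Ge (X / Xc W e T) 0 := by
  rcases hT with hT | ⟨h1, h2⟩
  · left; rw [hT]; simp
  · right
    rw [v.v_div hX h1]; linarith

theorem step (h : Setup W e D E v) {R : W.Point} (hR : R ≠ 0)
    (hX : Xc W e R ≠ 0) (hv : v.v (Xc W e R) < 0) {S : W.Point}
    (hS : Inv v W e (Xc W e R) S) (hSR : Inv v W e (Xc W e R) (S - R)) :
    Inv v W e (Xc W e R) (S + R) ∧
      v.Gt (Xc W e R / Xc W e (S + R) + Xc W e R / Xc W e (S - R)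
        - 2 * (Xc W e R / Xc W e S + 1)) 0 := by
  have hSp := h.toSplit
  have h4 := four_ne h
  obtain ⟨hRR, hRRX, hRRv, hRRδ⟩ := dbl h hR hX hv
  set X := Xc W e R with hXdef
  have hD : v.Ge D 0 := RatVal.ge_of_ne h.vD
  have hE : v.Ge E 0 := RatVal.ge_of_ne h.vE.ge
  have h2int : v.Ge (2 : K) 0 := RatVal.ge_of_ne h.v_two.ge
  have hXge : v.Ge X (v.v X) := RatVal.ge_of_ne (le_refl _)
  have hInvR : Inv v W e X R := Or.inr ⟨hX, le_refl _⟩
  rcases hS with hS0 | ⟨hY0, hvY⟩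
  · -- `S = 0`
    subst hS0
    refine ⟨by rw [zero_add]; exact hInvR, ?_⟩
    left
    rw [zero_add, zero_sub, Xc_neg, ← hXdef, div_self hX]
    simp only [Xc_zero, div_zero]
    ring
  set Y := Xc W e S with hYdef
  have hS0 : S ≠ 0 := by
    intro h0
    apply hY0
    rw [hYdef, h0]; rfl
  by_cases hYX : Y = X
  · -- `S = R` or `S = -R`
    have hYX' : Xc W e S = Xc W e R := hYX
    rw [hYX, div_self hX]
    rcases eq_or_eq_neg_of_Xc_eq (e := e) hS0 hR hYX' with h1 | h1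
    · subst h1
      refine ⟨Or.inr ⟨hRRX, hRRv.le⟩, ?_⟩
      rw [sub_self]
      simp only [Xc_zero, div_zero, add_zero]
      have : X / Xc W e (S + S) - 2 * (1 + 1) = X / Xc W e (S + S) - 4 := by ring
      rw [this]; exact hRRδ
    · subst h1
      refine ⟨Or.inl (by rw [neg_add_cancel]), ?_⟩
      have e1 : -R + R = 0 := neg_add_cancel R
      have e2 : -R - R = -(R + R) := by abel
      rw [e1, e2, Xc_neg]
      simp only [Xc_zero, div_zero, zero_add]
      have : X / Xc W e (R + R) - 2 * (1 + 1) = X / Xc W e (R + R) - 4 := by ring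
      rw [this]; exact hRRδ
  · -- generic case
    have hYX' : Xc W e S ≠ Xc W e R := hYX
    obtain ⟨hA0', -⟩ := Xc_add hSp hS0 hR hYX'
    obtain ⟨hB0', -⟩ := Xc_sub hSp hS0 hR hYX'
    have hPi := Xc_add_mul_Xc_sub hSp hS0 hR hYX'
    have hSig := Xc_add_add_Xc_sub hSp hS0 hR hYX'
    rw [← hXdef, ← hYdef] at hPi hSig
    set A := Xc W e (S + R) with hAdef
    set B := Xc W e (S - R) with hBdef
    have hYge : v.Ge Y (v.v Y) := RatVal.ge_of_ne (le_refl _)
    have hDE0 : D * E ≠ 0 := mul_ne_zero h.D_ne h.E_ne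
    have hvDE : 0 ≤ v.v (D * E) := by
      rw [v.v_mul _ _ h.D_ne h.E_ne, h.vE]; linarith [h.vD]
    have hYX0 : Y * X ≠ 0 := mul_ne_zero hY0 hX
    have hvYX : v.v (Y * X) = v.v Y + v.v X := v.v_mul _ _ hY0 hX
    have hq := v.v_sub_of_lt hYX0 hDE0 (by rw [hvYX]; linarith)
    rw [hvYX] at hq
    have hq2 : (Y * X - D * E) ^ 2 ≠ 0 := pow_ne_zero 2 hq.1
    have hvq2 : v.v ((Y * X - D * E) ^ 2) = 2 * (v.v Y + v.v X) := by
      rw [v.v_pow hq.1, hq.2]; push_cast; ring
    have hA0 : A ≠ 0 := by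
      intro h0
      apply hq2
      rw [← hPi, h0]; ring
    have hB0 : B ≠ 0 := by
      intro h0
      apply hq2
      rw [← hPi, h0]; ring
    have hBge : v.Ge (X / B) 0 := ratio_ge hX hSR
    have hρge : v.Ge (X / Y) 0 := by
      right; rw [v.v_div hX hY0]; linarith
    -- the identity
    set N := 2 * (X + Y) * (X * Y * (D * E) + 2 * (X * Y * (D * E)) - (D * E) ^ 2)
      - 4 * (D + E) * (X * Y) ^ 2 with hN
    have e1 : (X / A + X / B) * (A * B) = X * (A + B) := by field_simp; ring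
    have e2 : (X / A + X / B) * (Y * X - D * E) ^ 2 =
        X * (2 * (Y + X) * (Y * X + D * E) - 4 * (D + E) * (Y * X)) := by
      rw [← hPi, ← hSig]; linear_combination (Y - X) ^ 2 * e1
    have e3 : X / Y * Y = X := div_mul_cancel₀ X hY0
    have hkey : (X / A + X / B - 2 * (X / Y + 1)) * (Y * (Y * X - D * E) ^ 2) = N := by
      rw [hN]
      linear_combination Y * e2 - 2 * (Y * X - D * E) ^ 2 * e3
    have hden0 : Y * (Y * X - D * E) ^ 2 ≠ 0 := mul_ne_zero hY0 hq2
    have hvden : v.v (Y * (Y * X - D * E) ^ 2) = 3 * v.v Y + 2 * v.v X := by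
      rw [v.v_mul _ _ hY0 hq2, hvq2]; ring
    have hNge : v.Ge N (2 * v.v X + 2 * v.v Y) := by
      have hXY : v.Ge (X + Y) (v.v Y) := (hXge.mono hvY).add hYge
      have hXYDE : v.Ge (X * Y * (D * E)) (v.v X + v.v Y) := by
        have := (hXge.mul hYge).mul (hD.mul hE)
        exact this.mono (by linarith)
      have hXYDE2 : v.Ge (2 * (X * Y * (D * E))) (v.v X + v.v Y) := by
        have := h2int.mul hXYDE
        rwa [zero_add] at this
      have hDE2 : v.Ge ((D * E) ^ 2) (v.v X + v.v Y) := by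
        have := (hD.mul hE).pow 2
        exact this.mono (by push_cast; linarith)
      have hinner := (hXYDE.add hXYDE2).sub hDE2
      have t1 : v.Ge (2 * (X + Y) * (X * Y * (D * E) + 2 * (X * Y * (D * E)) - (D * E) ^ 2))
          (2 * v.v X + 2 * v.v Y) := by
        have := (h2int.mul hXY).mul hinner
        exact this.mono (by linarith)
      have t2 : v.Ge (4 * (D + E) * (X * Y) ^ 2) (2 * v.v X + 2 * v.v Y) := by
        have := ((RatVal.ge_of_ne (v := v) (x := (4 : K)) h4.2.ge).mul (hD.add hE)).mul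
          ((hXge.mul hYge).pow 2)
        exact this.mono (by push_cast; linarith)
      exact t1.sub t2
    have hδ : v.Gt (X / A + X / B - 2 * (X / Y + 1)) 0 := by
      by_cases hN0 : N = 0
      · left
        rw [hN0] at hkey
        rcases mul_eq_zero.1 hkey with h' | h'
        · exact h'
        · exact absurd h' hden0
      · right
        have hδ0 : X / A + X / B - 2 * (X / Y + 1) ≠ 0 := by
          intro h0
          rw [h0, zero_mul] at hkey
          exact hN0 hkey.symm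
        have hv1 := congrArg v.v hkey
        rw [v.v_mul _ _ hδ0 hden0, hvden] at hv1
        have := hNge.le_v hN0
        linarith
    refine ⟨Or.inr ⟨hA0, ?_⟩, hδ⟩
    -- `X / A` is integral
    have hXA : v.Ge (X / A) 0 := by
      have hrw : X / A = (X / A + X / B - 2 * (X / Y + 1)) + 2 * (X / Y + 1) - X / B := by ring
      rw [hrw]
      have t : v.Ge (2 * (X / Y + 1)) 0 := by
        have := h2int.mul (hρge.add (RatVal.ge_of_ne (v := v) (x := (1 : K)) v.v_one.ge))
        rwa [zero_add] at this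
      exact (hδ.ge.add t).sub hBge
    have := hXA.le_v (div_ne_zero hX hA0)
    rw [v.v_div hX hA0] at this
    linarith

/-- L1. A nonzero point `R` with `v(X(R)) < 0` is not killed by any `m` with `v(m) = 0`. -/
theorem nsmul_ne_zero_of_ker (h : Setup W e D E v) {R : W.Point} (hR : R ≠ 0)
    (hX : Xc W e R ≠ 0) (hv : v.v (Xc W e R) < 0) {m : ℕ} (hm : (m : K) ≠ 0)
    (hvm : v.v (m : K) = 0) : m • R ≠ 0 := by
  have h2int : v.Ge (2 : K) 0 := RatVal.ge_of_ne h.v_two.ge
  have hmain : ∀ n : ℕ,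
      (Inv v W e (Xc W e R) (n • R) ∧
        v.Gt (Xc W e R / Xc W e (n • R) - (n : K) ^ 2) 0) ∧
      (Inv v W e (Xc W e R) ((n + 1) • R) ∧
        v.Gt (Xc W e R / Xc W e ((n + 1) • R) - ((n + 1 : ℕ) : K) ^ 2) 0) := by
    intro n
    induction n with
    | zero =>
      refine ⟨⟨Or.inl (zero_smul _ _), ?_⟩, ⟨?_, ?_⟩⟩
      · left; simp
      · rw [zero_add, one_smul]; exact Or.inr ⟨hX, le_refl _⟩
      · left; rw [zero_add, one_smul, div_self hX]; simp
    | succ n ih =>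
      obtain ⟨⟨i0, c0⟩, ⟨i1, c1⟩⟩ := ih
      refine ⟨⟨i1, c1⟩, ?_⟩
      have hsub : (n + 1) • R - R = n • R := by rw [succ_nsmul]; abel
      have hadd : (n + 1) • R + R = (n + 1 + 1) • R := (succ_nsmul R (n + 1)).symm
      have hst := step h hR hX hv i1 (by rw [hsub]; exact i0)
      rw [hsub, hadd] at hst
      refine ⟨hst.1, ?_⟩
      have hrw : Xc W e R / Xc W e ((n + 1 + 1) • R) - ((n + 1 + 1 : ℕ) : K) ^ 2 =
          (Xc W e R / Xc W e ((n + 1 + 1) • R) + Xc W e R / Xc W e (n • R)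
            - 2 * (Xc W e R / Xc W e ((n + 1) • R) + 1))
          + 2 * (Xc W e R / Xc W e ((n + 1) • R) - ((n + 1 : ℕ) : K) ^ 2)
          - (Xc W e R / Xc W e (n • R) - (n : K) ^ 2) := by
        push_cast; ring
      rw [hrw]
      have t : v.Gt (2 * (Xc W e R / Xc W e ((n + 1) • R) - ((n + 1 : ℕ) : K) ^ 2)) 0 := by
        have := h2int.mul_gt c1
        rwa [zero_add] at this
      exact (hst.2.add t).sub c0
  intro hmR
  have hc := (hmain m).1.2
  rw [hmR] at hc
  simp only [Xc_zero, div_zero, zero_sub] at hc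
  have hm2 : (m : K) ^ 2 ≠ 0 := pow_ne_zero 2 hm
  have := hc.lt_v (neg_ne_zero.2 hm2)
  rw [v.v_neg, v.v_pow hm, hvm] at this
  simp at this

end Fermat.Agent.S05_Ker
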