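-- Helper for S05 (lemma L3): multiples of a point reducing to the node.
import Mathlib
import Fermat.Agent.S05_Basic

set_option autoImplicit false

namespace Fermat.Agent.S05_Tent

open WeierstrassCurve WeierstrassCurve.Affine
open Fermat.Agent.S05_RatVal Fermat.Agent.S05_Basic

section val

variable {K : Type*} [Field K] {v : RatVal K}

/-- `x` is nonzero with valuation exactly `r`. -/
def Ex (v : RatVal K) (x : K) (r : ℚ) : Prop := x ≠ 0 ∧ v.v x = r

theorem Ex.mul {x y : K} {r s : ℚ} (hx : Ex v x r) (hy : Ex v y s) : Ex v (x * y) (r + s) :=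
  ⟨mul_ne_zero hx.1 hy.1, by rw [v.v_mul _ _ hx.1 hy.1, hx.2, hy.2]⟩

theorem Ex.neg {x : K} {r : ℚ} (hx : Ex v x r) : Ex v (-x) r :=
  ⟨neg_ne_zero.2 hx.1, by rw [v.v_neg, hx.2]⟩

theorem Ex.pow {x : K} {r : ℚ} (hx : Ex v x r) (n : ℕ) : Ex v (x ^ n) (n * r) :=
  ⟨pow_ne_zero n hx.1, by rw [v.v_pow hx.1, hx.2]⟩

theorem Ex.ge {x : K} {r : ℚ} (hx : Ex v x r) : v.Ge x r := Or.inr hx.2.ge

theorem Ex.gt {x : K} {r s : ℚ} (hx : Ex v x r) (h : s < r) : v.Gt x s :=
  Or.inr (h.trans_eq hx.2.symm)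

theorem Ex.add_gt {x y : K} {r : ℚ} (hx : Ex v x r) (hy : v.Gt y r) : Ex v (x + y) r := by
  have h := RatVal.v_add_gt hx.1 (hx.2.symm ▸ hy)
  exact ⟨h.1, h.2.trans hx.2⟩

theorem Ex.gt_add {x y : K} {r : ℚ} (hx : Ex v x r) (hy : v.Gt y r) : Ex v (y + x) r := by
  rw [add_comm]; exact hx.add_gt hy

theorem Ex.sub_gt {x y : K} {r : ℚ} (hx : Ex v x r) (hy : v.Gt y r) : Ex v (x - y) r := by
  rw [sub_eq_add_neg]; exact hx.add_gt hy.neg

theorem Ex.gt_sub {x y : K} {r : ℚ} (hx : Ex v x r) (hy : v.Gt y r) : Ex v (y - x) r := by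
  have h := (hx.sub_gt hy).neg
  rwa [neg_sub] at h

theorem Ex.of_mul_left {x y : K} {r s : ℚ} (hxy : Ex v (x * y) r) (hy : Ex v y s) :
    Ex v x (r - s) := by
  have hx : x ≠ 0 := left_ne_zero_of_mul hxy.1
  refine ⟨hx, ?_⟩
  have h := hxy.2
  rw [v.v_mul _ _ hx hy.1, hy.2] at h
  linarith

/-- Two elements with controlled sum and product: the case of equal valuations. -/
theorem eq_roots {S Df Δ P Q : K} {p d : ℚ} (hΔ : Ex v Δ d) (hP : Ex v P p)
    (F1 : S * Df * Δ ^ 2 = P ^ 2) (F2 : (S + Df) * Δ ^ 2 = Q)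
    (hQ : v.Ge Q (p + d)) : Ex v S (p - d) ∧ Ex v Df (p - d) := by
  have hP2 : Ex v (P ^ 2) (2 * p) := by simpa using hP.pow 2
  have hΔ2 : Ex v (Δ ^ 2) (2 * d) := by simpa using hΔ.pow 2
  rw [← F1] at hP2
  have hSD : Ex v (S * Df) (2 * p - 2 * d) := hP2.of_mul_left hΔ2
  have hS : S ≠ 0 := left_ne_zero_of_mul hSD.1
  have hDf : Df ≠ 0 := right_ne_zero_of_mul hSD.1
  have hprod : v.v S + v.v Df = 2 * p - 2 * d := by
    rw [← v.v_mul _ _ hS hDf]; exact hSD.2
  by_cases hsum : S + Df = 0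
  · have h1 : S = -Df := eq_neg_of_add_eq_zero_left hsum
    have hv : v.v S = v.v Df := by rw [h1, v.v_neg]
    exact ⟨⟨hS, by linarith⟩, ⟨hDf, by linarith⟩⟩
  · have hQ0 : Q ≠ 0 := by rw [← F2]; exact mul_ne_zero hsum hΔ2.1
    have hvQ := hQ.le_v hQ0
    have hvsum : p - d ≤ v.v (S + Df) := by
      rw [← F2, v.v_mul _ _ hsum hΔ2.1, hΔ2.2] at hvQ
      linarith
    have key : v.v S = p - d := by
      rcases lt_trichotomy (v.v S) (p - d) with hlt | heq | hgt
      · have h2 : v.v S < v.v Df := by linarith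
        have := (v.v_add_of_lt hS hDf h2).2
        linarith
      · exact heq
      · have h2 : v.v Df < v.v S := by linarith
        have := (v.v_add_of_gt hS hDf h2).2
        linarith
    exact ⟨⟨hS, key⟩, ⟨hDf, by linarith⟩⟩

/-- Two elements with controlled sum and product: the case of distinct valuations. -/
theorem ne_roots {S Df Δ P Q : K} {π q d : ℚ} (hΔ : Ex v Δ d) (hQ : Ex v Q q)
    (F1 : S * Df * Δ ^ 2 = P ^ 2) (F2 : (S + Df) * Δ ^ 2 = Q)
    (hP : v.Ge P π) (hlt : q - d < π) :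
    (Ex v S (q - 2 * d) ∧ v.Ge Df (2 * π - q) ∧ (∀ p, Ex v P p → Ex v Df (2 * p - q))) ∨
    (Ex v Df (q - 2 * d) ∧ v.Ge S (2 * π - q) ∧ (∀ p, Ex v P p → Ex v S (2 * p - q))) := by
  have hΔ2 : Ex v (Δ ^ 2) (2 * d) := by simpa using hΔ.pow 2
  rw [← F2] at hQ
  have hsum : Ex v (S + Df) (q - 2 * d) := hQ.of_mul_left hΔ2
  by_cases hP0 : P = 0
  · have hSD : S * Df = 0 := by
      have : S * Df * Δ ^ 2 = 0 := by rw [F1, hP0]; ring
      exact (mul_eq_zero.1 this).resolve_right hΔ2.1
    rcases mul_eq_zero.1 hSD with h0 | h0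
    · right
      rw [h0, zero_add] at hsum
      exact ⟨hsum, Or.inl h0, fun p hp => absurd hP0 hp.1⟩
    · left
      rw [h0, add_zero] at hsum
      exact ⟨hsum, Or.inl h0, fun p hp => absurd hP0 hp.1⟩
  · have hPex : Ex v P (v.v P) := ⟨hP0, rfl⟩
    have hvP := hP.le_v hP0
    have hP2 : Ex v (P ^ 2) (2 * v.v P) := by simpa using hPex.pow 2
    rw [← F1] at hP2
    have hSD : Ex v (S * Df) (2 * v.v P - 2 * d) := hP2.of_mul_left hΔ2
    have hS : S ≠ 0 := left_ne_zero_of_mul hSD.1
    have hDf : Df ≠ 0 := right_ne_zero_of_mul hSD.1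
    have hprod : v.v S + v.v Df = 2 * v.v P - 2 * d := by
      rw [← v.v_mul _ _ hS hDf]; exact hSD.2
    rcases lt_trichotomy (v.v S) (v.v Df) with h1 | h1 | h1
    · left
      have h2 := (v.v_add_of_lt hS hDf h1).2
      rw [hsum.2] at h2
      have h3 : v.v Df = 2 * v.v P - q := by linarith
      refine ⟨⟨hS, h2.symm⟩, Or.inr (by linarith), fun p hp => ⟨hDf, ?_⟩⟩
      rw [h3, hp.2]
    · exfalso
      have h2 := v.v_add S Df hS hDf hsum.1
      rw [h1, min_self, hsum.2] at h2
      linarith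
    · right
      have h2 := (v.v_add_of_gt hS hDf h1).2
      rw [hsum.2] at h2
      have h3 : v.v S = 2 * v.v P - q := by linarith
      refine ⟨⟨hDf, h2.symm⟩, Or.inr (by linarith), fun p hp => ⟨hS, ?_⟩⟩
      rw [h3, hp.2]

open Classical in
/-- The valuation clipped to `[0, N]` (with value `N` at zero). -/
noncomputable def clip (v : RatVal K) (N : ℚ) (x : K) : ℚ :=
  if x = 0 then N else max 0 (min N (v.v x))

theorem clip_zero (N : ℚ) : clip v N 0 = N := if_pos rfl

theorem clip_of_ne {N : ℚ} {x : K} (hx : x ≠ 0) : clip v N x = max 0 (min N (v.v x)) :=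
  if_neg hx

theorem Ex.clip_nonpos {N : ℚ} {x : K} {r : ℚ} (hx : Ex v x r) (h : r ≤ 0) :
    clip v N x = 0 := by
  rw [clip_of_ne hx.1, hx.2]
  exact max_eq_left (le_trans (min_le_right _ _) h)

theorem Ex.clip_mid {N : ℚ} {x : K} {r : ℚ} (hx : Ex v x r) (h0 : 0 ≤ r) (h1 : r ≤ N) :
    clip v N x = r := by
  rw [clip_of_ne hx.1, hx.2, min_eq_right h1, max_eq_right h0]

theorem clip_of_ge {N : ℚ} (hN : 0 ≤ N) {x : K} (h : v.Ge x N) : clip v N x = N := by
  by_cases hx : x = 0
  · rw [hx, clip_zero]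
  · rw [clip_of_ne hx, min_eq_left (h.le_v hx), max_eq_right hN]

/-- The tent law for the two roots `S`, `Df` of the quadratic given by the sum and product
formulas. -/
theorem key {A B S Df D E : K} {a N : ℚ} (hB : Ex v B a) (hD : Ex v D N) (hE : Ex v E 0)
    (h2 : Ex v (2 : K) 0) (ha : 0 < a) (haN : a < N) (hAB : A ≠ B)
    (F1 : S * Df * (A - B) ^ 2 = (A * B - D * E) ^ 2)
    (F2 : (S + Df) * (A - B) ^ 2 = 2 * (A + B) * (A * B + D * E) - 4 * (D + E) * (A * B)) :
    (clip v N S = min (clip v N A + a) (2 * N - clip v N A - a) ∧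
        clip v N Df = |clip v N A - a|) ∨
    (clip v N S = |clip v N A - a| ∧
        clip v N Df = min (clip v N A + a) (2 * N - clip v N A - a)) := by
  have hN0 : 0 ≤ N := by linarith
  have h4 : Ex v (4 : K) 0 := by
    have h := h2.mul h2
    have e4 : (2 : K) * 2 = 4 := by norm_num
    rwa [e4, add_zero] at h
  have hDE : Ex v (D * E) N := by
    have h := hD.mul hE
    rwa [add_zero] at h
  have hDpE : Ex v (D + E) 0 := hE.gt_add (hD.gt (by linarith))
  by_cases hA0 : A = 0
  · subst hA0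
    have F1' : S * Df * B ^ 2 = (D * E) ^ 2 := by linear_combination F1
    have F2' : (S + Df) * B ^ 2 = 2 * B * (D * E) := by linear_combination F2
    obtain ⟨hS, hDf⟩ := eq_roots hB hDE F1' F2' (((h2.mul hB).mul hDE).ge.mono (by linarith))
    rw [hS.clip_mid (by linarith) (by linarith), hDf.clip_mid (by linarith) (by linarith),
      clip_zero]
    left
    constructor
    · rw [min_eq_right (by linarith)]; ring
    · rw [abs_of_pos (by linarith)]
  have hA : Ex v A (v.v A) := ⟨hA0, rfl⟩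
  have hΔ0 : A - B ≠ 0 := sub_ne_zero.2 hAB
  have hγ : min (v.v A) a ≤ v.v (A - B) := by
    have h := v.v_sub_ge hA0 hB.1 hΔ0
    rwa [hB.2] at h
  generalize v.v A = α at hA hγ
  have hAB' : Ex v (A * B) (α + a) := hA.mul hB
  rcases le_or_gt α 0 with hα0 | hα0
  · -- `A` has nonpositive valuation
    have hΔ : Ex v (A - B) α := hA.sub_gt (hB.gt (by linarith))
    have hP : Ex v (A * B - D * E) (α + a) := hAB'.sub_gt (hDE.gt (by linarith))
    have hQ : v.Ge (2 * (A + B) * (A * B + D * E) - 4 * (D + E) * (A * B)) (α + a + α) := by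
      have t1 : v.Ge (2 * (A + B) * (A * B + D * E)) (0 + α + (α + a)) :=
        (h2.ge.mul (hA.ge.add (hB.ge.mono (by linarith)))).mul
          (hAB'.ge.add (hDE.ge.mono (by linarith)))
      have t2 : v.Ge (4 * (D + E) * (A * B)) (0 + 0 + (α + a)) :=
        (h4.ge.mul hDpE.ge).mul hAB'.ge
      exact (t1.mono (by linarith)).sub (t2.mono (by linarith))
    obtain ⟨hS, hDf⟩ := eq_roots hΔ hP F1 F2 hQ
    rw [hS.clip_mid (by linarith) (by linarith), hDf.clip_mid (by linarith) (by linarith),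
      hA.clip_nonpos hα0]
    left
    constructor
    · rw [zero_add, min_eq_left (by linarith)]; ring
    · rw [zero_sub, abs_neg, abs_of_pos ha]; ring
  rcases lt_or_ge α N with hαN | hαN
  · -- the generic case `0 < α < N`
    have hγ' : α ≠ a → v.v (A - B) = min α a := by
      intro hne
      rcases lt_or_gt_of_ne hne with h | h
      · rw [min_eq_left h.le]; exact (hA.sub_gt (hB.gt h)).2
      · rw [min_eq_right h.le]; exact (hB.gt_sub (hA.gt h)).2
    have hΔ : Ex v (A - B) (v.v (A - B)) := ⟨hΔ0, rfl⟩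
    generalize v.v (A - B) = γ at hΔ hγ hγ'
    have hU : Ex v (4 * (D + E) * (A * B)) (α + a) := by
      have h := (h4.mul hDpE).mul hAB'
      rwa [zero_add, zero_add] at h
    have hV : v.Gt (2 * (A + B) * (A * B + D * E)) (α + a) := by
      have t1 : v.Ge (2 * (A + B) * (A * B + D * E)) (0 + min α a + min (α + a) N) :=
        (h2.ge.mul ((hA.ge.mono (min_le_left _ _)).add (hB.ge.mono (min_le_right _ _)))).mul
          ((hAB'.ge.mono (min_le_left _ _)).add (hDE.ge.mono (min_le_right _ _)))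
      apply t1.gt_of_lt
      rcases le_total α a with h | h <;> rcases le_total (α + a) N with h' | h' <;>
        simp only [min_eq_left, min_eq_right, h, h'] <;> linarith
    have hQ : Ex v (2 * (A + B) * (A * B + D * E) - 4 * (D + E) * (A * B)) (α + a) :=
      hU.gt_sub hV
    have hPge : v.Ge (A * B - D * E) (min (α + a) N) :=
      (hAB'.ge.mono (min_le_left _ _)).sub (hDE.ge.mono (min_le_right _ _))
    have hlt' : α + a - γ < min (α + a) N := by
      rcases le_total α a with h | h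
      · rw [min_eq_left h] at hγ; apply lt_min <;> linarith
      · rw [min_eq_right h] at hγ; apply lt_min <;> linarith
    have c1 : ∀ x : K, Ex v x (α + a - 2 * γ) → clip v N x = |α - a| := by
      intro x hx
      by_cases hne : α = a
      · rw [hne, sub_self, abs_zero]
        apply hx.clip_nonpos
        rw [hne, min_self] at hγ; linarith
      · have hg := hγ' hne
        rcases lt_or_gt_of_ne hne with h | h
        · rw [min_eq_left h.le] at hg
          rw [abs_of_neg (by linarith), hx.clip_mid (by linarith) (by linarith)]; linarith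
        · rw [min_eq_right h.le] at hg
          rw [abs_of_pos (by linarith), hx.clip_mid (by linarith) (by linarith)]; linarith
    have c2 : ∀ y : K, v.Ge y (2 * min (α + a) N - (α + a)) →
        (∀ p, Ex v (A * B - D * E) p → Ex v y (2 * p - (α + a))) →
        clip v N y = min (α + a) (2 * N - α - a) := by
      intro y hy1 hy2
      rcases lt_trichotomy (α + a) N with h | h | h
      · have hP : Ex v (A * B - D * E) (α + a) := hAB'.sub_gt (hDE.gt h)
        have hy := hy2 _ hP
        rw [hy.clip_mid (by linarith) (by linarith), min_eq_left (by linarith)]; ring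
      · rw [min_eq_left h.le] at hy1
        rw [clip_of_ge hN0 (hy1.mono (by linarith)), min_eq_left (by linarith)]; linarith
      · have hP : Ex v (A * B - D * E) N := hDE.gt_sub (hAB'.gt h)
        have hy := hy2 _ hP
        rw [hy.clip_mid (by linarith) (by linarith), min_eq_right (by linarith)]; ring
    rw [hA.clip_mid hα0.le hαN.le]
    rcases ne_roots hΔ hQ F1 F2 hPge hlt' with ⟨hS, hDf1, hDf2⟩ | ⟨hDf, hS1, hS2⟩
    · right
      exact ⟨c1 S hS, c2 Df hDf1 hDf2⟩
    · left
      exact ⟨c2 S hS1 hS2, c1 Df hDf⟩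
  · -- `A` has valuation at least `N`
    have hΔ : Ex v (A - B) a := hB.gt_sub (hA.gt (by linarith))
    have hP : Ex v (A * B - D * E) N := hDE.gt_sub (hAB'.gt (by linarith))
    have hQ : v.Ge (2 * (A + B) * (A * B + D * E) - 4 * (D + E) * (A * B)) (N + a) := by
      have t1 : v.Ge (2 * (A + B) * (A * B + D * E)) (0 + a + N) :=
        (h2.ge.mul ((hA.ge.mono (by linarith)).add hB.ge)).mul
          ((hAB'.ge.mono (by linarith)).add hDE.ge)
      have t2 : v.Ge (4 * (D + E) * (A * B)) (0 + 0 + (α + a)) :=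
        (h4.ge.mul hDpE.ge).mul hAB'.ge
      exact (t1.mono (by linarith)).sub (t2.mono (by linarith))
    obtain ⟨hS, hDf⟩ := eq_roots hΔ hP F1 F2 hQ
    rw [hS.clip_mid (by linarith) (by linarith), hDf.clip_mid (by linarith) (by linarith),
      clip_of_ge hN0 (hA.ge.mono hαN)]
    left
    constructor
    · rw [min_eq_right (by linarith)]; ring
    · rw [abs_of_pos (by linarith)]

/-- The square of `η` at a point of level `a`. -/
theorem eta_sq_ex {B D E : K} {a N : ℚ} (hB : Ex v B a) (hD : Ex v D N) (hE : Ex v E 0)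
    (h2 : Ex v (2 : K) 0) (ha : 0 < a) (haN : a < N) :
    Ex v (4 * B * (B - D) * (B - E)) (a + a) := by
  have h4 : Ex v (4 : K) 0 := by
    have h := h2.mul h2
    have e4 : (2 : K) * 2 = 4 := by norm_num
    rwa [e4, add_zero] at h
  have hBD : Ex v (B - D) a := hB.sub_gt (hD.gt haN)
  have hBE : Ex v (B - E) 0 := hE.gt_sub (hB.gt ha)
  have h := ((h4.mul hB).mul hBD).mul hBE
  rwa [zero_add, add_zero] at h

/-- The tent law for the duplication formula. -/
theorem key_dup {B X2 η D E : K} {a N : ℚ} (hB : Ex v B a) (hD : Ex v D N) (hE : Ex v E 0)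
    (h2 : Ex v (2 : K) 0) (ha : 0 < a) (haN : a < N)
    (Fη : η ^ 2 = 4 * B * (B - D) * (B - E))
    (Fd : X2 * η ^ 2 = (B ^ 2 - D * E) ^ 2) :
    clip v N X2 = min (a + a) (2 * N - a - a) := by
  have hN0 : 0 ≤ N := by linarith
  have hDE : Ex v (D * E) N := by
    have h := hD.mul hE
    rwa [add_zero] at h
  have hη2 : Ex v (η ^ 2) (a + a) := by
    rw [Fη]; exact eta_sq_ex hB hD hE h2 ha haN
  have hB2 : Ex v (B ^ 2) (a + a) := by
    have h := hB.mul hB
    rwa [← pow_two] at h
  rcases lt_trichotomy (a + a) N with h | h | h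
  · have hP : Ex v (B ^ 2 - D * E) (a + a) := hB2.sub_gt (hDE.gt h)
    have hP2 : Ex v ((B ^ 2 - D * E) ^ 2) (2 * (a + a)) := by simpa using hP.pow 2
    rw [← Fd] at hP2
    have hX2 := hP2.of_mul_left hη2
    rw [hX2.clip_mid (by linarith) (by linarith), min_eq_left (by linarith)]; ring
  · have hP : v.Ge (B ^ 2 - D * E) N := (hB2.ge.mono h.ge).sub hDE.ge
    have hX2 : v.Ge X2 N := by
      by_cases hX0 : X2 = 0
      · exact Or.inl hX0
      have hne : B ^ 2 - D * E ≠ 0 := by
        intro h0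
        have h1 : X2 * η ^ 2 = 0 := by rw [Fd, h0]; ring
        exact mul_ne_zero hX0 hη2.1 h1
      have hPex : Ex v (B ^ 2 - D * E) (v.v (B ^ 2 - D * E)) := ⟨hne, rfl⟩
      have hP2 : Ex v ((B ^ 2 - D * E) ^ 2) (2 * v.v (B ^ 2 - D * E)) := by
        simpa using hPex.pow 2
      rw [← Fd] at hP2
      have hX2 := hP2.of_mul_left hη2
      have h3 := hP.le_v hne
      exact hX2.ge.mono (by linarith)
    rw [clip_of_ge hN0 hX2, min_eq_left (by linarith)]; linarith
  · have hP : Ex v (B ^ 2 - D * E) N := hDE.gt_sub (hB2.gt h)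
    have hP2 : Ex v ((B ^ 2 - D * E) ^ 2) (2 * N) := by simpa using hP.pow 2
    rw [← Fd] at hP2
    have hX2 := hP2.of_mul_left hη2
    rw [hX2.clip_mid (by linarith) (by linarith), min_eq_right (by linarith)]; ring

end val

section tentFn

/-- The tent function: the distance to the nearest multiple of `2 N`. -/
noncomputable def tentFn (N s : ℚ) : ℚ := |s - 2 * N * round (s / (2 * N))|

theorem tentFn_spec {N : ℚ} (hN : 0 < N) (s : ℚ) :
    0 ≤ tentFn N s ∧ tentFn N s ≤ N ∧
      ∃ z : ℤ, s = 2 * N * z + tentFn N s ∨ s = 2 * N * z - tentFn N s := by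
  refine ⟨abs_nonneg _, ?_, round (s / (2 * N)), ?_⟩
  · have h := abs_sub_round (s / (2 * N))
    have h2 : s - 2 * N * round (s / (2 * N)) = 2 * N * (s / (2 * N) - round (s / (2 * N))) := by
      field_simp
    unfold tentFn
    rw [h2, abs_mul, abs_of_pos (by linarith : (0 : ℚ) < 2 * N)]
    nlinarith
  · unfold tentFn
    rcases abs_cases (s - 2 * N * round (s / (2 * N))) with ⟨h, _⟩ | ⟨h, _⟩
    · left; rw [h]; ring
    · right; rw [h]; ring

theorem tentFn_eq {N : ℚ} (hN : 0 < N) {s r : ℚ} (z : ℤ) (h0 : 0 ≤ r) (h1 : r ≤ N)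
    (h : s = 2 * N * z + r ∨ s = 2 * N * z - r) : tentFn N s = r := by
  obtain ⟨t0, t1, z', ht⟩ := tentFn_spec hN s
  generalize tentFn N s = t at t0 t1 ht
  have hd : 2 * N * ((z : ℚ) - z') ≤ 2 * N ∧ -(2 * N) ≤ 2 * N * ((z : ℚ) - z') := by
    rcases h with h | h <;> rcases ht with ht | ht <;> constructor <;> nlinarith
  have hd1 : ((z - z' : ℤ) : ℚ) ≤ 1 := by
    push_cast
    by_contra hc
    push Not at hc
    nlinarith [hd.1]
  have hd2 : (-1 : ℚ) ≤ ((z - z' : ℤ) : ℚ) := by
    push_cast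
    by_contra hc
    push Not at hc
    nlinarith [hd.2]
  have hd1' : z - z' ≤ 1 := by exact_mod_cast hd1
  have hd2' : -1 ≤ z - z' := by exact_mod_cast hd2
  obtain rfl | rfl | rfl : z = z' - 1 ∨ z = z' ∨ z = z' + 1 := by omega
  · push_cast at h
    rcases h with h | h <;> rcases ht with ht | ht <;> nlinarith
  · rcases h with h | h <;> rcases ht with ht | ht <;> nlinarith
  · push_cast at h
    rcases h with h | h <;> rcases ht with ht | ht <;> nlinarith

theorem tentFn_add_min {N : ℚ} (hN : 0 < N) (z : ℤ) {x : ℚ} (h0 : 0 ≤ x) (h1 : x ≤ 2 * N) :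
    tentFn N (2 * N * z + x) = min x (2 * N - x) ∧
      tentFn N (2 * N * z - x) = min x (2 * N - x) := by
  rcases le_total x N with h | h
  · rw [min_eq_left (by linarith)]
    exact ⟨tentFn_eq hN z h0 h (Or.inl rfl), tentFn_eq hN z h0 h (Or.inr rfl)⟩
  · rw [min_eq_right (by linarith)]
    refine ⟨tentFn_eq hN (z + 1) (by linarith) (by linarith) (Or.inr ?_),
      tentFn_eq hN (z - 1) (by linarith) (by linarith) (Or.inl ?_)⟩
    · push_cast; ring
    · push_cast; ring

theorem tentFn_add_abs {N : ℚ} (hN : 0 < N) (z : ℤ) {y : ℚ} (h : |y| ≤ N) :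
    tentFn N (2 * N * z + y) = |y| := by
  rcases abs_cases y with ⟨h1, _⟩ | ⟨h1, _⟩
  · exact tentFn_eq hN z (abs_nonneg _) h (Or.inl (by rw [h1]))
  · exact tentFn_eq hN z (abs_nonneg _) h (Or.inr (by rw [h1]; ring))

end tentFn

section pointdef

variable {K : Type*} [Field K] {W : Affine K} {e : K} {v : RatVal K}

open Classical in
/-- The level of a point: `0` at the origin, the clipped valuation of the shifted
x-coordinate otherwise. -/
noncomputable def lev (W : Affine K) (e : K) (v : RatVal K) (N : ℚ) (T : W.Point) : ℚ :=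
  if T = 0 then 0 else clip v N (Xc W e T)

theorem lev_zero (N : ℚ) : lev W e v N 0 = 0 := if_pos rfl

theorem lev_of_ne {N : ℚ} {T : W.Point} (hT : T ≠ 0) :
    lev W e v N T = clip v N (Xc W e T) := if_neg hT

end pointdef

section point

variable {K : Type*} [Field K] [DecidableEq K] {W : Affine K} {e D E : K} {v : RatVal K}

theorem lev_neg (N : ℚ) (T : W.Point) : lev W e v N (-T) = lev W e v N T := by
  by_cases hT : T = 0
  · rw [hT, neg_zero]
  · rw [lev_of_ne hT, lev_of_ne (neg_ne_zero.2 hT), Xc_neg]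

/-- The tent law: adding and subtracting a point `R` of level `0 < a < N`. -/
theorem lev_add_sub (h : Setup W e D E v) {R : W.Point} (hR : R ≠ 0)
    (hX0 : Xc W e R ≠ 0) (hpos : 0 < v.v (Xc W e R)) (hlt : v.v (Xc W e R) < v.v D)
    (T : W.Point) :
    (lev W e v (v.v D) (T + R) =
        min (lev W e v (v.v D) T + v.v (Xc W e R))
          (2 * v.v D - lev W e v (v.v D) T - v.v (Xc W e R)) ∧
      lev W e v (v.v D) (T - R) = |lev W e v (v.v D) T - v.v (Xc W e R)|) ∨
    (lev W e v (v.v D) (T + R) = |lev W e v (v.v D) T - v.v (Xc W e R)| ∧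
      lev W e v (v.v D) (T - R) =
        min (lev W e v (v.v D) T + v.v (Xc W e R))
          (2 * v.v D - lev W e v (v.v D) T - v.v (Xc W e R))) := by
  have hS := h.toSplit
  have hB : Ex v (Xc W e R) (v.v (Xc W e R)) := ⟨hX0, rfl⟩
  have hD : Ex v D (v.v D) := ⟨h.D_ne, rfl⟩
  have hE : Ex v E 0 := ⟨h.E_ne, h.vE⟩
  have h2 : Ex v (2 : K) 0 := ⟨h.two_ne, h.v_two⟩
  generalize v.v (Xc W e R) = a at hB hpos hlt
  generalize v.v D = N at hD hlt
  have hlevR : lev W e v N R = a := by
    rw [lev_of_ne hR]; exact hB.clip_mid hpos.le hlt.le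
  by_cases hT : T = 0
  · subst hT
    left
    rw [zero_add, zero_sub, lev_neg, lev_zero, hlevR]
    constructor
    · rw [zero_add, min_eq_left (by linarith)]
    · rw [zero_sub, abs_neg, abs_of_pos hpos]
  by_cases hX : Xc W e T = Xc W e R
  · have hlevT : lev W e v N T = a := by
      rw [lev_of_ne hT, hX, ← lev_of_ne hR, hlevR]
    have hη2 := eta_sq_ex hB hD hE h2 hpos hlt
    rw [← Eta_sq hS R hR] at hη2
    have hη : Eta W R ≠ 0 := by
      intro h0
      apply hη2.1
      rw [h0]; ring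
    obtain ⟨h2R, hdup⟩ := Xc_add_self hS hR hη
    have hlev2 : lev W e v N (R + R) = min (a + a) (2 * N - a - a) := by
      rw [lev_of_ne h2R]
      exact key_dup hB hD hE h2 hpos hlt (Eta_sq hS R hR) hdup
    rw [hlevT]
    rcases eq_or_eq_neg_of_Xc_eq hT hR hX with rfl | rfl
    · left
      rw [sub_self, lev_zero, hlev2, sub_self, abs_zero]
      exact ⟨rfl, rfl⟩
    · right
      have e1 : -R - R = -(R + R) := by abel
      rw [neg_add_cancel, lev_zero, e1, lev_neg, hlev2, sub_self, abs_zero]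
      exact ⟨rfl, rfl⟩
  · obtain ⟨hadd, -⟩ := Xc_add hS hT hR hX
    obtain ⟨hsub, -⟩ := Xc_sub hS hT hR hX
    rw [lev_of_ne hadd, lev_of_ne hsub, lev_of_ne hT]
    exact key hB hD hE h2 hpos hlt hX (Xc_add_mul_Xc_sub hS hT hR hX)
      (Xc_add_add_Xc_sub hS hT hR hX)

/-- The level of `k • R` follows the tent function. -/
theorem lev_nsmul (h : Setup W e D E v) {R : W.Point} (hR : R ≠ 0)
    (hX0 : Xc W e R ≠ 0) (hpos : 0 < v.v (Xc W e R)) (hlt : v.v (Xc W e R) < v.v D) (k : ℕ) :
    lev W e v (v.v D) (k • R) = tentFn (v.v D) (k * v.v (Xc W e R)) ∧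
      lev W e v (v.v D) ((k + 1) • R) = tentFn (v.v D) ((k + 1 : ℕ) * v.v (Xc W e R)) := by
  have hN : 0 < v.v D := lt_trans hpos hlt
  induction k with
  | zero =>
    constructor
    · rw [zero_smul, lev_zero]
      exact (tentFn_eq hN 0 le_rfl hN.le (Or.inl (by simp))).symm
    · rw [zero_add, one_smul, lev_of_ne hR,
        Ex.clip_mid (⟨hX0, rfl⟩ : Ex v (Xc W e R) _) hpos.le hlt.le]
      exact (tentFn_eq hN 0 hpos.le hlt.le (Or.inl (by simp))).symm
  | succ k ih =>
    refine ⟨ih.2, ?_⟩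
    obtain ⟨ih1, ih2⟩ := ih
    have hTL := lev_add_sub h hR hX0 hpos hlt ((k + 1) • R)
    have e1 : (k + 1) • R + R = (k + 1 + 1) • R := (succ_nsmul R (k + 1)).symm
    have e2 : (k + 1) • R - R = k • R := by rw [succ_nsmul, add_sub_cancel_right]
    rw [e1, e2, ih1, ih2] at hTL
    obtain ⟨t0, t1, z, ht⟩ := tentFn_spec hN ((k + 1 : ℕ) * v.v (Xc W e R))
    generalize tentFn (v.v D) ((k + 1 : ℕ) * v.v (Xc W e R)) = r at hTL t0 t1 ht
    generalize v.v (Xc W e R) = a at *
    generalize v.v D = N at *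
    have hx0 : 0 ≤ r + a := by linarith
    have hx1 : r + a ≤ 2 * N := by linarith
    have hy : |r - a| ≤ N := by rw [abs_le]; constructor <;> linarith
    have hy' : |a - r| ≤ N := by rw [abs_sub_comm]; exact hy
    have hmin : min (r + a) (2 * N - r - a) = min (r + a) (2 * N - (r + a)) := by
      rw [sub_sub]
    rw [hmin] at hTL
    rcases ht with ht | ht
    · -- `(k+1) a = 2 N z + r`
      have f1 : tentFn N ((k + 1 + 1 : ℕ) * a) = min (r + a) (2 * N - (r + a)) := by
        rw [← (tentFn_add_min hN z hx0 hx1).1]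
        congr 1
        push_cast at ht ⊢
        linarith
      have f2 : tentFn N (k * a) = |r - a| := by
        rw [← tentFn_add_abs hN z hy]
        congr 1
        push_cast at ht ⊢
        linarith
      rw [f1]
      rcases hTL with ⟨h1, -⟩ | ⟨h1, h3⟩
      · exact h1
      · rw [h1, ← f2, h3]
    · -- `(k+1) a = 2 N z - r`
      have f1 : tentFn N ((k + 1 + 1 : ℕ) * a) = |r - a| := by
        rw [abs_sub_comm, ← tentFn_add_abs hN z hy']
        congr 1
        push_cast at ht ⊢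
        linarith
      have f2 : tentFn N (k * a) = min (r + a) (2 * N - (r + a)) := by
        rw [← (tentFn_add_min hN z hx0 hx1).2]
        congr 1
        push_cast at ht ⊢
        linarith
      rw [f1]
      rcases hTL with ⟨h1, h3⟩ | ⟨h1, -⟩
      · rw [h1, ← f2, h3]
      · exact h1

/-- L3. Multiplicative reduction (`0 < v(D)`), `R` a point with `0 < v(X(R)) < v(D)`.
If `m • R = 0` then `m * v(X(R))` is an integer multiple of `2 v(D)`. -/
theorem tent (h : Setup W e D E v) (hDpos : 0 < v.v D) {R : W.Point} (hR : R ≠ 0)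
    (hX0 : Xc W e R ≠ 0) (hpos : 0 < v.v (Xc W e R)) (hlt : v.v (Xc W e R) < v.v D)
    {m : ℕ} (hm : m • R = 0) :
    ∃ z : ℤ, (m : ℚ) * v.v (Xc W e R) = 2 * z * v.v D := by
  have h1 := (lev_nsmul h hR hX0 hpos hlt m).1
  rw [hm, lev_zero] at h1
  obtain ⟨-, -, z, hz⟩ := tentFn_spec hDpos ((m : ℚ) * v.v (Xc W e R))
  rw [← h1] at hz
  refine ⟨z, ?_⟩
  rcases hz with hz | hz
  · rw [hz]; ring
  · rw [hz]; ring

end point

end Fermat.Agent.S05_Tent
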