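-- Helper for S05: the rational-valued valuation attached to a valuation subring of an algebraic
-- extension of ℚ lying over a prime, and the behaviour of inertia elements.
import Mathlib
import Fermat.Prelude.Def_FLTPrelim_Ramification
import Fermat.Agent.S05_RatVal

set_option autoImplicit false

namespace Fermat.Agent.S05_Val

open Fermat.Agent.S05_RatVal

variable {L : Type*} [Field L]

/-- `x ^ b` and `q ^ a` have the same valuation. -/
def Rel (A : ValuationSubring L) (q : ℕ) (x : L) (a : ℤ) (b : ℕ) : Prop :=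
  0 < b ∧ A.valuation (x ^ b) = A.valuation ((q : L) ^ a)

section basic

variable (A : ValuationSubring L) {q : ℕ} (hA : A.LiesOverPrime q)

include hA

theorem val_q_lt_one : A.valuation (q : L) < 1 :=
  (ValuationSubring.mem_nonunits_iff (A := A)).1 hA

theorem q_ne_zero (hq : q.Prime) [CharZero L] : (q : L) ≠ 0 := by
  have := hq.ne_zero
  exact_mod_cast this

theorem val_q_ne_zero (hq : q.Prime) [CharZero L] : A.valuation (q : L) ≠ 0 :=
  (Valuation.ne_zero_iff _).2 (q_ne_zero A hA hq)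

theorem val_q_pos (hq : q.Prime) [CharZero L] : 0 < A.valuation (q : L) :=
  zero_lt_iff.2 (val_q_ne_zero A hA hq)

theorem zpow_val_q_inj (hq : q.Prime) [CharZero L] {m n : ℤ}
    (h : A.valuation (q : L) ^ m = A.valuation (q : L) ^ n) : m = n :=
  zpow_right_injective₀ (val_q_pos A hA hq) (val_q_lt_one A hA).ne h

theorem zpow_val_q_le_one_iff (hq : q.Prime) [CharZero L] (a : ℤ) :
    A.valuation (q : L) ^ a ≤ 1 ↔ 0 ≤ a := by
  have h0 := val_q_pos A hA hq
  have h1 := val_q_lt_one A hA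
  constructor
  · intro h
    by_contra hneg
    push Not at hneg
    have h2 : (A.valuation (q : L) ^ (-a))⁻¹ ≤ 1 := by rwa [zpow_neg, inv_inv]
    have h3 : A.valuation (q : L) ^ (-a) < 1 := zpow_lt_one₀ h0 h1 (by omega)
    have h4 : 1 ≤ A.valuation (q : L) ^ (-a) := by
      rwa [inv_le_one₀ (zpow_pos h0 _)] at h2
    exact absurd h3 (not_lt.2 h4)
  · intro h
    exact zpow_le_one₀ h0 h1.le h

theorem zpow_val_q_lt_one_iff (hq : q.Prime) [CharZero L] (a : ℤ) :
    A.valuation (q : L) ^ a < 1 ↔ 0 < a := by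
  have h0 := val_q_pos A hA hq
  have h1 := val_q_lt_one A hA
  constructor
  · intro h
    by_contra hneg
    push Not at hneg
    have h2 : A.valuation (q : L) ^ (-a) ≤ 1 := (zpow_val_q_le_one_iff A hA hq (-a)).2 (by omega)
    rw [zpow_neg, inv_le_one₀ (zpow_pos h0 _)] at h2
    exact absurd h (not_lt.2 h2)
  · intro h
    exact zpow_lt_one₀ h0 h1 h

/-- uniqueness of the slope -/
theorem Rel.unique (hq : q.Prime) [CharZero L] {x : L} {a a' : ℤ} {b b' : ℕ}
    (h : Rel A q x a b) (h' : Rel A q x a' b') : a * (b' : ℤ) = a' * (b : ℤ) := by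
  obtain ⟨hb, h⟩ := h
  obtain ⟨hb', h'⟩ := h'
  apply zpow_val_q_inj A hA hq
  rw [map_pow, map_zpow₀] at h h'
  rw [zpow_mul, zpow_mul, ← h, ← h', zpow_natCast, zpow_natCast, ← pow_mul, ← pow_mul, mul_comm]

theorem Rel.mul (hq : q.Prime) [CharZero L] {x y : L} {a a' : ℤ} {b b' : ℕ}
    (h : Rel A q x a b) (h' : Rel A q y a' b') :
    Rel A q (x * y) (a * b' + a' * b) (b * b') := by
  obtain ⟨hb, h⟩ := h
  obtain ⟨hb', h'⟩ := h'
  refine ⟨Nat.mul_pos hb hb', ?_⟩
  have h0 := val_q_ne_zero A hA hq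
  rw [map_pow, map_zpow₀] at h h' ⊢
  rw [map_mul, mul_pow, pow_mul, h, pow_mul', h', zpow_add₀ h0, zpow_mul, zpow_mul,
    zpow_natCast, zpow_natCast]

theorem Rel.le_one_iff (hq : q.Prime) [CharZero L] {x : L} {a : ℤ} {b : ℕ}
    (h : Rel A q x a b) : A.valuation x ≤ 1 ↔ 0 ≤ a := by
  obtain ⟨hb, h⟩ := h
  rw [map_pow, map_zpow₀] at h
  rw [← zpow_val_q_le_one_iff A hA hq a, ← h]
  exact (pow_le_one_iff_of_nonneg zero_le hb.ne').symm

theorem Rel.lt_one_iff (hq : q.Prime) [CharZero L] {x : L} {a : ℤ} {b : ℕ}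
    (h : Rel A q x a b) : A.valuation x < 1 ↔ 0 < a := by
  obtain ⟨hb, h⟩ := h
  rw [map_pow, map_zpow₀] at h
  rw [← zpow_val_q_lt_one_iff A hA hq a, ← h]
  exact (pow_lt_one_iff_of_nonneg zero_le hb.ne').symm

/-- integers prime to `q` are units of `A` -/
theorem val_natCast_eq_one (hq : q.Prime) {m : ℕ} (hm : ¬ q ∣ m) : A.valuation (m : L) = 1 := by
  have hle : A.valuation (m : L) ≤ 1 := (A.valuation_le_one_iff _).2 (natCast_mem A m)
  refine le_antisymm hle (not_lt.1 fun hlt => ?_)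
  have hcop : Nat.Coprime q m := (Nat.Prime.coprime_iff_not_dvd hq).2 hm
  have hb := Nat.gcd_eq_gcd_ab q m
  rw [hcop.gcd_eq_one] at hb
  have h1 : (1 : L) = (q : L) * ((Nat.gcdA q m : ℤ) : L) + (m : L) * ((Nat.gcdB q m : ℤ) : L) := by
    have := congrArg (fun z : ℤ => (z : L)) hb
    push_cast at this
    exact this
  have hs : A.valuation (((Nat.gcdA q m : ℤ) : L)) ≤ 1 :=
    (A.valuation_le_one_iff _).2 (intCast_mem A _)
  have ht : A.valuation (((Nat.gcdB q m : ℤ) : L)) ≤ 1 :=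
    (A.valuation_le_one_iff _).2 (intCast_mem A _)
  have hq1 := val_q_lt_one A hA
  have h2 : A.valuation ((q : L) * ((Nat.gcdA q m : ℤ) : L)) < 1 := by
    rw [map_mul]
    exact mul_lt_one_of_lt_of_le hq1 hs
  have h3 : A.valuation ((m : L) * ((Nat.gcdB q m : ℤ) : L)) < 1 := by
    rw [map_mul]
    exact mul_lt_one_of_lt_of_le hlt ht
  have h4 : A.valuation (1 : L) < 1 := by
    rw [h1]
    exact lt_of_le_of_lt (Valuation.map_add _ _ _) (max_lt h2 h3)
  rw [map_one] at h4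
  exact lt_irrefl _ h4

theorem val_natCast (hq : q.Prime) [CharZero L] {n : ℕ} (hn : n ≠ 0) :
    A.valuation (n : L) = A.valuation (q : L) ^ (padicValNat q n : ℤ) := by
  have : Fact q.Prime := ⟨hq⟩
  have h1 : q ^ padicValNat q n * (n / q ^ padicValNat q n) = n := by
    have := Nat.ordProj_mul_ordCompl_eq_self n q
    rwa [Nat.factorization_def n hq] at this
  have h2 : ¬ q ∣ n / q ^ padicValNat q n := by
    have := Nat.not_dvd_ordCompl hq hn
    rwa [Nat.factorization_def n hq] at this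
  have h3 : (n : L) = (q : L) ^ padicValNat q n * ((n / q ^ padicValNat q n : ℕ) : L) := by
    conv_lhs => rw [← h1]
    push_cast
    rfl
  rw [h3, map_mul, map_pow, val_natCast_eq_one A hA hq h2, mul_one, zpow_natCast]

theorem val_intCast (hq : q.Prime) [CharZero L] {n : ℤ} (hn : n ≠ 0) :
    A.valuation (n : L) = A.valuation (q : L) ^ (padicValInt q n : ℤ) := by
  have h1 : A.valuation (n : L) = A.valuation ((n.natAbs : ℕ) : L) := by
    have h2 : ((n.natAbs : ℕ) : L) = ((n.natAbs : ℤ) : L) := (Int.cast_natCast _).symm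
    rcases Int.natAbs_eq n with h | h
    · rw [h2, ← h]
    · have h3 : (n.natAbs : ℤ) = -n := by omega
      rw [h2, h3, Int.cast_neg, Valuation.map_neg]
  rw [h1, val_natCast A hA hq (Int.natAbs_ne_zero.2 hn)]
  rfl

theorem val_ratCast (hq : q.Prime) [CharZero L] [Algebra ℚ L] {r : ℚ} (hr : r ≠ 0) :
    A.valuation (algebraMap ℚ L r) = A.valuation (q : L) ^ (padicValRat q r) := by
  have h0 := val_q_ne_zero A hA hq
  have hnum : r.num ≠ 0 := Rat.num_ne_zero.2 hr
  have hden : r.den ≠ 0 := r.den_nz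
  have h1 : algebraMap ℚ L r = (r.num : L) / (r.den : L) := by
    conv_lhs => rw [← Rat.num_div_den r]
    rw [map_div₀]
    simp
  rw [h1, map_div₀, val_intCast A hA hq hnum, val_natCast A hA hq hden, padicValRat,
    zpow_sub₀ h0]

theorem rel_ratCast (hq : q.Prime) [CharZero L] [Algebra ℚ L] {r : ℚ} (hr : r ≠ 0) :
    Rel A q (algebraMap ℚ L r) (padicValRat q r) 1 := by
  refine ⟨one_pos, ?_⟩
  rw [pow_one, val_ratCast A hA hq hr, map_zpow₀]

/-- the key step of existence: two terms of equal valuation -/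
theorem rel_of_terms (hq : q.Prime) [CharZero L] [Algebra ℚ L] {x : L} (hx : x ≠ 0)
    {c c' : ℚ} (hc : c ≠ 0) (hc' : c' ≠ 0) {i j : ℕ} (hij : i < j)
    (h : A.valuation (algebraMap ℚ L c * x ^ i) = A.valuation (algebraMap ℚ L c' * x ^ j)) :
    ∃ a b, Rel A q x a b := by
  have h0 := val_q_ne_zero A hA hq
  have hvx : A.valuation x ≠ 0 := (Valuation.ne_zero_iff _).2 hx
  refine ⟨padicValRat q c - padicValRat q c', j - i, Nat.sub_pos_of_lt hij, ?_⟩
  rw [map_mul, map_mul, map_pow, map_pow, val_ratCast A hA hq hc, val_ratCast A hA hq hc'] at h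
  rw [map_pow, map_zpow₀, zpow_sub₀ h0]
  have hj : j = (j - i) + i := by omega
  rw [hj, pow_add, ← mul_assoc] at h
  have h2 := mul_right_cancel₀ (pow_ne_zero i hvx) h
  have h3 : A.valuation (q : L) ^ padicValRat q c' ≠ 0 := zpow_ne_zero _ h0
  exact eq_div_of_mul_eq h3 (by rw [h2, mul_comm])

theorem exists_rel (hq : q.Prime) [CharZero L] [Algebra ℚ L] {x : L} (hx : x ≠ 0)
    (halg : IsAlgebraic ℚ x) : ∃ a b, Rel A q x a b := by
  classical
  obtain ⟨P, hP0, hPx⟩ := halg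
  set f : ℕ → L := fun i => algebraMap ℚ L (P.coeff i) * x ^ i with hf
  have hsum : ∑ i ∈ P.support, f i = 0 := by
    rw [← hPx, Polynomial.aeval_def, Polynomial.eval₂_eq_sum, Polynomial.sum_def]
  have hne : P.support.Nonempty := Polynomial.support_nonempty.2 hP0
  have hfne : ∀ i ∈ P.support, f i ≠ 0 := by
    intro i hi
    rw [Polynomial.mem_support_iff] at hi
    exact mul_ne_zero ((map_ne_zero _).2 hi) (pow_ne_zero _ hx)
  obtain ⟨i₀, hi₀, hmax⟩ := Finset.exists_max_image P.support (fun i => A.valuation (f i)) hne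
  have hex : ∃ j ∈ P.support.erase i₀, A.valuation (f i₀) ≤ A.valuation (f j) := by
    by_contra hcon
    push Not at hcon
    have hlt : A.valuation (∑ i ∈ P.support.erase i₀, f i) < A.valuation (f i₀) :=
      Valuation.map_sum_lt _ ((Valuation.ne_zero_iff _).2 (hfne i₀ hi₀)) hcon
    have hrest : ∑ i ∈ P.support.erase i₀, f i = - f i₀ := by
      rw [← Finset.add_sum_erase _ _ hi₀] at hsum
      exact eq_neg_of_add_eq_zero_right hsum
    rw [hrest, Valuation.map_neg] at hlt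
    exact lt_irrefl _ hlt
  obtain ⟨j, hj, hle⟩ := hex
  rw [Finset.mem_erase] at hj
  have heq : A.valuation (f i₀) = A.valuation (f j) := le_antisymm hle (hmax j hj.2)
  have hci : P.coeff i₀ ≠ 0 := Polynomial.mem_support_iff.1 hi₀
  have hcj : P.coeff j ≠ 0 := Polynomial.mem_support_iff.1 hj.2
  rcases lt_or_gt_of_ne hj.1 with hlt | hlt
  · exact rel_of_terms A hA hq hx hcj hci hlt heq.symm
  · exact rel_of_terms A hA hq hx hci hcj hlt heq

end basic

section vfun

variable (A : ValuationSubring L) (q : ℕ)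

open Classical in
/-- the rational valued valuation (junk value `0` when no relation exists) -/
noncomputable def vfun (x : L) : ℚ :=
  if h : ∃ a b, Rel A q x a b then (h.choose : ℚ) / (h.choose_spec.choose : ℚ) else 0

variable {A q}
variable (hA : A.LiesOverPrime q) (hq : q.Prime)

include hA hq

theorem vfun_eq [CharZero L] {x : L} {a : ℤ} {b : ℕ} (h : Rel A q x a b) :
    vfun A q x = (a : ℚ) / (b : ℚ) := by
  have hex : ∃ a b, Rel A q x a b := ⟨a, b, h⟩
  rw [vfun, dif_pos hex]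
  have h' := hex.choose_spec.choose_spec
  have hu := Rel.unique A hA hq h h'
  have hb : (b : ℚ) ≠ 0 := by exact_mod_cast h.1.ne'
  have hb' : ((hex.choose_spec.choose : ℕ) : ℚ) ≠ 0 := by exact_mod_cast h'.1.ne'
  rw [div_eq_div_iff hb' hb]
  have := congrArg (fun z : ℤ => (z : ℚ)) hu
  push_cast at this
  linarith

variable [CharZero L] [Algebra ℚ L] [Algebra.IsAlgebraic ℚ L]

theorem vfun_mul {x y : L} (hx : x ≠ 0) (hy : y ≠ 0) :
    vfun A q (x * y) = vfun A q x + vfun A q y := by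
  obtain ⟨a, b, h⟩ := exists_rel A hA hq hx (Algebra.IsAlgebraic.isAlgebraic x)
  obtain ⟨a', b', h'⟩ := exists_rel A hA hq hy (Algebra.IsAlgebraic.isAlgebraic y)
  rw [vfun_eq hA hq h, vfun_eq hA hq h', vfun_eq hA hq (Rel.mul A hA hq h h')]
  have hb : (b : ℚ) ≠ 0 := by exact_mod_cast h.1.ne'
  have hb' : (b' : ℚ) ≠ 0 := by exact_mod_cast h'.1.ne'
  push_cast
  field_simp

theorem vfun_nonneg_iff {x : L} (hx : x ≠ 0) : 0 ≤ vfun A q x ↔ A.valuation x ≤ 1 := by
  obtain ⟨a, b, h⟩ := exists_rel A hA hq hx (Algebra.IsAlgebraic.isAlgebraic x)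
  rw [vfun_eq hA hq h, Rel.le_one_iff A hA hq h]
  have hb : (0 : ℚ) < b := by exact_mod_cast h.1
  rw [div_nonneg_iff]
  constructor
  · rintro (⟨h1, -⟩ | ⟨-, h2⟩)
    · exact_mod_cast h1
    · exact absurd hb (not_lt.2 h2)
  · intro h1
    exact Or.inl ⟨by exact_mod_cast h1, hb.le⟩

theorem vfun_pos_iff {x : L} (hx : x ≠ 0) : 0 < vfun A q x ↔ A.valuation x < 1 := by
  obtain ⟨a, b, h⟩ := exists_rel A hA hq hx (Algebra.IsAlgebraic.isAlgebraic x)
  rw [vfun_eq hA hq h, Rel.lt_one_iff A hA hq h]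
  have hb : (0 : ℚ) < b := by exact_mod_cast h.1
  rw [div_pos_iff_of_pos_right hb]
  exact_mod_cast Iff.rfl

theorem vfun_inv {x : L} (hx : x ≠ 0) : vfun A q x⁻¹ = - vfun A q x := by
  have h1 := vfun_mul hA hq hx (inv_ne_zero hx)
  rw [mul_inv_cancel₀ hx] at h1
  have h2 : vfun A q (1 : L) = 0 := by
    have := vfun_mul hA hq (one_ne_zero (α := L)) one_ne_zero
    rw [mul_one] at this
    linarith
  linarith

theorem vfun_le_iff {x y : L} (hx : x ≠ 0) (hy : y ≠ 0) :
    vfun A q x ≤ vfun A q y ↔ A.valuation y ≤ A.valuation x := by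
  have h1 : vfun A q (y * x⁻¹) = vfun A q y - vfun A q x := by
    rw [vfun_mul hA hq hy (inv_ne_zero hx), vfun_inv hA hq hx]; ring
  have h2 := vfun_nonneg_iff hA hq (mul_ne_zero hy (inv_ne_zero hx))
  rw [h1, sub_nonneg] at h2
  rw [h2, map_mul, map_inv₀]
  have hvx : 0 < A.valuation x := zero_lt_iff.2 ((Valuation.ne_zero_iff _).2 hx)
  rw [← div_eq_mul_inv, div_le_one₀ hvx]

theorem vfun_add {x y : L} (hx : x ≠ 0) (hy : y ≠ 0) (hxy : x + y ≠ 0) :
    min (vfun A q x) (vfun A q y) ≤ vfun A q (x + y) := by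
  have h := Valuation.map_add A.valuation x y
  rcases le_max_iff.1 h with h1 | h1
  · exact le_trans (min_le_left _ _) ((vfun_le_iff hA hq hx hxy).2 h1)
  · exact le_trans (min_le_right _ _) ((vfun_le_iff hA hq hy hxy).2 h1)

/-- the rational valued valuation attached to `A` -/
noncomputable def ratVal : RatVal L where
  v := vfun A q
  v_mul x y hx hy := vfun_mul hA hq hx hy
  v_add x y hx hy hxy := vfun_add hA hq hx hy hxy

theorem ratVal_v (x : L) : (ratVal hA hq).v x = vfun A q x := rfl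

theorem ratVal_ratCast {r : ℚ} (hr : r ≠ 0) :
    (ratVal hA hq).v (algebraMap ℚ L r) = padicValRat q r := by
  rw [ratVal_v, vfun_eq hA hq (rel_ratCast A hA hq hr)]
  simp

theorem ratVal_nonneg_iff {x : L} (hx : x ≠ 0) : 0 ≤ (ratVal hA hq).v x ↔ x ∈ A := by
  rw [ratVal_v, vfun_nonneg_iff hA hq hx, A.valuation_le_one_iff]

theorem ratVal_pos_iff {x : L} (hx : x ≠ 0) : 0 < (ratVal hA hq).v x ↔ x ∈ A.nonunits := by
  rw [ratVal_v, vfun_pos_iff hA hq hx, ValuationSubring.mem_nonunits_iff]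

theorem ratVal_intCast_nonneg (n : ℤ) (hn : n ≠ 0) : 0 ≤ (ratVal hA hq).v (n : L) := by
  have hn' : (n : L) ≠ 0 := by exact_mod_cast hn
  rw [ratVal_nonneg_iff hA hq hn']
  exact intCast_mem A n

theorem ratVal_intCast_eq_zero (n : ℤ) (hn : ¬ (q : ℤ) ∣ n) : (ratVal hA hq).v (n : L) = 0 := by
  have : Fact q.Prime := ⟨hq⟩
  have hn0 : n ≠ 0 := by
    rintro rfl
    exact hn (dvd_zero _)
  have h1 : (n : L) = algebraMap ℚ L (n : ℚ) := by simp
  rw [h1, ratVal_ratCast hA hq (by exact_mod_cast hn0), padicValRat.of_int]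
  have : padicValInt q n = 0 := padicValInt.eq_zero_of_not_dvd hn
  rw [this]
  simp

theorem ratVal_q : (ratVal hA hq).v (q : L) = 1 := by
  have : Fact q.Prime := ⟨hq⟩
  have h1 : (q : L) = algebraMap ℚ L (q : ℚ) := by simp
  have hq0 : (q : ℚ) ≠ 0 := by exact_mod_cast hq.ne_zero
  rw [h1, ratVal_ratCast hA hq hq0, padicValRat.self hq.one_lt]
  simp

end vfun

section galois

open scoped Pointwise

variable [Algebra ℚ L] [CharZero L] [Algebra.IsAlgebraic ℚ L]
variable {A : ValuationSubring L} {q : ℕ} (hA : A.LiesOverPrime q) (hq : q.Prime)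

theorem mem_of_mem_decomposition {σ : L ≃ₐ[ℚ] L} (hσ : σ ∈ A.decompositionSubgroup ℚ) {x : L}
    (hx : x ∈ A) : σ x ∈ A := by
  have h : σ • A = A := MulAction.mem_stabilizer_iff.1 hσ
  rw [← h]
  exact ValuationSubring.smul_mem_pointwise_smul σ x A hx

include hA hq

theorem ratVal_map_of_mem_decomposition {σ : L ≃ₐ[ℚ] L} (hσ : σ ∈ A.decompositionSubgroup ℚ)
    (x : L) : (ratVal hA hq).v (σ x) = (ratVal hA hq).v x := by
  by_cases hx : x = 0
  · rw [hx, map_zero]
  have hσx : σ x ≠ 0 := (map_ne_zero σ).2 hx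
  have hσ' : σ⁻¹ ∈ A.decompositionSubgroup ℚ := inv_mem hσ
  have key : ∀ (τ : L ≃ₐ[ℚ] L), τ ∈ A.decompositionSubgroup ℚ → ∀ y : L, y ≠ 0 →
      (ratVal hA hq).v y ≤ (ratVal hA hq).v (τ y) := by
    intro τ hτ y hy
    obtain ⟨a, b, hab⟩ := exists_rel A hA hq hy (Algebra.IsAlgebraic.isAlgebraic y)
    have hq0 := q_ne_zero A hA hq
    have hτy : τ y ≠ 0 := (map_ne_zero τ).2 hy
    -- `u = y ^ b / q ^ a` is a unit of `A`
    set u : L := y ^ b * ((q : L) ^ a)⁻¹ with hu
    have hu0 : u ≠ 0 := mul_ne_zero (pow_ne_zero _ hy) (inv_ne_zero (zpow_ne_zero _ hq0))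
    have hvu : A.valuation u = 1 := by
      rw [hu, map_mul, hab.2, map_inv₀]
      exact mul_inv_cancel₀ ((Valuation.ne_zero_iff _).2 (zpow_ne_zero _ hq0))
    have huA : u ∈ A := (A.valuation_le_one_iff _).1 hvu.le
    have hτu : τ u ∈ A := mem_of_mem_decomposition hτ huA
    have hτu' : τ u = (τ y) ^ b * ((q : L) ^ a)⁻¹ := by
      rw [hu, map_mul, map_pow, map_inv₀, map_zpow₀, map_natCast]
    have h1 : 0 ≤ (ratVal hA hq).v (τ u) :=
      (ratVal_nonneg_iff hA hq ((map_ne_zero τ).2 hu0)).2 hτu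
    have h2 : (ratVal hA hq).v u = 0 := by
      have h3 : (ratVal hA hq).v u = (ratVal hA hq).v (y ^ b) - (ratVal hA hq).v ((q : L) ^ a) := by
        rw [hu, ← div_eq_mul_inv, (ratVal hA hq).v_div (pow_ne_zero _ hy) (zpow_ne_zero _ hq0)]
      have h4 : (ratVal hA hq).v u ≤ 0 := by
        by_contra hpos
        push Not at hpos
        have := (vfun_pos_iff hA hq hu0).1 hpos
        rw [hvu] at this
        exact lt_irrefl _ this
      have h5 : 0 ≤ (ratVal hA hq).v u := (ratVal_nonneg_iff hA hq hu0).2 huA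
      linarith
    have h3 : (ratVal hA hq).v u = b * (ratVal hA hq).v y - (ratVal hA hq).v ((q : L) ^ a) := by
      rw [hu, ← div_eq_mul_inv, (ratVal hA hq).v_div (pow_ne_zero _ hy) (zpow_ne_zero _ hq0),
        (ratVal hA hq).v_pow hy]
    have h4 : (ratVal hA hq).v (τ u) =
        b * (ratVal hA hq).v (τ y) - (ratVal hA hq).v ((q : L) ^ a) := by
      rw [hτu', ← div_eq_mul_inv, (ratVal hA hq).v_div (pow_ne_zero _ hτy) (zpow_ne_zero _ hq0),
        (ratVal hA hq).v_pow hτy]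
    have hb : (0 : ℚ) < b := by exact_mod_cast hab.1
    have h5 : (b : ℚ) * (ratVal hA hq).v y ≤ b * (ratVal hA hq).v (τ y) := by linarith
    exact le_of_mul_le_mul_left h5 hb
  apply le_antisymm
  · have := key σ⁻¹ hσ' (σ x) hσx
    have h2 : σ⁻¹ (σ x) = x := σ.symm_apply_apply x
    rwa [h2] at this
  · exact key σ hσ x hx

theorem ratVal_map_of_mem_inertia {σ : L ≃ₐ[ℚ] L} (hσ : σ ∈ A.inertiaSubgroupIn ℚ) (x : L) :
    (ratVal hA hq).v (σ x) = (ratVal hA hq).v x := by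
  obtain ⟨τ, -, rfl⟩ := hσ
  exact ratVal_map_of_mem_decomposition hA hq τ.2 x

theorem ratVal_sub_of_mem_inertia {σ : L ≃ₐ[ℚ] L} (hσ : σ ∈ A.inertiaSubgroupIn ℚ) (x : L)
    (hx : x ≠ 0) (hv : 0 ≤ (ratVal hA hq).v x) : (ratVal hA hq).Gt (σ x - x) 0 := by
  obtain ⟨τ, hτ, rfl⟩ := hσ
  have hxA : x ∈ A := (ratVal_nonneg_iff hA hq hx).1 hv
  by_cases h0 : τ.1 x - x = 0
  · exact Or.inl h0
  right
  show 0 < (ratVal hA hq).v (τ.1 x - x)
  rw [ratVal_pos_iff hA hq h0]
  have h1 : τ • (IsLocalRing.residue A ⟨x, hxA⟩) = IsLocalRing.residue A ⟨x, hxA⟩ := by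
    have h2 : MulSemiringAction.toRingAut (A.decompositionSubgroup ℚ)
        (IsLocalRing.ResidueField A) τ = 1 := hτ
    have h3 := congrArg (fun f : RingAut (IsLocalRing.ResidueField A) =>
      f (IsLocalRing.residue A ⟨x, hxA⟩)) h2
    exact h3
  rw [← IsLocalRing.ResidueField.residue_smul, ← sub_eq_zero, ← map_sub,
    IsLocalRing.residue_eq_zero_iff, ← ValuationSubring.coe_mem_nonunits_iff] at h1
  exact h1

end galois

/-- The packaged statement for `ℚ̄`. -/
theorem exists_ratVal (A : ValuationSubring (AlgebraicClosure ℚ)) {q : ℕ} (hq : q.Prime)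
    (hA : A.LiesOverPrime q) (σ : AlgebraicClosure ℚ ≃ₐ[ℚ] AlgebraicClosure ℚ)
    (hσ : σ ∈ A.inertiaSubgroupIn ℚ) :
    ∃ v : RatVal (AlgebraicClosure ℚ),
      (∀ n : ℤ, n ≠ 0 → 0 ≤ v.v (n : AlgebraicClosure ℚ)) ∧
      (∀ n : ℤ, ¬ (q : ℤ) ∣ n → v.v (n : AlgebraicClosure ℚ) = 0) ∧
      (∀ r : ℚ, r ≠ 0 → v.v (algebraMap ℚ (AlgebraicClosure ℚ) r) = padicValRat q r) ∧
      (∀ x, v.v (σ x) = v.v x) ∧
      (∀ x, x ≠ 0 → 0 ≤ v.v x → v.Gt (σ x - x) 0) := by
  haveI : Algebra.IsAlgebraic ℚ (AlgebraicClosure ℚ) := AlgebraicClosure.isAlgebraic ℚ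
  exact ⟨ratVal hA hq, ratVal_intCast_nonneg hA hq, ratVal_intCast_eq_zero hA hq,
    fun r hr => ratVal_ratCast hA hq hr, ratVal_map_of_mem_inertia hA hq hσ,
    ratVal_sub_of_mem_inertia hA hq hσ⟩

end Fermat.Agent.S05_Val
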