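-- Statement S05: the mod-p Galois representation of the Frey curve is unramified at q ≠ 2, p.
-- Final assembly from the helper files S05_Val (valuation attached to a valuation subring) and
-- S05_Abstract (abstract unramifiedness theorem for curves with split 2-division cubic).
import Fermat.Statements.S05
import Fermat.Agent.S05_Abstract
import Fermat.Agent.S05_Val

set_option autoImplicit false
open WeierstrassCurve WeierstrassCurve.Affine WeierstrassCurve.Affine.Point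
open CuspForm ModularFormClass UpperHalfPlane
open FreyPackage

namespace Fermat.Agent.S05

open Fermat.Agent.S05_RatVal Fermat.Agent.S05_Basic

theorem frey_b₂ (P : FreyPackage) :
    P.freyCurve.b₂ = (P.b : ℚ) ^ P.p - (P.a : ℚ) ^ P.p := by
  simp only [WeierstrassCurve.b₂, FreyPackage.freyCurve]
  ring

theorem frey_b₄ (P : FreyPackage) :
    P.freyCurve.b₄ = -((P.a : ℚ) ^ P.p * (P.b : ℚ) ^ P.p) / 8 := by
  simp only [WeierstrassCurve.b₄, FreyPackage.freyCurve]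
  ring

theorem frey_b₆ (P : FreyPackage) : P.freyCurve.b₆ = 0 := by
  simp only [WeierstrassCurve.b₆, FreyPackage.freyCurve]
  ring

theorem frey_flt (P : FreyPackage) :
    (P.a : ℚ) ^ P.p + (P.b : ℚ) ^ P.p = (P.c : ℚ) ^ P.p := by
  have := congrArg (fun z : ℤ => (z : ℚ)) P.hFLT
  push_cast at this
  exact this

/-- a prime cannot divide two of `a`, `b` (resp. `a`, `c`; `b`, `c`) -/
theorem not_dvd_of_gcd {x y : ℤ} (h : gcd x y = 1) {q : ℕ} (hq : q.Prime) (hx : (q : ℤ) ∣ x) :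
    ¬ (q : ℤ) ∣ y := by
  intro hy
  have h1 : (q : ℤ) ∣ gcd x y := dvd_gcd hx hy
  rw [h] at h1
  have h2 : q ∣ 1 := by exact_mod_cast h1
  exact hq.one_lt.ne' (Nat.dvd_one.1 h2)

section pv

variable {q : ℕ} [hq : Fact q.Prime]

theorem pv_four (hq2 : q ≠ 2) : padicValRat q (4 : ℚ) = 0 := by
  have h1 : ¬ q ∣ 4 := by
    intro h
    have h2 : q ∣ 2 ^ 2 := by norm_num; exact h
    have h3 := (Nat.prime_dvd_prime_iff_eq hq.out Nat.prime_two).1 (hq.out.dvd_of_dvd_pow h2)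
    exact hq2 h3
  have h4 : (4 : ℚ) = ((4 : ℕ) : ℚ) := by norm_num
  rw [h4, padicValRat.of_nat, padicValNat.eq_zero_of_not_dvd h1]
  rfl

theorem pv_pow_div (hq2 : q ≠ 2) {n : ℤ} (hn : n ≠ 0) (p : ℕ) :
    padicValRat q ((n : ℚ) ^ p / 4) = p * padicValRat q (n : ℚ) := by
  have hn' : (n : ℚ) ≠ 0 := by exact_mod_cast hn
  rw [padicValRat.div (pow_ne_zero p hn') (by norm_num), padicValRat.pow, pv_four hq2,
    sub_zero]

theorem pv_neg_pow_div (hq2 : q ≠ 2) {n : ℤ} (hn : n ≠ 0) (p : ℕ) :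
    padicValRat q (-(n : ℚ) ^ p / 4) = p * padicValRat q (n : ℚ) := by
  rw [neg_div, padicValRat.neg, pv_pow_div hq2 hn]

theorem pv_int_nonneg (n : ℤ) : 0 ≤ padicValRat q (n : ℚ) := by
  rw [padicValRat.of_int]
  exact Int.natCast_nonneg _

theorem pv_int_eq_zero {n : ℤ} (h : ¬ (q : ℤ) ∣ n) : padicValRat q (n : ℚ) = 0 := by
  rw [padicValRat.of_int, padicValInt.eq_zero_of_not_dvd h]
  rfl

end pv

/-- the `Setup` structure for the base change of the Frey curve from rational data -/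
theorem setup_of (P : FreyPackage) (v : RatVal (AlgebraicClosure ℚ)) (e D E : ℚ)
    (h2 : P.freyCurve.b₂ = -4 * (3 * e + D + E))
    (h4 : P.freyCurve.b₄ = 2 * (3 * e ^ 2 + 2 * e * (D + E) + D * E))
    (h6 : P.freyCurve.b₆ = -4 * e * (e + D) * (e + E))
    (hv2 : v.v (2 : AlgebraicClosure ℚ) = 0) (hD : D ≠ 0) (hE : E ≠ 0) (hDE : D - E ≠ 0)
    (hvD : 0 ≤ v.v (algebraMap ℚ (AlgebraicClosure ℚ) D))
    (hvE : v.v (algebraMap ℚ (AlgebraicClosure ℚ) E) = 0)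
    (hvDE : v.v (algebraMap ℚ (AlgebraicClosure ℚ) (D - E)) = 0) :
    Setup (P.freyCurve⁄(AlgebraicClosure ℚ)) (algebraMap ℚ (AlgebraicClosure ℚ) e)
      (algebraMap ℚ (AlgebraicClosure ℚ) D) (algebraMap ℚ (AlgebraicClosure ℚ) E) v where
  two_ne := two_ne_zero
  hb₂ := by
    show (P.freyCurve.map (algebraMap ℚ (AlgebraicClosure ℚ))).b₂ = _
    rw [WeierstrassCurve.map_b₂, h2]
    simp only [map_neg, map_mul, map_add, map_ofNat]
  hb₄ := by
    show (P.freyCurve.map (algebraMap ℚ (AlgebraicClosure ℚ))).b₄ = _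
    rw [WeierstrassCurve.map_b₄, h4]
    simp only [map_mul, map_add, map_ofNat, map_pow]
  hb₆ := by
    show (P.freyCurve.map (algebraMap ℚ (AlgebraicClosure ℚ))).b₆ = _
    rw [WeierstrassCurve.map_b₆, h6]
    simp only [map_neg, map_mul, map_add, map_ofNat]
  v_two := hv2
  D_ne := (map_ne_zero _).2 hD
  E_ne := (map_ne_zero _).2 hE
  DE_ne := by rw [← map_sub]; exact (map_ne_zero _).2 hDE
  vD := hvD
  vE := hvE
  vDE := by rw [← map_sub]; exact hvDE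

theorem result (P : FreyPackage) {q : ℕ} (hq : q.Prime) (hq2 : q ≠ 2) (hqp : q ≠ P.p) : P.GaloisRepUnramifiedAt q := by
  intro A hA σ hσ x
  apply Subtype.ext
  show Point.map (W' := P.freyCurve) σ.toAlgHom x.1 = x.1
  have : Fact q.Prime := ⟨hq⟩
  obtain ⟨v, -, hvint, hvrat, hσv, hσsub⟩ := S05_Val.exists_ratVal A hq hA σ hσ
  -- the torsion hypothesis
  have hx : P.p • x.1 = 0 := by
    have h1 := (Submodule.mem_torsionBy_iff _ _).1 x.2
    rwa [natCast_zsmul] at h1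
  -- facts on `2` and `p`
  have hv2 : v.v (2 : AlgebraicClosure ℚ) = 0 := by
    have h1 : ¬ (q : ℤ) ∣ 2 := by
      intro h
      have h2 : q ∣ 2 := by exact_mod_cast h
      exact hq2 ((Nat.prime_dvd_prime_iff_eq hq Nat.prime_two).1 h2)
    have := hvint 2 h1
    simpa using this
  have hp : ((P.p : ℕ) : AlgebraicClosure ℚ) ≠ 0 := Nat.cast_ne_zero.2 P.hp0
  have hpv : v.v ((P.p : ℕ) : AlgebraicClosure ℚ) = 0 := by
    have h1 : ¬ (q : ℤ) ∣ (P.p : ℤ) := by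
      intro h
      have h2 : q ∣ P.p := by exact_mod_cast h
      exact hqp ((Nat.prime_dvd_prime_iff_eq hq P.pp).1 h2)
    have := hvint (P.p : ℤ) h1
    simpa using this
  have ha0 : (P.a : ℚ) ≠ 0 := by exact_mod_cast P.ha0
  have hb0 : (P.b : ℚ) ≠ 0 := by exact_mod_cast P.hb0
  have hc0 : (P.c : ℚ) ≠ 0 := by exact_mod_cast P.hc0
  have hA0 : (P.a : ℚ) ^ P.p ≠ 0 := pow_ne_zero _ ha0
  have hB0 : (P.b : ℚ) ^ P.p ≠ 0 := pow_ne_zero _ hb0
  have hC0 : (P.c : ℚ) ^ P.p ≠ 0 := pow_ne_zero _ hc0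
  have hflt := frey_flt P
  have hb2 := frey_b₂ P
  have hb4 := frey_b₄ P
  have hb6 := frey_b₆ P
  by_cases hqb : (q : ℤ) ∣ P.b
  · -- `q ∣ b`
    have hqa : ¬ (q : ℤ) ∣ P.a := fun h => not_dvd_of_gcd P.hgcdab hq h hqb
    have hqc : ¬ (q : ℤ) ∣ P.c := not_dvd_of_gcd P.hgcdbc hq hqb
    have hD : -(P.b : ℚ) ^ P.p / 4 ≠ 0 := div_ne_zero (neg_ne_zero.2 hB0) (by norm_num)
    have hE : (P.a : ℚ) ^ P.p / 4 ≠ 0 := div_ne_zero hA0 (by norm_num)
    have hDEeq : -(P.b : ℚ) ^ P.p / 4 - (P.a : ℚ) ^ P.p / 4 = -(P.c : ℚ) ^ P.p / 4 := by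
      rw [← hflt]; ring
    have hDE : -(P.b : ℚ) ^ P.p / 4 - (P.a : ℚ) ^ P.p / 4 ≠ 0 := by
      rw [hDEeq]; exact div_ne_zero (neg_ne_zero.2 hC0) (by norm_num)
    have hsetup := setup_of P v 0 (-(P.b : ℚ) ^ P.p / 4) ((P.a : ℚ) ^ P.p / 4)
      (by rw [hb2]; ring) (by rw [hb4]; ring) (by rw [hb6]; ring) hv2 hD hE hDE
      (by rw [hvrat _ hD, pv_neg_pow_div hq2 P.hb0]
          exact_mod_cast mul_nonneg (Int.natCast_nonneg P.p) (pv_int_nonneg _))
      (by rw [hvrat _ hE, pv_pow_div hq2 P.ha0, pv_int_eq_zero hqa, mul_zero, Int.cast_zero])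
      (by rw [hvrat _ hDE, hDEeq, pv_neg_pow_div hq2 P.hc0, pv_int_eq_zero hqc, mul_zero, Int.cast_zero])
    refine S05_Abstract.map_eq_of_torsion hsetup σ hσv hσsub P.p hp hpv ?_ x.1 hx
    right
    refine ⟨(P.b : ℚ), hb0, ?_⟩
    rw [hvrat _ hD, hvrat _ hb0, pv_neg_pow_div hq2 P.hb0, Int.cast_mul, Int.cast_natCast]
  · by_cases hqc : (q : ℤ) ∣ P.c
    · -- `q ∣ c`
      have hqa : ¬ (q : ℤ) ∣ P.a := fun h => not_dvd_of_gcd P.hgcdac hq h hqc
      have hD : -(P.c : ℚ) ^ P.p / 4 ≠ 0 := div_ne_zero (neg_ne_zero.2 hC0) (by norm_num)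
      have hE : -(P.a : ℚ) ^ P.p / 4 ≠ 0 := div_ne_zero (neg_ne_zero.2 hA0) (by norm_num)
      have hDEeq : -(P.c : ℚ) ^ P.p / 4 - -(P.a : ℚ) ^ P.p / 4 = -(P.b : ℚ) ^ P.p / 4 := by
        rw [← hflt]; ring
      have hDE : -(P.c : ℚ) ^ P.p / 4 - -(P.a : ℚ) ^ P.p / 4 ≠ 0 := by
        rw [hDEeq]; exact div_ne_zero (neg_ne_zero.2 hB0) (by norm_num)
      have hsetup := setup_of P v ((P.a : ℚ) ^ P.p / 4) (-(P.c : ℚ) ^ P.p / 4)
        (-(P.a : ℚ) ^ P.p / 4)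
        (by rw [hb2, ← hflt]; ring) (by rw [hb4, ← hflt]; ring) (by rw [hb6]; ring) hv2 hD hE hDE
        (by rw [hvrat _ hD, pv_neg_pow_div hq2 P.hc0]
            exact_mod_cast mul_nonneg (Int.natCast_nonneg P.p) (pv_int_nonneg _))
        (by rw [hvrat _ hE, pv_neg_pow_div hq2 P.ha0, pv_int_eq_zero hqa, mul_zero, Int.cast_zero])
        (by rw [hvrat _ hDE, hDEeq, pv_neg_pow_div hq2 P.hb0, pv_int_eq_zero hqb, mul_zero, Int.cast_zero])
      refine S05_Abstract.map_eq_of_torsion hsetup σ hσv hσsub P.p hp hpv ?_ x.1 hx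
      right
      refine ⟨(P.c : ℚ), hc0, ?_⟩
      rw [hvrat _ hD, hvrat _ hc0, pv_neg_pow_div hq2 P.hc0, Int.cast_mul, Int.cast_natCast]
    · -- `q ∤ b`, `q ∤ c`
      have hD : (P.a : ℚ) ^ P.p / 4 ≠ 0 := div_ne_zero hA0 (by norm_num)
      have hE : -(P.b : ℚ) ^ P.p / 4 ≠ 0 := div_ne_zero (neg_ne_zero.2 hB0) (by norm_num)
      have hDEeq : (P.a : ℚ) ^ P.p / 4 - -(P.b : ℚ) ^ P.p / 4 = (P.c : ℚ) ^ P.p / 4 := by
        rw [← hflt]; ring
      have hDE : (P.a : ℚ) ^ P.p / 4 - -(P.b : ℚ) ^ P.p / 4 ≠ 0 := by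
        rw [hDEeq]; exact div_ne_zero hC0 (by norm_num)
      have hsetup := setup_of P v 0 ((P.a : ℚ) ^ P.p / 4) (-(P.b : ℚ) ^ P.p / 4)
        (by rw [hb2]; ring) (by rw [hb4]; ring) (by rw [hb6]; ring) hv2 hD hE hDE
        (by rw [hvrat _ hD, pv_pow_div hq2 P.ha0]
            exact_mod_cast mul_nonneg (Int.natCast_nonneg P.p) (pv_int_nonneg _))
        (by rw [hvrat _ hE, pv_neg_pow_div hq2 P.hb0, pv_int_eq_zero hqb, mul_zero, Int.cast_zero])
        (by rw [hvrat _ hDE, hDEeq, pv_pow_div hq2 P.hc0, pv_int_eq_zero hqc, mul_zero, Int.cast_zero])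
      refine S05_Abstract.map_eq_of_torsion hsetup σ hσv hσsub P.p hp hpv ?_ x.1 hx
      right
      refine ⟨(P.a : ℚ), ha0, ?_⟩
      rw [hvrat _ hD, hvrat _ ha0, pv_pow_div hq2 P.ha0, Int.cast_mul, Int.cast_natCast]

end Fermat.Agent.S05
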