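import Mathlib
import Fermat.Prelude.Thm_ModularForm_sturm_bound_Gamma0
import Fermat.Prelude.Thm_CongruenceSubgroup_one_mem_strictPeriods_Gamma0

set_option autoImplicit false

open UpperHalfPlane ModularFormClass
open scoped MatrixGroups

namespace Fermat.Agent.S07_Sturm

/-- The first column of a matrix in `SL(2, ℤ)` reduced mod `N`. -/
def firstCol (N : ℕ) (g : SL(2, ℤ)) : ZMod N × ZMod N :=
  (((g 0 0 : ℤ) : ZMod N), ((g 1 0 : ℤ) : ZMod N))

theorem firstCol_eq_imp_mem (N : ℕ) (g g' : SL(2, ℤ)) (h : firstCol N g = firstCol N g') :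
    g⁻¹ * g' ∈ CongruenceSubgroup.Gamma0 N := by
  rw [CongruenceSubgroup.Gamma0_mem]
  have h0 : ((g 0 0 : ℤ) : ZMod N) = ((g' 0 0 : ℤ) : ZMod N) := congrArg Prod.fst h
  have h1 : ((g 1 0 : ℤ) : ZMod N) = ((g' 1 0 : ℤ) : ZMod N) := congrArg Prod.snd h
  have key : (g⁻¹ * g') 1 0 = -(g 1 0) * (g' 0 0) + (g 0 0) * (g' 1 0) := by
    rw [Matrix.SpecialLinearGroup.coe_mul, Matrix.SpecialLinearGroup.coe_inv,
      Matrix.mul_apply, Fin.sum_univ_two, Matrix.adjugate_fin_two]
    simp
  rw [key]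
  push_cast
  rw [h0, h1]
  ring

theorem index_Gamma0_le (N : ℕ) [NeZero N] : (CongruenceSubgroup.Gamma0 N).index ≤ N ^ 2 := by
  classical
  have hinj : Function.Injective
      (fun q : SL(2, ℤ) ⧸ CongruenceSubgroup.Gamma0 N => firstCol N q.out) := by
    intro q q' h
    have hmem := firstCol_eq_imp_mem N q.out q'.out h
    have : (QuotientGroup.mk q.out : SL(2, ℤ) ⧸ CongruenceSubgroup.Gamma0 N)
        = QuotientGroup.mk q'.out := QuotientGroup.eq.mpr hmem
    simpa using this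
  have hcard := Nat.card_le_card_of_injective _ hinj
  rw [Subgroup.index]
  refine hcard.trans ?_
  rw [Nat.card_prod, Nat.card_zmod, sq]

/-- A weight `k` cusp form on `Γ₀(N)` vanishes as soon as `k * N ^ 2 < 12`. -/
theorem cuspForm_eq_zero (N : ℕ) [NeZero N] (k : ℤ) (hk : 0 ≤ k) (hkN : k * (N : ℤ) ^ 2 < 12)
    (f : CuspForm (CongruenceSubgroup.Gamma0 N) k) : f = 0 := by
  have hmf : (ModularFormClass.modularForm f : ModularForm (CongruenceSubgroup.Gamma0 N) k) = 0 := by
    refine ModularForm.sturm_bound_Gamma0 N _ fun n hn ↦ ?_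
    have hidx := index_Gamma0_le N
    have hlt : (k * ((CongruenceSubgroup.Gamma0 N).index : ℤ)).toNat < 12 := by
      have h1 : k * ((CongruenceSubgroup.Gamma0 N).index : ℤ) ≤ k * (N : ℤ) ^ 2 := by
        apply mul_le_mul_of_nonneg_left _ hk
        exact_mod_cast hidx
      omega
    have hn0 : n = 0 := by
      have : (k * ((CongruenceSubgroup.Gamma0 N).index : ℤ)).toNat / 12 = 0 :=
        Nat.div_eq_of_lt hlt
      omega
    subst hn0
    exact CuspFormClass.qExpansion_coeff_zero f one_pos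
      (CongruenceSubgroup.one_mem_strictPeriods_Gamma0 N)
  have hcoe : (⇑f : ℍ → ℂ) = 0 := by
    have := congrArg (fun F : ModularForm (CongruenceSubgroup.Gamma0 N) k ↦ (⇑F : ℍ → ℂ)) hmf
    simpa using this
  exact DFunLike.coe_injective (hcoe.trans (FunLike.coe_zero).symm)

end Fermat.Agent.S07_Sturm
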