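import Fermat.Statements.S07
import Fermat.Agent.S07_Sturm

set_option autoImplicit false
open WeierstrassCurve WeierstrassCurve.Affine WeierstrassCurve.Affine.Point
open CuspForm ModularFormClass UpperHalfPlane
open ModularForm

namespace Fermat.Agent.S07

theorem result (f : CuspForm (CongruenceSubgroup.Gamma0 2) 2) : f = 0 :=
  Fermat.Agent.S07_Sturm.cuspForm_eq_zero 2 2 (by norm_num) (by norm_num) f

end Fermat.Agent.S07
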