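import Fermat.Agent.S10_Units

/-!
# Project K (K2): case I of Fermat's Last Theorem when `ℤ[ζ_p]` is a PID

`caseI`: for a prime `p ≥ 5` such that the ring of integers of the `p`-th cyclotomic field is a
principal ideal ring, `a ^ p + b ^ p = c ^ p` has no solution in integers with `gcd(a, b, c) = 1`
and `p ∤ a b c` (Kummer).  The proof is the classical one: the factors `a + ζ^i b` of `c^p` are
pairwise coprime, so `a + ζ b = u α^p`; `α^p` is congruent to a rational integer mod `p` and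
`u = ζ^k ū` (unit lemma), whence `a + ζ b ≡ ζ^k (a + ζ⁻¹ b) mod p`, which contradicts the fact
that `1, ζ, …, ζ^(p-2)` is an integral basis.
-/

set_option autoImplicit false

open NumberField Fermat.Agent.S10_Units

namespace Fermat.Agent.S10_CaseI

variable {p : ℕ} [hp : Fact p.Prime] {K : Type*} [Field K] [NumberField K]
  [IsCyclotomicExtension {p} ℚ K] {ζ : K} (hζ : IsPrimitiveRoot ζ p)

omit [NumberField K] [IsCyclotomicExtension {p} ℚ K] in
theorem pow_mod_eq (k : ℕ) : hζ.toInteger ^ k = hζ.toInteger ^ (k % p) := by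
  have h1 : hζ.toInteger ^ p = 1 := hζ.toInteger_isPrimitiveRoot.pow_eq_one
  conv_lhs => rw [← Nat.mod_add_div k p, pow_add, pow_mul, h1, one_pow, mul_one]

/-- The final step of case I: a congruence `a + bζ ≡ aζ^k + bζ^(k-1) mod p` forces
`p ∣ a`, `p ∣ b` or `p ∣ a - b` (for `p ≥ 5`). -/
theorem caseI_aux (hp5 : 5 ≤ p) {a b : ℤ} (k : ℕ)
    (h : (p : 𝓞 K) ∣ (a : 𝓞 K) + b * hζ.toInteger - a * hζ.toInteger ^ k
      - b * hζ.toInteger ^ (k + (p - 1))) :
    (p : ℤ) ∣ a ∨ (p : ℤ) ∣ b ∨ (p : ℤ) ∣ a - b := by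
  classical
  set j := k % p with hj
  set j' := (k + (p - 1)) % p with hj'
  have hjp : j < p := Nat.mod_lt _ hp.out.pos
  have hj'p : j' < p := Nat.mod_lt _ hp.out.pos
  have hjj' : j' = if j = 0 then p - 1 else j - 1 := by
    rw [hj', Nat.add_mod, ← hj]
    have h1 : (p - 1) % p = p - 1 := Nat.mod_eq_of_lt (by omega)
    rw [h1]
    split_ifs with h0
    · rw [h0, zero_add, h1]
    · have : j + (p - 1) = (j - 1) + p := by omega
      rw [this, Nat.add_mod_right, Nat.mod_eq_of_lt (by omega)]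
  rw [pow_mod_eq hζ k, pow_mod_eq hζ (k + (p - 1)), ← hj, ← hj'] at h
  let f : ℕ → ℤ := fun i => (if i = 0 then a else 0) + (if i = 1 then b else 0)
    - (if i = j then a else 0) - (if i = j' then b else 0)
  have hsum : ∑ i ∈ Finset.range p, (f i : 𝓞 K) * hζ.toInteger ^ i
      = (a : 𝓞 K) + b * hζ.toInteger - a * hζ.toInteger ^ j - b * hζ.toInteger ^ j' := by
    have h0 : 0 ∈ Finset.range p := Finset.mem_range.mpr hp.out.pos
    have h1 : 1 ∈ Finset.range p := Finset.mem_range.mpr hp.out.one_lt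
    have h2 : j ∈ Finset.range p := Finset.mem_range.mpr hjp
    have h3 : j' ∈ Finset.range p := Finset.mem_range.mpr hj'p
    simp only [f, Int.cast_sub, Int.cast_add, Int.cast_ite, Int.cast_zero, sub_mul, add_mul,
      ite_mul, zero_mul, Finset.sum_sub_distrib, Finset.sum_add_distrib, Finset.sum_ite_eq',
      h0, h1, h2, h3, if_true, pow_zero, mul_one, pow_one]
  rw [← hsum] at h
  -- an index outside `{0, 1, j, j'}`
  obtain ⟨i₀, hi₀⟩ : (Finset.range p \ {0, 1, j, j'}).Nonempty := by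
    rw [← Finset.card_pos]
    have h1 := Finset.le_card_sdiff ({0, 1, j, j'} : Finset ℕ) (Finset.range p)
    have h2 : ({0, 1, j, j'} : Finset ℕ).card ≤ 4 := Finset.card_le_four
    rw [Finset.card_range] at h1
    omega
  rw [Finset.mem_sdiff, Finset.mem_range] at hi₀
  simp only [Finset.mem_insert, Finset.mem_singleton, not_or] at hi₀
  obtain ⟨hi₀p, h00, h01, h0j, h0j'⟩ := hi₀
  have hf0 : f i₀ = 0 := by simp [f, h00, h01, h0j, h0j']
  have hdvd := dvd_coeff_of_dvd_sum hζ f i₀ hi₀p hf0 h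
  by_cases hj0 : j = 0
  · -- `p ∣ b`
    right; left
    have hj'1 : j' = p - 1 := by rw [hjj', if_pos hj0]
    have := hdvd 1 hp.out.one_lt
    have h10 : (1 : ℕ) ≠ j := by omega
    have h11 : (1 : ℕ) ≠ j' := by omega
    simpa [f, h10, h11] using this
  · by_cases hj1 : j = 1
    · right; right
      have hj'0 : j' = 0 := by rw [hjj', if_neg hj0, hj1]
      have := hdvd 0 hp.out.pos
      simpa [f, hj1, hj'0] using this
    · left
      have hj'0 : j' ≠ 0 := by rw [hjj', if_neg hj0]; omega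
      have := hdvd 0 hp.out.pos
      have h1 : (0 : ℕ) ≠ j := fun h => hj0 h.symm
      have h2 : (0 : ℕ) ≠ j' := fun h => hj'0 h.symm
      simpa [f, h1, h2] using this

/-- Fermat's little theorem applied to the Fermat equation: `a + b ≡ c mod p`. -/
theorem add_modEq_of_flt {a b c : ℤ} (h : a ^ p + b ^ p = c ^ p) :
    ((a : ZMod p) + b = c) := by
  have h1 := congrArg (Int.cast : ℤ → ZMod p) h
  push_cast at h1
  rwa [ZMod.pow_card, ZMod.pow_card, ZMod.pow_card] at h1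

/-- Coprimality of the factors `a + ζ b` and `a + η b` (`η ≠ ζ`) when `p ∤ a + b`. -/
theorem isCoprime_factors {a b : ℤ} (hab : IsCoprime a b) (hpab : ¬ (p : ℤ) ∣ a + b)
    {η : 𝓞 K} (hη : η ∈ Polynomial.nthRootsFinset p (1 : 𝓞 K)) (hne : η ≠ hζ.toInteger) :
    IsCoprime ((a : 𝓞 K) + hζ.toInteger * b) ((a : 𝓞 K) + η * b) := by
  have hζ' : IsPrimitiveRoot hζ.toInteger p := hζ.toInteger_isPrimitiveRoot
  have hmem : hζ.toInteger ∈ Polynomial.nthRootsFinset p (1 : 𝓞 K) :=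
    (Polynomial.mem_nthRootsFinset hp.out.pos 1).2 hζ'.pow_eq_one
  have hassoc : Associated (hζ.toInteger - 1) (hζ.toInteger - η) :=
    hζ'.nthRootsFinset_pairwise_associated_sub_one_sub_of_prime hp.out hmem hη (Ne.symm hne)
  set I : Ideal (𝓞 K) := Ideal.span {(a : 𝓞 K) + hζ.toInteger * b, (a : 𝓞 K) + η * b} with hI
  have hx : (a : 𝓞 K) + hζ.toInteger * b ∈ I := Ideal.subset_span (by simp)
  have hy : (a : 𝓞 K) + η * b ∈ I := Ideal.subset_span (by simp)
  obtain ⟨r, s, hrs⟩ := hab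
  have h1 : (hζ.toInteger - η) ∈ I := by
    have e : hζ.toInteger - η = ((s : 𝓞 K) - r * η) * ((a : 𝓞 K) + hζ.toInteger * b)
        + ((r : 𝓞 K) * hζ.toInteger - s) * ((a : 𝓞 K) + η * b) := by
      have hrs' : (r : 𝓞 K) * a + s * b = 1 := by exact_mod_cast congrArg (Int.cast : ℤ → 𝓞 K) hrs
      linear_combination (-(hζ.toInteger - η)) * hrs'
    rw [e]
    exact I.add_mem (I.mul_mem_left _ hx) (I.mul_mem_left _ hy)
  have h2 : (hζ.toInteger - 1) ∈ I := by
    obtain ⟨w, hw⟩ := hassoc.symm.dvd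
    rw [hw]
    exact I.mul_mem_right _ h1
  have h3 : ((a + b : ℤ) : 𝓞 K) ∈ I := by
    have e : ((a + b : ℤ) : 𝓞 K) = ((a : 𝓞 K) + hζ.toInteger * b) - (hζ.toInteger - 1) * b := by
      push_cast; ring
    rw [e]
    exact I.sub_mem hx (I.mul_mem_right _ h2)
  have h4 : ((p : ℤ) : 𝓞 K) ∈ I := by
    obtain ⟨w, hw⟩ := hζ.toInteger_sub_one_dvd_prime'
    rw [Int.cast_natCast, hw]
    exact I.mul_mem_right _ h2
  have hcop : IsCoprime (p : ℤ) (a + b) :=
    (Nat.prime_iff_prime_int.mp hp.out).coprime_iff_not_dvd.mpr hpab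
  obtain ⟨r', s', hrs'⟩ := hcop
  have h5 : (1 : 𝓞 K) ∈ I := by
    have e : (1 : 𝓞 K) = (r' : 𝓞 K) * ((p : ℤ) : 𝓞 K) + s' * ((a + b : ℤ) : 𝓞 K) := by
      exact_mod_cast (congrArg (Int.cast : ℤ → 𝓞 K) hrs').symm
    rw [e]
    exact I.add_mem (I.mul_mem_left _ h4) (I.mul_mem_left _ h3)
  obtain ⟨r'', s'', h⟩ := Ideal.mem_span_pair.mp h5
  exact ⟨r'', s'', h⟩

/-- **Case I, core.** In a PID `𝓞 K`, no solution of `a^p + b^p = c^p` with `a, b` coprime,
`p ∤ abc` and `a ≢ b mod p` (`p ≥ 5`). -/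
theorem caseI_core (hp5 : 5 ≤ p) (hpid : IsPrincipalIdealRing (𝓞 K)) {a b c : ℤ}
    (hab : IsCoprime a b) (hpa : ¬ (p : ℤ) ∣ a) (hpb : ¬ (p : ℤ) ∣ b) (hpc : ¬ (p : ℤ) ∣ c)
    (hne : ¬ (p : ℤ) ∣ a - b) : a ^ p + b ^ p ≠ c ^ p := by
  classical
  intro hFLT
  have hζ := IsCyclotomicExtension.zeta_spec p ℚ K
  have hζ' : IsPrimitiveRoot hζ.toInteger p := hζ.toInteger_isPrimitiveRoot
  have hp2 : p ≠ 2 := by omega
  have hodd : Odd p := hp.out.odd_of_ne_two hp2
  have hpab : ¬ (p : ℤ) ∣ a + b := by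
    intro h
    have h1 := add_modEq_of_flt hFLT
    have h2 : ((a + b : ℤ) : ZMod p) = 0 := (ZMod.intCast_zmod_eq_zero_iff_dvd _ _).mpr h
    push_cast at h2
    rw [h1] at h2
    exact hpc ((ZMod.intCast_zmod_eq_zero_iff_dvd _ _).mp h2)
  have hprod := hζ'.pow_add_pow_eq_prod_add_mul (a : 𝓞 K) (b : 𝓞 K) hodd
  have hmem : hζ.toInteger ∈ Polynomial.nthRootsFinset p (1 : 𝓞 K) :=
    (Polynomial.mem_nthRootsFinset hp.out.pos 1).2 hζ'.pow_eq_one
  rw [← Finset.mul_prod_erase _ _ hmem] at hprod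
  have hc : ((a : 𝓞 K) + hζ.toInteger * b)
      * ∏ η ∈ (Polynomial.nthRootsFinset p (1 : 𝓞 K)).erase hζ.toInteger, ((a : 𝓞 K) + η * b)
      = (c : 𝓞 K) ^ p := by
    rw [← hprod]; exact_mod_cast congrArg (Int.cast : ℤ → 𝓞 K) hFLT
  have hcop : IsCoprime ((a : 𝓞 K) + hζ.toInteger * b)
      (∏ η ∈ (Polynomial.nthRootsFinset p (1 : 𝓞 K)).erase hζ.toInteger, ((a : 𝓞 K) + η * b)) :=
    IsCoprime.prod_right fun η hη => isCoprime_factors hζ hab hpab (Finset.mem_of_mem_erase hη)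
      (Finset.ne_of_mem_erase hη)
  obtain ⟨d, u, hd⟩ := exists_associated_pow_of_mul_eq_pow' hcop hc
  obtain ⟨σ, hσζ, hunit⟩ := exists_conj hζ hp2
  obtain ⟨k, hk⟩ := hunit u
  obtain ⟨n, y, hy⟩ := exists_int_sub_pow_dvd (p := p) d
  have hσζ' : σ hζ.toInteger = hζ.toInteger ^ (p - 1) := by
    have h1 : hζ.toInteger ^ (p - 1) * hζ.toInteger = 1 := by
      rw [← pow_succ, Nat.sub_add_cancel hp.out.pos, hζ'.pow_eq_one]
    calc σ hζ.toInteger = σ hζ.toInteger * (hζ.toInteger ^ (p - 1) * hζ.toInteger) := by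
          rw [h1, mul_one]
      _ = (σ hζ.toInteger * hζ.toInteger) * hζ.toInteger ^ (p - 1) := by ring
      _ = hζ.toInteger ^ (p - 1) := by rw [hσζ, one_mul]
  have hσx : σ (d ^ p) * σ u = (a : 𝓞 K) + hζ.toInteger ^ (p - 1) * b := by
    rw [← map_mul, hd, map_add, map_mul, map_intCast, map_intCast, hσζ']
  have hσd : σ (d ^ p) = n + p * σ y := by
    have : d ^ p = n + p * y := by linear_combination hy
    rw [this, map_add, map_mul, map_intCast, map_natCast]
  have key : (p : 𝓞 K) ∣ (a : 𝓞 K) + b * hζ.toInteger - a * hζ.toInteger ^ k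
      - b * hζ.toInteger ^ (k + (p - 1)) := by
    refine ⟨hζ.toInteger ^ k * σ u * (y - σ y), ?_⟩
    rw [pow_add]
    linear_combination (-1 : 𝓞 K) * hd + hζ.toInteger ^ k * hσx + d ^ p * hk
      - hζ.toInteger ^ k * σ u * hσd + hζ.toInteger ^ k * σ u * hy
  rcases caseI_aux hζ hp5 k key with h | h | h
  · exact hpa h
  · exact hpb h
  · exact hne h

/-- **Case I of Fermat's Last Theorem** for a prime `p ≥ 5` such that `ℤ[ζ_p]` is a PID:
`a^p + b^p = c^p` has no solution with `gcd(a, b, c) = 1` and `p ∤ abc`. -/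
theorem caseI (hp5 : 5 ≤ p) (hpid : IsPrincipalIdealRing (𝓞 K)) {a b c : ℤ}
    (hgcd : ({a, b, c} : Finset ℤ).gcd id = 1) (hndvd : ¬ (p : ℤ) ∣ a * b * c) :
    a ^ p + b ^ p ≠ c ^ p := by
  intro hFLT
  have hpprime : Prime (p : ℤ) := Nat.prime_iff_prime_int.mp hp.out
  have hp2 : p ≠ 2 := by omega
  have hodd : Odd p := hp.out.odd_of_ne_two hp2
  have hpa : ¬ (p : ℤ) ∣ a := fun h => hndvd (Dvd.dvd.mul_right (Dvd.dvd.mul_right h b) c)
  have hpb : ¬ (p : ℤ) ∣ b := fun h => hndvd (Dvd.dvd.mul_right (Dvd.dvd.mul_left h a) c)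
  have hpc : ¬ (p : ℤ) ∣ c := fun h => hndvd (Dvd.dvd.mul_left h (a * b))
  -- pairwise coprimality
  have hgcd1 : ∀ q : ℤ, q ∣ a → q ∣ b → q ∣ c → IsUnit q := by
    intro q ha hb hc
    have : q ∣ ({a, b, c} : Finset ℤ).gcd id := by
      refine Finset.dvd_gcd_iff.mpr fun x hx => ?_
      simp only [Finset.mem_insert, Finset.mem_singleton] at hx
      rcases hx with rfl | rfl | rfl <;> assumption
    rw [hgcd] at this
    exact isUnit_of_dvd_one this
  have hab : IsCoprime a b := by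
    refine isCoprime_of_prime_dvd ?_ fun q hq hqa hqb => ?_
    · rintro ⟨rfl, rfl⟩
      exact hpa (dvd_zero _)
    · have hqc : q ∣ c := by
        refine hq.dvd_of_dvd_pow (n := p) ?_
        rw [← hFLT]
        exact dvd_add (dvd_pow hqa hp.out.ne_zero) (dvd_pow hqb hp.out.ne_zero)
      exact hq.not_isUnit (hgcd1 q hqa hqb hqc)
  have hac : IsCoprime a c := by
    refine isCoprime_of_prime_dvd ?_ fun q hq hqa hqc => ?_
    · rintro ⟨rfl, rfl⟩
      exact hpa (dvd_zero _)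
    · have hqb : q ∣ b := by
        refine hq.dvd_of_dvd_pow (n := p) ?_
        have : b ^ p = c ^ p - a ^ p := by linear_combination hFLT
        rw [this]
        exact dvd_sub (dvd_pow hqc hp.out.ne_zero) (dvd_pow hqa hp.out.ne_zero)
      exact hq.not_isUnit (hgcd1 q hqa hqb hqc)
  by_cases hne : (p : ℤ) ∣ a - b
  · -- then `a ≢ -c`, use the equation `a^p + (-c)^p = (-b)^p`
    have hne' : ¬ (p : ℤ) ∣ a - (-c) := by
      intro h
      have h1 := add_modEq_of_flt hFLT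
      have h2 : ((a - b : ℤ) : ZMod p) = 0 := (ZMod.intCast_zmod_eq_zero_iff_dvd _ _).mpr hne
      have h3 : ((a - (-c) : ℤ) : ZMod p) = 0 := (ZMod.intCast_zmod_eq_zero_iff_dvd _ _).mpr h
      push_cast at h2 h3
      have h4 : (3 : ZMod p) * (a : ZMod p) = 0 := by linear_combination h1 + h2 + h3
      have h5 : ((3 * a : ℤ) : ZMod p) = 0 := by push_cast; exact h4
      rw [ZMod.intCast_zmod_eq_zero_iff_dvd] at h5
      rcases hpprime.dvd_or_dvd h5 with h6 | h6
      · have : (p : ℤ) ≤ 3 := Int.le_of_dvd (by norm_num) h6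
        omega
      · exact hpa h6
    refine caseI_core (K := K) hp5 hpid (a := a) (b := -c) (c := -b) hac.neg_right hpa
      (by rwa [dvd_neg]) (by rwa [dvd_neg]) hne' ?_
    rw [hodd.neg_pow, hodd.neg_pow]
    linear_combination hFLT
  · exact caseI_core (K := K) hp5 hpid hab hpa hpb hpc hne hFLT

end Fermat.Agent.S10_CaseI
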