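import Mathlib

/-!
# Kummer's second case of Fermat's Last Theorem (the `λ`-adic descent)

Let `p` be an odd prime, `K` a `p`-th cyclotomic extension of `ℚ`, `ζ` a primitive `p`-th root
of unity, `λ = ζ - 1`.  Assuming that `𝓞 K` is a principal ideal ring and that Kummer's lemma
holds (a unit congruent to a rational integer modulo `p` is a `p`-th power), the equation
`x ^ p + y ^ p = ε * λ ^ (m * p) * z ^ p` has no solution with `x`, `y` coprime and `λ ∤ z`,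
`m ≥ 1`.  In particular `a ^ p + b ^ p = c ^ p` has no solution in coprime nonzero integers
with `p ∣ a * b * c`.
-/

namespace Fermat.Agent.S10_CaseII

open NumberField Polynomial

variable {p : ℕ} [hp : Fact p.Prime] {K : Type*} [Field K] [NumberField K]
  [IsCyclotomicExtension {p} ℚ K] {ζ : K} (hζ : IsPrimitiveRoot ζ p)

/-- `λ = ζ - 1` is prime. -/
lemma prime_lam : Prime (hζ.toInteger - 1) := hζ.zeta_sub_one_prime'

/-- The residue ring modulo `λ` has `p` elements. -/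
lemma card_quot (hodd : p ≠ 2) : Nat.card (𝓞 K ⧸ Ideal.span {hζ.toInteger - 1}) = p := by
  rw [hζ.card_quotient_toInteger_sub_one, hζ.norm_toInteger_sub_one_of_prime_ne_two' hodd]
  simp

/-- Every algebraic integer of `K` is congruent to a rational integer modulo `λ`. -/
lemma exists_int_sub_dvd (hodd : p ≠ 2) (x : 𝓞 K) : ∃ n : ℤ, hζ.toInteger - 1 ∣ x - n := by
  have hcard := card_quot hζ hodd
  have h1 : (1 : 𝓞 K ⧸ Ideal.span {hζ.toInteger - 1}) ≠ 0 := by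
    intro h
    have h' : (1 : 𝓞 K) ∈ Ideal.span {hζ.toInteger - 1} :=
      Ideal.Quotient.eq_zero_iff_mem.1 (by simp at h)
    rw [Ideal.mem_span_singleton] at h'
    exact (prime_lam hζ).not_isUnit (isUnit_of_dvd_one h')
  have hmem := mem_zmultiples_of_prime_card hcard h1
    (g' := Ideal.Quotient.mk (Ideal.span {hζ.toInteger - 1}) x)
  obtain ⟨n, hn⟩ := AddSubgroup.mem_zmultiples_iff.1 hmem
  refine ⟨n, ?_⟩
  rw [← Ideal.mem_span_singleton, ← Ideal.Quotient.eq_zero_iff_mem]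
  simp [← hn]

omit [NumberField K] [IsCyclotomicExtension {p} ℚ K] in
/-- `λ ∣ x - y` implies `λ ^ p ∣ x ^ p - y ^ p`. -/
lemma pow_sub_pow_dvd {x y : 𝓞 K} (h : hζ.toInteger - 1 ∣ x - y) :
    (hζ.toInteger - 1) ^ p ∣ x ^ p - y ^ p := by
  have hη := hζ.toInteger_isPrimitiveRoot
  rw [hη.pow_sub_pow_eq_prod_sub_mul x y hp.out.pos]
  have hcard : (nthRootsFinset p (1 : 𝓞 K)).card = p := hη.card_nthRootsFinset
  have e0 : (hζ.toInteger - 1) ^ p = ∏ _μ ∈ nthRootsFinset p (1 : 𝓞 K), (hζ.toInteger - 1) := by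
    rw [Finset.prod_const, hcard]
  rw [e0]
  refine Finset.prod_dvd_prod_of_dvd _ _ fun μ hμ => ?_
  have h1 : hζ.toInteger - 1 ∣ μ - 1 :=
    hη.sub_one_dvd_sub hp.out hμ (one_mem_nthRootsFinset hp.out.pos)
  have e : x - μ * y = (x - y) - (μ - 1) * y := by ring
  rw [e]
  exact dvd_sub h (Dvd.dvd.mul_right h1 y)

/-- `λ` divides a rational integer iff `p` does. -/
lemma lam_dvd_intCast_iff (n : ℤ) : hζ.toInteger - 1 ∣ (n : 𝓞 K) ↔ (p : ℤ) ∣ n := by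
  constructor
  · intro h
    by_contra hn
    have hcop : IsCoprime (p : ℤ) n :=
      (Nat.prime_iff_prime_int.1 hp.out).coprime_iff_not_dvd.2 hn
    obtain ⟨s, t, hst⟩ := hcop
    have h1 : hζ.toInteger - 1 ∣ (1 : 𝓞 K) := by
      have e : (1 : 𝓞 K) = s * (p : 𝓞 K) + t * n := by
        exact_mod_cast congrArg (Int.cast : ℤ → 𝓞 K) hst.symm
      have h2 : hζ.toInteger - 1 ∣ s * (p : 𝓞 K) + t * n :=
        dvd_add (hζ.toInteger_sub_one_dvd_prime'.mul_left _) (h.mul_left _)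
      rwa [← e] at h2
    exact (prime_lam hζ).not_isUnit (isUnit_of_dvd_one h1)
  · rintro ⟨k, rfl⟩
    push_cast
    exact (hζ.toInteger_sub_one_dvd_prime').mul_right _

omit [NumberField K] [IsCyclotomicExtension {p} ℚ K] in
/-- `p ∣ λ ^ p`. -/
lemma natCast_dvd_lam_pow : (p : 𝓞 K) ∣ (hζ.toInteger - 1) ^ p := by
  have h := (IsCyclotomicExtension.Rat.associated_zeta_sub_one_pow_prime p hζ).symm.dvd
  exact h.trans (pow_dvd_pow _ (Nat.sub_le p 1))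

include hζ in
/-- Every `p`-th power is congruent to a rational integer modulo `p`. -/
lemma exists_int_sub_pow_dvd (hodd : p ≠ 2) (x : 𝓞 K) : ∃ n : ℤ, (p : 𝓞 K) ∣ x ^ p - n := by
  obtain ⟨n, hn⟩ := exists_int_sub_dvd hζ hodd x
  refine ⟨n ^ p, ?_⟩
  push_cast
  exact (natCast_dvd_lam_pow hζ).trans (pow_sub_pow_dvd hζ hn)

/-- If `λ ^ p ∣ X ^ p + u * Y ^ p` with `λ ∤ Y`, then the unit `u` is congruent to a rational
integer modulo `p`. -/
lemma exists_int_sub_dvd_of_pow_dvd (hodd : p ≠ 2) {X Y : 𝓞 K} {u : (𝓞 K)ˣ}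
    (hY : ¬ hζ.toInteger - 1 ∣ Y)
    (h : (hζ.toInteger - 1) ^ p ∣ X ^ p + u * Y ^ p) :
    ∃ n : ℤ, (p : 𝓞 K) ∣ (u : 𝓞 K) - n := by
  obtain ⟨a, ha⟩ := exists_int_sub_dvd hζ hodd X
  obtain ⟨b, hb⟩ := exists_int_sub_dvd hζ hodd Y
  have hb' : ¬ (p : ℤ) ∣ b := by
    intro hpb
    apply hY
    have e : Y = (Y - b) + b := by ring
    rw [e]
    exact dvd_add hb ((lam_dvd_intCast_iff hζ b).2 hpb)
  obtain ⟨t, s, hst⟩ : IsCoprime (p : ℤ) b :=
    (Nat.prime_iff_prime_int.1 hp.out).coprime_iff_not_dvd.2 hb'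
  have h1 := pow_sub_pow_dvd hζ ha
  have h2 := pow_sub_pow_dvd hζ hb
  have h3 : (hζ.toInteger - 1) ^ p ∣ (a : 𝓞 K) ^ p + u * (b : 𝓞 K) ^ p := by
    have e : (a : 𝓞 K) ^ p + u * (b : 𝓞 K) ^ p =
        (X ^ p + u * Y ^ p) - (X ^ p - (a : 𝓞 K) ^ p) - u * (Y ^ p - (b : 𝓞 K) ^ p) := by ring
    rw [e]
    exact dvd_sub (dvd_sub h h1) (h2.mul_left _)
  have h4 : (p : 𝓞 K) ∣ (a : 𝓞 K) ^ p + u * (b : 𝓞 K) ^ p := (natCast_dvd_lam_pow hζ).trans h3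
  have h5 : (p : 𝓞 K) ∣ ((s : 𝓞 K) * b) ^ p - 1 := by
    have e1 : (s : 𝓞 K) * b - 1 = (p : 𝓞 K) * (-t) := by
      have := congrArg (Int.cast : ℤ → 𝓞 K) hst
      push_cast at this
      rw [← this]; ring
    have h6 : (s : 𝓞 K) * b - 1 ∣ ((s : 𝓞 K) * b) ^ p - 1 ^ p := sub_dvd_pow_sub_pow _ _ _
    rw [one_pow] at h6
    exact (Dvd.intro _ e1.symm).trans h6
  refine ⟨-(a * s) ^ p, ?_⟩
  have e : (u : 𝓞 K) - ((-(a * s) ^ p : ℤ) : 𝓞 K) =
      (s : 𝓞 K) ^ p * ((a : 𝓞 K) ^ p + u * (b : 𝓞 K) ^ p) - u * (((s : 𝓞 K) * b) ^ p - 1) := by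
    push_cast; ring
  rw [e]
  exact dvd_sub (h4.mul_left _) (h5.mul_left _)

/-- In a principal ideal domain, if a product of pairwise coprime elements is associated to an
`n`-th power, so is each factor. -/
lemma exists_associated_pow_of_prod {R ι : Type*} [CommRing R] [IsDomain R]
    [IsPrincipalIdealRing R] [DecidableEq ι] {s : Finset ι} {f : ι → R} {z : R} {n : ℕ}
    (hcop : ∀ i ∈ s, ∀ j ∈ s, i ≠ j → IsCoprime (f i) (f j))
    (h : Associated (z ^ n) (∏ i ∈ s, f i)) {i : ι} (hi : i ∈ s) :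
    ∃ d : R, Associated (d ^ n) (f i) := by
  rw [← Finset.mul_prod_erase s f hi] at h
  refine exists_associated_pow_of_associated_pow_mul ?_ h
  refine IsCoprime.prod_right fun j hj => ?_
  exact hcop i hi j (Finset.mem_of_mem_erase hj) (Finset.ne_of_mem_erase hj).symm

/-- The descent step: a solution with exponent `m * p` of `λ` has `2 ≤ m` and yields a solution
with exponent `(m - 1) * p`. -/
lemma descent (hodd : p ≠ 2) (hpid : IsPrincipalIdealRing (𝓞 K))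
    (hkummer : ∀ u : (𝓞 K)ˣ, (∃ n : ℤ, (p : 𝓞 K) ∣ (u : 𝓞 K) - n) → ∃ v : (𝓞 K)ˣ, u = v ^ p)
    {m : ℕ} (hm : 1 ≤ m) {x y z : 𝓞 K} {ε : (𝓞 K)ˣ} (hxy : IsCoprime x y)
    (hz : ¬ (hζ.toInteger - 1) ∣ z)
    (heq : x ^ p + y ^ p = ε * (hζ.toInteger - 1) ^ (m * p) * z ^ p) :
    2 ≤ m ∧ ∃ (x' y' z' : 𝓞 K) (ε' : (𝓞 K)ˣ), IsCoprime x' y' ∧ ¬ (hζ.toInteger - 1) ∣ z' ∧
      x' ^ p + y' ^ p = ε' * (hζ.toInteger - 1) ^ ((m - 1) * p) * z' ^ p := by
  classical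
  have := hpid
  have hπ : Prime (hζ.toInteger - 1) := prime_lam hζ
  have hη := hζ.toInteger_isPrimitiveRoot
  have hpodd : Odd p := hp.out.odd_of_ne_two hodd
  have hp0 : p ≠ 0 := hp.out.ne_zero
  have hp3 : 3 ≤ p := by have := hp.out.two_le; omega
  set π := hζ.toInteger - 1 with hπdef
  set S := nthRootsFinset p (1 : 𝓞 K) with hSdef
  have hScard : S.card = p := hη.card_nthRootsFinset
  have hprod : x ^ p + y ^ p = ∏ μ ∈ S, (x + μ * y) := hη.pow_add_pow_eq_prod_add_mul x y hpodd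
  have hπdvd : π ∣ x ^ p + y ^ p := by
    rw [heq]
    exact Dvd.dvd.mul_right
      (Dvd.dvd.mul_left (dvd_pow_self _ (Nat.mul_ne_zero (by omega) hp0)) _) _
  have hy : ¬ π ∣ y := by
    intro hy
    have hx : π ∣ x := by
      have h1 : π ∣ x ^ p := by
        have h2 := dvd_sub hπdvd (dvd_pow hy hp0)
        simpa using h2
      exact hπ.dvd_of_dvd_pow h1
    exact hπ.not_isUnit (hxy.isUnit_of_dvd' hx hy)
  obtain ⟨μ', hμ'S, hμ'⟩ : ∃ μ ∈ S, π ∣ x + μ * y := by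
    rw [hprod] at hπdvd
    exact hπ.exists_mem_finset_dvd hπdvd
  have hall : ∀ μ ∈ S, π ∣ x + μ * y := by
    intro μ hμ
    have h1 : π ∣ μ - μ' := hη.sub_one_dvd_sub hp.out hμ hμ'S
    have e : x + μ * y = (x + μ' * y) + (μ - μ') * y := by ring
    rw [e]
    exact dvd_add hμ' (h1.mul_right y)
  choose! c hc using hall
  have hassoc : ∀ μ₁ ∈ S, ∀ μ₂ ∈ S, μ₁ ≠ μ₂ → ∃ u : (𝓞 K)ˣ, π * u = μ₁ - μ₂ := by
    intro μ₁ h₁ μ₂ h₂ hne
    exact hη.nthRootsFinset_pairwise_associated_sub_one_sub_of_prime hp.out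
      (Finset.mem_coe.2 h₁) (Finset.mem_coe.2 h₂) hne
  have hdiff : ∀ μ₁ ∈ S, ∀ μ₂ ∈ S, μ₁ ≠ μ₂ → ¬ π ∣ c μ₁ - c μ₂ := by
    intro μ₁ h₁ μ₂ h₂ hne hdvd
    obtain ⟨u, hu⟩ := hassoc μ₁ h₁ μ₂ h₂ hne
    have e : π * (c μ₁ - c μ₂) = π * (u * y) := by
      rw [mul_sub, ← hc μ₁ h₁, ← hc μ₂ h₂, ← mul_assoc, hu]; ring
    have e' := mul_left_cancel₀ hπ.ne_zero e
    rw [e'] at hdvd
    exact hy ((hπ.dvd_or_dvd hdvd).resolve_left
      (fun h => hπ.not_isUnit (isUnit_of_dvd_unit h u.isUnit)))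
  obtain ⟨μ₀, hμ₀S, hμ₀⟩ : ∃ μ ∈ S, π ∣ c μ := by
    have hfin : Finite (𝓞 K ⧸ Ideal.span {π}) := hζ.finite_quotient_span_sub_one'
    let _ := Fintype.ofFinite (𝓞 K ⧸ Ideal.span {π})
    have hcard : Fintype.card (𝓞 K ⧸ Ideal.span {π}) = p := by
      rw [← Nat.card_eq_fintype_card]; exact card_quot hζ hodd
    let f : 𝓞 K → 𝓞 K ⧸ Ideal.span {π} := fun μ => Ideal.Quotient.mk _ (c μ)
    have hinj : Set.InjOn f S := by
      intro μ₁ h₁ μ₂ h₂ h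
      by_contra hne
      exact hdiff μ₁ h₁ μ₂ h₂ hne (Ideal.mem_span_singleton.1 (Ideal.Quotient.eq.1 h))
    have himg : S.image f = Finset.univ := by
      apply Finset.eq_univ_of_card
      rw [Finset.card_image_of_injOn hinj, hcard, hScard]
    have h0 : (0 : 𝓞 K ⧸ Ideal.span {π}) ∈ S.image f := by rw [himg]; exact Finset.mem_univ _
    obtain ⟨μ, hμ, h0'⟩ := Finset.mem_image.1 h0
    exact ⟨μ, hμ, Ideal.mem_span_singleton.1 (Ideal.Quotient.eq_zero_iff_mem.1 h0')⟩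
  have hnd : ∀ μ ∈ S, μ ≠ μ₀ → ¬ π ∣ c μ := fun μ hμ hne h =>
    hdiff μ hμ μ₀ hμ₀S hne (dvd_sub h hμ₀)
  have hcop : ∀ μ₁ ∈ S, ∀ μ₂ ∈ S, μ₁ ≠ μ₂ → IsCoprime (c μ₁) (c μ₂) := by
    intro μ₁ h₁ μ₂ h₂ hne
    refine isCoprime_of_prime_dvd ?_ ?_
    · rintro ⟨e1, e2⟩
      exact hdiff μ₁ h₁ μ₂ h₂ hne (by simp [e1, e2])
    · intro q hq hq1 hq2
      obtain ⟨u, hu⟩ := hassoc μ₁ h₁ μ₂ h₂ hne
      have hqy : q ∣ π * y := by
        have e : π * y * u = π * c μ₁ - π * c μ₂ := by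
          rw [← hc μ₁ h₁, ← hc μ₂ h₂]
          linear_combination y * hu
        have h' : q ∣ π * y * u := by
          rw [e]; exact dvd_sub (hq1.mul_left _) (hq2.mul_left _)
        exact Units.dvd_mul_right.1 h'
      have hqx : q ∣ π * x := by
        have e : π * x * u = μ₁ * (π * c μ₂) - μ₂ * (π * c μ₁) := by
          rw [← hc μ₁ h₁, ← hc μ₂ h₂]
          linear_combination x * hu
        have h' : q ∣ π * x * u := by
          rw [e]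
          exact dvd_sub ((hq2.mul_left _).mul_left _) ((hq1.mul_left _).mul_left _)
        exact Units.dvd_mul_right.1 h'
      by_cases hqπ : q ∣ π
      · have hass : Associated q π := hq.associated_of_dvd hπ hqπ
        exact hdiff μ₁ h₁ μ₂ h₂ hne
          (dvd_sub (hass.dvd_iff_dvd_left.1 hq1) (hass.dvd_iff_dvd_left.1 hq2))
      · exact hq.not_isUnit (hxy.isUnit_of_dvd' ((hq.dvd_or_dvd hqx).resolve_left hqπ)
          ((hq.dvd_or_dvd hqy).resolve_left hqπ))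
  set k := (m - 1) * p with hkdef
  have hmk : m * p = k + p := by
    have h1 : m = (m - 1) + 1 := by omega
    rw [hkdef]
    conv_lhs => rw [h1]
    rw [Nat.succ_mul]
  have hprodc : ∏ μ ∈ S, c μ = ε * π ^ k * z ^ p := by
    have h1 : ∏ μ ∈ S, (x + μ * y) = π ^ p * ∏ μ ∈ S, c μ := by
      rw [Finset.prod_congr rfl hc, Finset.prod_mul_distrib, Finset.prod_const, hScard]
    have h2 : π ^ p * ∏ μ ∈ S, c μ = π ^ p * (ε * π ^ k * z ^ p) := by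
      rw [← h1, ← hprod, heq, hmk, pow_add]; ring
    exact mul_left_cancel₀ (pow_ne_zero _ hπ.ne_zero) h2
  have hsplit : c μ₀ * ∏ μ ∈ S.erase μ₀, c μ = ∏ μ ∈ S, c μ := Finset.mul_prod_erase S c hμ₀S
  have hnd' : ¬ π ∣ ∏ μ ∈ S.erase μ₀, c μ := by
    intro h
    obtain ⟨μ, hμ, hd⟩ := hπ.exists_mem_finset_dvd h
    exact hnd μ (Finset.mem_of_mem_erase hμ) (Finset.ne_of_mem_erase hμ) hd
  have hm2 : 2 ≤ m := by
    by_contra hlt
    have hk0 : k = 0 := by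
      have : m = 1 := by omega
      rw [hkdef, this]; simp
    rw [hk0, pow_zero, mul_one] at hprodc
    have h1 : π ∣ (ε : 𝓞 K) * z ^ p := by
      rw [← hprodc]; exact hμ₀.trans (Finset.dvd_prod_of_mem c hμ₀S)
    have h2 : π ∣ z ^ p := (hπ.dvd_or_dvd h1).resolve_left
      (fun h => hπ.not_isUnit (isUnit_of_dvd_unit h ε.isUnit))
    exact hz (hπ.dvd_of_dvd_pow h2)
  have hpk : p ≤ k := by
    rw [hkdef]; exact Nat.le_mul_of_pos_left p (by omega)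
  obtain ⟨c₀, hc₀⟩ : π ^ k ∣ c μ₀ := by
    apply hπ.pow_dvd_of_dvd_mul_right k hnd'
    rw [hsplit, hprodc]
    exact Dvd.dvd.mul_right (Dvd.intro_left _ rfl) _
  have hprod' : c₀ * ∏ μ ∈ S.erase μ₀, c μ = ε * z ^ p := by
    have e : π ^ k * (c₀ * ∏ μ ∈ S.erase μ₀, c μ) = π ^ k * (ε * z ^ p) := by
      rw [← mul_assoc, ← hc₀, hsplit, hprodc]; ring
    exact mul_left_cancel₀ (pow_ne_zero _ hπ.ne_zero) e
  -- the modified family, all of whose members are associated to `p`-th powers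
  set d : 𝓞 K → 𝓞 K := Function.update c μ₀ c₀ with hddef
  have hd0 : d μ₀ = c₀ := Function.update_self _ _ _
  have hdne : ∀ μ, μ ≠ μ₀ → d μ = c μ := fun μ h => Function.update_of_ne h _ _
  have hddvd : ∀ μ, d μ ∣ c μ := by
    intro μ
    by_cases h : μ = μ₀
    · rw [h, hd0, hc₀]; exact Dvd.intro_left _ rfl
    · rw [hdne μ h]
  have hdcop : ∀ μ₁ ∈ S, ∀ μ₂ ∈ S, μ₁ ≠ μ₂ → IsCoprime (d μ₁) (d μ₂) :=
    fun μ₁ h₁ μ₂ h₂ hne =>
      ((hcop μ₁ h₁ μ₂ h₂ hne).of_isCoprime_of_dvd_left (hddvd μ₁)).of_isCoprime_of_dvd_right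
        (hddvd μ₂)
  have hdprod : ∏ μ ∈ S, d μ = ε * z ^ p := by
    rw [← Finset.mul_prod_erase S d hμ₀S, hd0, ← hprod']
    congr 1
    exact Finset.prod_congr rfl fun μ hμ => hdne μ (Finset.ne_of_mem_erase hμ)
  have hdass : Associated (z ^ p) (∏ μ ∈ S, d μ) := ⟨ε, by rw [hdprod]; ring⟩
  have hpow : ∀ μ ∈ S, ∃ ρ : 𝓞 K, Associated (ρ ^ p) (d μ) := fun μ hμ =>
    exists_associated_pow_of_prod hdcop hdass hμ
  -- the three roots `μ₀`, `μ₀ * ζ`, `μ₀ * ζ ^ 2`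
  have hμ₀p : μ₀ ^ p = 1 := (mem_nthRootsFinset hp.out.pos 1).1 hμ₀S
  have hμ₀0 : μ₀ ≠ 0 := by
    intro h; rw [h, zero_pow hp0] at hμ₀p; exact zero_ne_one hμ₀p
  have hηp : hζ.toInteger ^ p = 1 := hη.pow_eq_one
  have hη1 : hζ.toInteger ≠ 1 := hη.ne_one hp.out.one_lt
  have hη2 : hζ.toInteger ^ 2 ≠ 1 := hη.pow_ne_one_of_pos_of_lt (by norm_num) (by omega)
  have hη0 : hζ.toInteger ≠ 0 := hη.ne_zero hp0
  have hμ₁S : μ₀ * hζ.toInteger ∈ S :=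
    (mem_nthRootsFinset hp.out.pos 1).2 (by rw [mul_pow, hμ₀p, hηp, mul_one])
  have hμ₂S : μ₀ * hζ.toInteger ^ 2 ∈ S :=
    (mem_nthRootsFinset hp.out.pos 1).2
      (by rw [mul_pow, hμ₀p, ← pow_mul, mul_comm 2 p, pow_mul, hηp, one_pow, mul_one])
  have hμ₁ne : μ₀ * hζ.toInteger ≠ μ₀ :=
    fun h => hη1 (mul_left_cancel₀ hμ₀0 (by rw [h, mul_one]))
  have hμ₂ne : μ₀ * hζ.toInteger ^ 2 ≠ μ₀ :=
    fun h => hη2 (mul_left_cancel₀ hμ₀0 (by rw [h, mul_one]))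
  have hμ₁₂ : μ₀ * hζ.toInteger ≠ μ₀ * hζ.toInteger ^ 2 := by
    intro h
    have h1 : hζ.toInteger = hζ.toInteger ^ 2 := mul_left_cancel₀ hμ₀0 h
    have h2 : hζ.toInteger * 1 = hζ.toInteger * hζ.toInteger := by
      rw [mul_one, ← sq]; exact h1
    exact hη1 (mul_left_cancel₀ hη0 h2).symm
  obtain ⟨ρ₀, u₀, hρ₀⟩ := hpow μ₀ hμ₀S
  obtain ⟨ρ₁, u₁, hρ₁⟩ := hpow _ hμ₁S
  obtain ⟨ρ₂, u₂, hρ₂⟩ := hpow _ hμ₂S
  rw [hd0] at hρ₀
  rw [hdne _ hμ₁ne] at hρ₁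
  rw [hdne _ hμ₂ne] at hρ₂
  obtain ⟨v, hv⟩ : IsUnit (1 + hζ.toInteger) := by
    have h2 := hη.geom_sum_isUnit hp.out.two_le (j := 2)
      ((Nat.coprime_primes Nat.prime_two hp.out).2 (Ne.symm hodd))
    simpa [Finset.sum_range_succ] using h2
  obtain ⟨ηu, hηu⟩ : IsUnit hζ.toInteger := hη.isUnit hp0
  have hrel : (1 + hζ.toInteger) * c (μ₀ * hζ.toInteger) - c (μ₀ * hζ.toInteger ^ 2) =
      hζ.toInteger * (π ^ k * c₀) := by
    have e : π * ((1 + hζ.toInteger) * c (μ₀ * hζ.toInteger) - c (μ₀ * hζ.toInteger ^ 2)) =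
        π * (hζ.toInteger * (π ^ k * c₀)) := by
      rw [← hc₀]
      have h0 := hc μ₀ hμ₀S
      have h1 := hc _ hμ₁S
      have h2 := hc _ hμ₂S
      linear_combination -(1 + hζ.toInteger) * h1 + h2 + hζ.toInteger * h0
    exact mul_left_cancel₀ hπ.ne_zero e
  set w : (𝓞 K)ˣ := (v * u₁)⁻¹ with hwdef
  have hfin : ρ₁ ^ p + ((-(w * u₂) : (𝓞 K)ˣ) : 𝓞 K) * ρ₂ ^ p =
      ((w * ηu * u₀ : (𝓞 K)ˣ) : 𝓞 K) * π ^ k * ρ₀ ^ p := by
    have hw : (w : 𝓞 K) * ((1 + hζ.toInteger) * u₁) = 1 := by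
      rw [← hv]
      have h1 : w * (v * u₁) = 1 := by rw [hwdef]; exact inv_mul_cancel _
      have h2 := congrArg Units.val h1
      rw [Units.val_mul, Units.val_mul, Units.val_one] at h2
      exact h2
    rw [← hρ₀, ← hρ₁, ← hρ₂] at hrel
    push_cast
    rw [hηu]
    linear_combination (w : 𝓞 K) * hrel - ρ₁ ^ p * hw
  have hρ₂nd : ¬ π ∣ ρ₂ := by
    intro h
    apply hnd _ hμ₂S hμ₂ne
    rw [← hρ₂]
    exact Dvd.dvd.mul_right (dvd_pow h hp0) _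
  have hρ₀nd : ¬ π ∣ ρ₀ := by
    intro h
    have h1 : π ∣ c₀ := by rw [← hρ₀]; exact Dvd.dvd.mul_right (dvd_pow h hp0) _
    have h2 : π ∣ (ε : 𝓞 K) * z ^ p := by rw [← hprod']; exact h1.mul_right _
    have h3 : π ∣ z ^ p := (hπ.dvd_or_dvd h2).resolve_left
      (fun h => hπ.not_isUnit (isUnit_of_dvd_unit h ε.isUnit))
    exact hz (hπ.dvd_of_dvd_pow h3)
  have hdvdp : π ^ p ∣ ρ₁ ^ p + ((-(w * u₂) : (𝓞 K)ˣ) : 𝓞 K) * ρ₂ ^ p := by
    rw [hfin]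
    exact Dvd.dvd.mul_right (Dvd.dvd.mul_left (pow_dvd_pow π hpk) _) _
  obtain ⟨n, hn⟩ := exists_int_sub_dvd_of_pow_dvd hζ hodd hρ₂nd hdvdp
  obtain ⟨δ, hδ⟩ := hkummer _ ⟨n, hn⟩
  refine ⟨hm2, ρ₁, δ * ρ₂, ρ₀, w * ηu * u₀, ?_, hρ₀nd, ?_⟩
  · rw [isCoprime_mul_unit_left_right δ.isUnit]
    have h12 := hcop _ hμ₁S _ hμ₂S hμ₁₂
    rw [← hρ₁, ← hρ₂] at h12
    exact (h12.of_isCoprime_of_dvd_left
      (Dvd.dvd.mul_right (dvd_pow_self ρ₁ hp0) _)).of_isCoprime_of_dvd_right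
      (Dvd.dvd.mul_right (dvd_pow_self ρ₂ hp0) _)
  · rw [mul_pow, ← hfin, hδ, Units.val_pow_eq_pow_val]

/-- **Kummer's second case, general form.**  Assume `𝓞 K` is a principal ideal ring and Kummer's
lemma holds.  Then `x ^ p + y ^ p = ε * λ ^ (m * p) * z ^ p` has no solution with `m ≥ 1`,
`x`, `y` coprime and `λ ∤ z`. -/
theorem caseII_gen (hodd : p ≠ 2) (hpid : IsPrincipalIdealRing (𝓞 K))
    (hkummer : ∀ u : (𝓞 K)ˣ, (∃ n : ℤ, (p : 𝓞 K) ∣ (u : 𝓞 K) - n) → ∃ v : (𝓞 K)ˣ, u = v ^ p)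
    (m : ℕ) (hm : 1 ≤ m) (x y z : 𝓞 K) (ε : (𝓞 K)ˣ) (hxy : IsCoprime x y)
    (hz : ¬ (hζ.toInteger - 1) ∣ z) :
    x ^ p + y ^ p ≠ ε * (hζ.toInteger - 1) ^ (m * p) * z ^ p := by
  induction m generalizing x y z ε with
  | zero => omega
  | succ m ih =>
    intro heq
    obtain ⟨h2, x', y', z', ε', hxy', hz', heq'⟩ := descent hζ hodd hpid hkummer hm hxy hz heq
    exact ih (by omega) x' y' z' ε' hxy' hz' (by simpa using heq')

include hζ in
/-- **Kummer's second case over `ℤ`.**  Assume `𝓞 K` is a principal ideal ring and Kummer's lemma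
holds.  Then `a ^ p + b ^ p = c ^ p` has no solution in integers with `a`, `b` coprime, `c ≠ 0`
and `p ∣ c`. -/
theorem caseII (hodd : p ≠ 2) (hpid : IsPrincipalIdealRing (𝓞 K))
    (hkummer : ∀ u : (𝓞 K)ˣ, (∃ n : ℤ, (p : 𝓞 K) ∣ (u : 𝓞 K) - n) → ∃ v : (𝓞 K)ˣ, u = v ^ p)
    {a b c : ℤ} (hab : IsCoprime a b) (hc : c ≠ 0) (hpc : (p : ℤ) ∣ c) :
    a ^ p + b ^ p ≠ c ^ p := by
  intro heq
  have hpZ : Prime (p : ℤ) := Nat.prime_iff_prime_int.1 hp.out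
  obtain ⟨k, c₀, hc₀, rfl⟩ := WfDvdMonoid.max_power_factor hc hpZ.irreducible
  have hk : 1 ≤ k := by
    by_contra h
    have hk0 : k = 0 := by omega
    rw [hk0, pow_zero, one_mul] at hpc
    exact hc₀ hpc
  obtain ⟨u, hu⟩ := IsCyclotomicExtension.Rat.associated_zeta_sub_one_pow_prime p hζ
  have hz : ¬ hζ.toInteger - 1 ∣ (c₀ : 𝓞 K) := fun h => hc₀ ((lam_dvd_intCast_iff hζ c₀).1 h)
  have h1 : 1 ≤ (p - 1) * k :=
    Nat.mul_pos (by have := hp.out.two_le; omega) hk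
  refine caseII_gen hζ hodd hpid hkummer ((p - 1) * k) h1 (a : 𝓞 K) b c₀ (u ^ (k * p))
    (hab.map (Int.castRingHom (𝓞 K))) hz ?_
  have h2 := congrArg (Int.cast : ℤ → 𝓞 K) heq
  push_cast at h2
  rw [h2, ← hu]
  push_cast
  ring

include hζ in
/-- **Kummer's second case, symmetric form.**  Assume `𝓞 K` is a principal ideal ring and
Kummer's lemma holds.  Then `a ^ p + b ^ p = c ^ p` has no solution in nonzero integers with
`gcd(a, b, c) = 1` and `p ∣ a * b * c`. -/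
theorem caseII_sym (hodd : p ≠ 2) (hpid : IsPrincipalIdealRing (𝓞 K))
    (hkummer : ∀ u : (𝓞 K)ˣ, (∃ n : ℤ, (p : 𝓞 K) ∣ (u : 𝓞 K) - n) → ∃ v : (𝓞 K)ˣ, u = v ^ p)
    {a b c : ℤ} (ha : a ≠ 0) (hb : b ≠ 0) (hc : c ≠ 0)
    (hgcd : ({a, b, c} : Finset ℤ).gcd id = 1) (hdvd : (p : ℤ) ∣ a * b * c) :
    a ^ p + b ^ p ≠ c ^ p := by
  intro heq
  have hpZ : Prime (p : ℤ) := Nat.prime_iff_prime_int.1 hp.out
  have hp0 : p ≠ 0 := hp.out.ne_zero
  have hpodd : Odd p := hp.out.odd_of_ne_two hodd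
  -- a prime dividing two of `a`, `b`, `c` divides the third, hence their gcd
  have hall : ∀ q : ℤ, Prime q → q ∣ a → q ∣ b → q ∣ c → False := by
    intro q hq h1 h2 h3
    have : q ∣ ({a, b, c} : Finset ℤ).gcd id := by
      refine Finset.dvd_gcd fun x hx => ?_
      simp only [Finset.mem_insert, Finset.mem_singleton] at hx
      rcases hx with rfl | rfl | rfl <;> simpa
    rw [hgcd] at this
    exact hq.not_isUnit (isUnit_of_dvd_one this)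
  have hcab : IsCoprime a b := by
    refine isCoprime_of_prime_dvd (fun h => ha h.1) fun q hq h1 h2 => ?_
    refine hall q hq h1 h2 (hq.dvd_of_dvd_pow (n := p) ?_)
    rw [← heq]
    exact dvd_add (dvd_pow h1 hp0) (dvd_pow h2 hp0)
  have hcac : IsCoprime c a := by
    refine isCoprime_of_prime_dvd (fun h => hc h.1) fun q hq h3 h1 => ?_
    refine hall q hq h1 (hq.dvd_of_dvd_pow (n := p) ?_) h3
    have e : b ^ p = c ^ p - a ^ p := by rw [← heq]; ring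
    rw [e]
    exact dvd_sub (dvd_pow h3 hp0) (dvd_pow h1 hp0)
  have hcbc : IsCoprime c b := by
    refine isCoprime_of_prime_dvd (fun h => hc h.1) fun q hq h3 h2 => ?_
    refine hall q hq (hq.dvd_of_dvd_pow (n := p) ?_) h2 h3
    have e : a ^ p = c ^ p - b ^ p := by rw [← heq]; ring
    rw [e]
    exact dvd_sub (dvd_pow h3 hp0) (dvd_pow h2 hp0)
  rcases hpZ.dvd_or_dvd hdvd with hab' | hpc
  · rcases hpZ.dvd_or_dvd hab' with hpa | hpb
    · -- `c ^ p + (-b) ^ p = a ^ p`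
      refine caseII hζ hodd hpid hkummer (a := c) (b := -b) (c := a) hcbc.neg_right ha hpa ?_
      rw [hpodd.neg_pow, ← heq]; ring
    · -- `c ^ p + (-a) ^ p = b ^ p`
      refine caseII hζ hodd hpid hkummer (a := c) (b := -a) (c := b) hcac.neg_right hb hpb ?_
      rw [hpodd.neg_pow, ← heq]; ring
  · exact caseII hζ hodd hpid hkummer hcab hc hpc heq

end Fermat.Agent.S10_CaseII
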