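import Mathlib

/-!
# Units of norm one that are not coboundaries (project K, step K3a)

Let `K` be the `p`-th cyclotomic field (`p` an odd prime) and `L / K` a cyclic extension of
degree `p` with generator `σ`.  We show that there is a unit `η` of `𝓞 L` with `N_{L/K} η = 1`
which is not of the form `σ E / E` for a unit `E` of `𝓞 L`.

The proof is a counting argument on the finitely generated abelian group `X = (𝓞 L)ˣ`
(Dirichlet's unit theorem gives the ranks): see `core`.
-/

namespace Fermat.Agent.S10_NormOne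

open Module NumberField

/-- Lemma A: for a finitely generated abelian group `M` having an element of order `p`,
the index of `p M` is finite and at least `p ^ (rank M + 1)`. -/
theorem pow_succ_le_index_range_nsmul {M : Type*} [AddCommGroup M] [Module.Finite ℤ M]
    (p : ℕ) (hp : p.Prime) (z : M) (hz0 : z ≠ 0) (hzp : p • z = 0) :
    (nsmulAddMonoidHom (α := M) p).range.index ≠ 0 ∧
      p ^ (Module.finrank ℤ M + 1) ≤ (nsmulAddMonoidHom (α := M) p).range.index := by
  classical
  set T : Submodule ℤ M := Submodule.torsion ℤ M with hT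
  have hrank : Module.finrank ℤ (M ⧸ T) = Module.finrank ℤ M :=
    finrank_quotient_eq_of_le_torsion le_rfl
  have hmemT : ∀ x : M, x ∈ T ↔ ∃ a : (nonZeroDivisors ℤ), a • x = 0 :=
    fun x => Submodule.mem_torsion_iff x
  set π : M →+ (M ⧸ T) := (T.mkQ).toAddMonoidHom with hπdef
  have hπ : Function.Surjective π := T.mkQ_surjective
  set f : M →+ M := nsmulAddMonoidHom p with hf
  have h1 : (f.range.map π) = (nsmulAddMonoidHom (α := M ⧸ T) p).range := by
    ext q
    constructor
    · rintro ⟨_, ⟨m, rfl⟩, rfl⟩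
      exact ⟨π m, by simp [f]⟩
    · rintro ⟨q', rfl⟩
      obtain ⟨m, rfl⟩ := hπ q'
      exact ⟨f m, ⟨m, rfl⟩, by simp [f]⟩
  have h2 : (f.range ⊔ π.ker).index = p ^ Module.finrank ℤ M := by
    have := AddSubgroup.index_map f.range π
    rw [h1, AddSubgroup.index_range_nsmul, AddMonoidHom.range_eq_top.mpr hπ,
      AddSubgroup.index_top, mul_one, hrank] at this
    exact this.symm
  have h3 : f.range.relIndex (f.range ⊔ π.ker) * (f.range ⊔ π.ker).index = f.range.index :=
    AddSubgroup.relIndex_mul_index le_sup_left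
  rw [AddSubgroup.relIndex_sup_left, h2] at h3
  have hmemker : ∀ x : M, x ∈ π.ker ↔ x ∈ T := by
    intro x
    rw [AddMonoidHom.mem_ker]
    exact Submodule.Quotient.mk_eq_zero T
  -- the torsion is finite
  have hTfin : Finite T := Module.finite_of_fg_torsion T (Submodule.torsion_isTorsion)
  have hkerfin : Finite π.ker :=
    Finite.of_injective (fun x : π.ker => (⟨x.1, (hmemker _).1 x.2⟩ : T))
      (fun a b h => Subtype.ext (by simpa using congrArg Subtype.val h))
  -- the relative index is the index of `p T` in `T`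
  set g : π.ker →+ π.ker := nsmulAddMonoidHom p with hg
  have h4 : f.range.addSubgroupOf π.ker = g.range := by
    ext x
    rw [AddSubgroup.mem_addSubgroupOf]
    constructor
    · rintro ⟨m, hm⟩
      have hmT : m ∈ π.ker := by
        rw [hmemker]
        have hx : (x : M) ∈ T := (hmemker _).1 x.2
        rw [hmemT] at hx ⊢
        obtain ⟨a, ha⟩ := hx
        refine ⟨a * ⟨(p : ℤ), mem_nonZeroDivisors_of_ne_zero (by exact_mod_cast hp.ne_zero)⟩, ?_⟩
        rw [← hm] at ha
        simp only [f, nsmulAddMonoidHom_apply] at ha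
        rw [Submonoid.smul_def] at ha ⊢
        simp only [Submonoid.coe_mul]
        rw [mul_smul, natCast_zsmul]
        exact ha
      exact ⟨⟨m, hmT⟩, Subtype.ext (by simpa [g, f] using hm)⟩
    · rintro ⟨y, rfl⟩
      exact ⟨(y : M), by simp [g, f]⟩
  have h5 : f.range.relIndex π.ker = Nat.card g.ker := by
    rw [AddSubgroup.relIndex, h4]
    exact AddSubgroup.index_range
  have hzker : z ∈ π.ker := by
    rw [hmemker, hmemT]
    exact ⟨⟨(p : ℤ), mem_nonZeroDivisors_of_ne_zero (by exact_mod_cast hp.ne_zero)⟩, by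
      rw [Submonoid.smul_def]; simpa using hzp⟩
  have h6 : p ∣ Nat.card g.ker := by
    have hz' : (⟨z, hzker⟩ : π.ker) ∈ g.ker := by
      rw [AddMonoidHom.mem_ker]
      exact Subtype.ext (by simpa [g] using hzp)
    have hord : addOrderOf (⟨⟨z, hzker⟩, hz'⟩ : g.ker) = p := by
      have : Fact p.Prime := ⟨hp⟩
      refine addOrderOf_eq_prime ?_ ?_
      · exact Subtype.ext (Subtype.ext (by simpa using hzp))
      · intro h
        exact hz0 (by simpa using congrArg (fun x : g.ker => ((x : π.ker) : M)) h)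
    rw [← hord]
    exact addOrderOf_dvd_natCard _
  have h7 : Nat.card g.ker ≠ 0 := Nat.card_pos.ne'
  rw [h5] at h3
  constructor
  · rw [← h3]
    exact mul_ne_zero h7 (pow_ne_zero _ hp.ne_zero)
  · rw [← h3, pow_succ, mul_comm]
    exact Nat.mul_le_mul_right _ (Nat.le_of_dvd (Nat.pos_of_ne_zero h7) h6)

/-- Lemma C: a subgroup whose cosets are covered by finitely many representatives has
finite index, bounded by the number of representatives. -/
theorem index_le_card_of_cover {G : Type*} [AddCommGroup G] (H : AddSubgroup G) {ι : Type*}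
    (S : Finset ι) (r : ι → G) (h : ∀ g : G, ∃ i ∈ S, g - r i ∈ H) :
    H.index ≠ 0 ∧ H.index ≤ S.card := by
  classical
  let φ : S → G ⧸ H := fun i => (r i : G ⧸ H)
  have hφ : Function.Surjective φ := by
    intro q
    induction q using QuotientAddGroup.induction_on with
    | H g =>
      obtain ⟨i, hi, hg⟩ := h g
      refine ⟨⟨i, hi⟩, ?_⟩
      show ((r i : G) : G ⧸ H) = (g : G ⧸ H)
      rw [QuotientAddGroup.eq]
      simpa [sub_eq_add_neg, add_comm] using hg
  have hfin : Finite (G ⧸ H) := Finite.of_surjective φ hφ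
  refine ⟨AddSubgroup.index_ne_zero_of_finite, ?_⟩
  rw [AddSubgroup.index_eq_card]
  calc Nat.card (G ⧸ H) ≤ Nat.card S := Nat.card_le_card_of_surjective φ hφ
    _ = S.card := by simp

/-- `(X - 1) ^ (p - 1)` is congruent to `1 + X + ... + X ^ (p - 1)` modulo `p`. -/
theorem exists_poly (p : ℕ) (hp : p.Prime) :
    ∃ U : Polynomial ℤ, (Polynomial.X - 1 : Polynomial ℤ) ^ (p - 1) =
      ∑ i ∈ Finset.range p, Polynomial.X ^ i + Polynomial.C (p : ℤ) * U := by
  have : Fact p.Prime := ⟨hp⟩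
  have key : Polynomial.map (Int.castRingHom (ZMod p))
      ((Polynomial.X - 1 : Polynomial ℤ) ^ (p - 1) - ∑ i ∈ Finset.range p, Polynomial.X ^ i)
        = 0 := by
    simp only [Polynomial.map_sub, Polynomial.map_pow, Polynomial.map_X, Polynomial.map_one,
      Polynomial.map_sum]
    rw [sub_eq_zero]
    have hX : (Polynomial.X - 1 : Polynomial (ZMod p)) ≠ 0 := by
      have := Polynomial.X_sub_C_ne_zero (1 : ZMod p)
      simpa using this
    apply mul_right_cancel₀ hX
    rw [← pow_succ, Nat.sub_add_cancel hp.one_le, geom_sum_mul, sub_pow_char, one_pow]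
  have hdvd : Polynomial.C (p : ℤ) ∣
      ((Polynomial.X - 1 : Polynomial ℤ) ^ (p - 1) - ∑ i ∈ Finset.range p, Polynomial.X ^ i) := by
    rw [Polynomial.C_dvd_iff_dvd_coeff]
    intro i
    have := congrArg (fun q => Polynomial.coeff q i) key
    simp only [Polynomial.coeff_map, Polynomial.coeff_zero] at this
    exact (ZMod.intCast_zmod_eq_zero_iff_dvd _ p).mp this
  obtain ⟨U, hU⟩ := hdvd
  exact ⟨U, by rw [← hU]; ring⟩

/-- Lemma B: if `1 + s + ... + s ^ (p - 1) = 0` on `M`, then
`[M : p M]` divides `[M : (s - 1) M] ^ (p - 1)`. -/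
theorem index_range_nsmul_dvd {M : Type*} [AddCommGroup M] (p : ℕ) (hp : p.Prime)
    (s : Module.End ℤ M) (hs : ∑ i ∈ Finset.range p, s ^ i = 0) :
    (nsmulAddMonoidHom (α := M) p).range.index ∣
      ((s - 1).toAddMonoidHom.range.index) ^ (p - 1) := by
  obtain ⟨U, hU⟩ := exists_poly p hp
  have h1 : (s - 1) ^ (p - 1) = (p : ℤ) • Polynomial.aeval s U := by
    have := congrArg (Polynomial.aeval s) hU
    simp only [map_sub, map_pow, Polynomial.aeval_X, map_one, map_add, map_sum, map_mul,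
      Polynomial.aeval_C] at this
    rw [this, hs, zero_add]
    simp [Algebra.smul_def]
  have h2 : ((s - 1) ^ (p - 1)).toAddMonoidHom.range ≤ (nsmulAddMonoidHom (α := M) p).range := by
    rintro _ ⟨x, rfl⟩
    refine ⟨Polynomial.aeval s U x, ?_⟩
    simp [h1]
  have h3 : ∀ k : ℕ, ((s - 1) ^ k).toAddMonoidHom.range.index ∣
      ((s - 1).toAddMonoidHom.range.index) ^ k := by
    intro k
    induction k with
    | zero =>
      have : ((s - 1) ^ 0).toAddMonoidHom.range = ⊤ := by
        rw [eq_top_iff]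
        intro x _
        exact ⟨x, by simp⟩
      rw [this]; simp
    | succ k ih =>
      have : ((s - 1) ^ (k + 1)).toAddMonoidHom.range =
          ((s - 1).toAddMonoidHom.range).map ((s - 1) ^ k).toAddMonoidHom := by
        ext x
        constructor
        · rintro ⟨y, rfl⟩
          exact ⟨(s - 1) y, ⟨y, rfl⟩, by simp [pow_succ]⟩
        · rintro ⟨_, ⟨y, rfl⟩, rfl⟩
          exact ⟨y, by simp [pow_succ]⟩
      rw [this, AddSubgroup.index_map, pow_succ, mul_comm]
      exact mul_dvd_mul ih (AddSubgroup.index_dvd_of_le le_sup_left)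
  exact (AddSubgroup.index_dvd_of_le h2).trans (h3 (p - 1))

/-- The abstract counting core. -/
theorem core (p m : ℕ) (hp : p.Prime) {X : Type*} [AddCommGroup X] [Module.Finite ℤ X]
    (σ : Module.End ℤ X) (hσ : σ ^ p = 1)
    (hX : p * m ≤ Module.finrank ℤ X + 1)
    (hY : Module.finrank ℤ (LinearMap.ker (σ - 1)) + 1 ≤ m)
    (z : X) (hz0 : z ≠ 0) (hzp : p • z = 0) (hzσ : σ z = z)
    (S : Finset X) (hS : S.card ≤ p ^ m)
    (hSY : ∀ y, σ y = y → ∃ s ∈ S, ∃ y', σ y' = y' ∧ y = s + p • y') :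
    ∃ η : X, (∑ i ∈ Finset.range p, (σ ^ i) η) = 0 ∧ ∀ x, σ x - x ≠ η := by
  classical
  by_contra hcon
  push Not at hcon
  set N : Module.End ℤ X := ∑ i ∈ Finset.range p, σ ^ i with hN
  have hNapply : ∀ x, N x = ∑ i ∈ Finset.range p, (σ ^ i) x := by
    intro x; simp [hN, LinearMap.sum_apply]
  have hNτ : N * (σ - 1) = 0 := by rw [hN, geom_sum_mul, hσ, sub_self]
  have hτN : (σ - 1) * N = 0 := by rw [hN, mul_geom_sum, hσ, sub_self]
  have hNσ : ∀ x, N (σ x) = N x := by
    intro x
    have := congrArg (fun f : Module.End ℤ X => f x) hNτ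
    simp only [Module.End.mul_apply, LinearMap.sub_apply, Module.End.one_apply, map_sub,
      LinearMap.zero_apply] at this
    exact sub_eq_zero.mp this
  have hσN : ∀ x, σ (N x) = N x := by
    intro x
    have := congrArg (fun f : Module.End ℤ X => f x) hτN
    simp only [Module.End.mul_apply, LinearMap.sub_apply, Module.End.one_apply,
      LinearMap.zero_apply] at this
    exact sub_eq_zero.mp this
  have hσpow : ∀ y, σ y = y → ∀ i : ℕ, (σ ^ i) y = y := by
    intro y hy i
    induction i with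
    | zero => simp
    | succ k ih => rw [pow_succ, Module.End.mul_apply, hy, ih]
  have hNfix : ∀ y, σ y = y → N y = p • y := by
    intro y hy
    rw [hNapply, Finset.sum_congr rfl (fun i _ => hσpow y hy i)]
    simp
  -- the kernel of the norm
  set A : Submodule ℤ X := LinearMap.ker N with hA
  have hstab : ∀ x ∈ A, σ x ∈ A := by
    intro x hx
    rw [hA, LinearMap.mem_ker] at hx ⊢
    rw [hNσ, hx]
  set s : Module.End ℤ A := σ.restrict hstab with hsdef
  have hs_apply : ∀ (i : ℕ) (a : A), ((s ^ i) a : X) = (σ ^ i) (a : X) := by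
    intro i
    induction i with
    | zero => intro a; simp
    | succ k ih =>
      intro a
      rw [pow_succ, pow_succ, Module.End.mul_apply, Module.End.mul_apply, ih]
      rfl
  have hs : ∑ i ∈ Finset.range p, s ^ i = 0 := by
    ext a
    simp only [LinearMap.sum_apply, LinearMap.zero_apply, Submodule.coe_sum, ZeroMemClass.coe_zero]
    rw [Finset.sum_congr rfl (fun i _ => hs_apply i a), ← hNapply]
    exact a.2
  -- Lemma B
  have hB := index_range_nsmul_dvd p hp s hs
  -- Lemma A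
  have hzA : z ∈ A := by rw [hA, LinearMap.mem_ker, hNfix z hzσ, hzp]
  obtain ⟨hA0, hA1⟩ := pow_succ_le_index_range_nsmul (M := A) p hp ⟨z, hzA⟩
    (fun h => hz0 (by simpa using congrArg Subtype.val h)) (Subtype.ext (by simpa using hzp))
  -- Lemma C
  have hτA : ∀ x : X, (σ - 1) x ∈ A := fun x => by
    rw [hA, LinearMap.mem_ker, ← Module.End.mul_apply, hNτ]; rfl
  have hC : (s - 1).toAddMonoidHom.range.index ≠ 0 ∧
      (s - 1).toAddMonoidHom.range.index ≤ S.card := by
    let r : X → A := fun s₀ => if h : ∃ x, N x = s₀ then ⟨(σ - 1) h.choose, hτA _⟩ else 0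
    refine index_le_card_of_cover _ S r ?_
    intro a
    obtain ⟨x, hx⟩ := hcon (a : X) (by rw [← hNapply]; exact a.2)
    obtain ⟨s₀, hs₀, y', hy', hy⟩ := hSY (N x) (hσN x)
    have hex : ∃ x', N x' = s₀ := ⟨x - y', by rw [map_sub, hNfix y' hy', hy]; abel⟩
    refine ⟨s₀, hs₀, ?_⟩
    have hb : x - y' - hex.choose ∈ A := by
      rw [hA, LinearMap.mem_ker, map_sub, map_sub, hex.choose_spec, hNfix y' hy', hy]; abel
    refine ⟨⟨_, hb⟩, Subtype.ext ?_⟩
    have hr : (r s₀ : X) = (σ - 1) hex.choose := by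
      simp only [r, dif_pos hex]
    change σ (x - y' - hex.choose) - (x - y' - hex.choose) = (a : X) - (r s₀ : X)
    rw [hr, ← hx]
    simp only [map_sub, LinearMap.sub_apply, Module.End.one_apply, hy']
    abel
  -- the rank of `A`
  have hrank : p * m ≤ m + Module.finrank ℤ A := by
    have h1 := Submodule.finrank_quotient_add_finrank A
    have h2 : Module.finrank ℤ (X ⧸ A) = Module.finrank ℤ (LinearMap.range N) :=
      N.quotKerEquivRange.finrank_eq
    have h3 : LinearMap.range N ≤ LinearMap.ker (σ - 1) := by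
      rintro _ ⟨x, rfl⟩
      rw [LinearMap.mem_ker, LinearMap.sub_apply, Module.End.one_apply, hσN, sub_self]
    have h4 : Module.finrank ℤ (LinearMap.range N) ≤ Module.finrank ℤ (LinearMap.ker (σ - 1)) :=
      Submodule.finrank_mono h3
    omega
  -- conclusion
  have h5 : (nsmulAddMonoidHom (α := A) p).range.index ≤
      ((s - 1).toAddMonoidHom.range.index) ^ (p - 1) :=
    Nat.le_of_dvd (Nat.pos_of_ne_zero (pow_ne_zero _ hC.1)) hB
  have h6 : ((s - 1).toAddMonoidHom.range.index) ^ (p - 1) ≤ (p ^ m) ^ (p - 1) :=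
    Nat.pow_le_pow_left (hC.2.trans hS) _
  have h7 : p ^ (Module.finrank ℤ A + 1) ≤ p ^ (m * (p - 1)) := by
    rw [pow_mul]
    exact hA1.trans (h5.trans h6)
  have h8 : Module.finrank ℤ A + 1 ≤ m * (p - 1) := (Nat.pow_le_pow_iff_right hp.one_lt).mp h7
  have h9 : p * m = m * (p - 1) + m := by
    obtain ⟨q, rfl⟩ : ∃ q, p = q + 1 := ⟨p - 1, (Nat.sub_add_cancel hp.one_le).symm⟩
    simp only [Nat.add_sub_cancel]
    ring
  omega

section units

variable (K L : Type*) [Field K] [Field L] [Algebra K L]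

/-- The action of a `K`-automorphism of `L` on the units of `𝓞 L`, as an endomorphism of the
additive group `Additive (𝓞 L)ˣ`. -/
noncomputable def unitEnd (σ : L ≃ₐ[K] L) : Module.End ℤ (Additive (𝓞 L)ˣ) :=
  (MonoidHom.toAdditive (Units.map
    (RingOfIntegers.mapRingHom (σ : L →+* L) : 𝓞 L →* 𝓞 L))).toIntLinearMap

theorem unitEnd_apply (σ : L ≃ₐ[K] L) (u : Additive (𝓞 L)ˣ) :
    ((((unitEnd K L σ u).toMul : (𝓞 L)ˣ) : 𝓞 L) : L) = σ (((u.toMul : (𝓞 L)ˣ) : 𝓞 L) : L) :=
  rfl

theorem unit_ext {u v : Additive (𝓞 L)ˣ}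
    (h : (((u.toMul : (𝓞 L)ˣ) : 𝓞 L) : L) = (((v.toMul : (𝓞 L)ˣ) : 𝓞 L) : L)) : u = v :=
  Additive.toMul.injective (Units.ext (RingOfIntegers.ext h))

theorem unitEnd_pow (σ : L ≃ₐ[K] L) (i : ℕ) (u : Additive (𝓞 L)ˣ) :
    ((((((unitEnd K L σ) ^ i) u).toMul : (𝓞 L)ˣ) : 𝓞 L) : L) =
      (σ ^ i) (((u.toMul : (𝓞 L)ˣ) : 𝓞 L) : L) := by
  induction i generalizing u with
  | zero => simp
  | succ k ih =>
    rw [pow_succ, pow_succ, Module.End.mul_apply, ih, unitEnd_apply]
    rfl

/-- The map from the units of `𝓞 K` to the units of `𝓞 L`. -/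
noncomputable def unitIncl : Additive (𝓞 K)ˣ →ₗ[ℤ] Additive (𝓞 L)ˣ :=
  (MonoidHom.toAdditive (Units.map
    (algebraMap (𝓞 K) (𝓞 L) : 𝓞 K →* 𝓞 L))).toIntLinearMap

theorem unitIncl_apply (w : Additive (𝓞 K)ˣ) :
    ((((unitIncl K L w).toMul : (𝓞 L)ˣ) : 𝓞 L) : L) =
      algebraMap K L (((w.toMul : (𝓞 K)ˣ) : 𝓞 K) : K) :=
  rfl

theorem unitEnd_unitIncl (σ : L ≃ₐ[K] L) (w : Additive (𝓞 K)ˣ) :
    unitEnd K L σ (unitIncl K L w) = unitIncl K L w := by
  apply unit_ext
  rw [unitEnd_apply, unitIncl_apply, AlgEquiv.commutes]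

/-- A unit of `𝓞 L` fixed by a generator of the Galois group comes from `𝓞 K`. -/
theorem exists_unitIncl_eq [FiniteDimensional K L] [IsGalois K L] (σ : L ≃ₐ[K] L)
    (hgen : ∀ τ : L ≃ₐ[K] L, τ ∈ Subgroup.zpowers σ) (u : Additive (𝓞 L)ˣ)
    (hu : unitEnd K L σ u = u) : ∃ w : Additive (𝓞 K)ˣ, unitIncl K L w = u := by
  have hfix : ∀ (v : L), σ v = v → ∀ τ : L ≃ₐ[K] L, τ v = v := by
    intro v hv τ
    have h1 : Subgroup.zpowers σ ≤ MulAction.stabilizer (L ≃ₐ[K] L) v := by
      rw [Subgroup.zpowers_le, MulAction.mem_stabilizer_iff]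
      exact hv
    exact MulAction.mem_stabilizer_iff.mp (h1 (hgen τ))
  have hσu : σ (((u.toMul : (𝓞 L)ˣ) : 𝓞 L) : L) = (((u.toMul : (𝓞 L)ˣ) : 𝓞 L) : L) := by
    rw [← unitEnd_apply, hu]
  have hσu' : σ ((((u.toMul)⁻¹ : (𝓞 L)ˣ) : 𝓞 L) : L) = ((((u.toMul)⁻¹ : (𝓞 L)ˣ) : 𝓞 L) : L) := by
    have := unitEnd_apply K L σ (-u)
    rw [map_neg, hu] at this
    exact this.symm
  obtain ⟨k, hk⟩ := (IsGalois.mem_range_algebraMap_iff_fixed _).mpr (hfix _ hσu)
  obtain ⟨k', hk'⟩ := (IsGalois.mem_range_algebraMap_iff_fixed _).mpr (hfix _ hσu')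
  have hkint : IsIntegral ℤ k := by
    rw [← isIntegral_algebraMap_iff (algebraMap K L).injective, hk]
    exact RingOfIntegers.isIntegral_coe _
  have hk'int : IsIntegral ℤ k' := by
    rw [← isIntegral_algebraMap_iff (algebraMap K L).injective, hk']
    exact RingOfIntegers.isIntegral_coe _
  have hmul : k * k' = 1 := by
    apply (algebraMap K L).injective
    rw [map_mul, hk, hk', map_one, ← map_mul, ← Units.val_mul, mul_inv_cancel]
    simp
  refine ⟨Additive.ofMul ⟨⟨k, hkint⟩, ⟨k', hk'int⟩, RingOfIntegers.ext (by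
      change k * k' = 1; exact hmul),
    RingOfIntegers.ext (by change k' * k = 1; rw [mul_comm]; exact hmul)⟩, ?_⟩
  apply unit_ext
  rw [unitIncl_apply]
  exact hk

end units

section aux

/-- For a totally complex number field `F`, `2 * (rank of units + 1) = [F : ℚ]`. -/
theorem two_mul_finrank_units_add_one (F : Type*) [Field F] [NumberField F]
    (h : NumberField.InfinitePlace.nrRealPlaces F = 0) :
    2 * (Module.finrank ℤ (Additive (𝓞 F)ˣ) + 1) = Module.finrank ℚ F := by
  rw [NumberField.Units.finrank_eq, NumberField.Units.rank,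
    ← NumberField.InfinitePlace.card_add_two_mul_card_eq_rank, h, zero_add,
    NumberField.InfinitePlace.card_eq_nrRealPlaces_add_nrComplexPlaces, h, zero_add]
  have hpos : 0 < Fintype.card (NumberField.InfinitePlace F) := Fintype.card_pos
  rw [NumberField.InfinitePlace.card_eq_nrRealPlaces_add_nrComplexPlaces, h, zero_add] at hpos
  omega

theorem zpow_eq_pow_mul_pow {G : Type*} [CommGroup G] (a : G) (k : ℤ) (p : ℕ) (hp : 0 < p) :
    a ^ k = a ^ (k % (p : ℤ)).toNat * (a ^ (k / (p : ℤ))) ^ p := by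
  have h : k = ((k % (p : ℤ)).toNat : ℤ) + (k / (p : ℤ)) * p := by
    rw [Int.toNat_of_nonneg (Int.emod_nonneg _ (by exact_mod_cast hp.ne'))]
    exact (Int.emod_add_ediv_mul k p).symm
  conv_lhs => rw [h]
  rw [zpow_add, zpow_natCast, zpow_mul, zpow_natCast]

/-- Representatives of the units modulo `p`-th powers. -/
theorem exists_finset_units (p : ℕ) (hp : 0 < p) (F : Type*) [Field F] [NumberField F] :
    ∃ S : Finset (𝓞 F)ˣ, S.card ≤ p ^ (NumberField.Units.rank F + 1) ∧
      ∀ w : (𝓞 F)ˣ, ∃ x ∈ S, ∃ v : (𝓞 F)ˣ, w = x * v ^ p := by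
  classical
  obtain ⟨g, hg⟩ := IsCyclic.exists_generator (α := NumberField.Units.torsion F)
  refine ⟨Finset.image (fun ab : ℕ × (Fin (NumberField.Units.rank F) → ℕ) =>
      ((g : (𝓞 F)ˣ)) ^ ab.1 * ∏ i, NumberField.Units.fundSystem F i ^ (ab.2 i))
      (Finset.range p ×ˢ Fintype.piFinset (fun _ => Finset.range p)), ?_, ?_⟩
  · refine Finset.card_image_le.trans ?_
    rw [Finset.card_product, Fintype.card_piFinset]
    simp [pow_succ, mul_comm]
  · intro w
    obtain ⟨⟨t, e⟩, hte, -⟩ := NumberField.Units.exist_unique_eq_mul_prod F w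
    obtain ⟨k, hk⟩ := Subgroup.mem_zpowers_iff.mp (hg t)
    refine ⟨((g : (𝓞 F)ˣ)) ^ (k % (p : ℤ)).toNat *
        ∏ i, NumberField.Units.fundSystem F i ^ (e i % (p : ℤ)).toNat, ?_,
      ((g : (𝓞 F)ˣ)) ^ (k / (p : ℤ)) * ∏ i, NumberField.Units.fundSystem F i ^ (e i / (p : ℤ)), ?_⟩
    · refine Finset.mem_image.mpr ⟨((k % (p : ℤ)).toNat, fun i => (e i % (p : ℤ)).toNat), ?_, rfl⟩
      have hlt : ∀ j : ℤ, (j % (p : ℤ)).toNat < p := by
        intro j
        have h1 := Int.emod_lt_of_pos j (by exact_mod_cast hp : (0 : ℤ) < p)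
        have h2 := Int.emod_nonneg j (by exact_mod_cast hp.ne' : (p : ℤ) ≠ 0)
        omega
      simp only [Finset.mem_product, Finset.mem_range, Fintype.mem_piFinset]
      exact ⟨hlt k, fun i => hlt (e i)⟩
    · rw [hte]
      simp only
      have ht : ((t : (𝓞 F)ˣ)) = (g : (𝓞 F)ˣ) ^ k := by
        rw [← hk]; simp
      rw [ht, mul_pow, ← Finset.prod_pow, zpow_eq_pow_mul_pow (g : (𝓞 F)ˣ) k p hp,
        Finset.prod_congr rfl (fun i _ => zpow_eq_pow_mul_pow (NumberField.Units.fundSystem F i)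
          (e i) p hp), Finset.prod_mul_distrib]
      exact mul_mul_mul_comm _ _ _ _

end aux

section main

variable (K L : Type*) [Field K] [Field L] [Algebra K L]

theorem coe_toMul_sum {ι : Type*} (s : Finset ι) (f : ι → Additive (𝓞 L)ˣ) :
    (((((∑ i ∈ s, f i).toMul : (𝓞 L)ˣ)) : 𝓞 L) : L) =
      ∏ i ∈ s, (((((f i).toMul : (𝓞 L)ˣ)) : 𝓞 L) : L) := by
  simp [toMul_sum, Units.coe_prod]

/-- The norm as a product over the powers of a generator of the Galois group. -/
theorem algebraMap_norm_eq_prod_pow [FiniteDimensional K L] [IsGalois K L] (p : ℕ)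
    (hcard : Nat.card (L ≃ₐ[K] L) = p) (σ : L ≃ₐ[K] L)
    (hgen : ∀ τ : L ≃ₐ[K] L, τ ∈ Subgroup.zpowers σ) (x : L) :
    algebraMap K L (Algebra.norm K x) = ∏ i ∈ Finset.range p, (σ ^ i) x := by
  classical
  rw [Algebra.norm_eq_prod_automorphisms, ← IsCyclic.image_range_card hgen, hcard,
    Finset.prod_image]
  intro i hi j hj hij
  have hord : orderOf σ = p := by rw [orderOf_eq_card_of_forall_mem_zpowers hgen, hcard]
  exact pow_injOn_Iio_orderOf (by simpa [hord] using hi) (by simpa [hord] using hj) hij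

end main

/-- **K3a.**  Let `K` be the `p`-th cyclotomic field, `p` an odd prime, and let `L / K` be a
Galois extension of degree `p` with a non-trivial automorphism `σ`.  Then there is a unit `η` of
`𝓞 L` of relative norm `1` that is not of the form `σ E / E` with `E` a unit of `𝓞 L`. -/
theorem exists_unit_norm_one_not_coboundary (p : ℕ) [Fact p.Prime] (hp2 : p ≠ 2) (K L : Type*)
    [Field K] [NumberField K] [IsCyclotomicExtension {p} ℚ K] [Field L] [NumberField L]
    [Algebra K L] [IsGalois K L] (hdeg : Module.finrank K L = p) (σ : L ≃ₐ[K] L) (hσ : σ ≠ 1) :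
    ∃ η : (𝓞 L)ˣ, Algebra.norm K ((η : 𝓞 L) : L) = 1 ∧
      ∀ E : (𝓞 L)ˣ, σ ((E : 𝓞 L) : L) ≠ ((η : 𝓞 L) : L) * ((E : 𝓞 L) : L) := by
  classical
  have hp : p.Prime := Fact.out
  have hp3 : 2 < p := lt_of_le_of_ne hp.two_le (Ne.symm hp2)
  have : NeZero p := ⟨hp.ne_zero⟩
  have : FiniteDimensional K L := Module.Finite.of_restrictScalars_finite ℚ K L
  have hcard : Nat.card (L ≃ₐ[K] L) = p := by rw [IsGalois.card_aut_eq_finrank, hdeg]
  have hgen : ∀ τ : L ≃ₐ[K] L, τ ∈ Subgroup.zpowers σ :=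
    fun τ => mem_zpowers_of_prime_card hcard hσ
  have hσp : σ ^ p = 1 := by rw [← hcard]; exact pow_card_eq_one'
  obtain ⟨m, hm⟩ : ∃ m, p = 2 * m + 1 := by
    rcases hp.eq_two_or_odd' with h | ⟨m, hm⟩
    · exact absurd h hp2
    · exact ⟨m, hm⟩
  have hζ := IsCyclotomicExtension.zeta_spec p ℚ K
  have hKreal : NumberField.InfinitePlace.nrRealPlaces K = 0 :=
    NumberField.InfinitePlace.IsPrimitiveRoot.nrRealPlaces_eq_zero_of_two_lt hp3 hζ
  have hLreal : NumberField.InfinitePlace.nrRealPlaces L = 0 :=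
    NumberField.InfinitePlace.IsPrimitiveRoot.nrRealPlaces_eq_zero_of_two_lt hp3
      (hζ.map_of_injective (algebraMap K L).injective)
  have hKdeg : Module.finrank ℚ K = 2 * m := by
    rw [IsCyclotomicExtension.finrank K (Polynomial.cyclotomic.irreducible_rat hp.pos),
      Nat.totient_prime hp, hm]
    simp
  have hLdeg : Module.finrank ℚ L = 2 * m * p := by
    rw [← Module.finrank_mul_finrank ℚ K L, hKdeg, hdeg]
  have hKrank : Module.finrank ℤ (Additive (𝓞 K)ˣ) + 1 = m := by
    have := two_mul_finrank_units_add_one K hKreal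
    omega
  have hLrank : Module.finrank ℤ (Additive (𝓞 L)ˣ) + 1 = p * m := by
    have h1 := two_mul_finrank_units_add_one L hLreal
    rw [hLdeg] at h1
    have h2 : 2 * (Module.finrank ℤ (Additive (𝓞 L)ˣ) + 1) = 2 * (p * m) := by
      rw [h1]; ring
    omega
  -- the fixed units come from `K`
  have hfixed : ∀ u : Additive (𝓞 L)ˣ, unitEnd K L σ u = u → ∃ w, unitIncl K L w = u :=
    fun u hu => exists_unitIncl_eq K L σ hgen u hu
  have hY : Module.finrank ℤ (LinearMap.ker (unitEnd K L σ - 1)) + 1 ≤ m := by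
    have h1 : LinearMap.ker (unitEnd K L σ - 1) ≤ LinearMap.range (unitIncl K L) := by
      intro u hu
      rw [LinearMap.mem_ker, LinearMap.sub_apply, Module.End.one_apply, sub_eq_zero] at hu
      obtain ⟨w, hw⟩ := hfixed u hu
      exact ⟨w, hw⟩
    have h2 := Submodule.finrank_mono h1
    have h3 := LinearMap.finrank_range_le (unitIncl K L)
    omega
  have hσX : unitEnd K L σ ^ p = 1 := by
    refine LinearMap.ext fun u => unit_ext L ?_
    rw [unitEnd_pow, hσp]
    rfl
  -- the root of unity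
  have hζ' := hζ.toInteger_isPrimitiveRoot
  set ζu : (𝓞 K)ˣ := (hζ'.isUnit (NeZero.ne p)).unit with hζu
  have hζu_coe : (((ζu : (𝓞 K)ˣ) : 𝓞 K) : K) = IsCyclotomicExtension.zeta p ℚ K := rfl
  have hz0 : unitIncl K L (Additive.ofMul ζu) ≠ 0 := by
    intro h
    have h1 := congrArg (fun u : Additive (𝓞 L)ˣ => ((((u.toMul : (𝓞 L)ˣ)) : 𝓞 L) : L)) h
    simp only [unitIncl_apply] at h1
    have h2 : algebraMap K L (IsCyclotomicExtension.zeta p ℚ K) = 1 := by
      rw [← hζu_coe]
      simpa using h1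
    have h3 : IsCyclotomicExtension.zeta p ℚ K = 1 :=
      (algebraMap K L).injective (by rw [h2, map_one])
    exact hζ.ne_one hp.one_lt h3
  have hzp : p • unitIncl K L (Additive.ofMul ζu) = 0 := by
    rw [← map_nsmul, ← ofMul_pow]
    have : ζu ^ p = 1 := by
      apply Units.ext
      rw [Units.val_pow_eq_pow_val, Units.val_one]
      exact hζ'.pow_eq_one
    rw [this]
    simp
  -- representatives modulo `p`-th powers
  obtain ⟨S₀, hS₀card, hS₀⟩ := exists_finset_units p hp.pos K
  have hrankK : NumberField.Units.rank K + 1 = m := by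
    rw [← NumberField.Units.finrank_eq]; exact hKrank
  rw [hrankK] at hS₀card
  obtain ⟨η, hη1, hη2⟩ := core p m hp (unitEnd K L σ) hσX hLrank.ge hY
    (unitIncl K L (Additive.ofMul ζu)) hz0 hzp (unitEnd_unitIncl K L σ _)
    (S₀.image (fun x => unitIncl K L (Additive.ofMul x))) (Finset.card_image_le.trans hS₀card)
    (by
      intro y hy
      obtain ⟨w, rfl⟩ := hfixed y hy
      obtain ⟨x, hx, v, hv⟩ := hS₀ w.toMul
      refine ⟨unitIncl K L (Additive.ofMul x), Finset.mem_image_of_mem _ hx,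
        unitIncl K L (Additive.ofMul v), unitEnd_unitIncl K L σ _, ?_⟩
      have hw : w = Additive.ofMul x + p • Additive.ofMul v := hv
      rw [hw, map_add, map_nsmul])
  refine ⟨η.toMul, ?_, ?_⟩
  · apply (algebraMap K L).injective
    rw [map_one, algebraMap_norm_eq_prod_pow K L p hcard σ hgen]
    have h1 := congrArg (fun u : Additive (𝓞 L)ˣ => ((((u.toMul : (𝓞 L)ˣ)) : 𝓞 L) : L)) hη1
    simp only [coe_toMul_sum, unitEnd_pow] at h1
    rw [h1]
    simp
  · intro E hE
    apply hη2 (Additive.ofMul E)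
    rw [sub_eq_iff_eq_add]
    apply unit_ext
    rw [unitEnd_apply]
    exact hE

end Fermat.Agent.S10_NormOne
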