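import Mathlib
import Fermat.Agent.S10_NormOne

/-!
# S10 / Project K, (K3c): Hilbert 94 in PID form

Over `K = ℚ(ζ_p)` with `𝓞 K` a principal ideal domain there is no Galois extension `L/K` of
degree `p` with trivial different.

Proof: by `S10_NormOne` there is a unit `η` of `𝓞 L` of relative norm `1` which is not of the form
`σ E / E`; Hilbert 90 gives `β ∈ 𝓞 L`, `β ≠ 0`, with `η · σ β = β`.  Then `β ^ p` is associated to
`b = N(β) ∈ 𝓞 K`.  If the different is trivial, every prime element `π` of `𝓞 K` is a uniformiser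
at any prime `P` of `𝓞 L` above it, so `π ∣ b` implies `π ^ p ∣ b` (compare `P`-adic valuations)
and then `π ∣ β`.  By induction `β = a · E` with `a ∈ 𝓞 K` and `E` a unit, whence `η = E / σ E`.
-/

set_option autoImplicit false

noncomputable section

open NumberField IsDedekindDomain

namespace Fermat.Agent.S10_Hilbert94

attribute [local instance] FractionRing.liftAlgebra

section descent

variable (K L : Type*) [Field K] [NumberField K] [Field L] [NumberField L] [Algebra K L]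

/-- If the different is trivial, a prime element of `𝓞 K` does not lie in the square of a prime
ideal of `𝓞 L`. -/
theorem not_mem_sq (hdiff : differentIdeal (𝓞 K) (𝓞 L) = ⊤) (π : 𝓞 K) (hπ : Prime π)
    (P : Ideal (𝓞 L)) [hP : P.IsPrime] : algebraMap (𝓞 K) (𝓞 L) π ∉ P ^ 2 := by
  intro hmem
  have hprime : (Ideal.span {π}).IsPrime := (Ideal.span_singleton_prime hπ.ne_zero).mpr hπ
  have hne : Ideal.span {π} ≠ ⊥ := by
    rw [Ne, Ideal.span_singleton_eq_bot]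
    exact hπ.ne_zero
  have : (Ideal.span {π}).IsMaximal := hprime.isMaximal hne
  have hdvd : P ^ 2 ∣ Ideal.map (algebraMap (𝓞 K) (𝓞 L)) (Ideal.span {π}) := by
    rw [Ideal.dvd_iff_le, Ideal.map_span, Set.image_singleton, Ideal.span_singleton_le_iff_mem]
    exact hmem
  have h1 := pow_sub_one_dvd_differentIdeal (𝓞 K) P 2 hne hdvd
  rw [hdiff, Ideal.dvd_iff_le] at h1
  have h2 : P = ⊤ := by
    rw [eq_top_iff]
    simpa using h1
  exact hP.ne_top h2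

/-- the additive valuation at a height one prime -/
def lg (v : HeightOneSpectrum (𝓞 L)) (x : 𝓞 L) : ℤ := WithZero.log (v.intValuation x)

variable {L}

theorem lg_mul (v : HeightOneSpectrum (𝓞 L)) {x y : 𝓞 L} (hx : x ≠ 0) (hy : y ≠ 0) :
    lg L v (x * y) = lg L v x + lg L v y := by
  unfold lg
  rw [map_mul, WithZero.log_mul (v.intValuation_ne_zero x hx) (v.intValuation_ne_zero y hy)]

theorem lg_pow (v : HeightOneSpectrum (𝓞 L)) (x : 𝓞 L) (n : ℕ) :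
    lg L v (x ^ n) = n * lg L v x := by
  unfold lg
  rw [map_pow, WithZero.log_pow, nsmul_eq_mul]

theorem lg_le_iff (v : HeightOneSpectrum (𝓞 L)) {x : 𝓞 L} (hx : x ≠ 0) (n : ℕ) :
    lg L v x ≤ -(n : ℤ) ↔ x ∈ v.asIdeal ^ n := by
  unfold lg
  rw [WithZero.log_le_iff_le_exp (v.intValuation_ne_zero x hx), v.intValuation_le_pow_iff_mem]

theorem lg_nonpos (v : HeightOneSpectrum (𝓞 L)) {x : 𝓞 L} (hx : x ≠ 0) : lg L v x ≤ 0 := by
  have := (lg_le_iff v hx 0).mpr (by simp)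
  simpa using this

theorem lg_eq_zero (v : HeightOneSpectrum (𝓞 L)) {x : 𝓞 L} (hx : x ≠ 0) (h : x ∉ v.asIdeal) :
    lg L v x = 0 := by
  have h1 := lg_nonpos v hx
  have h2 : ¬ lg L v x ≤ -((1 : ℕ) : ℤ) := by
    rw [lg_le_iff v hx 1, pow_one]
    exact h
  push_cast at h2
  omega

theorem lg_unit (v : HeightOneSpectrum (𝓞 L)) (ε : (𝓞 L)ˣ) : lg L v (ε : 𝓞 L) = 0 :=
  lg_eq_zero v ε.ne_zero fun h =>
    v.isPrime.ne_top (Ideal.eq_top_of_isUnit_mem _ h ε.isUnit)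

variable (L)

/-- **Descent to the PID.**  If the different of `L/K` is trivial, `𝓞 K` is a PID and `β ^ n` is
associated to an element of `𝓞 K`, then `β` is associated to an element of `𝓞 K`. -/
theorem exists_eq_mul_unit [IsPrincipalIdealRing (𝓞 K)]
    (hdiff : differentIdeal (𝓞 K) (𝓞 L) = ⊤) (n : ℕ) (hn : n ≠ 0) :
    ∀ b : 𝓞 K, b ≠ 0 → ∀ β : 𝓞 L, (∃ ε : (𝓞 L)ˣ, β ^ n = algebraMap (𝓞 K) (𝓞 L) b * ε) →
      ∃ (a : 𝓞 K) (E : (𝓞 L)ˣ), β = algebraMap (𝓞 K) (𝓞 L) a * E := by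
  have hinj : Function.Injective (algebraMap (𝓞 K) (𝓞 L)) :=
    FaithfulSMul.algebraMap_injective (𝓞 K) (𝓞 L)
  intro b
  refine WellFounded.induction (wellFounded_dvdNotUnit (α := 𝓞 K))
    (C := fun b => b ≠ 0 → ∀ β : 𝓞 L,
      (∃ ε : (𝓞 L)ˣ, β ^ n = algebraMap (𝓞 K) (𝓞 L) b * ε) →
        ∃ (a : 𝓞 K) (E : (𝓞 L)ˣ), β = algebraMap (𝓞 K) (𝓞 L) a * E) b ?_
  intro b ih hb β ⟨ε, hε⟩
  by_cases hbu : IsUnit b
  · -- `β` is a unit
    have h1 : IsUnit (β ^ n) := by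
      rw [hε]
      exact (hbu.map (algebraMap (𝓞 K) (𝓞 L))).mul ε.isUnit
    have h2 : IsUnit β := (isUnit_pow_iff hn).mp h1
    exact ⟨1, h2.unit, by rw [map_one, one_mul]; rfl⟩
  -- a prime factor `π` of `b`
  obtain ⟨π, hπirr, hπb⟩ := WfDvdMonoid.exists_irreducible_factor hbu hb
  have hπ : Prime π := hπirr.prime
  have hprime : (Ideal.span {π}).IsPrime := (Ideal.span_singleton_prime hπ.ne_zero).mpr hπ
  -- a prime of `𝓞 L` above `π`
  obtain ⟨P, -, hPprime, hPover⟩ := Ideal.exists_ideal_over_prime_of_isIntegral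
    (Ideal.span {π}) (⊥ : Ideal (𝓞 L)) (by
      rw [Ideal.comap_bot_of_injective _ hinj]
      exact bot_le)
  have hπP : algebraMap (𝓞 K) (𝓞 L) π ∈ P := by
    have : π ∈ Ideal.comap (algebraMap (𝓞 K) (𝓞 L)) P := by
      rw [hPover]; exact Ideal.mem_span_singleton_self π
    exact this
  have hπ0 : algebraMap (𝓞 K) (𝓞 L) π ≠ 0 := fun h => hπ.ne_zero (hinj (by rw [h, map_zero]))
  have hPne : P ≠ ⊥ := fun h => hπ0 (by rw [h] at hπP; exact hπP)
  let v : HeightOneSpectrum (𝓞 L) := ⟨P, hPprime, hPne⟩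
  have hmemP : ∀ x : 𝓞 K, algebraMap (𝓞 K) (𝓞 L) x ∈ P → π ∣ x := by
    intro x hx
    have : x ∈ Ideal.comap (algebraMap (𝓞 K) (𝓞 L)) P := hx
    rw [hPover] at this
    exact Ideal.mem_span_singleton.mp this
  -- `lg π = -1`
  have hlgπ : lg L v (algebraMap (𝓞 K) (𝓞 L) π) = -1 := by
    have h1 : lg L v (algebraMap (𝓞 K) (𝓞 L) π) ≤ -((1 : ℕ) : ℤ) := by
      rw [lg_le_iff v hπ0 1, pow_one]; exact hπP
    have h2 : ¬ lg L v (algebraMap (𝓞 K) (𝓞 L) π) ≤ -((2 : ℕ) : ℤ) := by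
      rw [lg_le_iff v hπ0 2]
      exact not_mem_sq K L hdiff π hπ P
    push_cast at h1 h2
    omega
  -- `π ^ n ∣ b`
  have hfin : FiniteMultiplicity π b := FiniteMultiplicity.of_not_isUnit hπirr.not_isUnit hb
  obtain ⟨b', hb', hπb'⟩ := hfin.exists_eq_pow_mul_and_not_dvd
  set j := multiplicity π b with hj
  have hb'0 : b' ≠ 0 := by
    rintro rfl
    rw [mul_zero] at hb'
    exact hb hb'
  have hβ0 : β ≠ 0 := by
    rintro rfl
    rw [zero_pow hn] at hε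
    have : algebraMap (𝓞 K) (𝓞 L) b = 0 := by
      rcases mul_eq_zero.mp hε.symm with h | h
      · exact h
      · exact absurd h ε.ne_zero
    exact hb (hinj (by rw [this, map_zero]))
  have hjn : (n : ℤ) * lg L v β = -(j : ℤ) := by
    have e1 : lg L v (β ^ n) = n * lg L v β := lg_pow v β n
    have hb'L : algebraMap (𝓞 K) (𝓞 L) b' ≠ 0 := fun h => hb'0 (hinj (by rw [h, map_zero]))
    have e2 : lg L v (algebraMap (𝓞 K) (𝓞 L) b * ε) = -(j : ℤ) := by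
      rw [hb', map_mul, map_pow, lg_mul v (mul_ne_zero (pow_ne_zero _ hπ0) hb'L) ε.ne_zero,
        lg_mul v (pow_ne_zero _ hπ0) hb'L, lg_pow, hlgπ, lg_unit,
        lg_eq_zero v hb'L (fun h => hπb' (hmemP b' h))]
      ring
    rw [← e1, hε, e2]
  have hj1 : 1 ≤ j := by
    rw [hj]
    exact hfin.le_multiplicity_of_pow_dvd (by rw [pow_one]; exact hπb)
  have hnj : n ≤ j := by
    have hdvd : (n : ℤ) ∣ (j : ℤ) := ⟨-lg L v β, by linarith⟩
    exact Nat.le_of_dvd (by omega) (Int.natCast_dvd_natCast.mp hdvd)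
  have hπnb : π ^ n ∣ b := by
    rw [hb']
    exact Dvd.dvd.mul_right (pow_dvd_pow π hnj) b'
  obtain ⟨b₂, hb₂⟩ := hπnb
  -- `π ∣ β`
  have hπβ : algebraMap (𝓞 K) (𝓞 L) π ∣ β := by
    rw [← IsIntegrallyClosed.pow_dvd_pow_iff hn, hε, hb₂, map_mul, map_pow, mul_assoc]
    exact Dvd.intro _ rfl
  obtain ⟨β', hβ'⟩ := hπβ
  have hb₂0 : b₂ ≠ 0 := by
    rintro rfl
    rw [mul_zero] at hb₂
    exact hb hb₂
  have hrel : β' ^ n = algebraMap (𝓞 K) (𝓞 L) b₂ * ε := by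
    have h3 : algebraMap (𝓞 K) (𝓞 L) π ^ n * β' ^ n
        = algebraMap (𝓞 K) (𝓞 L) π ^ n * (algebraMap (𝓞 K) (𝓞 L) b₂ * ε) := by
      rw [← mul_pow, ← hβ', hε, hb₂, map_mul, map_pow, mul_assoc]
    exact mul_left_cancel₀ (pow_ne_zero _ hπ0) h3
  have hdnu : DvdNotUnit b₂ b := by
    refine ⟨hb₂0, π ^ n, ?_, by rw [hb₂, mul_comm]⟩
    exact fun h => hπirr.not_isUnit ((isUnit_pow_iff hn).mp h)
  obtain ⟨a', E, hE⟩ := ih b₂ hdnu hb₂0 β' ⟨ε, hrel⟩
  exact ⟨π * a', E, by rw [hβ', hE, map_mul, mul_assoc]⟩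

end descent

/-- **(K3c) Hilbert 94, PID form.**  Over `K = ℚ(ζ_p)` with `𝓞 K` a principal ideal domain there
is no Galois extension of degree `p` with trivial different. -/
theorem differentIdeal_ne_top (p : ℕ) [Fact p.Prime] (hp2 : p ≠ 2) (K L : Type)
    [Field K] [NumberField K] [IsCyclotomicExtension {p} ℚ K] [Field L] [NumberField L]
    [Algebra K L] [IsGalois K L] (hdeg : Module.finrank K L = p)
    [IsPrincipalIdealRing (𝓞 K)] : differentIdeal (𝓞 K) (𝓞 L) ≠ ⊤ := by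
  intro hdiff
  have hp : p.Prime := Fact.out
  have hinj : Function.Injective (algebraMap (𝓞 K) (𝓞 L)) :=
    FaithfulSMul.algebraMap_injective (𝓞 K) (𝓞 L)
  have hinjL : Function.Injective (algebraMap (𝓞 L) L) :=
    FaithfulSMul.algebraMap_injective (𝓞 L) L
  -- the Galois group has order `p`
  have hcard : Nat.card (L ≃ₐ[K] L) = p := by rw [IsGalois.card_aut_eq_finrank, hdeg]
  have hcyc : IsCyclic (L ≃ₐ[K] L) := isCyclic_of_prime_card hcard
  have hnt : Nontrivial (L ≃ₐ[K] L) := by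
    rw [← Finite.one_lt_card_iff_nontrivial, hcard]
    exact hp.one_lt
  obtain ⟨σ, hσ⟩ : ∃ σ : L ≃ₐ[K] L, σ ≠ 1 := exists_ne 1
  have hgen : ∀ τ : L ≃ₐ[K] L, τ ∈ Subgroup.zpowers σ := fun τ =>
    mem_zpowers_of_prime_card hcard hσ
  -- the unit of `S10_NormOne`
  obtain ⟨η, hη1, hη2⟩ :=
    Fermat.Agent.S10_NormOne.exists_unit_norm_one_not_coboundary p hp2 K L hdeg σ hσ
  -- Hilbert 90
  obtain ⟨β, hβ0, hβ⟩ := groupCohomology.exists_mul_galRestrict_of_norm_eq_one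
    (K := K) (L := L) (A := 𝓞 K) (B := 𝓞 L) (g := σ) hgen (η := (η : 𝓞 L)) hη1
  -- every conjugate of `β` is associated to `β`
  have hpow : ∀ k : ℕ, ∃ u : (𝓞 L)ˣ,
      galRestrict (𝓞 K) K L (𝓞 L) (σ ^ k) β = β * u := by
    intro k
    induction k with
    | zero => exact ⟨1, by simp⟩
    | succ k ih =>
      obtain ⟨u, hu⟩ := ih
      have hσβ : galRestrict (𝓞 K) K L (𝓞 L) σ β = β * ((η⁻¹ : (𝓞 L)ˣ) : 𝓞 L) := by
        rw [Units.eq_mul_inv_iff_mul_eq, mul_comm]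
        exact hβ
      refine ⟨u * Units.map
        ((galRestrict (𝓞 K) K L (𝓞 L) (σ ^ k) : 𝓞 L ≃ₐ[𝓞 K] 𝓞 L) : 𝓞 L →* 𝓞 L) η⁻¹, ?_⟩
      rw [pow_succ, map_mul, AlgEquiv.mul_apply, hσβ, map_mul, hu]
      simp [mul_assoc]
  have hassoc : ∀ τ : L ≃ₐ[K] L, ∃ u : (𝓞 L)ˣ,
      galRestrict (𝓞 K) K L (𝓞 L) τ β = β * u := by
    intro τ
    obtain ⟨k, rfl⟩ := mem_powers_of_prime_card hcard hσ (g' := τ)
    exact hpow k
  choose u hu using hassoc
  -- the norm of `β`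
  classical
  have hnorm : algebraMap (𝓞 K) (𝓞 L) (RingOfIntegers.norm K β)
      = β ^ p * ((∏ τ : L ≃ₐ[K] L, u τ : (𝓞 L)ˣ) : 𝓞 L) := by
    apply hinjL
    have h1 : algebraMap (𝓞 L) L (algebraMap (𝓞 K) (𝓞 L) (RingOfIntegers.norm K β))
        = algebraMap K L (Algebra.norm K (algebraMap (𝓞 L) L β)) :=
      RingOfIntegers.coe_algebraMap_norm K β
    rw [h1, Algebra.norm_eq_prod_automorphisms]
    have h2 : ∀ τ : L ≃ₐ[K] L, τ (algebraMap (𝓞 L) L β)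
        = algebraMap (𝓞 L) L (β * u τ) := by
      intro τ
      rw [← hu τ, algebraMap_galRestrict_apply]
    rw [Finset.prod_congr rfl fun τ _ => h2 τ, ← map_prod, Finset.prod_mul_distrib,
      Finset.prod_const, Finset.card_univ, ← Nat.card_eq_fintype_card, hcard, Units.coe_prod]
  set U : (𝓞 L)ˣ := ∏ τ : L ≃ₐ[K] L, u τ with hU
  have hb0 : RingOfIntegers.norm K β ≠ 0 := by
    intro h0
    rw [h0, map_zero] at hnorm
    exact mul_ne_zero (pow_ne_zero p hβ0) U.ne_zero hnorm.symm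
  -- descent
  obtain ⟨a, E, hE⟩ := exists_eq_mul_unit K L hdiff p hp.ne_zero (RingOfIntegers.norm K β) hb0 β
    ⟨U⁻¹, by rw [hnorm, mul_assoc, Units.mul_inv, mul_one]⟩
  have ha0 : algebraMap (𝓞 K) (𝓞 L) a ≠ 0 := by
    intro h0
    rw [h0, zero_mul] at hE
    exact hβ0 hE
  -- `η * σ E = E`
  have hηE : (η : 𝓞 L) * galRestrict (𝓞 K) K L (𝓞 L) σ (E : 𝓞 L) = E := by
    have h3 := hβ
    rw [hE, map_mul, AlgEquiv.commutes] at h3
    have h4 : algebraMap (𝓞 K) (𝓞 L) a * ((η : 𝓞 L) * galRestrict (𝓞 K) K L (𝓞 L) σ (E : 𝓞 L))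
        = algebraMap (𝓞 K) (𝓞 L) a * E := by
      rw [← h3]; ring
    exact mul_left_cancel₀ ha0 h4
  -- contradiction with the choice of `η`
  apply hη2 E⁻¹
  have h5 : algebraMap (𝓞 L) L (η : 𝓞 L) * σ (algebraMap (𝓞 L) L (E : 𝓞 L))
      = algebraMap (𝓞 L) L (E : 𝓞 L) := by
    rw [← algebraMap_galRestrict_apply (𝓞 K) σ (E : 𝓞 L), ← map_mul, hηE]
  have hE0 : algebraMap (𝓞 L) L (E : 𝓞 L) ≠ 0 := fun h => E.ne_zero (hinjL (by rw [h, map_zero]))
  have hη0 : algebraMap (𝓞 L) L (η : 𝓞 L) ≠ 0 := fun h => η.ne_zero (hinjL (by rw [h, map_zero]))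
  have hσE0 : σ (algebraMap (𝓞 L) L (E : 𝓞 L)) ≠ 0 := by
    rw [Ne, map_eq_zero_iff σ σ.injective]; exact hE0
  have h6 : algebraMap (𝓞 L) L ((E⁻¹ : (𝓞 L)ˣ) : 𝓞 L) = (algebraMap (𝓞 L) L (E : 𝓞 L))⁻¹ :=
    map_units_inv (algebraMap (𝓞 L) L : 𝓞 L →* L) E
  show σ (algebraMap (𝓞 L) L ((E⁻¹ : (𝓞 L)ˣ) : 𝓞 L))
    = algebraMap (𝓞 L) L (η : 𝓞 L) * algebraMap (𝓞 L) L ((E⁻¹ : (𝓞 L)ˣ) : 𝓞 L)
  rw [h6, map_inv₀, eq_mul_inv_iff_mul_eq₀ hE0, inv_mul_eq_iff_eq_mul₀ hσE0, mul_comm]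
  exact h5.symm

end Fermat.Agent.S10_Hilbert94

end
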