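import Fermat.Agent.S10_CaseII

/-!
# The reduction step of Kummer's lemma

If a unit `u` of the `p`-th cyclotomic field is congruent to a rational integer modulo `p`,
then `u ^ (2 * (p - 1))` is congruent to `1` modulo `(ζ - 1) ^ p`.
-/

namespace Fermat.Agent.S10_KummerRed

open NumberField

attribute [local instance] FractionRing.liftAlgebra in
/-- The norm of an algebraic integer of a `p`-th cyclotomic field is the product of its
conjugates, and there are `p - 1` of them. -/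
lemma norm_eq_prod_and_card (p : ℕ) [hp : Fact p.Prime] (K : Type*) [Field K] [NumberField K]
    [IsCyclotomicExtension {p} ℚ K] :
    (∀ x : 𝓞 K, algebraMap ℤ (𝓞 K) (Algebra.norm ℤ x) = ∏ σ : 𝓞 K ≃ₐ[ℤ] 𝓞 K, σ x) ∧
      Fintype.card (𝓞 K ≃ₐ[ℤ] 𝓞 K) = p - 1 := by
  have : IsGalois ℚ K := IsCyclotomicExtension.isGalois {p} ℚ K
  have : IsGalois (FractionRing ℤ) (FractionRing (𝓞 K)) := by
    refine IsGalois.of_equiv_equiv (f := (FractionRing.algEquiv ℤ ℚ).toRingEquiv.symm)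
      (g := (FractionRing.algEquiv (𝓞 K) K).toRingEquiv.symm) <|
        RingHom.ext fun x ↦ IsFractionRing.algEquiv_commutes (FractionRing.algEquiv ℤ ℚ).symm
          (FractionRing.algEquiv (𝓞 K) K).symm _
  refine ⟨fun x => ?_, ?_⟩
  · rw [← Algebra.intNorm_eq_norm, Algebra.algebraMap_intNorm_of_isGalois]
  · rw [← Fintype.card_congr (galRestrict ℤ ℚ K (𝓞 K)).toEquiv,
      ← Nat.card_eq_fintype_card, IsGalois.card_aut_eq_finrank,
      IsCyclotomicExtension.Rat.finrank p K, Nat.totient_prime hp.out]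

/-- **Reduction step of Kummer's lemma.** -/
theorem pow_sub_one_dvd (p : ℕ) [Fact p.Prime] (hp2 : p ≠ 2) (K : Type*) [Field K] [NumberField K]
    [IsCyclotomicExtension {p} ℚ K] (ζ : 𝓞 K) (hζ : IsPrimitiveRoot ζ p) (u : (𝓞 K)ˣ) (n : ℤ)
    (h : (p : 𝓞 K) ∣ (u : 𝓞 K) - n) :
    (ζ - 1) ^ p ∣ ((u ^ (2 * (p - 1)) : (𝓞 K)ˣ) : 𝓞 K) - 1 := by
  have hp : p.Prime := Fact.out
  have hζK : IsPrimitiveRoot (ζ : K) p := hζ.map_of_injective RingOfIntegers.coe_injective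
  have hζeq : hζK.toInteger = ζ := rfl
  -- Step A: `u` is congruent to an integer `n'` modulo `λ ^ p`
  obtain ⟨x, hx⟩ := h
  obtain ⟨k, hk⟩ := S10_CaseII.exists_int_sub_dvd hζK hp2 x
  rw [hζeq] at hk
  obtain ⟨n', hn'⟩ : ∃ n' : ℤ, n' = n + p * k := ⟨_, rfl⟩
  have hA : (ζ - 1) ^ p ∣ (u : 𝓞 K) - n' := by
    obtain ⟨y, hy⟩ := hk
    have hpl : (ζ - 1) ^ (p - 1) ∣ (p : 𝓞 K) := by
      have := (IsCyclotomicExtension.Rat.associated_zeta_sub_one_pow_prime p hζK).dvd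
      rwa [hζeq] at this
    obtain ⟨t, ht⟩ := hpl
    refine ⟨t * y, ?_⟩
    have e : (u : 𝓞 K) - n' = p * (x - k) := by
      rw [hn']; push_cast; linear_combination hx
    have e2 : (ζ - 1) ^ p = (ζ - 1) ^ (p - 1) * (ζ - 1) := by
      rw [← pow_succ]; congr 1; have := hp.pos; omega
    rw [e, hy, ht, e2]; ring
  -- Step B: the same holds for all conjugates of `u`
  have hB : ∀ σ : 𝓞 K ≃ₐ[ℤ] 𝓞 K, (ζ - 1) ^ p ∣ σ (u : 𝓞 K) - n' := by
    intro σ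
    have h1 : (ζ - 1) ∣ σ (ζ - 1) := (hζ.associated_sub_one_map_sub_one σ).dvd
    have h2 : σ (ζ - 1) ^ p ∣ σ ((u : 𝓞 K) - n') := by
      rw [← map_pow]; exact map_dvd σ hA
    have h3 : σ ((u : 𝓞 K) - n') = σ (u : 𝓞 K) - n' := by simp
    rw [← h3]
    exact (pow_dvd_pow_of_dvd h1 p).trans h2
  obtain ⟨hnorm, hcard⟩ := norm_eq_prod_and_card p K
  have hC : (ζ - 1) ^ p ∣
      algebraMap ℤ (𝓞 K) (Algebra.norm ℤ (u : 𝓞 K)) - (n' : 𝓞 K) ^ (p - 1) := by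
    rw [hnorm, ← hcard, ← Finset.card_univ, ← Finset.prod_const,
      ← Ideal.mem_span_singleton, ← Ideal.Quotient.eq, map_prod, map_prod]
    refine Finset.prod_congr rfl fun σ _ => ?_
    exact Ideal.Quotient.eq.2 (Ideal.mem_span_singleton.2 (hB σ))
  -- the norm of a unit is `±1`
  have hunit : IsUnit (Algebra.norm ℤ (u : 𝓞 K)) := u.isUnit.map (Algebra.norm ℤ)
  have hsq : (Algebra.norm ℤ (u : 𝓞 K)) ^ 2 = 1 := by
    rcases Int.isUnit_iff.1 hunit with h | h <;> rw [h] <;> norm_num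
  have hD : (ζ - 1) ^ p ∣ (n' : 𝓞 K) ^ (2 * (p - 1)) - 1 := by
    have h1 : algebraMap ℤ (𝓞 K) (Algebra.norm ℤ (u : 𝓞 K)) - (n' : 𝓞 K) ^ (p - 1) ∣
        (algebraMap ℤ (𝓞 K) (Algebra.norm ℤ (u : 𝓞 K))) ^ 2 - ((n' : 𝓞 K) ^ (p - 1)) ^ 2 :=
      sub_dvd_pow_sub_pow _ _ 2
    have h2 : (algebraMap ℤ (𝓞 K) (Algebra.norm ℤ (u : 𝓞 K))) ^ 2 = 1 := by
      rw [← map_pow, hsq, map_one]
    rw [h2] at h1
    have h3 := hC.trans h1
    have e : (n' : 𝓞 K) ^ (2 * (p - 1)) - 1 = -(1 - ((n' : 𝓞 K) ^ (p - 1)) ^ 2) := by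
      rw [mul_comm 2, pow_mul]; ring
    rw [e]
    exact (dvd_neg).2 h3
  have hE : (u : 𝓞 K) - n' ∣ (u : 𝓞 K) ^ (2 * (p - 1)) - (n' : 𝓞 K) ^ (2 * (p - 1)) :=
    sub_dvd_pow_sub_pow _ _ _
  have e : ((u ^ (2 * (p - 1)) : (𝓞 K)ˣ) : 𝓞 K) - 1 =
      ((u : 𝓞 K) ^ (2 * (p - 1)) - (n' : 𝓞 K) ^ (2 * (p - 1))) +
        ((n' : 𝓞 K) ^ (2 * (p - 1)) - 1) := by
    push_cast; ring
  rw [e]
  exact dvd_add (hA.trans hE) hD

end Fermat.Agent.S10_KummerRed
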