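import Mathlib

/-!
# Project K, step (K3b): an everywhere unramified Kummer extension

* `exists_monic_poly`, `differentIdeal_eq_top_of_kummer`: if `p = u * lam ^ (p - 1)` in `𝓞 K`
  and `v ≡ 1 mod lam ^ p` is a unit, then `L = K(θ)`, `θ ^ p = v`, has trivial different.
* `exists_map_eq_of_smul_eq`: in a Galois extension of Dedekind domains with trivial different,
  every invariant ideal is extended from the base.
* `exists_unramified`: the packaged existence statement used by the Kummer lemma.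
-/

namespace Fermat.Agent.S10_Unram

open scoped Pointwise NumberField
open Polynomial UniqueFactorizationMonoid

theorem coeff_C_mul_X_add_one_pow {R : Type*} [CommRing R] (lam : R) (n k : ℕ) :
    ((C lam * X + 1) ^ n).coeff k = (n.choose k : R) * lam ^ k := by
  have h : (C lam * X + 1 : R[X]) ^ n = ((X + 1) ^ n).comp (C lam * X) := by simp
  rw [h, comp_C_mul_X_coeff, coeff_X_add_one_pow]

/-- The integral model of the Artin–Schreier–Kummer substitution `X ↦ lam X + 1`. -/
theorem exists_monic_poly (p : ℕ) [hp : Fact p.Prime] {R : Type*} [CommRing R] [IsDomain R]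
    (lam u v : R) (hu : (p : R) = u * lam ^ (p - 1)) (hlam : lam ≠ 0) (hv : lam ^ p ∣ v - 1) :
    ∃ f : R[X], f.Monic ∧ C (lam ^ p) * f = (C lam * X + 1) ^ p - C v := by
  have hp1 : 1 ≤ p := hp.out.one_le
  have hcoef : ∀ k, ((C lam * X + 1) ^ p - C v - C (lam ^ p) * X ^ p : R[X]).coeff k =
      (p.choose k : R) * lam ^ k - (if k = 0 then v else 0) - (if k = p then lam ^ p else 0) := by
    intro k
    rw [coeff_sub, coeff_sub, coeff_C_mul_X_add_one_pow, coeff_C, coeff_C_mul, coeff_X_pow]
    split_ifs <;> simp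
  have hdvd : C (lam ^ p) ∣ ((C lam * X + 1) ^ p - C v - C (lam ^ p) * X ^ p : R[X]) := by
    rw [C_dvd_iff_dvd_coeff]
    intro k
    rw [hcoef]
    rcases Nat.eq_zero_or_pos k with rfl | hk
    · have : (0 : ℕ) ≠ p := by lia
      simp only [Nat.choose_zero_right, Nat.cast_one, pow_zero, mul_one, if_true, if_neg this,
        sub_zero]
      obtain ⟨c, hc⟩ := hv
      exact ⟨-c, by linear_combination -hc⟩
    · rcases lt_trichotomy k p with hlt | rfl | hgt
      · have h1 : p ∣ p.choose k := hp.out.dvd_choose_self hk.ne' hlt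
        obtain ⟨m, hm⟩ := h1
        have hk0 : k ≠ 0 := hk.ne'
        have hkp : k ≠ p := hlt.ne
        simp only [if_neg hk0, if_neg hkp, sub_zero, hm, Nat.cast_mul, hu]
        refine ⟨u * m * lam ^ (k - 1), ?_⟩
        have e1 : lam ^ p = lam ^ (p - 1) * lam := by
          rw [← pow_succ]; congr 1; lia
        have e2 : lam ^ k = lam ^ (k - 1) * lam := by
          rw [← pow_succ]; congr 1; lia
        rw [e1, e2]; ring
      · have hk0 : k ≠ 0 := hk.ne'
        simp [hk0]
      · have hk0 : k ≠ 0 := hk.ne'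
        have hkp : k ≠ p := hgt.ne'
        simp [hk0, hkp, Nat.choose_eq_zero_of_lt hgt]
  obtain ⟨h, hh⟩ := hdvd
  have hlamp : lam ^ p ≠ 0 := pow_ne_zero _ hlam
  have hdeg : h.degree < p := by
    have h1 : (C (lam ^ p) * h).degree = h.degree := degree_C_mul hlamp
    rw [← h1, ← hh, degree_lt_iff_coeff_zero]
    intro m hm
    rw [hcoef]
    rcases hm.lt_or_eq with hgt | rfl
    · have hk0 : m ≠ 0 := by lia
      have hkp : m ≠ p := hgt.ne'
      simp [hk0, hkp, Nat.choose_eq_zero_of_lt hgt]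
    · have hk0 : p ≠ 0 := by lia
      simp [hk0]
  refine ⟨X ^ p + h, monic_X_pow_add hdeg, ?_⟩
  rw [mul_add, ← hh]; ring

theorem differentIdeal_eq_top_of_kummer (p : ℕ) [hp : Fact p.Prime]
    (K L : Type*) [Field K] [NumberField K] [Field L] [NumberField L] [Algebra K L]
    (lam : 𝓞 K) (u : (𝓞 K)ˣ) (hu : (p : 𝓞 K) = u * lam ^ (p - 1))
    (v : (𝓞 K)ˣ) (hv : lam ^ p ∣ (v : 𝓞 K) - 1)
    (θ : L) (hθ : θ ^ p = algebraMap (𝓞 K) L v) (hgen : Algebra.adjoin K {θ} = ⊤) :
    differentIdeal (𝓞 K) (𝓞 L) = ⊤ := by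
  have hp0 : p ≠ 0 := hp.out.ne_zero
  have hlam : lam ≠ 0 := by
    rintro rfl
    have hp1 : p - 1 ≠ 0 := by have := hp.out.two_le; lia
    rw [zero_pow hp1, mul_zero] at hu
    exact hp0 (by exact_mod_cast hu)
  obtain ⟨f, hfm, hf⟩ := exists_monic_poly p lam (u : 𝓞 K) (v : 𝓞 K) hu hlam hv
  set lamL : L := algebraMap (𝓞 K) L lam with hlamL
  have hlamL0 : lamL ≠ 0 := by
    rw [hlamL, Ne, FaithfulSMul.algebraMap_eq_zero_iff]
    exact hlam
  set w : L := (θ - 1) / lamL with hw
  have hwθ : lamL * w + 1 = θ := by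
    rw [hw]; field_simp; ring
  -- `w` is a root of `f`
  have hfw : aeval w f = 0 := by
    have h1 := congrArg (aeval w) hf
    simp only [map_mul, aeval_C, map_pow, map_sub, map_add, aeval_X, map_one] at h1
    rw [← hlamL, hwθ, hθ, sub_self] at h1
    exact (mul_eq_zero.mp h1).resolve_left (pow_ne_zero _ hlamL0)
  have hwint : IsIntegral (𝓞 K) w := ⟨f, hfm, by rwa [← aeval_def]⟩
  have hwintZ : IsIntegral ℤ w := isIntegral_trans w hwint
  have hθint : IsIntegral ℤ θ := by
    refine IsIntegral.of_pow (Nat.pos_of_ne_zero hp0) ?_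
    rw [hθ]
    exact isIntegral_trans _ isIntegral_algebraMap
  let w' : 𝓞 L := ⟨w, hwintZ⟩
  let θ' : 𝓞 L := ⟨θ, hθint⟩
  have hw' : algebraMap (𝓞 L) L w' = w := rfl
  have hθ' : algebraMap (𝓞 L) L θ' = θ := rfl
  have hinj : Function.Injective (algebraMap (𝓞 L) L) := FaithfulSMul.algebraMap_injective _ _
  -- `θ'` is a unit
  have hθunit : IsUnit θ' := by
    have h1 : θ' ^ p = algebraMap (𝓞 K) (𝓞 L) v := by
      apply hinj
      rw [map_pow, hθ', hθ, ← IsScalarTower.algebraMap_apply]
    have h2 : IsUnit (θ' ^ p) := by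
      rw [h1]; exact v.isUnit.map _
    exact (isUnit_pow_iff hp0).mp h2
  -- `w` generates
  have hx : Algebra.adjoin K {algebraMap (𝓞 L) L w'} = ⊤ := by
    rw [hw', eq_top_iff, ← hgen]
    refine Algebra.adjoin_le ?_
    rw [Set.singleton_subset_iff, ← hwθ]
    refine add_mem (mul_mem ?_ (Algebra.self_mem_adjoin_singleton K w)) (one_mem _)
    rw [hlamL, IsScalarTower.algebraMap_apply (𝓞 K) K L]
    exact Subalgebra.algebraMap_mem _ _
  have hmem := aeval_derivative_mem_differentIdeal (𝓞 K) K L w' hx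
  refine Ideal.eq_top_of_isUnit_mem _ hmem ?_
  -- the minimal polynomial divides `f`
  have hfw' : aeval w' f = 0 := by
    apply hinj
    rw [← aeval_algebraMap_apply, hw', hfw, map_zero]
  have hw'int : IsIntegral (𝓞 K) w' := Algebra.IsIntegral.isIntegral _
  obtain ⟨q, hq⟩ := minpoly.isIntegrallyClosed_dvd hw'int hfw'
  -- derivative of `f` at `w'`
  have hder : aeval w' (derivative f) = algebraMap (𝓞 K) (𝓞 L) u * θ' ^ (p - 1) := by
    apply hinj
    rw [← aeval_algebraMap_apply, hw', map_mul, map_pow, hθ', ← IsScalarTower.algebraMap_apply]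
    have h0 : C (lam ^ p) * derivative f =
        C ((p : ℕ) : 𝓞 K) * (C lam * X + 1) ^ (p - 1) * C lam := by
      have := congrArg derivative hf
      rw [derivative_C_mul, derivative_sub, derivative_C, sub_zero, derivative_pow,
        derivative_add, derivative_one, add_zero, derivative_C_mul, derivative_X, mul_one] at this
      exact this
    have h1 := congrArg (aeval w) h0
    simp only [map_mul, aeval_C, map_pow, map_add, aeval_X, map_one, map_natCast] at h1
    rw [← hlamL, hwθ] at h1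
    have h2 : (p : L) = algebraMap (𝓞 K) L u * lamL ^ (p - 1) := by
      have := congrArg (algebraMap (𝓞 K) L) hu
      simpa using this
    have e1 : lamL ^ p = lamL ^ (p - 1) * lamL := by
      rw [← pow_succ]; congr 1; have := hp.out.two_le; lia
    rw [h2, e1] at h1
    have h3 : lamL ^ (p - 1) * lamL ≠ 0 := mul_ne_zero (pow_ne_zero _ hlamL0) hlamL0
    apply mul_left_cancel₀ h3
    rw [h1]; ring
  have hunit : IsUnit (aeval w' (derivative f)) := by
    rw [hder]
    exact (u.isUnit.map _).mul (hθunit.pow _)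
  rw [hq, derivative_mul, map_add, map_mul, map_mul, minpoly.aeval, zero_mul, add_zero] at hunit
  exact isUnit_of_mul_isUnit_left hunit

section General

attribute [local instance] FractionRing.liftAlgebra

variable {A B : Type*} [CommRing A] [CommRing B] [IsDedekindDomain A] [IsDedekindDomain B]
  [Algebra A B] [Module.Finite A B] [Module.IsTorsionFree A B]
  (G : Type*) [Group G] [Finite G] [MulSemiringAction G B] [IsGaloisGroup G A B]

omit [IsDedekindDomain A] [IsDedekindDomain B] [Module.Finite A B] [Module.IsTorsionFree A B]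
  [Finite G] in
theorem smul_map_algebraMap (σ : G) (a : Ideal A) :
    σ • a.map (algebraMap A B) = a.map (algebraMap A B) := by
  rw [Ideal.pointwise_smul_def, Ideal.map_map]
  congr 1
  ext x
  simp [smul_algebraMap]

/-- If the different is trivial, `p B` is squarefree: it contains every nonzero ideal that is
contained in all primes above `p`. -/
theorem le_map_of_forall_le [Algebra.IsSeparable (FractionRing A) (FractionRing B)]
    (hd : differentIdeal A B = ⊤) (p : Ideal A) [p.IsMaximal] (hp : p ≠ ⊥) (I : Ideal B)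
    (hI0 : I ≠ ⊥)
    (hI : ∀ Q : Ideal B, Q.IsPrime → p.map (algebraMap A B) ≤ Q → I ≤ Q) :
    I ≤ p.map (algebraMap A B) := by
  have hp' : p.map (algebraMap A B) ≠ ⊥ := (Ideal.map_eq_bot_iff_of_injective
    (FaithfulSMul.algebraMap_injective A B)).not.mpr hp
  rw [← Ideal.dvd_iff_le, dvd_iff_normalizedFactors_le_normalizedFactors hp' hI0]
  have hnd : (normalizedFactors (p.map (algebraMap A B))).Nodup := by
    rw [Multiset.nodup_iff_count_le_one]
    intro Q
    by_contra hcon
    push Not at hcon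
    have hQmem : Q ∈ normalizedFactors (p.map (algebraMap A B)) :=
      Multiset.count_pos.mp (by lia)
    have hQprime : Q.IsPrime := ((Ideal.mem_normalizedFactors_iff hp').mp hQmem).1
    have h2 : Q ^ 2 ∣ p.map (algebraMap A B) := by
      have h3 : Multiset.replicate 2 Q ≤ normalizedFactors (p.map (algebraMap A B)) :=
        Multiset.le_count_iff_replicate_le.mp hcon
      have h4 := Multiset.prod_dvd_prod_of_le h3
      rw [Multiset.prod_replicate] at h4
      exact h4.trans (prod_normalizedFactors hp').dvd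
    have h1 := pow_sub_one_dvd_differentIdeal A Q 2 hp h2
    rw [hd] at h1
    simp only [Nat.add_one_sub_one, pow_one, Ideal.dvd_iff_le, top_le_iff] at h1
    exact hQprime.ne_top h1
  rw [Multiset.le_iff_subset hnd]
  intro Q hQ
  rw [Ideal.mem_normalizedFactors_iff hp'] at hQ
  rw [Ideal.mem_normalizedFactors_iff hI0]
  exact ⟨hQ.1, hI Q hQ.1 hQ.2⟩

/-- **Invariant ideals are extended** in an everywhere unramified Galois extension of Dedekind
domains. -/
theorem exists_map_eq_of_smul_eq [Algebra.IsSeparable (FractionRing A) (FractionRing B)]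
    (hd : differentIdeal A B = ⊤) (I : Ideal B) (hI : ∀ σ : G, σ • I = I) :
    ∃ a : Ideal A, I = a.map (algebraMap A B) := by
  induction I using IsNoetherian.induction with
  | _ I ih =>
  by_cases hI0 : I = ⊥
  · exact ⟨⊥, by rw [hI0, Ideal.map_bot]⟩
  by_cases hI1 : I = ⊤
  · exact ⟨⊤, by rw [hI1, Ideal.map_top]⟩
  obtain ⟨P, hPmax, hIP⟩ := Ideal.exists_le_maximal I hI1
  have hP0 : P ≠ ⊥ := fun h => hI0 (le_bot_iff.mp (h ▸ hIP))
  set p : Ideal A := P.under A with hpdef
  have hp0 : p ≠ ⊥ := mt Ideal.eq_bot_of_comap_eq_bot hP0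
  have hpmax : p.IsMaximal := Ring.DimensionLEOne.maximalOfPrime hp0 inferInstance
  have hPp : P.LiesOver p := ⟨rfl⟩
  have hle : I ≤ p.map (algebraMap A B) := by
    refine le_map_of_forall_le hd p hp0 I hI0 ?_
    intro Q hQ hpQ
    have hQp : Q.LiesOver p := by
      constructor
      have : p ≤ Q.under A := Ideal.map_le_iff_le_comap.mp hpQ
      exact (hpmax.eq_of_le (Ideal.IsPrime.under A Q).ne_top this)
    obtain ⟨σ, rfl⟩ := Ideal.exists_smul_eq_of_isGaloisGroup p P Q G
    rw [← hI σ]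
    exact smul_mono_right σ hIP
  have hp' : p.map (algebraMap A B) ≠ ⊥ := (Ideal.map_eq_bot_iff_of_injective
    (FaithfulSMul.algebraMap_injective A B)).not.mpr hp0
  obtain ⟨J, hJ⟩ := Ideal.dvd_iff_le.mpr hle
  have hJ0 : J ≠ ⊥ := by
    rintro rfl
    exact hI0 (by rw [hJ]; simp)
  have hJinv : ∀ σ : G, σ • J = J := by
    intro σ
    have h1 := hI σ
    rw [hJ, smul_mul', smul_map_algebraMap] at h1
    exact mul_left_cancel₀ hp' h1
  have hlt : I < J := by
    refine lt_of_le_of_ne (hJ ▸ Ideal.mul_le_right) ?_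
    intro h
    rw [h] at hJ
    have h2 : p.map (algebraMap A B) = 1 := by
      refine mul_right_cancel₀ hJ0 ?_
      rw [one_mul]
      exact hJ.symm
    have h3 : p.map (algebraMap A B) ≤ P := Ideal.map_le_iff_le_comap.mpr le_rfl
    rw [h2, Ideal.one_eq_top, top_le_iff] at h3
    exact hPmax.ne_top h3
  obtain ⟨b, hb⟩ := ih J hlt hJinv
  exact ⟨p * b, by rw [hJ, hb, Ideal.map_mul]⟩

end General


section NumberField

variable (K L : Type*) [Field K] [NumberField K] [Field L] [NumberField L] [Algebra K L]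

/-- Number field version: in a Galois extension with trivial different every Galois-stable
ideal of `𝓞 L` is extended from `𝓞 K`. -/
theorem exists_map_eq_of_forall_smul_eq [IsGalois K L]
    (hd : differentIdeal (𝓞 K) (𝓞 L) = ⊤) (I : Ideal (𝓞 L))
    (hI : ∀ σ : L ≃ₐ[K] L, σ • I = I) :
    ∃ a : Ideal (𝓞 K), I = a.map (algebraMap (𝓞 K) (𝓞 L)) :=
  exists_map_eq_of_smul_eq (L ≃ₐ[K] L) hd I hI

/-- PID form: an element of `𝓞 L` generating a Galois-stable ideal is an element of `𝓞 K`
times a unit, when the different is trivial. -/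
theorem exists_eq_algebraMap_mul_unit [IsGalois K L] [IsPrincipalIdealRing (𝓞 K)]
    (hd : differentIdeal (𝓞 K) (𝓞 L) = ⊤) (β : 𝓞 L)
    (hβ : ∀ σ : L ≃ₐ[K] L, ∃ E : (𝓞 L)ˣ, σ • β = E * β) :
    ∃ (a : 𝓞 K) (E : (𝓞 L)ˣ), β = algebraMap (𝓞 K) (𝓞 L) a * E := by
  have hI : ∀ σ : L ≃ₐ[K] L, σ • Ideal.span {β} = Ideal.span {β} := by
    intro σ
    obtain ⟨E, hE⟩ := hβ σ
    rw [Ideal.smul_closure, Set.smul_set_singleton, hE, Ideal.span_singleton_eq_span_singleton]
    exact ⟨E⁻¹, by rw [mul_comm, ← mul_assoc]; simp⟩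
  obtain ⟨a, ha⟩ := exists_map_eq_of_forall_smul_eq K L hd _ hI
  obtain ⟨α, rfl⟩ := (IsPrincipalIdealRing.principal a).principal
  rw [Ideal.submodule_span_eq, Ideal.map_span, Set.image_singleton,
    Ideal.span_singleton_eq_span_singleton] at ha
  obtain ⟨E, hE⟩ := ha.symm
  exact ⟨α, E, hE.symm⟩

end NumberField

/-- **(K3b)** For a unit `v ≡ 1 mod (ζ - 1) ^ p` of `ℤ[ζ_p]` which is not a `p`-th power, the
Kummer extension `K(v^(1/p))/K` is Galois of degree `p` with trivial different. -/
theorem exists_unramified (p : ℕ) [Fact p.Prime] (hp2 : p ≠ 2) (K : Type) [Field K]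
    [NumberField K] [IsCyclotomicExtension {p} ℚ K] (ζ : 𝓞 K) (hζ : IsPrimitiveRoot ζ p)
    (v : (𝓞 K)ˣ) (hv : (ζ - 1) ^ p ∣ (v : 𝓞 K) - 1)
    (hnot : ¬ ∃ w : K, w ^ p = ((v : 𝓞 K) : K)) :
    ∃ (L : Type) (_ : Field L) (_ : NumberField L) (_ : Algebra K L),
      IsGalois K L ∧ Module.finrank K L = p ∧ differentIdeal (𝓞 K) (𝓞 L) = ⊤ := by
  have hp : p.Prime := Fact.out
  have hirr : Irreducible (X ^ p - C ((v : 𝓞 K) : K)) :=
    X_pow_sub_C_irreducible_of_prime hp (fun b hb => hnot ⟨b, hb⟩)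
  have hfact : Fact (Irreducible (X ^ p - C ((v : 𝓞 K) : K))) := ⟨hirr⟩
  have hζK : IsPrimitiveRoot ((ζ : 𝓞 K) : K) p :=
    hζ.map_of_injective NumberField.RingOfIntegers.coe_injective
  have hprim : (primitiveRoots p K).Nonempty := ⟨_, (mem_primitiveRoots hp.pos).mpr hζK⟩
  let L : Type := AdjoinRoot (X ^ p - C ((v : 𝓞 K) : K))
  letI : Field L := AdjoinRoot.instField
  letI : Algebra K L := inferInstanceAs (Algebra K (AdjoinRoot (X ^ p - C ((v : 𝓞 K) : K))))
  haveI : Module.Finite K L := (AdjoinRoot.powerBasis hirr.ne_zero).finite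
  haveI : NumberField L := NumberField.of_module_finite K L
  haveI hsplit : IsSplittingField K L (X ^ p - C ((v : 𝓞 K) : K)) :=
    isSplittingField_AdjoinRoot_X_pow_sub_C hprim hirr
  refine ⟨L, inferInstance, inferInstance, inferInstance,
    isGalois_of_isSplittingField_X_pow_sub_C hprim hirr L,
    finrank_of_isSplittingField_X_pow_sub_C hprim hirr L, ?_⟩
  have hassoc := IsCyclotomicExtension.Rat.associated_zeta_sub_one_pow_prime p hζK
  have hζint : hζK.toInteger = ζ := NumberField.RingOfIntegers.ext rfl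
  rw [hζint] at hassoc
  obtain ⟨u, hu⟩ := hassoc.symm
  refine differentIdeal_eq_top_of_kummer p K L (ζ - 1) u⁻¹ ?_ v hv
    (AdjoinRoot.root (X ^ p - C ((v : 𝓞 K) : K))) ?_ ?_
  · rw [← hu]; simp [mul_comm]
  · rw [IsScalarTower.algebraMap_apply (𝓞 K) K L, root_X_pow_sub_C_pow]
    rfl
  · exact AdjoinRoot.adjoinRoot_eq_top


end Fermat.Agent.S10_Unram
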