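import Mathlib
import Fermat.Agent.S10_Hilbert94
import Fermat.Agent.S10_Unram
import Fermat.Agent.S10_KummerRed

/-!
# S10 / Project K, (K3): Kummer's lemma in PID form

Let `K = ℚ(ζ_p)`, `p` an odd prime, with `𝓞 K` a principal ideal domain.  A unit of `𝓞 K`
congruent to a rational integer modulo `p` is a `p`-th power of a unit.

Proof: `v := u ^ (2 (p - 1))` is `≡ 1 mod (ζ - 1) ^ p` (`S10_KummerRed`).  If `v` were not a
`p`-th power in `K`, then `L = K(v^(1/p))` would be Galois of degree `p` over `K` with trivial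
different (`S10_Unram`), contradicting `S10_Hilbert94`.  So `v = w ^ p`, and since `2 (p - 1)` is
prime to `p`, `u` itself is a `p`-th power.
-/

set_option autoImplicit false

noncomputable section

open NumberField Polynomial

namespace Fermat.Agent.S10_KummerLemma

/-- A unit `≡ 1 mod (ζ - 1) ^ p` is a `p`-th power in `K`. -/
theorem exists_pow_eq (p : ℕ) [Fact p.Prime] (hp2 : p ≠ 2) (K : Type) [Field K] [NumberField K]
    [IsCyclotomicExtension {p} ℚ K] [IsPrincipalIdealRing (𝓞 K)] (ζ : 𝓞 K)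
    (hζ : IsPrimitiveRoot ζ p) (v : (𝓞 K)ˣ) (hv : (ζ - 1) ^ p ∣ (v : 𝓞 K) - 1) :
    ∃ w : K, w ^ p = ((v : 𝓞 K) : K) := by
  by_contra hnot
  obtain ⟨L, _, _, _, _, hdeg, htop⟩ :=
    Fermat.Agent.S10_Unram.exists_unramified p hp2 K ζ hζ v hv hnot
  exact Fermat.Agent.S10_Hilbert94.differentIdeal_ne_top p hp2 K L hdeg htop

/-- **(K3) Kummer's lemma, PID form.** -/
theorem kummer_lemma (p : ℕ) [Fact p.Prime] (hp2 : p ≠ 2) (K : Type) [Field K]
    [NumberField K] [IsCyclotomicExtension {p} ℚ K] [IsPrincipalIdealRing (𝓞 K)]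
    (u : (𝓞 K)ˣ) (h : ∃ n : ℤ, (p : 𝓞 K) ∣ (u : 𝓞 K) - n) : ∃ v : (𝓞 K)ˣ, u = v ^ p := by
  have hp : p.Prime := Fact.out
  obtain ⟨n, hn⟩ := h
  have hζ' := IsCyclotomicExtension.zeta_spec p ℚ K
  have hζ : IsPrimitiveRoot hζ'.toInteger p := hζ'.toInteger_isPrimitiveRoot
  have hv := Fermat.Agent.S10_KummerRed.pow_sub_one_dvd p hp2 K hζ'.toInteger hζ u n hn
  obtain ⟨w, hw⟩ := exists_pow_eq p hp2 K hζ'.toInteger hζ (u ^ (2 * (p - 1))) hv
  -- `w` is a unit of `𝓞 K`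
  have hwint : IsIntegral ℤ w := by
    refine IsIntegral.of_pow hp.pos ?_
    rw [hw]
    exact RingOfIntegers.isIntegral_coe _
  obtain ⟨W₀, hW₀w⟩ := (IsIntegralClosure.isIntegral_iff (A := 𝓞 K) (R := ℤ) (B := K)).mp hwint
  have hW₀ : W₀ ^ p = ((u ^ (2 * (p - 1)) : (𝓞 K)ˣ) : 𝓞 K) := by
    apply FaithfulSMul.algebraMap_injective (𝓞 K) K
    rw [map_pow, hW₀w]
    exact hw
  have hunit : IsUnit W₀ := by
    have h1 : IsUnit (W₀ ^ p) := by
      rw [hW₀]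
      exact Units.isUnit _
    exact (isUnit_pow_iff hp.ne_zero).mp h1
  obtain ⟨W, hW⟩ := hunit
  have hWp : W ^ p = u ^ (2 * (p - 1)) := by
    apply Units.ext
    rw [Units.val_pow_eq_pow_val, hW, hW₀]
  -- Bézout
  have hcop : Nat.Coprime (2 * (p - 1)) p := by
    rw [Nat.coprime_comm, Nat.Prime.coprime_iff_not_dvd hp]
    intro hdvd
    rcases (Nat.Prime.dvd_mul hp).mp hdvd with h2 | h2
    · have := Nat.le_of_dvd (by norm_num) h2
      have := hp.two_le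
      omega
    · have h3 := hp.two_le
      have := Nat.le_of_dvd (by omega) h2
      omega
  have hbez := Int.gcd_eq_gcd_ab ((2 * (p - 1) : ℕ) : ℤ) (p : ℤ)
  rw [Int.gcd_natCast_natCast, hcop.gcd_eq_one] at hbez
  set a := Int.gcdA ((2 * (p - 1) : ℕ) : ℤ) (p : ℤ)
  set b := Int.gcdB ((2 * (p - 1) : ℕ) : ℤ) (p : ℤ)
  refine ⟨W ^ a * u ^ b, ?_⟩
  have h4 : u = u ^ (((2 * (p - 1) : ℕ) : ℤ) * a + (p : ℤ) * b) := by
    rw [← hbez]
    simp
  have e1 : u ^ (((2 * (p - 1) : ℕ) : ℤ) * a) = (u ^ (2 * (p - 1))) ^ a := by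
    rw [zpow_mul, zpow_natCast]
  have e2 : u ^ ((p : ℤ) * b) = (u ^ b) ^ p := by
    rw [mul_comm, zpow_mul, zpow_natCast]
  have e3 : (W ^ p) ^ a = (W ^ a) ^ p := by
    rw [← zpow_natCast W p, ← zpow_mul, mul_comm, zpow_mul, zpow_natCast]
  calc u = u ^ (((2 * (p - 1) : ℕ) : ℤ) * a + (p : ℤ) * b) := h4
    _ = (u ^ (2 * (p - 1))) ^ a * (u ^ b) ^ p := by rw [zpow_add, e1, e2]
    _ = (W ^ a * u ^ b) ^ p := by rw [← hWp, mul_pow, e3]

end Fermat.Agent.S10_KummerLemma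

end
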