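import Mathlib
import Fermat.Agent.S10_CaseI
import Fermat.Agent.S10_CaseII
import Fermat.Agent.S10_KummerLemma

/-!
# S10_FLT (helper5): Kummer's theorem in the PID case, assembled

Fermat's Last Theorem for a prime exponent `p ≥ 5` such that the ring of integers of the `p`-th
cyclotomic field is a principal ideal domain: first case (`S10_CaseI`), second case
(`S10_CaseII`) and Kummer's lemma (`S10_KummerLemma`).
-/

set_option autoImplicit false

open NumberField

namespace Fermat.Agent.S10_FLT

/-- **Kummer (PID case).** Fermat's Last Theorem for a prime `p ≥ 5` such that the ring of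
integers of a `p`-th cyclotomic field `K` is principal. -/
theorem flt_of_pid (p : ℕ) [Fact p.Prime] (hp5 : 5 ≤ p) (K : Type) [Field K] [NumberField K]
    [IsCyclotomicExtension {p} ℚ K] (hpid : IsPrincipalIdealRing (𝓞 K)) :
    FermatLastTheoremFor p := by
  have hp2 : p ≠ 2 := by omega
  have : NeZero p := ⟨by omega⟩
  rw [fermatLastTheoremFor_iff_int]
  refine fermatLastTheoremWith_of_fermatLastTheoremWith_coprime fun a b c ha hb hc hgcd => ?_
  have hζ : IsPrimitiveRoot (IsCyclotomicExtension.zeta p ℚ K) p :=
    IsCyclotomicExtension.zeta_spec p ℚ K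
  by_cases h : (p : ℤ) ∣ a * b * c
  · exact Fermat.Agent.S10_CaseII.caseII_sym hζ hp2 hpid
      (fun u hu => Fermat.Agent.S10_KummerLemma.kummer_lemma p hp2 K u hu)
      ha hb hc hgcd h
  · exact Fermat.Agent.S10_CaseI.caseI hp5 hpid hgcd h

/-- The cyclotomic field `CyclotomicField p ℚ` is a `p`-th cyclotomic extension of `ℚ` for the
canonical `ℚ`-algebra structure of a field of characteristic zero. -/
theorem isCyclotomicExtension_cyclotomicField (p : ℕ) [NeZero p] :
    IsCyclotomicExtension {p} ℚ (CyclotomicField p ℚ) :=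
  CyclotomicField.isCyclotomicExtension p ℚ

/-- No nonzero integer solutions of the Fermat equation for a prime exponent `p ≥ 5` such that
the ring of integers of `CyclotomicField p ℚ` is principal. -/
theorem no_solution_of_pid (p : ℕ) (hp : p.Prime) (hp5 : 5 ≤ p)
    (hpid : IsPrincipalIdealRing (𝓞 (CyclotomicField p ℚ))) {a b c : ℤ} (ha : a ≠ 0)
    (hb : b ≠ 0) (hc : c ≠ 0) : a ^ p + b ^ p ≠ c ^ p := by
  have : Fact p.Prime := ⟨hp⟩
  have : NeZero p := ⟨by omega⟩
  have := isCyclotomicExtension_cyclotomicField p
  exact fermatLastTheoremFor_iff_int.mp (flt_of_pid p hp5 (CyclotomicField p ℚ) hpid) a b c ha hb hc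

end Fermat.Agent.S10_FLT
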