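import Fermat.Agent.S10_PIDFactor

/-!
# Project K, (K0) (helper1): `ℤ[ζ₁₃]` is a principal ideal domain

Minkowski bound `306`; the primes `q ≤ 306`, `q ≠ 13` with a power `q ^ f ≤ 306`,
`q ^ f ≡ 1 mod 13` are `3` (`f = 3`) and `53, 79, 131, 157` (`f = 1`); the elements
`1 + ζ - ζ³`, `1 - ζ + ζ³`, `1 - ζ - ζ⁴`, `1 - ζ - ζ³`, `1 - ζ + ζ² + ζ⁴` generate primes above
them (explicit cofactor certificates).
-/

set_option autoImplicit false

namespace Fermat.Agent.S10_PID13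

open NumberField Polynomial Fermat.Agent.S10_PIDCore Fermat.Agent.S10_PIDFactor

theorem small_primes_aux : ∀ q ∈ Finset.range 307, Nat.Prime q → q ≠ 13 → q ≠ 3 → q ≠ 53 →
    q ≠ 79 → q ≠ 131 → q ≠ 157 → ∀ f ∈ Finset.range 9, 1 ≤ f → q ^ f ≤ 306 →
    q ^ f % 13 ≠ 1 := by
  decide +kernel

theorem sum_zeta13 (K : Type*) [Field K] [NumberField K] [IsCyclotomicExtension {13} ℚ K]
    [Fact (Nat.Prime 13)] :
    1 + zetaInt 13 K + zetaInt 13 K ^ 2 + zetaInt 13 K ^ 3 + zetaInt 13 K ^ 4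
      + zetaInt 13 K ^ 5 + zetaInt 13 K ^ 6 + zetaInt 13 K ^ 7 + zetaInt 13 K ^ 8
      + zetaInt 13 K ^ 9 + zetaInt 13 K ^ 10 + zetaInt 13 K ^ 11 + zetaInt 13 K ^ 12 = 0 := by
  have := sum_zetaInt_pow 13 K
  simpa [Finset.sum_range_succ] using this

theorem root_aux_53 : ∑ i ∈ Finset.range 13, (((16 : ℤ) : ZMod 53)) ^ i = 0 := by
  decide +kernel

theorem principal_53 (K : Type*) [Field K] [NumberField K] [IsCyclotomicExtension {13} ℚ K]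
    [Fact (Nat.Prime 13)] :
    ∃ P ∈ Ideal.primesOver (Ideal.span {((53 : ℕ) : ℤ)}) (𝓞 K), Submodule.IsPrincipal P := by
  have : Fact (Nat.Prime 53) := ⟨by norm_num⟩
  have hΦ := sum_zeta13 K
  refine exists_principal_of_root 13 K 53 16 root_aux_53
    (1 + (-1) * zetaInt 13 K + 1 * zetaInt 13 K ^ 3)
    (25 + 10 * zetaInt 13 K + 19 * zetaInt 13 K ^ 2 + 3 * zetaInt 13 K ^ 3 + 2 * zetaInt 13 K ^ 4 + (-8) * zetaInt 13 K ^ 5 + (-2) * zetaInt 13 K ^ 6 + 5 * zetaInt 13 K ^ 7 + 22 * zetaInt 13 K ^ 8 + 33 * zetaInt 13 K ^ 9 + 37 * zetaInt 13 K ^ 10 + 24 * zetaInt 13 K ^ 11)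
    ((-8) + (-3) * zetaInt 13 K + (-6) * zetaInt 13 K ^ 2 + (-1) * zetaInt 13 K ^ 3 + (-1) * zetaInt 13 K ^ 4 + 2 * zetaInt 13 K ^ 5 + (-2) * zetaInt 13 K ^ 7 + (-7) * zetaInt 13 K ^ 8 + (-10) * zetaInt 13 K ^ 9 + (-11) * zetaInt 13 K ^ 10 + (-7) * zetaInt 13 K ^ 11)
    (255 + 16 * zetaInt 13 K + 1 * zetaInt 13 K ^ 2) (77) ?_ ?_ ?_
  · push_cast
    ring
  · push_cast
    linear_combination (-((-28) + 13 * zetaInt 13 K + 24 * zetaInt 13 K ^ 2)) * hΦ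
  · push_cast
    linear_combination (-(8 + (-4) * zetaInt 13 K + (-7) * zetaInt 13 K ^ 2)) * hΦ

theorem root_aux_79 : ∑ i ∈ Finset.range 13, (((62 : ℤ) : ZMod 79)) ^ i = 0 := by
  decide +kernel

theorem principal_79 (K : Type*) [Field K] [NumberField K] [IsCyclotomicExtension {13} ℚ K]
    [Fact (Nat.Prime 13)] :
    ∃ P ∈ Ideal.primesOver (Ideal.span {((79 : ℕ) : ℤ)}) (𝓞 K), Submodule.IsPrincipal P := by
  have : Fact (Nat.Prime 79) := ⟨by norm_num⟩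
  have hΦ := sum_zeta13 K
  refine exists_principal_of_root 13 K 79 62 root_aux_79
    (1 + (-1) * zetaInt 13 K + (-1) * zetaInt 13 K ^ 4)
    (62 + 63 * zetaInt 13 K + 49 * zetaInt 13 K ^ 2 + 8 * zetaInt 13 K ^ 3 + 29 * zetaInt 13 K ^ 4 + 51 * zetaInt 13 K ^ 5 + 59 * zetaInt 13 K ^ 6 + 26 * zetaInt 13 K ^ 7 + 14 * zetaInt 13 K ^ 8 + 24 * zetaInt 13 K ^ 9 + 42 * zetaInt 13 K ^ 10 + 27 * zetaInt 13 K ^ 11)
    ((-49) + (-49) * zetaInt 13 K + (-38) * zetaInt 13 K ^ 2 + (-6) * zetaInt 13 K ^ 3 + (-23) * zetaInt 13 K ^ 4 + (-40) * zetaInt 13 K ^ 5 + (-46) * zetaInt 13 K ^ 6 + (-20) * zetaInt 13 K ^ 7 + (-11) * zetaInt 13 K ^ 8 + (-19) * zetaInt 13 K ^ 9 + (-33) * zetaInt 13 K ^ 10 + (-21) * zetaInt 13 K ^ 11)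
    ((-238329) + (-3844) * zetaInt 13 K + (-62) * zetaInt 13 K ^ 2 + (-1) * zetaInt 13 K ^ 3) (-187043) ?_ ?_ ?_
  · push_cast
    ring
  · push_cast
    linear_combination (-((-17) + 18 * zetaInt 13 K + (-15) * zetaInt 13 K ^ 2 + (-27) * zetaInt 13 K ^ 3)) * hΦ
  · push_cast
    linear_combination (-(13 + (-14) * zetaInt 13 K + 12 * zetaInt 13 K ^ 2 + 21 * zetaInt 13 K ^ 3)) * hΦ

theorem root_aux_131 : ∑ i ∈ Finset.range 13, (((80 : ℤ) : ZMod 131)) ^ i = 0 := by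
  decide +kernel

theorem principal_131 (K : Type*) [Field K] [NumberField K] [IsCyclotomicExtension {13} ℚ K]
    [Fact (Nat.Prime 13)] :
    ∃ P ∈ Ideal.primesOver (Ideal.span {((131 : ℕ) : ℤ)}) (𝓞 K), Submodule.IsPrincipal P := by
  have : Fact (Nat.Prime 131) := ⟨by norm_num⟩
  have hΦ := sum_zeta13 K
  refine exists_principal_of_root 13 K 131 80 root_aux_131
    (1 + (-1) * zetaInt 13 K + (-1) * zetaInt 13 K ^ 3)
    (111 + 78 * zetaInt 13 K + 17 * zetaInt 13 K ^ 2 + 67 * zetaInt 13 K ^ 3 + 84 * zetaInt 13 K ^ 4 + 40 * zetaInt 13 K ^ 5 + 46 * zetaInt 13 K ^ 6 + 69 * zetaInt 13 K ^ 7 + 48 * zetaInt 13 K ^ 8 + 33 * zetaInt 13 K ^ 9 + 41 * zetaInt 13 K ^ 10 + 28 * zetaInt 13 K ^ 11)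
    ((-68) + (-47) * zetaInt 13 K + (-10) * zetaInt 13 K ^ 2 + (-41) * zetaInt 13 K ^ 3 + (-51) * zetaInt 13 K ^ 4 + (-24) * zetaInt 13 K ^ 5 + (-28) * zetaInt 13 K ^ 6 + (-42) * zetaInt 13 K ^ 7 + (-29) * zetaInt 13 K ^ 8 + (-20) * zetaInt 13 K ^ 9 + (-25) * zetaInt 13 K ^ 10 + (-17) * zetaInt 13 K ^ 11)
    ((-6401) + (-80) * zetaInt 13 K + (-1) * zetaInt 13 K ^ 2) (-3909) ?_ ?_ ?_
  · push_cast
    ring
  · push_cast
    linear_combination (-((-20) + (-13) * zetaInt 13 K + (-28) * zetaInt 13 K ^ 2)) * hΦ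
  · push_cast
    linear_combination (-(12 + 8 * zetaInt 13 K + 17 * zetaInt 13 K ^ 2)) * hΦ

theorem root_aux_157 : ∑ i ∈ Finset.range 13, (((75 : ℤ) : ZMod 157)) ^ i = 0 := by
  decide +kernel

theorem principal_157 (K : Type*) [Field K] [NumberField K] [IsCyclotomicExtension {13} ℚ K]
    [Fact (Nat.Prime 13)] :
    ∃ P ∈ Ideal.primesOver (Ideal.span {((157 : ℕ) : ℤ)}) (𝓞 K), Submodule.IsPrincipal P := by
  have : Fact (Nat.Prime 157) := ⟨by norm_num⟩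
  have hΦ := sum_zeta13 K
  refine exists_principal_of_root 13 K 157 75 root_aux_157
    (1 + (-1) * zetaInt 13 K + 1 * zetaInt 13 K ^ 2 + 1 * zetaInt 13 K ^ 4)
    (89 + 86 * zetaInt 13 K + 42 * zetaInt 13 K ^ 2 + 77 * zetaInt 13 K ^ 3 + 67 * zetaInt 13 K ^ 4 + 25 * zetaInt 13 K ^ 5 + 37 * zetaInt 13 K ^ 6 + 56 * zetaInt 13 K ^ 7 + 73 * zetaInt 13 K ^ 8 + 113 * zetaInt 13 K ^ 9 + 124 * zetaInt 13 K ^ 10 + 76 * zetaInt 13 K ^ 11)
    ((-43) + (-41) * zetaInt 13 K + (-20) * zetaInt 13 K ^ 2 + (-37) * zetaInt 13 K ^ 3 + (-32) * zetaInt 13 K ^ 4 + (-12) * zetaInt 13 K ^ 5 + (-18) * zetaInt 13 K ^ 6 + (-27) * zetaInt 13 K ^ 7 + (-35) * zetaInt 13 K ^ 8 + (-54) * zetaInt 13 K ^ 9 + (-59) * zetaInt 13 K ^ 10 + (-36) * zetaInt 13 K ^ 11)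
    (421949 + 5626 * zetaInt 13 K + 75 * zetaInt 13 K ^ 2 + 1 * zetaInt 13 K ^ 3) (201568) ?_ ?_ ?_
  · push_cast
    ring
  · push_cast
    linear_combination (-((-68) + 65 * zetaInt 13 K + 48 * zetaInt 13 K ^ 2 + 76 * zetaInt 13 K ^ 3)) * hΦ
  · push_cast
    linear_combination (-(32 + (-31) * zetaInt 13 K + (-23) * zetaInt 13 K ^ 2 + (-36) * zetaInt 13 K ^ 3)) * hΦ

theorem irreducible_aux_3 :
    Irreducible ((X ^ 3 - X - 1 : ℤ[X]).map (Int.castRingHom (ZMod 3))) := by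
  have hmap : (X ^ 3 - X - 1 : ℤ[X]).map (Int.castRingHom (ZMod 3)) = X ^ 3 - X - 1 := by
    simp
  rw [hmap]
  apply irreducible_of_degree_le_three_of_not_isRoot
  · have h3 : (X ^ 3 - X - 1 : (ZMod 3)[X]).natDegree = 3 := by compute_degree!
    rw [h3]
    decide
  · intro x
    simp only [IsRoot, eval_sub, eval_pow, eval_X, eval_one]
    revert x
    decide

theorem principal_3 (K : Type*) [Field K] [NumberField K] [IsCyclotomicExtension {13} ℚ K]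
    [Fact (Nat.Prime 13)] :
    ∃ P ∈ Ideal.primesOver (Ideal.span {((3 : ℕ) : ℤ)}) (𝓞 K), Submodule.IsPrincipal P := by
  have : Fact (Nat.Prime 3) := ⟨by norm_num⟩
  have hΦ := sum_zeta13 K
  refine exists_principal_of_factor 13 K 3 (X ^ 3 - X - 1)
    (20 + 15 * X + 11 * X ^ 2 + 8 * X ^ 3 + 6 * X ^ 4 + 4 * X ^ 5 + 3 * X ^ 6 + 2 * X ^ 7 + 1 * X ^ 8 + 1 * X ^ 9)
    (7 + 12 * X + 9 * X ^ 2) irreducible_aux_3 ?_
    (1 + 1 * zetaInt 13 K + (-1) * zetaInt 13 K ^ 3)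
    ((-1) + (-1) * zetaInt 13 K ^ 2 + (-1) * zetaInt 13 K ^ 3 + (-2) * zetaInt 13 K ^ 5 + (-1) * zetaInt 13 K ^ 7 + (-2) * zetaInt 13 K ^ 8 + 1 * zetaInt 13 K ^ 9 + (-3) * zetaInt 13 K ^ 10)
    (-1) (-1) 0 ?_ ?_ ?_
  · simp only [Finset.sum_range_succ, Finset.sum_range_zero]
    push_cast
    ring
  · simp only [map_sub, map_pow, aeval_X, map_one]
    ring
  · push_cast
    linear_combination (-((-4) + 3 * zetaInt 13 K)) * hΦ
  · simp only [map_sub, map_pow, aeval_X, map_one]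
    ring

/-- `ℤ[ζ₁₃]` is a principal ideal domain. -/
theorem thirteen_pid (K : Type*) [Field K] [NumberField K] [IsCyclotomicExtension {13} ℚ K] :
    IsPrincipalIdealRing (𝓞 K) := by
  have : Fact (Nat.Prime 13) := ⟨by norm_num⟩
  refine pid_of_certificates 13 K 306
    (floor_minkowski_le 13 K 306 1338716.2 (by norm_num) (by norm_num)
      (by norm_num [Nat.factorial])) ?_
  intro q hq hqB hq13
  by_cases h3 : q = 3
  · subst h3; exact Or.inr (principal_3 K)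
  by_cases h53 : q = 53
  · subst h53; exact Or.inr (principal_53 K)
  by_cases h79 : q = 79
  · subst h79; exact Or.inr (principal_79 K)
  by_cases h131 : q = 131
  · subst h131; exact Or.inr (principal_131 K)
  by_cases h157 : q = 157
  · subst h157; exact Or.inr (principal_157 K)
  left
  intro f hf hqf
  have hq2 : 2 ≤ q := hq.two_le
  have hf9 : f < 9 := by
    by_contra h
    rw [not_lt] at h
    have : 2 ^ 9 ≤ q ^ f :=
      (Nat.pow_le_pow_left hq2 9).trans (Nat.pow_le_pow_right (by omega) h)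
    omega
  exact small_primes_aux q (Finset.mem_range.mpr (by omega)) hq hq13 h3 h53 h79 h131 h157 f
    (Finset.mem_range.mpr hf9) hf hqf

end Fermat.Agent.S10_PID13
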