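import Fermat.Agent.S10_PIDCore

set_option autoImplicit false

namespace Fermat.Agent.S10_PID7

open NumberField Fermat.Agent.S10_PIDCore

/-- `ℤ[ζ₇]` is a principal ideal domain. -/
theorem seven_pid (K : Type*) [Field K] [NumberField K] [IsCyclotomicExtension {7} ℚ K] :
    IsPrincipalIdealRing (𝓞 K) := by
  have : Fact (Nat.Prime 7) := ⟨by norm_num⟩
  refine pid_of_certificates 7 K 4
    (floor_minkowski_le 7 K 4 129.65 (by norm_num) (by norm_num)
      (by norm_num [Nat.factorial])) ?_
  intro q hq hqB hq7
  left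
  intro f hf hqf
  have hq2 : 2 ≤ q := hq.two_le
  have hf2 : f < 3 := by
    by_contra h
    rw [not_lt] at h
    have : 2 ^ 3 ≤ q ^ f :=
      (Nat.pow_le_pow_left hq2 3).trans (Nat.pow_le_pow_right (by omega) h)
    omega
  interval_cases q <;> interval_cases f <;> simp_all

end Fermat.Agent.S10_PID7
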