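-- Statement S10: no Galois-stable cofixed line for the Frey curve when p ∈ {5, 7, 13}
-- (vacuous: Kummer's theorem for the exponents 5, 7, 13 excludes the Frey package).
import Fermat.Statements.S10
import Fermat.Agent.S10_FLT
import Fermat.Agent.S10_PID7
import Fermat.Agent.S10_PID13

set_option autoImplicit false
open WeierstrassCurve WeierstrassCurve.Affine WeierstrassCurve.Affine.Point
open CuspForm ModularFormClass UpperHalfPlane
open FreyPackage

namespace Fermat.Agent.S10

/-- `ℤ[ζ_p]` is a principal ideal domain for `p = 5, 7, 13`. -/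
theorem pid_of_mem {p : ℕ} (hp : p = 5 ∨ p = 7 ∨ p = 13) :
    IsPrincipalIdealRing (NumberField.RingOfIntegers (CyclotomicField p ℚ)) := by
  rcases hp with rfl | rfl | rfl
  · have := Fermat.Agent.S10_FLT.isCyclotomicExtension_cyclotomicField 5
    exact IsCyclotomicExtension.Rat.five_pid (CyclotomicField 5 ℚ)
  · have := Fermat.Agent.S10_FLT.isCyclotomicExtension_cyclotomicField 7
    exact Fermat.Agent.S10_PID7.seven_pid (CyclotomicField 7 ℚ)
  · have := Fermat.Agent.S10_FLT.isCyclotomicExtension_cyclotomicField 13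
    exact Fermat.Agent.S10_PID13.thirteen_pid (CyclotomicField 13 ℚ)

theorem result (P : FreyPackage) (hp : P.p = 5 ∨ P.p = 7 ∨ P.p = 13) : ¬ HasGaloisStableCofixedLine (K := AlgebraicClosure ℚ) ℚ P.freyCurve P.p := by
  exact absurd P.hFLT
    (Fermat.Agent.S10_FLT.no_solution_of_pid P.p P.pp P.hp5 (pid_of_mem hp) P.ha0 P.hb0 P.hc0)

end Fermat.Agent.S10
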