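import Fermat.Agent.S10_PIDCore

set_option autoImplicit false

namespace Fermat.Agent.S10_PID11

open NumberField Fermat.Agent.S10_PIDCore

theorem small_primes_aux : ∀ q ∈ Finset.range 59, ∀ f ∈ Finset.range 6, Nat.Prime q → q ≠ 11 →
    q ≠ 23 → 1 ≤ f → q ^ f ≤ 58 → q ^ f % 11 ≠ 1 := by
  decide +kernel

theorem root_aux : ∑ i ∈ Finset.range 11, (((13 : ℤ) : ZMod 23)) ^ i = 0 := by
  decide +kernel

/-- `ℤ[ζ₁₁]` is a principal ideal domain. -/
theorem eleven_pid (K : Type*) [Field K] [NumberField K] [IsCyclotomicExtension {11} ℚ K] :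
    IsPrincipalIdealRing (𝓞 K) := by
  have : Fact (Nat.Prime 11) := ⟨by norm_num⟩
  refine pid_of_certificates 11 K 58
    (floor_minkowski_le 11 K 58 48558.8 (by norm_num) (by norm_num)
      (by norm_num [Nat.factorial])) ?_
  intro q hq hqB hq11
  by_cases h23 : q = 23
  · right
    subst h23
    have : Fact (Nat.Prime 23) := ⟨by norm_num⟩
    have hΦ : 1 + zetaInt 11 K + zetaInt 11 K ^ 2 + zetaInt 11 K ^ 3 + zetaInt 11 K ^ 4
        + zetaInt 11 K ^ 5 + zetaInt 11 K ^ 6 + zetaInt 11 K ^ 7 + zetaInt 11 K ^ 8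
        + zetaInt 11 K ^ 9 + zetaInt 11 K ^ 10 = 0 := by
      have := sum_zetaInt_pow 11 K
      simpa [Finset.sum_range_succ] using this
    have hr : ∑ i ∈ Finset.range 11, (((13 : ℤ) : ZMod 23)) ^ i = 0 := root_aux
    refine exists_principal_of_root 11 K 23 13 hr
      (1 - zetaInt 11 K + zetaInt 11 K ^ 3)
      (8 + (-2) * zetaInt 11 K + (-1) * zetaInt 11 K ^ 2 + (-8) * zetaInt 11 K ^ 3
        + (-5) * zetaInt 11 K ^ 4 + (-3) * zetaInt 11 K ^ 5 + 6 * zetaInt 11 K ^ 6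
        + 12 * zetaInt 11 K ^ 7 + 16 * zetaInt 11 K ^ 8 + 11 * zetaInt 11 K ^ 9)
      ((-5) + 1 * zetaInt 11 K + 4 * zetaInt 11 K ^ 3 + 2 * zetaInt 11 K ^ 4
        + 1 * zetaInt 11 K ^ 5 + (-4) * zetaInt 11 K ^ 6 + (-7) * zetaInt 11 K ^ 7
        + (-9) * zetaInt 11 K ^ 8 + (-6) * zetaInt 11 K ^ 9)
      (zetaInt 11 K ^ 2 + 13 * zetaInt 11 K + 168) 95 ?_ ?_ ?_
    · push_cast
      ring
    · push_cast
      linear_combination (-((-15) + 5 * zetaInt 11 K + 11 * zetaInt 11 K ^ 2)) * hΦ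
    · push_cast
      linear_combination (-(8 + (-3) * zetaInt 11 K + (-6) * zetaInt 11 K ^ 2)) * hΦ
  · left
    intro f hf hqf
    have hq2 : 2 ≤ q := hq.two_le
    have hf6 : f < 6 := by
      by_contra h
      rw [not_lt] at h
      have : 2 ^ 6 ≤ q ^ f :=
        (Nat.pow_le_pow_left hq2 6).trans (Nat.pow_le_pow_right (by omega) h)
      omega
    exact small_primes_aux q (Finset.mem_range.mpr (by omega)) f (Finset.mem_range.mpr hf6) hq hq11 h23 hf hqf

end Fermat.Agent.S10_PID11
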