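import Mathlib

/-!
# Project K, (K0) core (helper1): PID criterion for prime cyclotomic fields

* `floor_minkowski_le`: numerical upper bound for the Minkowski bound of `ℚ(ζ_p)`.
* `exists_principal_of_root`: a principal prime of degree one above `q`, from explicit
  cofactors (`α β = q`, `α γ = ζ - r`, `α ∈ (q, ζ - r)`, `r` a root of `Φ_p` modulo `q`).
* `pid_of_certificates`: `𝓞 K` is a PID as soon as the primes `q ≤ B`, `q ≠ p`, having a power
  `q ^ f ≤ B` with `q ^ f ≡ 1 mod p` have a principal prime above them.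
-/

set_option autoImplicit false
noncomputable section

namespace Fermat.Agent.S10_PIDCore

open NumberField Polynomial Ideal IsCyclotomicExtension

variable (p : ℕ) [hp : Fact p.Prime] (K : Type*) [Field K] [NumberField K]
  [IsCyclotomicExtension {p} ℚ K]

/-- the chosen primitive `p`-th root of unity as an algebraic integer -/
abbrev zetaInt : 𝓞 K := (zeta_spec p ℚ K).toInteger

theorem sum_zetaInt_pow : ∑ i ∈ Finset.range p, (zetaInt p K) ^ i = 0 :=
  (zeta_spec p ℚ K).toInteger_isPrimitiveRoot.geom_sum_eq_zero hp.out.one_lt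

theorem minpoly_zetaInt : minpoly ℤ (zetaInt p K) = cyclotomic p ℤ := by
  rw [cyclotomic_eq_minpoly (zeta_spec p ℚ K) hp.out.pos, ← (zeta_spec p ℚ K).coe_toInteger,
    ← RingOfIntegers.minpoly_coe]
  rfl

/-- evaluation `ζ ↦ r` into `ZMod q` for a root `r` of the cyclotomic polynomial mod `q` -/
def evalHom (q : ℕ) (r : ZMod q) (hr : ∑ i ∈ Finset.range p, r ^ i = 0) : 𝓞 K →ₐ[ℤ] ZMod q :=
  ((zeta_spec p ℚ K).integralPowerBasis).lift r (by
    rw [IsPrimitiveRoot.integralPowerBasis_gen, minpoly_zetaInt, cyclotomic_prime]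
    simpa using hr)

theorem evalHom_zetaInt (q : ℕ) (r : ZMod q) (hr : ∑ i ∈ Finset.range p, r ^ i = 0) :
    evalHom p K q r hr (zetaInt p K) = r := by
  have hgen := IsPrimitiveRoot.integralPowerBasis_gen (zeta_spec p ℚ K)
  show evalHom p K q r hr (zeta_spec p ℚ K).toInteger = r
  rw [← hgen]
  exact ((zeta_spec p ℚ K).integralPowerBasis).lift_gen r _

theorem evalHom_intCast (q : ℕ) (r : ZMod q) (hr : ∑ i ∈ Finset.range p, r ^ i = 0) (n : ℤ) :
    evalHom p K q r hr (n : 𝓞 K) = (n : ZMod q) := map_intCast _ n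

/-- every element of `𝓞 K` is congruent to an integer modulo `ζ - r`, and `evalHom` computes
that integer modulo `q` -/
theorem exists_int_sub_mem (q : ℕ) (r : ℤ) (hr : ∑ i ∈ Finset.range p, (r : ZMod q) ^ i = 0)
    (x : 𝓞 K) :
    ∃ n : ℤ, zetaInt p K - (r : 𝓞 K) ∣ x - (n : 𝓞 K) ∧
      evalHom p K q (r : ZMod q) hr x = (n : ZMod q) := by
  obtain ⟨g, hg⟩ := (zeta_spec p ℚ K).integralPowerBasis.exists_eq_aeval' x
  rw [IsPrimitiveRoot.integralPowerBasis_gen] at hg
  refine ⟨g.eval r, ?_, ?_⟩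
  · have h := Polynomial.sub_dvd_eval_sub (zetaInt p K) (r : 𝓞 K)
      (g.map (Int.castRingHom (𝓞 K)))
    rw [eval_intCast_map, eval_map] at h
    convert h using 2
    · rw [hg, aeval_def, algebraMap_int_eq]
    · simp
  · rw [hg, ← aeval_algHom_apply]
    have h1 := evalHom_zetaInt p K q (r : ZMod q) hr
    rw [show (zetaInt p K) = (zeta_spec p ℚ K).toInteger from rfl] at h1
    rw [h1, show ((r : ℤ) : ZMod q) = algebraMap ℤ (ZMod q) r from rfl, aeval_algebraMap_apply]
    simp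

/-- A principal prime of degree one over `q`, from explicit cofactors. -/
theorem exists_principal_of_root (q : ℕ) [hq : Fact q.Prime] (r : ℤ)
    (hr : ∑ i ∈ Finset.range p, (r : ZMod q) ^ i = 0)
    (α β γ δ ε : 𝓞 K) (hα : α = (zetaInt p K - (r : 𝓞 K)) * δ + (q : 𝓞 K) * ε)
    (hβ : (q : 𝓞 K) = α * β) (hγ : zetaInt p K - (r : 𝓞 K) = α * γ) :
    ∃ P ∈ primesOver (span {(q : ℤ)}) (𝓞 K), Submodule.IsPrincipal P := by
  set ψ : 𝓞 K →+* ZMod q := (evalHom p K q (r : ZMod q) hr : 𝓞 K →+* ZMod q) with hψ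
  have hψζ : ψ (zetaInt p K) = (r : ZMod q) := evalHom_zetaInt p K q (r : ZMod q) hr
  have hker : RingHom.ker ψ = span {α} := by
    apply le_antisymm
    · intro x hx
      rw [RingHom.mem_ker] at hx
      obtain ⟨n, hn1, hn2⟩ := exists_int_sub_mem p K q r hr x
      have hx' : ψ x = (n : ZMod q) := hn2
      have hx0 : ((n : ℤ) : ZMod q) = 0 := by rw [← hx']; exact hx
      rw [ZMod.intCast_zmod_eq_zero_iff_dvd] at hx0
      obtain ⟨m, rfl⟩ := hx0
      obtain ⟨y, hy⟩ := hn1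
      rw [mem_span_singleton]
      have : x = α * (γ * y + β * m) := by
        have : x = (zetaInt p K - (r : 𝓞 K)) * y + ((q : ℤ) * m : ℤ) := by
          rw [← hy]; ring
        rw [this, hγ]
        push_cast
        rw [hβ]
        ring
      rw [this]
      exact dvd_mul_right _ _
    · rw [span_singleton_le_iff_mem, RingHom.mem_ker, hα, map_add, map_mul, map_mul, map_sub,
        hψζ]
      have h1 : ψ (r : 𝓞 K) = (r : ZMod q) := map_intCast _ r
      have h2 : ψ (q : 𝓞 K) = 0 := by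
        rw [map_natCast]
        exact ZMod.natCast_self q
      rw [h1, h2, sub_self, zero_mul, zero_mul, add_zero]
  have hprime : (span {α} : Ideal (𝓞 K)).IsPrime := by
    rw [← hker]
    exact RingHom.ker_isPrime _
  refine ⟨span {α}, ⟨hprime, ?_⟩, ⟨α, rfl⟩⟩
  rw [liesOver_iff]
  refine IsMaximal.eq_of_le (Int.ideal_span_isMaximal_of_prime q) IsPrime.ne_top' ?_
  rw [span_singleton_le_iff_mem, mem_comap, algebraMap_int_eq, map_natCast, hβ]
  exact Ideal.mul_mem_right _ _ (Ideal.subset_span rfl)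

open scoped Real
open Module NumberField.InfinitePlace Nat

/-- numerical upper bound for the Minkowski bound of a prime cyclotomic field -/
theorem floor_minkowski_le (B : ℕ) (s : ℝ) (hs0 : 0 ≤ s) (hs : (p : ℝ) ^ (p - 2) ≤ s ^ 2)
    (hB : (4 / 3.1415 : ℝ) ^ ((p - 1) / 2) *
      (((p - 1)! : ℝ) / ((p - 1 : ℕ) : ℝ) ^ (p - 1) * s) < B + 1) :
    ⌊(4 / π) ^ nrComplexPlaces K *
      ((finrank ℚ K)! / (finrank ℚ K) ^ (finrank ℚ K) * √|discr K|)⌋₊ ≤ B := by
  have h1 : nrComplexPlaces K = (p - 1) / 2 := by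
    rw [IsCyclotomicExtension.Rat.nrComplexPlaces_eq_totient_div_two p, totient_prime hp.out]
  have h2 : finrank ℚ K = p - 1 := by
    rw [IsCyclotomicExtension.Rat.finrank p K, totient_prime hp.out]
  have h3 : |((discr K : ℤ) : ℝ)| = (p : ℝ) ^ (p - 2) := by
    rw [IsCyclotomicExtension.Rat.discr_prime p K]
    push_cast
    rw [abs_mul, abs_pow, abs_pow, abs_neg, abs_one, one_pow, one_mul, Nat.abs_cast]
  rw [h1, h2, h3]
  have hsq : √((p : ℝ) ^ (p - 2)) ≤ s := Real.sqrt_le_iff.mpr ⟨hs0, hs⟩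
  have hpi : (4 / π : ℝ) ≤ 4 / 3.1415 := by
    apply div_le_div_of_nonneg_left (by norm_num) (by norm_num)
    exact Real.pi_gt_d4.le
  have hpow : (4 / π : ℝ) ^ ((p - 1) / 2) ≤ (4 / 3.1415) ^ ((p - 1) / 2) :=
    pow_le_pow_left₀ (by positivity) hpi _
  have hc : (0 : ℝ) ≤ ((p - 1)! : ℝ) / ((p - 1 : ℕ) : ℝ) ^ (p - 1) := by positivity
  have hlt : (4 / π) ^ ((p - 1) / 2) *
      (((p - 1)! : ℝ) / ((p - 1 : ℕ) : ℝ) ^ (p - 1) * √((p : ℝ) ^ (p - 2))) < B + 1 := by
    refine lt_of_le_of_lt ?_ hB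
    apply mul_le_mul hpow (mul_le_mul_of_nonneg_left hsq hc) (by positivity) (by positivity)
  rw [← Nat.lt_succ_iff, Nat.floor_lt (by positivity)]
  push_cast
  exact hlt

/-- The PID criterion for a prime cyclotomic field: it suffices to find principal primes over
the primes `q ≤ B`, `q ≠ p`, some power `q ^ f ≤ B` of which is `≡ 1 mod p`. -/
theorem pid_of_certificates (B : ℕ)
    (hM : ⌊(4 / π) ^ nrComplexPlaces K *
      ((finrank ℚ K)! / (finrank ℚ K) ^ (finrank ℚ K) * √|discr K|)⌋₊ ≤ B)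
    (h : ∀ q : ℕ, q.Prime → q ≤ B → q ≠ p →
      (∀ f : ℕ, 1 ≤ f → q ^ f ≤ B → q ^ f % p ≠ 1) ∨
        ∃ P ∈ primesOver (span {(q : ℤ)}) (𝓞 K), Submodule.IsPrincipal P) :
    IsPrincipalIdealRing (𝓞 K) := by
  have : IsGalois ℚ K := IsCyclotomicExtension.isGalois {p} ℚ K
  apply RingOfIntegers.isPrincipalIdealRing_of_isPrincipal_of_lt_or_isPrincipal_of_mem_primesOver_of_mem_Icc
  intro q hq hqp
  rw [Finset.mem_Icc] at hq
  by_cases hqp' : q = p
  · subst hqp'
    have hlies : (span {zetaInt q K - 1}).LiesOver (span {(q : ℤ)}) := by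
      rw [liesOver_iff]
      refine IsMaximal.eq_of_le (Int.ideal_span_isMaximal_of_prime q) IsPrime.ne_top' ?_
      rw [span_singleton_le_iff_mem, mem_comap, algebraMap_int_eq, map_natCast,
        mem_span_singleton]
      have := (IsCyclotomicExtension.Rat.zeta_sub_one_dvd_intCast_iff' q
        (zeta_spec q ℚ K) (n := (q : ℤ))).mpr dvd_rfl
      simpa using this
    exact ⟨span {zetaInt q K - 1}, ⟨inferInstance, hlies⟩, Or.inr ⟨_, rfl⟩⟩
  · have hfact : Fact q.Prime := ⟨hqp⟩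
    rcases h q hqp (hq.2.trans hM) hqp' with h1 | ⟨P, hP, hPp⟩
    · have hprime : (span {(q : ℤ)}).IsPrime :=
        (Int.ideal_span_isMaximal_of_prime q).isPrime
      obtain ⟨P, hP⟩ := (Ideal.nonempty_primesOver (S := 𝓞 K) (span {(q : ℤ)}))
      refine ⟨P, hP, Or.inl ?_⟩
      have hP1 : P.IsPrime := hP.1
      have hP2 : P.LiesOver (span {(q : ℤ)}) := hP.2
      have hnd : ¬ q ∣ p := fun hd => hqp' ((Nat.prime_dvd_prime_iff_eq hqp hp.out).mp hd)
      rw [IsCyclotomicExtension.Rat.inertiaDeg_eq_of_not_dvd q K P hnd]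
      by_contra hcon
      rw [not_lt] at hcon
      have hq0 : (q : ZMod p) ≠ 0 := by
        rw [Ne, ZMod.natCast_eq_zero_iff]
        exact fun hd => hqp' ((Nat.prime_dvd_prime_iff_eq hp.out hqp).mp hd).symm
      have hpos : 0 < orderOf (q : ZMod p) := by
        rw [orderOf_pos_iff, isOfFinOrder_iff_pow_eq_one]
        exact ⟨p - 1, Nat.sub_pos_of_lt hp.out.one_lt, ZMod.pow_card_sub_one_eq_one hq0⟩
      have h2 : ((q : ZMod p)) ^ orderOf (q : ZMod p) = 1 := pow_orderOf_eq_one _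
      have h3 : q ^ orderOf (q : ZMod p) % p = 1 := by
        have h4 : ((q ^ orderOf (q : ZMod p) : ℕ) : ZMod p) = ((1 : ℕ) : ZMod p) := by
          push_cast
          exact h2
        rw [ZMod.natCast_eq_natCast_iff'] at h4
        rw [h4, Nat.mod_eq_of_lt hp.out.one_lt]
      exact h1 _ hpos (hcon.trans hM) h3
    · exact ⟨P, hP, Or.inr hPp⟩

end Fermat.Agent.S10_PIDCore
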