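import Fermat.Agent.S10_PIDCore

/-!
# Project K, (K0) (helper1): principal primes of arbitrary degree in prime cyclotomic fields

`exists_principal_of_factor`: if `h ∈ ℤ[X]` is irreducible modulo `q` and divides `Φ_p` modulo
`q`, then `(q, h(ζ))` is a prime above `q`; explicit cofactors show that it is principal.
-/

set_option autoImplicit false
noncomputable section

namespace Fermat.Agent.S10_PIDFactor

open NumberField Polynomial Ideal IsCyclotomicExtension Fermat.Agent.S10_PIDCore

variable (p : ℕ) [hp : Fact p.Prime] (K : Type*) [Field K] [NumberField K]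
  [IsCyclotomicExtension {p} ℚ K]

theorem aeval_root_eq_mk (q : ℕ) (h G : ℤ[X]) :
    aeval (AdjoinRoot.root (h.map (Int.castRingHom (ZMod q)))) G =
      AdjoinRoot.mk (h.map (Int.castRingHom (ZMod q))) (G.map (Int.castRingHom (ZMod q))) := by
  rw [← AdjoinRoot.aeval_eq, aeval_def, aeval_def, eval₂_map]
  congr 1

theorem exists_eq_of_map_dvd (q : ℕ) (h G : ℤ[X])
    (hdvd : h.map (Int.castRingHom (ZMod q)) ∣ G.map (Int.castRingHom (ZMod q))) :
    ∃ s t : ℤ[X], G = h * s + (q : ℤ[X]) * t := by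
  obtain ⟨s', hs'⟩ := hdvd
  obtain ⟨s, rfl⟩ := Polynomial.map_surjective (Int.castRingHom (ZMod q))
    (ZMod.intCast_surjective) s'
  have h0 : (G - h * s).map (Int.castRingHom (ZMod q)) = 0 := by
    rw [Polynomial.map_sub, Polynomial.map_mul, hs', sub_self]
  have h1 : C (q : ℤ) ∣ G - h * s := by
    rw [Polynomial.C_dvd_iff_dvd_coeff]
    intro i
    have := congrArg (fun f => f.coeff i) h0
    simp only [coeff_map, coeff_zero, eq_intCast] at this
    exact (ZMod.intCast_zmod_eq_zero_iff_dvd _ q).mp this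
  obtain ⟨t, ht⟩ := h1
  refine ⟨s, t, ?_⟩
  have : (C (q : ℤ) : ℤ[X]) = (q : ℤ[X]) := by simp
  rw [← this, ← ht]
  ring

/-- A principal prime over `q` (of degree `deg h`), from a factor `h` of `Φ_p` modulo `q`
that is irreducible modulo `q`, and explicit cofactors. -/
theorem exists_principal_of_factor (q : ℕ) [hq : Fact q.Prime] (h g k : ℤ[X])
    (hirr : Irreducible (h.map (Int.castRingHom (ZMod q))))
    (hdiv : ∑ i ∈ Finset.range p, (X : ℤ[X]) ^ i = h * g + (q : ℤ[X]) * k)
    (α β γ δ ε : 𝓞 K) (hα : α = aeval (zetaInt p K) h * δ + (q : 𝓞 K) * ε)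
    (hβ : (q : 𝓞 K) = α * β) (hγ : aeval (zetaInt p K) h = α * γ) :
    ∃ P ∈ primesOver (span {(q : ℤ)}) (𝓞 K), Submodule.IsPrincipal P := by
  have hfact : Fact (Irreducible (h.map (Int.castRingHom (ZMod q)))) := ⟨hirr⟩
  set ρ := AdjoinRoot.root (h.map (Int.castRingHom (ZMod q))) with hρdef
  have hρ : aeval ρ h = 0 := by
    rw [hρdef, aeval_root_eq_mk, AdjoinRoot.mk_self]
  have hq0 : ((q : ℕ) : AdjoinRoot (h.map (Int.castRingHom (ZMod q)))) = 0 := by
    have : ((q : ℕ) : AdjoinRoot (h.map (Int.castRingHom (ZMod q)))) =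
        algebraMap (ZMod q) _ ((q : ℕ) : ZMod q) := (map_natCast _ q).symm
    rw [this, ZMod.natCast_self, map_zero]
  have hΦ : aeval ρ (minpoly ℤ (zeta_spec p ℚ K).integralPowerBasis.gen) = 0 := by
    rw [IsPrimitiveRoot.integralPowerBasis_gen, minpoly_zetaInt, cyclotomic_prime, hdiv]
    simp [hρ, hq0]
  set ψ₀ : 𝓞 K →ₐ[ℤ] AdjoinRoot (h.map (Int.castRingHom (ZMod q))) :=
    (zeta_spec p ℚ K).integralPowerBasis.lift ρ hΦ with hψ₀
  have hψζ : ψ₀ (zetaInt p K) = ρ := by
    have hgen := IsPrimitiveRoot.integralPowerBasis_gen (zeta_spec p ℚ K)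
    show ψ₀ (zeta_spec p ℚ K).toInteger = ρ
    rw [← hgen]
    exact ((zeta_spec p ℚ K).integralPowerBasis).lift_gen ρ _
  have hψaeval : ∀ G : ℤ[X], ψ₀ (aeval (zetaInt p K) G) = aeval ρ G := by
    intro G
    rw [← aeval_algHom_apply, hψζ]
  set ψ : 𝓞 K →+* AdjoinRoot (h.map (Int.castRingHom (ZMod q))) := ψ₀.toRingHom with hψ
  have hψq : ψ (q : 𝓞 K) = 0 := by
    rw [map_natCast]
    exact hq0
  have hker : RingHom.ker ψ = span {α} := by
    apply le_antisymm
    · intro x hx
      rw [RingHom.mem_ker] at hx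
      obtain ⟨G, hG⟩ := (zeta_spec p ℚ K).integralPowerBasis.exists_eq_aeval' x
      rw [IsPrimitiveRoot.integralPowerBasis_gen] at hG
      have hx' : aeval ρ G = 0 := by
        rw [← hψaeval G]
        rw [← hx, hG]
        rfl
      rw [hρdef, aeval_root_eq_mk, AdjoinRoot.mk_eq_zero] at hx'
      obtain ⟨s, t, hst⟩ := exists_eq_of_map_dvd q h G hx'
      rw [mem_span_singleton]
      have : x = α * (γ * aeval (zetaInt p K) s + β * aeval (zetaInt p K) t) := by
        rw [hG, hst]
        show aeval (zetaInt p K) (h * s + (q : ℤ[X]) * t) = _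
        rw [map_add, map_mul, map_mul, map_natCast, hγ, hβ]
        ring
      rw [this]
      exact dvd_mul_right _ _
    · rw [span_singleton_le_iff_mem, RingHom.mem_ker, hα, map_add, map_mul, map_mul, hψq]
      have : ψ (aeval (zetaInt p K) h) = 0 := by
        show ψ₀ (aeval (zetaInt p K) h) = 0
        rw [hψaeval, hρ]
      rw [this, zero_mul, zero_mul, add_zero]
  have hprime : (span {α} : Ideal (𝓞 K)).IsPrime := by
    rw [← hker]
    exact RingHom.ker_isPrime _
  refine ⟨span {α}, ⟨hprime, ?_⟩, ⟨α, rfl⟩⟩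
  rw [liesOver_iff]
  refine IsMaximal.eq_of_le (Int.ideal_span_isMaximal_of_prime q) IsPrime.ne_top' ?_
  rw [span_singleton_le_iff_mem, mem_comap, algebraMap_int_eq, map_natCast, hβ]
  exact Ideal.mul_mem_right _ _ (Ideal.subset_span rfl)

end Fermat.Agent.S10_PIDFactor
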