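import Mathlib

/-!
# Project K (K1): units and congruences in the `p`-th cyclotomic integers

`K` a `p`-th cyclotomic field (`p` an odd prime), `ζ` a primitive `p`-th root of unity,
`λ = ζ - 1`.

* `exists_int_sub_dvd`: every integer of `K` is congruent to a rational integer mod `λ`;
* `lambda_dvd_intCast_iff`: `λ ∣ n ↔ p ∣ n` for `n : ℤ`;
* `exists_int_sub_pow_dvd`: `x ^ p` is congruent to a rational integer mod `p`;
* `exists_conj`: Kummer's unit lemma, `u = ζ ^ k · σ u` for the complex conjugation `σ`;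
* `dvd_coeff_of_dvd_sum`: the basis lemma (`p ∣ ∑_{i<p} f i ζ^i` with one vanishing coefficient
  forces `p ∣ f i` for all `i`).
-/

set_option autoImplicit false

open NumberField

namespace Fermat.Agent.S10_Units

variable {p : ℕ} [hp : Fact p.Prime] {K : Type*} [Field K] [NumberField K]
  [IsCyclotomicExtension {p} ℚ K] {ζ : K} (hζ : IsPrimitiveRoot ζ p)

/-- every integer of `K` is congruent to a rational integer mod `λ = ζ - 1` -/
theorem exists_int_sub_dvd (x : 𝓞 K) : ∃ n : ℤ, hζ.toInteger - 1 ∣ x - n := by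
  obtain ⟨P, hP⟩ := hζ.integralPowerBasis.exists_eq_aeval' x
  rw [hζ.integralPowerBasis_gen] at hP
  refine ⟨P.eval 1, ?_⟩
  have h1 := Polynomial.sub_dvd_eval_sub hζ.toInteger 1 (P.map (algebraMap ℤ (𝓞 K)))
  rw [Polynomial.eval_map_algebraMap, Polynomial.eval_map_algebraMap] at h1
  have h2 : Polynomial.aeval (1 : 𝓞 K) P = ((P.eval 1 : ℤ) : 𝓞 K) := by
    have := Polynomial.aeval_algebraMap_apply (𝓞 K) (1 : ℤ) P
    simpa using this
  rw [hP, ← h2]
  exact h1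

/-- `λ ∣ n ↔ p ∣ n` for rational integers `n` -/
theorem lambda_dvd_intCast_iff (hp2 : p ≠ 2) (n : ℤ) :
    hζ.toInteger - 1 ∣ (n : 𝓞 K) ↔ (p : ℤ) ∣ n := by
  have hn := hζ.norm_toInteger_sub_one_of_prime_ne_two' hp2
  have hprime : Prime (Algebra.norm ℤ (hζ.toInteger - 1)) := by
    rw [hn]; exact Nat.prime_iff_prime_int.1 hp.out
  rw [← Ideal.norm_dvd_iff hprime, hn]

/-- `x ^ p` is congruent to a rational integer mod `p` -/
theorem exists_int_sub_pow_dvd (x : 𝓞 K) : ∃ n : ℤ, (p : 𝓞 K) ∣ x ^ p - n := by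
  have hζ := IsCyclotomicExtension.zeta_spec p ℚ K
  obtain ⟨P, hP⟩ := hζ.integralPowerBasis.exists_eq_aeval' x
  rw [hζ.integralPowerBasis_gen] at hP
  rw [hP]
  clear hP
  induction P using Polynomial.induction_on with
  | C a =>
    refine ⟨a ^ p, ?_⟩
    simp
  | add P Q hP hQ =>
    obtain ⟨n, hn⟩ := hP
    obtain ⟨m, hm⟩ := hQ
    obtain ⟨r, hr⟩ := exists_add_pow_prime_eq hp.out (Polynomial.aeval hζ.toInteger P)
      (Polynomial.aeval hζ.toInteger Q)
    refine ⟨n + m, ?_⟩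
    rw [map_add, hr]
    obtain ⟨y, hy⟩ := hn
    obtain ⟨z, hz⟩ := hm
    refine ⟨y + z + Polynomial.aeval hζ.toInteger P * Polynomial.aeval hζ.toInteger Q * r, ?_⟩
    push_cast
    linear_combination hy + hz
  | monomial k a _ =>
    refine ⟨a ^ p, ?_⟩
    have h1 : hζ.toInteger ^ p = 1 := hζ.toInteger_isPrimitiveRoot.pow_eq_one
    have : (Polynomial.aeval hζ.toInteger) (Polynomial.C a * Polynomial.X ^ (k + 1)) ^ p
        = ((a ^ p : ℤ) : 𝓞 K) := by
      rw [map_mul, map_pow, Polynomial.aeval_X, Polynomial.aeval_C, mul_pow, ← pow_mul, mul_comm (k+1),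
        pow_mul, h1, one_pow, mul_one]
      simp
    rw [this, sub_self]
    exact dvd_zero _

/-- `λ = ζ - 1` is not a unit and does not divide `2` -/
theorem lambda_not_dvd_two (hp2 : p ≠ 2) : ¬ hζ.toInteger - 1 ∣ 2 := by
  intro h2
  have hprime := hζ.zeta_sub_one_prime'
  have hpd := hζ.toInteger_sub_one_dvd_prime'
  have hodd : Odd p := hp.out.odd_of_ne_two hp2
  obtain ⟨k, hk⟩ := hodd
  have : hζ.toInteger - 1 ∣ 1 := by
    have e : (p : 𝓞 K) - 2 * k = 1 := by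
      rw [hk]; push_cast; ring
    have h3 : hζ.toInteger - 1 ∣ (p : 𝓞 K) - 2 * k := dvd_sub hpd (Dvd.dvd.mul_right h2 _)
    rwa [e] at h3
  exact hprime.not_isUnit (isUnit_of_dvd_one this)

/-- **Unit lemma (Kummer).** There is a ring automorphism `σ` of `𝓞 K` ("complex conjugation")
with `σ ζ · ζ = 1` such that every unit `u` satisfies `u = ζ ^ k · σ u` for some `k`. -/
theorem exists_conj (hp2 : p ≠ 2) : ∃ σ : 𝓞 K ≃+* 𝓞 K, σ hζ.toInteger * hζ.toInteger = 1 ∧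
    ∀ u : (𝓞 K)ˣ, ∃ k : ℕ, (u : 𝓞 K) = hζ.toInteger ^ k * σ u := by
  have hp3 : 2 < p := lt_of_le_of_ne hp.out.two_le (Ne.symm hp2)
  have : IsCMField K := IsCyclotomicExtension.Rat.isCMField K (S := {p}) ⟨p, rfl, hp3⟩
  have hζ' := hζ.toInteger_isPrimitiveRoot
  have hprime := hζ.zeta_sub_one_prime'
  -- the conjugation
  let σ : 𝓞 K ≃+* 𝓞 K := RingOfIntegers.mapRingEquiv (IsCMField.complexConj K).toRingEquiv
  -- `ζ` as a torsion unit
  let ζu : (𝓞 K)ˣ := (hζ'.isUnit hp.out.ne_zero).unit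
  have hζu : ζu ^ p = 1 := by
    apply Units.ext
    simp [ζu, hζ'.pow_eq_one]
  have hζt : ζu ∈ Units.torsion K := by
    rw [Units.torsion, CommGroup.mem_torsion]
    exact isOfFinOrder_iff_pow_eq_one.mpr ⟨p, hp.out.pos, hζu⟩
  have hσζ : σ hζ.toInteger * hζ.toInteger = 1 := by
    have h1 := IsCMField.unitsComplexConj_torsion K ⟨ζu, hζt⟩
    have h2 : ((IsCMField.unitsComplexConj K ζu : (𝓞 K)ˣ) : 𝓞 K) = σ hζ.toInteger := rfl
    have h3 : IsCMField.unitsComplexConj K ζu * ζu = 1 := by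
      have : IsCMField.unitsComplexConj K ζu = ζu⁻¹ := h1
      rw [this, inv_mul_cancel]
    have h4 := congrArg (fun v : (𝓞 K)ˣ => (v : 𝓞 K)) h3
    have h5 : (ζu : 𝓞 K) = hζ.toInteger := rfl
    simpa [h2, h5] using h4
  refine ⟨σ, hσζ, fun u => ?_⟩
  -- `t = u / σ u` is a root of unity
  set t : Units.torsion K := IsCMField.unitsMulComplexConjInv K u with ht
  have htu : (u : 𝓞 K) = ((t : (𝓞 K)ˣ) : 𝓞 K) * σ u := by
    have h1 := IsCMField.unitsMulComplexConjInv_apply K u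
    have h2 : ((IsCMField.unitsComplexConj K u : (𝓞 K)ˣ) : 𝓞 K) = σ u := rfl
    have h3 : (t : (𝓞 K)ˣ) * IsCMField.unitsComplexConj K u = u := by
      rw [ht, h1, inv_mul_cancel_right]
    have h4 := congrArg (fun v : (𝓞 K)ˣ => (v : 𝓞 K)) h3
    simp only [Units.val_mul, h2] at h4
    exact h4.symm
  have htors : ((t : (𝓞 K)ˣ) : 𝓞 K) ^ (2 * p) = 1 := by
    have h1 : t ^ Units.torsionOrder K = 1 := by
      rw [Units.torsionOrder]
      exact pow_card_eq_one'
    have h2 : Units.torsionOrder K = 2 * p := by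
      rw [IsCyclotomicExtension.Rat.torsionOrder_eq (n := p), if_neg]
      rw [Nat.not_even_iff_odd]
      exact hp.out.odd_of_ne_two hp2
    rw [h2] at h1
    have h3 := congrArg (fun v : Units.torsion K => (((v : (𝓞 K)ˣ)) : 𝓞 K)) h1
    simpa using h3
  have hodd : Odd p := hp.out.odd_of_ne_two hp2
  have hcases : ((t : (𝓞 K)ˣ) : 𝓞 K) ^ p = 1 ∨ ((t : (𝓞 K)ˣ) : 𝓞 K) ^ p = -1 := by
    have : (((t : (𝓞 K)ˣ) : 𝓞 K) ^ p - 1) * (((t : (𝓞 K)ˣ) : 𝓞 K) ^ p + 1) = 0 := by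
      have : (((t : (𝓞 K)ˣ) : 𝓞 K) ^ p) ^ 2 = 1 := by rw [← pow_mul, mul_comm]; exact htors
      linear_combination this
    rcases mul_eq_zero.mp this with h | h
    · left; exact sub_eq_zero.mp h
    · right; exact eq_neg_of_add_eq_zero_left h
  rcases hcases with h | h
  · obtain ⟨i, -, hi⟩ := hζ'.eq_pow_of_pow_eq_one h
    exact ⟨i, by rw [hi]; exact htu⟩
  · exfalso
    have h' : (-((t : (𝓞 K)ˣ) : 𝓞 K)) ^ p = 1 := by rw [hodd.neg_pow, h, neg_neg]
    obtain ⟨i, -, hi⟩ := hζ'.eq_pow_of_pow_eq_one h'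
    -- `u = -ζ^i σ u`
    have hu : (u : 𝓞 K) + hζ.toInteger ^ i * σ u = 0 := by
      rw [hi]; linear_combination htu
    obtain ⟨n, hn⟩ := exists_int_sub_dvd hζ (u : 𝓞 K)
    have hσl : σ (hζ.toInteger - 1) = -σ hζ.toInteger * (hζ.toInteger - 1) := by
      rw [map_sub, map_one]; linear_combination hσζ
    have hn' : hζ.toInteger - 1 ∣ σ u - n := by
      obtain ⟨y, hy⟩ := hn
      refine ⟨-σ hζ.toInteger * σ y, ?_⟩
      have h1 := congrArg σ hy
      rw [map_sub, map_mul, map_intCast, hσl] at h1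
      rw [h1]; ring
    have hi1 : hζ.toInteger - 1 ∣ hζ.toInteger ^ i - 1 := by
      have := sub_dvd_pow_sub_pow hζ.toInteger 1 i
      rwa [one_pow] at this
    have h2n : hζ.toInteger - 1 ∣ 2 * (n : 𝓞 K) := by
      have e : 2 * (n : 𝓞 K) = -((u : 𝓞 K) - n) - (σ u - n) * hζ.toInteger ^ i
          - n * (hζ.toInteger ^ i - 1) + ((u : 𝓞 K) + hζ.toInteger ^ i * σ u) := by ring
      rw [e, hu, add_zero]
      exact dvd_sub (dvd_sub (dvd_neg.mpr hn) (Dvd.dvd.mul_right hn' _)) (Dvd.dvd.mul_left hi1 _)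
    rcases hprime.dvd_or_dvd h2n with h2 | h2
    · exact lambda_not_dvd_two hζ hp2 h2
    · have : hζ.toInteger - 1 ∣ (u : 𝓞 K) := by
        have := dvd_add hn h2
        rwa [sub_add_cancel] at this
      exact hprime.not_isUnit (isUnit_of_dvd_unit this u.isUnit)

/-- `1, ζ, …, ζ^(p-2)` is an integral basis: a `ℤ`-combination divisible by `p` has all its
coefficients divisible by `p`. -/
theorem dvd_coeff_of_dvd_sum_aux (c : ℕ → ℤ)
    (h : (p : 𝓞 K) ∣ ∑ i ∈ Finset.range (p - 1), (c i : 𝓞 K) * hζ.toInteger ^ i) :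
    ∀ i < p - 1, (p : ℤ) ∣ c i := by
  set pb := hζ.integralPowerBasis with hpb
  have hdim : pb.dim = p - 1 := by
    rw [hpb, hζ.integralPowerBasis_dim, Nat.totient_prime hp.out]
  obtain ⟨y, hy⟩ := h
  intro i hi
  have hsum : ∑ j ∈ Finset.range (p - 1), (c j : 𝓞 K) * hζ.toInteger ^ j
      = ∑ j : Fin pb.dim, c j • pb.basis j := by
    rw [← hdim, ← Fin.sum_univ_eq_sum_range (fun j => (c j : 𝓞 K) * hζ.toInteger ^ j)]
    refine Finset.sum_congr rfl fun j _ => ?_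
    have hgen : pb.gen = hζ.toInteger := hζ.integralPowerBasis_gen
    rw [pb.basis_eq_pow, hgen, zsmul_eq_mul]
  have hy' : ∑ j : Fin pb.dim, c j • pb.basis j = (p : ℤ) • y := by
    rw [← hsum, hy, zsmul_eq_mul, Int.cast_natCast]
  have hrepr := congrArg (fun z => pb.basis.repr z ⟨i, hdim ▸ hi⟩) hy'
  simp only [Module.Basis.repr_sum_self, map_zsmul, Finsupp.smul_apply, smul_eq_mul] at hrepr
  exact ⟨_, hrepr⟩

/-- **Basis lemma.** If `p ∣ ∑_{i<p} f i ζ^i` and some coefficient `f i₀` vanishes, then `p`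
divides all the `f i`. -/
theorem dvd_coeff_of_dvd_sum (f : ℕ → ℤ) (i₀ : ℕ) (hi₀ : i₀ < p) (h0 : f i₀ = 0)
    (h : (p : 𝓞 K) ∣ ∑ i ∈ Finset.range p, (f i : 𝓞 K) * hζ.toInteger ^ i) :
    ∀ i < p, (p : ℤ) ∣ f i := by
  have hζ' := hζ.toInteger_isPrimitiveRoot
  have hp1 : 1 < p := hp.out.one_lt
  have hgeom : ∑ i ∈ Finset.range p, hζ.toInteger ^ i = 0 := hζ'.geom_sum_eq_zero hp1
  obtain ⟨m, rfl⟩ : ∃ m, p = m + 1 := ⟨p - 1, by omega⟩
  rw [Finset.sum_range_succ] at hgeom h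
  have hlast : hζ.toInteger ^ m = -∑ i ∈ Finset.range m, hζ.toInteger ^ i :=
    eq_neg_of_add_eq_zero_right hgeom
  have hrew : ∑ i ∈ Finset.range m, (f i : 𝓞 K) * hζ.toInteger ^ i + (f m : 𝓞 K) * hζ.toInteger ^ m
      = ∑ i ∈ Finset.range (m + 1 - 1), ((f i - f m : ℤ) : 𝓞 K) * hζ.toInteger ^ i := by
    rw [hlast, Nat.add_sub_cancel, mul_neg, Finset.mul_sum, ← sub_eq_add_neg, ← Finset.sum_sub_distrib]
    refine Finset.sum_congr rfl fun i _ => ?_
    push_cast; ring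
  rw [hrew] at h
  have haux := dvd_coeff_of_dvd_sum_aux hζ (fun i => f i - f m) h
  simp only [Nat.add_sub_cancel] at haux
  have hm : ((m + 1 : ℕ) : ℤ) ∣ f m := by
    rcases Nat.lt_succ_iff_lt_or_eq.mp hi₀ with hlt | heq
    · have := haux i₀ hlt
      rw [h0, zero_sub] at this
      exact (dvd_neg.mp this)
    · rw [← heq, h0]; exact dvd_zero _
  intro i hi
  rcases Nat.lt_succ_iff_lt_or_eq.mp hi with hlt | heq
  · have := dvd_add (haux i hlt) hm
    rwa [sub_add_cancel] at this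
  · rw [heq]; exact hm

end Fermat.Agent.S10_Units
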