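-- Statement S11: no Galois-stable cofixed line for the Frey curve when p = 11
-- (vacuous: Kummer's theorem for the exponent 11 excludes the Frey package).
import Fermat.Statements.S11
import Fermat.Agent.S10_FLT
import Fermat.Agent.S10_PID11

set_option autoImplicit false
open WeierstrassCurve WeierstrassCurve.Affine WeierstrassCurve.Affine.Point
open CuspForm ModularFormClass UpperHalfPlane
open FreyPackage

namespace Fermat.Agent.S11

/-- `ℤ[ζ_p]` is a principal ideal domain for `p = 11`. -/
theorem pid_of_eq {p : ℕ} (hp : p = 11) :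
    IsPrincipalIdealRing (NumberField.RingOfIntegers (CyclotomicField p ℚ)) := by
  subst hp
  have := Fermat.Agent.S10_FLT.isCyclotomicExtension_cyclotomicField 11
  exact Fermat.Agent.S10_PID11.eleven_pid (CyclotomicField 11 ℚ)

theorem result (P : FreyPackage) (hp : P.p = 11) : ¬ HasGaloisStableCofixedLine (K := AlgebraicClosure ℚ) ℚ P.freyCurve P.p := by
  exact absurd P.hFLT
    (Fermat.Agent.S10_FLT.no_solution_of_pid P.p P.pp P.hp5 (pid_of_eq hp) P.ha0 P.hb0 P.hc0)

end Fermat.Agent.S11
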