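-- Project R (S13): shared definitions for the x-coordinate calculus on Weierstrass curves.
-- `xc` = x-coordinate of a point (junk value 0 at the origin), `psi2` = value of ψ₂ = 2y + a₁x + a₃,
-- `G` = the symmetric biquadratic with (x(P+Q) - c)(x(P-Q) - c)(x(P) - x(Q))² = G (x P) (x Q) c.
import Mathlib

set_option autoImplicit false

namespace Fermat.Agent.S13_Defs

open WeierstrassCurve

variable {F : Type*} [Field F]

/-- the x-coordinate of a point (junk value `0` at the origin) -/
def xc {W : WeierstrassCurve.Affine F} : W.Point → F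
  | .zero => 0
  | .some x _ _ => x

/-- the value of `ψ₂ = 2y + a₁x + a₃` at a point (junk value `0` at the origin) -/
def psi2 {W : WeierstrassCurve.Affine F} : W.Point → F
  | .zero => 0
  | .some x y _ => 2 * y + W.a₁ * x + W.a₃

/-- the symmetric biquadratic of the curve -/
def G (W : WeierstrassCurve F) (u v w : F) : F :=
  (u * v + v * w + w * u) ^ 2 - 4 * (u + v + w) * (u * v * w) - W.b₂ * (u * v * w)
    - W.b₄ * (u * v + v * w + w * u) - W.b₆ * (u + v + w) - W.b₈

section basic

variable {W : WeierstrassCurve.Affine F}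

@[simp] theorem xc_zero : xc (0 : W.Point) = 0 := rfl

@[simp] theorem xc_some {x y : F} (h : W.Nonsingular x y) : xc (Affine.Point.some x y h) = x := rfl

@[simp] theorem psi2_zero : psi2 (0 : W.Point) = 0 := rfl

@[simp] theorem psi2_some {x y : F} (h : W.Nonsingular x y) :
    psi2 (Affine.Point.some x y h) = 2 * y + W.a₁ * x + W.a₃ := rfl

theorem exists_eq_some {P : W.Point} (hP : P ≠ 0) :
    ∃ (x y : F) (h : W.Nonsingular x y), P = Affine.Point.some x y h := by
  rcases P with _ | ⟨x, y, h⟩
  · exact absurd rfl hP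
  · exact ⟨x, y, h, rfl⟩

@[simp] theorem xc_neg (P : W.Point) : xc (-P) = xc P := by
  rcases P with _ | ⟨x, y, h⟩
  · rfl
  · rfl

@[simp] theorem psi2_neg (P : W.Point) : psi2 (-P) = -psi2 P := by
  rcases P with _ | ⟨x, y, h⟩
  · simp [← Affine.Point.zero_def]
  · rw [Affine.Point.neg_some, psi2_some, psi2_some, Affine.negY]
    ring

theorem neg_ne_zero_of_ne_zero {P : W.Point} (hP : P ≠ 0) : -P ≠ 0 := by
  rcases P with _ | ⟨x, y, h⟩
  · exact absurd rfl hP
  · rw [Affine.Point.neg_some]
    exact Affine.Point.some_ne_zero _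

/-- two nonzero points with the same x-coordinate are equal or opposite -/
theorem eq_or_eq_neg_of_xc_eq {P Q : W.Point} (hP : P ≠ 0) (hQ : Q ≠ 0) (h : xc P = xc Q) :
    P = Q ∨ P = -Q := by
  obtain ⟨x, y, hxy, rfl⟩ := exists_eq_some hP
  obtain ⟨x', y', hxy', rfl⟩ := exists_eq_some hQ
  simp only [xc_some] at h
  subst h
  rw [Affine.Point.neg_some]
  rcases Affine.Y_eq_of_X_eq hxy.1 hxy'.1 rfl with h1 | h1
  · left
    subst h1
    rfl
  · right
    subst h1
    rfl

theorem xc_eq_of_eq_or_eq_neg {P Q : W.Point} (h : P = Q ∨ P = -Q) : xc P = xc Q := by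
  rcases h with rfl | rfl
  · rfl
  · exact xc_neg Q

end basic

section G

variable (W : WeierstrassCurve F)

theorem G_comm12 (u v w : F) : G W u v w = G W v u w := by
  simp only [G]; ring

theorem G_comm23 (u v w : F) : G W u v w = G W u w v := by
  simp only [G]; ring

theorem G_comm13 (u v w : F) : G W u v w = G W w v u := by
  simp only [G]; ring

theorem G_rot (u v w : F) : G W u v w = G W v w u := by
  simp only [G]; ring

/-- expanded form in the third variable -/
theorem G_eq (u v c : F) : G W u v c =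
    ((u * v) ^ 2 - W.b₄ * (u * v) - W.b₆ * (u + v) - W.b₈)
      - c * (2 * (u * v) * (u + v) + W.b₂ * (u * v) + W.b₄ * (u + v) + W.b₆)
      + c ^ 2 * (u - v) ^ 2 := by
  simp only [G]; ring

end G

end Fermat.Agent.S13_Defs
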