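/-
Project R (S13), block T0: x-coordinate addition-subtraction formulas on a Weierstrass curve
over a field (any characteristic), in terms of the `b`-invariants:
`x(P+Q) x(P-Q) (x_P - x_Q)² = (x_P x_Q)² - b₄ x_P x_Q - b₆ (x_P + x_Q) - b₈`,
`(x(P+Q) + x(P-Q)) (x_P - x_Q)² = 2 x_P x_Q (x_P + x_Q) + b₂ x_P x_Q + b₄ (x_P + x_Q) + b₆`,
the symmetric form `(x(P+Q) - c)(x(P-Q) - c)(x_P - x_Q)² = G(x_P, x_Q, c)` and the duplication
formula.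
-/
import Mathlib
import Fermat.Agent.S13_Defs

set_option autoImplicit false

namespace Fermat.Agent.S13_AddSub

open WeierstrassCurve WeierstrassCurve.Affine
open Fermat.Agent.S13_Defs

variable {F : Type*} [Field F] {W : WeierstrassCurve.Affine F}

/-- `ψ₂² = 4x³ + b₂x² + 2b₄x + b₆` in coordinates. -/
theorem psi2_sq_coord {x y : F} (h : W.Equation x y) :
    (2 * y + W.a₁ * x + W.a₃) ^ 2 = 4 * x ^ 3 + W.b₂ * x ^ 2 + 2 * W.b₄ * x + W.b₆ := by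
  rw [equation_iff] at h
  simp only [WeierstrassCurve.b₂, WeierstrassCurve.b₄, WeierstrassCurve.b₆]
  linear_combination 4 * h

/-- `ψ₂(P)² = 4x³ + b₂x² + 2b₄x + b₆` at a nonzero point. -/
theorem psi2_sq {P : W.Point} (hP : P ≠ 0) :
    psi2 P ^ 2 = 4 * xc P ^ 3 + W.b₂ * xc P ^ 2 + 2 * W.b₄ * xc P + W.b₆ := by
  obtain ⟨x, y, h, rfl⟩ := exists_eq_some hP
  exact psi2_sq_coord h.1

/-- `ψ₂(P)² = Ψ₂Sq(x(P))` at a nonzero point. -/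
theorem psi2_sq_eq_eval {P : W.Point} (hP : P ≠ 0) :
    psi2 P ^ 2 = (W.Ψ₂Sq).eval (xc P) := by
  rw [psi2_sq hP, WeierstrassCurve.Ψ₂Sq]
  simp

variable [DecidableEq F]

/-- `2 • P = 0` iff `P = 0` or `ψ₂(P) = 0`. -/
theorem add_self_eq_zero_iff (P : W.Point) : P + P = 0 ↔ P = 0 ∨ psi2 P = 0 := by
  rcases P with _ | ⟨x, y, h⟩
  · simp [Point.zero_def]
  · have hne : Point.some x y h ≠ 0 := Point.some_ne_zero h
    constructor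
    · intro h0
      right
      by_contra hη
      have hy : y ≠ W.negY x y := by
        intro hy
        apply hη
        rw [psi2_some]
        rw [negY] at hy
        linear_combination hy
      rw [Point.add_self_of_Y_ne hy] at h0
      exact Point.some_ne_zero _ h0
    · rintro (h0 | h0)
      · exact absurd h0 hne
      · have hy : y = W.negY x y := by
          rw [psi2_some] at h0
          rw [negY]
          linear_combination h0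
        exact Point.add_self_of_Y_eq hy

/-- The sum of two nonzero points with distinct x-coordinates is nonzero. -/
theorem add_ne_zero_of_xc_ne {P Q : W.Point} (hP : P ≠ 0) (hQ : Q ≠ 0) (hx : xc P ≠ xc Q) :
    P + Q ≠ 0 := by
  obtain ⟨x₁, y₁, h₁, rfl⟩ := exists_eq_some hP
  obtain ⟨x₂, y₂, h₂, rfl⟩ := exists_eq_some hQ
  simp only [xc_some] at hx
  rw [Point.add_of_X_ne hx]
  exact Point.some_ne_zero _

/-- The difference of two nonzero points with distinct x-coordinates is nonzero. -/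
theorem sub_ne_zero_of_xc_ne {P Q : W.Point} (hP : P ≠ 0) (hQ : Q ≠ 0) (hx : xc P ≠ xc Q) :
    P - Q ≠ 0 := by
  rw [sub_eq_add_neg]
  exact add_ne_zero_of_xc_ne hP (neg_ne_zero_of_ne_zero hQ) (by rwa [xc_neg])

omit [DecidableEq F] in
/-- Coordinate form of the two formulas: with `d = x₁ - x₂`, `s = y₁ - y₂`,
`t = y₁ + y₂ + a₁x₂ + a₃`. -/
theorem coord_formulas {x₁ y₁ x₂ y₂ : F} (h₁ : W.Equation x₁ y₁) (h₂ : W.Equation x₂ y₂)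
    (hx : x₁ ≠ x₂) :
    let Xp := W.addX x₁ x₂ ((y₁ - y₂) / (x₁ - x₂))
    let Xm := W.addX x₁ x₂ ((y₁ - W.negY x₂ y₂) / (x₁ - x₂))
    Xp * Xm * (x₁ - x₂) ^ 2 =
        (x₁ * x₂) ^ 2 - W.b₄ * (x₁ * x₂) - W.b₆ * (x₁ + x₂) - W.b₈ ∧
      (Xp + Xm) * (x₁ - x₂) ^ 2 =
        2 * (x₁ * x₂) * (x₁ + x₂) + W.b₂ * (x₁ * x₂) + W.b₄ * (x₁ + x₂) + W.b₆ := by
  intro Xp Xm
  have hd : x₁ - x₂ ≠ 0 := sub_ne_zero.2 hx
  rw [equation_iff] at h₁ h₂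
  have hs : (y₁ - y₂) / (x₁ - x₂) * (x₁ - x₂) = y₁ - y₂ := div_mul_cancel₀ _ hd
  have ht : (y₁ - W.negY x₂ y₂) / (x₁ - x₂) * (x₁ - x₂) = y₁ + y₂ + W.a₁ * x₂ + W.a₃ := by
    rw [div_mul_cancel₀ _ hd, negY]; ring
  set ℓp := (y₁ - y₂) / (x₁ - x₂) with hℓp
  set ℓm := (y₁ - W.negY x₂ y₂) / (x₁ - x₂) with hℓm
  have hXp : Xp * (x₁ - x₂) ^ 2 = (y₁ - y₂) ^ 2 + W.a₁ * (y₁ - y₂) * (x₁ - x₂)
      - (W.a₂ + x₁ + x₂) * (x₁ - x₂) ^ 2 := by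
    simp only [Xp, addX]
    linear_combination (ℓp * (x₁ - x₂) + (y₁ - y₂) + W.a₁ * (x₁ - x₂)) * hs
  have hXm : Xm * (x₁ - x₂) ^ 2 = (y₁ + y₂ + W.a₁ * x₂ + W.a₃) ^ 2
      + W.a₁ * (y₁ + y₂ + W.a₁ * x₂ + W.a₃) * (x₁ - x₂)
      - (W.a₂ + x₁ + x₂) * (x₁ - x₂) ^ 2 := by
    simp only [Xm, addX]
    linear_combination (ℓm * (x₁ - x₂) + (y₁ + y₂ + W.a₁ * x₂ + W.a₃) + W.a₁ * (x₁ - x₂)) * ht
  have hst : (y₁ - y₂) * (y₁ + y₂ + W.a₁ * x₂ + W.a₃) =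
      (x₁ - x₂) * (x₁ ^ 2 + x₁ * x₂ + x₂ ^ 2 + W.a₂ * (x₁ + x₂) + W.a₄ - W.a₁ * y₁) := by
    linear_combination h₁ - h₂
  constructor
  · apply mul_left_cancel₀ (pow_ne_zero 2 hd)
    have : (x₁ - x₂) ^ 2 * (Xp * Xm * (x₁ - x₂) ^ 2) =
        (Xp * (x₁ - x₂) ^ 2) * (Xm * (x₁ - x₂) ^ 2) := by ring
    rw [this, hXp, hXm]
    simp only [WeierstrassCurve.b₄, WeierstrassCurve.b₆, WeierstrassCurve.b₈]
    linear_combination
      ((y₁ - y₂) * (y₁ + y₂ + W.a₁ * x₂ + W.a₃)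
        + (x₁ - x₂) * (x₁ ^ 2 + x₁ * x₂ + x₂ ^ 2 + W.a₂ * (x₁ + x₂) + W.a₄ - W.a₁ * y₁)
        + W.a₁ * (x₁ - x₂) * (2 * y₁ + W.a₁ * x₂ + W.a₃) + W.a₁ ^ 2 * (x₁ - x₂) ^ 2
        + 2 * (W.a₂ + x₁ + x₂) * (x₁ - x₂) ^ 2) * hst
      - (x₁ - x₂) ^ 2 * (W.a₁ ^ 2 + 4 * W.a₂ + 4 * (x₁ + x₂)) * h₁
  · have : (Xp + Xm) * (x₁ - x₂) ^ 2 = Xp * (x₁ - x₂) ^ 2 + Xm * (x₁ - x₂) ^ 2 := by ring
    rw [this, hXp, hXm]
    simp only [WeierstrassCurve.b₂, WeierstrassCurve.b₄, WeierstrassCurve.b₆]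
    linear_combination 2 * h₁ + 2 * h₂

/-- The x-coordinates of `P + Q` and `P - Q` in terms of `addX`. -/
theorem xc_add_sub_coord {x₁ y₁ x₂ y₂ : F} (h₁ : W.Nonsingular x₁ y₁)
    (h₂ : W.Nonsingular x₂ y₂) (hx : x₁ ≠ x₂) :
    xc (Point.some x₁ y₁ h₁ + Point.some x₂ y₂ h₂) = W.addX x₁ x₂ ((y₁ - y₂) / (x₁ - x₂)) ∧
      xc (Point.some x₁ y₁ h₁ - Point.some x₂ y₂ h₂) =
        W.addX x₁ x₂ ((y₁ - W.negY x₂ y₂) / (x₁ - x₂)) := by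
  constructor
  · rw [Point.add_of_X_ne hx, xc_some, slope_of_X_ne hx]
  · rw [sub_eq_add_neg, Point.neg_some, Point.add_of_X_ne hx, xc_some, slope_of_X_ne hx]

/-- **T0, product formula.** -/
theorem xc_add_mul_xc_sub {P Q : W.Point} (hP : P ≠ 0) (hQ : Q ≠ 0) (hx : xc P ≠ xc Q) :
    xc (P + Q) * xc (P - Q) * (xc P - xc Q) ^ 2 =
      (xc P * xc Q) ^ 2 - W.b₄ * (xc P * xc Q) - W.b₆ * (xc P + xc Q) - W.b₈ := by
  obtain ⟨x₁, y₁, h₁, rfl⟩ := exists_eq_some hP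
  obtain ⟨x₂, y₂, h₂, rfl⟩ := exists_eq_some hQ
  simp only [xc_some] at hx ⊢
  obtain ⟨e1, e2⟩ := xc_add_sub_coord h₁ h₂ hx
  rw [e1, e2]
  exact (coord_formulas h₁.1 h₂.1 hx).1

/-- **T0, sum formula.** -/
theorem xc_add_add_xc_sub {P Q : W.Point} (hP : P ≠ 0) (hQ : Q ≠ 0) (hx : xc P ≠ xc Q) :
    (xc (P + Q) + xc (P - Q)) * (xc P - xc Q) ^ 2 =
      2 * (xc P * xc Q) * (xc P + xc Q) + W.b₂ * (xc P * xc Q) + W.b₄ * (xc P + xc Q)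
        + W.b₆ := by
  obtain ⟨x₁, y₁, h₁, rfl⟩ := exists_eq_some hP
  obtain ⟨x₂, y₂, h₂, rfl⟩ := exists_eq_some hQ
  simp only [xc_some] at hx ⊢
  obtain ⟨e1, e2⟩ := xc_add_sub_coord h₁ h₂ hx
  rw [e1, e2]
  exact (coord_formulas h₁.1 h₂.1 hx).2

/-- **T0, symmetric form.** `(x(P+Q) - c)(x(P-Q) - c)(x_P - x_Q)² = G(x_P, x_Q, c)`. -/
theorem G_add_sub {P Q : W.Point} (hP : P ≠ 0) (hQ : Q ≠ 0) (hx : xc P ≠ xc Q) (c : F) :
    (xc (P + Q) - c) * (xc (P - Q) - c) * (xc P - xc Q) ^ 2 = G W (xc P) (xc Q) c := by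
  rw [G_eq]
  linear_combination xc_add_mul_xc_sub hP hQ hx - c * xc_add_add_xc_sub hP hQ hx

/-- **T0, duplication formula.** -/
theorem xc_add_self {P : W.Point} (hP : P ≠ 0) (hψ : psi2 P ≠ 0) :
    P + P ≠ 0 ∧ xc (P + P) * psi2 P ^ 2 =
      xc P ^ 4 - W.b₄ * xc P ^ 2 - 2 * W.b₆ * xc P - W.b₈ := by
  obtain ⟨x, y, h, rfl⟩ := exists_eq_some hP
  rw [psi2_some] at hψ
  have hy : y ≠ W.negY x y := by
    intro hy
    apply hψ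
    rw [negY] at hy
    linear_combination hy
  rw [Point.add_self_of_Y_ne hy]
  refine ⟨Point.some_ne_zero _, ?_⟩
  simp only [xc_some, psi2_some, slope_of_Y_ne rfl hy, addX]
  have hE := h.1
  rw [equation_iff] at hE
  have hden : y - W.negY x y = 2 * y + W.a₁ * x + W.a₃ := by rw [negY]; ring
  rw [hden]
  have hℓ : (3 * x ^ 2 + 2 * W.a₂ * x + W.a₄ - W.a₁ * y) / (2 * y + W.a₁ * x + W.a₃)
      * (2 * y + W.a₁ * x + W.a₃) = 3 * x ^ 2 + 2 * W.a₂ * x + W.a₄ - W.a₁ * y :=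
    div_mul_cancel₀ _ hψ
  set η := 2 * y + W.a₁ * x + W.a₃ with hη
  set N := 3 * x ^ 2 + 2 * W.a₂ * x + W.a₄ - W.a₁ * y with hN
  set ℓ := N / η
  simp only [WeierstrassCurve.b₄, WeierstrassCurve.b₆, WeierstrassCurve.b₈]
  linear_combination (ℓ * η + N + W.a₁ * η) * hℓ - (W.a₁ ^ 2 + 4 * W.a₂ + 8 * x) * hE

/-- **T0, duplication in symmetric form.** `G(x_P, x_P, c) = ψ₂(P)² (x(2P) - c)`. -/
theorem G_add_self {P : W.Point} (hP : P ≠ 0) (hψ : psi2 P ≠ 0) (c : F) :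
    G W (xc P) (xc P) c = psi2 P ^ 2 * (xc (P + P) - c) := by
  rw [G_eq]
  have h1 := (xc_add_self hP hψ).2
  have h2 := psi2_sq hP
  linear_combination (-1 : F) * h1 + c * h2

/-- Duplication formula in `nsmul` form. -/
theorem xc_two_nsmul {P : W.Point} (hP : P ≠ 0) (hψ : psi2 P ≠ 0) :
    (2 : ℕ) • P ≠ 0 ∧ xc ((2 : ℕ) • P) * psi2 P ^ 2 =
      xc P ^ 4 - W.b₄ * xc P ^ 2 - 2 * W.b₆ * xc P - W.b₈ := by
  rw [two_nsmul]
  exact xc_add_self hP hψ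

/-- `2 • P = 0` iff `P = 0` or `ψ₂(P) = 0`, in `nsmul` form. -/
theorem two_nsmul_eq_zero_iff (P : W.Point) : (2 : ℕ) • P = 0 ↔ P = 0 ∨ psi2 P = 0 := by
  rw [two_nsmul]
  exact add_self_eq_zero_iff P

/-- Multiples `i • P`, `j • P` have distinct x-coordinates as soon as `(i ± j) • P ≠ 0`. -/
theorem xc_nsmul_ne {P : W.Point} {i j : ℕ} (hj : j ≤ i) (hi : i • P ≠ 0) (hj0 : j • P ≠ 0)
    (hadd : (i + j) • P ≠ 0) (hsub : (i - j) • P ≠ 0) : xc (i • P) ≠ xc (j • P) := by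
  intro h
  rcases eq_or_eq_neg_of_xc_eq hi hj0 h with h1 | h1
  · apply hsub
    rw [sub_nsmul _ hj, h1, add_neg_cancel]
  · apply hadd
    rw [add_nsmul, h1, neg_add_cancel]

/-- The symmetric addition-subtraction identity for multiples of a point. -/
theorem G_nsmul {P : W.Point} {i j : ℕ} (hj : j ≤ i) (hi : i • P ≠ 0) (hj0 : j • P ≠ 0)
    (hx : xc (i • P) ≠ xc (j • P)) (c : F) :
    (xc ((i + j) • P) - c) * (xc ((i - j) • P) - c) * (xc (i • P) - xc (j • P)) ^ 2 =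
      G W (xc (i • P)) (xc (j • P)) c := by
  rw [add_nsmul, sub_nsmul _ hj, ← sub_eq_add_neg]
  exact G_add_sub hi hj0 hx c

end Fermat.Agent.S13_AddSub
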