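/-
Project R (S13), block L2 (abstract part): Weierstrass curves over a valued field with a node at
`x = 0` in `b`-form (`b₆ = 0`, `b₄ = 2c`, `b₈ = -c²`, `b₂` a unit, `0 < v c = N`), x-coordinate
valuation calculus:
* the kernel of reduction `{v(x) < 0}` has no odd prime torsion when `0 < v 2` (duplication only);
* points near the node double into `{v(x) ≤ 0}`;
* two points with unit x-coordinates that are congruent differ by a kernel point (up to sign);
* `{v(x) = 0}` is closed under addition on `p`-torsion.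
-/
import Mathlib
import Fermat.Agent.S05_Tent
import Fermat.Agent.S13_AddSub

set_option autoImplicit false

namespace Fermat.Agent.S13_Node

open WeierstrassCurve WeierstrassCurve.Affine
open Fermat.Agent.S05_RatVal Fermat.Agent.S05_Tent
open Fermat.Agent.S13_Defs Fermat.Agent.S13_AddSub

variable {K : Type*} [Field K] {W : WeierstrassCurve.Affine K} {v : RatVal K} {c : K} {N : ℚ}

/-- A Weierstrass curve over a valued field with a node at `x = 0`, in `b`-form. -/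
structure NodeSetup (W : WeierstrassCurve.Affine K) (v : RatVal K) (c : K) (N : ℚ) : Prop where
  hb₄ : W.b₄ = 2 * c
  hb₆ : W.b₆ = 0
  hb₈ : W.b₈ = -c ^ 2
  c_ne : c ≠ 0
  v_c : v.v c = N
  N_pos : 0 < N
  b₂_ne : W.b₂ ≠ 0
  v_b₂ : v.v W.b₂ = 0
  two_ne : (2 : K) ≠ 0
  v_two : 0 ≤ v.v (2 : K)

namespace NodeSetup

theorem exc (h : NodeSetup W v c N) : Ex v c N := ⟨h.c_ne, h.v_c⟩

theorem exb₂ (h : NodeSetup W v c N) : Ex v W.b₂ 0 := ⟨h.b₂_ne, h.v_b₂⟩

theorem ge_two (h : NodeSetup W v c N) : v.Ge (2 : K) 0 := Or.inr h.v_two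

theorem ge_four (h : NodeSetup W v c N) : v.Ge (4 : K) 0 := by
  have := h.ge_two.mul h.ge_two
  norm_num at this
  exact this

end NodeSetup

section formulas

variable [DecidableEq K]

/-- product formula at a node -/
theorem prod_formula (h : NodeSetup W v c N) {P Q : W.Point} (hP : P ≠ 0) (hQ : Q ≠ 0)
    (hx : xc P ≠ xc Q) :
    xc (P + Q) * xc (P - Q) * (xc P - xc Q) ^ 2 = (xc P * xc Q - c) ^ 2 := by
  rw [xc_add_mul_xc_sub hP hQ hx, h.hb₄, h.hb₆, h.hb₈]
  ring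

/-- sum formula at a node -/
theorem sum_formula (h : NodeSetup W v c N) {P Q : W.Point} (hP : P ≠ 0) (hQ : Q ≠ 0)
    (hx : xc P ≠ xc Q) :
    (xc (P + Q) + xc (P - Q)) * (xc P - xc Q) ^ 2 =
      xc P * xc Q * (W.b₂ + 2 * (xc P + xc Q)) + 2 * c * (xc P + xc Q) := by
  rw [xc_add_add_xc_sub hP hQ hx, h.hb₄, h.hb₆]
  ring

omit [DecidableEq K] in
theorem psi2_sq_node (h : NodeSetup W v c N) {P : W.Point} (hP : P ≠ 0) :
    psi2 P ^ 2 = xc P * (4 * xc P ^ 2 + W.b₂ * xc P + 4 * c) := by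
  rw [psi2_sq hP, h.hb₄, h.hb₆]
  ring

/-- duplication formula at a node -/
theorem dup_formula (h : NodeSetup W v c N) {P : W.Point} (hP : P ≠ 0) (hψ : psi2 P ≠ 0) :
    (2 : ℕ) • P ≠ 0 ∧
      xc ((2 : ℕ) • P) * (xc P * (4 * xc P ^ 2 + W.b₂ * xc P + 4 * c)) = (xc P ^ 2 - c) ^ 2 := by
  obtain ⟨h1, h2⟩ := xc_two_nsmul hP hψ
  refine ⟨h1, ?_⟩
  rw [← psi2_sq_node h hP, h2, h.hb₄, h.hb₆, h.hb₈]
  ring

end formulas

section kernel

variable [DecidableEq K]

/-- (2.1), one step: doubling a kernel point goes strictly deeper into the kernel. -/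
theorem dup_ker (h : NodeSetup W v c N) (h2 : 0 < v.v (2 : K)) {R : W.Point} (hR : R ≠ 0)
    (hx : xc R ≠ 0) (hneg : v.v (xc R) < 0) :
    (2 : ℕ) • R = 0 ∨ ((2 : ℕ) • R ≠ 0 ∧ xc ((2 : ℕ) • R) ≠ 0 ∧
      v.v (xc ((2 : ℕ) • R)) < v.v (xc R)) := by
  by_cases hψ : psi2 R = 0
  · left
    exact (two_nsmul_eq_zero_iff R).2 (Or.inr hψ)
  right
  obtain ⟨h1, hd⟩ := dup_formula h hR hψ
  refine ⟨h1, ?_⟩
  have hX : Ex v (xc R) (v.v (xc R)) := ⟨hx, rfl⟩
  generalize v.v (xc R) = ν at hX hneg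
  have hD0 : xc R * (4 * xc R ^ 2 + W.b₂ * xc R + 4 * c) ≠ 0 := by
    rw [← psi2_sq_node h hR]
    exact pow_ne_zero 2 hψ
  have hE0 : 4 * xc R ^ 2 + W.b₂ * xc R + 4 * c ≠ 0 := right_ne_zero_of_mul hD0
  have h4 : v.Gt (4 : K) 0 := by
    have h2' : Ex v (2 : K) (v.v 2) := ⟨h.two_ne, rfl⟩
    have := h2'.mul h2'
    have e4 : (2 : K) * 2 = 4 := by norm_num
    rw [e4] at this
    exact this.gt (by linarith)
  have hX2 : Ex v (xc R ^ 2) (2 * ν) := by simpa using hX.pow 2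
  -- all three terms of `E` have valuation `> 2ν`
  have t1 : v.Gt (4 * xc R ^ 2) (2 * ν) := by
    have := h4.mul_ge hX2.ge
    rwa [zero_add] at this
  have t2 : v.Gt (W.b₂ * xc R) (2 * ν) := by
    have := h.exb₂.mul hX
    exact this.gt (by linarith)
  have t3 : v.Gt (4 * c) (2 * ν) := by
    have := h4.mul_ge h.exc.ge
    exact this.mono (by linarith [h.N_pos])
  have hE : v.Gt (4 * xc R ^ 2 + W.b₂ * xc R + 4 * c) (2 * ν) := (t1.add t2).add t3
  have hEv : 2 * ν < v.v (4 * xc R ^ 2 + W.b₂ * xc R + 4 * c) := hE.lt_v hE0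
  have hnum : Ex v (xc R ^ 2 - c) (2 * ν) := hX2.sub_gt (h.exc.gt (by linarith [h.N_pos]))
  have hnum2 : Ex v ((xc R ^ 2 - c) ^ 2) (2 * (2 * ν)) := by simpa using hnum.pow 2
  rw [← hd] at hnum2
  have hX20 : xc ((2 : ℕ) • R) ≠ 0 := left_ne_zero_of_mul hnum2.1
  refine ⟨hX20, ?_⟩
  have hv := hnum2.2
  rw [v.v_mul _ _ hX20 hD0, v.v_mul _ _ hx hE0, hX.2] at hv
  linarith

/-- (2.1), iterated. -/
theorem pow_two_ker (h : NodeSetup W v c N) (h2 : 0 < v.v (2 : K)) {R : W.Point} (hR : R ≠ 0)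
    (hx : xc R ≠ 0) (hneg : v.v (xc R) < 0) (k : ℕ) :
    (2 ^ (k + 1)) • R = 0 ∨ ((2 ^ (k + 1)) • R ≠ 0 ∧ xc ((2 ^ (k + 1)) • R) ≠ 0 ∧
      v.v (xc ((2 ^ (k + 1)) • R)) < v.v (xc R)) := by
  induction k with
  | zero =>
    simpa using dup_ker h h2 hR hx hneg
  | succ k ih =>
    have e : (2 ^ (k + 1 + 1)) • R = (2 : ℕ) • ((2 ^ (k + 1)) • R) := by
      rw [← mul_nsmul, pow_succ, mul_comm]
    rw [e]
    rcases ih with ih | ⟨i1, i2, i3⟩
    · left
      rw [ih, smul_zero]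
    · rcases dup_ker h h2 i1 i2 (lt_trans i3 hneg) with d | ⟨d1, d2, d3⟩
      · exact Or.inl d
      · exact Or.inr ⟨d1, d2, lt_trans d3 i3⟩

/-- (2.1): a nonzero point of odd prime order is not in the kernel of reduction. -/
theorem not_ker_of_torsion (h : NodeSetup W v c N) (h2 : 0 < v.v (2 : K)) {p : ℕ} (hp : p.Prime)
    (hp2 : p ≠ 2) {R : W.Point} (hR : R ≠ 0) (hpR : p • R = 0) (hx : xc R ≠ 0) :
    0 ≤ v.v (xc R) := by
  by_contra hneg
  push Not at hneg
  have hp3 : 3 ≤ p := by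
    have := hp.two_le
    omega
  have hcop : Nat.Coprime 2 p := by
    rw [Nat.coprime_primes Nat.prime_two hp]
    exact fun h => hp2 h.symm
  have hmod : 2 ^ (p - 1) ≡ 1 [MOD p] := by
    have := Nat.ModEq.pow_totient hcop
    rwa [Nat.totient_prime hp] at this
  have hdvd : p ∣ 2 ^ (p - 1) - 1 :=
    (Nat.modEq_iff_dvd' (Nat.one_le_two_pow)).1 hmod.symm
  obtain ⟨t, ht⟩ := hdvd
  have hpow : 2 ^ (p - 1) = 1 + p * t := by
    have : 1 ≤ 2 ^ (p - 1) := Nat.one_le_two_pow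
    omega
  have hfix : (2 ^ (p - 1)) • R = R := by
    rw [hpow, add_nsmul, one_nsmul, mul_nsmul, hpR, smul_zero, add_zero]
  have hk : p - 1 = (p - 2) + 1 := by omega
  rcases pow_two_ker h h2 hR hx hneg (p - 2) with h0 | ⟨-, -, h3⟩
  · rw [← hk, hfix] at h0
    exact hR h0
  · rw [← hk, hfix] at h3
    exact lt_irrefl _ h3

end kernel

section node

variable [DecidableEq K]

/-- (2.3): a point at the node or near it doubles into `{v(x) ≤ 0}`. -/
theorem near_node (h : NodeSetup W v c N) {R : W.Point} (hR : R ≠ 0)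
    (hx : xc R = 0 ∨ N ≤ v.v (xc R)) :
    (2 : ℕ) • R = 0 ∨ ((2 : ℕ) • R ≠ 0 ∧ xc ((2 : ℕ) • R) ≠ 0 ∧
      v.v (xc ((2 : ℕ) • R)) ≤ 0) := by
  by_cases hψ : psi2 R = 0
  · left
    exact (two_nsmul_eq_zero_iff R).2 (Or.inr hψ)
  right
  obtain ⟨h1, hd⟩ := dup_formula h hR hψ
  refine ⟨h1, ?_⟩
  have hD0 : xc R * (4 * xc R ^ 2 + W.b₂ * xc R + 4 * c) ≠ 0 := by
    rw [← psi2_sq_node h hR]
    exact pow_ne_zero 2 hψ
  have hx0 : xc R ≠ 0 := left_ne_zero_of_mul hD0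
  have hE0 : 4 * xc R ^ 2 + W.b₂ * xc R + 4 * c ≠ 0 := right_ne_zero_of_mul hD0
  have hξ : N ≤ v.v (xc R) := hx.resolve_left hx0
  have hX : Ex v (xc R) (v.v (xc R)) := ⟨hx0, rfl⟩
  generalize v.v (xc R) = ξ at hX hξ
  have hN := h.N_pos
  have hX2 : Ex v (xc R ^ 2) (2 * ξ) := by simpa using hX.pow 2
  have t1 : v.Ge (4 * xc R ^ 2) N := by
    have := h.ge_four.mul hX2.ge
    exact this.mono (by linarith)
  have t2 : v.Ge (W.b₂ * xc R) N := by
    have := (h.exb₂.mul hX).ge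
    exact this.mono (by linarith)
  have t3 : v.Ge (4 * c) N := by
    have := h.ge_four.mul h.exc.ge
    exact this.mono (by linarith)
  have hE : v.Ge (4 * xc R ^ 2 + W.b₂ * xc R + 4 * c) N := (t1.add t2).add t3
  have hEv : N ≤ v.v (4 * xc R ^ 2 + W.b₂ * xc R + 4 * c) := hE.le_v hE0
  have hnum : Ex v (xc R ^ 2 - c) N := h.exc.gt_sub (hX2.gt (by linarith))
  have hnum2 : Ex v ((xc R ^ 2 - c) ^ 2) (2 * N) := by simpa using hnum.pow 2
  rw [← hd] at hnum2
  have hX20 : xc ((2 : ℕ) • R) ≠ 0 := left_ne_zero_of_mul hnum2.1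
  refine ⟨hX20, ?_⟩
  have hv := hnum2.2
  rw [v.v_mul _ _ hX20 hD0, v.v_mul _ _ hx0 hE0, hX.2] at hv
  linarith

/-- (2.4): two points with unit, congruent, distinct x-coordinates: their sum or their
difference lies in the kernel of reduction. -/
theorem ker_of_close (h : NodeSetup W v c N) {R R' : W.Point} (hR : R ≠ 0) (hR' : R' ≠ 0)
    (hx : Ex v (xc R) 0) (hne : xc R' ≠ xc R) (hclose : 0 < v.v (xc R' - xc R)) :
    R' + R ≠ 0 ∧ R' - R ≠ 0 ∧ xc (R' + R) ≠ 0 ∧ xc (R' - R) ≠ 0 ∧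
      (v.v (xc (R' + R)) < 0 ∨ v.v (xc (R' - R)) < 0) := by
  have hd0 : xc R' - xc R ≠ 0 := sub_ne_zero.2 hne
  have hΔ : Ex v (xc R' - xc R) (v.v (xc R' - xc R)) := ⟨hd0, rfl⟩
  generalize v.v (xc R' - xc R) = δ at hΔ hclose
  have hx' : Ex v (xc R') 0 := by
    have := hx.add_gt (hΔ.gt hclose)
    rwa [add_sub_cancel] at this
  have hprod := prod_formula h hR' hR hne
  have h12 : Ex v (xc R' * xc R) 0 := by
    have := hx'.mul hx
    rwa [add_zero] at this
  have hnum : Ex v (xc R' * xc R - c) 0 := h12.sub_gt (h.exc.gt h.N_pos)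
  have hnum2 : Ex v ((xc R' * xc R - c) ^ 2) 0 := by simpa using hnum.pow 2
  have hΔ2 : Ex v ((xc R' - xc R) ^ 2) (2 * δ) := by simpa using hΔ.pow 2
  rw [← hprod] at hnum2
  have hPi := hnum2.of_mul_left hΔ2
  have hp0 : xc (R' + R) ≠ 0 := left_ne_zero_of_mul hPi.1
  have hm0 : xc (R' - R) ≠ 0 := right_ne_zero_of_mul hPi.1
  refine ⟨add_ne_zero_of_xc_ne hR' hR hne, sub_ne_zero_of_xc_ne hR' hR hne, hp0, hm0, ?_⟩
  have hv := hPi.2
  rw [v.v_mul _ _ hp0 hm0] at hv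
  by_contra hcon
  push Not at hcon
  linarith [hcon.1, hcon.2]

/-- `{v(x) = 0}` is closed under addition, up to the kernel: the sum of two points with unit
x-coordinates has `v(x) ≤ 0`. -/
theorem E0_add (h : NodeSetup W v c N) (h2 : 0 < v.v (2 : K)) {S S' : W.Point} (hS : S ≠ 0)
    (hS' : S' ≠ 0) (hx : Ex v (xc S) 0) (hx' : Ex v (xc S') 0) (hne : S + S' ≠ 0) :
    xc (S + S') ≠ 0 ∧ v.v (xc (S + S')) ≤ 0 := by
  have h2' : Ex v (2 : K) (v.v 2) := ⟨h.two_ne, rfl⟩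
  have g2 : v.Gt (2 : K) 0 := h2'.gt h2
  have g4 : v.Gt (4 : K) 0 := by
    have := h2'.mul h2'
    have e4 : (2 : K) * 2 = 4 := by norm_num
    rw [e4] at this
    exact this.gt (by linarith)
  have gc : v.Gt c 0 := h.exc.gt h.N_pos
  by_cases hxx : xc S = xc S'
  · -- duplication
    rcases eq_or_eq_neg_of_xc_eq hS hS' hxx with rfl | rfl
    · have hψ : psi2 S ≠ 0 := by
        intro hψ
        exact hne ((add_self_eq_zero_iff S).2 (Or.inr hψ))
      obtain ⟨-, hd⟩ := dup_formula h hS hψ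
      rw [two_nsmul] at hd
      have hX2 : Ex v (xc S ^ 2) 0 := by simpa using hx.pow 2
      have t1 : v.Gt (4 * xc S ^ 2) 0 := by
        have := g4.mul_ge hX2.ge
        rwa [zero_add] at this
      have t2 : Ex v (W.b₂ * xc S) 0 := by
        have := h.exb₂.mul hx
        rwa [zero_add] at this
      have t3 : v.Gt (4 * c) 0 := by
        have := g4.mul_ge gc.ge
        rwa [zero_add] at this
      have hE : Ex v (4 * xc S ^ 2 + W.b₂ * xc S + 4 * c) 0 := (t2.gt_add t1).add_gt t3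
      have hD : Ex v (xc S * (4 * xc S ^ 2 + W.b₂ * xc S + 4 * c)) 0 := by
        have := hx.mul hE
        rwa [add_zero] at this
      have hnum : Ex v (xc S ^ 2 - c) 0 := hX2.sub_gt gc
      have hnum2 : Ex v ((xc S ^ 2 - c) ^ 2) 0 := by simpa using hnum.pow 2
      rw [← hd] at hnum2
      have := hnum2.of_mul_left hD
      exact ⟨this.1, by rw [this.2]; norm_num⟩
    · exact absurd (neg_add_cancel S') hne
  · have hd0 : xc S - xc S' ≠ 0 := sub_ne_zero.2 hxx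
    have hΔ : Ex v (xc S - xc S') (v.v (xc S - xc S')) := ⟨hd0, rfl⟩
    have hδ : 0 ≤ v.v (xc S - xc S') := (hx.ge.sub hx'.ge).le_v hd0
    generalize v.v (xc S - xc S') = δ at hΔ hδ
    have hΔ2 : Ex v ((xc S - xc S') ^ 2) (2 * δ) := by simpa using hΔ.pow 2
    have h12 : Ex v (xc S * xc S') 0 := by
      have := hx.mul hx'
      rwa [add_zero] at this
    -- product
    have hprod := prod_formula h hS hS' hxx
    have hnum : Ex v (xc S * xc S' - c) 0 := h12.sub_gt gc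
    have hnum2 : Ex v ((xc S * xc S' - c) ^ 2) 0 := by simpa using hnum.pow 2
    rw [← hprod] at hnum2
    have hPi := hnum2.of_mul_left hΔ2
    have hp0 : xc (S + S') ≠ 0 := left_ne_zero_of_mul hPi.1
    have hm0 : xc (S - S') ≠ 0 := right_ne_zero_of_mul hPi.1
    have hvPi := hPi.2
    rw [v.v_mul _ _ hp0 hm0] at hvPi
    -- sum
    have hsum := sum_formula h hS hS' hxx
    have s1 : v.Gt (2 * (xc S + xc S')) 0 := by
      have := g2.mul_ge (hx.ge.add hx'.ge)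
      rwa [zero_add] at this
    have s2 : Ex v (W.b₂ + 2 * (xc S + xc S')) 0 := h.exb₂.add_gt s1
    have s3 : Ex v (xc S * xc S' * (W.b₂ + 2 * (xc S + xc S'))) 0 := by
      have := h12.mul s2
      rwa [add_zero] at this
    have s4 : v.Gt (2 * c * (xc S + xc S')) 0 := by
      have := (g2.mul_ge gc.ge).mul_ge (hx.ge.add hx'.ge)
      simpa using this
    have s5 : Ex v (xc S * xc S' * (W.b₂ + 2 * (xc S + xc S')) + 2 * c * (xc S + xc S')) 0 :=
      s3.add_gt s4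
    rw [← hsum] at s5
    have hSig := s5.of_mul_left hΔ2
    refine ⟨hp0, ?_⟩
    by_contra hpos
    push Not at hpos
    -- then `v(X₋) < v(X₊)` and the sum has the valuation of `X₋`
    have hlt : v.v (xc (S - S')) < v.v (xc (S + S')) := by linarith
    have := (v.v_add_of_gt hp0 hm0 hlt).2
    rw [hSig.2] at this
    linarith

/-- all nonzero multiples of a `p`-torsion point with unit x-coordinate have unit
x-coordinate. -/
theorem E0_nsmul (h : NodeSetup W v c N) (h2 : 0 < v.v (2 : K)) {p : ℕ} (hp : p.Prime)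
    (hp2 : p ≠ 2) {S : W.Point} (hS : S ≠ 0) (hpS : p • S = 0) (hx : Ex v (xc S) 0) (k : ℕ)
    (hk : k • S ≠ 0) : Ex v (xc (k • S)) 0 := by
  induction k with
  | zero => simp at hk
  | succ k ih =>
    by_cases hk0 : k • S = 0
    · rw [succ_nsmul, hk0, zero_add]
      exact hx
    · have ih' := ih hk0
      have hne : k • S + S ≠ 0 := by rwa [succ_nsmul] at hk
      obtain ⟨h1, h3⟩ := E0_add h h2 hk0 hS ih' hx hne
      rw [succ_nsmul]
      have hp' : p • (k • S + S) = 0 := by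
        rw [smul_add, smul_comm, hpS, smul_zero, zero_add]
      have h4 := not_ker_of_torsion h h2 hp hp2 hne hp' h1
      exact ⟨h1, le_antisymm h3 h4⟩

end node

end Fermat.Agent.S13_Node
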