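-- Project R (S13), block L2, Frey-at-2 instantiation: arithmetic of the Frey package at the prime 2
-- (a odd, b even, v₂(a₄) = p v₂(b) - 4 ≥ 1, b₂ odd), the NodeSetup of the Frey curve over ℚ̄ for a
-- rational valued valuation extending the 2-adic one, and the arithmetic fact behind (L2b).
import Fermat.Agent.S05
import Fermat.Agent.S13_Node

set_option autoImplicit false
open WeierstrassCurve WeierstrassCurve.Affine WeierstrassCurve.Affine.Point
open FreyPackage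

namespace Fermat.Agent.S13_Frey2

open Fermat.Agent.S05_RatVal Fermat.Agent.S05 Fermat.Agent.S13_Node

/-! ### Arithmetic of the Frey package at `2` -/

theorem two_dvd_b (P : FreyPackage) : (2 : ℤ) ∣ P.b :=
  (ZMod.intCast_zmod_eq_zero_iff_dvd P.b 2).1 P.hb2

theorem a_mod_four (P : FreyPackage) : P.a % 4 = 3 := by
  have h : (P.a : ZMod 4) = ((3 : ℤ) : ZMod 4) := by
    rw [P.ha4]; rfl
  have h2 := (ZMod.intCast_eq_intCast_iff P.a 3 4).1 h
  have h3 : P.a % 4 = 3 % 4 := h2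
  omega

theorem not_two_dvd_a (P : FreyPackage) : ¬ (2 : ℤ) ∣ P.a := by
  have := a_mod_four P
  omega

theorem not_two_dvd_a_pow (P : FreyPackage) : ¬ (2 : ℤ) ∣ P.a ^ P.p := fun h =>
  not_two_dvd_a P (Int.prime_two.dvd_of_dvd_pow h)

theorem two_dvd_b_pow (P : FreyPackage) : (2 : ℤ) ∣ P.b ^ P.p :=
  dvd_pow (two_dvd_b P) P.hp0

/-- the `2`-adic valuation of `b` -/
noncomputable def vb (P : FreyPackage) : ℕ := padicValInt 2 P.b

theorem one_le_vb (P : FreyPackage) : 1 ≤ vb P := by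
  have : Fact (Nat.Prime 2) := ⟨Nat.prime_two⟩
  have h : ((2 : ℕ) : ℤ) ∣ P.b := by exact_mod_cast two_dvd_b P
  have := (padicValInt_dvd_iff (p := 2) 1 P.b).1 (by simpa using h)
  rcases this with h0 | h1
  · exact absurd h0 P.hb0
  · exact h1

/-- the coefficient `c = a₄` of the Frey curve, over `ℚ` -/
noncomputable def cQ (P : FreyPackage) : ℚ := -((P.a : ℚ) ^ P.p * (P.b : ℚ) ^ P.p) / 16

/-- `N = v₂(a₄) = p v₂(b) - 4` -/
noncomputable def N2 (P : FreyPackage) : ℚ := (P.p : ℚ) * (vb P : ℚ) - 4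

theorem cQ_ne_zero (P : FreyPackage) : cQ P ≠ 0 := by
  have ha0 : (P.a : ℚ) ≠ 0 := by exact_mod_cast P.ha0
  have hb0 : (P.b : ℚ) ≠ 0 := by exact_mod_cast P.hb0
  exact div_ne_zero (neg_ne_zero.2 (mul_ne_zero (pow_ne_zero _ ha0) (pow_ne_zero _ hb0)))
    (by norm_num)

theorem one_le_N2 (P : FreyPackage) : 1 ≤ N2 P := by
  have h1 : (1 : ℚ) ≤ (vb P : ℚ) := by exact_mod_cast one_le_vb P
  have h2 : (5 : ℚ) ≤ (P.p : ℚ) := by exact_mod_cast P.hp5
  unfold N2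
  nlinarith

theorem N2_pos (P : FreyPackage) : 0 < N2 P := lt_of_lt_of_le one_pos (one_le_N2 P)

theorem padicValRat_two_cQ (P : FreyPackage) : (padicValRat 2 (cQ P) : ℚ) = N2 P := by
  have : Fact (Nat.Prime 2) := ⟨Nat.prime_two⟩
  have ha0 : (P.a : ℚ) ≠ 0 := by exact_mod_cast P.ha0
  have hb0 : (P.b : ℚ) ≠ 0 := by exact_mod_cast P.hb0
  have h16 : padicValRat 2 (16 : ℚ) = 4 := by
    have h : (16 : ℚ) = ((2 : ℕ) : ℚ) ^ 4 := by norm_num
    rw [h, padicValRat.pow, padicValRat.self (by norm_num)]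
    norm_num
  have hva : padicValRat 2 (P.a : ℚ) = 0 := by
    rw [padicValRat.of_int, padicValInt.eq_zero_of_not_dvd (by exact_mod_cast not_two_dvd_a P)]
    rfl
  have hvb : padicValRat 2 (P.b : ℚ) = (vb P : ℤ) := by
    rw [padicValRat.of_int]; rfl
  unfold cQ N2
  rw [padicValRat.div (neg_ne_zero.2 (mul_ne_zero (pow_ne_zero _ ha0) (pow_ne_zero _ hb0)))
    (by norm_num), padicValRat.neg, padicValRat.mul (pow_ne_zero _ ha0) (pow_ne_zero _ hb0),
    padicValRat.pow, padicValRat.pow, hva, hvb, h16]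
  push_cast
  ring

theorem frey_a₄ (P : FreyPackage) : P.freyCurve.a₄ = cQ P := by
  simp only [FreyPackage.freyCurve, cQ]
  ring

theorem frey_b₄_eq (P : FreyPackage) : P.freyCurve.b₄ = 2 * cQ P := by
  simp only [WeierstrassCurve.b₄, FreyPackage.freyCurve, cQ]
  ring

theorem frey_b₈_eq (P : FreyPackage) : P.freyCurve.b₈ = -(cQ P) ^ 2 := by
  simp only [WeierstrassCurve.b₈, FreyPackage.freyCurve, cQ]
  ring

theorem frey_b₂_ne_zero (P : FreyPackage) : P.freyCurve.b₂ ≠ 0 := by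
  rw [frey_b₂]
  intro h
  have h2 : P.b ^ P.p - P.a ^ P.p = 0 := by exact_mod_cast h
  have h3 : (2 : ℤ) ∣ P.a ^ P.p := by
    have := two_dvd_b_pow P
    have h4 : P.a ^ P.p = P.b ^ P.p := by omega
    rwa [h4]
  exact not_two_dvd_a_pow P h3

theorem padicValRat_two_b₂ (P : FreyPackage) : padicValRat 2 P.freyCurve.b₂ = 0 := by
  have : Fact (Nat.Prime 2) := ⟨Nat.prime_two⟩
  rw [frey_b₂]
  have h : (P.b : ℚ) ^ P.p - (P.a : ℚ) ^ P.p = ((P.b ^ P.p - P.a ^ P.p : ℤ) : ℚ) := by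
    push_cast; ring
  rw [h, padicValRat.of_int, padicValInt.eq_zero_of_not_dvd]
  · rfl
  · intro h2
    have h3 : ((2 : ℕ) : ℤ) ∣ P.b ^ P.p := by exact_mod_cast two_dvd_b_pow P
    have h4 : ((2 : ℕ) : ℤ) ∣ P.a ^ P.p := by
      have := dvd_sub h3 h2
      simpa using this
    exact not_two_dvd_a_pow P (by exact_mod_cast h4)

/-- the arithmetic fact behind (L2b): a rational point cannot sit strictly inside the tent -/
theorem no_int_tent (P : FreyPackage) {ξ z : ℤ}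
    (h : (P.p : ℚ) * (ξ : ℚ) = 2 * (z : ℚ) * N2 P) (hpos : 0 < ξ) (hlt : (ξ : ℚ) < N2 P) :
    False := by
  have hp := P.pp
  have h5 := P.hp5
  obtain ⟨n, hn⟩ : ∃ n : ℤ, n = (vb P : ℤ) := ⟨_, rfl⟩
  have hN : N2 P = (((P.p : ℤ) * n - 4 : ℤ) : ℚ) := by
    unfold N2; rw [hn]; push_cast; ring
  rw [hN] at h hlt
  have h' : (P.p : ℤ) * ξ = 2 * z * ((P.p : ℤ) * n - 4) := by exact_mod_cast h
  have hlt' : ξ < (P.p : ℤ) * n - 4 := by exact_mod_cast hlt
  -- `p ∣ 8 z`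
  have hd : (P.p : ℤ) ∣ 8 * z := by
    refine ⟨2 * z * n - ξ, ?_⟩
    linear_combination h'
  have hpi : Prime (P.p : ℤ) := Nat.prime_iff_prime_int.1 hp
  have hz : (P.p : ℤ) ∣ z := by
    rcases hpi.dvd_or_dvd hd with h8 | hz
    · exfalso
      have h8' : P.p ∣ 8 := by exact_mod_cast h8
      have h2 : P.p ∣ 2 ^ 3 := by norm_num; exact h8'
      have h3 := (Nat.prime_dvd_prime_iff_eq hp Nat.prime_two).1 (hp.dvd_of_dvd_pow h2)
      omega
    · exact hz
  obtain ⟨z', rfl⟩ := hz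
  have hp0 : (P.p : ℤ) ≠ 0 := by exact_mod_cast P.hp0
  have h2 : ξ = 2 * z' * ((P.p : ℤ) * n - 4) := by
    apply mul_left_cancel₀ hp0
    rw [h']; ring
  have hNpos : 0 < (P.p : ℤ) * n - 4 := lt_trans hpos hlt'
  have hz' : 0 < z' := by
    by_contra hneg
    push Not at hneg
    have : 2 * z' * ((P.p : ℤ) * n - 4) ≤ 0 := by nlinarith
    omega
  nlinarith

/-! ### The Frey curve over `ℚ̄` at a valuation over `2` -/

section inst

variable (P : FreyPackage) (v : RatVal (AlgebraicClosure ℚ))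
  (hvrat : ∀ r : ℚ, r ≠ 0 → v.v (algebraMap ℚ (AlgebraicClosure ℚ) r) = padicValRat 2 r)

include hvrat

theorem v_two_eq_one : v.v (2 : AlgebraicClosure ℚ) = 1 := by
  have h2 : (2 : AlgebraicClosure ℚ) = algebraMap ℚ (AlgebraicClosure ℚ) ((2 : ℕ) : ℚ) := by
    simp
  rw [h2, hvrat _ (by norm_num), padicValRat.self (by norm_num)]
  norm_num

theorem v_two_pos : 0 < v.v (2 : AlgebraicClosure ℚ) := by
  rw [v_two_eq_one v hvrat]; exact one_pos

/-- The Frey curve has a node at `x = 0` over `2`, in `b`-form. -/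
theorem nodeSetup :
    NodeSetup (P.freyCurve⁄(AlgebraicClosure ℚ)) v
      (algebraMap ℚ (AlgebraicClosure ℚ) (cQ P)) (N2 P) where
  hb₄ := by
    show (P.freyCurve.map (algebraMap ℚ (AlgebraicClosure ℚ))).b₄ = _
    rw [WeierstrassCurve.map_b₄, frey_b₄_eq]
    simp only [map_mul, map_ofNat]
  hb₆ := by
    show (P.freyCurve.map (algebraMap ℚ (AlgebraicClosure ℚ))).b₆ = _
    rw [WeierstrassCurve.map_b₆, frey_b₆, _root_.map_zero]
  hb₈ := by
    show (P.freyCurve.map (algebraMap ℚ (AlgebraicClosure ℚ))).b₈ = _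
    rw [WeierstrassCurve.map_b₈, frey_b₈_eq]
    simp only [map_neg, map_pow]
  c_ne := (map_ne_zero _).2 (cQ_ne_zero P)
  v_c := by rw [hvrat _ (cQ_ne_zero P), padicValRat_two_cQ]
  N_pos := N2_pos P
  b₂_ne := by
    show (P.freyCurve.map (algebraMap ℚ (AlgebraicClosure ℚ))).b₂ ≠ 0
    rw [WeierstrassCurve.map_b₂]
    exact (map_ne_zero _).2 (frey_b₂_ne_zero P)
  v_b₂ := by
    show v.v (P.freyCurve.map (algebraMap ℚ (AlgebraicClosure ℚ))).b₂ = 0
    rw [WeierstrassCurve.map_b₂, hvrat _ (frey_b₂_ne_zero P), padicValRat_two_b₂]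
    rfl
  two_ne := two_ne_zero
  v_two := (v_two_pos v hvrat).le

end inst

/-! ### Coefficients of the base change -/

theorem frey_a₁ (P : FreyPackage) : (P.freyCurve⁄(AlgebraicClosure ℚ)).a₁ = 1 := by
  show (P.freyCurve.map (algebraMap ℚ (AlgebraicClosure ℚ))).a₁ = 1
  simp [FreyPackage.freyCurve]

theorem frey_a₃ (P : FreyPackage) : (P.freyCurve⁄(AlgebraicClosure ℚ)).a₃ = 0 := by
  show (P.freyCurve.map (algebraMap ℚ (AlgebraicClosure ℚ))).a₃ = 0
  simp [FreyPackage.freyCurve]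

theorem frey_a₆ (P : FreyPackage) : (P.freyCurve⁄(AlgebraicClosure ℚ)).a₆ = 0 := by
  show (P.freyCurve.map (algebraMap ℚ (AlgebraicClosure ℚ))).a₆ = 0
  simp [FreyPackage.freyCurve]

theorem frey_a₄_bar (P : FreyPackage) :
    (P.freyCurve⁄(AlgebraicClosure ℚ)).a₄ = algebraMap ℚ (AlgebraicClosure ℚ) (cQ P) := by
  show (P.freyCurve.map (algebraMap ℚ (AlgebraicClosure ℚ))).a₄ = _
  rw [← frey_a₄]
  rfl

/-- `a₂` of the Frey curve is an integer -/
theorem frey_a₂_int (P : FreyPackage) :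
    ∃ m : ℤ, (P.freyCurve⁄(AlgebraicClosure ℚ)).a₂ = (m : AlgebraicClosure ℚ) := by
  have ha := a_mod_four P
  have hb : (4 : ℤ) ∣ P.b ^ P.p := by
    obtain ⟨k, hk⟩ := two_dvd_b P
    have h2 : 2 ≤ P.p := by have := P.hp5; omega
    obtain ⟨j, hj⟩ : ∃ j, P.p = 2 + j := ⟨P.p - 2, by omega⟩
    rw [hk, hj, mul_pow, pow_add]
    exact ⟨2 ^ j * k ^ (2 + j), by ring⟩
  have hap : P.a ^ P.p % 4 = 3 := by
    obtain ⟨j, hj⟩ := P.hp_odd
    have h1 : P.a ^ 2 % 4 = 1 := by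
      have : P.a ^ 2 = P.a * P.a := by ring
      rw [this, Int.mul_emod, ha]; rfl
    have h2 : ∀ n : ℕ, (P.a ^ 2) ^ n % 4 = 1 := by
      intro n
      induction n with
      | zero => simp
      | succ n ih => rw [pow_succ, Int.mul_emod, ih, h1]; rfl
    rw [hj, pow_succ, pow_mul, Int.mul_emod, h2 j, ha]; rfl
  have h4 : (4 : ℤ) ∣ P.b ^ P.p - 1 - P.a ^ P.p := by omega
  obtain ⟨m, hm⟩ := h4
  refine ⟨m, ?_⟩
  show (P.freyCurve.map (algebraMap ℚ (AlgebraicClosure ℚ))).a₂ = _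
  have h5 : P.freyCurve.a₂ = (m : ℚ) := by
    have h6 : ((P.b : ℚ) ^ P.p - 1 - (P.a : ℚ) ^ P.p) = 4 * (m : ℚ) := by exact_mod_cast hm
    simp only [FreyPackage.freyCurve]
    rw [h6]; ring
  show algebraMap ℚ (AlgebraicClosure ℚ) P.freyCurve.a₂ = _
  rw [h5]
  simp

end Fermat.Agent.S13_Frey2
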