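/-
Project R (S13), block L2 (abstract statements at the prime 2).
A Weierstrass curve `y² + xy = x³ + a₂x² + a₄x` defined over `ℚ`, over a valued field `K ⊇ ℚ`
with `0 < v 2`, `a₂` integral, `0 < v a₄ = N` (node at `(0,0)` in the reduction):
* `eigen_fixed` (L2a): an automorphism `σ` of `K/ℚ` preserving `v` and acting trivially on the
  residue field (inertia) fixes every point of odd prime order `p` which is an eigenvector;
* `no_rational_torsion` (L2b): there is no point of prime order `p ≥ 5` with rational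
  x-coordinate, provided `p ξ ≠ 2 z N` for integers `0 < ξ < N` (tent law as a hypothesis).
-/
import Mathlib
import Fermat.Agent.S13_Node

set_option autoImplicit false

namespace Fermat.Agent.S13_L2Abs

open WeierstrassCurve WeierstrassCurve.Affine
open Fermat.Agent.S05_RatVal Fermat.Agent.S05_Tent
open Fermat.Agent.S13_Defs Fermat.Agent.S13_AddSub Fermat.Agent.S13_Node

/-- The model at `2`: `a₁ = 1`, `a₃ = a₆ = 0`, `a₂` integral, `0 < v a₄ = N`, `0 < v 2`. -/
structure Node2 {K : Type*} [Field K] (W : WeierstrassCurve.Affine K) (v : RatVal K) (N : ℚ) :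
    Prop where
  ha₁ : W.a₁ = 1
  ha₃ : W.a₃ = 0
  ha₆ : W.a₆ = 0
  a₄_ne : W.a₄ ≠ 0
  v_a₄ : v.v W.a₄ = N
  N_pos : 0 < N
  a₂_int : v.Ge W.a₂ 0
  two_ne : (2 : K) ≠ 0
  v_two : 0 < v.v (2 : K)

section basic

variable {K : Type*} [Field K] {W : WeierstrassCurve.Affine K} {v : RatVal K} {N : ℚ}

theorem Node2.gt_two (h : Node2 W v N) : v.Gt (2 : K) 0 := Or.inr h.v_two

theorem Node2.gt_four (h : Node2 W v N) : v.Gt (4 : K) 0 := by
  have := h.gt_two.mul_ge h.gt_two.ge
  norm_num at this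
  exact this

theorem Node2.nodeSetup (h : Node2 W v N) : NodeSetup W v W.a₄ N where
  hb₄ := by simp only [WeierstrassCurve.b₄, h.ha₁, h.ha₃]; ring
  hb₆ := by simp only [WeierstrassCurve.b₆, h.ha₃, h.ha₆]; ring
  hb₈ := by simp only [WeierstrassCurve.b₈, h.ha₁, h.ha₃, h.ha₆]; ring
  c_ne := h.a₄_ne
  v_c := h.v_a₄
  N_pos := h.N_pos
  b₂_ne := by
    have h1 : Ex v (1 : K) 0 := ⟨one_ne_zero, v.v_one⟩
    have h2 : v.Gt (4 * W.a₂) 0 := by
      have := h.gt_four.mul_ge h.a₂_int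
      rwa [zero_add] at this
    have := h1.add_gt h2
    have e : W.b₂ = 1 + 4 * W.a₂ := by simp only [WeierstrassCurve.b₂, h.ha₁]; ring
    rw [e]
    exact this.1
  v_b₂ := by
    have h1 : Ex v (1 : K) 0 := ⟨one_ne_zero, v.v_one⟩
    have h2 : v.Gt (4 * W.a₂) 0 := by
      have := h.gt_four.mul_ge h.a₂_int
      rwa [zero_add] at this
    have := h1.add_gt h2
    have e : W.b₂ = 1 + 4 * W.a₂ := by simp only [WeierstrassCurve.b₂, h.ha₁]; ring
    rw [e]
    exact this.2
  two_ne := h.two_ne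
  v_two := h.v_two.le

/-- the Weierstrass equation of the model -/
theorem Node2.equation (h : Node2 W v N) {x y : K} (hxy : W.Equation x y) :
    y ^ 2 + x * y = x ^ 3 + W.a₂ * x ^ 2 + W.a₄ * x := by
  rw [equation_iff, h.ha₁, h.ha₃, h.ha₆] at hxy
  linear_combination hxy

/-- an element `t` with `t² + u t` integral, `u` integral, is integral -/
theorem ge_zero_of_sq_add (t u s : K) (hu : v.Ge u 0) (hs : v.Ge s 0) (h : t ^ 2 + u * t = s) :
    v.Ge t 0 := by
  by_contra hcon
  have ht0 : t ≠ 0 := fun h0 => hcon (Or.inl h0)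
  have hneg : v.v t < 0 := by
    by_contra h1
    push Not at h1
    exact hcon (Or.inr h1)
  have ht : Ex v t (v.v t) := ⟨ht0, rfl⟩
  generalize v.v t = τ at ht hneg
  have ht2 : Ex v (t ^ 2) (2 * τ) := by simpa using ht.pow 2
  have hut : v.Gt (u * t) (2 * τ) := by
    have := hu.mul ht.ge
    exact this.gt_of_lt (by linarith)
  have hsum := ht2.add_gt hut
  rw [h] at hsum
  have := hs.le_v hsum.1
  rw [hsum.2] at this
  linarith

end basic

section torsion

variable {K : Type*} [Field K] [DecidableEq K] {W : WeierstrassCurve.Affine K}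

theorem eq_zero_of_two_nsmul {p : ℕ} (hp : p.Prime) (hp2 : p ≠ 2) {S : W.Point}
    (h2 : (2 : ℕ) • S = 0) (hpS : p • S = 0) : S = 0 := by
  obtain ⟨k, rfl⟩ := hp.odd_of_ne_two hp2
  rw [add_nsmul, mul_nsmul, one_nsmul, h2, smul_zero, zero_add] at hpS
  exact hpS

theorem eq_zero_of_three_nsmul {p : ℕ} (hp : p.Prime) (hp5 : 5 ≤ p) {S : W.Point}
    (h3 : (3 : ℕ) • S = 0) (hpS : p • S = 0) : S = 0 := by
  have hcop : Nat.Coprime 3 p := by
    rw [Nat.coprime_primes Nat.prime_three hp]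
    omega
  have h1 : (Nat.gcd 3 p : ℤ) = 3 * Nat.gcdA 3 p + p * Nat.gcdB 3 p := Nat.gcd_eq_gcd_ab 3 p
  rw [hcop] at h1
  have h3' : ((3 : ℕ) : ℤ) • S = 0 := by rw [natCast_zsmul]; exact h3
  have hp' : ((p : ℕ) : ℤ) • S = 0 := by rw [natCast_zsmul]; exact hpS
  have : ((1 : ℕ) : ℤ) • S = 0 := by
    rw [h1, add_zsmul, mul_comm, mul_zsmul]
    push_cast at h3' ⊢
    rw [h3', smul_zero, zero_add, mul_comm, mul_zsmul, hp', smul_zero]
  simpa using this

variable {v : RatVal K} {N : ℚ}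

/-- a nonzero point of odd prime order has nonzero x-coordinate (the node is 2-torsion) -/
theorem xc_ne_zero_of_torsion (h : Node2 W v N) {p : ℕ} (hp : p.Prime) (hp2 : p ≠ 2)
    {S : W.Point} (hS : S ≠ 0) (hpS : p • S = 0) : xc S ≠ 0 := by
  intro hx
  have h1 := psi2_sq_node h.nodeSetup hS
  rw [hx, zero_mul] at h1
  have hψ : psi2 S = 0 := by
    simpa using h1
  exact hS (eq_zero_of_two_nsmul hp hp2 ((two_nsmul_eq_zero_iff S).2 (Or.inr hψ)) hpS)

/-- nonzero points of odd prime order are integral -/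
theorem v_nonneg_of_torsion (h : Node2 W v N) {p : ℕ} (hp : p.Prime) (hp2 : p ≠ 2)
    {S : W.Point} (hS : S ≠ 0) (hpS : p • S = 0) : 0 ≤ v.v (xc S) :=
  not_ker_of_torsion h.nodeSetup h.v_two hp hp2 hS hpS (xc_ne_zero_of_torsion h hp hp2 hS hpS)

end torsion

section sigma

variable {K : Type*} [Field K] [DecidableEq K] [Algebra ℚ K]
variable (W' : WeierstrassCurve ℚ) (σ : K ≃ₐ[ℚ] K)

theorem map_ne_zero {R : (W'⁄K).Point} (hR : R ≠ 0) :
    Point.map (W' := W') σ.toAlgHom R ≠ 0 := by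
  rcases R with _ | ⟨x, y, h⟩
  · exact absurd rfl hR
  · rw [Point.map_some]
    exact Point.some_ne_zero _

theorem xc_map (R : (W'⁄K).Point) :
    xc (Point.map (W' := W') σ.toAlgHom R) = σ (xc R) := by
  rcases R with _ | ⟨x, y, h⟩
  · show (0 : K) = σ 0
    rw [map_zero]
  · rw [Point.map_some]
    rfl

theorem pmap_nsmul (n : ℕ) (R : (W'⁄K).Point) :
    Point.map (W' := W') σ.toAlgHom (n • R) = n • Point.map (W' := W') σ.toAlgHom R :=
  _root_.map_nsmul _ n R

end sigma

section main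

variable {K : Type*} [Field K] [DecidableEq K] [Algebra ℚ K]
variable {W' : WeierstrassCurve ℚ} {v : RatVal K} {N : ℚ}

/-- Lemma A: inertia fixes the points of odd prime order with unit x-coordinate. -/
theorem fixed_of_unit (h : Node2 (W'⁄K) v N) (σ : K ≃ₐ[ℚ] K)
    (hσsub : ∀ x : K, x ≠ 0 → 0 ≤ v.v x → v.Gt (σ x - x) 0) {p : ℕ} (hp : p.Prime)
    (hp2 : p ≠ 2) (S : (W'⁄K).Point) (hS : S ≠ 0) (hpS : p • S = 0)
    (hx : Ex v (xc S) 0) : Point.map (W' := W') σ.toAlgHom S = S := by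
  have hτS : Point.map (W' := W') σ.toAlgHom S ≠ 0 := map_ne_zero W' σ hS
  have hpτ : p • Point.map (W' := W') σ.toAlgHom S = 0 := by
    rw [← pmap_nsmul, hpS]; rfl
  have hxτ := xc_map W' σ S
  have hcl := hσsub (xc S) hx.1 hx.2.ge
  by_cases hxx : xc (Point.map (W' := W') σ.toAlgHom S) = xc S
  · rcases eq_or_eq_neg_of_xc_eq hτS hS hxx with h1 | h1
    · exact h1
    · exfalso
      obtain ⟨x, y, hxy, rfl⟩ := exists_eq_some hS
      rw [Point.map_some, Point.neg_some, Point.some.injEq] at h1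
      obtain ⟨h1x, h1y⟩ := h1
      simp only [xc_some] at hx
      have h1y' : σ y = -y - x := by
        have : (W'⁄K).negY x y = -y - x := by
          rw [negY, h.ha₁, h.ha₃]; ring
        rw [← this]; exact h1y
      have heq := h.equation hxy.1
      have hyint : v.Ge y 0 := by
        apply ge_zero_of_sq_add y x (x ^ 3 + (W'⁄K).a₂ * x ^ 2 + (W'⁄K).a₄ * x) hx.ge
        · have t1 : v.Ge (x ^ 3) 0 := by simpa using hx.ge.pow 3
          have t2 : v.Ge ((W'⁄K).a₂ * x ^ 2) 0 := by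
            have := h.a₂_int.mul (hx.ge.pow 2)
            simpa using this
          have t3 : v.Ge ((W'⁄K).a₄ * x) 0 := by
            have := (h.nodeSetup.exc.ge.mono h.N_pos.le).mul hx.ge
            simpa using this
          exact (t1.add t2).add t3
        · exact heq
      have hy0 : y ≠ 0 := by
        intro hy0
        rw [hy0, map_zero] at h1y'
        apply hx.1
        linear_combination h1y'
      have h2 := hσsub y hy0 (hyint.le_v hy0)
      rw [h1y'] at h2
      have h3 : v.Gt (2 * y) 0 := by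
        have := h.gt_two.mul_ge hyint
        rwa [zero_add] at this
      have h4 : v.Gt x 0 := by
        have := (h2.add h3).neg
        have e : -(-y - x - y + 2 * y) = x := by ring
        rwa [e] at this
      have := h4.lt_v hx.1
      rw [hx.2] at this
      exact lt_irrefl _ this
  · exfalso
    have hd0 : xc (Point.map (W' := W') σ.toAlgHom S) - xc S ≠ 0 := sub_ne_zero.2 hxx
    have hclose : 0 < v.v (xc (Point.map (W' := W') σ.toAlgHom S) - xc S) := by
      rw [hxτ] at hd0 ⊢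
      exact hcl.lt_v hd0
    obtain ⟨a1, a2, a3, a4, a5⟩ := ker_of_close h.nodeSetup hS hτS hx hxx hclose
    have hp1 : p • (Point.map (W' := W') σ.toAlgHom S + S) = 0 := by
      rw [smul_add, hpτ, hpS, add_zero]
    have hp2' : p • (Point.map (W' := W') σ.toAlgHom S - S) = 0 := by
      rw [smul_sub, hpτ, hpS, sub_zero]
    have b1 := v_nonneg_of_torsion h hp hp2 a1 hp1
    have b2 := v_nonneg_of_torsion h hp hp2 a2 hp2'
    rcases a5 with a5 | a5 <;> linarith

/-- **(L2a)**: inertia fixes every eigen-point of odd prime order. -/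
theorem eigen_fixed (h : Node2 (W'⁄K) v N) (σ : K ≃ₐ[ℚ] K) (hσv : ∀ x : K, v.v (σ x) = v.v x)
    (hσsub : ∀ x : K, x ≠ 0 → 0 ≤ v.v x → v.Gt (σ x - x) 0) {p : ℕ} (hp : p.Prime)
    (hp2 : p ≠ 2) (R : (W'⁄K).Point) (hR : R ≠ 0) (hpR : p • R = 0) (c : ℕ)
    (hc : Point.map (W' := W') σ.toAlgHom R = c • R) :
    Point.map (W' := W') σ.toAlgHom R = R := by
  have hτR : Point.map (W' := W') σ.toAlgHom R ≠ 0 := map_ne_zero W' σ hR
  have hpτ : p • Point.map (W' := W') σ.toAlgHom R = 0 := by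
    rw [← pmap_nsmul, hpR]; rfl
  have hxτ := xc_map W' σ R
  have hx0 := xc_ne_zero_of_torsion h hp hp2 hR hpR
  have hξ0 := v_nonneg_of_torsion h hp hp2 hR hpR
  have hX : Ex v (xc R) (v.v (xc R)) := ⟨hx0, rfl⟩
  have hXτ : Ex v (xc (Point.map (W' := W') σ.toAlgHom R)) (v.v (xc R)) := by
    rw [hxτ]
    exact ⟨(_root_.map_ne_zero σ).2 hx0, hσv _⟩
  generalize v.v (xc R) = ξ at hX hXτ hξ0
  rcases eq_or_lt_of_le hξ0 with hξ | hξ
  · -- unit x-coordinate
    exact fixed_of_unit h σ hσsub hp hp2 R hR hpR (hξ ▸ hX)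
  rcases lt_or_ge ξ N with hlt | hge
  · -- `0 < ξ < N`
    by_cases hxx : xc (Point.map (W' := W') σ.toAlgHom R) = xc R
    · rcases eq_or_eq_neg_of_xc_eq hτR hR hxx with h1 | h1
      · exact h1
      · exfalso
        obtain ⟨x, y, hxy, rfl⟩ := exists_eq_some hR
        rw [Point.map_some, Point.neg_some, Point.some.injEq] at h1
        obtain ⟨h1x, h1y⟩ := h1
        simp only [xc_some] at hX hx0
        have h1y' : σ y = -y - x := by
          have : (W'⁄K).negY x y = -y - x := by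
            rw [negY, h.ha₁, h.ha₃]; ring
          rw [← this]; exact h1y
        have heq := h.equation hxy.1
        -- `w = y / x` is integral
        have hw : (y / x) ^ 2 + 1 * (y / x) = x + (W'⁄K).a₂ + (W'⁄K).a₄ / x := by
          field_simp
          linear_combination heq
        have ha4x : v.Gt ((W'⁄K).a₄ / x) 0 := by
          right
          rw [v.v_div h.a₄_ne hx0, h.v_a₄, hX.2]
          linarith
        have hwint : v.Ge (y / x) 0 := by
          apply ge_zero_of_sq_add (y / x) 1 _ (Or.inr v.v_one.ge) _ hw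
          exact ((hX.gt hξ).ge.add h.a₂_int).add ha4x.ge
        have h1x' : σ x = x := h1x
        have hσw : σ (y / x) = -(y / x) - 1 := by
          rw [map_div₀, h1x', h1y']
          field_simp
        have hw0 : y / x ≠ 0 := by
          intro hw0
          rw [hw0, map_zero] at hσw
          norm_num at hσw
        have h2 := hσsub (y / x) hw0 (hwint.le_v hw0)
        rw [hσw] at h2
        have h3 : v.Gt (2 * (y / x)) 0 := by
          have := h.gt_two.mul_ge hwint
          rwa [zero_add] at this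
        have h4 : v.Gt (1 : K) 0 := by
          have := (h2.add h3).neg
          have e : -(-(y / x) - 1 - y / x + 2 * (y / x)) = 1 := by ring
          rwa [e] at this
        have := h4.lt_v one_ne_zero
        rw [v.v_one] at this
        exact lt_irrefl _ this
    · exfalso
      -- the sum formula
      have hsum := sum_formula h.nodeSetup hτR hR hxx
      have hd0 : xc (Point.map (W' := W') σ.toAlgHom R) - xc R ≠ 0 := sub_ne_zero.2 hxx
      have hΔ : Ex v (xc (Point.map (W' := W') σ.toAlgHom R) - xc R)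
          (v.v (xc (Point.map (W' := W') σ.toAlgHom R) - xc R)) := ⟨hd0, rfl⟩
      have hδ : ξ ≤ v.v (xc (Point.map (W' := W') σ.toAlgHom R) - xc R) :=
        (hXτ.ge.sub hX.ge).le_v hd0
      generalize v.v (xc (Point.map (W' := W') σ.toAlgHom R) - xc R) = δ at hΔ hδ
      have hΔ2 : Ex v ((xc (Point.map (W' := W') σ.toAlgHom R) - xc R) ^ 2) (2 * δ) := by
        simpa using hΔ.pow 2
      have s0 : v.Gt (xc (Point.map (W' := W') σ.toAlgHom R) + xc R) 0 :=
        (hXτ.gt hξ).add (hX.gt hξ)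
      have s1 : v.Gt (2 * (xc (Point.map (W' := W') σ.toAlgHom R) + xc R)) 0 := by
        have := h.gt_two.ge.mul_gt s0
        rwa [zero_add] at this
      have s2 : Ex v ((W'⁄K).b₂ + 2 * (xc (Point.map (W' := W') σ.toAlgHom R) + xc R)) 0 :=
        h.nodeSetup.exb₂.add_gt s1
      have s3 : Ex v (xc (Point.map (W' := W') σ.toAlgHom R) * xc R *
          ((W'⁄K).b₂ + 2 * (xc (Point.map (W' := W') σ.toAlgHom R) + xc R))) (2 * ξ) := by
        have := (hXτ.mul hX).mul s2
        convert this using 1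
        ring
      have s4 : v.Gt (2 * (W'⁄K).a₄ * (xc (Point.map (W' := W') σ.toAlgHom R) + xc R))
          (2 * ξ) := by
        have := (h.gt_two.ge.mul h.nodeSetup.exc.ge).mul (hXτ.ge.add hX.ge)
        exact this.gt_of_lt (by linarith)
      have s5 := s3.add_gt s4
      rw [← hsum] at s5
      have hSig := s5.of_mul_left hΔ2
      -- both `R' ± R` are nonzero `p`-torsion points, hence integral
      have a1 : Point.map (W' := W') σ.toAlgHom R + R ≠ 0 := add_ne_zero_of_xc_ne hτR hR hxx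
      have a2 : Point.map (W' := W') σ.toAlgHom R - R ≠ 0 := sub_ne_zero_of_xc_ne hτR hR hxx
      have hp1 : p • (Point.map (W' := W') σ.toAlgHom R + R) = 0 := by
        rw [smul_add, hpτ, hpR, add_zero]
      have hp2' : p • (Point.map (W' := W') σ.toAlgHom R - R) = 0 := by
        rw [smul_sub, hpτ, hpR, sub_zero]
      have x1 := xc_ne_zero_of_torsion h hp hp2 a1 hp1
      have x2 := xc_ne_zero_of_torsion h hp hp2 a2 hp2'
      have b1 := v_nonneg_of_torsion h hp hp2 a1 hp1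
      have b2 := v_nonneg_of_torsion h hp hp2 a2 hp2'
      -- one of them has a unit x-coordinate
      have hone : ∃ S : (W'⁄K).Point, S ≠ 0 ∧ Ex v (xc S) 0 ∧
          ∃ m : ℤ, S = m • R := by
        have hmin := v.v_add _ _ x1 x2 hSig.1
        rw [hSig.2] at hmin
        have hc' : Point.map (W' := W') σ.toAlgHom R = (c : ℤ) • R := by
          rw [hc, natCast_zsmul]
        rcases min_le_iff.1 hmin with hm | hm
        · refine ⟨_, a1, ⟨x1, le_antisymm (by linarith) b1⟩, (c : ℤ) + 1, ?_⟩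
          rw [add_zsmul, one_zsmul, ← hc']
        · refine ⟨_, a2, ⟨x2, le_antisymm (by linarith) b2⟩, (c : ℤ) - 1, ?_⟩
          rw [sub_zsmul, one_zsmul, ← hc', sub_eq_add_neg]
      obtain ⟨S, hS0, hSx, m, rfl⟩ := hone
      -- `R` is a multiple of `S`
      have : Fact p.Prime := ⟨hp⟩
      have hpz : ((p : ℕ) : ℤ) • R = 0 := by rw [natCast_zsmul]; exact hpR
      have hm0 : ((m : ℤ) : ZMod p) ≠ 0 := by
        intro hm0
        rw [ZMod.intCast_zmod_eq_zero_iff_dvd] at hm0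
        obtain ⟨t, rfl⟩ := hm0
        apply hS0
        rw [mul_comm, mul_zsmul, hpz, smul_zero]
      set d : ℕ := (((m : ℤ) : ZMod p)⁻¹).val with hd
      have hdm : (((d : ℤ) * m : ℤ) : ZMod p) = 1 := by
        push_cast
        rw [hd, ZMod.natCast_zmod_val, inv_mul_cancel₀ hm0]
      have hdvd : (p : ℤ) ∣ (d : ℤ) * m - 1 := by
        rw [← ZMod.intCast_zmod_eq_zero_iff_dvd]
        push_cast at hdm ⊢
        rw [hdm, sub_self]
      obtain ⟨t, ht⟩ := hdvd
      have hdS : d • (m • R) = R := by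
        rw [← natCast_zsmul, ← mul_zsmul, show (d : ℤ) * m = 1 + p * t by linarith, add_zsmul,
          one_zsmul, mul_comm, mul_zsmul, hpz, smul_zero, add_zero]
      have hpS : p • (m • R) = 0 := by
        rw [smul_comm, hpR, smul_zero]
      have := E0_nsmul h.nodeSetup h.v_two hp hp2 hS0 hpS hSx d (by rw [hdS]; exact hR)
      rw [hdS] at this
      have := this.2
      rw [hX.2] at this
      linarith
  · -- `N ≤ ξ`: pass to `2 • R`
    rcases near_node h.nodeSetup hR (Or.inr (hX.2.symm ▸ hge)) with h0 | ⟨n1, n2, n3⟩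
    · exact absurd (eq_zero_of_two_nsmul hp hp2 h0 hpR) hR
    · have hp2R : p • ((2 : ℕ) • R) = 0 := by rw [smul_comm, hpR, smul_zero]
      have n4 := v_nonneg_of_torsion h hp hp2 n1 hp2R
      have hfix := fixed_of_unit h σ hσsub hp hp2 _ n1 hp2R ⟨n2, le_antisymm n3 n4⟩
      rw [pmap_nsmul] at hfix
      have h2 : (2 : ℕ) • (Point.map (W' := W') σ.toAlgHom R - R) = 0 := by
        rw [smul_sub, hfix, sub_self]
      have hp' : p • (Point.map (W' := W') σ.toAlgHom R - R) = 0 := by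
        rw [smul_sub, hpτ, hpR, sub_zero]
      exact sub_eq_zero.1 (eq_zero_of_two_nsmul hp hp2 h2 hp')

/-- rational elements of `K` -/
def IsRat (x : K) : Prop := ∃ r : ℚ, x = algebraMap ℚ K r

omit [DecidableEq K] in
/-- the x-coordinate of the double of a point with rational x-coordinate is rational -/
theorem isRat_xc_two_nsmul_aux (x X2 b c : K) (hx : IsRat x) (hb : IsRat b) (hc : IsRat c)
    (hD : x * (4 * x ^ 2 + b * x + 4 * c) ≠ 0)
    (hd : X2 * (x * (4 * x ^ 2 + b * x + 4 * c)) = (x ^ 2 - c) ^ 2) : IsRat X2 := by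
  obtain ⟨r, rfl⟩ := hx
  obtain ⟨s, rfl⟩ := hb
  obtain ⟨t, rfl⟩ := hc
  refine ⟨(r ^ 2 - t) ^ 2 / (r * (4 * r ^ 2 + s * r + 4 * t)), ?_⟩
  rw [eq_div_iff_mul_eq hD |>.2 hd]
  simp only [map_div₀, map_pow, map_sub, map_mul, map_add, map_ofNat]

/-- Lemma C: no point of prime order `p ≥ 5` has a rational unit x-coordinate. -/
theorem no_rational_unit (h : Node2 (W'⁄K) v N)
    (hunit : ∀ r s : ℚ, r ≠ 0 → s ≠ 0 → r ≠ s → v.v (algebraMap ℚ K r) = 0 →
      v.v (algebraMap ℚ K s) = 0 → 0 < v.v (algebraMap ℚ K (r - s)))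
    {p : ℕ} (hp : p.Prime) (hp5 : 5 ≤ p) (S : (W'⁄K).Point) (hS : S ≠ 0) (hpS : p • S = 0)
    (hx : Ex v (xc S) 0) (hrat : IsRat (xc S)) : False := by
  have hp2 : p ≠ 2 := by omega
  have h2S : (2 : ℕ) • S ≠ 0 := fun h0 => hS (eq_zero_of_two_nsmul hp hp2 h0 hpS)
  have hψ : psi2 S ≠ 0 := by
    intro hψ
    exact h2S ((two_nsmul_eq_zero_iff S).2 (Or.inr hψ))
  have hx2 := E0_nsmul h.nodeSetup h.v_two hp hp2 hS hpS hx 2 h2S
  obtain ⟨-, hd⟩ := dup_formula h.nodeSetup hS hψ
  have hD0 : xc S * (4 * xc S ^ 2 + (W'⁄K).b₂ * xc S + 4 * (W'⁄K).a₄) ≠ 0 := by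
    rw [← psi2_sq_node h.nodeSetup hS]
    exact pow_ne_zero 2 hψ
  have hb : IsRat ((W'⁄K).b₂) := ⟨W'.b₂, (WeierstrassCurve.map_b₂ W' (algebraMap ℚ K))⟩
  have hc : IsRat ((W'⁄K).a₄) := ⟨W'.a₄, rfl⟩
  have hrat2 : IsRat (xc ((2 : ℕ) • S)) := isRat_xc_two_nsmul_aux _ _ _ _ hrat hb hc hD0 hd
  obtain ⟨r, hr⟩ := hrat
  obtain ⟨s, hs⟩ := hrat2
  by_cases hxx : xc ((2 : ℕ) • S) = xc S
  · rcases eq_or_eq_neg_of_xc_eq h2S hS hxx with h1 | h1
    · apply hS
      have : (2 : ℕ) • S - S = 0 := sub_eq_zero.2 h1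
      rwa [two_nsmul, add_sub_cancel_right] at this
    · apply hS
      apply eq_zero_of_three_nsmul hp hp5 _ hpS
      have : (2 : ℕ) • S + S = 0 := by rw [h1, neg_add_cancel]
      rw [← this, succ_nsmul]
  · have hsr : s ≠ r := by
      intro hsr
      apply hxx
      rw [hs, hr, hsr]
    have hclose : 0 < v.v (xc ((2 : ℕ) • S) - xc S) := by
      rw [hs, hr, ← map_sub]
      have hs0 : s ≠ 0 := by
        rintro rfl
        apply hx2.1
        rw [hs, map_zero]
      have hr0 : r ≠ 0 := by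
        rintro rfl
        apply hx.1
        rw [hr, map_zero]
      apply hunit s r hs0 hr0 hsr
      · rw [← hs]; exact hx2.2
      · rw [← hr]; exact hx.2
    obtain ⟨a1, a2, a3, a4, a5⟩ := ker_of_close h.nodeSetup hS h2S hx hxx hclose
    have e2 : (2 : ℕ) • S - S = S := by rw [two_nsmul, add_sub_cancel_right]
    rcases a5 with a5 | a5
    · have hp3 : p • ((2 : ℕ) • S + S) = 0 := by
        rw [smul_add, smul_comm, hpS, smul_zero, add_zero]
      have := v_nonneg_of_torsion h hp hp2 a1 hp3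
      linarith
    · rw [e2, hx.2] at a5
      exact lt_irrefl _ a5

/-- **(L2b)**: there is no point of prime order `p ≥ 5` with rational x-coordinate, given the
tent law for `p`-torsion points and the arithmetic of `N`. -/
theorem no_rational_torsion (h : Node2 (W'⁄K) v N)
    (hvrat : ∀ r : ℚ, r ≠ 0 → ∃ n : ℤ, v.v (algebraMap ℚ K r) = n)
    (hunit : ∀ r s : ℚ, r ≠ 0 → s ≠ 0 → r ≠ s → v.v (algebraMap ℚ K r) = 0 →
      v.v (algebraMap ℚ K s) = 0 → 0 < v.v (algebraMap ℚ K (r - s)))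
    {p : ℕ} (hp : p.Prime) (hp5 : 5 ≤ p)
    (htent : ∀ R : (W'⁄K).Point, R ≠ 0 → xc R ≠ 0 → 0 < v.v (xc R) → v.v (xc R) < N →
      p • R = 0 → ∃ z : ℤ, (p : ℚ) * v.v (xc R) = 2 * z * N)
    (hNp : ∀ ξ z : ℤ, 0 < (ξ : ℚ) → (ξ : ℚ) < N → (p : ℚ) * ξ ≠ 2 * z * N)
    (R : (W'⁄K).Point) (hR : R ≠ 0) (hpR : p • R = 0) (hrat : IsRat (xc R)) : False := by
  have hp2 : p ≠ 2 := by omega
  have hx0 := xc_ne_zero_of_torsion h hp hp2 hR hpR
  have hξ0 := v_nonneg_of_torsion h hp hp2 hR hpR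
  rcases eq_or_lt_of_le hξ0 with hξ | hξ
  · exact no_rational_unit h hunit hp hp5 R hR hpR ⟨hx0, hξ.symm⟩ hrat
  rcases lt_or_ge (v.v (xc R)) N with hlt | hge
  · obtain ⟨z, hz⟩ := htent R hR hx0 hξ hlt hpR
    obtain ⟨r, hr⟩ := hrat
    have hr0 : r ≠ 0 := by
      rintro rfl
      apply hx0
      rw [hr, map_zero]
    obtain ⟨n, hn⟩ := hvrat r hr0
    rw [hr, hn] at hz hξ hlt
    exact hNp n z hξ hlt hz
  · rcases near_node h.nodeSetup hR (Or.inr hge) with h0 | ⟨n1, n2, n3⟩
    · exact hR (eq_zero_of_two_nsmul hp hp2 h0 hpR)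
    · have hp2R : p • ((2 : ℕ) • R) = 0 := by rw [smul_comm, hpR, smul_zero]
      have n4 := v_nonneg_of_torsion h hp hp2 n1 hp2R
      have hψ : psi2 R ≠ 0 := by
        intro hψ
        exact n1 ((two_nsmul_eq_zero_iff R).2 (Or.inr hψ))
      obtain ⟨-, hd⟩ := dup_formula h.nodeSetup hR hψ
      have hD0 : xc R * (4 * xc R ^ 2 + (W'⁄K).b₂ * xc R + 4 * (W'⁄K).a₄) ≠ 0 := by
        rw [← psi2_sq_node h.nodeSetup hR]
        exact pow_ne_zero 2 hψ
      have hb : IsRat ((W'⁄K).b₂) := ⟨W'.b₂, (WeierstrassCurve.map_b₂ W' (algebraMap ℚ K))⟩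
      have hc : IsRat ((W'⁄K).a₄) := ⟨W'.a₄, rfl⟩
      have hrat2 : IsRat (xc ((2 : ℕ) • R)) := isRat_xc_two_nsmul_aux _ _ _ _ hrat hb hc hD0 hd
      exact no_rational_unit h hunit hp hp5 _ n1 hp2R ⟨n2, le_antisymm n3 n4⟩ hrat2

end main

end Fermat.Agent.S13_L2Abs
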