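/-
Project R (S13), block L2, final export (L2a): for the Frey curve, an element of an inertia
group at `2` which maps a point `R` of order `p` to a multiple of `R` fixes `R`.
-/
import Mathlib
import Fermat.Prelude.Def_FLTPrelim_Ramification
import Fermat.Agent.S05_Val
import Fermat.Agent.S13_L2Abs
import Fermat.Agent.S13_Frey2

set_option autoImplicit false

namespace Fermat.Agent.S13_L2

open WeierstrassCurve WeierstrassCurve.Affine WeierstrassCurve.Affine.Point
open Fermat.Agent.S05_RatVal Fermat.Agent.S05_Tent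
open Fermat.Agent.S13_Defs Fermat.Agent.S13_Node Fermat.Agent.S13_L2Abs Fermat.Agent.S13_Frey2

/-- The Frey curve over `ℚ̄` is a `Node2` model for every rational-valued valuation extending
the `2`-adic valuation and nonnegative on the integers. -/
theorem node2 (P : FreyPackage) (v : RatVal (AlgebraicClosure ℚ))
    (hvrat : ∀ r : ℚ, r ≠ 0 → v.v (algebraMap ℚ (AlgebraicClosure ℚ) r) = padicValRat 2 r)
    (hvint : ∀ n : ℤ, n ≠ 0 → 0 ≤ v.v (n : AlgebraicClosure ℚ)) :
    Node2 (P.freyCurve⁄(AlgebraicClosure ℚ)) v (N2 P) where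
  ha₁ := frey_a₁ P
  ha₃ := frey_a₃ P
  ha₆ := frey_a₆ P
  a₄_ne := by
    rw [frey_a₄_bar]
    exact (_root_.map_ne_zero _).2 (cQ_ne_zero P)
  v_a₄ := by
    rw [frey_a₄_bar, hvrat _ (cQ_ne_zero P)]
    exact padicValRat_two_cQ P
  N_pos := N2_pos P
  a₂_int := by
    obtain ⟨m, hm⟩ := frey_a₂_int P
    rw [hm]
    by_cases hm0 : m = 0
    · left; rw [hm0]; simp
    · right; exact hvint m hm0
  two_ne := two_ne_zero
  v_two := v_two_pos v hvrat

/-- **(L2a)** for the Frey curve. -/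
theorem inertia_two_eigen (P : FreyPackage) (A : ValuationSubring (AlgebraicClosure ℚ))
    (hA : A.LiesOverPrime 2)
    (σ : AlgebraicClosure ℚ ≃ₐ[ℚ] AlgebraicClosure ℚ) (hσ : σ ∈ A.inertiaSubgroupIn ℚ)
    (R : (P.freyCurve⁄(AlgebraicClosure ℚ)).Point) (hR : R ≠ 0) (hpR : P.p • R = 0)
    (c : ℕ) (hc : σ • R = c • R) : σ • R = R := by
  obtain ⟨v, hvint, -, hvrat, hσv, hσsub⟩ := S05_Val.exists_ratVal A Nat.prime_two hA σ hσ
  have hvrat' : ∀ r : ℚ, r ≠ 0 →
      v.v (algebraMap ℚ (AlgebraicClosure ℚ) r) = padicValRat 2 r := hvrat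
  have h := node2 P v hvrat' hvint
  have hp2 : P.p ≠ 2 := by
    have := P.hp5
    omega
  exact eigen_fixed h σ hσv hσsub P.pp hp2 R hR hpR c hc

end Fermat.Agent.S13_L2
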