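import Mathlib
import Fermat.Prelude.Def_EllipticCurve_FrobeniusTrace
import Fermat.Prelude.Def_FLTPrelim_Ramification

set_option autoImplicit false

namespace Fermat.Agent.S54_Frob

open Polynomial
open scoped Pointwise

theorem isIntegral_coeff_mul_root {R S : Type*} [CommRing R] [CommRing S] [Algebra R S] (x : S)
    (n : ℕ) (p : S[X]) (hdeg : p.natDegree ≤ n + 1) (hint : ∀ i, IsIntegral R (p.coeff i))
    (hroot : p.IsRoot x) : IsIntegral R (p.coeff (n + 1) * x) := by
  by_cases ha : p.coeff (n + 1) = 0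
  · rw [ha, zero_mul]; exact isIntegral_zero
  have hnat : p.natDegree = n + 1 := le_antisymm hdeg (le_natDegree_of_ne_zero ha)
  have hlift : p ∈ lifts (algebraMap (integralClosure R S) S) := by
    rw [lifts_iff_coeff_lifts]
    intro i
    exact ⟨⟨p.coeff i, hint i⟩, rfl⟩
  rw [mem_lifts] at hlift
  obtain ⟨q, hq⟩ := hlift
  have hinj : Function.Injective (algebraMap (integralClosure R S) S) := Subtype.val_injective
  have hq0 : aeval x q = 0 := by
    rw [aeval_def, eval₂_eq_eval_map, hq]; exact hroot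
  have h1 := isIntegral_leadingCoeff_smul q x hq0
  have h2 : q.leadingCoeff • x = p.coeff (n + 1) * x := by
    rw [Algebra.smul_def, ← leadingCoeff_map_of_injective hinj, hq, leadingCoeff, hnat]
  rw [h2] at h1
  exact isIntegral_trans _ h1

theorem isIntegral_coeff_divByMonic_aux {R S : Type*} [CommRing R] [CommRing S] [Algebra R S]
    (x : S) : ∀ (n : ℕ) (p : S[X]), p.natDegree ≤ n → (∀ i, IsIntegral R (p.coeff i)) →
      p.IsRoot x → ∀ k, IsIntegral R ((p /ₘ (X - C x)).coeff k) := by
  intro n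
  induction n with
  | zero =>
    intro p hdeg hint hroot k
    have hp : p = C (p.coeff 0) := eq_C_of_natDegree_le_zero hdeg
    have h0 : p.coeff 0 = 0 := by
      have := hroot
      rw [hp, IsRoot, eval_C] at this
      exact this
    rw [hp, h0, C_0, zero_divByMonic, coeff_zero]
    exact isIntegral_zero
  | succ n ih =>
    intro p hdeg hint hroot k
    set a := p.coeff (n + 1) with ha
    have hax : IsIntegral R (a * x) := isIntegral_coeff_mul_root x n p hdeg hint hroot
    set p₁ : S[X] := p - (X - C x) * (C a * X ^ n) with hp₁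
    have hexp : (X - C x) * (C a * X ^ n) = C a * X ^ (n + 1) - C (a * x) * X ^ n := by
      rw [C_mul, pow_succ]; ring
    have hcoeff : ∀ i, p₁.coeff i = p.coeff i - ((if i = n + 1 then a else 0) -
        (if i = n then a * x else 0)) := by
      intro i
      rw [hp₁, hexp, coeff_sub, coeff_sub, coeff_C_mul_X_pow, coeff_C_mul_X_pow]
    have hdeg₁ : p₁.natDegree ≤ n := by
      rw [natDegree_le_iff_coeff_eq_zero]
      intro N hN
      rw [hcoeff]
      rcases Nat.lt_or_ge (n + 1) N with h | h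
      · rw [if_neg (by omega), if_neg (by omega), coeff_eq_zero_of_natDegree_lt (by omega)]
        simp
      · have hN' : N = n + 1 := by omega
        subst hN'
        rw [if_pos rfl, if_neg (by omega)]
        simp [ha]
    have hint₁ : ∀ i, IsIntegral R (p₁.coeff i) := by
      intro i
      rw [hcoeff]
      refine IsIntegral.sub (hint i) (IsIntegral.sub ?_ ?_)
      · split_ifs
        · exact hint _
        · exact isIntegral_zero
      · split_ifs
        · exact hax
        · exact isIntegral_zero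
    have hroot₁ : p₁.IsRoot x := by
      rw [IsRoot, hp₁, eval_sub, eval_mul, eval_sub, eval_X, eval_C, sub_self, zero_mul, sub_zero]
      exact hroot
    have hdiv : p /ₘ (X - C x) = p₁ /ₘ (X - C x) + C a * X ^ n := by
      have h1 : p = p₁ + (X - C x) * (C a * X ^ n) := by rw [hp₁]; ring
      have h2 : (X - C x) * (p₁ /ₘ (X - C x)) = p₁ := mul_divByMonic_eq_iff_isRoot.mpr hroot₁
      have h3 : p = (X - C x) * (p₁ /ₘ (X - C x) + C a * X ^ n) := by
        rw [mul_add, h2]; exact h1
      conv_lhs => rw [h3]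
      exact mul_divByMonic_cancel_left _ (monic_X_sub_C x)
    rw [hdiv, coeff_add, coeff_C_mul_X_pow]
    refine IsIntegral.add (ih p₁ hdeg₁ hint₁ hroot₁ k) ?_
    split_ifs
    · exact hint _
    · exact isIntegral_zero

section Denominators

variable {L : Type*} [Field L]

theorem mem_of_isIntegral_int (A : ValuationSubring L) {s : L} (hs : IsIntegral ℤ s) : s ∈ A := by
  have h : IsIntegral A s := hs.tower_top
  obtain ⟨y, rfl⟩ := IsIntegrallyClosed.algebraMap_eq_of_integral h
  exact y.2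

theorem mul_mem_nonunits (A : ValuationSubring L) {a b : L} (ha : a ∈ A) (hb : b ∈ A.nonunits) :
    a * b ∈ A.nonunits := by
  rw [A.mem_nonunits_iff] at hb ⊢
  rw [map_mul]
  have h1 : A.valuation a ≤ 1 := (A.valuation_le_one_iff a).mpr ha
  calc A.valuation a * A.valuation b ≤ 1 * A.valuation b := mul_le_mul_left h1 _
    _ = A.valuation b := one_mul _
    _ < 1 := hb

theorem one_notMem_nonunits (A : ValuationSubring L) : (1 : L) ∉ A.nonunits := by
  rw [A.mem_nonunits_iff, map_one]
  exact lt_irrefl _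

theorem inv_mem_of_notMem_nonunits (A : ValuationSubring L) {y : L} (hy : y ∉ A.nonunits) :
    y ≠ 0 ∧ y⁻¹ ∈ A := by
  rw [A.mem_nonunits_iff_or] at hy
  push Not at hy
  exact hy

theorem exists_denominator [CharZero L] (A : ValuationSubring L) {ℓ : ℕ} (hℓ : ℓ.Prime)
    (hA : (ℓ : L) ∈ A.nonunits) {x : L} (hxA : x ∈ A) (hx : IsAlgebraic ℤ x) :
    ∃ s : L, IsIntegral ℤ s ∧ s ∉ A.nonunits ∧ IsIntegral ℤ (x * s) := by
  obtain ⟨f, hf0, hfx⟩ := hx
  have hcont : f.content ≠ 0 := by rwa [Ne, content_eq_zero_iff]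
  have hprim : aeval x f.primPart = 0 := by
    have h1 : aeval x f = (algebraMap ℤ L f.content) * aeval x f.primPart := by
      conv_lhs => rw [f.eq_C_content_mul_primPart]
      rw [map_mul, aeval_C]
    rw [h1] at hfx
    rcases mul_eq_zero.mp hfx with h | h
    · exfalso
      apply hcont
      have : ((f.content : ℤ) : L) = 0 := by simpa using h
      exact_mod_cast this
    · exact h
  obtain ⟨j, hj⟩ : ∃ j, ¬ ((ℓ : ℤ) ∣ f.primPart.coeff j) := by
    by_contra hall
    push Not at hall
    have hu : IsUnit (ℓ : ℤ) := f.isPrimitive_primPart _ ((C_dvd_iff_dvd_coeff _ _).mpr hall)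
    rw [Int.isUnit_iff] at hu
    have := hℓ.one_lt
    omega
  set p : L[X] := f.primPart.map (algebraMap ℤ L) with hp
  have hroot : p.IsRoot x := by
    rw [IsRoot, hp, eval_map, ← aeval_def]; exact hprim
  have hpint : ∀ i, IsIntegral ℤ (p.coeff i) := fun i => by
    rw [hp, coeff_map]; exact isIntegral_algebraMap
  set g := p /ₘ (X - C x) with hg
  have hgint : ∀ k, IsIntegral ℤ (g.coeff k) :=
    isIntegral_coeff_divByMonic_aux x _ p le_rfl hpint hroot
  have hrec : ∀ k, g.coeff k = p.coeff (k + 1) + x * g.coeff (k + 1) :=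
    coeff_divByMonic_X_sub_C_rec p x
  have h0 : p.coeff 0 = - (x * g.coeff 0) := by
    have h2 : (X - C x) * g = p := mul_divByMonic_eq_iff_isRoot.mpr hroot
    rw [← h2, mul_coeff_zero, coeff_sub, coeff_X_zero, coeff_C_zero, zero_sub, neg_mul]
  have hxg : ∀ k, IsIntegral ℤ (x * g.coeff k) := by
    intro k
    cases k with
    | zero =>
      have : x * g.coeff 0 = - p.coeff 0 := by rw [h0, neg_neg]
      rw [this]; exact (hpint 0).neg
    | succ k =>
      have : x * g.coeff (k + 1) = g.coeff k - p.coeff (k + 1) := by rw [hrec k]; ring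
      rw [this]; exact (hgint k).sub (hpint _)
  by_contra hcon
  push Not at hcon
  have hgn : ∀ k, g.coeff k ∈ A.nonunits := fun k => by
    by_contra h
    exact hcon _ (hgint k) h (hxg k)
  have hpn : ∀ i, p.coeff i ∈ A.nonunits := by
    intro i
    cases i with
    | zero =>
      rw [h0]
      exact neg_mem (mul_mem_nonunits A hxA (hgn 0))
    | succ k =>
      have : p.coeff (k + 1) = g.coeff k - x * g.coeff (k + 1) := by rw [hrec k]; ring
      rw [this]
      exact sub_mem (hgn k) (mul_mem_nonunits A hxA (hgn _))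
  have hcop : IsCoprime (f.primPart.coeff j) (ℓ : ℤ) := by
    rw [isCoprime_comm]
    exact (Nat.prime_iff_prime_int.mp hℓ).coprime_iff_not_dvd.mpr hj
  obtain ⟨u, v, huv⟩ := hcop
  have h1 : (1 : L) = (u : L) * p.coeff j + (v : L) * (ℓ : L) := by
    rw [hp, coeff_map]
    have := congrArg (Int.cast : ℤ → L) huv
    push_cast at this
    rw [← this]
    simp
  have h2 : (1 : L) ∈ A.nonunits := by
    rw [h1]
    exact add_mem (mul_mem_nonunits A (mem_of_isIntegral_int A isIntegral_algebraMap) (hpn j))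
      (mul_mem_nonunits A (mem_of_isIntegral_int A isIntegral_algebraMap) hA)
  exact one_notMem_nonunits A h2

end Denominators

section Action

variable (L : Type*) [Field L] [Algebra ℚ L]

/-- The Galois group acts on the ring of algebraic integers. -/
@[reducible] noncomputable def galActInt : MulSemiringAction (L ≃ₐ[ℚ] L) (integralClosure ℤ L) where
  smul σ b := ⟨σ b.1, b.2.map σ⟩
  one_smul _ := Subtype.ext rfl
  mul_smul _ _ _ := Subtype.ext rfl
  smul_zero σ := Subtype.ext (map_zero σ)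
  smul_add σ _ _ := Subtype.ext (map_add σ _ _)
  smul_one σ := Subtype.ext (map_one σ)
  smul_mul σ _ _ := Subtype.ext (map_mul σ _ _)

attribute [local instance] galActInt

theorem galActInt_coe (σ : L ≃ₐ[ℚ] L) (b : integralClosure ℤ L) :
    ((σ • b : integralClosure ℤ L) : L) = σ (b : L) := rfl

theorem galActInt_smulComm : SMulCommClass (L ≃ₐ[ℚ] L) ℤ (integralClosure ℤ L) where
  smul_comm σ n b := Subtype.ext (by
    rw [galActInt_coe]
    change σ (n • (b : L)) = n • σ (b : L)
    exact map_zsmul σ n _)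

theorem galActInt_isInvariant [IsGalois ℚ L] :
    Algebra.IsInvariant ℤ (integralClosure ℤ L) (L ≃ₐ[ℚ] L) := by
  refine ⟨fun b hb => ?_⟩
  have hfix : ∀ σ : L ≃ₐ[ℚ] L, σ (b : L) = (b : L) := fun σ => congrArg Subtype.val (hb σ)
  obtain ⟨q, hq⟩ := (InfiniteGalois.mem_range_algebraMap_iff_fixed (b : L)).mpr hfix
  have hqi : IsIntegral ℤ q := by
    have h := b.2
    rw [← hq] at h
    exact (isIntegral_algebraMap_iff (algebraMap ℚ L).injective).mp h
  obtain ⟨n, hn⟩ := IsIntegrallyClosed.isIntegral_iff.mp hqi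
  refine ⟨n, Subtype.ext ?_⟩
  rw [← hq, ← hn]
  simp

theorem galActInt_continuousSMul [Algebra.IsIntegral ℚ L] :
    letI : TopologicalSpace (integralClosure ℤ L) := ⊥
    ContinuousSMul (L ≃ₐ[ℚ] L) (integralClosure ℤ L) := by
  letI : TopologicalSpace (integralClosure ℤ L) := ⊥
  haveI : DiscreteTopology (integralClosure ℤ L) := ⟨rfl⟩
  rw [continuousSMul_iff_stabilizer_isOpen]
  intro b
  convert stabilizer_isOpen_of_isIntegral (K := ℚ) (L := L) (b : L) using 1
  ext σ
  simp only [SetLike.mem_coe, MulAction.mem_stabilizer_iff]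
  constructor
  · intro h; exact congrArg Subtype.val h
  · intro h; exact Subtype.ext h

end Action
section Main

attribute [local instance] galActInt

/-- Existence of a valuation subring over a prime. -/
theorem exists_valuationSubring_liesOver (L : Type*) [Field L] [CharZero L] (ℓ : ℕ)
    (hℓ : ℓ.Prime) : ∃ A : ValuationSubring L, A.LiesOverPrime ℓ := by
  let A₀ : Subring L := (Int.castRingHom L).range
  let x₀ : A₀ := ⟨(ℓ : L), ⟨(ℓ : ℤ), by simp⟩⟩
  have hI : Ideal.span {x₀} ≠ ⊤ := by
    rw [Ne, Ideal.span_singleton_eq_top]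
    intro hu
    obtain ⟨y, hy⟩ := isUnit_iff_exists_inv.mp hu
    obtain ⟨y, ⟨m, rfl⟩⟩ := y
    have h1 : (ℓ : L) * (m : L) = 1 := congrArg Subtype.val hy
    have h2 : (ℓ : ℤ) * m = 1 := by
      have h : (((ℓ : ℤ) * m : ℤ) : L) = ((1 : ℤ) : L) := by
        rw [Int.cast_mul, Int.cast_natCast, Int.cast_one]; exact h1
      exact Int.cast_injective h
    have h3 : IsUnit (ℓ : ℤ) := IsUnit.of_mul_eq_one _ h2
    rw [Int.isUnit_iff] at h3
    have := hℓ.one_lt
    omega
  obtain ⟨A, -, hA⟩ := Ideal.image_subset_nonunits_valuationSubring _ hI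
  refine ⟨A, ?_⟩
  exact hA ⟨x₀, Ideal.subset_span rfl, rfl⟩

/-- The centre of a valuation subring on the ring of algebraic integers. -/
def centre {L : Type*} [Field L] (A : ValuationSubring L) : Ideal (integralClosure ℤ L) where
  carrier := {b | (b : L) ∈ A.nonunits}
  add_mem' := fun {a b} ha hb => by
    show (a : L) + (b : L) ∈ A.nonunits
    exact add_mem ha hb
  zero_mem' := by
    show (0 : L) ∈ A.nonunits
    exact zero_mem _
  smul_mem' := fun c _ hb => mul_mem_nonunits A (mem_of_isIntegral_int A c.2) hb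

theorem mem_centre {L : Type*} [Field L] (A : ValuationSubring L) (b : integralClosure ℤ L) :
    b ∈ centre A ↔ (b : L) ∈ A.nonunits := by
  rfl

theorem centre_isPrime {L : Type*} [Field L] (A : ValuationSubring L) : (centre A).IsPrime := by
  refine ⟨?_, ?_⟩
  · rw [Ideal.ne_top_iff_one]
    intro h
    exact one_notMem_nonunits A ((mem_centre A 1).mp h)
  · intro a b hab
    rw [mem_centre] at hab
    by_contra hcon
    push Not at hcon
    obtain ⟨ha, hb⟩ := hcon
    rw [mem_centre] at ha hb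
    obtain ⟨ha0, hai⟩ := inv_mem_of_notMem_nonunits A ha
    obtain ⟨hb0, hbi⟩ := inv_mem_of_notMem_nonunits A hb
    have h1 : (1 : L) ∈ A.nonunits := by
      have : (1 : L) = (a : L)⁻¹ * ((b : L)⁻¹ * ((a : L) * (b : L))) := by
        field_simp
      rw [this]
      exact mul_mem_nonunits A hai (mul_mem_nonunits A hbi hab)
    exact one_notMem_nonunits A h1

theorem centre_liesOver {L : Type*} [Field L] (A : ValuationSubring L) {ℓ : ℕ} (hℓ : ℓ.Prime)
    (hA : (ℓ : L) ∈ A.nonunits) : (centre A).LiesOver (Ideal.span {(ℓ : ℤ)}) := by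
  constructor
  have hmax : (Ideal.span {(ℓ : ℤ)}).IsMaximal :=
    PrincipalIdealRing.isMaximal_of_irreducible (Nat.prime_iff_prime_int.mp hℓ).irreducible
  refine hmax.eq_of_le ?_ ?_
  · rw [Ideal.ne_top_iff_one, Ideal.under, Ideal.mem_comap, map_one]
    intro h
    exact one_notMem_nonunits A ((mem_centre A 1).mp h)
  · rw [Ideal.span_le, Set.singleton_subset_iff]
    change algebraMap ℤ (integralClosure ℤ L) (ℓ : ℤ) ∈ centre A
    rw [mem_centre]
    have : ((algebraMap ℤ (integralClosure ℤ L) (ℓ : ℤ) : integralClosure ℤ L) : L) = (ℓ : L) := by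
      simp
    rw [this]
    exact hA

/-- The Frobenius automorphism of the residue ring of the ring of algebraic integers
at a prime ideal over a rational prime. -/
theorem exists_frobenius_algEquiv {L : Type*} [Field L] [IsAlgClosed L]
    (Q : Ideal (integralClosure ℤ L)) [Q.IsPrime] {ℓ : ℕ} (hℓ : ℓ.Prime)
    [Q.LiesOver (Ideal.span {(ℓ : ℤ)})] :
    ∃ e : (integralClosure ℤ L ⧸ Q) ≃ₐ[ℤ ⧸ Ideal.span {(ℓ : ℤ)}] (integralClosure ℤ L ⧸ Q),
      ∀ b : integralClosure ℤ L, e (Ideal.Quotient.mk Q b) = Ideal.Quotient.mk Q (b ^ ℓ) := by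
  haveI : Fact ℓ.Prime := ⟨hℓ⟩
  have hℓQ : ((ℓ : ℕ) : integralClosure ℤ L ⧸ Q) = 0 := by
    have h1 : (ℓ : ℤ) ∈ Q.under ℤ := by
      rw [← Ideal.LiesOver.over (P := Q) (p := Ideal.span {(ℓ : ℤ)})]
      exact Ideal.subset_span rfl
    rw [Ideal.under, Ideal.mem_comap] at h1
    have h2 := Ideal.Quotient.eq_zero_iff_mem.mpr h1
    simpa using h2
  haveI : CharP (integralClosure ℤ L ⧸ Q) ℓ := (CharP.charP_iff_prime_eq_zero hℓ).mpr hℓQ
  have hinj : Function.Injective (frobenius (integralClosure ℤ L ⧸ Q) ℓ) :=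
    frobenius_inj (integralClosure ℤ L ⧸ Q) ℓ
  have hsurj : Function.Surjective (frobenius (integralClosure ℤ L ⧸ Q) ℓ) := by
    intro y
    obtain ⟨b, rfl⟩ := Ideal.Quotient.mk_surjective y
    obtain ⟨c, hc⟩ := IsAlgClosed.exists_pow_nat_eq (b : L) hℓ.pos
    have hci : IsIntegral ℤ c := IsIntegral.of_pow hℓ.pos (by rw [hc]; exact b.2)
    refine ⟨Ideal.Quotient.mk Q ⟨c, hci⟩, ?_⟩
    rw [frobenius_def, ← map_pow]
    congr 1
    exact Subtype.ext hc
  let e₀ : (integralClosure ℤ L ⧸ Q) ≃+* (integralClosure ℤ L ⧸ Q) :=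
    RingEquiv.ofBijective (frobenius (integralClosure ℤ L ⧸ Q) ℓ) ⟨hinj, hsurj⟩
  refine ⟨AlgEquiv.ofRingEquiv (f := e₀) ?_, ?_⟩
  · intro r
    obtain ⟨n, rfl⟩ := Ideal.Quotient.mk_surjective r
    rw [Ideal.Quotient.algebraMap_mk_of_liesOver]
    have : (Ideal.Quotient.mk Q) (algebraMap ℤ (integralClosure ℤ L) n) =
        ((n : ℤ) : integralClosure ℤ L ⧸ Q) := by simp
    rw [this]
    exact map_intCast e₀ n
  · intro b
    show frobenius (integralClosure ℤ L ⧸ Q) ℓ (Ideal.Quotient.mk Q b) = _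
    rw [frobenius_def, map_pow]

/-- Existence of a Frobenius element over every rational prime, for an algebraic closure. -/
theorem exists_frobenius_gen (L : Type) [Field L] [Algebra ℚ L] [IsAlgClosed L]
    [Algebra.IsAlgebraic ℚ L] [IsGalois ℚ L] (ℓ : ℕ) (hℓ : ℓ.Prime) :
    ∃ (A : ValuationSubring L) (σ : L ≃ₐ[ℚ] L), A.LiesOverPrime ℓ ∧ A.IsFrobeniusAt σ ℓ := by
  haveI : CharZero L := algebraRat.charZero L
  obtain ⟨A, hA⟩ := exists_valuationSubring_liesOver L ℓ hℓ
  haveI hprime : (centre A).IsPrime := centre_isPrime A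
  haveI hover : (centre A).LiesOver (Ideal.span {(ℓ : ℤ)}) := centre_liesOver A hℓ hA
  obtain ⟨e, he⟩ := exists_frobenius_algEquiv (centre A) hℓ
  letI : TopologicalSpace (integralClosure ℤ L) := ⊥
  haveI : DiscreteTopology (integralClosure ℤ L) := ⟨rfl⟩
  haveI := galActInt_smulComm L
  haveI := galActInt_isInvariant L
  haveI : ContinuousSMul (L ≃ₐ[ℚ] L) (integralClosure ℤ L) := galActInt_continuousSMul L
  obtain ⟨⟨σ, hσQ⟩, hσ⟩ := Ideal.Quotient.stabilizerHom_surjective_of_profinite
    (G := L ≃ₐ[ℚ] L) (Ideal.span {(ℓ : ℤ)}) (centre A) e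
  have key : ∀ b : L, IsIntegral ℤ b → σ b - b ^ ℓ ∈ A.nonunits := by
    intro b hb
    have h1 := congrArg (fun f => f (Ideal.Quotient.mk (centre A) ⟨b, hb⟩)) hσ
    simp only [Ideal.Quotient.stabilizerHom_apply] at h1
    rw [he, Ideal.Quotient.eq] at h1
    exact (mem_centre A _).mp h1
  have hstab : ∀ b : L, IsIntegral ℤ b → (σ b ∈ A.nonunits ↔ b ∈ A.nonunits) := by
    intro b hb
    have h1 : σ • centre A = centre A := hσQ
    constructor
    · intro h
      have h2 : (σ • (⟨b, hb⟩ : integralClosure ℤ L)) ∈ σ • centre A := by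
        rw [h1]; exact (mem_centre A _).mpr h
      rw [Ideal.smul_mem_pointwise_smul_iff] at h2
      exact (mem_centre A _).mp h2
    · intro h
      have h2 : (σ • (⟨b, hb⟩ : integralClosure ℤ L)) ∈ σ • centre A :=
        Ideal.smul_mem_pointwise_smul _ _ _ ((mem_centre A _).mpr h)
      rw [h1] at h2
      exact (mem_centre A _).mp h2
  have halg : ∀ x : L, IsAlgebraic ℤ x := fun x =>
    (IsFractionRing.isAlgebraic_iff ℤ ℚ L).mpr (Algebra.IsAlgebraic.isAlgebraic x)
  have hσA : ∀ x ∈ A, σ x ∈ A := by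
    intro x hx
    obtain ⟨s, hs, hsn, hxs⟩ := exists_denominator A hℓ hA hx (halg x)
    have h1 : σ s ∉ A.nonunits := fun h => hsn ((hstab s hs).mp h)
    obtain ⟨h2, h3⟩ := inv_mem_of_notMem_nonunits A h1
    have h4 : σ x = σ (x * s) * (σ s)⁻¹ := by rw [map_mul]; field_simp
    rw [h4]
    exact A.mul_mem _ _ (mem_of_isIntegral_int A (hxs.map σ)) h3
  have hσA' : ∀ x ∈ A, σ.symm x ∈ A := by
    intro x hx
    obtain ⟨s, hs, hsn, hxs⟩ := exists_denominator A hℓ hA hx (halg x)
    have hs' : IsIntegral ℤ (σ.symm s) := hs.map σ.symm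
    have h1 : σ.symm s ∉ A.nonunits := fun h => hsn (by
      have := (hstab _ hs').mpr h
      simpa using this)
    obtain ⟨h2, h3⟩ := inv_mem_of_notMem_nonunits A h1
    have h4 : σ.symm x = σ.symm (x * s) * (σ.symm s)⁻¹ := by rw [map_mul]; field_simp
    rw [h4]
    exact A.mul_mem _ _ (mem_of_isIntegral_int A (hxs.map σ.symm)) h3
  have hdec : σ ∈ A.decompositionSubgroup ℚ := by
    rw [MulAction.mem_stabilizer_iff]
    ext x
    rw [ValuationSubring.mem_pointwise_smul_iff_inv_smul_mem]
    constructor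
    · intro h
      have := hσA _ h
      simpa using this
    · intro h
      exact hσA' x h
  refine ⟨A, σ, hA, hdec, ?_⟩
  intro y
  obtain ⟨a, rfl⟩ := IsLocalRing.residue_surjective y
  rw [← IsLocalRing.ResidueField.residue_smul, ← map_pow]
  rw [← sub_eq_zero, ← map_sub, IsLocalRing.residue_eq_zero_iff,
    ← ValuationSubring.coe_mem_nonunits_iff]
  show σ (a : L) - (a : L) ^ ℓ ∈ A.nonunits
  obtain ⟨s, hs, hsn, hxs⟩ := exists_denominator A hℓ hA a.2 (halg a)
  have h1 : σ s ∉ A.nonunits := fun h => hsn ((hstab s hs).mp h)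
  obtain ⟨h2, h3⟩ := inv_mem_of_notMem_nonunits A h1
  have h4 : σ (a : L) - (a : L) ^ ℓ =
      (σ s)⁻¹ * ((σ ((a : L) * s) - ((a : L) * s) ^ ℓ) - (a : L) ^ ℓ * (σ s - s ^ ℓ)) := by
    rw [map_mul]; field_simp; ring
  rw [h4]
  exact mul_mem_nonunits A h3
    (sub_mem (key _ hxs) (mul_mem_nonunits A (A.pow_mem a.2 ℓ) (key s hs)))

theorem isAlgebraicQbar : Algebra.IsAlgebraic ℚ (AlgebraicClosure ℚ) :=
  AlgebraicClosure.isAlgebraic ℚ

attribute [local instance] isAlgebraicQbar

theorem isAlgClosureQbar : IsAlgClosure ℚ (AlgebraicClosure ℚ) :=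
  ⟨inferInstance, inferInstance⟩

attribute [local instance] isAlgClosureQbar

/-- Existence of a Frobenius element over every rational prime in the absolute Galois group. -/
theorem exists_frobenius (ℓ : ℕ) (hℓ : ℓ.Prime) :
    ∃ (A : ValuationSubring (AlgebraicClosure ℚ))
      (σ : AlgebraicClosure ℚ ≃ₐ[ℚ] AlgebraicClosure ℚ),
      A.LiesOverPrime ℓ ∧ A.IsFrobeniusAt σ ℓ :=
  exists_frobenius_gen (AlgebraicClosure ℚ) ℓ hℓ

end Main

end Fermat.Agent.S54_Frob
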