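import Mathlib
import Fermat.Prelude.Def_FLTPrelim_Ramification
import Fermat.Agent.S54_Frob

/-!
# Minkowski's theorem for characters of the absolute Galois group of `ℚ`

* `exists_prime_nontrivial_inertia`: in a nontrivial finite Galois extension of `ℚ` some
  rational prime has nontrivial inertia groups (Minkowski + Hilbert theory, from Mathlib).
* `exists_mem_inertia_restrict`: inertia elements of a subfield lift to the inertia group of a
  valuation subring of the algebraic closure.
* `char_eq_one`: a character of `G_ℚ` with finite image field which is trivial on one inertia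
  group over each prime is trivial.
-/

set_option autoImplicit false

namespace Fermat.Agent.S13_Minkowski

open scoped Pointwise
open Fermat.Agent.S54_Frob

/-- Finite level: in a nontrivial finite Galois extension of `ℚ` some rational prime has a
nontrivial inertia group at every prime above it. -/
theorem exists_prime_nontrivial_inertia_aux (K : Type*) [Field K] [NumberField K] [IsGalois ℚ K]
    (H : 1 < Module.finrank ℚ K) :
    ∃ p : ℕ, p.Prime ∧ ∀ P : Ideal (integralClosure ℤ K), P.IsPrime →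
      (p : integralClosure ℤ K) ∈ P →
      ∃ τ : K ≃ₐ[ℚ] K, τ ≠ 1 ∧
        ∀ x y : integralClosure ℤ K, (y : K) = τ (x : K) - (x : K) → y ∈ P := by
  obtain ⟨p, hp, hram⟩ := NumberField.exists_not_isUnramifiedAt_int_of_isGalois
    (K := K) (𝒪 := integralClosure ℤ K) H
  refine ⟨p, hp, fun P hP hpP => ?_⟩
  have hunr := hram P hP hpP
  have := (IsIntegralClosure.algebraMap_injective (integralClosure ℤ K) ℤ K).isDomain
  have := IsIntegralClosure.isDedekindDomain ℤ ℚ K (integralClosure ℤ K)
  have := IsIntegralClosure.isFractionRing_of_finite_extension ℤ ℚ K (integralClosure ℤ K)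
  have := IsIntegralClosure.finite ℤ ℚ K (integralClosure ℤ K)
  have := CharZero.of_module (R := integralClosure ℤ K) K
  let _ : MulSemiringAction Gal(K/ℚ) (integralClosure ℤ K) :=
    IsIntegralClosure.MulSemiringAction ℤ ℚ K (integralClosure ℤ K)
  have := IsGaloisGroup.of_isFractionRing Gal(K/ℚ) ℤ (integralClosure ℤ K) ℚ K
  have hcard : Nat.card (Ideal.inertia Gal(K/ℚ) P) ≠ 1 := by
    rw [Ideal.card_inertia_eq_ramificationIdxIn (G := Gal(K/ℚ)) (P.under ℤ) P,
      Ideal.ramificationIdxIn_eq_ramificationIdx (P.under ℤ) P Gal(K/ℚ),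
      Ne, Ideal.ramificationIdx_eq_one_iff]
    exact hunr
  have hne : Ideal.inertia Gal(K/ℚ) P ≠ ⊥ := by
    intro h
    apply hcard
    rw [h]
    exact Subgroup.card_bot
  obtain ⟨⟨τ, hτ⟩, hτ1⟩ := (Subgroup.ne_bot_iff_exists_ne_one).mp hne
  refine ⟨τ, fun h => hτ1 (Subtype.ext h), fun x y hxy => ?_⟩
  have h1 : τ • x - x ∈ P := hτ x
  have h2 : y = τ • x - x := by
    apply Subtype.ext
    rw [hxy]
    have h3 : ((τ • x : integralClosure ℤ K) : K) = τ (x : K) :=
      algebraMap_galRestrict_apply ℤ τ x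
    rw [← h3]
    rfl
  rw [h2]
  exact h1

/-- The same statement for an arbitrary `ℚ`-algebra structure on the field. -/
theorem exists_prime_nontrivial_inertia (K : Type*) [Field K] [inst : Algebra ℚ K]
    [NumberField K] [IsGalois ℚ K] (H : 1 < Module.finrank ℚ K) :
    ∃ p : ℕ, p.Prime ∧ ∀ P : Ideal (integralClosure ℤ K), P.IsPrime →
      (p : integralClosure ℤ K) ∈ P →
      ∃ τ : K ≃ₐ[ℚ] K, τ ≠ 1 ∧
        ∀ x y : integralClosure ℤ K, (y : K) = τ (x : K) - (x : K) → y ∈ P := by
  obtain rfl : inst = DivisionRing.toRatAlgebra := Subsingleton.elim _ _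
  exact exists_prime_nontrivial_inertia_aux K H

section Relative

variable (L : Type*) [Field L] [Algebra ℚ L] (K : IntermediateField ℚ L)

/-- The Galois group over an intermediate field acts on the ring of algebraic integers. -/
@[reducible] noncomputable def galActIntRel :
    MulSemiringAction (L ≃ₐ[K] L) (integralClosure ℤ L) where
  smul σ b := ⟨σ b.1, IsIntegral.map (R := ℤ) (A := K) σ b.2⟩
  one_smul _ := Subtype.ext rfl
  mul_smul _ _ _ := Subtype.ext rfl
  smul_zero σ := Subtype.ext (map_zero σ)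
  smul_add σ _ _ := Subtype.ext (map_add σ _ _)
  smul_one σ := Subtype.ext (map_one σ)
  smul_mul σ _ _ := Subtype.ext (map_mul σ _ _)

/-- The inclusion of the integers of an intermediate field. -/
noncomputable def intIncl : integralClosure ℤ K →+* integralClosure ℤ L where
  toFun x := ⟨algebraMap K L (x : K), x.2.algebraMap⟩
  map_one' := Subtype.ext (by simp)
  map_mul' x y := Subtype.ext (by simp)
  map_zero' := Subtype.ext (by simp)
  map_add' x y := Subtype.ext (by simp)

theorem intIncl_coe (x : integralClosure ℤ K) :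
    ((intIncl L K x : integralClosure ℤ L) : L) = algebraMap K L (x : K) := rfl

/-- The algebra structure of the algebraic integers over the integers of an intermediate field. -/
@[reducible] noncomputable def intAlg : Algebra (integralClosure ℤ K) (integralClosure ℤ L) :=
  (intIncl L K).toAlgebra

attribute [local instance] galActIntRel intAlg

theorem galActIntRel_coe (σ : L ≃ₐ[K] L) (b : integralClosure ℤ L) :
    ((σ • b : integralClosure ℤ L) : L) = σ (b : L) := rfl

theorem intAlg_coe (x : integralClosure ℤ K) :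
    ((algebraMap (integralClosure ℤ K) (integralClosure ℤ L) x : integralClosure ℤ L) : L) =
      algebraMap K L (x : K) := rfl

theorem galActIntRel_smulComm :
    SMulCommClass (L ≃ₐ[K] L) (integralClosure ℤ K) (integralClosure ℤ L) where
  smul_comm σ x b := Subtype.ext (by
    rw [galActIntRel_coe, Algebra.smul_def, Algebra.smul_def]
    change σ (algebraMap K L (x : K) * (b : L)) = algebraMap K L (x : K) * σ (b : L)
    rw [map_mul, AlgEquiv.commutes])

theorem galActIntRel_isInvariant [IsGalois ℚ L] :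
    Algebra.IsInvariant (integralClosure ℤ K) (integralClosure ℤ L) (L ≃ₐ[K] L) := by
  refine ⟨fun b hb => ?_⟩
  have hfix : ∀ σ : L ≃ₐ[K] L, σ (b : L) = (b : L) := fun σ => congrArg Subtype.val (hb σ)
  obtain ⟨k, hk⟩ := (InfiniteGalois.mem_range_algebraMap_iff_fixed (k := K) (b : L)).mpr hfix
  have hki : IsIntegral ℤ k := by
    have h := b.2
    rw [← hk] at h
    exact (isIntegral_algebraMap_iff (algebraMap K L).injective).mp h
  exact ⟨⟨k, hki⟩, Subtype.ext hk⟩

theorem galActIntRel_continuousSMul [Algebra.IsIntegral ℚ L] :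
    letI : TopologicalSpace (integralClosure ℤ L) := ⊥
    ContinuousSMul (L ≃ₐ[K] L) (integralClosure ℤ L) := by
  letI : TopologicalSpace (integralClosure ℤ L) := ⊥
  haveI : DiscreteTopology (integralClosure ℤ L) := ⟨rfl⟩
  rw [continuousSMul_iff_stabilizer_isOpen]
  intro b
  convert stabilizer_isOpen_of_isIntegral (K := K) (L := L) (b : L) using 1
  ext σ
  simp only [SetLike.mem_coe, MulAction.mem_stabilizer_iff]
  constructor
  · intro h; exact congrArg Subtype.val h
  · intro h; exact Subtype.ext h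

end Relative

section Criteria

variable {L : Type*} [Field L] [Algebra ℚ L] [Algebra.IsAlgebraic ℚ L]

theorem mem_decomposition_of_pres (A : ValuationSubring L) {ℓ : ℕ} (hℓ : ℓ.Prime)
    (hA : (ℓ : L) ∈ A.nonunits) (σ : L ≃ₐ[ℚ] L)
    (hstab : ∀ b : L, IsIntegral ℤ b → (σ b ∈ A.nonunits ↔ b ∈ A.nonunits)) :
    σ ∈ A.decompositionSubgroup ℚ := by
  haveI : CharZero L := algebraRat.charZero L
  have halg : ∀ x : L, IsAlgebraic ℤ x := fun x =>
    (IsFractionRing.isAlgebraic_iff ℤ ℚ L).mpr (Algebra.IsAlgebraic.isAlgebraic x)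
  have hσA : ∀ x ∈ A, σ x ∈ A := by
    intro x hx
    obtain ⟨s, hs, hsn, hxs⟩ := exists_denominator A hℓ hA hx (halg x)
    have h1 : σ s ∉ A.nonunits := fun h => hsn ((hstab s hs).mp h)
    obtain ⟨h2, h3⟩ := inv_mem_of_notMem_nonunits A h1
    have h4 : σ x = σ (x * s) * (σ s)⁻¹ := by rw [map_mul]; field_simp
    rw [h4]
    exact A.mul_mem _ _ (mem_of_isIntegral_int A (hxs.map σ)) h3
  have hσA' : ∀ x ∈ A, σ.symm x ∈ A := by
    intro x hx
    obtain ⟨s, hs, hsn, hxs⟩ := exists_denominator A hℓ hA hx (halg x)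
    have hs' : IsIntegral ℤ (σ.symm s) := hs.map σ.symm
    have h1 : σ.symm s ∉ A.nonunits := fun h => hsn (by
      have := (hstab _ hs').mpr h
      simpa using this)
    obtain ⟨h2, h3⟩ := inv_mem_of_notMem_nonunits A h1
    have h4 : σ.symm x = σ.symm (x * s) * (σ.symm s)⁻¹ := by rw [map_mul]; field_simp
    rw [h4]
    exact A.mul_mem _ _ (mem_of_isIntegral_int A (hxs.map σ.symm)) h3
  rw [MulAction.mem_stabilizer_iff]
  ext x
  rw [ValuationSubring.mem_pointwise_smul_iff_inv_smul_mem]
  constructor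
  · intro h
    have := hσA _ h
    simpa using this
  · intro h
    exact hσA' x h

theorem mem_inertia_of_pres (A : ValuationSubring L) {ℓ : ℕ} (hℓ : ℓ.Prime)
    (hA : (ℓ : L) ∈ A.nonunits) (σ : L ≃ₐ[ℚ] L)
    (hstab : ∀ b : L, IsIntegral ℤ b → (σ b ∈ A.nonunits ↔ b ∈ A.nonunits))
    (key : ∀ b : L, IsIntegral ℤ b → σ b - b ∈ A.nonunits) :
    σ ∈ A.inertiaSubgroupIn ℚ := by
  haveI : CharZero L := algebraRat.charZero L
  have halg : ∀ x : L, IsAlgebraic ℤ x := fun x =>
    (IsFractionRing.isAlgebraic_iff ℤ ℚ L).mpr (Algebra.IsAlgebraic.isAlgebraic x)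
  have hdec := mem_decomposition_of_pres A hℓ hA σ hstab
  refine ⟨⟨σ, hdec⟩, ?_, rfl⟩
  show MulSemiringAction.toRingAut (A.decompositionSubgroup ℚ)
    (IsLocalRing.ResidueField A) ⟨σ, hdec⟩ = 1
  ext y
  obtain ⟨a, rfl⟩ := IsLocalRing.residue_surjective y
  show (⟨σ, hdec⟩ : A.decompositionSubgroup ℚ) • IsLocalRing.residue A a = IsLocalRing.residue A a
  rw [← IsLocalRing.ResidueField.residue_smul]
  rw [← sub_eq_zero, ← map_sub, IsLocalRing.residue_eq_zero_iff,
    ← ValuationSubring.coe_mem_nonunits_iff]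
  show σ (a : L) - (a : L) ∈ A.nonunits
  obtain ⟨s, hs, hsn, hxs⟩ := exists_denominator A hℓ hA a.2 (halg a)
  have h1 : σ s ∉ A.nonunits := fun h => hsn ((hstab s hs).mp h)
  obtain ⟨h2, h3⟩ := inv_mem_of_notMem_nonunits A h1
  have h4 : σ (a : L) - (a : L) =
      (σ s)⁻¹ * ((σ ((a : L) * s) - (a : L) * s) - (a : L) * (σ s - s)) := by
    rw [map_mul]; field_simp; ring
  rw [h4]
  exact mul_mem_nonunits A h3
    (sub_mem (key _ hxs) (mul_mem_nonunits A a.2 (key s hs)))

end Criteria

section Lifting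

attribute [local instance] galActInt galActIntRel intAlg

theorem exists_mem_inertia_restrict_aux {L : Type} [Field L] [Algebra ℚ L] [IsGalois ℚ L]
    (A : ValuationSubring L) {p : ℕ} (hp : p.Prime) (hA : A.LiesOverPrime p)
    (K : IntermediateField ℚ L) (τ : K ≃ₐ[ℚ] K)
    (hτ : ∀ x : K, IsIntegral ℤ x → algebraMap K L (τ x) - algebraMap K L x ∈ A.nonunits) :
    ∃ σ : L ≃ₐ[ℚ] L, σ ∈ A.inertiaSubgroupIn ℚ ∧
      ∀ x : K, σ (algebraMap K L x) = algebraMap K L (τ x) := by
  haveI : CharZero L := algebraRat.charZero L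
  haveI : Algebra.IsAlgebraic ℚ L := inferInstance
  letI : TopologicalSpace (integralClosure ℤ L) := ⊥
  haveI : DiscreteTopology (integralClosure ℤ L) := ⟨rfl⟩
  haveI hprime : (centre A).IsPrime := centre_isPrime A
  haveI hover : (centre A).LiesOver (Ideal.span {(p : ℤ)}) := centre_liesOver A hp hA
  haveI := galActInt_smulComm L
  haveI := galActInt_isInvariant L
  haveI : ContinuousSMul (L ≃ₐ[ℚ] L) (integralClosure ℤ L) := galActInt_continuousSMul L
  haveI := galActIntRel_smulComm L K
  haveI := galActIntRel_isInvariant L K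
  haveI : ContinuousSMul (L ≃ₐ[K] L) (integralClosure ℤ L) := galActIntRel_continuousSMul L K
  -- τ preserves the prime below
  have hτP : ∀ x : K, IsIntegral ℤ x →
      (algebraMap K L (τ x) ∈ A.nonunits ↔ algebraMap K L x ∈ A.nonunits) := by
    intro x hx
    constructor
    · intro h
      have := sub_mem h (hτ x hx)
      simpa using this
    · intro h
      have := add_mem (hτ x hx) h
      simpa using this
  let σ₀ : L ≃ₐ[ℚ] L := τ.liftNormal L
  have hσ₀ : ∀ x : K, σ₀ (algebraMap K L x) = algebraMap K L (τ x) :=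
    fun x => AlgEquiv.liftNormal_commutes τ L x
  have hσ₀' : ∀ x : K, σ₀.symm (algebraMap K L x) = algebraMap K L (τ.symm x) := by
    intro x
    rw [AlgEquiv.symm_apply_eq, hσ₀, AlgEquiv.apply_symm_apply]
  have hunder : (σ₀ • centre A).under (integralClosure ℤ K) =
      (centre A).under (integralClosure ℤ K) := by
    ext x
    rw [Ideal.under, Ideal.under, Ideal.mem_comap, Ideal.mem_comap,
      Ideal.mem_pointwise_smul_iff_inv_smul_mem, mem_centre, mem_centre]
    have h1 : ((σ₀⁻¹ • (algebraMap (integralClosure ℤ K) (integralClosure ℤ L) x) :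
        integralClosure ℤ L) : L) = algebraMap K L (τ.symm (x : K)) := by
      rw [galActInt_coe, intAlg_coe]
      exact hσ₀' _
    rw [h1, intAlg_coe]
    have hx' : IsIntegral ℤ (τ.symm (x : K)) := x.2.map τ.symm
    have := hτP _ hx'
    rw [AlgEquiv.apply_symm_apply] at this
    exact this.symm
  obtain ⟨ρ, hρ⟩ := Algebra.IsInvariant.exists_smul_of_under_eq_of_profinite
    (A := integralClosure ℤ K) (G := L ≃ₐ[K] L) (σ₀ • centre A) (centre A) hunder
  -- `hρ : centre A = ρ • σ₀ • centre A`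
  let σ₁ : L ≃ₐ[ℚ] L := (ρ.restrictScalars ℚ) * σ₀
  have hσ₁ : ∀ b : L, σ₁ b = ρ (σ₀ b) := fun b => rfl
  have hσ₁K : ∀ x : K, σ₁ (algebraMap K L x) = algebraMap K L (τ x) := by
    intro x
    rw [hσ₁, hσ₀, AlgEquiv.commutes]
  have hσ₁stab : ∀ b : L, IsIntegral ℤ b → (σ₁ b ∈ A.nonunits ↔ b ∈ A.nonunits) := by
    intro b hb
    have h1 : (⟨σ₁ b, hb.map σ₁⟩ : integralClosure ℤ L) ∈ centre A ↔
        (⟨b, hb⟩ : integralClosure ℤ L) ∈ centre A := by
      conv_lhs => rw [hρ]
      rw [Ideal.mem_pointwise_smul_iff_inv_smul_mem, Ideal.mem_pointwise_smul_iff_inv_smul_mem]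
      have h2 : (σ₀⁻¹ • ρ⁻¹ • (⟨σ₁ b, hb.map σ₁⟩ : integralClosure ℤ L)) = ⟨b, hb⟩ := by
        apply Subtype.ext
        show σ₀.symm (ρ.symm (ρ (σ₀ b))) = b
        simp
      rw [h2]
    exact h1
  have hσ₁Q : σ₁ • centre A = centre A := by
    ext b
    rw [Ideal.mem_pointwise_smul_iff_inv_smul_mem, mem_centre, mem_centre]
    have := hσ₁stab (σ₁.symm b) (b.2.map σ₁.symm)
    rw [AlgEquiv.apply_symm_apply] at this
    exact this.symm
  let φ₀ := Ideal.Quotient.stabilizerHom (centre A) (Ideal.span {(p : ℤ)}) (L ≃ₐ[ℚ] L)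
    ⟨σ₁, hσ₁Q⟩
  have hφ₀ : ∀ b : integralClosure ℤ L, φ₀ (Ideal.Quotient.mk (centre A) b) =
      Ideal.Quotient.mk (centre A) (σ₁ • b) := fun b =>
    Ideal.Quotient.stabilizerHom_apply (centre A) (Ideal.span {(p : ℤ)}) (L ≃ₐ[ℚ] L)
      ⟨σ₁, hσ₁Q⟩ b
  haveI : (centre A).LiesOver ((centre A).under (integralClosure ℤ K)) := ⟨rfl⟩
  let φ : (integralClosure ℤ L ⧸ centre A) ≃ₐ[integralClosure ℤ K ⧸
      (centre A).under (integralClosure ℤ K)] (integralClosure ℤ L ⧸ centre A) :=
    AlgEquiv.ofRingEquiv (f := φ₀.toRingEquiv) (by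
      intro r
      obtain ⟨x, rfl⟩ := Ideal.Quotient.mk_surjective r
      rw [Ideal.Quotient.algebraMap_mk_of_liesOver]
      show φ₀ (Ideal.Quotient.mk _ (algebraMap _ _ x)) = _
      rw [hφ₀, Ideal.Quotient.eq, mem_centre]
      have h1 : ((σ₁ • (algebraMap (integralClosure ℤ K) (integralClosure ℤ L) x) -
          algebraMap (integralClosure ℤ K) (integralClosure ℤ L) x : integralClosure ℤ L) : L) =
          algebraMap K L (τ (x : K)) - algebraMap K L (x : K) := by
        rw [← hσ₁K]
        rfl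
      rw [h1]
      exact hτ x x.2)
  have hφ : ∀ b : integralClosure ℤ L, φ (Ideal.Quotient.mk (centre A) b) =
      Ideal.Quotient.mk (centre A) (σ₁ • b) := fun b => hφ₀ b
  obtain ⟨⟨ρ', hρ'Q⟩, hρ'⟩ := Ideal.Quotient.stabilizerHom_surjective_of_profinite
    (G := L ≃ₐ[K] L) ((centre A).under (integralClosure ℤ K)) (centre A) φ
  have hkey : ∀ b : L, IsIntegral ℤ b → ρ' b - σ₁ b ∈ A.nonunits := by
    intro b hb
    have h1 := congrArg (fun f => f (Ideal.Quotient.mk (centre A) ⟨b, hb⟩)) hρ'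
    simp only [Ideal.Quotient.stabilizerHom_apply] at h1
    rw [hφ, Ideal.Quotient.eq] at h1
    exact (mem_centre A _).mp h1
  have hρ'stab : ∀ b : L, IsIntegral ℤ b → (ρ' b ∈ A.nonunits ↔ b ∈ A.nonunits) := by
    intro b hb
    have h1 : ρ' • centre A = centre A := hρ'Q
    constructor
    · intro h
      have h2 : (ρ' • (⟨b, hb⟩ : integralClosure ℤ L)) ∈ ρ' • centre A := by
        rw [h1]; exact (mem_centre A _).mpr h
      rw [Ideal.smul_mem_pointwise_smul_iff] at h2
      exact (mem_centre A _).mp h2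
    · intro h
      have h2 : (ρ' • (⟨b, hb⟩ : integralClosure ℤ L)) ∈ ρ' • centre A :=
        Ideal.smul_mem_pointwise_smul _ _ _ ((mem_centre A _).mpr h)
      rw [h1] at h2
      exact (mem_centre A _).mp h2
  have hρ'symm : ∀ b : L, IsIntegral ℤ b → (ρ'.symm b ∈ A.nonunits ↔ b ∈ A.nonunits) := by
    intro b hb
    have := hρ'stab (ρ'.symm b) (IsIntegral.map (R := ℤ) (A := K) ρ'.symm hb)
    rw [AlgEquiv.apply_symm_apply] at this
    exact this.symm
  let σ : L ≃ₐ[ℚ] L := (ρ'.symm.restrictScalars ℚ) * σ₁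
  have hσ : ∀ b : L, σ b = ρ'.symm (σ₁ b) := fun b => rfl
  refine ⟨σ, mem_inertia_of_pres A hp hA σ ?_ ?_, ?_⟩
  · intro b hb
    rw [hσ, hρ'symm _ (hb.map σ₁), hσ₁stab b hb]
  · intro b hb
    have h1 : σ b - b = ρ'.symm (σ₁ b - ρ' b) := by
      rw [hσ, map_sub, AlgEquiv.symm_apply_apply]
    rw [h1]
    have h2 : IsIntegral ℤ (σ₁ b - ρ' b) :=
      (hb.map σ₁).sub (IsIntegral.map (R := ℤ) (A := K) ρ' hb)
    rw [hρ'symm _ h2]
    have := neg_mem (hkey b hb)
    simpa using this
  · intro x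
    rw [hσ, hσ₁K, AlgEquiv.commutes]

/-- Lifting of inertia elements: an automorphism of a subfield `K` which acts trivially modulo
the prime of `K` below `A` is the restriction of an element of the inertia group of `A`. -/
theorem exists_mem_inertia_restrict {L : Type} [Field L] [Algebra ℚ L] [IsGalois ℚ L]
    (A : ValuationSubring L) {p : ℕ} (hp : p.Prime) (hA : A.LiesOverPrime p)
    (K : IntermediateField ℚ L) (τ : K ≃+* K)
    (hτ : ∀ x : K, IsIntegral ℤ x → algebraMap K L (τ x) - algebraMap K L x ∈ A.nonunits) :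
    ∃ σ : L ≃ₐ[ℚ] L, σ ∈ A.inertiaSubgroupIn ℚ ∧
      ∀ x : K, σ (algebraMap K L x) = algebraMap K L (τ x) :=
  exists_mem_inertia_restrict_aux A hp hA K
    (AlgEquiv.ofRingEquiv (f := τ) (by intro r; simp)) hτ

end Lifting

section Main

theorem char_eq_one_gen {L : Type} [Field L] [Algebra ℚ L] [IsGalois ℚ L] {H : Type*} [Group H]
    (χ : (L ≃ₐ[ℚ] L) →* H)
    (S : Set L) (hS : S.Finite)
    (hχS : ∀ σ : L ≃ₐ[ℚ] L, (∀ x ∈ S, σ x = x) → χ σ = 1)
    (hχ : ∀ q : ℕ, q.Prime → ∃ A : ValuationSubring L, A.LiesOverPrime q ∧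
        ∀ σ ∈ A.inertiaSubgroupIn ℚ, χ σ = 1) :
    ∀ σ, χ σ = 1 := by
  classical
  haveI : CharZero L := algebraRat.charZero L
  haveI : Finite S := hS
  let M : IntermediateField ℚ L := IntermediateField.adjoin ℚ S
  letI algM : Algebra ℚ M := M.algebra'
  haveI : FiniteDimensional ℚ M :=
    IntermediateField.finiteDimensional_adjoin (fun x _ => Algebra.IsIntegral.isIntegral x)
  have hMker : M.fixingSubgroup ≤ χ.ker := by
    intro σ hσ
    rw [MonoidHom.mem_ker]
    apply hχS
    intro x hx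
    exact (IntermediateField.mem_fixingSubgroup_iff M σ).mp hσ x
      (IntermediateField.subset_adjoin ℚ S hx)
  have hopen : IsOpen (χ.ker : Set (L ≃ₐ[ℚ] L)) :=
    Subgroup.isOpen_mono hMker (IntermediateField.fixingSubgroup_isOpen M)
  have hclosed : IsClosed (χ.ker : Set (L ≃ₐ[ℚ] L)) := Subgroup.isClosed_of_isOpen _ hopen
  let F : IntermediateField ℚ L := IntermediateField.fixedField χ.ker
  have hFM : F ≤ M := by
    have h1 : IntermediateField.fixedField χ.ker ≤ IntermediateField.fixedField M.fixingSubgroup :=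
      IntermediateField.fixedField_antitone hMker
    rwa [InfiniteGalois.fixedField_fixingSubgroup] at h1
  letI algF : Algebra ℚ F := F.algebra'
  haveI : FiniteDimensional ℚ F := Module.Finite.of_injective (IntermediateField.inclusion hFM).toLinearMap (IntermediateField.inclusion hFM).injective
  haveI : Normal ℚ F := by
    rw [IntermediateField.normal_iff_forall_map_le']
    intro σ x hx
    obtain ⟨y, hy, rfl⟩ := hx
    rintro ⟨g, hg⟩
    show g (σ y) = σ y
    have h1 : σ⁻¹ * g * σ ∈ χ.ker := by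
      rw [MonoidHom.mem_ker] at hg ⊢
      rw [map_mul, map_mul, hg, mul_one, ← map_mul, inv_mul_cancel, map_one]
    have h2 : (σ⁻¹ * g * σ) y = y := hy ⟨_, h1⟩
    have h3 : (σ⁻¹ * g * σ) y = σ.symm (g (σ y)) := rfl
    rw [h3, AlgEquiv.symm_apply_eq] at h2
    exact h2
  haveI : IsGalois ℚ F := ⟨⟩
  haveI : NumberField F := NumberField.of_module_finite ℚ F
  by_contra hcon
  push Not at hcon
  have hF1 : 1 < Module.finrank ℚ F := by
    by_contra h
    have h1 : Module.finrank ℚ F = 1 := by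
      have := Module.finrank_pos (R := ℚ) (M := F)
      omega
    have h2 : F = ⊥ := IntermediateField.finrank_eq_one_iff.mp h1
    have h3 : F.fixingSubgroup = χ.ker :=
      InfiniteGalois.fixingSubgroup_fixedField ⟨χ.ker, hclosed⟩
    rw [h2, IntermediateField.fixingSubgroup_bot] at h3
    obtain ⟨σ, hσ⟩ := hcon
    apply hσ
    have : σ ∈ χ.ker := by rw [← h3]; exact Subgroup.mem_top σ
    exact this
  obtain ⟨p, hp, hram⟩ := exists_prime_nontrivial_inertia F hF1
  obtain ⟨A, hA, hAχ⟩ := hχ p hp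
  haveI := centre_isPrime A
  let P : Ideal (integralClosure ℤ F) := Ideal.comap (intIncl L F) (centre A)
  have hP : P.IsPrime := Ideal.comap_isPrime _ _
  have hpP : (p : integralClosure ℤ F) ∈ P := by
    rw [Ideal.mem_comap, mem_centre, intIncl_coe]
    have : algebraMap F L ((p : integralClosure ℤ F) : F) = (p : L) := by simp
    rw [this]
    exact hA
  obtain ⟨τ, hτ1, hτ⟩ := hram P hP hpP
  obtain ⟨σ, hσI, hσF⟩ := exists_mem_inertia_restrict A hp hA F τ.toRingEquiv (by
    intro x hx
    have hy : IsIntegral ℤ (τ x - x) := (hx.map τ).sub hx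
    have h1 := hτ ⟨x, hx⟩ ⟨τ x - x, hy⟩ rfl
    rw [Ideal.mem_comap, mem_centre, intIncl_coe] at h1
    simpa using h1)
  apply hτ1
  ext x
  have h1 : χ σ = 1 := hAχ σ hσI
  have h2 : σ (algebraMap F L x) = algebraMap F L x := x.2 ⟨σ, h1⟩
  rw [hσF] at h2
  have h3 : τ x = x := (algebraMap F L).injective h2
  rw [h3]
  rfl

attribute [local instance] isAlgebraicQbar isAlgClosureQbar

/-- **Minkowski for characters of `G_ℚ`**: a homomorphism from the absolute Galois group of `ℚ`
which factors through a finite extension (it is trivial on the automorphisms fixing a finite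
set `S`) and which is trivial on the inertia group of at least one valuation subring over
every rational prime, is trivial. -/
theorem char_eq_one {H : Type*} [Group H]
    (χ : (AlgebraicClosure ℚ ≃ₐ[ℚ] AlgebraicClosure ℚ) →* H)
    (S : Set (AlgebraicClosure ℚ)) (hS : S.Finite)
    (hχS : ∀ σ : AlgebraicClosure ℚ ≃ₐ[ℚ] AlgebraicClosure ℚ, (∀ x ∈ S, σ x = x) → χ σ = 1)
    (hχ : ∀ q : ℕ, q.Prime → ∃ A : ValuationSubring (AlgebraicClosure ℚ), A.LiesOverPrime q ∧
        ∀ σ ∈ A.inertiaSubgroupIn ℚ, χ σ = 1) :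
    ∀ σ, χ σ = 1 :=
  char_eq_one_gen χ S hS hχS hχ

/-- An algebraic number fixed by the whole absolute Galois group is rational. -/
theorem exists_rat_of_fixed (x : AlgebraicClosure ℚ)
    (h : ∀ σ : AlgebraicClosure ℚ ≃ₐ[ℚ] AlgebraicClosure ℚ, σ x = x) :
    ∃ r : ℚ, algebraMap ℚ (AlgebraicClosure ℚ) r = x :=
  (InfiniteGalois.mem_range_algebraMap_iff_fixed x).mpr h

end Main

end Fermat.Agent.S13_Minkowski
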