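-- Project R (S13), block L2: the tent law at a node for a curve with `b₄ = 2c`, `b₆ = 0`,
-- `b₈ = -c²`, `b₂` a unit and `2` merely integral (port of `S05_Tent` to residue characteristic 2).
import Mathlib
import Fermat.Agent.S05_Tent
import Fermat.Agent.S13_Defs
import Fermat.Agent.S13_AddSub

set_option autoImplicit false

namespace Fermat.Agent.S13_Tent2

open WeierstrassCurve WeierstrassCurve.Affine
open Fermat.Agent.S05_RatVal Fermat.Agent.S05_Tent Fermat.Agent.S13_Defs Fermat.Agent.S13_AddSub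

section val

variable {K : Type*} [Field K] {v : RatVal K}

/-- The tent law for the two roots `S`, `Df` of the quadratic given by the sum and product
formulas at a node (`c` of valuation `N`, `u` a unit, `2` integral). -/
theorem key2 {A B S Df c u : K} {a N : ℚ} (hB : Ex v B a) (hc : Ex v c N) (hu : Ex v u 0)
    (h2 : v.Ge (2 : K) 0) (ha : 0 < a) (haN : a < N) (hAB : A ≠ B)
    (F1 : S * Df * (A - B) ^ 2 = (A * B - c) ^ 2)
    (F2 : (S + Df) * (A - B) ^ 2 = u * (A * B) + 2 * (A + B) * (A * B + c)) :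
    (clip v N S = min (clip v N A + a) (2 * N - clip v N A - a) ∧
        clip v N Df = |clip v N A - a|) ∨
    (clip v N S = |clip v N A - a| ∧
        clip v N Df = min (clip v N A + a) (2 * N - clip v N A - a)) := by
  have hN0 : 0 ≤ N := by linarith
  by_cases hA0 : A = 0
  · subst hA0
    have F1' : S * Df * B ^ 2 = c ^ 2 := by linear_combination F1
    have F2' : (S + Df) * B ^ 2 = 2 * B * c := by linear_combination F2
    obtain ⟨hS, hDf⟩ := eq_roots hB hc F1' F2' (((h2.mul hB.ge).mul hc.ge).mono (by linarith))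
    rw [hS.clip_mid (by linarith) (by linarith), hDf.clip_mid (by linarith) (by linarith),
      clip_zero]
    left
    constructor
    · rw [min_eq_right (by linarith)]; ring
    · rw [abs_of_pos (by linarith)]
  have hA : Ex v A (v.v A) := ⟨hA0, rfl⟩
  have hΔ0 : A - B ≠ 0 := sub_ne_zero.2 hAB
  have hγ : min (v.v A) a ≤ v.v (A - B) := by
    have h := v.v_sub_ge hA0 hB.1 hΔ0
    rwa [hB.2] at h
  generalize v.v A = α at hA hγ
  have hAB' : Ex v (A * B) (α + a) := hA.mul hB
  have hU : Ex v (u * (A * B)) (α + a) := by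
    have h := hu.mul hAB'
    rwa [zero_add] at h
  rcases le_or_gt α 0 with hα0 | hα0
  · -- `A` has nonpositive valuation
    have hΔ : Ex v (A - B) α := hA.sub_gt (hB.gt (by linarith))
    have hP : Ex v (A * B - c) (α + a) := hAB'.sub_gt (hc.gt (by linarith))
    have hQ : v.Ge (u * (A * B) + 2 * (A + B) * (A * B + c)) (α + a + α) := by
      have t1 : v.Ge (2 * (A + B) * (A * B + c)) (0 + α + (α + a)) :=
        (h2.mul (hA.ge.add (hB.ge.mono (by linarith)))).mul
          (hAB'.ge.add (hc.ge.mono (by linarith)))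
      exact (hU.ge.mono (by linarith)).add (t1.mono (by linarith))
    obtain ⟨hS, hDf⟩ := eq_roots hΔ hP F1 F2 hQ
    rw [hS.clip_mid (by linarith) (by linarith), hDf.clip_mid (by linarith) (by linarith),
      hA.clip_nonpos hα0]
    left
    constructor
    · rw [zero_add, min_eq_left (by linarith)]; ring
    · rw [zero_sub, abs_neg, abs_of_pos ha]; ring
  rcases lt_or_ge α N with hαN | hαN
  · -- the generic case `0 < α < N`
    have hγ' : α ≠ a → v.v (A - B) = min α a := by
      intro hne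
      rcases lt_or_gt_of_ne hne with h | h
      · rw [min_eq_left h.le]; exact (hA.sub_gt (hB.gt h)).2
      · rw [min_eq_right h.le]; exact (hB.gt_sub (hA.gt h)).2
    have hΔ : Ex v (A - B) (v.v (A - B)) := ⟨hΔ0, rfl⟩
    generalize v.v (A - B) = γ at hΔ hγ hγ'
    have hV : v.Gt (2 * (A + B) * (A * B + c)) (α + a) := by
      have t1 : v.Ge (2 * (A + B) * (A * B + c)) (0 + min α a + min (α + a) N) :=
        (h2.mul ((hA.ge.mono (min_le_left _ _)).add (hB.ge.mono (min_le_right _ _)))).mul
          ((hAB'.ge.mono (min_le_left _ _)).add (hc.ge.mono (min_le_right _ _)))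
      apply t1.gt_of_lt
      rcases le_total α a with h | h <;> rcases le_total (α + a) N with h' | h' <;>
        simp only [min_eq_left, min_eq_right, h, h'] <;> linarith
    have hQ : Ex v (u * (A * B) + 2 * (A + B) * (A * B + c)) (α + a) := hU.add_gt hV
    have hPge : v.Ge (A * B - c) (min (α + a) N) :=
      (hAB'.ge.mono (min_le_left _ _)).sub (hc.ge.mono (min_le_right _ _))
    have hlt' : α + a - γ < min (α + a) N := by
      rcases le_total α a with h | h
      · rw [min_eq_left h] at hγ; apply lt_min <;> linarith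
      · rw [min_eq_right h] at hγ; apply lt_min <;> linarith
    have c1 : ∀ x : K, Ex v x (α + a - 2 * γ) → clip v N x = |α - a| := by
      intro x hx
      by_cases hne : α = a
      · rw [hne, sub_self, abs_zero]
        apply hx.clip_nonpos
        rw [hne, min_self] at hγ; linarith
      · have hg := hγ' hne
        rcases lt_or_gt_of_ne hne with h | h
        · rw [min_eq_left h.le] at hg
          rw [abs_of_neg (by linarith), hx.clip_mid (by linarith) (by linarith)]; linarith
        · rw [min_eq_right h.le] at hg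
          rw [abs_of_pos (by linarith), hx.clip_mid (by linarith) (by linarith)]; linarith
    have c2 : ∀ y : K, v.Ge y (2 * min (α + a) N - (α + a)) →
        (∀ p, Ex v (A * B - c) p → Ex v y (2 * p - (α + a))) →
        clip v N y = min (α + a) (2 * N - α - a) := by
      intro y hy1 hy2
      rcases lt_trichotomy (α + a) N with h | h | h
      · have hP : Ex v (A * B - c) (α + a) := hAB'.sub_gt (hc.gt h)
        have hy := hy2 _ hP
        rw [hy.clip_mid (by linarith) (by linarith), min_eq_left (by linarith)]; ring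
      · rw [min_eq_left h.le] at hy1
        rw [clip_of_ge hN0 (hy1.mono (by linarith)), min_eq_left (by linarith)]; linarith
      · have hP : Ex v (A * B - c) N := hc.gt_sub (hAB'.gt h)
        have hy := hy2 _ hP
        rw [hy.clip_mid (by linarith) (by linarith), min_eq_right (by linarith)]; ring
    rw [hA.clip_mid hα0.le hαN.le]
    rcases ne_roots hΔ hQ F1 F2 hPge hlt' with ⟨hS, hDf1, hDf2⟩ | ⟨hDf, hS1, hS2⟩
    · right
      exact ⟨c1 S hS, c2 Df hDf1 hDf2⟩
    · left
      exact ⟨c2 S hS1 hS2, c1 Df hDf⟩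
  · -- `A` has valuation at least `N`
    have hΔ : Ex v (A - B) a := hB.gt_sub (hA.gt (by linarith))
    have hP : Ex v (A * B - c) N := hc.gt_sub (hAB'.gt (by linarith))
    have hQ : v.Ge (u * (A * B) + 2 * (A + B) * (A * B + c)) (N + a) := by
      have t1 : v.Ge (2 * (A + B) * (A * B + c)) (0 + a + N) :=
        (h2.mul ((hA.ge.mono (by linarith)).add hB.ge)).mul
          ((hAB'.ge.mono (by linarith)).add hc.ge)
      exact (hU.ge.mono (by linarith)).add (t1.mono (by linarith))
    obtain ⟨hS, hDf⟩ := eq_roots hΔ hP F1 F2 hQ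
    rw [hS.clip_mid (by linarith) (by linarith), hDf.clip_mid (by linarith) (by linarith),
      clip_of_ge hN0 (hA.ge.mono hαN)]
    left
    constructor
    · rw [min_eq_right (by linarith)]; ring
    · rw [abs_of_pos (by linarith)]

/-- The value of `ψ₂²` at a point of level `a`. -/
theorem eta_sq_ex2 {B c u : K} {a N : ℚ} (hB : Ex v B a) (hc : Ex v c N) (hu : Ex v u 0)
    (h2 : v.Ge (2 : K) 0) (ha : 0 < a) (haN : a < N) :
    Ex v (B * (4 * B ^ 2 + u * B + 4 * c)) (a + a) := by
  have h4 : v.Ge (4 : K) 0 := by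
    have h := h2.mul h2
    have e4 : (2 : K) * 2 = 4 := by norm_num
    rwa [e4, add_zero] at h
  have huB : Ex v (u * B) a := by
    have h := hu.mul hB
    rwa [zero_add] at h
  have hB2 : v.Ge (B ^ 2) (2 * a) := by
    have h := hB.ge.pow 2
    simpa using h
  have h1 : v.Gt (4 * B ^ 2) a := (h4.mul hB2).gt_of_lt (by linarith)
  have h3 : v.Gt (4 * c) a := (h4.mul hc.ge).gt_of_lt (by linarith)
  have h5 : Ex v (4 * B ^ 2 + u * B + 4 * c) a := by
    have h := (huB.add_gt h1).add_gt h3
    have e : u * B + 4 * B ^ 2 + 4 * c = 4 * B ^ 2 + u * B + 4 * c := by ring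
    rwa [e] at h
  exact hB.mul h5

/-- The tent law for the duplication formula. -/
theorem key_dup2 {B X2 c u : K} {a N : ℚ} (hB : Ex v B a) (hc : Ex v c N) (hu : Ex v u 0)
    (h2 : v.Ge (2 : K) 0) (ha : 0 < a) (haN : a < N)
    (Fd : X2 * (B * (4 * B ^ 2 + u * B + 4 * c)) = (B ^ 2 - c) ^ 2) :
    clip v N X2 = min (a + a) (2 * N - a - a) := by
  have hN0 : 0 ≤ N := by linarith
  have hη2 : Ex v (B * (4 * B ^ 2 + u * B + 4 * c)) (a + a) := eta_sq_ex2 hB hc hu h2 ha haN
  have hB2 : Ex v (B ^ 2) (a + a) := by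
    have h := hB.mul hB
    rwa [← pow_two] at h
  rcases lt_trichotomy (a + a) N with h | h | h
  · have hP : Ex v (B ^ 2 - c) (a + a) := hB2.sub_gt (hc.gt h)
    have hP2 : Ex v ((B ^ 2 - c) ^ 2) (2 * (a + a)) := by simpa using hP.pow 2
    rw [← Fd] at hP2
    have hX2 := hP2.of_mul_left hη2
    rw [hX2.clip_mid (by linarith) (by linarith), min_eq_left (by linarith)]; ring
  · have hP : v.Ge (B ^ 2 - c) N := (hB2.ge.mono h.ge).sub hc.ge
    have hX2 : v.Ge X2 N := by
      by_cases hX0 : X2 = 0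
      · exact Or.inl hX0
      have hne : B ^ 2 - c ≠ 0 := by
        intro h0
        have h1 : X2 * (B * (4 * B ^ 2 + u * B + 4 * c)) = 0 := by rw [Fd, h0]; ring
        exact mul_ne_zero hX0 hη2.1 h1
      have hPex : Ex v (B ^ 2 - c) (v.v (B ^ 2 - c)) := ⟨hne, rfl⟩
      have hP2 : Ex v ((B ^ 2 - c) ^ 2) (2 * v.v (B ^ 2 - c)) := by
        simpa using hPex.pow 2
      rw [← Fd] at hP2
      have hX2 := hP2.of_mul_left hη2
      have h3 := hP.le_v hne
      exact hX2.ge.mono (by linarith)
    rw [clip_of_ge hN0 hX2, min_eq_left (by linarith)]; linarith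
  · have hP : Ex v (B ^ 2 - c) N := hc.gt_sub (hB2.gt h)
    have hP2 : Ex v ((B ^ 2 - c) ^ 2) (2 * N) := by simpa using hP.pow 2
    rw [← Fd] at hP2
    have hX2 := hP2.of_mul_left hη2
    rw [hX2.clip_mid (by linarith) (by linarith), min_eq_right (by linarith)]; ring

end val

section pointdef

variable {K : Type*} [Field K] {W : Affine K} {v : RatVal K}

open Classical in
/-- The level of a point: `0` at the origin, the clipped valuation of the x-coordinate
otherwise. -/
noncomputable def lev2 (v : RatVal K) (N : ℚ) (T : W.Point) : ℚ :=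
  if T = 0 then 0 else clip v N (xc T)

theorem lev2_zero (N : ℚ) : lev2 v N (0 : W.Point) = 0 := if_pos rfl

theorem lev2_of_ne {N : ℚ} {T : W.Point} (hT : T ≠ 0) :
    lev2 v N T = clip v N (xc T) := if_neg hT

end pointdef

section point

variable {K : Type*} [Field K] [DecidableEq K] {W : Affine K} {v : RatVal K} {c : K} {N : ℚ}

theorem lev2_neg (N : ℚ) (T : W.Point) : lev2 v N (-T) = lev2 v N T := by
  by_cases hT : T = 0
  · rw [hT, neg_zero]
  · rw [lev2_of_ne hT, lev2_of_ne (neg_ne_zero.2 hT), xc_neg]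

/-- The tent law: adding and subtracting a point `R` of level `0 < a < N`. -/
theorem lev2_add_sub (hb4 : W.b₄ = 2 * c) (hb6 : W.b₆ = 0) (hb8 : W.b₈ = -c ^ 2)
    (hc : Ex v c N) (hu : Ex v W.b₂ 0) (h2 : v.Ge (2 : K) 0) {R : W.Point} (hR : R ≠ 0)
    (hX0 : xc R ≠ 0) (hpos : 0 < v.v (xc R)) (hlt : v.v (xc R) < N) (T : W.Point) :
    (lev2 v N (T + R) = min (lev2 v N T + v.v (xc R)) (2 * N - lev2 v N T - v.v (xc R)) ∧
      lev2 v N (T - R) = |lev2 v N T - v.v (xc R)|) ∨
    (lev2 v N (T + R) = |lev2 v N T - v.v (xc R)| ∧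
      lev2 v N (T - R) =
        min (lev2 v N T + v.v (xc R)) (2 * N - lev2 v N T - v.v (xc R))) := by
  have hB : Ex v (xc R) (v.v (xc R)) := ⟨hX0, rfl⟩
  generalize v.v (xc R) = a at hB hpos hlt
  have hlevR : lev2 v N R = a := by
    rw [lev2_of_ne hR]; exact hB.clip_mid hpos.le hlt.le
  by_cases hT : T = 0
  · subst hT
    left
    rw [zero_add, zero_sub, lev2_neg, lev2_zero, hlevR]
    constructor
    · rw [zero_add, min_eq_left (by linarith)]
    · rw [zero_sub, abs_neg, abs_of_pos hpos]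
  by_cases hX : xc T = xc R
  · have hlevT : lev2 v N T = a := by
      rw [lev2_of_ne hT, hX, ← lev2_of_ne hR, hlevR]
    have hη2 := eta_sq_ex2 hB hc hu h2 hpos hlt
    have hψsq : psi2 R ^ 2 = xc R * (4 * xc R ^ 2 + W.b₂ * xc R + 4 * c) := by
      rw [psi2_sq hR, hb4, hb6]; ring
    have hψ : psi2 R ≠ 0 := by
      intro h0
      apply hη2.1
      rw [← hψsq, h0]; ring
    obtain ⟨h2R, hdup⟩ := xc_add_self hR hψ
    have hlev2 : lev2 v N (R + R) = min (a + a) (2 * N - a - a) := by
      rw [lev2_of_ne h2R]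
      refine key_dup2 hB hc hu h2 hpos hlt ?_
      rw [← hψsq, hdup, hb4, hb6, hb8]; ring
    rw [hlevT]
    rcases eq_or_eq_neg_of_xc_eq hT hR hX with rfl | rfl
    · left
      rw [sub_self, lev2_zero, hlev2, sub_self, abs_zero]
      exact ⟨rfl, rfl⟩
    · right
      have e1 : -R - R = -(R + R) := by abel
      rw [neg_add_cancel, lev2_zero, e1, lev2_neg, hlev2, sub_self, abs_zero]
      exact ⟨rfl, rfl⟩
  · have hadd := add_ne_zero_of_xc_ne hT hR hX
    have hsub := sub_ne_zero_of_xc_ne hT hR hX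
    rw [lev2_of_ne hadd, lev2_of_ne hsub, lev2_of_ne hT]
    refine key2 hB hc hu h2 hpos hlt hX ?_ ?_
    · rw [xc_add_mul_xc_sub hT hR hX, hb4, hb6, hb8]; ring
    · rw [xc_add_add_xc_sub hT hR hX, hb4, hb6]; ring

/-- The level of `k • R` follows the tent function. -/
theorem lev2_nsmul (hb4 : W.b₄ = 2 * c) (hb6 : W.b₆ = 0) (hb8 : W.b₈ = -c ^ 2)
    (hc : Ex v c N) (hu : Ex v W.b₂ 0) (h2 : v.Ge (2 : K) 0) {R : W.Point} (hR : R ≠ 0)
    (hX0 : xc R ≠ 0) (hpos : 0 < v.v (xc R)) (hlt : v.v (xc R) < N) (k : ℕ) :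
    lev2 v N (k • R) = tentFn N (k * v.v (xc R)) ∧
      lev2 v N ((k + 1) • R) = tentFn N ((k + 1 : ℕ) * v.v (xc R)) := by
  have hN : 0 < N := lt_trans hpos hlt
  induction k with
  | zero =>
    constructor
    · rw [zero_smul, lev2_zero]
      exact (tentFn_eq hN 0 le_rfl hN.le (Or.inl (by simp))).symm
    · rw [zero_add, one_smul, lev2_of_ne hR,
        Ex.clip_mid (⟨hX0, rfl⟩ : Ex v (xc R) _) hpos.le hlt.le]
      exact (tentFn_eq hN 0 hpos.le hlt.le (Or.inl (by simp))).symm
  | succ k ih =>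
    refine ⟨ih.2, ?_⟩
    obtain ⟨ih1, ih2⟩ := ih
    have hTL := lev2_add_sub hb4 hb6 hb8 hc hu h2 hR hX0 hpos hlt ((k + 1) • R)
    have e1 : (k + 1) • R + R = (k + 1 + 1) • R := (succ_nsmul R (k + 1)).symm
    have e2 : (k + 1) • R - R = k • R := by rw [succ_nsmul, add_sub_cancel_right]
    rw [e1, e2, ih1, ih2] at hTL
    obtain ⟨t0, t1, z, ht⟩ := tentFn_spec hN ((k + 1 : ℕ) * v.v (xc R))
    generalize tentFn N ((k + 1 : ℕ) * v.v (xc R)) = r at hTL t0 t1 ht
    generalize v.v (xc R) = a at *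
    have hx0 : 0 ≤ r + a := by linarith
    have hx1 : r + a ≤ 2 * N := by linarith
    have hy : |r - a| ≤ N := by rw [abs_le]; constructor <;> linarith
    have hy' : |a - r| ≤ N := by rw [abs_sub_comm]; exact hy
    have hmin : min (r + a) (2 * N - r - a) = min (r + a) (2 * N - (r + a)) := by
      rw [sub_sub]
    rw [hmin] at hTL
    rcases ht with ht | ht
    · -- `(k+1) a = 2 N z + r`
      have f1 : tentFn N ((k + 1 + 1 : ℕ) * a) = min (r + a) (2 * N - (r + a)) := by
        rw [← (tentFn_add_min hN z hx0 hx1).1]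
        congr 1
        push_cast at ht ⊢
        linarith
      have f2 : tentFn N (k * a) = |r - a| := by
        rw [← tentFn_add_abs hN z hy]
        congr 1
        push_cast at ht ⊢
        linarith
      rw [f1]
      rcases hTL with ⟨h1, -⟩ | ⟨h1, h3⟩
      · exact h1
      · rw [h1, ← f2, h3]
    · -- `(k+1) a = 2 N z - r`
      have f1 : tentFn N ((k + 1 + 1 : ℕ) * a) = |r - a| := by
        rw [abs_sub_comm, ← tentFn_add_abs hN z hy']
        congr 1
        push_cast at ht ⊢
        linarith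
      have f2 : tentFn N (k * a) = min (r + a) (2 * N - (r + a)) := by
        rw [← (tentFn_add_min hN z hx0 hx1).2]
        congr 1
        push_cast at ht ⊢
        linarith
      rw [f1]
      rcases hTL with ⟨h1, h3⟩ | ⟨h1, -⟩
      · rw [h1, ← f2, h3]
      · exact h1

/-- **Tent law at a node, residue characteristic allowed to be 2.** If `m • R = 0` for a point
`R` with `0 < v(x(R)) < N = v(c)`, then `m * v(x(R))` is an integer multiple of `2 N`. -/
theorem tent2_of (hb4 : W.b₄ = 2 * c) (hb6 : W.b₆ = 0) (hb8 : W.b₈ = -c ^ 2)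
    (hc : Ex v c N) (hu : Ex v W.b₂ 0) (h2 : v.Ge (2 : K) 0) {R : W.Point} (hR : R ≠ 0)
    (hX0 : xc R ≠ 0) (hpos : 0 < v.v (xc R)) (hlt : v.v (xc R) < N)
    {m : ℕ} (hm : m • R = 0) :
    ∃ z : ℤ, (m : ℚ) * v.v (xc R) = 2 * z * N := by
  have hN : 0 < N := lt_trans hpos hlt
  have h1 := (lev2_nsmul hb4 hb6 hb8 hc hu h2 hR hX0 hpos hlt m).1
  rw [hm, lev2_zero] at h1
  obtain ⟨-, -, z, hz⟩ := tentFn_spec hN ((m : ℚ) * v.v (xc R))
  rw [← h1] at hz
  refine ⟨z, ?_⟩
  rcases hz with hz | hz
  · rw [hz]; ring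
  · rw [hz]; ring

end point

end Fermat.Agent.S13_Tent2
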