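-- Project R (S13), block L2: a curve with a node in b-form has no rational point of odd prime
-- order `p ≥ 5` when `v(c) = p n - 4` (abstract form of step (L2b)), and the application to
-- the Frey curve: no nonzero `p`-torsion point is fixed by the whole Galois group.
import Mathlib
import Fermat.Agent.S13_Node
import Fermat.Agent.S13_Tent2
import Fermat.Agent.S13_Frey2
import Fermat.Agent.S13_Minkowski
import Fermat.Agent.S05_Val
import Fermat.Agent.S54_Frob

set_option autoImplicit false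

namespace Fermat.Agent.S13_L2b

open WeierstrassCurve WeierstrassCurve.Affine
open Fermat.Agent.S05_RatVal Fermat.Agent.S05_Tent
open Fermat.Agent.S13_Defs Fermat.Agent.S13_AddSub Fermat.Agent.S13_Node

/-- A rational number of `2`-adic valuation `0` has odd numerator and denominator. -/
theorem odd_num_den {r : ℚ} (hr : r ≠ 0) (hv : padicValRat 2 r = 0) :
    Odd r.num ∧ Odd (r.den : ℤ) := by
  haveI : Fact (Nat.Prime 2) := ⟨Nat.prime_two⟩
  rw [padicValRat_def] at hv
  have hnum0 : r.num ≠ 0 := Rat.num_ne_zero.2 hr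
  have hden0 : r.den ≠ 0 := r.den_nz
  have hcop : r.num.natAbs.Coprime r.den := r.reduced
  have hcase : ¬ (2 ∣ r.num.natAbs) ∧ ¬ (2 ∣ r.den) := by
    constructor
    · intro h2
      have h1 : 1 ≤ padicValNat 2 r.num.natAbs :=
        one_le_padicValNat_of_dvd (Int.natAbs_ne_zero.2 hnum0) h2
      have h3 : 1 ≤ padicValNat 2 r.den := by
        have : (padicValInt 2 r.num : ℤ) = padicValNat 2 r.num.natAbs := rfl
        omega
      have h4 : 2 ∣ r.den := dvd_of_one_le_padicValNat h3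
      have h5 := Nat.Coprime.eq_one_of_dvd (hcop.coprime_dvd_left h2) h4
      omega
    · intro h2
      have h1 : 1 ≤ padicValNat 2 r.den := one_le_padicValNat_of_dvd hden0 h2
      have h3 : 1 ≤ padicValNat 2 r.num.natAbs := by
        have : (padicValInt 2 r.num : ℤ) = padicValNat 2 r.num.natAbs := rfl
        omega
      have h4 : 2 ∣ r.num.natAbs := dvd_of_one_le_padicValNat h3
      have h5 := Nat.Coprime.eq_one_of_dvd (hcop.coprime_dvd_left h4) h2
      omega
  constructor
  · rw [← Int.not_even_iff_odd, ← Int.natAbs_even, even_iff_two_dvd]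
    exact hcase.1
  · rw [← Int.not_even_iff_odd, Int.even_coe_nat, even_iff_two_dvd]
    exact hcase.2

/-- Two distinct rational numbers of `2`-adic valuation `0` are congruent modulo `2`. -/
theorem padicValRat_two_sub_pos {r s : ℚ} (hr : r ≠ 0) (hs : s ≠ 0) (hvr : padicValRat 2 r = 0)
    (hvs : padicValRat 2 s = 0) (hne : r ≠ s) : 0 < padicValRat 2 (r - s) := by
  haveI : Fact (Nat.Prime 2) := ⟨Nat.prime_two⟩
  obtain ⟨hrn, hrd⟩ := odd_num_den hr hvr
  obtain ⟨hsn, hsd⟩ := odd_num_den hs hvs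
  have hrd0 : (r.den : ℚ) ≠ 0 := by exact_mod_cast r.den_nz
  have hsd0 : (s.den : ℚ) ≠ 0 := by exact_mod_cast s.den_nz
  have e : r - s = ((r.num * s.den - s.num * r.den : ℤ) : ℚ) / ((r.den * s.den : ℤ) : ℚ) := by
    conv_lhs => rw [← Rat.num_div_den r, ← Rat.num_div_den s]
    push_cast
    field_simp
  have hA0 : (r.num * s.den - s.num * r.den : ℤ) ≠ 0 := by
    intro h0
    apply hne
    rw [← sub_eq_zero, e, h0]
    simp
  have hB0 : (r.den * s.den : ℤ) ≠ 0 := by
    have := r.den_nz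
    have := s.den_nz
    positivity
  have hAeven : (2 : ℤ) ∣ (r.num * s.den - s.num * r.den : ℤ) := by
    rw [← even_iff_two_dvd, Int.even_sub']
    constructor
    · intro _; exact hsn.mul hrd
    · intro _; exact hrn.mul hsd
  have hBodd : ¬ (2 : ℤ) ∣ (r.den * s.den : ℤ) := by
    rw [← even_iff_two_dvd, ← Int.not_odd_iff_even, not_not]
    exact hrd.mul hsd
  rw [e, padicValRat.div (by exact_mod_cast hA0) (by exact_mod_cast hB0), padicValRat.of_int,
    padicValRat.of_int]
  have h1 : padicValInt 2 (r.den * s.den : ℤ) = 0 := padicValInt.eq_zero_of_not_dvd hBodd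
  have h2 : 1 ≤ padicValInt 2 (r.num * s.den - s.num * r.den : ℤ) := by
    have h3 : ((2 : ℕ) : ℤ) ^ 1 ∣ (r.num * s.den - s.num * r.den : ℤ) := by simpa using hAeven
    have := (padicValInt_dvd_iff (p := 2) 1 (r.num * s.den - s.num * r.den : ℤ)).1 h3
    rcases this with h | h
    · exact absurd h hA0
    · exact h
  rw [h1]
  have : (1 : ℤ) ≤ (padicValInt 2 (r.num * s.den - s.num * r.den : ℤ) : ℤ) := by exact_mod_cast h2
  push_cast
  omega

section main

variable {K : Type*} [Field K] [DecidableEq K] [Algebra ℚ K] {W : Affine K} {v : RatVal K}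
  {c : K} {N : ℚ}

omit [Algebra ℚ K] in
/-- Multiples of a point of prime order. -/
theorem nsmul_ne_zero_of_prime {p : ℕ} (hp : p.Prime) {R : W.Point} (hR : R ≠ 0)
    (hpR : p • R = 0) {k : ℕ} (hk : ¬ p ∣ k) : k • R ≠ 0 := by
  haveI : Fact p.Prime := ⟨hp⟩
  have hord : addOrderOf R = p := addOrderOf_eq_prime hpR hR
  intro h0
  apply hk
  rw [← hord]
  exact addOrderOf_dvd_of_nsmul_eq_zero h0

/-- The unit case: a point of order `p` with rational unit x-coordinate whose double also has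
rational x-coordinate does not exist. -/
theorem unit_case (h : NodeSetup W v c N) (h2 : 0 < v.v (2 : K))
    (hvrat : ∀ r : ℚ, r ≠ 0 → v.v (algebraMap ℚ K r) = padicValRat 2 r)
    {p : ℕ} (hp : p.Prime) (hp5 : 5 ≤ p) {S : W.Point} (hS : S ≠ 0) (hpS : p • S = 0)
    (hx : Ex v (xc S) 0) (hr1 : ∃ r : ℚ, xc S = algebraMap ℚ K r)
    (hr2 : ∃ r : ℚ, xc ((2 : ℕ) • S) = algebraMap ℚ K r) : False := by
  have hp2 : p ≠ 2 := by omega
  have h2S : (2 : ℕ) • S ≠ 0 := nsmul_ne_zero_of_prime hp hS hpS (by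
    intro hd
    have := Nat.le_of_dvd (by norm_num) hd
    omega)
  have h3S : (3 : ℕ) • S ≠ 0 := nsmul_ne_zero_of_prime hp hS hpS (by
    intro hd
    have := Nat.le_of_dvd (by norm_num) hd
    omega)
  have hx2 : Ex v (xc ((2 : ℕ) • S)) 0 := E0_nsmul h h2 hp hp2 hS hpS hx 2 h2S
  have hx3 : Ex v (xc ((3 : ℕ) • S)) 0 := E0_nsmul h h2 hp hp2 hS hpS hx 3 h3S
  have e3 : (2 : ℕ) • S + S = (3 : ℕ) • S := (succ_nsmul S 2).symm
  have hne : xc ((2 : ℕ) • S) ≠ xc S := by
    intro he
    rcases eq_or_eq_neg_of_xc_eq h2S hS he with h1 | h1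
    · apply hS
      rw [two_nsmul] at h1
      exact add_eq_left.1 h1
    · apply h3S
      rw [← e3, h1, neg_add_cancel]
  obtain ⟨r1, hr1⟩ := hr1
  obtain ⟨r2, hr2⟩ := hr2
  have hr10 : r1 ≠ 0 := by
    rintro rfl
    apply hx.1
    rw [hr1, map_zero]
  have hr20 : r2 ≠ 0 := by
    rintro rfl
    apply hx2.1
    rw [hr2, map_zero]
  have hv1 : padicValRat 2 r1 = 0 := by
    have := hvrat r1 hr10
    rw [← hr1, hx.2] at this
    exact_mod_cast this.symm
  have hv2 : padicValRat 2 r2 = 0 := by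
    have := hvrat r2 hr20
    rw [← hr2, hx2.2] at this
    exact_mod_cast this.symm
  have hr12 : r2 ≠ r1 := by
    rintro rfl
    apply hne
    rw [hr1, hr2]
  have hpos := padicValRat_two_sub_pos hr20 hr10 hv2 hv1 hr12
  have hclose : 0 < v.v (xc ((2 : ℕ) • S) - xc S) := by
    rw [hr1, hr2, ← map_sub, hvrat _ (sub_ne_zero.2 hr12)]
    exact_mod_cast hpos
  obtain ⟨-, -, -, -, hk⟩ := ker_of_close h hS h2S hx hne hclose
  rcases hk with hk | hk
  · rw [e3, hx3.2] at hk
    exact lt_irrefl _ hk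
  · have e : (2 : ℕ) • S - S = S := by rw [two_nsmul, add_sub_cancel_right]
    rw [e, hx.2] at hk
    exact lt_irrefl _ hk

/-- **(L2b), abstract form.** On a curve with a node in b-form (`v(c) = N = p n - 4`, `b₂` a
unit, `0 < v(2)`, `v` restricting to the `2`-adic valuation on `ℚ`) there is no point of prime
order `p ≥ 5` all of whose multiples have rational x-coordinates. -/
theorem no_rational_torsion (h : NodeSetup W v c N) (h2 : 0 < v.v (2 : K))
    (hvrat : ∀ r : ℚ, r ≠ 0 → v.v (algebraMap ℚ K r) = padicValRat 2 r)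
    {p : ℕ} (hp : p.Prime) (hp5 : 5 ≤ p) (n : ℤ) (hN : N = p * n - 4)
    {R : W.Point} (hR : R ≠ 0) (hpR : p • R = 0)
    (hrat : ∀ k : ℕ, ∃ r : ℚ, xc (k • R) = algebraMap ℚ K r) : False := by
  have hp2 : p ≠ 2 := by omega
  have h2R : (2 : ℕ) • R ≠ 0 := nsmul_ne_zero_of_prime hp hR hpR (by
    intro hd
    have := Nat.le_of_dvd (by norm_num) hd
    omega)
  by_cases hnear : xc R = 0 ∨ N ≤ v.v (xc R)
  · rcases near_node h hR hnear with h0 | ⟨h1, h3, h4⟩
    · exact h2R h0
    · have hp2R : p • ((2 : ℕ) • R) = 0 := by rw [smul_comm, hpR, smul_zero]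
      have h5 := not_ker_of_torsion h h2 hp hp2 h1 hp2R h3
      have hx : Ex v (xc ((2 : ℕ) • R)) 0 := ⟨h3, le_antisymm h4 h5⟩
      refine unit_case h h2 hvrat hp hp5 h1 hp2R hx (hrat 2) ?_
      have h6 := hrat 4
      have e4 : (4 : ℕ) • R = (2 : ℕ) • ((2 : ℕ) • R) := by rw [← mul_nsmul]
      rwa [e4] at h6
  · push Not at hnear
    obtain ⟨hx0, hlt⟩ := hnear
    have hge := not_ker_of_torsion h h2 hp hp2 hR hpR hx0
    have hr1 : ∃ r : ℚ, xc R = algebraMap ℚ K r := by
      have h6 := hrat 1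
      rwa [one_nsmul] at h6
    rcases hge.eq_or_lt with h0 | hpos
    · exact unit_case h h2 hvrat hp hp5 hR hpR ⟨hx0, h0.symm⟩ hr1 (hrat 2)
    · obtain ⟨z, hz⟩ := Fermat.Agent.S13_Tent2.tent2_of h.hb₄ h.hb₆ h.hb₈ h.exc h.exb₂
        h.ge_two hR hx0 hpos hlt hpR
      obtain ⟨r, hr⟩ := hr1
      have hr0 : r ≠ 0 := by
        rintro rfl
        apply hx0
        rw [hr, map_zero]
      have hξ : v.v (xc R) = (padicValRat 2 r : ℚ) := by rw [hr, hvrat r hr0]
      rw [hξ] at hz hpos hlt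
      generalize padicValRat 2 r = k at hz hpos hlt
      rw [hN] at hz hlt
      have hz' : (p : ℤ) * k = 2 * z * (p * n - 4) := by exact_mod_cast hz
      have hpos' : (0 : ℤ) < k := by exact_mod_cast hpos
      have hlt' : k < p * n - 4 := by exact_mod_cast hlt
      have hpz : (p : ℤ) ∣ z := by
        have h1 : (p : ℤ) ∣ 8 * z := ⟨2 * z * n - k, by linarith⟩
        have hcop : IsCoprime (p : ℤ) ((8 : ℕ) : ℤ) := by
          rw [Nat.isCoprime_iff_coprime, Nat.Prime.coprime_iff_not_dvd hp]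
          intro hd
          have h8 : p ∣ 2 ^ 3 := by norm_num; exact hd
          have h9 := Nat.le_of_dvd (by norm_num) (hp.dvd_of_dvd_pow h8)
          omega
        exact hcop.dvd_of_dvd_mul_left (by exact_mod_cast h1)
      obtain ⟨z', rfl⟩ := hpz
      have hk' : k = 2 * z' * (p * n - 4) := by
        have hp0 : (p : ℤ) ≠ 0 := by exact_mod_cast hp.ne_zero
        apply mul_left_cancel₀ hp0
        rw [hz']; ring
      have hM : (0 : ℤ) < p * n - 4 := by linarith
      have hz1 : 0 < z' := by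
        by_contra hc
        push Not at hc
        nlinarith
      nlinarith

end main

section frey

open WeierstrassCurve.Affine.Point FreyPackage

/-- The x-coordinate commutes with the Galois action on points. -/
theorem xc_smul (W' : WeierstrassCurve ℚ)
    (σ : AlgebraicClosure ℚ ≃ₐ[ℚ] AlgebraicClosure ℚ) (R : (W'⁄(AlgebraicClosure ℚ)).Point) :
    xc (σ • R) = σ (xc R) := by
  rcases R with _ | ⟨x, y, h⟩
  · show (0 : AlgebraicClosure ℚ) = σ 0
    rw [_root_.map_zero]
  · rw [algEquiv_smul_def, Point.map_some]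
    rfl

/-- **(L2b) for the Frey curve.** No nonzero `p`-torsion point of the Frey curve is fixed by the
whole absolute Galois group of `ℚ`. -/
theorem exists_not_fixed (P : FreyPackage) (R : (P.freyCurve⁄(AlgebraicClosure ℚ)).Point)
    (hR : R ≠ 0) (hpR : P.p • R = 0) :
    ∃ σ : AlgebraicClosure ℚ ≃ₐ[ℚ] AlgebraicClosure ℚ, σ • R ≠ R := by
  by_contra hcon
  push Not at hcon
  obtain ⟨A, hA⟩ := Fermat.Agent.S54_Frob.exists_valuationSubring_liesOver
    (AlgebraicClosure ℚ) 2 Nat.prime_two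
  haveI : Algebra.IsAlgebraic ℚ (AlgebraicClosure ℚ) := AlgebraicClosure.isAlgebraic ℚ
  have hvrat : ∀ r : ℚ, r ≠ 0 →
      (Fermat.Agent.S05_Val.ratVal hA Nat.prime_two).v (algebraMap ℚ (AlgebraicClosure ℚ) r) =
        padicValRat 2 r :=
    fun r hr => Fermat.Agent.S05_Val.ratVal_ratCast hA Nat.prime_two hr
  have h := Fermat.Agent.S13_Frey2.nodeSetup P _ hvrat
  have h2 := Fermat.Agent.S13_Frey2.v_two_pos _ hvrat
  refine no_rational_torsion h h2 hvrat P.pp P.hp5 (Fermat.Agent.S13_Frey2.vb P : ℤ) ?_ hR hpR ?_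
  · simp [Fermat.Agent.S13_Frey2.N2]
  · intro k
    obtain ⟨r, hr⟩ := Fermat.Agent.S13_Minkowski.exists_rat_of_fixed (xc (k • R)) (by
      intro σ
      have e : σ • (k • R) = k • (σ • R) :=
        _root_.map_nsmul (Point.map (W' := P.freyCurve) σ.toAlgHom) k R
      rw [← xc_smul, e, hcon σ])
    exact ⟨r, hr.symm⟩

end frey

end Fermat.Agent.S13_L2b
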