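-- Helper for S13 (block Lp, step p.1): the kernel of reduction {v(X) < 0} is closed under
-- subtraction (x-coordinate calculus only; no hypothesis on the residue characteristic besides
-- v(2) = 0).
import Mathlib
import Fermat.Agent.S05_Basic
import Fermat.Agent.S05_Ker

set_option autoImplicit false

namespace Fermat.Agent.S13_Lp

open WeierstrassCurve WeierstrassCurve.Affine
open Fermat.Agent.S05_RatVal Fermat.Agent.S05_Basic

variable {K : Type*} [Field K] [DecidableEq K] {W : Affine K} {e D E : K} {v : RatVal K}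

/-- If `R` and `R'` both lie in the kernel of reduction, then `R' = R` or `R' - R` lies in the
kernel of reduction. -/
theorem sub_mem_ker (h : Setup W e D E v) {R R' : W.Point} (hR : R ≠ 0) (hR' : R' ≠ 0)
    (hX : Xc W e R ≠ 0) (hv : v.v (Xc W e R) < 0)
    (hX' : Xc W e R' ≠ 0) (hv' : v.v (Xc W e R') < 0) :
    R' = R ∨ (R' - R ≠ 0 ∧ Xc W e (R' - R) ≠ 0 ∧ v.v (Xc W e (R' - R)) < 0) := by
  have hS := h.toSplit
  by_cases hXX : Xc W e R' = Xc W e R
  · rcases eq_or_eq_neg_of_Xc_eq hR' hR hXX with h1 | h1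
    · exact Or.inl h1
    · right
      obtain ⟨d1, d2, d3, -⟩ := S05_Ker.dbl h hR hX hv
      have hsub : R' - R = -(R + R) := by rw [h1]; abel
      rw [hsub]
      refine ⟨neg_ne_zero.2 d1, ?_, ?_⟩
      · rw [Xc_neg]; exact d2
      · rw [Xc_neg, d3]; exact hv
  right
  obtain ⟨hsub0, -⟩ := Xc_sub hS hR' hR hXX
  have hprod := Xc_add_mul_Xc_sub hS hR' hR hXX
  have hsum := Xc_add_add_Xc_sub hS hR' hR hXX
  set X := Xc W e R' with hXdef
  set Y := Xc W e R with hYdef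
  set A := Xc W e (R' + R) with hAdef
  set B := Xc W e (R' - R) with hBdef
  have hXY0 : X * Y ≠ 0 := mul_ne_zero hX' hX
  have hvXY : v.v (X * Y) = v.v X + v.v Y := v.v_mul _ _ hX' hX
  have hDE0 : D * E ≠ 0 := mul_ne_zero h.D_ne h.E_ne
  have hvDE : 0 ≤ v.v (D * E) := by
    rw [v.v_mul _ _ h.D_ne h.E_ne, h.vE]; linarith [h.vD]
  have hq := v.v_sub_of_lt hXY0 hDE0 (by rw [hvXY]; linarith)
  have hd0 : X - Y ≠ 0 := sub_ne_zero.2 hXX
  have hd20 : (X - Y) ^ 2 ≠ 0 := pow_ne_zero 2 hd0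
  have hrhs0 : (X * Y - D * E) ^ 2 ≠ 0 := pow_ne_zero 2 hq.1
  have hAB0 : A * B ≠ 0 := by
    intro h0
    apply hrhs0
    rw [← hprod, h0, zero_mul]
  have hA0 : A ≠ 0 := left_ne_zero_of_mul hAB0
  have hB0 : B ≠ 0 := right_ne_zero_of_mul hAB0
  refine ⟨hsub0, hB0, ?_⟩
  -- valuations in the product formula
  have hvprod : v.v A + v.v B + 2 * v.v (X - Y) = 2 * (v.v X + v.v Y) := by
    have h1 := congrArg v.v hprod
    rw [v.v_mul _ _ hAB0 hd20, v.v_mul _ _ hA0 hB0, v.v_pow hd0, v.v_pow hq.1, hq.2, hvXY] at h1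
    push_cast at h1
    linarith
  have hdge : min (v.v X) (v.v Y) ≤ v.v (X - Y) := v.v_sub_ge hX' hX hd0
  by_contra hBge
  have hBge' : 0 ≤ v.v B := not_lt.1 hBge
  -- `v(A) < v(B)`
  have hmin : min (v.v X) (v.v Y) + max (v.v X) (v.v Y) = v.v X + v.v Y := min_add_max _ _
  have hmax : max (v.v X) (v.v Y) < 0 := max_lt hv' hv
  have hAlt : v.v A < v.v B := by linarith
  have hABs := v.v_add_of_lt hA0 hB0 hAlt
  -- the sum formula
  have hXge : v.Ge X (min (v.v X) (v.v Y)) := RatVal.ge_of_ne (min_le_left _ _)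
  have hYge : v.Ge Y (min (v.v X) (v.v Y)) := RatVal.ge_of_ne (min_le_right _ _)
  have hDge : v.Ge D 0 := RatVal.ge_of_ne h.vD
  have hEge : v.Ge E 0 := RatVal.ge_of_ne h.vE.ge
  have h2ge : v.Ge (2 : K) 0 := RatVal.ge_of_ne h.v_two.ge
  have h4 := S05_Ker.four_ne h
  have h4ge : v.Ge (4 : K) 0 := RatVal.ge_of_ne h4.2.ge
  have hXYge : v.Ge (X * Y) (v.v X + v.v Y) := RatVal.ge_of_ne (le_of_eq hvXY.symm)
  have hDEge : v.Ge (D * E) (v.v X + v.v Y) :=
    (RatVal.ge_of_ne (v := v) hvDE).mono (by linarith)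
  have hmle : min (v.v X) (v.v Y) ≤ 0 := le_trans (min_le_left _ _) hv'.le
  have t1 : v.Ge (2 * (X + Y) * (X * Y + D * E))
      (min (v.v X) (v.v Y) + (v.v X + v.v Y)) := by
    have := (h2ge.mul (hXge.add hYge)).mul (hXYge.add hDEge)
    rwa [zero_add] at this
  have t2 : v.Ge (4 * (D + E) * (X * Y)) (min (v.v X) (v.v Y) + (v.v X + v.v Y)) := by
    have := (h4ge.mul (hDge.add hEge)).mul hXYge
    rw [zero_add, zero_add] at this
    exact this.mono (by linarith)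
  have hrhs := t1.sub t2
  rw [← hsum] at hrhs
  have hlhs0 : (A + B) * (X - Y) ^ 2 ≠ 0 := mul_ne_zero hABs.1 hd20
  have h3 := hrhs.le_v hlhs0
  rw [v.v_mul _ _ hABs.1 hd20, hABs.2, v.v_pow hd0] at h3
  push_cast at h3
  linarith
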