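-- Helper for S13 (block Lp, step p.2): the abstract theorem of S05 without the hypothesis
-- v(p) = 0: for a p-torsion point `Pt` and `σ` in inertia, either `σ Pt = Pt` or `σ Pt - Pt`
-- lies in the kernel of reduction.
import Mathlib
import Fermat.Agent.S05_Abstract
import Fermat.Agent.S13_LpKer

set_option autoImplicit false

namespace Fermat.Agent.S13_Lp

open WeierstrassCurve WeierstrassCurve.Affine
open Fermat.Agent.S05_RatVal Fermat.Agent.S05_Basic Fermat.Agent.S05_Abstract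

variable {K : Type*} [Field K] [DecidableEq K] [Algebra ℚ K]

variable {W' : WeierstrassCurve ℚ} {e D E : ℚ} {v : RatVal K}

theorem map_eq_or_ker
    (h : Setup (W'⁄K) (algebraMap ℚ K e) (algebraMap ℚ K D) (algebraMap ℚ K E) v)
    (σ : K ≃ₐ[ℚ] K) (hσv : ∀ x : K, v.v (σ x) = v.v x)
    (hσ : ∀ x : K, x ≠ 0 → 0 ≤ v.v x → v.Gt (σ x - x) 0)
    (p : ℕ) (hp : (p : K) ≠ 0)
    (hcase : v.v (algebraMap ℚ K D) = 0 ∨
      ∃ d : ℚ, d ≠ 0 ∧ v.v (algebraMap ℚ K D) = p * v.v (algebraMap ℚ K d))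
    (Pt : (W'⁄K).Point) (hPt : p • Pt = 0) :
    Point.map (W' := W') σ.toAlgHom Pt = Pt ∨
      (Point.map (W' := W') σ.toAlgHom Pt - Pt ≠ 0 ∧
        Xc (W'⁄K) (algebraMap ℚ K e) (Point.map (W' := W') σ.toAlgHom Pt - Pt) ≠ 0 ∧
        v.v (Xc (W'⁄K) (algebraMap ℚ K e) (Point.map (W' := W') σ.toAlgHom Pt - Pt)) < 0) := by
  have hS := h.toSplit
  have hσ' : ∀ x : K, v.Ge x 0 → v.Gt (σ x - x) 0 := by
    intro x hx
    by_cases hx0 : x = 0
    · left; rw [hx0, map_zero, sub_zero]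
    · exact hσ x hx0 (hx.le_v hx0)
  -- congruence of `τ R` and `R` for integral `R`
  have hcong : ∀ R : (W'⁄K).Point, R ≠ 0 → v.Ge (Xc (W'⁄K) (algebraMap ℚ K e) R) 0 →
      v.Gt (Xc (W'⁄K) (algebraMap ℚ K e) (Point.map (W' := W') σ.toAlgHom R) -
        Xc (W'⁄K) (algebraMap ℚ K e) R) 0 ∧
      v.Gt (Eta (W'⁄K) (Point.map (W' := W') σ.toAlgHom R) - Eta (W'⁄K) R) 0 := by
    intro R hR hX
    rw [Xc_map, Eta_map]
    exact ⟨hσ' _ hX, hσ' _ (eta_ge h hR hX)⟩
  by_cases hPt0 : Pt = 0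
  · left; rw [hPt0]; exact map_zero _
  have hτne : Point.map (W' := W') σ.toAlgHom Pt ≠ 0 := map_ne_zero W' σ hPt0
  set X := Xc (W'⁄K) (algebraMap ℚ K e) Pt with hXdef
  by_cases hXint : v.Ge X 0
  swap
  · -- `Pt` itself is in the kernel of reduction: impossible
    have hX0 : X ≠ 0 := fun h0 => hXint (Or.inl h0)
    have hXneg : v.v X < 0 := by
      by_contra hge
      exact hXint (Or.inr (not_lt.1 hge))
    have hσX0 : Xc (W'⁄K) (algebraMap ℚ K e) (Point.map (W' := W') σ.toAlgHom Pt) ≠ 0 := by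
      rw [Xc_map, Ne, map_eq_zero_iff _ σ.injective]; exact hX0
    have hσXneg : v.v (Xc (W'⁄K) (algebraMap ℚ K e) (Point.map (W' := W') σ.toAlgHom Pt)) < 0 := by
      rw [Xc_map, hσv]; exact hXneg
    exact sub_mem_ker h hPt0 hτne hX0 hXneg hσX0 hσXneg
  by_cases hD0 : v.v (algebraMap ℚ K D) = 0
  · -- good reduction
    obtain ⟨c1, c2⟩ := hcong Pt hPt0 hXint
    exact S05_Cong.sub_mem_ker_of_nonsing h hPt0 hτne hXint (Or.inl hD0) c1 c2
  -- multiplicative reduction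
  have hDpos : 0 < v.v (algebraMap ℚ K D) := lt_of_le_of_ne h.vD (Ne.symm hD0)
  obtain ⟨d, hd0, hd⟩ := hcase.resolve_left hD0
  by_cases hXunit : X ≠ 0 ∧ v.v X = 0
  · obtain ⟨c1, c2⟩ := hcong Pt hPt0 hXint
    exact S05_Cong.sub_mem_ker_of_nonsing h hPt0 hτne hXint (Or.inr hXunit) c1 c2
  by_cases hXmid : X ≠ 0 ∧ v.v X < v.v (algebraMap ℚ K D)
  · -- the intermediate case
    obtain ⟨hX0, hXlt⟩ := hXmid
    have hXpos : 0 < v.v X := by
      have h1 := hXint.le_v hX0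
      rcases h1.lt_or_eq with h2 | h2
      · exact h2
      · exact absurd ⟨hX0, h2.symm⟩ hXunit
    obtain ⟨z, hz⟩ := S05_Tent.tent h hDpos hPt0 hX0 hXpos hXlt hPt
    have hpQ : (p : ℚ) ≠ 0 := by
      intro h0
      apply hp
      have : p = 0 := by exact_mod_cast h0
      rw [this]; simp
    have hdK : algebraMap ℚ K d ≠ 0 := by
      rw [Ne, map_eq_zero_iff _ (algebraMap ℚ K).injective]; exact hd0
    have hvX : v.v X = 2 * z * v.v (algebraMap ℚ K d) := by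
      rw [hd] at hz
      have : (p : ℚ) * v.v X = p * (2 * z * v.v (algebraMap ℚ K d)) := by rw [hz]; ring
      exact mul_left_cancel₀ hpQ this
    set c : K := (algebraMap ℚ K d) ^ (2 * z) with hc
    have hc0 : c ≠ 0 := zpow_ne_zero _ hdK
    have hvc : v.v c = v.v X := by
      rw [hc, v.v_zpow hdK, hvX]; push_cast; ring
    have hσc : σ c = c := by
      rw [hc, map_zpow₀, AlgEquiv.commutes]
    -- `σ X - X`
    have hu0 : X / c ≠ 0 := div_ne_zero hX0 hc0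
    have hvu : v.v (X / c) = 0 := by rw [v.v_div hX0 hc0, hvc]; ring
    have hσu := hσ (X / c) hu0 hvu.ge
    have hXX : σ X - X = c * (σ (X / c) - X / c) := by
      rw [map_div₀, hσc]; field_simp
    have hGX : v.Gt (σ X - X) (v.v X) := by
      rw [hXX]
      have := (RatVal.ge_of_ne (v := v) (x := c) (le_refl _)).mul_gt hσu
      rw [hvc, add_zero] at this
      exact this
    -- `η`
    have hDK0 : algebraMap ℚ K D ≠ 0 := h.D_ne
    have hEK0 : algebraMap ℚ K E ≠ 0 := h.E_ne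
    have hXD := v.v_sub_of_lt hX0 hDK0 hXlt
    have hXE := v.v_sub_of_gt hX0 hEK0 (by rw [h.vE]; exact hXpos)
    have h4 := four_ne h
    have hsq := Eta_sq hS Pt hPt0
    rw [← hXdef] at hsq
    have hη2 : Eta (W'⁄K) Pt ^ 2 ≠ 0 := by
      rw [hsq]
      exact mul_ne_zero (mul_ne_zero (mul_ne_zero h4.1 hX0) hXD.1) hXE.1
    have hη0 : Eta (W'⁄K) Pt ≠ 0 := fun h0 => hη2 (by rw [h0]; ring)
    have hvη : v.v (Eta (W'⁄K) Pt) = v.v X := by
      have h1 : v.v (Eta (W'⁄K) Pt ^ 2) = 2 * v.v X := by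
        rw [hsq, v.v_mul _ _ (mul_ne_zero (mul_ne_zero h4.1 hX0) hXD.1) hXE.1,
          v.v_mul _ _ (mul_ne_zero h4.1 hX0) hXD.1, v.v_mul _ _ h4.1 hX0, h4.2, hXD.2, hXE.2,
          h.vE]
        ring
      rw [v.v_pow hη0] at h1
      push_cast at h1
      linarith
    set η := Eta (W'⁄K) Pt with hηdef
    have hw0 : η / X ≠ 0 := div_ne_zero hη0 hX0
    have hvw : v.v (η / X) = 0 := by rw [v.v_div hη0 hX0, hvη]; ring
    have hσw := hσ (η / X) hw0 hvw.ge
    have hηη : σ η - η = (σ (η / X) - η / X) * σ X + η / X * (σ X - X) := by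
      rw [map_div₀]
      have hσX0 : σ X ≠ 0 := by
        rw [Ne, map_eq_zero_iff _ σ.injective]; exact hX0
      field_simp
      ring
    have hGη : v.Gt (σ η - η) (v.v X) := by
      rw [hηη]
      have hσX0 : σ X ≠ 0 := by
        rw [Ne, map_eq_zero_iff _ σ.injective]; exact hX0
      have t1 := hσw.mul_ge (RatVal.ge_of_ne (v := v) (x := σ X) (le_of_eq (hσv X).symm))
      have t2 := (RatVal.ge_of_ne (v := v) (x := η / X) hvw.ge).mul_gt hGX
      rw [zero_add] at t1 t2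
      exact t1.add t2
    have c1 : v.Gt (Xc (W'⁄K) (algebraMap ℚ K e) (Point.map (W' := W') σ.toAlgHom Pt) - X)
        (v.v X) := by
      rw [Xc_map]; exact hGX
    have c2 : v.Gt (Eta (W'⁄K) (Point.map (W' := W') σ.toAlgHom Pt) - η) (v.v X) := by
      rw [Eta_map]; exact hGη
    exact S05_Cong.sub_mem_ker_of_mid h hPt0 hτne hX0 hXpos hXlt c1 c2
  -- remaining case: `X = 0` or `v(D) ≤ v(X)`; translate by the 2-torsion point
  obtain ⟨T0, hT0, hT0X, hT0η, hT0T0⟩ := exists_T0 hS h.D_ne h.E_ne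
  have hτT0 : Point.map (W' := W') σ.toAlgHom T0 = T0 := by
    apply eq_of_Xc_eq_of_Eta_eq hS (map_ne_zero W' σ hT0) hT0
    · rw [Xc_map, hT0X, map_zero]
    · rw [Eta_map, hT0η, map_zero]
  have hnegT0 : -T0 = T0 := by
    rw [neg_eq_iff_add_eq_zero]; exact hT0T0
  by_cases hX0 : X = 0
  · left
    have : Pt = T0 := by
      rcases eq_or_eq_neg_of_Xc_eq (e := algebraMap ℚ K e) hPt0 hT0
        (by rw [← hXdef, hX0, hT0X]) with h1 | h1
      · exact h1
      · rw [h1, hnegT0]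
    rw [this]; exact hτT0
  have hXge : v.v (algebraMap ℚ K D) ≤ v.v X := by
    by_contra hlt
    exact hXmid ⟨hX0, not_le.1 hlt⟩
  obtain ⟨hP'0, hP'X⟩ := Xc_add_T0 hS hT0 hT0X hT0η hPt0 hX0
  set Pt' := Pt + T0 with hPt'
  set X' := Xc (W'⁄K) (algebraMap ℚ K e) Pt' with hX'def
  have hDE0 : algebraMap ℚ K D * algebraMap ℚ K E ≠ 0 := mul_ne_zero h.D_ne h.E_ne
  have hX'0 : X' ≠ 0 := by
    intro h0
    rw [h0, zero_mul] at hP'X
    exact hDE0 hP'X.symm
  have hvX' : v.v X' = v.v (algebraMap ℚ K D) - v.v X := by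
    have h1 := v.v_mul X' X hX'0 hX0
    rw [hP'X, v.v_mul _ _ h.D_ne h.E_ne, h.vE] at h1
    linarith
  have h2p : (2 * p) • Pt' = 0 := by
    have h1 : (2 * p) • Pt = 0 := by rw [mul_nsmul', hPt, smul_zero]
    have h2 : (2 * p) • T0 = 0 := by rw [mul_nsmul, two_nsmul, hT0T0, smul_zero]
    rw [hPt', smul_add, h1, h2, add_zero]
  have hτdiff : Point.map (W' := W') σ.toAlgHom Pt' - Pt' =
      Point.map (W' := W') σ.toAlgHom Pt - Pt := by
    rw [hPt', map_add, hτT0]; abel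
  have hτP'ne0 : Point.map (W' := W') σ.toAlgHom Pt' ≠ 0 := map_ne_zero W' σ hP'0
  by_cases hX'neg : v.v X' < 0
  · have hσX0 : Xc (W'⁄K) (algebraMap ℚ K e) (Point.map (W' := W') σ.toAlgHom Pt') ≠ 0 := by
      rw [Xc_map, Ne, map_eq_zero_iff _ σ.injective]; exact hX'0
    have hσXneg : v.v (Xc (W'⁄K) (algebraMap ℚ K e) (Point.map (W' := W') σ.toAlgHom Pt')) < 0 := by
      rw [Xc_map, hσv]; exact hX'neg
    rcases sub_mem_ker h hP'0 hτP'ne0 hX'0 hX'neg hσX0 hσXneg with h1 | h1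
    · left
      have := sub_eq_zero.2 h1
      rw [hτdiff] at this
      exact sub_eq_zero.1 this
    · right
      rw [hτdiff] at h1
      exact h1
  have hvX'0 : v.v X' = 0 := by
    have : v.v X' ≤ 0 := by rw [hvX']; linarith
    exact le_antisymm this (not_lt.1 hX'neg)
  have hX'int : v.Ge X' 0 := RatVal.ge_of_ne hvX'0.ge
  obtain ⟨c1, c2⟩ := hcong Pt' hP'0 hX'int
  have hτP'ne : Point.map (W' := W') σ.toAlgHom Pt' ≠ 0 := map_ne_zero W' σ hP'0
  rcases S05_Cong.sub_mem_ker_of_nonsing h hP'0 hτP'ne hX'int (Or.inr ⟨hX'0, hvX'0⟩) c1 c2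
    with h1 | h1
  · left
    have := sub_eq_zero.2 h1
    rw [hτdiff] at this
    exact sub_eq_zero.1 this
  · right
    rw [hτdiff] at h1
    exact h1

end Fermat.Agent.S13_Lp
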