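-- Helper for S13 (block Lp): instantiation of the abstract theorem (p.2) for the Frey curve at
-- an odd prime `q` (in particular at `q = p`): for a `p`-torsion point `Pt` and `σ` in the inertia
-- group of a valuation subring over `q`, either `σ Pt = Pt` or `σ Pt - Pt` is a nonzero point
-- whose x-coordinate has negative valuation.
import Fermat.Agent.S05
import Fermat.Agent.S13_LpAbs

set_option autoImplicit false
open WeierstrassCurve WeierstrassCurve.Affine WeierstrassCurve.Affine.Point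
open FreyPackage

namespace Fermat.Agent.S13_Lp

open Fermat.Agent.S05_RatVal Fermat.Agent.S05_Basic Fermat.Agent.S05

/-- `ℚ̄` is algebraic over `ℚ` (for the `ℚ`-algebra structure found by instance search). -/
theorem isAlgebraic_ratBar : Algebra.IsAlgebraic ℚ (AlgebraicClosure ℚ) :=
  AlgebraicClosure.isAlgebraic ℚ

attribute [local instance] isAlgebraic_ratBar

/-- passing from the shifted x-coordinate to the plain one in the kernel of reduction -/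
theorem ker_shift {K : Type*} [Field K] {W : Affine K} {v : RatVal K} {e : K}
    (he : v.Ge e 0) {R : W.Point} (hR : R ≠ 0) (hX : Xc W e R ≠ 0)
    (hv : v.v (Xc W e R) < 0) : Xc W 0 R ≠ 0 ∧ v.v (Xc W 0 R) < 0 := by
  rcases R with _ | ⟨x, y, h⟩
  · exact absurd rfl hR
  simp only [Xc_some] at hX hv ⊢
  by_cases he0 : e = 0
  · rw [he0] at hX hv
    exact ⟨hX, hv⟩
  · have h1 := v.v_add_of_lt hX he0 (lt_of_lt_of_le hv (he.le_v he0))
    have h2 : x - e + e = x - 0 := by ring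
    rw [h2] at h1
    exact ⟨h1.1, by rw [h1.2]; exact hv⟩

/-- The Frey curve satisfies the `Setup` hypotheses at every odd prime `q`. -/
theorem frey_exists_setup (P : FreyPackage) {q : ℕ} (hq : q.Prime) (hq2 : q ≠ 2)
    (v : RatVal (AlgebraicClosure ℚ))
    (hvrat : ∀ r : ℚ, r ≠ 0 → v.v (algebraMap ℚ (AlgebraicClosure ℚ) r) = padicValRat q r) :
    ∃ e D E : ℚ,
      Setup (P.freyCurve⁄(AlgebraicClosure ℚ)) (algebraMap ℚ (AlgebraicClosure ℚ) e)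
        (algebraMap ℚ (AlgebraicClosure ℚ) D) (algebraMap ℚ (AlgebraicClosure ℚ) E) v ∧
      v.Ge (algebraMap ℚ (AlgebraicClosure ℚ) e) 0 ∧
      (v.v (algebraMap ℚ (AlgebraicClosure ℚ) D) = 0 ∨
        ∃ d : ℚ, d ≠ 0 ∧ v.v (algebraMap ℚ (AlgebraicClosure ℚ) D) =
          P.p * v.v (algebraMap ℚ (AlgebraicClosure ℚ) d)) := by
  have : Fact q.Prime := ⟨hq⟩
  have hv2 : v.v (2 : AlgebraicClosure ℚ) = 0 := by
    have h1 : ¬ q ∣ 2 := by
      intro h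
      exact hq2 ((Nat.prime_dvd_prime_iff_eq hq Nat.prime_two).1 h)
    have h2 : (2 : AlgebraicClosure ℚ) = algebraMap ℚ (AlgebraicClosure ℚ) ((2 : ℕ) : ℚ) := by
      simp
    rw [h2, hvrat _ (by norm_num), padicValRat.of_nat, padicValNat.eq_zero_of_not_dvd h1]
    rfl
  have ha0 : (P.a : ℚ) ≠ 0 := by exact_mod_cast P.ha0
  have hb0 : (P.b : ℚ) ≠ 0 := by exact_mod_cast P.hb0
  have hc0 : (P.c : ℚ) ≠ 0 := by exact_mod_cast P.hc0
  have hA0 : (P.a : ℚ) ^ P.p ≠ 0 := pow_ne_zero _ ha0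
  have hB0 : (P.b : ℚ) ^ P.p ≠ 0 := pow_ne_zero _ hb0
  have hC0 : (P.c : ℚ) ^ P.p ≠ 0 := pow_ne_zero _ hc0
  have hflt := frey_flt P
  have hb2 := frey_b₂ P
  have hb4 := frey_b₄ P
  have hb6 := frey_b₆ P
  by_cases hqb : (q : ℤ) ∣ P.b
  · -- `q ∣ b`
    have hqa : ¬ (q : ℤ) ∣ P.a := fun h => not_dvd_of_gcd P.hgcdab hq h hqb
    have hqc : ¬ (q : ℤ) ∣ P.c := not_dvd_of_gcd P.hgcdbc hq hqb
    have hD : -(P.b : ℚ) ^ P.p / 4 ≠ 0 := div_ne_zero (neg_ne_zero.2 hB0) (by norm_num)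
    have hE : (P.a : ℚ) ^ P.p / 4 ≠ 0 := div_ne_zero hA0 (by norm_num)
    have hDEeq : -(P.b : ℚ) ^ P.p / 4 - (P.a : ℚ) ^ P.p / 4 = -(P.c : ℚ) ^ P.p / 4 := by
      rw [← hflt]; ring
    have hDE : -(P.b : ℚ) ^ P.p / 4 - (P.a : ℚ) ^ P.p / 4 ≠ 0 := by
      rw [hDEeq]; exact div_ne_zero (neg_ne_zero.2 hC0) (by norm_num)
    have hsetup := setup_of P v 0 (-(P.b : ℚ) ^ P.p / 4) ((P.a : ℚ) ^ P.p / 4)
      (by rw [hb2]; ring) (by rw [hb4]; ring) (by rw [hb6]; ring) hv2 hD hE hDE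
      (by rw [hvrat _ hD, pv_neg_pow_div hq2 P.hb0]
          exact_mod_cast mul_nonneg (Int.natCast_nonneg P.p) (pv_int_nonneg _))
      (by rw [hvrat _ hE, pv_pow_div hq2 P.ha0, pv_int_eq_zero hqa, mul_zero, Int.cast_zero])
      (by rw [hvrat _ hDE, hDEeq, pv_neg_pow_div hq2 P.hc0, pv_int_eq_zero hqc, mul_zero, Int.cast_zero])
    refine ⟨0, _, _, hsetup, Or.inl (map_zero _), Or.inr ⟨(P.b : ℚ), hb0, ?_⟩⟩
    rw [hvrat _ hD, hvrat _ hb0, pv_neg_pow_div hq2 P.hb0, Int.cast_mul, Int.cast_natCast]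
  · by_cases hqc : (q : ℤ) ∣ P.c
    · -- `q ∣ c`
      have hqa : ¬ (q : ℤ) ∣ P.a := fun h => not_dvd_of_gcd P.hgcdac hq h hqc
      have hD : -(P.c : ℚ) ^ P.p / 4 ≠ 0 := div_ne_zero (neg_ne_zero.2 hC0) (by norm_num)
      have hE : -(P.a : ℚ) ^ P.p / 4 ≠ 0 := div_ne_zero (neg_ne_zero.2 hA0) (by norm_num)
      have he : (P.a : ℚ) ^ P.p / 4 ≠ 0 := div_ne_zero hA0 (by norm_num)
      have hDEeq : -(P.c : ℚ) ^ P.p / 4 - -(P.a : ℚ) ^ P.p / 4 = -(P.b : ℚ) ^ P.p / 4 := by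
        rw [← hflt]; ring
      have hDE : -(P.c : ℚ) ^ P.p / 4 - -(P.a : ℚ) ^ P.p / 4 ≠ 0 := by
        rw [hDEeq]; exact div_ne_zero (neg_ne_zero.2 hB0) (by norm_num)
      have hsetup := setup_of P v ((P.a : ℚ) ^ P.p / 4) (-(P.c : ℚ) ^ P.p / 4)
        (-(P.a : ℚ) ^ P.p / 4)
        (by rw [hb2, ← hflt]; ring) (by rw [hb4, ← hflt]; ring) (by rw [hb6]; ring) hv2 hD hE hDE
        (by rw [hvrat _ hD, pv_neg_pow_div hq2 P.hc0]
            exact_mod_cast mul_nonneg (Int.natCast_nonneg P.p) (pv_int_nonneg _))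
        (by rw [hvrat _ hE, pv_neg_pow_div hq2 P.ha0, pv_int_eq_zero hqa, mul_zero, Int.cast_zero])
        (by rw [hvrat _ hDE, hDEeq, pv_neg_pow_div hq2 P.hb0, pv_int_eq_zero hqb, mul_zero, Int.cast_zero])
      refine ⟨_, _, _, hsetup, Or.inr ?_, Or.inr ⟨(P.c : ℚ), hc0, ?_⟩⟩
      · rw [hvrat _ he, pv_pow_div hq2 P.ha0]
        exact_mod_cast mul_nonneg (Int.natCast_nonneg P.p) (pv_int_nonneg _)
      · rw [hvrat _ hD, hvrat _ hc0, pv_neg_pow_div hq2 P.hc0, Int.cast_mul, Int.cast_natCast]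
    · -- `q ∤ b`, `q ∤ c`
      have hD : (P.a : ℚ) ^ P.p / 4 ≠ 0 := div_ne_zero hA0 (by norm_num)
      have hE : -(P.b : ℚ) ^ P.p / 4 ≠ 0 := div_ne_zero (neg_ne_zero.2 hB0) (by norm_num)
      have hDEeq : (P.a : ℚ) ^ P.p / 4 - -(P.b : ℚ) ^ P.p / 4 = (P.c : ℚ) ^ P.p / 4 := by
        rw [← hflt]; ring
      have hDE : (P.a : ℚ) ^ P.p / 4 - -(P.b : ℚ) ^ P.p / 4 ≠ 0 := by
        rw [hDEeq]; exact div_ne_zero hC0 (by norm_num)
      have hsetup := setup_of P v 0 ((P.a : ℚ) ^ P.p / 4) (-(P.b : ℚ) ^ P.p / 4)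
        (by rw [hb2]; ring) (by rw [hb4]; ring) (by rw [hb6]; ring) hv2 hD hE hDE
        (by rw [hvrat _ hD, pv_pow_div hq2 P.ha0]
            exact_mod_cast mul_nonneg (Int.natCast_nonneg P.p) (pv_int_nonneg _))
        (by rw [hvrat _ hE, pv_neg_pow_div hq2 P.hb0, pv_int_eq_zero hqb, mul_zero, Int.cast_zero])
        (by rw [hvrat _ hDE, hDEeq, pv_pow_div hq2 P.hc0, pv_int_eq_zero hqc, mul_zero, Int.cast_zero])
      refine ⟨0, _, _, hsetup, Or.inl (map_zero _), Or.inr ⟨(P.a : ℚ), ha0, ?_⟩⟩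
      rw [hvrat _ hD, hvrat _ ha0, pv_pow_div hq2 P.ha0, Int.cast_mul, Int.cast_natCast]

/-- (p.2) for the Frey curve: for `A` over an odd prime `q`, `σ` in its inertia group and a
`p`-torsion point `Pt`: `σ Pt = Pt`, or `σ Pt - Pt` is a nonzero point whose x-coordinate has
negative valuation. -/
theorem frey_map_eq_or_ker (P : FreyPackage) {q : ℕ} (hq : q.Prime) (hq2 : q ≠ 2)
    {A : ValuationSubring (AlgebraicClosure ℚ)} (hA : A.LiesOverPrime q)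
    {σ : AlgebraicClosure ℚ ≃ₐ[ℚ] AlgebraicClosure ℚ} (hσ : σ ∈ A.inertiaSubgroupIn ℚ)
    (Pt : (P.freyCurve⁄(AlgebraicClosure ℚ)).Point) (hPt : P.p • Pt = 0) :
    Point.map (W' := P.freyCurve) σ.toAlgHom Pt = Pt ∨
      (Point.map (W' := P.freyCurve) σ.toAlgHom Pt - Pt ≠ 0 ∧
        Xc (P.freyCurve⁄(AlgebraicClosure ℚ)) 0
          (Point.map (W' := P.freyCurve) σ.toAlgHom Pt - Pt) ≠ 0 ∧
        (S05_Val.ratVal hA hq).v (Xc (P.freyCurve⁄(AlgebraicClosure ℚ)) 0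
          (Point.map (W' := P.freyCurve) σ.toAlgHom Pt - Pt)) < 0) := by
  obtain ⟨e, D, E, hsetup, he, hcase⟩ := frey_exists_setup P hq hq2 (S05_Val.ratVal hA hq)
    (fun r hr => S05_Val.ratVal_ratCast hA hq hr)
  have hp : ((P.p : ℕ) : AlgebraicClosure ℚ) ≠ 0 := Nat.cast_ne_zero.2 P.hp0
  rcases map_eq_or_ker hsetup σ (S05_Val.ratVal_map_of_mem_inertia hA hq hσ)
    (S05_Val.ratVal_sub_of_mem_inertia hA hq hσ) P.p hp hcase Pt hPt with h1 | ⟨h1, h2, h3⟩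
  · exact Or.inl h1
  · exact Or.inr ⟨h1, ker_shift he h1 h2 h3⟩

end Fermat.Agent.S13_Lp
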