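-- Helper for S13 (block Lp): the Frey curve is the base change of its integral model; hence the
-- division polynomials of the Frey curve over `ℚ̄` have integer coefficients.
import Mathlib
import Fermat.Prelude.Def_FLTPrelim_FreyPackage

set_option autoImplicit false
open WeierstrassCurve Polynomial

namespace Fermat.Agent.S13_Lp

theorem frey_two_dvd_b (P : FreyPackage) : (2 : ℤ) ∣ P.b :=
  (ZMod.intCast_zmod_eq_zero_iff_dvd P.b 2).1 P.hb2

theorem frey_sixteen_dvd (P : FreyPackage) : (16 : ℤ) ∣ -(P.a ^ P.p) * (P.b ^ P.p) := by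
  have h1 : (2 : ℤ) ^ P.p ∣ P.b ^ P.p := pow_dvd_pow_of_dvd (frey_two_dvd_b P) _
  have h3 : (16 : ℤ) ∣ 2 ^ P.p := by
    have h : (16 : ℤ) = 2 ^ 4 := by norm_num
    rw [h]
    exact pow_dvd_pow 2 (by have := P.hp5; omega)
  exact Dvd.dvd.mul_left (h3.trans h1) _

theorem frey_four_dvd (P : FreyPackage) : (4 : ℤ) ∣ P.b ^ P.p - 1 - P.a ^ P.p := by
  have h1 : (4 : ℤ) ∣ P.b ^ P.p := by
    have h2 : (2 : ℤ) ^ P.p ∣ P.b ^ P.p := pow_dvd_pow_of_dvd (frey_two_dvd_b P) _
    have h3 : (4 : ℤ) ∣ 2 ^ P.p := by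
      have h : (4 : ℤ) = 2 ^ 2 := by norm_num
      rw [h]
      exact pow_dvd_pow 2 (by have := P.hp5; omega)
    exact h3.trans h2
  have hb : ((P.b ^ P.p : ℤ) : ZMod 4) = 0 := (ZMod.intCast_zmod_eq_zero_iff_dvd _ 4).2 h1
  have ha : ((P.a ^ P.p : ℤ) : ZMod 4) = -1 := by
    have h3 : (3 : ZMod 4) = -1 := by decide
    rw [Int.cast_pow, P.ha4, h3, P.hp_odd.neg_one_pow]
  apply (ZMod.intCast_zmod_eq_zero_iff_dvd _ 4).1
  rw [Int.cast_sub, Int.cast_sub, hb, ha]
  simp

/-- The Frey curve is the base change to `ℚ` of its integral model. -/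
theorem freyCurve_eq_map (P : FreyPackage) :
    P.freyCurve = P.freyCurveInt.map (Int.castRingHom ℚ) := by
  have h4 := frey_four_dvd P
  have h16 := frey_sixteen_dvd P
  ext
  · simp [FreyPackage.freyCurve, FreyPackage.freyCurveInt]
  · simp only [FreyPackage.freyCurve, FreyPackage.freyCurveInt, WeierstrassCurve.map_a₂,
      eq_intCast]
    rw [Int.cast_div h4 (by norm_num)]
    push_cast
    ring
  · simp [FreyPackage.freyCurve, FreyPackage.freyCurveInt]
  · simp only [FreyPackage.freyCurve, FreyPackage.freyCurveInt, WeierstrassCurve.map_a₄,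
      eq_intCast]
    rw [Int.cast_div h16 (by norm_num)]
    push_cast
    ring
  · simp [FreyPackage.freyCurve, FreyPackage.freyCurveInt]

/-- Over any field extension `K` of `ℚ`, the division polynomial `preΨ n` of the Frey curve is
the image of an integer polynomial. -/
theorem frey_preΨ_eq_map (P : FreyPackage) (K : Type*) [Field K] [Algebra ℚ K] (n : ℤ) :
    (P.freyCurve.baseChange K).preΨ n =
      (P.freyCurveInt.preΨ n).map (Int.castRingHom K) := by
  have h1 : P.freyCurve.baseChange K = P.freyCurveInt.map (Int.castRingHom K) := by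
    show P.freyCurve.map (algebraMap ℚ K) = _
    rw [freyCurve_eq_map, WeierstrassCurve.map_map]
    congr 1
    exact RingHom.ext_int _ _
  rw [h1, WeierstrassCurve.map_preΨ]

/-- The constant coefficient of `preΨ n` of the Frey curve over `K` is an integer. -/
theorem frey_preΨ_eval_zero (P : FreyPackage) (K : Type*) [Field K] [Algebra ℚ K] (n : ℤ) :
    ((P.freyCurve.baseChange K).preΨ n).eval 0 =
      (((P.freyCurveInt.preΨ n).eval 0 : ℤ) : K) := by
  rw [frey_preΨ_eq_map, Polynomial.eval_zero_map]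
  simp

end Fermat.Agent.S13_Lp
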