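-- S13, block Lp: at a valuation subring `A` of `ℚ̄` over `p`, the inertia group acts trivially on
-- a Galois-stable line `N` of `E[p]` (E the Frey curve) or trivially on `E[p] / N`.
-- The facts on the `p`-torsion (its cardinality and the factorisation of the `p`-th division
-- polynomial) enter as hypotheses.
import Fermat.Prelude.Def_FLTPrelim_Ramification
import Fermat.Prelude.Def_FLTPrelim_CofixedLine
import Fermat.Agent.S13_LpFrey
import Fermat.Agent.S13_LpInt
import Fermat.Agent.S13_LpSum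

set_option autoImplicit false
open WeierstrassCurve WeierstrassCurve.Affine WeierstrassCurve.Affine.Point
open FreyPackage Polynomial

namespace Fermat.Agent.S13_Lp

open Fermat.Agent.S05_RatVal Fermat.Agent.S05_Basic

attribute [local instance] isAlgebraic_ratBar

/-- `ℚ̄ / ℚ` is Galois (for the `ℚ`-algebra structure found by instance search). -/
theorem isGalois_ratBar : IsGalois ℚ (AlgebraicClosure ℚ) := by
  have h : (AlgebraicClosure.instAlgebra ℚ : Algebra ℚ (AlgebraicClosure ℚ)) =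
      DivisionRing.toRatAlgebra := Subsingleton.elim _ _
  rw [← h]; infer_instance

attribute [local instance] isGalois_ratBar

/-- (p.5): every element of the inertia group at `p` fixes a nonzero `p`-torsion point of the
Frey curve. -/
theorem exists_fixed (P : FreyPackage) (A : ValuationSubring (AlgebraicClosure ℚ))
    (hA : A.LiesOverPrime P.p)
    (N : Submodule (ZMod P.p)
      (Submodule.torsionBy ℤ (P.freyCurve⁄(AlgebraicClosure ℚ)).Point P.p))
    (hN : IsGaloisStable ℚ N) (hNbot : N ≠ ⊥) (hNtop : N ≠ ⊤)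
    (hfin : Finite (Submodule.torsionBy ℤ (P.freyCurve⁄(AlgebraicClosure ℚ)).Point P.p))
    (S : Finset (AlgebraicClosure ℚ))
    (hS : ∀ r : AlgebraicClosure ℚ, r ∈ S ↔
      ∃ (y : AlgebraicClosure ℚ) (h : (P.freyCurve⁄(AlgebraicClosure ℚ)).Nonsingular r y),
        P.p • (Point.some r y h) = 0)
    (hΨ : (P.freyCurve⁄(AlgebraicClosure ℚ)).preΨ P.p =
      C (P.p : AlgebraicClosure ℚ) * ∏ r ∈ S, (X - C r))
    (σ : AlgebraicClosure ℚ ≃ₐ[ℚ] AlgebraicClosure ℚ) (hσ : σ ∈ A.inertiaSubgroupIn ℚ) :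
    ∃ x : Submodule.torsionBy ℤ (P.freyCurve⁄(AlgebraicClosure ℚ)).Point P.p,
      x ≠ 0 ∧ σ • x = x := by
  classical
  by_contra hne
  push Not at hne
  have hp2 : P.p ≠ 2 := by have := P.hp5; omega
  have htors : ∀ x : Submodule.torsionBy ℤ (P.freyCurve⁄(AlgebraicClosure ℚ)).Point P.p,
      P.p • x.1 = 0 := by
    intro x
    have h1 := (Submodule.mem_torsionBy_iff _ _).1 x.2
    rwa [natCast_zsmul] at h1
  -- `x ↦ σ x - x` is a bijection of the `p`-torsion
  have hinj : Function.Injective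
      (fun x : Submodule.torsionBy ℤ (P.freyCurve⁄(AlgebraicClosure ℚ)).Point P.p =>
        σ • x - x) := by
    intro x y hxy
    by_contra hxy'
    have h1 : x - y ≠ 0 := sub_ne_zero.2 hxy'
    apply hne _ h1
    rw [smul_sub]
    have h2 : σ • x - x = σ • y - y := hxy
    rw [sub_eq_sub_iff_add_eq_add] at h2 ⊢
    rw [h2]
    exact add_comm _ _
  have hsurj := Finite.surjective_of_injective hinj
  -- hence every nonzero `p`-torsion point is in the kernel of reduction
  have hker : ∀ R : (P.freyCurve⁄(AlgebraicClosure ℚ)).Point, P.p • R = 0 → R ≠ 0 →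
      Xc (P.freyCurve⁄(AlgebraicClosure ℚ)) 0 R ≠ 0 ∧
        (S05_Val.ratVal hA P.pp).v (Xc (P.freyCurve⁄(AlgebraicClosure ℚ)) 0 R) < 0 := by
    intro R hpR hR0
    have hmem : R ∈ Submodule.torsionBy ℤ (P.freyCurve⁄(AlgebraicClosure ℚ)).Point P.p := by
      rw [Submodule.mem_torsionBy_iff, natCast_zsmul]; exact hpR
    obtain ⟨x, hx⟩ := hsurj ⟨R, hmem⟩
    have hx1 : Point.map (W' := P.freyCurve) σ.toAlgHom x.1 - x.1 = R :=
      congrArg Subtype.val hx
    rcases frey_map_eq_or_ker P P.pp hp2 hA hσ x.1 (htors x) with h1 | ⟨-, h2, h3⟩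
    · rw [h1, sub_self] at hx1
      exact absurd hx1.symm hR0
    · rw [hx1] at h2 h3
      exact ⟨h2, h3⟩
  have hr0 : ∀ r ∈ S, r ≠ 0 := by
    intro r hr
    obtain ⟨y, h, hpr⟩ := (hS r).1 hr
    have := (hker _ hpr (Point.some_ne_zero h)).1
    simpa using this
  -- the set of x-coordinates of the nonzero points of `N`
  set T : Finset (AlgebraicClosure ℚ) := S.filter (fun r =>
    ∃ (y : AlgebraicClosure ℚ) (h : (P.freyCurve⁄(AlgebraicClosure ℚ)).Nonsingular r y),
      ∃ x ∈ N, (x : (P.freyCurve⁄(AlgebraicClosure ℚ)).Point) = Point.some r y h) with hTdef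
  have hmemT : ∀ x ∈ N, ∀ (r y : AlgebraicClosure ℚ)
      (h : (P.freyCurve⁄(AlgebraicClosure ℚ)).Nonsingular r y),
      (x : (P.freyCurve⁄(AlgebraicClosure ℚ)).Point) = Point.some r y h → r ∈ T := by
    intro x hx r y h hxr
    rw [hTdef, Finset.mem_filter]
    refine ⟨(hS r).2 ⟨y, h, ?_⟩, y, h, x, hx, hxr⟩
    rw [← hxr]; exact htors x
  have hTS : T ⊆ S := Finset.filter_subset _ _
  have hTne : T.Nonempty := by
    obtain ⟨x, hxN, hx0⟩ := (Submodule.ne_bot_iff N).1 hNbot
    rcases hx1 : (x : (P.freyCurve⁄(AlgebraicClosure ℚ)).Point) with _ | ⟨r, y, h⟩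
    · exact absurd (Subtype.ext hx1) hx0
    · exact ⟨r, hmemT x hxN r y h hx1⟩
  have hST : ∃ r ∈ S, r ∉ T := by
    obtain ⟨x, hxN⟩ : ∃ x, x ∉ N := by
      by_contra hall
      push Not at hall
      exact hNtop (eq_top_iff.2 fun x _ => hall x)
    have hx0 : x ≠ 0 := fun h0 => hxN (h0 ▸ N.zero_mem)
    rcases hx1 : (x : (P.freyCurve⁄(AlgebraicClosure ℚ)).Point) with _ | ⟨r, y, h⟩
    · exact absurd (Subtype.ext hx1) hx0
    · refine ⟨r, (hS r).2 ⟨y, h, by rw [← hx1]; exact htors x⟩, ?_⟩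
      intro hrT
      rw [hTdef, Finset.mem_filter] at hrT
      obtain ⟨-, y', h', x', hx'N, hx'⟩ := hrT
      have hXc : Xc (P.freyCurve⁄(AlgebraicClosure ℚ)) 0
          (x : (P.freyCurve⁄(AlgebraicClosure ℚ)).Point) =
          Xc (P.freyCurve⁄(AlgebraicClosure ℚ)) 0
            (x' : (P.freyCurve⁄(AlgebraicClosure ℚ)).Point) := by
        rw [hx1, hx']; rfl
      have hx10 : (x : (P.freyCurve⁄(AlgebraicClosure ℚ)).Point) ≠ 0 := by
        rw [hx1]; exact Point.some_ne_zero h
      have hx'0 : (x' : (P.freyCurve⁄(AlgebraicClosure ℚ)).Point) ≠ 0 := by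
        rw [hx']; exact Point.some_ne_zero h'
      rcases eq_or_eq_neg_of_Xc_eq hx10 hx'0 hXc with h1 | h1
      · exact hxN ((Subtype.ext h1 : x = x') ▸ hx'N)
      · have h2 : x = -x' := Subtype.ext h1
        exact hxN (h2 ▸ N.neg_mem hx'N)
  -- the product over `T` is rational
  have hTv : ∃ n : ℤ, (S05_Val.ratVal hA P.pp).v (∏ r ∈ T, r) = n := by
    have hfix : ∀ τ : AlgebraicClosure ℚ ≃ₐ[ℚ] AlgebraicClosure ℚ,
        τ (∏ r ∈ T, r) = ∏ r ∈ T, r := by
      intro τ
      have himg : T.image τ = T := by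
        apply Finset.eq_of_subset_of_card_le
        · intro s hs
          obtain ⟨r, hrT, rfl⟩ := Finset.mem_image.1 hs
          rw [hTdef, Finset.mem_filter] at hrT
          obtain ⟨-, y, h, x, hxN, hx⟩ := hrT
          have h1 : ((τ • x : Submodule.torsionBy ℤ
              (P.freyCurve⁄(AlgebraicClosure ℚ)).Point P.p) :
              (P.freyCurve⁄(AlgebraicClosure ℚ)).Point) =
              Point.map (W' := P.freyCurve) τ.toAlgHom (Point.some r y h) := by
            rw [← hx]; rfl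
          rw [Point.map_some] at h1
          exact hmemT (τ • x) (hN τ x hxN) _ _ _ h1
        · rw [Finset.card_image_of_injective _ τ.injective]
      rw [map_prod]
      conv_rhs => rw [← himg]
      rw [Finset.prod_image (fun a _ b _ hab => τ.injective hab)]
    obtain ⟨q, hq⟩ := (InfiniteGalois.mem_range_algebraMap_iff_fixed (∏ r ∈ T, r)).2 hfix
    have hprod0 : ∏ r ∈ T, r ≠ 0 := Finset.prod_ne_zero_iff.2 fun r hr => hr0 r (hTS hr)
    have hq0 : q ≠ 0 := by
      rintro rfl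
      rw [_root_.map_zero] at hq
      exact hprod0 hq.symm
    refine ⟨padicValRat P.p q, ?_⟩
    rw [← hq]
    exact S05_Val.ratVal_ratCast hA P.pp hq0
  refine not_all_ker (S05_Val.ratVal hA P.pp) P.p (Nat.cast_ne_zero.2 P.hp0)
    (S05_Val.ratVal_q hA P.pp) S (fun r hr => (hS r).1 hr) hΨ ?_ hker T hTS hTne hST hTv
  intro hc0
  have h1 := frey_preΨ_eval_zero P (AlgebraicClosure ℚ) (P.p : ℤ)
  have h2 : ((P.freyCurve⁄(AlgebraicClosure ℚ)).preΨ P.p).eval 0 =
      (((P.freyCurveInt.preΨ (P.p : ℤ)).eval 0 : ℤ) : AlgebraicClosure ℚ) := h1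
  rw [h2] at hc0 ⊢
  apply S05_Val.ratVal_intCast_nonneg hA P.pp
  intro h0
  rw [h0, Int.cast_zero] at hc0
  exact hc0 rfl

/-- **Block Lp.** At a valuation subring `A` over `p`, the inertia group acts trivially on the
Galois-stable line `N`, or trivially on the quotient by `N`. -/
theorem inertia_p_dichotomy (P : FreyPackage) (A : ValuationSubring (AlgebraicClosure ℚ))
    (hA : A.LiesOverPrime P.p)
    (N : Submodule (ZMod P.p)
      (Submodule.torsionBy ℤ (P.freyCurve⁄(AlgebraicClosure ℚ)).Point P.p))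
    (hN : IsGaloisStable ℚ N) (hNbot : N ≠ ⊥) (hNtop : N ≠ ⊤)
    (hcard : Nat.card (Submodule.torsionBy ℤ (P.freyCurve⁄(AlgebraicClosure ℚ)).Point P.p)
      = P.p ^ 2)
    (S : Finset (AlgebraicClosure ℚ))
    (hS : ∀ r : AlgebraicClosure ℚ, r ∈ S ↔
      ∃ (y : AlgebraicClosure ℚ) (h : (P.freyCurve⁄(AlgebraicClosure ℚ)).Nonsingular r y),
        P.p • (Point.some r y h) = 0)
    (hΨ : (P.freyCurve⁄(AlgebraicClosure ℚ)).preΨ P.p =
      C (P.p : AlgebraicClosure ℚ) * ∏ r ∈ S, (X - C r)) :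
    (∀ σ ∈ A.inertiaSubgroupIn ℚ, ∀ x ∈ N, σ • x = x) ∨
    (∀ σ ∈ A.inertiaSubgroupIn ℚ,
      ∀ x : Submodule.torsionBy ℤ (P.freyCurve⁄(AlgebraicClosure ℚ)).Point P.p,
        σ • x - x ∈ N) := by
  classical
  have : Fact P.p.Prime := ⟨P.pp⟩
  have hfin : Finite (Submodule.torsionBy ℤ (P.freyCurve⁄(AlgebraicClosure ℚ)).Point P.p) :=
    Nat.finite_of_card_ne_zero (by rw [hcard]; exact pow_ne_zero 2 P.hp0)
  have := hfin
  have : Module.Finite (ZMod P.p)
      (Submodule.torsionBy ℤ (P.freyCurve⁄(AlgebraicClosure ℚ)).Point P.p) :=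
    Module.Finite.of_finite
  have hrank : Module.finrank (ZMod P.p)
      (Submodule.torsionBy ℤ (P.freyCurve⁄(AlgebraicClosure ℚ)).Point P.p) = 2 := by
    have h1 := Module.natCard_eq_pow_finrank (K := ZMod P.p)
      (V := Submodule.torsionBy ℤ (P.freyCurve⁄(AlgebraicClosure ℚ)).Point P.p)
    rw [hcard, Nat.card_zmod] at h1
    exact (Nat.pow_right_injective P.pp.two_le h1).symm
  have hNpos : 0 < Module.finrank (ZMod P.p) N := by
    rw [Module.finrank_pos_iff]
    obtain ⟨x, hxN, hx0⟩ := (Submodule.ne_bot_iff N).1 hNbot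
    exact ⟨⟨⟨x, hxN⟩, 0, fun h => hx0 (congrArg Subtype.val h)⟩⟩
  -- each element of inertia fixes `N` pointwise or acts trivially on the quotient
  have key : ∀ σ ∈ A.inertiaSubgroupIn ℚ, (∀ x ∈ N, σ • x = x) ∨
      (∀ x : Submodule.torsionBy ℤ (P.freyCurve⁄(AlgebraicClosure ℚ)).Point P.p,
        σ • x - x ∈ N) := by
    intro σ hσ
    obtain ⟨R, hR0, hσR⟩ := exists_fixed P A hA N hN hNbot hNtop hfin S hS hΨ σ hσ
    have hsmul : ∀ (c : ZMod P.p)
        (x : Submodule.torsionBy ℤ (P.freyCurve⁄(AlgebraicClosure ℚ)).Point P.p),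
        σ • (c • x) = c • (σ • x) := by
      intro c x
      obtain ⟨n, rfl⟩ := ZMod.natCast_zmod_surjective c
      rw [Nat.cast_smul_eq_nsmul, Nat.cast_smul_eq_nsmul]
      exact map_nsmul (DistribSMul.toAddMonoidHom
        (Submodule.torsionBy ℤ (P.freyCurve⁄(AlgebraicClosure ℚ)).Point P.p) σ) n x
    by_cases hRN : R ∈ N
    · left
      have hspan : Submodule.span (ZMod P.p) {R} = N := by
        apply Submodule.eq_of_le_of_finrank_eq
        · rw [Submodule.span_singleton_le_iff_mem]; exact hRN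
        · rw [finrank_span_singleton hR0]
          have h1 := Submodule.finrank_lt hNtop
          omega
      intro x hx
      rw [← hspan] at hx
      obtain ⟨c, rfl⟩ := Submodule.mem_span_singleton.1 hx
      rw [hsmul, hσR]
    · right
      have htop : N ⊔ Submodule.span (ZMod P.p) {R} = ⊤ := by
        apply Submodule.eq_top_of_finrank_eq
        have h1 : N < N ⊔ Submodule.span (ZMod P.p) {R} := by
          refine lt_of_le_of_ne le_sup_left ?_
          intro h
          apply hRN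
          rw [h]
          exact Submodule.mem_sup_right (Submodule.mem_span_singleton_self R)
        have h2 := Submodule.finrank_lt_finrank_of_lt h1
        have h4 := Submodule.finrank_le (N ⊔ Submodule.span (ZMod P.p) {R})
        omega
      intro x
      have hx : x ∈ N ⊔ Submodule.span (ZMod P.p) {R} := by rw [htop]; trivial
      obtain ⟨n, hn, y, hy, rfl⟩ := Submodule.mem_sup.1 hx
      obtain ⟨c, rfl⟩ := Submodule.mem_span_singleton.1 hy
      rw [smul_add, hsmul, hσR]
      have h5 : σ • n + c • R - (n + c • R) = σ • n - n := by abel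
      rw [h5]
      exact N.sub_mem (hN σ n hn) hn
  -- a group is not the union of two proper subgroups
  by_contra hcon
  push Not at hcon
  obtain ⟨⟨σ₁, hσ₁, x₁, hx₁N, hx₁⟩, ⟨σ₂, hσ₂, x₂, hx₂⟩⟩ := hcon
  have h1 : ∀ x : Submodule.torsionBy ℤ (P.freyCurve⁄(AlgebraicClosure ℚ)).Point P.p,
      σ₁ • x - x ∈ N := (key σ₁ hσ₁).resolve_left (fun h => hx₁ (h x₁ hx₁N))
  have h2 : ∀ x ∈ N, σ₂ • x = x := (key σ₂ hσ₂).resolve_right (fun h => hx₂ (h x₂))
  rcases key (σ₁ * σ₂) (mul_mem hσ₁ hσ₂) with h3 | h3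
  · apply hx₁
    have h4 := h3 x₁ hx₁N
    rw [mul_smul, h2 x₁ hx₁N] at h4
    exact h4
  · apply hx₂
    have ha := h3 x₂
    have hb := h1 (σ₂ • x₂)
    rw [mul_smul] at ha
    have h5 : σ₂ • x₂ - x₂ = (σ₁ • σ₂ • x₂ - x₂) - (σ₁ • σ₂ • x₂ - σ₂ • x₂) := by abel
    rw [h5]
    exact N.sub_mem ha hb

end Fermat.Agent.S13_Lp
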