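/-
Project R (S13), assembly: a reducible mod-`p` representation of the Frey curve has a
Galois-stable cofixed line, given the local inputs at `2`, at `p` and away from `2p`
(as hypotheses, in the exact shapes of the exports of the other blocks), plus Minkowski
(`S13_Minkowski.char_eq_one`).
-/
import Mathlib
import Fermat.Prelude.Def_FLTPrelim_CofixedLine
import Fermat.Prelude.Def_FLTPrelim_Ramification
import Fermat.Agent.S54_Frob
import Fermat.Agent.S13_Minkowski

set_option autoImplicit false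

namespace Fermat.Agent.S13_Main

open WeierstrassCurve WeierstrassCurve.Affine WeierstrassCurve.Affine.Point FreyPackage

/-! ### Linear algebra in dimension two -/

section linalg

variable {k V : Type*} [Field k] [AddCommGroup V] [Module k V]

theorem finrank_line (h2 : Module.finrank k V = 2) {N : Submodule k V} (hb : N ≠ ⊥)
    (ht : N ≠ ⊤) : Module.finrank k N = 1 := by
  have : Module.Finite k V := Module.finite_of_finrank_eq_succ h2
  have h1 : Module.finrank k N ≤ 2 := h2 ▸ Submodule.finrank_le N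
  have h3 : Module.finrank k N ≠ 0 := fun h => hb (Submodule.finrank_eq_zero.1 h)
  have h4 : Module.finrank k N ≠ 2 := fun h => ht (Submodule.eq_top_of_finrank_eq (h.trans h2.symm))
  omega

/-- A linear map preserving a line `N` of a plane all of whose eigenvectors are fixed fixes `N`
pointwise. -/
theorem fix_line (h2 : Module.finrank k V = 2) {N : Submodule k V} (hb : N ≠ ⊥) (ht : N ≠ ⊤)
    (τ : V →ₗ[k] V) (hτN : ∀ x ∈ N, τ x ∈ N)
    (heig : ∀ R : V, R ≠ 0 → (∃ c : k, τ R = c • R) → τ R = R) : ∀ x ∈ N, τ x = x := by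
  have h1 := finrank_line h2 hb ht
  obtain ⟨v, hv0, hv⟩ := finrank_eq_one_iff'.1 h1
  have hv0' : (v : V) ≠ 0 := fun h => hv0 (Subtype.ext h)
  have hτv : τ (v : V) = (v : V) := by
    apply heig _ hv0'
    obtain ⟨c, hc⟩ := hv ⟨τ (v : V), hτN _ v.2⟩
    exact ⟨c, by simpa using (congrArg Subtype.val hc).symm⟩
  intro x hx
  obtain ⟨c, hc⟩ := hv ⟨x, hx⟩
  have hx' : x = c • (v : V) := by simpa using (congrArg Subtype.val hc).symm
  rw [hx', map_smul, hτv]

/-- A linear map of a plane fixing a line `N` pointwise, all of whose eigenvectors are fixed,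
acts trivially on the quotient by `N`. -/
theorem sub_mem_line (h2 : Module.finrank k V = 2) {N : Submodule k V} (hb : N ≠ ⊥) (ht : N ≠ ⊤)
    (τ : V →ₗ[k] V) (hfix : ∀ x ∈ N, τ x = x)
    (heig : ∀ R : V, R ≠ 0 → (∃ c : k, τ R = c • R) → τ R = R) : ∀ x, τ x - x ∈ N := by
  have : Module.Finite k V := Module.finite_of_finrank_eq_succ h2
  have h1 := finrank_line h2 hb ht
  set f : V →ₗ[k] V := τ - LinearMap.id with hf
  have hfx : ∀ x, f x = τ x - x := fun x => by simp [hf]
  have hle : N ≤ LinearMap.ker f := fun x hx => by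
    rw [LinearMap.mem_ker, hfx, hfix x hx, sub_self]
  have hrn := LinearMap.finrank_range_add_finrank_ker f
  rw [h2] at hrn
  have hk1 : 1 ≤ Module.finrank k (LinearMap.ker f) := h1 ▸ Submodule.finrank_mono hle
  intro x
  rw [← hfx]
  by_cases hk2 : Module.finrank k (LinearMap.ker f) = 2
  · have : LinearMap.ker f = ⊤ := Submodule.eq_top_of_finrank_eq (hk2.trans h2.symm)
    have hx : x ∈ LinearMap.ker f := this ▸ Submodule.mem_top
    rw [LinearMap.mem_ker.1 hx]
    exact N.zero_mem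
  · have hk : Module.finrank k (LinearMap.ker f) = 1 := by omega
    have hr : Module.finrank k (LinearMap.range f) = 1 := by omega
    have hker : N = LinearMap.ker f := Submodule.eq_of_le_of_finrank_eq hle (h1.trans hk.symm)
    by_cases hR : f x = 0
    · rw [hR]; exact N.zero_mem
    · have hmem : f x ∈ LinearMap.range f := LinearMap.mem_range_self f x
      have hne : (⟨f x, hmem⟩ : LinearMap.range f) ≠ 0 := fun h => hR (congrArg Subtype.val h)
      have hspan := (finrank_eq_one_iff_of_nonzero' _ hne).1 hr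
      have hcomm : τ (f x) = f (τ x) := by rw [hfx, hfx, map_sub]
      obtain ⟨c, hc⟩ := hspan ⟨τ (f x), hcomm ▸ LinearMap.mem_range_self f (τ x)⟩
      have hc' : τ (f x) = c • f x := by simpa using (congrArg Subtype.val hc).symm
      have hτR := heig (f x) hR ⟨c, hc'⟩
      rw [hker, LinearMap.mem_ker, hfx, hτR, sub_self]

end linalg

/-! ### Two normal subgroups attached to a stable subgroup -/

section subgroups

variable {Γ M : Type*} [Group Γ] [AddCommGroup M] [DistribMulAction Γ M]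

/-- The elements acting trivially on `N`. -/
def fixSub (Γ : Type*) [Group Γ] [DistribMulAction Γ M] (N : AddSubgroup M) : Subgroup Γ where
  carrier := {σ | ∀ x ∈ N, σ • x = x}
  mul_mem' := fun {a b} ha hb x hx => by
    show (a * b) • x = x
    rw [mul_smul, hb x hx, ha x hx]
  one_mem' := fun x _ => one_smul _ _
  inv_mem' := fun {a} ha x hx => by
    show a⁻¹ • x = x
    rw [inv_smul_eq_iff, ha x hx]

theorem mem_fixSub {N : AddSubgroup M} {σ : Γ} : σ ∈ fixSub Γ N ↔ ∀ x ∈ N, σ • x = x := Iff.rfl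

theorem fixSub_normal {N : AddSubgroup M} (hN : ∀ σ : Γ, ∀ x ∈ N, σ • x ∈ N) :
    (fixSub Γ N).Normal :=
  ⟨fun σ hσ g x hx => by
    show (g * σ * g⁻¹) • x = x
    rw [mul_smul, mul_smul, hσ _ (hN g⁻¹ x hx), smul_inv_smul]⟩

/-- The elements acting trivially on the quotient by the stable subgroup `N`. -/
def cofixSub (Γ : Type*) [Group Γ] [DistribMulAction Γ M] (N : AddSubgroup M)
    (hN : ∀ σ : Γ, ∀ x ∈ N, σ • x ∈ N) : Subgroup Γ where
  carrier := {σ | ∀ x, σ • x - x ∈ N}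
  mul_mem' := fun {a b} ha hb x => by
    have e : (a * b) • x - x = a • (b • x - x) + (a • x - x) := by
      rw [mul_smul, smul_sub]; abel
    show (a * b) • x - x ∈ N
    rw [e]
    exact N.add_mem (hN a _ (hb x)) (ha x)
  one_mem' := fun x => by
    show (1 : Γ) • x - x ∈ N
    rw [one_smul, sub_self]
    exact N.zero_mem
  inv_mem' := fun {a} ha x => by
    have e : a⁻¹ • x - x = -(a⁻¹ • (a • x - x)) := by
      rw [smul_sub, inv_smul_smul]; abel
    show a⁻¹ • x - x ∈ N
    rw [e]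
    exact N.neg_mem (hN a⁻¹ _ (ha x))

theorem mem_cofixSub {N : AddSubgroup M} {hN : ∀ σ : Γ, ∀ x ∈ N, σ • x ∈ N} {σ : Γ} :
    σ ∈ cofixSub Γ N hN ↔ ∀ x, σ • x - x ∈ N := Iff.rfl

theorem cofixSub_normal {N : AddSubgroup M} (hN : ∀ σ : Γ, ∀ x ∈ N, σ • x ∈ N) :
    (cofixSub Γ N hN).Normal :=
  ⟨fun σ hσ g x => by
    have e : (g * σ * g⁻¹) • x - x = g • (σ • (g⁻¹ • x) - g⁻¹ • x) := by
      rw [mul_smul, mul_smul, smul_sub, smul_inv_smul]
    show (g * σ * g⁻¹) • x - x ∈ N
    rw [e]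
    exact hN g _ (hσ _)⟩

end subgroups

/-! ### Minkowski for normal subgroups of the absolute Galois group -/

theorem subgroup_eq_top (H : Subgroup (AlgebraicClosure ℚ ≃ₐ[ℚ] AlgebraicClosure ℚ)) [H.Normal]
    (S : Set (AlgebraicClosure ℚ)) (hS : S.Finite)
    (hHS : ∀ σ : AlgebraicClosure ℚ ≃ₐ[ℚ] AlgebraicClosure ℚ, (∀ x ∈ S, σ x = x) → σ ∈ H)
    (hH : ∀ q : ℕ, q.Prime → ∃ A : ValuationSubring (AlgebraicClosure ℚ), A.LiesOverPrime q ∧
      ∀ σ ∈ A.inertiaSubgroupIn ℚ, σ ∈ H) : ∀ σ, σ ∈ H := by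
  intro σ
  have h := S13_Minkowski.char_eq_one (QuotientGroup.mk' H) S hS
    (fun τ hτ => (QuotientGroup.eq_one_iff τ).2 (hHS τ hτ))
    (fun q hq => by
      obtain ⟨A, hA, hAH⟩ := hH q hq
      exact ⟨A, hA, fun τ hτ => (QuotientGroup.eq_one_iff τ).2 (hAH τ hτ)⟩) σ
  exact (QuotientGroup.eq_one_iff σ).1 h

/-! ### Coordinates of points -/

section coords

/-- The set of coordinates of a point. -/
def coords {K : Type*} [Field K] {W : Affine K} : W.Point → Set K
  | .zero => ∅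
  | .some x y _ => {x, y}

theorem coords_finite {K : Type*} [Field K] {W : Affine K} (P : W.Point) : (coords P).Finite := by
  rcases P with _ | ⟨x, y, h⟩
  · exact Set.finite_empty
  · exact Set.toFinite {x, y}

/-- A Galois automorphism fixing the coordinates of a point fixes the point. -/
theorem smul_eq_self_of_fix {W' : Affine ℚ}
    (σ : AlgebraicClosure ℚ ≃ₐ[ℚ] AlgebraicClosure ℚ) (P : (W'⁄(AlgebraicClosure ℚ)).Point)
    (h : ∀ z ∈ coords P, σ z = z) : σ • P = P := by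
  rcases P with _ | ⟨x, y, hxy⟩
  · rfl
  · have hx : σ x = x := h x (Set.mem_insert _ _)
    have hy : σ y = y := h y (Set.mem_insert_of_mem _ rfl)
    rw [algEquiv_smul_def, Point.map_some, Point.some.injEq]
    exact ⟨hx, hy⟩

end coords

/-! ### The assembly -/

section main

/-- **Assembly of S13**, relative to the local inputs (in the shapes exported by the blocks
`S13_Torsion`, `S13_Lp`, `S13_L2` and `S05`). -/
theorem main_of (P : FreyPackage)
    (hcard : Nat.card
      (Submodule.torsionBy ℤ (P.freyCurve⁄(AlgebraicClosure ℚ)).Point P.p) = P.p ^ 2)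
    (hp : ∀ A : ValuationSubring (AlgebraicClosure ℚ), A.LiesOverPrime P.p →
      ∀ N : Submodule (ZMod P.p)
          (Submodule.torsionBy ℤ (P.freyCurve⁄(AlgebraicClosure ℚ)).Point P.p),
        IsGaloisStable ℚ N → N ≠ ⊥ → N ≠ ⊤ →
        (∀ σ ∈ A.inertiaSubgroupIn ℚ, ∀ x ∈ N, σ • x = x) ∨
        (∀ σ ∈ A.inertiaSubgroupIn ℚ,
          ∀ x : Submodule.torsionBy ℤ (P.freyCurve⁄(AlgebraicClosure ℚ)).Point P.p,
            σ • x - x ∈ N))
    (h2 : ∀ A : ValuationSubring (AlgebraicClosure ℚ), A.LiesOverPrime 2 →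
      ∀ σ : AlgebraicClosure ℚ ≃ₐ[ℚ] AlgebraicClosure ℚ, σ ∈ A.inertiaSubgroupIn ℚ →
      ∀ R : (P.freyCurve⁄(AlgebraicClosure ℚ)).Point, R ≠ 0 → P.p • R = 0 →
      ∀ c : ℕ, σ • R = c • R → σ • R = R)
    (hfix : ∀ R : (P.freyCurve⁄(AlgebraicClosure ℚ)).Point, R ≠ 0 → P.p • R = 0 →
      ∃ σ : AlgebraicClosure ℚ ≃ₐ[ℚ] AlgebraicClosure ℚ, σ • R ≠ R)
    (hunr : ∀ q : ℕ, q.Prime → q ≠ 2 → q ≠ P.p → P.GaloisRepUnramifiedAt q)
    (hred : ¬ GaloisRepIsIrreducible (K := AlgebraicClosure ℚ) ℚ P.freyCurve P.p) :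
    HasGaloisStableCofixedLine (K := AlgebraicClosure ℚ) ℚ P.freyCurve P.p := by
  have : Fact P.p.Prime := ⟨P.pp⟩
  have hp0 : 0 < P.p := P.hppos
  have : Finite (Submodule.torsionBy ℤ (P.freyCurve⁄(AlgebraicClosure ℚ)).Point P.p) :=
    Nat.finite_of_card_ne_zero (by rw [hcard]; exact pow_ne_zero 2 hp0.ne')
  have hfin : Module.finrank (ZMod P.p)
      (Submodule.torsionBy ℤ (P.freyCurve⁄(AlgebraicClosure ℚ)).Point P.p) = 2 := by
    have h := Module.natCard_eq_pow_finrank (K := ZMod P.p)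
      (V := Submodule.torsionBy ℤ (P.freyCurve⁄(AlgebraicClosure ℚ)).Point P.p)
    rw [hcard, Nat.card_zmod] at h
    exact (Nat.pow_right_injective P.pp.two_le h).symm
  have hnt : Nontrivial
      (Submodule.torsionBy ℤ (P.freyCurve⁄(AlgebraicClosure ℚ)).Point P.p) := by
    apply Finite.one_lt_card_iff_nontrivial.1
    rw [hcard]
    exact Nat.one_lt_pow (by norm_num) P.pp.one_lt
  -- the stable line
  obtain ⟨N, hNst, hNb, hNt⟩ : ∃ N : Submodule (ZMod P.p)
      (Submodule.torsionBy ℤ (P.freyCurve⁄(AlgebraicClosure ℚ)).Point P.p),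
      IsGaloisStable ℚ N ∧ N ≠ ⊥ ∧ N ≠ ⊤ := by
    by_contra hcon
    apply hred
    refine ⟨hnt, fun N hN => ?_⟩
    by_contra h
    rw [not_or] at h
    exact hcon ⟨N, hN, h.1, h.2⟩
  -- the linear maps
  let τ : (AlgebraicClosure ℚ ≃ₐ[ℚ] AlgebraicClosure ℚ) →
      (Submodule.torsionBy ℤ (P.freyCurve⁄(AlgebraicClosure ℚ)).Point P.p) →ₗ[ZMod P.p]
      (Submodule.torsionBy ℤ (P.freyCurve⁄(AlgebraicClosure ℚ)).Point P.p) :=
    fun σ => (DistribSMul.toAddMonoidHom _ σ).toZModLinearMap P.p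
  have hτ : ∀ σ x, τ σ x = σ • x := fun σ x => rfl
  -- eigenvectors of inertia at `2` are fixed
  have heig : ∀ A : ValuationSubring (AlgebraicClosure ℚ), A.LiesOverPrime 2 →
      ∀ σ ∈ A.inertiaSubgroupIn ℚ,
      ∀ R : Submodule.torsionBy ℤ (P.freyCurve⁄(AlgebraicClosure ℚ)).Point P.p, R ≠ 0 →
        (∃ c : ZMod P.p, τ σ R = c • R) → τ σ R = R := by
    rintro A hA σ hσ R hR ⟨c, hc⟩
    have hR0 : (R : (P.freyCurve⁄(AlgebraicClosure ℚ)).Point) ≠ 0 := fun h => hR (Subtype.ext h)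
    have hpR : P.p • (R : (P.freyCurve⁄(AlgebraicClosure ℚ)).Point) = 0 := by
      have := (Submodule.mem_torsionBy_iff _ _).1 R.2
      rwa [natCast_zsmul] at this
    have h1 : c • R = c.val • R := by
      conv_lhs => rw [← ZMod.natCast_zmod_val c]
      exact Nat.cast_smul_eq_nsmul _ _ _
    have hc' : σ • (R : (P.freyCurve⁄(AlgebraicClosure ℚ)).Point) =
        c.val • (R : (P.freyCurve⁄(AlgebraicClosure ℚ)).Point) := by
      have h3 : ((σ • R : Submodule.torsionBy ℤ (P.freyCurve⁄(AlgebraicClosure ℚ)).Point P.p) :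
          (P.freyCurve⁄(AlgebraicClosure ℚ)).Point) = ((c.val • R :
          Submodule.torsionBy ℤ (P.freyCurve⁄(AlgebraicClosure ℚ)).Point P.p) :
          (P.freyCurve⁄(AlgebraicClosure ℚ)).Point) := congrArg Subtype.val (hc.trans h1)
      have h4 : ((c.val • R : Submodule.torsionBy ℤ (P.freyCurve⁄(AlgebraicClosure ℚ)).Point P.p) :
          (P.freyCurve⁄(AlgebraicClosure ℚ)).Point) =
          c.val • (R : (P.freyCurve⁄(AlgebraicClosure ℚ)).Point) := by
        simp
      exact h3.trans h4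
    rw [hτ]
    apply Subtype.ext
    exact h2 A hA σ hσ _ hR0 hpR c.val hc'
  -- the finite set of coordinates
  set S : Set (AlgebraicClosure ℚ) :=
    ⋃ x : Submodule.torsionBy ℤ (P.freyCurve⁄(AlgebraicClosure ℚ)).Point P.p,
      coords (x : (P.freyCurve⁄(AlgebraicClosure ℚ)).Point) with hSdef
  have hS : S.Finite := Set.finite_iUnion fun x => coords_finite _
  have hSfix : ∀ σ : AlgebraicClosure ℚ ≃ₐ[ℚ] AlgebraicClosure ℚ, (∀ z ∈ S, σ z = z) →
      ∀ x : Submodule.torsionBy ℤ (P.freyCurve⁄(AlgebraicClosure ℚ)).Point P.p, σ • x = x := by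
    intro σ hσ x
    apply Subtype.ext
    exact smul_eq_self_of_fix σ _ (fun z hz => hσ z (Set.mem_iUnion.2 ⟨x, hz⟩))
  -- the two subgroups
  have hN' : ∀ σ : AlgebraicClosure ℚ ≃ₐ[ℚ] AlgebraicClosure ℚ, ∀ x ∈ N.toAddSubgroup,
      σ • x ∈ N.toAddSubgroup := fun σ x hx => hNst σ x hx
  have := fixSub_normal hN'
  have := cofixSub_normal hN'
  -- inertia away from `p`
  have key : ∀ q : ℕ, q.Prime → q ≠ P.p →
      ∃ A : ValuationSubring (AlgebraicClosure ℚ), A.LiesOverPrime q ∧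
        (∀ σ ∈ A.inertiaSubgroupIn ℚ,
          σ ∈ fixSub (AlgebraicClosure ℚ ≃ₐ[ℚ] AlgebraicClosure ℚ) N.toAddSubgroup) ∧
        (∀ σ ∈ A.inertiaSubgroupIn ℚ,
          σ ∈ cofixSub (AlgebraicClosure ℚ ≃ₐ[ℚ] AlgebraicClosure ℚ) N.toAddSubgroup hN') := by
    intro q hq hqp
    obtain ⟨A, hA⟩ := S54_Frob.exists_valuationSubring_liesOver (AlgebraicClosure ℚ) q hq
    refine ⟨A, hA, ?_, ?_⟩
    · intro σ hσ x hx
      by_cases hq2 : q = 2
      · subst hq2
        have := fix_line hfin hNb hNt (τ σ) (fun y hy => hNst σ y hy) (heig A hA σ hσ) x hx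
        rwa [hτ] at this
      · exact hunr q hq hq2 hqp A hA σ hσ x
    · intro σ hσ x
      show σ • x - x ∈ N
      by_cases hq2 : q = 2
      · subst hq2
        have hfx := fix_line hfin hNb hNt (τ σ) (fun y hy => hNst σ y hy) (heig A hA σ hσ)
        have := sub_mem_line hfin hNb hNt (τ σ) hfx (heig A hA σ hσ) x
        rwa [hτ] at this
      · have e : σ • x = x := hunr q hq hq2 hqp A hA σ hσ x
        rw [e, sub_self]
        exact N.zero_mem
  -- inertia at `p`
  obtain ⟨A₀, hA₀⟩ := S54_Frob.exists_valuationSubring_liesOver (AlgebraicClosure ℚ) P.p P.pp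
  rcases hp A₀ hA₀ N hNst hNb hNt with h1 | h1
  · -- the character on `N` is trivial: impossible
    exfalso
    have htop := subgroup_eq_top
      (fixSub (AlgebraicClosure ℚ ≃ₐ[ℚ] AlgebraicClosure ℚ) N.toAddSubgroup) S hS
      (fun σ hσ x _ => hSfix σ hσ x)
      (fun q hq => by
        by_cases hqp : q = P.p
        · subst hqp
          exact ⟨A₀, hA₀, fun σ hσ x hx => h1 σ hσ x hx⟩
        · obtain ⟨A, hA, hA1, -⟩ := key q hq hqp
          exact ⟨A, hA, hA1⟩)
    obtain ⟨x, hxN, hx0⟩ := Submodule.exists_mem_ne_zero_of_ne_bot hNb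
    have hR0 : (x : (P.freyCurve⁄(AlgebraicClosure ℚ)).Point) ≠ 0 := fun h => hx0 (Subtype.ext h)
    have hpR : P.p • (x : (P.freyCurve⁄(AlgebraicClosure ℚ)).Point) = 0 := by
      have := (Submodule.mem_torsionBy_iff _ _).1 x.2
      rwa [natCast_zsmul] at this
    obtain ⟨σ, hσ⟩ := hfix _ hR0 hpR
    exact hσ (congrArg Subtype.val (htop σ x hxN))
  · -- the character on the quotient is trivial: the cofixed line
    have htop := subgroup_eq_top
      (cofixSub (AlgebraicClosure ℚ ≃ₐ[ℚ] AlgebraicClosure ℚ) N.toAddSubgroup hN') S hS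
      (fun σ hσ x => by
        show σ • x - x ∈ N
        rw [hSfix σ hσ x, sub_self]
        exact N.zero_mem)
      (fun q hq => by
        by_cases hqp : q = P.p
        · subst hqp
          exact ⟨A₀, hA₀, fun σ hσ x => h1 σ hσ x⟩
        · obtain ⟨A, hA, -, hA2⟩ := key q hq hqp
          exact ⟨A, hA, hA2⟩)
    exact ⟨N, hNst, hNb, hNt, fun σ x => htop σ x⟩

end main

/-! ### The discriminant of the Frey curve -/

section disc

theorem frey_Δ (P : FreyPackage) :
    P.freyCurve.Δ = ((P.a : ℚ) ^ P.p * (P.b : ℚ) ^ P.p * (P.c : ℚ) ^ P.p) ^ 2 / 256 := by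
  have h : (P.a : ℚ) ^ P.p + (P.b : ℚ) ^ P.p = (P.c : ℚ) ^ P.p := by
    have := congrArg (fun z : ℤ => (z : ℚ)) P.hFLT
    push_cast at this
    exact this
  simp only [WeierstrassCurve.Δ, WeierstrassCurve.b₂, WeierstrassCurve.b₄, WeierstrassCurve.b₆,
    WeierstrassCurve.b₈, FreyPackage.freyCurve]
  rw [← h]
  ring

theorem frey_Δ_ne_zero (P : FreyPackage) : P.freyCurve.Δ ≠ 0 := by
  rw [frey_Δ]
  have ha : (P.a : ℚ) ≠ 0 := by exact_mod_cast P.ha0
  have hb : (P.b : ℚ) ≠ 0 := by exact_mod_cast P.hb0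
  have hc : (P.c : ℚ) ≠ 0 := by exact_mod_cast P.hc0
  positivity

theorem frey_baseChange_Δ_ne_zero (P : FreyPackage) :
    (P.freyCurve⁄(AlgebraicClosure ℚ)).Δ ≠ 0 := by
  show (P.freyCurve.map (algebraMap ℚ (AlgebraicClosure ℚ))).Δ ≠ 0
  rw [WeierstrassCurve.map_Δ]
  exact (map_ne_zero _).2 (frey_Δ_ne_zero P)

end disc

end Fermat.Agent.S13_Main
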