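/-
Project R (S13), block T1: the elliptic-divisibility-sequence law deduced from the
one-step law and the symmetric addition-subtraction identity.  Pure algebra, no curves.
-/
import Mathlib

set_option autoImplicit false

namespace Fermat.Agent.S13_EDS

variable {F : Type*} [Field F]

/-- The algebraic heart of the induction step `n → n + 1` (`n ≥ 2`). -/
theorem step_general
    {A B C D P Q Vm Vn Vn' Vn1 x1 xp xq xm xn xn' xn1 g : F}
    (s1 : A * C = (x1 - xp) * P ^ 2)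
    (s2 : D * B = (x1 - xq) * Q ^ 2)
    (ihPQ : P * Q = (xn - xm) * Vm ^ 2 * Vn ^ 2)
    (ihCD : C * D = (xn' - xm) * Vm ^ 2 * Vn' ^ 2)
    (ha : (xp - x1) * (xq - x1) * (xm - xn) ^ 2 = g)
    (hb : (xn1 - xm) * (xn' - xm) * (xn - x1) ^ 2 = g)
    (sn : Vn1 * Vn' = (x1 - xn) * Vn ^ 2)
    (hCD : C * D ≠ 0) :
    A * B = (xn1 - xm) * Vm ^ 2 * Vn1 ^ 2 := by
  have h1 : (A * B) * (C * D) = g * Vm ^ 4 * Vn ^ 4 := by
    calc (A * B) * (C * D) = (A * C) * (D * B) := by ring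
      _ = (x1 - xp) * P ^ 2 * ((x1 - xq) * Q ^ 2) := by rw [s1, s2]
      _ = (xp - x1) * (xq - x1) * (P * Q) ^ 2 := by ring
      _ = (xp - x1) * (xq - x1) * ((xn - xm) * Vm ^ 2 * Vn ^ 2) ^ 2 := by rw [ihPQ]
      _ = ((xp - x1) * (xq - x1) * (xm - xn) ^ 2) * Vm ^ 4 * Vn ^ 4 := by ring
      _ = g * Vm ^ 4 * Vn ^ 4 := by rw [ha]
  have h2 : ((xn1 - xm) * Vm ^ 2 * Vn1 ^ 2) * (C * D) = g * Vm ^ 4 * Vn ^ 4 := by
    calc ((xn1 - xm) * Vm ^ 2 * Vn1 ^ 2) * (C * D)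
        = ((xn1 - xm) * Vm ^ 2 * Vn1 ^ 2) * ((xn' - xm) * Vm ^ 2 * Vn' ^ 2) := by rw [ihCD]
      _ = ((xn1 - xm) * (xn' - xm)) * Vm ^ 4 * (Vn1 * Vn') ^ 2 := by ring
      _ = ((xn1 - xm) * (xn' - xm)) * Vm ^ 4 * ((x1 - xn) * Vn ^ 2) ^ 2 := by rw [sn]
      _ = ((xn1 - xm) * (xn' - xm) * (xn - x1) ^ 2) * Vm ^ 4 * Vn ^ 4 := by ring
      _ = g * Vm ^ 4 * Vn ^ 4 := by rw [hb]
  exact mul_right_cancel₀ hCD (h1.trans h2.symm)

/-- The algebraic heart of the induction step `1 → 2`. -/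
theorem step_two
    {A B P Q Vm V2 x1 x2 xp xq xm g : F}
    (s1 : A * Vm = (x1 - xp) * P ^ 2)
    (s2 : Vm * B = (x1 - xq) * Q ^ 2)
    (ihPQ : P * Q = (x1 - xm) * Vm ^ 2)
    (ha : (xp - x1) * (xq - x1) * (xm - x1) ^ 2 = g)
    (hd : g = V2 ^ 2 * (x2 - xm))
    (hVm : Vm ≠ 0) :
    A * B = (x2 - xm) * Vm ^ 2 * V2 ^ 2 := by
  have h1 : (A * B) * (Vm * Vm) = g * Vm ^ 4 := by
    calc (A * B) * (Vm * Vm) = (A * Vm) * (Vm * B) := by ring
      _ = (x1 - xp) * P ^ 2 * ((x1 - xq) * Q ^ 2) := by rw [s1, s2]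
      _ = (xp - x1) * (xq - x1) * (P * Q) ^ 2 := by ring
      _ = (xp - x1) * (xq - x1) * ((x1 - xm) * Vm ^ 2) ^ 2 := by rw [ihPQ]
      _ = ((xp - x1) * (xq - x1) * (xm - x1) ^ 2) * Vm ^ 4 := by ring
      _ = g * Vm ^ 4 := by rw [ha]
  have h2 : ((x2 - xm) * Vm ^ 2 * V2 ^ 2) * (Vm * Vm) = g * Vm ^ 4 := by
    rw [hd]; ring
  exact mul_right_cancel₀ (mul_ne_zero hVm hVm) (h1.trans h2.symm)

/-- **T1.** The elliptic-sequence law `V(m+n) V(m-n) = (x n - x m) V(m)² V(n)²` from the one-step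
law, nonvanishing, and the symmetric addition-subtraction identity. -/
theorem eds_law {M : ℕ} {x V : ℕ → F} {G : F → F → F → F}
    (hV1 : V 1 = 1)
    (hVne : ∀ k, 1 ≤ k → k ≤ M → V k ≠ 0)
    (hstep : ∀ k, 1 ≤ k → k ≤ M → V (k + 1) * V (k - 1) = (x 1 - x k) * V k ^ 2)
    (hG12 : ∀ u v w, G u v w = G v u w) (hG23 : ∀ u v w, G u v w = G u w v)
    (hadd : ∀ i j, 1 ≤ j → j < i → i + j ≤ M → ∀ c,
      (x (i + j) - c) * (x (i - j) - c) * (x i - x j) ^ 2 = G (x i) (x j) c)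
    (hdbl : 2 ≤ M → ∀ c, G (x 1) (x 1) c = V 2 ^ 2 * (x 2 - c)) :
    ∀ m n, 1 ≤ n → n < m → m + n ≤ M + 1 →
      V (m + n) * V (m - n) = (x n - x m) * V m ^ 2 * V n ^ 2 := by
  intro m n
  induction n using Nat.strong_induction_on generalizing m with
  | _ n ih =>
    intro hn hnm hmn
    rcases Nat.lt_or_ge n 2 with h2 | h2
    · -- `n = 1`: the one-step law
      obtain rfl : n = 1 := by omega
      have := hstep m (by omega) (by omega)
      rw [hV1, this]; ring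
    · obtain ⟨k, rfl⟩ : ∃ k, n = k + 1 := ⟨n - 1, by omega⟩
      have hk1 : 1 ≤ k := by omega
      have hmk : m + k ≤ M := by omega
      have hM2 : 2 ≤ M := by omega
      have hVm : V m ≠ 0 := hVne m (by omega) (by omega)
      -- one-step laws at `m + k` and `m - k`
      have s1 : V (m + (k + 1)) * V (m + k - 1) = (x 1 - x (m + k)) * V (m + k) ^ 2 :=
        hstep (m + k) (by omega) hmk
      have s2 : V (m - k + 1) * V (m - (k + 1)) = (x 1 - x (m - k)) * V (m - k) ^ 2 := by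
        have := hstep (m - k) (by omega) (by omega)
        rwa [show m - k - 1 = m - (k + 1) by omega] at this
      have ihk : V (m + k) * V (m - k) = (x k - x m) * V m ^ 2 * V k ^ 2 :=
        ih k (by omega) m hk1 (by omega) (by omega)
      have ha : (x (m + k) - x 1) * (x (m - k) - x 1) * (x m - x k) ^ 2 = G (x m) (x k) (x 1) :=
        hadd m k hk1 (by omega) hmk (x 1)
      rcases Nat.lt_or_ge k 2 with hk2 | hk2
      · -- `k = 1`, i.e. the step `1 → 2`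
        obtain rfl : k = 1 := by omega
        have hd : G (x m) (x 1) (x 1) = V 2 ^ 2 * (x 2 - x m) := by
          rw [hG12, hG23]; exact hdbl hM2 (x m)
        rw [show m + 1 - 1 = m by omega] at s1
        rw [show m - 1 + 1 = m by omega] at s2
        rw [hV1] at ihk
        have ihk' : V (m + 1) * V (m - 1) = (x 1 - x m) * V m ^ 2 := by rw [ihk]; ring
        exact step_two s1 s2 ihk' ha hd hVm
      · -- general step, uses the law at `k` and at `k - 1`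
        have ihk' : V (m + (k - 1)) * V (m - (k - 1)) =
            (x (k - 1) - x m) * V m ^ 2 * V (k - 1) ^ 2 :=
          ih (k - 1) (by omega) m (by omega) (by omega) (by omega)
        rw [show m + (k - 1) = m + k - 1 by omega, show m - (k - 1) = m - k + 1 by omega] at ihk'
        have hb : (x (k + 1) - x m) * (x (k - 1) - x m) * (x k - x 1) ^ 2 =
            G (x m) (x k) (x 1) := by
          rw [hG12 (x m), hG23 (x k)]
          exact hadd k 1 le_rfl (by omega) (by omega) (x m)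
        have sn : V (k + 1) * V (k - 1) = (x 1 - x k) * V k ^ 2 :=
          hstep k hk1 (by omega)
        have hCD : V (m + k - 1) * V (m - k + 1) ≠ 0 :=
          mul_ne_zero (hVne _ (by omega) (by omega)) (hVne _ (by omega) (by omega))
        exact step_general s1 s2 ihk ihk' ha hb sn hCD

/-- Odd-index recurrence of an elliptic divisibility sequence. -/
theorem eds_odd {M : ℕ} {x V : ℕ → F} {G : F → F → F → F}
    (hV1 : V 1 = 1)
    (hVne : ∀ k, 1 ≤ k → k ≤ M → V k ≠ 0)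
    (hstep : ∀ k, 1 ≤ k → k ≤ M → V (k + 1) * V (k - 1) = (x 1 - x k) * V k ^ 2)
    (hG12 : ∀ u v w, G u v w = G v u w) (hG23 : ∀ u v w, G u v w = G u w v)
    (hadd : ∀ i j, 1 ≤ j → j < i → i + j ≤ M → ∀ c,
      (x (i + j) - c) * (x (i - j) - c) * (x i - x j) ^ 2 = G (x i) (x j) c)
    (hdbl : 2 ≤ M → ∀ c, G (x 1) (x 1) c = V 2 ^ 2 * (x 2 - c))
    (k : ℕ) (hk : 1 ≤ k) (hkM : 2 * k ≤ M) :
    V (2 * k + 1) = V (k + 2) * V k ^ 3 - V (k - 1) * V (k + 1) ^ 3 := by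
  have h := eds_law hV1 hVne hstep hG12 hG23 hadd hdbl (k + 1) k hk (by omega) (by omega)
  rw [show k + 1 + k = 2 * k + 1 by omega, show k + 1 - k = 1 by omega, hV1, mul_one] at h
  have s1 : V (k + 2) * V k = (x 1 - x (k + 1)) * V (k + 1) ^ 2 :=
    hstep (k + 1) (by omega) (by omega)
  have s2 : V (k + 1) * V (k - 1) = (x 1 - x k) * V k ^ 2 := hstep k hk (by omega)
  rw [h]
  linear_combination (-(V k ^ 2)) * s1 + (V (k + 1) ^ 2) * s2

/-- Even-index recurrence of an elliptic divisibility sequence. -/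
theorem eds_even {M : ℕ} {x V : ℕ → F} {G : F → F → F → F}
    (hV1 : V 1 = 1)
    (hVne : ∀ k, 1 ≤ k → k ≤ M → V k ≠ 0)
    (hstep : ∀ k, 1 ≤ k → k ≤ M → V (k + 1) * V (k - 1) = (x 1 - x k) * V k ^ 2)
    (hG12 : ∀ u v w, G u v w = G v u w) (hG23 : ∀ u v w, G u v w = G u w v)
    (hadd : ∀ i j, 1 ≤ j → j < i → i + j ≤ M → ∀ c,
      (x (i + j) - c) * (x (i - j) - c) * (x i - x j) ^ 2 = G (x i) (x j) c)
    (hdbl : 2 ≤ M → ∀ c, G (x 1) (x 1) c = V 2 ^ 2 * (x 2 - c))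
    (k : ℕ) (hk : 2 ≤ k) (hkM : 2 * k ≤ M + 1) :
    V (2 * k) * V 2 =
      V (k - 1) ^ 2 * V k * V (k + 2) - V (k - 2) * V k * V (k + 1) ^ 2 := by
  have h := eds_law hV1 hVne hstep hG12 hG23 hadd hdbl (k + 1) (k - 1) (by omega) (by omega)
    (by omega)
  rw [show k + 1 + (k - 1) = 2 * k by omega, show k + 1 - (k - 1) = 2 by omega] at h
  have s1 : V (k + 2) * V k = (x 1 - x (k + 1)) * V (k + 1) ^ 2 :=
    hstep (k + 1) (by omega) (by omega)
  have s2 : V k * V (k - 2) = (x 1 - x (k - 1)) * V (k - 1) ^ 2 := by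
    have := hstep (k - 1) (by omega) (by omega)
    rwa [show k - 1 + 1 = k by omega, show k - 1 - 1 = k - 2 by omega] at this
  rw [h]
  linear_combination (-(V (k - 1) ^ 2)) * s1 + (V (k + 1) ^ 2) * s2

/-- A sequence satisfying the even/odd recurrences (up to index `M + 1`) with the initial values of
Mathlib's `normEDS` agrees with `normEDS` up to index `M + 1`. -/
theorem eq_normEDS_of_rec {M : ℕ} {V : ℕ → F} {c d : F}
    (hV0 : V 0 = 0) (hV1 : V 1 = 1) (hV2 : 5 ≤ M → V 2 ≠ 0)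
    (hV3 : 2 ≤ M → V 3 = c) (hV4 : 3 ≤ M → V 4 = d * V 2)
    (hodd : ∀ k, 1 ≤ k → 2 * k ≤ M →
      V (2 * k + 1) = V (k + 2) * V k ^ 3 - V (k - 1) * V (k + 1) ^ 3)
    (heven : ∀ k, 2 ≤ k → 2 * k ≤ M + 1 →
      V (2 * k) * V 2 = V (k - 1) ^ 2 * V k * V (k + 2) - V (k - 2) * V k * V (k + 1) ^ 2) :
    ∀ k, k ≤ M + 1 → V k = normEDS (V 2) c d (k : ℤ) := by
  intro k
  induction k using Nat.strong_induction_on with
  | _ k ih =>
    intro hk
    rcases Nat.lt_or_ge k 5 with h5 | h5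
    · interval_cases k
      · simpa using hV0
      · simpa using hV1
      · simp
      · rw [hV3 (by omega)]; simp
      · rw [hV4 (by omega)]; simp
    · rcases Nat.even_or_odd' k with ⟨j, rfl | rfl⟩
      · -- `k = 2 * j`, `j ≥ 3`
        obtain ⟨i, rfl⟩ : ∃ i, j = i + 3 := ⟨j - 3, by omega⟩
        have hne : V 2 ≠ 0 := hV2 (by omega)
        have h := heven (i + 3) (by omega) hk
        rw [show i + 3 - 1 = i + 2 by omega, show i + 3 - 2 = i + 1 by omega,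
          show i + 3 + 2 = i + 5 by omega, show i + 3 + 1 = i + 4 by omega] at h
        have e := normEDS_even (V 2) c d ((i : ℤ) + 3)
        rw [show (i : ℤ) + 3 - 1 = ((i + 2 : ℕ) : ℤ) by push_cast; ring,
          show (i : ℤ) + 3 - 2 = ((i + 1 : ℕ) : ℤ) by push_cast; ring,
          show (i : ℤ) + 3 + 2 = ((i + 5 : ℕ) : ℤ) by push_cast; ring,
          show (i : ℤ) + 3 + 1 = ((i + 4 : ℕ) : ℤ) by push_cast; ring,
          show (i : ℤ) + 3 = ((i + 3 : ℕ) : ℤ) by push_cast; ring,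
          show 2 * ((i + 3 : ℕ) : ℤ) = ((2 * (i + 3) : ℕ) : ℤ) by push_cast; ring] at e
        rw [← ih (i + 2) (by omega) (by omega), ← ih (i + 1) (by omega) (by omega),
          ← ih (i + 5) (by omega) (by omega), ← ih (i + 4) (by omega) (by omega),
          ← ih (i + 3) (by omega) (by omega), ← h] at e
        exact (mul_right_cancel₀ hne e).symm
      · -- `k = 2 * j + 1`, `j ≥ 2`
        obtain ⟨i, rfl⟩ : ∃ i, j = i + 2 := ⟨j - 2, by omega⟩
        have h := hodd (i + 2) (by omega) (by omega)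
        rw [show i + 2 - 1 = i + 1 by omega, show i + 2 + 2 = i + 4 by omega,
          show i + 2 + 1 = i + 3 by omega] at h
        have e := normEDS_odd (V 2) c d ((i : ℤ) + 2)
        rw [show (i : ℤ) + 2 - 1 = ((i + 1 : ℕ) : ℤ) by push_cast; ring,
          show (i : ℤ) + 2 + 2 = ((i + 4 : ℕ) : ℤ) by push_cast; ring,
          show (i : ℤ) + 2 + 1 = ((i + 3 : ℕ) : ℤ) by push_cast; ring,
          show (i : ℤ) + 2 = ((i + 2 : ℕ) : ℤ) by push_cast; ring,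
          show 2 * ((i + 2 : ℕ) : ℤ) + 1 = ((2 * (i + 2) + 1 : ℕ) : ℤ) by push_cast; ring] at e
        rw [← ih (i + 1) (by omega) (by omega), ← ih (i + 4) (by omega) (by omega),
          ← ih (i + 3) (by omega) (by omega), ← ih (i + 2) (by omega) (by omega), ← h] at e
        exact e.symm

/-- **T1, packaged.** Under the hypotheses of `eds_law`, `V` agrees with `normEDS (V 2) c d`
up to index `M + 1`, where `c = V 3` and `d * V 2 = V 4`. -/
theorem eq_normEDS {M : ℕ} {x V : ℕ → F} {G : F → F → F → F} {c d : F}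
    (hV0 : V 0 = 0) (hV1 : V 1 = 1)
    (hVne : ∀ k, 1 ≤ k → k ≤ M → V k ≠ 0)
    (hstep : ∀ k, 1 ≤ k → k ≤ M → V (k + 1) * V (k - 1) = (x 1 - x k) * V k ^ 2)
    (hG12 : ∀ u v w, G u v w = G v u w) (hG23 : ∀ u v w, G u v w = G u w v)
    (hadd : ∀ i j, 1 ≤ j → j < i → i + j ≤ M → ∀ c,
      (x (i + j) - c) * (x (i - j) - c) * (x i - x j) ^ 2 = G (x i) (x j) c)
    (hdbl : 2 ≤ M → ∀ c, G (x 1) (x 1) c = V 2 ^ 2 * (x 2 - c))
    (hV3 : 2 ≤ M → V 3 = c) (hV4 : 3 ≤ M → V 4 = d * V 2) :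
    ∀ k, k ≤ M + 1 → V k = normEDS (V 2) c d (k : ℤ) :=
  eq_normEDS_of_rec hV0 hV1 (fun h => hVne 2 (by omega) (by omega)) hV3 hV4
    (fun k hk hkM => eds_odd hV1 hVne hstep hG12 hG23 hadd hdbl k hk hkM)
    (fun k hk hkM => eds_even hV1 hVne hstep hG12 hG23 hadd hdbl k hk hkM)

/-- The sequence defined by the one-step law from `V 2 = b` and the `x`-sequence. -/
noncomputable def seqV (x : ℕ → F) (b : F) : ℕ → F
  | 0 => 0
  | 1 => 1
  | 2 => b
  | (k + 3) => (x 1 - x (k + 2)) * seqV x b (k + 2) ^ 2 / seqV x b (k + 1)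

@[simp] theorem seqV_zero (x : ℕ → F) (b : F) : seqV x b 0 = 0 := by rw [seqV]
@[simp] theorem seqV_one (x : ℕ → F) (b : F) : seqV x b 1 = 1 := by rw [seqV]
@[simp] theorem seqV_two (x : ℕ → F) (b : F) : seqV x b 2 = b := by rw [seqV]
theorem seqV_add_three (x : ℕ → F) (b : F) (k : ℕ) :
    seqV x b (k + 3) = (x 1 - x (k + 2)) * seqV x b (k + 2) ^ 2 / seqV x b (k + 1) := by
  rw [seqV]

theorem seqV_three (x : ℕ → F) (b : F) : seqV x b 3 = (x 1 - x 2) * b ^ 2 := by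
  have := seqV_add_three x b 0
  simpa using this

theorem seqV_four (x : ℕ → F) (b : F) :
    seqV x b 4 = (x 1 - x 3) * ((x 1 - x 2) * b ^ 2) ^ 2 / b := by
  have := seqV_add_three x b 1
  simpa [seqV_three] using this

/-- Nonvanishing of `seqV` as long as `x 1 ≠ x k`. -/
theorem seqV_ne_zero {M : ℕ} {x : ℕ → F} {b : F} (hb : b ≠ 0)
    (hx : ∀ k, 2 ≤ k → k < M → x 1 ≠ x k) :
    ∀ k, 1 ≤ k → k ≤ M → seqV x b k ≠ 0 := by
  intro k
  induction k using Nat.strong_induction_on with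
  | _ k ih =>
    intro hk hkM
    rcases Nat.lt_or_ge k 3 with h3 | h3
    · interval_cases k
      · simp
      · simpa using hb
    · obtain ⟨i, rfl⟩ : ∃ i, k = i + 3 := ⟨k - 3, by omega⟩
      rw [seqV_add_three]
      have h1 := ih (i + 2) (by omega) (by omega) (by omega)
      have h2 := ih (i + 1) (by omega) (by omega) (by omega)
      have h3 : x 1 - x (i + 2) ≠ 0 := sub_ne_zero.mpr (hx (i + 2) (by omega) (by omega))
      exact div_ne_zero (mul_ne_zero h3 (pow_ne_zero 2 h1)) h2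

/-- The one-step law for `seqV`. -/
theorem seqV_step {M : ℕ} {x : ℕ → F} {b : F} (hb : b ≠ 0)
    (hx : ∀ k, 2 ≤ k → k < M → x 1 ≠ x k) :
    ∀ k, 1 ≤ k → k ≤ M →
      seqV x b (k + 1) * seqV x b (k - 1) = (x 1 - x k) * seqV x b k ^ 2 := by
  intro k hk hkM
  rcases Nat.lt_or_ge k 2 with h2 | h2
  · obtain rfl : k = 1 := by omega
    simp
  · obtain ⟨i, rfl⟩ : ∃ i, k = i + 2 := ⟨k - 2, by omega⟩
    have h2 := seqV_ne_zero hb hx (i + 1) (by omega) (by omega)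
    rw [show i + 2 + 1 = i + 3 by omega, show i + 2 - 1 = i + 1 by omega, seqV_add_three,
      div_mul_cancel₀ _ h2]

/-- **T1, final form for block T3.** The sequence `seqV x b` agrees with Mathlib's
`normEDS b c d` up to index `M + 1`. -/
theorem seqV_eq_normEDS {M : ℕ} {x : ℕ → F} {b c d : F} {G : F → F → F → F}
    (hb : b ≠ 0)
    (hx : ∀ k, 2 ≤ k → k < M → x 1 ≠ x k)
    (hG12 : ∀ u v w, G u v w = G v u w) (hG23 : ∀ u v w, G u v w = G u w v)
    (hadd : ∀ i j, 1 ≤ j → j < i → i + j ≤ M → ∀ c,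
      (x (i + j) - c) * (x (i - j) - c) * (x i - x j) ^ 2 = G (x i) (x j) c)
    (hdbl : 2 ≤ M → ∀ c, G (x 1) (x 1) c = b ^ 2 * (x 2 - c))
    (h3 : 2 ≤ M → (x 1 - x 2) * b ^ 2 = c)
    (h4 : 3 ≤ M → (x 1 - x 3) * c ^ 2 = d * b * b) :
    ∀ k, k ≤ M + 1 → seqV x b k = normEDS b c d (k : ℤ) := by
  have key := eq_normEDS (M := M) (x := x) (V := seqV x b) (G := G) (c := c) (d := d)
    (seqV_zero x b) (seqV_one x b) (seqV_ne_zero hb hx) (seqV_step hb hx) hG12 hG23 hadd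
    (by simpa using hdbl)
    (fun h => by rw [seqV_three, h3 h])
    (fun h => by
      rw [seqV_four, seqV_two, h3 (by omega), h4 h, mul_div_assoc, div_self hb, mul_one])
  simpa using key

/-- Under the hypotheses of `seqV_eq_normEDS`: `normEDS b c d k ≠ 0` for `1 ≤ k ≤ M`. -/
theorem normEDS_ne_zero {M : ℕ} {x : ℕ → F} {b c d : F} {G : F → F → F → F}
    (hb : b ≠ 0)
    (hx : ∀ k, 2 ≤ k → k < M → x 1 ≠ x k)
    (hG12 : ∀ u v w, G u v w = G v u w) (hG23 : ∀ u v w, G u v w = G u w v)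
    (hadd : ∀ i j, 1 ≤ j → j < i → i + j ≤ M → ∀ c,
      (x (i + j) - c) * (x (i - j) - c) * (x i - x j) ^ 2 = G (x i) (x j) c)
    (hdbl : 2 ≤ M → ∀ c, G (x 1) (x 1) c = b ^ 2 * (x 2 - c))
    (h3 : 2 ≤ M → (x 1 - x 2) * b ^ 2 = c)
    (h4 : 3 ≤ M → (x 1 - x 3) * c ^ 2 = d * b * b)
    (k : ℕ) (hk : 1 ≤ k) (hkM : k ≤ M) : normEDS b c d (k : ℤ) ≠ 0 := by
  rw [← seqV_eq_normEDS hb hx hG12 hG23 hadd hdbl h3 h4 k (by omega)]
  exact seqV_ne_zero hb hx k hk hkM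

/-- Under the hypotheses of `seqV_eq_normEDS`: the one-step law for `normEDS b c d`, i.e. the
`x`-coordinate formula `ψ(k+1) ψ(k-1) = (x 1 - x k) ψ(k)²` for `1 ≤ k ≤ M`. -/
theorem normEDS_step {M : ℕ} {x : ℕ → F} {b c d : F} {G : F → F → F → F}
    (hb : b ≠ 0)
    (hx : ∀ k, 2 ≤ k → k < M → x 1 ≠ x k)
    (hG12 : ∀ u v w, G u v w = G v u w) (hG23 : ∀ u v w, G u v w = G u w v)
    (hadd : ∀ i j, 1 ≤ j → j < i → i + j ≤ M → ∀ c,
      (x (i + j) - c) * (x (i - j) - c) * (x i - x j) ^ 2 = G (x i) (x j) c)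
    (hdbl : 2 ≤ M → ∀ c, G (x 1) (x 1) c = b ^ 2 * (x 2 - c))
    (h3 : 2 ≤ M → (x 1 - x 2) * b ^ 2 = c)
    (h4 : 3 ≤ M → (x 1 - x 3) * c ^ 2 = d * b * b)
    (k : ℕ) (hk : 1 ≤ k) (hkM : k ≤ M) :
    normEDS b c d ((k : ℤ) + 1) * normEDS b c d ((k : ℤ) - 1) =
      (x 1 - x k) * normEDS b c d (k : ℤ) ^ 2 := by
  have e := seqV_eq_normEDS hb hx hG12 hG23 hadd hdbl h3 h4
  have s := seqV_step hb hx k hk hkM
  rw [e (k + 1) (by omega), e (k - 1) (by omega), e k (by omega)] at s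
  rw [show (k : ℤ) + 1 = ((k + 1 : ℕ) : ℤ) by push_cast; ring,
    show (k : ℤ) - 1 = ((k - 1 : ℕ) : ℤ) by rw [Nat.cast_sub hk]; push_cast; ring]
  exact s

/-- The general law for `normEDS b c d` under the hypotheses of `seqV_eq_normEDS`:
`ψ(m+n) ψ(m-n) = (x n - x m) ψ(m)² ψ(n)²` for `m > n ≥ 1`, `m + n ≤ M + 1`. -/
theorem normEDS_law {M : ℕ} {x : ℕ → F} {b c d : F} {G : F → F → F → F}
    (hb : b ≠ 0)
    (hx : ∀ k, 2 ≤ k → k < M → x 1 ≠ x k)
    (hG12 : ∀ u v w, G u v w = G v u w) (hG23 : ∀ u v w, G u v w = G u w v)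
    (hadd : ∀ i j, 1 ≤ j → j < i → i + j ≤ M → ∀ c,
      (x (i + j) - c) * (x (i - j) - c) * (x i - x j) ^ 2 = G (x i) (x j) c)
    (hdbl : 2 ≤ M → ∀ c, G (x 1) (x 1) c = b ^ 2 * (x 2 - c))
    (h3 : 2 ≤ M → (x 1 - x 2) * b ^ 2 = c)
    (h4 : 3 ≤ M → (x 1 - x 3) * c ^ 2 = d * b * b)
    (m n : ℕ) (hn : 1 ≤ n) (hnm : n < m) (hmn : m + n ≤ M + 1) :
    normEDS b c d ((m : ℤ) + n) * normEDS b c d ((m : ℤ) - n) =
      (x n - x m) * normEDS b c d (m : ℤ) ^ 2 * normEDS b c d (n : ℤ) ^ 2 := by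
  have e := seqV_eq_normEDS hb hx hG12 hG23 hadd hdbl h3 h4
  have s := eds_law (seqV_one x b) (seqV_ne_zero hb hx) (seqV_step hb hx) hG12 hG23 hadd
    (by simpa using hdbl) m n hn hnm hmn
  rw [e (m + n) (by omega), e (m - n) (by omega), e m (by omega), e n (by omega)] at s
  rw [show (m : ℤ) + n = ((m + n : ℕ) : ℤ) by push_cast; ring,
    show (m : ℤ) - n = ((m - n : ℕ) : ℤ) by rw [Nat.cast_sub hnm.le]]
  exact s

end Fermat.Agent.S13_EDS
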