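-- Project R (S13), block T2: the polynomial identities that start the induction for the
-- multiplication formula (the values of the division polynomials at `3` and `4` in terms of the
-- duplication data `Φ₂`, `Ψ₂Sq`), valid over any commutative ring, together with their evaluated
-- forms and the resultant identity `Δ = A * Φ₂ + B * Ψ₂Sq`.
import Mathlib

set_option autoImplicit false

namespace Fermat.Agent.S13_Init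

open Polynomial WeierstrassCurve

variable {R : Type*} [CommRing R] (W : WeierstrassCurve R)

/-! ### Identities in `R[X]` -/

/-- `Ψ₃ = X * Ψ₂Sq - Φ₂` (i.e. `ψ₃ = (x(P) - x(2P)) ψ₂²`). -/
theorem Ψ₃_eq : W.Ψ₃ = X * W.Ψ₂Sq - W.Φ 2 := by
  rw [Φ_two, Ψ₃, Ψ₂Sq]
  simp only [map_ofNat, C_mul]
  ring1

/-- `preΨ₄ * Ψ₂Sq = 2 X Ψ₃² - S`, where `S` is the numerator of the sum formula
`(x(3P) + x(P)) * (x(2P) - x(P))²` cleared of denominators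
(i.e. `ψ₄ ψ₂ = (x(P) - x(3P)) ψ₃²`). -/
theorem preΨ₄_mul_Ψ₂Sq :
    W.preΨ₄ * W.Ψ₂Sq = 2 * X * W.Ψ₃ ^ 2 -
      (2 * (W.Φ 2 + X * W.Ψ₂Sq) * W.Φ 2 * X + C W.b₂ * X * W.Φ 2 * W.Ψ₂Sq +
        C W.b₄ * (W.Φ 2 + X * W.Ψ₂Sq) * W.Ψ₂Sq + C W.b₆ * W.Ψ₂Sq ^ 2) := by
  rw [Φ_two, Ψ₃, Ψ₂Sq, preΨ₄]
  simp only [b₂, b₄, b₆, b₈]
  simp only [map_ofNat, C_add, C_sub, C_mul, C_pow]
  ring1

/-- `preΨ₄² = 4 Φ₂³ + b₂ Φ₂² Ψ₂Sq + 2 b₄ Φ₂ Ψ₂Sq² + b₆ Ψ₂Sq³`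
(i.e. `ΨSq₄ = Ψ₂Sq⁴ * Ψ₂Sq(x(2P))`). -/
theorem preΨ₄_sq :
    W.preΨ₄ ^ 2 = 4 * W.Φ 2 ^ 3 + C W.b₂ * W.Φ 2 ^ 2 * W.Ψ₂Sq +
      2 * C W.b₄ * W.Φ 2 * W.Ψ₂Sq ^ 2 + C W.b₆ * W.Ψ₂Sq ^ 3 := by
  rw [Φ_two, Ψ₂Sq, preΨ₄]
  simp only [b₂, b₄, b₆, b₈]
  simp only [map_ofNat, C_add, C_sub, C_mul, C_pow]
  ring1

/-- The resultant identity: `Δ` is a combination of `Φ₂` and `Ψ₂Sq`. -/
theorem C_Δ_eq :
    C W.Δ = (C (W.b₂ ^ 2 - 32 * W.b₄) - 8 * C W.b₂ * X - 48 * X ^ 2) * W.Φ 2 +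
      (12 * X ^ 3 - C W.b₂ * X ^ 2 - 10 * C W.b₄ * X + C (W.b₂ * W.b₄ - 27 * W.b₆)) * W.Ψ₂Sq := by
  rw [Φ_two, Ψ₂Sq, Δ]
  simp only [b₂, b₄, b₆, b₈]
  simp only [map_ofNat, C_add, C_sub, C_mul, C_pow, C_neg]
  ring1

/-! ### Evaluated forms -/

theorem eval_Ψ₂Sq (x : R) :
    W.Ψ₂Sq.eval x = 4 * x ^ 3 + W.b₂ * x ^ 2 + 2 * W.b₄ * x + W.b₆ := by
  simp [Ψ₂Sq]

theorem eval_Φ_two (x : R) :
    (W.Φ 2).eval x = x ^ 4 - W.b₄ * x ^ 2 - 2 * W.b₆ * x - W.b₈ := by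
  simp [Φ_two]

theorem eval_Ψ₃ (x : R) :
    W.Ψ₃.eval x = x * W.Ψ₂Sq.eval x - (W.Φ 2).eval x := by
  have h := congrArg (Polynomial.eval x) (Ψ₃_eq W)
  simpa only [eval_sub, eval_mul, eval_X] using h

theorem eval_preΨ₄_mul_Ψ₂Sq (x : R) :
    W.preΨ₄.eval x * W.Ψ₂Sq.eval x = 2 * x * W.Ψ₃.eval x ^ 2 -
      (2 * ((W.Φ 2).eval x + x * W.Ψ₂Sq.eval x) * (W.Φ 2).eval x * x +
        W.b₂ * x * (W.Φ 2).eval x * W.Ψ₂Sq.eval x +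
        W.b₄ * ((W.Φ 2).eval x + x * W.Ψ₂Sq.eval x) * W.Ψ₂Sq.eval x +
        W.b₆ * W.Ψ₂Sq.eval x ^ 2) := by
  have h := congrArg (Polynomial.eval x) (preΨ₄_mul_Ψ₂Sq W)
  simpa only [eval_sub, eval_add, eval_mul, eval_pow, eval_X, eval_C, eval_ofNat] using h

theorem eval_preΨ₄_sq (x : R) :
    W.preΨ₄.eval x ^ 2 = 4 * (W.Φ 2).eval x ^ 3 + W.b₂ * (W.Φ 2).eval x ^ 2 * W.Ψ₂Sq.eval x +
      2 * W.b₄ * (W.Φ 2).eval x * W.Ψ₂Sq.eval x ^ 2 + W.b₆ * W.Ψ₂Sq.eval x ^ 3 := by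
  have h := congrArg (Polynomial.eval x) (preΨ₄_sq W)
  simpa only [eval_sub, eval_add, eval_mul, eval_pow, eval_X, eval_C, eval_ofNat] using h

theorem Δ_eq_eval (x : R) :
    W.Δ = (W.b₂ ^ 2 - 32 * W.b₄ - 8 * W.b₂ * x - 48 * x ^ 2) * (W.Φ 2).eval x +
      (12 * x ^ 3 - W.b₂ * x ^ 2 - 10 * W.b₄ * x + (W.b₂ * W.b₄ - 27 * W.b₆)) *
        W.Ψ₂Sq.eval x := by
  have h := congrArg (Polynomial.eval x) (C_Δ_eq W)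
  simpa only [eval_sub, eval_add, eval_mul, eval_pow, eval_X, eval_C, eval_ofNat] using h

/-- `Φ₂` and `Ψ₂Sq` have no common root when `Δ ≠ 0`. -/
theorem Δ_eq_zero_of_eval_eq_zero {x : R} (h1 : (W.Φ 2).eval x = 0)
    (h2 : W.Ψ₂Sq.eval x = 0) : W.Δ = 0 := by
  rw [Δ_eq_eval W x, h1, h2, mul_zero, mul_zero, add_zero]

theorem eval_Φ_two_ne_zero (hΔ : W.Δ ≠ 0) {x : R} (h2 : W.Ψ₂Sq.eval x = 0) :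
    (W.Φ 2).eval x ≠ 0 :=
  fun h1 => hΔ (Δ_eq_zero_of_eval_eq_zero W h1 h2)

/-- `Ψ₃(x) = -Φ₂(x)` at a root of `Ψ₂Sq` (a point of order two). -/
theorem eval_Ψ₃_of_eval_Ψ₂Sq_eq_zero {x : R} (h2 : W.Ψ₂Sq.eval x = 0) :
    W.Ψ₃.eval x = -(W.Φ 2).eval x := by
  rw [eval_Ψ₃, h2, mul_zero, zero_sub]

end Fermat.Agent.S13_Init
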