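-- Project R (S13), block T3: the multiplication formula `x(k•P) ΨSq_k(x) = Φ_k(x)` for a point
-- `P = (x, y)` whose first `M` multiples are nonzero, by identifying the sequence defined by the
-- one-step law with the values of Mathlib's division polynomials (T0 + T1 + T2).
import Mathlib
import Fermat.Agent.S13_Defs
import Fermat.Agent.S13_EDS
import Fermat.Agent.S13_AddSub
import Fermat.Agent.S13_Init

set_option autoImplicit false
set_option linter.unusedSectionVars false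

namespace Fermat.Agent.S13_Mul

open WeierstrassCurve Polynomial Fermat.Agent.S13_Defs

variable {F : Type*} [Field F]

/-! ### Evaluation of Mathlib's division polynomials at a point of the curve -/

section Eval

variable (W : WeierstrassCurve.Affine F) (x y : F)

/-- `ψ₂(P) = 2y + a₁x + a₃`. -/
theorem evalEval_ψ₂ : W.ψ₂.evalEval x y = 2 * y + W.a₁ * x + W.a₃ := by
  rw [WeierstrassCurve.ψ₂, WeierstrassCurve.Affine.evalEval_polynomialY]

theorem eval_Ψ₂Sq_eq_sq (h : W.Equation x y) :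
    W.Ψ₂Sq.eval x = (W.ψ₂.evalEval x y) ^ 2 := by
  have h1 := congrArg (Polynomial.evalEval x y) W.ψ₂_sq
  rw [WeierstrassCurve.Affine.Equation] at h
  simp only [evalEval_add, evalEval_mul, evalEval_pow, evalEval_C, h, mul_zero, add_zero] at h1
  exact h1.symm

/-- The value at `(x, y)` of the `n`-th division polynomial, as a normalised EDS. -/
theorem evalEval_ψ (n : ℤ) :
    (W.ψ n).evalEval x y =
      normEDS (W.ψ₂.evalEval x y) (W.Ψ₃.eval x) (W.preΨ₄.eval x) n := by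
  have := map_normEDS (Polynomial.evalEvalRingHom x y) W.ψ₂ (C W.Ψ₃) (C W.preΨ₄) n
  rw [Polynomial.coe_evalEvalRingHom] at this
  rw [WeierstrassCurve.ψ, this, evalEval_C, evalEval_C]

theorem eval_preΨ (h : W.Equation x y) (n : ℤ) :
    (W.preΨ n).eval x =
      preNormEDS ((W.ψ₂.evalEval x y) ^ 4) (W.Ψ₃.eval x) (W.preΨ₄.eval x) n := by
  have := map_preNormEDS (Polynomial.evalRingHom x) (W.Ψ₂Sq ^ 2) W.Ψ₃ W.preΨ₄ n
  simp only [Polynomial.coe_evalRingHom, eval_pow] at this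
  rw [WeierstrassCurve.preΨ, this, eval_Ψ₂Sq_eq_sq W x y h]
  congr 1
  ring

/-- `ψ_n(P) = preΨ_n(x) · (ψ₂(P) if n is even)`. -/
theorem evalEval_ψ_eq (h : W.Equation x y) (n : ℤ) :
    (W.ψ n).evalEval x y =
      (W.preΨ n).eval x * (if Even n then W.ψ₂.evalEval x y else 1) := by
  rw [evalEval_ψ, eval_preΨ W x y h, normEDS]

/-- `ΨSq_n(x) = ψ_n(P)²`. -/
theorem eval_ΨSq (h : W.Equation x y) (n : ℤ) :
    (W.ΨSq n).eval x = ((W.ψ n).evalEval x y) ^ 2 := by
  rw [evalEval_ψ, WeierstrassCurve.ΨSq, eval_mul, eval_pow, eval_preΨ W x y h, normEDS]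
  split_ifs with hn
  · rw [eval_Ψ₂Sq_eq_sq W x y h]; ring
  · simp

/-- `Φ_n(x) = x ψ_n(P)² - ψ_{n+1}(P) ψ_{n-1}(P)`. -/
theorem eval_Φ (h : W.Equation x y) (n : ℤ) :
    (W.Φ n).eval x =
      x * ((W.ψ n).evalEval x y) ^ 2 -
        (W.ψ (n + 1)).evalEval x y * (W.ψ (n - 1)).evalEval x y := by
  rw [WeierstrassCurve.Φ, eval_sub, eval_mul, eval_X, eval_ΨSq W x y h, eval_mul, eval_mul,
    eval_preΨ W x y h, eval_preΨ W x y h, evalEval_ψ, evalEval_ψ, evalEval_ψ, normEDS, normEDS,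
    normEDS]
  have h1 : Even (n + 1) ↔ ¬ Even n := by rw [Int.even_add_one]
  have h2 : Even (n - 1) ↔ ¬ Even n := by rw [Int.even_sub_one]
  by_cases hn : Even n
  · simp only [hn, h1, h2, not_true_eq_false, if_true, if_false]
    simp
  · simp only [hn, h1, h2, not_false_eq_true, if_true, if_false]
    rw [eval_Ψ₂Sq_eq_sq W x y h]
    ring

end Eval

/-! ### A sequence satisfying the EDS recurrences up to a bound is the normalised EDS -/

theorem eq_normEDS_of_recurrences (s c d : F) (hs : s ≠ 0) (L : ℕ) (V : ℕ → F)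
    (h0 : V 0 = 0) (h1 : V 1 = 1) (h2 : V 2 = s) (h3 : 3 ≤ L → V 3 = c)
    (h4 : 4 ≤ L → V 4 = d * s)
    (hodd : ∀ k : ℕ, 2 ≤ k → 2 * k + 1 ≤ L →
      V (2 * k + 1) = V (k + 2) * V k ^ 3 - V (k - 1) * V (k + 1) ^ 3)
    (heven : ∀ k : ℕ, 3 ≤ k → 2 * k ≤ L →
      V (2 * k) * s = V (k - 1) ^ 2 * V k * V (k + 2) - V (k - 2) * V k * V (k + 1) ^ 2) :
    ∀ n : ℕ, n ≤ L → V n = normEDS s c d (n : ℤ) := by
  intro n
  induction n using normEDSRec' with
  | zero => intro _; simp [h0]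
  | one => intro _; simp [h1]
  | two => intro _; simp [h2]
  | three => intro hL; rw [h3 hL]; simp
  | four => intro hL; rw [h4 hL]; simp
  | even m ih =>
    intro hL
    have e : V (2 * (m + 3)) * s = V (m + 2) ^ 2 * V (m + 3) * V (m + 5) -
        V (m + 1) * V (m + 3) * V (m + 4) ^ 2 := heven (m + 3) (by omega) hL
    have e' := normEDS_even s c d ((m + 3 : ℕ) : ℤ)
    rw [ih (m + 2) (by omega) (by omega), ih (m + 3) (by omega) (by omega),
      ih (m + 5) (by omega) (by omega), ih (m + 1) (by omega) (by omega),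
      ih (m + 4) (by omega) (by omega)] at e
    apply mul_right_cancel₀ hs
    rw [e]
    have c1 : (((2 * (m + 3) : ℕ)) : ℤ) = 2 * ((m + 3 : ℕ) : ℤ) := by push_cast; ring
    rw [c1, e']
    have c2 : ((m + 3 : ℕ) : ℤ) - 1 = ((m + 2 : ℕ) : ℤ) := by push_cast; ring
    have c3 : ((m + 3 : ℕ) : ℤ) + 2 = ((m + 5 : ℕ) : ℤ) := by push_cast; ring
    have c4 : ((m + 3 : ℕ) : ℤ) - 2 = ((m + 1 : ℕ) : ℤ) := by push_cast; ring
    have c5 : ((m + 3 : ℕ) : ℤ) + 1 = ((m + 4 : ℕ) : ℤ) := by push_cast; ring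
    rw [c2, c3, c4, c5]
  | odd m ih =>
    intro hL
    have e : V (2 * (m + 2) + 1) = V (m + 4) * V (m + 2) ^ 3 - V (m + 1) * V (m + 3) ^ 3 :=
      hodd (m + 2) (by omega) hL
    have e' := normEDS_odd s c d ((m + 2 : ℕ) : ℤ)
    rw [ih (m + 4) (by omega) (by omega), ih (m + 2) (by omega) (by omega),
      ih (m + 1) (by omega) (by omega), ih (m + 3) (by omega) (by omega)] at e
    rw [e]
    have c1 : (((2 * (m + 2) + 1 : ℕ)) : ℤ) = 2 * ((m + 2 : ℕ) : ℤ) + 1 := by push_cast; ring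
    rw [c1, e']
    have c2 : ((m + 2 : ℕ) : ℤ) + 2 = ((m + 4 : ℕ) : ℤ) := by push_cast; ring
    have c3 : ((m + 2 : ℕ) : ℤ) - 1 = ((m + 1 : ℕ) : ℤ) := by push_cast; ring
    have c4 : ((m + 2 : ℕ) : ℤ) + 1 = ((m + 3 : ℕ) : ℤ) := by push_cast; ring
    rw [c2, c3, c4]

/-! ### The sequences attached to a point -/

section Point

variable [DecidableEq F] (W : WeierstrassCurve.Affine F) {x y : F} (h : W.Nonsingular x y)

/-- The sequence `V` defined by the one-step law. -/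
noncomputable def Vseq : ℕ → F
  | 0 => 0
  | 1 => 1
  | 2 => W.ψ₂.evalEval x y
  | (k + 3) =>
    (x - xc ((k + 2) • (WeierstrassCurve.Affine.Point.some x y h : W.Point))) * Vseq (k + 2) ^ 2
      / Vseq (k + 1)

local notation "P₀" => (WeierstrassCurve.Affine.Point.some x y h : W.Point)
local notation "𝓥" => Vseq W h

theorem Vseq_zero : 𝓥 0 = 0 := by rw [Vseq]
theorem Vseq_one : 𝓥 1 = 1 := by rw [Vseq]
theorem Vseq_two : 𝓥 2 = W.ψ₂.evalEval x y := by rw [Vseq]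
theorem Vseq_add_three (k : ℕ) :
    𝓥 (k + 3) = (x - xc ((k + 2) • P₀)) * 𝓥 (k + 2) ^ 2 / 𝓥 (k + 1) := by rw [Vseq]

theorem psi2_eq : psi2 P₀ = W.ψ₂.evalEval x y := by
  rw [psi2_some, evalEval_ψ₂]

theorem two_nsmul_ne_zero_iff : (2 : ℕ) • P₀ ≠ 0 ↔ W.ψ₂.evalEval x y ≠ 0 := by
  rw [evalEval_ψ₂, two_nsmul]
  constructor
  · intro h2 h0
    apply h2
    apply WeierstrassCurve.Affine.Point.add_self_of_Y_eq
    rw [WeierstrassCurve.Affine.negY]
    linear_combination h0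
  · intro h0 h2
    apply h0
    by_contra hne
    have hy : y ≠ W.negY x y := by
      intro hy
      apply hne
      rw [WeierstrassCurve.Affine.negY] at hy
      linear_combination hy
    rw [WeierstrassCurve.Affine.Point.add_self_of_Y_ne hy] at h2
    exact WeierstrassCurve.Affine.Point.some_ne_zero _ h2

variable (M : ℕ)
  (hM : ∀ j : ℕ, 1 ≤ j → j ≤ M →
    j • (WeierstrassCurve.Affine.Point.some x y h : W.Point) ≠ (0 : W.Point))

include hM

theorem xs_ne {i j : ℕ} (hj : 1 ≤ j) (hij : j < i) (hs : i + j ≤ M) :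
    xc (i • P₀) ≠ xc (j • P₀) := by
  intro hx
  rcases eq_or_eq_neg_of_xc_eq (hM i (by omega) (by omega)) (hM j hj (by omega)) hx with e | e
  · apply hM (i - j) (by omega) (by omega)
    rw [sub_nsmul _ hij.le, e, add_neg_cancel]
  · apply hM (i + j) (by omega) hs
    rw [add_nsmul, e, neg_add_cancel]

theorem Vseq_ne_zero : ∀ k : ℕ, 1 ≤ k → k ≤ M → 𝓥 k ≠ 0 := by
  intro k
  induction k using Nat.strong_induction_on with
  | _ k ih =>
    intro hk hkM
    match k, hk, hkM, ih with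
    | 1, _, _, _ => rw [Vseq_one]; exact one_ne_zero
    | 2, _, hkM, _ =>
      rw [Vseq_two]
      exact (two_nsmul_ne_zero_iff W h).mp (hM 2 (by omega) hkM)
    | (k + 3), _, hkM, ih =>
      rw [Vseq_add_three]
      refine div_ne_zero (mul_ne_zero ?_ (pow_ne_zero 2 (ih (k + 2) (by omega) (by omega) (by omega))))
        (ih (k + 1) (by omega) (by omega) (by omega))
      have := xs_ne W h M hM (i := k + 2) (j := 1) le_rfl (by omega) (by omega)
      rw [one_nsmul, xc_some] at this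
      exact sub_ne_zero.mpr (Ne.symm this)

theorem Vseq_step : ∀ k : ℕ, 1 ≤ k → k ≤ M →
    𝓥 (k + 1) * 𝓥 (k - 1) = (xc (1 • P₀) - xc (k • P₀)) * 𝓥 k ^ 2 := by
  intro k hk hkM
  match k, hk, hkM with
  | 1, _, _ => simp [Vseq_zero]
  | 2, _, _ =>
    rw [show (2 : ℕ) + 1 = 0 + 3 from rfl, Vseq_add_three]
    simp [Vseq_one]
  | (k + 3), _, hkM =>
    rw [show k + 3 + 1 = (k + 1) + 3 from rfl, Vseq_add_three]
    have hne := Vseq_ne_zero W h M hM (k + 2) (by omega) (by omega)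
    rw [show k + 3 - 1 = k + 2 from rfl, show k + 1 + 2 = k + 3 from rfl,
      show k + 1 + 1 = k + 2 from rfl, div_mul_cancel₀ _ hne]
    simp

theorem Vseq_G (i j : ℕ) (hj : 1 ≤ j) (hij : j < i) (hs : i + j ≤ M) (c : F) :
    (xc ((i + j) • P₀) - c) * (xc ((i - j) • P₀) - c)
      * (xc (i • P₀) - xc (j • P₀)) ^ 2 =
      G W (xc (i • P₀)) (xc (j • P₀)) c := by
  have := Fermat.Agent.S13_AddSub.G_add_sub (hM i (by omega) (by omega)) (hM j hj (by omega))
    (xs_ne W h M hM hj hij hs) c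
  rw [add_nsmul, sub_nsmul _ hij.le, ← sub_eq_add_neg]
  exact this

theorem Vseq_dbl (h2 : 2 ≤ M) (c : F) :
    G W (xc (1 • P₀)) (xc (1 • P₀)) c = 𝓥 2 ^ 2 * (xc (2 • P₀) - c) := by
  have hs0 : W.ψ₂.evalEval x y ≠ 0 := (two_nsmul_ne_zero_iff W h).mp (hM 2 (by omega) h2)
  have := Fermat.Agent.S13_AddSub.G_add_self (P := P₀)
    (WeierstrassCurve.Affine.Point.some_ne_zero _) (by rw [psi2_eq]; exact hs0) c
  rw [psi2_eq] at this
  rw [Vseq_two, one_nsmul, two_nsmul]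
  exact this

/-- doubling formula `x(2P) Ψ₂Sq(x) = Φ₂(x)` -/
theorem xc_two_mul (h2 : 2 ≤ M) :
    xc ((2 : ℕ) • P₀) * W.Ψ₂Sq.eval x = (W.Φ 2).eval x := by
  have hd := Vseq_dbl W h M hM h2 0
  rw [one_nsmul, xc_some, G_eq, Vseq_two, ← eval_Ψ₂Sq_eq_sq W x y h.1] at hd
  rw [WeierstrassCurve.Φ_two]
  simp only [eval_sub, eval_mul, eval_pow, eval_C, eval_X]
  linear_combination -hd

/-- The main law for `V` (from T1). -/
theorem Vseq_main : ∀ m n : ℕ, 1 ≤ n → n < m → m + n ≤ M + 1 →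
    𝓥 (m + n) * 𝓥 (m - n) =
      (xc (n • P₀) - xc (m • P₀)) * 𝓥 m ^ 2 * 𝓥 n ^ 2 :=
  Fermat.Agent.S13_EDS.eds_law (x := fun k => xc (k • P₀)) (V := Vseq W h) (G := G W)
    (Vseq_one W h) (Vseq_ne_zero W h M hM) (Vseq_step W h M hM) (G_comm12 W) (G_comm23 W)
    (Vseq_G W h M hM) (Vseq_dbl W h M hM)

theorem Vseq_odd (k : ℕ) (hk : 2 ≤ k) (hkM : 2 * k + 1 ≤ M + 1) :
    𝓥 (2 * k + 1) = 𝓥 (k + 2) * 𝓥 k ^ 3 - 𝓥 (k - 1) * 𝓥 (k + 1) ^ 3 := by
  have hm := Vseq_main W h M hM (k + 1) k (by omega) (by omega) (by omega)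
  have h1 := Vseq_step W h M hM k (by omega) (by omega)
  have h2 := Vseq_step W h M hM (k + 1) (by omega) (by omega)
  rw [show k + 1 + k = 2 * k + 1 by ring, show k + 1 - k = 1 by omega, Vseq_one] at hm
  rw [show k + 1 + 1 = k + 2 by ring, show k + 1 - 1 = k by omega] at h2
  linear_combination hm - 𝓥 k ^ 2 * h2 + 𝓥 (k + 1) ^ 2 * h1

theorem Vseq_even (k : ℕ) (hk : 3 ≤ k) (hkM : 2 * k ≤ M + 1) :
    𝓥 (2 * k) * W.ψ₂.evalEval x y =
      𝓥 (k - 1) ^ 2 * 𝓥 k * 𝓥 (k + 2) - 𝓥 (k - 2) * 𝓥 k * 𝓥 (k + 1) ^ 2 := by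
  have hm := Vseq_main W h M hM (k + 1) (k - 1) (by omega) (by omega) (by omega)
  have h1 := Vseq_step W h M hM (k - 1) (by omega) (by omega)
  have h2 := Vseq_step W h M hM (k + 1) (by omega) (by omega)
  rw [show k + 1 + (k - 1) = 2 * k by omega, show k + 1 - (k - 1) = 2 by omega, Vseq_two] at hm
  rw [show k - 1 + 1 = k by omega, show k - 1 - 1 = k - 2 by omega] at h1
  rw [show k + 1 + 1 = k + 2 by ring, show k + 1 - 1 = k by omega] at h2
  linear_combination hm - 𝓥 (k - 1) ^ 2 * h2 + 𝓥 (k + 1) ^ 2 * h1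

theorem Vseq_three (h2 : 2 ≤ M) : 𝓥 3 = W.Ψ₃.eval x := by
  have hd := xc_two_mul W h M hM h2
  have hs := eval_Ψ₂Sq_eq_sq W x y h.1
  have ht := congrArg (Polynomial.eval x) (Fermat.Agent.S13_Init.Ψ₃_eq W)
  simp only [eval_sub, eval_mul, eval_X] at ht
  rw [show (3 : ℕ) = 0 + 3 from rfl, Vseq_add_three]
  simp only [zero_add, Vseq_one, div_one, Vseq_two]
  rw [ht, ← hd, hs]
  ring

theorem Vseq_four (h3 : 3 ≤ M) : 𝓥 4 = W.preΨ₄.eval x * W.ψ₂.evalEval x y := by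
  have hs0 : W.ψ₂.evalEval x y ≠ 0 := (two_nsmul_ne_zero_iff W h).mp (hM 2 (by omega) (by omega))
  have hd := xc_two_mul W h M hM (by omega)
  have hs := eval_Ψ₂Sq_eq_sq W x y h.1
  have ht := congrArg (Polynomial.eval x) (Fermat.Agent.S13_Init.Ψ₃_eq W)
  have ht' := congrArg (Polynomial.eval x) (Fermat.Agent.S13_Init.preΨ₄_mul_Ψ₂Sq W)
  simp only [eval_sub, eval_mul, eval_X, eval_add, eval_pow, eval_C, eval_ofNat] at ht ht'
  have hV3 := Vseq_three W h M hM (by omega)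
  have g0 := Vseq_G W h M hM 2 1 le_rfl (by omega) (by omega) 0
  have g1 := Vseq_G W h M hM 2 1 le_rfl (by omega) (by omega) 1
  simp only [show 2 + 1 = 3 from rfl, show 2 - 1 = 1 from rfl, one_nsmul, xc_some] at g0 g1
  rw [G_eq] at g0 g1
  rw [show (4 : ℕ) = 1 + 3 from rfl, Vseq_add_three]
  simp only [show 1 + 2 = 3 from rfl, show 1 + 1 = 2 from rfl, Vseq_two, hV3]
  rw [div_eq_iff hs0]
  set T := eval x W.Ψ₂Sq with hT
  set Φ := eval x (W.Φ 2) with hΦ
  set x2 := xc (2 • (WeierstrassCurve.Affine.Point.some x y h : W.Point)) with hx2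
  set x3 := xc (3 • (WeierstrassCurve.Affine.Point.some x y h : W.Point)) with hx3
  set s := W.ψ₂.evalEval x y with hs'
  set Ψ3 := eval x W.Ψ₃ with hΨ3
  set p4 := eval x W.preΨ₄ with hp4
  -- sum formula
  have hsum : (x3 + x) * (x2 - x) ^ 2 =
      2 * x2 * x * (x2 + x) + W.b₂ * x2 * x + W.b₄ * (x2 + x) + W.b₆ := by
    linear_combination g0 - g1
  have hsumT : (x3 + x) * Ψ3 ^ 2 =
      2 * (Φ + x * T) * Φ * x + W.b₂ * x * Φ * T + W.b₄ * (Φ + x * T) * T + W.b₆ * T ^ 2 := by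
    have e1 : Ψ3 = -(x2 - x) * T := by rw [ht, ← hd]; ring
    rw [e1, ← hd]
    linear_combination T ^ 2 * hsum
  have : p4 * s ^ 2 = (x - x3) * Ψ3 ^ 2 := by
    rw [← hs, ht']
    linear_combination hsumT
  linear_combination -this

/-- **T3, pointwise form**: the sequence `V` is the sequence of values of the division
polynomials. -/
theorem Vseq_eq_evalEval_ψ : ∀ n : ℕ, n ≤ M + 1 → 𝓥 n = (W.ψ (n : ℤ)).evalEval x y := by
  intro n hn
  rw [evalEval_ψ]
  by_cases h2 : 2 ≤ M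
  · have hs0 : W.ψ₂.evalEval x y ≠ 0 := (two_nsmul_ne_zero_iff W h).mp (hM 2 (by omega) h2)
    exact eq_normEDS_of_recurrences _ _ _ hs0 (M + 1) (Vseq W h) (Vseq_zero W h) (Vseq_one W h)
      (Vseq_two W h) (fun _ => Vseq_three W h M hM h2)
      (fun h4 => Vseq_four W h M hM (by omega))
      (Vseq_odd W h M hM) (Vseq_even W h M hM) n hn
  · have : n = 0 ∨ n = 1 ∨ n = 2 := by omega
    rcases this with rfl | rfl | rfl
    · simp [Vseq_zero]
    · simp [Vseq_one]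
    · simp [Vseq_two]

theorem eval_ΨSq_eq (k : ℕ) (hk : k ≤ M + 1) : (W.ΨSq (k : ℤ)).eval x = 𝓥 k ^ 2 := by
  rw [eval_ΨSq W x y h.1, Vseq_eq_evalEval_ψ W h M hM k hk]

theorem eval_Φ_eq (k : ℕ) (hk1 : 1 ≤ k) (hk : k ≤ M) :
    (W.Φ (k : ℤ)).eval x =
      xc (k • (WeierstrassCurve.Affine.Point.some x y h : W.Point)) * 𝓥 k ^ 2 := by
  have hst := Vseq_step W h M hM k hk1 hk
  rw [one_nsmul, xc_some] at hst
  rw [eval_Φ W x y h.1, show ((k : ℤ) + 1) = ((k + 1 : ℕ) : ℤ) by push_cast; ring,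
    show ((k : ℤ) - 1) = ((k - 1 : ℕ) : ℤ) by omega,
    ← Vseq_eq_evalEval_ψ W h M hM k (by omega), ← Vseq_eq_evalEval_ψ W h M hM (k + 1) (by omega),
    ← Vseq_eq_evalEval_ψ W h M hM (k - 1) (by omega)]
  linear_combination -hst

end Point

/-! ### Exports -/

variable [DecidableEq F]

/-- **T3**: multiplication formula below the order of the point. -/
theorem mul_formula (W : WeierstrassCurve.Affine F) {x y : F} (h : W.Nonsingular x y) (M : ℕ)
    (hM : ∀ j : ℕ, 1 ≤ j → j ≤ M → j • (WeierstrassCurve.Affine.Point.some x y h) ≠ 0) :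
    ∀ k : ℕ, 1 ≤ k → k ≤ M → (W.ΨSq (k : ℤ)).eval x ≠ 0 ∧
      ∀ (xk yk : F) (hk : W.Nonsingular xk yk),
        k • (WeierstrassCurve.Affine.Point.some x y h) =
          WeierstrassCurve.Affine.Point.some xk yk hk →
        xk * (W.ΨSq (k : ℤ)).eval x = (W.Φ (k : ℤ)).eval x := by
  intro k hk1 hk
  refine ⟨?_, ?_⟩
  · rw [eval_ΨSq_eq W h M hM k (by omega)]
    exact pow_ne_zero 2 (Vseq_ne_zero W h M hM k hk1 hk)
  · intro xk yk hxk e
    rw [eval_ΨSq_eq W h M hM k (by omega), eval_Φ_eq W h M hM k hk1 hk, e, xc_some]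

/-- **T3**: the division polynomial vanishes at the order of the point. -/
theorem ΨSq_eval_eq_zero (W : WeierstrassCurve.Affine F) {x y : F} (h : W.Nonsingular x y)
    (M : ℕ)
    (hM : ∀ j : ℕ, 1 ≤ j → j ≤ M → j • (WeierstrassCurve.Affine.Point.some x y h) ≠ 0)
    (hM1 : (M + 1) • (WeierstrassCurve.Affine.Point.some x y h) = 0) :
    (W.ΨSq ((M + 1 : ℕ) : ℤ)).eval x = 0 := by
  rw [eval_ΨSq_eq W h M hM (M + 1) le_rfl]
  refine pow_eq_zero_iff (two_ne_zero) |>.mpr ?_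
  match M, hM, hM1 with
  | 0, _, hM1 =>
    rw [zero_add, one_nsmul] at hM1
    exact absurd hM1 (WeierstrassCurve.Affine.Point.some_ne_zero _)
  | 1, _, hM1 =>
    rw [show 1 + 1 = 2 from rfl, Vseq_two]
    by_contra hne
    exact (two_nsmul_ne_zero_iff W h).mpr hne hM1
  | (M + 2), hM, hM1 =>
    have hst := Vseq_step W h (M + 2) hM (M + 2) (by omega) le_rfl
    have hne := Vseq_ne_zero W h (M + 2) hM (M + 1) (by omega) (by omega)
    have hx : xc ((M + 2) • (WeierstrassCurve.Affine.Point.some x y h : W.Point)) = x := by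
      have : (M + 2) • (WeierstrassCurve.Affine.Point.some x y h : W.Point) =
          -(WeierstrassCurve.Affine.Point.some x y h : W.Point) := by
        rw [eq_neg_iff_add_eq_zero, ← succ_nsmul]
        exact hM1
      rw [this, xc_neg, xc_some]
    rw [one_nsmul, xc_some, hx, sub_self, zero_mul, show M + 2 - 1 = M + 1 from rfl] at hst
    exact (mul_eq_zero.mp hst).resolve_right hne

/-- **T3, relation at the point**, in terms of the values of `ψ`. -/
theorem ψ_mul_ψ (W : WeierstrassCurve.Affine F) {x y : F} (h : W.Nonsingular x y) (M : ℕ)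
    (hM : ∀ j : ℕ, 1 ≤ j → j ≤ M → j • (WeierstrassCurve.Affine.Point.some x y h) ≠ 0)
    (m n : ℕ) (hn : 1 ≤ n) (hnm : n < m) (hmn : m + n ≤ M + 1) :
    (W.ψ ((m + n : ℕ) : ℤ)).evalEval x y * (W.ψ ((m - n : ℕ) : ℤ)).evalEval x y =
      (W.Φ (n : ℤ)).eval x * (W.ΨSq (m : ℤ)).eval x
        - (W.Φ (m : ℤ)).eval x * (W.ΨSq (n : ℤ)).eval x := by
  rw [← Vseq_eq_evalEval_ψ W h M hM (m + n) hmn, ← Vseq_eq_evalEval_ψ W h M hM (m - n) (by omega),
    Vseq_main W h M hM m n hn hnm hmn, eval_ΨSq_eq W h M hM m (by omega),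
    eval_ΨSq_eq W h M hM n (by omega), eval_Φ_eq W h M hM n hn (by omega),
    eval_Φ_eq W h M hM m (by omega) (by omega)]
  ring

/-- **T3, relation at the point** (the shape consumed by T4). -/
theorem rel_formula (W : WeierstrassCurve.Affine F) {x y : F} (h : W.Nonsingular x y) (M : ℕ)
    (hM : ∀ j : ℕ, 1 ≤ j → j ≤ M → j • (WeierstrassCurve.Affine.Point.some x y h) ≠ 0) :
    ∀ m n : ℕ, 1 ≤ n → n < m → m + n ≤ M + 1 →
      (W.preΨ ((m + n : ℕ) : ℤ)).eval x * (W.preΨ ((m - n : ℕ) : ℤ)).eval x *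
        (if Even (m + n) then W.Ψ₂Sq.eval x else 1) =
      (W.Φ (n : ℤ)).eval x * (W.ΨSq (m : ℤ)).eval x
        - (W.Φ (m : ℤ)).eval x * (W.ΨSq (n : ℤ)).eval x := by
  intro m n hn hnm hmn
  rw [← ψ_mul_ψ W h M hM m n hn hnm hmn, evalEval_ψ_eq W x y h.1, evalEval_ψ_eq W x y h.1,
    eval_Ψ₂Sq_eq_sq W x y h.1]
  have e1 : Even (((m + n : ℕ) : ℤ)) ↔ Even (m + n) := Int.even_coe_nat _
  have e2 : Even (((m - n : ℕ) : ℤ)) ↔ Even (m + n) := by
    rw [Int.even_coe_nat, Nat.even_sub hnm.le, Nat.even_add]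
  by_cases he : Even (m + n)
  · simp only [e1, e2, he, if_true]
    ring
  · simp only [e1, e2, he, if_false]
    ring

end Fermat.Agent.S13_Mul
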