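import Mathlib
import Fermat.Agent.S13_Mul

/-!
# T4 of Project R: the elliptic-net relation for division polynomials

For a Weierstrass curve `W` with `Δ ≠ 0` over an algebraically closed field of characteristic
zero, for all integers `m n`:
`preΨ (m + n) * preΨ (m - n) * ε (m + n) = Φ n * ΨSq m - Φ m * ΨSq n`,
where `ε k = Ψ₂Sq` for even `k` and `1` for odd `k`.
-/

namespace Fermat.Agent.S13_Rel

open Polynomial WeierstrassCurve

section Defect

variable {R : Type*} [CommRing R] (W : WeierstrassCurve R)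

/-- The defect of the relation. -/
noncomputable def defect (m n : ℤ) : R[X] :=
  W.preΨ (m + n) * W.preΨ (m - n) * (if Even (m + n) then W.Ψ₂Sq else 1) -
    (W.Φ n * W.ΨSq m - W.Φ m * W.ΨSq n)

lemma defect_swap (m n : ℤ) : defect W n m = - defect W m n := by
  unfold defect
  have h1 : n + m = m + n := add_comm _ _
  have h2 : n - m = -(m - n) := by ring
  rw [h1, h2, preΨ_neg]
  ring

lemma defect_neg_right (m n : ℤ) : defect W m (-n) = defect W m n := by
  unfold defect
  have h1 : m + -n = m - n := by ring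
  have h2 : m - -n = m + n := by ring
  have h3 : Even (m - n) ↔ Even (m + n) := by
    rw [Int.even_sub, Int.even_add]
  rw [h1, h2, Φ_neg, ΨSq_neg]
  simp only [h3]
  ring

lemma defect_neg_left (m n : ℤ) : defect W (-m) n = defect W m n := by
  rw [defect_swap, defect_neg_right, defect_swap, neg_neg]

lemma defect_zero_right (m : ℤ) : defect W m 0 = 0 := by
  unfold defect
  rw [add_zero, sub_zero, Φ_zero, ΨSq_zero, ΨSq]
  ring

lemma defect_self (m : ℤ) : defect W m m = 0 := by
  unfold defect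
  rw [sub_self, preΨ_zero]
  ring

end Defect

variable {F : Type*} [Field F]

lemma exists_equation [IsAlgClosed F] (h2 : (2 : F) ≠ 0) (W : WeierstrassCurve F) (x : F) :
    ∃ y, W.toAffine.Equation x y := by
  obtain ⟨s, hs⟩ := IsAlgClosed.exists_eq_mul_self
    ((W.a₁ * x + W.a₃) ^ 2 + 4 * (x ^ 3 + W.a₂ * x ^ 2 + W.a₄ * x + W.a₆))
  refine ⟨(s - (W.a₁ * x + W.a₃)) / 2, ?_⟩
  rw [Affine.equation_iff]
  field_simp
  linear_combination (-1 : F) * hs

lemma defect_eval_eq_zero_or [DecidableEq F] (W : WeierstrassCurve F) {x y : F}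
    (h : W.toAffine.Nonsingular x y) (m n : ℕ) (hn : 1 ≤ n) (hnm : n < m) :
    (defect W m n).eval x = 0 ∨ ∃ N : ℕ, 1 ≤ N ∧ N ≤ m + n ∧ (W.ΨSq (N : ℤ)).eval x = 0 := by
  by_cases hM : ∀ j : ℕ, 1 ≤ j → j ≤ m + n - 1 → j • (Affine.Point.some x y h) ≠ 0
  · left
    have key := S13_Mul.rel_formula W h (m + n - 1) hM m n hn hnm (by omega)
    unfold defect
    have h1 : ((m : ℤ) + n) = ((m + n : ℕ) : ℤ) := by push_cast; ring
    have h2 : ((m : ℤ) - n) = ((m - n : ℕ) : ℤ) := by
      rw [Nat.cast_sub hnm.le]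
    have h3 : Even ((m + n : ℕ) : ℤ) ↔ Even (m + n) := Int.even_coe_nat _
    rw [h1, h2]
    simp only [h3]
    rw [eval_sub, eval_mul, eval_mul, eval_sub, eval_mul, eval_mul, sub_eq_zero, ← key]
    congr 1
    split_ifs <;> simp
  · right
    push Not at hM
    have hex : ∃ j : ℕ, 1 ≤ j ∧ j • (Affine.Point.some x y h) = 0 := by
      obtain ⟨j, h1, -, h3⟩ := hM
      exact ⟨j, h1, h3⟩
    classical
    have hN := Nat.find_spec hex
    have hmin : ∀ j : ℕ, 1 ≤ j → j ≤ Nat.find hex - 1 → j • (Affine.Point.some x y h) ≠ 0 := by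
      intro j hj hjN hj0
      have := Nat.find_min' hex ⟨hj, hj0⟩
      omega
    have h0 := S13_Mul.ΨSq_eval_eq_zero W h (Nat.find hex - 1) hmin
      (by rw [Nat.sub_add_cancel hN.1]; exact hN.2)
    rw [Nat.sub_add_cancel hN.1] at h0
    refine ⟨Nat.find hex, hN.1, ?_, h0⟩
    obtain ⟨j, h1, h2, h3⟩ := hM
    have := Nat.find_min' hex ⟨h1, h3⟩
    omega

lemma defect_nat [IsAlgClosed F] [CharZero F] (W : WeierstrassCurve F) (hΔ : W.Δ ≠ 0)
    (m n : ℕ) (hn : 1 ≤ n) (hnm : n < m) : defect W m n = 0 := by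
  classical
  have hQ0 : (∏ N ∈ Finset.Icc 1 (m + n), W.ΨSq (N : ℤ)) ≠ 0 := by
    rw [Finset.prod_ne_zero_iff]
    intro N hN
    apply ΨSq_ne_zero
    have hN0 : N ≠ 0 := by
      have := Finset.mem_Icc.mp hN
      omega
    exact_mod_cast hN0
  have key : defect W m n * (∏ N ∈ Finset.Icc 1 (m + n), W.ΨSq (N : ℤ)) = 0 := by
    apply Polynomial.funext
    intro x
    rw [eval_mul, eval_zero]
    obtain ⟨y, hy⟩ := exists_equation two_ne_zero W x
    have hns := (Affine.equation_iff_nonsingular_of_Δ_ne_zero hΔ).mp hy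
    rcases defect_eval_eq_zero_or W hns m n hn hnm with h0 | ⟨N, hN1, hN2, hN0⟩
    · rw [h0, zero_mul]
    · rw [eval_prod, Finset.prod_eq_zero (Finset.mem_Icc.mpr ⟨hN1, hN2⟩) hN0, mul_zero]
  exact (mul_eq_zero.mp key).resolve_right hQ0

theorem defect_eq_zero [IsAlgClosed F] [CharZero F] (W : WeierstrassCurve F) (hΔ : W.Δ ≠ 0)
    (m n : ℤ) : defect W m n = 0 := by
  have key : ∀ a b : ℕ, defect W a b = 0 := by
    intro a b
    rcases Nat.eq_zero_or_pos b with rfl | hb
    · exact_mod_cast defect_zero_right W a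
    rcases Nat.eq_zero_or_pos a with rfl | ha
    · rw [defect_swap, Nat.cast_zero, defect_zero_right, neg_zero]
    rcases lt_trichotomy a b with h | rfl | h
    · rw [defect_swap, defect_nat W hΔ b a ha h, neg_zero]
    · exact defect_self W _
    · exact defect_nat W hΔ a b hb h
  rcases Int.natAbs_eq m with hm | hm <;> rcases Int.natAbs_eq n with hn | hn <;> rw [hm, hn]
  · exact key _ _
  · rw [defect_neg_right]; exact key _ _
  · rw [defect_neg_left]; exact key _ _
  · rw [defect_neg_left, defect_neg_right]; exact key _ _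

/-- **T4**: the elliptic-net relation for the division polynomials. -/
theorem rel {F : Type*} [Field F] [IsAlgClosed F] [CharZero F] (W : WeierstrassCurve F)
    (hΔ : W.Δ ≠ 0) (m n : ℤ) :
    W.preΨ (m + n) * W.preΨ (m - n) * (if Even (m + n) then W.Ψ₂Sq else 1) =
      W.Φ n * W.ΨSq m - W.Φ m * W.ΨSq n :=
  sub_eq_zero.mp (defect_eq_zero W hΔ m n)

end Fermat.Agent.S13_Rel
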