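import Mathlib
import Fermat.Agent.S13_Rel

/-!
# T5 of Project R: zeros of division polynomials and the multiplication formula

For a Weierstrass curve `W` with `Δ ≠ 0` over an algebraically closed field of characteristic
zero and an affine point `P = (x, y)`:
* `ΨSq_eval_eq_zero_iff`: `ΨSq k` vanishes at `x` iff `k • P = 0`;
* `mul_x_formula`: if `k • P = (xk, yk)` then `xk * ΨSq k (x) = Φ k (x)`.
-/

namespace Fermat.Agent.S13_Zero

open Polynomial WeierstrassCurve

section Abstract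

variable {F : Type*} [Field F]

/-- `eps e k = e` for even `k` and `1` for odd `k`. -/
def eps (e : F) (k : ℤ) : F := if Even k then e else 1

/-- The "square" sequence attached to `a` and `e`. -/
def sq (a : ℤ → F) (e : F) (k : ℤ) : F := a k ^ 2 * eps e k

lemma eps_add_two_mul (e : F) (k j : ℤ) : eps e (k + 2 * j) = eps e k := by
  unfold eps
  have : Even (k + 2 * j) ↔ Even k := by
    rw [Int.even_add]
    simp
  simp only [this]

lemma eps_add_one (e : F) (k : ℤ) : eps e (k + 1) = if Even k then 1 else e := by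
  unfold eps
  by_cases hk : Even k
  · rw [if_neg (by rw [Int.even_add_one]; exact not_not.mpr hk), if_pos hk]
  · rw [if_pos (by rw [Int.even_add_one]; exact hk), if_neg hk]

/-- The abstract periodicity statement: all the sequence algebra of T5. -/
theorem abstract_period (a φ : ℤ → F) (e x : F)
    (hφ : ∀ k : ℤ, φ k = x * sq a e k - a (k + 1) * a (k - 1) * (if Even k then 1 else e))
    (hrel : ∀ m n : ℤ,
      a (m + n) * a (m - n) * eps e (m + n) = φ n * sq a e m - φ m * sq a e n)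
    (N : ℤ) (hN : 2 ≤ N)
    (H1 : ∀ r : ℤ, 1 ≤ r → r < N → sq a e r ≠ 0) (H2 : sq a e N = 0) (HφN : φ N ≠ 0)
    (H3 : x * sq a e (N - 1) = φ (N - 1))
    (He : N = 2 → e = 0) :
    (∀ (q : ℕ) (r : ℤ), 1 ≤ r → r < N → sq a e (q * N + r) ≠ 0) ∧
    (∀ q : ℕ, sq a e (q * N) = 0) ∧
    (∀ (q : ℕ) (r : ℤ), φ (q * N + r) * sq a e r = φ r * sq a e (q * N + r)) := by
  have C1 : ∀ (q : ℕ) (r : ℤ), 1 ≤ r → r < N → sq a e (q * N + r) ≠ 0 := by
    intro q
    induction q with
    | zero => intro r h1 h2; simpa using H1 r h1 h2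
    | succ q ih =>
      intro r h1 h2
      have h := hrel (q * N + r) N
      rw [H2, mul_zero, sub_zero] at h
      have hne : φ N * sq a e (q * N + r) ≠ 0 := mul_ne_zero HφN (ih r h1 h2)
      rw [← h] at hne
      have hidx : ((q + 1 : ℕ) : ℤ) * N + r = q * N + r + N := by push_cast; ring
      rw [hidx, sq]
      have h3 := left_ne_zero_of_mul hne
      exact mul_ne_zero (pow_ne_zero 2 (left_ne_zero_of_mul h3)) (right_ne_zero_of_mul hne)
  have C3 : ∀ (q : ℕ), sq a e (q * N) = 0 →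
      ∀ (r : ℤ), φ (q * N + r) * sq a e r = φ r * sq a e (q * N + r) := by
    intro q h0 r
    have h := hrel (q * N + r) r
    have hz : a (q * N + r - r) * eps e (q * N + r + r) = 0 := by
      have h1 : (q : ℤ) * N + r - r = q * N := by ring
      have h2 : eps e (q * N + r + r) = eps e (q * N) := by
        have : (q : ℤ) * N + r + r = q * N + 2 * r := by ring
        rw [this, eps_add_two_mul]
      rw [h1, h2]
      rcases mul_eq_zero.mp h0 with h | h
      · rw [(pow_eq_zero_iff two_ne_zero).mp h, zero_mul]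
      · rw [h, mul_zero]
    have h4 : φ r * sq a e (q * N + r) - φ (q * N + r) * sq a e r = 0 := by
      rw [← h]
      linear_combination (a (q * N + r + r)) * hz
    linear_combination -h4
  have C2 : ∀ q : ℕ, sq a e (q * N) = 0 := by
    rcases eq_or_lt_of_le hN with hN2 | hN3
    · intro q
      have he := He hN2.symm
      rw [sq, eps, if_pos (by rw [← hN2]; exact even_two.mul_left _), he, mul_zero]
    · intro q
      induction q with
      | zero =>
        have h := hrel 0 0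
        simp only [add_zero, sub_self] at h
        rw [Nat.cast_zero, zero_mul, sq, pow_two]
        exact h
      | succ q ih =>
        have hx := C3 q ih (N - 1)
        have hs1 : sq a e (N - 1) ≠ 0 := H1 (N - 1) (by omega) (by omega)
        have hφk : φ (q * N + (N - 1)) = x * sq a e (q * N + (N - 1)) := by
          apply mul_right_cancel₀ hs1
          rw [hx, ← H3]
          ring
        have hk := hφ (q * N + (N - 1))
        rw [hφk] at hk
        have hprod : a (q * N + (N - 1) - 1) * (a (q * N + (N - 1) + 1) *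
            (if Even ((q : ℤ) * N + (N - 1)) then 1 else e)) = 0 := by
          linear_combination hk
        have hne : a (q * N + (N - 1) - 1) ≠ 0 := by
          have h5 := C1 q (N - 2) (by omega) (by omega)
          have hidx : (q : ℤ) * N + (N - 1) - 1 = q * N + (N - 2) := by ring
          rw [hidx]
          intro h0
          apply h5
          rw [sq, h0]
          ring
        have hidx : ((q + 1 : ℕ) : ℤ) * N = q * N + (N - 1) + 1 := by push_cast; ring
        rw [hidx, sq, eps_add_one, pow_two, mul_assoc,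
          (mul_eq_zero.mp hprod).resolve_left hne, mul_zero]
  exact ⟨C1, C2, fun q r => C3 q (C2 q) r⟩

end Abstract

section Eval

variable {F : Type*} [Field F] (W : WeierstrassCurve F) (x : F)

lemma ΨSq_eval (k : ℤ) :
    (W.ΨSq k).eval x = sq (fun j => (W.preΨ j).eval x) (W.Ψ₂Sq.eval x) k := by
  rw [ΨSq, sq, eps, eval_mul, eval_pow]
  by_cases hk : Even k
  · rw [if_pos hk, if_pos hk]
  · rw [if_neg hk, if_neg hk, eval_one]

lemma Φ_eval (k : ℤ) :
    (W.Φ k).eval x = x * sq (fun j => (W.preΨ j).eval x) (W.Ψ₂Sq.eval x) k -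
      (W.preΨ (k + 1)).eval x * (W.preΨ (k - 1)).eval x *
        (if Even k then 1 else W.Ψ₂Sq.eval x) := by
  rw [← ΨSq_eval, WeierstrassCurve.Φ, eval_sub, eval_mul, eval_X, eval_mul, eval_mul]
  by_cases hk : Even k
  · rw [if_pos hk, if_pos hk, eval_one]
  · rw [if_neg hk, if_neg hk]

lemma Ψ₂Sq_eval : W.Ψ₂Sq.eval x = 4 * x ^ 3 + W.b₂ * x ^ 2 + 2 * W.b₄ * x + W.b₆ := by
  rw [Ψ₂Sq]
  simp

lemma Φ_two_eval : (W.Φ 2).eval x = x ^ 4 - W.b₄ * x ^ 2 - 2 * W.b₆ * x - W.b₈ := by
  rw [Φ_two]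
  simp

lemma preΨ₄_eval : W.preΨ₄.eval x = 2 * x ^ 6 + W.b₂ * x ^ 5 + 5 * W.b₄ * x ^ 4 +
    10 * W.b₆ * x ^ 3 + 10 * W.b₈ * x ^ 2 + (W.b₂ * W.b₈ - W.b₄ * W.b₆) * x +
    (W.b₄ * W.b₈ - W.b₆ ^ 2) := by
  rw [preΨ₄]
  simp

lemma resultant_eval :
    (-48 * x ^ 2 - 8 * W.b₂ * x + W.b₂ ^ 2 - 32 * W.b₄) * (W.Φ 2).eval x +
      (12 * x ^ 3 - W.b₂ * x ^ 2 - 10 * W.b₄ * x + W.b₂ * W.b₄ - 27 * W.b₆) * W.Ψ₂Sq.eval x =
      W.Δ := by
  rw [Φ_two_eval, Ψ₂Sq_eval, Δ]
  linear_combination (12 * x ^ 2 + 2 * x * W.b₂ + 8 * W.b₄) * W.b_relation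

lemma preΨ₄_eval_sq :
    W.preΨ₄.eval x ^ 2 = 4 * (W.Φ 2).eval x ^ 3 + W.b₂ * (W.Φ 2).eval x ^ 2 * W.Ψ₂Sq.eval x +
      2 * W.b₄ * (W.Φ 2).eval x * W.Ψ₂Sq.eval x ^ 2 + W.b₆ * W.Ψ₂Sq.eval x ^ 3 := by
  rw [Φ_two_eval, Ψ₂Sq_eval, preΨ₄_eval]
  linear_combination (13 * x ^ 8 + 8 * x ^ 7 * W.b₂ + x ^ 6 * W.b₂ ^ 2 + 28 * x ^ 6 * W.b₄ +
    6 * x ^ 5 * W.b₂ * W.b₄ + 38 * x ^ 5 * W.b₆ + 7 * x ^ 4 * W.b₂ * W.b₆ + 8 * x ^ 4 * W.b₄ ^ 2 +
    22 * x ^ 4 * W.b₈ + 4 * x ^ 3 * W.b₂ * W.b₈ + 16 * x ^ 3 * W.b₄ * W.b₆ +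
    8 * x ^ 2 * W.b₄ * W.b₈ + 7 * x ^ 2 * W.b₆ ^ 2 + 6 * x * W.b₆ * W.b₈ + W.b₈ ^ 2) *
    W.b_relation

lemma rel_eval [IsAlgClosed F] [CharZero F] (hΔ : W.Δ ≠ 0) (m n : ℤ) :
    (W.preΨ (m + n)).eval x * (W.preΨ (m - n)).eval x * eps (W.Ψ₂Sq.eval x) (m + n) =
      (W.Φ n).eval x * (W.ΨSq m).eval x - (W.Φ m).eval x * (W.ΨSq n).eval x := by
  have key := congrArg (Polynomial.eval x) (S13_Rel.rel W hΔ m n)
  rw [eval_mul, eval_mul, eval_sub, eval_mul, eval_mul] at key
  rw [← key, eps]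
  by_cases hk : Even (m + n)
  · rw [if_pos hk, if_pos hk]
  · rw [if_neg hk, if_neg hk, eval_one]

end Eval

section Torsion

variable {F : Type*} [Field F] [DecidableEq F]

lemma nsmul_mod {A : Type*} [AddMonoid A] (P : A) (N : ℕ) (hNP : N • P = 0) (q r : ℕ) :
    (q * N + r) • P = r • P := by
  rw [add_nsmul, mul_nsmul', hNP, nsmul_zero, zero_add]

variable [IsAlgClosed F] [CharZero F] (W : WeierstrassCurve.Affine F) (hΔ : W.Δ ≠ 0)
  {x y : F} (h : W.Nonsingular x y)

include hΔ in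
/-- The torsion case: `P` has exact order `N ≥ 2`. -/
theorem torsion_case (N : ℕ) (hN2 : 2 ≤ N)
    (hmin : ∀ j : ℕ, 1 ≤ j → j ≤ N - 1 → j • (Affine.Point.some x y h) ≠ 0)
    (hNP : N • (Affine.Point.some x y h) = 0) :
    (∀ q r : ℕ, 1 ≤ r → r < N → (W.ΨSq ((q * N + r : ℕ) : ℤ)).eval x ≠ 0) ∧
    (∀ q : ℕ, (W.ΨSq ((q * N : ℕ) : ℤ)).eval x = 0) ∧
    (∀ q r : ℕ, (W.Φ ((q * N + r : ℕ) : ℤ)).eval x * (W.ΨSq (r : ℤ)).eval x =
        (W.Φ (r : ℤ)).eval x * (W.ΨSq ((q * N + r : ℕ) : ℤ)).eval x) := by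
  have T3 := S13_Mul.mul_formula W h (N - 1) hmin
  have H1 : ∀ r : ℕ, 1 ≤ r → r < N → (W.ΨSq (r : ℤ)).eval x ≠ 0 :=
    fun r h1 h2 => (T3 r h1 (by omega)).1
  have H2 : (W.ΨSq (N : ℤ)).eval x = 0 := by
    have h0 := S13_Mul.ΨSq_eval_eq_zero W h (N - 1) hmin
      (by rw [Nat.sub_add_cancel (by omega)]; exact hNP)
    rwa [Nat.sub_add_cancel (by omega)] at h0
  have hneg : (N - 1) • (Affine.Point.some x y h) =
      Affine.Point.some x (W.negY x y) ((Affine.nonsingular_neg ..).mpr h) := by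
    rw [← Affine.Point.neg_some h]
    apply eq_neg_of_add_eq_zero_left
    rw [← succ_nsmul, Nat.sub_add_cancel (by omega)]
    exact hNP
  have hc : ((N - 1 : ℕ) : ℤ) = (N : ℤ) - 1 := by omega
  have H3 : x * (W.ΨSq ((N : ℤ) - 1)).eval x = (W.Φ ((N : ℤ) - 1)).eval x := by
    rw [← hc]
    exact (T3 (N - 1) (by omega) le_rfl).2 x _ _ hneg
  have hs : ∀ k : ℤ, (W.ΨSq k).eval x =
      sq (fun j => (W.preΨ j).eval x) (W.Ψ₂Sq.eval x) k := ΨSq_eval W x
  have hφ : ∀ k : ℤ, (W.Φ k).eval x =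
      x * sq (fun j => (W.preΨ j).eval x) (W.Ψ₂Sq.eval x) k -
        (W.preΨ (k + 1)).eval x * (W.preΨ (k - 1)).eval x *
          (if Even k then 1 else W.Ψ₂Sq.eval x) := Φ_eval W x
  have hrel : ∀ m n : ℤ,
      (W.preΨ (m + n)).eval x * (W.preΨ (m - n)).eval x * eps (W.Ψ₂Sq.eval x) (m + n) =
        (W.Φ n).eval x * sq (fun j => (W.preΨ j).eval x) (W.Ψ₂Sq.eval x) m -
          (W.Φ m).eval x * sq (fun j => (W.preΨ j).eval x) (W.Ψ₂Sq.eval x) n := by
    intro m n
    rw [← hs, ← hs]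
    exact rel_eval W x hΔ m n
  have He : (N : ℤ) = 2 → W.Ψ₂Sq.eval x = 0 := by
    intro hN
    have hN' : N = 2 := by exact_mod_cast hN
    subst hN'
    have h0 := H2
    rwa [show ((2 : ℕ) : ℤ) = 2 from rfl, ΨSq_two] at h0
  have HφN : (W.Φ (N : ℤ)).eval x ≠ 0 := by
    rcases Nat.eq_or_lt_of_le hN2 with hN | hN3
    · subst hN
      have he0 : W.Ψ₂Sq.eval x = 0 := He rfl
      intro h0
      apply hΔ
      have hres := resultant_eval W x
      rw [show ((2 : ℕ) : ℤ) = 2 from rfl] at h0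
      rw [h0, he0, mul_zero, mul_zero, add_zero] at hres
      exact hres.symm
    · have he0 : W.Ψ₂Sq.eval x ≠ 0 := by
        have h0 := H1 2 (by omega) (by omega)
        rwa [show ((2 : ℕ) : ℤ) = 2 from rfl, ΨSq_two] at h0
      have ham : (W.preΨ ((N : ℤ) - 1)).eval x ≠ 0 := by
        have h0 := H1 (N - 1) (by omega) (by omega)
        rw [hc, hs, sq] at h0
        exact fun h1 => h0 (by rw [h1]; ring)
      have hap : (W.preΨ ((N : ℤ) + 1)).eval x ≠ 0 := by
        rcases Nat.eq_or_lt_of_le hN3 with hN | hN4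
        · subst hN
          have h4 : ((3 : ℕ) : ℤ) + 1 = 4 := by norm_num
          have h2 : ((3 : ℕ) : ℤ) - 1 = 2 := by norm_num
          rw [h4, preΨ_four]
          rw [h2, ΨSq_two] at H3
          have hsq : W.preΨ₄.eval x ^ 2 = W.Ψ₂Sq.eval x ^ 4 := by
            rw [preΨ₄_eval_sq, ← H3]
            have he := Ψ₂Sq_eval W x
            linear_combination (-(W.Ψ₂Sq.eval x) ^ 3) * he
          intro h0
          rw [h0] at hsq
          exact pow_ne_zero 4 he0 (by rw [← hsq]; ring)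
        · -- `N ≥ 4`
          have h2P : 2 • (Affine.Point.some x y h) ≠ 0 := hmin 2 (by omega) (by omega)
          rcases h2 : 2 • (Affine.Point.some x y h) with _ | ⟨x₂, y₂, h₂⟩
          · exact absurd h2 h2P
          · have hx : x₂ ≠ x := by
              intro hx
              rcases (Affine.Point.X_eq_iff (h₁ := h₂) (h₂ := h)).mp hx with h3 | h3
              · rw [← h2, two_nsmul] at h3
                exact Affine.Point.some_ne_zero h (add_eq_right.mp h3)
              · rw [← h2] at h3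
                apply hmin 3 (by omega) (by omega)
                rw [succ_nsmul, h3, neg_add_cancel]
            have hφ2 := (T3 2 (by omega) (by omega)).2 x₂ y₂ h₂ h2
            rw [show ((2 : ℕ) : ℤ) = 2 from rfl] at hφ2
            have hr := hrel ((N : ℤ) - 1) 2
            rw [← hs, ← hs, ← hφ2, ← H3] at hr
            have hne : x₂ * (W.ΨSq 2).eval x * (W.ΨSq ((N : ℤ) - 1)).eval x -
                x * (W.ΨSq ((N : ℤ) - 1)).eval x * (W.ΨSq 2).eval x ≠ 0 := by
              have h5 : x₂ * (W.ΨSq 2).eval x * (W.ΨSq ((N : ℤ) - 1)).eval x -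
                  x * (W.ΨSq ((N : ℤ) - 1)).eval x * (W.ΨSq 2).eval x =
                  (x₂ - x) * ((W.ΨSq 2).eval x * (W.ΨSq ((N : ℤ) - 1)).eval x) := by ring
              rw [h5]
              refine mul_ne_zero (sub_ne_zero.mpr hx) (mul_ne_zero ?_ ?_)
              · rw [ΨSq_two]; exact he0
              · rw [← hc]; exact H1 (N - 1) (by omega) (by omega)
            rw [← hr] at hne
            have h6 : (N : ℤ) - 1 + 2 = N + 1 := by ring
            rw [h6] at hne
            exact left_ne_zero_of_mul (left_ne_zero_of_mul hne)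
      have hN := hφ N
      rw [← hs, H2, mul_zero, zero_sub] at hN
      rw [hN]
      refine neg_ne_zero.mpr (mul_ne_zero (mul_ne_zero hap ham) ?_)
      by_cases hk : Even (N : ℤ)
      · rw [if_pos hk]; exact one_ne_zero
      · rw [if_neg hk]; exact he0
  obtain ⟨C1, C2, C3⟩ := abstract_period (fun j => (W.preΨ j).eval x)
    (fun j => (W.Φ j).eval x) (W.Ψ₂Sq.eval x) x hφ hrel N (by exact_mod_cast hN2)
    (by
      intro r h1 h2
      obtain ⟨r', rfl⟩ := Int.eq_ofNat_of_zero_le (by omega : 0 ≤ r)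
      rw [← hs]
      exact H1 r' (by omega) (by omega))
    (by rw [← hs]; exact H2) HφN (by rw [← hs]; exact H3) He
  refine ⟨?_, ?_, ?_⟩
  · intro q r h1 h2
    have h0 := C1 q r (by omega) (by omega)
    rw [← hs] at h0
    have hidx : ((q * N + r : ℕ) : ℤ) = (q : ℤ) * N + r := by push_cast; ring
    rw [hidx]
    exact h0
  · intro q
    have h0 := C2 q
    rw [← hs] at h0
    have hidx : ((q * N : ℕ) : ℤ) = (q : ℤ) * N := by push_cast; ring
    rw [hidx]
    exact h0
  · intro q r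
    have h0 := C3 q r
    rw [← hs, ← hs] at h0
    have hidx : ((q * N + r : ℕ) : ℤ) = (q : ℤ) * N + r := by push_cast; ring
    rw [hidx]
    exact h0

end Torsion

section Main

variable {F : Type*} [Field F] [DecidableEq F]

/-- Data of the exact order of a torsion point. -/
lemma exists_order (W : WeierstrassCurve.Affine F) {x y : F} (h : W.Nonsingular x y)
    (hex : ∃ j : ℕ, 1 ≤ j ∧ j • (Affine.Point.some x y h) = 0) :
    ∃ N : ℕ, 2 ≤ N ∧ (∀ j : ℕ, 1 ≤ j → j ≤ N - 1 → j • (Affine.Point.some x y h) ≠ 0) ∧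
      N • (Affine.Point.some x y h) = 0 := by
  classical
  have hN := Nat.find_spec hex
  have hmin : ∀ j : ℕ, 1 ≤ j → j ≤ Nat.find hex - 1 → j • (Affine.Point.some x y h) ≠ 0 := by
    intro j hj hjN hj0
    have := Nat.find_min' hex ⟨hj, hj0⟩
    omega
  refine ⟨Nat.find hex, ?_, hmin, hN.2⟩
  by_contra hlt
  have h1 : Nat.find hex = 1 := by omega
  have h2 := hN.2
  rw [h1, one_nsmul] at h2
  exact Affine.Point.some_ne_zero h h2

/-- **T5 (i)**: `ΨSq k` vanishes at `x(P)` iff `k • P = 0`. -/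
theorem ΨSq_eval_eq_zero_iff {F : Type*} [Field F] [DecidableEq F] [IsAlgClosed F] [CharZero F]
    (W : WeierstrassCurve.Affine F) (hΔ : W.Δ ≠ 0) {x y : F} (h : W.Nonsingular x y) (k : ℕ) :
    (W.ΨSq (k : ℤ)).eval x = 0 ↔ k • (WeierstrassCurve.Affine.Point.some x y h) = 0 := by
  by_cases hex : ∃ j : ℕ, 1 ≤ j ∧ j • (Affine.Point.some x y h) = 0
  · obtain ⟨N, hN2, hmin, hNP⟩ := exists_order W h hex
    obtain ⟨C1, C2, -⟩ := torsion_case W hΔ h N hN2 hmin hNP
    have hk : k / N * N + k % N = k := by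
      rw [mul_comm]
      exact Nat.div_add_mod k N
    have hkP : k • (Affine.Point.some x y h) = (k % N) • (Affine.Point.some x y h) := by
      conv_lhs => rw [← hk]
      exact nsmul_mod _ N hNP _ _
    have hlt : k % N < N := Nat.mod_lt _ (by omega)
    by_cases hr : k % N = 0
    · have hk' : k / N * N = k := by omega
      have h0 := C2 (k / N)
      rw [hk'] at h0
      have h1 : k • (Affine.Point.some x y h) = 0 := by rw [hkP, hr, zero_nsmul]
      exact ⟨fun _ => h1, fun _ => h0⟩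
    · have h0 := C1 (k / N) (k % N) (by omega) hlt
      rw [hk] at h0
      have h1 : k • (Affine.Point.some x y h) ≠ 0 := by
        rw [hkP]
        exact hmin (k % N) (by omega) (by omega)
      exact ⟨fun h2 => absurd h2 h0, fun h2 => absurd h2 h1⟩
  · push Not at hex
    rcases Nat.eq_zero_or_pos k with rfl | hk
    · rw [Nat.cast_zero, ΨSq_zero, eval_zero, zero_nsmul]
      exact ⟨fun _ => rfl, fun _ => rfl⟩
    · have h0 := (S13_Mul.mul_formula W h k (fun j hj _ => hex j hj) k hk le_rfl).1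
      exact ⟨fun h2 => absurd h2 h0, fun h2 => absurd h2 (hex k hk)⟩

/-- **T5 (ii)**: the multiplication formula for the `x`-coordinate. -/
theorem mul_x_formula {F : Type*} [Field F] [DecidableEq F] [IsAlgClosed F] [CharZero F]
    (W : WeierstrassCurve.Affine F) (hΔ : W.Δ ≠ 0) {x y : F} (h : W.Nonsingular x y) (k : ℕ)
    (xk yk : F) (hk : W.Nonsingular xk yk)
    (hkP : k • (WeierstrassCurve.Affine.Point.some x y h) =
      WeierstrassCurve.Affine.Point.some xk yk hk) :
    xk * (W.ΨSq (k : ℤ)).eval x = (W.Φ (k : ℤ)).eval x := by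
  have hk0 : k • (Affine.Point.some x y h) ≠ 0 := by
    rw [hkP]
    exact Affine.Point.some_ne_zero hk
  have hkpos : 1 ≤ k := by
    rcases Nat.eq_zero_or_pos k with rfl | hk'
    · exact absurd (zero_nsmul _) hk0
    · exact hk'
  by_cases hex : ∃ j : ℕ, 1 ≤ j ∧ j • (Affine.Point.some x y h) = 0
  · obtain ⟨N, hN2, hmin, hNP⟩ := exists_order W h hex
    obtain ⟨-, -, C3⟩ := torsion_case W hΔ h N hN2 hmin hNP
    have hkd : k / N * N + k % N = k := by
      rw [mul_comm]
      exact Nat.div_add_mod k N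
    have hkP' : k • (Affine.Point.some x y h) = (k % N) • (Affine.Point.some x y h) := by
      conv_lhs => rw [← hkd]
      exact nsmul_mod _ N hNP _ _
    have hlt : k % N < N := Nat.mod_lt _ (by omega)
    have hr : k % N ≠ 0 := by
      intro hr
      rw [hkP', hr, zero_nsmul] at hk0
      exact hk0 rfl
    obtain ⟨hs, hx⟩ := S13_Mul.mul_formula W h (N - 1) hmin (k % N) (by omega) (by omega)
    have hxr := hx xk yk hk (by rw [← hkP', hkP])
    have h3 := C3 (k / N) (k % N)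
    rw [hkd, ← hxr] at h3
    apply mul_right_cancel₀ hs
    rw [h3]
    ring
  · push Not at hex
    exact (S13_Mul.mul_formula W h k (fun j hj _ => hex j hj) k hkpos le_rfl).2 xk yk hk hkP

end Main

end Fermat.Agent.S13_Zero
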