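import Fermat.Agent.S13_Card
import Fermat.Agent.S13_Zero

/-!
# S13_Torsion (helper5, block T6 of project R, final form)

For an elliptic curve `W` over an algebraically closed field of characteristic zero and an odd `N`:
`W` has exactly `N ^ 2` points of `N`-torsion, and `W.preΨ N = C N * ∏ r ∈ S, (X - C r)` where `S`
is the set of `x`-coordinates of the nonzero `N`-torsion points.
(`S13_Card` relative to the division-polynomial facts of `S13_Zero`.)
-/

set_option autoImplicit false

open Polynomial WeierstrassCurve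

namespace Fermat.Agent.S13_Torsion

variable {F : Type*} [Field F] [DecidableEq F] [IsAlgClosed F] [CharZero F]

theorem zeroIff (W : WeierstrassCurve.Affine F) (hΔ : W.Δ ≠ 0) : Fermat.Agent.S13_Card.ZeroIff W :=
  Fermat.Agent.S13_Card.zeroIff_of_nat fun k {_ _} h =>
    Fermat.Agent.S13_Zero.ΨSq_eval_eq_zero_iff W hΔ h k

theorem mulFormula (W : WeierstrassCurve.Affine F) (hΔ : W.Δ ≠ 0) :
    Fermat.Agent.S13_Card.MulFormula W :=
  Fermat.Agent.S13_Card.mulFormula_of_nat fun k {_ _} h xk yk hk hkP =>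
    Fermat.Agent.S13_Zero.mul_x_formula W hΔ h k xk yk hk hkP

/-- **T6a.** An elliptic curve over an algebraically closed field of characteristic zero has
exactly `N ^ 2` points of `N`-torsion (`N` odd). -/
theorem card_torsion (W : WeierstrassCurve.Affine F) (hΔ : W.Δ ≠ 0) {N : ℕ} (hN : Odd N) :
    Nat.card (Submodule.torsionBy ℤ W.Point (N : ℤ)) = N ^ 2 :=
  Fermat.Agent.S13_Card.card_torsion_of hΔ (zeroIff W hΔ) (mulFormula W hΔ) hN

/-- **T6b.** `preΨ N = N * ∏ (X - r)`, the product over the `x`-coordinates of the nonzero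
`N`-torsion points (`N` odd); there are `(N ^ 2 - 1) / 2` of them. -/
theorem exists_finset (W : WeierstrassCurve.Affine F) (hΔ : W.Δ ≠ 0) {N : ℕ} (hN : Odd N) :
    ∃ S : Finset F, S.card = (N ^ 2 - 1) / 2 ∧
      (∀ r : F, r ∈ S ↔
        ∃ (y : F) (h : W.Nonsingular r y), N • Affine.Point.some r y h = 0) ∧
      W.preΨ (N : ℤ) = C (N : F) * ∏ r ∈ S, (X - C r) :=
  Fermat.Agent.S13_Card.exists_finset_nsmul_of hΔ (zeroIff W hΔ) (mulFormula W hΔ) hN

end Fermat.Agent.S13_Torsion
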