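-- Statement S13: a reducible mod-p representation of the Frey curve has a Galois-stable cofixed line.
import Fermat.Statements.S13
import Fermat.Agent.S05
import Fermat.Agent.S13_Main
import Fermat.Agent.S13_Torsion
import Fermat.Agent.S13_Lp
import Fermat.Agent.S13_L2
import Fermat.Agent.S13_L2b

set_option autoImplicit false
open WeierstrassCurve WeierstrassCurve.Affine WeierstrassCurve.Affine.Point
open CuspForm ModularFormClass UpperHalfPlane
open FreyPackage

namespace Fermat.Agent.S13

theorem result (P : FreyPackage) (hred : ¬ GaloisRepIsIrreducible (K := AlgebraicClosure ℚ) ℚ P.freyCurve P.p) : HasGaloisStableCofixedLine (K := AlgebraicClosure ℚ) ℚ P.freyCurve P.p := by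
  have hΔ := Fermat.Agent.S13_Main.frey_baseChange_Δ_ne_zero P
  have hcard : Nat.card (Submodule.torsionBy ℤ (P.freyCurve⁄(AlgebraicClosure ℚ)).Point P.p) =
      P.p ^ 2 :=
    Fermat.Agent.S13_Torsion.card_torsion (P.freyCurve⁄(AlgebraicClosure ℚ)) hΔ P.hp_odd
  obtain ⟨S, -, hS, hΨ⟩ :=
    Fermat.Agent.S13_Torsion.exists_finset (P.freyCurve⁄(AlgebraicClosure ℚ)) hΔ P.hp_odd
  exact Fermat.Agent.S13_Main.main_of P hcard
    (fun A hA N hN hb ht => Fermat.Agent.S13_Lp.inertia_p_dichotomy P A hA N hN hb ht hcard S hS hΨ)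
    (fun A hA σ hσ R hR hpR c hc => Fermat.Agent.S13_L2.inertia_two_eigen P A hA σ hσ R hR hpR c hc)
    (fun R hR hpR => Fermat.Agent.S13_L2b.exists_not_fixed P R hR hpR)
    (fun q hq hq2 hqp => Fermat.Agent.S05.result P hq hq2 hqp) hred

end Fermat.Agent.S13
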