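import Mathlib

/-!
# S13_Card (helper5, block T6 of project R): counting the `n`-torsion of an elliptic curve

For an elliptic curve `W` over an algebraically closed field `F` of characteristic zero and an odd
`n`, *assuming* the two standard facts on division polynomials (block T5)

* `(W.ΨSq k).eval x = 0 ↔ k • P = 0` for an affine point `P = (x, y)`,
* `x(k • P) * (W.ΨSq k).eval x = (W.Φ k).eval x` if `k • P ≠ 0`,

we prove that `W` has exactly `n ^ 2` points of `n`-torsion and that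
`W.preΨ n = C n * ∏ r ∈ S, (X - C r)`, where `S` is the set of the `x`-coordinates of the nonzero
`n`-torsion points (of cardinality `(n ^ 2 - 1) / 2`).
-/

set_option autoImplicit false
set_option linter.unusedSectionVars false

open Polynomial WeierstrassCurve

namespace Fermat.Agent.S13_Card

variable {F : Type*} [Field F] [DecidableEq F] {W : WeierstrassCurve.Affine F}

/-- First division-polynomial fact (T5a). -/
def ZeroIff (W : WeierstrassCurve.Affine F) : Prop :=
  ∀ (k : ℤ) {x y : F} (h : W.Nonsingular x y),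
    (W.ΨSq k).eval x = 0 ↔ k • Affine.Point.some x y h = 0

/-- Second division-polynomial fact (T5b). -/
def MulFormula (W : WeierstrassCurve.Affine F) : Prop :=
  ∀ (k : ℤ) {x y x' y' : F} (h : W.Nonsingular x y) (h' : W.Nonsingular x' y'),
    k • Affine.Point.some x y h = Affine.Point.some x' y' h' →
      x' * (W.ΨSq k).eval x = (W.Φ k).eval x

/-- `ZeroIff` follows from its version for positive natural multiples. -/
theorem zeroIff_of_pos
    (H : ∀ (k : ℕ), 0 < k → ∀ {x y : F} (h : W.Nonsingular x y),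
      (W.ΨSq (k : ℤ)).eval x = 0 ↔ (k : ℤ) • Affine.Point.some x y h = 0) : ZeroIff W := by
  intro k x y h
  rcases lt_trichotomy k 0 with hk | hk | hk
  · obtain ⟨n, hn⟩ : ∃ n : ℕ, k = -(n : ℤ) := ⟨(-k).toNat, by omega⟩
    have hn0 : 0 < n := by omega
    rw [hn, ΨSq_neg, neg_smul, neg_eq_zero]
    exact H n hn0 h
  · subst hk
    simp
  · obtain ⟨n, hn⟩ : ∃ n : ℕ, k = (n : ℤ) := ⟨k.toNat, by omega⟩
    have hn0 : 0 < n := by omega
    rw [hn]
    exact H n hn0 h

/-- `MulFormula` follows from its version for positive natural multiples. -/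
theorem mulFormula_of_pos
    (H : ∀ (k : ℕ), 0 < k → ∀ {x y x' y' : F} (h : W.Nonsingular x y) (h' : W.Nonsingular x' y'),
      (k : ℤ) • Affine.Point.some x y h = Affine.Point.some x' y' h' →
        x' * (W.ΨSq (k : ℤ)).eval x = (W.Φ (k : ℤ)).eval x) : MulFormula W := by
  intro k x y x' y' h h' hk'
  rcases lt_trichotomy k 0 with hk | hk | hk
  · obtain ⟨n, hn⟩ : ∃ n : ℕ, k = -(n : ℤ) := ⟨(-k).toNat, by omega⟩
    have hn0 : 0 < n := by omega
    subst hn
    rw [ΨSq_neg, Φ_neg]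
    have h1 : (n : ℤ) • Affine.Point.some x y h = -Affine.Point.some x' y' h' := by
      rw [← hk', neg_smul, neg_neg]
    rw [Affine.Point.neg_some] at h1
    exact H n hn0 h _ h1
  · subst hk
    rw [zero_smul] at hk'
    exact absurd hk'.symm (Affine.Point.some_ne_zero h')
  · obtain ⟨n, hn⟩ : ∃ n : ℕ, k = (n : ℤ) := ⟨k.toNat, by omega⟩
    have hn0 : 0 < n := by omega
    subst hn
    exact H n hn0 h h' hk'

/-- `ZeroIff` from its version for natural multiples (`ℕ`-scalar multiplication). -/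
theorem zeroIff_of_nat
    (H : ∀ (k : ℕ) {x y : F} (h : W.Nonsingular x y),
      (W.ΨSq (k : ℤ)).eval x = 0 ↔ k • Affine.Point.some x y h = 0) : ZeroIff W :=
  zeroIff_of_pos fun k _ {x y} h => by
    rw [natCast_zsmul]
    exact H k h

/-- `MulFormula` from its version for natural multiples (`ℕ`-scalar multiplication). -/
theorem mulFormula_of_nat
    (H : ∀ (k : ℕ) {x y : F} (h : W.Nonsingular x y) (xk yk : F) (hk : W.Nonsingular xk yk),
      k • Affine.Point.some x y h = Affine.Point.some xk yk hk →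
        xk * (W.ΨSq (k : ℤ)).eval x = (W.Φ (k : ℤ)).eval x) : MulFormula W :=
  mulFormula_of_pos fun k _ {x y x' y'} h h' hk' => by
    rw [natCast_zsmul] at hk'
    exact H k h x' y' h' hk'

/-! ### Points with a given `x`-coordinate -/

/-- The `x`-coordinate of a point (`0` for the point at infinity). -/
def xc : W.Point → F
  | .zero => 0
  | .some x _ _ => x

@[simp] theorem xc_some {x y : F} (h : W.Nonsingular x y) : xc (Affine.Point.some x y h) = x := rfl

theorem exists_some_of_ne_zero {P : W.Point} (hP : P ≠ 0) :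
    ∃ (x y : F) (h : W.Nonsingular x y), P = Affine.Point.some x y h := by
  rcases P with _ | ⟨x, y, h⟩
  · exact absurd rfl hP
  · exact ⟨x, y, h, rfl⟩

theorem xc_neg (P : W.Point) : xc (-P) = xc P := by
  rcases P with _ | ⟨x, y, h⟩
  · rfl
  · rw [Affine.Point.neg_some]; rfl

theorem some_eq_or_eq_neg {x y y' : F} (h : W.Nonsingular x y) (h' : W.Nonsingular x y') :
    Affine.Point.some x y' h' = Affine.Point.some x y h ∨
      Affine.Point.some x y' h' = -Affine.Point.some x y h := by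
  rcases Affine.Y_eq_of_X_eq h'.1 h.1 rfl with hy | hy
  · left; subst hy; rfl
  · right; rw [Affine.Point.neg_some]; subst hy; rfl

theorem eq_or_eq_neg_of_xc_eq {P P' : W.Point} (hP : P ≠ 0) (hP' : P' ≠ 0) (hx : xc P' = xc P) :
    P' = P ∨ P' = -P := by
  obtain ⟨x, y, h, rfl⟩ := exists_some_of_ne_zero hP
  obtain ⟨x', y', h', rfl⟩ := exists_some_of_ne_zero hP'
  simp only [xc_some] at hx
  subst hx
  exact some_eq_or_eq_neg h h'

/-- Over an algebraically closed field every `x` is the `x`-coordinate of a point. -/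
theorem exists_nonsingular [IsAlgClosed F] (hΔ : W.Δ ≠ 0) (r : F) : ∃ y : F, W.Nonsingular r y := by
  have hdeg : (X ^ 2 + C (W.a₁ * r + W.a₃) * X
      - C (r ^ 3 + W.a₂ * r ^ 2 + W.a₄ * r + W.a₆) : F[X]).degree ≠ 0 := by
    have h2 : (X ^ 2 + C (W.a₁ * r + W.a₃) * X
        - C (r ^ 3 + W.a₂ * r ^ 2 + W.a₄ * r + W.a₆) : F[X]).degree = 2 := by
      compute_degree!
    rw [h2]; norm_num
  obtain ⟨y, hy⟩ := IsAlgClosed.exists_root _ hdeg
  refine ⟨y, (Affine.equation_iff_nonsingular_of_Δ_ne_zero hΔ).mp ?_⟩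
  rw [Affine.equation_iff]
  simp only [IsRoot.def, eval_sub, eval_add, eval_pow, eval_X, eval_mul, eval_C] at hy
  linear_combination hy

/-! ### Division polynomials of odd index -/

theorem ΨSq_of_odd {n : ℤ} (hn : ¬ Even n) : W.ΨSq n = W.preΨ n ^ 2 := by
  simp [WeierstrassCurve.ΨSq, hn]

theorem ΨSq_of_even {n : ℤ} (hn : Even n) : W.ΨSq n = W.preΨ n ^ 2 * W.Ψ₂Sq := by
  simp [WeierstrassCurve.ΨSq, hn]

theorem Φ_of_odd {n : ℤ} (hn : ¬ Even n) :
    W.Φ n = X * W.ΨSq n - W.preΨ (n + 1) * W.preΨ (n - 1) * W.Ψ₂Sq := by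
  simp [WeierstrassCurve.Φ, hn]

/-- For odd `n` the polynomials `ΨSq n` and `Φ n` have no common root. -/
theorem not_common_root [IsAlgClosed F] (hΔ : W.Δ ≠ 0) (hZ : ZeroIff W) {n : ℤ} (hn : ¬ Even n)
    (r : F) : ¬ ((W.ΨSq n).eval r = 0 ∧ (W.Φ n).eval r = 0) := by
  rintro ⟨h1, h2⟩
  obtain ⟨y, h⟩ := exists_nonsingular hΔ r
  have hnP : n • Affine.Point.some r y h = 0 := (hZ n h).mp h1
  have hn1 : Even (n + 1) := by
    rcases Int.even_or_odd n with h | h
    · exact absurd h hn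
    · exact h.add_one
  have hn2 : Even (n - 1) := by
    rcases Int.even_or_odd n with h | h
    · exact absurd h hn
    · exact h.sub_odd odd_one
  rw [Φ_of_odd hn, eval_sub, eval_mul, eval_X, h1, mul_zero, zero_sub, neg_eq_zero, eval_mul,
    eval_mul] at h2
  have key : (n + 1) • Affine.Point.some r y h = 0 ∨ (n - 1) • Affine.Point.some r y h = 0 := by
    rcases mul_eq_zero.mp h2 with h3 | h3
    · rcases mul_eq_zero.mp h3 with h4 | h4
      · left; apply (hZ (n + 1) h).mp; rw [ΨSq_of_even hn1, eval_mul, eval_pow, h4]; simp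
      · right; apply (hZ (n - 1) h).mp; rw [ΨSq_of_even hn2, eval_mul, eval_pow, h4]; simp
    · left; apply (hZ (n + 1) h).mp; rw [ΨSq_of_even hn1, eval_mul, h3, mul_zero]
  have h0 : Affine.Point.some r y h = 0 := by
    rcases key with h5 | h5
    · rwa [add_smul, hnP, zero_add, one_smul] at h5
    · rwa [sub_smul, hnP, zero_sub, one_smul, neg_eq_zero] at h5
  exact Affine.Point.some_ne_zero h h0

/-! ### The pencil `Φ n - c * ΨSq n` -/

section Pencil

variable [IsAlgClosed F] [CharZero F]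

theorem natDegree_Φ_natCast (N : ℕ) : (W.Φ (N : ℤ)).natDegree = N ^ 2 := by
  rw [natDegree_Φ, Int.natAbs_natCast]

theorem natDegree_ΨSq_natCast {N : ℕ} (hN : N ≠ 0) : (W.ΨSq (N : ℤ)).natDegree = N ^ 2 - 1 := by
  rw [natDegree_ΨSq, Int.natAbs_natCast]
  exact_mod_cast hN

theorem natDegree_C_mul_ΨSq_lt {N : ℕ} (hN : N ≠ 0) (c : F) :
    (C c * W.ΨSq (N : ℤ)).natDegree < (W.Φ (N : ℤ)).natDegree := by
  have h1 := natDegree_C_mul_le c (W.ΨSq (N : ℤ))
  rw [natDegree_ΨSq_natCast hN] at h1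
  rw [natDegree_Φ_natCast]
  have : 0 < N ^ 2 := by positivity
  omega

theorem natDegree_pencil {N : ℕ} (hN : N ≠ 0) (c : F) :
    (W.Φ (N : ℤ) - C c * W.ΨSq (N : ℤ)).natDegree = N ^ 2 := by
  rw [natDegree_sub_eq_left_of_natDegree_lt (natDegree_C_mul_ΨSq_lt hN c), natDegree_Φ_natCast]

theorem pencil_ne_zero {N : ℕ} (hN : N ≠ 0) (c : F) :
    W.Φ (N : ℤ) - C c * W.ΨSq (N : ℤ) ≠ 0 := by
  intro h
  have h1 := natDegree_pencil (W := W) hN c
  rw [h, natDegree_zero] at h1
  have : 0 < N ^ 2 := by positivity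
  omega

/-- The "Wronskian" of `Φ n` and `ΨSq n`. -/
noncomputable def wr (W : WeierstrassCurve.Affine F) (n : ℤ) : F[X] :=
  derivative (W.Φ n) * W.ΨSq n - W.Φ n * derivative (W.ΨSq n)

theorem isCoprime_Φ_ΨSq (hΔ : W.Δ ≠ 0) (hZ : ZeroIff W) {n : ℤ} (hn : ¬ Even n) :
    IsCoprime (W.Φ n) (W.ΨSq n) := by
  rw [isCoprime_iff_aeval_ne_zero_of_isAlgClosed F F]
  intro a
  by_contra hcon
  push Not at hcon
  simp only [coe_aeval_eq_eval] at hcon
  exact not_common_root hΔ hZ hn a ⟨hcon.2, hcon.1⟩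

theorem wr_ne_zero (hΔ : W.Δ ≠ 0) (hZ : ZeroIff W) {N : ℕ} (hN : ¬ Even (N : ℤ)) :
    wr W (N : ℤ) ≠ 0 := by
  intro h
  have hN0 : N ≠ 0 := by
    rintro rfl
    exact hN (by simp)
  have h1 : derivative (W.Φ (N : ℤ)) * W.ΨSq (N : ℤ) = W.Φ (N : ℤ) * derivative (W.ΨSq (N : ℤ)) :=
    sub_eq_zero.mp h
  have h2 : W.Φ (N : ℤ) ∣ derivative (W.Φ (N : ℤ)) :=
    (isCoprime_Φ_ΨSq hΔ hZ hN).dvd_of_dvd_mul_right ⟨_, h1⟩
  have hdeg : (W.Φ (N : ℤ)).natDegree ≠ 0 := by
    rw [natDegree_Φ_natCast]; positivity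
  have h3 : derivative (W.Φ (N : ℤ)) = 0 :=
    eq_zero_of_dvd_of_natDegree_lt h2 (natDegree_derivative_lt hdeg)
  exact hdeg (Polynomial.derivative_eq_zero.mp h3)

/-- The finitely many values of `c` for which the pencil may fail to be separable. -/
noncomputable def bad (W : WeierstrassCurve.Affine F) (n : ℤ) : Finset F :=
  (wr W n).roots.toFinset.image fun r => (W.Φ n).eval r / (W.ΨSq n).eval r

theorem separable_pencil (hΔ : W.Δ ≠ 0) (hZ : ZeroIff W) {N : ℕ} (hN : ¬ Even (N : ℤ)) {c : F}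
    (hc : c ∉ bad W (N : ℤ)) : (W.Φ (N : ℤ) - C c * W.ΨSq (N : ℤ)).Separable := by
  rw [separable_def, isCoprime_iff_aeval_ne_zero_of_isAlgClosed F F]
  intro a
  by_contra hcon
  push Not at hcon
  simp only [coe_aeval_eq_eval] at hcon
  obtain ⟨h1, h2⟩ := hcon
  rw [eval_sub, eval_mul, eval_C, sub_eq_zero] at h1
  rw [derivative_sub, derivative_C_mul, eval_sub, eval_mul, eval_C, sub_eq_zero] at h2
  have hg : (W.ΨSq (N : ℤ)).eval a ≠ 0 := by
    intro hg
    rw [hg, mul_zero] at h1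
    exact not_common_root hΔ hZ hN a ⟨hg, h1⟩
  have hroot : (wr W (N : ℤ)).IsRoot a := by
    rw [IsRoot.def, wr, eval_sub, eval_mul, eval_mul, h1, h2]
    ring
  apply hc
  rw [bad, Finset.mem_image]
  refine ⟨a, ?_, ?_⟩
  · rw [Multiset.mem_toFinset, mem_roots (wr_ne_zero hΔ hZ hN)]
    exact hroot
  · rw [h1, mul_div_assoc, div_self hg, mul_one]

end Pencil

/-! ### Counting a fibre of multiplication by `N` -/

section Count

variable [IsAlgClosed F] [CharZero F]

/-- The number of roots of a separable pencil. -/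
theorem card_roots_pencil {N : ℕ} (hN : N ≠ 0) {c : F}
    (hsep : (W.Φ (N : ℤ) - C c * W.ΨSq (N : ℤ)).Separable) :
    (W.Φ (N : ℤ) - C c * W.ΨSq (N : ℤ)).roots.toFinset.card = N ^ 2 := by
  rw [Multiset.toFinset_card_of_nodup (nodup_roots hsep),
    splits_iff_card_roots.mp (IsAlgClosed.splits _), natDegree_pencil hN]

/-- If `Q = (c, y)` is not a `2`-torsion point and the pencil at `c` is separable, then the fibre
of multiplication by `N` over `Q` has exactly `N ^ 2` elements. -/
theorem card_fibre (hΔ : W.Δ ≠ 0) (hZ : ZeroIff W) (hM : MulFormula W) {N : ℕ}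
    (hN : ¬ Even (N : ℤ)) {c yQ : F} (hQ : W.Nonsingular c yQ)
    (h2Q : Affine.Point.some c yQ hQ ≠ -Affine.Point.some c yQ hQ)
    (hsep : (W.Φ (N : ℤ) - C c * W.ΨSq (N : ℤ)).Separable) :
    Nat.card {P : W.Point // (N : ℤ) • P = Affine.Point.some c yQ hQ} = N ^ 2 := by
  have hN0 : N ≠ 0 := by
    rintro rfl
    exact hN (by simp)
  set Q : W.Point := Affine.Point.some c yQ hQ with hQdef
  set pen : F[X] := W.Φ (N : ℤ) - C c * W.ΨSq (N : ℤ) with hpen
  have hpen0 : pen ≠ 0 := pencil_ne_zero hN0 c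
  have hQ0 : Q ≠ 0 := Affine.Point.some_ne_zero hQ
  -- the `x`-coordinate of a point of the fibre is a root of the pencil
  have hroot : ∀ P : W.Point, (N : ℤ) • P = Q → xc P ∈ pen.roots.toFinset := by
    intro P hP
    have hP0 : P ≠ 0 := by
      rintro rfl
      rw [smul_zero] at hP
      exact hQ0 hP.symm
    obtain ⟨x, y, h, rfl⟩ := exists_some_of_ne_zero hP0
    have := hM (N : ℤ) h hQ hP
    rw [Multiset.mem_toFinset, mem_roots hpen0, IsRoot.def, xc_some, hpen, eval_sub, eval_mul,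
      eval_C, this, sub_self]
  let φ : {P : W.Point // (N : ℤ) • P = Q} → {r : F // r ∈ pen.roots.toFinset} :=
    fun P => ⟨xc P.1, hroot P.1 P.2⟩
  have hφ : Function.Bijective φ := by
    constructor
    · rintro ⟨P, hP⟩ ⟨P', hP'⟩ hPP'
      have hx : xc P' = xc P := (congrArg Subtype.val hPP').symm
      have hP0 : P ≠ 0 := by
        rintro rfl
        rw [smul_zero] at hP
        exact hQ0 hP.symm
      have hP'0 : P' ≠ 0 := by
        rintro rfl
        rw [smul_zero] at hP'
        exact hQ0 hP'.symm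
      rcases eq_or_eq_neg_of_xc_eq hP0 hP'0 hx with h | h
      · exact Subtype.ext h.symm
      · exfalso
        apply h2Q
        calc Q = (N : ℤ) • P' := hP'.symm
          _ = -((N : ℤ) • P) := by rw [h, smul_neg]
          _ = -Q := by rw [hP]
    · rintro ⟨r, hr⟩
      rw [Multiset.mem_toFinset, mem_roots hpen0, IsRoot.def, hpen, eval_sub, eval_mul, eval_C,
        sub_eq_zero] at hr
      obtain ⟨y, h⟩ := exists_nonsingular hΔ r
      have hg : (W.ΨSq (N : ℤ)).eval r ≠ 0 := by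
        intro hg
        rw [hg, mul_zero] at hr
        exact not_common_root hΔ hZ hN r ⟨hg, hr⟩
      have hNP : (N : ℤ) • Affine.Point.some r y h ≠ 0 := fun h0 => hg ((hZ (N : ℤ) h).mpr h0)
      obtain ⟨x', y', h', hx'⟩ := exists_some_of_ne_zero hNP
      have h3 := hM (N : ℤ) h h' hx'
      rw [hr] at h3
      have hxc : x' = c := mul_right_cancel₀ hg h3
      subst hxc
      rcases some_eq_or_eq_neg hQ h' with h4 | h4
      · refine ⟨⟨Affine.Point.some r y h, by rw [hx', h4]⟩, ?_⟩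
        exact Subtype.ext (xc_some h)
      · refine ⟨⟨-Affine.Point.some r y h, by rw [smul_neg, hx', h4, neg_neg]⟩, ?_⟩
        exact Subtype.ext (by simp only [φ]; rw [xc_neg, xc_some])
  rw [Nat.card_eq_of_bijective φ hφ, Nat.card_eq_finsetCard, card_roots_pencil hN0 hsep]

/-- A fibre of multiplication by `N` is a coset of the `N`-torsion. -/
theorem card_torsion_eq_card_fibre (N : ℕ) (Q P₀ : W.Point) (hP₀ : (N : ℤ) • P₀ = Q) :
    Nat.card (Submodule.torsionBy ℤ W.Point (N : ℤ)) =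
      Nat.card {P : W.Point // (N : ℤ) • P = Q} := by
  refine Nat.card_congr
    { toFun := fun T => ⟨T.1 + P₀, by
        rw [smul_add, (Submodule.mem_torsionBy_iff _ _).mp T.2, zero_add, hP₀]⟩
      invFun := fun P => ⟨P.1 - P₀, by
        rw [Submodule.mem_torsionBy_iff, smul_sub, P.2, hP₀, sub_self]⟩
      left_inv := fun T => by ext; simp
      right_inv := fun P => by ext; simp }

end Count

/-! ### The main results (relative to the two division-polynomial facts) -/

section Main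

variable [IsAlgClosed F] [CharZero F]

theorem not_even_natCast {N : ℕ} (hN : Odd N) : ¬ Even (N : ℤ) := by
  rw [Int.not_even_iff_odd]
  exact_mod_cast hN

theorem natCast_ne_zero_of_odd {N : ℕ} (hN : Odd N) : (((N : ℤ) : F)) ≠ 0 := by
  have : N ≠ 0 := by
    rintro rfl
    exact absurd hN (by decide)
  exact_mod_cast this

/-- **Cardinality of the `N`-torsion**, `N` odd. -/
theorem card_torsion_of (hΔ : W.Δ ≠ 0) (hZ : ZeroIff W) (hM : MulFormula W) {N : ℕ}
    (hN : Odd N) : Nat.card (Submodule.torsionBy ℤ W.Point (N : ℤ)) = N ^ 2 := by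
  have hN' : ¬ Even (N : ℤ) := not_even_natCast hN
  have h2 : W.ΨSq 2 ≠ 0 := ΨSq_ne_zero W (n := 2) (by norm_num)
  obtain ⟨c, hc⟩ := Infinite.exists_notMem_finset (bad W (N : ℤ) ∪ (W.ΨSq 2).roots.toFinset)
  rw [Finset.mem_union, not_or] at hc
  obtain ⟨yQ, hQ⟩ := exists_nonsingular hΔ c
  have h2Q : Affine.Point.some c yQ hQ ≠ -Affine.Point.some c yQ hQ := by
    intro h
    have h3 : (2 : ℤ) • Affine.Point.some c yQ hQ = 0 := by
      rw [two_smul]
      nth_rewrite 2 [h]
      exact add_neg_cancel _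
    have h4 := (hZ 2 hQ).mpr h3
    exact hc.2 (by rw [Multiset.mem_toFinset, mem_roots h2]; exact h4)
  have hsep := separable_pencil hΔ hZ hN' hc.1
  have hcard := card_fibre hΔ hZ hM hN' hQ h2Q hsep
  have hne : Nonempty {P : W.Point // (N : ℤ) • P = Affine.Point.some c yQ hQ} := by
    by_contra hemp
    rw [not_nonempty_iff] at hemp
    rw [Nat.card_of_isEmpty] at hcard
    have hpos : 0 < N ^ 2 := by
      have : N ≠ 0 := by
        rintro rfl
        exact absurd hN (by decide)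
      positivity
    omega
  obtain ⟨⟨P₀, hP₀⟩⟩ := hne
  rw [card_torsion_eq_card_fibre N _ P₀ hP₀, hcard]

theorem preΨ_natCast_ne_zero {N : ℕ} (hN : Odd N) : W.preΨ (N : ℤ) ≠ 0 :=
  preΨ_ne_zero W (natCast_ne_zero_of_odd hN)

theorem natDegree_preΨ_of_odd {N : ℕ} (hN : Odd N) :
    (W.preΨ (N : ℤ)).natDegree = (N ^ 2 - 1) / 2 := by
  rw [natDegree_preΨ W (natCast_ne_zero_of_odd hN), if_neg (not_even_natCast hN),
    Int.natAbs_natCast]

theorem leadingCoeff_preΨ_of_odd {N : ℕ} (hN : Odd N) :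
    (W.preΨ (N : ℤ)).leadingCoeff = (N : F) := by
  rw [leadingCoeff_preΨ W (natCast_ne_zero_of_odd hN), if_neg (not_even_natCast hN)]
  simp

/-- The roots of `preΨ N` (`N` odd) are the `x`-coordinates of the nonzero `N`-torsion points. -/
theorem mem_roots_preΨ_iff (hΔ : W.Δ ≠ 0) (hZ : ZeroIff W) {N : ℕ} (hN : Odd N) (r : F) :
    r ∈ (W.preΨ (N : ℤ)).roots.toFinset ↔
      ∃ (y : F) (h : W.Nonsingular r y), (N : ℤ) • Affine.Point.some r y h = 0 := by
  rw [Multiset.mem_toFinset, mem_roots (preΨ_natCast_ne_zero hN), IsRoot.def]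
  constructor
  · intro hr
    obtain ⟨y, h⟩ := exists_nonsingular hΔ r
    refine ⟨y, h, (hZ (N : ℤ) h).mp ?_⟩
    rw [ΨSq_of_odd (not_even_natCast hN), eval_pow, hr]
    simp
  · rintro ⟨y, h, hP⟩
    have := (hZ (N : ℤ) h).mpr hP
    rw [ΨSq_of_odd (not_even_natCast hN), eval_pow] at this
    exact pow_eq_zero_iff (two_ne_zero) |>.mp this

/-- A point with prescribed `x`-coordinate. -/
noncomputable def rep (W : WeierstrassCurve.Affine F) (r : F) : W.Point :=
  open Classical in
  if h : ∃ y : F, W.Nonsingular r y then Affine.Point.some r h.choose h.choose_spec else 0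

theorem rep_ne_zero (hΔ : W.Δ ≠ 0) (r : F) : rep W r ≠ 0 := by
  rw [rep, dif_pos (exists_nonsingular hΔ r)]
  exact Affine.Point.some_ne_zero _

theorem xc_rep (hΔ : W.Δ ≠ 0) (r : F) : xc (rep W r) = r := by
  rw [rep, dif_pos (exists_nonsingular hΔ r)]
  rfl

/-- The number of roots of `preΨ N`, `N` odd. -/
theorem card_roots_preΨ (hΔ : W.Δ ≠ 0) (hZ : ZeroIff W) (hM : MulFormula W) {N : ℕ}
    (hN : Odd N) : (W.preΨ (N : ℤ)).roots.toFinset.card = (N ^ 2 - 1) / 2 := by
  classical
  set S := (W.preΨ (N : ℤ)).roots.toFinset with hS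
  have hupper : S.card ≤ (N ^ 2 - 1) / 2 := by
    calc S.card ≤ (W.preΨ (N : ℤ)).roots.card := Multiset.toFinset_card_le _
      _ ≤ (W.preΨ (N : ℤ)).natDegree := card_roots' _
      _ = (N ^ 2 - 1) / 2 := natDegree_preΨ_of_odd hN
  have hmem : ∀ T : Submodule.torsionBy ℤ W.Point (N : ℤ), (T : W.Point) ≠ 0 →
      xc (T : W.Point) ∈ S := by
    intro T hT
    obtain ⟨x, y, h, hxy⟩ := exists_some_of_ne_zero hT
    have hxc : xc (T : W.Point) = x := by rw [hxy]; rfl
    rw [hS, mem_roots_preΨ_iff hΔ hZ hN, hxc]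
    refine ⟨y, h, ?_⟩
    rw [← hxy]
    exact (Submodule.mem_torsionBy_iff _ _).mp T.2
  let ι : Submodule.torsionBy ℤ W.Point (N : ℤ) → Option (S × Bool) := fun T =>
    if hT : (T : W.Point) = 0 then none
    else some (⟨xc (T : W.Point), hmem T hT⟩, decide ((T : W.Point) = rep W (xc (T : W.Point))))
  have hι : Function.Injective ι := by
    intro T T' hTT'
    by_cases hT : (T : W.Point) = 0
    · by_cases hT' : (T' : W.Point) = 0
      · exact Subtype.ext (hT.trans hT'.symm)
      · simp only [ι, dif_pos hT, dif_neg hT'] at hTT'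
        exact absurd hTT' (by simp)
    · by_cases hT' : (T' : W.Point) = 0
      · simp only [ι, dif_neg hT, dif_pos hT'] at hTT'
        exact absurd hTT' (by simp)
      · simp only [ι, dif_neg hT, dif_neg hT', Option.some.injEq, Prod.mk.injEq,
          Subtype.mk.injEq, decide_eq_decide] at hTT'
        obtain ⟨hx, hb⟩ := hTT'
        apply Subtype.ext
        rcases eq_or_eq_neg_of_xc_eq hT hT' hx.symm with h | h
        · exact h.symm
        · -- `T' = -T`
          rcases eq_or_eq_neg_of_xc_eq hT (rep_ne_zero hΔ _) (xc_rep hΔ (xc (T : W.Point)))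
            with h1 | h1
          · -- `rep = T`
            have h2 : (T' : W.Point) = rep W (xc (T' : W.Point)) := hb.mp h1.symm
            rw [← hx, h1] at h2
            exact h2.symm
          · -- `rep = -T = T'`
            have h2 : (T' : W.Point) = rep W (xc (T' : W.Point)) := by
              rw [← hx, h1, h]
            have h3 : (T : W.Point) = rep W (xc (T : W.Point)) := hb.mpr h2
            rw [h3, h2, hx]
  have hcard := Nat.card_le_card_of_injective ι hι
  rw [card_torsion_of hΔ hZ hM hN, Finite.card_option, Nat.card_prod, Nat.card_eq_finsetCard,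
    Nat.card_eq_fintype_card, Fintype.card_bool] at hcard
  omega

/-- `preΨ N` (`N` odd) is `N` times the product of the `X - r`, `r` running over the
`x`-coordinates of the nonzero `N`-torsion points. -/
theorem preΨ_eq_prod_of (hΔ : W.Δ ≠ 0) (hZ : ZeroIff W) (hM : MulFormula W) {N : ℕ}
    (hN : Odd N) :
    W.preΨ (N : ℤ) = C (N : F) * ∏ r ∈ (W.preΨ (N : ℤ)).roots.toFinset, (X - C r) := by
  have h1 := card_roots_preΨ hΔ hZ hM hN
  have h2 : (W.preΨ (N : ℤ)).roots.card = (W.preΨ (N : ℤ)).natDegree := by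
    apply le_antisymm (card_roots' _)
    rw [natDegree_preΨ_of_odd hN, ← h1]
    exact Multiset.toFinset_card_le _
  have h3 : (W.preΨ (N : ℤ)).roots.Nodup := by
    rw [← Multiset.toFinset_card_eq_card_iff_nodup, h1, h2, natDegree_preΨ_of_odd hN]
  have h4 := C_leadingCoeff_mul_prod_multiset_X_sub_C h2
  rw [leadingCoeff_preΨ_of_odd hN] at h4
  have h5 : ∏ r ∈ (W.preΨ (N : ℤ)).roots.toFinset, (X - C r) =
      (Multiset.map (fun a => X - C a) (W.preΨ (N : ℤ)).roots).prod := by
    rw [← Finset.prod_map_val, Multiset.toFinset_val, Multiset.dedup_eq_self.mpr h3]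
  rw [h5]
  exact h4.symm

/-- Packaged form of the previous results. -/
theorem exists_finset_of (hΔ : W.Δ ≠ 0) (hZ : ZeroIff W) (hM : MulFormula W) {N : ℕ}
    (hN : Odd N) :
    ∃ S : Finset F, S.card = (N ^ 2 - 1) / 2 ∧
      (∀ r : F, r ∈ S ↔
        ∃ (y : F) (h : W.Nonsingular r y), (N : ℤ) • Affine.Point.some r y h = 0) ∧
      W.preΨ (N : ℤ) = C (N : F) * ∏ r ∈ S, (X - C r) :=
  ⟨_, card_roots_preΨ hΔ hZ hM hN, mem_roots_preΨ_iff hΔ hZ hN, preΨ_eq_prod_of hΔ hZ hM hN⟩

/-- Packaged form with `ℕ`-scalar multiplication. -/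
theorem exists_finset_nsmul_of (hΔ : W.Δ ≠ 0) (hZ : ZeroIff W) (hM : MulFormula W) {N : ℕ}
    (hN : Odd N) :
    ∃ S : Finset F, S.card = (N ^ 2 - 1) / 2 ∧
      (∀ r : F, r ∈ S ↔
        ∃ (y : F) (h : W.Nonsingular r y), N • Affine.Point.some r y h = 0) ∧
      W.preΨ (N : ℤ) = C (N : F) * ∏ r ∈ S, (X - C r) := by
  obtain ⟨S, h1, h2, h3⟩ := exists_finset_of hΔ hZ hM hN
  refine ⟨S, h1, fun r => ?_, h3⟩
  rw [h2 r]
  simp only [natCast_zsmul]

end Main

end Fermat.Agent.S13_Card
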