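-- Helper for S13: the discriminant of the Frey curve is nonzero (over `ℚ` and after base change).
import Mathlib
import Fermat.Prelude.Def_FLTPrelim_FreyPackage

set_option autoImplicit false
open WeierstrassCurve

namespace Fermat.Agent.S13_Lp

/-- The discriminant of the Frey curve. -/
theorem frey_Δ (P : FreyPackage) :
    P.freyCurve.Δ = ((P.a : ℚ) ^ P.p * (P.b : ℚ) ^ P.p * (P.c : ℚ) ^ P.p) ^ 2 / 256 := by
  have hflt : (P.a : ℚ) ^ P.p + (P.b : ℚ) ^ P.p = (P.c : ℚ) ^ P.p := by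
    have := congrArg (fun z : ℤ => (z : ℚ)) P.hFLT
    push_cast at this
    exact this
  rw [← hflt]
  simp only [WeierstrassCurve.Δ, WeierstrassCurve.b₂, WeierstrassCurve.b₄, WeierstrassCurve.b₆,
    WeierstrassCurve.b₈, FreyPackage.freyCurve]
  ring

theorem frey_Δ_ne_zero (P : FreyPackage) : P.freyCurve.Δ ≠ 0 := by
  rw [frey_Δ]
  have ha0 : (P.a : ℚ) ≠ 0 := by exact_mod_cast P.ha0
  have hb0 : (P.b : ℚ) ≠ 0 := by exact_mod_cast P.hb0
  have hc0 : (P.c : ℚ) ≠ 0 := by exact_mod_cast P.hc0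
  exact div_ne_zero (pow_ne_zero 2 (mul_ne_zero (mul_ne_zero (pow_ne_zero _ ha0)
    (pow_ne_zero _ hb0)) (pow_ne_zero _ hc0))) (by norm_num)

/-- The discriminant of the Frey curve stays nonzero after base change to a field. -/
theorem frey_Δ_baseChange_ne_zero (P : FreyPackage) (K : Type*) [Field K] [Algebra ℚ K] :
    (P.freyCurve.baseChange K).Δ ≠ 0 := by
  show (P.freyCurve.map (algebraMap ℚ K)).Δ ≠ 0
  rw [WeierstrassCurve.map_Δ]
  exact (map_ne_zero _).2 (frey_Δ_ne_zero P)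

/-- The same statement for the affine base change `P.freyCurve⁄K`. -/
theorem frey_Δ_affine_ne_zero (P : FreyPackage) (K : Type*) [Field K] [Algebra ℚ K] :
    (P.freyCurve⁄K).Δ ≠ 0 :=
  frey_Δ_baseChange_ne_zero P K

end Fermat.Agent.S13_Lp
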