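-- Helper for S13 (block Lp, step p.4, abstract part): if every nonzero `p`-torsion point lies in
-- the kernel of reduction, the constant coefficient of the `p`-th division polynomial cannot be
-- integral as soon as some proper nonempty set of roots has a product of integral valuation.
import Mathlib
import Fermat.Agent.S05_Basic

set_option autoImplicit false
open WeierstrassCurve WeierstrassCurve.Affine Polynomial

namespace Fermat.Agent.S13_Lp

open Fermat.Agent.S05_RatVal Fermat.Agent.S05_Basic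

variable {K : Type*} [Field K]

/-- valuation of a finite product of nonzero elements -/
theorem v_prod (v : RatVal K) {ι : Type*} (s : Finset ι) (f : ι → K)
    (hf : ∀ i ∈ s, f i ≠ 0) : v.v (∏ i ∈ s, f i) = ∑ i ∈ s, v.v (f i) := by
  classical
  induction s using Finset.induction_on with
  | empty => simp [v.v_one]
  | insert a s ha ih =>
    have hf' : ∀ i ∈ s, f i ≠ 0 := fun i hi => hf i (Finset.mem_insert_of_mem hi)
    rw [Finset.prod_insert ha, Finset.sum_insert ha,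
      v.v_mul _ _ (hf a (Finset.mem_insert_self a s)) (Finset.prod_ne_zero_iff.2 hf'), ih hf']

/-- (p.4), abstract form. -/
theorem not_all_ker [DecidableEq K] {W : Affine K} (v : RatVal K) (p : ℕ)
    (hp0 : (p : K) ≠ 0) (hvp : v.v (p : K) = 1)
    (S : Finset K)
    (hS : ∀ r : K, r ∈ S → ∃ (y : K) (h : W.Nonsingular r y), p • (Point.some r y h) = 0)
    (hΨ : W.preΨ p = C (p : K) * ∏ r ∈ S, (X - C r))
    (hint : (W.preΨ p).eval 0 ≠ 0 → 0 ≤ v.v ((W.preΨ p).eval 0))
    (hker : ∀ R : W.Point, p • R = 0 → R ≠ 0 → Xc W 0 R ≠ 0 ∧ v.v (Xc W 0 R) < 0)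
    (T : Finset K) (hTS : T ⊆ S) (hT : T.Nonempty) (hST : ∃ r ∈ S, r ∉ T)
    (hTv : ∃ n : ℤ, v.v (∏ r ∈ T, r) = n) : False := by
  have hr : ∀ r ∈ S, r ≠ 0 ∧ v.v r < 0 := by
    intro r hr
    obtain ⟨y, h, hpr⟩ := hS r hr
    have := hker _ hpr (Point.some_ne_zero h)
    simpa using this
  have hc : (W.preΨ p).eval 0 = (p : K) * ∏ r ∈ S, (-r) := by
    rw [hΨ, eval_mul, eval_C, eval_prod]
    congr 1
    apply Finset.prod_congr rfl
    intro r _
    simp
  have hneg0 : ∀ r ∈ S, -r ≠ 0 := fun r hr' => neg_ne_zero.2 (hr r hr').1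
  have hprod0 : ∏ r ∈ S, (-r) ≠ 0 := Finset.prod_ne_zero_iff.2 hneg0
  have hc0 : (W.preΨ p).eval 0 ≠ 0 := by
    rw [hc]; exact mul_ne_zero hp0 hprod0
  have hvc : v.v ((W.preΨ p).eval 0) = 1 + ∑ r ∈ S, v.v r := by
    rw [hc, v.v_mul _ _ hp0 hprod0, hvp, v_prod v S (fun r => -r) hneg0]
    congr 1
    apply Finset.sum_congr rfl
    intro r _
    exact v.v_neg r
  have h0 := hint hc0
  rw [hvc] at h0
  -- split the sum
  have hsplit : ∑ r ∈ S, v.v r = ∑ r ∈ S \ T, v.v r + ∑ r ∈ T, v.v r :=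
    (Finset.sum_sdiff hTS).symm
  have hT1 : ∑ r ∈ T, v.v r ≤ -1 := by
    obtain ⟨n, hn⟩ := hTv
    have h1 : v.v (∏ r ∈ T, r) = ∑ r ∈ T, v.v r :=
      v_prod v T (fun r => r) (fun r hr' => (hr r (hTS hr')).1)
    have h2 : ∑ r ∈ T, v.v r < 0 := Finset.sum_neg (fun r hr' => (hr r (hTS hr')).2) hT
    rw [← h1, hn] at h2 ⊢
    have h3 : n < 0 := by exact_mod_cast h2
    have h4 : n ≤ -1 := by omega
    exact_mod_cast h4
  have hT2 : ∑ r ∈ S \ T, v.v r < 0 := by
    apply Finset.sum_neg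
    · intro r hr'
      exact (hr r (Finset.mem_sdiff.1 hr').1).2
    · obtain ⟨r, hrS, hrT⟩ := hST
      exact ⟨r, Finset.mem_sdiff.2 ⟨hrS, hrT⟩⟩
  linarith

end Fermat.Agent.S13_Lp
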