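import Mathlib
import Fermat.Prelude.Def_ExtCitation_AdmissibleExtension_v2
import Fermat.Prelude.Def_ExtCitation_KummerBridge
import Fermat.Agent.S13_Minkowski

/-!
# S14_Bridge (helper9): from theorem (STAR) to `ExtVanishingCts`

An admissible extension `0 → C → V → V/C → 0` (`C` a line with trivial action of `G_ℚ`, `V/C`
the mod `p` cyclotomic character, open kernel, unramified outside `p`, locally split at `p`)
either has commutative image, in which case an eigenspace of one element is a stable complement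
of `C`, or cuts out a number field `L` (the fixed field of the kernel of the action) which is
Galois over `ℚ` of degree `(p - 1) p`, contains a primitive `p`-th root of unity `ζ`, is
everywhere unramified over `ℚ(ζ)` and on which conjugation acts through the inverse of the
cyclotomic character.  Theorem (STAR) (`Star p` below, proved elsewhere) says that no such field
exists.
-/

set_option autoImplicit false

open ExtCitation
open scoped NumberField

namespace Fermat.Agent.S14_Bridge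

local notation "GQ" => AlgebraicClosure ℚ ≃ₐ[ℚ] AlgebraicClosure ℚ

/-! ### The mod `p` cyclotomic character -/

section Cyclo

variable (p : ℕ) [Fact p.Prime]

theorem cycloExp_mul (σ τ : GQ) :
    ((cycloExp p (σ * τ) : ℕ) : ZMod p) = (cycloExp p σ : ZMod p) * (cycloExp p τ : ZMod p) := by
  rw [← coe_cycloChar, ← coe_cycloChar, ← coe_cycloChar, map_mul, Units.val_mul]

theorem cycloExp_one : ((cycloExp p (1 : GQ) : ℕ) : ZMod p) = 1 := by
  rw [← coe_cycloChar, map_one, Units.val_one]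

theorem cycloExp_inv_mul (σ : GQ) :
    ((cycloExp p σ⁻¹ : ℕ) : ZMod p) * (cycloExp p σ : ZMod p) = 1 := by
  rw [← cycloExp_mul, inv_mul_cancel, cycloExp_one]

theorem cycloExp_mul_inv (σ : GQ) :
    ((cycloExp p σ : ℕ) : ZMod p) * (cycloExp p σ⁻¹ : ZMod p) = 1 := by
  rw [← cycloExp_mul, mul_inv_cancel, cycloExp_one]

theorem cycloExp_ne_zero (σ : GQ) : ((cycloExp p σ : ℕ) : ZMod p) ≠ 0 := by
  intro h
  have := cycloExp_mul_inv p σ
  rw [h, zero_mul] at this
  exact zero_ne_one this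

/-- The action on `p`-th roots of unity. -/
theorem apply_root (σ : GQ) {ζ : AlgebraicClosure ℚ} (hζ : ζ ^ p = 1) :
    σ ζ = ζ ^ cycloExp p σ := by
  have : NeZero p := ⟨(Fact.out : p.Prime).ne_zero⟩
  have hp0 : p ≠ 0 := (Fact.out : p.Prime).ne_zero
  have hu : IsUnit ζ := IsUnit.of_pow_eq_one hζ hp0
  obtain ⟨t, rfl⟩ := hu
  have ht : t ∈ rootsOfUnity p (AlgebraicClosure ℚ) := by
    rw [mem_rootsOfUnity]
    exact Units.ext (by simpa using hζ)
  have h := modularCyclotomicCharacter.spec (AlgebraicClosure ℚ) (card_rootsOfUnity_eq_self p)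
    (σ : AlgebraicClosure ℚ ≃+* AlgebraicClosure ℚ) ht
  exact h

/-- `σ` fixes a primitive `p`-th root of unity iff `ω σ = 1`. -/
theorem apply_root_eq_iff (σ : GQ) {ζ : AlgebraicClosure ℚ} (hζ : IsPrimitiveRoot ζ p) :
    σ ζ = ζ ↔ ((cycloExp p σ : ℕ) : ZMod p) = 1 := by
  have hp : p.Prime := Fact.out
  have hfin : IsOfFinOrder ζ := isOfFinOrder_iff_pow_eq_one.mpr ⟨p, hp.pos, hζ.pow_eq_one⟩
  rw [apply_root p σ hζ.pow_eq_one]
  constructor
  · intro h
    have h1 : ζ ^ cycloExp p σ = ζ ^ 1 := by rw [h, pow_one]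
    have h2 : cycloExp p σ ≡ 1 [MOD p] := by
      have := hfin.pow_eq_pow_iff_modEq.mp h1
      rwa [← hζ.eq_orderOf] at this
    have h3 := (ZMod.natCast_eq_natCast_iff _ _ _).mpr h2
    rw [h3, Nat.cast_one]
  · intro h
    have h2 : cycloExp p σ ≡ 1 [MOD p] := by
      rw [← ZMod.natCast_eq_natCast_iff, h, Nat.cast_one]
    have h1 : ζ ^ cycloExp p σ = ζ ^ 1 := by
      rw [hfin.pow_eq_pow_iff_modEq, ← hζ.eq_orderOf]
      exact h2
    rw [h1, pow_one]

end Cyclo

/-! ### Linear algebra of an admissible extension -/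

section Linear

variable {p : ℕ} [Fact p.Prime] {V : Type} [AddCommGroup V] [Module (ZMod p) V]
  [DistribMulAction GQ V] [SMulCommClass GQ (ZMod p) V] {C : Submodule (ZMod p) V}

omit [SMulCommClass GQ (ZMod p) V] in
theorem exists_notMem (h : IsAdmissibleExtension p V C) : ∃ v : V, v ∉ C := by
  by_contra hcon
  push Not at hcon
  have h1 : Nat.card C = Nat.card V :=
    Nat.card_congr ⟨fun x => x.1, fun v => ⟨v, hcon v⟩, fun _ => rfl, fun _ => rfl⟩
  rw [h.card_sub, h.card_total] at h1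
  have hp := (Fact.out : p.Prime).two_le
  nlinarith

omit [DistribMulAction GQ V] [SMulCommClass GQ (ZMod p) V] in
theorem smul_mem_iff_of_notMem {v : V} (hv : v ∉ C) (a : ZMod p) : a • v ∈ C ↔ a = 0 := by
  constructor
  · intro h
    by_contra ha
    apply hv
    have := C.smul_mem a⁻¹ h
    rwa [smul_smul, inv_mul_cancel₀ ha, one_smul] at this
  · rintro rfl
    rw [zero_smul]
    exact C.zero_mem

omit [SMulCommClass GQ (ZMod p) V] in
theorem cycloExp_eq_one_of_trivial (h : IsAdmissibleExtension p V C) (σ : GQ)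
    (hσ : ∀ v : V, σ • v = v) : ((cycloExp p σ : ℕ) : ZMod p) = 1 := by
  obtain ⟨v, hv⟩ := exists_notMem h
  have h1 := h.cyclo_quot σ v
  rw [hσ v] at h1
  have h2 : (1 - ((cycloExp p σ : ℕ) : ZMod p)) • v ∈ C := by rwa [sub_smul, one_smul]
  have h3 := (smul_mem_iff_of_notMem hv _).mp h2
  exact (sub_eq_zero.mp h3).symm

omit [SMulCommClass GQ (ZMod p) V] in
theorem smul_sub_mem (h : IsAdmissibleExtension p V C) {g : GQ}
    (hg : ((cycloExp p g : ℕ) : ZMod p) = 1) (v : V) : g • v - v ∈ C := by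
  have := h.cyclo_quot g v
  rwa [hg, one_smul] at this

omit [SMulCommClass GQ (ZMod p) V] in
theorem pow_smul_eq (h : IsAdmissibleExtension p V C) {g : GQ}
    (hg : ((cycloExp p g : ℕ) : ZMod p) = 1) (m : ℕ) (v : V) :
    g ^ m • v = v + m • (g • v - v) := by
  induction m with
  | zero => simp
  | succ k ih =>
    rw [pow_succ', mul_smul, ih, smul_add,
      h.fixed_sub g _ (C.nsmul_mem (smul_sub_mem h hg v) k), succ_nsmul]
    abel

/-- The conjugation formula. -/
theorem conj_smul_eq (h : IsAdmissibleExtension p V C) (σ g : GQ) (m : ℕ)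
    (hg : ((cycloExp p g : ℕ) : ZMod p) = 1)
    (hm : ((cycloExp p σ : ℕ) : ZMod p) * (m : ZMod p) = 1) (v : V) :
    (σ * g * σ⁻¹) • v = g ^ m • v := by
  have hinv : ((cycloExp p σ⁻¹ : ℕ) : ZMod p) = (m : ZMod p) := by
    calc ((cycloExp p σ⁻¹ : ℕ) : ZMod p)
        = ((cycloExp p σ⁻¹ : ℕ) : ZMod p) * (((cycloExp p σ : ℕ) : ZMod p) * (m : ZMod p)) := by
          rw [hm, mul_one]
      _ = (m : ZMod p) := by rw [← mul_assoc, cycloExp_inv_mul, one_mul]
  set w : V := σ⁻¹ • v with hw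
  have hc' : w - (m : ZMod p) • v ∈ C := by
    have := h.cyclo_quot σ⁻¹ v
    rwa [hinv] at this
  have h1 : g • w - w = (m : ZMod p) • (g • v - v) := by
    have h2 : g • (w - (m : ZMod p) • v) = w - (m : ZMod p) • v := h.fixed_sub g _ hc'
    rw [smul_sub, smul_comm g (m : ZMod p) v] at h2
    rw [smul_sub]
    calc g • w - w = (g • w - (m : ZMod p) • g • v) - w + (m : ZMod p) • g • v := by abel
      _ = (w - (m : ZMod p) • v) - w + (m : ZMod p) • g • v := by rw [h2]
      _ = (m : ZMod p) • g • v - (m : ZMod p) • v := by abel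
  rw [pow_smul_eq h hg, mul_smul, mul_smul]
  have h3 : g • w = w + (g • w - w) := by abel
  rw [← hw, h3, smul_add, h.fixed_sub σ _ (smul_sub_mem h hg w), hw, smul_inv_smul, ← hw, h1,
    Nat.cast_smul_eq_nsmul]

omit [Module (ZMod p) V] [SMulCommClass GQ (ZMod p) V] in
/-- If the elements with trivial cyclotomic character act trivially, the action is commutative. -/
theorem comm_of_trivial (h : ∀ g : GQ, ((cycloExp p g : ℕ) : ZMod p) = 1 → ∀ v : V, g • v = v)
    (s t : GQ) (v : V) : s • t • v = t • s • v := by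
  have h1 : ((cycloExp p (s * t * s⁻¹ * t⁻¹) : ℕ) : ZMod p) = 1 := by
    rw [cycloExp_mul, cycloExp_mul, cycloExp_mul]
    have h2 := cycloExp_mul_inv p s
    have h3 := cycloExp_mul_inv p t
    linear_combination (((cycloExp p t : ℕ) : ZMod p) * ((cycloExp p t⁻¹ : ℕ) : ZMod p)) * h2 + h3
  have h4 := h _ h1 (t • s • v)
  rw [mul_smul, mul_smul, mul_smul, inv_smul_smul, inv_smul_smul] at h4
  exact h4

/-- Case (i): a commutative action splits. -/
theorem splits_of_comm (h : IsAdmissibleExtension p V C)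
    (hcomm : ∀ (s t : GQ) (v : V), s • t • v = t • s • v) (s0 : GQ)
    (hs0 : ((cycloExp p s0 : ℕ) : ZMod p) ≠ 1) : SplitsGlobally C := by
  set a : ZMod p := ((cycloExp p s0 : ℕ) : ZMod p) with ha
  let C' : Submodule (ZMod p) V :=
    { carrier := {v | s0 • v = a • v}
      add_mem' := by
        intro x y hx hy
        show s0 • (x + y) = a • (x + y)
        rw [smul_add, smul_add, hx, hy]
      zero_mem' := by
        show s0 • (0 : V) = a • (0 : V)
        rw [smul_zero, smul_zero]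
      smul_mem' := by
        intro c x hx
        show s0 • (c • x) = a • (c • x)
        rw [smul_comm s0 c x, hx, smul_comm] }
  have hmem : ∀ v : V, v ∈ C' ↔ s0 • v = a • v := fun v => Iff.rfl
  have h1a : (1 - a) ≠ 0 := fun h0 => hs0 (sub_eq_zero.mp h0).symm
  refine ⟨C', ?_, ?_⟩
  · intro σ x hx
    rw [hmem] at hx ⊢
    rw [hcomm s0 σ x, hx, smul_comm]
  · rw [isCompl_iff]
    constructor
    · rw [Submodule.disjoint_def]
      intro x hxC hxC'
      rw [hmem, h.fixed_sub s0 x hxC] at hxC'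
      have h2 : (1 - a) • x = 0 := by rw [sub_smul, one_smul, ← hxC', sub_self]
      rcases smul_eq_zero.mp h2 with h3 | h3
      · exact absurd h3 h1a
      · exact h3
    · rw [codisjoint_iff, Submodule.eq_top_iff']
      intro v
      rw [Submodule.mem_sup]
      obtain ⟨c₀, hc₀⟩ : ∃ c₀ : V, c₀ = s0 • v - a • v := ⟨_, rfl⟩
      have hc₀C : c₀ ∈ C := hc₀ ▸ h.cyclo_quot s0 v
      obtain ⟨b, hb⟩ : ∃ b : ZMod p, (1 - a) * b = 1 := ⟨(1 - a)⁻¹, mul_inv_cancel₀ h1a⟩
      refine ⟨b • c₀, C.smul_mem _ hc₀C, v - b • c₀, ?_, by abel⟩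
      have h5 : s0 • v = c₀ + a • v := by rw [hc₀]; abel
      have h6 : c₀ = b • c₀ - a • b • c₀ := by
        calc c₀ = ((1 - a) * b) • c₀ := by rw [hb, one_smul]
          _ = b • c₀ - a • b • c₀ := by rw [mul_smul, sub_smul, one_smul]
      rw [hmem, smul_sub, smul_comm s0 b c₀, h.fixed_sub s0 c₀ hc₀C, h5, smul_sub]
      calc c₀ + a • v - b • c₀ = (b • c₀ - a • b • c₀) + a • v - b • c₀ := by rw [← h6]
        _ = a • v - a • b • c₀ := by abel


/-! ### The kernel of the action and the cocycle -/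

variable (V) in
/-- The kernel of the action on `V`. -/
def actKer : Subgroup GQ where
  carrier := {σ | ∀ v : V, σ • v = v}
  mul_mem' := by
    intro a b ha hb v
    rw [mul_smul, hb v, ha v]
  one_mem' := fun v => one_smul _ v
  inv_mem' := by
    intro a ha v
    rw [inv_smul_eq_iff, ha v]

omit [Fact p.Prime] [Module (ZMod p) V] [SMulCommClass GQ (ZMod p) V] in
theorem mem_actKer (σ : GQ) : σ ∈ actKer V ↔ ∀ v : V, σ • v = v := Iff.rfl

omit [Fact p.Prime] [Module (ZMod p) V] [SMulCommClass GQ (ZMod p) V] in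
theorem actKer_normal : (actKer V).Normal := by
  constructor
  intro n hn g v
  rw [mul_smul, mul_smul, hn, smul_inv_smul]

theorem mem_ker_cycloChar (σ : GQ) :
    σ ∈ (cycloChar p).ker ↔ ((cycloExp p σ : ℕ) : ZMod p) = 1 := by
  rw [MonoidHom.mem_ker, ← coe_cycloChar]
  constructor
  · intro h
    rw [h, Units.val_one]
  · intro h
    exact Units.ext (by rw [h, Units.val_one])

omit [SMulCommClass GQ (ZMod p) V] in
theorem actKer_le (h : IsAdmissibleExtension p V C) : actKer V ≤ (cycloChar p).ker := by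
  intro σ hσ
  rw [mem_ker_cycloChar]
  exact cycloExp_eq_one_of_trivial h σ hσ

omit [SMulCommClass GQ (ZMod p) V] in
/-- Structure of `V` in the non-split case: `C` is spanned by `c₀ = g₀ v₀ - v₀` and `V` by
`v₀` and `C`. -/
theorem structure_of_nontrivial (h : IsAdmissibleExtension p V C) {g₀ : GQ}
    (hg₀ : ((cycloExp p g₀ : ℕ) : ZMod p) = 1) {v₀ : V} (hv₀ : g₀ • v₀ ≠ v₀) :
    v₀ ∉ C ∧ g₀ • v₀ - v₀ ∈ C ∧ g₀ • v₀ - v₀ ≠ 0 ∧
      (∀ c ∈ C, ∃ a : ZMod p, c = a • (g₀ • v₀ - v₀)) ∧
      (∀ v : V, ∃ a : ZMod p, ∃ c ∈ C, v = a • v₀ + c) := by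
  have hp : p.Prime := Fact.out
  have hv₀C : v₀ ∉ C := fun hc => hv₀ (h.fixed_sub g₀ v₀ hc)
  have hc₀C : g₀ • v₀ - v₀ ∈ C := smul_sub_mem h hg₀ v₀
  have hc₀ : g₀ • v₀ - v₀ ≠ 0 := fun h0 => hv₀ (sub_eq_zero.mp h0)
  have : Finite C := Nat.finite_of_card_ne_zero (by rw [h.card_sub]; exact hp.ne_zero)
  have : Finite V := Nat.finite_of_card_ne_zero (by rw [h.card_total]; exact pow_ne_zero 2 hp.ne_zero)
  refine ⟨hv₀C, hc₀C, hc₀, ?_, ?_⟩
  · -- `C` is a line
    let f : ZMod p → C := fun a => ⟨a • (g₀ • v₀ - v₀), C.smul_mem a hc₀C⟩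
    have hf : Function.Injective f := by
      intro a b hab
      have h1 : a • (g₀ • v₀ - v₀) = b • (g₀ • v₀ - v₀) := congrArg Subtype.val hab
      have h2 : (a - b) • (g₀ • v₀ - v₀) = 0 := by rw [sub_smul, h1, sub_self]
      rcases smul_eq_zero.mp h2 with h3 | h3
      · exact sub_eq_zero.mp h3
      · exact absurd h3 hc₀
    have hbij : Function.Bijective f :=
      hf.bijective_of_nat_card_le (by rw [h.card_sub, Nat.card_zmod])
    intro c hc
    obtain ⟨a, ha⟩ := hbij.2 ⟨c, hc⟩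
    exact ⟨a, (congrArg Subtype.val ha).symm⟩
  · let f : ZMod p × C → V := fun x => x.1 • v₀ + (x.2 : V)
    have hf : Function.Injective f := by
      rintro ⟨a, c⟩ ⟨b, d⟩ hab
      have h1 : a • v₀ + (c : V) = b • v₀ + (d : V) := hab
      have h2 : (a - b) • v₀ = (d : V) - (c : V) := by
        rw [sub_smul]
        calc a • v₀ - b • v₀ = (a • v₀ + (c : V)) - b • v₀ - (c : V) := by abel
          _ = (b • v₀ + (d : V)) - b • v₀ - (c : V) := by rw [h1]
          _ = (d : V) - (c : V) := by abel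
      have h3 : (a - b) • v₀ ∈ C := by
        rw [h2]
        exact C.sub_mem d.2 c.2
      have h4 : a = b := sub_eq_zero.mp ((smul_mem_iff_of_notMem hv₀C _).mp h3)
      subst h4
      have h5 : (c : V) = (d : V) := add_left_cancel h1
      rw [Subtype.ext h5]
    have hbij : Function.Bijective f :=
      hf.bijective_of_nat_card_le (by
        rw [Nat.card_prod, h.card_sub, Nat.card_zmod, h.card_total, sq])
    intro v
    obtain ⟨⟨a, c⟩, hac⟩ := hbij.2 v
    exact ⟨a, c, c.2, hac.symm⟩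

/-- The index of the kernel of the action in the kernel of the cyclotomic character is `p` in
the non-split case. -/
theorem relIndex_actKer (h : IsAdmissibleExtension p V C) {g₀ : GQ}
    (hg₀ : ((cycloExp p g₀ : ℕ) : ZMod p) = 1) {v₀ : V} (hv₀ : g₀ • v₀ ≠ v₀) :
    (actKer V).relIndex (cycloChar p).ker = p := by
  obtain ⟨hv₀C, hc₀C, hc₀, hline, hdec⟩ := structure_of_nontrivial h hg₀ hv₀
  have hK : ∀ g : (cycloChar p).ker, ((cycloExp p (g : GQ) : ℕ) : ZMod p) = 1 :=
    fun g => (mem_ker_cycloChar _).mp g.2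
  let b : (cycloChar p).ker →* Multiplicative C :=
    { toFun := fun g => Multiplicative.ofAdd ⟨(g : GQ) • v₀ - v₀, smul_sub_mem h (hK g) v₀⟩
      map_one' := by
        apply Multiplicative.toAdd.injective
        apply Subtype.ext
        show ((1 : (cycloChar p).ker) : GQ) • v₀ - v₀ = 0
        rw [Subgroup.coe_one, one_smul, sub_self]
      map_mul' := by
        intro x y
        apply Multiplicative.toAdd.injective
        apply Subtype.ext
        show ((x * y : (cycloChar p).ker) : GQ) • v₀ - v₀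
          = ((x : GQ) • v₀ - v₀) + ((y : GQ) • v₀ - v₀)
        rw [Subgroup.coe_mul, mul_smul]
        have h1 : (x : GQ) • ((y : GQ) • v₀ - v₀) = (y : GQ) • v₀ - v₀ :=
          h.fixed_sub _ _ (smul_sub_mem h (hK y) v₀)
        rw [smul_sub] at h1
        calc (x : GQ) • (y : GQ) • v₀ - v₀
            = ((x : GQ) • (y : GQ) • v₀ - (x : GQ) • v₀) + ((x : GQ) • v₀ - v₀) := by abel
          _ = ((y : GQ) • v₀ - v₀) + ((x : GQ) • v₀ - v₀) := by rw [h1]
          _ = ((x : GQ) • v₀ - v₀) + ((y : GQ) • v₀ - v₀) := by abel }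
  have hb : ∀ g : (cycloChar p).ker,
      ((Multiplicative.toAdd (b g) : C) : V) = (g : GQ) • v₀ - v₀ := fun g => rfl
  have hker : b.ker = (actKer V).subgroupOf (cycloChar p).ker := by
    ext g
    rw [MonoidHom.mem_ker, Subgroup.mem_subgroupOf, mem_actKer]
    constructor
    · intro hg v
      have h1 : (g : GQ) • v₀ = v₀ := by
        have h2 := hb g
        rw [hg] at h2
        exact sub_eq_zero.mp h2.symm
      obtain ⟨a, c, hc, rfl⟩ := hdec v
      rw [smul_add, smul_comm, h1, h.fixed_sub _ c hc]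
    · intro hg
      apply Multiplicative.toAdd.injective
      apply Subtype.ext
      rw [hb g, hg v₀, sub_self]
      rfl
  have hsurj : Function.Surjective b := by
    intro c
    obtain ⟨a, ha⟩ := hline (Multiplicative.toAdd c : C) (Multiplicative.toAdd c : C).2
    have hpow : ((cycloExp p (g₀ ^ a.val) : ℕ) : ZMod p) = 1 := by
      have : g₀ ^ a.val ∈ (cycloChar p).ker :=
        Subgroup.pow_mem _ ((mem_ker_cycloChar g₀).mpr hg₀) _
      exact (mem_ker_cycloChar _).mp this
    refine ⟨⟨g₀ ^ a.val, (mem_ker_cycloChar _).mpr hpow⟩, ?_⟩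
    apply Multiplicative.toAdd.injective
    apply Subtype.ext
    rw [hb, ha]
    show g₀ ^ a.val • v₀ - v₀ = a • (g₀ • v₀ - v₀)
    rw [pow_smul_eq h hg₀, add_sub_cancel_left, ← Nat.cast_smul_eq_nsmul (ZMod p),
      ZMod.natCast_zmod_val]
  rw [Subgroup.relIndex, ← hker, Subgroup.index_ker, MonoidHom.range_eq_top.mpr hsurj]
  rw [Nat.card_congr (Subgroup.topEquiv).toEquiv]
  show Nat.card C = p
  exact h.card_sub

end Linear

open Fermat.Agent.S54_Frob Fermat.Agent.S13_Minkowski

attribute [local instance] isAlgebraicQbar isAlgClosureQbar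

/-! ### Galois theory of the cyclotomic character -/

section Galois

variable (p : ℕ) [Fact p.Prime]

theorem exists_primitiveRoot : ∃ ζ : AlgebraicClosure ℚ, IsPrimitiveRoot ζ p := by
  have : NeZero p := ⟨(Fact.out : p.Prime).ne_zero⟩
  have : NeZero (p : AlgebraicClosure ℚ) := ⟨Nat.cast_ne_zero.mpr (NeZero.ne p)⟩
  exact HasEnoughRootsOfUnity.exists_primitiveRoot (AlgebraicClosure ℚ) p

theorem pow_eq_self_iff {ζ : AlgebraicClosure ℚ} (hζ : IsPrimitiveRoot ζ p) (n : ℕ) :
    ζ ^ n = ζ ↔ (n : ZMod p) = 1 := by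
  have hp : p.Prime := Fact.out
  have hfin : IsOfFinOrder ζ := isOfFinOrder_iff_pow_eq_one.mpr ⟨p, hp.pos, hζ.pow_eq_one⟩
  have h0 : ζ ^ n = ζ ↔ ζ ^ n = ζ ^ 1 := by rw [pow_one]
  rw [h0, hfin.pow_eq_pow_iff_modEq, ← hζ.eq_orderOf, ← ZMod.natCast_eq_natCast_iff, Nat.cast_one]

/-- The kernel of the cyclotomic character is the fixing subgroup of `ℚ(ζ)`. -/
theorem ker_cycloChar_eq {ζ : AlgebraicClosure ℚ} (hζ : IsPrimitiveRoot ζ p) :
    (cycloChar p).ker = (IntermediateField.adjoin ℚ {ζ}).fixingSubgroup := by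
  ext σ
  rw [mem_ker_cycloChar, ← apply_root_eq_iff p σ hζ, IntermediateField.mem_fixingSubgroup_iff]
  constructor
  · intro h x hx
    obtain ⟨r, s, rfl⟩ := (IntermediateField.mem_adjoin_simple_iff ℚ x).mp hx
    rw [map_div₀, ← Polynomial.aeval_algHom_apply, ← Polynomial.aeval_algHom_apply, h]
  · intro h
    exact h ζ (IntermediateField.mem_adjoin_simple_self ℚ ζ)

/-- `[G_ℚ : G_{ℚ(ζ)}] = p - 1`. -/
theorem index_ker_cycloChar : (cycloChar p).ker.index = p - 1 := by
  have hp : p.Prime := Fact.out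
  obtain ⟨ζ, hζ⟩ := exists_primitiveRoot p
  have hint : IsIntegral ℚ ζ := Algebra.IsIntegral.isIntegral ζ
  rw [ker_cycloChar_eq p hζ, ← IntermediateField.finrank_eq_fixingSubgroup_index,
    IntermediateField.adjoin.finrank hint, ← Polynomial.cyclotomic_eq_minpoly_rat hζ hp.pos,
    Polynomial.natDegree_cyclotomic, Nat.totient_prime hp]

/-- Some element of `G_ℚ` has nontrivial cyclotomic character (`p ≥ 3`). -/
theorem exists_cycloExp_ne_one (h3 : 3 ≤ p) : ∃ s : GQ, ((cycloExp p s : ℕ) : ZMod p) ≠ 1 := by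
  by_contra hcon
  push Not at hcon
  have h1 : (cycloChar p).ker = ⊤ := by
    rw [Subgroup.eq_top_iff']
    intro σ
    exact (mem_ker_cycloChar σ).mpr (hcon σ)
  have h2 := index_ker_cycloChar p
  rw [h1, Subgroup.index_top] at h2
  omega

end Galois

/-! ### The field cut out by the kernel of the action -/

section Field

attribute [local instance 10000] IntermediateField.algebra'

variable {p : ℕ} [Fact p.Prime] {V : Type} [AddCommGroup V] [Module (ZMod p) V]
  [DistribMulAction GQ V] [SMulCommClass GQ (ZMod p) V] {C : Submodule (ZMod p) V}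

variable (V) in
/-- The field cut out by the kernel of the action. -/
noncomputable def cutField : IntermediateField ℚ (AlgebraicClosure ℚ) :=
  IntermediateField.fixedField (actKer V)

omit [Fact p.Prime] [Module (ZMod p) V] [SMulCommClass GQ (ZMod p) V] in
theorem fixingSubgroup_cutField (hopen : IsOpen {σ : GQ | ∀ v : V, σ • v = v}) :
    (cutField V).fixingSubgroup = actKer V := by
  have hclosed : IsClosed ((actKer V : Subgroup GQ) : Set GQ) :=
    Subgroup.isClosed_of_isOpen _ hopen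
  exact InfiniteGalois.fixingSubgroup_fixedField ⟨actKer V, hclosed⟩

omit [Fact p.Prime] [Module (ZMod p) V] [SMulCommClass GQ (ZMod p) V] in
theorem finiteDimensional_cutField (hopen : IsOpen {σ : GQ | ∀ v : V, σ • v = v}) :
    FiniteDimensional ℚ (cutField V) := by
  rw [← InfiniteGalois.isOpen_iff_finite, fixingSubgroup_cutField hopen]
  exact hopen

omit [Fact p.Prime] [Module (ZMod p) V] [SMulCommClass GQ (ZMod p) V] in
theorem isGalois_cutField (hopen : IsOpen {σ : GQ | ∀ v : V, σ • v = v}) :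
    IsGalois ℚ (cutField V) := by
  rw [← InfiniteGalois.normal_iff_isGalois, fixingSubgroup_cutField hopen]
  exact actKer_normal

theorem finrank_cutField (h : IsAdmissibleExtensionCts p V C) {g₀ : GQ}
    (hg₀ : ((cycloExp p g₀ : ℕ) : ZMod p) = 1) {v₀ : V} (hv₀ : g₀ • v₀ ≠ v₀) :
    Module.finrank ℚ (cutField V) = (p - 1) * p := by
  rw [IntermediateField.finrank_eq_fixingSubgroup_index, fixingSubgroup_cutField h.open_kernel,
    ← Subgroup.relIndex_mul_index (actKer_le h.toIsAdmissibleExtension),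
    relIndex_actKer h.toIsAdmissibleExtension hg₀ hv₀, index_ker_cycloChar, mul_comm]

omit [SMulCommClass GQ (ZMod p) V] in
theorem root_mem_cutField (h : IsAdmissibleExtension p V C) {ζ : AlgebraicClosure ℚ}
    (hζ : IsPrimitiveRoot ζ p) : ζ ∈ cutField V := by
  rw [cutField, IntermediateField.mem_fixedField_iff]
  intro σ hσ
  rw [apply_root_eq_iff p σ hζ]
  exact cycloExp_eq_one_of_trivial h σ hσ

/-- (conj) for the cut-out field. -/
theorem conj_cutField (h : IsAdmissibleExtensionCts p V C) {ζ : AlgebraicClosure ℚ}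
    (hζ : IsPrimitiveRoot ζ p) (hζL : ζ ∈ cutField V)
    (σ g : (cutField V) ≃ₐ[ℚ] (cutField V)) (m : ℕ)
    (hg : g ⟨ζ, hζL⟩ = ⟨ζ, hζL⟩) (hσ : (σ ⟨ζ, hζL⟩) ^ m = ⟨ζ, hζL⟩) :
    σ * g * σ⁻¹ = g ^ m := by
  have hgal := isGalois_cutField (V := V) h.open_kernel
  obtain ⟨σ', rfl⟩ := AlgEquiv.restrictNormalHom_surjective (AlgebraicClosure ℚ) σ
  obtain ⟨g', rfl⟩ := AlgEquiv.restrictNormalHom_surjective (AlgebraicClosure ℚ) g
  have hg' : g' ζ = ζ := by
    have := congrArg Subtype.val hg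
    rwa [AlgEquiv.restrictNormalHom_apply] at this
  have hσ' : (σ' ζ) ^ m = ζ := by
    have := congrArg Subtype.val hσ
    rwa [SubmonoidClass.coe_pow, AlgEquiv.restrictNormalHom_apply] at this
  have hωg : ((cycloExp p g' : ℕ) : ZMod p) = 1 := (apply_root_eq_iff p g' hζ).mp hg'
  have hωσ : ((cycloExp p σ' : ℕ) : ZMod p) * (m : ZMod p) = 1 := by
    rw [apply_root p σ' hζ.pow_eq_one, ← pow_mul, pow_eq_self_iff p hζ, Nat.cast_mul] at hσ'
    exact hσ'
  rw [← map_inv, ← map_mul, ← map_mul, ← map_pow]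
  apply AlgEquiv.ext
  intro x
  apply Subtype.ext
  rw [AlgEquiv.restrictNormalHom_apply, AlgEquiv.restrictNormalHom_apply]
  have hmem : (g' ^ m)⁻¹ * (σ' * g' * σ'⁻¹) ∈ actKer V := by
    intro v
    rw [mul_smul, conj_smul_eq h.toIsAdmissibleExtension σ' g' m hωg hωσ v, inv_smul_smul]
  have hx := (IntermediateField.mem_fixedField_iff _ _).mp x.2 _ hmem
  have h2 : (g' ^ m) (((g' ^ m)⁻¹ * (σ' * g' * σ'⁻¹)) (x : AlgebraicClosure ℚ))
      = (σ' * g' * σ'⁻¹) (x : AlgebraicClosure ℚ) := by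
    rw [AlgEquiv.mul_apply, ← AlgEquiv.mul_apply, mul_inv_cancel, AlgEquiv.one_apply]
  rw [← h2, hx]

/-- The rational prime under a valuation subring containing a nonzero natural number in its
maximal ideal. -/
theorem exists_prime_mem_nonunits {L : Type*} [Field L] (A : ValuationSubring L) :
    ∀ n : ℕ, n ≠ 0 → (n : L) ∈ A.nonunits → ∃ ℓ : ℕ, ℓ.Prime ∧ (ℓ : L) ∈ A.nonunits := by
  intro n
  induction n using Nat.strong_induction_on with
  | _ n ih =>
    intro hn0 hn
    by_cases h1 : n = 1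
    · subst h1
      rw [Nat.cast_one] at hn
      exact absurd hn (one_notMem_nonunits A)
    · have hq : n.minFac.Prime := Nat.minFac_prime h1
      obtain ⟨m, hm⟩ := Nat.minFac_dvd n
      by_cases hqA : (n.minFac : L) ∈ A.nonunits
      · exact ⟨n.minFac, hq, hqA⟩
      · have hm0 : m ≠ 0 := by
          rintro rfl
          rw [mul_zero] at hm
          exact hn0 hm
        have hmlt : m < n := by
          have h2 := hq.two_le
          have h3 : 0 < m := Nat.pos_of_ne_zero hm0
          nlinarith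
        obtain ⟨hq0, hqinv⟩ := inv_mem_of_notMem_nonunits A hqA
        have h4 : (m : L) = (n.minFac : L)⁻¹ * (n : L) := by
          have h5 : (n : L) = (n.minFac : L) * (m : L) := by
            conv_lhs => rw [hm]
            push_cast
            rfl
          rw [h5, ← mul_assoc, inv_mul_cancel₀ hq0, one_mul]
        exact ih m hmlt hm0 (by rw [h4]; exact mul_mem_nonunits A hqinv hn)

/-- (unr) for the cut-out field. -/
theorem unr_cutField (h : IsAdmissibleExtensionCts p V C) {ζ : AlgebraicClosure ℚ}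
    (hζ : IsPrimitiveRoot ζ p) (hζL : ζ ∈ cutField V) [NumberField (cutField V)]
    (Q' : Ideal (𝓞 (cutField V))) (hQ' : Q'.IsPrime) (hne : Q' ≠ ⊥)
    (τ : (cutField V) ≃ₐ[ℚ] (cutField V)) (hτζ : τ ⟨ζ, hζL⟩ = ⟨ζ, hζL⟩)
    (hτ : ∀ x y : 𝓞 (cutField V), (y : cutField V) = τ x - x → y ∈ Q') : τ = 1 := by
  classical
  let φ : 𝓞 (cutField V) →+* AlgebraicClosure ℚ :=
    (algebraMap (cutField V) (AlgebraicClosure ℚ)).comp (algebraMap (𝓞 (cutField V)) (cutField V))
  have hφ : ∀ x : 𝓞 (cutField V), φ x = ((x : cutField V) : AlgebraicClosure ℚ) := fun x => rfl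
  have hφinj : Function.Injective φ := by
    intro x y hxy
    rw [hφ, hφ] at hxy
    exact NumberField.RingOfIntegers.ext (Subtype.ext hxy)
  let I : Ideal φ.range := Q'.map φ.rangeRestrict
  have hI : I ≠ ⊤ := by
    intro htop
    apply hQ'.ne_top
    have hsurj : Function.Surjective φ.rangeRestrict := φ.rangeRestrict_surjective
    have hinj : Function.Injective φ.rangeRestrict := by
      intro x y hxy
      have hxy' : φ x = φ y := congrArg (fun z : φ.range => (z : AlgebraicClosure ℚ)) hxy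
      exact hφinj hxy'
    have h1 : Ideal.comap φ.rangeRestrict I = Q' := Ideal.comap_map_of_bijective _ ⟨hinj, hsurj⟩
    rw [← h1, htop, Ideal.comap_top]
  obtain ⟨B, -, hB⟩ := Ideal.image_subset_nonunits_valuationSubring I hI
  have hBQ : ∀ x ∈ Q', φ x ∈ B.nonunits := by
    intro x hx
    apply hB
    exact ⟨φ.rangeRestrict x, Ideal.mem_map_of_mem _ hx, rfl⟩
  -- the rational prime
  have hn0 : Ideal.absNorm Q' ≠ 0 := by
    rw [Ne, Ideal.absNorm_eq_zero_iff]
    exact hne
  have hnB : ((Ideal.absNorm Q' : ℕ) : AlgebraicClosure ℚ) ∈ B.nonunits := by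
    have := hBQ _ (Ideal.absNorm_mem Q')
    rwa [map_natCast] at this
  obtain ⟨ℓ, hℓ, hℓB⟩ := exists_prime_mem_nonunits B _ hn0 hnB
  -- lift `τ` to an inertia element
  obtain ⟨σ, hσI, hσ⟩ := exists_mem_inertia_restrict B hℓ hℓB (cutField V) τ.toRingEquiv (by
    intro x hx
    have hy : IsIntegral ℤ (τ x - x) := (hx.map τ).sub hx
    have h1 := hτ ⟨x, hx⟩ ⟨τ x - x, hy⟩ rfl
    have h2 := hBQ _ h1
    have h3 : φ ⟨τ x - x, hy⟩ = ((τ x - x : cutField V) : AlgebraicClosure ℚ) := rfl
    rw [h3] at h2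
    have h4 : ((τ x - x : cutField V) : AlgebraicClosure ℚ)
        = algebraMap (cutField V) (AlgebraicClosure ℚ) (τ.toRingEquiv x)
          - algebraMap (cutField V) (AlgebraicClosure ℚ) x := rfl
    rw [← h4]
    exact h2)
  have hσ' : ∀ x : cutField V, σ (x : AlgebraicClosure ℚ) = ((τ x : cutField V) : AlgebraicClosure ℚ) :=
    fun x => hσ x
  -- `σ` acts trivially on `V`
  have hσV : σ ∈ actKer V := by
    by_cases hℓp : ℓ = p
    · subst hℓp
      obtain ⟨C', hC', hcompl⟩ := h.locally_split B hℓB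
      have hdec : σ ∈ B.decompositionSubgroup ℚ := by
        obtain ⟨⟨σ₁, hdec⟩, -, rfl⟩ := hσI
        exact hdec
      have hσζ : σ ζ = ζ := by
        have h1 := hσ' ⟨ζ, hζL⟩
        rw [hτζ] at h1
        exact h1
      have hω : ((cycloExp ℓ σ : ℕ) : ZMod ℓ) = 1 := (apply_root_eq_iff ℓ σ hζ).mp hσζ
      intro v
      have hv : v ∈ C ⊔ C' := by
        rw [hcompl.sup_eq_top]
        exact Submodule.mem_top
      obtain ⟨c, hc, c', hc', rfl⟩ := Submodule.mem_sup.mp hv
      rw [smul_add, h.fixed_sub _ c hc]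
      have h1 : σ • c' - c' ∈ C := smul_sub_mem h.toIsAdmissibleExtension hω c'
      have h2 : σ • c' - c' ∈ C' := C'.sub_mem (hC' σ hdec c' hc') hc'
      have h3 : σ • c' - c' ∈ C ⊓ C' := Submodule.mem_inf.mpr ⟨h1, h2⟩
      rw [hcompl.inf_eq_bot, Submodule.mem_bot] at h3
      rw [sub_eq_zero.mp h3]
    · exact h.unramified_outside ℓ hℓ hℓp B hℓB σ hσI
  apply AlgEquiv.ext
  intro x
  have h1 := hσ' x
  have h2 : σ (x : AlgebraicClosure ℚ) = (x : AlgebraicClosure ℚ) :=
    (IntermediateField.mem_fixedField_iff _ _).mp x.2 σ hσV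
  rw [h2] at h1
  exact (Subtype.ext h1).symm

end Field

/-! ### Theorem (STAR), as a hypothesis -/

/-- The shape of theorem (STAR) consumed by the bridge. -/
def Star (p : ℕ) : Prop :=
  ∀ (L : Type) [Field L] [NumberField L] [IsGalois ℚ L] (ζ : L), IsPrimitiveRoot ζ p →
    Module.finrank ℚ L = (p - 1) * p →
    (∀ Q' : Ideal (𝓞 L), Q'.IsPrime → Q' ≠ ⊥ → ∀ σ : L ≃ₐ[ℚ] L, σ ζ = ζ →
      (∀ x y : 𝓞 L, (y : L) = σ x - x → y ∈ Q') → σ = 1) →
    (∀ (σ g : L ≃ₐ[ℚ] L) (m : ℕ), g ζ = ζ → (σ ζ) ^ m = ζ → σ * g * σ⁻¹ = g ^ m) → False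

/-- (STAR) for an arbitrary `ℚ`-algebra structure on the field. -/
theorem Star.false_of_algebra {p : ℕ} (hstar : Star p) (L : Type) [Field L]
    [inst : Algebra ℚ L] [NumberField L] [IsGalois ℚ L] (ζ : L) (hζ : IsPrimitiveRoot ζ p)
    (hdeg : Module.finrank ℚ L = (p - 1) * p)
    (hunr : ∀ Q' : Ideal (𝓞 L), Q'.IsPrime → Q' ≠ ⊥ → ∀ σ : L ≃ₐ[ℚ] L, σ ζ = ζ →
      (∀ x y : 𝓞 L, (y : L) = σ x - x → y ∈ Q') → σ = 1)
    (hconj : ∀ (σ g : L ≃ₐ[ℚ] L) (m : ℕ), g ζ = ζ → (σ ζ) ^ m = ζ → σ * g * σ⁻¹ = g ^ m) :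
    False := by
  obtain rfl : inst = DivisionRing.toRatAlgebra := Subsingleton.elim _ _
  exact hstar L ζ hζ hdeg hunr hconj

/-! ### The bridge -/

section Bridge

attribute [local instance 10000] IntermediateField.algebra'

/-- **Bridge.** Theorem (STAR) implies the vanishing of admissible extensions. -/
theorem extVanishingCts_of_star {p : ℕ} [Fact p.Prime] (h3 : 3 ≤ p) (hstar : Star p) :
    ExtCitation.ExtVanishingCts p := by
  intro V _ _ _ _ C hadm
  by_cases htriv : ∀ g : GQ, ((cycloExp p g : ℕ) : ZMod p) = 1 → ∀ v : V, g • v = v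
  · obtain ⟨s0, hs0⟩ := exists_cycloExp_ne_one p h3
    exact splits_of_comm hadm.toIsAdmissibleExtension (comm_of_trivial htriv) s0 hs0
  · exfalso
    push Not at htriv
    obtain ⟨g₀, hg₀, v₀, hv₀⟩ := htriv
    obtain ⟨ζ, hζ⟩ := exists_primitiveRoot p
    have hζL : ζ ∈ cutField V := root_mem_cutField hadm.toIsAdmissibleExtension hζ
    have hfin := finiteDimensional_cutField (V := V) hadm.open_kernel
    have hgal := isGalois_cutField (V := V) hadm.open_kernel
    have hnf : NumberField (cutField V) := NumberField.of_module_finite ℚ (cutField V)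
    refine @Star.false_of_algebra p hstar (cutField V) _ _ hnf hgal ⟨ζ, hζL⟩ ?_
      (finrank_cutField hadm hg₀ hv₀) ?_ ?_
    · exact IsPrimitiveRoot.coe_submonoidClass_iff.mp hζ
    · intro Q' hQ' hne τ hτζ hτ
      exact unr_cutField hadm hζ hζL Q' hQ' hne τ hτζ hτ
    · intro σ g m hg hσ
      exact conj_cutField hadm hζ hζL σ g m hg hσ

end Bridge

end Fermat.Agent.S14_Bridge
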