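import Mathlib

namespace Fermat.Agent.S14_Artl

open Finset

/-- For an odd prime `p` and `b ≥ 2`, `p ^ 2` does not divide `1 + b + ... + b ^ (p - 1)`. -/
theorem geom_not_sq_dvd (p : ℕ) (hp : p.Prime) (hp2 : p ≠ 2) (b : ℕ) :
    ¬ p ^ 2 ∣ ∑ i ∈ range p, b ^ i := by
  intro h
  have : Fact p.Prime := ⟨hp⟩
  have hodd : Odd p := hp.odd_of_ne_two hp2
  have hpN : p ∣ ∑ i ∈ range p, b ^ i := dvd_trans (dvd_pow_self p two_ne_zero) h
  have hgeom : (∑ i ∈ range p, (b : ZMod p) ^ i) * ((b : ZMod p) - 1) = (b : ZMod p) ^ p - 1 :=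
    geom_sum_mul _ _
  have hN0 : (∑ i ∈ range p, (b : ZMod p) ^ i) = 0 := by
    have := (ZMod.natCast_eq_zero_iff (∑ i ∈ range p, b ^ i) p).mpr hpN
    simpa using this
  have hb1' : (b : ZMod p) = 1 := by
    rw [hN0, zero_mul, ZMod.pow_card] at hgeom
    exact (sub_eq_zero.mp hgeom.symm)
  have hb1 : (p : ℤ) ∣ (b : ℤ) - 1 := by
    have : ((b : ℤ) : ZMod p) = ((1 : ℤ) : ZMod p) := by simpa using hb1'
    exact (ZMod.intCast_eq_intCast_iff_dvd_sub _ _ _).mp this.symm |>.trans (by simp) 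
  have hpb : ¬ (p : ℤ) ∣ (b : ℤ) := by
    intro hd
    have : (p : ℤ) ∣ 1 := by
      have := dvd_sub hd hb1
      simpa using this
    have := Int.natCast_dvd_natCast.mp (by simpa using this : ((p : ℕ) : ℤ) ∣ ((1 : ℕ) : ℤ))
    exact hp.one_lt.ne' (Nat.dvd_one.mp this)
  have hm := emultiplicity_geom_sum₂_eq_one (R := ℤ) (Nat.prime_iff_prime_int.mp hp) hodd
    (x := (b : ℤ)) (y := 1) hb1 hpb
  simp only [one_pow, mul_one] at hm
  have hdvd : ((p : ℤ)) ^ 2 ∣ ∑ i ∈ range p, (b : ℤ) ^ i := by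
    have := Int.natCast_dvd_natCast.mpr h
    simpa using this
  have := le_emultiplicity_of_pow_dvd hdvd
  rw [hm] at this
  norm_num at this

/-- A prime `l ≠ p` dividing `1 + b + ... + b ^ (p - 1)`, for `b ≥ 2` and `p` an odd prime. -/
theorem exists_prime_dvd_geom (p : ℕ) (hp : p.Prime) (hp2 : p ≠ 2) (b : ℕ) (hb : 2 ≤ b) :
    ∃ l : ℕ, l.Prime ∧ l ≠ p ∧ l ∣ ∑ i ∈ range p, b ^ i := by
  set N := ∑ i ∈ range p, b ^ i with hN
  have hNp : p < N := by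
    have h1 : ∑ i ∈ range p, 2 ^ i ≤ N := Finset.sum_le_sum fun i _ => Nat.pow_le_pow_left hb i
    have h2 : ∑ i ∈ range p, 2 ^ i = 2 ^ p - 1 := by
      have := Nat.geomSum_eq (m := 2) le_rfl p
      simpa using this
    have h3 : p + 1 < 2 ^ p := by
      have hp3 : 3 ≤ p := by
        have := hp.two_le
        omega
      have key : ∀ n : ℕ, 3 ≤ n → n + 1 < 2 ^ n := by
        intro n hn
        induction n, hn using Nat.le_induction with
        | base => norm_num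
        | succ n hn ih => rw [pow_succ]; omega
      exact key p hp3
    omega
  by_cases hpN : p ∣ N
  · obtain ⟨N', hN'⟩ := hpN
    have hN'1 : N' ≠ 1 := by
      rintro rfl
      omega
    obtain ⟨l, hl, hlN'⟩ := Nat.exists_prime_and_dvd hN'1
    refine ⟨l, hl, ?_, hN' ▸ Dvd.dvd.mul_left hlN' p⟩
    rintro rfl
    apply geom_not_sq_dvd l hp hp2 b
    rw [← hN, hN', sq]
    exact Nat.mul_dvd_mul_left l hlN'
  · have hN1 : N ≠ 1 := by
      have := hp.two_le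
      omega
    obtain ⟨l, hl, hlN⟩ := Nat.exists_prime_and_dvd hN1
    refine ⟨l, hl, ?_, hlN⟩
    rintro rfl
    exact hpN hlN

/-- For an odd prime `p`, `a ≥ 2` and `k`, there is a prime `l ≠ p` such that `a` has
multiplicative order exactly `p ^ (k + 1)` modulo `l`. -/
theorem exists_prime_orderOf (p : ℕ) (hp : p.Prime) (hp2 : p ≠ 2) (a : ℕ) (ha : 2 ≤ a) (k : ℕ) :
    ∃ l : ℕ, l.Prime ∧ l ≠ p ∧ orderOf (a : ZMod l) = p ^ (k + 1) := by
  have : Fact p.Prime := ⟨hp⟩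
  have hb : 2 ≤ a ^ p ^ k := by
    calc 2 ≤ a := ha
      _ = a ^ 1 := (pow_one a).symm
      _ ≤ a ^ p ^ k := Nat.pow_le_pow_right (by omega) (Nat.one_le_pow _ _ hp.pos)
  obtain ⟨l, hl, hlp, hlN⟩ := exists_prime_dvd_geom p hp hp2 (a ^ p ^ k) hb
  refine ⟨l, hl, hlp, ?_⟩
  have : Fact l.Prime := ⟨hl⟩
  have hN0 : (∑ i ∈ range p, ((a : ZMod l) ^ p ^ k) ^ i) = 0 := by
    have := (ZMod.natCast_eq_zero_iff (∑ i ∈ range p, (a ^ p ^ k) ^ i) l).mpr hlN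
    simpa using this
  have hgeom : (∑ i ∈ range p, ((a : ZMod l) ^ p ^ k) ^ i) * ((a : ZMod l) ^ p ^ k - 1)
      = ((a : ZMod l) ^ p ^ k) ^ p - 1 := geom_sum_mul _ _
  apply orderOf_eq_prime_pow
  · intro h1
    rw [h1] at hN0
    simp only [one_pow, sum_const, card_range, nsmul_eq_mul, mul_one] at hN0
    have := (ZMod.natCast_eq_zero_iff p l).mp hN0
    exact hlp ((Nat.prime_dvd_prime_iff_eq hl hp).mp this)
  · rw [hN0, zero_mul] at hgeom
    rw [pow_succ, pow_mul]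
    exact (sub_eq_zero.mp hgeom.symm)

/-- The ARTL property of a modulus `m` and a number `t`, relative to the prime `p` and the
base `a`: `t` is a unit mod `m`, and `a ^ α * t ^ β ≡ 1 (mod m)` forces `p ∣ α` and `p ∣ β`. -/
def Good (p a m t : ℕ) : Prop :=
  Nat.Coprime t m ∧ ∀ α β : ℕ, a ^ α * t ^ β ≡ 1 [MOD m] → p ∣ α ∧ p ∣ β

theorem Good.congr {p a m t t' : ℕ} (hg : Good p a m t) (h : t' ≡ t [MOD m]) : Good p a m t' := by
  refine ⟨?_, fun α β hab => hg.2 α β ?_⟩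
  · have := hg.1
    unfold Nat.Coprime at this ⊢
    rw [← this]
    exact h.gcd_eq
  · exact ((Nat.ModEq.refl _).mul (h.pow β)).symm.trans hab

theorem Good.one_lt {p a m t : ℕ} (hp : p.Prime) (hg : Good p a m t) (hm : m ≠ 0) : 1 < m := by
  by_contra hlt
  have hm1 : m = 1 := by omega
  subst hm1
  have := (hg.2 1 1 (Nat.modEq_one)).1
  exact hp.one_lt.ne' (Nat.dvd_one.mp this)

/-- **ARTL**, one modulus. -/
theorem artl (p : ℕ) (hp : p.Prime) (hp2 : p ≠ 2) (a : ℕ) (ha : 2 ≤ a) (B : ℕ) :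
    ∃ m t : ℕ, (∀ l : ℕ, l.Prime → l ∣ m → B < l) ∧ Good p a m t := by
  obtain ⟨l₁, hl₁, -, ho₁⟩ := exists_prime_orderOf p hp hp2 a ha B
  obtain ⟨l₂, hl₂, -, ho₂⟩ := exists_prime_orderOf p hp hp2 a ha (B + 1)
  have : Fact l₁.Prime := ⟨hl₁⟩
  have : Fact l₂.Prime := ⟨hl₂⟩
  have hBp : ∀ j : ℕ, B ≤ j → B < p ^ (j + 1) := fun j hj =>
    lt_of_le_of_lt hj ((Nat.lt_pow_self hp.one_lt).trans (Nat.pow_lt_pow_right hp.one_lt (by omega)))
  have hne : ∀ (l : ℕ) [Fact l.Prime] (j : ℕ), orderOf (a : ZMod l) = p ^ (j + 1) →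
      (a : ZMod l) ≠ 0 := by
    intro l _ j ho h0
    have h1 := pow_orderOf_eq_one (a : ZMod l)
    rw [ho, h0, zero_pow (pow_ne_zero _ hp.ne_zero)] at h1
    exact zero_ne_one h1
  have hgt : ∀ (l : ℕ) [Fact l.Prime] (j : ℕ), B ≤ j → orderOf (a : ZMod l) = p ^ (j + 1) →
      B < l := by
    intro l hl j hj ho
    have hd := ZMod.orderOf_dvd_card_sub_one (hne l j ho)
    rw [ho] at hd
    have h1 : 0 < l - 1 := by
      have := hl.out.two_le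
      omega
    have := Nat.le_of_dvd h1 hd
    have := hBp j hj
    omega
  have hl₁B : B < l₁ := hgt l₁ B le_rfl ho₁
  have hl₂B : B < l₂ := hgt l₂ (B + 1) (by omega) ho₂
  have hl₁₂ : l₁ ≠ l₂ := by
    rintro rfl
    rw [ho₁] at ho₂
    have := Nat.pow_right_injective hp.two_le ho₂
    omega
  have hco : Nat.Coprime l₁ l₂ := (Nat.coprime_primes hl₁ hl₂).mpr hl₁₂
  obtain ⟨t, ht₁, ht₂⟩ := Nat.chineseRemainder hco a 1
  have ht₁' : (t : ZMod l₁) = a := (ZMod.natCast_eq_natCast_iff _ _ _).mpr ht₁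
  have ht₂' : (t : ZMod l₂) = 1 := by
    have := (ZMod.natCast_eq_natCast_iff _ _ _).mpr ht₂
    simpa using this
  refine ⟨l₁ * l₂, t, ?_, ?_, ?_⟩
  · intro l hl hd
    rcases (Nat.Prime.dvd_mul hl).mp hd with h | h
    · rwa [(Nat.prime_dvd_prime_iff_eq hl hl₁).mp h]
    · rwa [(Nat.prime_dvd_prime_iff_eq hl hl₂).mp h]
  · apply Nat.Coprime.mul_right
    · apply Nat.Coprime.symm
      rw [Nat.Prime.coprime_iff_not_dvd hl₁]
      intro hd
      have := (ZMod.natCast_eq_zero_iff t l₁).mpr hd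
      rw [ht₁'] at this
      exact hne l₁ B ho₁ this
    · apply Nat.Coprime.symm
      rw [Nat.Prime.coprime_iff_not_dvd hl₂]
      intro hd
      have := (ZMod.natCast_eq_zero_iff t l₂).mpr hd
      rw [ht₂'] at this
      exact one_ne_zero this
  · intro α β hab
    have h₂ : (a : ZMod l₂) ^ α = 1 := by
      have := (ZMod.natCast_eq_natCast_iff _ _ _).mpr (hab.of_mul_left l₁)
      simpa [ht₂'] using this
    have h₁ : (a : ZMod l₁) ^ (α + β) = 1 := by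
      have := (ZMod.natCast_eq_natCast_iff _ _ _).mpr (hab.of_mul_right l₂)
      simpa [ht₁', pow_add] using this
    have hα : p ^ (B + 1 + 1) ∣ α := by
      rw [← ho₂]
      exact orderOf_dvd_of_pow_eq_one h₂
    have hαβ : p ^ (B + 1) ∣ α + β := by
      rw [← ho₁]
      exact orderOf_dvd_of_pow_eq_one h₁
    have hα' : p ^ (B + 1) ∣ α := dvd_trans (pow_dvd_pow p (by omega)) hα
    have hβ : p ^ (B + 1) ∣ β := (Nat.dvd_add_right hα').mp hαβ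
    exact ⟨dvd_trans (dvd_pow_self p (by omega)) hα, dvd_trans (dvd_pow_self p (by omega)) hβ⟩

theorem Good.ne_zero {p a m t : ℕ} (hp : p.Prime) (hg : Good p a m t) : m ≠ 0 := by
  rintro rfl
  have ht : t = 1 := by
    have := hg.1
    simpa using this
  subst ht
  have := (hg.2 0 1 (by simp)).2
  exact hp.one_lt.ne' (Nat.dvd_one.mp this)

/-- A number all of whose prime factors exceed `n ≠ 0` is coprime to `n`. -/
theorem coprime_of_primeFactors_gt {n m : ℕ} (hn : n ≠ 0)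
    (h : ∀ l : ℕ, l.Prime → l ∣ m → n < l) : Nat.Coprime n m := by
  apply Nat.coprime_of_dvd
  intro k hk hkn hkm
  have := Nat.le_of_dvd (Nat.pos_of_ne_zero hn) hkn
  have := h k hk hkm
  omega

/-- **ARTL**, adding one modulus to a given modulus `n` and residue `t₀`. -/
theorem artl_step (p : ℕ) (hp : p.Prime) (hp2 : p ≠ 2) (a : ℕ) (ha : 2 ≤ a) (B n t₀ : ℕ)
    (hn : n ≠ 0) :
    ∃ m t : ℕ, (∀ l : ℕ, l.Prime → l ∣ m → B < l) ∧ Nat.Coprime n m ∧ Good p a m t ∧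
      t ≡ t₀ [MOD n] := by
  obtain ⟨m, t₁, hm, hg⟩ := artl p hp hp2 a ha (max B n)
  have hco : Nat.Coprime n m :=
    coprime_of_primeFactors_gt hn fun l hl hd => lt_of_le_of_lt (le_max_right B n) (hm l hl hd)
  obtain ⟨t, ht₀, ht₁⟩ := Nat.chineseRemainder hco t₀ t₁
  exact ⟨m, t, fun l hl hd => lt_of_le_of_lt (le_max_left B n) (hm l hl hd), hco, hg.congr ht₁, ht₀⟩

/-- **ARTL** in the shape used by Artin's crossing argument: four pairwise coprime moduli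
with all prime factors `> B`, coprime to a given `n₀ ≠ 0`, and ONE residue `t`, such that
`(a₁, m₁)`, `(a₁, m₁')`, `(a₂, m₂)`, `(a₂, m₂')` all have the ARTL property for `t`. -/
theorem artl_cross (p : ℕ) (hp : p.Prime) (hp2 : p ≠ 2) (a₁ a₂ : ℕ) (ha₁ : 2 ≤ a₁)
    (ha₂ : 2 ≤ a₂) (B n₀ : ℕ) (hn₀ : n₀ ≠ 0) :
    ∃ m₁ m₁' m₂ m₂' t : ℕ,
      (∀ l : ℕ, l.Prime → l ∣ m₁ * m₁' * m₂ * m₂' → B < l) ∧
      Nat.Coprime n₀ (m₁ * m₁' * m₂ * m₂') ∧
      Nat.Coprime m₁ m₁' ∧ Nat.Coprime (m₁ * m₁') m₂ ∧ Nat.Coprime (m₁ * m₁' * m₂) m₂' ∧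
      Good p a₁ m₁ t ∧ Good p a₁ m₁' t ∧ Good p a₂ m₂ t ∧ Good p a₂ m₂' t := by
  obtain ⟨m₁, t₁, hm₁, hc₁, hg₁, -⟩ := artl_step p hp hp2 a₁ ha₁ B n₀ 0 hn₀
  have h1 : n₀ * m₁ ≠ 0 := mul_ne_zero hn₀ (hg₁.ne_zero hp)
  obtain ⟨m₁', t₂, hm₁', hc₂, hg₂, ht₂⟩ := artl_step p hp hp2 a₁ ha₁ B (n₀ * m₁) t₁ h1
  have h2 : n₀ * m₁ * m₁' ≠ 0 := mul_ne_zero h1 (hg₂.ne_zero hp)
  obtain ⟨m₂, t₃, hm₂, hc₃, hg₃, ht₃⟩ := artl_step p hp hp2 a₂ ha₂ B (n₀ * m₁ * m₁') t₂ h2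
  have h3 : n₀ * m₁ * m₁' * m₂ ≠ 0 := mul_ne_zero h2 (hg₃.ne_zero hp)
  obtain ⟨m₂', t₄, hm₂', hc₄, hg₄, ht₄⟩ :=
    artl_step p hp hp2 a₂ ha₂ B (n₀ * m₁ * m₁' * m₂) t₃ h3
  refine ⟨m₁, m₁', m₂, m₂', t₄, ?_, ?_, ?_, ?_, ?_, ?_, ?_, ?_, hg₄⟩
  · intro l hl hd
    rcases (Nat.Prime.dvd_mul hl).mp hd with h | h
    · rcases (Nat.Prime.dvd_mul hl).mp h with h | h
      · rcases (Nat.Prime.dvd_mul hl).mp h with h | h
        · exact hm₁ l hl h
        · exact hm₁' l hl h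
      · exact hm₂ l hl h
    · exact hm₂' l hl h
  · have e1 : Nat.Coprime n₀ m₁' := Nat.Coprime.coprime_mul_right hc₂
    have e2 : Nat.Coprime n₀ m₂ :=
      Nat.Coprime.coprime_mul_right (Nat.Coprime.coprime_mul_right hc₃)
    have e3 : Nat.Coprime n₀ m₂' :=
      Nat.Coprime.coprime_mul_right
        (Nat.Coprime.coprime_mul_right (Nat.Coprime.coprime_mul_right hc₄))
    exact ((hc₁.mul_right e1).mul_right e2).mul_right e3
  · exact Nat.Coprime.coprime_mul_left hc₂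
  · have : Nat.Coprime (n₀ * (m₁ * m₁')) m₂ := by rwa [← mul_assoc]
    exact Nat.Coprime.coprime_mul_left this
  · have : Nat.Coprime (n₀ * (m₁ * m₁' * m₂)) m₂' := by rwa [← mul_assoc, ← mul_assoc]
    exact Nat.Coprime.coprime_mul_left this
  · -- t₄ ≡ t₃ ≡ t₂ ≡ t₁ mod m₁
    have e4 : t₄ ≡ t₃ [MOD m₁] :=
      ht₄.of_dvd (Dvd.dvd.mul_right (Dvd.dvd.mul_right (Dvd.intro_left n₀ rfl) _) _)
    have e3 : t₃ ≡ t₂ [MOD m₁] := ht₃.of_dvd (Dvd.dvd.mul_right (Dvd.intro_left n₀ rfl) _)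
    have e2 : t₂ ≡ t₁ [MOD m₁] := ht₂.of_dvd (Dvd.intro_left n₀ rfl)
    exact hg₁.congr ((e4.trans e3).trans e2)
  · have e4 : t₄ ≡ t₃ [MOD m₁'] := ht₄.of_dvd (Dvd.dvd.mul_right (Dvd.intro_left _ rfl) _)
    have e3 : t₃ ≡ t₂ [MOD m₁'] := ht₃.of_dvd (Dvd.intro_left _ rfl)
    exact hg₂.congr (e4.trans e3)
  · have e4 : t₄ ≡ t₃ [MOD m₂] := ht₄.of_dvd (Dvd.intro_left _ rfl)
    exact hg₃.congr e4

end Fermat.Agent.S14_Artl
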