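import Mathlib

/-!
# S14_CrossAux: elementary lemmas for Artin's crossing argument (block CROSS of project C)
-/

namespace Fermat.Agent.S14_CrossAux

open NumberField

section group

/-- In a finite group, the elements of the subgroup generated by two commuting elements are
products of natural powers. -/
theorem exists_pow_mul_pow_of_mem_closure {G : Type*} [Group G] [Finite G] {x y z : G}
    (hxy : x * y = y * x) (hz : z ∈ Subgroup.closure {x, y}) : ∃ α β : ℕ, z = x ^ α * y ^ β := by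
  have hc : Commute x y := hxy
  induction hz using Subgroup.closure_induction with
  | mem z hz =>
    rcases hz with rfl | hz
    · exact ⟨1, 0, by simp⟩
    · rw [Set.mem_singleton_iff] at hz
      subst hz
      exact ⟨0, 1, by simp⟩
  | one => exact ⟨0, 0, by simp⟩
  | mul a b _ _ ha hb =>
    obtain ⟨α, β, rfl⟩ := ha
    obtain ⟨γ, δ, rfl⟩ := hb
    refine ⟨α + γ, β + δ, ?_⟩
    rw [pow_add, pow_add, mul_assoc, mul_assoc]
    congr 1
    rw [← mul_assoc, ← mul_assoc]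
    congr 1
    exact ((hc.pow_pow γ β).symm).eq
  | inv a _ ha =>
    obtain ⟨α, β, rfl⟩ := ha
    have hN : ∀ g : G, g⁻¹ = g ^ (Nat.card G - 1) := by
      intro g
      have h1 : g ^ Nat.card G = 1 := pow_card_eq_one'
      have hpos : 0 < Nat.card G := Nat.card_pos
      rw [inv_eq_iff_mul_eq_one, ← pow_succ', Nat.sub_add_cancel hpos, h1]
    refine ⟨α * (Nat.card G - 1), β * (Nat.card G - 1), ?_⟩
    rw [mul_inv_rev, pow_mul, pow_mul, ← hN, ← hN]
    exact ((hc.pow_pow α β).inv_inv).symm.eq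

/-- Exponent bookkeeping in a `p`-torsion commutative group (end of the crossing argument). -/
theorem bookkeeping {G : Type*} [CommGroup G] {p : ℕ} (hp : p.Prime)
    (htors : ∀ g : G, g ^ p = 1) (A₁ A₂ C₁ C₂ C : G) (e₁ e₂ f₁ f₂ w₁ w₂ u d : ℕ)
    (h1 : A₁ = C₁ ^ e₁) (h2 : A₂ = C₂ ^ e₂) (hc1 : C = C₁ ^ f₁) (hc2 : C = C₂ ^ f₂)
    (hf1 : f₁ * w₁ ≡ u [MOD p]) (hf2 : f₂ * w₂ ≡ u [MOD p])
    (he1 : w₁ * e₁ ≡ 1 [MOD p]) (he2 : w₂ * e₂ ≡ d [MOD p]) (hu : ¬ p ∣ u) :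
    A₂ = A₁ ^ d := by
  have key : ∀ (A Ci : G) (e f w d' : ℕ), A = Ci ^ e → C = Ci ^ f → f * w ≡ u [MOD p] →
      w * e ≡ d' [MOD p] → A ^ u = C ^ d' := by
    intro A Ci e f w d' hA hC hf he
    have h3 : e * u ≡ f * d' [MOD p] := by
      calc e * u ≡ e * (f * w) [MOD p] := (Nat.ModEq.refl e).mul hf.symm
        _ = f * (w * e) := by ring
        _ ≡ f * d' [MOD p] := (Nat.ModEq.refl f).mul he
    rw [hA, hC, ← pow_mul, ← pow_mul]
    exact pow_eq_pow_of_modEq h3 (htors Ci)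
  have k1 : A₁ ^ u = C := by
    have := key A₁ C₁ e₁ f₁ w₁ 1 h1 hc1 hf1 he1
    rwa [pow_one] at this
  have k2 : A₂ ^ u = C ^ d := key A₂ C₂ e₂ f₂ w₂ d h2 hc2 hf2 he2
  have hcop : Nat.Coprime u p := (Nat.Coprime.symm ((Nat.Prime.coprime_iff_not_dvd hp).mpr hu))
  obtain ⟨u', -, hu'⟩ := Nat.exists_mul_mod_eq_one_of_coprime hcop hp.one_lt
  have hu'' : u * u' ≡ 1 [MOD p] := by
    rw [Nat.ModEq, hu', Nat.mod_eq_of_lt hp.one_lt]
  have k3 : A₂ ^ u = (A₁ ^ d) ^ u := by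
    rw [k2, ← k1, ← pow_mul, ← pow_mul, mul_comm]
  calc A₂ = A₂ ^ (u * u') := by
        rw [pow_eq_pow_of_modEq hu'' (htors A₂), pow_one]
    _ = (A₁ ^ d) ^ (u * u') := by rw [pow_mul, k3, ← pow_mul]
    _ = A₁ ^ d := by rw [pow_eq_pow_of_modEq hu'' (htors (A₁ ^ d)), pow_one]

/-- Powers of a primitive root agree only for congruent exponents. -/
theorem modEq_of_pow_eq_pow {M : Type*} [CommMonoid M] {ζ : M} {m : ℕ} (hζ : IsPrimitiveRoot ζ m)
    (hm : 0 < m) {a b : ℕ} (h : ζ ^ a = ζ ^ b) : a ≡ b [MOD m] := by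
  have h1 : ζ ^ (a % m) = ζ ^ (b % m) := by
    have ho := hζ.eq_orderOf
    rw [ho, pow_mod_orderOf, pow_mod_orderOf]
    exact h
  exact hζ.pow_inj (Nat.mod_lt a hm) (Nat.mod_lt b hm) h1

end group

section ideals

variable {F : Type*} [Field F] [NumberField F]

/-- The norm of a nonzero prime not containing `n` is prime to `n`. -/
theorem coprime_absNorm_of_notMem (q : Ideal (𝓞 F)) [q.IsPrime] (hq : q ≠ ⊥) {n : ℕ}
    (hn : (n : 𝓞 F) ∉ q) : (Ideal.absNorm q).Coprime n := by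
  by_contra h
  obtain ⟨l, hl, hlN, hln⟩ := Nat.Prime.not_coprime_iff_dvd.mp h
  have hmax : q.IsMaximal := Ring.DimensionLEOne.maximalOfPrime hq inferInstance
  let _ : Field (𝓞 F ⧸ q) := Ideal.Quotient.field q
  have : Finite (𝓞 F ⧸ q) := Ideal.finiteQuotientOfFreeOfNeBot q hq
  have : Fintype (𝓞 F ⧸ q) := Fintype.ofFinite _
  obtain ⟨c, hc⟩ := CharP.exists (𝓞 F ⧸ q)
  obtain ⟨k, hcp, hcard⟩ := FiniteField.card (𝓞 F ⧸ q) c
  have hN : Ideal.absNorm q = c ^ (k : ℕ) := by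
    rw [← hcard, Ideal.absNorm_apply, Submodule.cardQuot_apply, Nat.card_eq_fintype_card]
  rw [hN] at hlN
  have hlc : l = c := (Nat.prime_dvd_prime_iff_eq hl hcp).mp (hl.dvd_of_dvd_pow hlN)
  subst hlc
  have h0 : ((l : 𝓞 F) : 𝓞 F ⧸ q) = 0 := by
    simp
  have hlq : (l : 𝓞 F) ∈ q := Ideal.Quotient.eq_zero_iff_mem.mp h0
  obtain ⟨j, rfl⟩ := hln
  apply hn
  rw [Nat.cast_mul]
  exact q.mul_mem_right _ hlq

/-- An ideal `≠ ⊤` whose norm is prime to `n` does not contain `n`. -/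
theorem notMem_of_coprime_absNorm (q : Ideal (𝓞 F)) (hq : q ≠ ⊤) {n : ℕ}
    (h : (Ideal.absNorm q).Coprime n) : (n : 𝓞 F) ∉ q := by
  intro hmem
  have hN := Ideal.absNorm_mem q
  obtain ⟨u, v, huv⟩ := (Nat.isCoprime_iff_coprime.mpr h)
  apply hq
  rw [Ideal.eq_top_iff_one]
  have h1 : ((u : 𝓞 F) * (Ideal.absNorm q : 𝓞 F) + (v : 𝓞 F) * (n : 𝓞 F)) = 1 := by
    have := congrArg (Int.cast : ℤ → 𝓞 F) huv
    push_cast at this
    exact this
  rw [← h1]
  exact q.add_mem (q.mul_mem_left _ hN) (q.mul_mem_left _ hmem)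

/-- The ideals containing a nonzero integer form a finite set. -/
theorem exists_finset_of_mem (n : ℕ) (hn : n ≠ 0) :
    ∃ S : Finset (Ideal (𝓞 F)), ∀ Q : Ideal (𝓞 F), (n : 𝓞 F) ∈ Q → Q ∈ S := by
  have hfin := Ideal.finite_setOfPred_absNorm_le (S := 𝓞 F)
    (Ideal.absNorm (Ideal.span {(n : 𝓞 F)}))
  refine ⟨hfin.toFinset, fun Q hQ => ?_⟩
  rw [Set.Finite.mem_toFinset]
  have hle : Ideal.span {(n : 𝓞 F)} ≤ Q := (Ideal.span_singleton_le_iff_mem Q).mpr hQ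
  have hdvd := Ideal.absNorm_dvd_absNorm_of_le hle
  have hne : Ideal.absNorm (Ideal.span {(n : 𝓞 F)}) ≠ 0 := by
    rw [Ne, Ideal.absNorm_eq_zero_iff, Ideal.span_singleton_eq_bot]
    exact_mod_cast hn
  exact Nat.le_of_dvd (Nat.pos_of_ne_zero hne) hdvd

end ideals

end Fermat.Agent.S14_CrossAux
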