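import Mathlib

/-!
# S14_CrossCyc: the cyclotomic layer of Artin's crossing argument (block CROSS of project C)

* `normal_of_cyclotomic`, `isGalois_of_cyclotomic`: `L(ξ_n)/K` is normal / Galois when `L/K` is.
* `algEquiv_ext_of_cyclotomic`, `comm_of_cyclotomic`, `exists_pow_of_algEquiv`: structure of
  `Gal(L(ξ_n)/K)`.
* `exists_lift`: if `Φ_n` is irreducible over `L`, every pair `(g, t)` (`g ∈ Gal(L/K)`, `t` prime
  to `n`) is realised in `Gal(L(ξ_n)/K)`.
* `irreducible_cyclotomic_of_coprime`: `Φ_N` is irreducible over `ℚ(ζ_p)` for `N` prime to `p`.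
* `irreducible_cyclotomic_or`: for coprime `n, n'` prime to `p` and `L/ℚ(ζ_p)` Galois of degree
  `p`, one of `Φ_n`, `Φ_{n'}` is irreducible over `L`.
-/

namespace Fermat.Agent.S14_CrossCyc

open Polynomial


/-- Degree criterion for the irreducibility of a cyclotomic polynomial. -/
theorem irreducible_cyclotomic_of_le_natDegree {L Ω : Type*} [Field L] [Field Ω] [Algebra L Ω]
    {n : ℕ} (hn : n ≠ 0) {ξ : Ω} (hξ : IsPrimitiveRoot ξ n)
    (hcard : n.totient ≤ (minpoly L ξ).natDegree) : Irreducible (cyclotomic n L) := by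
  have hpos : 0 < n := Nat.pos_of_ne_zero hn
  have hroot : aeval ξ (cyclotomic n L) = 0 := by
    rw [aeval_def, eval₂_eq_eval_map, map_cyclotomic]
    exact hξ.isRoot_cyclotomic hpos
  have hint : IsIntegral L ξ := ⟨cyclotomic n L, cyclotomic.monic n L, hroot⟩
  have hdvd : minpoly L ξ ∣ cyclotomic n L := minpoly.dvd L ξ hroot
  have heq : cyclotomic n L = minpoly L ξ :=
    eq_of_monic_of_dvd_of_natDegree_le (minpoly.monic hint) (cyclotomic.monic n L) hdvd
      (by rw [natDegree_cyclotomic]; exact hcard)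
  rw [heq]
  exact minpoly.irreducible hint

/-- `Φ_N` is irreducible over the `p`-th cyclotomic field when `N` is prime to `p`. -/
theorem irreducible_cyclotomic_of_coprime (p : ℕ) [Fact p.Prime] (K : Type*) [Field K]
    [CharZero K] [IsCyclotomicExtension {p} ℚ K] (N : ℕ) (hN : N ≠ 0) (hNp : N.Coprime p) :
    Irreducible (cyclotomic N K) := by
  have hp : p.Prime := Fact.out
  have : NeZero N := ⟨hN⟩
  have : NeZero p := ⟨hp.ne_zero⟩
  have : NeZero (p * N) := ⟨mul_ne_zero hp.ne_zero hN⟩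
  let K' := CyclotomicField N K
  have h1 : IsCyclotomicExtension ({p} ∪ {N}) ℚ K' :=
    IsCyclotomicExtension.trans {p} {N} ℚ K K' (algebraMap K K').injective
  have hζ : IsPrimitiveRoot (algebraMap K K' (IsCyclotomicExtension.zeta p ℚ K)) p :=
    (IsCyclotomicExtension.zeta_spec p ℚ K).map_of_injective (algebraMap K K').injective
  have hω : IsPrimitiveRoot (IsCyclotomicExtension.zeta N K K') N :=
    IsCyclotomicExtension.zeta_spec N K K'
  have hr := hζ.pow_mul_pow_lcm hω hp.ne_zero hN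
  rw [Nat.Coprime.lcm_eq_mul hNp.symm] at hr
  have h2 : IsCyclotomicExtension (({p} ∪ {N}) ∪ {p * N}) ℚ K' :=
    IsCyclotomicExtension.union_of_isPrimitiveRoot _ ℚ K' hr
  have h3 : IsCyclotomicExtension {p * N} ℚ K' := by
    rw [IsCyclotomicExtension.iff_union_of_dvd ℚ K' (S := {p * N}) (n := p)
      ⟨p * N, Set.mem_singleton _, mul_ne_zero hp.ne_zero hN, dvd_mul_right p N⟩,
      IsCyclotomicExtension.iff_union_of_dvd ℚ K' (S := {p * N} ∪ {p}) (n := N)
      ⟨p * N, Or.inl (Set.mem_singleton _), mul_ne_zero hp.ne_zero hN, dvd_mul_left N p⟩]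
    have hset : (({p * N} ∪ {p}) ∪ {N} : Set ℕ) = ({p} ∪ {N}) ∪ {p * N} := by
      ext x
      simp only [Set.union_singleton, Set.mem_insert_iff, Set.mem_singleton_iff]
      tauto
    rw [hset]
    exact h2
  have hf1 : Module.finrank ℚ K' = (p * N).totient := IsCyclotomicExtension.Rat.finrank (p * N) K'
  have hf2 : Module.finrank ℚ K = p.totient := IsCyclotomicExtension.Rat.finrank p K
  have : NumberField K := IsCyclotomicExtension.numberField {p} ℚ K
  have hf3 : Module.finrank ℚ K * Module.finrank K K' = Module.finrank ℚ K' :=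
    Module.finrank_mul_finrank ℚ K K'
  rw [hf1, hf2, Nat.totient_mul hNp.symm] at hf3
  have hf4 : Module.finrank K K' = N.totient :=
    Nat.eq_of_mul_eq_mul_left (Nat.totient_pos.mpr hp.pos) hf3
  apply irreducible_cyclotomic_of_le_natDegree hN hω
  rw [← IsPrimitiveRoot.powerBasis_dim K hω, ← PowerBasis.finrank, hf4]



/-- If the automorphisms of `Ω/L` act transitively on the primitive `n`-th roots of unity, then
the `n`-th cyclotomic polynomial is irreducible over `L`. -/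
theorem irreducible_cyclotomic_of_transitive {L Ω : Type*} [Field L] [Field Ω] [Algebra L Ω]
    {n : ℕ} (hn : n ≠ 0) {ξ : Ω} (hξ : IsPrimitiveRoot ξ n)
    (h : ∀ u : ℕ, u.Coprime n → ∃ τ : Ω ≃ₐ[L] Ω, τ ξ = ξ ^ u) :
    Irreducible (cyclotomic n L) := by
  classical
  have hpos : 0 < n := Nat.pos_of_ne_zero hn
  have : NeZero n := ⟨hn⟩
  have hroot : aeval ξ (cyclotomic n L) = 0 := by
    rw [aeval_def, eval₂_eq_eval_map, map_cyclotomic]
    exact hξ.isRoot_cyclotomic hpos
  have hint : IsIntegral L ξ := ⟨cyclotomic n L, cyclotomic.monic n L, hroot⟩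
  have hdvd : minpoly L ξ ∣ cyclotomic n L := minpoly.dvd L ξ hroot
  have hsub : primitiveRoots n Ω ⊆ ((minpoly L ξ).map (algebraMap L Ω)).roots.toFinset := by
    intro μ hμ
    rw [mem_primitiveRoots hpos] at hμ
    obtain ⟨i, -, hi, rfl⟩ := (hξ.isPrimitiveRoot_iff).mp hμ
    obtain ⟨τ, hτ⟩ := h i hi
    rw [Multiset.mem_toFinset, mem_roots (map_monic_ne_zero (minpoly.monic hint)), IsRoot,
      eval_map_algebraMap, ← hτ]
    exact minpoly.aeval_algHom L (τ : Ω →ₐ[L] Ω) ξ
  have hcard : n.totient ≤ (minpoly L ξ).natDegree := by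
    calc n.totient = (primitiveRoots n Ω).card := (hξ.card_primitiveRoots).symm
      _ ≤ ((minpoly L ξ).map (algebraMap L Ω)).roots.toFinset.card := Finset.card_le_card hsub
      _ ≤ Multiset.card ((minpoly L ξ).map (algebraMap L Ω)).roots := Multiset.toFinset_card_le _
      _ ≤ ((minpoly L ξ).map (algebraMap L Ω)).natDegree := card_roots' _
      _ = (minpoly L ξ).natDegree := natDegree_map _
  have heq : cyclotomic n L = minpoly L ξ :=
    eq_of_monic_of_dvd_of_natDegree_le (minpoly.monic hint) (cyclotomic.monic n L) hdvd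
      (by rw [natDegree_cyclotomic]; exact hcard)
  rw [heq]
  exact minpoly.irreducible hint



/-- `ξ ^ a = ξ ^ b` when `a ≡ b` modulo the order of the primitive root `ξ`. -/
theorem pow_eq_pow_of_modEq {M : Type*} [CommMonoid M] {ξ : M} {n : ℕ} (hξ : IsPrimitiveRoot ξ n)
    {a b : ℕ} (h : a ≡ b [MOD n]) : ξ ^ a = ξ ^ b := by
  rw [← pow_mod_orderOf ξ a, ← pow_mod_orderOf ξ b, ← hξ.eq_orderOf]
  exact congrArg (ξ ^ ·) h

/-- In a normal extension, if `Φ_N` is irreducible over the base, every power map on a primitive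
`N`-th root of unity is induced by an automorphism. -/
theorem exists_algEquiv_pow {K Ω : Type*} [Field K] [Field Ω] [Algebra K Ω] [Normal K Ω] {N : ℕ}
    [NeZero (N : K)] (hirr : Irreducible (cyclotomic N K)) {ω : Ω} (hω : IsPrimitiveRoot ω N)
    (v : ℕ) (hv : v.Coprime N) : ∃ σ : Ω ≃ₐ[K] Ω, σ ω = ω ^ v := by
  have h : IsConjRoot K (ω ^ v) ω := by
    rw [isConjRoot_def, ← hω.minpoly_eq_cyclotomic_of_irreducible hirr,
      ← (hω.pow_of_coprime v hv).minpoly_eq_cyclotomic_of_irreducible hirr]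
  exact h.exists_algEquiv

/-- CRT for exponents prime to the moduli. -/
theorem exists_coprime_crt {n n' : ℕ} (hnn' : n.Coprime n') {a b : ℕ} (ha : a.Coprime n)
    (hb : b.Coprime n') : ∃ v : ℕ, v.Coprime (n * n') ∧ v ≡ a [MOD n] ∧ v ≡ b [MOD n'] := by
  obtain ⟨v, hv1, hv2⟩ := Nat.chineseRemainder hnn' a b
  refine ⟨v, Nat.Coprime.mul_right ?_ ?_, hv1, hv2⟩
  · have := hv1.gcd_eq
    unfold Nat.Coprime at ha ⊢
    rw [this]; exact ha
  · have := hv2.gcd_eq
    unfold Nat.Coprime at hb ⊢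
    rw [this]; exact hb



section tower

variable (K L M : Type*) [Field K] [Field L] [Field M] [Algebra K L] [Algebra L M] [Algebra K M]
  [IsScalarTower K L M]

/-- `M = L(ξ_n)` is normal over `K` when `L/K` is. -/
theorem normal_of_cyclotomic [Normal K L] (n : ℕ) [NeZero n] [IsCyclotomicExtension {n} L M] :
    Normal K M := by
  have hL : Algebra.IsAlgebraic K L := inferInstance
  have : Algebra.IsIntegral L M := IsCyclotomicExtension.integral {n} L M
  have : Algebra.IsAlgebraic L M := inferInstance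
  have hM : Algebra.IsAlgebraic K M := Algebra.IsAlgebraic.trans K L M
  have : Algebra.IsIntegral K M := inferInstance
  obtain ⟨ξ, hξ⟩ := IsCyclotomicExtension.exists_isPrimitiveRoot L M (Set.mem_singleton n)
    (NeZero.ne n)
  let E₁ : IntermediateField K M := (IsScalarTower.toAlgHom K L M).fieldRange
  let E₂ : IntermediateField K M := IntermediateField.adjoin K {ξ}
  have h₁ : Normal K E₁ :=
    Normal.of_algEquiv (AlgEquiv.ofInjectiveField (IsScalarTower.toAlgHom K L M))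
  have : IsCyclotomicExtension {n} K E₂ := hξ.intermediateField_adjoin_isCyclotomicExtension K
  have h₂ : Normal K E₂ := (IsCyclotomicExtension.isGalois {n} K E₂).to_normal
  have htop : E₁ ⊔ E₂ = ⊤ := by
    rw [eq_top_iff]
    rintro x -
    have hx : x ∈ Algebra.adjoin L ({ξ} : Set M) := by
      rw [IsCyclotomicExtension.adjoin_primitive_root_eq_top hξ]
      trivial
    induction hx using Algebra.adjoin_induction with
    | mem y hy =>
      rw [Set.mem_singleton_iff] at hy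
      subst hy
      exact (le_sup_right : E₂ ≤ E₁ ⊔ E₂) (IntermediateField.mem_adjoin_simple_self K y)
    | algebraMap l =>
      exact (le_sup_left : E₁ ≤ E₁ ⊔ E₂) ⟨l, rfl⟩
    | add y z _ _ hy hz => exact add_mem hy hz
    | mul y z _ _ hy hz => exact mul_mem hy hz
  have h₃ : Normal K (E₁ ⊔ E₂ : IntermediateField K M) := inferInstance
  rw [htop] at h₃
  exact Normal.of_algEquiv (IntermediateField.topEquiv : (⊤ : IntermediateField K M) ≃ₐ[K] M)

theorem isGalois_of_cyclotomic [CharZero K] [IsGalois K L] (n : ℕ) [NeZero n]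
    [IsCyclotomicExtension {n} L M] : IsGalois K M := by
  have := normal_of_cyclotomic K L M n
  have : Algebra.IsAlgebraic K M := inferInstance
  exact ⟨⟩

variable {K L M}

omit [Algebra K L] [IsScalarTower K L M] in
/-- Two `K`-automorphisms of `M = L(ξ)` agreeing on `L` and at `ξ` are equal. -/
theorem algEquiv_ext_of_cyclotomic {n : ℕ} [NeZero n] [IsCyclotomicExtension {n} L M] {ξ : M}
    (hξ : IsPrimitiveRoot ξ n) {σ τ : M ≃ₐ[K] M}
    (hL : ∀ x : L, σ (algebraMap L M x) = τ (algebraMap L M x)) (h : σ ξ = τ ξ) : σ = τ := by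
  ext x
  have hx : x ∈ Algebra.adjoin L ({ξ} : Set M) := by
    rw [IsCyclotomicExtension.adjoin_primitive_root_eq_top hξ]
    trivial
  induction hx using Algebra.adjoin_induction with
  | mem y hy =>
    rw [Set.mem_singleton_iff] at hy
    subst hy
    exact h
  | algebraMap l => exact hL l
  | add y z _ _ hy hz => rw [map_add, map_add, hy, hz]
  | mul y z _ _ hy hz => rw [map_mul, map_mul, hy, hz]

/-- A `K`-automorphism of `M` raises the primitive root `ξ` to a power prime to `n`. -/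
theorem exists_pow_of_algEquiv {n : ℕ} [NeZero n] {ξ : M} (hξ : IsPrimitiveRoot ξ n)
    (σ : M ≃ₐ[K] M) : ∃ u : ℕ, u.Coprime n ∧ σ ξ = ξ ^ u := by
  have h1 : IsPrimitiveRoot (σ ξ) n := hξ.map_of_injective σ.injective
  obtain ⟨i, -, hi, hi'⟩ := (hξ.isPrimitiveRoot_iff).mp h1
  exact ⟨i, hi, hi'.symm⟩

/-- `Gal(L(ξ_n)/K)` is commutative when `Gal(L/K)` is. -/
theorem comm_of_cyclotomic [Normal K L] {n : ℕ} [NeZero n] [IsCyclotomicExtension {n} L M]
    (hcomm : ∀ a b : L ≃ₐ[K] L, a * b = b * a) (σ τ : M ≃ₐ[K] M) : σ * τ = τ * σ := by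
  obtain ⟨ξ, hξ⟩ := IsCyclotomicExtension.exists_isPrimitiveRoot L M (Set.mem_singleton n)
    (NeZero.ne n)
  apply algEquiv_ext_of_cyclotomic (L := L) hξ
  · intro x
    simp only [AlgEquiv.mul_apply]
    rw [← AlgEquiv.restrictNormal_commutes τ L, ← AlgEquiv.restrictNormal_commutes σ L,
      ← AlgEquiv.restrictNormal_commutes σ L, ← AlgEquiv.restrictNormal_commutes τ L]
    congr 1
    exact DFunLike.congr_fun (hcomm (σ.restrictNormal L) (τ.restrictNormal L)) x
  · obtain ⟨a, -, ha⟩ := exists_pow_of_algEquiv hξ σ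
    obtain ⟨b, -, hb⟩ := exists_pow_of_algEquiv hξ τ
    simp only [AlgEquiv.mul_apply]
    rw [ha, hb, map_pow, map_pow, ha, hb, ← pow_mul, ← pow_mul, mul_comm]

/-- If `Φ_n` is irreducible over `L`, every pair `(g, t)` with `g ∈ Gal(L/K)` and `t` prime to `n`
is realised by an element of `Gal(L(ξ_n)/K)`. -/
theorem exists_lift [Normal K L] {n : ℕ} [NeZero n] [IsCyclotomicExtension {n} L M]
    [NeZero (n : L)]
    (hirr : Irreducible (cyclotomic n L)) {ξ : M} (hξ : IsPrimitiveRoot ξ n) (g : L ≃ₐ[K] L)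
    (t : ℕ) (ht : t.Coprime n) :
    ∃ y : M ≃ₐ[K] M, (∀ x : L, y (algebraMap L M x) = algebraMap L M (g x)) ∧ y ξ = ξ ^ t := by
  have := normal_of_cyclotomic K L M n
  obtain ⟨u, hu, hgu⟩ := exists_pow_of_algEquiv hξ (g.liftNormal M)
  -- s with u * s ≡ t mod n
  let s : ℕ := ((t : ZMod n) * ((u : ZMod n))⁻¹).val
  have hs' : ((s : ℕ) : ZMod n) = (t : ZMod n) * ((u : ZMod n))⁻¹ := ZMod.natCast_zmod_val _
  have hus : (u * s : ℕ) ≡ t [MOD n] := by
    rw [← ZMod.natCast_eq_natCast_iff, Nat.cast_mul, hs', mul_comm, mul_assoc,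
      ZMod.inv_mul_of_unit _ ((ZMod.isUnit_iff_coprime u n).mpr hu), mul_one]
  have hs : s.Coprime n := by
    have h1 : (u * s).Coprime n := by
      have := hus.gcd_eq
      unfold Nat.Coprime at ht ⊢
      rw [this]; exact ht
    exact Nat.Coprime.coprime_mul_left h1
  have hmin : minpoly L (hξ.powerBasis L).gen = minpoly L ((hξ.pow_of_coprime s hs).powerBasis L).gen := by
    rw [IsPrimitiveRoot.powerBasis_gen, IsPrimitiveRoot.powerBasis_gen,
      ← hξ.minpoly_eq_cyclotomic_of_irreducible hirr,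
      ← (hξ.pow_of_coprime s hs).minpoly_eq_cyclotomic_of_irreducible hirr]
  let η : M ≃ₐ[L] M := (hξ.powerBasis L).equivOfMinpoly ((hξ.pow_of_coprime s hs).powerBasis L) hmin
  have hη : η ξ = ξ ^ s := by
    have := (hξ.powerBasis L).equivOfMinpoly_gen ((hξ.pow_of_coprime s hs).powerBasis L) hmin
    rwa [IsPrimitiveRoot.powerBasis_gen, IsPrimitiveRoot.powerBasis_gen] at this
  refine ⟨g.liftNormal M * η.restrictScalars K, ?_, ?_⟩
  · intro x
    simp only [AlgEquiv.mul_apply, AlgEquiv.restrictScalars_apply, AlgEquiv.commutes]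
    exact g.liftNormal_commutes M x
  · simp only [AlgEquiv.mul_apply, AlgEquiv.restrictScalars_apply]
    rw [hη, map_pow, hgu, ← pow_mul]
    rw [← pow_mod_orderOf ξ (u * s), ← pow_mod_orderOf ξ t, ← hξ.eq_orderOf]
    exact congrArg (ξ ^ ·) hus

end tower

/-- The crossing step: if some automorphism of `Ω/K` fixes the primitive `n`-th root `ξ` but moves
`L`, and `Gal(Ω/K)` induces all power maps on `ξ`, then `Φ_n` is irreducible over `L`. -/
theorem irreducible_of_exists_fix {K L Ω : Type*} [Field K] [Field L] [Field Ω] [Algebra K L]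
    [Algebra L Ω] [Algebra K Ω] [IsScalarTower K L Ω] [Normal K L] {p : ℕ} [Fact p.Prime]
    (hcard : Nat.card (L ≃ₐ[K] L) = p) {n : ℕ} (hn : n ≠ 0) {ξ : Ω} (hξ : IsPrimitiveRoot ξ n)
    (hsurj : ∀ u : ℕ, u.Coprime n → ∃ σ : Ω ≃ₐ[K] Ω, σ ξ = ξ ^ u)
    (α : Ω ≃ₐ[K] Ω) (hα : α ξ = ξ) (hαL : α.restrictNormal L ≠ 1) :
    Irreducible (cyclotomic n L) := by
  apply irreducible_cyclotomic_of_transitive hn hξ
  intro u hu
  obtain ⟨σ, hσ⟩ := hsurj u hu
  obtain ⟨k, hk⟩ := Subgroup.mem_zpowers_iff.mp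
    (mem_zpowers_of_prime_card hcard hαL (g' := σ.restrictNormal L))
  let τ₀ : Ω ≃ₐ[K] Ω := σ * (α ^ k)⁻¹
  have hτ₀L : τ₀.restrictNormal L = 1 := by
    have h1 : τ₀.restrictNormal L
        = σ.restrictNormal L * ((α.restrictNormal L) ^ k)⁻¹ := by
      change AlgEquiv.restrictNormalHom L (σ * (α ^ k)⁻¹) = _
      rw [map_mul, map_inv, map_zpow]
      rfl
    rw [h1, hk, mul_inv_cancel]
  have hfix : ∀ x : L, τ₀.toRingEquiv (algebraMap L Ω x) = algebraMap L Ω x := by
    intro x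
    have := AlgEquiv.restrictNormal_commutes τ₀ L x
    rw [hτ₀L] at this
    exact this.symm
  have hαk : ∀ j : ℤ, (α ^ j) ξ = ξ := by
    intro j
    have hmem : α ∈ MulAction.stabilizer (Ω ≃ₐ[K] Ω) ξ := hα
    exact (MulAction.stabilizer (Ω ≃ₐ[K] Ω) ξ).zpow_mem hmem j
  refine ⟨AlgEquiv.ofRingEquiv hfix, ?_⟩
  change σ ((α ^ k)⁻¹ ξ) = ξ ^ u
  have : (α ^ k)⁻¹ ξ = ξ := by
    have := hαk (-k)
    rwa [zpow_neg] at this
  rw [this, hσ]

/-- **Cheap disjointness**: for coprime `n, n'`, one of `Φ_n`, `Φ_{n'}` is irreducible over `L`,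
where `L/K` is Galois of prime degree `p` and `Φ_{n n'}` is irreducible over `K`. -/
theorem irreducible_cyclotomic_or_aux {K L : Type*} [Field K] [Field L] [CharZero K]
    [Algebra K L] [IsGalois K L] {p : ℕ} [Fact p.Prime] (hcard : Nat.card (L ≃ₐ[K] L) = p)
    (n n' : ℕ) (hn : n ≠ 0) (hn' : n' ≠ 0) (hnn' : n.Coprime n')
    (hirr : Irreducible (cyclotomic (n * n') K)) :
    Irreducible (cyclotomic n L) ∨ Irreducible (cyclotomic n' L) := by
  have hp : p.Prime := Fact.out
  have hN : n * n' ≠ 0 := mul_ne_zero hn hn'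
  have : NeZero (n * n') := ⟨hN⟩
  have : NeZero n := ⟨hn⟩
  have : NeZero n' := ⟨hn'⟩
  have : CharZero L := charZero_of_injective_algebraMap (algebraMap K L).injective
  let Ω := CyclotomicField (n * n') L
  have hnorm : Normal K Ω := normal_of_cyclotomic K L Ω (n * n')
  let ω : Ω := IsCyclotomicExtension.zeta (n * n') L Ω
  have hω : IsPrimitiveRoot ω (n * n') := IsCyclotomicExtension.zeta_spec (n * n') L Ω
  have hξ : IsPrimitiveRoot (ω ^ n') n := hω.pow (Nat.pos_of_ne_zero hN) (mul_comm n n')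
  have hξ' : IsPrimitiveRoot (ω ^ n) n' := hω.pow (Nat.pos_of_ne_zero hN) rfl
  have claim1 : ∀ v : ℕ, v.Coprime (n * n') → ∃ σ : Ω ≃ₐ[K] Ω, σ ω = ω ^ v :=
    fun v hv => exists_algEquiv_pow hirr hω v hv
  -- the action on `ξ = ω ^ n'` and `ξ' = ω ^ n` of an automorphism with `σ ω = ω ^ v`
  have hact : ∀ (σ : Ω ≃ₐ[K] Ω) (v : ℕ), σ ω = ω ^ v → σ (ω ^ n') = (ω ^ n') ^ v := by
    intro σ v hσ
    rw [map_pow, hσ, ← pow_mul, ← pow_mul]
    exact congrArg (ω ^ ·) (mul_comm v n')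
  have hact' : ∀ (σ : Ω ≃ₐ[K] Ω) (v : ℕ), σ ω = ω ^ v → σ (ω ^ n) = (ω ^ n) ^ v := by
    intro σ v hσ
    rw [map_pow, hσ, ← pow_mul, ← pow_mul]
    exact congrArg (ω ^ ·) (mul_comm v n)
  by_cases hA : ∃ α : Ω ≃ₐ[K] Ω, α (ω ^ n') = ω ^ n' ∧ α.restrictNormal L ≠ 1
  · obtain ⟨α, hα, hαL⟩ := hA
    left
    refine irreducible_of_exists_fix hcard hn hξ ?_ α hα hαL
    intro u hu
    obtain ⟨v, hv, hv1, -⟩ := exists_coprime_crt hnn' hu (Nat.coprime_one_left n')
    obtain ⟨σ, hσ⟩ := claim1 v hv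
    exact ⟨σ, (hact σ v hσ).trans (pow_eq_pow_of_modEq hξ hv1)⟩
  by_cases hA' : ∃ α : Ω ≃ₐ[K] Ω, α (ω ^ n) = ω ^ n ∧ α.restrictNormal L ≠ 1
  · obtain ⟨α, hα, hαL⟩ := hA'
    right
    refine irreducible_of_exists_fix hcard hn' hξ' ?_ α hα hαL
    intro u hu
    obtain ⟨v, hv, -, hv2⟩ := exists_coprime_crt hnn' (Nat.coprime_one_left n) hu
    obtain ⟨σ, hσ⟩ := claim1 v hv
    exact ⟨σ, (hact' σ v hσ).trans (pow_eq_pow_of_modEq hξ' hv2)⟩
  exfalso
  push Not at hA hA'
  have hall : ∀ σ : Ω ≃ₐ[K] Ω, σ.restrictNormal L = 1 := by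
    intro σ
    obtain ⟨s, hs, hσ⟩ := exists_pow_of_algEquiv hω σ
    obtain ⟨v, hv, hv1, hv2⟩ := exists_coprime_crt hnn' (Nat.coprime_one_left n)
      (Nat.Coprime.coprime_mul_left_right hs)
    obtain ⟨β, hβ⟩ := claim1 v hv
    have hβξ : β (ω ^ n') = ω ^ n' := by
      rw [hact β v hβ, pow_eq_pow_of_modEq hξ hv1, pow_one]
    have hβL : β.restrictNormal L = 1 := hA β hβξ
    have hβσ : (β⁻¹ * σ) (ω ^ n) = ω ^ n := by
      change β⁻¹ (σ (ω ^ n)) = ω ^ n
      rw [hact' σ s hσ, ← pow_eq_pow_of_modEq hξ' hv2, ← hact' β v hβ]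
      exact β.symm_apply_apply _
    have hβσL : (β⁻¹ * σ).restrictNormal L = 1 := hA' _ hβσ
    have h1 : (β⁻¹ * σ).restrictNormal L = (β.restrictNormal L)⁻¹ * σ.restrictNormal L := by
      change AlgEquiv.restrictNormalHom L (β⁻¹ * σ) = _
      rw [map_mul, map_inv]
      rfl
    rw [h1, hβL, inv_one, one_mul] at hβσL
    exact hβσL
  have htriv : ∀ g : L ≃ₐ[K] L, g = 1 := by
    intro g
    obtain ⟨σ, rfl⟩ := AlgEquiv.restrictNormalHom_surjective Ω g
    exact hall σ
  have hsub : Subsingleton (L ≃ₐ[K] L) := ⟨fun a b => (htriv a).trans (htriv b).symm⟩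
  have : Nat.card (L ≃ₐ[K] L) = 1 := Nat.card_unique
  rw [hcard] at this
  exact hp.one_lt.ne' this


/-- For `K = ℚ(ζ_p)`, `L/K` Galois of degree `p`, and coprime `n, n'` both prime to `p`: one of
`Φ_n`, `Φ_{n'}` is irreducible over `L` (i.e. `L` is linearly disjoint from `K(ξ_n)` or from
`K(ξ_{n'})` over `K`). -/
theorem irreducible_cyclotomic_or (p : ℕ) [Fact p.Prime] (K L : Type*) [Field K] [Field L]
    [CharZero K] [Algebra K L] [IsCyclotomicExtension {p} ℚ K] [IsGalois K L]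
    (hcard : Nat.card (L ≃ₐ[K] L) = p) (n n' : ℕ) (hn : n ≠ 0) (hn' : n' ≠ 0)
    (hnp : n.Coprime p) (hn'p : n'.Coprime p) (hnn' : n.Coprime n') :
    Irreducible (cyclotomic n L) ∨ Irreducible (cyclotomic n' L) :=
  irreducible_cyclotomic_or_aux hcard n n' hn hn' hnn'
    (irreducible_cyclotomic_of_coprime p K (n * n') (mul_ne_zero hn hn')
      (Nat.Coprime.mul_left hnp hn'p))

end Fermat.Agent.S14_CrossCyc
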