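import Mathlib

/-!
# S14_Defs: shared definitions for Project C (S14, `ExtVanishingCts`)

Number fields `F ⊆ M` are given as types with `[Algebra F M]`; `𝓞 F = NumberField.RingOfIntegers F`.
`Gal(M/F) = M ≃ₐ[F] M` acts on `𝓞 M` (Mathlib instance `RingOfIntegers.instMulSemiringAction`).

* `Unram F M`      : all inertia groups of `M/F` at the nonzero primes of `𝓞 M` are trivial.
* `IsFrob σ q`     : `σ ∈ Gal(M/F)` is a Frobenius element at the prime `q` of `𝓞 F`
                     (at every prime of `𝓞 M` above `q`).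
* `IsSplit M q`    : the prime `q` of `𝓞 F` splits completely in `M`.
* `cls a`          : the class of the ideal `a` of `𝓞 F` in `ClassGroup (𝓞 F)` (`1` for `a = ⊥`).
* `normSubgroup F M` : the subgroup of `ClassGroup (𝓞 F)` generated by the classes of the relative
                     norms of the nonzero ideals of `𝓞 M`.
-/

set_option autoImplicit false

open NumberField
open scoped nonZeroDivisors

noncomputable section

namespace Fermat.Agent.S14_Defs

variable (F M : Type*) [Field F] [NumberField F] [Field M] [NumberField M] [Algebra F M]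

/-- `M/F` is unramified at every finite prime: all inertia groups in `Gal(M/F)` are trivial. -/
def Unram : Prop :=
  ∀ Q : Ideal (𝓞 M), Q.IsPrime → Q ≠ ⊥ → ∀ σ : M ≃ₐ[F] M, (∀ x : 𝓞 M, σ • x - x ∈ Q) → σ = 1

variable {F M} in
/-- `σ ∈ Gal(M/F)` is a Frobenius element at the prime `q` of `𝓞 F`: for EVERY prime `Q` of `𝓞 M`
above `q` and every `x ∈ 𝓞 M`, `σ x ≡ x ^ N(q)  (mod Q)`. -/
def IsFrob (σ : M ≃ₐ[F] M) (q : Ideal (𝓞 F)) : Prop :=
  ∀ Q : Ideal (𝓞 M), Q.IsPrime → Q.under (𝓞 F) = q →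
    ∀ x : 𝓞 M, σ • x - x ^ Nat.card (𝓞 F ⧸ q) ∈ Q

variable {F} in
/-- The prime `q` of `𝓞 F` splits completely in `M`: every prime of `𝓞 M` above `q` has the same
absolute norm as `q`. -/
def IsSplit (q : Ideal (𝓞 F)) : Prop :=
  ∀ Q : Ideal (𝓞 M), Q.IsPrime → Q.under (𝓞 F) = q → Ideal.absNorm Q = Ideal.absNorm q

variable {F} in
/-- The class of an ideal of `𝓞 F` in the class group (`1` for the zero ideal). -/
def cls (a : Ideal (𝓞 F)) : ClassGroup (𝓞 F) :=
  if h : a = ⊥ then 1 else ClassGroup.mk0 ⟨a, mem_nonZeroDivisors_of_ne_zero h⟩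

variable {F}

theorem cls_of_ne {a : Ideal (𝓞 F)} (h : a ≠ ⊥) :
    cls a = ClassGroup.mk0 ⟨a, mem_nonZeroDivisors_of_ne_zero h⟩ := dif_neg h

theorem cls_mk0 (a : (Ideal (𝓞 F))⁰) : cls (a : Ideal (𝓞 F)) = ClassGroup.mk0 a := by
  rw [cls_of_ne (nonZeroDivisors.coe_ne_zero a)]

theorem cls_surjective (c : ClassGroup (𝓞 F)) : ∃ a : Ideal (𝓞 F), a ≠ ⊥ ∧ cls a = c := by
  obtain ⟨a, rfl⟩ := ClassGroup.mk0_surjective c
  exact ⟨a, nonZeroDivisors.coe_ne_zero a, cls_mk0 a⟩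

theorem cls_mul {a b : Ideal (𝓞 F)} (ha : a ≠ ⊥) (hb : b ≠ ⊥) : cls (a * b) = cls a * cls b := by
  rw [cls_of_ne ha, cls_of_ne hb, cls_of_ne (mul_ne_zero ha hb), ← map_mul]
  rfl

theorem cls_pow {a : Ideal (𝓞 F)} (ha : a ≠ ⊥) (n : ℕ) : cls (a ^ n) = cls a ^ n := by
  induction n with
  | zero =>
    rw [pow_zero, pow_zero, Ideal.one_eq_top, cls_of_ne (by simp), ClassGroup.mk0_eq_one_iff]
    exact ⟨⟨1, by simp⟩⟩
  | succ n ih => rw [pow_succ, pow_succ, cls_mul (pow_ne_zero n ha) ha, ih]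

theorem cls_eq_one_iff {a : Ideal (𝓞 F)} (ha : a ≠ ⊥) : cls a = 1 ↔ a.IsPrincipal := by
  rw [cls_of_ne ha, ClassGroup.mk0_eq_one_iff]

variable (F)

/-- The subgroup of `Cl_F` generated by the classes of the relative norms of the nonzero ideals of
`𝓞 M` (it is the range of the norm map on class groups, see `S14_Norm`). -/
def normSubgroup : Subgroup (ClassGroup (𝓞 F)) :=
  Subgroup.closure {c | ∃ A : Ideal (𝓞 M), A ≠ ⊥ ∧ c = cls (Ideal.relNorm (𝓞 F) A)}

theorem cls_relNorm_mem_normSubgroup {A : Ideal (𝓞 M)} (hA : A ≠ ⊥) :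
    cls (Ideal.relNorm (𝓞 F) A) ∈ normSubgroup F M :=
  Subgroup.subset_closure ⟨A, hA, rfl⟩

end Fermat.Agent.S14_Defs

end
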