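import Mathlib
import Fermat.Agent.S14_Defs

/-!
# S14_Frob: Frobenius elements (block FROB of Project C)

Number fields `F ⊆ M` as types with `[Algebra F M]`, vocabulary of `S14_Defs`
(`Unram`, `IsFrob`, `IsSplit`).  Additional vocabulary:

* `IsFrobAt σ Q` : `σ ∈ Gal(M/F)` is a Frobenius element at the single prime `Q` of `𝓞 M`.
* `UnramAway F M n` : the inertia groups of `M/F` at the nonzero primes of `𝓞 M` not containing
  `n` are trivial.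
-/

set_option autoImplicit false
set_option linter.unusedSectionVars false

namespace Fermat.Agent.S14_Frob

open NumberField Fermat.Agent.S14_Defs
open scoped Pointwise

section defs
variable {F M : Type*} [Field F] [NumberField F] [Field M] [NumberField M] [Algebra F M]

/-- `σ ∈ Gal(M/F)` is a Frobenius element at the single prime `Q` of `𝓞 M`
(this is Mathlib's `IsArithFrobAt (𝓞 F) σ Q`, spelled out). -/
def IsFrobAt (σ : M ≃ₐ[F] M) (Q : Ideal (𝓞 M)) : Prop :=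
  ∀ x : 𝓞 M, σ • x - x ^ Nat.card (𝓞 F ⧸ Q.under (𝓞 F)) ∈ Q

variable (F M) in
/-- All inertia groups of `M/F` at the nonzero primes of `𝓞 M` not containing `n` are trivial. -/
def UnramAway (n : ℕ) : Prop :=
  ∀ Q : Ideal (𝓞 M), Q.IsPrime → Q ≠ ⊥ → (n : 𝓞 M) ∉ Q →
    ∀ σ : M ≃ₐ[F] M, (∀ x : 𝓞 M, σ • x - x ∈ Q) → σ = 1

end defs

section single
variable {F M : Type*} [Field F] [NumberField F] [Field M] [NumberField M] [Algebra F M]

theorem isFrob_iff {σ : M ≃ₐ[F] M} {q : Ideal (𝓞 F)} :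
    IsFrob σ q ↔ ∀ Q : Ideal (𝓞 M), Q.IsPrime → Q.under (𝓞 F) = q → IsFrobAt σ Q := by
  constructor
  · intro h Q hQ hQq x
    rw [hQq]
    exact h Q hQ hQq x
  · intro h Q hQ hQq x
    have := h Q hQ hQq x
    rwa [hQq] at this

theorem IsFrob.isFrobAt {σ : M ≃ₐ[F] M} {q : Ideal (𝓞 F)} (h : IsFrob σ q) (Q : Ideal (𝓞 M))
    [hQ : Q.IsPrime] (hQq : Q.under (𝓞 F) = q) : IsFrobAt σ Q :=
  isFrob_iff.mp h Q hQ hQq

theorem isFrobAt_iff_isArithFrobAt [IsGalois F M] {σ : M ≃ₐ[F] M} {Q : Ideal (𝓞 M)} :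
    IsFrobAt σ Q ↔ IsArithFrobAt (𝓞 F) σ Q := Iff.rfl

theorem Unram.unramAway (h : Unram F M) (n : ℕ) : UnramAway F M n :=
  fun Q hQ hQ0 _ σ hσ => h Q hQ hQ0 σ hσ

theorem unramAway_one_iff : UnramAway F M 1 ↔ Unram F M := by
  refine ⟨fun h Q hQ hQ0 σ hσ => h Q hQ hQ0 ?_ σ hσ, fun h => Unram.unramAway h 1⟩
  rw [Nat.cast_one]
  exact fun h1 => hQ.ne_top ((Ideal.eq_top_iff_one Q).mpr h1)

/-- A nonzero prime of `𝓞 M` has finite residue ring. -/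
theorem finite_quotient (Q : Ideal (𝓞 M)) (hQ : Q ≠ ⊥) : Finite (𝓞 M ⧸ Q) :=
  Ideal.finiteQuotientOfFreeOfNeBot Q hQ

/-- There is a prime of `𝓞 M` above every prime of `𝓞 F`. -/
theorem exists_prime_over (q : Ideal (𝓞 F)) [q.IsPrime] :
    ∃ Q : Ideal (𝓞 M), Q.IsPrime ∧ Q.under (𝓞 F) = q := by
  obtain ⟨Q, hQ, hQq⟩ := Ideal.exists_ideal_over_prime_of_isIntegral q (⊥ : Ideal (𝓞 M))
    (by simp [Ideal.comap_bot_of_injective _ (FaithfulSMul.algebraMap_injective (𝓞 F) (𝓞 M))])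
  exact ⟨Q, hQq.1, hQq.2⟩

theorem ne_bot_of_under_ne_bot {Q : Ideal (𝓞 M)} (h : Q.under (𝓞 F) ≠ ⊥) : Q ≠ ⊥ := by
  rintro rfl
  exact h (by simp [Ideal.under, Ideal.comap_bot_of_injective _
    (FaithfulSMul.algebraMap_injective (𝓞 F) (𝓞 M))])

theorem under_ne_bot {Q : Ideal (𝓞 M)} [Q.IsPrime] (h : Q ≠ ⊥) : Q.under (𝓞 F) ≠ ⊥ := by
  exact Ideal.IsIntegral.comap_ne_bot (𝓞 F) h


/-- (F1) existence at one prime (Galois). -/
theorem exists_isFrobAt (F M : Type*) [Field F] [NumberField F] [Field M] [NumberField M]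
    [Algebra F M] [IsGalois F M] (Q : Ideal (𝓞 M)) [Q.IsPrime] (hQ : Q ≠ ⊥) :
    ∃ σ : M ≃ₐ[F] M, IsFrobAt σ Q := by
  have := finite_quotient Q hQ
  exact IsArithFrobAt.exists_of_isInvariant (𝓞 F) (M ≃ₐ[F] M) Q

/-- (F1) abelian: a Frobenius at one prime is a Frobenius at all primes over the same prime. -/
theorem IsFrobAt.isFrob [IsGalois F M] (hab : ∀ σ τ : M ≃ₐ[F] M, σ * τ = τ * σ)
    {σ : M ≃ₐ[F] M} {Q : Ideal (𝓞 M)} [Q.IsPrime] (h : IsFrobAt σ Q) :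
    IsFrob σ (Q.under (𝓞 F)) := by
  rw [isFrob_iff]
  intro Q' hQ' hQQ'
  obtain ⟨ρ, rfl⟩ := Algebra.IsInvariant.exists_smul_of_under_eq (𝓞 F) (𝓞 M) (M ≃ₐ[F] M) Q Q'
    hQQ'.symm
  have h2 : IsArithFrobAt (𝓞 F) (ρ * σ * ρ⁻¹) (ρ • Q) := IsArithFrobAt.conj h ρ
  rwa [hab ρ σ, mul_inv_cancel_right] at h2

/-- (F1) existence (abelian). -/
theorem exists_isFrob (F M : Type*) [Field F] [NumberField F] [Field M] [NumberField M]
    [Algebra F M] [IsGalois F M] (hab : ∀ σ τ : M ≃ₐ[F] M, σ * τ = τ * σ) (q : Ideal (𝓞 F))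
    [q.IsPrime] (hq : q ≠ ⊥) : ∃ σ : M ≃ₐ[F] M, IsFrob σ q := by
  obtain ⟨Q, hQ, rfl⟩ := exists_prime_over (M := M) q
  obtain ⟨σ, hσ⟩ := exists_isFrobAt F M Q (ne_bot_of_under_ne_bot hq)
  exact ⟨σ, hσ.isFrob hab⟩

/-- (F1) uniqueness at a prime with trivial inertia. -/
theorem IsFrobAt.unique {σ τ : M ≃ₐ[F] M} {Q : Ideal (𝓞 M)}
    (hQ : ∀ ρ : M ≃ₐ[F] M, (∀ x : 𝓞 M, ρ • x - x ∈ Q) → ρ = 1)
    (hσ : IsFrobAt σ Q) (hτ : IsFrobAt τ Q) : σ = τ := by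
  have h1 : σ * τ⁻¹ = 1 := by
    apply hQ
    intro x
    have h2 := sub_mem (hσ (τ⁻¹ • x)) (hτ (τ⁻¹ • x))
    rw [sub_sub_sub_cancel_right, smul_inv_smul] at h2
    rwa [mul_smul]
  exact mul_inv_eq_one.mp h1

/-- (F1) uniqueness (unramified away from `n`, `q ∤ n`). -/
theorem IsFrob.unique_of_unramAway {n : ℕ} (hunr : UnramAway F M n) {q : Ideal (𝓞 F)}
    [q.IsPrime] (hq : q ≠ ⊥) (hn : (n : 𝓞 F) ∉ q) {σ τ : M ≃ₐ[F] M} (hσ : IsFrob σ q)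
    (hτ : IsFrob τ q) : σ = τ := by
  obtain ⟨Q, hQ, hQq⟩ := exists_prime_over (M := M) q
  have hQ0 : Q ≠ ⊥ := ne_bot_of_under_ne_bot (hQq ▸ hq)
  have hnQ : (n : 𝓞 M) ∉ Q := by
    intro hmem
    apply hn
    rw [← hQq, Ideal.under, Ideal.mem_comap, map_natCast]
    exact hmem
  exact IsFrobAt.unique (hunr Q hQ hQ0 hnQ) (IsFrob.isFrobAt hσ Q hQq) (IsFrob.isFrobAt hτ Q hQq)

/-- (F1) uniqueness (everywhere unramified). -/
theorem IsFrob.unique [IsGalois F M] (hunr : Unram F M) {q : Ideal (𝓞 F)} [q.IsPrime]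
    (hq : q ≠ ⊥) {σ τ : M ≃ₐ[F] M} (hσ : IsFrob σ q) (hτ : IsFrob τ q) : σ = τ := by
  obtain ⟨Q, hQ, hQq⟩ := exists_prime_over (M := M) q
  have hQ0 : Q ≠ ⊥ := ne_bot_of_under_ne_bot (hQq ▸ hq)
  exact IsFrobAt.unique (hunr Q hQ hQ0) (IsFrob.isFrobAt hσ Q hQq) (IsFrob.isFrobAt hτ Q hQq)

/-- The action of `σ` on `𝓞 M` as an `𝓞 F`-algebra homomorphism. -/
noncomputable def intHom (σ : M ≃ₐ[F] M) : 𝓞 M →ₐ[𝓞 F] 𝓞 M :=
  (RingOfIntegers.mapAlgEquiv σ).toAlgHom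

theorem intHom_apply (σ : M ≃ₐ[F] M) (x : 𝓞 M) : intHom σ x = σ • x := rfl

theorem isFrobAt_iff_intHom {σ : M ≃ₐ[F] M} {Q : Ideal (𝓞 M)} :
    IsFrobAt σ Q ↔ (intHom σ).IsArithFrobAt Q := Iff.rfl

theorem IsFrobAt.apply_of_pow_eq_one {σ : M ≃ₐ[F] M} {Q : Ideal (𝓞 M)} [Q.IsPrime]
    (hσ : IsFrobAt σ Q) {ξ : M} {m : ℕ} (hξ : ξ ^ m = 1) (hm : (m : 𝓞 M) ∉ Q) :
    σ ξ = ξ ^ Nat.card (𝓞 F ⧸ Q.under (𝓞 F)) := by
  have hm0 : m ≠ 0 := by
    rintro rfl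
    exact hm (by simp)
  have hint : IsIntegral ℤ ξ :=
    IsIntegral.of_pow (Nat.pos_of_ne_zero hm0) (by rw [hξ]; exact isIntegral_one)
  set ξ' : 𝓞 M := ⟨ξ, hint⟩ with hξ'
  have hc : algebraMap (𝓞 M) M ξ' = ξ := rfl
  have h1 : ξ' ^ m = 1 := by
    apply RingOfIntegers.ext
    show algebraMap (𝓞 M) M (ξ' ^ m) = algebraMap (𝓞 M) M 1
    rw [map_pow, map_one, hc, hξ]
  have h2 := (isFrobAt_iff_intHom.mp hσ).apply_of_pow_eq_one h1 hm
  have h3 : algebraMap (𝓞 M) M (intHom σ ξ') =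
      algebraMap (𝓞 M) M (ξ' ^ Nat.card (𝓞 F ⧸ Q.under (𝓞 F))) := congrArg _ h2
  rw [map_pow, hc] at h3
  exact h3

/-- (F4) roots of unity. -/
theorem IsFrob.apply_of_pow_eq_one {σ : M ≃ₐ[F] M} {q : Ideal (𝓞 F)} [q.IsPrime]
    (hσ : IsFrob σ q) {ξ : M} {m : ℕ} (hξ : ξ ^ m = 1) (hm : (m : 𝓞 F) ∉ q) :
    σ ξ = ξ ^ Ideal.absNorm q := by
  obtain ⟨Q, hQ, hQq⟩ := exists_prime_over (M := M) q
  have hmQ : (m : 𝓞 M) ∉ Q := by
    intro hmem
    apply hm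
    rw [← hQq, Ideal.under, Ideal.mem_comap, map_natCast]
    exact hmem
  have h := (IsFrob.isFrobAt hσ Q hQq).apply_of_pow_eq_one hξ hmQ
  rw [hQq] at h
  exact h

/-- The residue ring at a nonzero prime `Q` has as many elements as the one below iff all its
elements are fixed by the `N(q)`-th power map. -/
theorem absNorm_eq_iff_forall_pow (q : Ideal (𝓞 F)) [q.IsPrime] (hq : q ≠ ⊥)
    (Q : Ideal (𝓞 M)) [Q.IsPrime] (hQq : Q.under (𝓞 F) = q) :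
    Ideal.absNorm Q = Ideal.absNorm q ↔ ∀ x : 𝓞 M, x - x ^ Nat.card (𝓞 F ⧸ q) ∈ Q := by
  have hQ0 : Q ≠ ⊥ := ne_bot_of_under_ne_bot (hQq ▸ hq)
  have hqmax : q.IsMaximal := Ring.DimensionLEOne.maximalOfPrime hq inferInstance
  have hQmax : Q.IsMaximal := Ring.DimensionLEOne.maximalOfPrime hQ0 inferInstance
  have : Q.LiesOver q := ⟨hQq.symm⟩
  have : Finite (𝓞 F ⧸ q) := Ideal.finiteQuotientOfFreeOfNeBot q hq
  have : Finite (𝓞 M ⧸ Q) := Ideal.finiteQuotientOfFreeOfNeBot Q hQ0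
  have : Fintype (𝓞 F ⧸ q) := Fintype.ofFinite _
  have : Fintype (𝓞 M ⧸ Q) := Fintype.ofFinite _
  let _ := Ideal.Quotient.field q
  let _ := Ideal.Quotient.field Q
  have hcardq : Ideal.absNorm q = Nat.card (𝓞 F ⧸ q) := rfl
  have hcardQ : Ideal.absNorm Q = Nat.card (𝓞 M ⧸ Q) := rfl
  have hle : Nat.card (𝓞 F ⧸ q) ≤ Nat.card (𝓞 M ⧸ Q) :=
    Nat.card_le_card_of_injective (algebraMap (𝓞 F ⧸ q) (𝓞 M ⧸ Q))
      (algebraMap (𝓞 F ⧸ q) (𝓞 M ⧸ Q)).injective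
  have h1 : 1 < Nat.card (𝓞 F ⧸ q) := by
    rw [Nat.card_eq_fintype_card]; exact Fintype.one_lt_card
  rw [hcardq, hcardQ]
  constructor
  · intro h x
    rw [← Ideal.Quotient.eq, map_pow, ← h, Nat.card_eq_fintype_card, FiniteField.pow_card]
  · intro h
    classical
    apply le_antisymm _ hle
    set N := Nat.card (𝓞 F ⧸ q) with hN
    have hroots : ∀ y : 𝓞 M ⧸ Q, y ∈ (Polynomial.X ^ N - Polynomial.X : Polynomial (𝓞 M ⧸ Q)).roots := by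
      intro y
      obtain ⟨x, rfl⟩ := Ideal.Quotient.mk_surjective y
      rw [Polynomial.mem_roots (FiniteField.X_pow_card_sub_X_ne_zero _ h1)]
      simp only [Polynomial.IsRoot, Polynomial.eval_sub, Polynomial.eval_pow, Polynomial.eval_X]
      rw [← map_pow, ← map_sub, Ideal.Quotient.eq_zero_iff_mem]
      have := Q.neg_mem (h x)
      rwa [neg_sub] at this
    calc Nat.card (𝓞 M ⧸ Q) = (Finset.univ : Finset (𝓞 M ⧸ Q)).card := by
          rw [Nat.card_eq_fintype_card, Finset.card_univ]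
      _ ≤ (Polynomial.X ^ N - Polynomial.X : Polynomial (𝓞 M ⧸ Q)).roots.toFinset.card := by
          exact Finset.card_le_card (fun y _ => Multiset.mem_toFinset.mpr (hroots y))
      _ ≤ (Polynomial.X ^ N - Polynomial.X : Polynomial (𝓞 M ⧸ Q)).roots.card :=
          Multiset.toFinset_card_le _
      _ ≤ (Polynomial.X ^ N - Polynomial.X : Polynomial (𝓞 M ⧸ Q)).natDegree :=
          Polynomial.card_roots' _
      _ = N := FiniteField.X_pow_card_sub_X_natDegree_eq _ h1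

/-- (F5) -/
theorem isFrob_one_iff_isSplit (q : Ideal (𝓞 F)) [q.IsPrime] (hq : q ≠ ⊥) :
    IsFrob (1 : M ≃ₐ[F] M) q ↔ IsSplit M q := by
  constructor
  · intro h Q hQ hQq
    rw [absNorm_eq_iff_forall_pow q hq Q hQq]
    intro x
    simpa using h Q hQ hQq x
  · intro h Q hQ hQq x
    have := (absNorm_eq_iff_forall_pow q hq Q hQq).mp (h Q hQ hQq) x
    simpa using this

/-- (F5) a split prime is the relative norm of every prime above it. -/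
theorem IsSplit.relNorm_eq {q : Ideal (𝓞 F)} [q.IsPrime] (hq : q ≠ ⊥) (h : IsSplit M q)
    (Q : Ideal (𝓞 M)) [Q.IsPrime] (hQ : Q.under (𝓞 F) = q) : Ideal.relNorm (𝓞 F) Q = q := by
  have hQ0 : Q ≠ ⊥ := ne_bot_of_under_ne_bot (hQ ▸ hq)
  have hqmax : q.IsMaximal := Ring.DimensionLEOne.maximalOfPrime hq inferInstance
  have hQmax : Q.IsMaximal := Ring.DimensionLEOne.maximalOfPrime hQ0 inferInstance
  have : Q.LiesOver q := ⟨hQ.symm⟩
  have h1 := Ideal.relNorm_eq_pow_of_isMaximal Q q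
  have h2 := Ideal.absNorm_relNorm (𝓞 F) (𝓞 M) Q
  rw [h1, map_pow, h Q inferInstance hQ] at h2
  have h3 : 1 < Ideal.absNorm q := by
    have : Ideal.absNorm q ≠ 1 := fun h => hqmax.ne_top (Ideal.absNorm_eq_one_iff.mp h)
    have : Ideal.absNorm q ≠ 0 := fun h => hq (Ideal.absNorm_eq_zero_iff.mp h)
    omega
  have h4 : Q.inertiaDeg (𝓞 F) = 1 := by
    have := Nat.pow_right_injective h3 (h2.trans (pow_one _).symm)
    exact this
  rw [h1, h4, pow_one]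

theorem coe_algebraMap (y : 𝓞 F) :
    ((algebraMap (𝓞 F) (𝓞 M) y : 𝓞 M) : M) = algebraMap F M (y : F) := rfl

/-- Two automorphisms congruent modulo a prime with trivial inertia are equal. -/
theorem eq_of_forall_sub_mem {σ τ : M ≃ₐ[F] M} {Q : Ideal (𝓞 M)}
    (hQ : ∀ ρ : M ≃ₐ[F] M, (∀ x : 𝓞 M, ρ • x - x ∈ Q) → ρ = 1)
    (h : ∀ x : 𝓞 M, σ • x - τ • x ∈ Q) : σ = τ := by
  have h1 : σ * τ⁻¹ = 1 := by
    apply hQ
    intro x
    have h2 := h (τ⁻¹ • x)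
    rwa [smul_inv_smul, ← mul_smul] at h2
  exact mul_inv_eq_one.mp h1

/-- powers of a Frobenius -/
theorem IsFrobAt.pow_apply {σ : M ≃ₐ[F] M} {Q : Ideal (𝓞 M)} (hσ : IsFrobAt σ Q) (f : ℕ)
    (x : 𝓞 M) : (σ ^ f) • x - x ^ (Nat.card (𝓞 F ⧸ Q.under (𝓞 F)) ^ f) ∈ Q := by
  induction f generalizing x with
  | zero => simp
  | succ k ih =>
    set N := Nat.card (𝓞 F ⧸ Q.under (𝓞 F)) with hN
    have h1 : (σ ^ (k + 1)) • x = σ • ((σ ^ k) • x) := by rw [pow_succ', mul_smul]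
    have h2 : x ^ N ^ (k + 1) = (x ^ N ^ k) ^ N := by rw [← pow_mul, pow_succ]
    rw [h1, h2]
    have h3 := hσ ((σ ^ k) • x)
    have h4 : ((σ ^ k) • x) ^ N - (x ^ N ^ k) ^ N ∈ Q :=
      Q.mem_of_dvd (sub_dvd_pow_sub_pow _ _ N) (ih x)
    have := Q.add_mem h3 h4
    rwa [sub_add_sub_cancel] at this


end single

section tower
variable {F E M : Type*} [Field F] [NumberField F] [Field E] [NumberField E] [Field M]
  [NumberField M] [Algebra F E] [Algebra E M] [Algebra F M] [IsScalarTower F E M]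

/-- (F2) restriction to a subextension, one prime. -/
theorem IsFrobAt.restrict {φ : M ≃ₐ[F] M} {σ : E ≃ₐ[F] E}
    (hres : ∀ x : E, algebraMap E M (σ x) = φ (algebraMap E M x)) {Q : Ideal (𝓞 M)}
    (hφ : IsFrobAt φ Q) : IsFrobAt σ (Q.under (𝓞 E)) := by
  intro x
  rw [Ideal.under_under, Ideal.under, Ideal.mem_comap, map_sub, map_pow]
  have h1 : algebraMap (𝓞 E) (𝓞 M) (σ • x) = φ • algebraMap (𝓞 E) (𝓞 M) x := by
    apply RingOfIntegers.ext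
    rw [coe_algebraMap]
    exact (hres x).trans (congrArg φ (coe_algebraMap x).symm)
  rw [h1]
  exact hφ _

/-- (F2) restriction to a subextension. -/
theorem IsFrob.restrict {φ : M ≃ₐ[F] M} {σ : E ≃ₐ[F] E}
    (hres : ∀ x : E, algebraMap E M (σ x) = φ (algebraMap E M x)) {q : Ideal (𝓞 F)}
    (hφ : IsFrob φ q) : IsFrob σ q := by
  rw [isFrob_iff] at hφ ⊢
  intro P hP hPq
  obtain ⟨Q, hQ, rfl⟩ := exists_prime_over (M := M) P
  exact IsFrobAt.restrict hres (hφ Q hQ (by rw [← hPq, Ideal.under_under]))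

theorem IsFrob.restrictNormal [Normal F E] {φ : M ≃ₐ[F] M} {q : Ideal (𝓞 F)}
    (hφ : IsFrob φ q) : IsFrob (φ.restrictNormal E) q :=
  IsFrob.restrict (fun x => φ.restrictNormal_commutes E x) hφ

/-- (F3) tower, one prime. -/
theorem IsFrobAt.of_tower {σ : M ≃ₐ[F] M} {Q : Ideal (𝓞 M)} (hσ : IsFrobAt σ Q) {f : ℕ}
    (hf : Nat.card (𝓞 E ⧸ Q.under (𝓞 E)) = Nat.card (𝓞 F ⧸ Q.under (𝓞 F)) ^ f)
    {τ : M ≃ₐ[E] M} (hτ : ∀ x : M, τ x = (σ ^ f) x) : IsFrobAt τ Q := by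
  intro x
  rw [hf]
  have h1 : τ • x = (σ ^ f) • x := RingOfIntegers.ext (hτ x)
  rw [h1]
  exact hσ.pow_apply f x

/-- (F3) tower: `Frob_P(M/E) = Frob_q(M/F) ^ f` when `N P = N q ^ f`. -/
theorem IsFrob.of_tower {σ : M ≃ₐ[F] M} {q : Ideal (𝓞 F)} (hσ : IsFrob σ q)
    {P : Ideal (𝓞 E)} (hP : P.under (𝓞 F) = q) {f : ℕ}
    (hf : Ideal.absNorm P = Ideal.absNorm q ^ f)
    {τ : M ≃ₐ[E] M} (hτ : ∀ x : M, τ x = (σ ^ f) x) : IsFrob τ P := by
  rw [isFrob_iff] at hσ ⊢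
  intro Q hQ hQP
  have hQq : Q.under (𝓞 F) = q := by rw [← hP, ← hQP, Ideal.under_under]
  refine IsFrobAt.of_tower (hσ Q hQ hQq) ?_ hτ
  rw [hQP, hQq]
  exact hf

/-- (F3) converse: the Frobenius of `P` in `M/E` IS `Frob_q(M/F) ^ f` (unramified away from `n`). -/
theorem IsFrob.eq_pow_of_tower {n : ℕ} (hun : UnramAway F M n) {σ : M ≃ₐ[F] M}
    {q : Ideal (𝓞 F)} (hσ : IsFrob σ q) {P : Ideal (𝓞 E)} [P.IsPrime] (hP0 : P ≠ ⊥)
    (hn : (n : 𝓞 E) ∉ P) (hP : P.under (𝓞 F) = q) {f : ℕ}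
    (hf : Ideal.absNorm P = Ideal.absNorm q ^ f) {τ : M ≃ₐ[E] M} (hτ : IsFrob τ P) (x : M) :
    τ x = (σ ^ f) x := by
  obtain ⟨Q, hQ, hQP⟩ := exists_prime_over (M := M) P
  have hQq : Q.under (𝓞 F) = q := by rw [← hP, ← hQP, Ideal.under_under]
  have hQ0 : Q ≠ ⊥ := ne_bot_of_under_ne_bot (hQP ▸ hP0)
  have hnQ : (n : 𝓞 M) ∉ Q := by
    intro hmem
    apply hn
    rw [← hQP, Ideal.under, Ideal.mem_comap, map_natCast]
    exact hmem
  have hσQ := (isFrob_iff.mp hσ) Q hQ hQq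
  have hτQ := (isFrob_iff.mp hτ) Q hQ hQP
  have key : τ.restrictScalars F = σ ^ f := by
    apply eq_of_forall_sub_mem (hun Q hQ hQ0 hnQ)
    intro y
    have h1 := hσQ.pow_apply f y
    have h2 := hτQ y
    rw [hQP] at h2
    have hc : Nat.card (𝓞 E ⧸ P) = Nat.card (𝓞 F ⧸ Q.under (𝓞 F)) ^ f := by
      rw [hQq]; exact hf
    rw [hc] at h2
    have h3 : (τ.restrictScalars F) • y = τ • y := RingOfIntegers.ext rfl
    rw [h3]
    have := Q.sub_mem h2 h1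
    rwa [sub_sub_sub_cancel_right] at this
  rw [← key]
  rfl

/-- (F3) converse, as an equality in `Gal(M/F)`. -/
theorem IsFrob.restrictScalars_eq_pow {n : ℕ} (hun : UnramAway F M n) {σ : M ≃ₐ[F] M}
    {q : Ideal (𝓞 F)} (hσ : IsFrob σ q) {P : Ideal (𝓞 E)} [P.IsPrime] (hP0 : P ≠ ⊥)
    (hn : (n : 𝓞 E) ∉ P) (hP : P.under (𝓞 F) = q) {f : ℕ}
    (hf : Ideal.absNorm P = Ideal.absNorm q ^ f) {τ : M ≃ₐ[E] M} (hτ : IsFrob τ P) :
    τ.restrictScalars F = σ ^ f :=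
  AlgEquiv.ext fun x => IsFrob.eq_pow_of_tower hun hσ hP0 hn hP hf hτ x

/-- (F5) if a Frobenius of `q` in `M/F` fixes `E` pointwise then `q` splits completely in `E`. -/
theorem IsFrob.isSplit_of_fixes {σ : M ≃ₐ[F] M} {q : Ideal (𝓞 F)} [q.IsPrime] (hq : q ≠ ⊥)
    (hσ : IsFrob σ q) (hfix : ∀ e : E, σ (algebraMap E M e) = algebraMap E M e) :
    IsSplit E q := by
  intro P hP hPq
  rw [absNorm_eq_iff_forall_pow q hq P hPq]
  intro x
  obtain ⟨Q, hQ, hQP⟩ := exists_prime_over (M := M) P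
  have hQq : Q.under (𝓞 F) = q := by rw [← hPq, ← hQP, Ideal.under_under]
  have h1 := hσ Q hQ hQq (algebraMap (𝓞 E) (𝓞 M) x)
  have h2 : σ • algebraMap (𝓞 E) (𝓞 M) x = algebraMap (𝓞 E) (𝓞 M) x :=
    RingOfIntegers.ext (hfix (x : E))
  rw [h2, ← map_pow, ← map_sub] at h1
  rw [← hQP]
  exact h1

/-- (F5)+(F3), `f = 1`: if the Frobenius `σ` of `q` in `M/F` is `E`-linear (`τ`), then every
prime `P` of `E` over `q` has the norm of `q` and `τ` is its Frobenius in `M/E`. -/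
theorem IsFrob.of_fixes {σ : M ≃ₐ[F] M} {q : Ideal (𝓞 F)} [q.IsPrime] (hq : q ≠ ⊥)
    (hσ : IsFrob σ q) {τ : M ≃ₐ[E] M} (hτ : ∀ x : M, τ x = σ x) {P : Ideal (𝓞 E)} [hP' : P.IsPrime]
    (hP : P.under (𝓞 F) = q) : Ideal.absNorm P = Ideal.absNorm q ∧ IsFrob τ P := by
  have hfix : ∀ e : E, σ (algebraMap E M e) = algebraMap E M e := by
    intro e
    rw [← hτ]
    exact τ.commutes e
  have h1 : Ideal.absNorm P = Ideal.absNorm q := IsFrob.isSplit_of_fixes hq hσ hfix P hP' hP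
  refine ⟨h1, IsFrob.of_tower hσ hP (f := 1) (by rw [pow_one]; exact h1) ?_⟩
  intro x
  rw [pow_one]
  exact hτ x

end tower

section conj
/-- (F6) conjugation: `τ = s σ s⁻¹`, `q' = s(q)`. -/
theorem IsFrob.conj {F₀ F M : Type*} [Field F₀] [Field F] [NumberField F] [Field M]
    [NumberField M] [Algebra F₀ F] [Algebra F M] [Algebra F₀ M] [IsScalarTower F₀ F M]
    [Normal F₀ F] (s : M ≃ₐ[F₀] M) (σ τ : M ≃ₐ[F] M) (hτ : ∀ x : M, τ x = s (σ (s.symm x)))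
    (q q' : Ideal (𝓞 F))
    (hq' : ∀ y : 𝓞 F, y ∈ q' ↔ ∃ x ∈ q, algebraMap F M (y : F) = s (algebraMap F M (x : F)))
    (hσ : IsFrob σ q) : IsFrob τ q' := by
  -- the restriction of `s` to `F`, acting on `𝓞 F`
  set sF : F ≃ₐ[F₀] F := s.restrictNormal F with hsF
  have hcomm : ∀ y : 𝓞 F, s • (algebraMap (𝓞 F) (𝓞 M) y) = algebraMap (𝓞 F) (𝓞 M) (sF • y) := by
    intro y
    apply RingOfIntegers.ext
    exact (s.restrictNormal_commutes F (y : F)).symm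
  have hinj : Function.Injective (algebraMap F M) := (algebraMap F M).injective
  -- `q' = sF • q` elementwise
  have hq'' : ∀ y : 𝓞 F, y ∈ q' ↔ sF⁻¹ • y ∈ q := by
    intro y
    rw [hq']
    constructor
    · rintro ⟨x, hx, hxy⟩
      have h1 : (y : F) = sF (x : F) := by
        apply hinj
        rw [hxy]
        exact (s.restrictNormal_commutes F (x : F)).symm
      have h2 : sF⁻¹ • y = x := by
        apply RingOfIntegers.ext
        show sF⁻¹ (y : F) = (x : F)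
        rw [h1]
        exact sF.symm_apply_apply _
      rw [h2]; exact hx
    · intro h
      refine ⟨sF⁻¹ • y, h, ?_⟩
      have h1 : ((sF⁻¹ • y : 𝓞 F) : F) = sF⁻¹ (y : F) := rfl
      rw [h1, ← s.restrictNormal_commutes F]
      congr 1
      exact (sF.apply_symm_apply _).symm
  -- cardinalities of the residue rings agree
  have hcard : Nat.card (𝓞 F ⧸ q') = Nat.card (𝓞 F ⧸ q) := by
    let e : 𝓞 F ≃+* 𝓞 F := MulSemiringAction.toRingEquiv (F ≃ₐ[F₀] F) (𝓞 F) sF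
    have hmap : q' = q.map (e : 𝓞 F →+* 𝓞 F) := by
      ext y
      have h1 : q.map (e : 𝓞 F →+* 𝓞 F) = q.comap (e.symm : 𝓞 F →+* 𝓞 F) :=
        (Ideal.comap_symm e).symm
      rw [hq'' y, h1, Ideal.mem_comap]
      rfl
    exact (Nat.card_congr (Ideal.quotientEquiv q q' e hmap).toEquiv).symm
  intro Q' hQ' hQ'q' x
  -- the prime `Q = s⁻¹ Q'`
  let sM : 𝓞 M ≃+* 𝓞 M := MulSemiringAction.toRingEquiv (M ≃ₐ[F₀] M) (𝓞 M) s
  set Q : Ideal (𝓞 M) := Q'.comap (sM : 𝓞 M →+* 𝓞 M) with hQdef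
  have hQprime : Q.IsPrime := Ideal.comap_isPrime _ _
  have hQq : Q.under (𝓞 F) = q := by
    ext y
    rw [Ideal.under, Ideal.mem_comap, hQdef, Ideal.mem_comap]
    have h1 : (sM : 𝓞 M →+* 𝓞 M) (algebraMap (𝓞 F) (𝓞 M) y) = algebraMap (𝓞 F) (𝓞 M) (sF • y) :=
      hcomm y
    rw [h1, ← Ideal.mem_comap, ← Ideal.under, hQ'q', hq'' (sF • y), inv_smul_smul]
  have h2 := hσ Q hQprime hQq (s⁻¹ • x)
  rw [hQdef, Ideal.mem_comap, map_sub, map_pow] at h2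
  have h3 : (sM : 𝓞 M →+* 𝓞 M) (s⁻¹ • x) = x := by
    show s • (s⁻¹ • x) = x
    rw [smul_inv_smul]
  have h4 : (sM : 𝓞 M →+* 𝓞 M) (σ • (s⁻¹ • x)) = τ • x := by
    apply RingOfIntegers.ext
    show s (σ (s⁻¹ (x : M))) = τ (x : M)
    rw [hτ]
    rfl
  rw [h3, h4] at h2
  rw [hcard]
  exact h2

end conj

end Fermat.Agent.S14_Frob
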