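import Mathlib
import Fermat.Agent.S14_Defs
import Fermat.Agent.S14_Frob

/-!
# S14_FrobB: transfer of unramifiedness (block FROB, part (F7) of Project C)

* `Unram.tower_top`, `UnramAway.tower_top` : `F ⊆ E ⊆ M`, `M/F` unramified ⇒ `M/E` unramified.
* `Unram.fixes_of_inertia` : the inertia groups of `M/F` fix an unramified subextension `E/F`.
* `unram_of_inertia_fixes` : conversely, `E/F` is unramified if all inertia groups of `M/F`
  fix `E` pointwise.
* `Unram.base_change` : `M/F` unramified, `M' = M·F'` ⇒ `M'/F'` unramified.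
* `Unram.unramAway_of_root` : `M/F` unramified, `M' = M(ξ)`, `ξ ^ n = 1` ⇒ `M'/F` unramified
  away from `n`.
-/

set_option autoImplicit false
set_option linter.unusedSectionVars false

namespace Fermat.Agent.S14_Frob

open NumberField Fermat.Agent.S14_Defs
open scoped Pointwise

section roots
variable {S : Type*} [CommRing S] [IsDomain S]

/-- Two `n`-th roots of unity which are congruent modulo a prime not containing `n` are equal. -/
theorem eq_of_pow_eq_one_of_sub_mem {Q : Ideal S} [Q.IsPrime] {n : ℕ} (hn : (n : S) ∉ Q)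
    {ζ η : S} (hζ : ζ ^ n = 1) (hη : η ^ n = 1) (h : ζ - η ∈ Q) : ζ = η := by
  by_contra hne
  have h1 : (∑ i ∈ Finset.range n, ζ ^ i * η ^ (n - 1 - i)) * (ζ - η) = 0 := by
    rw [(Commute.all ζ η).geom_sum₂_mul, hζ, hη, sub_self]
  have h2 : ∑ i ∈ Finset.range n, ζ ^ i * η ^ (n - 1 - i) = 0 := by
    rcases mul_eq_zero.mp h1 with h2 | h2
    · exact h2
    · exact absurd (sub_eq_zero.mp h2) hne
  have hmk : Ideal.Quotient.mk Q ζ = Ideal.Quotient.mk Q η := Ideal.Quotient.eq.mpr h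
  have h3 := congrArg (Ideal.Quotient.mk Q) h2
  rw [map_sum, map_zero] at h3
  have h4 : ∀ i ∈ Finset.range n, Ideal.Quotient.mk Q (ζ ^ i * η ^ (n - 1 - i)) =
      (Ideal.Quotient.mk Q η) ^ (n - 1) := by
    intro i hi
    rw [map_mul, map_pow, map_pow, hmk, ← pow_add]
    congr 1
    have := Finset.mem_range.mp hi
    omega
  rw [Finset.sum_congr rfl h4, Finset.sum_const, Finset.card_range, nsmul_eq_mul] at h3
  have hn0 : n ≠ 0 := by
    rintro rfl
    exact hn (by simp)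
  have h5 : (Ideal.Quotient.mk Q η) ^ (n - 1) * Ideal.Quotient.mk Q η = 1 := by
    rw [← pow_succ, Nat.sub_add_cancel (Nat.pos_of_ne_zero hn0), ← map_pow, hη, map_one]
  have h6 : ((n : ℕ) : S ⧸ Q) = 0 := by
    have := congrArg (· * Ideal.Quotient.mk Q η) h3
    simp only [mul_assoc, h5, mul_one, zero_mul] at this
    exact this
  apply hn
  rw [← Ideal.Quotient.eq_zero_iff_mem, map_natCast]
  exact h6

end roots

section tower
variable {F E M : Type*} [Field F] [NumberField F] [Field E] [NumberField E] [Field M]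
  [NumberField M] [Algebra F E] [Algebra E M] [Algebra F M] [IsScalarTower F E M]

/-- (F7) top of a tower. -/
theorem UnramAway.tower_top {n : ℕ} (h : UnramAway F M n) : UnramAway E M n := by
  intro Q hQ hQ0 hn τ hτ
  have h1 : τ.restrictScalars F = 1 := by
    apply h Q hQ hQ0 hn
    intro x
    have h2 : (τ.restrictScalars F) • x = τ • x := RingOfIntegers.ext rfl
    rw [h2]
    exact hτ x
  ext x
  have := congrArg (fun ρ : M ≃ₐ[F] M => ρ x) h1
  exact this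

/-- (F7) top of a tower. -/
theorem Unram.tower_top (h : Unram F M) : Unram E M := by
  rw [← unramAway_one_iff] at h ⊢
  exact UnramAway.tower_top h

/-- (F7) inertia of `M/F` acts trivially on an unramified subextension `E/F`. -/
theorem Unram.fixes_of_inertia [Normal F E] (hunr : Unram F E) {Q : Ideal (𝓞 M)} [Q.IsPrime]
    (hQ : Q ≠ ⊥) {σ : M ≃ₐ[F] M} (hσ : ∀ x : 𝓞 M, σ • x - x ∈ Q) (e : E) :
    σ (algebraMap E M e) = algebraMap E M e := by
  have hP : (Q.under (𝓞 E)).IsPrime := inferInstance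
  have hP0 : Q.under (𝓞 E) ≠ ⊥ := under_ne_bot hQ
  have h1 : σ.restrictNormal E = 1 := by
    apply hunr (Q.under (𝓞 E)) hP hP0
    intro x
    rw [Ideal.under, Ideal.mem_comap, map_sub]
    have h2 : algebraMap (𝓞 E) (𝓞 M) ((σ.restrictNormal E) • x) =
        σ • algebraMap (𝓞 E) (𝓞 M) x :=
      RingOfIntegers.ext (σ.restrictNormal_commutes E (x : E))
    rw [h2]
    exact hσ _
  rw [← σ.restrictNormal_commutes E e, h1]
  rfl

/-- (F7) converse: `E/F` is unramified if all inertia groups of `M/F` fix `E`. -/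
theorem unram_of_inertia_fixes [IsGalois F M] [IsGalois F E]
    (h : ∀ Q : Ideal (𝓞 M), Q.IsPrime → Q ≠ ⊥ → ∀ σ : M ≃ₐ[F] M,
      (∀ x : 𝓞 M, σ • x - x ∈ Q) → ∀ e : E, σ (algebraMap E M e) = algebraMap E M e) :
    Unram F E := by
  intro P hP hP0 σ' hσ'
  have : IsGalois E M := IsGalois.tower_top_of_isGalois F E M
  obtain ⟨Q, hQ, hQP⟩ := exists_prime_over (M := M) P
  have hQ0 : Q ≠ ⊥ := ne_bot_of_under_ne_bot (hQP ▸ hP0)
  have hQPl : Q.LiesOver P := ⟨hQP.symm⟩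
  -- Step A: lift `σ'` to `σ ∈ Gal(M/F)`.
  obtain ⟨σ, hσ⟩ := AlgEquiv.restrictNormalHom_surjective (F := F) (K₁ := E) M σ'
  have hσE : ∀ e : E, σ (algebraMap E M e) = algebraMap E M (σ' e) := by
    intro e
    rw [← hσ]
    exact (σ.restrictNormal_commutes E e).symm
  have hσO : ∀ x : 𝓞 E, σ • algebraMap (𝓞 E) (𝓞 M) x = algebraMap (𝓞 E) (𝓞 M) (σ' • x) :=
    fun x => RingOfIntegers.ext (hσE (x : E))
  have hσOinv : ∀ x : 𝓞 E, σ⁻¹ • algebraMap (𝓞 E) (𝓞 M) x = algebraMap (𝓞 E) (𝓞 M) (σ'⁻¹ • x) := by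
    intro x
    rw [inv_smul_eq_iff, hσO, smul_inv_smul]
  -- `σ'` stabilises `P`
  have hσ'P : ∀ x : 𝓞 E, σ'⁻¹ • x ∈ P ↔ x ∈ P := by
    intro x
    have h1 := hσ' (σ'⁻¹ • x)
    rw [smul_inv_smul] at h1
    constructor
    · intro h2
      have := P.add_mem h1 h2
      rwa [sub_add_cancel] at this
    · intro h2
      have := P.sub_mem h2 h1
      rwa [sub_sub_cancel] at this
  -- Step B: `σ • Q` lies over `P`; move it back to `Q` by some `ρ ∈ Gal(M/E)`.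
  have hunder : (σ • Q).under (𝓞 E) = Q.under (𝓞 E) := by
    ext x
    rw [Ideal.under, Ideal.mem_comap, Ideal.mem_pointwise_smul_iff_inv_smul_mem, hσOinv,
      ← Ideal.mem_comap, ← Ideal.under, hQP, hσ'P]
  obtain ⟨ρ, hρ⟩ := Algebra.IsInvariant.exists_smul_of_under_eq (𝓞 E) (𝓞 M) (M ≃ₐ[E] M)
    (σ • Q) Q hunder
  set σ₁ : M ≃ₐ[F] M := ρ.restrictScalars F * σ with hσ₁
  have hσ₁Q : σ₁ • Q = Q := by
    rw [hσ₁, mul_smul]
    exact hρ.symm
  have hσ₁O : ∀ x : 𝓞 E, σ₁ • algebraMap (𝓞 E) (𝓞 M) x = algebraMap (𝓞 E) (𝓞 M) (σ' • x) := by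
    intro x
    rw [hσ₁, mul_smul, hσO]
    exact RingOfIntegers.ext (ρ.commutes _)
  -- Step C: the automorphism of `𝓞 M ⧸ Q` induced by `σ₁` is `𝓞 E ⧸ P`-linear.
  let g₁ : MulAction.stabilizer (M ≃ₐ[F] M) Q := ⟨σ₁, hσ₁Q⟩
  let α₁ := Ideal.Quotient.stabilizerHom Q (Q.under (𝓞 F)) (M ≃ₐ[F] M) g₁
  have hα₁ : ∀ z : 𝓞 M, α₁ (Ideal.Quotient.mk Q z) = Ideal.Quotient.mk Q (σ₁ • z) := fun z => rfl
  let α' : (𝓞 M ⧸ Q) ≃ₐ[𝓞 E ⧸ P] (𝓞 M ⧸ Q) :=
    AlgEquiv.ofRingEquiv (f := α₁.toRingEquiv) (by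
      intro y
      obtain ⟨x, rfl⟩ := Ideal.Quotient.mk_surjective y
      rw [Ideal.Quotient.algebraMap_mk_of_liesOver]
      show α₁ (Ideal.Quotient.mk Q (algebraMap (𝓞 E) (𝓞 M) x)) = _
      rw [hα₁, hσ₁O, Ideal.Quotient.eq, ← map_sub, ← Ideal.mem_comap, ← Ideal.under, hQP]
      exact hσ' x)
  obtain ⟨ρ₂, hρ₂⟩ := Ideal.Quotient.stabilizerHom_surjective (M ≃ₐ[E] M) P Q α'
  have hcong : ∀ z : 𝓞 M, (ρ₂ : M ≃ₐ[E] M) • z - σ₁ • z ∈ Q := by
    intro z
    have h1 := congrArg (fun β : (𝓞 M ⧸ Q) ≃ₐ[𝓞 E ⧸ P] (𝓞 M ⧸ Q) => β (Ideal.Quotient.mk Q z)) hρ₂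
    simp only [Ideal.Quotient.stabilizerHom_apply] at h1
    rw [← Ideal.Quotient.eq]
    exact h1.trans (hα₁ z)
  -- `σ₂ := σ₁ ρ₂⁻¹` lies in the inertia group of `Q` in `Gal(M/F)`
  set ρ₂' : M ≃ₐ[F] M := (ρ₂ : M ≃ₐ[E] M).restrictScalars F with hρ₂'
  have hin : ∀ z : 𝓞 M, (σ₁ * ρ₂'⁻¹) • z - z ∈ Q := by
    intro z
    have h1 := hcong (ρ₂'⁻¹ • z)
    have h2 : (ρ₂ : M ≃ₐ[E] M) • (ρ₂'⁻¹ • z) = z := by
      have : (ρ₂ : M ≃ₐ[E] M) • (ρ₂'⁻¹ • z) = ρ₂' • (ρ₂'⁻¹ • z) := RingOfIntegers.ext rfl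
      rw [this, smul_inv_smul]
    rw [h2] at h1
    have := Q.neg_mem h1
    rwa [neg_sub, ← mul_smul] at this
  have hfix := h Q hQ hQ0 (σ₁ * ρ₂'⁻¹) hin
  -- conclude
  ext e
  apply (algebraMap E M).injective
  have h3 : ρ₂'⁻¹ (algebraMap E M e) = algebraMap E M e := by
    have h4 : ρ₂' (algebraMap E M e) = algebraMap E M e := (ρ₂ : M ≃ₐ[E] M).commutes e
    conv_lhs => rw [← h4]
    exact ρ₂'.symm_apply_apply _
  have h5 : σ₁ (algebraMap E M e) = algebraMap E M (σ' e) := by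
    show ρ (σ (algebraMap E M e)) = _
    rw [hσE]
    exact ρ.commutes _
  have h6 := hfix e
  rw [AlgEquiv.mul_apply, h3, h5] at h6
  exact h6

end tower

section square
variable {F M F' M' : Type*} [Field F] [NumberField F] [Field M] [NumberField M]
  [Field F'] [NumberField F'] [Field M'] [NumberField M']
  [Algebra F M] [Algebra F F'] [Algebra M M'] [Algebra F' M'] [Algebra F M']
  [IsScalarTower F M M'] [IsScalarTower F F' M']

/-- (F7) base change: `M/F` unramified and `M' = M·F'` ⇒ `M'/F'` unramified. -/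
theorem Unram.base_change [Normal F M]
    (hgen : ∀ τ : M' ≃ₐ[F'] M', (∀ x : M, τ (algebraMap M M' x) = algebraMap M M' x) → τ = 1)
    (h : Unram F M) : Unram F' M' := by
  intro Q' hQ' hQ'0 τ hτ
  apply hgen
  intro x
  have h1 : ∀ y : 𝓞 M', (τ.restrictScalars F) • y - y ∈ Q' := by
    intro y
    have h2 : (τ.restrictScalars F) • y = τ • y := RingOfIntegers.ext rfl
    rw [h2]
    exact hτ y
  exact Unram.fixes_of_inertia h hQ'0 h1 x

/-- (F7') cyclotomic top: `M/F` unramified, `M' = M(ξ)`, `ξ ^ n = 1` ⇒ `M'/F` unramified away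
from `n`. -/
theorem Unram.unramAway_of_root [Normal F M] {n : ℕ} {ξ : M'} (hξ : ξ ^ n = 1)
    (hgen : ∀ τ : M' ≃ₐ[F] M', (∀ x : M, τ (algebraMap M M' x) = algebraMap M M' x) → τ ξ = ξ →
      τ = 1)
    (h : Unram F M) : UnramAway F M' n := by
  intro Q' hQ' hQ'0 hn τ hτ
  have hn0 : n ≠ 0 := by
    rintro rfl
    exact hn (by simp)
  apply hgen τ (fun x => Unram.fixes_of_inertia h hQ'0 hτ x)
  have hint : IsIntegral ℤ ξ :=
    IsIntegral.of_pow (Nat.pos_of_ne_zero hn0) (by rw [hξ]; exact isIntegral_one)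
  set ξ' : 𝓞 M' := ⟨ξ, hint⟩ with hξ'
  have hc : algebraMap (𝓞 M') M' ξ' = ξ := rfl
  have h1 : ξ' ^ n = 1 := by
    apply RingOfIntegers.ext
    show algebraMap (𝓞 M') M' (ξ' ^ n) = algebraMap (𝓞 M') M' 1
    rw [map_pow, map_one, hc, hξ]
  have h2 : (τ • ξ') ^ n = 1 := by
    rw [← smul_pow', h1, smul_one]
  have h3 : τ • ξ' = ξ' := eq_of_pow_eq_one_of_sub_mem hn h2 h1 (hτ ξ')
  have h4 := congrArg (fun y : 𝓞 M' => algebraMap (𝓞 M') M' y) h3
  exact h4

end square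

end Fermat.Agent.S14_Frob
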