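import Mathlib

/-!
# Block NORM of Project C (S14): the norm map on ideal class groups

For Dedekind domains `R ⊆ S` with `S` finite and torsion-free over `R` (e.g. `𝓞 F ⊆ 𝓞 M` for number
fields `F ⊆ M`) we define

* `relNorm0 R S : (Ideal S)⁰ →* (Ideal R)⁰`, the relative ideal norm on nonzero ideals;
* `classNorm R S : ClassGroup S →* ClassGroup R`, with `classNorm_mk0`;
* `normSubgroup R S : Subgroup (ClassGroup R)`, the range of `classNorm R S`.

and prove transitivity, the value on extended ideals, Galois invariance, and the existence of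
representatives prime to a given ideal.
-/

namespace Fermat.Agent.S14_Norm

open scoped nonZeroDivisors

section General

variable (R : Type*) [CommRing R] [IsDedekindDomain R] (S : Type*) [CommRing S]
  [IsDedekindDomain S] [Algebra R S] [Module.Finite R S] [Module.IsTorsionFree R S]

/-- The relative ideal norm as a monoid hom between the monoids of nonzero ideals. -/
noncomputable def relNorm0 : (Ideal S)⁰ →* (Ideal R)⁰ where
  toFun I := ⟨Ideal.relNorm R (I : Ideal S), mem_nonZeroDivisors_iff_ne_zero.2 fun h =>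
    mem_nonZeroDivisors_iff_ne_zero.1 I.2 (Ideal.relNorm_eq_bot_iff.1 h)⟩
  map_one' := Subtype.ext (by simp)
  map_mul' I J := Subtype.ext (by simp)

@[simp]
theorem coe_relNorm0 (I : (Ideal S)⁰) :
    ((relNorm0 R S I : (Ideal R)⁰) : Ideal R) = Ideal.relNorm R (I : Ideal S) := rfl

/-- The class of the relative norm only depends on the class of the ideal. -/
theorem mk0_relNorm0_eq_of_mk0_eq {I J : (Ideal S)⁰}
    (h : ClassGroup.mk0 I = ClassGroup.mk0 J) :
    ClassGroup.mk0 (relNorm0 R S I) = ClassGroup.mk0 (relNorm0 R S J) := by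
  obtain ⟨x, y, hx, hy, hxy⟩ := ClassGroup.mk0_eq_mk0_iff.1 h
  refine ClassGroup.mk0_eq_mk0_iff.2 ⟨Algebra.intNorm R S x, Algebra.intNorm R S y,
    Algebra.intNorm_ne_zero.2 hx, Algebra.intNorm_ne_zero.2 hy, ?_⟩
  have := congrArg (Ideal.relNorm R) hxy
  rwa [map_mul, map_mul, Ideal.relNorm_singleton, Ideal.relNorm_singleton] at this

/-- The norm map on class groups: `[A] ↦ [relNorm A]`. -/
noncomputable def classNorm : ClassGroup S →* ClassGroup R :=
  MonoidHom.mk'
    (fun c => ClassGroup.mk0 (relNorm0 R S (Classical.choose (ClassGroup.mk0_surjective c))))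
    (by
      intro c d
      rw [← map_mul, ← map_mul]
      apply mk0_relNorm0_eq_of_mk0_eq
      rw [map_mul, Classical.choose_spec (ClassGroup.mk0_surjective c),
        Classical.choose_spec (ClassGroup.mk0_surjective d),
        Classical.choose_spec (ClassGroup.mk0_surjective (c * d))])

theorem classNorm_mk0 (I : (Ideal S)⁰) :
    classNorm R S (ClassGroup.mk0 I) = ClassGroup.mk0 (relNorm0 R S I) :=
  mk0_relNorm0_eq_of_mk0_eq R S (Classical.choose_spec (ClassGroup.mk0_surjective _))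

/-- The norm subgroup: the classes of `R` that are norms of classes of `S`. -/
noncomputable def normSubgroup : Subgroup (ClassGroup R) := (classNorm R S).range

theorem mem_normSubgroup_iff {c : ClassGroup R} :
    c ∈ normSubgroup R S ↔ ∃ A : (Ideal S)⁰, ClassGroup.mk0 (relNorm0 R S A) = c := by
  constructor
  · rintro ⟨d, rfl⟩
    obtain ⟨A, rfl⟩ := ClassGroup.mk0_surjective d
    exact ⟨A, (classNorm_mk0 R S A).symm⟩
  · rintro ⟨A, rfl⟩
    exact ⟨ClassGroup.mk0 A, classNorm_mk0 R S A⟩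

theorem classNorm_mem_normSubgroup (d : ClassGroup S) : classNorm R S d ∈ normSubgroup R S :=
  ⟨d, rfl⟩

theorem mk0_relNorm0_mem_normSubgroup (A : (Ideal S)⁰) :
    ClassGroup.mk0 (relNorm0 R S A) ∈ normSubgroup R S :=
  (mem_normSubgroup_iff R S).2 ⟨A, rfl⟩

end General

section Tower

variable (R : Type*) [CommRing R] [IsDedekindDomain R] (T : Type*) [CommRing T]
  [IsDedekindDomain T] (S : Type*) [CommRing S] [IsDedekindDomain S]
  [Algebra R T] [Algebra T S] [Algebra R S] [IsScalarTower R T S]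
  [Module.Finite R T] [Module.Finite T S] [Module.Finite R S]
  [Module.IsTorsionFree R T] [Module.IsTorsionFree T S] [Module.IsTorsionFree R S]

/-- (N2) transitivity of the norm on nonzero ideals. -/
theorem relNorm0_relNorm0 (I : (Ideal S)⁰) :
    relNorm0 R T (relNorm0 T S I) = relNorm0 R S I :=
  Subtype.ext (Ideal.relNorm_relNorm R T (I : Ideal S))

/-- (N2) transitivity of the norm on class groups. -/
theorem classNorm_classNorm (c : ClassGroup S) :
    classNorm R T (classNorm T S c) = classNorm R S c := by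
  obtain ⟨I, rfl⟩ := ClassGroup.mk0_surjective c
  rw [classNorm_mk0, classNorm_mk0, classNorm_mk0, relNorm0_relNorm0]

theorem classNorm_comp : (classNorm R T).comp (classNorm T S) = classNorm R S :=
  MonoidHom.ext (classNorm_classNorm R T S)

/-- (N2) the norm subgroup of a bigger extension is smaller. -/
theorem normSubgroup_le_of_tower : normSubgroup R S ≤ normSubgroup R T := by
  rintro _ ⟨c, rfl⟩
  exact ⟨classNorm T S c, classNorm_classNorm R T S c⟩

/-- (N2) the norm map `Cl_T → Cl_R` sends the norm subgroup of `S/T` into that of `S/R`. -/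
theorem classNorm_mem_normSubgroup_of_tower {c : ClassGroup T} (hc : c ∈ normSubgroup T S) :
    classNorm R T c ∈ normSubgroup R S := by
  obtain ⟨d, rfl⟩ := hc
  exact ⟨d, (classNorm_classNorm R T S d).symm⟩

end Tower

section Extended

variable (R : Type*) [CommRing R] [IsDedekindDomain R] (S : Type*) [CommRing S]
  [IsDedekindDomain S] [Algebra R S] [Module.Finite R S] [Module.IsTorsionFree R S]

/-- (N4) the norm of an extended ideal. -/
theorem relNorm0_extendedIdeal (I : (Ideal R)⁰) :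
    relNorm0 R S (ClassGroup.extendedIdeal R S I) = I ^ Module.finrank R S :=
  Subtype.ext (by
    rw [coe_relNorm0, SubmonoidClass.coe_pow]
    exact Ideal.relNorm_algebraMap S (I : Ideal R))

/-- (N4) on class groups: norm after extension is raising to the power `[S : R]`. -/
theorem classNorm_extendedHom (c : ClassGroup R) :
    classNorm R S (ClassGroup.extendedHom R S c) = c ^ Module.finrank R S := by
  obtain ⟨I, rfl⟩ := ClassGroup.mk0_surjective c
  rw [ClassGroup.extendedHom_mk0, classNorm_mk0, relNorm0_extendedIdeal, map_pow]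

/-- (N4) `Cl_R / normSubgroup` is killed by the degree. -/
theorem pow_finrank_mem_normSubgroup (c : ClassGroup R) :
    c ^ Module.finrank R S ∈ normSubgroup R S :=
  ⟨ClassGroup.extendedHom R S c, classNorm_extendedHom R S c⟩

end Extended

section Equiv

variable {S : Type*} [CommRing S] [IsDedekindDomain S] {S' : Type*} [CommRing S']
  [IsDedekindDomain S'] {S'' : Type*} [CommRing S''] [IsDedekindDomain S'']

/-- The image of a nonzero ideal under a ring isomorphism, as a monoid hom. -/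
noncomputable def idealMap0 (e : S ≃+* S') : (Ideal S)⁰ →* (Ideal S')⁰ where
  toFun I := ⟨(I : Ideal S).map e, mem_nonZeroDivisors_iff_ne_zero.2 fun h =>
    mem_nonZeroDivisors_iff_ne_zero.1 I.2
      ((Ideal.map_eq_bot_iff_of_injective e.injective).1 h)⟩
  map_one' := Subtype.ext (by simp [Ideal.one_eq_top, Ideal.map_top])
  map_mul' I J := Subtype.ext (by simp [Ideal.map_mul])

@[simp]
theorem coe_idealMap0 (e : S ≃+* S') (I : (Ideal S)⁰) :
    ((idealMap0 e I : (Ideal S')⁰) : Ideal S') = (I : Ideal S).map e := rfl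

theorem mk0_idealMap0_eq_of_mk0_eq (e : S ≃+* S') {I J : (Ideal S)⁰}
    (h : ClassGroup.mk0 I = ClassGroup.mk0 J) :
    ClassGroup.mk0 (idealMap0 e I) = ClassGroup.mk0 (idealMap0 e J) := by
  obtain ⟨x, y, hx, hy, hxy⟩ := ClassGroup.mk0_eq_mk0_iff.1 h
  refine ClassGroup.mk0_eq_mk0_iff.2 ⟨e x, e y, (map_ne_zero_iff e e.injective).2 hx,
    (map_ne_zero_iff e e.injective).2 hy, ?_⟩
  have := congrArg (Ideal.map e) hxy
  rwa [Ideal.map_mul, Ideal.map_mul, Ideal.map_span, Ideal.map_span, Set.image_singleton,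
    Set.image_singleton] at this

/-- The map induced on class groups by a ring isomorphism: `[I] ↦ [e(I)]`. -/
noncomputable def classMap (e : S ≃+* S') : ClassGroup S →* ClassGroup S' :=
  MonoidHom.mk'
    (fun c => ClassGroup.mk0 (idealMap0 e (Classical.choose (ClassGroup.mk0_surjective c))))
    (by
      intro c d
      rw [← map_mul, ← map_mul]
      apply mk0_idealMap0_eq_of_mk0_eq
      rw [map_mul, Classical.choose_spec (ClassGroup.mk0_surjective c),
        Classical.choose_spec (ClassGroup.mk0_surjective d),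
        Classical.choose_spec (ClassGroup.mk0_surjective (c * d))])

theorem classMap_mk0 (e : S ≃+* S') (I : (Ideal S)⁰) :
    classMap e (ClassGroup.mk0 I) = ClassGroup.mk0 (idealMap0 e I) :=
  mk0_idealMap0_eq_of_mk0_eq e (Classical.choose_spec (ClassGroup.mk0_surjective _))

theorem idealMap0_refl (I : (Ideal S)⁰) : idealMap0 (RingEquiv.refl S) I = I :=
  Subtype.ext (by
    rw [coe_idealMap0]
    exact Ideal.map_id _)

theorem idealMap0_trans (e : S ≃+* S') (f : S' ≃+* S'') (I : (Ideal S)⁰) :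
    idealMap0 (e.trans f) I = idealMap0 f (idealMap0 e I) :=
  Subtype.ext (Ideal.map_map (e : S →+* S') (f : S' →+* S'')).symm

theorem classMap_refl (c : ClassGroup S) : classMap (RingEquiv.refl S) c = c := by
  obtain ⟨I, rfl⟩ := ClassGroup.mk0_surjective c
  rw [classMap_mk0, idealMap0_refl]

theorem classMap_trans (e : S ≃+* S') (f : S' ≃+* S'') (c : ClassGroup S) :
    classMap (e.trans f) c = classMap f (classMap e c) := by
  obtain ⟨I, rfl⟩ := ClassGroup.mk0_surjective c
  rw [classMap_mk0, classMap_mk0, classMap_mk0, idealMap0_trans]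

theorem classMap_symm_apply_apply (e : S ≃+* S') (c : ClassGroup S) :
    classMap e.symm (classMap e c) = c := by
  rw [← classMap_trans, RingEquiv.self_trans_symm, classMap_refl]

theorem classMap_apply_symm_apply (e : S ≃+* S') (c : ClassGroup S') :
    classMap e (classMap e.symm c) = c := by
  rw [← classMap_trans, RingEquiv.symm_trans_self, classMap_refl]

end Equiv

section Galois

variable (R : Type*) [CommRing R] [IsDedekindDomain R] (S : Type*) [CommRing S]
  [IsDedekindDomain S] [Algebra R S] [Module.Finite R S] [Module.IsTorsionFree R S]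

/-- (N5) the norm is invariant under `R`-automorphisms of `S` (ideal level). -/
theorem relNorm0_idealMap0 (σ : S ≃ₐ[R] S) (I : (Ideal S)⁰) :
    relNorm0 R S (idealMap0 (σ : S ≃+* S) I) = relNorm0 R S I :=
  Subtype.ext (Ideal.relNorm_map_algEquiv σ (I : Ideal S))

/-- (N5) the norm is invariant under `R`-automorphisms of `S` (class level). -/
theorem classNorm_classMap (σ : S ≃ₐ[R] S) (c : ClassGroup S) :
    classNorm R S (classMap (σ : S ≃+* S) c) = classNorm R S c := by
  obtain ⟨I, rfl⟩ := ClassGroup.mk0_surjective c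
  rw [classMap_mk0, classNorm_mk0, classNorm_mk0, relNorm0_idealMap0]

end Galois

section Coprime

variable {R : Type*} [CommRing R] [IsDedekindDomain R]

/-- Every nonzero ideal `J` has a complement `K` (i.e. `J * K` principal and nonzero) prime to a
given nonzero ideal `m`. -/
theorem exists_mul_eq_span_and_coprime (J m : Ideal R) (hJ : J ≠ ⊥) (hm : m ≠ ⊥) :
    ∃ (a : R) (K : Ideal R), a ≠ 0 ∧ J * K = Ideal.span {a} ∧ m ⊔ K = ⊤ := by
  by_cases hm1 : m = ⊤
  · obtain ⟨a, haJ, ha⟩ := Submodule.exists_mem_ne_zero_of_ne_bot hJ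
    have h1 : Ideal.span {a} ≤ J := (Ideal.span_singleton_le_iff_mem J).2 haJ
    obtain ⟨K, hK⟩ := Ideal.dvd_iff_le.2 h1
    exact ⟨a, K, ha, hK.symm, by rw [hm1, top_sup_eq]⟩
  obtain ⟨a, ha⟩ := IsDedekindDomain.exists_sup_span_eq (I := m * J) (J := J) Ideal.mul_le_right
    (mul_ne_zero hm hJ)
  have h1 : Ideal.span {a} ≤ J := ha ▸ le_sup_right
  obtain ⟨K, hK⟩ := Ideal.dvd_iff_le.2 h1
  refine ⟨a, K, ?_, hK.symm, ?_⟩
  · rintro rfl
    rw [Ideal.span_singleton_eq_bot.2 rfl, sup_bot_eq] at ha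
    have h3 : m * J = ⊤ * J := by rw [ha, Ideal.top_mul]
    exact hm1 (mul_right_cancel₀ hJ h3)
  · have h2 : J * (m ⊔ K) = J * ⊤ := by
      rw [Ideal.mul_sup, Ideal.mul_top, mul_comm J m, ← hK, ha]
    exact mul_left_cancel₀ hJ h2

/-- (N6a) every ideal class contains an integral ideal prime to a given nonzero ideal `m`. -/
theorem exists_mk0_eq_and_coprime (c : ClassGroup R) (m : Ideal R) (hm : m ≠ ⊥) :
    ∃ K : (Ideal R)⁰, ClassGroup.mk0 K = c ∧ m ⊔ (K : Ideal R) = ⊤ := by
  obtain ⟨J, hJ⟩ := ClassGroup.mk0_surjective c⁻¹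
  have hJ0 : (J : Ideal R) ≠ ⊥ := mem_nonZeroDivisors_iff_ne_zero.1 J.2
  obtain ⟨a, K, ha, hK, hcop⟩ := exists_mul_eq_span_and_coprime (J : Ideal R) m hJ0 hm
  have hK0 : K ≠ ⊥ := by
    rintro rfl
    rw [Ideal.mul_bot] at hK
    exact ha (Ideal.span_singleton_eq_bot.1 hK.symm)
  have hKm : K ∈ (Ideal R)⁰ := mem_nonZeroDivisors_iff_ne_zero.2 hK0
  refine ⟨⟨K, hKm⟩, ?_, hcop⟩
  have hprod : ClassGroup.mk0 (J * ⟨K, hKm⟩) = 1 := by
    rw [ClassGroup.mk0_eq_one_iff]
    exact ⟨a, by rw [← Ideal.span, ← hK]; rfl⟩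
  rw [map_mul, hJ] at hprod
  exact (inv_mul_eq_one.1 hprod).symm

omit [IsDedekindDomain R] in
/-- Coprimality to `m` is multiplicative. -/
theorem sup_mul_eq_top {m I J : Ideal R} (hI : m ⊔ I = ⊤) (hJ : m ⊔ J = ⊤) : m ⊔ I * J = ⊤ :=
  (Ideal.sup_mul_eq_of_coprime_left hI).trans hJ

omit [IsDedekindDomain R] in
/-- A factor of an ideal prime to `m` is prime to `m`. -/
theorem sup_eq_top_of_mul_left {m I J : Ideal R} (h : m ⊔ I * J = ⊤) : m ⊔ I = ⊤ :=
  top_le_iff.1 (h ▸ sup_le_sup_left Ideal.mul_le_left m)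

omit [IsDedekindDomain R] in
theorem sup_eq_top_of_mul_right {m I J : Ideal R} (h : m ⊔ I * J = ⊤) : m ⊔ J = ⊤ :=
  top_le_iff.1 (h ▸ sup_le_sup_left Ideal.mul_le_right m)

/-- (N6b) two integral ideals prime to `m` in the same class differ by principal ideals prime
to `m`. -/
theorem exists_span_mul_eq_of_mk0_eq_of_coprime (m : Ideal R) (hm : m ≠ ⊥) {I J : (Ideal R)⁰}
    (h : ClassGroup.mk0 I = ClassGroup.mk0 J) (hI : m ⊔ (I : Ideal R) = ⊤)
    (hJ : m ⊔ (J : Ideal R) = ⊤) :
    ∃ x y : R, x ≠ 0 ∧ y ≠ 0 ∧ m ⊔ Ideal.span {x} = ⊤ ∧ m ⊔ Ideal.span {y} = ⊤ ∧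
      Ideal.span {x} * (I : Ideal R) = Ideal.span {y} * (J : Ideal R) := by
  have hI0 : (I : Ideal R) ≠ ⊥ := mem_nonZeroDivisors_iff_ne_zero.1 I.2
  have hJ0 : (J : Ideal R) ≠ ⊥ := mem_nonZeroDivisors_iff_ne_zero.1 J.2
  obtain ⟨a, K, ha, hK, hcop⟩ := exists_mul_eq_span_and_coprime (I : Ideal R) m hI0 hm
  have hK0 : K ≠ ⊥ := by
    rintro rfl
    rw [Ideal.mul_bot] at hK
    exact ha (Ideal.span_singleton_eq_bot.1 hK.symm)
  have hKm : K ∈ (Ideal R)⁰ := mem_nonZeroDivisors_iff_ne_zero.2 hK0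
  have hprod : ClassGroup.mk0 (J * ⟨K, hKm⟩) = 1 := by
    rw [map_mul, ← h, ← map_mul, ClassGroup.mk0_eq_one_iff]
    exact ⟨a, by rw [← Ideal.span, ← hK]; rfl⟩
  rw [ClassGroup.mk0_eq_one_iff] at hprod
  obtain ⟨b, hb⟩ := hprod
  have hb' : (J : Ideal R) * K = Ideal.span {b} := hb
  have hb0 : b ≠ 0 := by
    rintro rfl
    rw [Ideal.span_singleton_eq_bot.2 rfl] at hb'
    rcases mul_eq_zero.1 hb' with h' | h'
    · exact hJ0 h'
    · exact hK0 h'
  refine ⟨b, a, hb0, ha, ?_, ?_, ?_⟩
  · rw [← hb']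
    exact sup_mul_eq_top hJ hcop
  · rw [← hK]
    exact sup_mul_eq_top hI hcop
  · rw [← hb', ← hK]
    ring

end Coprime

section RelNormCoprime

variable {R : Type*} [CommRing R] [IsDedekindDomain R] {S : Type*} [CommRing S]
  [IsDedekindDomain S] [Algebra R S] [Module.Finite R S] [Module.IsTorsionFree R S]

/-- If the norm of `A` lies in a maximal ideal `q` of `R`, some prime of `S` over `q`
contains `A`. -/
theorem exists_prime_le_of_relNorm_le (q : Ideal R) [hq : q.IsMaximal] (A : Ideal S)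
    (h : Ideal.relNorm R A ≤ q) :
    ∃ Q : Ideal S, Q.IsPrime ∧ A ≤ Q ∧ Q.under R = q := by
  induction A using UniqueFactorizationMonoid.induction_on_prime with
  | h₁ =>
    obtain ⟨Q, hQ, hQq⟩ := Ideal.exists_ideal_over_maximal_of_isIntegral (S := S) q (by
      simp [(RingHom.injective_iff_ker_eq_bot _).mp (FaithfulSMul.algebraMap_injective R S)])
    exact ⟨Q, hQ.isPrime, bot_le, hQq⟩
  | h₂ A hA =>
    rw [Ideal.isUnit_iff.1 hA, Ideal.relNorm_top] at h
    exact absurd (top_le_iff.1 h) hq.ne_top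
  | h₃ B P hB hP ih =>
    rw [map_mul] at h
    rcases (hq.isPrime.mul_le).1 h with h' | h'
    · have hP' : P.IsPrime := Ideal.isPrime_of_prime hP
      have hP0 : P ≠ ⊥ := hP.ne_zero
      have : (P.under R).IsPrime := Ideal.IsPrime.under R P
      have : P.LiesOver (P.under R) := ⟨rfl⟩
      obtain ⟨s, hs⟩ := Ideal.exists_relNorm_eq_pow_of_isPrime P (P.under R)
      rw [hs] at h'
      have h2 : P.under R ≤ q := Ideal.IsPrime.le_of_pow_le h'
      have h3 : P.under R ≠ ⊥ := Ideal.under_ne_bot R hP0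
      have h4 : (P.under R).IsMaximal := Ring.DimensionLEOne.maximalOfPrime h3 inferInstance
      exact ⟨P, hP', Ideal.mul_le_left, h4.eq_of_le hq.ne_top h2⟩
    · obtain ⟨Q, hQ, hBQ, hQq⟩ := ih h'
      exact ⟨Q, hQ, Ideal.mul_le_right.trans hBQ, hQq⟩

/-- (N7) the norm of an ideal prime to `m S` is prime to `m`. -/
theorem sup_relNorm_eq_top (m : Ideal R) (A : Ideal S)
    (h : m.map (algebraMap R S) ⊔ A = ⊤) : m ⊔ Ideal.relNorm R A = ⊤ := by
  by_contra hne
  obtain ⟨q, hq, hle⟩ := Ideal.exists_le_maximal _ hne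
  obtain ⟨Q, hQ, hAQ, hQq⟩ := exists_prime_le_of_relNorm_le q A (le_sup_right.trans hle)
  have h1 : m.map (algebraMap R S) ≤ Q := by
    rw [Ideal.map_le_iff_le_comap]
    exact (le_sup_left.trans hle).trans hQq.symm.le
  exact hQ.ne_top (top_le_iff.1 (h ▸ sup_le h1 hAQ))

/-- (N7) for integers: the norm of an ideal prime to `n` is prime to `n`. -/
theorem span_natCast_sup_relNorm_eq_top (n : ℕ) (A : Ideal S)
    (h : Ideal.span {(n : S)} ⊔ A = ⊤) : Ideal.span {(n : R)} ⊔ Ideal.relNorm R A = ⊤ := by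
  apply sup_relNorm_eq_top
  rwa [Ideal.map_span, Set.image_singleton, map_natCast]

end RelNormCoprime

end Fermat.Agent.S14_Norm
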