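import Fermat.Agent.S14_Defs
import Fermat.Agent.S14_Norm

/-!
# Block NORM of Project C (S14), number field form

Link between `S14_Defs` (`cls`, `normSubgroup F M`) and `S14_Norm` (`classNorm`, the range of the
norm map on class groups), and the consequences of `S14_Norm` in the vocabulary of `S14_Defs`.
-/

namespace Fermat.Agent.S14_NormNF

open NumberField Fermat.Agent.S14_Defs Fermat.Agent.S14_Norm
open scoped nonZeroDivisors

section Basic

variable (F M : Type*) [Field F] [NumberField F] [Field M] [NumberField M] [Algebra F M]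

/-- The class of the norm of a nonzero ideal is the norm of its class. -/
theorem cls_relNorm_mk0 (A : (Ideal (𝓞 M))⁰) :
    cls (Ideal.relNorm (𝓞 F) (A : Ideal (𝓞 M))) = classNorm (𝓞 F) (𝓞 M) (ClassGroup.mk0 A) := by
  rw [classNorm_mk0, ← cls_mk0, coe_relNorm0]

theorem cls_relNorm {A : Ideal (𝓞 M)} (hA : A ≠ ⊥) :
    cls (Ideal.relNorm (𝓞 F) A) = classNorm (𝓞 F) (𝓞 M) (cls A) := by
  rw [cls_of_ne hA, ← cls_relNorm_mk0]

/-- `S14_Defs.normSubgroup` is the range of the norm map on class groups. -/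
theorem normSubgroup_eq_range :
    S14_Defs.normSubgroup F M = (classNorm (𝓞 F) (𝓞 M)).range := by
  apply le_antisymm
  · rw [S14_Defs.normSubgroup, Subgroup.closure_le]
    rintro c ⟨A, hA, rfl⟩
    exact ⟨cls A, (cls_relNorm F M hA).symm⟩
  · rintro _ ⟨d, rfl⟩
    obtain ⟨A, hA, rfl⟩ := cls_surjective d
    rw [← cls_relNorm F M hA]
    exact cls_relNorm_mem_normSubgroup F M hA

theorem normSubgroup_eq : S14_Defs.normSubgroup F M = S14_Norm.normSubgroup (𝓞 F) (𝓞 M) :=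
  normSubgroup_eq_range F M

/-- Every element of the norm subgroup is the class of the norm of ONE nonzero ideal. -/
theorem mem_normSubgroup_iff {c : ClassGroup (𝓞 F)} :
    c ∈ S14_Defs.normSubgroup F M ↔
      ∃ A : Ideal (𝓞 M), A ≠ ⊥ ∧ cls (Ideal.relNorm (𝓞 F) A) = c := by
  rw [normSubgroup_eq_range]
  constructor
  · rintro ⟨d, rfl⟩
    obtain ⟨A, hA, rfl⟩ := cls_surjective d
    exact ⟨A, hA, cls_relNorm F M hA⟩
  · rintro ⟨A, hA, rfl⟩
    exact ⟨cls A, (cls_relNorm F M hA).symm⟩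

theorem classNorm_mem_normSubgroup (d : ClassGroup (𝓞 M)) :
    classNorm (𝓞 F) (𝓞 M) d ∈ S14_Defs.normSubgroup F M := by
  rw [normSubgroup_eq_range]
  exact ⟨d, rfl⟩

theorem finrank_ringOfIntegers : Module.finrank (𝓞 F) (𝓞 M) = Module.finrank F M :=
  (IsFractionRing.finrank_eq (𝓞 F) F (𝓞 M) M).symm

/-- (N4) the norm of an extended ideal. -/
theorem relNorm_map_algebraMap (a : Ideal (𝓞 F)) :
    Ideal.relNorm (𝓞 F) (a.map (algebraMap (𝓞 F) (𝓞 M))) = a ^ Module.finrank F M := by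
  rw [Ideal.relNorm_algebraMap, finrank_ringOfIntegers]

/-- (N4) `Cl_F / normSubgroup F M` is killed by the degree `[M : F]`. -/
theorem pow_finrank_mem_normSubgroup (c : ClassGroup (𝓞 F)) :
    c ^ Module.finrank F M ∈ S14_Defs.normSubgroup F M := by
  rw [normSubgroup_eq_range, ← finrank_ringOfIntegers]
  exact S14_Norm.pow_finrank_mem_normSubgroup (𝓞 F) (𝓞 M) c

/-- (N5) the norm is invariant under the Galois group (ideal level). -/
theorem relNorm_map_galois (σ : M ≃ₐ[F] M) (A : Ideal (𝓞 M)) :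
    Ideal.relNorm (𝓞 F) (A.map (RingOfIntegers.mapAlgEquiv σ)) = Ideal.relNorm (𝓞 F) A :=
  Ideal.relNorm_map_algEquiv (RingOfIntegers.mapAlgEquiv σ) A

/-- (N5) the norm map on class groups is invariant under the Galois group. -/
theorem classNorm_classMap_galois (σ : M ≃ₐ[F] M) (c : ClassGroup (𝓞 M)) :
    classNorm (𝓞 F) (𝓞 M)
      (classMap ((RingOfIntegers.mapAlgEquiv σ : 𝓞 M ≃ₐ[𝓞 F] 𝓞 M) : 𝓞 M ≃+* 𝓞 M) c) =
      classNorm (𝓞 F) (𝓞 M) c :=
  classNorm_classMap (𝓞 F) (𝓞 M) (RingOfIntegers.mapAlgEquiv σ) c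

/-- (N3) the norm of a nonzero prime `Q` of `𝓞 M` is a power of the prime below, the exponent
being the residue degree. -/
theorem relNorm_prime (Q : Ideal (𝓞 M)) [hQ : Q.IsPrime] (hQ0 : Q ≠ ⊥) :
    Ideal.relNorm (𝓞 F) Q = (Q.under (𝓞 F)) ^ (Q.inertiaDeg (𝓞 F)) := by
  have h1 : Q.IsMaximal := Ring.DimensionLEOne.maximalOfPrime hQ0 hQ
  have h2 : (Q.under (𝓞 F)).IsPrime := Ideal.IsPrime.under (𝓞 F) Q
  have h3 : Q.under (𝓞 F) ≠ ⊥ := Ideal.under_ne_bot (𝓞 F) hQ0
  have h4 : (Q.under (𝓞 F)).IsMaximal := Ring.DimensionLEOne.maximalOfPrime h3 h2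
  have h5 : Q.LiesOver (Q.under (𝓞 F)) := ⟨rfl⟩
  exact Ideal.relNorm_eq_pow_of_isMaximal Q (Q.under (𝓞 F))

end Basic

section Tower

variable (F E M : Type*) [Field F] [NumberField F] [Field E] [NumberField E] [Field M]
  [NumberField M] [Algebra F E] [Algebra E M] [Algebra F M] [IsScalarTower F E M]

/-- (N2) transitivity of the norm map on class groups for `F ⊆ E ⊆ M`. -/
theorem classNorm_classNorm (c : ClassGroup (𝓞 M)) :
    classNorm (𝓞 F) (𝓞 E) (classNorm (𝓞 E) (𝓞 M) c) = classNorm (𝓞 F) (𝓞 M) c :=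
  S14_Norm.classNorm_classNorm (𝓞 F) (𝓞 E) (𝓞 M) c

/-- (N2) a bigger extension has a smaller norm subgroup. -/
theorem normSubgroup_le_of_tower : S14_Defs.normSubgroup F M ≤ S14_Defs.normSubgroup F E := by
  rw [normSubgroup_eq_range, normSubgroup_eq_range]
  exact S14_Norm.normSubgroup_le_of_tower (𝓞 F) (𝓞 E) (𝓞 M)

/-- (N2) the norm `Cl_E → Cl_F` maps the norm subgroup of `M/E` into the norm subgroup of
`M/F`. -/
theorem classNorm_mem_normSubgroup_of_tower {c : ClassGroup (𝓞 E)}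
    (hc : c ∈ S14_Defs.normSubgroup E M) :
    classNorm (𝓞 F) (𝓞 E) c ∈ S14_Defs.normSubgroup F M := by
  rw [normSubgroup_eq] at hc ⊢
  exact S14_Norm.classNorm_mem_normSubgroup_of_tower (𝓞 F) (𝓞 E) (𝓞 M) hc

end Tower

section Diamond

variable (F E E' M : Type*) [Field F] [NumberField F] [Field E] [NumberField E] [Field E']
  [NumberField E'] [Field M] [NumberField M] [Algebra F E] [Algebra E M] [Algebra F E']
  [Algebra E' M] [Algebra F M] [IsScalarTower F E M] [IsScalarTower F E' M]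

/-- (N2), the form used in CROSS (h): for `F ⊆ E ⊆ M` and `F ⊆ E' ⊆ M`, the norm `Cl_E → Cl_F`
maps the norm subgroup of `M/E` into the norm subgroup of `E'/F`. -/
theorem classNorm_mem_normSubgroup_of_diamond {c : ClassGroup (𝓞 E)}
    (hc : c ∈ S14_Defs.normSubgroup E M) :
    classNorm (𝓞 F) (𝓞 E) c ∈ S14_Defs.normSubgroup F E' :=
  normSubgroup_le_of_tower F E' M (classNorm_mem_normSubgroup_of_tower F E M hc)

end Diamond

section Coprime

variable {F : Type*} [Field F] [NumberField F]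

/-- (N6a) every class contains an integral ideal prime to a given nonzero ideal. -/
theorem exists_cls_eq_and_coprime (c : ClassGroup (𝓞 F)) (m : Ideal (𝓞 F)) (hm : m ≠ ⊥) :
    ∃ a : Ideal (𝓞 F), a ≠ ⊥ ∧ cls a = c ∧ m ⊔ a = ⊤ := by
  obtain ⟨K, hK, hcop⟩ := exists_mk0_eq_and_coprime c m hm
  exact ⟨K, nonZeroDivisors.coe_ne_zero K, by rw [cls_mk0, hK], hcop⟩

/-- (N6b) two integral ideals prime to `m` in the same class differ by principal ideals prime
to `m`. -/
theorem exists_span_mul_eq_of_cls_eq_of_coprime (m : Ideal (𝓞 F)) (hm : m ≠ ⊥)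
    {a b : Ideal (𝓞 F)} (ha : a ≠ ⊥) (hb : b ≠ ⊥) (h : cls a = cls b) (hma : m ⊔ a = ⊤)
    (hmb : m ⊔ b = ⊤) :
    ∃ x y : 𝓞 F, x ≠ 0 ∧ y ≠ 0 ∧ m ⊔ Ideal.span {x} = ⊤ ∧ m ⊔ Ideal.span {y} = ⊤ ∧
      Ideal.span {x} * a = Ideal.span {y} * b := by
  rw [cls_of_ne ha, cls_of_ne hb] at h
  exact exists_span_mul_eq_of_mk0_eq_of_coprime m hm
    (I := ⟨a, mem_nonZeroDivisors_of_ne_zero ha⟩) (J := ⟨b, mem_nonZeroDivisors_of_ne_zero hb⟩)
    h hma hmb

end Coprime

end Fermat.Agent.S14_NormNF
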