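import Mathlib
import Fermat.Agent.S14_Defs
import Fermat.Agent.S14_Frob
import Fermat.Agent.S14_FrobB
import Fermat.Agent.S14_NormNF

/-!
# Descent lemmas for block CROSS of Project C (S14)

* `exists_split_prime` (T3): a prime `q` of `K` whose Frobenius in `M/K` is `F`-linear has a prime
  `P` of `F` above it with `relNorm P = q`, and that automorphism is the Frobenius of `P` in `M/F`.
* `exists_descent` (T2): a prime `Q'` of `F' ⊇ F` with Frobenius `φ'` in `M/F'` descends to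
  `𝔮 = Q' ∩ F`: `φ' = φ ^ f` for the Frobenius `φ` of `𝔮` in `M/F`, `f` the residue degree, and
  `relNorm_K Q' = (relNorm_K 𝔮) ^ f`.
-/

namespace Fermat.Agent.S14_CrossDesc

open NumberField Fermat.Agent.S14_Defs Fermat.Agent.S14_Frob

/-- (T3) a prime `q` of `K` whose Frobenius `x` in `M/K` is `F`-linear (`τ`) has a prime `P` of
`F` above it with `relNorm P = q`, and `τ` is the Frobenius of `P` in `M/F`. -/
theorem exists_split_prime (K F M : Type*) [Field K] [NumberField K] [Field F] [NumberField F]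
    [Field M] [NumberField M] [Algebra K F] [Algebra F M] [Algebra K M] [IsScalarTower K F M]
    (q : Ideal (𝓞 K)) [q.IsPrime] (hq : q ≠ ⊥) (x : M ≃ₐ[K] M) (hx : IsFrob x q)
    (τ : M ≃ₐ[F] M) (hτ : ∀ z : M, τ z = x z) :
    ∃ P : Ideal (𝓞 F), P.IsPrime ∧ P ≠ ⊥ ∧ IsFrob τ P ∧ Ideal.relNorm (𝓞 K) P = q ∧
      Ideal.absNorm P = Ideal.absNorm q := by
  obtain ⟨P, hP, hPq⟩ := exists_prime_over (M := F) q
  have hP0 : P ≠ ⊥ := ne_bot_of_under_ne_bot (hPq ▸ hq)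
  obtain ⟨h1, h2⟩ := IsFrob.of_fixes hq hx hτ hPq
  have hfix : ∀ e : F, x (algebraMap F M e) = algebraMap F M e := by
    intro e
    rw [← hτ]
    exact τ.commutes e
  have hsplit : IsSplit F q := IsFrob.isSplit_of_fixes hq hx hfix
  exact ⟨P, hP, hP0, h2, IsSplit.relNorm_eq hq hsplit P hPq, h1⟩

/-- (T2) descent of a prime `Q'` of `F'` with Frobenius `φ'` in `M/F'` to `F ⊆ F'`. -/
theorem exists_descent (K F F' M : Type*) [Field K] [NumberField K] [Field F] [NumberField F]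
    [Field F'] [NumberField F'] [Field M] [NumberField M] [Algebra K F] [Algebra F F']
    [Algebra K F'] [Algebra F' M] [Algebra F M] [Algebra K M]
    [IsScalarTower K F F'] [IsScalarTower F F' M] [IsScalarTower K F M] [IsScalarTower K F' M]
    [IsGalois F M]
    (hab : ∀ σ τ : M ≃ₐ[F] M, σ * τ = τ * σ) (n : ℕ) (hun : UnramAway F M n)
    (Q' : Ideal (𝓞 F')) [Q'.IsPrime] (hQ' : Q' ≠ ⊥) (hn : (n : 𝓞 F') ∉ Q')
    (φ' : M ≃ₐ[F'] M) (hφ' : IsFrob φ' Q') :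
    ∃ (𝔮 : Ideal (𝓞 F)) (f : ℕ) (φ : M ≃ₐ[F] M), 𝔮.IsPrime ∧ 𝔮 ≠ ⊥ ∧ (n : 𝓞 F) ∉ 𝔮 ∧
      IsFrob φ 𝔮 ∧ φ'.restrictScalars F = φ ^ f ∧
      Ideal.relNorm (𝓞 K) Q' = (Ideal.relNorm (𝓞 K) 𝔮) ^ f := by
  have h𝔮p : (Q'.under (𝓞 F)).IsPrime := inferInstance
  have h𝔮0 : Q'.under (𝓞 F) ≠ ⊥ := under_ne_bot hQ'
  have hrel : Ideal.relNorm (𝓞 F) Q' = (Q'.under (𝓞 F)) ^ (Q'.inertiaDeg (𝓞 F)) :=
    S14_NormNF.relNorm_prime F F' Q' hQ'
  have habs : Ideal.absNorm Q' =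
      Ideal.absNorm (Q'.under (𝓞 F)) ^ (Q'.inertiaDeg (𝓞 F)) := by
    have h1 := Ideal.absNorm_relNorm (𝓞 F) (𝓞 F') Q'
    rw [hrel, map_pow] at h1
    exact h1.symm
  obtain ⟨φ, hφ⟩ := exists_isFrob F M hab (Q'.under (𝓞 F)) h𝔮0
  have hn' : (n : 𝓞 F) ∉ Q'.under (𝓞 F) := by
    intro h
    apply hn
    have h2 : algebraMap (𝓞 F) (𝓞 F') (n : 𝓞 F) ∈ Q' := h
    simpa using h2
  refine ⟨Q'.under (𝓞 F), Q'.inertiaDeg (𝓞 F), φ, h𝔮p, h𝔮0, hn', hφ,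
    IsFrob.restrictScalars_eq_pow hun hφ hQ' hn rfl habs hφ', ?_⟩
  rw [← Ideal.relNorm_relNorm (𝓞 K) (𝓞 F) Q', hrel, map_pow]

end Fermat.Agent.S14_CrossDesc
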