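import Mathlib
import Fermat.Agent.S14_Defs
import Fermat.Agent.S14_Frob
import Fermat.Agent.S14_FrobB

/-!
# Field step of CROSS (project C, S14): the compositum `L·F` inside `M`

Setting: number fields `K ⊆ L ⊆ M` and `K ⊆ F ⊆ M` (types with algebra instances), `L/K` and `M/K`
Galois.  `res : Gal(M/F) → Gal(L/K)` is the restriction, and `LF K L F M` is the fixed field of
its kernel, i.e. the compositum `L·F` as an `IntermediateField F M`.

* `algLF` : the (non-instance) algebra structure `L → L·F`, with the two scalar towers;
* `fixes_LF_of_mem_ker` : an automorphism of `M/F` fixing `L` pointwise fixes `L·F` pointwise;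
* `isGalois_LF`, `finrank_LF` (`[L·F : F] = p` if `[L : K] = p` is prime and some automorphism of
  `M/F` moves `L`), `unram_LF` (`L/K` unramified ⇒ `L·F/F` unramified).
-/

set_option autoImplicit false

open NumberField Fermat.Agent.S14_Defs Fermat.Agent.S14_Frob

namespace Fermat.Agent.S14_CrossField

section Field

variable (K L F M : Type*) [Field K] [Field L] [Field F] [Field M] [Algebra K L] [Algebra K F]
  [Algebra L M] [Algebra F M] [Algebra K M] [IsScalarTower K L M] [IsScalarTower K F M]
  [Normal K L]

/-- Restriction `Gal(M/F) → Gal(L/K)`. -/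
noncomputable def res : (M ≃ₐ[F] M) →* (L ≃ₐ[K] L) :=
  (AlgEquiv.restrictNormalHom L).comp (AlgEquiv.restrictScalarsHom K)

theorem res_commutes (σ : M ≃ₐ[F] M) (x : L) :
    algebraMap L M (res K L F M σ x) = σ (algebraMap L M x) :=
  (σ.restrictScalars K).restrictNormal_commutes L x

theorem mem_ker_res_iff (σ : M ≃ₐ[F] M) :
    σ ∈ (res K L F M).ker ↔ ∀ x : L, σ (algebraMap L M x) = algebraMap L M x := by
  rw [MonoidHom.mem_ker]
  constructor
  · intro h x
    rw [← res_commutes K L F M, h]
    rfl
  · intro h
    ext x
    apply (algebraMap L M).injective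
    rw [res_commutes K L F M, h]
    rfl

/-- The compositum `L·F` inside `M`, as the fixed field of the automorphisms of `M/F` fixing `L`. -/
noncomputable def LF : IntermediateField F M :=
  IntermediateField.fixedField (res K L F M).ker

theorem algebraMap_mem_LF (x : L) : algebraMap L M x ∈ LF K L F M := by
  rw [LF, IntermediateField.mem_fixedField_iff]
  intro σ hσ
  exact (mem_ker_res_iff K L F M σ).mp hσ x

/-- `L → L·F`. -/
@[reducible] noncomputable def algLF : Algebra L (LF K L F M) :=
  ((algebraMap L M).codRestrict (LF K L F M) (algebraMap_mem_LF K L F M)).toAlgebra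

attribute [local instance] algLF

theorem algebraMap_LF_apply (x : L) :
    ((algebraMap L (LF K L F M) x : LF K L F M) : M) = algebraMap L M x := rfl

theorem isScalarTower_L_LF_M : IsScalarTower L (LF K L F M) M :=
  IsScalarTower.of_algebraMap_eq (fun _ => rfl)

theorem isScalarTower_K_L_LF : IsScalarTower K L (LF K L F M) :=
  IsScalarTower.of_algebraMap_eq (fun x => Subtype.ext (by
    show algebraMap K M x = algebraMap L M (algebraMap K L x)
    rw [← IsScalarTower.algebraMap_apply]))

theorem fixes_LF_of_mem_ker [FiniteDimensional F M] {σ : M ≃ₐ[F] M}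
    (h : ∀ x : L, σ (algebraMap L M x) = algebraMap L M x) (e : LF K L F M) :
    σ (algebraMap (LF K L F M) M e) = algebraMap (LF K L F M) M e := by
  have h1 : σ ∈ (res K L F M).ker := (mem_ker_res_iff K L F M σ).mpr h
  have h2 : (e : M) ∈ IntermediateField.fixedField (res K L F M).ker := e.2
  rw [IntermediateField.mem_fixedField_iff] at h2
  exact h2 σ h1

end Field

section NF

variable (p : ℕ) [hpF : Fact p.Prime] (K L F M : Type*) [Field K] [NumberField K] [Field L]
  [NumberField L] [Field F] [NumberField F] [Field M] [NumberField M] [Algebra K L] [Algebra K F]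
  [Algebra L M] [Algebra F M] [Algebra K M] [IsScalarTower K L M] [IsScalarTower K F M]
  [IsGalois K L] [IsGalois K M]

attribute [local instance] algLF

theorem isGalois_LF : IsGalois F (LF K L F M) := by
  have hgal : IsGalois F M := IsGalois.tower_top_of_isGalois K F M
  exact IsGalois.of_fixedField_normal_subgroup (res K L F M).ker

theorem finrank_LF (hdeg : Module.finrank K L = p) (y : M ≃ₐ[F] M) (x₀ : L)
    (hy : y (algebraMap L M x₀) ≠ algebraMap L M x₀) :
    Module.finrank F (LF K L F M) = p := by
  have hgal : IsGalois F M := IsGalois.tower_top_of_isGalois K F M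
  rw [IntermediateField.finrank_eq_fixingSubgroup_index, LF,
    IntermediateField.fixingSubgroup_fixedField, Subgroup.index_ker]
  have hcard : Nat.card (L ≃ₐ[K] L) = p := by rw [IsGalois.card_aut_eq_finrank, hdeg]
  have hdvd : Nat.card (res K L F M).range ∣ p := hcard ▸ Subgroup.card_subgroup_dvd_card _
  have hne : Nat.card (res K L F M).range ≠ 1 := by
    rw [Ne, Subgroup.card_eq_one]
    intro hbot
    have h1 : res K L F M y ∈ (res K L F M).range := ⟨y, rfl⟩
    rw [hbot, Subgroup.mem_bot] at h1
    apply hy
    rw [← res_commutes K L F M, h1]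
    rfl
  exact (hpF.out.eq_one_or_self_of_dvd _ hdvd).resolve_left hne

theorem unram_LF (hunr : Unram K L) : Unram F (LF K L F M) := by
  have hgal : IsGalois F M := IsGalois.tower_top_of_isGalois K F M
  have t1 : IsScalarTower K L (LF K L F M) := isScalarTower_K_L_LF K L F M
  have t2 : IsScalarTower L (LF K L F M) M := isScalarTower_L_LF_M K L F M
  refine Unram.base_change (F := K) (M := L) (F' := F) (M' := LF K L F M) ?_ hunr
  intro τ hτ
  have h1 : ∀ x : L, (τ.liftNormal M) (algebraMap L M x) = algebraMap L M x := by
    intro x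
    have h2 := τ.liftNormal_commutes M (algebraMap L (LF K L F M) x)
    rw [hτ x] at h2
    exact h2
  refine AlgEquiv.ext fun e => ?_
  have h3 := fixes_LF_of_mem_ker K L F M h1 e
  rw [τ.liftNormal_commutes M e] at h3
  exact (algebraMap (LF K L F M) M).injective h3

end NF

end Fermat.Agent.S14_CrossField
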