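import Fermat.Agent.S14_FI0
import Fermat.Agent.S14_Frob

/-!
# Block FI of Project C (S14): `fi` modulo the two statements of `S14_Wrap`

`fi_of_wrap` is the final statement of block FI with the concrete forms of (Z3) (`hZ3`: outside
any finite set there is a non-split prime) and of INEQ (`hineq`: a subgroup of the class group
containing the classes of the split primes has index at most `p`) as hypotheses.
-/

set_option linter.unusedSectionVars false

namespace Fermat.Agent.S14_FI1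

open NumberField Fermat.Agent.S14_Defs Fermat.Agent.S14_Norm Fermat.Agent.S14_FI0
open scoped nonZeroDivisors

section Finite

variable {F : Type*} [Field F] [NumberField F]

/-- Only finitely many ideals contain a given nonzero integer. -/
theorem finite_setOf_natCast_mem (n : ℕ) (hn : n ≠ 0) :
    {q : Ideal (𝓞 F) | (n : 𝓞 F) ∈ q}.Finite := by
  have hn0 : (n : 𝓞 F) ≠ 0 := Nat.cast_ne_zero.2 hn
  have hN0 : Ideal.absNorm (Ideal.span {(n : 𝓞 F)}) ≠ 0 := by
    rw [Ne, Ideal.absNorm_eq_zero_iff, Ideal.span_singleton_eq_bot]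
    exact hn0
  refine (Ideal.finite_setOfPred_absNorm_le (S := 𝓞 F)
    (Ideal.absNorm (Ideal.span {(n : 𝓞 F)}))).subset ?_
  intro q hq
  have hle : Ideal.span {(n : 𝓞 F)} ≤ q := (Ideal.span_singleton_le_iff_mem q).2 hq
  exact Nat.le_of_dvd (Nat.pos_of_ne_zero hN0) (Ideal.absNorm_dvd_absNorm_of_le hle)

end Finite

section Main

variable (p : ℕ) [hpF : Fact p.Prime] (F M' N : Type*) [Field F] [NumberField F] [Field M']
  [NumberField M'] [Field N] [NumberField N] [Algebra F M'] [Algebra F N] [Algebra M' N]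
  [IsScalarTower F M' N] [IsGalois F M'] [IsGalois F N]

/-- **FI**, prime form, modulo the concrete forms of (Z3) and INEQ for `M'/F`. -/
theorem fi_of_wrap (h3 : 3 ≤ p) (hdeg : Module.finrank F M' = p) (hunr : Unram F M')
    (m m' : ℕ) (hm : 0 < m) (hm' : 0 < m') (hcop : m.Coprime m') (ξ ξ' : N)
    (hξ : IsPrimitiveRoot ξ m) (hξ' : IsPrimitiveRoot ξ' m')
    (h1 : ∀ σ : N ≃ₐ[F] N, σ ξ = ξ → ∀ x : M', σ (algebraMap M' N x) = algebraMap M' N x)
    (h2 : ∀ σ : N ≃ₐ[F] N, σ ξ' = ξ' → ∀ x : M', σ (algebraMap M' N x) = algebraMap M' N x)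
    (hZ3 : ∀ S : Finset (Ideal (𝓞 F)), ∃ q : Ideal (𝓞 F), q.IsPrime ∧ q ≠ ⊥ ∧ q ∉ S ∧
      ¬ IsSplit M' q)
    (hineq : ∀ H0 : Subgroup (ClassGroup (𝓞 F)),
      (∀ q : Ideal (𝓞 F), q.IsPrime → q ≠ ⊥ → IsSplit M' q → cls q ∈ H0) → H0.index ≤ p)
    (P Q : Ideal (𝓞 F)) [hPp : P.IsPrime] [hQp : Q.IsPrime] (hP : P ≠ ⊥) (hQ : Q ≠ ⊥)
    (hPm : (Ideal.absNorm P).Coprime (m * m')) (hQm : (Ideal.absNorm Q).Coprime (m * m'))
    (σP σQ : M' ≃ₐ[F] M') (hσP : IsFrob σP P) (hσQ : IsFrob σQ Q) (e : ℕ)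
    (he : σP = σQ ^ e) : cls P * (cls Q ^ e)⁻¹ ∈ S14_Defs.normSubgroup F M' := by
  classical
  have hp : p.Prime := hpF.out
  -- the Galois group is commutative
  have hcard : Nat.card (M' ≃ₐ[F] M') = p := by rw [IsGalois.card_aut_eq_finrank, hdeg]
  have hab : ∀ σ τ : M' ≃ₐ[F] M', σ * τ = τ * σ := by
    have hcyc : IsCyclic (M' ≃ₐ[F] M') := isCyclic_of_prime_card hcard
    intro σ τ
    exact (IsCyclic.commGroup (α := M' ≃ₐ[F] M')).mul_comm σ τ
  -- existence of Frobenius elements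
  have hex : ∀ q : Ideal (𝓞 F), q.IsPrime → q ≠ ⊥ → ∃ σ : M' ≃ₐ[F] M', IsFrob σ q :=
    fun q hq hq0 => S14_Frob.exists_isFrob F M' hab q hq0
  -- a prime, prime to `m m'`, with non-trivial Frobenius
  have hn0 : m * m' ≠ 0 := mul_ne_zero hm.ne' hm'.ne'
  have hns : ∃ q : Ideal (𝓞 F), q.IsPrime ∧ q ≠ ⊥ ∧ ((m * m' : ℕ) : 𝓞 F) ∉ q ∧
      ¬ IsFrob (1 : M' ≃ₐ[F] M') q := by
    obtain ⟨q, hq, hq0, hqS, hqs⟩ := hZ3 (finite_setOf_natCast_mem (F := F) (m * m') hn0).toFinset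
    refine ⟨q, hq, hq0, ?_, ?_⟩
    · intro hmem
      exact hqS ((Set.Finite.mem_toFinset _).2 hmem)
    · intro h1'
      exact hqs ((S14_Frob.isFrob_one_iff_isSplit q hq0).1 h1')
  -- the norm index inequality
  have hidx : (S14_Defs.normSubgroup F M').index ≤ p := by
    apply hineq
    intro q hq hq0 hsplit
    obtain ⟨Q', hQ', hQ'0, hQ'q⟩ := exists_prime_over (M := M') q hq0
    rw [← S14_Frob.IsSplit.relNorm_eq hq0 hsplit Q' hQ'q]
    exact cls_relNorm_mem_normSubgroup F M' hQ'0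
  exact fi0 p F M' N h3 hdeg hunr m m' hm hm' hcop ξ ξ' hξ hξ' h1 h2 hex hns hidx P Q hP hQ
    hPm hQm σP σQ hσP hσQ e he

end Main

end Fermat.Agent.S14_FI1
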