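/-
S14, prime bookkeeping (`e · f · g = [M : F]`) for a Galois extension `M / F` of number fields,
in the vocabulary of `S14_Defs` (helper8).
-/
import Mathlib
import Fermat.Agent.S14_Defs

namespace Fermat.Agent.S14_Efg

open NumberField Fermat.Agent.S14_Defs
open scoped Pointwise

section General

variable {F M : Type*} [Field F] [NumberField F] [Field M] [NumberField M] [Algebra F M]

/-- A prime of `𝓞 M` above a nonzero prime of `𝓞 F` is nonzero. -/
theorem ne_bot_of_liesOver (q : Ideal (𝓞 F)) (hq : q ≠ ⊥) (Q : Ideal (𝓞 M)) [Q.LiesOver q] :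
    Q ≠ ⊥ := by
  intro h
  apply hq
  have := Ideal.over_def Q q
  rw [this, h]
  exact Ideal.under_bot _ _

/-- Under `Unram`, the inertia group at a nonzero prime is trivial. -/
theorem card_inertia_eq_one (hunr : Unram F M) (Q : Ideal (𝓞 M)) [Q.IsPrime] (hQ : Q ≠ ⊥) :
    Nat.card (Q.inertia (M ≃ₐ[F] M)) = 1 := by
  have : Q.inertia (M ≃ₐ[F] M) = ⊥ := by
    rw [eq_bot_iff]
    intro σ hσ
    rw [Subgroup.mem_bot]
    exact hunr Q inferInstance hQ σ hσ
  rw [this]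
  exact Subgroup.card_bot

/-- (E1) The absolute norm of a prime `Q` above `q` is `N(q) ^ f(Q | q)`. -/
theorem absNorm_eq_pow_inertiaDeg (q : Ideal (𝓞 F)) [q.IsPrime] (hq : q ≠ ⊥) (Q : Ideal (𝓞 M))
    [Q.IsPrime] [Q.LiesOver q] :
    Ideal.absNorm Q = Ideal.absNorm q ^ Q.inertiaDeg (𝓞 F) := by
  have hqmax : q.IsMaximal := Ideal.IsPrime.isMaximal inferInstance hq
  have hQmax : Q.IsMaximal := Ideal.IsPrime.isMaximal inferInstance (ne_bot_of_liesOver q hq Q)
  rw [← Ideal.inertiaDeg'_eq_inertiaDeg q Q]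
  exact Ideal.absNorm_eq_pow_inertiaDeg'_of_liesOver Q q inferInstance hq

/-- The absolute norm of a nonzero prime is at least `2`. -/
theorem two_le_absNorm (q : Ideal (𝓞 F)) [q.IsPrime] (hq : q ≠ ⊥) : 2 ≤ Ideal.absNorm q := by
  have h0 : Ideal.absNorm q ≠ 0 := by
    rw [Ne, Ideal.absNorm_eq_zero_iff]
    exact hq
  have h1 : Ideal.absNorm q ≠ 1 := by
    rw [Ne, Ideal.absNorm_eq_one_iff]
    exact Ideal.IsPrime.ne_top inferInstance
  omega

end General

variable (F M : Type*) [Field F] [NumberField F] [Field M] [NumberField M] [Algebra F M]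
  [IsGalois F M]

/-- The set of primes of `𝓞 M` above `q` is finite. -/
theorem finite_primesOver (q : Ideal (𝓞 F)) (hq : q ≠ ⊥) : (q.primesOver (𝓞 M)).Finite :=
  Algebra.QuasiFinite.finite_primesOver q

/-- (E3) The fundamental identity `g · e · f = [M : F]`. -/
theorem ncard_mul_ramificationIdxIn_mul_inertiaDegIn (q : Ideal (𝓞 F)) [q.IsPrime] :
    (q.primesOver (𝓞 M)).ncard * (q.ramificationIdxIn (𝓞 M) * q.inertiaDegIn (𝓞 M)) =
      Module.finrank F M := by
  rw [Ideal.ncard_primesOver_mul_ramificationIdxIn_mul_inertiaDegIn q (𝓞 M) (M ≃ₐ[F] M),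
    IsGalois.card_aut_eq_finrank]

/-- There are at most `[M : F]` primes above `q`. -/
theorem ncard_primesOver_le (q : Ideal (𝓞 F)) [q.IsPrime] (hq : q ≠ ⊥) :
    (q.primesOver (𝓞 M)).ncard ≤ Module.finrank F M := by
  have h := ncard_mul_ramificationIdxIn_mul_inertiaDegIn F M q
  have he : q.ramificationIdxIn (𝓞 M) ≠ 0 := Ideal.ramificationIdxIn_ne_zero (M ≃ₐ[F] M)
  have hf : q.inertiaDegIn (𝓞 M) ≠ 0 := Ideal.inertiaDegIn_ne_zero (M ≃ₐ[F] M)
  have hpos : 0 < q.ramificationIdxIn (𝓞 M) * q.inertiaDegIn (𝓞 M) :=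
    Nat.pos_of_ne_zero (mul_ne_zero he hf)
  calc (q.primesOver (𝓞 M)).ncard ≤
      (q.primesOver (𝓞 M)).ncard * (q.ramificationIdxIn (𝓞 M) * q.inertiaDegIn (𝓞 M)) :=
        Nat.le_mul_of_pos_right _ hpos
    _ = Module.finrank F M := h

/-- (E1') All primes above `q` have absolute norm `N(q) ^ f`, `f = inertiaDegIn`. -/
theorem absNorm_eq_pow_inertiaDegIn (q : Ideal (𝓞 F)) [q.IsPrime] (hq : q ≠ ⊥)
    (Q : Ideal (𝓞 M)) [Q.IsPrime] (hQ : Q.under (𝓞 F) = q) :
    Ideal.absNorm Q = Ideal.absNorm q ^ q.inertiaDegIn (𝓞 M) := by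
  have : Q.LiesOver q := ⟨hQ.symm⟩
  rw [Ideal.inertiaDegIn_eq_inertiaDeg q Q (M ≃ₐ[F] M)]
  exact absNorm_eq_pow_inertiaDeg q hq Q

/-- (E5) A prime either splits completely or all the primes above it have norm `≥ N(q)²`. -/
theorem isSplit_or_sq_le (q : Ideal (𝓞 F)) [q.IsPrime] (hq : q ≠ ⊥) :
    IsSplit M q ∨ ∀ Q : Ideal (𝓞 M), Q.IsPrime → Q.under (𝓞 F) = q →
      Ideal.absNorm q ^ 2 ≤ Ideal.absNorm Q := by
  have hf : q.inertiaDegIn (𝓞 M) ≠ 0 := Ideal.inertiaDegIn_ne_zero (M ≃ₐ[F] M)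
  rcases Nat.lt_or_ge (q.inertiaDegIn (𝓞 M)) 2 with h | h
  · left
    intro Q hQp hQ
    have := absNorm_eq_pow_inertiaDegIn F M q hq Q hQ
    rw [this, show q.inertiaDegIn (𝓞 M) = 1 by omega, pow_one]
  · right
    intro Q hQp hQ
    have := absNorm_eq_pow_inertiaDegIn F M q hq Q hQ
    rw [this]
    exact Nat.pow_le_pow_right (by have := two_le_absNorm q hq; omega) h

/-- If `q` splits completely then `f = 1`. -/
theorem inertiaDegIn_eq_one_of_isSplit (q : Ideal (𝓞 F)) [q.IsPrime] (hq : q ≠ ⊥)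
    (hs : IsSplit M q) : q.inertiaDegIn (𝓞 M) = 1 := by
  obtain ⟨⟨Q, hQp, hQo⟩⟩ := (inferInstance : Nonempty (q.primesOver (𝓞 M)))
  have hQ : Q.under (𝓞 F) = q := (Ideal.over_def Q q).symm
  have h1 := absNorm_eq_pow_inertiaDegIn F M q hq Q hQ
  rw [hs Q hQp hQ] at h1
  have h2 : Ideal.absNorm q ^ 1 = Ideal.absNorm q ^ q.inertiaDegIn (𝓞 M) := by
    rw [pow_one]
    exact h1
  exact (Nat.pow_right_injective (two_le_absNorm q hq) h2).symm

/-- (E2) Under `Unram`, `e = 1`. -/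
theorem ramificationIdxIn_eq_one (hunr : Unram F M) (q : Ideal (𝓞 F)) [q.IsPrime] (hq : q ≠ ⊥) :
    q.ramificationIdxIn (𝓞 M) = 1 := by
  obtain ⟨⟨Q, hQp, hQo⟩⟩ := (inferInstance : Nonempty (q.primesOver (𝓞 M)))
  have hqmax : q.IsMaximal := Ideal.IsPrime.isMaximal inferInstance hq
  have : Finite (𝓞 F ⧸ q) := Ideal.finiteQuotientOfFreeOfNeBot q hq
  have : Finite q.ResidueField := inferInstance
  rw [← Ideal.card_inertia_eq_ramificationIdxIn (G := M ≃ₐ[F] M) q Q]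
  exact card_inertia_eq_one hunr Q (ne_bot_of_liesOver q hq Q)

/-- (E4) Under `Unram`, a completely split prime has exactly `[M : F]` primes above it. -/
theorem ncard_primesOver_of_isSplit (hunr : Unram F M) (q : Ideal (𝓞 F)) [q.IsPrime]
    (hq : q ≠ ⊥) (hs : IsSplit M q) : (q.primesOver (𝓞 M)).ncard = Module.finrank F M := by
  have h := ncard_mul_ramificationIdxIn_mul_inertiaDegIn F M q
  rwa [ramificationIdxIn_eq_one F M hunr q hq, inertiaDegIn_eq_one_of_isSplit F M q hq hs,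
    mul_one, mul_one] at h

/-- Under `Unram`: `g · f = [M : F]`. -/
theorem ncard_mul_inertiaDegIn (hunr : Unram F M) (q : Ideal (𝓞 F)) [q.IsPrime] (hq : q ≠ ⊥) :
    (q.primesOver (𝓞 M)).ncard * q.inertiaDegIn (𝓞 M) = Module.finrank F M := by
  have h := ncard_mul_ramificationIdxIn_mul_inertiaDegIn F M q
  rwa [ramificationIdxIn_eq_one F M hunr q hq, one_mul] at h

end Fermat.Agent.S14_Efg
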