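import Fermat.Agent.S14_ZetaSplit

/-!
# S14_Ineq (helper4): the norm index inequality, abstract analytic form

Project C (S14), block INEQ.  Let `F`, `M` be number fields, `H0` a subgroup of the class group
of `F`, and assume that the primes of `M` "lie over" primes of `F` (a map `π` with fibres of
size at most `p`) in such a way that every prime `Q` of `M` either has the same norm as `π Q`
and the class of `π Q` lies in `H0`, or has norm at least `N(π Q)^2`.  If moreover the partial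
zeta functions of the ideal classes of `F` differ by bounded amounts near `s = 1` (block COUNT),
then `[Cl(F) : H0] ≤ p`.

Proof: characters of `Cl(F)/H0` (Mathlib's `AddChar`), the L-functions `L(s, χ)` as sums over
ideals, their Euler products, positivity of `∏_χ (1 - χ(q) x)⁻¹` via `exp`/`log`, and the simple
poles of `ζ_F`, `ζ_M` at `s = 1`.
-/

set_option autoImplicit false

noncomputable section

open Filter Topology NumberField IsDedekindDomain
open scoped nonZeroDivisors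

namespace Fermat.Agent.S14_Zeta

/-! ### The local factor -/

/-- For a finite abelian group `G`, `g : G` and `0 ≤ x < 1`, the product over all characters
`∏_ψ (1 - ψ(g) x)⁻¹` is a real number `≥ 1`. -/
theorem exists_real_prod_addChar {G : Type*} [AddCommGroup G] [Finite G] (g : G) {x : ℝ}
    (hx0 : 0 ≤ x) (hx1 : x < 1) :
    ∃ R : ℝ, 1 ≤ R ∧ ∏ ψ : AddChar G ℂ, (1 - ψ g * (x : ℂ))⁻¹ = (R : ℂ) := by
  classical
  cases nonempty_fintype G
  have hz : ∀ ψ : AddChar G ℂ, ‖ψ g * (x : ℂ)‖ < 1 := by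
    intro ψ
    rw [norm_mul, AddChar.norm_apply, one_mul, Complex.norm_real, Real.norm_eq_abs,
      abs_of_nonneg hx0]
    exact hx1
  have h1 : ∀ ψ : AddChar G ℂ,
      (1 - ψ g * (x : ℂ))⁻¹ = Complex.exp (-Complex.log (1 - ψ g * (x : ℂ))) := by
    intro ψ
    have hne : 1 - ψ g * (x : ℂ) ≠ 0 := by
      intro h
      have h2 : ψ g * (x : ℂ) = 1 := (sub_eq_zero.mp h).symm
      have h3 := hz ψ
      rw [h2, norm_one] at h3
      exact lt_irrefl _ h3
    rw [Complex.exp_neg, Complex.exp_log hne]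
  have h2 : ∀ ψ : AddChar G ℂ, HasSum (fun n : ℕ => (ψ g * (x : ℂ)) ^ n / n)
      (-Complex.log (1 - ψ g * (x : ℂ))) :=
    fun ψ => Complex.hasSum_taylorSeries_neg_log (hz ψ)
  have h3 : HasSum (fun n : ℕ => ∑ ψ : AddChar G ℂ, (ψ g * (x : ℂ)) ^ n / n)
      (∑ ψ : AddChar G ℂ, -Complex.log (1 - ψ g * (x : ℂ))) :=
    hasSum_sum fun ψ _ => h2 ψ
  set r : ℕ → ℝ :=
    fun n => (if n • g = 0 then (Fintype.card G : ℝ) else 0) * x ^ n / n with hr
  have h4 : ∀ n : ℕ, ∑ ψ : AddChar G ℂ, (ψ g * (x : ℂ)) ^ n / n = ((r n : ℝ) : ℂ) := by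
    intro n
    have h5 : ∀ ψ : AddChar G ℂ,
        (ψ g * (x : ℂ)) ^ n / n = ψ (n • g) * ((x : ℂ) ^ n / n) := by
      intro ψ
      rw [AddChar.map_nsmul_eq_pow, mul_pow, mul_div_assoc]
    rw [Finset.sum_congr rfl (fun ψ _ => h5 ψ), ← Finset.sum_mul, AddChar.sum_apply_eq_ite]
    simp only [hr]
    split_ifs <;> push_cast <;> ring
  have h6 : HasSum (fun n : ℕ => ((r n : ℝ) : ℂ))
      (∑ ψ : AddChar G ℂ, -Complex.log (1 - ψ g * (x : ℂ))) := by
    have h7 : (fun n : ℕ => ∑ ψ : AddChar G ℂ, (ψ g * (x : ℂ)) ^ n / n)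
        = fun n : ℕ => ((r n : ℝ) : ℂ) := funext h4
    rw [← h7]
    exact h3
  have hr0 : ∀ n, 0 ≤ r n := by
    intro n
    simp only [hr]
    split_ifs <;> positivity
  have h8 : ∑ ψ : AddChar G ℂ, -Complex.log (1 - ψ g * (x : ℂ)) = ((∑' n, r n : ℝ) : ℂ) := by
    rw [Complex.ofReal_tsum]
    exact h6.tsum_eq.symm
  refine ⟨Real.exp (∑' n, r n), Real.one_le_exp (tsum_nonneg hr0), ?_⟩
  rw [Finset.prod_congr rfl (fun ψ _ => h1 ψ), ← Complex.exp_sum, h8, Complex.ofReal_exp]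

/-! ### Characters of `Cl(F)/H0` and their L-functions -/

variable (F : Type*) [Field F] [NumberField F] (H0 : Subgroup (ClassGroup (𝓞 F)))

/-- The class of a nonzero ideal in `Cl(F)/H0`, written additively. -/
def clsA (a : (Ideal (𝓞 F))⁰) : Additive (ClassGroup (𝓞 F) ⧸ H0) :=
  Additive.ofMul (QuotientGroup.mk (ClassGroup.mk0 a))

theorem clsA_one : clsA F H0 1 = 0 := by
  simp [clsA]

theorem clsA_mul (a b : (Ideal (𝓞 F))⁰) : clsA F H0 (a * b) = clsA F H0 a + clsA F H0 b := by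
  simp [clsA]

theorem clsA_eq_zero_iff {a : (Ideal (𝓞 F))⁰} :
    clsA F H0 a = 0 ↔ ClassGroup.mk0 a ∈ H0 := by
  rw [clsA, ← ofMul_one, Additive.ofMul.injective.eq_iff, QuotientGroup.eq_one_iff]

/-- The completely multiplicative function on ideals attached to a character of `Cl(F)/H0`. -/
def chi (ψ : AddChar (Additive (ClassGroup (𝓞 F) ⧸ H0)) ℂ) : (Ideal (𝓞 F))⁰ →* ℂ where
  toFun a := ψ (clsA F H0 a)
  map_one' := by rw [clsA_one, AddChar.map_zero_eq_one]
  map_mul' a b := by rw [clsA_mul, AddChar.map_add_eq_mul]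

theorem chi_apply (ψ : AddChar (Additive (ClassGroup (𝓞 F) ⧸ H0)) ℂ) (a : (Ideal (𝓞 F))⁰) :
    chi F H0 ψ a = ψ (clsA F H0 a) := rfl

theorem norm_chi (ψ : AddChar (Additive (ClassGroup (𝓞 F) ⧸ H0)) ℂ) (a : (Ideal (𝓞 F))⁰) :
    ‖chi F H0 ψ a‖ = 1 :=
  AddChar.norm_apply ψ _

/-- The L-function of a character of `Cl(F)/H0` at a real argument. -/
def Lfun (ψ : AddChar (Additive (ClassGroup (𝓞 F) ⧸ H0)) ℂ) (s : ℝ) : ℂ :=
  ∑' a : (Ideal (𝓞 F))⁰, chi F H0 ψ a * ((wt F s a : ℝ) : ℂ)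

theorem Lfun_zero (s : ℝ) : Lfun F H0 0 s = ((zetaR F s : ℝ) : ℂ) := by
  rw [Lfun, zetaR, Complex.ofReal_tsum]
  refine tsum_congr fun a => ?_
  rw [chi_apply, AddChar.zero_apply, one_mul]

theorem card_addChar_eq_index :
    Fintype.card (AddChar (Additive (ClassGroup (𝓞 F) ⧸ H0)) ℂ) = H0.index := by
  classical
  haveI : Fintype (Additive (ClassGroup (𝓞 F) ⧸ H0)) := Fintype.ofFinite _
  rw [AddChar.card_eq, ← Nat.card_eq_fintype_card]
  exact Nat.card_congr Additive.toMul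

theorem Lfun_eq_sum {s : ℝ} (hs : 1 < s) (ψ : AddChar (Additive (ClassGroup (𝓞 F) ⧸ H0)) ℂ) :
    Lfun F H0 ψ s = ∑ c : ClassGroup (𝓞 F),
      ψ (Additive.ofMul (QuotientGroup.mk c)) * ((classZeta F c s : ℝ) : ℂ) := by
  have h1 := summable_mul_wt F (fun a => chi F H0 ψ a) (fun a => (norm_chi F H0 ψ a).le) hs
  rw [← Equiv.summable_iff
    (Equiv.sigmaFiberEquiv (ClassGroup.mk0 : (Ideal (𝓞 F))⁰ → ClassGroup (𝓞 F)))] at h1
  rw [Lfun, ← Equiv.tsum_eq
    (Equiv.sigmaFiberEquiv (ClassGroup.mk0 : (Ideal (𝓞 F))⁰ → ClassGroup (𝓞 F)))]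
  refine (Summable.tsum_sigma' (fun c => h1.sigma_factor c) h1).trans ?_
  rw [tsum_fintype]
  refine Finset.sum_congr rfl fun c _ => ?_
  rw [classZeta, Complex.ofReal_tsum, ← tsum_mul_left]
  refine tsum_congr fun a => ?_
  show chi F H0 ψ a.1 * ((wt F s a.1 : ℝ) : ℂ) = _
  rw [chi_apply, clsA, a.2]

theorem sum_addChar_class_eq_zero {ψ : AddChar (Additive (ClassGroup (𝓞 F) ⧸ H0)) ℂ}
    (hψ : ψ ≠ 0) :
    ∑ c : ClassGroup (𝓞 F),
      ψ (Additive.ofMul (QuotientGroup.mk c : ClassGroup (𝓞 F) ⧸ H0)) = 0 := by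
  obtain ⟨x, hx⟩ := AddChar.ne_zero_iff.mp hψ
  obtain ⟨c₀, hc₀⟩ := QuotientGroup.mk_surjective (Additive.toMul x)
  refine eq_zero_of_mul_eq_self_left hx ?_
  rw [Finset.mul_sum]
  refine Fintype.sum_equiv (Equiv.mulLeft c₀) _ _ fun c => ?_
  rw [Equiv.coe_mulLeft, QuotientGroup.mk_mul, ofMul_mul, AddChar.map_add_eq_mul, hc₀,
    ofMul_toMul]

theorem norm_Lfun_le {s : ℝ} (hs : 1 < s) (hs2 : s ≤ 2)
    {ψ : AddChar (Additive (ClassGroup (𝓞 F) ⧸ H0)) ℂ} (hψ : ψ ≠ 0) {C' : ℝ}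
    (hC' : ∀ (c c' : ClassGroup (𝓞 F)) (s : ℝ), 1 < s → s ≤ 2 →
      |classZeta F c s - classZeta F c' s| ≤ C') :
    ‖Lfun F H0 ψ s‖ ≤ Fintype.card (ClassGroup (𝓞 F)) * C' := by
  have h1 : Lfun F H0 ψ s = ∑ c : ClassGroup (𝓞 F),
      ψ (Additive.ofMul (QuotientGroup.mk c)) *
        (((classZeta F c s - classZeta F 1 s : ℝ)) : ℂ) := by
    rw [Lfun_eq_sum F H0 hs ψ]
    have h2 := sum_addChar_class_eq_zero F H0 hψ
    simp only [Complex.ofReal_sub, mul_sub, Finset.sum_sub_distrib, ← Finset.sum_mul, h2,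
      zero_mul, sub_zero]
  rw [h1]
  refine (norm_sum_le _ _).trans ?_
  refine (Finset.sum_le_sum (g := fun _ => C') (fun c _ => ?_)).trans_eq ?_
  · rw [norm_mul, AddChar.norm_apply, one_mul, Complex.norm_real, Real.norm_eq_abs]
    exact hC' c 1 s hs hs2
  · rw [Finset.sum_const, Finset.card_univ, nsmul_eq_mul]

/-- The key lower bound: the product of the L-functions dominates the partial Euler products
of `ζ_F` over primes whose class lies in `H0`, to the power `[Cl(F) : H0]`. -/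
theorem prod_eulerFactor_pow_le_norm_prod_Lfun {s : ℝ} (hs : 1 < s)
    (T₀ : Finset (HeightOneSpectrum (𝓞 F)))
    (hT₀ : ∀ q ∈ T₀, ClassGroup.mk0 (primeIdeal q) ∈ H0) :
    (∏ q ∈ T₀, eulerFactor F s q) ^ H0.index
      ≤ ‖∏ ψ : AddChar (Additive (ClassGroup (𝓞 F) ⧸ H0)) ℂ, Lfun F H0 ψ s‖ := by
  classical
  set P : HeightOneSpectrum (𝓞 F) → ℂ := fun q =>
    ∏ ψ : AddChar (Additive (ClassGroup (𝓞 F) ⧸ H0)) ℂ,
      (1 - ψ (clsA F H0 (primeIdeal q)) * ((wt F s (primeIdeal q) : ℝ) : ℂ))⁻¹ with hP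
  have hreal : ∀ q, ∃ R : ℝ, 1 ≤ R ∧ P q = (R : ℂ) := fun q =>
    exists_real_prod_addChar (clsA F H0 (primeIdeal q)) (wt_nonneg F s _)
      (wt_primeIdeal_lt_one F (by linarith) q)
  choose R hR1 hPR using hreal
  have hsplit : ∀ q ∈ T₀, R q = eulerFactor F s q ^ H0.index := by
    intro q hq
    have h0 : clsA F H0 (primeIdeal q) = 0 := (clsA_eq_zero_iff F H0).mpr (hT₀ q hq)
    have h1 : P q = ((eulerFactor F s q ^ H0.index : ℝ) : ℂ) := by
      simp only [hP, h0, AddChar.map_zero_eq_one, one_mul, Finset.prod_const, Finset.card_univ]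
      rw [card_addChar_eq_index, eulerFactor_eq]
      push_cast
      rfl
    exact Complex.ofReal_injective ((hPR q).symm.trans h1)
  have hlim : Tendsto (fun T : Finset (HeightOneSpectrum (𝓞 F)) => ∏ q ∈ T, P q) atTop
      (𝓝 (∏ ψ : AddChar (Additive (ClassGroup (𝓞 F) ⧸ H0)) ℂ, Lfun F H0 ψ s)) := by
    have h1 := tendsto_finset_prod
      (Finset.univ : Finset (AddChar (Additive (ClassGroup (𝓞 F) ⧸ H0)) ℂ))
      (fun ψ _ => tendsto_prod_euler F (chi F H0 ψ) (fun a => (norm_chi F H0 ψ a).le) hs)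
    refine h1.congr fun T => ?_
    rw [Finset.prod_comm]
    rfl
  have hlim2 : Tendsto (fun T : Finset (HeightOneSpectrum (𝓞 F)) => ∏ q ∈ T, R q) atTop
      (𝓝 ‖∏ ψ : AddChar (Additive (ClassGroup (𝓞 F) ⧸ H0)) ℂ, Lfun F H0 ψ s‖) := by
    refine hlim.norm.congr fun T => ?_
    rw [Finset.prod_congr rfl (fun q _ => hPR q), ← Complex.ofReal_prod, Complex.norm_real,
      Real.norm_eq_abs,
      abs_of_nonneg (Finset.prod_nonneg fun q _ => le_trans zero_le_one (hR1 q))]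
  refine ge_of_tendsto hlim2 ?_
  filter_upwards [eventually_ge_atTop T₀] with T hT
  calc (∏ q ∈ T₀, eulerFactor F s q) ^ H0.index = ∏ q ∈ T₀, R q := by
        rw [← Finset.prod_pow]
        exact (Finset.prod_congr rfl hsplit).symm
    _ ≤ ∏ q ∈ T, R q :=
        Finset.prod_le_prod_of_subset_of_one_le hT
          (fun q _ => le_trans zero_le_one (hR1 q)) (fun q _ _ => hR1 q)

/-- **INEQ**, abstract form: the norm index inequality. -/
theorem index_le_of_split (M : Type*) [Field M] [NumberField M] (p : ℕ) (hp : 0 < p)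
    (H0 : Subgroup (ClassGroup (𝓞 F)))
    (π : HeightOneSpectrum (𝓞 M) → HeightOneSpectrum (𝓞 F))
    (hfib : ∀ q, (π ⁻¹' {q}).Finite ∧ (π ⁻¹' {q}).ncard ≤ p)
    (hnorm : ∀ Q, (ClassGroup.mk0 (primeIdeal (π Q)) ∈ H0 ∧
        Ideal.absNorm Q.asIdeal = Ideal.absNorm (π Q).asIdeal) ∨
      Ideal.absNorm (π Q).asIdeal ^ 2 ≤ Ideal.absNorm Q.asIdeal)
    (hZ5 : ∃ C' : ℝ, ∀ (c c' : ClassGroup (𝓞 F)) (s : ℝ), 1 < s → s ≤ 2 →
      |classZeta F c s - classZeta F c' s| ≤ C') :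
    H0.index ≤ p := by
  classical
  obtain ⟨C', hC'⟩ := hZ5
  obtain ⟨C, hC, hup⟩ := exists_zetaR_le F
  obtain ⟨c, hc, hlow⟩ := exists_le_zetaR M
  have hZ2 : 0 ≤ zetaR F 2 := (zetaR_pos F (by norm_num)).le
  set B : ℝ := Fintype.card (ClassGroup (𝓞 F)) * |C'| with hB
  have hB0 : 0 ≤ B := by positivity
  set K₀ : ℝ := ∏ _ψ ∈ (Finset.univ :
    Finset (AddChar (Additive (ClassGroup (𝓞 F) ⧸ H0)) ℂ)).erase 0, B with hK₀
  have hK₀0 : 0 ≤ K₀ := Finset.prod_nonneg fun _ _ => hB0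
  have hprod : ∀ s : ℝ, 1 < s → s ≤ 2 →
      ‖∏ ψ : AddChar (Additive (ClassGroup (𝓞 F) ⧸ H0)) ℂ, Lfun F H0 ψ s‖
        ≤ C / (s - 1) * K₀ := by
    intro s hs hs2
    have hs1 : 0 < s - 1 := by linarith
    rw [norm_prod, ← Finset.mul_prod_erase Finset.univ _
      (Finset.mem_univ (0 : AddChar (Additive (ClassGroup (𝓞 F) ⧸ H0)) ℂ))]
    refine mul_le_mul ?_ ?_ (Finset.prod_nonneg fun _ _ => norm_nonneg _) (by positivity)
    · rw [Lfun_zero, Complex.norm_real, Real.norm_eq_abs, abs_of_nonneg (zetaR_pos F hs).le]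
      exact hup s hs hs2
    · refine Finset.prod_le_prod (fun _ _ => norm_nonneg _) (fun ψ hψ => ?_)
      refine (norm_Lfun_le F H0 hs hs2 (Finset.ne_of_mem_erase hψ) hC').trans ?_
      exact mul_le_mul_of_nonneg_left (le_abs_self C') (Nat.cast_nonneg _)
  have key : ∀ s : ℝ, 1 < s → s ≤ 2 →
      zetaR M s ^ H0.index ≤ (zetaR F 2 ^ p) ^ H0.index * (C / (s - 1) * K₀) ^ p := by
    intro s hs hs2
    have hs0 : 0 < s := by linarith
    have hT' : ∀ T' : Finset (HeightOneSpectrum (𝓞 M)),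
        (∏ Q ∈ T', eulerFactor M s Q) ^ H0.index
          ≤ (zetaR F 2 ^ p) ^ H0.index * (C / (s - 1) * K₀) ^ p := by
      intro T'
      obtain ⟨T, hT, hle⟩ := exists_split_bound F M p
        {q | ClassGroup.mk0 (primeIdeal q) ∈ H0} π hfib hnorm hs T'
      have h1 := prod_eulerFactor_pow_le_norm_prod_Lfun F H0 hs T hT
      have h2 := h1.trans (hprod s hs hs2)
      have hE0 : 0 ≤ ∏ q ∈ T, eulerFactor F s q :=
        Finset.prod_nonneg fun q _ => (eulerFactor_pos F hs0 q).le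
      calc (∏ Q ∈ T', eulerFactor M s Q) ^ H0.index
          ≤ (zetaR F 2 ^ p * (∏ q ∈ T, eulerFactor F s q) ^ p) ^ H0.index :=
            pow_le_pow_left₀ (Finset.prod_nonneg fun Q _ => (eulerFactor_pos M hs0 Q).le)
              hle _
        _ = (zetaR F 2 ^ p) ^ H0.index * ((∏ q ∈ T, eulerFactor F s q) ^ H0.index) ^ p := by
            rw [mul_pow, ← pow_mul (∏ q ∈ T, eulerFactor F s q),
              ← pow_mul (∏ q ∈ T, eulerFactor F s q), mul_comm p]
        _ ≤ (zetaR F 2 ^ p) ^ H0.index * (C / (s - 1) * K₀) ^ p :=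
            mul_le_mul_of_nonneg_left (pow_le_pow_left₀ (pow_nonneg hE0 _) h2 p)
              (pow_nonneg (pow_nonneg hZ2 p) _)
    exact le_of_tendsto' ((tendsto_prod_eulerFactor M hs).pow _) hT'
  by_contra hcon
  rw [not_le] at hcon
  obtain ⟨k, hk⟩ : ∃ k, H0.index = p + k + 1 := ⟨H0.index - p - 1, by omega⟩
  set K₁ : ℝ := (zetaR F 2 ^ p) ^ H0.index * (C * K₀) ^ p with hK₁
  have hK₁0 : 0 ≤ K₁ := by positivity
  have main : ∀ t : ℝ, 0 < t → t ≤ 1 → c ^ H0.index ≤ K₁ * t := by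
    intro t ht ht1
    have h1 := key (1 + t) (by linarith) (by linarith)
    have h2 := hlow (1 + t) (by linarith) (by linarith)
    rw [add_sub_cancel_left] at h1 h2
    have h3 : (c / t) ^ H0.index ≤ (zetaR F 2 ^ p) ^ H0.index * (C / t * K₀) ^ p :=
      (pow_le_pow_left₀ (by positivity) h2 _).trans h1
    have h4 : (zetaR F 2 ^ p) ^ H0.index * (C / t * K₀) ^ p = K₁ / t ^ p := by
      rw [hK₁, show C / t * K₀ = C * K₀ / t by ring, div_pow, mul_div_assoc]
    rw [h4, div_pow, div_le_div_iff₀ (pow_pos ht _) (pow_pos ht p)] at h3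
    have h5 : t ^ H0.index = t ^ k * t * t ^ p := by
      rw [hk]
      ring
    have h6 : c ^ H0.index * t ^ p ≤ (K₁ * (t ^ k * t)) * t ^ p := by
      rw [h5] at h3
      linarith
    have h7 := le_of_mul_le_mul_right h6 (pow_pos ht p)
    have h8 : t ^ k ≤ 1 := pow_le_one₀ ht.le ht1
    calc c ^ H0.index ≤ K₁ * (t ^ k * t) := h7
      _ ≤ K₁ * (1 * t) :=
          mul_le_mul_of_nonneg_left (mul_le_mul_of_nonneg_right h8 ht.le) hK₁0
      _ = K₁ * t := by rw [one_mul]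
  have hcd : 0 < c ^ H0.index := pow_pos hc _
  by_cases hK : K₁ ≤ c ^ H0.index / 2
  · have := main 1 one_pos le_rfl
    linarith
  · rw [not_le] at hK
    have hKpos : 0 < K₁ := lt_trans (by positivity) hK
    have h9 := main (c ^ H0.index / (2 * K₁)) (by positivity)
      (by rw [div_le_one (by positivity)]; linarith)
    have h10 : K₁ * (c ^ H0.index / (2 * K₁)) = c ^ H0.index / 2 := by
      field_simp
    rw [h10] at h9
    linarith

end Fermat.Agent.S14_Zeta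

end
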