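/-
Project C (S14), block COUNT-F (helper5).

The frontier of Mathlib's `NumberField.mixedEmbedding.fundamentalCone.normLeOne K` is covered by
finitely many Lipschitz images of the boundary of a cube of dimension `[K : ℚ]`:
we give maps `Phi K ε : (Param K → ℝ) → mixedSpace K` (one for each choice of signs `ε` at the
real places), `C¹` hence Lipschitz on the closed unit cube, such that
* `closure (normLeOne K) ⊆ ⋃ ε, Phi K ε '' Icc 0 1`;
* `Phi K ε '' (open unit cube) ⊆ interior (normLeOne K)`.
-/
import Mathlib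

set_option autoImplicit false

open NumberField NumberField.InfinitePlace NumberField.mixedEmbedding
  NumberField.mixedEmbedding.fundamentalCone NumberField.Units
  NumberField.Units.dirichletUnitTheorem NumberField.mixedEmbedding.euclidean

open scoped NNReal

namespace Fermat.Agent.S14_CountF

variable (K : Type*) [Field K] [NumberField K]

open scoped Classical

/-- Parameters: one real number per infinite place and one angle per complex place. -/
abbrev Param : Type _ := InfinitePlace K ⊕ {w : InfinitePlace K // IsComplex w}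

/-- The radial part of the parametrisation. -/
noncomputable def rho (u : InfinitePlace K → ℝ) : realSpace K :=
  (u w₀) • (expMapBasis (fun w => if w = w₀ then 0 else u w) : realSpace K)

/-- The parametrisation of (a superset of) the closure of `normLeOne K`. -/
noncomputable def Phi (ε : {w : InfinitePlace K // IsReal w} → Bool) (y : Param K → ℝ) :
    mixedSpace K :=
  (fun w => (if ε w then 1 else -1) * rho K (fun v => y (Sum.inl v)) w.1,
   fun w => (rho K (fun v => y (Sum.inl v)) w.1 : ℂ) *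
      Complex.exp (2 * Real.pi * y (Sum.inr w) * Complex.I))

variable {K}

theorem rho_nonneg {u : InfinitePlace K → ℝ} (hu : 0 ≤ u w₀) (w : InfinitePlace K) :
    0 ≤ rho K u w := by
  classical
  simp only [rho, Pi.smul_apply, smul_eq_mul]
  exact mul_nonneg hu (expMapBasis_pos _ _).le

theorem normAtAllPlaces_Phi (ε : {w : InfinitePlace K // IsReal w} → Bool) {y : Param K → ℝ}
    (hy : 0 ≤ y (Sum.inl w₀)) :
    normAtAllPlaces (Phi K ε y) = rho K (fun v => y (Sum.inl v)) := by
  ext w
  have h0 := rho_nonneg (u := fun v => y (Sum.inl v)) hy w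
  obtain hw | hw := isReal_or_isComplex w
  · rw [normAtAllPlaces_apply, normAtPlace_apply_of_isReal hw]
    simp only [Phi]
    split_ifs
    · rw [one_mul, Real.norm_of_nonneg h0]
    · rw [neg_one_mul, norm_neg, Real.norm_of_nonneg h0]
  · rw [normAtAllPlaces_apply, normAtPlace_apply_of_isComplex hw]
    simp only [Phi]
    rw [norm_mul, Complex.norm_of_nonneg h0]
    have : ‖Complex.exp (2 * Real.pi * y (Sum.inr ⟨w, hw⟩) * Complex.I)‖ = 1 := by
      have := Complex.norm_exp_ofReal_mul_I (2 * Real.pi * y (Sum.inr ⟨w, hw⟩))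
      simpa using this
    rw [this, mul_one]

theorem rho_eq_expMapBasis {u : InfinitePlace K → ℝ} (hu : 0 < u w₀) :
    rho K u = expMapBasis (fun w => if w = w₀ then Real.log (u w₀) else u w) := by
  rw [rho, expMapBasis_apply'' (fun w => if w = w₀ then Real.log (u w₀) else u w), if_pos rfl,
    Real.exp_log hu]
  congr 2
  ext w
  split_ifs <;> rfl

theorem Phi_mem_interior (ε : {w : InfinitePlace K // IsReal w} → Bool) {y : Param K → ℝ}
    (hy : y ∈ Set.univ.pi fun _ => Set.Ioo (0 : ℝ) 1) :
    Phi K ε y ∈ interior (normLeOne K) := by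
  classical
  apply subset_interior_normLeOne K
  rw [Set.mem_preimage, normAtAllPlaces_Phi ε (hy (Sum.inl w₀) (Set.mem_univ _)).1.le,
    rho_eq_expMapBasis (hy (Sum.inl w₀) (Set.mem_univ _)).1]
  refine Set.mem_image_of_mem _ ?_
  rw [interior_paramSet, Set.mem_univ_pi]
  intro w
  by_cases hw : w = w₀
  · simp only [hw, if_true]
    exact Real.log_neg (hy (Sum.inl w₀) (Set.mem_univ _)).1 (hy (Sum.inl w₀) (Set.mem_univ _)).2
  · simp only [hw, if_false]
    exact hy (Sum.inl w) (Set.mem_univ _)

/-- an angle in `[0,1]` for a complex number -/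
theorem exists_angle (z : ℂ) : ∃ θ : ℝ, 0 ≤ θ ∧ θ ≤ 1 ∧
    z = (‖z‖ : ℂ) * Complex.exp (2 * Real.pi * θ * Complex.I) := by
  have hpi := Real.pi_pos
  have harg := Complex.norm_mul_exp_arg_mul_I z
  by_cases h : 0 ≤ Complex.arg z
  · refine ⟨Complex.arg z / (2 * Real.pi), by positivity, ?_, ?_⟩
    · rw [div_le_one (by positivity)]
      linarith [Complex.arg_le_pi z]
    · have : (2 * Real.pi * (Complex.arg z / (2 * Real.pi)) : ℝ) = Complex.arg z := by
        field_simp
      have h2 : (2 * (Real.pi : ℂ) * ((Complex.arg z / (2 * Real.pi) : ℝ) : ℂ)) =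
          ((2 * Real.pi * (Complex.arg z / (2 * Real.pi)) : ℝ) : ℂ) := by push_cast; ring
      rw [h2, this]
      exact harg.symm
  · rw [not_le] at h
    refine ⟨Complex.arg z / (2 * Real.pi) + 1, ?_, ?_, ?_⟩
    · have : -1 ≤ Complex.arg z / (2 * Real.pi) := by
        rw [le_div_iff₀ (by positivity)]
        linarith [Complex.neg_pi_lt_arg z]
      linarith
    · have : Complex.arg z / (2 * Real.pi) < 0 := div_neg_of_neg_of_pos h (by positivity)
      linarith
    · have : (2 * Real.pi * (Complex.arg z / (2 * Real.pi) + 1) : ℝ) =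
          Complex.arg z + 2 * Real.pi := by
        field_simp
      have h2 : (2 * (Real.pi : ℂ) * ((Complex.arg z / (2 * Real.pi) + 1 : ℝ) : ℂ)) =
          ((2 * Real.pi * (Complex.arg z / (2 * Real.pi) + 1) : ℝ) : ℂ) := by push_cast; ring
      rw [h2, this]
      have h3 : (((Complex.arg z + 2 * Real.pi : ℝ) : ℂ) * Complex.I) =
          (Complex.arg z : ℂ) * Complex.I + 2 * Real.pi * Complex.I := by push_cast; ring
      rw [h3, Complex.exp_add, Complex.exp_two_pi_mul_I, mul_one]
      exact harg.symm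

theorem closure_normLeOne_subset_iUnion :
    closure (normLeOne K) ⊆ ⋃ ε, Phi K ε '' Set.Icc 0 1 := by
  classical
  intro x hx
  have hx' := closure_normLeOne_subset K hx
  rw [Set.mem_preimage] at hx'
  obtain ⟨c, hc, _, ⟨a, ha, rfl⟩, hca⟩ := hx'
  simp only [] at hca
  have ha' : ∀ w, a w ∈ (if w = w₀ then ({0} : Set ℝ) else Set.Icc 0 1) :=
    fun w => ha w (Set.mem_univ _)
  have ha0 : a w₀ = 0 := by simpa using ha' w₀
  -- the radial parameters
  let u : InfinitePlace K → ℝ := fun w => if w = w₀ then c else a w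
  have hu0 : u w₀ = c := if_pos rfl
  have hau : (fun w => if w = w₀ then 0 else u w) = a := by
    ext w
    by_cases hw : w = w₀
    · simp [hw, ha0]
    · simp [hw, u]
  have hrho : rho K u = normAtAllPlaces x := by
    rw [rho, hau, hu0]; exact hca
  -- the angles
  choose θ hθ0 hθ1 hθ using fun w : {w : InfinitePlace K // IsComplex w} => exists_angle (x.2 w)
  let y : Param K → ℝ := Sum.elim u θ
  rw [Set.mem_iUnion]
  refine ⟨fun w => decide (0 ≤ x.1 w), y, ?_, ?_⟩
  · rw [Set.mem_Icc]
    constructor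
    · intro i
      rcases i with w | w
      · show (0 : ℝ) ≤ u w
        by_cases hw : w = w₀
        · simp only [u, hw, if_true]; exact hc.1
        · simp only [u, hw, if_false]
          have := ha' w; rw [if_neg hw] at this; exact this.1
      · exact hθ0 w
    · intro i
      rcases i with w | w
      · show u w ≤ (1 : ℝ)
        by_cases hw : w = w₀
        · simp only [u, hw, if_true]; exact hc.2
        · simp only [u, hw, if_false]
          have := ha' w; rw [if_neg hw] at this; exact this.2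
      · exact hθ1 w
  · have hy : (fun v => y (Sum.inl v)) = u := rfl
    refine Prod.ext ?_ ?_
    · funext w
      simp only [Phi, hy, hrho, normAtAllPlaces_apply, normAtPlace_apply_of_isReal w.2]
      by_cases h : 0 ≤ x.1 w
      · simp [h, abs_of_nonneg h]
      · simp only [h, decide_false, Bool.false_eq_true, if_false]
        rw [not_le] at h
        rw [Real.norm_of_nonpos h.le]; ring
    · funext w
      simp only [Phi, hy, hrho, normAtAllPlaces_apply, normAtPlace_apply_of_isComplex w.2]
      exact (hθ w).symm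

theorem contDiff_expMapBasis_apply (w : InfinitePlace K) :
    ContDiff ℝ 1 (fun x : realSpace K => (expMapBasis x : realSpace K) w) := by
  have h : (fun x : realSpace K => (expMapBasis x : realSpace K) w) =
      fun x => Real.exp ((w.mult : ℝ)⁻¹ * ((completeBasis K).equivFunL.symm x) w) := rfl
  rw [h]
  exact Real.contDiff_exp.comp (contDiff_const.mul ((contDiff_apply ℝ ℝ w).comp
    (ContinuousLinearEquiv.contDiff _)))

theorem contDiff_rho_apply (w : InfinitePlace K) :
    ContDiff ℝ 1 (fun u : InfinitePlace K → ℝ => rho K u w) := by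
  classical
  have h : (fun u : InfinitePlace K → ℝ => rho K u w) =
      fun u => u w₀ * (expMapBasis (fun v => if v = w₀ then 0 else u v) : realSpace K) w := rfl
  rw [h]
  refine (contDiff_apply ℝ ℝ w₀).mul ((contDiff_expMapBasis_apply w).comp ?_)
  refine contDiff_pi.2 fun v => ?_
  by_cases hv : v = w₀
  · simp only [hv, if_true]; exact contDiff_const
  · simp only [hv, if_false]; exact contDiff_apply ℝ ℝ v

theorem contDiff_Phi (ε : {w : InfinitePlace K // IsReal w} → Bool) :
    ContDiff ℝ 1 (Phi K ε) := by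
  have hinl : ContDiff ℝ 1 (fun y : Param K → ℝ => fun v : InfinitePlace K => y (Sum.inl v)) :=
    contDiff_pi.2 fun v => contDiff_apply ℝ ℝ (Sum.inl v)
  refine ContDiff.prodMk (contDiff_pi.2 fun w => ?_) (contDiff_pi.2 fun w => ?_)
  · exact contDiff_const.mul ((contDiff_rho_apply w.1).comp hinl)
  · have h1 : ContDiff ℝ 1 (fun y : Param K → ℝ =>
        ((rho K (fun v => y (Sum.inl v)) w.1 : ℝ) : ℂ)) :=
      Complex.ofRealCLM.contDiff.comp ((contDiff_rho_apply w.1).comp hinl)
    have h2 : ContDiff ℝ 1 (fun y : Param K → ℝ =>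
        Complex.exp (2 * Real.pi * y (Sum.inr w) * Complex.I)) := by
      have h3 : ContDiff ℝ 1 (fun y : Param K → ℝ =>
          (2 * Real.pi * ((y (Sum.inr w) : ℝ) : ℂ) * Complex.I)) :=
        (contDiff_const.mul (Complex.ofRealCLM.contDiff.comp
          (contDiff_apply ℝ ℝ (Sum.inr w)))).mul contDiff_const
      exact (Complex.contDiff_exp : ContDiff ℝ 1 Complex.exp).comp h3
    exact h1.mul h2

theorem exists_lipschitzOnWith_Phi :
    ∃ M : NNReal, ∀ ε : {w : InfinitePlace K // IsReal w} → Bool,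
      LipschitzOnWith M (Phi K ε) (Set.Icc 0 1) := by
  have h : ∀ ε : {w : InfinitePlace K // IsReal w} → Bool,
      ∃ M : NNReal, LipschitzOnWith M (Phi K ε) (Set.Icc 0 1) := fun ε =>
    (contDiff_Phi ε).contDiffOn.exists_lipschitzOnWith one_ne_zero (convex_Icc 0 1)
      isCompact_Icc
  choose M hM using h
  refine ⟨Finset.univ.sup M, fun ε => (hM ε).weaken (Finset.le_sup (Finset.mem_univ ε))⟩

theorem card_Param : Fintype.card (Param K) = Module.finrank ℚ K := by
  classical
  rw [Fintype.card_sum, card_eq_nrRealPlaces_add_nrComplexPlaces,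
    ← card_add_two_mul_card_eq_rank K]
  simp only [nrComplexPlaces]
  ring

variable (K) in
/-- COUNT-F, packaged. -/
theorem exists_lipschitz_param :
    ∃ M : NNReal, (∀ ε : {w : InfinitePlace K // IsReal w} → Bool,
        LipschitzOnWith M (Phi K ε) (Set.Icc 0 1)) ∧
      closure (normLeOne K) ⊆ ⋃ ε, Phi K ε '' Set.Icc 0 1 ∧
      ∀ ε : {w : InfinitePlace K // IsReal w} → Bool,
        Phi K ε '' (Set.univ.pi fun _ => Set.Ioo (0 : ℝ) 1) ⊆ interior (normLeOne K) := by
  obtain ⟨M, hM⟩ := exists_lipschitzOnWith_Phi (K := K)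
  refine ⟨M, hM, closure_normLeOne_subset_iUnion, fun ε => ?_⟩
  rintro _ ⟨y, hy, rfl⟩
  exact Phi_mem_interior ε hy

/-- Generic covering lemma: if `closure D` is covered by finitely many Lipschitz images of the
closed unit cube `[0,1]^κ` and the open cubes are mapped into `interior D`, then for every `t ≥ 1`
the frontier of `D` is covered by `≤ C₀ t^(card κ - 1)` closed balls of radius `R₀ / t`. -/
theorem exists_finset_cover_frontier {E : Type*} [PseudoMetricSpace E] {κ J : Type*}
    [Fintype κ] [Fintype J] (D : Set E) (Φ : J → (κ → ℝ) → E) (M : ℝ≥0)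
    (hΦ : ∀ j, LipschitzOnWith M (Φ j) (Set.Icc 0 1))
    (hcl : closure D ⊆ ⋃ j, Φ j '' Set.Icc 0 1)
    (hint : ∀ j, Φ j '' (Set.univ.pi fun _ => Set.Ioo (0 : ℝ) 1) ⊆ interior D) :
    ∃ C₀ R₀ : ℝ, 0 ≤ C₀ ∧ 0 ≤ R₀ ∧ ∀ t : ℝ, 1 ≤ t → ∃ P : Finset E,
      (P.card : ℝ) ≤ C₀ * t ^ (Fintype.card κ - 1) ∧
      frontier D ⊆ ⋃ c ∈ P, Metric.closedBall c (R₀ / t) := by
  classical
  refine ⟨Fintype.card J * 2 * Fintype.card κ * 3 ^ (Fintype.card κ - 1), M, by positivity,
    M.2, fun t ht => ?_⟩
  have ht0 : (0 : ℝ) < t := by linarith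
  set N : ℕ := ⌈t⌉₊ with hN
  have hNt : t ≤ N := Nat.le_ceil t
  have hN1 : 1 ≤ N := Nat.one_le_iff_ne_zero.mpr (by
    rw [hN]; exact (Nat.ceil_pos.mpr ht0).ne')
  have hN0 : (0 : ℝ) < N := by exact_mod_cast hN1
  have hNt' : (N : ℝ) + 1 ≤ 3 * t := by
    have := Nat.ceil_lt_add_one ht0.le
    rw [← hN] at this
    linarith
  -- the grid points
  let pt : (J × Bool × (Σ i : κ, ({i' : κ // i' ≠ i} → Fin (N + 1)))) → (κ → ℝ) :=
    fun x i' => if h : i' = x.2.2.1 then (if x.2.1 then 1 else 0)
      else ((x.2.2.2 ⟨i', h⟩ : ℕ) : ℝ) / N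
  let P : Finset E := Finset.univ.image fun x => Φ x.1 (pt x)
  refine ⟨P, ?_, ?_⟩
  · -- cardinality
    have h1 : P.card ≤ Fintype.card (J × Bool × (Σ i : κ, ({i' : κ // i' ≠ i} → Fin (N + 1)))) :=
      Finset.card_image_le.trans (by simp)
    have h2 : Fintype.card (J × Bool × (Σ i : κ, ({i' : κ // i' ≠ i} → Fin (N + 1)))) =
        Fintype.card J * (2 * (Fintype.card κ * (N + 1) ^ (Fintype.card κ - 1))) := by
      rw [Fintype.card_prod, Fintype.card_prod, Fintype.card_bool, Fintype.card_sigma]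
      congr 2
      have hc : ∀ i : κ, Fintype.card ({i' : κ // i' ≠ i} → Fin (N + 1)) =
          (N + 1) ^ (Fintype.card κ - 1) := fun i => by
        rw [Fintype.card_fun, Fintype.card_fin]
        congr 1
        exact Set.card_ne_eq i
      rw [Finset.sum_congr rfl (fun i _ => hc i), Finset.sum_const,
        Finset.card_univ, smul_eq_mul]
    have h3 : ((N : ℝ) + 1) ^ (Fintype.card κ - 1) ≤ (3 * t) ^ (Fintype.card κ - 1) :=
      pow_le_pow_left₀ (by positivity) hNt' _
    calc (P.card : ℝ) ≤ (Fintype.card J * (2 * (Fintype.card κ *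
          (N + 1) ^ (Fintype.card κ - 1))) : ℕ) := by exact_mod_cast h2 ▸ h1
      _ = Fintype.card J * 2 * Fintype.card κ * ((N : ℝ) + 1) ^ (Fintype.card κ - 1) := by
          push_cast; ring
      _ ≤ Fintype.card J * 2 * Fintype.card κ * (3 * t) ^ (Fintype.card κ - 1) := by
          gcongr
      _ = Fintype.card J * 2 * Fintype.card κ * 3 ^ (Fintype.card κ - 1) *
          t ^ (Fintype.card κ - 1) := by rw [mul_pow]; ring
  · -- covering
    intro x hx
    have hxc : x ∈ closure D := frontier_subset_closure hx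
    have hxi : x ∉ interior D := fun h => hx.2 h
    obtain ⟨j, y, hy, rfl⟩ := Set.mem_iUnion.mp (hcl hxc)
    have hy0 : ∀ i, 0 ≤ y i := fun i => (Set.mem_Icc.mp hy).1 i
    have hy1 : ∀ i, y i ≤ 1 := fun i => (Set.mem_Icc.mp hy).2 i
    -- some coordinate is `0` or `1`
    have hex : ∃ i, y i = 0 ∨ y i = 1 := by
      by_contra hcon
      push Not at hcon
      apply hxi
      apply hint j
      refine ⟨y, fun i _ => ⟨lt_of_le_of_ne (hy0 i) (Ne.symm (hcon i).1),
        lt_of_le_of_ne (hy1 i) (hcon i).2⟩, rfl⟩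
    obtain ⟨i, hi⟩ := hex
    -- the grid point near `y`
    have hfl : ∀ i' : κ, ⌊(N : ℝ) * y i'⌋₊ < N + 1 := fun i' => by
      have : (N : ℝ) * y i' ≤ N := by nlinarith [hy1 i', hy0 i']
      exact Nat.lt_succ_of_le (Nat.floor_le_of_le this)
    let g : {i' : κ // i' ≠ i} → Fin (N + 1) := fun i' => ⟨⌊(N : ℝ) * y i'.1⌋₊, hfl i'.1⟩
    let x₀ : J × Bool × (Σ i : κ, ({i' : κ // i' ≠ i} → Fin (N + 1))) :=
      (j, decide (y i = 1), ⟨i, g⟩)
    have hpt_i : pt x₀ i = y i := by
      simp only [pt, x₀, dif_pos]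
      rcases hi with h | h
      · simp [h]
      · simp [h]
    have hpt_ne : ∀ i', i' ≠ i → pt x₀ i' = (⌊(N : ℝ) * y i'⌋₊ : ℝ) / N := by
      intro i' h
      simp only [pt, x₀, g, dif_neg h]
    have hfloor : ∀ i', i' ≠ i → pt x₀ i' ≤ y i' ∧ y i' - pt x₀ i' ≤ 1 / N := by
      intro i' h
      rw [hpt_ne i' h]
      have hnn : 0 ≤ (N : ℝ) * y i' := mul_nonneg hN0.le (hy0 i')
      have h1 := Nat.floor_le hnn
      have h2 := Nat.lt_floor_add_one ((N : ℝ) * y i')
      constructor
      · rw [div_le_iff₀ hN0]; linarith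
      · rw [sub_le_iff_le_add, ← add_div, le_div_iff₀ hN0]; linarith
    have hpt_mem : pt x₀ ∈ Set.Icc (0 : κ → ℝ) 1 := by
      rw [Set.mem_Icc]
      constructor
      · intro i'
        by_cases h : i' = i
        · rw [h, hpt_i]; exact hy0 i
        · rw [hpt_ne i' h]; positivity
      · intro i'
        by_cases h : i' = i
        · rw [h, hpt_i]; exact hy1 i
        · exact (hfloor i' h).1.trans (hy1 i')
    have hdist : dist y (pt x₀) ≤ 1 / N := by
      rw [dist_pi_le_iff (by positivity)]
      intro i'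
      by_cases h : i' = i
      · rw [h, hpt_i, dist_self]; positivity
      · rw [Real.dist_eq, abs_of_nonneg (sub_nonneg.mpr (hfloor i' h).1)]
        exact (hfloor i' h).2
    have hlip := (hΦ j).dist_le_mul y hy (pt x₀) hpt_mem
    rw [Set.mem_iUnion₂]
    refine ⟨Φ j (pt x₀), Finset.mem_image.mpr ⟨x₀, Finset.mem_univ _, rfl⟩, ?_⟩
    rw [Metric.mem_closedBall]
    calc dist (Φ j y) (Φ j (pt x₀)) ≤ M * dist y (pt x₀) := hlip
      _ ≤ M * (1 / N) := by gcongr
      _ ≤ M * (1 / t) := by gcongr
      _ = M / t := by ring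


/-- COUNT-F, covering form in the Euclidean mixed space (the hypothesis `hcov` of COUNT-L for
`D = toMixed K ⁻¹' normLeOne K`, with exponent `[K : ℚ] - 1`). -/
theorem exists_cover_frontier_normLeOne (K : Type*) [Field K] [NumberField K] :
    ∃ C₀ R₀ : ℝ, 0 ≤ C₀ ∧ 0 ≤ R₀ ∧ ∀ t : ℝ, 1 ≤ t → ∃ P : Finset (euclidean.mixedSpace K),
      (P.card : ℝ) ≤ C₀ * t ^ (Module.finrank ℚ K - 1) ∧
      frontier ((toMixed K) ⁻¹' normLeOne K) ⊆ ⋃ c ∈ P, Metric.closedBall c (R₀ / t) := by
  classical
  obtain ⟨M, hM, hcl, hint⟩ := exists_lipschitz_param K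
  have hL := (toMixed K).symm.lipschitz
  have key := exists_finset_cover_frontier ((toMixed K) ⁻¹' normLeOne K)
    (fun ε y => (toMixed K).symm (Phi K ε y)) (_ * M)
    (fun ε => LipschitzWith.comp_lipschitzOnWith hL (hM ε)) ?_ ?_
  · rwa [card_Param] at key
  · rw [← (toMixed K).coe_toHomeomorph, ← Homeomorph.preimage_closure,
      (toMixed K).coe_toHomeomorph]
    intro x hx
    obtain ⟨ε, y, hy, hxy⟩ := Set.mem_iUnion.mp (hcl hx)
    exact Set.mem_iUnion.mpr ⟨ε, y, hy, by
      show (toMixed K).symm (Phi K ε y) = x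
      rw [hxy]; exact (toMixed K).symm_apply_apply x⟩
  · intro ε
    rw [← (toMixed K).coe_toHomeomorph, ← Homeomorph.preimage_interior,
      (toMixed K).coe_toHomeomorph]
    rintro _ ⟨y, hy, rfl⟩
    rw [Set.mem_preimage, (toMixed K).apply_symm_apply]
    exact hint ε ⟨y, hy, rfl⟩

end Fermat.Agent.S14_CountF
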