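import Mathlib

set_option autoImplicit false
set_option linter.unusedSectionVars false

namespace Fermat.Agent.S14_CountL

open MeasureTheory Module ZSpan Pointwise Metric Set

/-- A preconnected set meeting a set and its complement meets its frontier. -/
theorem inter_frontier_nonempty_of_isPreconnected {α : Type*} [TopologicalSpace α] {s S : Set α}
    (hs : IsPreconnected s) (h1 : (s ∩ S).Nonempty) (h2 : (s ∩ Sᶜ).Nonempty) :
    (s ∩ frontier S).Nonempty := by
  by_contra hne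
  rw [Set.not_nonempty_iff_eq_empty] at hne
  have hmem : ∀ x ∈ s, x ∉ frontier S := fun x hx hx' => by
    have : x ∈ s ∩ frontier S := ⟨hx, hx'⟩
    rw [hne] at this
    exact this
  obtain ⟨x₁, hx₁s, hx₁S⟩ := h1
  obtain ⟨x₂, hx₂s, hx₂S⟩ := h2
  have hcover : s ⊆ interior S ∪ (closure S)ᶜ := by
    intro x hx
    by_cases hxc : x ∈ closure S
    · left
      by_contra hxi
      exact hmem x hx ⟨hxc, hxi⟩
    · right
      exact hxc
  have hu : (s ∩ interior S).Nonempty := by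
    refine ⟨x₁, hx₁s, ?_⟩
    by_contra hxi
    exact hmem x₁ hx₁s ⟨subset_closure hx₁S, hxi⟩
  have hv : (s ∩ (closure S)ᶜ).Nonempty := by
    refine ⟨x₂, hx₂s, ?_⟩
    intro hxc
    have hxi : x₂ ∉ interior S := fun h => hx₂S (interior_subset h)
    exact hmem x₂ hx₂s ⟨hxc, hxi⟩
  obtain ⟨y, -, hy1, hy2⟩ := hs _ _ isOpen_interior isClosed_closure.isOpen_compl hcover hu hv
  exact hy2 (subset_closure (interior_subset hy1))

section Lattice

variable {E : Type*} [NormedAddCommGroup E] [InnerProductSpace ℝ E] [FiniteDimensional ℝ E]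
  [MeasurableSpace E] [BorelSpace E]
variable (L : Submodule ℤ E) [DiscreteTopology L] [IsZLattice ℝ L]

/-- An `ℝ`-basis of `E` which is a `ℤ`-basis of the lattice. -/
noncomputable def latBasis : Basis (Free.ChooseBasisIndex ℤ L) ℝ E :=
  (Free.chooseBasis ℤ L).ofZLatticeBasis ℝ L

/-- The corresponding fundamental domain. -/
noncomputable def fd : Set E := fundamentalDomain (latBasis L)

/-- A bound for the norm of the elements of the fundamental domain. -/
noncomputable def fdBound : ℝ := ∑ i, ‖latBasis L i‖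

theorem span_latBasis : Submodule.span ℤ (Set.range (latBasis L)) = L :=
  (Free.chooseBasis ℤ L).ofZLatticeBasis_span ℝ

theorem fdBound_nonneg : 0 ≤ fdBound L := Finset.sum_nonneg fun _ _ => norm_nonneg _

theorem norm_le_of_mem_fd {x : E} (hx : x ∈ fd L) : ‖x‖ ≤ fdBound L := by
  rw [← fract_eq_self.mpr hx]
  exact norm_fract_le _ _

theorem zero_mem_fd : (0 : E) ∈ fd L := by
  rw [fd, mem_fundamentalDomain]
  intro i
  simp

theorem measurableSet_fd : MeasurableSet (fd L) := fundamentalDomain_measurableSet _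

theorem convex_fd : Convex ℝ (fd L) := by
  intro x hx y hy a c ha hc hac
  rw [fd, mem_fundamentalDomain] at hx hy ⊢
  intro i
  have hx' := hx i
  have hy' := hy i
  simp only [map_add, map_smul, Finsupp.coe_add, Finsupp.coe_smul, Pi.add_apply, Pi.smul_apply,
    smul_eq_mul]
  exact (convex_Ico (0 : ℝ) 1) hx' hy' ha hc hac

theorem covolume_eq : ZLattice.covolume L = volume.real (fd L) :=
  ZLattice.covolume_eq_measure_fundamentalDomain L volume
    (ZLattice.isAddFundamentalDomain (Free.chooseBasis ℤ L) volume)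

theorem mem_cell_iff {ℓ x : E} : x ∈ ℓ +ᵥ fd L ↔ x - ℓ ∈ fd L := by
  rw [Set.mem_vadd_set_iff_neg_vadd_mem, vadd_eq_add, neg_add_eq_sub]

theorem self_mem_cell (ℓ : E) : ℓ ∈ ℓ +ᵥ fd L := by
  rw [mem_cell_iff, sub_self]
  exact zero_mem_fd L

theorem cell_unique {ℓ₁ ℓ₂ x : E} (h₁ : ℓ₁ ∈ L) (h₂ : ℓ₂ ∈ L) (hx₁ : x ∈ ℓ₁ +ᵥ fd L)
    (hx₂ : x ∈ ℓ₂ +ᵥ fd L) : ℓ₁ = ℓ₂ := by
  rw [mem_cell_iff] at hx₁ hx₂
  have e₁ : fract (latBasis L) x = x - ℓ₁ := by
    have : x = ℓ₁ + (x - ℓ₁) := by abel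
    rw [this, fract_zSpan_add _ _ (by rw [span_latBasis]; exact h₁)]
    simpa using fract_eq_self.mpr hx₁
  have e₂ : fract (latBasis L) x = x - ℓ₂ := by
    have : x = ℓ₂ + (x - ℓ₂) := by abel
    rw [this, fract_zSpan_add _ _ (by rw [span_latBasis]; exact h₂)]
    simpa using fract_eq_self.mpr hx₂
  have := e₁.symm.trans e₂
  exact sub_right_injective this

theorem exists_mem_cell (x : E) : ∃ ℓ ∈ L, x ∈ ℓ +ᵥ fd L := by
  refine ⟨(floor (latBasis L) x : E), ?_, ?_⟩
  · exact le_of_eq (span_latBasis L) (floor (latBasis L) x).2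
  · rw [mem_cell_iff]
    exact fract_mem_fundamentalDomain _ x

theorem volume_cell (ℓ : E) : volume (ℓ +ᵥ fd L) = volume (fd L) :=
  measure_vadd volume ℓ (fd L)

theorem measurableSet_cell (ℓ : E) : MeasurableSet (ℓ +ᵥ fd L) :=
  (measurableSet_fd L).const_vadd ℓ

theorem isPreconnected_cell (ℓ : E) : IsPreconnected (ℓ +ᵥ fd L) :=
  ((convex_fd L).vadd ℓ).isPreconnected

theorem dist_le_of_mem_cell {ℓ x : E} (hx : x ∈ ℓ +ᵥ fd L) : dist ℓ x ≤ fdBound L := by
  rw [mem_cell_iff] at hx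
  rw [dist_comm, dist_eq_norm]
  exact norm_le_of_mem_fd L hx

theorem finite_lattice_inter {s : Set E} (hs : Bornology.IsBounded s) :
    Set.Finite {ℓ : E | ℓ ∈ L ∧ ℓ ∈ s} := by
  have h := ZSpan.setFinite_inter (latBasis L) hs
  rw [span_latBasis] at h
  refine h.subset ?_
  rintro ℓ ⟨h1, h2⟩
  exact ⟨h2, h1⟩

/-- The lattice points whose cell is contained in `S`. -/
def innerSet (S : Set E) : Set E := {ℓ : E | ℓ ∈ L ∧ ℓ +ᵥ fd L ⊆ S}

/-- The lattice points whose cell meets `S`. -/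
def outerSet (S : Set E) : Set E := {ℓ : E | ℓ ∈ L ∧ ((ℓ +ᵥ fd L) ∩ S).Nonempty}

/-- The lattice points close to the frontier of `S`. -/
def bdSet (S : Set E) (r : ℝ) : Set E := {ℓ : E | ℓ ∈ L ∧ ∃ z ∈ frontier S, dist ℓ z ≤ r}

theorem innerSet_subset (S : Set E) : innerSet L S ⊆ {ℓ : E | ℓ ∈ L ∧ ℓ ∈ S} :=
  fun ℓ hℓ => ⟨hℓ.1, hℓ.2 (self_mem_cell L ℓ)⟩

theorem subset_outerSet (S : Set E) : {ℓ : E | ℓ ∈ L ∧ ℓ ∈ S} ⊆ outerSet L S :=
  fun ℓ hℓ => ⟨hℓ.1, ℓ, self_mem_cell L ℓ, hℓ.2⟩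

theorem innerSet_subset_outerSet (S : Set E) : innerSet L S ⊆ outerSet L S :=
  (innerSet_subset L S).trans (subset_outerSet L S)

theorem finite_outerSet {S : Set E} (hS : Bornology.IsBounded S) : (outerSet L S).Finite := by
  obtain ⟨R, hR⟩ := hS.subset_closedBall (0 : E)
  refine (finite_lattice_inter L (isBounded_closedBall (x := (0 : E)) (r := R + fdBound L))).subset ?_
  rintro ℓ ⟨hℓ, x, hx, hxS⟩
  refine ⟨hℓ, ?_⟩
  rw [mem_closedBall]
  have h1 := dist_le_of_mem_cell L hx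
  have h2 : dist x 0 ≤ R := mem_closedBall.mp (hR hxS)
  linarith [dist_triangle ℓ x 0]

theorem outerSet_diff_subset (S : Set E) : outerSet L S \ innerSet L S ⊆ bdSet L S (fdBound L) := by
  rintro ℓ ⟨⟨hℓ, hne⟩, hnot⟩
  have h2 : ((ℓ +ᵥ fd L) ∩ Sᶜ).Nonempty := by
    by_contra h
    apply hnot
    refine ⟨hℓ, fun x hx => ?_⟩
    by_contra hxS
    exact h ⟨x, hx, hxS⟩
  obtain ⟨z, hz, hzf⟩ := inter_frontier_nonempty_of_isPreconnected (isPreconnected_cell L ℓ) hne h2
  exact ⟨hℓ, z, hzf, dist_le_of_mem_cell L hz⟩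

theorem finite_bdSet {S : Set E} (hS : Bornology.IsBounded S) (r : ℝ) : (bdSet L S r).Finite := by
  obtain ⟨R, hR⟩ := hS.closure.subset_closedBall (0 : E)
  refine (finite_lattice_inter L (isBounded_closedBall (x := (0 : E)) (r := R + r))).subset ?_
  rintro ℓ ⟨hℓ, z, hz, hd⟩
  refine ⟨hℓ, ?_⟩
  rw [mem_closedBall]
  have h2 : dist z 0 ≤ R := mem_closedBall.mp (hR (frontier_subset_closure hz))
  linarith [dist_triangle ℓ z 0]

theorem volume_fd_ne_top : volume (fd L) ≠ ⊤ :=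
  (fundamentalDomain_isBounded (latBasis L)).measure_lt_top.ne

theorem volume_real_fd_pos : 0 < volume.real (fd L) := by
  rw [← covolume_eq]
  exact ZLattice.covolume_pos L volume

/-- Lower bound for the volume: the inner cells are disjoint and contained in `S`. -/
theorem innerSet_card_mul_le {S : Set E} (hS : Bornology.IsBounded S) :
    ((innerSet L S).ncard : ℝ) * volume.real (fd L) ≤ volume.real S := by
  classical
  have hfin : (innerSet L S).Finite := (finite_outerSet L hS).subset (innerSet_subset_outerSet L S)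
  have hsub : (⋃ ℓ ∈ hfin.toFinset, ℓ +ᵥ fd L) ⊆ S := by
    intro x hx
    simp only [Set.mem_iUnion, Set.Finite.mem_toFinset] at hx
    obtain ⟨ℓ, hℓ, hx⟩ := hx
    exact hℓ.2 hx
  have hdisj : Set.PairwiseDisjoint (↑hfin.toFinset) (fun ℓ : E => ℓ +ᵥ fd L) := by
    intro ℓ₁ h₁ ℓ₂ h₂ hne
    simp only [Finset.mem_coe, Set.Finite.mem_toFinset] at h₁ h₂
    rw [Function.onFun, Set.disjoint_left]
    intro x hx₁ hx₂
    exact hne (cell_unique L h₁.1 h₂.1 hx₁ hx₂)
  have hmeas : volume (⋃ ℓ ∈ hfin.toFinset, ℓ +ᵥ fd L) = ∑ ℓ ∈ hfin.toFinset, volume (ℓ +ᵥ fd L) :=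
    measure_biUnion_finset hdisj (fun ℓ _ => measurableSet_cell L ℓ)
  have hle : volume (⋃ ℓ ∈ hfin.toFinset, ℓ +ᵥ fd L) ≤ volume S := measure_mono hsub
  rw [hmeas] at hle
  simp only [volume_cell, Finset.sum_const, nsmul_eq_mul] at hle
  have hcard : hfin.toFinset.card = (innerSet L S).ncard := (Set.ncard_eq_toFinset_card _ hfin).symm
  rw [hcard] at hle
  have hStop : volume S ≠ ⊤ := hS.measure_lt_top.ne
  have := ENNReal.toReal_mono hStop hle
  rw [ENNReal.toReal_mul, ENNReal.toReal_natCast] at this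
  exact this

/-- Upper bound for the volume: the outer cells cover `S`. -/
theorem le_outerSet_card_mul {S : Set E} (hS : Bornology.IsBounded S) :
    volume.real S ≤ ((outerSet L S).ncard : ℝ) * volume.real (fd L) := by
  classical
  have hfin : (outerSet L S).Finite := finite_outerSet L hS
  have hsub : S ⊆ (⋃ ℓ ∈ hfin.toFinset, ℓ +ᵥ fd L) := by
    intro x hx
    obtain ⟨ℓ, hℓ, hxℓ⟩ := exists_mem_cell L x
    simp only [Set.mem_iUnion, Set.Finite.mem_toFinset]
    exact ⟨ℓ, ⟨hℓ, x, hxℓ, hx⟩, hxℓ⟩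
  have hle : volume S ≤ ∑ ℓ ∈ hfin.toFinset, volume (ℓ +ᵥ fd L) :=
    (measure_mono hsub).trans (measure_biUnion_finset_le _ _)
  simp only [volume_cell, Finset.sum_const, nsmul_eq_mul] at hle
  have hcard : hfin.toFinset.card = (outerSet L S).ncard := (Set.ncard_eq_toFinset_card _ hfin).symm
  rw [hcard] at hle
  have htop : ((outerSet L S).ncard : ENNReal) * volume (fd L) ≠ ⊤ :=
    ENNReal.mul_ne_top (ENNReal.natCast_ne_top _) (volume_fd_ne_top L)
  have := ENNReal.toReal_mono htop hle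
  rw [ENNReal.toReal_mul, ENNReal.toReal_natCast] at this
  exact this

/-- **Lattice points versus volume**: the difference is bounded by the number of lattice points
close to the frontier. -/
theorem abs_card_sub_le {S : Set E} (hS : Bornology.IsBounded S) :
    |(Nat.card ((S ∩ L : Set E)) : ℝ) - volume.real S / ZLattice.covolume L| ≤
      ((bdSet L S (fdBound L)).ncard : ℝ) := by
  have hA : (S ∩ (L : Set E)) = {ℓ : E | ℓ ∈ L ∧ ℓ ∈ S} := by
    ext x; simp [and_comm]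
  rw [Nat.card_coe_set_eq, hA, covolume_eq]
  have hpos := volume_real_fd_pos L
  have hfinO := finite_outerSet L hS
  have h1 : ((innerSet L S).ncard : ℝ) ≤ ({ℓ : E | ℓ ∈ L ∧ ℓ ∈ S}.ncard : ℝ) := by
    exact_mod_cast Set.ncard_le_ncard (innerSet_subset L S) (hfinO.subset (subset_outerSet L S))
  have h2 : ({ℓ : E | ℓ ∈ L ∧ ℓ ∈ S}.ncard : ℝ) ≤ ((outerSet L S).ncard : ℝ) := by
    exact_mod_cast Set.ncard_le_ncard (subset_outerSet L S) hfinO
  have h3 : ((innerSet L S).ncard : ℝ) ≤ volume.real S / volume.real (fd L) := by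
    rw [le_div_iff₀ hpos]; exact innerSet_card_mul_le L hS
  have h4 : volume.real S / volume.real (fd L) ≤ ((outerSet L S).ncard : ℝ) := by
    rw [div_le_iff₀ hpos]; exact le_outerSet_card_mul L hS
  have h5 : ((outerSet L S).ncard : ℝ) - ((innerSet L S).ncard : ℝ) ≤
      ((bdSet L S (fdBound L)).ncard : ℝ) := by
    have hd : (outerSet L S \ innerSet L S).ncard ≤ (bdSet L S (fdBound L)).ncard :=
      Set.ncard_le_ncard (outerSet_diff_subset L S) (finite_bdSet L hS _)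
    have he : (outerSet L S \ innerSet L S).ncard = (outerSet L S).ncard - (innerSet L S).ncard :=
      Set.ncard_sdiff (innerSet_subset_outerSet L S) (hfinO.subset (innerSet_subset_outerSet L S))
    have hle : (innerSet L S).ncard ≤ (outerSet L S).ncard :=
      Set.ncard_le_ncard (innerSet_subset_outerSet L S) hfinO
    have : ((outerSet L S).ncard : ℝ) - ((innerSet L S).ncard : ℝ) =
        (((outerSet L S).ncard - (innerSet L S).ncard : ℕ) : ℝ) := by
      rw [Nat.cast_sub hle]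
    rw [this, ← he]
    exact_mod_cast hd
  rw [abs_le]
  constructor <;> linarith

/-- The number of lattice points in the closed ball of radius `r` around `0`. -/
noncomputable def ballCount (r : ℝ) : ℕ := {ℓ : E | ℓ ∈ L ∧ ℓ ∈ closedBall (0 : E) r}.ncard

theorem ncard_ball_le (x : E) (r : ℝ) :
    {ℓ : E | ℓ ∈ L ∧ dist ℓ x ≤ r}.ncard ≤ ballCount L (2 * r) := by
  by_cases hne : {ℓ : E | ℓ ∈ L ∧ dist ℓ x ≤ r}.Nonempty
  · obtain ⟨ℓ₀, hℓ₀, hd₀⟩ := hne
    refine Set.ncard_le_ncard_of_injOn (fun ℓ => ℓ - ℓ₀) ?_ ?_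
      (finite_lattice_inter L isBounded_closedBall)
    · rintro ℓ ⟨hℓ, hd⟩
      refine ⟨L.sub_mem hℓ hℓ₀, ?_⟩
      rw [mem_closedBall, dist_zero_right, ← dist_eq_norm]
      linarith [dist_triangle ℓ x ℓ₀, dist_comm x ℓ₀]
    · intro a _ b _ h
      exact sub_left_injective h
  · rw [Set.not_nonempty_iff_eq_empty] at hne
    rw [hne]
    simp

theorem ncard_biUnion_le {α : Type*} (A : α → Set E) (K : ℕ) (hA : ∀ c, (A c).ncard ≤ K)
    (hfin : ∀ c, (A c).Finite) (P : Finset α) :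
    (⋃ c ∈ P, A c).Finite ∧ (⋃ c ∈ P, A c).ncard ≤ P.card * K := by
  classical
  induction P using Finset.induction_on with
  | empty => simp
  | insert a s ha ih =>
    rw [Finset.set_biUnion_insert, Finset.card_insert_of_notMem ha]
    refine ⟨(hfin a).union ih.1, (Set.ncard_union_le _ _).trans ?_⟩
    have := hA a
    have := ih.2
    nlinarith

theorem bdSet_ncard_le {S : Set E} (P : Finset E) (R : ℝ)
    (hcov : frontier S ⊆ ⋃ c ∈ P, closedBall c R) (r : ℝ) :
    (bdSet L S r).ncard ≤ P.card * ballCount L (2 * (r + R)) := by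
  have hfin : ∀ c : E, {ℓ : E | ℓ ∈ L ∧ dist ℓ c ≤ r + R}.Finite := fun c =>
    (finite_lattice_inter L (isBounded_closedBall (x := c) (r := r + R))).subset
      fun ℓ hℓ => ⟨hℓ.1, mem_closedBall.mpr hℓ.2⟩
  obtain ⟨h1, h2⟩ := ncard_biUnion_le (fun c : E => {ℓ : E | ℓ ∈ L ∧ dist ℓ c ≤ r + R})
    (ballCount L (2 * (r + R))) (fun c => ncard_ball_le L c (r + R)) hfin P
  refine (Set.ncard_le_ncard ?_ h1).trans h2
  rintro ℓ ⟨hℓ, z, hz, hd⟩
  have hz' := hcov hz
  simp only [Set.mem_iUnion] at hz' ⊢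
  obtain ⟨c, hc, hzc⟩ := hz'
  refine ⟨c, hc, hℓ, ?_⟩
  have := mem_closedBall.mp hzc
  linarith [dist_triangle ℓ z c]

/-- **(L1) Lattice point counting with an error term.** If the frontier of the bounded set `D`
can be covered, for every `t ≥ 1`, by at most `C₀ t ^ m` closed balls of radius `R₀ / t`, then the
number of lattice points in `t • D` is `t ^ n vol(D) / covol(L) + O(t ^ m)`. -/
theorem card_inter_smul_sub_le {D : Set E} (hD₁ : Bornology.IsBounded D) {C₀ R₀ : ℝ} {m : ℕ}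
    (hcov : ∀ t : ℝ, 1 ≤ t → ∃ P : Finset E, (P.card : ℝ) ≤ C₀ * t ^ m ∧
      frontier D ⊆ ⋃ c ∈ P, closedBall c (R₀ / t)) :
    ∃ C : ℝ, ∀ t : ℝ, 1 ≤ t →
      |(Nat.card ((t • D) ∩ L : Set E) : ℝ) -
        t ^ finrank ℝ E * volume.real D / ZLattice.covolume L| ≤ C * t ^ m := by
  classical
  refine ⟨C₀ * ballCount L (2 * (fdBound L + R₀)), fun t ht => ?_⟩
  have ht0 : 0 < t := lt_of_lt_of_le one_pos ht
  obtain ⟨P, hP, hPcov⟩ := hcov t ht
  have hS : Bornology.IsBounded (t • D) := hD₁.smul₀ t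
  have hvol : volume.real (t • D) = t ^ finrank ℝ E * volume.real D := by
    rw [measureReal_def, Measure.addHaar_smul_of_nonneg volume ht0.le, ENNReal.toReal_mul,
      ENNReal.toReal_ofReal (pow_nonneg ht0.le _), measureReal_def]
  have hfr : frontier (t • D) = t • frontier D := by
    have := (Homeomorph.smulOfNeZero t ht0.ne').image_frontier D
    simpa [Set.image_smul] using this.symm
  have hcov' : frontier (t • D) ⊆ ⋃ c ∈ P.image (fun c => t • c), closedBall c R₀ := by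
    rw [hfr]
    rintro z ⟨w, hw, rfl⟩
    have hw' := hPcov hw
    simp only [Set.mem_iUnion, Finset.mem_image, exists_prop] at hw' ⊢
    obtain ⟨c, hc, hwc⟩ := hw'
    refine ⟨t • c, ⟨c, hc, rfl⟩, ?_⟩
    rw [mem_closedBall] at hwc ⊢
    show dist (t • w) (t • c) ≤ R₀
    rw [dist_smul₀, Real.norm_of_nonneg ht0.le]
    calc t * dist w c ≤ t * (R₀ / t) := by gcongr
      _ = R₀ := by field_simp
  have h1 := abs_card_sub_le L hS
  have h2 := bdSet_ncard_le L (S := t • D) (P.image (fun c => t • c)) R₀ hcov' (fdBound L)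
  have h3 : (P.image (fun c => t • c)).card ≤ P.card := Finset.card_image_le
  rw [hvol] at h1
  refine h1.trans ?_
  have h4 : ((bdSet L (t • D) (fdBound L)).ncard : ℝ) ≤
      (P.card : ℝ) * ballCount L (2 * (fdBound L + R₀)) := by
    have : (bdSet L (t • D) (fdBound L)).ncard ≤ P.card * ballCount L (2 * (fdBound L + R₀)) :=
      h2.trans (Nat.mul_le_mul_right _ h3)
    exact_mod_cast this
  refine h4.trans ?_
  have hK : (0 : ℝ) ≤ ballCount L (2 * (fdBound L + R₀)) := Nat.cast_nonneg _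
  nlinarith

/-- Scaling of a cone sublevel set (cf. the private Mathlib lemma behind
`ZLattice.covolume.tendsto_card_le_div'`). -/
theorem smul_cone_eq {X : Set E} (hX : ∀ ⦃x⦄ ⦃r : ℝ⦄, x ∈ X → 0 < r → r • x ∈ X)
    {F : E → ℝ} {n : ℕ} (hF₁ : ∀ x ⦃r : ℝ⦄, 0 ≤ r → F (r • x) = r ^ n * (F x)) {c : ℝ}
    (hc : 0 < c) :
    c • {x ∈ X | F x ≤ 1} = {x ∈ X | F x ≤ c ^ n} := by
  ext x
  simp_rw [Set.mem_smul_set_iff_inv_smul_mem₀ hc.ne', Set.mem_ofPred_eq, hF₁ _
    (inv_pos_of_pos hc).le, inv_pow, inv_mul_le_iff₀ (pow_pos hc _), mul_one, and_congr_left_iff]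
  exact fun _ ↦ ⟨fun h ↦ (smul_inv_smul₀ hc.ne' x) ▸ hX h hc, fun h ↦ hX h (inv_pos_of_pos hc)⟩

/-- **(L2) Cone form**, in the shape of `ZLattice.covolume.tendsto_card_le_div'`, with the error
term `O(c ^ (1 - 1 / n))`. -/
theorem card_cone_sub_le [Nontrivial E] {X : Set E} {F : E → ℝ}
    (hX : ∀ ⦃x⦄ ⦃r : ℝ⦄, x ∈ X → 0 < r → r • x ∈ X)
    (h₁ : ∀ x ⦃r : ℝ⦄, 0 ≤ r → F (r • x) = r ^ finrank ℝ E * (F x))
    (h₂ : Bornology.IsBounded {x ∈ X | F x ≤ 1}) {C₀ R₀ : ℝ}
    (hcov : ∀ t : ℝ, 1 ≤ t → ∃ P : Finset E, (P.card : ℝ) ≤ C₀ * t ^ (finrank ℝ E - 1) ∧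
      frontier {x ∈ X | F x ≤ 1} ⊆ ⋃ c ∈ P, closedBall c (R₀ / t)) :
    ∃ C : ℝ, ∀ c : ℝ, 1 ≤ c →
      |(Nat.card ({x ∈ X | F x ≤ c} ∩ L : Set E) : ℝ) -
        c * volume.real {x ∈ X | F x ≤ 1} / ZLattice.covolume L| ≤
          C * c ^ (1 - 1 / (finrank ℝ E : ℝ)) := by
  obtain ⟨C, hC⟩ := card_inter_smul_sub_le L h₂ hcov
  refine ⟨C, fun c hc => ?_⟩
  have hc0 : 0 < c := lt_of_lt_of_le one_pos hc
  have hn : 0 < finrank ℝ E := finrank_pos
  have hn' : (finrank ℝ E : ℝ) ≠ 0 := Nat.cast_ne_zero.mpr hn.ne'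
  set t : ℝ := c ^ ((finrank ℝ E : ℝ)⁻¹) with ht
  have ht1 : 1 ≤ t := Real.one_le_rpow hc (inv_nonneg.mpr (Nat.cast_nonneg _))
  have ht0 : 0 < t := lt_of_lt_of_le one_pos ht1
  have htn : t ^ finrank ℝ E = c := by
    rw [ht, ← Real.rpow_natCast, ← Real.rpow_mul hc0.le, inv_mul_cancel₀ hn', Real.rpow_one]
  have htm : t ^ (finrank ℝ E - 1) = c ^ (1 - 1 / (finrank ℝ E : ℝ)) := by
    rw [ht, ← Real.rpow_natCast, ← Real.rpow_mul hc0.le, Nat.cast_sub hn, Nat.cast_one]
    congr 1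
    field_simp
  have hset : t • {x ∈ X | F x ≤ 1} = {x ∈ X | F x ≤ c} := by
    rw [smul_cone_eq hX h₁ ht0, htn]
  have := hC t ht1
  rwa [hset, htn, htm] at this

end Lattice

section Cover

variable {E : Type*} [PseudoMetricSpace E]

/-- **(L3)** The image of the unit cube under a Lipschitz map is covered by at most `(2t)^k`
closed balls of radius `K / t`. -/
theorem exists_cover_lipschitz_image {k : ℕ} {f : (Fin k → ℝ) → E} {K : NNReal}
    (hf : LipschitzOnWith K f (Set.Icc 0 1)) (t : ℝ) (ht : 1 ≤ t) :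
    ∃ P : Finset E, (P.card : ℝ) ≤ 2 ^ k * t ^ k ∧
      f '' (Set.Icc 0 1) ⊆ ⋃ c ∈ P, closedBall c (K / t) := by
  classical
  have ht0 : 0 < t := lt_of_lt_of_le one_pos ht
  set N : ℕ := ⌈t⌉₊ with hN
  have hN1 : 1 ≤ N := Nat.one_le_iff_ne_zero.mpr (Nat.ceil_pos.mpr ht0).ne'
  have hNt : t ≤ N := Nat.le_ceil t
  have hN2 : (N : ℝ) ≤ 2 * t := by
    have := Nat.ceil_lt_add_one ht0.le
    linarith
  have hNpos : (0 : ℝ) < N := by exact_mod_cast hN1
  let g : (Fin k → Fin N) → (Fin k → ℝ) := fun j i => ((j i : ℕ) : ℝ) / N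
  have hg : ∀ j, g j ∈ Set.Icc (0 : Fin k → ℝ) 1 := by
    intro j
    refine ⟨fun i => ?_, fun i => ?_⟩
    · simp only [g, Pi.zero_apply]; positivity
    · simp only [g, Pi.one_apply]
      rw [div_le_one hNpos]
      exact_mod_cast (j i).2.le
  refine ⟨Finset.univ.image (fun j => f (g j)), ?_, ?_⟩
  · have h1 : ((Finset.univ.image (fun j => f (g j))).card : ℝ) ≤ (N : ℝ) ^ k := by
      have : (Finset.univ.image (fun j : Fin k → Fin N => f (g j))).card ≤ N ^ k := by
        refine Finset.card_image_le.trans ?_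
        simp
      exact_mod_cast this
    calc ((Finset.univ.image (fun j => f (g j))).card : ℝ) ≤ (N : ℝ) ^ k := h1
      _ ≤ (2 * t) ^ k := by gcongr
      _ = 2 ^ k * t ^ k := mul_pow _ _ _
  · rintro _ ⟨x, hx, rfl⟩
    -- choose the grid point
    let j : Fin k → Fin N := fun i => ⟨min ⌊x i * N⌋₊ (N - 1), by omega⟩
    have hdist : dist x (g j) ≤ 1 / N := by
      rw [dist_pi_le_iff (by positivity)]
      intro i
      have hx0 : 0 ≤ x i := hx.1 i
      have hx1 : x i ≤ 1 := hx.2 i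
      have hxN : 0 ≤ x i * N := by positivity
      rw [Real.dist_eq]
      simp only [g, j]
      by_cases hlt : ⌊x i * N⌋₊ ≤ N - 1
      · rw [min_eq_left hlt]
        have h1 := Nat.floor_le hxN
        have h2 := Nat.lt_floor_add_one (x i * N)
        rw [abs_le]
        constructor
        · rw [le_sub_iff_add_le, neg_add_eq_sub, sub_le_iff_le_add, div_le_iff₀ hNpos]
          have : (x i + 1 / N) * N = x i * N + 1 := by field_simp
          rw [this]; linarith
        · rw [sub_le_iff_le_add, ← add_div, le_div_iff₀ hNpos]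
          linarith
      · have hlt := not_le.mp hlt
        rw [min_eq_right hlt.le]
        have hN1' : ((N - 1 : ℕ) : ℝ) = (N : ℝ) - 1 := by
          rw [Nat.cast_sub hN1, Nat.cast_one]
        rw [hN1']
        have hfl : (N : ℝ) ≤ x i * N := by
          have : N ≤ ⌊x i * N⌋₊ := by omega
          exact (by exact_mod_cast this : (N : ℝ) ≤ (⌊x i * N⌋₊ : ℝ)).trans (Nat.floor_le hxN)
        have hx1' : x i = 1 := by
          have : (1 : ℝ) ≤ x i := by
            by_contra h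
            have h := not_le.mp h
            have : x i * N < 1 * N := by gcongr
            linarith
          linarith
        rw [hx1', abs_le]
        constructor
        · have : (1 : ℝ) - ((N : ℝ) - 1) / N = 1 / N := by field_simp; ring
          rw [this]; have : (0 : ℝ) ≤ 1 / N := by positivity
          linarith
        · have : (1 : ℝ) - ((N : ℝ) - 1) / N = 1 / N := by field_simp; ring
          rw [this]
    simp only [Set.mem_iUnion, Finset.mem_image, Finset.mem_univ, true_and, exists_prop]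
    refine ⟨f (g j), ⟨j, rfl⟩, ?_⟩
    rw [mem_closedBall]
    have h1 := hf.dist_le_mul x hx (g j) (hg j)
    calc dist (f x) (f (g j)) ≤ K * dist x (g j) := h1
      _ ≤ K * (1 / N) := by gcongr
      _ ≤ K * (1 / t) := by gcongr
      _ = K / t := by ring

/-- **(L4)** A set contained in finitely many Lipschitz images of the unit `k`-cube satisfies the
covering hypothesis of `card_inter_smul_sub_le` with `m = k`. -/
theorem exists_cover_of_lipschitz {A : Set E} {k : ℕ} {ι : Type*} [Fintype ι]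
    (f : ι → (Fin k → ℝ) → E) (K : NNReal) (hf : ∀ i, LipschitzOnWith K (f i) (Set.Icc 0 1))
    (hA : A ⊆ ⋃ i, f i '' Set.Icc 0 1) (t : ℝ) (ht : 1 ≤ t) :
    ∃ P : Finset E, (P.card : ℝ) ≤ (Fintype.card ι * 2 ^ k : ℝ) * t ^ k ∧
      A ⊆ ⋃ c ∈ P, closedBall c ((K : ℝ) / t) := by
  classical
  choose P hP1 hP2 using fun i => exists_cover_lipschitz_image (hf i) t ht
  refine ⟨Finset.univ.biUnion P, ?_, ?_⟩
  · have h1 : ((Finset.univ.biUnion P).card : ℝ) ≤ ∑ i : ι, ((P i).card : ℝ) := by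
      exact_mod_cast Finset.card_biUnion_le
    refine h1.trans ?_
    calc ∑ i : ι, ((P i).card : ℝ) ≤ ∑ _i : ι, (2 ^ k * t ^ k : ℝ) := Finset.sum_le_sum fun i _ => hP1 i
      _ = (Fintype.card ι * 2 ^ k : ℝ) * t ^ k := by
        rw [Finset.sum_const, Finset.card_univ, nsmul_eq_mul]; ring
  · intro x hx
    obtain ⟨i, hi⟩ := Set.mem_iUnion.mp (hA hx)
    have := hP2 i hi
    simp only [Set.mem_iUnion, Finset.mem_biUnion, Finset.mem_univ, true_and, exists_prop] at this ⊢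
    obtain ⟨c, hc, hxc⟩ := this
    exact ⟨c, ⟨i, hc⟩, hxc⟩

end Cover

section Final

variable {E : Type*} [NormedAddCommGroup E] [InnerProductSpace ℝ E] [FiniteDimensional ℝ E]
  [MeasurableSpace E] [BorelSpace E]
variable (L : Submodule ℤ E) [DiscreteTopology L] [IsZLattice ℝ L]

/-- **(L5) Counting lattice points in a cone with a Lipschitz frontier.** `X` a cone, `F`
homogeneous of degree `n = finrank ℝ E`, `D = {x ∈ X | F x ≤ 1}` bounded with frontier contained
in finitely many Lipschitz images of the unit cube of dimension `k ≤ n - 1`. Then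
`#{x ∈ X ∩ L | F x ≤ c} = c vol(D) / covol(L) + O(c ^ (1 - 1 / n))`. -/
theorem card_cone_sub_le_of_lipschitz [Nontrivial E] {X : Set E} {F : E → ℝ}
    (hX : ∀ ⦃x⦄ ⦃r : ℝ⦄, x ∈ X → 0 < r → r • x ∈ X)
    (h₁ : ∀ x ⦃r : ℝ⦄, 0 ≤ r → F (r • x) = r ^ finrank ℝ E * (F x))
    (h₂ : Bornology.IsBounded {x ∈ X | F x ≤ 1})
    {k : ℕ} (hk : k ≤ finrank ℝ E - 1) {ι : Type*} [Fintype ι]
    (f : ι → (Fin k → ℝ) → E) (K : NNReal) (hf : ∀ i, LipschitzOnWith K (f i) (Set.Icc 0 1))
    (hfr : frontier {x ∈ X | F x ≤ 1} ⊆ ⋃ i, f i '' Set.Icc 0 1) :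
    ∃ C : ℝ, ∀ c : ℝ, 1 ≤ c →
      |(Nat.card ({x ∈ X | F x ≤ c} ∩ L : Set E) : ℝ) -
        c * volume.real {x ∈ X | F x ≤ 1} / ZLattice.covolume L| ≤
          C * c ^ (1 - 1 / (finrank ℝ E : ℝ)) := by
  refine card_cone_sub_le L hX h₁ h₂ (C₀ := (Fintype.card ι * 2 ^ k : ℝ)) (R₀ := (K : ℝ)) ?_
  intro t ht
  obtain ⟨P, hP1, hP2⟩ := exists_cover_of_lipschitz f K hf hfr t ht
  refine ⟨P, hP1.trans ?_, hP2⟩
  have : t ^ k ≤ t ^ (finrank ℝ E - 1) := pow_le_pow_right₀ ht hk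
  have h0 : (0 : ℝ) ≤ (Fintype.card ι * 2 ^ k : ℝ) := by positivity
  exact mul_le_mul_of_nonneg_left this h0

end Final

end Fermat.Agent.S14_CountL
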