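/-
Project C (S14), block COUNT-I (helper5).

Equidistribution of integral ideals among the ideal classes of a number field `K` with a
power-saving error term:
  `#{I ∈ c : N I ≤ s} = kappa K * s + O(s ^ (1 - 1 / [K : ℚ]))`.
Mathlib (`NumberField.Ideal.tendsto_norm_le_and_mk_eq_div_atTop`) only has the limit.  We redo its
last step with the lattice point count with error term of `S14_CountL` (lead) and the covering of
the frontier of `normLeOne K` of `S14_CountF`; the main term is identified by uniqueness of limits.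
-/
import Mathlib
import Fermat.Agent.S14_CountL
import Fermat.Agent.S14_CountF

set_option autoImplicit false

noncomputable section

open Ideal

namespace Fermat.Agent.S14_Count

open scoped nonZeroDivisors Real

open Filter NumberField NumberField.InfinitePlace NumberField.mixedEmbedding
  NumberField.mixedEmbedding.euclidean NumberField.mixedEmbedding.fundamentalCone Submodule
  Topology NumberField.Units

variable (K : Type*) [Field K] [NumberField K]

variable {C : ClassGroup (𝓞 K)} {J : (Ideal (𝓞 K))⁰} {s : ℝ}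

/-- Copy of a private Mathlib lemma (`NumberField.Ideal.tendsto_norm_le_and_mk_eq_div_atTop_aux₁`). -/
theorem card_class_eq_card_dvd (hJ : ClassGroup.mk0 J = C⁻¹) :
    Nat.card {I : (Ideal (𝓞 K))⁰ // absNorm (I : Ideal (𝓞 K)) ≤ s ∧ ClassGroup.mk0 I = C}
      = Nat.card {I : (Ideal (𝓞 K))⁰ // (J : Ideal (𝓞 K)) ∣ I ∧ IsPrincipal (I : Ideal (𝓞 K)) ∧
        absNorm (I : Ideal (𝓞 K)) ≤ s * absNorm (J : Ideal (𝓞 K))} := by
  simp_rw [← nonZeroDivisors_dvd_iff_dvd_coe]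
  refine Nat.card_congr ?_
  refine ((Equiv.dvd J).subtypeEquiv fun I ↦ ?_).trans
    (Equiv.subtypeSubtypeEquivSubtypeInter (fun I : (Ideal (𝓞 K))⁰ ↦ J ∣ I) _)
  rw [← ClassGroup.mk0_eq_one_iff (SetLike.coe_mem _)]
  simp_rw [Equiv.dvd_apply, Submonoid.coe_mul, ← Submonoid.mul_def, _root_.map_mul, hJ,
    inv_mul_eq_one, Nat.cast_mul, mul_comm s, eq_comm, and_comm, and_congr_left_iff]
  exact fun _ ↦
    (mul_le_mul_iff_of_pos_left (Nat.cast_pos.mpr (absNorm_pos_of_nonZeroDivisors J))).symm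

open scoped Classical in
/-- Copy of a private Mathlib definition
(`NumberField.Ideal.tendsto_norm_le_and_mk_eq_div_atTop_aux₂`). -/
def latticeInterEquiv :
    ↑({x | x ∈ (toMixed K) ⁻¹' fundamentalCone K ∧ mixedEmbedding.norm ((toMixed K) x) ≤ s} ∩
      (ZLattice.comap ℝ (idealLattice K ((FractionalIdeal.mk0 K) J)) (toMixed K).toLinearMap))
        ≃ {a : idealSet K J // mixedEmbedding.norm (a : mixedSpace K) ≤ s} := by
  rw [ZLattice.coe_comap]
  refine (((toMixed K).toEquiv.image _).trans (Equiv.subtypeEquivProp ?_)).trans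
    (Equiv.subtypeSubtypeEquivSubtypeInter _ (mixedEmbedding.norm · ≤ s)).symm
  ext
  simp_rw [mem_idealSet, Set.mem_image, Set.mem_inter_iff, Set.mem_preimage, SetLike.mem_coe,
    mem_idealLattice, FractionalIdeal.coe_mk0]
  constructor
  · rintro ⟨_, ⟨⟨hx₁, hx₂⟩, _, ⟨x, hx₃, rfl⟩, h⟩, rfl⟩
    exact ⟨⟨hx₁, x, hx₃, h⟩, hx₂⟩
  · rintro ⟨⟨hx₁, ⟨x, hx₂, rfl⟩⟩, hx₃⟩
    exact ⟨(toMixed K).symm (mixedEmbedding K x), ⟨⟨hx₁, hx₃⟩, ⟨(x : K), by simp [hx₂], rfl⟩⟩, rfl⟩

/-- Ideal counting in one class with a power-saving error term (main term not yet identified). -/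
theorem exists_card_class_sub_mul_le (C : ClassGroup (𝓞 K)) :
    ∃ κ B : ℝ, ∀ s : ℝ, 1 ≤ s →
      |(Nat.card {I : (Ideal (𝓞 K))⁰ //
          absNorm (I : Ideal (𝓞 K)) ≤ s ∧ ClassGroup.mk0 I = C} : ℝ) - κ * s|
        ≤ B * s ^ (1 - 1 / (Module.finrank ℚ K : ℝ)) := by
  classical
  obtain ⟨J, hJ⟩ := ClassGroup.mk0_surjective C⁻¹
  obtain ⟨C₀, R₀, -, -, hcov⟩ := S14_CountF.exists_cover_frontier_normLeOne K
  have h₁ : ∀ s : ℝ,
    {x | x ∈ toMixed K ⁻¹' fundamentalCone K ∧ mixedEmbedding.norm (toMixed K x) ≤ s} =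
      toMixed K ⁻¹' {x | x ∈ fundamentalCone K ∧ mixedEmbedding.norm x ≤ s} := fun _ ↦ rfl
  have h₂ : {x | x ∈ fundamentalCone K ∧ mixedEmbedding.norm x ≤ 1} = normLeOne K := by ext; simp
  have key := S14_CountL.card_cone_sub_le
    (ZLattice.comap ℝ (mixedEmbedding.idealLattice K (FractionalIdeal.mk0 K J))
      (toMixed K).toLinearMap)
    (F := fun x ↦ mixedEmbedding.norm (toMixed K x)) (X := (toMixed K) ⁻¹' (fundamentalCone K))
    (fun _ _ _ h ↦ ?_) (fun _ _ h ↦ ?_)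
    ((toMixed K).antilipschitz.isBounded_preimage (isBounded_normLeOne K)) (C₀ := C₀) (R₀ := R₀) ?_
  rotate_left
  · rwa [Set.mem_preimage, map_smul, smul_mem_iff_mem h.ne']
  · rw [map_smul, mixedEmbedding.norm_smul, euclidean.finrank, abs_of_nonneg h]
  · intro t ht
    obtain ⟨P, hP1, hP2⟩ := hcov t ht
    refine ⟨P, ?_, ?_⟩
    · rwa [euclidean.finrank]
    · rw [h₁, h₂]; exact hP2
  obtain ⟨C₁, hC₁⟩ := key
  rw [euclidean.finrank] at hC₁
  set V : ℝ := MeasureTheory.volume.real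
    {x | x ∈ toMixed K ⁻¹' fundamentalCone K ∧ mixedEmbedding.norm (toMixed K x) ≤ 1} with hV
  set cov : ℝ := ZLattice.covolume (ZLattice.comap ℝ
    (mixedEmbedding.idealLattice K (FractionalIdeal.mk0 K J)) (toMixed K).toLinearMap) with hcov'
  set N : ℝ := (absNorm (J : Ideal (𝓞 K)) : ℝ) with hN
  set w : ℝ := (torsionOrder K : ℝ) with hw
  have hN1 : 1 ≤ N := by
    rw [hN]; exact_mod_cast absNorm_pos_of_nonZeroDivisors J
  have hw0 : 0 < w := by
    rw [hw]; exact_mod_cast Nat.pos_of_ne_zero (torsionOrder_ne_zero K)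
  refine ⟨N * V / (cov * w), C₁ * N ^ (1 - 1 / (Module.finrank ℚ K : ℝ)) / w, fun s hs => ?_⟩
  have hs0 : 0 ≤ s := by linarith
  have hsN : 1 ≤ s * N := by nlinarith
  have hcard : (Nat.card ↑({x | x ∈ toMixed K ⁻¹' fundamentalCone K ∧
        mixedEmbedding.norm (toMixed K x) ≤ s * N} ∩
      (ZLattice.comap ℝ (mixedEmbedding.idealLattice K (FractionalIdeal.mk0 K J))
        (toMixed K).toLinearMap : Set (euclidean.mixedSpace K))) : ℝ) =
      (Nat.card {I : (Ideal (𝓞 K))⁰ //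
          absNorm (I : Ideal (𝓞 K)) ≤ s ∧ ClassGroup.mk0 I = C} : ℝ) * w := by
    rw [Nat.card_congr (latticeInterEquiv K), ← card_isPrincipal_dvd_norm_le,
      card_class_eq_card_dvd K hJ, Nat.cast_mul]
  have h := hC₁ (s * N) hsN
  rw [hcard] at h
  set A : ℝ := (Nat.card {I : (Ideal (𝓞 K))⁰ //
          absNorm (I : Ideal (𝓞 K)) ≤ s ∧ ClassGroup.mk0 I = C} : ℝ) with hA
  have e1 : A - N * V / (cov * w) * s = (A * w - s * N * V / cov) / w := by
    field_simp
  have e2 : (s * N) ^ (1 - 1 / (Module.finrank ℚ K : ℝ)) =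
      s ^ (1 - 1 / (Module.finrank ℚ K : ℝ)) * N ^ (1 - 1 / (Module.finrank ℚ K : ℝ)) :=
    Real.mul_rpow hs0 (by linarith)
  rw [e1, abs_div, abs_of_pos hw0, div_le_iff₀ hw0]
  calc |A * w - s * N * V / cov| ≤ C₁ * (s * N) ^ (1 - 1 / (Module.finrank ℚ K : ℝ)) := h
    _ = C₁ * N ^ (1 - 1 / (Module.finrank ℚ K : ℝ)) / w *
        s ^ (1 - 1 / (Module.finrank ℚ K : ℝ)) * w := by
      rw [e2]; field_simp

/-- The common density of ideals in every ideal class (the constant of Mathlib's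
`NumberField.Ideal.tendsto_norm_le_and_mk_eq_div_atTop`). -/
def kappa : ℝ :=
  (2 ^ nrRealPlaces K * (2 * π) ^ nrComplexPlaces K * regulator K) /
    (torsionOrder K * Real.sqrt |discr K|)

/-- **COUNT**: the number of ideals of norm `≤ s` in a class is `kappa K * s + O(s^(1-1/n))`. -/
theorem exists_card_class_sub_kappa_le (C : ClassGroup (𝓞 K)) :
    ∃ B : ℝ, ∀ s : ℝ, 1 ≤ s →
      |(Nat.card {I : (Ideal (𝓞 K))⁰ //
          absNorm (I : Ideal (𝓞 K)) ≤ s ∧ ClassGroup.mk0 I = C} : ℝ) - kappa K * s|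
        ≤ B * s ^ (1 - 1 / (Module.finrank ℚ K : ℝ)) := by
  obtain ⟨κ, B, h⟩ := exists_card_class_sub_mul_le K C
  have hn : (0 : ℝ) < 1 / (Module.finrank ℚ K : ℝ) :=
    one_div_pos.mpr (Nat.cast_pos.mpr Module.finrank_pos)
  -- the ratio tends to `κ`
  have hlim : Tendsto (fun s : ℝ ↦
      (Nat.card {I : (Ideal (𝓞 K))⁰ //
        absNorm (I : Ideal (𝓞 K)) ≤ s ∧ ClassGroup.mk0 I = C} : ℝ) / s) atTop (𝓝 κ) := by
    rw [tendsto_iff_norm_sub_tendsto_zero]
    have hg : Tendsto (fun s : ℝ ↦ |B| * s ^ (-(1 / (Module.finrank ℚ K : ℝ)))) atTop (𝓝 0) := by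
      simpa using (tendsto_rpow_neg_atTop hn).const_mul |B|
    refine squeeze_zero' (Eventually.of_forall fun _ ↦ norm_nonneg _) ?_ hg
    filter_upwards [eventually_ge_atTop (1 : ℝ)] with s hs
    have hs0 : 0 < s := by linarith
    have h1 := h s hs
    rw [Real.norm_eq_abs]
    have e1 : (Nat.card {I : (Ideal (𝓞 K))⁰ //
        absNorm (I : Ideal (𝓞 K)) ≤ s ∧ ClassGroup.mk0 I = C} : ℝ) / s - κ =
        ((Nat.card {I : (Ideal (𝓞 K))⁰ //
        absNorm (I : Ideal (𝓞 K)) ≤ s ∧ ClassGroup.mk0 I = C} : ℝ) - κ * s) / s := by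
      field_simp
    have e2 : s ^ (-(1 / (Module.finrank ℚ K : ℝ))) =
        s ^ (1 - 1 / (Module.finrank ℚ K : ℝ)) / s := by
      rw [← Real.rpow_sub_one hs0.ne']
      congr 1; ring
    rw [e1, abs_div, abs_of_pos hs0, e2, ← mul_div_assoc, div_le_div_iff_of_pos_right hs0]
    exact h1.trans (mul_le_mul_of_nonneg_right (le_abs_self B) (Real.rpow_nonneg hs0.le _))
  have hκ : κ = kappa K :=
    tendsto_nhds_unique hlim (NumberField.Ideal.tendsto_norm_le_and_mk_eq_div_atTop K C)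
  exact ⟨B, fun s hs => hκ ▸ h s hs⟩

/-- **COUNT**, difference form: ideals are equidistributed among the ideal classes with a
power-saving error term. -/
theorem exists_card_class_sub_le :
    ∃ C₂ : ℝ, ∀ (c c' : ClassGroup (𝓞 K)) (x : ℝ), 1 ≤ x →
      |(Nat.card {I : (Ideal (𝓞 K))⁰ //
            absNorm (I : Ideal (𝓞 K)) ≤ x ∧ ClassGroup.mk0 I = c} : ℝ)
        - (Nat.card {I : (Ideal (𝓞 K))⁰ //
            absNorm (I : Ideal (𝓞 K)) ≤ x ∧ ClassGroup.mk0 I = c'} : ℝ)|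
        ≤ C₂ * x ^ (1 - 1 / (Module.finrank ℚ K : ℝ)) := by
  classical
  choose B hB using exists_card_class_sub_kappa_le K
  refine ⟨2 * ∑ c, |B c|, fun c c' x hx => ?_⟩
  have hx0 : 0 < x := by linarith
  have hr : 0 ≤ x ^ (1 - 1 / (Module.finrank ℚ K : ℝ)) := Real.rpow_nonneg hx0.le _
  have hle : ∀ c, B c ≤ ∑ c, |B c| := fun c =>
    (le_abs_self _).trans (Finset.single_le_sum (f := fun c => |B c|)
      (fun _ _ => abs_nonneg _) (Finset.mem_univ c))
  have h1 := hB c x hx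
  have h2 := hB c' x hx
  have h3 := mul_le_mul_of_nonneg_right (hle c) hr
  have h4 := mul_le_mul_of_nonneg_right (hle c') hr
  rw [abs_le] at h1 h2 ⊢
  constructor <;> nlinarith [h1.1, h1.2, h2.1, h2.2]

/-- **COUNT**, in the exact shape of the hypothesis `hcount` of
`S14_Zeta.classZeta_sub_le_of_count` (natural bounds). -/
theorem exists_count_bound :
    ∃ (C r : ℝ), r < 1 ∧ ∀ (c c' : ClassGroup (𝓞 K)) (n : ℕ), 1 ≤ n →
      |(Nat.card {a : (Ideal (𝓞 K))⁰ //
            Ideal.absNorm (a : Ideal (𝓞 K)) ≤ n ∧ ClassGroup.mk0 a = c} : ℝ)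
        - (Nat.card {a : (Ideal (𝓞 K))⁰ //
            Ideal.absNorm (a : Ideal (𝓞 K)) ≤ n ∧ ClassGroup.mk0 a = c'} : ℝ)|
        ≤ C * (n : ℝ) ^ r := by
  obtain ⟨C₂, h⟩ := exists_card_class_sub_le K
  have hn : (0 : ℝ) < 1 / (Module.finrank ℚ K : ℝ) :=
    one_div_pos.mpr (Nat.cast_pos.mpr Module.finrank_pos)
  refine ⟨C₂, 1 - 1 / (Module.finrank ℚ K : ℝ), by linarith, fun c c' n hn1 => ?_⟩
  have key := h c c' (n : ℝ) (by exact_mod_cast hn1)
  have e : ∀ c₀ : ClassGroup (𝓞 K),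
      Nat.card {a : (Ideal (𝓞 K))⁰ //
        Ideal.absNorm (a : Ideal (𝓞 K)) ≤ n ∧ ClassGroup.mk0 a = c₀} =
      Nat.card {I : (Ideal (𝓞 K))⁰ //
        (absNorm (I : Ideal (𝓞 K)) : ℝ) ≤ (n : ℝ) ∧ ClassGroup.mk0 I = c₀} :=
    fun c₀ => Nat.card_congr (Equiv.subtypeEquivRight fun a => by rw [Nat.cast_le])
  rw [e c, e c']
  exact key

end Fermat.Agent.S14_Count
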