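import Fermat.Agent.S14_Zeta
import Fermat.Agent.S14_Count

/-!
# S14_ZetaClass (helper4): partial zeta functions of two ideal classes differ by a bounded amount

Project C (S14), block ZETA, part (Z5): Abel summation.  From the counting bound of block COUNT
(`#{a ∈ c, N a ≤ n} - #{a ∈ c', N a ≤ n} = O(n ^ r)` with `r < 1`) we get that
`classZeta F c s - classZeta F c' s` is bounded on `(1, 2]`.
-/

set_option autoImplicit false

noncomputable section

open Filter Topology NumberField IsDedekindDomain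
open scoped nonZeroDivisors

namespace Fermat.Agent.S14_Zeta

/-- Telescoping. -/
theorem sum_Ico_sub_succ (g : ℕ → ℝ) {m N : ℕ} (h : m ≤ N) :
    ∑ n ∈ Finset.Ico m N, (g n - g (n + 1)) = g m - g N := by
  induction N, h using Nat.le_induction with
  | base => simp
  | succ N hN ih =>
    rw [Finset.sum_Ico_succ_top hN, ih]
    ring

/-- `n^(-s) - (n+1)^(-s) ≤ 2 n^(-2)` for `1 ≤ s ≤ 2`, `n ≥ 1`. -/
theorem rpow_sub_rpow_succ_le {s : ℝ} (hs1 : 1 ≤ s) (hs2 : s ≤ 2) {n : ℕ} (hn : 1 ≤ n) :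
    (n : ℝ) ^ (-s) - ((n + 1 : ℕ) : ℝ) ^ (-s) ≤ 2 * (n : ℝ) ^ (-2 : ℝ) := by
  have hn0 : (0 : ℝ) < n := by exact_mod_cast hn
  have hn1 : (1 : ℝ) ≤ n := by exact_mod_cast hn
  have hb := one_add_mul_self_le_rpow_one_add (s := -(1 / ((n : ℝ) + 1))) (by
    rw [neg_le_neg_iff, div_le_one (by positivity)]
    linarith) hs1
  have h1 : 1 + -(1 / ((n : ℝ) + 1)) = (n : ℝ) / ((n : ℝ) + 1) := by
    field_simp
    ring
  rw [h1, Real.div_rpow hn0.le (by positivity)] at hb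
  have h2 : (((n + 1 : ℕ) : ℝ)) ^ (-s)
      = (n : ℝ) ^ (-s) * ((n : ℝ) ^ s / ((n : ℝ) + 1) ^ s) := by
    rw [Nat.cast_add, Nat.cast_one, Real.rpow_neg (by positivity), Real.rpow_neg hn0.le]
    have : (n : ℝ) ^ s ≠ 0 := (Real.rpow_pos_of_pos hn0 s).ne'
    field_simp
  rw [h2]
  have h3 : (n : ℝ) ^ (-s) ≤ (n : ℝ) ^ (-1 : ℝ) :=
    Real.rpow_le_rpow_of_exponent_le hn1 (by linarith)
  have h4 : (n : ℝ) ^ (-1 : ℝ) = 1 / n := by rw [Real.rpow_neg_one, one_div]
  have h5 : (n : ℝ) ^ (-2 : ℝ) = 1 / (n : ℝ) ^ 2 := by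
    rw [Real.rpow_neg hn0.le, one_div]
    norm_cast
  have h6 : 0 < (n : ℝ) ^ (-s) := Real.rpow_pos_of_pos hn0 _
  have h7 : (n : ℝ) ^ (-s) - (n : ℝ) ^ (-s) * ((n : ℝ) ^ s / ((n : ℝ) + 1) ^ s)
      ≤ (n : ℝ) ^ (-s) * (s * (1 / ((n : ℝ) + 1))) := by
    nlinarith
  have h8 : s * (1 / ((n : ℝ) + 1)) ≤ 2 * (1 / n) := by
    have h9 : 1 / ((n : ℝ) + 1) ≤ 1 / n := one_div_le_one_div_of_le hn0 (by linarith)
    have h10 : 0 ≤ 1 / ((n : ℝ) + 1) := by positivity
    nlinarith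
  calc (n : ℝ) ^ (-s) - (n : ℝ) ^ (-s) * ((n : ℝ) ^ s / ((n : ℝ) + 1) ^ s)
      ≤ (n : ℝ) ^ (-s) * (s * (1 / ((n : ℝ) + 1))) := h7
    _ ≤ (1 / n) * (2 * (1 / n)) :=
        mul_le_mul (h4 ▸ h3) h8 (by positivity) (by positivity)
    _ = 2 * (n : ℝ) ^ (-2 : ℝ) := by
        rw [h5]
        field_simp

variable (F : Type*) [Field F] [NumberField F]

open Classical in
/-- The finite set of nonzero ideals of norm at most `N` in the class `c`. -/
def classFinset (c : ClassGroup (𝓞 F)) (N : ℕ) : Finset (Ideal (𝓞 F))⁰ :=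
  (Ideal.finite_setOfPred_absNorm_le₀ (S := 𝓞 F) N).toFinset.filter
    (fun a => ClassGroup.mk0 a = c)

theorem mem_classFinset {c : ClassGroup (𝓞 F)} {N : ℕ} {a : (Ideal (𝓞 F))⁰} :
    a ∈ classFinset F c N ↔ Ideal.absNorm (a : Ideal (𝓞 F)) ≤ N ∧ ClassGroup.mk0 a = c := by
  simp [classFinset]

theorem card_classFinset (c : ClassGroup (𝓞 F)) (N : ℕ) :
    (classFinset F c N).card = Nat.card {a : (Ideal (𝓞 F))⁰ //
      Ideal.absNorm (a : Ideal (𝓞 F)) ≤ N ∧ ClassGroup.mk0 a = c} :=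
  (Nat.subtype_card _ (fun _ => mem_classFinset F)).symm

theorem tendsto_sum_classFinset {s : ℝ} (hs : 1 < s) (c : ClassGroup (𝓞 F)) :
    Tendsto (fun N : ℕ => ∑ a ∈ classFinset F c N, wt F s a) atTop (𝓝 (classZeta F c s)) := by
  classical
  set g : (Ideal (𝓞 F))⁰ → ℝ := Set.indicator {a | ClassGroup.mk0 a = c} (wt F s) with hg
  have hsum : Summable g := (summable_wt F hs).indicator _
  have h1 : ∑' a, g a = classZeta F c s := by
    rw [classZeta, hg]
    exact (tsum_subtype {a : (Ideal (𝓞 F))⁰ | ClassGroup.mk0 a = c} (wt F s)).symm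
  have hmono : Monotone
      (fun N : ℕ => (Ideal.finite_setOfPred_absNorm_le₀ (S := 𝓞 F) N).toFinset) := by
    intro N N' h a ha
    simp only [Set.Finite.mem_toFinset, Set.mem_setOf_eq] at ha ⊢
    exact ha.trans h
  have htend := tendsto_atTop_finset_of_monotone hmono
    (fun a => ⟨Ideal.absNorm (a : Ideal (𝓞 F)), by simp⟩)
  have h2 := hsum.hasSum.comp htend
  rw [h1] at h2
  refine h2.congr fun N => ?_
  simp only [Function.comp_apply, hg]
  rw [classFinset, Finset.sum_filter]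
  refine Finset.sum_congr rfl fun a _ => ?_
  simp [Set.indicator_apply]

/-- Abel summation for the partial sums of a partial zeta function. -/
theorem sum_classFinset_eq (s : ℝ) (c : ClassGroup (𝓞 F)) (N : ℕ) :
    ∑ a ∈ classFinset F c N, wt F s a
      = ∑ n ∈ Finset.range N, ((classFinset F c n).card : ℝ) *
          ((n : ℝ) ^ (-s) - ((n + 1 : ℕ) : ℝ) ^ (-s))
        + ((classFinset F c N).card : ℝ) * (N : ℝ) ^ (-s) := by
  classical
  have h1 : ∀ a ∈ classFinset F c N, wt F s a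
      = ∑ n ∈ Finset.Ico (Ideal.absNorm (a : Ideal (𝓞 F))) N,
          ((n : ℝ) ^ (-s) - ((n + 1 : ℕ) : ℝ) ^ (-s)) + (N : ℝ) ^ (-s) := by
    intro a ha
    rw [sum_Ico_sub_succ (fun n : ℕ => (n : ℝ) ^ (-s)) ((mem_classFinset F).mp ha).1]
    simp [wt]
  rw [Finset.sum_congr rfl h1, Finset.sum_add_distrib, Finset.sum_const, nsmul_eq_mul]
  congr 1
  have hcomm := Finset.sum_comm' (s := classFinset F c N)
    (t := fun a => Finset.Ico (Ideal.absNorm (a : Ideal (𝓞 F))) N) (t' := Finset.range N)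
    (s' := fun n => (classFinset F c N).filter
      (fun a : (Ideal (𝓞 F))⁰ => Ideal.absNorm (a : Ideal (𝓞 F)) ≤ n))
    (f := fun _ n => ((n : ℝ) ^ (-s) - ((n + 1 : ℕ) : ℝ) ^ (-s))) (by
      intro a n
      simp only [Finset.mem_Ico, Finset.mem_filter, Finset.mem_range]
      tauto)
  rw [hcomm]
  refine Finset.sum_congr rfl fun n hn => ?_
  have hset : (classFinset F c N).filter
      (fun a : (Ideal (𝓞 F))⁰ => Ideal.absNorm (a : Ideal (𝓞 F)) ≤ n) = classFinset F c n := by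
    ext a
    simp only [Finset.mem_filter, mem_classFinset]
    have := Finset.mem_range.mp hn
    constructor
    · rintro ⟨⟨_, h2⟩, h3⟩
      exact ⟨h3, h2⟩
    · rintro ⟨h3, h2⟩
      exact ⟨⟨by omega, h2⟩, h3⟩
  rw [Finset.sum_const, nsmul_eq_mul, hset]

/-- (Z5) from the counting bound of block COUNT, by Abel summation. -/
theorem classZeta_sub_le_of_count
    (hcount : ∃ (C r : ℝ), r < 1 ∧ ∀ (c c' : ClassGroup (𝓞 F)) (n : ℕ), 1 ≤ n →
      |(Nat.card {a : (Ideal (𝓞 F))⁰ //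
            Ideal.absNorm (a : Ideal (𝓞 F)) ≤ n ∧ ClassGroup.mk0 a = c} : ℝ)
        - (Nat.card {a : (Ideal (𝓞 F))⁰ //
            Ideal.absNorm (a : Ideal (𝓞 F)) ≤ n ∧ ClassGroup.mk0 a = c'} : ℝ)|
        ≤ C * (n : ℝ) ^ r) :
    ∃ C' : ℝ, ∀ (c c' : ClassGroup (𝓞 F)) (s : ℝ), 1 < s → s ≤ 2 →
      |classZeta F c s - classZeta F c' s| ≤ C' := by
  obtain ⟨C, r, hr, hC⟩ := hcount
  have hC0 : 0 ≤ C := by
    have := (abs_nonneg _).trans (hC 1 1 1 le_rfl)
    simpa using this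
  have hZ : Summable (fun n : ℕ => (n : ℝ) ^ (r - 2)) :=
    Real.summable_nat_rpow.mpr (by linarith)
  refine ⟨C * (2 * ∑' n : ℕ, (n : ℝ) ^ (r - 2) + 1), fun c c' s hs1 hs2 => ?_⟩
  set D : ℕ → ℝ :=
    fun n => ((classFinset F c n).card : ℝ) - ((classFinset F c' n).card : ℝ) with hD
  have hD0 : D 0 = 0 := by
    have h0 : ∀ c₀ : ClassGroup (𝓞 F), classFinset F c₀ 0 = ∅ := by
      intro c₀
      ext a
      simp only [mem_classFinset, Finset.notMem_empty, iff_false, not_and]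
      intro h
      exact absurd h (by have := absNorm_pos a; omega)
    simp [hD, h0]
  have hDn : ∀ n : ℕ, 1 ≤ n → |D n| ≤ C * (n : ℝ) ^ r := by
    intro n hn
    simp only [hD, card_classFinset]
    exact hC c c' n hn
  have hbound : ∀ N : ℕ, 1 ≤ N →
      |∑ a ∈ classFinset F c N, wt F s a - ∑ a ∈ classFinset F c' N, wt F s a|
        ≤ C * (2 * ∑' n : ℕ, (n : ℝ) ^ (r - 2) + 1) := by
    intro N hN
    rw [sum_classFinset_eq, sum_classFinset_eq]
    have h1 : (∑ n ∈ Finset.range N, ((classFinset F c n).card : ℝ) *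
          ((n : ℝ) ^ (-s) - ((n + 1 : ℕ) : ℝ) ^ (-s))
        + ((classFinset F c N).card : ℝ) * (N : ℝ) ^ (-s))
        - (∑ n ∈ Finset.range N, ((classFinset F c' n).card : ℝ) *
          ((n : ℝ) ^ (-s) - ((n + 1 : ℕ) : ℝ) ^ (-s))
        + ((classFinset F c' N).card : ℝ) * (N : ℝ) ^ (-s))
        = ∑ n ∈ Finset.range N, D n * ((n : ℝ) ^ (-s) - ((n + 1 : ℕ) : ℝ) ^ (-s))
          + D N * (N : ℝ) ^ (-s) := by
      simp only [hD, sub_mul, Finset.sum_sub_distrib]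
      ring
    rw [h1]
    have h2 : ∀ n ∈ Finset.range N,
        |D n * ((n : ℝ) ^ (-s) - ((n + 1 : ℕ) : ℝ) ^ (-s))| ≤ C * (2 * (n : ℝ) ^ (r - 2)) := by
      intro n _
      rcases Nat.eq_zero_or_pos n with rfl | hn
      · rw [hD0, zero_mul, abs_zero]
        have : (0 : ℝ) ≤ ((0 : ℕ) : ℝ) ^ (r - 2) := Real.rpow_nonneg (by simp) _
        positivity
      · have hn0 : (0 : ℝ) < n := by exact_mod_cast hn
        have hδ := rpow_sub_rpow_succ_le hs1.le hs2 hn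
        have hδ0 : 0 ≤ (n : ℝ) ^ (-s) - ((n + 1 : ℕ) : ℝ) ^ (-s) := by
          rw [sub_nonneg]
          exact Real.rpow_le_rpow_of_nonpos hn0 (by push_cast; linarith) (by linarith)
        rw [abs_mul, abs_of_nonneg hδ0]
        calc |D n| * ((n : ℝ) ^ (-s) - ((n + 1 : ℕ) : ℝ) ^ (-s))
            ≤ (C * (n : ℝ) ^ r) * (2 * (n : ℝ) ^ (-2 : ℝ)) :=
              mul_le_mul (hDn n hn) hδ hδ0 (by positivity)
          _ = C * (2 * (n : ℝ) ^ (r - 2)) := by
              rw [sub_eq_add_neg, Real.rpow_add hn0]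
              ring
    have h3 : |D N * (N : ℝ) ^ (-s)| ≤ C := by
      have hN0 : (0 : ℝ) < N := by exact_mod_cast hN
      rw [abs_mul, abs_of_nonneg (Real.rpow_nonneg hN0.le _)]
      calc |D N| * (N : ℝ) ^ (-s) ≤ (C * (N : ℝ) ^ r) * (N : ℝ) ^ (-s) :=
            mul_le_mul_of_nonneg_right (hDn N hN) (Real.rpow_nonneg hN0.le _)
        _ = C * (N : ℝ) ^ (r - s) := by
            rw [mul_assoc, ← Real.rpow_add hN0, sub_eq_add_neg]
        _ ≤ C * 1 :=
            mul_le_mul_of_nonneg_left (Real.rpow_le_one_of_one_le_of_nonpos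
              (by exact_mod_cast hN) (by linarith)) hC0
        _ = C := mul_one C
    have h4 := hZ.sum_le_tsum (Finset.range N)
      (fun n _ => Real.rpow_nonneg (Nat.cast_nonneg n) _)
    calc |∑ n ∈ Finset.range N, D n * ((n : ℝ) ^ (-s) - ((n + 1 : ℕ) : ℝ) ^ (-s))
          + D N * (N : ℝ) ^ (-s)|
        ≤ |∑ n ∈ Finset.range N, D n * ((n : ℝ) ^ (-s) - ((n + 1 : ℕ) : ℝ) ^ (-s))|
          + |D N * (N : ℝ) ^ (-s)| := abs_add_le _ _
      _ ≤ ∑ n ∈ Finset.range N, |D n * ((n : ℝ) ^ (-s) - ((n + 1 : ℕ) : ℝ) ^ (-s))| + C :=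
          add_le_add (Finset.abs_sum_le_sum_abs _ _) h3
      _ ≤ ∑ n ∈ Finset.range N, C * (2 * (n : ℝ) ^ (r - 2)) + C :=
          add_le_add (Finset.sum_le_sum h2) le_rfl
      _ = C * (2 * ∑ n ∈ Finset.range N, (n : ℝ) ^ (r - 2)) + C := by
          rw [← Finset.mul_sum, ← Finset.mul_sum]
      _ ≤ C * (2 * ∑' n : ℕ, (n : ℝ) ^ (r - 2)) + C := by
          nlinarith
      _ = C * (2 * ∑' n : ℕ, (n : ℝ) ^ (r - 2) + 1) := by ring
  have hlim := ((tendsto_sum_classFinset F hs1 c).sub (tendsto_sum_classFinset F hs1 c')).abs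
  refine le_of_tendsto hlim ?_
  filter_upwards [eventually_ge_atTop 1] with N hN
  exact hbound N hN

/-- (Z5), unconditional: the partial zeta functions of two ideal classes differ by a bounded
amount on `(1, 2]`. -/
theorem exists_classZeta_sub_le :
    ∃ C' : ℝ, ∀ (c c' : ClassGroup (𝓞 F)) (s : ℝ), 1 < s → s ≤ 2 →
      |classZeta F c s - classZeta F c' s| ≤ C' :=
  classZeta_sub_le_of_count F (Fermat.Agent.S14_Count.exists_count_bound F)

end Fermat.Agent.S14_Zeta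

end
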