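import Fermat.Agent.S14_Defs
import Fermat.Agent.S14_Efg
import Fermat.Agent.S14_ZetaClass
import Fermat.Agent.S14_Ineq

/-!
# Project C, block S14_Wrap: the concrete norm index inequality (INEQ)

`ineq`: for a Galois extension `M/F` of number fields of prime degree `p`, a subgroup `H0` of the
class group of `F` containing the classes of all completely split primes has index at most `p`.
This is the abstract inequality `S14_Zeta.index_le_of_split` applied to the map "prime below"
`HeightOneSpectrum (𝓞 M) → HeightOneSpectrum (𝓞 F)`, with the prime bookkeeping of `S14_Efg`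
and the bound of the class zeta functions `S14_Zeta.exists_classZeta_sub_le`.
(The companion statement `S14_Wrap.exists_not_isSplit` is in `S14_WrapSplit.lean`.)
-/

open NumberField Fermat.Agent.S14_Defs IsDedekindDomain
open scoped nonZeroDivisors

namespace Fermat.Agent.S14_Wrap

section fibres

variable (F M : Type*) [Field F] [NumberField F] [Field M] [NumberField M] [Algebra F M]

/-- the prime below, as a map of height one spectra -/
noncomputable abbrev piMap : HeightOneSpectrum (𝓞 M) → HeightOneSpectrum (𝓞 F) :=
  HeightOneSpectrum.under (𝓞 F)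

omit [NumberField F] [NumberField M] in
theorem mapsTo_asIdeal (q : HeightOneSpectrum (𝓞 F)) :
    Set.MapsTo HeightOneSpectrum.asIdeal (piMap F M ⁻¹' {q}) (q.asIdeal.primesOver (𝓞 M)) := by
  intro Q hQ
  have h1 : Q.asIdeal.under (𝓞 F) = q.asIdeal := congrArg HeightOneSpectrum.asIdeal hQ
  exact ⟨Q.isPrime, ⟨h1.symm⟩⟩

omit [NumberField M] in
theorem injOn_asIdeal (s : Set (HeightOneSpectrum (𝓞 M))) :
    Set.InjOn HeightOneSpectrum.asIdeal s :=
  fun _ _ _ _ h => HeightOneSpectrum.ext h

/-- the fibres of the map "prime below" are finite with at most `[M : F]` elements -/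
theorem fibre [IsGalois F M] (q : HeightOneSpectrum (𝓞 F)) :
    (piMap F M ⁻¹' {q}).Finite ∧ (piMap F M ⁻¹' {q}).ncard ≤ Module.finrank F M := by
  have hfin := S14_Efg.finite_primesOver F M q.asIdeal q.ne_bot
  have := q.isPrime
  refine ⟨Set.Finite.of_injOn (mapsTo_asIdeal F M q) (injOn_asIdeal M _) hfin, ?_⟩
  exact (Set.ncard_le_ncard_of_injOn _ (mapsTo_asIdeal F M q) (injOn_asIdeal M _) hfin).trans
    (S14_Efg.ncard_primesOver_le F M q.asIdeal q.ne_bot)

end fibres

/-- (INEQ), concrete form: for `M/F` Galois of prime degree `p`, a subgroup of the class group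
containing the classes of all completely split primes has index at most `p`. -/
theorem ineq (p : ℕ) [Fact p.Prime] (F M : Type*) [Field F] [NumberField F] [Field M]
    [NumberField M] [Algebra F M] [IsGalois F M] (hdeg : Module.finrank F M = p)
    (hunr : Unram F M) (H0 : Subgroup (ClassGroup (𝓞 F)))
    (hH0 : ∀ q : Ideal (𝓞 F), q.IsPrime → q ≠ ⊥ → IsSplit M q → cls q ∈ H0) :
    H0.index ≤ p := by
  have _ := hunr
  refine S14_Zeta.index_le_of_split F M p (Fact.out : p.Prime).pos H0 (piMap F M)
    (fun q => hdeg ▸ fibre F M q) ?_ (S14_Zeta.exists_classZeta_sub_le F)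
  intro Q
  have hqp := (piMap F M Q).isPrime
  rcases S14_Efg.isSplit_or_sq_le F M (piMap F M Q).asIdeal (piMap F M Q).ne_bot with hs | hs
  · left
    refine ⟨?_, hs Q.asIdeal Q.isPrime rfl⟩
    have h1 := hH0 _ hqp (piMap F M Q).ne_bot hs
    rw [cls_of_ne (piMap F M Q).ne_bot] at h1
    exact h1
  · right
    exact hs Q.asIdeal Q.isPrime rfl

end Fermat.Agent.S14_Wrap
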