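import Fermat.Agent.S14_Zeta

/-!
# S14_ZetaSplit (helper4): splitting of primes and zeta functions

Project C (S14), block ZETA, parts (Z3) and (Z4), in abstract form: no relation between the two
number fields `F` and `M` is assumed, only maps between their sets of primes with control on
the absolute norms.

* `false_of_all_split` (Z3): it is impossible that every prime of `F` outside a finite set has
  `d ≥ 2` primes of `M` of the same absolute norm "above" it.
* `exists_split_bound` (Z4): if every prime of `M` either lies over a prime in `Spl` with the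
  same norm, or has norm at least the square of the norm of the prime below it, then the partial
  Euler products of `ζ_M` are bounded by those of `ζ_F` over `Spl`, to the power `p`.
-/

set_option autoImplicit false

noncomputable section

open Filter Topology NumberField IsDedekindDomain
open scoped nonZeroDivisors

namespace Fermat.Agent.S14_Zeta

variable (F : Type*) [Field F] [NumberField F]

/-- Comparison of Euler factors of two number fields. -/
theorem eulerFactor_le_of_le {M : Type*} [Field M] [NumberField M] {s s' : ℝ} (hs' : 0 < s')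
    {Q : HeightOneSpectrum (𝓞 M)} {q : HeightOneSpectrum (𝓞 F)}
    (h : (Ideal.absNorm Q.asIdeal : ℝ) ^ (-s) ≤ (Ideal.absNorm q.asIdeal : ℝ) ^ (-s')) :
    eulerFactor M s Q ≤ eulerFactor F s' q := by
  unfold eulerFactor
  have h1 : (Ideal.absNorm q.asIdeal : ℝ) ^ (-s') < 1 := wt_primeIdeal_lt_one F hs' q
  exact inv_anti₀ (by linarith) (by linarith)

theorem eulerFactor_anti {s s' : ℝ} (hs' : 0 < s') (h : s' ≤ s) (q : HeightOneSpectrum (𝓞 F)) :
    eulerFactor F s q ≤ eulerFactor F s' q :=
  eulerFactor_le_of_le F hs' (wt_le_wt F h (primeIdeal q))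

/-- A product over a finite set, fibred over its image, when the fibres have at most `p`
elements. -/
theorem prod_comp_le_pow {α β : Type*} [DecidableEq β] (π : α → β) (p : ℕ)
    (hfib : ∀ q, (π ⁻¹' {q}).Finite ∧ (π ⁻¹' {q}).ncard ≤ p) (E : β → ℝ) (hE : ∀ q, 1 ≤ E q)
    (U : Finset α) : ∏ Q ∈ U, E (π Q) ≤ (∏ q ∈ U.image π, E q) ^ p := by
  classical
  rw [← Finset.prod_fiberwise_of_maps_to (g := π) (t := U.image π)
    (fun x hx => Finset.mem_image_of_mem π hx), ← Finset.prod_pow]
  refine Finset.prod_le_prod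
    (fun q _ => Finset.prod_nonneg fun Q _ => le_trans zero_le_one (hE _)) (fun q _ => ?_)
  have h1 : ∏ Q ∈ U with π Q = q, E (π Q) = E q ^ (U.filter (fun Q => π Q = q)).card := by
    rw [Finset.prod_congr rfl (fun Q hQ => by rw [(Finset.mem_filter.mp hQ).2]),
      Finset.prod_const]
  rw [h1]
  refine pow_le_pow_right₀ (hE q) ?_
  have h2 : ((U.filter (fun Q => π Q = q) : Finset α) : Set α) ⊆ π ⁻¹' {q} := by
    intro Q hQ
    simpa using (Finset.mem_filter.mp (Finset.mem_coe.mp hQ)).2
  have h3 := Set.ncard_le_ncard h2 (hfib q).1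
  rw [Set.ncard_coe_finset] at h3
  exact h3.trans (hfib q).2

/-- (Z4), abstract form. -/
theorem exists_split_bound (M : Type*) [Field M] [NumberField M] (p : ℕ)
    (Spl : Set (HeightOneSpectrum (𝓞 F)))
    (π : HeightOneSpectrum (𝓞 M) → HeightOneSpectrum (𝓞 F))
    (hfib : ∀ q, (π ⁻¹' {q}).Finite ∧ (π ⁻¹' {q}).ncard ≤ p)
    (hnorm : ∀ Q, (π Q ∈ Spl ∧ Ideal.absNorm Q.asIdeal = Ideal.absNorm (π Q).asIdeal) ∨
      Ideal.absNorm (π Q).asIdeal ^ 2 ≤ Ideal.absNorm Q.asIdeal)
    {s : ℝ} (hs : 1 < s) (T' : Finset (HeightOneSpectrum (𝓞 M))) :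
    ∃ T : Finset (HeightOneSpectrum (𝓞 F)), (∀ q ∈ T, q ∈ Spl) ∧
      ∏ Q ∈ T', eulerFactor M s Q ≤ zetaR F 2 ^ p * (∏ q ∈ T, eulerFactor F s q) ^ p := by
  classical
  set T₁ := T'.filter (fun Q => π Q ∈ Spl ∧
    Ideal.absNorm Q.asIdeal = Ideal.absNorm (π Q).asIdeal) with hT₁
  set T₂ := T'.filter (fun Q => ¬ (π Q ∈ Spl ∧
    Ideal.absNorm Q.asIdeal = Ideal.absNorm (π Q).asIdeal)) with hT₂
  refine ⟨T₁.image π, ?_, ?_⟩
  · intro q hq
    obtain ⟨Q, hQ, rfl⟩ := Finset.mem_image.mp hq
    exact (Finset.mem_filter.mp hQ).2.1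
  · have hsplit : ∏ Q ∈ T', eulerFactor M s Q
        = (∏ Q ∈ T₂, eulerFactor M s Q) * ∏ Q ∈ T₁, eulerFactor M s Q := by
      rw [mul_comm]
      exact (Finset.prod_filter_mul_prod_filter_not T' _ _).symm
    rw [hsplit]
    have hs0 : 0 < s := by linarith
    have h1 : ∏ Q ∈ T₁, eulerFactor M s Q ≤ (∏ q ∈ T₁.image π, eulerFactor F s q) ^ p := by
      refine le_trans (le_of_eq ?_)
        (prod_comp_le_pow π p hfib (eulerFactor F s) (one_le_eulerFactor F hs0) T₁)
      refine Finset.prod_congr rfl fun Q hQ => ?_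
      unfold eulerFactor
      rw [(Finset.mem_filter.mp hQ).2.2]
    have h2 : ∏ Q ∈ T₂, eulerFactor M s Q ≤ zetaR F 2 ^ p := by
      have h3 : ∏ Q ∈ T₂, eulerFactor M s Q ≤ ∏ Q ∈ T₂, eulerFactor F 2 (π Q) := by
        refine Finset.prod_le_prod (fun Q _ => (eulerFactor_pos M hs0 Q).le) (fun Q hQ => ?_)
        have h4 : Ideal.absNorm (π Q).asIdeal ^ 2 ≤ Ideal.absNorm Q.asIdeal :=
          (hnorm Q).resolve_left (Finset.mem_filter.mp hQ).2
        refine eulerFactor_le_of_le F (by norm_num) ?_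
        have h5 : (0 : ℝ) < (Ideal.absNorm (π Q).asIdeal : ℝ) ^ 2 := by
          have := one_lt_absNorm (π Q)
          positivity
        have h6 : ((Ideal.absNorm (π Q).asIdeal : ℝ)) ^ 2 ≤ (Ideal.absNorm Q.asIdeal : ℝ) := by
          exact_mod_cast h4
        have h7 : (1 : ℝ) ≤ (Ideal.absNorm Q.asIdeal : ℝ) := by
          exact_mod_cast (one_lt_absNorm Q).le
        calc (Ideal.absNorm Q.asIdeal : ℝ) ^ (-s)
            ≤ (Ideal.absNorm Q.asIdeal : ℝ) ^ (-1 : ℝ) :=
              Real.rpow_le_rpow_of_exponent_le h7 (by linarith)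
          _ ≤ ((Ideal.absNorm (π Q).asIdeal : ℝ) ^ 2) ^ (-1 : ℝ) :=
              Real.rpow_le_rpow_of_nonpos h5 h6 (by norm_num)
          _ = (Ideal.absNorm (π Q).asIdeal : ℝ) ^ (-2 : ℝ) := by
              rw [← Real.rpow_natCast, ← Real.rpow_mul (Nat.cast_nonneg _)]
              norm_num
      refine h3.trans ((prod_comp_le_pow π p hfib (eulerFactor F 2)
        (one_le_eulerFactor F (by norm_num)) T₂).trans ?_)
      exact pow_le_pow_left₀ (Finset.prod_nonneg fun q _ => (eulerFactor_pos F (by norm_num) q).le)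
        (prod_eulerFactor_le_zetaR F (by norm_num) _) p
    exact mul_le_mul h2 h1 (Finset.prod_nonneg fun Q _ => (eulerFactor_pos M hs0 Q).le)
      (pow_nonneg (zetaR_pos F (by norm_num)).le p)

/-- (Z3), abstract form: it is impossible that all primes outside a finite set split
completely in a "degree `d ≥ 2` extension". -/
theorem false_of_all_split (M : Type*) [Field M] [NumberField M] (d : ℕ) (hd : 2 ≤ d)
    (S : Finset (HeightOneSpectrum (𝓞 F)))
    (ι : {q : HeightOneSpectrum (𝓞 F) // q ∉ S} × Fin d → HeightOneSpectrum (𝓞 M))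
    (hι : Function.Injective ι)
    (hN : ∀ x, Ideal.absNorm (ι x).asIdeal = Ideal.absNorm x.1.1.asIdeal) : False := by
  classical
  have hpos1 : ∀ q : HeightOneSpectrum (𝓞 F), 0 ≤ eulerFactor F 1 q :=
    fun q => (eulerFactor_pos F zero_lt_one q).le
  have key : ∀ s : ℝ, 1 < s → s ≤ 2 →
      zetaR F s ^ d ≤ (∏ q ∈ S, eulerFactor F 1 q) ^ d * zetaR M s := by
    intro s hs hs2
    have hs0 : 0 < s := by linarith
    have hpos : ∀ q : HeightOneSpectrum (𝓞 F), 0 ≤ eulerFactor F s q :=
      fun q => (eulerFactor_pos F hs0 q).le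
    have hT : ∀ T : Finset (HeightOneSpectrum (𝓞 F)),
        (∏ q ∈ T, eulerFactor F s q) ^ d ≤ (∏ q ∈ S, eulerFactor F 1 q) ^ d * zetaR M s := by
      intro T
      have h1 : ∏ q ∈ T, eulerFactor F s q = (∏ q ∈ T.filter (· ∈ S), eulerFactor F s q) *
          ∏ q ∈ T.filter (· ∉ S), eulerFactor F s q :=
        (Finset.prod_filter_mul_prod_filter_not T _ _).symm
      have h2 : ∏ q ∈ T.filter (· ∈ S), eulerFactor F s q ≤ ∏ q ∈ S, eulerFactor F 1 q := by
        calc ∏ q ∈ T.filter (· ∈ S), eulerFactor F s q ≤ ∏ q ∈ S, eulerFactor F s q :=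
              Finset.prod_le_prod_of_subset_of_one_le (fun q hq => (Finset.mem_filter.mp hq).2)
                (fun q _ => hpos q) (fun q _ _ => one_le_eulerFactor F hs0 q)
          _ ≤ ∏ q ∈ S, eulerFactor F 1 q :=
              Finset.prod_le_prod (fun q _ => hpos q)
                (fun q _ => eulerFactor_anti F zero_lt_one hs.le q)
      have h3 : (∏ q ∈ T.filter (· ∉ S), eulerFactor F s q) ^ d ≤ zetaR M s := by
        have h4 : ∏ q ∈ T.filter (· ∉ S), eulerFactor F s q
            = ∏ x ∈ T.subtype (fun q => q ∉ S), eulerFactor F s x.1 :=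
          (Finset.prod_subtype_eq_prod_filter (s := T) (eulerFactor F s)).symm
        rw [h4, ← Finset.prod_pow]
        have h5 : ∏ x ∈ T.subtype (fun q => q ∉ S), eulerFactor F s x.1 ^ d
            = ∏ y ∈ ((T.subtype (fun q => q ∉ S)) ×ˢ (Finset.univ : Finset (Fin d))).image ι,
                eulerFactor M s y := by
          rw [Finset.prod_image (fun a _ b _ h => hι h), Finset.prod_product]
          refine Finset.prod_congr rfl fun x _ => ?_
          have h6 : ∀ i : Fin d, eulerFactor M s (ι (x, i)) = eulerFactor F s x.1 := by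
            intro i
            unfold eulerFactor
            rw [hN (x, i)]
          rw [Finset.prod_congr rfl (fun i _ => h6 i), Finset.prod_const, Finset.card_univ,
            Fintype.card_fin]
        rw [h5]
        exact prod_eulerFactor_le_zetaR M hs _
      calc (∏ q ∈ T, eulerFactor F s q) ^ d
          = (∏ q ∈ T.filter (· ∈ S), eulerFactor F s q) ^ d *
            (∏ q ∈ T.filter (· ∉ S), eulerFactor F s q) ^ d := by rw [h1, mul_pow]
        _ ≤ (∏ q ∈ S, eulerFactor F 1 q) ^ d * zetaR M s :=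
            mul_le_mul (pow_le_pow_left₀ (Finset.prod_nonneg fun q _ => hpos q) h2 d) h3
              (pow_nonneg (Finset.prod_nonneg fun q _ => hpos q) d)
              (pow_nonneg (Finset.prod_nonneg fun q _ => hpos1 q) d)
    exact le_of_tendsto' ((tendsto_prod_eulerFactor F hs).pow d) hT
  obtain ⟨c, hc, hlow⟩ := exists_le_zetaR F
  obtain ⟨C, hC, hup⟩ := exists_zetaR_le M
  set B := (∏ q ∈ S, eulerFactor F 1 q) ^ d with hB
  have hB0 : 0 ≤ B := pow_nonneg (Finset.prod_nonneg fun q _ => hpos1 q) d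
  have main : ∀ t : ℝ, 0 < t → t ≤ 1 → c ^ d ≤ B * C * t := by
    intro t ht ht1
    have h1 := key (1 + t) (by linarith) (by linarith)
    have h2 := hlow (1 + t) (by linarith) (by linarith)
    have h3 := hup (1 + t) (by linarith) (by linarith)
    rw [add_sub_cancel_left] at h2 h3
    have h4 : (c / t) ^ d ≤ B * (C / t) :=
      (pow_le_pow_left₀ (by positivity) h2 d).trans
        (h1.trans (mul_le_mul_of_nonneg_left h3 hB0))
    rw [div_pow, div_le_iff₀ (pow_pos ht d)] at h4
    obtain ⟨k, rfl⟩ : ∃ k, d = k + 2 := ⟨d - 2, by omega⟩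
    have h6 : t ^ k ≤ 1 := pow_le_one₀ ht.le ht1
    have h7 : B * (C / t) * t ^ (k + 2) = B * C * t * t ^ k := by
      field_simp
      ring
    have h8 : 0 ≤ B * C * t := by positivity
    calc c ^ (k + 2) ≤ B * (C / t) * t ^ (k + 2) := h4
      _ = B * C * t * t ^ k := h7
      _ ≤ B * C * t * 1 := mul_le_mul_of_nonneg_left h6 h8
      _ = B * C * t := mul_one _
  have hcd : 0 < c ^ d := pow_pos hc d
  by_cases hBC : B * C ≤ c ^ d / 2
  · have := main 1 one_pos le_rfl
    linarith
  · rw [not_le] at hBC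
    have hBCpos : 0 < B * C := lt_trans (by positivity) hBC
    have h9 := main (c ^ d / (2 * (B * C))) (by positivity)
      (by rw [div_le_one (by positivity)]; linarith)
    have h10 : ∀ X : ℝ, 0 < X → X * (c ^ d / (2 * X)) = c ^ d / 2 := by
      intro X hX
      field_simp
    rw [h10 _ hBCpos] at h9
    linarith

end Fermat.Agent.S14_Zeta

end
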