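/-
S14, concrete (Z3): in an unramified Galois extension `M / F` of number fields of degree `≥ 2`,
some prime of `F` outside any given finite set does not split completely (helper8).
-/
import Mathlib
import Fermat.Agent.S14_Defs
import Fermat.Agent.S14_Efg
import Fermat.Agent.S14_ZetaSplit

namespace Fermat.Agent.S14_Wrap

open NumberField IsDedekindDomain Fermat.Agent.S14_Defs

/-- (Z3), concrete form: a Galois, unramified extension of degree `≥ 2` has a non-split prime
outside any finite set of primes. -/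
theorem exists_not_isSplit (F M : Type*) [Field F] [NumberField F] [Field M] [NumberField M]
    [Algebra F M] [IsGalois F M] (hdeg : 2 ≤ Module.finrank F M) (hunr : Unram F M)
    (S : Finset (Ideal (𝓞 F))) :
    ∃ q : Ideal (𝓞 F), q.IsPrime ∧ q ≠ ⊥ ∧ q ∉ S ∧ ¬ IsSplit M q := by
  classical
  by_contra hcon
  push Not at hcon
  -- the finite set of exceptional primes as height one primes
  have hinj : Function.Injective (fun v : HeightOneSpectrum (𝓞 F) => v.asIdeal) :=
    fun v w h => HeightOneSpectrum.ext h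
  have hfin : {v : HeightOneSpectrum (𝓞 F) | v.asIdeal ∈ S}.Finite :=
    (S.finite_toSet.preimage hinj.injOn)
  set S' : Finset (HeightOneSpectrum (𝓞 F)) := hfin.toFinset with hS'
  have hS'mem : ∀ v : HeightOneSpectrum (𝓞 F), v ∉ S' → v.asIdeal ∉ S := by
    intro v hv hvS
    apply hv
    rw [hS', Set.Finite.mem_toFinset]
    exact hvS
  -- two distinct primes above every non-exceptional prime
  have key : ∀ v : {v : HeightOneSpectrum (𝓞 F) // v ∉ S'},
      ∃ A B : HeightOneSpectrum (𝓞 M), A ≠ B ∧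
        A.asIdeal.under (𝓞 F) = v.1.asIdeal ∧ B.asIdeal.under (𝓞 F) = v.1.asIdeal ∧
        Ideal.absNorm A.asIdeal = Ideal.absNorm v.1.asIdeal ∧
        Ideal.absNorm B.asIdeal = Ideal.absNorm v.1.asIdeal := by
    rintro ⟨v, hv⟩
    have hvp : v.asIdeal.IsPrime := v.isPrime
    have hsplit : IsSplit M v.asIdeal := hcon v.asIdeal v.isPrime v.ne_bot (hS'mem v hv)
    have hcard := S14_Efg.ncard_primesOver_of_isSplit F M hunr v.asIdeal v.ne_bot hsplit
    have hfinP := S14_Efg.finite_primesOver F M v.asIdeal v.ne_bot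
    have h1 : 1 < (v.asIdeal.primesOver (𝓞 M)).ncard := by omega
    obtain ⟨A, B, hA, hB, hAB⟩ := (Set.one_lt_ncard_iff hfinP).mp h1
    obtain ⟨hAp, hAo⟩ := hA
    obtain ⟨hBp, hBo⟩ := hB
    have hA0 : A ≠ ⊥ := S14_Efg.ne_bot_of_liesOver v.asIdeal v.ne_bot A
    have hB0 : B ≠ ⊥ := S14_Efg.ne_bot_of_liesOver v.asIdeal v.ne_bot B
    have hAu : A.under (𝓞 F) = v.asIdeal := (Ideal.over_def A v.asIdeal).symm
    have hBu : B.under (𝓞 F) = v.asIdeal := (Ideal.over_def B v.asIdeal).symm
    refine ⟨⟨A, hAp, hA0⟩, ⟨B, hBp, hB0⟩, ?_, hAu, hBu, hsplit A hAp hAu, hsplit B hBp hBu⟩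
    intro h
    exact hAB (congrArg HeightOneSpectrum.asIdeal h)
  choose A B hAB hAu hBu hAN hBN using key
  let ι : {v : HeightOneSpectrum (𝓞 F) // v ∉ S'} × Fin 2 → HeightOneSpectrum (𝓞 M) :=
    fun x => if x.2 = 0 then A x.1 else B x.1
  have hιu : ∀ x, (ι x).asIdeal.under (𝓞 F) = x.1.1.asIdeal := by
    rintro ⟨v, i⟩
    by_cases hi : i = 0
    · simp only [ι, hi, if_true]
      exact hAu v
    · simp only [ι, hi, if_false]
      exact hBu v
  have hιN : ∀ x, Ideal.absNorm (ι x).asIdeal = Ideal.absNorm x.1.1.asIdeal := by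
    rintro ⟨v, i⟩
    by_cases hi : i = 0
    · simp only [ι, hi, if_true]
      exact hAN v
    · simp only [ι, hi, if_false]
      exact hBN v
  have hι : Function.Injective ι := by
    rintro ⟨v, i⟩ ⟨w, j⟩ h
    have h1 : v.1.asIdeal = w.1.asIdeal := by
      rw [← hιu ⟨v, i⟩, ← hιu ⟨w, j⟩, h]
    have hvw : v = w := Subtype.ext (HeightOneSpectrum.ext h1)
    subst hvw
    have hij : i = j := by
      by_contra hne
      by_cases hi : i = 0
      · have hj : j ≠ 0 := fun hj => hne (hi.trans hj.symm)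
        simp only [ι, hi, hj, if_true, if_false] at h
        exact hAB v h
      · have hj : j = 0 := by omega
        simp only [ι, hi, hj, if_true, if_false] at h
        exact hAB v h.symm
    rw [hij]
  exact S14_Zeta.false_of_all_split F M 2 le_rfl S' ι hι hιN

end Fermat.Agent.S14_Wrap
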