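import Mathlib
import Fermat.Agent.S14_Defs
import Fermat.Agent.S14_Frob
import Fermat.Agent.S14_FrobB
import Fermat.Agent.S14_NormNF
import Fermat.Agent.S14_CrossFieldCore
import Fermat.Agent.S14_WrapSplit
import Fermat.Agent.S14_Wrap
import Fermat.Agent.S14_FI1

/-!
# Field step of CROSS (project C, S14)

`exists_prime_moving` (X7) and `fieldStep` (FI transported from `F` to `K` through the compositum
`L·F`), consumed by `S14_Cross`.
-/

set_option autoImplicit false

open NumberField Fermat.Agent.S14_Defs Fermat.Agent.S14_Frob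

namespace Fermat.Agent.S14_CrossField

section NF

variable (p : ℕ) [hpF : Fact p.Prime] (K L F M : Type*) [Field K] [NumberField K] [Field L]
  [NumberField L] [Field F] [NumberField F] [Field M] [NumberField M] [Algebra K L] [Algebra K F]
  [Algebra L M] [Algebra F M] [Algebra K M] [IsScalarTower K L M] [IsScalarTower K F M]
  [IsGalois K L] [IsGalois K M]

attribute [local instance] algLF

/-- (X7) a prime of `F` outside a finite set whose Frobenius elements in `M/F` all move `L`. -/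
theorem exists_prime_moving (hdeg : Module.finrank K L = p) (hunr : Unram K L) (y : M ≃ₐ[F] M)
    (x₀ : L) (hy : y (algebraMap L M x₀) ≠ algebraMap L M x₀) (S : Finset (Ideal (𝓞 F))) :
    ∃ Q : Ideal (𝓞 F), Q.IsPrime ∧ Q ≠ ⊥ ∧ Q ∉ S ∧ ∀ τ : M ≃ₐ[F] M, IsFrob τ Q →
      ∃ x : L, τ (algebraMap L M x) ≠ algebraMap L M x := by
  have hgal : IsGalois F M := IsGalois.tower_top_of_isGalois K F M
  have hgalE : IsGalois F (LF K L F M) := isGalois_LF K L F M
  have hdegE := finrank_LF p K L F M hdeg y x₀ hy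
  have hunrE := unram_LF K L F M hunr
  obtain ⟨Q, hQ, hQ0, hQS, hns⟩ := S14_Wrap.exists_not_isSplit F (LF K L F M)
    (by rw [hdegE]; exact hpF.out.two_le) hunrE S
  refine ⟨Q, hQ, hQ0, hQS, fun τ hτ => ?_⟩
  by_contra hcon
  have hcon' : ∀ x : L, τ (algebraMap L M x) = algebraMap L M x := by
    intro x
    by_contra hx
    exact hcon ⟨x, hx⟩
  exact hns (IsFrob.isSplit_of_fixes hQ0 hτ (fixes_LF_of_mem_ker K L F M hcon'))

/-- FI transported to `K`: the field step of CROSS. -/
theorem fieldStep (h3 : 3 ≤ p) (hdeg : Module.finrank K L = p) (hunr : Unram K L)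
    (y : M ≃ₐ[F] M) (x₀ : L) (hy : y (algebraMap L M x₀) ≠ algebraMap L M x₀)
    (m m' : ℕ) (hm : 0 < m) (hm' : 0 < m') (hcop : m.Coprime m') (ξ ξ' : M)
    (hξ : IsPrimitiveRoot ξ m) (hξ' : IsPrimitiveRoot ξ' m')
    (h1 : ∀ σ : M ≃ₐ[F] M, σ ξ = ξ → ∀ x : L, σ (algebraMap L M x) = algebraMap L M x)
    (h2 : ∀ σ : M ≃ₐ[F] M, σ ξ' = ξ' → ∀ x : L, σ (algebraMap L M x) = algebraMap L M x)
    (P Q : Ideal (𝓞 F)) [P.IsPrime] [Q.IsPrime] (hP : P ≠ ⊥) (hQ : Q ≠ ⊥)
    (hPm : (Ideal.absNorm P).Coprime (m * m')) (hQm : (Ideal.absNorm Q).Coprime (m * m'))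
    (τP τQ : M ≃ₐ[F] M) (hτP : IsFrob τP P) (hτQ : IsFrob τQ Q) (e : ℕ)
    (he : ∀ x : L, τP (algebraMap L M x) = (τQ ^ e) (algebraMap L M x)) :
    cls (Ideal.relNorm (𝓞 K) P) * (cls (Ideal.relNorm (𝓞 K) Q) ^ e)⁻¹ ∈ normSubgroup K L := by
  have hgal : IsGalois F M := IsGalois.tower_top_of_isGalois K F M
  have hgalE : IsGalois F (LF K L F M) := isGalois_LF K L F M
  have hdegE := finrank_LF p K L F M hdeg y x₀ hy
  have hunrE := unram_LF K L F M hunr
  have t1 : IsScalarTower K L (LF K L F M) := isScalarTower_K_L_LF K L F M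
  have he' : τP.restrictNormal (LF K L F M) = (τQ.restrictNormal (LF K L F M)) ^ e := by
    have hker : τP * (τQ ^ e)⁻¹ ∈ (res K L F M).ker := by
      rw [MonoidHom.mem_ker, map_mul, map_inv, mul_inv_eq_one]
      ext x
      apply (algebraMap L M).injective
      rw [res_commutes K L F M, res_commutes K L F M]
      exact he x
    have hfix := fixes_LF_of_mem_ker K L F M ((mem_ker_res_iff K L F M _).mp hker)
    have h5 : AlgEquiv.restrictNormalHom (LF K L F M) (τP * (τQ ^ e)⁻¹) = 1 := by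
      refine AlgEquiv.ext fun z => ?_
      apply (algebraMap (LF K L F M) M).injective
      exact ((τP * (τQ ^ e)⁻¹).restrictNormal_commutes (LF K L F M) z).trans (hfix z)
    rw [map_mul, map_inv, mul_inv_eq_one, map_pow] at h5
    exact h5
  have key := S14_FI1.fi_of_wrap p F (LF K L F M) M h3 hdegE hunrE m m' hm hm' hcop ξ ξ' hξ hξ'
    (fun σ hσ => fixes_LF_of_mem_ker K L F M (h1 σ hσ))
    (fun σ hσ => fixes_LF_of_mem_ker K L F M (h2 σ hσ))
    (fun S => S14_Wrap.exists_not_isSplit F (LF K L F M)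
      (by rw [hdegE]; exact hpF.out.two_le) hunrE S)
    (fun H0 hH0 => S14_Wrap.ineq p F (LF K L F M) hdegE hunrE H0 hH0) P Q hP hQ hPm hQm
    (τP.restrictNormal (LF K L F M)) (τQ.restrictNormal (LF K L F M))
    (IsFrob.restrictNormal hτP) (IsFrob.restrictNormal hτQ) e he'
  have key2 := S14_NormNF.classNorm_mem_normSubgroup_of_diamond K F L (LF K L F M) key
  rw [map_mul, map_inv, map_pow, ← S14_NormNF.cls_relNorm K F hP,
    ← S14_NormNF.cls_relNorm K F hQ] at key2
  exact key2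

end NF

end Fermat.Agent.S14_CrossField
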