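import Mathlib
import Fermat.Agent.S14_Defs
import Fermat.Agent.S14_Frob
import Fermat.Agent.S14_FrobB
import Fermat.Agent.S14_NormNF
import Fermat.Agent.S14_Artl
import Fermat.Agent.S14_CrossAux
import Fermat.Agent.S14_CrossField
import Fermat.Agent.S14_CrossDesc

/-!
# S14_CrossMain: Artin's crossing argument in a given abelian overfield (block CROSS, project C)

`cross_main`: abstract tower `K ⊆ L ⊆ M` with the crossing data as hypotheses (`M/K` abelian,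
unramified away from `n`, a primitive `n`-th root `ξ`, `y ∈ Gal(M/K)` with `y|_L = σ₀` and
`y ξ = ξ ^ t`, Frobenius elements `x₀`, `x` of the primes `q₀`, `q`, ARTL moduli).  Conclusion:
`cls q * (cls q₀ ^ d)⁻¹ ∈ normSubgroup K L`.

Proof: `H_z = ⟨z, y⟩` (`z = x₀, x`), `F_z = M^{H_z} ⊆ F₀ = M^{⟨y⟩}`; one prime `Q₀` of `F₀` whose
Frobenius moves `L` (`S14_CrossField.exists_prime_moving`); for each `z` a split prime above `q_z`
and the descent of `Q₀` to `F_z` (`S14_CrossDesc`), the field step (`S14_CrossField.fieldStep`,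
i.e. FI for `L·F_z / F_z`) and exponent bookkeeping in `Cl_K / N(Cl_L)`.
-/

namespace Fermat.Agent.S14_CrossMain

open NumberField Fermat.Agent.S14_Defs Fermat.Agent.S14_Frob

section fixed

variable {K M : Type*} [Field K] [Field M] [Algebra K M]

/-- An element of a subgroup `H` of `Gal(M/K)`, as an automorphism of `M` over the fixed field. -/
noncomputable def toFixed (H : Subgroup (M ≃ₐ[K] M)) (σ : M ≃ₐ[K] M) (hσ : σ ∈ H) :
    M ≃ₐ[↥(IntermediateField.fixedField H)] M :=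
  AlgEquiv.ofRingEquiv (f := σ.toRingEquiv)
    (fun z => (IntermediateField.mem_fixedField_iff H z).mp z.2 σ hσ)

theorem toFixed_apply (H : Subgroup (M ≃ₐ[K] M)) (σ : M ≃ₐ[K] M) (hσ : σ ∈ H) (z : M) :
    toFixed H σ hσ z = σ z := rfl

theorem restrictScalars_mem [FiniteDimensional K M] (H : Subgroup (M ≃ₐ[K] M))
    (τ : M ≃ₐ[↥(IntermediateField.fixedField H)] M) : τ.restrictScalars K ∈ H := by
  have h : τ.restrictScalars K ∈ (IntermediateField.fixedField H).fixingSubgroup := by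
    rw [IntermediateField.mem_fixingSubgroup_iff]
    intro x hx
    exact τ.commutes ⟨x, hx⟩
  rwa [IntermediateField.fixingSubgroup_fixedField H] at h

/-- Restriction of scalars as a monoid homomorphism. -/
def resScalars (F : IntermediateField K M) : (M ≃ₐ[↥F] M) →* (M ≃ₐ[K] M) where
  toFun τ := τ.restrictScalars K
  map_one' := rfl
  map_mul' _ _ := rfl

theorem resScalars_apply (F : IntermediateField K M) (τ : M ≃ₐ[↥F] M) (z : M) :
    resScalars F τ z = τ z := rfl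

theorem comm_fixed (F : IntermediateField K M) (hab : ∀ σ τ : M ≃ₐ[K] M, σ * τ = τ * σ)
    (σ τ : M ≃ₐ[↥F] M) : σ * τ = τ * σ := by
  ext z
  exact DFunLike.congr_fun (hab (resScalars F σ) (resScalars F τ)) z

end fixed

section resL

variable {K L M : Type*} [Field K] [Field L] [Field M] [Algebra K L] [Algebra L M] [Algebra K M]
  [IsScalarTower K L M] [Normal K L]

theorem restrictNormal_eq_iff (σ : M ≃ₐ[K] M) (g : L ≃ₐ[K] L) :
    σ.restrictNormal L = g ↔ ∀ z : L, σ (algebraMap L M z) = algebraMap L M (g z) := by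
  constructor
  · rintro rfl z
    exact (σ.restrictNormal_commutes L z).symm
  · intro h
    ext z
    apply (algebraMap L M).injective
    rw [σ.restrictNormal_commutes L z, h]

theorem restrictNormal_mul (σ τ : M ≃ₐ[K] M) :
    (σ * τ).restrictNormal L = σ.restrictNormal L * τ.restrictNormal L :=
  map_mul (AlgEquiv.restrictNormalHom L) σ τ

theorem restrictNormal_pow (σ : M ≃ₐ[K] M) (k : ℕ) :
    (σ ^ k).restrictNormal L = (σ.restrictNormal L) ^ k :=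
  map_pow (AlgEquiv.restrictNormalHom L) σ k

end resL

section half

/-- In a group of prime order, every element is a natural power of any nontrivial element. -/
theorem exists_pow_eq_of_prime_card {G : Type*} [Group G] {p : ℕ} [Fact p.Prime]
    (hcard : Nat.card G = p) {g : G} (hg : g ≠ 1) (h : G) : ∃ k : ℕ, h = g ^ k := by
  have : Finite G := Nat.finite_of_card_ne_zero (by rw [hcard]; exact (Fact.out : p.Prime).ne_zero)
  have h1 : h ∈ Subgroup.zpowers g := mem_zpowers_of_prime_card hcard hg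
  rw [← mem_powers_iff_mem_zpowers] at h1
  obtain ⟨k, hk⟩ := h1
  exact ⟨k, hk.symm⟩

theorem pow_eq_pow_iff_of_prime_card {G : Type*} [Group G] {p : ℕ} [Fact p.Prime]
    (hcard : Nat.card G = p) {g : G} (hg : g ≠ 1) (a b : ℕ) :
    g ^ a = g ^ b ↔ a ≡ b [MOD p] := by
  have : Finite G := Nat.finite_of_card_ne_zero (by rw [hcard]; exact (Fact.out : p.Prime).ne_zero)
  have ho : orderOf g = p := by
    have h1 : orderOf g ∣ p := hcard ▸ orderOf_dvd_natCard g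
    rcases (Nat.dvd_prime (Fact.out : p.Prime)).mp h1 with h2 | h2
    · exact absurd (orderOf_eq_one_iff.mp h2) hg
    · exact h2
  rw [pow_eq_pow_iff_modEq, ho]

variable (p : ℕ) [Fact p.Prime] (K L M : Type*) [Field K] [NumberField K] [Field L]
  [NumberField L] [Field M] [NumberField M] [Algebra K L] [Algebra L M] [Algebra K M]
  [IsScalarTower K L M] [IsGalois K L] [IsGalois K M]

/-- One half of the crossing argument: the prime `q` (Frobenius `x` in `M/K`, `x|_L = σ₀ ^ d`)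
against the auxiliary prime `Q₀` of the fixed field of `y`. -/
theorem cross_half (h3 : 3 ≤ p)
    (hab : ∀ σ τ : M ≃ₐ[K] M, σ * τ = τ * σ) (hdeg : Module.finrank K L = p)
    (hunr : Unram K L) (n : ℕ) (hn : n ≠ 0) (hunM : UnramAway K M n)
    (σ₀ : L ≃ₐ[K] L) (hσ₀ : σ₀ ≠ 1) (ξ : M) (hξ : IsPrimitiveRoot ξ n) (t : ℕ)
    (y : M ≃ₐ[K] M) (hyL : y.restrictNormal L = σ₀) (hyξ : y ξ = ξ ^ t)
    (Q₀ : Ideal (𝓞 ↥(IntermediateField.fixedField (Subgroup.zpowers y)))) [Q₀.IsPrime]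
    (hQ₀ : Q₀ ≠ ⊥)
    (hnQ₀ : (n : 𝓞 ↥(IntermediateField.fixedField (Subgroup.zpowers y))) ∉ Q₀)
    (φ₀ : M ≃ₐ[↥(IntermediateField.fixedField (Subgroup.zpowers y))] M) (hφ₀ : IsFrob φ₀ Q₀)
    (u : ℕ) (hφ₀L : (φ₀.restrictScalars K).restrictNormal L = σ₀ ^ u) (hu : ¬ p ∣ u)
    (q : Ideal (𝓞 K)) [q.IsPrime] (hq : q ≠ ⊥) (hnq : (n : 𝓞 K) ∉ q)
    (x : M ≃ₐ[K] M) (hx : IsFrob x q) (d : ℕ) (hxL : x.restrictNormal L = σ₀ ^ d)
    (m m' : ℕ) (hm : m ∣ n) (hm' : m' ∣ n) (hcop : m.Coprime m')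
    (hg : S14_Artl.Good p (Ideal.absNorm q) m t) (hg' : S14_Artl.Good p (Ideal.absNorm q) m' t) :
    ∃ (C₁ : ClassGroup (𝓞 K)) (e f w : ℕ), cls q * (C₁ ^ e)⁻¹ ∈ normSubgroup K L ∧
      cls (Ideal.relNorm (𝓞 K) Q₀) = C₁ ^ f ∧ f * w ≡ u [MOD p] ∧ w * e ≡ d [MOD p] := by
  have hp : p.Prime := Fact.out
  have hcard : Nat.card (L ≃ₐ[K] L) = p := by rw [IsGalois.card_aut_eq_finrank, hdeg]
  -- the subgroups and the fixed fields
  let H : Subgroup (M ≃ₐ[K] M) := Subgroup.closure {x, y}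
  have hxH : x ∈ H := Subgroup.subset_closure (Set.mem_insert x {y})
  have hyH : y ∈ H := Subgroup.subset_closure (Set.mem_insert_of_mem x rfl)
  have hH0 : Subgroup.zpowers y ≤ H := by
    rw [Subgroup.zpowers_le]; exact hyH
  have hle : IntermediateField.fixedField H ≤ IntermediateField.fixedField (Subgroup.zpowers y) :=
    IntermediateField.fixedField_antitone hH0
  let _ : Algebra ↥(IntermediateField.fixedField H)
      ↥(IntermediateField.fixedField (Subgroup.zpowers y)) :=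
    (IntermediateField.inclusion hle).toRingHom.toAlgebra
  have : IsScalarTower K ↥(IntermediateField.fixedField H)
      ↥(IntermediateField.fixedField (Subgroup.zpowers y)) :=
    IsScalarTower.of_algebraMap_eq (fun _ => rfl)
  have : IsScalarTower ↥(IntermediateField.fixedField H)
      ↥(IntermediateField.fixedField (Subgroup.zpowers y)) M :=
    IsScalarTower.of_algebraMap_eq (fun _ => rfl)
  have habF := comm_fixed (IntermediateField.fixedField H) hab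
  have hunF : UnramAway ↥(IntermediateField.fixedField H) M n :=
    UnramAway.tower_top (F := K) hunM
  have hnpos : 0 < n := Nat.pos_of_ne_zero hn
  -- (1) the split prime above `q`
  obtain ⟨P, hPp, hP0, hPfrob, hPnorm, hPabs⟩ :=
    S14_CrossDesc.exists_split_prime K ↥(IntermediateField.fixedField H) M q hq x hx
      (toFixed H x hxH) (fun z => rfl)
  -- (2) descent of `Q₀`
  obtain ⟨𝔮, f, φ, h𝔮p, h𝔮0, hn𝔮, hφ, hφf, hnorm⟩ :=
    S14_CrossDesc.exists_descent K ↥(IntermediateField.fixedField H)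
      ↥(IntermediateField.fixedField (Subgroup.zpowers y)) M habF n hunF Q₀ hQ₀ hnQ₀ φ₀ hφ₀
  -- (3) exponents
  obtain ⟨w, hw⟩ := exists_pow_eq_of_prime_card hcard hσ₀
    ((resScalars (IntermediateField.fixedField H) φ).restrictNormal L)
  have h1 : ((resScalars (IntermediateField.fixedField H) φ).restrictNormal L) ^ f = σ₀ ^ u := by
    rw [← restrictNormal_pow, ← map_pow, ← hφ₀L]
    congr 1
    ext z
    exact (DFunLike.congr_fun hφf z).symm
  have hwf : w * f ≡ u [MOD p] := by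
    rw [hw, ← pow_mul] at h1
    exact (pow_eq_pow_iff_of_prime_card hcard hσ₀ _ _).mp h1
  have hpw : ¬ p ∣ w := by
    intro hdvd
    apply hu
    exact (Nat.modEq_zero_iff_dvd).mp
      (hwf.symm.trans (Nat.modEq_zero_iff_dvd.mpr (Dvd.dvd.mul_right hdvd f)))
  have hcopw : Nat.Coprime w p := (Nat.Coprime.symm ((Nat.Prime.coprime_iff_not_dvd hp).mpr hpw))
  obtain ⟨w', -, hw'⟩ := Nat.exists_mul_mod_eq_one_of_coprime hcopw hp.one_lt
  have hww' : w * w' ≡ 1 [MOD p] := by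
    rw [Nat.ModEq, hw', Nat.mod_eq_of_lt hp.one_lt]
  have hwe : w * (w' * d) ≡ d [MOD p] := by
    have := hww'.mul (Nat.ModEq.refl d)
    rwa [one_mul, mul_assoc] at this
  -- (4) the hypotheses of the field step
  obtain ⟨x₀, hx₀⟩ : ∃ x₀ : L, σ₀ x₀ ≠ x₀ := by
    by_contra hcon
    push Not at hcon
    exact hσ₀ (AlgEquiv.ext hcon)
  have hy : (toFixed H y hyH) (algebraMap L M x₀) ≠ algebraMap L M x₀ := by
    rw [toFixed_apply, (restrictNormal_eq_iff y σ₀).mp hyL x₀]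
    exact fun h => hx₀ ((algebraMap L M).injective h)
  have hxξ : x ξ = ξ ^ Ideal.absNorm q := IsFrob.apply_of_pow_eq_one hx hξ.pow_eq_one hnq
  have hpowx : ∀ k : ℕ, (x ^ k) ξ = ξ ^ (Ideal.absNorm q ^ k) := by
    intro k
    induction k with
    | zero => simp
    | succ k ih =>
      rw [pow_succ', AlgEquiv.mul_apply, ih, map_pow, hxξ, ← pow_mul, ← pow_succ']
  have hpowy : ∀ k : ℕ, (y ^ k) ξ = ξ ^ (t ^ k) := by
    intro k
    induction k with
    | zero => simp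
    | succ k ih =>
      rw [pow_succ', AlgEquiv.mul_apply, ih, map_pow, hyξ, ← pow_mul, ← pow_succ']
  have stab : ∀ m₀ : ℕ, m₀ ∣ n → S14_Artl.Good p (Ideal.absNorm q) m₀ t →
      ∀ σ : M ≃ₐ[↥(IntermediateField.fixedField H)] M, σ (ξ ^ (n / m₀)) = ξ ^ (n / m₀) →
        ∀ z : L, σ (algebraMap L M z) = algebraMap L M z := by
    intro m₀ hm₀ hg₀ σ hσ z
    have hm₀pos : 0 < m₀ := Nat.pos_of_dvd_of_pos hm₀ hnpos
    have hξm : IsPrimitiveRoot (ξ ^ (n / m₀)) m₀ :=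
      hξ.pow hnpos (Nat.div_mul_cancel hm₀).symm
    have hσH := restrictScalars_mem H σ
    obtain ⟨α, β, hαβ⟩ := S14_CrossAux.exists_pow_mul_pow_of_mem_closure (hab x y) hσH
    have hσξ : σ ξ = ξ ^ (Ideal.absNorm q ^ α * t ^ β) := by
      have : σ ξ = (σ.restrictScalars K) ξ := rfl
      rw [this, hαβ, AlgEquiv.mul_apply, hpowy, map_pow, hpowx, ← pow_mul]
    have h2a : σ (ξ ^ (n / m₀)) = (ξ ^ (n / m₀)) ^ (Ideal.absNorm q ^ α * t ^ β) := by
      rw [map_pow, hσξ, ← pow_mul, ← pow_mul, mul_comm]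
    have h2 : (ξ ^ (n / m₀)) ^ (Ideal.absNorm q ^ α * t ^ β) = (ξ ^ (n / m₀)) ^ 1 := by
      rw [pow_one, ← h2a, hσ]
    have h3 := S14_CrossAux.modEq_of_pow_eq_pow hξm hm₀pos h2
    obtain ⟨hα, hβ⟩ := hg₀.2 α β h3
    have h4 : (σ.restrictScalars K).restrictNormal L = 1 := by
      rw [hαβ, restrictNormal_mul, restrictNormal_pow, restrictNormal_pow, hxL, hyL, ← pow_mul,
        ← pow_add, ← pow_zero σ₀]
      exact (pow_eq_pow_iff_of_prime_card hcard hσ₀ _ 0).mpr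
        (Nat.modEq_zero_iff_dvd.mpr (dvd_add (Dvd.dvd.mul_left hα d) hβ))
    exact (restrictNormal_eq_iff (σ.restrictScalars K) 1).mp h4 z
  have hmm' : m * m' ∣ n := Nat.Coprime.mul_dvd_of_dvd_of_dvd hcop hm hm'
  have hPm : (Ideal.absNorm P).Coprime (m * m') := by
    rw [hPabs]
    exact Nat.Coprime.coprime_dvd_right hmm' (S14_CrossAux.coprime_absNorm_of_notMem q hq hnq)
  have h𝔮m : (Ideal.absNorm 𝔮).Coprime (m * m') :=
    Nat.Coprime.coprime_dvd_right hmm' (S14_CrossAux.coprime_absNorm_of_notMem 𝔮 h𝔮0 hn𝔮)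
  have he : ∀ z : L, (toFixed H x hxH) (algebraMap L M z) = (φ ^ (w' * d)) (algebraMap L M z) := by
    intro z
    rw [toFixed_apply, (restrictNormal_eq_iff x (σ₀ ^ d)).mp hxL z]
    have h5 : (resScalars (IntermediateField.fixedField H) (φ ^ (w' * d))).restrictNormal L
        = σ₀ ^ d := by
      rw [map_pow, restrictNormal_pow, hw, ← pow_mul]
      exact (pow_eq_pow_iff_of_prime_card hcard hσ₀ _ _).mpr hwe
    exact ((restrictNormal_eq_iff _ _).mp h5 z).symm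
  have hmpos : 0 < m := Nat.pos_of_dvd_of_pos hm hnpos
  have hm'pos : 0 < m' := Nat.pos_of_dvd_of_pos hm' hnpos
  have key := S14_CrossField.fieldStep p K L ↥(IntermediateField.fixedField H) M h3 hdeg hunr
    (toFixed H y hyH) x₀ hy m m' hmpos hm'pos hcop (ξ ^ (n / m)) (ξ ^ (n / m'))
    (hξ.pow hnpos (Nat.div_mul_cancel hm).symm) (hξ.pow hnpos (Nat.div_mul_cancel hm').symm)
    (stab m hm hg) (stab m' hm' hg') P 𝔮 hP0 h𝔮0 hPm h𝔮m (toFixed H x hxH) φ hPfrob hφ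
    (w' * d) he
  rw [hPnorm] at key
  refine ⟨cls (Ideal.relNorm (𝓞 K) 𝔮), w' * d, f, w, key, ?_, ?_, hwe⟩
  · rw [hnorm, cls_pow]
    rw [Ne, Ideal.relNorm_eq_bot_iff]
    exact h𝔮0
  · rw [mul_comm]
    exact hwf

/-- The core of the crossing argument, in a given abelian overfield `M = L(ξ_n)` of `K`
with an element `y ∈ Gal(M/K)` restricting to `σ₀` on `L` and acting as `ξ ↦ ξ ^ t`. -/
theorem cross_core (h3 : 3 ≤ p)
    (hab : ∀ σ τ : M ≃ₐ[K] M, σ * τ = τ * σ) (hdeg : Module.finrank K L = p)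
    (hunr : Unram K L) (n : ℕ) (hn : n ≠ 0) (hunM : UnramAway K M n)
    (σ₀ : L ≃ₐ[K] L) (hσ₀ : σ₀ ≠ 1) (ξ : M) (hξ : IsPrimitiveRoot ξ n) (t : ℕ)
    (y : M ≃ₐ[K] M) (hyL : y.restrictNormal L = σ₀) (hyξ : y ξ = ξ ^ t)
    (q₀ q : Ideal (𝓞 K)) [q₀.IsPrime] [q.IsPrime] (hq₀ : q₀ ≠ ⊥) (hq : q ≠ ⊥)
    (hnq₀ : (n : 𝓞 K) ∉ q₀) (hnq : (n : 𝓞 K) ∉ q)
    (x₁ x₂ : M ≃ₐ[K] M) (hx₁ : IsFrob x₁ q₀) (hx₂ : IsFrob x₂ q) (d : ℕ)
    (hx₁L : x₁.restrictNormal L = σ₀) (hx₂L : x₂.restrictNormal L = σ₀ ^ d)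
    (m₁ m₁' m₂ m₂' : ℕ) (hm₁ : m₁ ∣ n) (hm₁' : m₁' ∣ n) (hm₂ : m₂ ∣ n) (hm₂' : m₂' ∣ n)
    (hcop₁ : m₁.Coprime m₁') (hcop₂ : m₂.Coprime m₂')
    (hg₁ : S14_Artl.Good p (Ideal.absNorm q₀) m₁ t)
    (hg₁' : S14_Artl.Good p (Ideal.absNorm q₀) m₁' t)
    (hg₂ : S14_Artl.Good p (Ideal.absNorm q) m₂ t)
    (hg₂' : S14_Artl.Good p (Ideal.absNorm q) m₂' t) :
    cls q * (cls q₀ ^ d)⁻¹ ∈ normSubgroup K L := by
  have hp : p.Prime := Fact.out
  have hcard : Nat.card (L ≃ₐ[K] L) = p := by rw [IsGalois.card_aut_eq_finrank, hdeg]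
  obtain ⟨x₀, hx₀⟩ : ∃ x₀ : L, σ₀ x₀ ≠ x₀ := by
    by_contra hcon
    push Not at hcon
    exact hσ₀ (AlgEquiv.ext hcon)
  have hyH : y ∈ Subgroup.zpowers y := Subgroup.mem_zpowers y
  have hy : (toFixed (Subgroup.zpowers y) y hyH) (algebraMap L M x₀) ≠ algebraMap L M x₀ := by
    rw [toFixed_apply, (restrictNormal_eq_iff y σ₀).mp hyL x₀]
    exact fun h => hx₀ ((algebraMap L M).injective h)
  obtain ⟨S₀, hS₀⟩ := S14_CrossAux.exists_finset_of_mem
    (F := ↥(IntermediateField.fixedField (Subgroup.zpowers y))) n hn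
  obtain ⟨Q₀, hQ₀p, hQ₀0, hQ₀S, hmove⟩ := S14_CrossField.exists_prime_moving p K L
    ↥(IntermediateField.fixedField (Subgroup.zpowers y)) M hdeg hunr
    (toFixed (Subgroup.zpowers y) y hyH) x₀ hy S₀
  have hnQ₀ : (n : 𝓞 ↥(IntermediateField.fixedField (Subgroup.zpowers y))) ∉ Q₀ :=
    fun h => hQ₀S (hS₀ Q₀ h)
  obtain ⟨φ₀, hφ₀⟩ := exists_isFrob ↥(IntermediateField.fixedField (Subgroup.zpowers y)) M
    (comm_fixed (IntermediateField.fixedField (Subgroup.zpowers y)) hab) Q₀ hQ₀0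
  obtain ⟨z₀, hz₀⟩ := hmove φ₀ hφ₀
  obtain ⟨u, hu⟩ := exists_pow_eq_of_prime_card hcard hσ₀
    ((φ₀.restrictScalars K).restrictNormal L)
  have hpu : ¬ p ∣ u := by
    intro hdvd
    have h1 : σ₀ ^ u = 1 := by
      rw [← pow_zero σ₀]
      exact (pow_eq_pow_iff_of_prime_card hcard hσ₀ _ 0).mpr (Nat.modEq_zero_iff_dvd.mpr hdvd)
    rw [h1] at hu
    exact hz₀ ((restrictNormal_eq_iff (φ₀.restrictScalars K) 1).mp hu z₀)
  obtain ⟨C₁, e₁, f₁, w₁, h1, hc1, hf1, he1⟩ := cross_half p K L M h3 hab hdeg hunr n hn hunM σ₀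
    hσ₀ ξ hξ t y hyL hyξ Q₀ hQ₀0 hnQ₀ φ₀ hφ₀ u hu hpu q₀ hq₀ hnq₀ x₁ hx₁ 1
    (by rw [pow_one]; exact hx₁L) m₁ m₁' hm₁ hm₁' hcop₁ hg₁ hg₁'
  obtain ⟨C₂, e₂, f₂, w₂, h2, hc2, hf2, he2⟩ := cross_half p K L M h3 hab hdeg hunr n hn hunM σ₀
    hσ₀ ξ hξ t y hyL hyξ Q₀ hQ₀0 hnQ₀ φ₀ hφ₀ u hu hpu q hq hnq x₂ hx₂ d hx₂L m₂ m₂' hm₂ hm₂'
    hcop₂ hg₂ hg₂'
  -- bookkeeping in the quotient `Cl_K / N`
  have htors : ∀ g : ClassGroup (𝓞 K) ⧸ normSubgroup K L, g ^ p = 1 := by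
    intro g
    induction g using QuotientGroup.induction_on with
    | H c =>
      rw [← QuotientGroup.mk_pow, QuotientGroup.eq_one_iff, ← hdeg]
      exact S14_NormNF.pow_finrank_mem_normSubgroup K L c
  have hmk : ∀ a b : ClassGroup (𝓞 K), a * b⁻¹ ∈ normSubgroup K L →
      (QuotientGroup.mk a : ClassGroup (𝓞 K) ⧸ normSubgroup K L) = QuotientGroup.mk b := by
    intro a b hab'
    have := (QuotientGroup.eq_one_iff (N := normSubgroup K L) (a * b⁻¹)).mpr hab'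
    rw [QuotientGroup.mk_mul, QuotientGroup.mk_inv, mul_inv_eq_one] at this
    exact this
  have key := S14_CrossAux.bookkeeping hp htors
    (QuotientGroup.mk (cls q₀)) (QuotientGroup.mk (cls q)) (QuotientGroup.mk C₁)
    (QuotientGroup.mk C₂) (QuotientGroup.mk (cls (Ideal.relNorm (𝓞 K) Q₀)))
    e₁ e₂ f₁ f₂ w₁ w₂ u d
    (by rw [← QuotientGroup.mk_pow]; exact hmk _ _ h1)
    (by rw [← QuotientGroup.mk_pow]; exact hmk _ _ h2)
    (by rw [← QuotientGroup.mk_pow, hc1]) (by rw [← QuotientGroup.mk_pow, hc2])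
    hf1 hf2 he1 he2 hpu
  rw [← QuotientGroup.mk_pow] at key
  have := (QuotientGroup.eq (s := normSubgroup K L)).mp key.symm
  -- this : (cls q₀ ^ d)⁻¹ * cls q ∈ N
  rwa [mul_comm] at this

end half


open Fermat.Agent.S14_Artl in
set_option linter.unusedVariables false in
/-- **Artin's crossing argument** in a given abelian overfield `M` of `K` containing `L`. -/
theorem cross_main (p : ℕ) [Fact p.Prime] (h3 : 3 ≤ p) (K L M : Type*) [Field K] [NumberField K]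
    [Field L] [NumberField L] [Field M] [NumberField M] [Algebra K L] [Algebra L M] [Algebra K M]
    [IsScalarTower K L M] [IsGalois K L] [IsGalois K M]
    (hdeg : Module.finrank K L = p) (hunr : Unram K L)
    (hab : ∀ a b : M ≃ₐ[K] M, a * b = b * a)
    (n m₁ m₁' m₂ m₂' t : ℕ) (hn : n ≠ 0)
    (hm₁ : m₁ ∣ n) (hm₁' : m₁' ∣ n) (hm₂ : m₂ ∣ n) (hm₂' : m₂' ∣ n)
    (hc₁ : m₁.Coprime m₁') (hc₂ : m₂.Coprime m₂')
    (hunM : UnramAway K M n) (ξ : M) (hξ : IsPrimitiveRoot ξ n)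
    (q₀ q : Ideal (𝓞 K)) [q₀.IsPrime] [q.IsPrime] (hq₀ : q₀ ≠ ⊥) (hq : q ≠ ⊥)
    (hn₀ : (Ideal.absNorm q₀).Coprime n) (hnq : (Ideal.absNorm q).Coprime n)
    (hg₁ : Good p (Ideal.absNorm q₀) m₁ t) (hg₁' : Good p (Ideal.absNorm q₀) m₁' t)
    (hg₂ : Good p (Ideal.absNorm q) m₂ t) (hg₂' : Good p (Ideal.absNorm q) m₂' t)
    (σ₀ : L ≃ₐ[K] L) (hne : σ₀ ≠ 1) (d : ℕ) (y x₀ x : M ≃ₐ[K] M)
    (hyL : ∀ a : L, y (algebraMap L M a) = algebraMap L M (σ₀ a)) (hyξ : y ξ = ξ ^ t)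
    (hx₀ : IsFrob x₀ q₀) (hx : IsFrob x q)
    (hx₀L : ∀ a : L, x₀ (algebraMap L M a) = algebraMap L M (σ₀ a))
    (hxL : ∀ a : L, x (algebraMap L M a) = algebraMap L M ((σ₀ ^ d) a))
    (hx₀ξ : x₀ ξ = ξ ^ Ideal.absNorm q₀) (hxξ : x ξ = ξ ^ Ideal.absNorm q) :
    cls q * (cls q₀ ^ d)⁻¹ ∈ normSubgroup K L :=
  cross_core p K L M h3 hab hdeg hunr n hn hunM σ₀ hne ξ hξ t y
    ((restrictNormal_eq_iff y σ₀).mpr hyL) hyξ q₀ q hq₀ hq
    (S14_CrossAux.notMem_of_coprime_absNorm q₀ (Ideal.IsPrime.ne_top inferInstance) hn₀)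
    (S14_CrossAux.notMem_of_coprime_absNorm q (Ideal.IsPrime.ne_top inferInstance) hnq)
    x₀ x hx₀ hx d ((restrictNormal_eq_iff x₀ σ₀).mpr hx₀L)
    ((restrictNormal_eq_iff x (σ₀ ^ d)).mpr hxL) m₁ m₁' m₂ m₂' hm₁ hm₁' hm₂ hm₂' hc₁ hc₂
    hg₁ hg₁' hg₂ hg₂'

end Fermat.Agent.S14_CrossMain
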