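import Fermat.Agent.S14_Defs
import Fermat.Agent.S14_Frob
import Fermat.Agent.S14_FrobB
import Fermat.Agent.S14_Artl
import Fermat.Agent.S14_CrossCyc
import Fermat.Agent.S14_CrossAux
import Fermat.Agent.S14_CrossMain

/-!
# S14_Cross: Artin's crossing argument (block CROSS of Project C)

`cross`: for `K = ℚ(ζ_p)`, `L/K` Galois of degree `p`, unramified, and primes `q₀, q` of `K` prime
to `p` with Frobenius elements `σ₀ ≠ 1` and `σ = σ₀ ^ d`: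
`cls q ≡ cls q₀ ^ d` modulo the norm subgroup.

This file is the construction layer: the moduli (ARTL), the big field `M = L(ξ_n)`, the
automorphisms `y, x₀, x`; the crossing argument itself is `S14_CrossMain.cross_main`.
-/

set_option autoImplicit false
set_option linter.style.haveILetI false
set_option linter.unusedVariables false

open NumberField Polynomial Fermat.Agent.S14_Defs Fermat.Agent.S14_Frob Fermat.Agent.S14_Artl
  Fermat.Agent.S14_CrossCyc Fermat.Agent.S14_CrossAux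

noncomputable section

namespace Fermat.Agent.S14_Cross

/-- CROSS for a modulus `n` such that `Φ_n` is irreducible over `L`. -/
theorem cross_of_irreducible (p : ℕ) [Fact p.Prime] (h3 : 3 ≤ p) (K L : Type*) [Field K]
    [NumberField K] [Field L] [NumberField L] [Algebra K L] [IsGalois K L]
    (hdeg : Module.finrank K L = p) (hunr : Unram K L)
    (q₀ q : Ideal (𝓞 K)) [q₀.IsPrime] [q.IsPrime] (hq₀ : q₀ ≠ ⊥) (hq : q ≠ ⊥)
    (σ₀ σ : L ≃ₐ[K] L) (hσ₀ : IsFrob σ₀ q₀) (hσ : IsFrob σ q) (hne : σ₀ ≠ 1)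
    (d : ℕ) (hd : σ = σ₀ ^ d)
    (n m₁ m₁' m₂ m₂' t : ℕ) (hn : n ≠ 0) (hirr : Irreducible (cyclotomic n L))
    (ht : t.Coprime n)
    (hm₁ : m₁ ∣ n) (hm₁' : m₁' ∣ n) (hm₂ : m₂ ∣ n) (hm₂' : m₂' ∣ n)
    (hc₁ : m₁.Coprime m₁') (hc₂ : m₂.Coprime m₂')
    (hn₀ : (Ideal.absNorm q₀).Coprime n) (hnq : (Ideal.absNorm q).Coprime n)
    (hg₁ : Good p (Ideal.absNorm q₀) m₁ t) (hg₁' : Good p (Ideal.absNorm q₀) m₁' t)
    (hg₂ : Good p (Ideal.absNorm q) m₂ t) (hg₂' : Good p (Ideal.absNorm q) m₂' t) :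
    cls q * (cls q₀ ^ d)⁻¹ ∈ normSubgroup K L := by
  haveI : NeZero n := ⟨hn⟩
  haveI : NumberField (CyclotomicField n L) := IsCyclotomicExtension.numberField {n} L _
  haveI : IsGalois K (CyclotomicField n L) := isGalois_of_cyclotomic K L (CyclotomicField n L) n
  -- `Gal(L/K)` has prime order, hence is commutative
  have hcard : Nat.card (L ≃ₐ[K] L) = p := by rw [IsGalois.card_aut_eq_finrank, hdeg]
  have hcommL : ∀ a b : L ≃ₐ[K] L, a * b = b * a := by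
    haveI := isCyclic_of_prime_card hcard
    exact isMulCommutative_iff.mp IsCyclic.isMulCommutative
  have hab : ∀ a b : CyclotomicField n L ≃ₐ[K] CyclotomicField n L, a * b = b * a :=
    comm_of_cyclotomic (L := L) (n := n) hcommL
  -- the primitive root and the automorphism `y`
  have hξ : IsPrimitiveRoot (IsCyclotomicExtension.zeta n L (CyclotomicField n L)) n :=
    IsCyclotomicExtension.zeta_spec n L (CyclotomicField n L)
  obtain ⟨y, hyL, hyξ⟩ := exists_lift (K := K) hirr hξ σ₀ t ht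
  -- the Frobenius elements of `q₀`, `q` in `M/K`
  obtain ⟨x₀, hx₀⟩ := exists_isFrob K (CyclotomicField n L) hab q₀ hq₀
  obtain ⟨x, hx⟩ := exists_isFrob K (CyclotomicField n L) hab q hq
  have hx₀L : ∀ a : L, x₀ (algebraMap L (CyclotomicField n L) a) =
      algebraMap L (CyclotomicField n L) (σ₀ a) := by
    intro a
    have h := IsFrob.unique hunr hq₀ (IsFrob.restrictNormal (E := L) hx₀) hσ₀
    rw [← h]
    exact (x₀.restrictNormal_commutes L a).symm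
  have hxL : ∀ a : L, x (algebraMap L (CyclotomicField n L) a) =
      algebraMap L (CyclotomicField n L) ((σ₀ ^ d) a) := by
    intro a
    have h := IsFrob.unique hunr hq (IsFrob.restrictNormal (E := L) hx) hσ
    rw [← hd, ← h]
    exact (x.restrictNormal_commutes L a).symm
  have hx₀ξ := IsFrob.apply_of_pow_eq_one hx₀ hξ.pow_eq_one
    (notMem_of_coprime_absNorm q₀ (Ideal.IsPrime.ne_top inferInstance) hn₀)
  have hxξ := IsFrob.apply_of_pow_eq_one hx hξ.pow_eq_one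
    (notMem_of_coprime_absNorm q (Ideal.IsPrime.ne_top inferInstance) hnq)
  -- `M/K` is unramified away from `n`
  have hunM : UnramAway K (CyclotomicField n L) n := by
    refine Unram.unramAway_of_root (F := K) (M := L) hξ.pow_eq_one ?_ hunr
    intro τ hτL hτξ
    exact algEquiv_ext_of_cyclotomic (L := L) hξ (fun a => by rw [hτL a]; rfl)
      (by rw [hτξ]; rfl)
  exact S14_CrossMain.cross_main p h3 K L (CyclotomicField n L) hdeg hunr hab n m₁ m₁' m₂ m₂' t hn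
    hm₁ hm₁' hm₂ hm₂' hc₁ hc₂ hunM _ hξ q₀ q hq₀ hq hn₀ hnq hg₁ hg₁' hg₂ hg₂' σ₀ hne d y x₀ x
    hyL hyξ hx₀ hx hx₀L hxL hx₀ξ hxξ

theorem two_le_absNorm {F : Type*} [Field F] [NumberField F] (q : Ideal (𝓞 F)) [q.IsPrime]
    (hq : q ≠ ⊥) : 2 ≤ Ideal.absNorm q := by
  have h0 : Ideal.absNorm q ≠ 0 := fun h => hq (Ideal.absNorm_eq_zero_iff.mp h)
  have h1 : Ideal.absNorm q ≠ 1 := fun h =>
    (Ideal.IsPrime.ne_top inferInstance) (Ideal.absNorm_eq_one_iff.mp h)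
  omega

/-- CROSS from one output of `artl_cross` whose modulus has `Φ_n` irreducible over `L`. -/
theorem cross_of_moduli (p : ℕ) [Fact p.Prime] (h3 : 3 ≤ p) (K L : Type*) [Field K]
    [NumberField K] [Field L] [NumberField L] [Algebra K L] [IsGalois K L]
    (hdeg : Module.finrank K L = p) (hunr : Unram K L)
    (q₀ q : Ideal (𝓞 K)) [q₀.IsPrime] [q.IsPrime] (hq₀ : q₀ ≠ ⊥) (hq : q ≠ ⊥)
    (σ₀ σ : L ≃ₐ[K] L) (hσ₀ : IsFrob σ₀ q₀) (hσ : IsFrob σ q) (hne : σ₀ ≠ 1)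
    (d : ℕ) (hd : σ = σ₀ ^ d) (m₁ m₁' m₂ m₂' t : ℕ)
    (hcop : Nat.Coprime (Ideal.absNorm q₀ * Ideal.absNorm q) (m₁ * m₁' * m₂ * m₂'))
    (hc1 : Nat.Coprime m₁ m₁') (hc3 : Nat.Coprime (m₁ * m₁' * m₂) m₂')
    (hg₁ : Good p (Ideal.absNorm q₀) m₁ t) (hg₁' : Good p (Ideal.absNorm q₀) m₁' t)
    (hg₂ : Good p (Ideal.absNorm q) m₂ t) (hg₂' : Good p (Ideal.absNorm q) m₂' t)
    (hirr : Irreducible (cyclotomic (m₁ * m₁' * m₂ * m₂') L)) :
    cls q * (cls q₀ ^ d)⁻¹ ∈ normSubgroup K L := by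
  have hp : p.Prime := Fact.out
  have hn : m₁ * m₁' * m₂ * m₂' ≠ 0 :=
    mul_ne_zero (mul_ne_zero (mul_ne_zero (hg₁.ne_zero hp) (hg₁'.ne_zero hp)) (hg₂.ne_zero hp))
      (hg₂'.ne_zero hp)
  have ht : t.Coprime (m₁ * m₁' * m₂ * m₂') :=
    Nat.Coprime.mul_right (Nat.Coprime.mul_right (Nat.Coprime.mul_right hg₁.1 hg₁'.1) hg₂.1) hg₂'.1
  have hm₁ : m₁ ∣ m₁ * m₁' * m₂ * m₂' := ⟨m₁' * m₂ * m₂', by ring⟩
  have hm₁' : m₁' ∣ m₁ * m₁' * m₂ * m₂' := ⟨m₁ * m₂ * m₂', by ring⟩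
  have hm₂ : m₂ ∣ m₁ * m₁' * m₂ * m₂' := ⟨m₁ * m₁' * m₂', by ring⟩
  have hm₂' : m₂' ∣ m₁ * m₁' * m₂ * m₂' := ⟨m₁ * m₁' * m₂, by ring⟩
  have hc₂ : m₂.Coprime m₂' := Nat.Coprime.coprime_mul_left hc3
  exact cross_of_irreducible p h3 K L hdeg hunr q₀ q hq₀ hq σ₀ σ hσ₀ hσ hne d hd _ m₁ m₁' m₂ m₂' t
    hn hirr ht hm₁ hm₁' hm₂ hm₂' hc1 hc₂ (Nat.Coprime.coprime_mul_right hcop)
    (Nat.Coprime.coprime_mul_left hcop) hg₁ hg₁' hg₂ hg₂'

/-- **Block CROSS** (Artin's crossing argument). -/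
theorem cross (p : ℕ) [Fact p.Prime] (h3 : 3 ≤ p) (K L : Type*) [Field K] [NumberField K]
    [IsCyclotomicExtension {p} ℚ K] [Field L] [NumberField L] [Algebra K L] [IsGalois K L]
    (hdeg : Module.finrank K L = p) (hunr : Unram K L)
    (q₀ q : Ideal (𝓞 K)) [q₀.IsPrime] [q.IsPrime] (hq₀ : q₀ ≠ ⊥) (hq : q ≠ ⊥)
    (hpq₀ : (p : 𝓞 K) ∉ q₀) (hpq : (p : 𝓞 K) ∉ q)
    (σ₀ σ : L ≃ₐ[K] L) (hσ₀ : IsFrob σ₀ q₀) (hσ : IsFrob σ q) (hne : σ₀ ≠ 1)
    (d : ℕ) (hd : σ = σ₀ ^ d) :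
    cls q * (cls q₀ ^ d)⁻¹ ∈ normSubgroup K L := by
  have hp : p.Prime := Fact.out
  have hp2 : p ≠ 2 := by omega
  have h2a₁ : 2 ≤ Ideal.absNorm q₀ := two_le_absNorm q₀ hq₀
  have h2a₂ : 2 ≤ Ideal.absNorm q := two_le_absNorm q hq
  have hn₀ : p * (Ideal.absNorm q₀ * Ideal.absNorm q) ≠ 0 :=
    mul_ne_zero hp.ne_zero (mul_ne_zero (by omega) (by omega))
  -- two coprime candidate moduli
  obtain ⟨m₁, m₁', m₂, m₂', t, -, hcop, hc1, -, hc3, hg₁, hg₁', hg₂, hg₂'⟩ :=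
    artl_cross p hp hp2 _ _ h2a₁ h2a₂ 0 _ hn₀
  have hn : m₁ * m₁' * m₂ * m₂' ≠ 0 :=
    mul_ne_zero (mul_ne_zero (mul_ne_zero (hg₁.ne_zero hp) (hg₁'.ne_zero hp)) (hg₂.ne_zero hp))
      (hg₂'.ne_zero hp)
  obtain ⟨k₁, k₁', k₂, k₂', t', -, hcop', hc1', -, hc3', hk₁, hk₁', hk₂, hk₂'⟩ :=
    artl_cross p hp hp2 _ _ h2a₁ h2a₂ 0 _ (mul_ne_zero hn₀ hn)
  have hn' : k₁ * k₁' * k₂ * k₂' ≠ 0 :=
    mul_ne_zero (mul_ne_zero (mul_ne_zero (hk₁.ne_zero hp) (hk₁'.ne_zero hp)) (hk₂.ne_zero hp))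
      (hk₂'.ne_zero hp)
  have hcard : Nat.card (L ≃ₐ[K] L) = p := by rw [IsGalois.card_aut_eq_finrank, hdeg]
  rcases irreducible_cyclotomic_or p K L hcard _ _ hn hn'
      (Nat.Coprime.coprime_mul_right hcop).symm
      (Nat.Coprime.coprime_mul_right (Nat.Coprime.coprime_mul_right hcop')).symm
      (Nat.Coprime.coprime_mul_left hcop') with hirr | hirr
  · exact cross_of_moduli p h3 K L hdeg hunr q₀ q hq₀ hq σ₀ σ hσ₀ hσ hne d hd m₁ m₁' m₂ m₂' t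
      (Nat.Coprime.coprime_mul_left hcop) hc1 hc3 hg₁ hg₁' hg₂ hg₂' hirr
  · exact cross_of_moduli p h3 K L hdeg hunr q₀ q hq₀ hq σ₀ σ hσ₀ hσ hne d hd k₁ k₁' k₂ k₂' t'
      (Nat.Coprime.coprime_mul_left (Nat.Coprime.coprime_mul_right hcop')) hc1' hc3' hk₁ hk₁' hk₂
      hk₂' hirr

end Fermat.Agent.S14_Cross

end
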