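import Mathlib
import Fermat.Agent.S14_Defs
import Fermat.Agent.S10_Unram
import Fermat.Agent.S10_NormOne

/-!
# Invariant ideals and Hilbert 90 (project C, block HERB, arithmetic input)

* `exists_map_eq_of_smul_eq`: in a Galois extension of Dedekind domains in which every nonzero
  prime has ramification index `1`, the Galois-stable ideals are the extended ideals;
* `exists_map_eq_of_unram`, `exists_map_eq_of_map_eq`: number field versions under
  `S14_Defs.Unram` (trivial inertia groups), for a cyclic group in terms of a generator;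
* `exists_integer_of_norm_eq_one`: Hilbert 90 with an integral solution.
-/

namespace Fermat.Agent.S14_HerbI

open scoped Pointwise NumberField nonZeroDivisors
open UniqueFactorizationMonoid

section General

variable {A B : Type*} [CommRing A] [CommRing B] [IsDedekindDomain A] [IsDedekindDomain B]
  [Algebra A B] [Module.Finite A B] [Module.IsTorsionFree A B]

/-- If the primes above `p` are unramified, `p B` is squarefree: it contains every nonzero ideal
that is contained in all primes above `p`. -/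
theorem le_map_of_forall_le (p : Ideal A) [hpmax : p.IsMaximal] (hp : p ≠ ⊥)
    (he : ∀ Q : Ideal B, Q.IsPrime → Q.LiesOver p → Q.ramificationIdx A = 1)
    (I : Ideal B) (hI0 : I ≠ ⊥)
    (hI : ∀ Q : Ideal B, Q.IsPrime → p.map (algebraMap A B) ≤ Q → I ≤ Q) :
    I ≤ p.map (algebraMap A B) := by
  have hp' : p.map (algebraMap A B) ≠ ⊥ := (Ideal.map_eq_bot_iff_of_injective
    (FaithfulSMul.algebraMap_injective A B)).not.mpr hp
  rw [← Ideal.dvd_iff_le, dvd_iff_normalizedFactors_le_normalizedFactors hp' hI0]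
  have hnd : (normalizedFactors (p.map (algebraMap A B))).Nodup := by
    rw [Multiset.nodup_iff_count_le_one]
    intro Q
    by_cases hQmem : Q ∈ normalizedFactors (p.map (algebraMap A B))
    · have hQ := (Ideal.mem_normalizedFactors_iff hp').mp hQmem
      have hQprime : Q.IsPrime := hQ.1
      have hQp : Q.LiesOver p := by
        constructor
        have : p ≤ Q.under A := Ideal.map_le_iff_le_comap.mp hQ.2
        exact (hpmax.eq_of_le (Ideal.IsPrime.under A Q).ne_top this)
      rw [← Ideal.IsDedekindDomain.ramificationIdx_eq_normalizedFactors_count p Q hp',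
        he Q hQprime hQp]
    · rw [Multiset.count_eq_zero_of_notMem hQmem]
      exact Nat.zero_le _
  rw [Multiset.le_iff_subset hnd]
  intro Q hQ
  rw [Ideal.mem_normalizedFactors_iff hp'] at hQ
  rw [Ideal.mem_normalizedFactors_iff hI0]
  exact ⟨hQ.1, hI Q hQ.1 hQ.2⟩

variable (G : Type*) [Group G] [Finite G] [MulSemiringAction G B] [IsGaloisGroup G A B]

/-- **Invariant ideals are extended** in an everywhere unramified Galois extension of Dedekind
domains. -/
theorem exists_map_eq_of_smul_eq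
    (he : ∀ Q : Ideal B, Q.IsPrime → Q ≠ ⊥ → Q.ramificationIdx A = 1)
    (I : Ideal B) (hI : ∀ σ : G, σ • I = I) :
    ∃ a : Ideal A, I = a.map (algebraMap A B) := by
  induction I using IsNoetherian.induction with
  | _ I ih =>
  by_cases hI0 : I = ⊥
  · exact ⟨⊥, by rw [hI0, Ideal.map_bot]⟩
  by_cases hI1 : I = ⊤
  · exact ⟨⊤, by rw [hI1, Ideal.map_top]⟩
  obtain ⟨P, hPmax, hIP⟩ := Ideal.exists_le_maximal I hI1
  have hP0 : P ≠ ⊥ := fun h => hI0 (le_bot_iff.mp (h ▸ hIP))
  set p : Ideal A := P.under A with hpdef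
  have hp0 : p ≠ ⊥ := mt Ideal.eq_bot_of_comap_eq_bot hP0
  have hpmax : p.IsMaximal := Ring.DimensionLEOne.maximalOfPrime hp0 inferInstance
  have hPp : P.LiesOver p := ⟨rfl⟩
  have hp' : p.map (algebraMap A B) ≠ ⊥ := (Ideal.map_eq_bot_iff_of_injective
    (FaithfulSMul.algebraMap_injective A B)).not.mpr hp0
  have hle : I ≤ p.map (algebraMap A B) := by
    refine le_map_of_forall_le p hp0 ?_ I hI0 ?_
    · intro Q hQ hQp
      refine he Q hQ ?_
      rintro rfl
      have h1 : p.map (algebraMap A B) ≤ ⊥ := by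
        rw [Ideal.map_le_iff_le_comap]
        exact (hQp.over).le
      exact hp' (le_bot_iff.mp h1)
    · intro Q hQ hpQ
      have hQp : Q.LiesOver p := by
        constructor
        have : p ≤ Q.under A := Ideal.map_le_iff_le_comap.mp hpQ
        exact (hpmax.eq_of_le (Ideal.IsPrime.under A Q).ne_top this)
      obtain ⟨σ, rfl⟩ := Ideal.exists_smul_eq_of_isGaloisGroup p P Q G
      rw [← hI σ]
      exact smul_mono_right σ hIP
  obtain ⟨J, hJ⟩ := Ideal.dvd_iff_le.mpr hle
  have hJ0 : J ≠ ⊥ := by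
    rintro rfl
    exact hI0 (by rw [hJ]; simp)
  have hJinv : ∀ σ : G, σ • J = J := by
    intro σ
    have h1 := hI σ
    rw [hJ, smul_mul', S10_Unram.smul_map_algebraMap] at h1
    exact mul_left_cancel₀ hp' h1
  have hlt : I < J := by
    refine lt_of_le_of_ne (hJ ▸ Ideal.mul_le_right) ?_
    intro h
    rw [h] at hJ
    have h2 : p.map (algebraMap A B) = 1 := by
      refine mul_right_cancel₀ hJ0 ?_
      rw [one_mul]
      exact hJ.symm
    have h3 : p.map (algebraMap A B) ≤ P := Ideal.map_le_iff_le_comap.mpr le_rfl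
    rw [h2, Ideal.one_eq_top, top_le_iff] at h3
    exact hPmax.ne_top h3
  obtain ⟨b, hb⟩ := ih J hlt hJinv
  exact ⟨p * b, by rw [hJ, hb, Ideal.map_mul]⟩

end General

section NumberField

open Fermat.Agent.S14_Defs

variable (K L : Type*) [Field K] [NumberField K] [Field L] [NumberField L] [Algebra K L]

/-- Trivial inertia groups give ramification index `1`. -/
theorem ramificationIdx_eq_one [IsGalois K L] (hunr : Unram K L) (Q : Ideal (𝓞 L))
    (hQ : Q.IsPrime) (hQ0 : Q ≠ ⊥) : Q.ramificationIdx (𝓞 K) = 1 := by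
  have h1 : Ideal.inertia (L ≃ₐ[K] L) Q = ⊥ := by
    rw [eq_bot_iff]
    intro σ hσ
    exact hunr Q hQ hQ0 σ hσ
  have hp : (Q.under (𝓞 K)).IsPrime := inferInstance
  have : Q.LiesOver (Q.under (𝓞 K)) := ⟨rfl⟩
  have h2 := Ideal.card_inertia_eq_ramificationIdxIn (G := L ≃ₐ[K] L) (Q.under (𝓞 K)) Q
  rw [Ideal.ramificationIdxIn_eq_ramificationIdx (Q.under (𝓞 K)) Q (L ≃ₐ[K] L)] at h2
  rw [← h2, h1]
  simp

/-- Number field version: in a Galois extension with trivial inertia groups every Galois-stable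
ideal of `𝓞 L` is extended from `𝓞 K`. -/
theorem exists_map_eq_of_unram [IsGalois K L] (hunr : Unram K L) (I : Ideal (𝓞 L))
    (hI : ∀ σ : L ≃ₐ[K] L, σ • I = I) :
    ∃ a : Ideal (𝓞 K), I = a.map (algebraMap (𝓞 K) (𝓞 L)) :=
  exists_map_eq_of_smul_eq (L ≃ₐ[K] L)
    (fun Q hQ hQ0 => ramificationIdx_eq_one K L hunr Q hQ hQ0) I hI

variable {K L}

/-- The pointwise action of the Galois group on ideals, in terms of `NumberField.RingOfIntegers.mapAlgEquiv`. -/
theorem smul_eq_map (σ : L ≃ₐ[K] L) (I : Ideal (𝓞 L)) :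
    σ • I = I.map ((NumberField.RingOfIntegers.mapAlgEquiv σ : 𝓞 L ≃ₐ[𝓞 K] 𝓞 L) : 𝓞 L ≃+* 𝓞 L) := by
  rw [Ideal.pointwise_smul_def]
  rfl

/-- Cyclic version: an ideal stable under a generator of the Galois group is extended. -/
theorem exists_map_eq_of_map_eq [IsGalois K L] (hunr : Unram K L) (σ : L ≃ₐ[K] L)
    (hgen : ∀ τ : L ≃ₐ[K] L, τ ∈ Subgroup.zpowers σ) (I : Ideal (𝓞 L))
    (hI : I.map ((NumberField.RingOfIntegers.mapAlgEquiv σ : 𝓞 L ≃ₐ[𝓞 K] 𝓞 L) : 𝓞 L ≃+* 𝓞 L) = I) :
    ∃ a : Ideal (𝓞 K), I = a.map (algebraMap (𝓞 K) (𝓞 L)) := by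
  refine exists_map_eq_of_unram K L hunr I ?_
  intro τ
  have h1 : Subgroup.zpowers σ ≤ MulAction.stabilizer (L ≃ₐ[K] L) I := by
    rw [Subgroup.zpowers_le, MulAction.mem_stabilizer_iff, smul_eq_map]
    exact hI
  exact MulAction.mem_stabilizer_iff.mp (h1 (hgen τ))

/-- Hilbert 90 for a cyclic extension (universe polymorphic, via independence of characters):
an element of norm `1` is of the form `β / σ β`. -/
theorem exists_ne_zero_mul_eq [FiniteDimensional K L] [IsGalois K L] (p : ℕ)
    (hcard : Nat.card (L ≃ₐ[K] L) = p) (σ : L ≃ₐ[K] L)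
    (hgen : ∀ τ : L ≃ₐ[K] L, τ ∈ Subgroup.zpowers σ) (x : L) (hx : Algebra.norm K x = 1) :
    ∃ β : L, β ≠ 0 ∧ x * σ β = β := by
  classical
  have hp : 0 < p := by rw [← hcard]; exact Nat.card_pos
  have hord : orderOf σ = p := by rw [orderOf_eq_card_of_forall_mem_zpowers hgen, hcard]
  have hσp : σ ^ p = 1 := by rw [← hord]; exact pow_orderOf_eq_one σ
  set c : ℕ → L := fun i => ∏ j ∈ Finset.range i, (σ ^ j) x with hc
  have hc0 : c 0 = 1 := by simp [hc]
  have hcp : c p = 1 := by
    have := S10_NormOne.algebraMap_norm_eq_prod_pow K L p hcard σ hgen x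
    rw [hx, map_one] at this
    exact this.symm
  have hcsucc : ∀ i, x * σ (c i) = c (i + 1) := by
    intro i
    simp only [hc]
    rw [map_prod, Finset.prod_range_succ', pow_zero, AlgEquiv.one_apply, mul_comm]
    congr 1
    exact Finset.prod_congr rfl fun j _ => by rw [pow_succ', AlgEquiv.mul_apply]
  -- independence of characters
  have hli : LinearIndependent L (fun i : Fin p => ((σ ^ (i : ℕ) : L ≃ₐ[K] L) : L → L)) := by
    have h1 : LinearIndependent L (fun (f : L ≃ₐ[K] L) => (f : L → L)) :=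
      LinearIndependent.comp (ι' := L ≃ₐ[K] L) (linearIndependent_monoidHom L L) (fun f => f)
        (fun x y h => by ext; exact DFunLike.ext_iff.1 h _)
    refine h1.comp (fun i : Fin p => σ ^ (i : ℕ)) ?_
    intro i j hij
    have := pow_injOn_Iio_orderOf (x := σ) (by simpa [hord] using i.2)
      (by simpa [hord] using j.2) hij
    exact Fin.ext this
  obtain ⟨z, hz⟩ : ∃ z : L, ∑ i : Fin p, c i * (σ ^ (i : ℕ)) z ≠ 0 := by
    by_contra hcon
    push Not at hcon
    have h2 := Fintype.linearIndependent_iff.1 hli (fun i => c i) (by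
      funext z
      simpa [Finset.sum_apply] using hcon z)
    have h3 := h2 ⟨0, hp⟩
    simp only [hc0] at h3
    exact one_ne_zero h3
  refine ⟨∑ i ∈ Finset.range p, c i * (σ ^ i) z, ?_, ?_⟩
  · rwa [← Fin.sum_univ_eq_sum_range (fun i => c i * (σ ^ i) z) p]
  · rw [map_sum, Finset.mul_sum]
    have h3 : ∀ i ∈ Finset.range p, x * σ (c i * (σ ^ i) z) = c (i + 1) * (σ ^ (i + 1)) z := by
      intro i _
      rw [map_mul, ← mul_assoc, hcsucc, pow_succ', AlgEquiv.mul_apply]
    rw [Finset.sum_congr rfl h3]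
    have h4 := Finset.sum_range_succ' (fun i => c i * (σ ^ i) z) p
    have h5 := Finset.sum_range_succ (fun i => c i * (σ ^ i) z) p
    rw [h5] at h4
    simp only [hcp, hσp, hc0, pow_zero, AlgEquiv.one_apply, one_mul] at h4
    exact (add_right_cancel h4).symm

/-- Hilbert 90 with an integral solution: an element of norm `1` in a cyclic extension is of the
form `σ w / w` with `w` a nonzero algebraic integer. -/
theorem exists_integer_of_norm_eq_one [IsGalois K L] (p : ℕ)
    (hcard : Nat.card (L ≃ₐ[K] L) = p) (σ : L ≃ₐ[K] L)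
    (hgen : ∀ τ : L ≃ₐ[K] L, τ ∈ Subgroup.zpowers σ) (x : L) (hx : Algebra.norm K x = 1) :
    ∃ w : 𝓞 L, w ≠ 0 ∧ x * (w : L) = σ (w : L) := by
  have : FiniteDimensional K L := Module.Finite.of_restrictScalars_finite ℚ K L
  obtain ⟨y, hy0, hy⟩ := exists_ne_zero_mul_eq p hcard σ hgen x hx
  have hσy0 : σ y ≠ 0 := (map_ne_zero_iff σ σ.injective).2 hy0
  -- `w' = y⁻¹` satisfies `x * w' = σ w'`
  have hw' : x * y⁻¹ = σ (y⁻¹) := by
    rw [map_inv₀]
    apply eq_inv_of_mul_eq_one_left
    rw [mul_assoc, mul_comm y⁻¹, ← mul_assoc, hy, mul_inv_cancel₀ hy0]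
  have halg : IsAlgebraic ℤ (y⁻¹) :=
    (IsFractionRing.isAlgebraic_iff ℤ ℚ L).mpr (Algebra.IsAlgebraic.isAlgebraic _)
  obtain ⟨d, hd0, hd⟩ := halg.exists_integral_multiple
  refine ⟨⟨d • y⁻¹, hd⟩, ?_, ?_⟩
  · intro h
    have h1 : d • y⁻¹ = 0 := congrArg (fun w : 𝓞 L => (w : L)) h
    rw [zsmul_eq_mul] at h1
    rcases mul_eq_zero.mp h1 with h2 | h2
    · exact hd0 (by exact_mod_cast h2)
    · exact inv_ne_zero hy0 h2
  · show x * (d • y⁻¹) = σ (d • y⁻¹)
    rw [zsmul_eq_mul, map_mul, map_intCast, ← hw']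
    ring

end NumberField

end Fermat.Agent.S14_HerbI
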