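import Mathlib
import Fermat.Agent.S10_NormOne

/-!
# Herbrand quotient inequality for a cyclic group of prime order (project C, block HERB-Q)

`X` is a finitely generated abelian group with an endomorphism `σ`, `σ ^ p = 1`.  With
`N = 1 + σ + ... + σ ^ (p - 1)` we compare

* `h0 = [ker (σ - 1) : N X]` and
* `h1 = [ker N : (σ - 1) X]`.

The exact identity `h1 * [F : p F] = h0 * [A : (σ - 1) A]` (`F = ker (σ - 1)`, `A = ker N`)
holds, and under the rank hypotheses coming from Dirichlet's unit theorem this gives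
`p * h0 ≤ h1`.
-/

namespace Fermat.Agent.S14_HerbQ

open Module

/-- A subgroup of nonzero index containing `p M` has `p`-power index. -/
theorem index_eq_prime_pow {M : Type*} [AddCommGroup M] (p : ℕ) (hp : p.Prime)
    (H : AddSubgroup M) (hH : ∀ x : M, p • x ∈ H) (h0 : H.index ≠ 0) :
    ∃ k : ℕ, H.index = p ^ k := by
  classical
  refine ⟨_, Nat.eq_prime_pow_of_unique_prime_dvd h0 ?_⟩
  intro q hq hqd
  have : Fact q.Prime := ⟨hq⟩
  have hfi : H.FiniteIndex := ⟨h0⟩
  have hfin : Finite (M ⧸ H) := AddSubgroup.finite_quotient_of_finiteIndex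
  rw [AddSubgroup.index_eq_card] at hqd
  obtain ⟨x, hx⟩ := exists_prime_addOrderOf_dvd_card' q hqd
  have hpx : p • x = 0 := by
    induction x using QuotientAddGroup.induction_on with
    | H g => exact (QuotientAddGroup.eq_zero_iff _).2 (hH g)
  have h1 := addOrderOf_dvd_of_nsmul_eq_zero hpx
  rw [hx] at h1
  exact (Nat.prime_dvd_prime_iff_eq hq hp).1 h1

/-- The Herbrand inequality. -/
theorem herbrand (p m : ℕ) (hp : p.Prime) {X : Type*} [AddCommGroup X] [Module.Finite ℤ X]
    (σ : Module.End ℤ X) (hσ : σ ^ p = 1)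
    (hX : p * m ≤ Module.finrank ℤ X + 1)
    (hY : Module.finrank ℤ (LinearMap.ker (σ - 1)) + 1 ≤ m)
    (z : X) (hz0 : z ≠ 0) (hzp : p • z = 0) (hzσ : σ z = z)
    (S : Finset X) (hS : S.card ≤ p ^ m)
    (hSY : ∀ y, σ y = y → ∃ s ∈ S, ∃ y', σ y' = y' ∧ y = s + p • y') :
    (LinearMap.range (∑ i ∈ Finset.range p, σ ^ i)).toAddSubgroup.relIndex
        (LinearMap.ker (σ - 1)).toAddSubgroup ≠ 0 ∧
    (LinearMap.range (σ - 1)).toAddSubgroup.relIndex
        (LinearMap.ker (∑ i ∈ Finset.range p, σ ^ i)).toAddSubgroup ≠ 0 ∧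
    p * (LinearMap.range (∑ i ∈ Finset.range p, σ ^ i)).toAddSubgroup.relIndex
        (LinearMap.ker (σ - 1)).toAddSubgroup ≤
      (LinearMap.range (σ - 1)).toAddSubgroup.relIndex
        (LinearMap.ker (∑ i ∈ Finset.range p, σ ^ i)).toAddSubgroup := by
  classical
  set N : Module.End ℤ X := ∑ i ∈ Finset.range p, σ ^ i with hN
  set τ : Module.End ℤ X := σ - 1 with hτ
  have hNapply : ∀ x, N x = ∑ i ∈ Finset.range p, (σ ^ i) x := by
    intro x; simp [hN, LinearMap.sum_apply]
  have hNτ : N * (σ - 1) = 0 := by rw [hN, geom_sum_mul, hσ, sub_self]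
  have hτN : (σ - 1) * N = 0 := by rw [hN, mul_geom_sum, hσ, sub_self]
  have hNσ : ∀ x, N (σ x) = N x := by
    intro x
    have := congrArg (fun f : Module.End ℤ X => f x) hNτ
    simp only [Module.End.mul_apply, LinearMap.sub_apply, Module.End.one_apply, map_sub,
      LinearMap.zero_apply] at this
    exact sub_eq_zero.mp this
  have hσN : ∀ x, σ (N x) = N x := by
    intro x
    have := congrArg (fun f : Module.End ℤ X => f x) hτN
    simp only [Module.End.mul_apply, LinearMap.sub_apply, Module.End.one_apply,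
      LinearMap.zero_apply] at this
    exact sub_eq_zero.mp this
  have hσpow : ∀ y, σ y = y → ∀ i : ℕ, (σ ^ i) y = y := by
    intro y hy i
    induction i with
    | zero => simp
    | succ k ih => rw [pow_succ, Module.End.mul_apply, hy, ih]
  have hNfix : ∀ y, σ y = y → N y = p • y := by
    intro y hy
    rw [hNapply, Finset.sum_congr rfl (fun i _ => hσpow y hy i)]
    simp
  have hτapply : ∀ x, τ x = σ x - x := by
    intro x; simp [hτ]
  -- the two kernels
  set A : Submodule ℤ X := LinearMap.ker N with hA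
  set F : Submodule ℤ X := LinearMap.ker τ with hF
  have hmemA : ∀ x, x ∈ A ↔ N x = 0 := fun x => LinearMap.mem_ker
  have hmemF : ∀ x, x ∈ F ↔ σ x = x := fun x => by
    rw [hF, LinearMap.mem_ker, hτapply, sub_eq_zero]
  -- subgroups of `X`
  set As : AddSubgroup X := A.toAddSubgroup with hAs
  set Fs : AddSubgroup X := F.toAddSubgroup with hFs
  set NX : AddSubgroup X := (LinearMap.range N).toAddSubgroup with hNX
  set τX : AddSubgroup X := (LinearMap.range τ).toAddSubgroup with hτX
  set pF : AddSubgroup X := Fs.map N.toAddMonoidHom with hpF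
  set τA : AddSubgroup X := As.map τ.toAddMonoidHom with hτA
  set T : AddSubgroup X := As ⊔ Fs with hT
  have hNXtop : NX = (⊤ : AddSubgroup X).map N.toAddMonoidHom := by
    ext x
    simp [hNX]
  have hτXtop : τX = (⊤ : AddSubgroup X).map τ.toAddMonoidHom := by
    ext x
    simp [hτX]
  have hNker : N.toAddMonoidHom.ker = As := by
    ext x
    simp [hAs, hA]
  have hτker : τ.toAddMonoidHom.ker = Fs := by
    ext x
    simp [hFs, hF]
  have hNT : T.map N.toAddMonoidHom = pF := by
    rw [hT, AddSubgroup.map_sup]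
    have : As.map N.toAddMonoidHom = ⊥ := by
      rw [← hNker]
      exact (AddSubgroup.map_eq_bot_iff _).2 le_rfl
    rw [this, bot_sup_eq]
  have hτT : T.map τ.toAddMonoidHom = τA := by
    rw [hT, AddSubgroup.map_sup]
    have : Fs.map τ.toAddMonoidHom = ⊥ := by
      rw [← hτker]
      exact (AddSubgroup.map_eq_bot_iff _).2 le_rfl
    rw [this, sup_bot_eq]
  have e1 : pF.relIndex NX = T.index := by
    rw [← hNT, hNXtop, AddSubgroup.relIndex_map_map, hNker, sup_of_le_left (le_sup_left),
      top_sup_eq, AddSubgroup.relIndex_top_right]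
  have e2 : τA.relIndex τX = T.index := by
    rw [← hτT, hτXtop, AddSubgroup.relIndex_map_map, hτker, sup_of_le_left (le_sup_right),
      top_sup_eq, AddSubgroup.relIndex_top_right]
  have hpF_le : pF ≤ NX := by
    rw [hNXtop]
    exact AddSubgroup.map_mono le_top
  have hτA_le : τA ≤ τX := by
    rw [hτXtop]
    exact AddSubgroup.map_mono le_top
  have hNX_le : NX ≤ Fs := by
    rintro _ ⟨x, rfl⟩
    exact (hmemF _).2 (hσN x)
  have hτX_le : τX ≤ As := by
    rintro _ ⟨x, rfl⟩
    refine (hmemA _).2 ?_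
    have := congrArg (fun f : Module.End ℤ X => f x) hNτ
    simpa only [Module.End.mul_apply, LinearMap.zero_apply] using this
  have m1 : pF.relIndex NX * NX.relIndex Fs = pF.relIndex Fs :=
    AddSubgroup.relIndex_mul_relIndex _ _ _ hpF_le hNX_le
  have m2 : τA.relIndex τX * τX.relIndex As = τA.relIndex As :=
    AddSubgroup.relIndex_mul_relIndex _ _ _ hτA_le hτX_le
  rw [e1] at m1
  rw [e2] at m2
  -- the index of `p F` in `F`
  have hb : pF.relIndex Fs ≠ 0 ∧ pF.relIndex Fs ≤ p ^ m := by
    set H : AddSubgroup F := (nsmulAddMonoidHom (α := F) p).range with hH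
    have hmap : pF.relIndex Fs = H.index := by
      have h1 := AddSubgroup.relIndex_map_map_of_injective (f := F.subtype.toAddMonoidHom) H ⊤
        (Submodule.injective_subtype F)
      rw [AddSubgroup.relIndex_top_right] at h1
      rw [← h1]
      congr 1
      · ext x
        constructor
        · rintro ⟨y, hy, rfl⟩
          refine ⟨p • (⟨y, hy⟩ : F), ⟨⟨y, hy⟩, rfl⟩, ?_⟩
          have : N y = p • y := hNfix y ((hmemF y).1 hy)
          simpa using this.symm
        · rintro ⟨_, ⟨y, rfl⟩, rfl⟩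
          refine ⟨(y : X), y.2, ?_⟩
          have : N (y : X) = p • (y : X) := hNfix y ((hmemF y).1 y.2)
          simpa using this
      · ext x
        constructor
        · intro hx
          exact ⟨⟨x, hx⟩, trivial, rfl⟩
        · rintro ⟨y, -, rfl⟩
          exact y.2
    rw [hmap]
    have hcov := S10_NormOne.index_le_card_of_cover H S
      (fun s : X => if h : s ∈ F then (⟨s, h⟩ : F) else 0) ?_
    · exact ⟨hcov.1, hcov.2.trans hS⟩
    · intro y
      obtain ⟨s, hs, y', hy', hy⟩ := hSY (y : X) ((hmemF _).1 y.2)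
      have hy'F : y' ∈ F := (hmemF _).2 hy'
      have hsF : s ∈ F := by
        have : s = (y : X) - p • y' := by rw [hy]; abel
        rw [this]
        exact F.sub_mem y.2 (F.smul_of_tower_mem p hy'F)
      refine ⟨s, hs, ⟨⟨y', hy'F⟩, ?_⟩⟩
      rw [dif_pos hsF]
      apply Subtype.ext
      simp only [nsmulAddMonoidHom_apply, Submodule.coe_smul_of_tower, AddSubgroupClass.coe_sub]
      rw [hy]
      abel
  -- the restriction of `σ` to `A`
  have hstab : ∀ x ∈ A, σ x ∈ A := by
    intro x hx
    rw [hmemA] at hx ⊢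
    rw [hNσ, hx]
  set s : Module.End ℤ A := σ.restrict hstab with hsdef
  have hs_apply : ∀ (i : ℕ) (a : A), ((s ^ i) a : X) = (σ ^ i) (a : X) := by
    intro i
    induction i with
    | zero => intro a; simp
    | succ k ih =>
      intro a
      rw [pow_succ, pow_succ, Module.End.mul_apply, Module.End.mul_apply, ih]
      rfl
  have hs : ∑ i ∈ Finset.range p, s ^ i = 0 := by
    ext a
    simp only [LinearMap.sum_apply, LinearMap.zero_apply, Submodule.coe_sum, ZeroMemClass.coe_zero]
    rw [Finset.sum_congr rfl (fun i _ => hs_apply i a), ← hNapply]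
    exact a.2
  have hB := S10_NormOne.index_range_nsmul_dvd p hp s hs
  have hzA : z ∈ A := by rw [hmemA, hNfix z hzσ, hzp]
  obtain ⟨hA0, hA1⟩ := S10_NormOne.pow_succ_le_index_range_nsmul (M := A) p hp ⟨z, hzA⟩
    (fun h => hz0 (by simpa using congrArg Subtype.val h)) (Subtype.ext (by simpa using hzp))
  set HA : AddSubgroup A := (s - 1).toAddMonoidHom.range with hHA
  have hmapA : τA.relIndex As = HA.index := by
    have h1 := AddSubgroup.relIndex_map_map_of_injective (f := A.subtype.toAddMonoidHom) HA ⊤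
      (Submodule.injective_subtype A)
    rw [AddSubgroup.relIndex_top_right] at h1
    rw [← h1]
    congr 1
    · ext x
      constructor
      · rintro ⟨y, hy, rfl⟩
        exact ⟨(s - 1) (⟨y, hy⟩ : A), ⟨⟨y, hy⟩, rfl⟩, by simp [hτapply, hsdef]⟩
      · rintro ⟨_, ⟨y, rfl⟩, rfl⟩
        exact ⟨(y : X), y.2, by simp [hτapply, hsdef]⟩
    · ext x
      constructor
      · intro hx
        exact ⟨⟨x, hx⟩, trivial, rfl⟩
      · rintro ⟨y, -, rfl⟩
        exact y.2
  -- `p A ⊆ (s - 1) A`
  have hW : (p : Module.End ℤ A) =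
      (s - 1) * (-∑ i ∈ Finset.range p, ∑ j ∈ Finset.range i, s ^ j) := by
    rw [mul_neg, Finset.mul_sum]
    simp only [mul_geom_sum, Finset.sum_sub_distrib, hs]
    simp
  have hpHA : ∀ a : A, p • a ∈ HA := by
    intro a
    refine ⟨(-∑ i ∈ Finset.range p, ∑ j ∈ Finset.range i, s ^ j) a, ?_⟩
    have := congrArg (fun f : Module.End ℤ A => f a) hW
    simp only [Module.End.mul_apply] at this
    rw [LinearMap.toAddMonoidHom_coe, ← this]
    simp
  have hHA0 : HA.index ≠ 0 := by
    have hle : (nsmulAddMonoidHom (α := A) p).range ≤ HA := by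
      rintro _ ⟨a, rfl⟩
      exact hpHA a
    intro h0
    have := AddSubgroup.index_dvd_of_le hle
    rw [h0, zero_dvd_iff] at this
    exact hA0 this
  obtain ⟨k, hk⟩ := index_eq_prime_pow p hp HA hpHA hHA0
  -- the rank of `A`
  have hrank : p * m ≤ m + Module.finrank ℤ A := by
    have h1 := Submodule.finrank_quotient_add_finrank A
    have h2 : Module.finrank ℤ (X ⧸ A) = Module.finrank ℤ (LinearMap.range N) :=
      N.quotKerEquivRange.finrank_eq
    have h3 : LinearMap.range N ≤ F := by
      rintro _ ⟨x, rfl⟩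
      exact (hmemF _).2 (hσN x)
    have h4 : Module.finrank ℤ (LinearMap.range N) ≤ Module.finrank ℤ F :=
      Submodule.finrank_mono h3
    omega
  have h5 : (nsmulAddMonoidHom (α := A) p).range.index ≤ HA.index ^ (p - 1) :=
    Nat.le_of_dvd (Nat.pos_of_ne_zero (pow_ne_zero _ hHA0)) hB
  have h7 : p ^ (Module.finrank ℤ A + 1) ≤ p ^ (k * (p - 1)) := by
    rw [pow_mul, ← hk]
    exact hA1.trans h5
  have h8 : Module.finrank ℤ A + 1 ≤ k * (p - 1) := (Nat.pow_le_pow_iff_right hp.one_lt).mp h7
  have h9 : p * m = m * (p - 1) + m := by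
    obtain ⟨q, rfl⟩ : ∃ q, p = q + 1 := ⟨p - 1, (Nat.sub_add_cancel hp.one_le).symm⟩
    simp only [Nat.add_sub_cancel]
    ring
  have hmk : m + 1 ≤ k := by
    by_contra hcon
    have hkm : k ≤ m := by omega
    have : k * (p - 1) ≤ m * (p - 1) := Nat.mul_le_mul_right _ hkm
    omega
  have ha : p * p ^ m ≤ τA.relIndex As := by
    rw [hmapA, hk, ← pow_succ']
    exact Nat.pow_le_pow_right hp.pos hmk
  -- conclusion
  set h0 := NX.relIndex Fs with hh0
  set h1 := τX.relIndex As with hh1
  set b := pF.relIndex Fs with hbdef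
  set a := τA.relIndex As with hadef
  have hh0ne : h0 ≠ 0 := by
    intro h
    rw [h, mul_zero] at m1
    exact hb.1 m1.symm
  have hbpos : 0 < b := Nat.pos_of_ne_zero hb.1
  have key : h1 * b = h0 * a := by
    rw [← m1, ← m2]
    ring
  have hle : p * h0 * b ≤ h1 * b := by
    rw [key]
    calc p * h0 * b = h0 * (p * b) := by ring
      _ ≤ h0 * (p * p ^ m) := Nat.mul_le_mul_left _ (Nat.mul_le_mul_left _ hb.2)
      _ ≤ h0 * a := Nat.mul_le_mul_left _ ha
  have hfin : p * h0 ≤ h1 := Nat.le_of_mul_le_mul_right hle hbpos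
  refine ⟨hh0ne, ?_, hfin⟩
  intro h
  rw [h] at hfin
  have : 0 < p * h0 := Nat.mul_pos hp.pos (Nat.pos_of_ne_zero hh0ne)
  omega

end Fermat.Agent.S14_HerbQ
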