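import Mathlib
import Fermat.Agent.S10_NormOne
import Fermat.Agent.S14_HerbQ

/-!
# The Herbrand inequality for units (project C, block HERB-U)

`K` a number field containing a primitive `p`-th root of unity (`p` an odd prime), `L / K` Galois
of degree `p` with generator `σ`.  On `X = Additive (𝓞 L)ˣ` with the endomorphism
`s = unitEnd K L σ` and `N = 1 + s + ... + s ^ (p - 1)`:

`p * [ker (s - 1) : N X] ≤ [ker N : (s - 1) X]`, both indices finite.
-/

namespace Fermat.Agent.S14_HerbU

open Module NumberField Fermat.Agent.S10_NormOne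

theorem herbrand_units (p : ℕ) [Fact p.Prime] (hp2 : 2 < p) (K L : Type*)
    [Field K] [NumberField K] [Field L] [NumberField L]
    [Algebra K L] [IsGalois K L] (hdeg : Module.finrank K L = p) (ζ : K)
    (hζ : IsPrimitiveRoot ζ p) (σ : L ≃ₐ[K] L) (hσ : σ ≠ 1) :
    (LinearMap.range (∑ i ∈ Finset.range p, unitEnd K L σ ^ i)).toAddSubgroup.relIndex
        (LinearMap.ker (unitEnd K L σ - 1)).toAddSubgroup ≠ 0 ∧
    (LinearMap.range (unitEnd K L σ - 1)).toAddSubgroup.relIndex
        (LinearMap.ker (∑ i ∈ Finset.range p, unitEnd K L σ ^ i)).toAddSubgroup ≠ 0 ∧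
    p * (LinearMap.range (∑ i ∈ Finset.range p, unitEnd K L σ ^ i)).toAddSubgroup.relIndex
        (LinearMap.ker (unitEnd K L σ - 1)).toAddSubgroup ≤
      (LinearMap.range (unitEnd K L σ - 1)).toAddSubgroup.relIndex
        (LinearMap.ker (∑ i ∈ Finset.range p, unitEnd K L σ ^ i)).toAddSubgroup := by
  classical
  have hp : p.Prime := Fact.out
  have : NeZero p := ⟨hp.ne_zero⟩
  have : FiniteDimensional K L := Module.Finite.of_restrictScalars_finite ℚ K L
  have hcard : Nat.card (L ≃ₐ[K] L) = p := by rw [IsGalois.card_aut_eq_finrank, hdeg]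
  have hgen : ∀ τ : L ≃ₐ[K] L, τ ∈ Subgroup.zpowers σ :=
    fun τ => mem_zpowers_of_prime_card hcard hσ
  have hσp : σ ^ p = 1 := by rw [← hcard]; exact pow_card_eq_one'
  have hKreal : NumberField.InfinitePlace.nrRealPlaces K = 0 :=
    NumberField.InfinitePlace.IsPrimitiveRoot.nrRealPlaces_eq_zero_of_two_lt hp2 hζ
  have hLreal : NumberField.InfinitePlace.nrRealPlaces L = 0 :=
    NumberField.InfinitePlace.IsPrimitiveRoot.nrRealPlaces_eq_zero_of_two_lt hp2
      (hζ.map_of_injective (algebraMap K L).injective)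
  set m : ℕ := Module.finrank ℤ (Additive (𝓞 K)ˣ) + 1 with hm
  have hKdeg : Module.finrank ℚ K = 2 * m := (two_mul_finrank_units_add_one K hKreal).symm
  have hLdeg : Module.finrank ℚ L = 2 * m * p := by
    rw [← Module.finrank_mul_finrank ℚ K L, hKdeg, hdeg]
  have hLrank : Module.finrank ℤ (Additive (𝓞 L)ˣ) + 1 = p * m := by
    have h1 := two_mul_finrank_units_add_one L hLreal
    rw [hLdeg] at h1
    have h2 : 2 * (Module.finrank ℤ (Additive (𝓞 L)ˣ) + 1) = 2 * (p * m) := by
      rw [h1]; ring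
    omega
  -- the fixed units come from `K`
  have hfixed : ∀ u : Additive (𝓞 L)ˣ, unitEnd K L σ u = u → ∃ w, unitIncl K L w = u :=
    fun u hu => exists_unitIncl_eq K L σ hgen u hu
  have hY : Module.finrank ℤ (LinearMap.ker (unitEnd K L σ - 1)) + 1 ≤ m := by
    have h1 : LinearMap.ker (unitEnd K L σ - 1) ≤ LinearMap.range (unitIncl K L) := by
      intro u hu
      rw [LinearMap.mem_ker, LinearMap.sub_apply, Module.End.one_apply, sub_eq_zero] at hu
      obtain ⟨w, hw⟩ := hfixed u hu
      exact ⟨w, hw⟩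
    have h2 := Submodule.finrank_mono h1
    have h3 := LinearMap.finrank_range_le (unitIncl K L)
    omega
  have hσX : unitEnd K L σ ^ p = 1 := by
    refine LinearMap.ext fun u => unit_ext L ?_
    rw [unitEnd_pow, hσp]
    rfl
  -- the root of unity
  have hζ' := hζ.toInteger_isPrimitiveRoot
  set ζu : (𝓞 K)ˣ := (hζ'.isUnit (NeZero.ne p)).unit with hζu
  have hζu_coe : (((ζu : (𝓞 K)ˣ) : 𝓞 K) : K) = ζ := rfl
  have hz0 : unitIncl K L (Additive.ofMul ζu) ≠ 0 := by
    intro h
    have h1 := congrArg (fun u : Additive (𝓞 L)ˣ => ((((u.toMul : (𝓞 L)ˣ)) : 𝓞 L) : L)) h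
    simp only [unitIncl_apply] at h1
    have h2 : algebraMap K L ζ = 1 := by
      rw [← hζu_coe]
      simpa using h1
    have h3 : ζ = 1 :=
      (algebraMap K L).injective (by rw [h2, map_one])
    exact hζ.ne_one hp.one_lt h3
  have hzp : p • unitIncl K L (Additive.ofMul ζu) = 0 := by
    rw [← map_nsmul, ← ofMul_pow]
    have : ζu ^ p = 1 := by
      apply Units.ext
      rw [Units.val_pow_eq_pow_val, Units.val_one]
      exact hζ'.pow_eq_one
    rw [this]
    simp
  -- representatives modulo `p`-th powers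
  obtain ⟨S₀, hS₀card, hS₀⟩ := exists_finset_units p hp.pos K
  have hrankK : NumberField.Units.rank K + 1 = m := by
    rw [← NumberField.Units.finrank_eq]
  rw [hrankK] at hS₀card
  exact S14_HerbQ.herbrand p m hp (unitEnd K L σ) hσX hLrank.ge hY
    (unitIncl K L (Additive.ofMul ζu)) hz0 hzp (unitEnd_unitIncl K L σ _)
    (S₀.image (fun x => unitIncl K L (Additive.ofMul x))) (Finset.card_image_le.trans hS₀card)
    (by
      intro y hy
      obtain ⟨w, rfl⟩ := hfixed y hy
      obtain ⟨x, hx, v, hv⟩ := hS₀ w.toMul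
      refine ⟨unitIncl K L (Additive.ofMul x), Finset.mem_image_of_mem _ hx,
        unitIncl K L (Additive.ofMul v), unitEnd_unitIncl K L σ _, ?_⟩
      have hw : w = Additive.ofMul x + p • Additive.ofMul v := hv
      rw [hw, map_add, map_nsmul])

end Fermat.Agent.S14_HerbU
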