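import Mathlib
import Fermat.Agent.S10_NormOne
import Fermat.Agent.S14_Defs
import Fermat.Agent.S14_Norm
import Fermat.Agent.S14_HerbU
import Fermat.Agent.S14_HerbI

/-!
# Ambiguous classes and the norm index inequality (project C, block HERB-A)

`L / K` a Galois extension of number fields of odd prime degree `p`, unramified at all finite
primes (`S14_Defs.Unram`), `K` containing a primitive `p`-th root of unity.  Then

`p * |N(Cl_L)| ≤ |Cl_K|`   (`herb_range`).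

Proof: `|N(Cl_L)| ≤ |Cl_L^σ|` (the norm kills `σ c / c`), and
`|Cl_L^σ| * h1 ≤ |Cl_K| * h0` through the two injections
`{N e = 1} / {σ u / u} → ker (Cl_K → Cl_L)` and `Cl_L^σ / im (Cl_K) → E_K / N E_L`
(Hilbert 90 and `invariant ideals are extended`), while `p * h0 ≤ h1` is `S14_HerbU`.
-/

namespace Fermat.Agent.S14_HerbA

open NumberField Fermat.Agent.S14_Defs Fermat.Agent.S14_Norm Fermat.Agent.S10_NormOne
open scoped nonZeroDivisors

section Count

/-- A map whose fibres lie in single classes bounds the number of classes. -/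
theorem card_quotient_le_card {α T : Type*} (r : Setoid α) [Finite T]
    (f : α → T) (h : ∀ a a', f a = f a' → r a a') :
    Nat.card (Quotient r) ≤ Nat.card T := by
  refine Nat.card_le_card_of_injective (fun q => f q.out) ?_
  intro q q' hqq
  have h2 := h _ _ hqq
  calc q = Quotient.mk r q.out := (Quotient.out_eq q).symm
    _ = Quotient.mk r q'.out := Quotient.sound h2
    _ = q' := Quotient.out_eq q'

/-- Additive source, arbitrary finite target. -/
theorem addRelIndex_le_card {G : Type*} [AddGroup G] (H K : AddSubgroup G) {T : Type*}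
    [Finite T] (f : K → T) (hf : ∀ a b : K, f a = f b → -(a : G) + (b : G) ∈ H) :
    H.relIndex K ≤ Nat.card T := by
  refine card_quotient_le_card (QuotientAddGroup.leftRel (H.addSubgroupOf K)) f ?_
  intro a b hab
  rw [QuotientAddGroup.leftRel_apply, AddSubgroup.mem_addSubgroupOf]
  simpa using hf a b hab

/-- Multiplicative source, additive target. -/
theorem relIndex_le_addRelIndex {G : Type*} [Group G] (H K : Subgroup G) {G' : Type*}
    [AddGroup G'] (H' K' : AddSubgroup G') (h0 : H'.relIndex K' ≠ 0) (f : K → K')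
    (hf : ∀ a b : K, -(f a : G') + (f b : G') ∈ H' → (a : G)⁻¹ * (b : G) ∈ H) :
    H.relIndex K ≤ H'.relIndex K' := by
  have hfi : (H'.addSubgroupOf K').FiniteIndex := ⟨h0⟩
  have hfin : Finite (K' ⧸ H'.addSubgroupOf K') := AddSubgroup.finite_quotient_of_finiteIndex
  refine card_quotient_le_card (QuotientGroup.leftRel (H.subgroupOf K))
    (fun a => (QuotientAddGroup.mk (f a) : K' ⧸ H'.addSubgroupOf K')) ?_
  intro a b hab
  rw [QuotientGroup.leftRel_apply, Subgroup.mem_subgroupOf]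
  have h1 := QuotientAddGroup.eq.mp hab
  rw [AddSubgroup.mem_addSubgroupOf] at h1
  simpa using hf a b (by simpa using h1)

end Count

section Ambiguous

variable (R : Type*) [CommRing R] [IsDedekindDomain R] (S : Type*) [CommRing S]
  [IsDedekindDomain S] [Algebra R S] [Module.Finite R S] [Module.IsTorsionFree R S]

variable {R S} in
/-- The subgroup of classes fixed by an automorphism. -/
noncomputable def fixedClasses (e : S ≃ₐ[R] S) : Subgroup (ClassGroup S) :=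
  (classMap (e : S ≃+* S) / MonoidHom.id (ClassGroup S)).ker

variable {R S} in
theorem mem_fixedClasses (e : S ≃ₐ[R] S) (c : ClassGroup S) :
    c ∈ fixedClasses e ↔ classMap (e : S ≃+* S) c = c := by
  rw [fixedClasses, MonoidHom.mem_ker, MonoidHom.div_apply, MonoidHom.id_apply, div_eq_one]

/-- (A1) the norm subgroup is at most as large as the group of fixed classes. -/
theorem card_normSubgroup_le [Finite (ClassGroup S)] (e : S ≃ₐ[R] S) :
    Nat.card (normSubgroup R S) ≤ Nat.card (fixedClasses e) := by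
  set D : ClassGroup S →* ClassGroup S := classMap (e : S ≃+* S) / MonoidHom.id (ClassGroup S)
    with hD
  set N : ClassGroup S →* ClassGroup R := classNorm R S with hN
  have hDN : D.range ≤ N.ker := by
    rintro _ ⟨c, rfl⟩
    rw [MonoidHom.mem_ker, hD, MonoidHom.div_apply, MonoidHom.id_apply, map_div, hN,
      classNorm_classMap, div_self']
  have h1 : Nat.card N.ker * Nat.card N.range = Nat.card (ClassGroup S) := by
    rw [← Subgroup.index_ker]
    exact Subgroup.card_mul_index _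
  have h2 : Nat.card D.ker * Nat.card D.range = Nat.card (ClassGroup S) := by
    rw [← Subgroup.index_ker]
    exact Subgroup.card_mul_index _
  have h3 : Nat.card D.range ≤ Nat.card N.ker := Subgroup.card_le_of_le hDN
  have h4 : 0 < Nat.card N.ker := Nat.card_pos
  have h5 : Nat.card N.ker * Nat.card N.range ≤ Nat.card N.ker * Nat.card D.ker := by
    rw [h1, ← h2, mul_comm]
    exact Nat.mul_le_mul_right _ h3
  exact Nat.le_of_mul_le_mul_left h5 h4

end Ambiguous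


section NumberField

variable {K L : Type*} [Field K] [NumberField K] [Field L] [NumberField L] [Algebra K L]
  [IsGalois K L]

/-- (B1) a unit of norm one is `σ w / w` with `(w)` an extended ideal. -/
theorem exists_gen_of_norm_eq_one (hunr : Unram K L) (p : ℕ)
    (hcard : Nat.card (L ≃ₐ[K] L) = p) (σ : L ≃ₐ[K] L)
    (hgen : ∀ τ : L ≃ₐ[K] L, τ ∈ Subgroup.zpowers σ) (u : (𝓞 L)ˣ)
    (hu : Algebra.norm K ((u : 𝓞 L) : L) = 1) :
    ∃ (w : 𝓞 L) (b : Ideal (𝓞 K)), w ≠ 0 ∧ ((u : 𝓞 L) : L) * (w : L) = σ (w : L) ∧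
      Ideal.span {w} = b.map (algebraMap (𝓞 K) (𝓞 L)) := by
  obtain ⟨w, hw0, hw⟩ := S14_HerbI.exists_integer_of_norm_eq_one p hcard σ hgen _ hu
  have hew : (RingOfIntegers.mapAlgEquiv σ : 𝓞 L ≃ₐ[𝓞 K] 𝓞 L) w = (u : 𝓞 L) * w :=
    RingOfIntegers.ext hw.symm
  have hinv : (Ideal.span {w}).map
      ((RingOfIntegers.mapAlgEquiv σ : 𝓞 L ≃ₐ[𝓞 K] 𝓞 L) : 𝓞 L ≃+* 𝓞 L) = Ideal.span {w} := by
    rw [Ideal.map_span, Set.image_singleton]
    change Ideal.span {(RingOfIntegers.mapAlgEquiv σ : 𝓞 L ≃ₐ[𝓞 K] 𝓞 L) w} = _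
    rw [hew, Ideal.span_singleton_mul_left_unit u.isUnit]
  obtain ⟨b, hb⟩ := S14_HerbI.exists_map_eq_of_map_eq hunr σ hgen _ hinv
  exact ⟨w, b, hw0, hw, hb⟩

/-- (B2) if the ideals of `K` attached to two units of norm one are in the same class, the units
differ by a coboundary. -/
theorem exists_unit_of_span_mul_eq (σ : L ≃ₐ[K] L) {u u' : (𝓞 L)ˣ} {w w' : 𝓞 L}
    {b b' : Ideal (𝓞 K)} (hw0 : w ≠ 0)
    (hw : ((u : 𝓞 L) : L) * (w : L) = σ (w : L))
    (hw' : ((u' : 𝓞 L) : L) * (w' : L) = σ (w' : L))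
    (hb : Ideal.span {w} = b.map (algebraMap (𝓞 K) (𝓞 L)))
    (hb' : Ideal.span {w'} = b'.map (algebraMap (𝓞 K) (𝓞 L)))
    {a a' : 𝓞 K} (ha : a ≠ 0) (hab : Ideal.span {a} * b = Ideal.span {a'} * b') :
    ∃ v : (𝓞 L)ˣ, ((u' : 𝓞 L) : L) * ((v : 𝓞 L) : L) = ((u : 𝓞 L) : L) * σ ((v : 𝓞 L) : L) := by
  have h1 := congrArg (Ideal.map (algebraMap (𝓞 K) (𝓞 L))) hab
  rw [Ideal.map_mul, Ideal.map_mul, ← hb, ← hb', Ideal.map_span, Ideal.map_span,
    Set.image_singleton, Set.image_singleton, Ideal.span_singleton_mul_span_singleton,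
    Ideal.span_singleton_mul_span_singleton, Ideal.span_singleton_eq_span_singleton] at h1
  obtain ⟨v, hv⟩ := h1
  refine ⟨v, ?_⟩
  have hv' : algebraMap K L (a : K) * (w : L) * ((v : 𝓞 L) : L) =
      algebraMap K L (a' : K) * (w' : L) := congrArg (fun z : 𝓞 L => (z : L)) hv
  have hσ := congrArg σ hv'
  rw [map_mul, map_mul, map_mul, AlgEquiv.commutes, AlgEquiv.commutes, ← hw, ← hw'] at hσ
  have ha0 : algebraMap K L (a : K) * (w : L) ≠ 0 := by
    refine mul_ne_zero ?_ ?_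
    · rw [Ne, map_eq_zero_iff _ (algebraMap K L).injective]
      exact fun h => ha (RingOfIntegers.ext h)
    · exact fun h => hw0 (RingOfIntegers.ext h)
  refine mul_left_cancel₀ ha0 ?_
  linear_combination ((u' : 𝓞 L) : L) * hv' - hσ


/-- (C1) data attached to a fixed class: `(x) σ(A) = (y) A` and `N y = N x * v` with `v` a unit
of `𝓞 K`. -/
theorem exists_data_of_fixed (σ : L ≃ₐ[K] L) (c : ClassGroup (𝓞 L))
    (hc : classMap ((RingOfIntegers.mapAlgEquiv σ : 𝓞 L ≃ₐ[𝓞 K] 𝓞 L) : 𝓞 L ≃+* 𝓞 L) c = c) :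
    ∃ (A : (Ideal (𝓞 L))⁰) (x y : 𝓞 L) (v : (𝓞 K)ˣ), ClassGroup.mk0 A = c ∧ x ≠ 0 ∧ y ≠ 0 ∧
      Ideal.span {x} * (A : Ideal (𝓞 L)).map
          ((RingOfIntegers.mapAlgEquiv σ : 𝓞 L ≃ₐ[𝓞 K] 𝓞 L) : 𝓞 L ≃+* 𝓞 L) =
        Ideal.span {y} * (A : Ideal (𝓞 L)) ∧
      Algebra.norm K (y : L) = Algebra.norm K (x : L) * ((v : 𝓞 K) : K) := by
  obtain ⟨A, rfl⟩ := ClassGroup.mk0_surjective c
  rw [classMap_mk0] at hc
  obtain ⟨x, y, hx, hy, hxy⟩ := ClassGroup.mk0_eq_mk0_iff.1 hc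
  rw [coe_idealMap0] at hxy
  have h1 := congrArg (Ideal.relNorm (𝓞 K)) hxy
  rw [map_mul, map_mul, Ideal.relNorm_singleton, Ideal.relNorm_singleton] at h1
  have h2 : Ideal.relNorm (𝓞 K) ((A : Ideal (𝓞 L)).map
      ((RingOfIntegers.mapAlgEquiv σ : 𝓞 L ≃ₐ[𝓞 K] 𝓞 L) : 𝓞 L ≃+* 𝓞 L)) =
      Ideal.relNorm (𝓞 K) (A : Ideal (𝓞 L)) :=
    Ideal.relNorm_map_algEquiv (RingOfIntegers.mapAlgEquiv σ : 𝓞 L ≃ₐ[𝓞 K] 𝓞 L)
      (A : Ideal (𝓞 L))
  rw [h2] at h1
  have hA0 : Ideal.relNorm (𝓞 K) (A : Ideal (𝓞 L)) ≠ ⊥ := by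
    rw [Ne, Ideal.relNorm_eq_bot_iff]
    exact nonZeroDivisors.coe_ne_zero A
  have h3 := mul_right_cancel₀ hA0 h1
  rw [Ideal.span_singleton_eq_span_singleton] at h3
  obtain ⟨v, hv⟩ := h3
  refine ⟨A, x, y, v, rfl, hx, hy, hxy, ?_⟩
  have h4 := congrArg (algebraMap (𝓞 K) K) hv
  rw [map_mul, Algebra.algebraMap_intNorm (L := L), Algebra.algebraMap_intNorm (L := L)] at h4
  exact h4.symm

/-- (C2) two fixed classes whose attached units of `𝓞 K` differ by a norm of a unit of `𝓞 L`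
differ by an extended class. -/
theorem mem_range_of_norm_eq (hunr : Unram K L) (p : ℕ)
    (hcard : Nat.card (L ≃ₐ[K] L) = p) (σ : L ≃ₐ[K] L)
    (hgen : ∀ τ : L ≃ₐ[K] L, τ ∈ Subgroup.zpowers σ)
    {A A' : (Ideal (𝓞 L))⁰} {x y x' y' : 𝓞 L} {v v' : (𝓞 K)ˣ}
    (hx : x ≠ 0) (hy : y ≠ 0) (hx' : x' ≠ 0)
    (h1 : Ideal.span {x} * (A : Ideal (𝓞 L)).map
          ((RingOfIntegers.mapAlgEquiv σ : 𝓞 L ≃ₐ[𝓞 K] 𝓞 L) : 𝓞 L ≃+* 𝓞 L) =
        Ideal.span {y} * (A : Ideal (𝓞 L)))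
    (h2 : Ideal.span {x'} * (A' : Ideal (𝓞 L)).map
          ((RingOfIntegers.mapAlgEquiv σ : 𝓞 L ≃ₐ[𝓞 K] 𝓞 L) : 𝓞 L ≃+* 𝓞 L) =
        Ideal.span {y'} * (A' : Ideal (𝓞 L)))
    (hv : Algebra.norm K (y : L) = Algebra.norm K (x : L) * ((v : 𝓞 K) : K))
    (hv' : Algebra.norm K (y' : L) = Algebra.norm K (x' : L) * ((v' : 𝓞 K) : K))
    (t : (𝓞 L)ˣ) (ht : ((v' : 𝓞 K) : K) = ((v : 𝓞 K) : K) * Algebra.norm K ((t : 𝓞 L) : L)) :
    (ClassGroup.mk0 A)⁻¹ * ClassGroup.mk0 A' ∈ (ClassGroup.extendedHom (𝓞 K) (𝓞 L)).range := by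
  classical
  set E : 𝓞 L ≃+* 𝓞 L := ((RingOfIntegers.mapAlgEquiv σ : 𝓞 L ≃ₐ[𝓞 K] 𝓞 L) : 𝓞 L ≃+* 𝓞 L)
    with hE
  have hEcoe : ∀ w : 𝓞 L, ((E w : 𝓞 L) : L) = σ (w : L) := fun w => rfl
  -- nonvanishing
  have hxL : (x : L) ≠ 0 := fun h => hx (RingOfIntegers.ext h)
  have hyL : (y : L) ≠ 0 := fun h => hy (RingOfIntegers.ext h)
  have hx'L : (x' : L) ≠ 0 := fun h => hx' (RingOfIntegers.ext h)
  have htL : ((t : 𝓞 L) : L) ≠ 0 := fun h => t.ne_zero (RingOfIntegers.ext h)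
  have hvK : ((v : 𝓞 K) : K) ≠ 0 := fun h => v.ne_zero (RingOfIntegers.ext h)
  have hNx : Algebra.norm K (x : L) ≠ 0 := Algebra.norm_ne_zero_iff.2 hxL
  have hNx' : Algebra.norm K (x' : L) ≠ 0 := Algebra.norm_ne_zero_iff.2 hx'L
  have hNt : Algebra.norm K ((t : 𝓞 L) : L) ≠ 0 := Algebra.norm_ne_zero_iff.2 htL
  have hden : (y : L) * (x' : L) * ((t : 𝓞 L) : L) ≠ 0 := mul_ne_zero (mul_ne_zero hyL hx'L) htL
  -- the element of norm one
  have hη : Algebra.norm K ((y' : L) * (x : L) / ((y : L) * (x' : L) * ((t : 𝓞 L) : L))) = 1 := by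
    rw [div_eq_mul_inv, map_mul, Algebra.norm_inv, map_mul, map_mul, map_mul, hv, hv', ht]
    field_simp
  obtain ⟨w, hw0, hw⟩ := S14_HerbI.exists_integer_of_norm_eq_one p hcard σ hgen _ hη
  rw [div_mul_eq_mul_div, div_eq_iff hden] at hw
  have hwO : y' * x * w = E w * (y * x' * t) := RingOfIntegers.ext hw
  -- a representative of the inverse class
  obtain ⟨A'', hA''⟩ := ClassGroup.mk0_surjective (ClassGroup.mk0 A)⁻¹
  have hprinc : ClassGroup.mk0 (A * A'') = 1 := by rw [map_mul, hA'', mul_inv_cancel]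
  rw [ClassGroup.mk0_eq_one_iff] at hprinc
  obtain ⟨g, hg⟩ := hprinc.principal
  have hg' : (A : Ideal (𝓞 L)) * (A'' : Ideal (𝓞 L)) = Ideal.span {g} := hg
  have hA0 : (A : Ideal (𝓞 L)) ≠ ⊥ := nonZeroDivisors.coe_ne_zero A
  have hA''0 : (A'' : Ideal (𝓞 L)) ≠ ⊥ := nonZeroDivisors.coe_ne_zero A''
  have hA'0 : (A' : Ideal (𝓞 L)) ≠ ⊥ := nonZeroDivisors.coe_ne_zero A'
  have hg0 : g ≠ 0 := by
    rintro rfl
    rw [Set.singleton_zero, Ideal.span_zero] at hg'
    exact mul_ne_zero hA0 hA''0 hg'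
  have h3σ : (A : Ideal (𝓞 L)).map E * (A'' : Ideal (𝓞 L)).map E = Ideal.span {E g} := by
    have := congrArg (Ideal.map E) hg'
    rwa [Ideal.map_mul, Ideal.map_span, Set.image_singleton] at this
  have h4 : Ideal.span {w} * Ideal.span {y'} * Ideal.span {x} =
      Ideal.span {E w} * Ideal.span {y} * Ideal.span {x'} := by
    simp only [Ideal.span_singleton_mul_span_singleton]
    have : w * y' * x = E w * y * x' * t := by linear_combination hwO
    rw [this, Ideal.span_singleton_mul_right_unit t.isUnit]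
  have haE0 : (A : Ideal (𝓞 L)).map E ≠ ⊥ := nonZeroDivisors.coe_ne_zero (idealMap0 E A)
  -- the key relation `(z) σ(J) = (σ z) J` for `J = A'' A'`, `z = g w`
  have hclaim : Ideal.span {g * w} * ((A'' : Ideal (𝓞 L)) * (A' : Ideal (𝓞 L))).map E =
      Ideal.span {E (g * w)} * ((A'' : Ideal (𝓞 L)) * (A' : Ideal (𝓞 L))) := by
    rw [Ideal.map_mul, map_mul, ← Ideal.span_singleton_mul_span_singleton,
      ← Ideal.span_singleton_mul_span_singleton]
    have hM : Ideal.span {x'} * Ideal.span {x} * (A : Ideal (𝓞 L)).map E ≠ ⊥ :=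
      mul_ne_zero (mul_ne_zero (by simpa using hx') (by simpa using hx)) haE0
    refine mul_right_cancel₀ hM ?_
    calc Ideal.span {g} * Ideal.span {w} * ((A'' : Ideal (𝓞 L)).map E * (A' : Ideal (𝓞 L)).map E) *
          (Ideal.span {x'} * Ideal.span {x} * (A : Ideal (𝓞 L)).map E)
        = Ideal.span {g} * ((A : Ideal (𝓞 L)).map E * (A'' : Ideal (𝓞 L)).map E) *
            (Ideal.span {x'} * (A' : Ideal (𝓞 L)).map E) * (Ideal.span {w} * Ideal.span {x}) := by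
          ring
      _ = Ideal.span {g} * Ideal.span {E g} * (Ideal.span {y'} * (A' : Ideal (𝓞 L))) *
            (Ideal.span {w} * Ideal.span {x}) := by rw [h3σ, h2]
      _ = Ideal.span {g} * Ideal.span {E g} * (A' : Ideal (𝓞 L)) *
            (Ideal.span {w} * Ideal.span {y'} * Ideal.span {x}) := by ring
      _ = Ideal.span {g} * Ideal.span {E g} * (A' : Ideal (𝓞 L)) *
            (Ideal.span {E w} * Ideal.span {y} * Ideal.span {x'}) := by rw [h4]
      _ = Ideal.span {E g} * Ideal.span {E w} * (A' : Ideal (𝓞 L)) * Ideal.span {x'} *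
            Ideal.span {y} * ((A : Ideal (𝓞 L)) * (A'' : Ideal (𝓞 L))) := by rw [hg']; ring
      _ = Ideal.span {E g} * Ideal.span {E w} * (A'' : Ideal (𝓞 L)) * (A' : Ideal (𝓞 L)) *
            Ideal.span {x'} * (Ideal.span {y} * (A : Ideal (𝓞 L))) := by ring
      _ = Ideal.span {E g} * Ideal.span {E w} * (A'' : Ideal (𝓞 L)) * (A' : Ideal (𝓞 L)) *
            Ideal.span {x'} * (Ideal.span {x} * (A : Ideal (𝓞 L)).map E) := by rw [h1]
      _ = Ideal.span {E g} * Ideal.span {E w} * ((A'' : Ideal (𝓞 L)) * (A' : Ideal (𝓞 L))) *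
          (Ideal.span {x'} * Ideal.span {x} * (A : Ideal (𝓞 L)).map E) := by ring
  -- the cofactor of `z` in its norm
  set z : 𝓞 L := g * w with hz
  have hz0 : z ≠ 0 := mul_ne_zero hg0 hw0
  obtain ⟨zs, hzs⟩ := Algebra.dvd_algebraMap_intNorm_self (𝓞 K) (𝓞 L) z
  have hEz : E (z * zs) = z * zs := by
    rw [← hzs]
    exact (RingOfIntegers.mapAlgEquiv σ : 𝓞 L ≃ₐ[𝓞 K] 𝓞 L).commutes _
  have hzs0 : zs ≠ 0 := by
    rintro rfl
    rw [mul_zero] at hzs
    have h5 : Algebra.intNorm (𝓞 K) (𝓞 L) z = 0 :=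
      RingOfIntegers.algebraMap.injective K L (by rw [hzs, map_zero])
    exact hz0 (Algebra.intNorm_eq_zero.1 h5)
  have hEz0 : E z ≠ 0 := (map_ne_zero_iff E E.injective).2 hz0
  -- the invariant ideal
  set B' : Ideal (𝓞 L) := Ideal.span {zs} * ((A'' : Ideal (𝓞 L)) * (A' : Ideal (𝓞 L))) with hB'
  have hB'inv : B'.map E = B' := by
    rw [hB', Ideal.map_mul, Ideal.map_span, Set.image_singleton]
    have hzz : Ideal.span {z} * Ideal.span {E z} ≠ ⊥ :=
      mul_ne_zero (by simpa using hz0) (by simpa using hEz0)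
    refine mul_left_cancel₀ hzz ?_
    calc Ideal.span {z} * Ideal.span {E z} *
          (Ideal.span {E zs} * ((A'' : Ideal (𝓞 L)) * (A' : Ideal (𝓞 L))).map E)
        = (Ideal.span {E z} * Ideal.span {E zs}) *
            (Ideal.span {z} * ((A'' : Ideal (𝓞 L)) * (A' : Ideal (𝓞 L))).map E) := by ring
      _ = Ideal.span {z * zs} *
            (Ideal.span {E z} * ((A'' : Ideal (𝓞 L)) * (A' : Ideal (𝓞 L)))) := by
          rw [Ideal.span_singleton_mul_span_singleton, ← map_mul, hEz, hclaim]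
      _ = Ideal.span {z} * Ideal.span {E z} *
          (Ideal.span {zs} * ((A'' : Ideal (𝓞 L)) * (A' : Ideal (𝓞 L)))) := by
          rw [← Ideal.span_singleton_mul_span_singleton]; ring
  obtain ⟨b, hb⟩ := S14_HerbI.exists_map_eq_of_map_eq hunr σ hgen B' hB'inv
  have hB'0 : B' ≠ ⊥ := mul_ne_zero (by simpa using hzs0) (mul_ne_zero hA''0 hA'0)
  have hb0 : b ≠ ⊥ := by
    rintro rfl
    rw [Ideal.map_bot] at hb
    exact hB'0 hb
  refine ⟨ClassGroup.mk0 ⟨b, mem_nonZeroDivisors_iff_ne_zero.2 hb0⟩, ?_⟩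
  rw [ClassGroup.extendedHom_mk0, ← hA'', ← map_mul]
  refine ClassGroup.mk0_eq_mk0_iff.2 ⟨1, zs, one_ne_zero, hzs0, ?_⟩
  rw [Ideal.span_singleton_one, Ideal.top_mul]
  exact hb.symm


/-- Extended classes are fixed by the Galois group. -/
theorem range_extendedHom_le_fixedClasses (σ : L ≃ₐ[K] L) :
    (ClassGroup.extendedHom (𝓞 K) (𝓞 L)).range ≤
      fixedClasses (RingOfIntegers.mapAlgEquiv σ : 𝓞 L ≃ₐ[𝓞 K] 𝓞 L) := by
  rintro _ ⟨d, rfl⟩
  obtain ⟨I, rfl⟩ := ClassGroup.mk0_surjective d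
  rw [mem_fixedClasses, ClassGroup.extendedHom_mk0, classMap_mk0]
  congr 1
  apply Subtype.ext
  rw [coe_idealMap0]
  show Ideal.map _ (Ideal.map (algebraMap (𝓞 K) (𝓞 L)) (I : Ideal (𝓞 K))) =
    Ideal.map (algebraMap (𝓞 K) (𝓞 L)) (I : Ideal (𝓞 K))
  rw [← S14_HerbI.smul_eq_map, S10_Unram.smul_map_algebraMap]

/-- **Block HERB** (range form): for `L / K` unramified Galois of odd prime degree `p`, `K`
containing the `p`-th roots of unity, the norm subgroup has index at least `p`, in the form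
`p * |N Cl_L| ≤ |Cl_K|`. -/
theorem herb_range (p : ℕ) [Fact p.Prime] (hp2 : 2 < p) (ζ : K) (hζ : IsPrimitiveRoot ζ p)
    (hdeg : Module.finrank K L = p) (hunr : Unram K L) :
    p * Nat.card (S14_Norm.normSubgroup (𝓞 K) (𝓞 L)) ≤ Nat.card (ClassGroup (𝓞 K)) := by
  classical
  have hp : p.Prime := Fact.out
  have : FiniteDimensional K L := Module.Finite.of_restrictScalars_finite ℚ K L
  have hcard : Nat.card (L ≃ₐ[K] L) = p := by rw [IsGalois.card_aut_eq_finrank, hdeg]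
  have hnt : Nontrivial (L ≃ₐ[K] L) := by
    rw [← Finite.one_lt_card_iff_nontrivial, hcard]
    exact hp.one_lt
  obtain ⟨σ, hσ⟩ : ∃ σ : L ≃ₐ[K] L, σ ≠ 1 := exists_ne 1
  have hgen : ∀ τ : L ≃ₐ[K] L, τ ∈ Subgroup.zpowers σ :=
    fun τ => mem_zpowers_of_prime_card hcard hσ
  obtain ⟨h0ne, h1ne, hU⟩ := S14_HerbU.herbrand_units p hp2 K L hdeg ζ hζ σ hσ
  set sX : Module.End ℤ (Additive (𝓞 L)ˣ) := unitEnd K L σ with hsX
  set Nm : Module.End ℤ (Additive (𝓞 L)ˣ) := ∑ i ∈ Finset.range p, sX ^ i with hNm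
  set NX : AddSubgroup (Additive (𝓞 L)ˣ) := (LinearMap.range Nm).toAddSubgroup with hNX
  set Fs : AddSubgroup (Additive (𝓞 L)ˣ) := (LinearMap.ker (sX - 1)).toAddSubgroup with hFs
  set τX : AddSubgroup (Additive (𝓞 L)ˣ) := (LinearMap.range (sX - 1)).toAddSubgroup with hτX
  set As : AddSubgroup (Additive (𝓞 L)ˣ) := (LinearMap.ker Nm).toAddSubgroup with hAs
  set e : 𝓞 L ≃ₐ[𝓞 K] 𝓞 L := RingOfIntegers.mapAlgEquiv σ with he
  set Fix : Subgroup (ClassGroup (𝓞 L)) := fixedClasses e with hFix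
  set ext : ClassGroup (𝓞 K) →* ClassGroup (𝓞 L) := ClassGroup.extendedHom (𝓞 K) (𝓞 L) with hext
  -- the norm on units
  have hval_N : ∀ t : Additive (𝓞 L)ˣ, ((((Nm t).toMul : (𝓞 L)ˣ) : 𝓞 L) : L) =
      algebraMap K L (Algebra.norm K (((t.toMul : (𝓞 L)ˣ) : 𝓞 L) : L)) := by
    intro t
    rw [algebraMap_norm_eq_prod_pow K L p hcard σ hgen, hNm, LinearMap.sum_apply, coe_toMul_sum]
    exact Finset.prod_congr rfl fun i _ => unitEnd_pow K L σ i t
  -- (A2b)
  have hA2b : τX.relIndex As ≤ Nat.card ext.ker := by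
    have key : ∀ a : As, ∃ (w : 𝓞 L) (b : Ideal (𝓞 K)), w ≠ 0 ∧
        ((((a : Additive (𝓞 L)ˣ).toMul : (𝓞 L)ˣ) : 𝓞 L) : L) * (w : L) = σ (w : L) ∧
        Ideal.span {w} = b.map (algebraMap (𝓞 K) (𝓞 L)) := by
      intro a
      refine exists_gen_of_norm_eq_one hunr p hcard σ hgen _ ?_
      have ha : Nm (a : Additive (𝓞 L)ˣ) = 0 := a.2
      have h := hval_N a
      rw [ha] at h
      apply (algebraMap K L).injective
      rw [← h, map_one]
      rfl
    choose w b hw0 hw hb using key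
    have hb0 : ∀ a, b a ≠ ⊥ := by
      intro a h
      have h1 := hb a
      rw [h, Ideal.map_bot, Ideal.span_singleton_eq_bot] at h1
      exact hw0 a h1
    have hmem : ∀ a, ClassGroup.mk0 ⟨b a, mem_nonZeroDivisors_iff_ne_zero.2 (hb0 a)⟩ ∈ ext.ker := by
      intro a
      rw [MonoidHom.mem_ker, hext, ClassGroup.extendedHom_mk0, ClassGroup.mk0_eq_one_iff]
      show (Ideal.map (algebraMap (𝓞 K) (𝓞 L)) (b a)).IsPrincipal
      rw [← hb a]
      exact ⟨⟨w a, rfl⟩⟩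
    refine addRelIndex_le_card τX As (fun a => (⟨_, hmem a⟩ : ext.ker)) ?_
    intro a a' haa
    have h1 : ClassGroup.mk0 ⟨b a, mem_nonZeroDivisors_iff_ne_zero.2 (hb0 a)⟩ =
        ClassGroup.mk0 ⟨b a', mem_nonZeroDivisors_iff_ne_zero.2 (hb0 a')⟩ :=
      congrArg Subtype.val haa
    obtain ⟨x, y, hx, hy, hxy⟩ := ClassGroup.mk0_eq_mk0_iff.1 h1
    obtain ⟨v, hv⟩ := exists_unit_of_span_mul_eq σ (hw0 a) (hw a) (hw a') (hb a) (hb a') hx hxy
    have h2 : (a : Additive (𝓞 L)ˣ) + sX (Additive.ofMul v) =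
        (a' : Additive (𝓞 L)ˣ) + Additive.ofMul v := by
      apply unit_ext
      exact hv.symm
    refine ⟨Additive.ofMul v, ?_⟩
    show (sX - 1) (Additive.ofMul v) = -(a : Additive (𝓞 L)ˣ) + (a' : Additive (𝓞 L)ˣ)
    rw [LinearMap.sub_apply, Module.End.one_apply, eq_neg_add_iff_add_eq, ← add_sub_assoc,
      sub_eq_iff_eq_add]
    exact h2
  -- (A2a)
  have hI0le : ext.range ≤ Fix := range_extendedHom_le_fixedClasses σ
  have hA2a : ext.range.relIndex Fix ≤ NX.relIndex Fs := by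
    have key : ∀ c : Fix, ∃ (A : (Ideal (𝓞 L))⁰) (x y : 𝓞 L) (v : (𝓞 K)ˣ),
        ClassGroup.mk0 A = (c : ClassGroup (𝓞 L)) ∧ x ≠ 0 ∧ y ≠ 0 ∧
        Ideal.span {x} * (A : Ideal (𝓞 L)).map
            ((RingOfIntegers.mapAlgEquiv σ : 𝓞 L ≃ₐ[𝓞 K] 𝓞 L) : 𝓞 L ≃+* 𝓞 L) =
          Ideal.span {y} * (A : Ideal (𝓞 L)) ∧
        Algebra.norm K (y : L) = Algebra.norm K (x : L) * ((v : 𝓞 K) : K) :=
      fun c => exists_data_of_fixed σ c ((mem_fixedClasses e c).1 c.2)
    choose A x y v hA hx hy hxy hv using key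
    have hmem : ∀ c : Fix, unitIncl K L (Additive.ofMul (v c)) ∈ Fs := by
      intro c
      show unitIncl K L (Additive.ofMul (v c)) ∈ LinearMap.ker (sX - 1)
      rw [LinearMap.mem_ker, LinearMap.sub_apply, Module.End.one_apply, unitEnd_unitIncl,
        sub_self]
    refine relIndex_le_addRelIndex ext.range Fix NX Fs h0ne (fun c => ⟨_, hmem c⟩) ?_
    intro c c' hcc
    obtain ⟨t, ht⟩ := hcc
    have ht' : ((v c' : 𝓞 K) : K) =
        ((v c : 𝓞 K) : K) * Algebra.norm K (((t.toMul : (𝓞 L)ˣ) : 𝓞 L) : L) := by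
      apply (algebraMap K L).injective
      rw [map_mul, ← hval_N t]
      have h3 : unitIncl K L (Additive.ofMul (v c')) =
          unitIncl K L (Additive.ofMul (v c)) + Nm t := by
        have : Nm t = -unitIncl K L (Additive.ofMul (v c)) + unitIncl K L (Additive.ofMul (v c')) :=
          ht
        rw [this]
        abel
      exact congrArg (fun u : Additive (𝓞 L)ˣ => ((((u.toMul : (𝓞 L)ˣ)) : 𝓞 L) : L)) h3
    have h5 := mem_range_of_norm_eq hunr p hcard σ hgen (hx c) (hy c) (hx c') (hxy c) (hxy c')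
      (hv c) (hv c') t.toMul ht'
    rw [hA c, hA c'] at h5
    exact h5
  -- cardinalities
  have hA1 : Nat.card (S14_Norm.normSubgroup (𝓞 K) (𝓞 L)) ≤ Nat.card Fix :=
    card_normSubgroup_le (𝓞 K) (𝓞 L) e
  have hc1 : Nat.card ext.ker * Nat.card ext.range = Nat.card (ClassGroup (𝓞 K)) := by
    rw [← Subgroup.index_ker]
    exact Subgroup.card_mul_index _
  have hc2 : Nat.card ext.range * ext.range.relIndex Fix = Nat.card Fix := by
    have h6 := Subgroup.relIndex_mul_relIndex ⊥ ext.range Fix bot_le hI0le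
    rwa [Subgroup.relIndex_bot_left, Subgroup.relIndex_bot_left] at h6
  -- conclusion
  have hfin : NX.relIndex Fs * (p * Nat.card (S14_Norm.normSubgroup (𝓞 K) (𝓞 L))) ≤
      NX.relIndex Fs * Nat.card (ClassGroup (𝓞 K)) := by
    calc NX.relIndex Fs * (p * Nat.card (S14_Norm.normSubgroup (𝓞 K) (𝓞 L)))
        = Nat.card (S14_Norm.normSubgroup (𝓞 K) (𝓞 L)) * (p * NX.relIndex Fs) := by ring
      _ ≤ Nat.card Fix * τX.relIndex As := Nat.mul_le_mul hA1 hU
      _ = Nat.card ext.range * ext.range.relIndex Fix * τX.relIndex As := by rw [hc2]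
      _ ≤ Nat.card ext.range * NX.relIndex Fs * Nat.card ext.ker :=
          Nat.mul_le_mul (Nat.mul_le_mul_left _ hA2a) hA2b
      _ = NX.relIndex Fs * Nat.card (ClassGroup (𝓞 K)) := by rw [← hc1]; ring
  exact Nat.le_of_mul_le_mul_left hfin (Nat.pos_of_ne_zero h0ne)

end NumberField

end Fermat.Agent.S14_HerbA
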