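import Mathlib
import Fermat.Agent.S14_Defs
import Fermat.Agent.S14_NormNF
import Fermat.Agent.S14_HerbA

/-!
# Block HERB of Project C (S14): the norm index inequality

`L / K` a Galois extension of number fields of odd prime degree `p`, unramified at every finite
prime (`S14_Defs.Unram`), with `K` containing a primitive `p`-th root of unity (so `K` is totally
complex).  Then `p * |normSubgroup K L| ≤ |Cl_K|`; in particular the norm subgroup is proper.

The proof is in `S14_HerbQ` (Herbrand quotient, pure algebra), `S14_HerbU` (units),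
`S14_HerbI` (invariant ideals, Hilbert 90) and `S14_HerbA` (ambiguous classes).
-/

namespace Fermat.Agent.S14_Herb

open NumberField Fermat.Agent.S14_Defs

/-- **Block HERB.** -/
theorem herb (p : ℕ) [Fact p.Prime] (h3 : 3 ≤ p) (K L : Type*) [Field K] [NumberField K]
    [Field L] [NumberField L] [Algebra K L] [IsGalois K L] (hdeg : Module.finrank K L = p)
    (ζ : K) (hζ : IsPrimitiveRoot ζ p) (hunr : Unram K L) :
    p * Nat.card (normSubgroup K L) ≤ Nat.card (ClassGroup (𝓞 K)) := by
  rw [S14_NormNF.normSubgroup_eq]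
  exact S14_HerbA.herb_range p (by omega) ζ hζ hdeg hunr

/-- Block HERB for a cyclotomic base field. -/
theorem herb_cyclo (p : ℕ) [Fact p.Prime] (h3 : 3 ≤ p) (K L : Type*) [Field K] [NumberField K]
    [IsCyclotomicExtension {p} ℚ K] [Field L] [NumberField L] [Algebra K L] [IsGalois K L]
    (hdeg : Module.finrank K L = p) (hunr : Unram K L) :
    p * Nat.card (normSubgroup K L) ≤ Nat.card (ClassGroup (𝓞 K)) :=
  haveI : NeZero p := ⟨(Fact.out : p.Prime).ne_zero⟩
  herb p h3 K L hdeg (IsCyclotomicExtension.zeta p ℚ K) (IsCyclotomicExtension.zeta_spec p ℚ K)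
    hunr

/-- The norm subgroup of an unramified extension of degree `p` is a proper subgroup. -/
theorem normSubgroup_ne_top (p : ℕ) [Fact p.Prime] (h3 : 3 ≤ p) (K L : Type*) [Field K]
    [NumberField K] [Field L] [NumberField L] [Algebra K L] [IsGalois K L]
    (hdeg : Module.finrank K L = p) (ζ : K) (hζ : IsPrimitiveRoot ζ p) (hunr : Unram K L) :
    normSubgroup K L ≠ ⊤ := by
  intro h
  have h1 := herb p h3 K L hdeg ζ hζ hunr
  rw [h, Subgroup.card_top] at h1
  have h2 : 0 < Nat.card (ClassGroup (𝓞 K)) := Nat.card_pos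
  nlinarith

end Fermat.Agent.S14_Herb
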