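/-
S14, block JAC (helper8): principality of the "Stickelberger" product
`∏_{b=1}^{(p-1)/2} σ_b⁻¹ Q` in `ℚ(ζ_p)`, generated by the Jacobi sum `J(χ, χ)` of the
`p`-th power residue character modulo `Q`.
-/
import Mathlib

namespace Fermat.Agent.S14_Jac

open Finset NumberField
open scoped Pointwise

/-- `∑ x, xⁿ (1 - x)ⁿ = 0` over a finite field when `2 n < #F - 1`. -/
theorem sum_pow_mul_one_sub_pow (F : Type*) [Field F] [Fintype F] (n : ℕ)
    (h : 2 * n < Fintype.card F - 1) :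
    ∑ x : F, x ^ n * (1 - x) ^ n = 0 := by
  have h1 : ∀ x : F, x ^ n * (1 - x) ^ n =
      ∑ k ∈ range (n + 1), ((-1 : F) ^ k * (n.choose k : F)) * x ^ (n + k) := by
    intro x
    have : (1 - x) ^ n = (-x + 1) ^ n := by ring_nf
    rw [this, add_pow, Finset.mul_sum]
    refine Finset.sum_congr rfl fun k _ => ?_
    rw [one_pow, mul_one, neg_pow, pow_add]
    ring
  simp_rw [h1]
  rw [Finset.sum_comm]
  refine Finset.sum_eq_zero fun k hk => ?_
  rw [← Finset.mul_sum, FiniteField.sum_pow_lt_card_sub_one F (n + k) (by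
    have := Finset.mem_range.mp hk
    omega), mul_zero]

/-- The order `p` character of the residue field `𝓞 K ⧸ Q` with values in `𝓞 K` that is
congruent to `x ↦ x ^ m` modulo `Q`, `p * m = #(𝓞 K ⧸ Q) - 1`. -/
theorem exists_mulChar (K : Type*) [Field K] [NumberField K] (Q : Ideal (𝓞 K)) [Q.IsMaximal]
    [Fintype (𝓞 K ⧸ Q)] (p : ℕ) [Fact p.Prime] {ζ : 𝓞 K} (hζ : IsPrimitiveRoot ζ p)
    (hQp : (Ideal.absNorm Q).Coprime p) :
    ∃ (m : ℕ) (χ : MulChar (𝓞 K ⧸ Q) (𝓞 K)), p * m = Fintype.card (𝓞 K ⧸ Q) - 1 ∧ 0 < m ∧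
      χ ^ p = 1 ∧ χ ≠ 1 ∧ ∀ x : 𝓞 K ⧸ Q, Ideal.Quotient.mk Q (χ x) = x ^ m := by
  classical
  let _ : Field (𝓞 K ⧸ Q) := Ideal.Quotient.field Q
  have hp : p.Prime := Fact.out
  have : NeZero p := ⟨hp.ne_zero⟩
  have hQ1 : Ideal.absNorm Q ≠ 1 := by
    rw [Ne, Ideal.absNorm_eq_one_iff]
    exact Ideal.IsMaximal.ne_top inferInstance
  have hμ : IsPrimitiveRoot (Ideal.Quotient.mk Q ζ) p := hζ.idealQuotient_mk hQ1 hQp
  have hμ0 : Ideal.Quotient.mk Q ζ ≠ 0 := hμ.ne_zero hp.ne_zero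
  have hdvd : p ∣ Fintype.card (𝓞 K ⧸ Q) - 1 :=
    hμ.dvd_of_pow_eq_one _ (FiniteField.pow_card_sub_one_eq_one _ hμ0)
  obtain ⟨m, hm⟩ := hdvd
  have hcard : 1 < Fintype.card (𝓞 K ⧸ Q) := Fintype.one_lt_card
  have hm0 : 0 < m := by
    rcases Nat.eq_zero_or_pos m with h | h
    · rw [h, mul_zero] at hm; omega
    · exact h
  set r := Ideal.rootsOfUnityMapQuot Q p with hr_def
  have hr : Function.Injective r := Ideal.rootsOfUnityMapQuot_injective p hQ1 hQp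
  have key : ∀ x : (𝓞 K ⧸ Q)ˣ, (powMonoidHom m : (𝓞 K ⧸ Q)ˣ →* (𝓞 K ⧸ Q)ˣ) x ∈ r.range := by
    intro x
    have hx : ((x ^ m : (𝓞 K ⧸ Q)ˣ) : 𝓞 K ⧸ Q) ^ p = 1 := by
      rw [Units.val_pow_eq_pow_val, ← pow_mul, mul_comm, ← hm]
      exact FiniteField.pow_card_sub_one_eq_one _ x.ne_zero
    obtain ⟨i, -, hi⟩ := hμ.eq_pow_of_pow_eq_one hx
    refine ⟨hζ.toRootsOfUnity ^ i, ?_⟩
    apply Units.ext
    rw [powMonoidHom_apply, ← hi]
    rfl
  let χ₀ : (𝓞 K ⧸ Q)ˣ →* rootsOfUnity p (𝓞 K) :=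
    (MonoidHom.ofInjective hr).symm.toMonoidHom.comp
      ((powMonoidHom m : (𝓞 K ⧸ Q)ˣ →* (𝓞 K ⧸ Q)ˣ).codRestrict r.range key)
  have hχ₀ : ∀ x : (𝓞 K ⧸ Q)ˣ, r (χ₀ x) = x ^ m := by
    intro x
    exact MonoidHom.apply_ofInjective_symm hr _
  let χ : MulChar (𝓞 K ⧸ Q) (𝓞 K) := MulChar.ofUnitHom ((rootsOfUnity p (𝓞 K)).subtype.comp χ₀)
  have hχu : ∀ x : (𝓞 K ⧸ Q)ˣ, χ x = ((χ₀ x : (𝓞 K)ˣ) : 𝓞 K) := by
    intro x
    exact MulChar.ofUnitHom_coe _ x
  have hχmk : ∀ x : (𝓞 K ⧸ Q)ˣ, Ideal.Quotient.mk Q (χ x) = (x : 𝓞 K ⧸ Q) ^ m := by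
    intro x
    rw [hχu, ← Units.val_pow_eq_pow_val, ← hχ₀ x]
    rfl
  refine ⟨m, χ, hm.symm, hm0, ?_, ?_, ?_⟩
  · ext x
    rw [MulChar.pow_apply_coe, hχu, MulChar.one_apply_coe, ← Units.val_pow_eq_pow_val,
      ← Subgroup.coe_pow]
    have : (χ₀ x) ^ p = 1 := by
      apply Subtype.ext
      have := (χ₀ x).2
      rw [mem_rootsOfUnity] at this
      simpa using this
    rw [this]
    rfl
  · intro h1
    have hall : ∀ x : (𝓞 K ⧸ Q)ˣ, x ^ m = 1 := by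
      intro x
      apply Units.ext
      rw [Units.val_pow_eq_pow_val, ← hχmk x, h1, MulChar.one_apply_coe, map_one]
      rfl
    rw [FiniteField.forall_pow_eq_one_iff, hm] at hall
    have := Nat.le_of_dvd hm0 hall
    have hp2 := hp.two_le
    nlinarith
  · intro x
    by_cases hx : IsUnit x
    · obtain ⟨u, rfl⟩ := hx
      exact hχmk u
    · rw [MulChar.map_nonunit χ hx, map_zero]
      have : x = 0 := by
        by_contra h0
        exact hx (isUnit_iff_ne_zero.mpr h0)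
      rw [this, zero_pow hm0.ne']

/-- A ring endomorphism raising the primitive root to the `b`-th power raises the character to
the `b`-th power. -/
theorem ringHomComp_eq_pow {F R : Type*} [Field F] [Finite F] [CommRing R] [IsDomain R] {p : ℕ}
    [NeZero p] {χ : MulChar F R} (hχ : χ ^ p = 1) {ζ : R} (hζ : IsPrimitiveRoot ζ p)
    (τ : R →+* R) {b : ℕ} (hτ : τ ζ = ζ ^ b) : χ.ringHomComp τ = χ ^ b := by
  ext x
  rw [MulChar.ringHomComp_apply, MulChar.pow_apply_coe]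
  obtain ⟨k, -, hk⟩ := MulChar.exists_apply_eq_pow hχ hζ x.ne_zero
  rw [hk, map_pow, hτ, ← pow_mul, ← pow_mul, mul_comm]

/-- Galois equivariance of the Jacobi sum. -/
theorem map_jacobiSum_eq {F R : Type*} [Field F] [Fintype F] [CommRing R] [IsDomain R] {p : ℕ}
    [NeZero p] {χ : MulChar F R} (hχ : χ ^ p = 1) {ζ : R} (hζ : IsPrimitiveRoot ζ p)
    (τ : R →+* R) {b : ℕ} (hτ : τ ζ = ζ ^ b) :
    τ (jacobiSum χ χ) = jacobiSum (χ ^ b) (χ ^ b) := by
  rw [← jacobiSum_ringHomComp, ringHomComp_eq_pow hχ hζ τ hτ]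

/-- The Jacobi sum `J(χᵇ, χᵇ)` lies in `Q` for `1 ≤ b`, `2 b < p`. -/
theorem jacobiSum_pow_mem {R : Type*} [CommRing R] (Q : Ideal R) [Q.IsMaximal] [Fintype (R ⧸ Q)]
    {p m : ℕ} (hm : p * m = Fintype.card (R ⧸ Q) - 1) (hm0 : 0 < m)
    (χ : MulChar (R ⧸ Q) R) (hχ : ∀ x : R ⧸ Q, Ideal.Quotient.mk Q (χ x) = x ^ m)
    {b : ℕ} (hb : 0 < b) (hb2 : 2 * b < p) :
    jacobiSum (χ ^ b) (χ ^ b) ∈ Q := by
  let _ : Field (R ⧸ Q) := Ideal.Quotient.field Q
  rw [← Ideal.Quotient.eq_zero_iff_mem, jacobiSum, map_sum]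
  have h1 : ∀ x : R ⧸ Q, Ideal.Quotient.mk Q ((χ ^ b) x * (χ ^ b) (1 - x)) =
      x ^ (m * b) * (1 - x) ^ (m * b) := by
    intro x
    rw [map_mul, MulChar.pow_apply' χ hb.ne', MulChar.pow_apply' χ hb.ne', map_pow, map_pow,
      hχ, hχ, pow_mul, pow_mul]
  simp_rw [h1]
  apply sum_pow_mul_one_sub_pow
  rw [← hm]
  nlinarith

/-- `J(χ,χ) * J(χ⁻¹,χ⁻¹) = #F` for a character of odd prime order with values in a domain of
characteristic zero. -/
theorem jacobiSum_mul_inv {F R : Type*} [Field F] [Fintype F] [CommRing R] [IsDomain R]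
    [CharZero R] {p : ℕ} (hp : p.Prime) (hp2 : p ≠ 2) {χ : MulChar F R} (hχ : χ ^ p = 1)
    (hχ1 : χ ≠ 1) :
    jacobiSum χ χ * jacobiSum χ⁻¹ χ⁻¹ = (Fintype.card F : R) := by
  have hinj : Function.Injective (algebraMap R (FractionRing R)) := IsFractionRing.injective _ _
  apply hinj
  have hχχ : χ * χ ≠ 1 := by
    intro h
    apply hχ1
    rw [← pow_two] at h
    have h2 : orderOf χ ∣ 2 := orderOf_dvd_of_pow_eq_one h
    have h3 : orderOf χ ∣ p := orderOf_dvd_of_pow_eq_one hχ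
    have h4 : orderOf χ ∣ Nat.gcd 2 p := Nat.dvd_gcd h2 h3
    have h5 : Nat.gcd 2 p = 1 := by
      rw [Nat.coprime_primes Nat.prime_two hp |>.mpr (Ne.symm hp2)]
    rw [h5, Nat.dvd_one, orderOf_eq_one_iff] at h4
    exact h4
  have hchar : ringChar (FractionRing R) ≠ ringChar F := by
    have : CharZero (FractionRing R) := charZero_of_injective_algebraMap hinj
    rw [ringChar.eq_zero]
    exact (CharP.ringChar_ne_zero_of_finite F).symm
  have key := jacobiSum_mul_jacobiSum_inv hchar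
    ((MulChar.ringHomComp_ne_one_iff hinj).mpr hχ1) ((MulChar.ringHomComp_ne_one_iff hinj).mpr hχ1)
    (by rw [← MulChar.ringHomComp_mul]; exact (MulChar.ringHomComp_ne_one_iff hinj).mpr hχχ)
  rw [MulChar.ringHomComp_inv, jacobiSum_ringHomComp, jacobiSum_ringHomComp] at key
  rw [map_mul, key, map_natCast]

/-- The absolute norm is invariant under the Galois action. -/
theorem absNorm_smul {K : Type*} [Field K] [NumberField K] (σ : K ≃ₐ[ℚ] K) (I : Ideal (𝓞 K)) :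
    Ideal.absNorm (σ • I) = Ideal.absNorm I := by
  rw [Ideal.absNorm_apply, Ideal.absNorm_apply, Submodule.cardQuot_apply, Submodule.cardQuot_apply]
  exact (Nat.card_congr (Ideal.quotientEquiv I (σ • I)
    (MulSemiringAction.toRingAut (K ≃ₐ[ℚ] K) (𝓞 K) σ) rfl).toEquiv).symm

/-- The Galois action on a principal ideal. -/
theorem smul_span_singleton {K : Type*} [Field K] [NumberField K] (σ : K ≃ₐ[ℚ] K) (x : 𝓞 K) :
    σ • Ideal.span {x} = Ideal.span {σ • x} := by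
  rw [Ideal.smul_closure, Set.smul_set_singleton]

/-- The Galois action on an integer, computed in the field. -/
theorem coe_smul_int {K : Type*} [Field K] [NumberField K] (σ : K ≃ₐ[ℚ] K) (x : 𝓞 K) :
    ((σ • x : 𝓞 K) : K) = σ (x : K) :=
  algebraMap.coe_smul' σ x K

/-- **JAC.** Let `K = ℚ(ζ_p)`, `p` an odd prime, `Q` a prime of `𝓞 K` not above `p` with trivial
decomposition group, and `s b ∈ Gal(K/ℚ)` with `s b ζ = ζ ^ b`. Then
`∏_{b = 1}^{(p-1)/2} (s b)⁻¹ Q` is a principal ideal (generated by a Jacobi sum). -/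
theorem exists_generator (p : ℕ) [Fact p.Prime] (hp2 : p ≠ 2) (K : Type*) [Field K]
    [NumberField K] [IsCyclotomicExtension {p} ℚ K] {ζ : K} (hζ : IsPrimitiveRoot ζ p)
    (Q : Ideal (𝓞 K)) [Q.IsMaximal] (hQp : (Ideal.absNorm Q).Coprime p)
    (hstab : ∀ σ : K ≃ₐ[ℚ] K, σ • Q = Q → σ = 1)
    (s : ℕ → (K ≃ₐ[ℚ] K)) (hs : ∀ b ∈ Finset.Icc 1 ((p - 1) / 2), s b ζ = ζ ^ b) :
    ∃ J : 𝓞 K, Ideal.span {J} = ∏ b ∈ Finset.Icc 1 ((p - 1) / 2), (s b)⁻¹ • Q := by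
  classical
  have hp : p.Prime := Fact.out
  have hp3 : 3 ≤ p := by
    have := hp.two_le
    omega
  have hodd : p - 1 = 2 * ((p - 1) / 2) := by
    rcases hp.eq_two_or_odd with h | h
    · exact absurd h hp2
    · omega
  have : NeZero p := ⟨hp.ne_zero⟩
  have hQ0 : Q ≠ ⊥ := Ring.ne_bot_of_isMaximal_of_not_isField inferInstance
    (RingOfIntegers.not_isField K)
  have : Finite (𝓞 K ⧸ Q) := Ideal.finiteQuotientOfFreeOfNeBot Q hQ0
  let _ : Fintype (𝓞 K ⧸ Q) := Fintype.ofFinite _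
  let _ : Field (𝓞 K ⧸ Q) := Ideal.Quotient.field Q
  have hcardN : Fintype.card (𝓞 K ⧸ Q) = Ideal.absNorm Q := by
    rw [Ideal.absNorm_apply, Submodule.cardQuot_apply, Nat.card_eq_fintype_card]
  have hN0 : 0 < Ideal.absNorm Q := by
    rw [← hcardN]
    exact Fintype.card_pos
  have hζ' : IsPrimitiveRoot hζ.toInteger p := hζ.toInteger_isPrimitiveRoot
  obtain ⟨m, χ, hm, hm0, hχp, hχ1, hχmk⟩ := exists_mulChar K Q p hζ' hQp
  -- Galois equivariance
  have hgal : ∀ (σ : K ≃ₐ[ℚ] K) (b : ℕ), σ ζ = ζ ^ b →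
      σ • jacobiSum χ χ = jacobiSum (χ ^ b) (χ ^ b) := by
    intro σ b hσ
    refine map_jacobiSum_eq hχp hζ' (MulSemiringAction.toRingHom (K ≃ₐ[ℚ] K) (𝓞 K) σ) ?_
    apply RingOfIntegers.ext
    rw [MulSemiringAction.toRingHom_apply, coe_smul_int]
    change σ ζ = _
    rw [hσ]
    rfl
  set J := jacobiSum χ χ with hJ
  set f : ℕ → Ideal (𝓞 K) := fun b => (s b)⁻¹ • Q with hf
  -- membership
  have hmem : ∀ b ∈ Finset.Icc 1 ((p - 1) / 2), J ∈ f b := by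
    intro b hb
    rw [hf]
    change J ∈ (s b)⁻¹ • Q
    rw [Ideal.mem_inv_pointwise_smul_iff, hgal (s b) b (hs b hb)]
    rw [Finset.mem_Icc] at hb
    exact jacobiSum_pow_mem Q hm hm0 χ hχmk (by omega) (by omega)
  -- distinctness
  have hinj : Set.InjOn f (Finset.Icc 1 ((p - 1) / 2) : Finset ℕ) := by
    intro b hb b' hb' hbb'
    have h1 : (s b * (s b')⁻¹) • Q = Q := by
      rw [mul_smul]
      change (s b) • f b' = Q
      rw [← hbb']
      exact smul_inv_smul _ _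
    have h2 : s b = s b' := by
      have := hstab _ h1
      rwa [mul_inv_eq_one] at this
    have h3 : ζ ^ b = ζ ^ b' := by
      rw [← hs b hb, ← hs b' hb', h2]
    rw [Finset.coe_Icc, Set.mem_Icc] at hb hb'
    exact hζ.pow_inj (by omega) (by omega) h3
  -- the product divides `(J)`
  have hdvd : ∏ b ∈ Finset.Icc 1 ((p - 1) / 2), f b ∣ Ideal.span {J} := by
    rw [← Finset.prod_image (s := Finset.Icc 1 ((p - 1) / 2)) (g := f) (f := fun P => P) hinj]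
    refine Finset.prod_primes_dvd _ ?_ ?_
    · intro P hP
      obtain ⟨b, -, rfl⟩ := Finset.mem_image.mp hP
      refine Ideal.prime_of_isPrime ?_ ?_
      · intro h0
        apply hQ0
        have : (s b) • f b = (s b) • (⊥ : Ideal (𝓞 K)) := by rw [h0]
        rw [hf, Ideal.smul_bot] at this
        simpa using this
      · rw [hf]
        exact Ideal.IsPrime.smul _
    · intro P hP
      obtain ⟨b, hb, rfl⟩ := Finset.mem_image.mp hP
      rw [Ideal.dvd_span_singleton]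
      exact hmem b hb
  obtain ⟨B, hB⟩ := hdvd
  -- norms
  have hnormprod : Ideal.absNorm (∏ b ∈ Finset.Icc 1 ((p - 1) / 2), f b) =
      Ideal.absNorm Q ^ ((p - 1) / 2) := by
    rw [map_prod]
    have : ∀ b ∈ Finset.Icc 1 ((p - 1) / 2), Ideal.absNorm (f b) = Ideal.absNorm Q := by
      intro b _
      exact absNorm_smul _ _
    rw [Finset.prod_congr rfl this, Finset.prod_const, Nat.card_Icc, Nat.add_sub_cancel]
  -- the conjugate Jacobi sum
  obtain ⟨c, hc⟩ : ∃ c : K ≃ₐ[ℚ] K, c ζ = ζ ^ (p - 1) := by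
    refine ⟨(IsCyclotomicExtension.Rat.galEquivZMod p K).symm (-1), ?_⟩
    rw [IsCyclotomicExtension.Rat.galEquivZMod_apply_of_pow_eq p K _ hζ.pow_eq_one,
      MulEquiv.apply_symm_apply]
    have h1 : (((-1 : (ZMod p)ˣ) : ZMod p).val + 1) % p = 0 := by
      rw [← ZMod.val_natCast, Nat.cast_add, ZMod.natCast_val, ZMod.cast_id', id, Nat.cast_one,
        Units.val_neg, Units.val_one, neg_add_cancel, ZMod.val_zero]
    have h2 : ((-1 : (ZMod p)ˣ) : ZMod p).val < p := ZMod.val_lt _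
    have h3 : ((-1 : (ZMod p)ˣ) : ZMod p).val = p - 1 := by
      have := Nat.dvd_of_mod_eq_zero h1
      obtain ⟨k, hk⟩ := this
      have hk1 : k = 1 := by
        rcases k with _ | _ | k
        · omega
        · rfl
        · nlinarith
      rw [hk1] at hk
      omega
    rw [h3]
  have hinv : χ⁻¹ = χ ^ (p - 1) := by
    rw [inv_eq_iff_mul_eq_one, ← pow_succ', show p - 1 + 1 = p by omega, hχp]
  have hJ' : jacobiSum χ⁻¹ χ⁻¹ = c • J := by
    rw [hgal c (p - 1) hc, hinv]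
  have hJJ : J * c • J = (Ideal.absNorm Q : 𝓞 K) := by
    rw [← hJ', jacobiSum_mul_inv hp hp2 hχp hχ1, hcardN]
  have hnormJ : Ideal.absNorm (Ideal.span {J}) = Ideal.absNorm Q ^ ((p - 1) / 2) := by
    have h1 : Ideal.span {J} * c • Ideal.span {J} = Ideal.span {(Ideal.absNorm Q : 𝓞 K)} := by
      rw [smul_span_singleton, Ideal.span_singleton_mul_span_singleton, hJJ]
    have h2 := congrArg Ideal.absNorm h1
    rw [map_mul, absNorm_smul, Ideal.absNorm_span_natCast, RingOfIntegers.rank,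
      IsCyclotomicExtension.finrank K (Polynomial.cyclotomic.irreducible_rat hp.pos),
      Nat.totient_prime hp, hodd, pow_mul', ← sq] at h2
    exact Nat.pow_left_injective two_ne_zero h2
  have hBnorm : Ideal.absNorm B = 1 := by
    have h := congrArg Ideal.absNorm hB
    rw [map_mul, hnormJ, hnormprod] at h
    have hpos : 0 < Ideal.absNorm Q ^ ((p - 1) / 2) := pow_pos hN0 _
    nlinarith
  rw [Ideal.absNorm_eq_one_iff] at hBnorm
  refine ⟨J, ?_⟩
  rw [hB, hBnorm, Ideal.mul_top]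

/-- A maximal ideal of `𝓞 K` not containing the rational prime `p` has norm prime to `p`. -/
theorem coprime_absNorm_of_natCast_notMem (p : ℕ) [Fact p.Prime] (K : Type*) [Field K]
    [NumberField K] (Q : Ideal (𝓞 K)) [Q.IsMaximal] (hpQ : (p : 𝓞 K) ∉ Q) :
    (Ideal.absNorm Q).Coprime p := by
  classical
  have hp : p.Prime := Fact.out
  have hQ0 : Q ≠ ⊥ := Ring.ne_bot_of_isMaximal_of_not_isField inferInstance
    (RingOfIntegers.not_isField K)
  have : Finite (𝓞 K ⧸ Q) := Ideal.finiteQuotientOfFreeOfNeBot Q hQ0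
  let _ : Fintype (𝓞 K ⧸ Q) := Fintype.ofFinite _
  let _ : Field (𝓞 K ⧸ Q) := Ideal.Quotient.field Q
  have hcardN : Fintype.card (𝓞 K ⧸ Q) = Ideal.absNorm Q := by
    rw [Ideal.absNorm_apply, Submodule.cardQuot_apply, Nat.card_eq_fintype_card]
  obtain ⟨n, hq, hn⟩ := FiniteField.card (𝓞 K ⧸ Q) (ringChar (𝓞 K ⧸ Q))
  rw [← hcardN, hn]
  apply Nat.Coprime.pow_left
  rw [Nat.coprime_primes hq hp]
  intro h
  apply hpQ
  rw [← Ideal.Quotient.eq_zero_iff_mem, map_natCast, ← h]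
  exact ringChar.Nat.cast_ringChar

/-- **JAC**, `IsPrincipal` form. -/
theorem isPrincipal_prod (p : ℕ) [Fact p.Prime] (hp2 : p ≠ 2) (K : Type*) [Field K]
    [NumberField K] [IsCyclotomicExtension {p} ℚ K] {ζ : K} (hζ : IsPrimitiveRoot ζ p)
    (Q : Ideal (𝓞 K)) [Q.IsMaximal] (hQp : (Ideal.absNorm Q).Coprime p)
    (hstab : ∀ σ : K ≃ₐ[ℚ] K, σ • Q = Q → σ = 1)
    (s : ℕ → (K ≃ₐ[ℚ] K)) (hs : ∀ b ∈ Finset.Icc 1 ((p - 1) / 2), s b ζ = ζ ^ b) :
    (∏ b ∈ Finset.Icc 1 ((p - 1) / 2), (s b)⁻¹ • Q).IsPrincipal := by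
  obtain ⟨J, hJ⟩ := exists_generator p hp2 K hζ Q hQp hstab s hs
  exact ⟨⟨J, hJ.symm⟩⟩

/-- **JAC**, in the shape consumed by `S14_Star` (row `S14_Jac` of the interface table):
`s b = σ_b⁻¹` where `σ_b ζ = ζ ^ b`. -/
theorem jac (p : ℕ) [Fact p.Prime] (h3 : 3 ≤ p) (K : Type*) [Field K] [NumberField K]
    [IsCyclotomicExtension {p} ℚ K] (ζ : K) (hζ : IsPrimitiveRoot ζ p)
    (q : Ideal (𝓞 K)) [q.IsPrime] (hq : q ≠ ⊥) (hpq : (p : 𝓞 K) ∉ q)
    (hstab : ∀ s : K ≃ₐ[ℚ] K, s • q = q → s = 1)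
    (s : ℕ → (K ≃ₐ[ℚ] K)) (hs : ∀ b ∈ Finset.Icc 1 ((p - 1) / 2), (s b ζ) ^ b = ζ) :
    (∏ b ∈ Finset.Icc 1 ((p - 1) / 2), (s b • q)).IsPrincipal := by
  have : q.IsMaximal := Ideal.IsPrime.isMaximal inferInstance hq
  have hQp := coprime_absNorm_of_natCast_notMem p K q hpq
  have hs' : ∀ b ∈ Finset.Icc 1 ((p - 1) / 2), (fun b => (s b)⁻¹) b ζ = ζ ^ b := by
    intro b hb
    have h := hs b hb
    have h2 : (s b)⁻¹ ((s b ζ) ^ b) = (s b)⁻¹ ζ := by rw [h]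
    rw [map_pow] at h2
    have h3 : (s b)⁻¹ (s b ζ) = ζ := by
      rw [← AlgEquiv.mul_apply, inv_mul_cancel, AlgEquiv.one_apply]
    rw [h3] at h2
    exact h2.symm
  have key := isPrincipal_prod p (by omega) K hζ q hQp hstab (fun b => (s b)⁻¹) hs'
  simpa only [inv_inv] using key

end Fermat.Agent.S14_Jac
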