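import Fermat.Agent.S14_StarOf
import Fermat.Agent.S14_Cross
import Fermat.Agent.S14_WrapSplit
import Fermat.Agent.S14_Frob
import Fermat.Agent.S14_Jac
import Fermat.Agent.S14_Herb

/-!
# S14_Star (helper2): theorem (STAR) of Project C

`star`: there is no Galois number field `L/ℚ` of degree `(p - 1) p` containing a primitive `p`-th
root of unity `ζ`, unramified over `K = ℚ(ζ)`, on which `Gal(K/ℚ)` acts on `Gal(L/K)` through the
cyclotomic character. Assembly (`S14_StarOf.star_of`) of the block theorems HERB, CROSS, JAC, FROB,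
ZETA (Z3).
-/

set_option autoImplicit false
set_option linter.style.haveILetI false

open NumberField Fermat.Agent.S14_Defs Fermat.Agent.S14_StarOf
open scoped Pointwise

noncomputable section

namespace Fermat.Agent.S14_Star

theorem star (p : ℕ) [Fact p.Prime] (h3 : 3 ≤ p) (L : Type) [Field L] [NumberField L]
    [IsGalois ℚ L] (ζ : L) (hζ : IsPrimitiveRoot ζ p)
    (hdeg : Module.finrank ℚ L = (p - 1) * p)
    (hunr : ∀ Q' : Ideal (𝓞 L), Q'.IsPrime → Q' ≠ ⊥ → ∀ σ : L ≃ₐ[ℚ] L, σ ζ = ζ →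
      (∀ x y : 𝓞 L, (y : L) = σ x - x → y ∈ Q') → σ = 1)
    (hconj : ∀ (σ g : L ≃ₐ[ℚ] L) (m : ℕ), g ζ = ζ → (σ ζ) ^ m = ζ → σ * g * σ⁻¹ = g ^ m) :
    False := by
  haveI : NeZero p := neZero_p
  haveI := isCyclo hζ
  haveI : IsGalois ℚ ↥(Kf L ζ) := IsCyclotomicExtension.isGalois {p} ℚ ↥(Kf L ζ)
  have hU : Unram ↥(Kf L ζ) L := unram_of hunr
  have hdegK : Module.finrank ↥(Kf L ζ) L = p := finrank_L hζ hdeg
  have hab : ∀ σ τ : L ≃ₐ[↥(Kf L ζ)] L, σ * τ = τ * σ := by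
    haveI := isCyclic_of_prime_card (card_gal hζ hdeg)
    exact isMulCommutative_iff.mp IsCyclic.isMulCommutative
  refine star_of h3 hζ hdeg hconj
    { herb := S14_Herb.herb p h3 ↥(Kf L ζ) L hdegK (zK L ζ) (isPrimitiveRoot_zK hζ) hU
      cross := fun q₀ q hq₀p hqp hq₀ hq hpq₀ hpq σ₀ σ hσ₀ hσ hne d hd =>
        S14_Cross.cross p h3 ↥(Kf L ζ) L hdegK hU q₀ q hq₀ hq hpq₀ hpq σ₀ σ hσ₀ hσ hne d hd
      jac := fun q hqp hq hpq hstab s hs =>
        S14_Jac.jac p h3 ↥(Kf L ζ) (zK L ζ) (isPrimitiveRoot_zK hζ) q hq hpq hstab s hs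
      frob_exists := fun q hqp hq => S14_Frob.exists_isFrob ↥(Kf L ζ) L hab q hq
      frob_unique := fun q hqp hq σ τ hσ hτ => S14_Frob.IsFrob.unique hU hq hσ hτ
      frob_one := fun q hqp hq => S14_Frob.isFrob_one_iff_isSplit q hq
      frob_conj := fun s σ τ hτ q q' hq' hσ => S14_Frob.IsFrob.conj s σ τ hτ q q' hq' hσ
      z3 := fun S => S14_Wrap.exists_not_isSplit ↥(Kf L ζ) L (by omega) hU S }

end Fermat.Agent.S14_Star

end
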