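-- Statement S14: `ExtCitation.ExtVanishingCts p` for every prime `p ≥ 3`.
-- Proof: the bridge `S14_Bridge.extVanishingCts_of_star` (valuation subrings of `Q̄` → one number
-- field) applied to theorem (STAR) `S14_Star.star`.
import Fermat.Statements.S14
import Fermat.Agent.S14_Bridge
import Fermat.Agent.S14_Star

set_option autoImplicit false
open ExtCitation

namespace Fermat.Agent.S14

theorem result {p : ℕ} [Fact p.Prime] (h3 : 3 ≤ p) :
    ExtCitation.ExtVanishingCts p :=
  S14_Bridge.extVanishingCts_of_star h3
    (fun L _ _ _ ζ hζ hdeg hunr hconj => S14_Star.star p h3 L ζ hζ hdeg hunr hconj)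

end Fermat.Agent.S14
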