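import Mathlib
import Fermat.Agent.S14_CountL

set_option autoImplicit false
set_option linter.unusedSectionVars false

namespace Fermat.Agent.S14_CountI

open NumberField Ideal MeasureTheory Module
open scoped nonZeroDivisors Real
open Filter InfinitePlace mixedEmbedding euclidean fundamentalCone Submodule Topology
open NumberField.Units
open scoped Classical

variable (K : Type*) [Field K] [NumberField K]

/-- The frontier of `normLeOne K` is covered by finitely many Lipschitz images of unit cubes of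
dimension `k ≤ [K : ℚ] - 1`. -/
def FrontierCover : Prop :=
  ∃ (k N : ℕ) (f : Fin N → (Fin k → ℝ) → mixedSpace K) (M : NNReal),
    k + 1 ≤ Module.finrank ℚ K ∧ (∀ i, LipschitzOnWith M (f i) (Set.Icc 0 1)) ∧
    frontier (normLeOne K) ⊆ ⋃ i, f i '' Set.Icc 0 1

variable {K}
variable {C : ClassGroup (𝓞 K)} {J : (Ideal (𝓞 K))⁰} {s : ℝ}

theorem card_class_eq (hJ : ClassGroup.mk0 J = C⁻¹) :
    Nat.card {I : (Ideal (𝓞 K))⁰ // absNorm (I : Ideal (𝓞 K)) ≤ s ∧ ClassGroup.mk0 I = C}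
      = Nat.card {I : (Ideal (𝓞 K))⁰ // (J : Ideal (𝓞 K)) ∣ I ∧ IsPrincipal (I : Ideal (𝓞 K)) ∧
        absNorm (I : Ideal (𝓞 K)) ≤ s * absNorm (J : Ideal (𝓞 K))} := by
  simp_rw [← nonZeroDivisors_dvd_iff_dvd_coe]
  refine Nat.card_congr ?_
  refine ((Equiv.dvd J).subtypeEquiv fun I ↦ ?_).trans
    (Equiv.subtypeSubtypeEquivSubtypeInter (fun I : (Ideal (𝓞 K))⁰ ↦ J ∣ I) _)
  rw [← ClassGroup.mk0_eq_one_iff (SetLike.coe_mem _)]
  simp_rw [Equiv.dvd_apply, Submonoid.coe_mul, ← Submonoid.mul_def, _root_.map_mul, hJ,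
    inv_mul_eq_one, Nat.cast_mul, mul_comm s, eq_comm, and_comm, and_congr_left_iff]
  exact fun _ ↦
    (mul_le_mul_iff_of_pos_left (Nat.cast_pos.mpr (absNorm_pos_of_nonZeroDivisors J))).symm

variable (K) in
/-- The lattice of the ideal `J` in the euclidean mixed space. -/
noncomputable abbrev lat (J : (Ideal (𝓞 K))⁰) :=
  ZLattice.comap ℝ (idealLattice K ((FractionalIdeal.mk0 K) J)) (toMixed K).toLinearMap

noncomputable def latticeEquiv :
    ↑({x | x ∈ (toMixed K) ⁻¹' fundamentalCone K ∧ mixedEmbedding.norm ((toMixed K) x) ≤ s} ∩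
      (lat K J : Set (euclidean.mixedSpace K)))
        ≃ {a : idealSet K J // mixedEmbedding.norm (a : mixedSpace K) ≤ s} := by
  rw [ZLattice.coe_comap]
  refine (((toMixed K).toEquiv.image _).trans (Equiv.subtypeEquivProp ?_)).trans
    (Equiv.subtypeSubtypeEquivSubtypeInter _ (mixedEmbedding.norm · ≤ s)).symm
  ext
  simp_rw [mem_idealSet, Set.mem_image, Set.mem_inter_iff, Set.mem_preimage, SetLike.mem_coe,
    mem_idealLattice, FractionalIdeal.coe_mk0]
  constructor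
  · rintro ⟨_, ⟨⟨hx₁, hx₂⟩, _, ⟨x, hx₃, rfl⟩, h⟩, rfl⟩
    exact ⟨⟨hx₁, x, hx₃, h⟩, hx₂⟩
  · rintro ⟨⟨hx₁, ⟨x, hx₂, rfl⟩⟩, hx₃⟩
    exact ⟨(toMixed K).symm (mixedEmbedding K x), ⟨⟨hx₁, hx₃⟩, ⟨(x : K), by simp [hx₂], rfl⟩⟩, rfl⟩

/-- The number of ideals of norm `≤ s` in the class `C`, times the number of roots of unity, is a
number of lattice points in the cone. -/
theorem card_class_mul_torsionOrder (hJ : ClassGroup.mk0 J = C⁻¹) (s : ℝ) :
    Nat.card {I : (Ideal (𝓞 K))⁰ // absNorm (I : Ideal (𝓞 K)) ≤ s ∧ ClassGroup.mk0 I = C} *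
      torsionOrder K =
    Nat.card ↑({x | x ∈ (toMixed K) ⁻¹' fundamentalCone K ∧
      mixedEmbedding.norm ((toMixed K) x) ≤ s * absNorm (J : Ideal (𝓞 K))} ∩
      (lat K J : Set (euclidean.mixedSpace K))) := by
  rw [card_class_eq hJ, card_isPrincipal_dvd_norm_le, Nat.card_congr latticeEquiv]

theorem coneSet_one :
    {x | x ∈ (toMixed K) ⁻¹' fundamentalCone K ∧ mixedEmbedding.norm ((toMixed K) x) ≤ 1} =
      (toMixed K) ⁻¹' normLeOne K := by
  ext x
  simp [normLeOne]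

theorem covolume_lat (J : (Ideal (𝓞 K))⁰) :
    ZLattice.covolume (lat K J) =
      (absNorm (J : Ideal (𝓞 K)) : ℝ) * ((2⁻¹) ^ nrComplexPlaces K * √|(discr K : ℝ)|) := by
  rw [ZLattice.covolume_comap _ _ _ (volumePreserving_toMixed K), covolume_idealLattice,
    FractionalIdeal.coe_mk0, FractionalIdeal.coeIdeal_absNorm, Rat.cast_natCast, mul_assoc]

/-- The covering form of the hypothesis on the frontier (what `S14_CountL.card_cone_sub_le`
consumes), for the preimage of `normLeOne K` in the euclidean mixed space. -/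
def FrontierBallCover (K : Type*) [Field K] [NumberField K] : Prop :=
  ∃ C₀ R₀ : ℝ, ∀ t : ℝ, 1 ≤ t → ∃ P : Finset (euclidean.mixedSpace K),
    (P.card : ℝ) ≤ C₀ * t ^ (Module.finrank ℚ K - 1) ∧
    frontier ((toMixed K) ⁻¹' normLeOne K) ⊆ ⋃ c ∈ P, Metric.closedBall c (R₀ / t)

/-- Lattice points of the ideal lattice in the cone, with error term (covering hypothesis). -/
theorem exists_card_lat_sub_le_of_ballCover (h : FrontierBallCover K) (J : (Ideal (𝓞 K))⁰) :
    ∃ C : ℝ, ∀ c : ℝ, 1 ≤ c →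
      |(Nat.card ↑({x | x ∈ (toMixed K) ⁻¹' fundamentalCone K ∧
          mixedEmbedding.norm ((toMixed K) x) ≤ c} ∩
          (lat K J : Set (euclidean.mixedSpace K))) : ℝ) -
        c * volume.real ((toMixed K) ⁻¹' normLeOne K) / ZLattice.covolume (lat K J)| ≤
          C * c ^ (1 - 1 / (finrank ℚ K : ℝ)) := by
  obtain ⟨C₀, R₀, hcov⟩ := h
  have h₂ : Bornology.IsBounded {x | x ∈ (toMixed K) ⁻¹' fundamentalCone K ∧
      mixedEmbedding.norm ((toMixed K) x) ≤ 1} := by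
    rw [coneSet_one]
    exact (toMixed K).antilipschitz.isBounded_preimage (isBounded_normLeOne K)
  have key := Fermat.Agent.S14_CountL.card_cone_sub_le (lat K J)
    (X := (toMixed K) ⁻¹' fundamentalCone K)
    (F := fun x ↦ mixedEmbedding.norm (toMixed K x))
    (fun _ _ _ h ↦ by rwa [Set.mem_preimage, map_smul, smul_mem_iff_mem h.ne'])
    (fun _ _ h ↦ by rw [map_smul, mixedEmbedding.norm_smul, euclidean.finrank, abs_of_nonneg h])
    h₂ (C₀ := C₀) (R₀ := R₀) (by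
      rw [coneSet_one, euclidean.finrank]
      exact hcov)
  rw [coneSet_one, euclidean.finrank] at key
  exact key

/-- The Lipschitz form of the hypothesis implies the covering form. -/
theorem FrontierCover.ballCover (h : FrontierCover K) : FrontierBallCover K := by
  obtain ⟨k, N, f, M, hk, hf, hfr⟩ := h
  have hlip : ∀ i, LipschitzOnWith (‖((toMixed K).symm : mixedSpace K →L[ℝ] euclidean.mixedSpace K)‖₊ * M)
      (fun y => (toMixed K).symm (f i y)) (Set.Icc 0 1) := fun i =>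
    (((toMixed K).symm : mixedSpace K →L[ℝ] euclidean.mixedSpace K).lipschitz).comp_lipschitzOnWith
      (hf i)
  have hfr' : frontier ((toMixed K) ⁻¹' normLeOne K) ⊆
      ⋃ i, (fun y => (toMixed K).symm (f i y)) '' Set.Icc 0 1 := by
    rw [← (toMixed K).coe_toHomeomorph, ← Homeomorph.preimage_frontier,
      (toMixed K).coe_toHomeomorph]
    intro x hx
    have hx' := hfr hx
    simp only [Set.mem_iUnion, Set.mem_image] at hx' ⊢
    obtain ⟨i, y, hy, hxy⟩ := hx'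
    exact ⟨i, y, hy, by rw [hxy]; simp⟩
  refine ⟨(Fintype.card (Fin N) * 2 ^ k : ℝ),
    ((‖((toMixed K).symm : mixedSpace K →L[ℝ] euclidean.mixedSpace K)‖₊ * M : NNReal) : ℝ),
    fun t ht => ?_⟩
  obtain ⟨P, hP1, hP2⟩ := Fermat.Agent.S14_CountL.exists_cover_of_lipschitz
    (fun i y => (toMixed K).symm (f i y)) _ hlip hfr' t ht
  refine ⟨P, hP1.trans ?_, hP2⟩
  have : t ^ k ≤ t ^ (finrank ℚ K - 1) := pow_le_pow_right₀ ht (by omega)
  have h0 : (0 : ℝ) ≤ (Fintype.card (Fin N) * 2 ^ k : ℝ) := by positivity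
  exact mul_le_mul_of_nonneg_left this h0

/-- Lattice points of the ideal lattice in the cone, with error term. -/
theorem exists_card_lat_sub_le (h : FrontierCover K) (J : (Ideal (𝓞 K))⁰) :
    ∃ C : ℝ, ∀ c : ℝ, 1 ≤ c →
      |(Nat.card ↑({x | x ∈ (toMixed K) ⁻¹' fundamentalCone K ∧
          mixedEmbedding.norm ((toMixed K) x) ≤ c} ∩
          (lat K J : Set (euclidean.mixedSpace K))) : ℝ) -
        c * volume.real ((toMixed K) ⁻¹' normLeOne K) / ZLattice.covolume (lat K J)| ≤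
          C * c ^ (1 - 1 / (finrank ℚ K : ℝ)) :=
  exists_card_lat_sub_le_of_ballCover h.ballCover J

variable (K) in
/-- **Ideal counting with an error term**: the numbers of integral ideals of norm `≤ x` in two
ideal classes differ by `O(x ^ (1 - 1 / [K : ℚ]))`. -/
theorem exists_card_class_sub_le_of_ballCover (h : FrontierBallCover K) :
    ∃ C : ℝ, ∀ (c c' : ClassGroup (𝓞 K)) (x : ℝ), 1 ≤ x →
      |(Nat.card {I : (Ideal (𝓞 K))⁰ // absNorm (I : Ideal (𝓞 K)) ≤ x ∧ ClassGroup.mk0 I = c} : ℝ) -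
        (Nat.card {I : (Ideal (𝓞 K))⁰ // absNorm (I : Ideal (𝓞 K)) ≤ x ∧ ClassGroup.mk0 I = c'} : ℝ)| ≤
          C * x ^ (1 - 1 / (finrank ℚ K : ℝ)) := by
  have hJ : ∀ c : ClassGroup (𝓞 K), ∃ J : (Ideal (𝓞 K))⁰, ClassGroup.mk0 J = c⁻¹ :=
    fun c => ClassGroup.mk0_surjective c⁻¹
  choose J hJ using hJ
  have hC := fun c : ClassGroup (𝓞 K) => exists_card_lat_sub_le_of_ballCover h (J c)
  choose B hB using hC
  set e : ℝ := 1 - 1 / (finrank ℚ K : ℝ) with he
  set V : ℝ := volume.real ((toMixed K) ⁻¹' normLeOne K) with hV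
  set κ : ℝ := (2⁻¹) ^ nrComplexPlaces K * √|(discr K : ℝ)| with hκ
  have hw : (1 : ℝ) ≤ torsionOrder K := by
    exact_mod_cast Nat.one_le_iff_ne_zero.mpr (torsionOrder_ne_zero K)
  have hw0 : (0 : ℝ) < torsionOrder K := lt_of_lt_of_le one_pos hw
  have ha : ∀ c, (1 : ℝ) ≤ absNorm (J c : Ideal (𝓞 K)) := fun c => by
    exact_mod_cast Nat.one_le_iff_ne_zero.mpr (absNorm_ne_zero_of_nonZeroDivisors (J c))
  have hκ0 : κ ≠ 0 := by
    have : (0 : ℝ) < √|(discr K : ℝ)| := by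
      rw [Real.sqrt_pos, abs_pos]
      exact_mod_cast discr_ne_zero K
    positivity
  -- the approximation for one class
  have happ : ∀ (c : ClassGroup (𝓞 K)) (x : ℝ), 1 ≤ x →
      |(Nat.card {I : (Ideal (𝓞 K))⁰ // absNorm (I : Ideal (𝓞 K)) ≤ x ∧ ClassGroup.mk0 I = c} : ℝ) *
        torsionOrder K - x * V / κ| ≤
        (|B c| * (absNorm (J c : Ideal (𝓞 K)) : ℝ) ^ e) * x ^ e := by
    intro c x hx
    have ha' := ha c
    have hx0 : 0 < x := lt_of_lt_of_le one_pos hx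
    have h1 := hB c (x * absNorm (J c : Ideal (𝓞 K))) (by nlinarith)
    rw [← card_class_mul_torsionOrder (hJ c) x, covolume_lat] at h1
    have h2 : x * (absNorm (J c : Ideal (𝓞 K)) : ℝ) * V / ((absNorm (J c : Ideal (𝓞 K)) : ℝ) * κ)
        = x * V / κ := by
      have : (absNorm (J c : Ideal (𝓞 K)) : ℝ) ≠ 0 := by linarith
      field_simp
    rw [h2] at h1
    push_cast at h1 ⊢
    refine h1.trans ?_
    rw [Real.mul_rpow hx0.le (by linarith)]
    have : B c ≤ |B c| := le_abs_self _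
    have hpos : 0 ≤ x ^ e * (absNorm (J c : Ideal (𝓞 K)) : ℝ) ^ e := by positivity
    calc B c * (x ^ e * (absNorm (J c : Ideal (𝓞 K)) : ℝ) ^ e)
        ≤ |B c| * (x ^ e * (absNorm (J c : Ideal (𝓞 K)) : ℝ) ^ e) :=
          mul_le_mul_of_nonneg_right this hpos
      _ = (|B c| * (absNorm (J c : Ideal (𝓞 K)) : ℝ) ^ e) * x ^ e := by ring
  set T : ℝ := ∑ c : ClassGroup (𝓞 K), |B c| * (absNorm (J c : Ideal (𝓞 K)) : ℝ) ^ e with hT
  have hTle : ∀ c, |B c| * (absNorm (J c : Ideal (𝓞 K)) : ℝ) ^ e ≤ T := fun c =>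
    Finset.single_le_sum (f := fun c => |B c| * (absNorm (J c : Ideal (𝓞 K)) : ℝ) ^ e)
      (fun c _ => by positivity) (Finset.mem_univ c)
  refine ⟨2 * T, fun c c' x hx => ?_⟩
  have hx0 : 0 < x := lt_of_lt_of_le one_pos hx
  have hxe : 0 ≤ x ^ e := by positivity
  have h1 := happ c x hx
  have h2 := happ c' x hx
  have h3 : |(Nat.card {I : (Ideal (𝓞 K))⁰ // absNorm (I : Ideal (𝓞 K)) ≤ x ∧
        ClassGroup.mk0 I = c} : ℝ) * torsionOrder K -
      (Nat.card {I : (Ideal (𝓞 K))⁰ // absNorm (I : Ideal (𝓞 K)) ≤ x ∧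
        ClassGroup.mk0 I = c'} : ℝ) * torsionOrder K| ≤ 2 * T * x ^ e := by
    have e1 := mul_le_mul_of_nonneg_right (hTle c) hxe
    have e2 := mul_le_mul_of_nonneg_right (hTle c') hxe
    rw [abs_le] at h1 h2 ⊢
    constructor <;> linarith [h1.1, h1.2, h2.1, h2.2]
  rw [← sub_mul, abs_mul, abs_of_pos hw0] at h3
  have hT0 : 0 ≤ 2 * T * x ^ e := le_trans (by positivity) h3
  calc |(Nat.card {I : (Ideal (𝓞 K))⁰ // absNorm (I : Ideal (𝓞 K)) ≤ x ∧
        ClassGroup.mk0 I = c} : ℝ) -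
      (Nat.card {I : (Ideal (𝓞 K))⁰ // absNorm (I : Ideal (𝓞 K)) ≤ x ∧
        ClassGroup.mk0 I = c'} : ℝ)|
      ≤ |(Nat.card {I : (Ideal (𝓞 K))⁰ // absNorm (I : Ideal (𝓞 K)) ≤ x ∧
        ClassGroup.mk0 I = c} : ℝ) -
      (Nat.card {I : (Ideal (𝓞 K))⁰ // absNorm (I : Ideal (𝓞 K)) ≤ x ∧
        ClassGroup.mk0 I = c'} : ℝ)| * torsionOrder K := le_mul_of_one_le_right (abs_nonneg _) hw
    _ ≤ 2 * T * x ^ e := h3

variable (K) in
/-- **Ideal counting with an error term** (Lipschitz form of the hypothesis). -/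
theorem exists_card_class_sub_le (h : FrontierCover K) :
    ∃ C : ℝ, ∀ (c c' : ClassGroup (𝓞 K)) (x : ℝ), 1 ≤ x →
      |(Nat.card {I : (Ideal (𝓞 K))⁰ // absNorm (I : Ideal (𝓞 K)) ≤ x ∧ ClassGroup.mk0 I = c} : ℝ) -
        (Nat.card {I : (Ideal (𝓞 K))⁰ // absNorm (I : Ideal (𝓞 K)) ≤ x ∧ ClassGroup.mk0 I = c'} : ℝ)| ≤
          C * x ^ (1 - 1 / (finrank ℚ K : ℝ)) :=
  exists_card_class_sub_le_of_ballCover K h.ballCover

end Fermat.Agent.S14_CountI
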