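import Mathlib
import Fermat.Agent.S14_CountF
import Fermat.Agent.S14_CountI

/-!
# Ideal counting per ideal class with a power-saving error term (block COUNT, final form)

`S14_CountF.exists_cover_frontier_normLeOne` (covering of the frontier of the norm-one part of the
fundamental cone) plugged into `S14_CountI.exists_card_class_sub_le_of_ballCover`.
-/

set_option autoImplicit false

namespace Fermat.Agent.S14_CountFin

open NumberField Module
open scoped nonZeroDivisors

theorem frontierBallCover (K : Type*) [Field K] [NumberField K] :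
    Fermat.Agent.S14_CountI.FrontierBallCover K := by
  obtain ⟨C₀, R₀, -, -, h⟩ := Fermat.Agent.S14_CountF.exists_cover_frontier_normLeOne K
  exact ⟨C₀, R₀, h⟩

/-- **Ideal counting with an error term**: the numbers of nonzero integral ideals of norm `≤ x`
in two ideal classes of a number field `K` differ by `O(x ^ (1 - 1 / [K : ℚ]))`. -/
theorem exists_card_class_sub_le (K : Type*) [Field K] [NumberField K] :
    ∃ C : ℝ, ∀ (c c' : ClassGroup (𝓞 K)) (x : ℝ), 1 ≤ x →
      |(Nat.card {I : (Ideal (𝓞 K))⁰ // Ideal.absNorm (I : Ideal (𝓞 K)) ≤ x ∧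
          ClassGroup.mk0 I = c} : ℝ) -
        (Nat.card {I : (Ideal (𝓞 K))⁰ // Ideal.absNorm (I : Ideal (𝓞 K)) ≤ x ∧
          ClassGroup.mk0 I = c'} : ℝ)| ≤
          C * x ^ (1 - 1 / (finrank ℚ K : ℝ)) :=
  Fermat.Agent.S14_CountI.exists_card_class_sub_le_of_ballCover K (frontierBallCover K)

end Fermat.Agent.S14_CountFin
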