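import Fermat.Agent.S14_FI1
import Fermat.Agent.S14_WrapSplit
import Fermat.Agent.S14_Wrap

/-!
# Block FI of Project C (S14): final statement

`fi`: for a tower of number fields `F ⊆ M' ⊆ N` with `M'/F` Galois of odd prime degree `p` and
unramified, `N/F` Galois, and `M' ⊆ F(ξ) ∩ F(ξ')` for roots of unity `ξ, ξ' ∈ N` of coprime
orders `m, m'`: if the Frobenius elements of two primes `P`, `Q` of `F` (prime to `m m'`) satisfy
`Frob_P = Frob_Q ^ e`, then `[P] ≡ [Q] ^ e` modulo the norm subgroup of `M'/F`.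
-/

namespace Fermat.Agent.S14_FI

open NumberField Fermat.Agent.S14_Defs

/-- **FI** (prime form). -/
theorem fi (p : ℕ) [Fact p.Prime] (h3 : 3 ≤ p) (F M' N : Type*) [Field F] [NumberField F]
    [Field M'] [NumberField M'] [Field N] [NumberField N] [Algebra F M'] [Algebra F N]
    [Algebra M' N] [IsScalarTower F M' N] [IsGalois F M'] [IsGalois F N]
    (hdeg : Module.finrank F M' = p) (hunr : Unram F M') (m m' : ℕ) (hm : 0 < m) (hm' : 0 < m')
    (hcop : m.Coprime m') (ξ ξ' : N) (hξ : IsPrimitiveRoot ξ m) (hξ' : IsPrimitiveRoot ξ' m')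
    (h1 : ∀ σ : N ≃ₐ[F] N, σ ξ = ξ → ∀ x : M', σ (algebraMap M' N x) = algebraMap M' N x)
    (h2 : ∀ σ : N ≃ₐ[F] N, σ ξ' = ξ' → ∀ x : M', σ (algebraMap M' N x) = algebraMap M' N x)
    (P Q : Ideal (𝓞 F)) [P.IsPrime] [Q.IsPrime] (hP : P ≠ ⊥) (hQ : Q ≠ ⊥)
    (hPm : (Ideal.absNorm P).Coprime (m * m')) (hQm : (Ideal.absNorm Q).Coprime (m * m'))
    (σP σQ : M' ≃ₐ[F] M') (hσP : IsFrob σP P) (hσQ : IsFrob σQ Q) (e : ℕ) (he : σP = σQ ^ e) :
    cls P * (cls Q ^ e)⁻¹ ∈ normSubgroup F M' :=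
  S14_FI1.fi_of_wrap p F M' N h3 hdeg hunr m m' hm hm' hcop ξ ξ' hξ hξ' h1 h2
    (fun S => S14_Wrap.exists_not_isSplit F M' (by
      have := (Fact.out : p.Prime).two_le
      omega) hunr S)
    (fun H0 hH0 => S14_Wrap.ineq p F M' hdeg hunr H0 hH0)
    P Q hP hQ hPm hQm σP σQ hσP hσQ e he

end Fermat.Agent.S14_FI
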