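import Fermat.Agent.S14_Norm

/-!
# Block FI of Project C (S14), abstract core

`F` a number field, `Γ` a commutative group, `B ≤ Γ`, `art : (Ideal (𝓞 F))⁰ →* Γ` an "Artin map"
such that, for two coprime moduli `m`, `m'` and all ideals `a`, `a'` prime to `n = m * m'`,
`N a ≡ N a' (mod m)` (resp. `mod m'`) implies `art a ≡ art a' (mod B)`.  If squares detect
membership in `B` (e.g. `B` of odd index) then

* `art_span_mem`: `art (b) ∈ B` for every `b` prime to `n` (CRT + congruence of norms);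
* `art_div_mem_of_mk0_eq`: `art` is well defined modulo `B` on ideal classes;
* `exists_classHom`: the induced hom `ClassGroup (𝓞 F) →* Γ ⧸ B`;
* `mk0_div_mem_of_art_div_mem`: if moreover `art` kills (mod `B`) a subgroup `H` of the class group
  of index `≤ p = [Γ : B]` (prime) and `art` is not trivial mod `B`, then
  `art a ≡ art a' (mod B)` implies `[a] ≡ [a'] (mod H)`.
-/

namespace Fermat.Agent.S14_FICore

open NumberField Fermat.Agent.S14_Norm
open scoped nonZeroDivisors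

section ArtOf

variable {R : Type*} [CommRing R] [IsDedekindDomain R] {Γ : Type*} [CommMonoid Γ]

/-- The multiplicative extension to nonzero ideals of a function on (prime) ideals. -/
noncomputable def artOf (frob : Ideal R → Γ) : (Ideal R)⁰ →* Γ where
  toFun a := ((UniqueFactorizationMonoid.normalizedFactors (a : Ideal R)).map frob).prod
  map_one' := by
    show ((UniqueFactorizationMonoid.normalizedFactors (1 : Ideal R)).map frob).prod = 1
    rw [UniqueFactorizationMonoid.normalizedFactors_one]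
    simp
  map_mul' a b := by
    rw [Submonoid.coe_mul, UniqueFactorizationMonoid.normalizedFactors_mul
      (nonZeroDivisors.coe_ne_zero a) (nonZeroDivisors.coe_ne_zero b), Multiset.map_add,
      Multiset.prod_add]

theorem artOf_prime (frob : Ideal R → Γ) (q : Ideal R) (hq : q.IsPrime) (hq0 : q ≠ ⊥) :
    artOf frob ⟨q, mem_nonZeroDivisors_of_ne_zero hq0⟩ = frob q := by
  have h1 : Irreducible q := (Ideal.prime_of_isPrime hq0 hq).irreducible
  show ((UniqueFactorizationMonoid.normalizedFactors q).map frob).prod = frob q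
  rw [UniqueFactorizationMonoid.normalizedFactors_irreducible h1, normalize_eq]
  simp

end ArtOf

section NormCongr

variable {F : Type*} [Field F] [NumberField F]

/-- The absolute norm of an integer of `F` modulo `m` only depends on its class modulo `m`. -/
theorem intCast_norm_eq_of_sub_mem (m : ℕ) {x y : 𝓞 F}
    (h : x - y ∈ Ideal.span {(m : 𝓞 F)}) :
    ((Algebra.norm ℤ x : ℤ) : ZMod m) = ((Algebra.norm ℤ y : ℤ) : ZMod m) := by
  classical
  obtain ⟨c, hc⟩ := Ideal.mem_span_singleton'.1 h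
  have hx : x = y + c * (m : 𝓞 F) := by rw [hc]; ring
  let b := RingOfIntegers.basis F
  rw [Algebra.norm_eq_matrix_det b, Algebra.norm_eq_matrix_det b]
  have h1 : ∀ A : Matrix (Module.Free.ChooseBasisIndex ℤ (𝓞 F))
      (Module.Free.ChooseBasisIndex ℤ (𝓞 F)) ℤ, ((A.det : ℤ) : ZMod m) =
      ((Int.castRingHom (ZMod m)).mapMatrix A).det := fun A =>
    RingHom.map_det (Int.castRingHom (ZMod m)) A
  rw [h1, h1, hx, map_add, map_mul, map_natCast, map_add, map_mul, map_natCast]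
  have h2 : ((m : ℕ) : Matrix (Module.Free.ChooseBasisIndex ℤ (𝓞 F))
      (Module.Free.ChooseBasisIndex ℤ (𝓞 F)) (ZMod m)) = 0 := by
    rw [← map_natCast (algebraMap (ZMod m) (Matrix (Module.Free.ChooseBasisIndex ℤ (𝓞 F))
      (Module.Free.ChooseBasisIndex ℤ (𝓞 F)) (ZMod m))) m, ZMod.natCast_self, map_zero]
  rw [h2, mul_zero, add_zero]

/-- The square of the absolute norm of a principal ideal, modulo `m`. -/
theorem natCast_absNorm_span_sq (m : ℕ) (x : 𝓞 F) :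
    ((Ideal.absNorm (Ideal.span {x}) : ℕ) : ZMod m) ^ 2 =
      ((Algebra.norm ℤ x : ℤ) : ZMod m) ^ 2 := by
  rw [Ideal.absNorm_span_singleton, ← Int.cast_natCast (R := ZMod m), ← Int.cast_pow,
    ← Int.cast_pow, Int.natCast_natAbs, sq_abs]

/-- Chinese remainder theorem in the shape needed below. -/
theorem exists_crt {R : Type*} [CommRing R] (m m' : ℕ) (hcop : Nat.Coprime m m') (b : R) :
    ∃ b' : R, b' - b ∈ Ideal.span {(m : R)} ∧ b' - 1 ∈ Ideal.span {(m' : R)} := by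
  obtain ⟨u, v, huv⟩ := (Nat.isCoprime_iff_coprime.2 hcop : IsCoprime (m : ℤ) (m' : ℤ))
  have h1 : (u : R) * (m : R) + (v : R) * (m' : R) = 1 := by
    have := congrArg (Int.cast : ℤ → R) huv
    push_cast at this
    exact this
  refine ⟨b * ((v : R) * (m' : R)) + (u : R) * (m : R), ?_, ?_⟩
  · refine Ideal.mem_span_singleton'.2 ⟨(u : R) * (1 - b), ?_⟩
    linear_combination (-b) * h1
  · refine Ideal.mem_span_singleton'.2 ⟨(v : R) * (b - 1), ?_⟩
    linear_combination -h1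

end NormCongr

section Core

variable {F : Type*} [Field F] [NumberField F] {Γ : Type*} [CommGroup Γ]

/-- `NormDet B art n m`: on the ideals prime to `n`, the class of `art a` modulo `B` is determined
by the absolute norm of `a` modulo `m`. -/
def NormDet (B : Subgroup Γ) (art : (Ideal (𝓞 F))⁰ →* Γ) (n m : ℕ) : Prop :=
  ∀ a a' : (Ideal (𝓞 F))⁰, Ideal.span {(n : 𝓞 F)} ⊔ (a : Ideal (𝓞 F)) = ⊤ →
    Ideal.span {(n : 𝓞 F)} ⊔ (a' : Ideal (𝓞 F)) = ⊤ →
    ((Ideal.absNorm (a : Ideal (𝓞 F)) : ℕ) : ZMod m) =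
      ((Ideal.absNorm (a' : Ideal (𝓞 F)) : ℕ) : ZMod m) → art a / art a' ∈ B

variable (B : Subgroup Γ) (art : (Ideal (𝓞 F))⁰ →* Γ) (m m' : ℕ)

/-- The nonzero principal ideal generated by a nonzero element. -/
noncomputable def span0 (b : 𝓞 F) (hb : b ≠ 0) : (Ideal (𝓞 F))⁰ :=
  ⟨Ideal.span {b}, mem_nonZeroDivisors_of_ne_zero (fun h => hb (Ideal.span_singleton_eq_bot.1 h))⟩

omit [NumberField F] in
@[simp]
theorem coe_span0 (b : 𝓞 F) (hb : b ≠ 0) : ((span0 b hb : (Ideal (𝓞 F))⁰) : Ideal (𝓞 F)) =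
    Ideal.span {b} := rfl

include B art m m' in
/-- **Step (2) of FI**: the Artin symbol of a principal ideal prime to `n = m * m'` lies in `B`. -/
theorem art_span_mem (hm : m ≠ 0) (hm' : m' ≠ 0) (hcop : Nat.Coprime m m')
    (hB2 : ∀ x : Γ, x ^ 2 ∈ B → x ∈ B) (h1 : NormDet B art (m * m') m)
    (h1' : NormDet B art (m * m') m') (b : 𝓞 F) (hb : b ≠ 0)
    (hbn : Ideal.span {((m * m' : ℕ) : 𝓞 F)} ⊔ Ideal.span {b} = ⊤) :
    art (span0 b hb) ∈ B := by
  have hn0 : ((m * m' : ℕ) : 𝓞 F) ≠ 0 := Nat.cast_ne_zero.2 (mul_ne_zero hm hm')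
  have hnm : Ideal.span {((m * m' : ℕ) : 𝓞 F)} ≤ Ideal.span {(m : 𝓞 F)} := by
    rw [Ideal.span_singleton_le_span_singleton]
    exact ⟨(m' : 𝓞 F), by push_cast; ring⟩
  have hnm' : Ideal.span {((m * m' : ℕ) : 𝓞 F)} ≤ Ideal.span {(m' : 𝓞 F)} := by
    rw [Ideal.span_singleton_le_span_singleton]
    exact ⟨(m : 𝓞 F), by push_cast; ring⟩
  have hnmm : Ideal.span {((m * m' : ℕ) : 𝓞 F)} =
      Ideal.span {(m : 𝓞 F)} * Ideal.span {(m' : 𝓞 F)} := by
    rw [Ideal.span_singleton_mul_span_singleton]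
    push_cast
    rfl
  -- the auxiliary element
  obtain ⟨b₁, hb₁, hb₁'⟩ := exists_crt (R := 𝓞 F) m m' hcop b
  obtain ⟨b', hb'0, hb', hb''⟩ : ∃ b' : 𝓞 F, b' ≠ 0 ∧ b' - b ∈ Ideal.span {(m : 𝓞 F)} ∧
      b' - 1 ∈ Ideal.span {(m' : 𝓞 F)} := by
    by_cases h0 : b₁ = 0
    · refine ⟨((m * m' : ℕ) : 𝓞 F), hn0, ?_, ?_⟩
      · have : ((m * m' : ℕ) : 𝓞 F) - b = ((m * m' : ℕ) : 𝓞 F) + (b₁ - b) := by rw [h0]; ring
        rw [this]
        exact add_mem (hnm (Ideal.mem_span_singleton_self _)) hb₁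
      · have : ((m * m' : ℕ) : 𝓞 F) - 1 = ((m * m' : ℕ) : 𝓞 F) + (b₁ - 1) := by rw [h0]; ring
        rw [this]
        exact add_mem (hnm' (Ideal.mem_span_singleton_self _)) hb₁'
    · exact ⟨b₁, h0, hb₁, hb₁'⟩
  -- `b'` is prime to `n`
  have hc1 : Ideal.span {b'} ⊔ Ideal.span {(m : 𝓞 F)} = ⊤ := by
    have h2 : Ideal.span {(m : 𝓞 F)} ⊔ Ideal.span {b} = ⊤ :=
      top_le_iff.1 (hbn ▸ sup_le_sup_right hnm _)
    rw [eq_top_iff, ← h2]
    refine sup_le le_sup_right ?_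
    rw [Ideal.span_singleton_le_iff_mem]
    have : b = b' - (b' - b) := by ring
    rw [this]
    exact sub_mem (Ideal.mem_sup_left (Ideal.mem_span_singleton_self _)) (Ideal.mem_sup_right hb')
  have hc2 : Ideal.span {b'} ⊔ Ideal.span {(m' : 𝓞 F)} = ⊤ := by
    rw [Ideal.eq_top_iff_one]
    have : (1 : 𝓞 F) = b' - (b' - 1) := by ring
    rw [this]
    exact sub_mem (Ideal.mem_sup_left (Ideal.mem_span_singleton_self _)) (Ideal.mem_sup_right hb'')
  have hb'n : Ideal.span {((m * m' : ℕ) : 𝓞 F)} ⊔ Ideal.span {b'} = ⊤ := by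
    rw [sup_comm, hnmm]
    exact sup_mul_eq_top hc1 hc2
  -- the norms
  have hN1 : ((Ideal.absNorm (Ideal.span {b}) : ℕ) : ZMod m) ^ 2 =
      ((Ideal.absNorm (Ideal.span {b'}) : ℕ) : ZMod m) ^ 2 := by
    rw [natCast_absNorm_span_sq, natCast_absNorm_span_sq, intCast_norm_eq_of_sub_mem m hb']
  have hN2 : ((Ideal.absNorm (Ideal.span {b'}) : ℕ) : ZMod m') ^ 2 = 1 := by
    rw [natCast_absNorm_span_sq, intCast_norm_eq_of_sub_mem m' hb'']
    simp
  -- apply the two hypotheses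
  have hA : art (span0 b hb) / art (span0 b' hb'0) ∈ B := by
    apply hB2
    have := h1 (span0 b hb ^ 2) (span0 b' hb'0 ^ 2)
      (by rw [SubmonoidClass.coe_pow, pow_two]; exact sup_mul_eq_top hbn hbn)
      (by rw [SubmonoidClass.coe_pow, pow_two]; exact sup_mul_eq_top hb'n hb'n)
      (by
        rw [SubmonoidClass.coe_pow, SubmonoidClass.coe_pow, map_pow, map_pow, coe_span0,
          coe_span0]
        push_cast
        exact hN1)
    rwa [map_pow, map_pow, ← div_pow] at this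
  have hA' : art (span0 b' hb'0) ∈ B := by
    apply hB2
    have := h1' (span0 b' hb'0 ^ 2) 1
      (by rw [SubmonoidClass.coe_pow, pow_two]; exact sup_mul_eq_top hb'n hb'n)
      (by rw [OneMemClass.coe_one, Ideal.one_eq_top, sup_top_eq])
      (by
        rw [SubmonoidClass.coe_pow, map_pow, coe_span0, OneMemClass.coe_one, Ideal.one_eq_top,
          Ideal.absNorm_top]
        push_cast
        exact hN2)
    rwa [map_pow, map_one, div_one] at this
  have := B.mul_mem hA hA'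
  rwa [div_mul_cancel] at this

include B art m m' in
/-- **Step (3) of FI**: modulo `B`, the Artin symbol of an ideal prime to `n = m * m'` only
depends on its class. -/
theorem art_div_mem_of_mk0_eq (hm : m ≠ 0) (hm' : m' ≠ 0) (hcop : Nat.Coprime m m')
    (hB2 : ∀ x : Γ, x ^ 2 ∈ B → x ∈ B) (h1 : NormDet B art (m * m') m)
    (h1' : NormDet B art (m * m') m') {I J : (Ideal (𝓞 F))⁰}
    (h : ClassGroup.mk0 I = ClassGroup.mk0 J)
    (hI : Ideal.span {((m * m' : ℕ) : 𝓞 F)} ⊔ (I : Ideal (𝓞 F)) = ⊤)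
    (hJ : Ideal.span {((m * m' : ℕ) : 𝓞 F)} ⊔ (J : Ideal (𝓞 F)) = ⊤) :
    art I / art J ∈ B := by
  have hn0 : ((m * m' : ℕ) : 𝓞 F) ≠ 0 := Nat.cast_ne_zero.2 (mul_ne_zero hm hm')
  have hn0' : Ideal.span {((m * m' : ℕ) : 𝓞 F)} ≠ ⊥ := fun h' =>
    hn0 (Ideal.span_singleton_eq_bot.1 h')
  obtain ⟨x, y, hx, hy, hxn, hyn, hxy⟩ :=
    exists_span_mul_eq_of_mk0_eq_of_coprime _ hn0' h hI hJ
  have hx' := art_span_mem B art m m' hm hm' hcop hB2 h1 h1' x hx hxn
  have hy' := art_span_mem B art m m' hm hm' hcop hB2 h1 h1' y hy hyn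
  have h2 : span0 x hx * I = span0 y hy * J := Subtype.ext hxy
  have h3 : art (span0 x hx) * art I = art (span0 y hy) * art J := by
    rw [← map_mul, ← map_mul, h2]
  have h4 : art I / art J = art (span0 y hy) / art (span0 x hx) := by
    rw [div_eq_div_iff_mul_eq_mul, mul_comm, h3, mul_comm]
  rw [h4]
  exact B.div_mem hy' hx'

include B art m m' in
/-- The homomorphism induced by the Artin map on the class group. -/
theorem exists_classHom (hm : m ≠ 0) (hm' : m' ≠ 0) (hcop : Nat.Coprime m m')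
    (hB2 : ∀ x : Γ, x ^ 2 ∈ B → x ∈ B) (h1 : NormDet B art (m * m') m)
    (h1' : NormDet B art (m * m') m') :
    ∃ ψ : ClassGroup (𝓞 F) →* Γ ⧸ B, ∀ a : (Ideal (𝓞 F))⁰,
      Ideal.span {((m * m' : ℕ) : 𝓞 F)} ⊔ (a : Ideal (𝓞 F)) = ⊤ →
        ψ (ClassGroup.mk0 a) = QuotientGroup.mk (art a) := by
  have hn0 : ((m * m' : ℕ) : 𝓞 F) ≠ 0 := Nat.cast_ne_zero.2 (mul_ne_zero hm hm')
  have hn0' : Ideal.span {((m * m' : ℕ) : 𝓞 F)} ≠ ⊥ := fun h' =>
    hn0 (Ideal.span_singleton_eq_bot.1 h')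
  choose rep hrep hrepn using fun c : ClassGroup (𝓞 F) =>
    exists_mk0_eq_and_coprime c _ hn0'
  have key : ∀ a b : (Ideal (𝓞 F))⁰, ClassGroup.mk0 a = ClassGroup.mk0 b →
      Ideal.span {((m * m' : ℕ) : 𝓞 F)} ⊔ (a : Ideal (𝓞 F)) = ⊤ →
      Ideal.span {((m * m' : ℕ) : 𝓞 F)} ⊔ (b : Ideal (𝓞 F)) = ⊤ →
      (QuotientGroup.mk (art a) : Γ ⧸ B) = QuotientGroup.mk (art b) := by
    intro a b hab ha hb
    rw [QuotientGroup.eq, ← inv_mem_iff, mul_inv_rev, inv_inv, inv_mul_eq_div]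
    exact art_div_mem_of_mk0_eq B art m m' hm hm' hcop hB2 h1 h1' hab ha hb
  refine ⟨MonoidHom.mk' (fun c => QuotientGroup.mk (art (rep c))) ?_, ?_⟩
  · intro c d
    rw [← QuotientGroup.mk_mul, ← map_mul]
    apply key
    · rw [map_mul, hrep, hrep, hrep]
    · exact hrepn _
    · rw [Submonoid.coe_mul]
      exact sup_mul_eq_top (hrepn c) (hrepn d)
  · intro a ha
    show (QuotientGroup.mk (art (rep (ClassGroup.mk0 a))) : Γ ⧸ B) = _
    exact key _ _ (hrep _) (hrepn _) ha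

include B art m m' in
/-- **Steps (4), (5) of FI**: if the Artin map kills (modulo `B`) a subgroup `H` of the class
group whose index is at most the prime `p = [Γ : B]`, and is not trivial modulo `B`, then the
class of an ideal prime to `n` modulo `H` is determined by its Artin symbol modulo `B`. -/
theorem mk0_div_mem_of_art_div_mem (hm : m ≠ 0) (hm' : m' ≠ 0) (hcop : Nat.Coprime m m')
    (hB2 : ∀ x : Γ, x ^ 2 ∈ B → x ∈ B) (h1 : NormDet B art (m * m') m)
    (h1' : NormDet B art (m * m') m') (p : ℕ) (hp : p.Prime) (hBp : B.index = p)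
    (H : Subgroup (ClassGroup (𝓞 F)))
    (h2 : ∀ a : (Ideal (𝓞 F))⁰, Ideal.span {((m * m' : ℕ) : 𝓞 F)} ⊔ (a : Ideal (𝓞 F)) = ⊤ →
      ClassGroup.mk0 a ∈ H → art a ∈ B)
    (h3 : ∃ a : (Ideal (𝓞 F))⁰, Ideal.span {((m * m' : ℕ) : 𝓞 F)} ⊔ (a : Ideal (𝓞 F)) = ⊤ ∧
      art a ∉ B)
    (h4 : H.index ≤ p) {a a' : (Ideal (𝓞 F))⁰}
    (ha : Ideal.span {((m * m' : ℕ) : 𝓞 F)} ⊔ (a : Ideal (𝓞 F)) = ⊤)
    (ha' : Ideal.span {((m * m' : ℕ) : 𝓞 F)} ⊔ (a' : Ideal (𝓞 F)) = ⊤)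
    (h : art a / art a' ∈ B) : ClassGroup.mk0 a / ClassGroup.mk0 a' ∈ H := by
  have hn0 : ((m * m' : ℕ) : 𝓞 F) ≠ 0 := Nat.cast_ne_zero.2 (mul_ne_zero hm hm')
  have hn0' : Ideal.span {((m * m' : ℕ) : 𝓞 F)} ≠ ⊥ := fun h' =>
    hn0 (Ideal.span_singleton_eq_bot.1 h')
  obtain ⟨ψ, hψ⟩ := exists_classHom B art m m' hm hm' hcop hB2 h1 h1'
  -- `H ≤ ker ψ`
  have hle : H ≤ ψ.ker := by
    intro c hc
    obtain ⟨K, rfl, hK⟩ := exists_mk0_eq_and_coprime c _ hn0'
    rw [MonoidHom.mem_ker, hψ K hK, QuotientGroup.eq_one_iff]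
    exact h2 K hK hc
  -- `ψ` is onto
  have hcard : Nat.card (Γ ⧸ B) = p := hBp
  have : Fact (Nat.card (Γ ⧸ B)).Prime := ⟨hcard ▸ hp⟩
  have hrange : ψ.range = ⊤ := by
    rcases Subgroup.eq_bot_or_eq_top_of_prime_card ψ.range with h' | h'
    · exfalso
      obtain ⟨a₀, ha₀, ha₀'⟩ := h3
      have : ψ (ClassGroup.mk0 a₀) ∈ ψ.range := ⟨_, rfl⟩
      rw [h', Subgroup.mem_bot, hψ a₀ ha₀, QuotientGroup.eq_one_iff] at this
      exact ha₀' this
    · exact h'
  have hker : ψ.ker.index = p := by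
    rw [Subgroup.index_ker, hrange, Nat.card_congr Subgroup.topEquiv.toEquiv, hcard]
  -- index comparison
  have hH0 : H.index ≠ 0 := Subgroup.index_ne_zero_of_finite
  have hmul := Subgroup.relIndex_mul_index hle
  rw [hker] at hmul
  have hrel : H.relIndex ψ.ker = 1 := by
    have h5 : H.relIndex ψ.ker * p ≤ 1 * p := by rw [hmul, one_mul]; exact h4
    have h6 : H.relIndex ψ.ker ≤ 1 := Nat.le_of_mul_le_mul_right h5 hp.pos
    have h7 : H.relIndex ψ.ker ≠ 0 := by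
      intro h0
      rw [h0, zero_mul] at hmul
      exact hH0 hmul.symm
    omega
  have hle' : ψ.ker ≤ H := Subgroup.relIndex_eq_one.1 hrel
  apply hle'
  rw [MonoidHom.mem_ker, map_div, hψ a ha, hψ a' ha', ← QuotientGroup.mk_div,
    QuotientGroup.eq_one_iff]
  exact h

end Core

section Induction

variable {R : Type*} [CommRing R] [IsDedekindDomain R]

/-- Induction on the nonzero ideals prime to a given ideal `I₀`: multiply by one prime (prime
to `I₀`) at a time. -/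
theorem induction_on_coprime (I₀ : Ideal R) {P : (Ideal R)⁰ → Prop} (h1 : P 1)
    (hmul : ∀ (q : Ideal R) (_ : q.IsPrime) (hq0 : q ≠ ⊥) (a : (Ideal R)⁰), I₀ ⊔ q = ⊤ →
      I₀ ⊔ (a : Ideal R) = ⊤ → P a → P (⟨q, mem_nonZeroDivisors_of_ne_zero hq0⟩ * a))
    (a : (Ideal R)⁰) (ha : I₀ ⊔ (a : Ideal R) = ⊤) : P a := by
  have key : ∀ A : Ideal R, ∀ hA : A ≠ ⊥, I₀ ⊔ A = ⊤ →
      P ⟨A, mem_nonZeroDivisors_of_ne_zero hA⟩ := by
    intro A
    induction A using UniqueFactorizationMonoid.induction_on_prime with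
    | h₁ => exact fun hA => absurd rfl hA
    | h₂ A hA =>
      intro hA0 _
      have h2 : (⟨A, mem_nonZeroDivisors_of_ne_zero hA0⟩ : (Ideal R)⁰) = 1 :=
        Subtype.ext ((Ideal.isUnit_iff.1 hA).trans Ideal.one_eq_top.symm)
      rw [h2]
      exact h1
    | h₃ A₁ q hA₁ hq ih =>
      intro hA0 hcop
      have hq' : q.IsPrime := Ideal.isPrime_of_prime hq
      have hq0 : q ≠ ⊥ := hq.ne_zero
      have h2 : (⟨q * A₁, mem_nonZeroDivisors_of_ne_zero hA0⟩ : (Ideal R)⁰) =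
          ⟨q, mem_nonZeroDivisors_of_ne_zero hq0⟩ * ⟨A₁, mem_nonZeroDivisors_of_ne_zero hA₁⟩ :=
        Subtype.ext rfl
      rw [h2]
      exact hmul q hq' hq0 _ (sup_eq_top_of_mul_left hcop) (sup_eq_top_of_mul_right hcop)
        (ih hA₁ (sup_eq_top_of_mul_right hcop))
  exact key a (nonZeroDivisors.coe_ne_zero a) ha

end Induction

section Final

variable {F : Type*} [Field F] [NumberField F] {Γ : Type*} [CommGroup Γ]

/-- In a commutative group, a subgroup of odd prime index contains every element whose square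
it contains. -/
theorem mem_of_sq_mem_of_index (B : Subgroup Γ) (p : ℕ) (hp : p.Prime) (hp2 : p ≠ 2)
    (hBp : B.index = p) (x : Γ) (hx : x ^ 2 ∈ B) : x ∈ B := by
  have h1 : x ^ p ∈ B := hBp ▸ Subgroup.pow_index_mem B x
  obtain ⟨k, hk⟩ := hp.odd_of_ne_two hp2
  have h2 : x = x ^ p / (x ^ 2) ^ k := by
    rw [hk, ← pow_mul, pow_succ, mul_div_cancel_left]
  rw [h2]
  exact B.div_mem h1 (B.pow_mem hx k)

variable (B : Subgroup Γ) (art : (Ideal (𝓞 F))⁰ →* Γ) (m m' : ℕ)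

include B art m m' in
/-- **FI, abstract form**: `H` is the norm subgroup of an extension `M'/F`, and the Artin map
kills (modulo `B`) the norms of the primes of `M'` prime to `n = m * m'`. -/
theorem mk0_div_mem_normSubgroup (M' : Type*) [Field M'] [NumberField M'] [Algebra F M']
    (hm : m ≠ 0) (hm' : m' ≠ 0) (hcop : Nat.Coprime m m')
    (h1 : NormDet B art (m * m') m) (h1' : NormDet B art (m * m') m')
    (p : ℕ) (hp : p.Prime) (hp2 : p ≠ 2) (hBp : B.index = p)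
    (h2 : ∀ (Q : Ideal (𝓞 M')) (_ : Q.IsPrime) (hQ0 : Q ≠ ⊥),
      Ideal.span {((m * m' : ℕ) : 𝓞 M')} ⊔ Q = ⊤ →
        art (relNorm0 (𝓞 F) (𝓞 M') ⟨Q, mem_nonZeroDivisors_of_ne_zero hQ0⟩) ∈ B)
    (h3 : ∃ a : (Ideal (𝓞 F))⁰, Ideal.span {((m * m' : ℕ) : 𝓞 F)} ⊔ (a : Ideal (𝓞 F)) = ⊤ ∧
      art a ∉ B)
    (h4 : (S14_Norm.normSubgroup (𝓞 F) (𝓞 M')).index ≤ p) {a a' : (Ideal (𝓞 F))⁰}
    (ha : Ideal.span {((m * m' : ℕ) : 𝓞 F)} ⊔ (a : Ideal (𝓞 F)) = ⊤)
    (ha' : Ideal.span {((m * m' : ℕ) : 𝓞 F)} ⊔ (a' : Ideal (𝓞 F)) = ⊤)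
    (h : art a / art a' ∈ B) :
    ClassGroup.mk0 a / ClassGroup.mk0 a' ∈ S14_Norm.normSubgroup (𝓞 F) (𝓞 M') := by
  have hB2 : ∀ x : Γ, x ^ 2 ∈ B → x ∈ B := mem_of_sq_mem_of_index B p hp hp2 hBp
  have hn0 : ((m * m' : ℕ) : 𝓞 M') ≠ 0 := Nat.cast_ne_zero.2 (mul_ne_zero hm hm')
  have hn0' : Ideal.span {((m * m' : ℕ) : 𝓞 M')} ≠ ⊥ := fun h' =>
    hn0 (Ideal.span_singleton_eq_bot.1 h')
  -- the Artin map kills all norms prime to `n`
  have h2' : ∀ A : (Ideal (𝓞 M'))⁰,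
      Ideal.span {((m * m' : ℕ) : 𝓞 M')} ⊔ (A : Ideal (𝓞 M')) = ⊤ →
        art (relNorm0 (𝓞 F) (𝓞 M') A) ∈ B := by
    intro A hA
    refine induction_on_coprime (Ideal.span {((m * m' : ℕ) : 𝓞 M')})
      (P := fun A => art (relNorm0 (𝓞 F) (𝓞 M') A) ∈ B) ?_ ?_ A hA
    · rw [map_one, map_one]
      exact B.one_mem
    · intro Q hQ hQ0 A₁ hQn _ hA₁
      rw [map_mul, map_mul]
      exact B.mul_mem (h2 Q hQ hQ0 hQn) hA₁
  refine mk0_div_mem_of_art_div_mem B art m m' hm hm' hcop hB2 h1 h1' p hp hBp _ ?_ h3 h4 ha ha' h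
  intro a₁ ha₁ hmem
  obtain ⟨C, hC⟩ := hmem
  obtain ⟨A, rfl, hA⟩ := exists_mk0_eq_and_coprime C _ hn0'
  rw [classNorm_mk0] at hC
  have hcopN : Ideal.span {((m * m' : ℕ) : 𝓞 F)} ⊔
      ((relNorm0 (𝓞 F) (𝓞 M') A : (Ideal (𝓞 F))⁰) : Ideal (𝓞 F)) = ⊤ :=
    span_natCast_sup_relNorm_eq_top (m * m') (A : Ideal (𝓞 M')) hA
  have h5 := art_div_mem_of_mk0_eq B art m m' hm hm' hcop hB2 h1 h1' hC hcopN ha₁
  have h6 := B.div_mem (h2' A hA) h5
  rwa [div_div_cancel] at h6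

end Final

end Fermat.Agent.S14_FICore
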