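import Fermat.Agent.S14_NormNF
import Fermat.Agent.S14_FICore

/-!
# Block FI of Project C (S14): instantiation of the abstract core

Tower of number fields `F ⊆ M' ⊆ N` (types), `M'/F` Galois of odd prime degree `p`, unramified,
`N/F` Galois, and `M' ⊆ F(ξ)`, `M' ⊆ F(ξ')` for roots of unity `ξ, ξ' ∈ N` of coprime orders
`m, m'` (in the form: an automorphism of `N/F` fixing `ξ` fixes `M'`).  Then the class modulo the
norm subgroup of a prime of `F` prime to `m m'` is determined by its Frobenius element.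

The three statements consumed from other blocks (existence of Frobenius elements, existence of a
prime with non-trivial Frobenius, the norm index inequality) are hypotheses of `fi0`.
-/

set_option linter.unusedSectionVars false

namespace Fermat.Agent.S14_FI0

open NumberField Fermat.Agent.S14_Defs Fermat.Agent.S14_Norm Fermat.Agent.S14_FICore
open scoped nonZeroDivisors

section Abel

variable {G : Type*} [Group G]

theorem abelianization_of_injective (hab : ∀ σ τ : G, σ * τ = τ * σ) :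
    Function.Injective (Abelianization.of : G →* Abelianization G) := by
  rw [injective_iff_map_eq_one]
  intro x hx
  have h1 : x ∈ (Abelianization.of : G →* Abelianization G).ker := hx
  rw [Abelianization.ker_of] at h1
  have h2 : commutator G ≤ ⊥ := by
    rw [commutator_def, Subgroup.commutator_le]
    intro g₁ _ g₂ _
    rw [Subgroup.mem_bot, commutatorElement_def, hab g₁ g₂]
    group
  exact Subgroup.mem_bot.1 (h2 h1)

theorem abelianization_of_surjective :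
    Function.Surjective (Abelianization.of : G →* Abelianization G) :=
  QuotientGroup.mk_surjective

end Abel

section Residue

variable {M : Type*} [Field M] [NumberField M]

theorem natCard_quot (Q : Ideal (𝓞 M)) : Nat.card (𝓞 M ⧸ Q) = Ideal.absNorm Q := by
  rw [Ideal.absNorm_apply, Submodule.cardQuot_apply]

/-- Fermat's little theorem in the residue field of a nonzero prime. -/
theorem pow_absNorm_sub_mem (Q : Ideal (𝓞 M)) [hQ : Q.IsPrime] (hQ0 : Q ≠ ⊥) (x : 𝓞 M) :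
    x ^ Ideal.absNorm Q - x ∈ Q := by
  have hmax : Q.IsMaximal := Ring.DimensionLEOne.maximalOfPrime hQ0 hQ
  let _ := Ideal.Quotient.field Q
  have hfin : Finite (𝓞 M ⧸ Q) := Ideal.finiteQuotientOfFreeOfNeBot Q hQ0
  let _ := Fintype.ofFinite (𝓞 M ⧸ Q)
  rw [← Ideal.Quotient.eq, map_pow, ← natCard_quot, Nat.card_eq_fintype_card]
  exact FiniteField.pow_card _

/-- An ideal whose absolute norm is prime to `n` is prime to `n`. -/
theorem sup_eq_top_of_coprime_absNorm (a : Ideal (𝓞 M)) (n : ℕ)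
    (h : (Ideal.absNorm a).Coprime n) : Ideal.span {(n : 𝓞 M)} ⊔ a = ⊤ := by
  obtain ⟨u, v, huv⟩ := (Nat.isCoprime_iff_coprime.2 h : IsCoprime (Ideal.absNorm a : ℤ) (n : ℤ))
  have h1 : (u : 𝓞 M) * (Ideal.absNorm a : 𝓞 M) + (v : 𝓞 M) * (n : 𝓞 M) = 1 := by
    have := congrArg (Int.cast : ℤ → 𝓞 M) huv
    push_cast at this
    exact this
  rw [Ideal.eq_top_iff_one, ← h1]
  exact add_mem (Ideal.mem_sup_right (Ideal.mul_mem_left _ _ (Ideal.absNorm_mem a)))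
    (Ideal.mem_sup_left (Ideal.mul_mem_left _ _ (Ideal.mem_span_singleton_self _)))

/-- A nonzero prime not containing `n` is prime to `n`. -/
theorem sup_eq_top_of_not_mem (Q : Ideal (𝓞 M)) [hQ : Q.IsPrime] (hQ0 : Q ≠ ⊥) (n : ℕ)
    (h : (n : 𝓞 M) ∉ Q) : Ideal.span {(n : 𝓞 M)} ⊔ Q = ⊤ := by
  have hmax : Q.IsMaximal := Ring.DimensionLEOne.maximalOfPrime hQ0 hQ
  by_contra hne
  have h1 : Q = Ideal.span {(n : 𝓞 M)} ⊔ Q := hmax.eq_of_le hne le_sup_right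
  exact h (h1 ▸ Ideal.mem_sup_left (Ideal.mem_span_singleton_self _))

theorem not_mem_of_sup_eq_top (Q : Ideal (𝓞 M)) [hQ : Q.IsPrime] (n : ℕ)
    (h : Ideal.span {(n : 𝓞 M)} ⊔ Q = ⊤) : (n : 𝓞 M) ∉ Q := by
  intro hn
  have h1 : Ideal.span {(n : 𝓞 M)} ⊔ Q ≤ Q :=
    sup_le ((Ideal.span_singleton_le_iff_mem Q).2 hn) le_rfl
  exact hQ.ne_top (top_le_iff.1 (h ▸ h1))

end Residue

section Frob

variable {F M : Type*} [Field F] [NumberField F] [Field M] [NumberField M] [Algebra F M]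

/-- In an unramified extension, two Frobenius elements at ONE prime coincide. -/
theorem eq_of_frobAt (hunr : Unram F M) (Q : Ideal (𝓞 M)) [hQ : Q.IsPrime] (hQ0 : Q ≠ ⊥)
    (N₀ : ℕ) (σ τ : M ≃ₐ[F] M) (hσ : ∀ x : 𝓞 M, σ • x - x ^ N₀ ∈ Q)
    (hτ : ∀ x : 𝓞 M, τ • x - x ^ N₀ ∈ Q) : σ = τ := by
  have h1 : σ * τ⁻¹ = 1 := by
    refine hunr Q hQ hQ0 (σ * τ⁻¹) (fun x => ?_)
    have h2 := sub_mem (hσ (τ⁻¹ • x)) (hτ (τ⁻¹ • x))
    rw [smul_inv_smul] at h2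
    have h3 : (σ * τ⁻¹) • x - x =
        σ • τ⁻¹ • x - (τ⁻¹ • x) ^ N₀ - (x - (τ⁻¹ • x) ^ N₀) := by
      rw [mul_smul]; ring
    rw [h3]
    exact h2
  exact mul_inv_eq_one.1 h1

/-- The congruence satisfied by the powers of a Frobenius element. -/
theorem isFrob_pow_sub_mem {σ : M ≃ₐ[F] M} {q : Ideal (𝓞 F)} (hσ : IsFrob σ q)
    (Q : Ideal (𝓞 M)) [hQ : Q.IsPrime] (hQq : Q.under (𝓞 F) = q) (k : ℕ) (x : 𝓞 M) :
    (σ ^ k) • x - x ^ (Nat.card (𝓞 F ⧸ q) ^ k) ∈ Q := by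
  induction k generalizing x with
  | zero => simp
  | succ k ih =>
    have h1 := ih (σ • x)
    have h2 : (σ • x) ^ (Nat.card (𝓞 F ⧸ q) ^ k) -
        (x ^ Nat.card (𝓞 F ⧸ q)) ^ (Nat.card (𝓞 F ⧸ q) ^ k) ∈ Q :=
      Ideal.mem_of_dvd Q (sub_dvd_pow_sub_pow _ _ _) (hσ Q hQ hQq x)
    have h3 := add_mem h1 h2
    have h4 : (σ ^ (k + 1)) • x - x ^ (Nat.card (𝓞 F ⧸ q) ^ (k + 1)) =
        (σ ^ k) • σ • x - (σ • x) ^ (Nat.card (𝓞 F ⧸ q) ^ k) +
          ((σ • x) ^ (Nat.card (𝓞 F ⧸ q) ^ k) -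
            (x ^ Nat.card (𝓞 F ⧸ q)) ^ (Nat.card (𝓞 F ⧸ q) ^ k)) := by
      rw [pow_succ σ, mul_smul, ← pow_mul, pow_succ' (Nat.card (𝓞 F ⧸ q))]
      ring
    rw [h4]
    exact h3

/-- In an unramified extension, the `f`-th power of the Frobenius of `q` is trivial, `f` being
the residue degree of a prime above `q`. -/
theorem isFrob_pow_eq_one (hunr : Unram F M) {σ : M ≃ₐ[F] M} {q : Ideal (𝓞 F)}
    (hσ : IsFrob σ q) (Q : Ideal (𝓞 M)) [hQ : Q.IsPrime] (hQ0 : Q ≠ ⊥)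
    (hQq : Q.under (𝓞 F) = q) (f : ℕ) (hf : Ideal.absNorm Q = Ideal.absNorm q ^ f) :
    σ ^ f = 1 := by
  refine hunr Q hQ hQ0 (σ ^ f) (fun x => ?_)
  have h1 := isFrob_pow_sub_mem hσ Q hQq f x
  rw [natCard_quot, ← hf] at h1
  have h2 := add_mem h1 (pow_absNorm_sub_mem Q hQ0 x)
  rwa [sub_add_sub_cancel] at h2

/-- The absolute norm of a prime in terms of the prime below and the residue degree. -/
theorem absNorm_eq_pow_inertiaDeg (Q : Ideal (𝓞 M)) [hQ : Q.IsPrime] (hQ0 : Q ≠ ⊥) :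
    Ideal.absNorm Q = Ideal.absNorm (Q.under (𝓞 F)) ^ (Q.inertiaDeg (𝓞 F)) := by
  rw [← Ideal.absNorm_relNorm (𝓞 F) (𝓞 M) Q, S14_NormNF.relNorm_prime F M Q hQ0, map_pow]

/-- Primes above a nonzero prime exist. -/
theorem exists_prime_over (q : Ideal (𝓞 F)) [hq : q.IsPrime] (hq0 : q ≠ ⊥) :
    ∃ Q : Ideal (𝓞 M), Q.IsPrime ∧ Q ≠ ⊥ ∧ Q.under (𝓞 F) = q := by
  have hmax : q.IsMaximal := Ring.DimensionLEOne.maximalOfPrime hq0 hq
  obtain ⟨Q, hQ, hQq⟩ := Ideal.exists_ideal_over_maximal_of_isIntegral (S := 𝓞 M) q (by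
    simp [(RingHom.injective_iff_ker_eq_bot _).mp
      (FaithfulSMul.algebraMap_injective (𝓞 F) (𝓞 M))])
  refine ⟨Q, hQ.isPrime, ?_, hQq⟩
  rintro rfl
  apply hq0
  rw [← hQq]
  exact Ideal.comap_bot_of_injective _ (FaithfulSMul.algebraMap_injective (𝓞 F) (𝓞 M))

/-- Uniqueness of the Frobenius element in an unramified extension. -/
theorem isFrob_unique (hunr : Unram F M) {q : Ideal (𝓞 F)} [hq : q.IsPrime] (hq0 : q ≠ ⊥)
    {σ τ : M ≃ₐ[F] M} (hσ : IsFrob σ q) (hτ : IsFrob τ q) : σ = τ := by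
  obtain ⟨Q, hQ, hQ0, hQq⟩ := exists_prime_over (M := M) q hq0
  exact eq_of_frobAt hunr Q hQ0 _ σ τ (hσ Q hQ hQq) (hτ Q hQ hQq)

end Frob

section Lift

variable (F M' N : Type*) [Field F] [NumberField F] [Field M'] [NumberField M'] [Field N]
  [NumberField N] [Algebra F M'] [Algebra F N] [Algebra M' N] [IsScalarTower F M' N]
  [IsGalois F M'] [IsGalois F N]

/-- The Frobenius element of an unramified prime `q` of `F` in `M'/F` lifts to an automorphism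
of `N/F` acting on the `m`-th roots of unity (`q ∤ m`) by raising to the power `N q`. -/
theorem exists_lift_frob (hunr : Unram F M') (q : Ideal (𝓞 F)) [hq : q.IsPrime] (hq0 : q ≠ ⊥)
    (σ : M' ≃ₐ[F] M') (hσ : IsFrob σ q) (m : ℕ) (hm : (m : 𝓞 F) ∉ q) :
    ∃ φ : N ≃ₐ[F] N, (∀ x : M', φ (algebraMap M' N x) = algebraMap M' N (σ x)) ∧
      ∀ ζ : N, ζ ^ m = 1 → φ ζ = ζ ^ Ideal.absNorm q := by
  obtain ⟨𝔔, h𝔔, h𝔔0, h𝔔q⟩ := exists_prime_over (M := N) q hq0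
  have hfin : Finite (𝓞 N ⧸ 𝔔) := Ideal.finiteQuotientOfFreeOfNeBot 𝔔 h𝔔0
  obtain ⟨φ, hφ⟩ := IsArithFrobAt.exists_of_isInvariant (𝓞 F) (N ≃ₐ[F] N) 𝔔
  have hφ' : ∀ x : 𝓞 N, φ • x - x ^ Nat.card (𝓞 F ⧸ q) ∈ 𝔔 := by
    intro x
    have := hφ x
    rwa [h𝔔q] at this
  refine ⟨φ, ?_, ?_⟩
  · -- the restriction of `φ` to `M'` is the Frobenius
    let τ : M' ≃ₐ[F] M' := φ.restrictNormal M'
    have hτ : ∀ x : M', algebraMap M' N (τ x) = φ (algebraMap M' N x) :=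
      fun x => AlgEquiv.restrictNormal_commutes φ M' x
    let Q' : Ideal (𝓞 M') := 𝔔.under (𝓞 M')
    have hQ' : Q'.IsPrime := Ideal.IsPrime.under (𝓞 M') 𝔔
    have hQ'q : Q'.under (𝓞 F) = q := by
      rw [← h𝔔q]
      exact Ideal.under_under (B := 𝓞 M') 𝔔
    have hQ'0 : Q' ≠ ⊥ := by
      intro h0
      apply hq0
      rw [← hQ'q, h0]
      exact Ideal.comap_bot_of_injective _ (FaithfulSMul.algebraMap_injective (𝓞 F) (𝓞 M'))
    have hτσ : τ = σ := by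
      refine eq_of_frobAt hunr Q' hQ'0 (Nat.card (𝓞 F ⧸ q)) τ σ (fun x => ?_) (hσ Q' hQ' hQ'q)
      show algebraMap (𝓞 M') (𝓞 N) (τ • x - x ^ Nat.card (𝓞 F ⧸ q)) ∈ 𝔔
      have h1 : algebraMap (𝓞 M') (𝓞 N) (τ • x) = φ • algebraMap (𝓞 M') (𝓞 N) x :=
        Subtype.ext (hτ (x : M'))
      rw [map_sub, map_pow, h1]
      exact hφ' _
    intro x
    rw [← hτσ, hτ]
  · intro ζ hζ
    have hm0 : m ≠ 0 := by
      rintro rfl
      exact hm (by simp)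
    have hint : IsIntegral ℤ ζ := by
      refine ⟨Polynomial.X ^ m - 1, Polynomial.monic_X_pow_sub_C 1 hm0, ?_⟩
      simp [hζ]
    let ζ' : 𝓞 N := ⟨ζ, hint⟩
    have hζ' : ζ' ^ m = 1 := Subtype.ext hζ
    have hm𝔔 : (m : 𝓞 N) ∉ 𝔔 := by
      intro h
      apply hm
      rw [← h𝔔q]
      show algebraMap (𝓞 F) (𝓞 N) (m : 𝓞 F) ∈ 𝔔
      rwa [map_natCast]
    have h2 := AlgHom.IsArithFrobAt.apply_of_pow_eq_one hφ hζ' hm𝔔
    rw [h𝔔q, natCard_quot] at h2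
    exact congrArg (fun y : 𝓞 N => (y : N)) h2

end Lift

section Main

variable (p : ℕ) [hpF : Fact p.Prime] (F M' N : Type*) [Field F] [NumberField F] [Field M']
  [NumberField M'] [Field N] [NumberField N] [Algebra F M'] [Algebra F N] [Algebra M' N]
  [IsScalarTower F M' N] [IsGalois F M'] [IsGalois F N]

set_option maxHeartbeats 2000000 in
/-- **FI** modulo the three statements consumed from the other blocks (`hex`: existence of
Frobenius elements; `hns`: a prime, prime to `m m'`, with non-trivial Frobenius; `hidx`: the norm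
index inequality). -/
theorem fi0 (h3 : 3 ≤ p) (hdeg : Module.finrank F M' = p) (hunr : Unram F M')
    (m m' : ℕ) (hm : 0 < m) (hm' : 0 < m') (hcop : m.Coprime m') (ξ ξ' : N)
    (hξ : IsPrimitiveRoot ξ m) (hξ' : IsPrimitiveRoot ξ' m')
    (h1 : ∀ σ : N ≃ₐ[F] N, σ ξ = ξ → ∀ x : M', σ (algebraMap M' N x) = algebraMap M' N x)
    (h2 : ∀ σ : N ≃ₐ[F] N, σ ξ' = ξ' → ∀ x : M', σ (algebraMap M' N x) = algebraMap M' N x)
    (hex : ∀ q : Ideal (𝓞 F), q.IsPrime → q ≠ ⊥ → ∃ σ : M' ≃ₐ[F] M', IsFrob σ q)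
    (hns : ∃ q : Ideal (𝓞 F), q.IsPrime ∧ q ≠ ⊥ ∧ ((m * m' : ℕ) : 𝓞 F) ∉ q ∧
      ¬ IsFrob (1 : M' ≃ₐ[F] M') q)
    (hidx : (S14_Defs.normSubgroup F M').index ≤ p)
    (P Q : Ideal (𝓞 F)) [hPp : P.IsPrime] [hQp : Q.IsPrime] (hP : P ≠ ⊥) (hQ : Q ≠ ⊥)
    (hPm : (Ideal.absNorm P).Coprime (m * m')) (hQm : (Ideal.absNorm Q).Coprime (m * m'))
    (σP σQ : M' ≃ₐ[F] M') (hσP : IsFrob σP P) (hσQ : IsFrob σQ Q) (e : ℕ)
    (he : σP = σQ ^ e) : cls P * (cls Q ^ e)⁻¹ ∈ S14_Defs.normSubgroup F M' := by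
  classical
  have hp : p.Prime := hpF.out
  have hp2 : p ≠ 2 := by omega
  have hm0 : m ≠ 0 := hm.ne'
  have hm'0 : m' ≠ 0 := hm'.ne'
  -- the Galois group is commutative
  have hcard : Nat.card (M' ≃ₐ[F] M') = p := by rw [IsGalois.card_aut_eq_finrank, hdeg]
  have hab : ∀ σ τ : M' ≃ₐ[F] M', σ * τ = τ * σ := by
    have hcyc : IsCyclic (M' ≃ₐ[F] M') := isCyclic_of_prime_card hcard
    intro σ τ
    exact (IsCyclic.commGroup (α := M' ≃ₐ[F] M')).mul_comm σ τ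
  -- a choice of Frobenius elements
  let frob : Ideal (𝓞 F) → (M' ≃ₐ[F] M') := fun q =>
    if h : q.IsPrime ∧ q ≠ ⊥ then Classical.choose (hex q h.1 h.2) else 1
  have hfrob : ∀ q : Ideal (𝓞 F), q.IsPrime → q ≠ ⊥ → IsFrob (frob q) q := by
    intro q hq hq0
    have h : q.IsPrime ∧ q ≠ ⊥ := ⟨hq, hq0⟩
    show IsFrob (if h : q.IsPrime ∧ q ≠ ⊥ then Classical.choose (hex q h.1 h.2) else 1) q
    rw [dif_pos h]
    exact Classical.choose_spec (hex q h.1 h.2)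
  -- the abstract Artin map
  let ofA : (M' ≃ₐ[F] M') →* Abelianization (M' ≃ₐ[F] M') := Abelianization.of
  have hofA : Function.Injective ofA := abelianization_of_injective hab
  let art : (Ideal (𝓞 F))⁰ →* Abelianization (M' ≃ₐ[F] M') := artOf (fun q => ofA (frob q))
  have hart : ∀ (q : Ideal (𝓞 F)) (hq : q.IsPrime) (hq0 : q ≠ ⊥),
      art ⟨q, mem_nonZeroDivisors_of_ne_zero hq0⟩ = ofA (frob q) := fun q hq hq0 =>
    artOf_prime _ q hq hq0
  -- lifts to `N`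
  have hlift : ∀ a : (Ideal (𝓞 F))⁰,
      Ideal.span {((m * m' : ℕ) : 𝓞 F)} ⊔ (a : Ideal (𝓞 F)) = ⊤ →
      ∃ (γ : M' ≃ₐ[F] M') (φ : N ≃ₐ[F] N), ofA γ = art a ∧
        (∀ x : M', φ (algebraMap M' N x) = algebraMap M' N (γ x)) ∧
        ∀ ζ : N, ζ ^ (m * m') = 1 →
          φ ζ = ζ ^ Ideal.absNorm (a : Ideal (𝓞 F)) := by
    intro a ha
    refine induction_on_coprime (Ideal.span {((m * m' : ℕ) : 𝓞 F)})
      (P := fun a => ∃ (γ : M' ≃ₐ[F] M') (φ : N ≃ₐ[F] N), ofA γ = art a ∧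
        (∀ x : M', φ (algebraMap M' N x) = algebraMap M' N (γ x)) ∧
        ∀ ζ : N, ζ ^ (m * m') = 1 →
          φ ζ = ζ ^ Ideal.absNorm (a : Ideal (𝓞 F))) ?_ ?_ a ha
    · refine ⟨1, 1, by rw [map_one, map_one], fun x => rfl, fun ζ _ => ?_⟩
      rw [OneMemClass.coe_one, Ideal.one_eq_top, Ideal.absNorm_top, pow_one]
      rfl
    · rintro q hq hq0 a₁ hqn _ ⟨γ₁, φ₁, hγ₁, hφ₁, hζ₁⟩
      have hqn' : ((m * m' : ℕ) : 𝓞 F) ∉ q := not_mem_of_sup_eq_top q _ hqn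
      obtain ⟨φq, hφq, hζq⟩ := exists_lift_frob F M' N hunr q hq0 (frob q) (hfrob q hq hq0)
        (m * m') hqn'
      refine ⟨frob q * γ₁, φq * φ₁, ?_, ?_, ?_⟩
      · rw [map_mul, map_mul, hart q hq hq0, hγ₁]
      · intro x
        rw [AlgEquiv.mul_apply, hφ₁, hφq, AlgEquiv.mul_apply]
      · intro ζ hζ
        rw [AlgEquiv.mul_apply, hζ₁ ζ hζ, map_pow, hζq ζ hζ, Submonoid.coe_mul, map_mul,
          ← pow_mul]
  -- the Artin symbol is determined by the norm modulo `m` and modulo `m'`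
  have hdet : ∀ (k : ℕ) (ζ : N), IsPrimitiveRoot ζ k → k ∣ m * m' →
      (∀ σ : N ≃ₐ[F] N, σ ζ = ζ → ∀ x : M', σ (algebraMap M' N x) = algebraMap M' N x) →
      NormDet (⊥ : Subgroup (Abelianization (M' ≃ₐ[F] M'))) art (m * m') k := by
    intro k ζ hζ hk hfix a a' ha ha' hN
    obtain ⟨γ, φ, hγ, hφ, hφζ⟩ := hlift a ha
    obtain ⟨γ', φ', hγ', hφ', hφ'ζ⟩ := hlift a' ha'
    have hζn : ζ ^ (m * m') = 1 := by
      obtain ⟨c, hc⟩ := hk
      rw [hc, pow_mul, hζ.pow_eq_one, one_pow]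
    have hmod : Ideal.absNorm (a : Ideal (𝓞 F)) % k = Ideal.absNorm (a' : Ideal (𝓞 F)) % k :=
      (ZMod.natCast_eq_natCast_iff' _ _ _).1 hN
    have h5 : φ ζ = φ' ζ := by
      rw [hφζ ζ hζn, hφ'ζ ζ hζn, pow_eq_pow_mod _ hζ.pow_eq_one,
        pow_eq_pow_mod (Ideal.absNorm (a' : Ideal (𝓞 F))) hζ.pow_eq_one, hmod]
    have h6 : (φ.trans φ'.symm) ζ = ζ := by
      rw [AlgEquiv.trans_apply, h5, AlgEquiv.symm_apply_apply]
    have h7 : γ = γ' := by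
      ext x
      apply (algebraMap M' N).injective
      rw [← hφ, ← hφ']
      have h8 := hfix _ h6 x
      rw [AlgEquiv.trans_apply] at h8
      rw [← h8, AlgEquiv.apply_symm_apply, h8]
    rw [Subgroup.mem_bot, ← hγ, ← hγ', h7, div_self']
  have hdet1 := hdet m ξ hξ (dvd_mul_right m m') h1
  have hdet2 := hdet m' ξ' hξ' (dvd_mul_left m' m) h2
  -- index of the trivial subgroup
  have hBp : (⊥ : Subgroup (Abelianization (M' ≃ₐ[F] M'))).index = p := by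
    rw [Subgroup.index_bot, ← hcard]
    exact (Nat.card_congr (Equiv.ofBijective ofA ⟨hofA, abelianization_of_surjective⟩)).symm
  -- norms of primes of `M'` are killed
  have hkill : ∀ (Q' : Ideal (𝓞 M')) (_ : Q'.IsPrime) (hQ0 : Q' ≠ ⊥),
      Ideal.span {((m * m' : ℕ) : 𝓞 M')} ⊔ Q' = ⊤ →
        art (relNorm0 (𝓞 F) (𝓞 M') ⟨Q', mem_nonZeroDivisors_of_ne_zero hQ0⟩) ∈
          (⊥ : Subgroup (Abelianization (M' ≃ₐ[F] M'))) := by
    intro Q' hQ' hQ'0 _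
    have hq : (Q'.under (𝓞 F)).IsPrime := Ideal.IsPrime.under (𝓞 F) Q'
    have hq0 : Q'.under (𝓞 F) ≠ ⊥ := Ideal.under_ne_bot (𝓞 F) hQ'0
    have h5 : relNorm0 (𝓞 F) (𝓞 M') ⟨Q', mem_nonZeroDivisors_of_ne_zero hQ'0⟩ =
        ⟨Q'.under (𝓞 F), mem_nonZeroDivisors_of_ne_zero hq0⟩ ^ (Q'.inertiaDeg (𝓞 F)) :=
      Subtype.ext (by
        rw [coe_relNorm0, SubmonoidClass.coe_pow]
        exact S14_NormNF.relNorm_prime F M' Q' hQ'0)
    rw [h5, map_pow, hart _ hq hq0, ← map_pow,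
      isFrob_pow_eq_one hunr (hfrob _ hq hq0) Q' hQ'0 rfl _
        (absNorm_eq_pow_inertiaDeg (F := F) Q' hQ'0), map_one]
    exact Subgroup.one_mem _
  -- a prime with non-trivial Frobenius
  have hnontriv : ∃ a : (Ideal (𝓞 F))⁰,
      Ideal.span {((m * m' : ℕ) : 𝓞 F)} ⊔ (a : Ideal (𝓞 F)) = ⊤ ∧
        art a ∉ (⊥ : Subgroup (Abelianization (M' ≃ₐ[F] M'))) := by
    obtain ⟨q, hq, hq0, hqn, hq1⟩ := hns
    refine ⟨⟨q, mem_nonZeroDivisors_of_ne_zero hq0⟩, sup_eq_top_of_not_mem q hq0 _ hqn, ?_⟩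
    rw [Subgroup.mem_bot, hart q hq hq0]
    intro h5
    have h6 : frob q = 1 := hofA (h5.trans (map_one ofA).symm)
    exact hq1 (h6 ▸ hfrob q hq hq0)
  have hidx' : (S14_Norm.normSubgroup (𝓞 F) (𝓞 M')).index ≤ p := by
    rw [← S14_NormNF.normSubgroup_eq]
    exact hidx
  -- the two ideals
  have hPn : Ideal.span {((m * m' : ℕ) : 𝓞 F)} ⊔ P = ⊤ := sup_eq_top_of_coprime_absNorm P _ hPm
  have hQn : Ideal.span {((m * m' : ℕ) : 𝓞 F)} ⊔ Q = ⊤ := sup_eq_top_of_coprime_absNorm Q _ hQm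
  have hQen : Ideal.span {((m * m' : ℕ) : 𝓞 F)} ⊔
      (((⟨Q, mem_nonZeroDivisors_of_ne_zero hQ⟩ : (Ideal (𝓞 F))⁰) ^ e : (Ideal (𝓞 F))⁰) :
        Ideal (𝓞 F)) = ⊤ := by
    rw [SubmonoidClass.coe_pow]
    exact Ideal.sup_pow_eq_top hQn
  have hfP : frob P = σP := isFrob_unique hunr hP (hfrob P hPp hP) hσP
  have hfQ : frob Q = σQ := isFrob_unique hunr hQ (hfrob Q hQp hQ) hσQ
  have hdiv : art ⟨P, mem_nonZeroDivisors_of_ne_zero hP⟩ /
      art ((⟨Q, mem_nonZeroDivisors_of_ne_zero hQ⟩ : (Ideal (𝓞 F))⁰) ^ e) ∈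
        (⊥ : Subgroup (Abelianization (M' ≃ₐ[F] M'))) := by
    rw [Subgroup.mem_bot, map_pow, hart P hPp hP, hart Q hQp hQ, hfP, hfQ, ← map_pow, ← he,
      div_self']
  have hfinal := mk0_div_mem_normSubgroup (⊥ : Subgroup (Abelianization (M' ≃ₐ[F] M'))) art m m'
    M' hm0 hm'0 hcop hdet1 hdet2 p hp hp2 hBp hkill hnontriv hidx' hPn hQen hdiv
  rw [S14_NormNF.normSubgroup_eq, cls_of_ne hP, cls_of_ne hQ, ← map_pow, ← div_eq_mul_inv]
  exact hfinal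

end Main

end Fermat.Agent.S14_FI0
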