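import Fermat.Agent.S14_Defs
import Fermat.Agent.S14_NormNF

/-!
# S14_StarOf (helper2): assembly of theorem (STAR) of Project C from the block theorems

`star_of`: the theorem (STAR) from the block theorems (passed as hypotheses, specialised to
`K = ℚ(ζ) ⊆ L`).
-/

set_option autoImplicit false
set_option linter.unusedSectionVars false
set_option linter.style.haveILetI false

open NumberField Fermat.Agent.S14_Defs
open scoped Pointwise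

noncomputable section

namespace Fermat.Agent.S14_StarOf

/-! ### general lemmas -/

section cyclo

variable (p : ℕ) [Fact p.Prime] (K : Type*) [Field K] [NumberField K]
  [IsCyclotomicExtension {p} ℚ K]

/-- a prime of `ℤ[ζ_p]` containing `p` is the ideal `(ζ - 1)` -/
theorem eq_span_of_natCast_mem {ζ : K} (hζ : IsPrimitiveRoot ζ p) (q : Ideal (𝓞 K)) [q.IsPrime]
    (hpq : (p : 𝓞 K) ∈ q) : q = Ideal.span {hζ.toInteger - 1} := by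
  have hmax : (Ideal.span {(p : ℤ)}).IsMaximal :=
    PrincipalIdealRing.isMaximal_of_irreducible
      (Int.prime_iff_natAbs_prime.mpr (by simpa using (Fact.out : p.Prime))).irreducible
  haveI : q.LiesOver (Ideal.span {(p : ℤ)}) := by
    constructor
    apply hmax.eq_of_le (Ideal.IsPrime.under ℤ q).ne_top
    rw [Ideal.span_singleton_le_iff_mem, Ideal.under, Ideal.mem_comap]
    simpa using hpq
  exact IsCyclotomicExtension.Rat.eq_span_zeta_sub_one_of_liesOver' p K hζ q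

/-- a prime of `ℤ[ζ_p]` containing `p` is principal -/
theorem isPrincipal_of_natCast_mem (q : Ideal (𝓞 K)) [q.IsPrime] (hpq : (p : 𝓞 K) ∈ q) :
    q.IsPrincipal := by
  rw [eq_span_of_natCast_mem p K (IsCyclotomicExtension.zeta_spec p ℚ K) q hpq]
  exact ⟨⟨_, rfl⟩⟩

/-- for `b` prime to `p` there is an automorphism `s` of `ℚ(ζ)` with `s(ζ)^b = ζ` -/
theorem exists_aut_pow {ζ : K} (hζ : IsPrimitiveRoot ζ p) (b : ℕ) (hb : ¬ p ∣ b) :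
    ∃ s : K ≃ₐ[ℚ] K, (s ζ) ^ b = ζ := by
  haveI : NeZero p := ⟨(Fact.out : p.Prime).ne_zero⟩
  have hcop : Nat.Coprime b p := ((Nat.Prime.coprime_iff_not_dvd Fact.out).mpr hb).symm
  let u : (ZMod p)ˣ := (ZMod.unitOfCoprime b hcop)⁻¹
  let s : K ≃ₐ[ℚ] K := (IsCyclotomicExtension.Rat.galEquivZMod p K).symm u
  refine ⟨s, ?_⟩
  have h1 := IsCyclotomicExtension.Rat.galEquivZMod_apply_of_pow_eq p K s hζ.pow_eq_one
  have h2 : IsCyclotomicExtension.Rat.galEquivZMod p K s = u := MulEquiv.apply_symm_apply _ _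
  rw [h2] at h1
  rw [h1, ← pow_mul]
  have h3 : ((u.val.val * b : ℕ) : ZMod p) = ((1 : ℕ) : ZMod p) := by
    push_cast
    rw [ZMod.natCast_zmod_val]
    have : (u : ZMod p) * (ZMod.unitOfCoprime b hcop : (ZMod p)ˣ) = 1 := by
      rw [← Units.val_mul]
      simp [u]
    rw [ZMod.coe_unitOfCoprime] at this
    exact this
  have h4 := (ZMod.natCast_eq_natCast_iff' _ _ _).mp h3
  rw [pow_eq_pow_mod _ hζ.pow_eq_one, h4, ← pow_eq_pow_mod _ hζ.pow_eq_one, pow_one]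

end cyclo

theorem sum_Icc_mul_two (n : ℕ) : (∑ b ∈ Finset.Icc 1 n, b) * 2 = n * (n + 1) := by
  induction n with
  | zero => simp
  | succ n ih =>
    rw [Finset.sum_Icc_succ_top (by omega), add_mul, ih]
    ring

theorem not_dvd_sum_Icc (p : ℕ) [Fact p.Prime] (h3 : 3 ≤ p) :
    ¬ p ∣ ∑ b ∈ Finset.Icc 1 ((p - 1) / 2), b := by
  intro h
  have h1 : p ∣ ((p - 1) / 2) * ((p - 1) / 2 + 1) := by
    rw [← sum_Icc_mul_two]
    exact Dvd.dvd.mul_right h 2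
  rcases (Nat.Prime.dvd_mul Fact.out).mp h1 with h2 | h2
  · have := Nat.le_of_dvd (by omega) h2
    omega
  · have := Nat.le_of_dvd (by omega) h2
    omega

section general

variable {F : Type*} [Field F] [NumberField F]

theorem cls_top : cls (⊤ : Ideal (𝓞 F)) = 1 := by
  have := cls_pow (F := F) (a := ⊤) (by simp) 0
  rw [pow_zero, pow_zero, Ideal.one_eq_top] at this
  exact this

theorem cls_prod {ι : Type*} (s : Finset ι) (f : ι → Ideal (𝓞 F)) (hf : ∀ i ∈ s, f i ≠ ⊥) :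
    cls (∏ i ∈ s, f i) = ∏ i ∈ s, cls (f i) := by
  classical
  induction s using Finset.induction_on with
  | empty => simp [Ideal.one_eq_top, cls_top]
  | insert a s ha ih =>
    rw [Finset.prod_insert ha, Finset.prod_insert ha,
      cls_mul (hf a (Finset.mem_insert_self a s))
        (Finset.prod_ne_zero_iff.mpr fun i hi => hf i (Finset.mem_insert_of_mem hi)),
      ih fun i hi => hf i (Finset.mem_insert_of_mem hi)]

/-- the classes of the nonzero primes generate the class group -/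
theorem eq_top_of_forall_prime (H : Subgroup (ClassGroup (𝓞 F)))
    (h : ∀ q : Ideal (𝓞 F), q.IsPrime → q ≠ ⊥ → cls q ∈ H) : H = ⊤ := by
  rw [eq_top_iff]
  rintro c -
  obtain ⟨a, ha, rfl⟩ := cls_surjective c
  revert ha
  induction a using UniqueFactorizationMonoid.induction_on_prime with
  | h₁ => intro h0; exact absurd rfl h0
  | h₂ x hx =>
    intro _
    rw [Ideal.isUnit_iff] at hx
    rw [hx, cls_top]
    exact H.one_mem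
  | h₃ a q ha hq ih =>
    intro hne
    have hq0 : q ≠ ⊥ := hq.ne_zero
    rw [cls_mul hq0 ha]
    exact H.mul_mem (h q ((Ideal.prime_iff_isPrime hq0).mp hq) hq0) (ih ha)

end general

/-! ### the setting of (STAR) -/

variable (p : ℕ) [Fact p.Prime] (L : Type) [Field L] [NumberField L] [IsGalois ℚ L] (ζ : L)

/-- `K = ℚ(ζ)` as an intermediate field of `L/ℚ`. -/
abbrev Kf : IntermediateField ℚ L := IntermediateField.adjoin ℚ {ζ}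

/-- `ζ` as an element of `K`. -/
def zK : ↥(Kf L ζ) := ⟨ζ, IntermediateField.mem_adjoin_simple_self ℚ ζ⟩

variable {p L ζ}

theorem neZero_p : NeZero p := ⟨(Fact.out : p.Prime).ne_zero⟩

theorem isPrimitiveRoot_zK (hζ : IsPrimitiveRoot ζ p) : IsPrimitiveRoot (zK L ζ) p :=
  IsPrimitiveRoot.coe_submonoidClass_iff.mp hζ

theorem isCyclo (hζ : IsPrimitiveRoot ζ p) : IsCyclotomicExtension {p} ℚ ↥(Kf L ζ) := by
  haveI : NeZero p := neZero_p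
  have h := hζ.intermediateField_adjoin_isCyclotomicExtension ℚ
  convert h
  · rfl
  · exact Subsingleton.elim _ _

theorem finrank_K (hζ : IsPrimitiveRoot ζ p) : Module.finrank ℚ ↥(Kf L ζ) = p - 1 := by
  haveI : NeZero p := neZero_p
  haveI := isCyclo hζ
  rw [IsCyclotomicExtension.Rat.finrank p ↥(Kf L ζ), Nat.totient_prime Fact.out]

theorem finrank_L (hζ : IsPrimitiveRoot ζ p) (hdeg : Module.finrank ℚ L = (p - 1) * p) :
    Module.finrank ↥(Kf L ζ) L = p := by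
  have h := Module.finrank_mul_finrank ℚ ↥(Kf L ζ) L
  rw [finrank_K hζ, hdeg] at h
  have hp : 0 < p - 1 := by
    have := (Fact.out : p.Prime).two_le
    omega
  exact Nat.eq_of_mul_eq_mul_left hp h

theorem card_gal (hζ : IsPrimitiveRoot ζ p) (hdeg : Module.finrank ℚ L = (p - 1) * p) :
    Nat.card (L ≃ₐ[↥(Kf L ζ)] L) = p := by
  rw [IsGalois.card_aut_eq_finrank, finrank_L hζ hdeg]

/-- an automorphism of `L/ℚ` fixing `ζ` fixes `K` pointwise -/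
theorem fixes_K {g : L ≃ₐ[ℚ] L} (hg : g ζ = ζ) (x : L) (hx : x ∈ Kf L ζ) : g x = x := by
  have h : Kf L ζ ≤ IntermediateField.fixedField (Subgroup.zpowers g) := by
    rw [IntermediateField.adjoin_le_iff, Set.singleton_subset_iff]
    rintro ⟨τ, n, rfl⟩
    show (g ^ n) ζ = ζ
    induction n using Int.induction_on with
    | zero => simp
    | succ n ih =>
      rw [zpow_add, zpow_one, AlgEquiv.mul_apply, hg, ih]
    | pred n ih =>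
      rw [zpow_sub, zpow_one, AlgEquiv.mul_apply]
      have h1 : g⁻¹ ζ = ζ := by
        have := congrArg (g⁻¹ : L ≃ₐ[ℚ] L) hg
        rw [← AlgEquiv.mul_apply, inv_mul_cancel, AlgEquiv.one_apply] at this
        exact this.symm
      rw [h1, ih]
  exact h hx ⟨g, Subgroup.mem_zpowers g⟩

/-- the element of `Gal(L/K)` attached to an automorphism of `L/ℚ` fixing `ζ` -/
def toGalK (g : L ≃ₐ[ℚ] L) (hg : g ζ = ζ) : L ≃ₐ[↥(Kf L ζ)] L :=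
  { g.toRingEquiv with
    commutes' := fun x => fixes_K hg (x : L) x.2 }

@[simp] theorem toGalK_apply (g : L ≃ₐ[ℚ] L) (hg : g ζ = ζ) (x : L) : toGalK g hg x = g x := rfl

theorem restrictScalars_apply_zeta (σ : L ≃ₐ[↥(Kf L ζ)] L) :
    (σ.restrictScalars ℚ) ζ = ζ :=
  σ.commutes (zK L ζ)

/-- `L/K` is unramified (from the hypothesis of (STAR)). -/
theorem unram_of
    (hunr : ∀ Q' : Ideal (𝓞 L), Q'.IsPrime → Q' ≠ ⊥ → ∀ σ : L ≃ₐ[ℚ] L, σ ζ = ζ →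
      (∀ x y : 𝓞 L, (y : L) = σ x - x → y ∈ Q') → σ = 1) :
    Unram ↥(Kf L ζ) L := by
  intro Q hQ hQ0 σ hσ
  have h1 := hunr Q hQ hQ0 (σ.restrictScalars ℚ) (restrictScalars_apply_zeta σ) (by
    intro x y hxy
    have : y = σ • x - x := by
      apply RingOfIntegers.ext
      rw [hxy]
      rfl
    rw [this]
    exact hσ x)
  ext x
  have := congrArg (fun g : L ≃ₐ[ℚ] L => g x) h1
  simpa using this

/-- in a group of prime order every element is a power of a given nontrivial element -/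
theorem exists_pow_eq_of_card {G : Type*} [Group G] (hG : Nat.card G = p) {σ₀ : G} (hne : σ₀ ≠ 1)
    (σ : G) : ∃ d : ℕ, σ = σ₀ ^ d := by
  obtain ⟨d, hd⟩ := mem_powers_of_prime_card hG hne (g' := σ)
  exact ⟨d, hd.symm⟩

/-- in a group of prime order `p`, `σ ^ m = σ` with `σ ≠ 1` forces `m ≡ 1 (mod p)` -/
theorem modEq_one_of_pow_eq {G : Type*} [Group G] (hG : Nat.card G = p) {σ : G} (hne : σ ≠ 1)
    {m : ℕ} (hm : σ ^ m = σ) : m % p = 1 % p := by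
  have hord : orderOf σ = p := by
    have h1 : orderOf σ ∣ p := hG ▸ orderOf_dvd_natCard σ
    rcases (Nat.dvd_prime Fact.out).mp h1 with h | h
    · exact absurd (orderOf_eq_one_iff.mp h) hne
    · exact h
  have h2 : σ ^ m = σ ^ 1 := by rw [hm, pow_one]
  have h3 := (pow_eq_pow_iff_modEq).mp h2
  rw [hord] at h3
  exact h3

/-- an automorphism of `K` fixing `ζ` is the identity -/
theorem eq_one_of_apply_zK (hζ : IsPrimitiveRoot ζ p) (sK : ↥(Kf L ζ) ≃ₐ[ℚ] ↥(Kf L ζ))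
    (h : sK (zK L ζ) = zK L ζ) : sK = 1 := by
  haveI : NeZero p := neZero_p
  haveI := isCyclo hζ
  have h1 : (sK : ↥(Kf L ζ) →ₐ[ℚ] ↥(Kf L ζ)) = ((1 : ↥(Kf L ζ) ≃ₐ[ℚ] ↥(Kf L ζ)) :
      ↥(Kf L ζ) →ₐ[ℚ] ↥(Kf L ζ)) := by
    apply ((isPrimitiveRoot_zK hζ).powerBasis ℚ).algHom_ext
    rw [IsPrimitiveRoot.powerBasis_gen]
    exact h
  ext x
  have := congrArg (fun f : ↥(Kf L ζ) →ₐ[ℚ] ↥(Kf L ζ) => (f x : L)) h1
  simpa using this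

/-- every automorphism of `K/ℚ` lifts to `L` -/
theorem exists_lift (sK : ↥(Kf L ζ) ≃ₐ[ℚ] ↥(Kf L ζ)) :
    ∃ s : L ≃ₐ[ℚ] L, ∀ x : ↥(Kf L ζ), s (x : L) = ((sK x : ↥(Kf L ζ)) : L) :=
  ⟨sK.liftNormal L, fun x => sK.liftNormal_commutes L x⟩

/-- membership in `sK • q` in the form used by `IsFrob.conj` -/
theorem mem_smul_iff (sK : ↥(Kf L ζ) ≃ₐ[ℚ] ↥(Kf L ζ)) (s : L ≃ₐ[ℚ] L)
    (hs : ∀ x : ↥(Kf L ζ), s (x : L) = ((sK x : ↥(Kf L ζ)) : L))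
    (q : Ideal (𝓞 ↥(Kf L ζ))) (y : 𝓞 ↥(Kf L ζ)) :
    y ∈ sK • q ↔ ∃ x ∈ q, algebraMap ↥(Kf L ζ) L (y : ↥(Kf L ζ)) =
      s (algebraMap ↥(Kf L ζ) L (x : ↥(Kf L ζ))) := by
  constructor
  · intro hy
    rw [Ideal.mem_pointwise_smul_iff_inv_smul_mem] at hy
    refine ⟨_, hy, ?_⟩
    show ((y : ↥(Kf L ζ)) : L) = s (((sK⁻¹ • y : 𝓞 ↥(Kf L ζ)) : ↥(Kf L ζ)) : L)
    rw [hs]
    have : sK ((sK⁻¹ • y : 𝓞 ↥(Kf L ζ)) : ↥(Kf L ζ)) = (y : ↥(Kf L ζ)) := by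
      show sK (sK⁻¹ (y : ↥(Kf L ζ))) = (y : ↥(Kf L ζ))
      rw [← AlgEquiv.mul_apply, mul_inv_cancel, AlgEquiv.one_apply]
    rw [this]
  · rintro ⟨x, hx, hxy⟩
    have h1 : y = sK • x := by
      apply RingOfIntegers.ext
      apply Subtype.ext
      show ((y : ↥(Kf L ζ)) : L) = ((sK (x : ↥(Kf L ζ)) : ↥(Kf L ζ)) : L)
      rw [← hs]
      exact hxy
    rw [h1]
    exact Ideal.smul_mem_pointwise_smul _ _ _ hx

/-- the conjugation relation of (STAR) in pointwise form: `σ ^ m = s σ s⁻¹` -/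
theorem pow_apply_eq_conj
    (hconj : ∀ (σ g : L ≃ₐ[ℚ] L) (m : ℕ), g ζ = ζ → (σ ζ) ^ m = ζ → σ * g * σ⁻¹ = g ^ m)
    (s : L ≃ₐ[ℚ] L) (m : ℕ) (hm : (s ζ) ^ m = ζ) (σ : L ≃ₐ[↥(Kf L ζ)] L) (x : L) :
    (σ ^ m) x = s (σ (s.symm x)) := by
  have h1 := hconj s (σ.restrictScalars ℚ) m (restrictScalars_apply_zeta σ) hm
  have h2 : ∀ (k : ℕ) (y : L), (σ ^ k) y = ((σ.restrictScalars ℚ) ^ k) y := by
    intro k
    induction k with
    | zero => intro y; simp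
    | succ k ih =>
      intro y
      rw [pow_succ, pow_succ, AlgEquiv.mul_apply, AlgEquiv.mul_apply, ih]
      rfl
  rw [h2, ← h1]
  rfl

variable (p L ζ) in
/-- The block theorems of Project C, specialised to `K = ℚ(ζ) ⊆ L`. -/
structure Blocks : Prop where
  herb : p * Nat.card (normSubgroup ↥(Kf L ζ) L) ≤ Nat.card (ClassGroup (𝓞 ↥(Kf L ζ)))
  cross : ∀ (q₀ q : Ideal (𝓞 ↥(Kf L ζ))), q₀.IsPrime → q.IsPrime → q₀ ≠ ⊥ → q ≠ ⊥ →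
    (p : 𝓞 ↥(Kf L ζ)) ∉ q₀ → (p : 𝓞 ↥(Kf L ζ)) ∉ q →
    ∀ (σ₀ σ : L ≃ₐ[↥(Kf L ζ)] L), IsFrob σ₀ q₀ → IsFrob σ q → σ₀ ≠ 1 →
    ∀ d : ℕ, σ = σ₀ ^ d → cls q * (cls q₀ ^ d)⁻¹ ∈ normSubgroup ↥(Kf L ζ) L
  jac : ∀ (q : Ideal (𝓞 ↥(Kf L ζ))), q.IsPrime → q ≠ ⊥ → (p : 𝓞 ↥(Kf L ζ)) ∉ q →
    (∀ s : ↥(Kf L ζ) ≃ₐ[ℚ] ↥(Kf L ζ), s • q = q → s = 1) →
    ∀ (s : ℕ → (↥(Kf L ζ) ≃ₐ[ℚ] ↥(Kf L ζ))),
      (∀ b ∈ Finset.Icc 1 ((p - 1) / 2), (s b (zK L ζ)) ^ b = zK L ζ) →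
      (∏ b ∈ Finset.Icc 1 ((p - 1) / 2), (s b • q)).IsPrincipal
  frob_exists : ∀ q : Ideal (𝓞 ↥(Kf L ζ)), q.IsPrime → q ≠ ⊥ →
    ∃ σ : L ≃ₐ[↥(Kf L ζ)] L, IsFrob σ q
  frob_unique : ∀ q : Ideal (𝓞 ↥(Kf L ζ)), q.IsPrime → q ≠ ⊥ →
    ∀ σ τ : L ≃ₐ[↥(Kf L ζ)] L, IsFrob σ q → IsFrob τ q → σ = τ
  frob_one : ∀ q : Ideal (𝓞 ↥(Kf L ζ)), q.IsPrime → q ≠ ⊥ →
    (IsFrob (1 : L ≃ₐ[↥(Kf L ζ)] L) q ↔ IsSplit L q)
  frob_conj : ∀ (s : L ≃ₐ[ℚ] L) (σ τ : L ≃ₐ[↥(Kf L ζ)] L), (∀ x : L, τ x = s (σ (s.symm x))) →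
    ∀ q q' : Ideal (𝓞 ↥(Kf L ζ)),
      (∀ y : 𝓞 ↥(Kf L ζ), y ∈ q' ↔ ∃ x ∈ q, algebraMap ↥(Kf L ζ) L (y : ↥(Kf L ζ)) =
        s (algebraMap ↥(Kf L ζ) L (x : ↥(Kf L ζ)))) → IsFrob σ q → IsFrob τ q'
  z3 : ∀ S : Finset (Ideal (𝓞 ↥(Kf L ζ))),
    ∃ q : Ideal (𝓞 ↥(Kf L ζ)), q.IsPrime ∧ q ≠ ⊥ ∧ q ∉ S ∧ ¬ IsSplit L q

/-- the Frobenius of `sK(q)` is the `m`-th power of the Frobenius of `q` when `sK(ζ)^m = ζ` -/
theorem isFrob_pow_smul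
    (hconj : ∀ (σ g : L ≃ₐ[ℚ] L) (m : ℕ), g ζ = ζ → (σ ζ) ^ m = ζ → σ * g * σ⁻¹ = g ^ m)
    (B : Blocks p L ζ)
    (sK : ↥(Kf L ζ) ≃ₐ[ℚ] ↥(Kf L ζ)) (m : ℕ) (hm : (sK (zK L ζ)) ^ m = zK L ζ)
    (q : Ideal (𝓞 ↥(Kf L ζ))) (σ : L ≃ₐ[↥(Kf L ζ)] L) (hσ : IsFrob σ q) :
    IsFrob (σ ^ m) (sK • q) := by
  obtain ⟨s, hs⟩ := exists_lift sK
  have hm' : (s ζ) ^ m = ζ := by
    have h1 : s ζ = ((sK (zK L ζ) : ↥(Kf L ζ)) : L) := hs (zK L ζ)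
    have h2 := congrArg (fun x : ↥(Kf L ζ) => (x : L)) hm
    simp only [SubmonoidClass.coe_pow] at h2
    rw [h1, h2]
    rfl
  exact B.frob_conj s σ (σ ^ m) (pow_apply_eq_conj hconj s m hm' σ) q (sK • q)
    (mem_smul_iff sK s hs q) hσ

/-- (D) a prime with nontrivial stabiliser in `Gal(K/ℚ)` has trivial Frobenius in `L/K` -/
theorem frob_eq_one_of_stab (hζ : IsPrimitiveRoot ζ p)
    (hdeg : Module.finrank ℚ L = (p - 1) * p)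
    (hconj : ∀ (σ g : L ≃ₐ[ℚ] L) (m : ℕ), g ζ = ζ → (σ ζ) ^ m = ζ → σ * g * σ⁻¹ = g ^ m)
    (B : Blocks p L ζ)
    (q : Ideal (𝓞 ↥(Kf L ζ))) (hqp : q.IsPrime) (hq0 : q ≠ ⊥)
    (sK : ↥(Kf L ζ) ≃ₐ[ℚ] ↥(Kf L ζ)) (hsq : sK • q = q) (hsK : sK ≠ 1)
    (σ : L ≃ₐ[↥(Kf L ζ)] L) (hσ : IsFrob σ q) : σ = 1 := by
  by_contra hne
  have hprim : IsPrimitiveRoot (sK (zK L ζ)) p :=
    (isPrimitiveRoot_zK hζ).map_of_injective sK.injective
  obtain ⟨m, -, hm⟩ := hprim.eq_pow_of_pow_eq_one (isPrimitiveRoot_zK hζ).pow_eq_one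
  have h1 : IsFrob (σ ^ m) (sK • q) := isFrob_pow_smul hconj B sK m hm q σ hσ
  rw [hsq] at h1
  have h2 : σ ^ m = σ := B.frob_unique q hqp hq0 _ _ h1 hσ
  have h3 := modEq_one_of_pow_eq (card_gal hζ hdeg) hne h2
  have h4 : sK (zK L ζ) = zK L ζ :=
    calc sK (zK L ζ) = sK (zK L ζ) ^ 1 := (pow_one _).symm
      _ = sK (zK L ζ) ^ (1 % p) := pow_eq_pow_mod _ hprim.pow_eq_one
      _ = sK (zK L ζ) ^ (m % p) := by rw [h3]
      _ = sK (zK L ζ) ^ m := (pow_eq_pow_mod _ hprim.pow_eq_one).symm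
      _ = zK L ζ := hm
  exact hsK (eq_one_of_apply_zK hζ sK h4)

/-- `c ^ p ∈ normSubgroup K L` -/
theorem pow_p_mem (hζ : IsPrimitiveRoot ζ p) (hdeg : Module.finrank ℚ L = (p - 1) * p)
    (c : ClassGroup (𝓞 ↥(Kf L ζ))) : c ^ p ∈ normSubgroup ↥(Kf L ζ) L := by
  have := S14_NormNF.pow_finrank_mem_normSubgroup ↥(Kf L ζ) L c
  rwa [finrank_L hζ hdeg] at this

theorem smul_ne_bot (sK : ↥(Kf L ζ) ≃ₐ[ℚ] ↥(Kf L ζ)) {q : Ideal (𝓞 ↥(Kf L ζ))} (hq : q ≠ ⊥) :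
    sK • q ≠ ⊥ := by
  intro h
  apply hq
  have := congrArg (fun I : Ideal (𝓞 ↥(Kf L ζ)) => sK⁻¹ • I) h
  simpa using this

theorem natCast_not_mem_smul (sK : ↥(Kf L ζ) ≃ₐ[ℚ] ↥(Kf L ζ)) {q : Ideal (𝓞 ↥(Kf L ζ))}
    (n : ℕ) (hq : (n : 𝓞 ↥(Kf L ζ)) ∉ q) : (n : 𝓞 ↥(Kf L ζ)) ∉ sK • q := by
  intro h
  apply hq
  rw [Ideal.mem_pointwise_smul_iff_inv_smul_mem] at h
  have h1 : sK⁻¹ • (n : 𝓞 ↥(Kf L ζ)) = (n : 𝓞 ↥(Kf L ζ)) := by
    apply RingOfIntegers.ext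
    show sK⁻¹ ((n : 𝓞 ↥(Kf L ζ)) : ↥(Kf L ζ)) = ((n : 𝓞 ↥(Kf L ζ)) : ↥(Kf L ζ))
    simp
  rwa [h1] at h

/-- (J) a prime with trivial stabiliser: its class lies in the norm subgroup -/
theorem cls_mem_of_trivial_stab (h3 : 3 ≤ p) (hζ : IsPrimitiveRoot ζ p)
    (hdeg : Module.finrank ℚ L = (p - 1) * p)
    (hconj : ∀ (σ g : L ≃ₐ[ℚ] L) (m : ℕ), g ζ = ζ → (σ ζ) ^ m = ζ → σ * g * σ⁻¹ = g ^ m)
    (B : Blocks p L ζ)
    (q₀ : Ideal (𝓞 ↥(Kf L ζ))) (hq₀p : q₀.IsPrime) (hq₀0 : q₀ ≠ ⊥)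
    (hp₀ : (p : 𝓞 ↥(Kf L ζ)) ∉ q₀) (σ₀ : L ≃ₐ[↥(Kf L ζ)] L) (hσ₀ : IsFrob σ₀ q₀) (hσ₀ne : σ₀ ≠ 1)
    (q : Ideal (𝓞 ↥(Kf L ζ))) (hqp : q.IsPrime) (hq0 : q ≠ ⊥)
    (hpq : (p : 𝓞 ↥(Kf L ζ)) ∉ q)
    (hstab : ∀ s : ↥(Kf L ζ) ≃ₐ[ℚ] ↥(Kf L ζ), s • q = q → s = 1) :
    cls q ∈ normSubgroup ↥(Kf L ζ) L := by
  haveI : NeZero p := neZero_p
  haveI := isCyclo hζ
  obtain ⟨σ, hσ⟩ := B.frob_exists q hqp hq0
  obtain ⟨d, hd⟩ := exists_pow_eq_of_card (card_gal hζ hdeg) hσ₀ne σ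
  have hc := B.cross q₀ q hq₀p hqp hq₀0 hq0 hp₀ hpq σ₀ σ hσ₀ hσ hσ₀ne d hd
  suffices hmem : cls q₀ ^ d ∈ normSubgroup ↥(Kf L ζ) L by
    have := mul_mem hc hmem
    simpa using this
  -- the automorphisms `s_b`
  have hex : ∀ b : ℕ, ∃ s : ↥(Kf L ζ) ≃ₐ[ℚ] ↥(Kf L ζ),
      b ∈ Finset.Icc 1 ((p - 1) / 2) → (s (zK L ζ)) ^ b = zK L ζ := by
    intro b
    by_cases hb : b ∈ Finset.Icc 1 ((p - 1) / 2)
    · have hnd : ¬ p ∣ b := by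
        rw [Finset.mem_Icc] at hb
        intro h
        have := Nat.le_of_dvd (by omega) h
        omega
      obtain ⟨s, hs⟩ := exists_aut_pow p ↥(Kf L ζ) (isPrimitiveRoot_zK hζ) b hnd
      exact ⟨s, fun _ => hs⟩
    · exact ⟨1, fun h => absurd h hb⟩
  choose s hs using hex
  have hjac := B.jac q hqp hq0 hpq hstab s hs
  have hb_all : ∀ b ∈ Finset.Icc 1 ((p - 1) / 2), s b • q ≠ ⊥ ∧
      cls (s b • q) * (cls q₀ ^ (d * b))⁻¹ ∈ normSubgroup ↥(Kf L ζ) L := by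
    intro b hb
    have hFb : IsFrob (σ ^ b) (s b • q) := isFrob_pow_smul hconj B (s b) b (hs b hb) q σ hσ
    have hprime : (s b • q).IsPrime := Ideal.IsPrime.smul (s b)
    have hne : s b • q ≠ ⊥ := smul_ne_bot (s b) hq0
    have hpb : (p : 𝓞 ↥(Kf L ζ)) ∉ s b • q := natCast_not_mem_smul (s b) p hpq
    exact ⟨hne, B.cross q₀ (s b • q) hq₀p hprime hq₀0 hne hp₀ hpb σ₀ (σ ^ b) hσ₀ hFb hσ₀ne
      (d * b) (by rw [hd, pow_mul])⟩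
  have hprod : cls (∏ b ∈ Finset.Icc 1 ((p - 1) / 2), s b • q) =
      ∏ b ∈ Finset.Icc 1 ((p - 1) / 2), cls (s b • q) :=
    cls_prod _ _ (fun b hb => (hb_all b hb).1)
  have hone : ∏ b ∈ Finset.Icc 1 ((p - 1) / 2), cls (s b • q) = 1 := by
    rw [← hprod]
    exact (cls_eq_one_iff (Finset.prod_ne_zero_iff.mpr fun b hb => (hb_all b hb).1)).mpr hjac
  have hT : (∏ b ∈ Finset.Icc 1 ((p - 1) / 2), cls (s b • q)) *
      (∏ b ∈ Finset.Icc 1 ((p - 1) / 2), cls q₀ ^ (d * b))⁻¹ ∈ normSubgroup ↥(Kf L ζ) L := by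
    rw [← Finset.prod_inv_distrib, ← Finset.prod_mul_distrib]
    exact Subgroup.prod_mem _ (fun b hb => (hb_all b hb).2)
  rw [hone, one_mul, inv_mem_iff, Finset.prod_pow_eq_pow_sum, ← Finset.mul_sum] at hT
  have hTp : Nat.Coprime (∑ b ∈ Finset.Icc 1 ((p - 1) / 2), b) p :=
    ((Nat.Prime.coprime_iff_not_dvd Fact.out).mpr (not_dvd_sum_Icc p h3)).symm
  obtain ⟨u, -, hu⟩ := Nat.exists_mul_mod_eq_one_of_coprime hTp (by omega : 1 < p)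
  generalize (∑ b ∈ Finset.Icc 1 ((p - 1) / 2), b) = T at hT hu
  have hTu : T * u = 1 + p * (T * u / p) := by
    have := Nat.div_add_mod (T * u) p
    omega
  have h5 : (cls q₀ ^ d) ^ (T * u) ∈ normSubgroup ↥(Kf L ζ) L := by
    rw [← pow_mul, ← mul_assoc, pow_mul]
    exact pow_mem hT u
  rw [hTu, pow_add, pow_one, pow_mul] at h5
  have h6 : ((cls q₀ ^ d) ^ p) ^ (T * u / p) ∈ normSubgroup ↥(Kf L ζ) L :=
    pow_mem (pow_p_mem hζ hdeg _) _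
  exact (Subgroup.mul_mem_cancel_right _ h6).mp h5

/-- (STAR) from the block theorems. -/
theorem star_of (h3 : 3 ≤ p) (hζ : IsPrimitiveRoot ζ p)
    (hdeg : Module.finrank ℚ L = (p - 1) * p)
    (hconj : ∀ (σ g : L ≃ₐ[ℚ] L) (m : ℕ), g ζ = ζ → (σ ζ) ^ m = ζ → σ * g * σ⁻¹ = g ^ m)
    (B : Blocks p L ζ) : False := by
  haveI : NeZero p := neZero_p
  haveI := isCyclo hζ
  -- a non-split prime `q₀` prime to `p`, its Frobenius generates `Gal(L/K)`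
  obtain ⟨q₀, hq₀p, hq₀0, hq₀S, hq₀ns⟩ :=
    B.z3 {Ideal.span {(isPrimitiveRoot_zK hζ).toInteger - 1}}
  have hp₀ : (p : 𝓞 ↥(Kf L ζ)) ∉ q₀ := fun h => hq₀S (by
    rw [Finset.mem_singleton]
    exact eq_span_of_natCast_mem p ↥(Kf L ζ) (isPrimitiveRoot_zK hζ) q₀ h)
  obtain ⟨σ₀, hσ₀⟩ := B.frob_exists q₀ hq₀p hq₀0
  have hσ₀ne : σ₀ ≠ 1 := fun h => hq₀ns ((B.frob_one q₀ hq₀p hq₀0).mp (h ▸ hσ₀))
  -- every prime class is a norm class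
  have main : ∀ q : Ideal (𝓞 ↥(Kf L ζ)), q.IsPrime → q ≠ ⊥ →
      cls q ∈ normSubgroup ↥(Kf L ζ) L := by
    intro q hqp hq0
    by_cases hpq : (p : 𝓞 ↥(Kf L ζ)) ∈ q
    · have := isPrincipal_of_natCast_mem p ↥(Kf L ζ) q hpq
      rw [(cls_eq_one_iff hq0).mpr this]
      exact one_mem _
    by_cases hstab : ∀ s : ↥(Kf L ζ) ≃ₐ[ℚ] ↥(Kf L ζ), s • q = q → s = 1
    · exact cls_mem_of_trivial_stab h3 hζ hdeg hconj B q₀ hq₀p hq₀0 hp₀ σ₀ hσ₀ hσ₀ne q hqp hq0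
        hpq hstab
    · push Not at hstab
      obtain ⟨sK, hsq, hsK⟩ := hstab
      obtain ⟨σ, hσ⟩ := B.frob_exists q hqp hq0
      have hσ1 : σ = 1 := frob_eq_one_of_stab hζ hdeg hconj B q hqp hq0 sK hsq hsK σ hσ
      have := B.cross q₀ q hq₀p hqp hq₀0 hq0 hp₀ hpq σ₀ σ hσ₀ hσ hσ₀ne 0 (by rw [hσ1, pow_zero])
      simpa using this
  have htop := eq_top_of_forall_prime _ main
  have hherb := B.herb
  rw [htop, Subgroup.card_top] at hherb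
  have hpos : 0 < Nat.card (ClassGroup (𝓞 ↥(Kf L ζ))) := Nat.card_pos
  have h2 : 2 ≤ p := (Fact.out : p.Prime).two_le
  nlinarith

end Fermat.Agent.S14_StarOf

end
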