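import Mathlib

/-!
# S14_Zeta (helper4): the Dedekind zeta function as a sum over ideals, and its Euler product

Project C (S14), block ZETA, parts (Z1) and (Z2).

* `wt F s a = N(a)^(-s)`, `zetaR F s = ∑' a, wt F s a` (sum over nonzero ideals), and the
  comparison with Mathlib's `NumberField.dedekindZeta`: simple pole at `s = 1`.
* The Euler product over `HeightOneSpectrum (𝓞 F)` for completely multiplicative functions.
-/

set_option autoImplicit false

noncomputable section

open Filter Topology NumberField IsDedekindDomain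
open scoped nonZeroDivisors

namespace Fermat.Agent.S14_Zeta

/-! ### Ideals supported in a finite set of primes -/

section Supp

variable {R : Type*} [CommRing R] [IsDedekindDomain R]

/-- A nonzero prime as a nonzero ideal. -/
def primeIdeal (q : HeightOneSpectrum R) : (Ideal R)⁰ :=
  ⟨q.asIdeal, mem_nonZeroDivisors_iff_ne_zero.mpr q.ne_bot⟩

@[simp] theorem coe_primeIdeal (q : HeightOneSpectrum R) :
    ((primeIdeal q : (Ideal R)⁰) : Ideal R) = q.asIdeal := rfl

/-- The submonoid of nonzero ideals all of whose prime factors lie in `T`. -/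
def supp (T : Finset (HeightOneSpectrum R)) : Submonoid (Ideal R)⁰ :=
  Submonoid.closure (primeIdeal '' (T : Set (HeightOneSpectrum R)))

theorem primeIdeal_mem_supp {T : Finset (HeightOneSpectrum R)} {q : HeightOneSpectrum R}
    (hq : q ∈ T) : primeIdeal q ∈ supp T :=
  Submonoid.subset_closure ⟨q, hq, rfl⟩

theorem supp_mono {T T' : Finset (HeightOneSpectrum R)} (h : T ⊆ T') : supp T ≤ supp T' :=
  Submonoid.closure_mono (Set.image_mono (by exact_mod_cast h))

/-- A prime outside `T` does not divide an ideal supported in `T`. -/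
theorem not_dvd_of_mem_supp {T : Finset (HeightOneSpectrum R)} {q : HeightOneSpectrum R}
    (hq : q ∉ T) {a : (Ideal R)⁰} (ha : a ∈ supp T) : ¬ q.asIdeal ∣ (a : Ideal R) := by
  induction ha using Submonoid.closure_induction with
  | mem x hx =>
    obtain ⟨q', hq', rfl⟩ := hx
    intro hdvd
    rw [coe_primeIdeal, Ideal.dvd_iff_le] at hdvd
    have h1 : q'.asIdeal = q.asIdeal :=
      q'.isMaximal.eq_of_le q.isPrime.ne_top hdvd
    exact hq ((HeightOneSpectrum.ext h1) ▸ hq')
  | one =>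
    intro hdvd
    have h1 : IsUnit q.asIdeal := isUnit_of_dvd_one hdvd
    exact q.isPrime.ne_top (Ideal.isUnit_iff.mp h1)
  | mul x y _ _ hx hy =>
    intro hdvd
    rw [Submonoid.coe_mul] at hdvd
    rcases q.prime.dvd_or_dvd hdvd with h | h
    · exact hx h
    · exact hy h

theorem mem_supp_insert [DecidableEq (HeightOneSpectrum R)]
    {T : Finset (HeightOneSpectrum R)} {q : HeightOneSpectrum R} {a : (Ideal R)⁰} :
    a ∈ supp (insert q T) ↔ ∃ b ∈ supp T, ∃ k : ℕ, a = b * primeIdeal q ^ k := by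
  rw [supp, Finset.coe_insert, Set.image_insert_eq, Set.insert_eq, Submonoid.closure_union,
    Submonoid.mem_sup]
  constructor
  · rintro ⟨y, hy, z, hz, rfl⟩
    obtain ⟨k, rfl⟩ := Submonoid.mem_closure_singleton.mp hy
    exact ⟨z, hz, k, mul_comm _ _⟩
  · rintro ⟨b, hb, k, rfl⟩
    exact ⟨primeIdeal q ^ k, Submonoid.mem_closure_singleton.mpr ⟨k, rfl⟩, b, hb, mul_comm _ _⟩

/-- Unique factorisation, one prime at a time. -/
def suppInsertEquiv [DecidableEq (HeightOneSpectrum R)]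
    {T : Finset (HeightOneSpectrum R)} {q : HeightOneSpectrum R} (hq : q ∉ T) :
    (supp T × ℕ) ≃ supp (insert q T) :=
  Equiv.ofBijective
    (fun x => ⟨(x.1 : (Ideal R)⁰) * primeIdeal q ^ x.2,
      mem_supp_insert.mpr ⟨x.1, x.1.2, x.2, rfl⟩⟩)
    (by
      constructor
      · -- injectivity
        have key : ∀ (b b' : supp T) (k k' : ℕ), k ≤ k' →
            ((b : (Ideal R)⁰) : Ideal R) * q.asIdeal ^ k
              = ((b' : (Ideal R)⁰) : Ideal R) * q.asIdeal ^ k' → b = b' ∧ k = k' := by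
          intro b b' k k' hkk' h
          obtain ⟨j, rfl⟩ := Nat.exists_eq_add_of_le hkk'
          have hq0 : q.asIdeal ^ k ≠ 0 := pow_ne_zero _ q.ne_bot
          rw [pow_add, ← mul_assoc, mul_comm _ (q.asIdeal ^ k), mul_comm _ (q.asIdeal ^ k),
            mul_assoc] at h
          have h2 := mul_left_cancel₀ hq0 h
          rcases Nat.eq_zero_or_pos j with rfl | hj
          · rw [pow_zero, mul_one] at h2
            exact ⟨Subtype.ext (Subtype.ext h2), rfl⟩
          · exfalso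
            apply not_dvd_of_mem_supp hq b.2
            rw [h2]
            exact Dvd.dvd.mul_left (dvd_pow_self _ hj.ne') _
        rintro ⟨b, k⟩ ⟨b', k'⟩ h
        have h' : ((b : (Ideal R)⁰) : Ideal R) * q.asIdeal ^ k
            = ((b' : (Ideal R)⁰) : Ideal R) * q.asIdeal ^ k' := by
          have := congrArg (fun x : supp (insert q T) => ((x : (Ideal R)⁰) : Ideal R)) h
          simpa using this
        rcases le_total k k' with hk | hk
        · obtain ⟨h1, h2⟩ := key b b' k k' hk h'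
          rw [h1, h2]
        · obtain ⟨h1, h2⟩ := key b' b k' k hk h'.symm
          rw [h1, h2]
      · -- surjectivity
        rintro ⟨a, ha⟩
        obtain ⟨b, hb, k, rfl⟩ := mem_supp_insert.mp ha
        exact ⟨(⟨b, hb⟩, k), rfl⟩)

@[simp] theorem coe_suppInsertEquiv [DecidableEq (HeightOneSpectrum R)]
    {T : Finset (HeightOneSpectrum R)} {q : HeightOneSpectrum R} (hq : q ∉ T) (x : supp T × ℕ) :
    ((suppInsertEquiv hq x : supp (insert q T)) : (Ideal R)⁰)
      = (x.1 : (Ideal R)⁰) * primeIdeal q ^ x.2 := rfl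

/-- Every nonzero ideal is supported in a finite set of primes. -/
theorem exists_mem_supp (a : (Ideal R)⁰) : ∃ T : Finset (HeightOneSpectrum R), a ∈ supp T := by
  classical
  obtain ⟨I, hI⟩ := a
  revert hI
  induction I using UniqueFactorizationMonoid.induction_on_prime with
  | h₁ =>
    intro hI
    exact absurd hI zero_notMem_nonZeroDivisors
  | h₂ x hx =>
    intro hI
    refine ⟨∅, ?_⟩
    have h1 : (⟨x, hI⟩ : (Ideal R)⁰) = 1 := Subtype.ext ((Ideal.isUnit_iff.mp hx).trans Ideal.one_eq_top.symm)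
    rw [h1]
    exact one_mem _
  | h₃ a p ha hp ih =>
    intro hI
    have ha' : a ∈ (Ideal R)⁰ := mem_nonZeroDivisors_iff_ne_zero.mpr ha
    obtain ⟨T, hT⟩ := ih ha'
    let q : HeightOneSpectrum R := ⟨p, Ideal.isPrime_of_prime hp, hp.ne_zero⟩
    refine ⟨insert q T, ?_⟩
    have h1 : (⟨p * a, hI⟩ : (Ideal R)⁰) = primeIdeal q * ⟨a, ha'⟩ := Subtype.ext rfl
    rw [h1]
    exact mul_mem (primeIdeal_mem_supp (Finset.mem_insert_self q T))
      (supp_mono (Finset.subset_insert q T) hT)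

end Supp

/-! ### The Euler product of a completely multiplicative function on ideals -/

section EulerProduct

variable {R : Type*} [CommRing R] [IsDedekindDomain R]
variable {𝕜 : Type*} [NormedField 𝕜] [CompleteSpace 𝕜]

/-- The finite Euler product: the sum over the ideals supported in `T`. -/
theorem hasSum_supp (g : (Ideal R)⁰ →* 𝕜) (hg : Summable fun a => ‖g a‖)
    (hg1 : ∀ q : HeightOneSpectrum R, ‖g (primeIdeal q)‖ < 1)
    (T : Finset (HeightOneSpectrum R)) :
    HasSum (fun a : supp T => g a) (∏ q ∈ T, (1 - g (primeIdeal q))⁻¹) := by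
  classical
  induction T using Finset.induction_on with
  | empty =>
    rw [Finset.prod_empty]
    have h1 : ∀ b : supp (∅ : Finset (HeightOneSpectrum R)), b = 1 := by
      rintro ⟨b, hb⟩
      have h2 : b = 1 := by
        simpa [supp] using hb
      exact Subtype.ext h2
    have h3 := hasSum_single (f := fun a : supp (∅ : Finset (HeightOneSpectrum R)) => g a) 1
      (fun b hb => absurd (h1 b) hb)
    simpa using h3
  | insert q T hq ih =>
    rw [Finset.prod_insert hq, mul_comm]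
    have hgeo := hasSum_geometric_of_norm_lt_one (hg1 q)
    have hsum : Summable fun x : supp T × ℕ => g x.1 * g (primeIdeal q) ^ x.2 := by
      refine summable_mul_of_summable_norm (f := fun a : supp T => g a)
        (g := fun k : ℕ => g (primeIdeal q) ^ k) (hg.subtype _) ?_
      simpa using summable_geometric_of_lt_one (norm_nonneg _) (hg1 q)
    have h2 := ih.mul hgeo hsum
    rw [← Equiv.hasSum_iff (suppInsertEquiv hq)]
    have h3 : ((fun a : supp (insert q T) => g a) ∘ (suppInsertEquiv hq))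
        = fun x : supp T × ℕ => g x.1 * g (primeIdeal q) ^ x.2 := by
      funext x
      simp [map_mul, map_pow]
    rw [h3]
    exact h2

/-- The sums over the ideals supported in `T` converge to the full sum. -/
theorem tendsto_tsum_supp (g : (Ideal R)⁰ → 𝕜) (hg : Summable fun a => ‖g a‖) :
    Tendsto (fun T : Finset (HeightOneSpectrum R) => ∑' a : supp T, g a) atTop
      (𝓝 (∑' a, g a)) := by
  classical
  have h1 : ∀ T : Finset (HeightOneSpectrum R),
      ∑' a : supp T, g a = ∑' a, (supp T : Set (Ideal R)⁰).indicator g a :=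
    fun T => tsum_subtype _ g
  simp_rw [h1]
  refine tendsto_tsum_of_dominated_convergence (bound := fun a => ‖g a‖) hg ?_ ?_
  · intro a
    obtain ⟨T₀, hT₀⟩ := exists_mem_supp a
    refine tendsto_const_nhds.congr' ?_
    filter_upwards [eventually_ge_atTop T₀] with T hT
    rw [Set.indicator_of_mem (supp_mono hT hT₀)]
  · refine Eventually.of_forall fun T a => ?_
    exact norm_indicator_le_norm_self _ _

/-- The Euler product, as a limit over finite sets of primes. -/
theorem tendsto_prod_supp (g : (Ideal R)⁰ →* 𝕜) (hg : Summable fun a => ‖g a‖)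
    (hg1 : ∀ q : HeightOneSpectrum R, ‖g (primeIdeal q)‖ < 1) :
    Tendsto (fun T : Finset (HeightOneSpectrum R) => ∏ q ∈ T, (1 - g (primeIdeal q))⁻¹) atTop
      (𝓝 (∑' a, g a)) := by
  refine (tendsto_tsum_supp (fun a => g a) hg).congr fun T => ?_
  exact (hasSum_supp g hg hg1 T).tsum_eq

end EulerProduct

/-! ### The zeta function of a number field as a sum over ideals -/

section NumberField

variable (F : Type*) [Field F] [NumberField F]

/-- The weight `N(a)^(-s)` of a nonzero ideal. -/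
def wt (s : ℝ) (a : (Ideal (𝓞 F))⁰) : ℝ := (Ideal.absNorm (a : Ideal (𝓞 F)) : ℝ) ^ (-s)

/-- The Dedekind zeta function at a real argument, as a sum over nonzero ideals. -/
def zetaR (s : ℝ) : ℝ := ∑' a : (Ideal (𝓞 F))⁰, wt F s a

/-- The Euler factor `(1 - N(q)^(-s))^(-1)`. -/
def eulerFactor (s : ℝ) (q : HeightOneSpectrum (𝓞 F)) : ℝ :=
  (1 - (Ideal.absNorm q.asIdeal : ℝ) ^ (-s))⁻¹

/-- The partial zeta function of an ideal class. -/
def classZeta (c : ClassGroup (𝓞 F)) (s : ℝ) : ℝ :=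
  ∑' a : {a : (Ideal (𝓞 F))⁰ // ClassGroup.mk0 a = c}, wt F s a.1

variable {F} in
theorem absNorm_pos (a : (Ideal (𝓞 F))⁰) : 0 < Ideal.absNorm (a : Ideal (𝓞 F)) := by
  refine Nat.pos_of_ne_zero fun h => ?_
  rw [Ideal.absNorm_eq_zero_iff] at h
  exact nonZeroDivisors.coe_ne_zero a h

variable {F} in
theorem one_lt_absNorm (q : HeightOneSpectrum (𝓞 F)) : 1 < Ideal.absNorm q.asIdeal := by
  have h0 : Ideal.absNorm q.asIdeal ≠ 0 := by
    rw [Ne, Ideal.absNorm_eq_zero_iff]
    exact q.ne_bot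
  have h1 : Ideal.absNorm q.asIdeal ≠ 1 := by
    rw [Ne, Ideal.absNorm_eq_one_iff]
    exact q.isPrime.ne_top
  omega

theorem wt_nonneg (s : ℝ) (a : (Ideal (𝓞 F))⁰) : 0 ≤ wt F s a :=
  Real.rpow_nonneg (Nat.cast_nonneg _) _

theorem wt_pos (s : ℝ) (a : (Ideal (𝓞 F))⁰) : 0 < wt F s a :=
  Real.rpow_pos_of_pos (Nat.cast_pos.mpr (absNorm_pos a)) _

@[simp] theorem wt_one (s : ℝ) : wt F s 1 = 1 := by
  simp [wt]

theorem wt_mul (s : ℝ) (a b : (Ideal (𝓞 F))⁰) : wt F s (a * b) = wt F s a * wt F s b := by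
  simp only [wt, Submonoid.coe_mul, map_mul, Nat.cast_mul]
  exact Real.mul_rpow (Nat.cast_nonneg _) (Nat.cast_nonneg _)

/-- The weight as a monoid homomorphism. -/
def wtHom (s : ℝ) : (Ideal (𝓞 F))⁰ →* ℝ where
  toFun := wt F s
  map_one' := wt_one F s
  map_mul' := wt_mul F s

@[simp] theorem wtHom_apply (s : ℝ) (a : (Ideal (𝓞 F))⁰) : wtHom F s a = wt F s a := rfl

theorem wt_le_wt {s s' : ℝ} (h : s' ≤ s) (a : (Ideal (𝓞 F))⁰) : wt F s a ≤ wt F s' a :=
  Real.rpow_le_rpow_of_exponent_le (by exact_mod_cast absNorm_pos a) (neg_le_neg h)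

theorem wt_primeIdeal (s : ℝ) (q : HeightOneSpectrum (𝓞 F)) :
    wt F s (primeIdeal q) = (Ideal.absNorm q.asIdeal : ℝ) ^ (-s) := rfl

theorem wt_primeIdeal_lt_one {s : ℝ} (hs : 0 < s) (q : HeightOneSpectrum (𝓞 F)) :
    wt F s (primeIdeal q) < 1 :=
  Real.rpow_lt_one_of_one_lt_of_neg (by exact_mod_cast one_lt_absNorm q) (by linarith)

theorem eulerFactor_eq (s : ℝ) (q : HeightOneSpectrum (𝓞 F)) :
    eulerFactor F s q = (1 - wt F s (primeIdeal q))⁻¹ := rfl

theorem one_le_eulerFactor {s : ℝ} (hs : 0 < s) (q : HeightOneSpectrum (𝓞 F)) :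
    1 ≤ eulerFactor F s q := by
  rw [eulerFactor_eq]
  have h1 := wt_primeIdeal_lt_one F hs q
  have h2 := wt_nonneg F s (primeIdeal q)
  exact (one_le_inv₀ (by linarith)).mpr (by linarith)

theorem eulerFactor_pos {s : ℝ} (hs : 0 < s) (q : HeightOneSpectrum (𝓞 F)) :
    0 < eulerFactor F s q :=
  lt_of_lt_of_le zero_lt_one (one_le_eulerFactor F hs q)

/-! #### (Z1) comparison with Mathlib's Dedekind zeta function -/

/-- The real Dirichlet coefficients of the Dedekind zeta function. -/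
def coef (s : ℝ) (n : ℕ) : ℝ :=
  if n = 0 then 0 else (Nat.card {I : Ideal (𝓞 F) // Ideal.absNorm I = n} : ℝ) / (n : ℝ) ^ s

theorem tendsto_card_div :
    Tendsto (fun n : ℕ ↦ (∑ k ∈ Finset.Icc 1 n,
      (Nat.card {I : Ideal (𝓞 F) // Ideal.absNorm I = k} : ℝ)) / (n : ℝ)) atTop
      (𝓝 (dedekindZeta_residue F)) := by
  refine ((Ideal.tendsto_norm_le_div_atTop₀ F).comp tendsto_natCast_atTop_atTop).congr fun n ↦ ?_
  simp only [Function.comp_apply, Nat.cast_le, ← Nat.cast_sum]
  congr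
  rw [← add_left_inj 1, ← Ideal.card_norm_le_eq_card_norm_le_add_one,
    show Finset.Icc 1 n = Finset.Ioc 0 n from Finset.Icc_succ_left_eq_Ioc _ _,
    show 1 = Nat.card {I : Ideal (𝓞 F) // Ideal.absNorm I = 0} by
      simp [Ideal.absNorm_eq_zero_iff],
    Finset.sum_Ioc_add_eq_sum_Icc (n.zero_le),
    ← Finset.card_preimage_eq_sum_card_image_eq
      (fun k _ ↦ Ideal.finite_setOfPred_absNorm_eq k)]
  simp [Set.coe_eq_subtype]

theorem lseriesSummable_card {s : ℝ} (hs : 1 < s) :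
    LSeriesSummable
      (fun n ↦ ((Nat.card {I : Ideal (𝓞 F) // Ideal.absNorm I = n} : ℝ) : ℂ)) (s : ℂ) := by
  refine LSeriesSummable_of_sum_norm_bigO_and_nonneg ?_ (fun _ => Nat.cast_nonneg _)
    zero_le_one (by simpa using hs)
  exact Asymptotics.isBigO_atTop_natCast_rpow_of_tendsto_div_rpow
    (by simpa using tendsto_card_div F)

theorem term_eq_coef (s : ℝ) (n : ℕ) :
    LSeries.term (fun n ↦ ((Nat.card {I : Ideal (𝓞 F) // Ideal.absNorm I = n} : ℝ) : ℂ))
      (s : ℂ) n = ((coef F s n : ℝ) : ℂ) := by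
  rw [LSeries.term_def, coef]
  split_ifs with h
  · simp
  · rw [Complex.ofReal_div, Complex.ofReal_cpow (Nat.cast_nonneg n)]
    simp

theorem summable_coef {s : ℝ} (hs : 1 < s) : Summable (coef F s) := by
  have h := lseriesSummable_card F hs
  rw [LSeriesSummable] at h
  have h2 : Summable (fun n => ((coef F s n : ℝ) : ℂ)) := by
    refine h.congr fun n => ?_
    exact term_eq_coef F s n
  exact Complex.summable_ofReal.mp h2

instance finite_fiber (n : ℕ) :
    Finite {a : (Ideal (𝓞 F))⁰ // Ideal.absNorm (a : Ideal (𝓞 F)) = n} := by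
  have h := (Ideal.finite_setOfPred_absNorm_eq (S := 𝓞 F) n).to_subtype
  exact Finite.of_injective
    (fun a : {a : (Ideal (𝓞 F))⁰ // Ideal.absNorm (a : Ideal (𝓞 F)) = n} =>
      (⟨a.1.1, a.2⟩ : {I : Ideal (𝓞 F) | Ideal.absNorm I = n}))
    (fun a b hab => by
      have h1 : ((a.1 : (Ideal (𝓞 F))⁰) : Ideal (𝓞 F)) = b.1 :=
        congrArg (fun x : {I : Ideal (𝓞 F) | Ideal.absNorm I = n} => (x : Ideal (𝓞 F))) hab
      exact Subtype.ext (Subtype.ext h1))

theorem card_fiber {n : ℕ} (hn : n ≠ 0) :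
    Nat.card {a : (Ideal (𝓞 F))⁰ // Ideal.absNorm (a : Ideal (𝓞 F)) = n}
      = Nat.card {I : Ideal (𝓞 F) // Ideal.absNorm I = n} := by
  refine Nat.card_congr ⟨fun a => ⟨a.1.1, a.2⟩, fun I => ⟨⟨I.1, ?_⟩, I.2⟩,
    fun a => rfl, fun I => rfl⟩
  refine mem_nonZeroDivisors_iff_ne_zero.mpr ?_
  rintro h
  apply hn
  rw [← I.2, h]
  simp

theorem tsum_fiber (s : ℝ) (n : ℕ) :
    ∑' a : {a : (Ideal (𝓞 F))⁰ // Ideal.absNorm (a : Ideal (𝓞 F)) = n}, wt F s a.1
      = coef F s n := by
  have h1 : ∀ a : {a : (Ideal (𝓞 F))⁰ // Ideal.absNorm (a : Ideal (𝓞 F)) = n},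
      wt F s a.1 = (n : ℝ) ^ (-s) := fun a => by rw [wt, a.2]
  simp_rw [h1]
  rw [tsum_const, coef]
  split_ifs with h
  · subst h
    have h2 : IsEmpty {a : (Ideal (𝓞 F))⁰ // Ideal.absNorm (a : Ideal (𝓞 F)) = 0} :=
      ⟨fun a => (absNorm_pos a.1).ne' a.2⟩
    simp
  · rw [card_fiber F h, nsmul_eq_mul, Real.rpow_neg (Nat.cast_nonneg n), div_eq_mul_inv]

theorem summable_wt {s : ℝ} (hs : 1 < s) : Summable (wt F s) := by
  rw [← Equiv.summable_iff
    (Equiv.sigmaFiberEquiv (fun a : (Ideal (𝓞 F))⁰ => Ideal.absNorm (a : Ideal (𝓞 F))))]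
  refine (summable_sigma_of_nonneg (fun x => wt_nonneg F s _)).mpr
    ⟨fun n => Summable.of_finite, ?_⟩
  refine (summable_coef F hs).congr fun n => ?_
  exact (tsum_fiber F s n).symm

theorem zetaR_eq_tsum_coef {s : ℝ} (hs : 1 < s) : zetaR F s = ∑' n, coef F s n := by
  have h1 := summable_wt F hs
  rw [← Equiv.summable_iff
    (Equiv.sigmaFiberEquiv (fun a : (Ideal (𝓞 F))⁰ => Ideal.absNorm (a : Ideal (𝓞 F))))] at h1
  rw [zetaR, ← Equiv.tsum_eq
    (Equiv.sigmaFiberEquiv (fun a : (Ideal (𝓞 F))⁰ => Ideal.absNorm (a : Ideal (𝓞 F))))]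
  refine (Summable.tsum_sigma' (fun n => Summable.of_finite) h1).trans ?_
  exact tsum_congr fun n => tsum_fiber F s n

theorem zetaR_eq_dedekindZeta {s : ℝ} (hs : 1 < s) :
    ((zetaR F s : ℝ) : ℂ) = dedekindZeta F (s : ℂ) := by
  rw [zetaR_eq_tsum_coef F hs, Complex.ofReal_tsum, dedekindZeta,
    LSeries_congr (g := fun n ↦ ((Nat.card {I : Ideal (𝓞 F) // Ideal.absNorm I = n} : ℝ) : ℂ))
      (fun _ => by simp), LSeries]
  exact tsum_congr fun n => (term_eq_coef F s n).symm

theorem tendsto_sub_one_mul_zetaR :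
    Tendsto (fun s : ℝ => (s - 1) * zetaR F s) (𝓝[>] 1) (𝓝 (dedekindZeta_residue F)) := by
  have h := (Complex.continuous_re.tendsto _).comp (tendsto_sub_one_mul_dedekindZeta_nhdsGT F)
  rw [Complex.ofReal_re] at h
  refine h.congr' ?_
  filter_upwards [self_mem_nhdsWithin] with s hs
  have hs' : 1 < s := hs
  rw [Function.comp_apply, ← zetaR_eq_dedekindZeta F hs']
  norm_cast

theorem one_le_zetaR {s : ℝ} (hs : 1 < s) : 1 ≤ zetaR F s := by
  have h := (summable_wt F hs).le_tsum 1 (fun a _ => wt_nonneg F s a)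
  rwa [wt_one] at h

theorem zetaR_pos {s : ℝ} (hs : 1 < s) : 0 < zetaR F s :=
  lt_of_lt_of_le zero_lt_one (one_le_zetaR F hs)

theorem zetaR_anti {s s' : ℝ} (hs' : 1 < s') (h : s' ≤ s) : zetaR F s ≤ zetaR F s' :=
  (summable_wt F (lt_of_lt_of_le hs' h)).tsum_le_tsum (wt_le_wt F h) (summable_wt F hs')

theorem exists_zetaR_bounds : ∃ δ : ℝ, 0 < δ ∧ ∀ s : ℝ, 1 < s → s < 1 + δ →
    dedekindZeta_residue F / 2 < (s - 1) * zetaR F s ∧
      (s - 1) * zetaR F s < 2 * dedekindZeta_residue F := by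
  have hρ := dedekindZeta_residue_pos F
  have h := tendsto_sub_one_mul_zetaR F
  have h1 := (tendsto_order.1 h).1 (dedekindZeta_residue F / 2) (by linarith)
  have h2 := (tendsto_order.1 h).2 (2 * dedekindZeta_residue F) (by linarith)
  obtain ⟨u, hu, hsub⟩ := mem_nhdsGT_iff_exists_Ioo_subset.mp (h1.and h2)
  refine ⟨u - 1, by simpa using hu, fun s hs1 hs2 => ?_⟩
  exact hsub ⟨hs1, by linarith⟩

theorem exists_zetaR_le : ∃ C : ℝ, 0 < C ∧ ∀ s : ℝ, 1 < s → s ≤ 2 → zetaR F s ≤ C / (s - 1) := by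
  obtain ⟨δ, hδ, hb⟩ := exists_zetaR_bounds F
  have hρ := dedekindZeta_residue_pos F
  have hz := zetaR_pos F (s := 1 + δ) (by linarith)
  refine ⟨2 * dedekindZeta_residue F + zetaR F (1 + δ), by positivity, fun s hs1 hs2 => ?_⟩
  have hs0 : 0 < s - 1 := by linarith
  rw [le_div_iff₀ hs0]
  rcases lt_or_ge s (1 + δ) with hlt | hge
  · have := (hb s hs1 hlt).2
    nlinarith
  · have h3 := zetaR_anti F (s' := 1 + δ) (by linarith) hge
    have h4 := zetaR_pos F hs1
    nlinarith

theorem exists_le_zetaR : ∃ c : ℝ, 0 < c ∧ ∀ s : ℝ, 1 < s → s ≤ 2 → c / (s - 1) ≤ zetaR F s := by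
  obtain ⟨δ, hδ, hb⟩ := exists_zetaR_bounds F
  have hρ := dedekindZeta_residue_pos F
  refine ⟨min (dedekindZeta_residue F / 2) δ, lt_min (by linarith) hδ, fun s hs1 hs2 => ?_⟩
  have hs0 : 0 < s - 1 := by linarith
  rw [div_le_iff₀ hs0]
  rcases lt_or_ge s (1 + δ) with hlt | hge
  · have := (hb s hs1 hlt).1
    have h5 := min_le_left (dedekindZeta_residue F / 2) δ
    nlinarith
  · have h3 := one_le_zetaR F hs1
    have h5 := min_le_right (dedekindZeta_residue F / 2) δ
    nlinarith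

/-- The zeta function is the sum of the partial zeta functions of the ideal classes. -/
theorem zetaR_eq_sum_classZeta {s : ℝ} (hs : 1 < s) :
    zetaR F s = ∑ᶠ c : ClassGroup (𝓞 F), classZeta F c s := by
  have h1 := summable_wt F hs
  rw [← Equiv.summable_iff
    (Equiv.sigmaFiberEquiv (ClassGroup.mk0 : (Ideal (𝓞 F))⁰ → ClassGroup (𝓞 F)))] at h1
  rw [zetaR, ← Equiv.tsum_eq
    (Equiv.sigmaFiberEquiv (ClassGroup.mk0 : (Ideal (𝓞 F))⁰ → ClassGroup (𝓞 F)))]
  refine (Summable.tsum_sigma' (fun c => h1.sigma_factor c) h1).trans ?_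
  rw [tsum_eq_finsum (Set.toFinite _)]
  rfl

theorem summable_classZeta {s : ℝ} (hs : 1 < s) (c : ClassGroup (𝓞 F)) :
    Summable fun a : {a : (Ideal (𝓞 F))⁰ // ClassGroup.mk0 a = c} => wt F s a.1 :=
  (summable_wt F hs).subtype _

/-! #### (Z2) the Euler product -/

theorem tsum_supp_eq_prod {s : ℝ} (hs : 1 < s) (T : Finset (HeightOneSpectrum (𝓞 F))) :
    ∑' a : supp T, wt F s a = ∏ q ∈ T, eulerFactor F s q := by
  have h := hasSum_supp (wtHom F s)
    (by simpa [abs_of_nonneg (wt_nonneg F s _)] using summable_wt F hs)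
    (fun q => by
      rw [wtHom_apply, Real.norm_eq_abs, abs_of_nonneg (wt_nonneg F s _)]
      exact wt_primeIdeal_lt_one F (by linarith) q) T
  exact h.tsum_eq

theorem prod_eulerFactor_le_zetaR {s : ℝ} (hs : 1 < s) (T : Finset (HeightOneSpectrum (𝓞 F))) :
    ∏ q ∈ T, eulerFactor F s q ≤ zetaR F s := by
  rw [← tsum_supp_eq_prod F hs T]
  exact tsum_comp_le_tsum_of_inj (summable_wt F hs) (wt_nonneg F s) Subtype.val_injective

theorem tendsto_prod_eulerFactor {s : ℝ} (hs : 1 < s) :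
    Tendsto (fun T : Finset (HeightOneSpectrum (𝓞 F)) => ∏ q ∈ T, eulerFactor F s q) atTop
      (𝓝 (zetaR F s)) := by
  have h := tendsto_prod_supp (wtHom F s)
    (by simpa [abs_of_nonneg (wt_nonneg F s _)] using summable_wt F hs)
    (fun q => by
      rw [wtHom_apply, Real.norm_eq_abs, abs_of_nonneg (wt_nonneg F s _)]
      exact wt_primeIdeal_lt_one F (by linarith) q)
  exact h

/-- The Euler product of a completely multiplicative bounded function. -/
theorem tendsto_prod_euler (f : (Ideal (𝓞 F))⁰ →* ℂ) (hf : ∀ a, ‖f a‖ ≤ 1) {s : ℝ}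
    (hs : 1 < s) :
    Tendsto (fun T : Finset (HeightOneSpectrum (𝓞 F)) =>
        ∏ q ∈ T, (1 - f (primeIdeal q) * ((wt F s (primeIdeal q) : ℝ) : ℂ))⁻¹) atTop
      (𝓝 (∑' a : (Ideal (𝓞 F))⁰, f a * ((wt F s a : ℝ) : ℂ))) := by
  have hn : ∀ a : (Ideal (𝓞 F))⁰, ‖f a * ((wt F s a : ℝ) : ℂ)‖ ≤ wt F s a := by
    intro a
    rw [norm_mul, Complex.norm_real, Real.norm_eq_abs, abs_of_nonneg (wt_nonneg F s a)]
    exact mul_le_of_le_one_left (wt_nonneg F s a) (hf a)
  have h := tendsto_prod_supp (f * (Complex.ofRealHom : ℝ →* ℂ).comp (wtHom F s))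
    (Summable.of_nonneg_of_le (fun a => norm_nonneg _) (fun a => hn a) (summable_wt F hs))
    (fun q => lt_of_le_of_lt (hn _) (wt_primeIdeal_lt_one F (by linarith) q))
  exact h

theorem summable_mul_wt (f : (Ideal (𝓞 F))⁰ → ℂ) (hf : ∀ a, ‖f a‖ ≤ 1) {s : ℝ} (hs : 1 < s) :
    Summable fun a : (Ideal (𝓞 F))⁰ => f a * ((wt F s a : ℝ) : ℂ) := by
  refine Summable.of_norm_bounded (summable_wt F hs) fun a => ?_
  rw [norm_mul, Complex.norm_real, Real.norm_eq_abs, abs_of_nonneg (wt_nonneg F s a)]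
  exact mul_le_of_le_one_left (wt_nonneg F s a) (hf a)

end NumberField

end Fermat.Agent.S14_Zeta

end
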