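import Fermat.Agent.S24_Defs

/-!
# S24_DiffCore (helper5): differentials of a function field in one variable

Core of `S24_Diff`, independent of `S24_Place`: the facts about places that are needed
(`FiniteDimensional K⟮f⟯ F` for transcendental `f`, and `𝒪_v = K + t 𝒪_v`) are explicit hypotheses.

* `exists_smul_D_of_algebraic` : `Ω[F⁄K] = F · dx` when `F` is algebraic over `K(x)` (char. 0);
* `exists_expansion` : the expansion homomorphism `𝒪 →ₐ[K] K⟦X⟧` at a uniformizer;
* `ord_coeff` : if `dy = g · dt` (`t` a uniformizer at `v`) and `ord_v y ≠ 0`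
  then `ord_v g = ord_v y - 1`;
* `core_*` : the statements of `S24_Diff` with the place facts as hypotheses.
-/

set_option autoImplicit false

noncomputable section

open Fermat.Agent.S24_Defs ModularCurve AlgebraicCurve UpperHalfPlane IntermediateField
open scoped MatrixGroups ModularForm Manifold Topology

namespace Fermat.Agent.S24_DiffCore

open KaehlerDifferential

variable {K F : Type*} [Field K] [Field F] [Algebra K F]

section generic

variable {M : Type*} [AddCommGroup M] [Module F M] [Module K M] [IsScalarTower K F M]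

omit [IsScalarTower K F M] in
/-- a `K`-derivation killing `x` kills `K(x)` -/
theorem derivation_eq_zero_of_mem_adjoin (d : Derivation K F M) (x : F) (hx : d x = 0) (y : F)
    (hy : y ∈ K⟮x⟯) : d y = 0 := by
  rw [IntermediateField.mem_adjoin_simple_iff] at hy
  obtain ⟨r, s, rfl⟩ := hy
  have h1 : ∀ p : Polynomial K, d (Polynomial.aeval x p) = 0 := fun p => by
    rw [Derivation.map_aeval, hx, smul_zero]
  rw [Derivation.leibniz_div, h1, h1, smul_zero, smul_zero, sub_zero, smul_zero]

omit [IsScalarTower K F M] in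
/-- a `K`-derivation killing `x` kills every element algebraic over `K(x)` (char. zero) -/
theorem derivation_eq_zero [CharZero K] (d : Derivation K F M) (x : F)
    [Algebra.IsAlgebraic K⟮x⟯ F] (hx : d x = 0) (y : F) : d y = 0 := by
  have hc : ∀ c : K⟮x⟯, d (c : F) = 0 := fun c =>
    derivation_eq_zero_of_mem_adjoin d x hx _ c.2
  have key : ∀ Q : Polynomial K⟮x⟯,
      d (Polynomial.aeval y Q) = Polynomial.aeval y (Polynomial.derivative Q) • d y := by
    intro Q
    induction Q using Polynomial.induction_on with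
    | C c => simp [hc]
    | add p q hp hq => simp [add_smul, hp, hq]
    | monomial n c _ =>
      simp [Derivation.leibniz, Derivation.leibniz_pow, hc, mul_smul, ← Nat.cast_smul_eq_nsmul F]
  have hint : IsIntegral K⟮x⟯ y := (Algebra.IsAlgebraic.isAlgebraic y).isIntegral
  have hsep : (minpoly K⟮x⟯ y).Separable := (minpoly.irreducible hint).separable
  have h0 := key (minpoly K⟮x⟯ y)
  rw [minpoly.aeval, map_zero] at h0
  have hne : Polynomial.aeval y (Polynomial.derivative (minpoly K⟮x⟯ y)) ≠ 0 :=
    hsep.aeval_derivative_ne_zero (minpoly.aeval _ _)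
  rcases smul_eq_zero.1 h0.symm with h | h
  · exact absurd h hne
  · exact h

end generic

theorem exists_smul_D_of_algebraic [CharZero K] (x : F) [Algebra.IsAlgebraic K⟮x⟯ F]
    (ω : Ω[F⁄K]) : ∃ f : F, ω = f • D K F x := by
  set N : Submodule F Ω[F⁄K] := Submodule.span F {D K F x} with hN
  let d : Derivation K F (Ω[F⁄K] ⧸ N) := (N.mkQ).compDer (D K F)
  have hdx : d x = 0 := by
    change N.mkQ (D K F x) = 0
    rw [Submodule.mkQ_apply, Submodule.Quotient.mk_eq_zero]
    exact Submodule.mem_span_singleton_self _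
  have hall : ∀ y, D K F y ∈ N := fun y => by
    have h := derivation_eq_zero d x hdx y
    change N.mkQ (D K F y) = 0 at h
    rwa [Submodule.mkQ_apply, Submodule.Quotient.mk_eq_zero] at h
  have htop : N = ⊤ := by
    rw [eq_top_iff, ← KaehlerDifferential.span_range_derivation K F]
    exact Submodule.span_le.2 (by rintro _ ⟨y, rfl⟩; exact hall y)
  have hω : ω ∈ N := htop ▸ Submodule.mem_top
  obtain ⟨f, hf⟩ := Submodule.mem_span_singleton.1 hω
  exact ⟨f, hf.symm⟩

section expansion

open PowerSeries

variable {K O : Type*} [Field K] [CommRing O] [IsDomain O] [Algebra K O]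
variable (t : O) (c : O → K) (r : O → O)

/-- the power series attached to `y` by the "residue" `c` and the "difference quotient" `r` -/
def expand (y : O) : PowerSeries K := PowerSeries.mk fun n => c (r^[n] y)

variable {t c r}

omit [CommRing O] [IsDomain O] [Algebra K O] in
theorem expand_eq (y : O) : expand c r y = C (c y) + X * expand c r (r y) := by
  ext n
  cases n with
  | zero => simp [expand]
  | succ n => simp [expand, coeff_succ_X_mul]

section

variable (ht0 : t ≠ 0) (htu : ¬ IsUnit t)
  (hcr : ∀ y : O, y = algebraMap K O (c y) + t * r y)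

include ht0 htu hcr

theorem cr_unique (y : O) (a : K) (z : O) (h : y = algebraMap K O a + t * z) :
    a = c y ∧ z = r y := by
  have h1 : algebraMap K O (a - c y) = t * (r y - z) := by
    rw [map_sub]
    have h2 := hcr y
    linear_combination h2 - h
  have ha : a = c y := by
    by_contra hne
    have hu : IsUnit (algebraMap K O (a - c y)) :=
      (isUnit_iff_ne_zero.2 (sub_ne_zero.2 hne)).map _
    rw [h1] at hu
    exact htu (isUnit_of_mul_isUnit_left hu)
  refine ⟨ha, ?_⟩
  rw [ha, sub_self, map_zero] at h1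
  rcases mul_eq_zero.1 h1.symm with h3 | h3
  · exact absurd h3 ht0
  · exact (sub_eq_zero.1 h3).symm

theorem c_add (y y' : O) : c (y + y') = c y + c y' :=
  ((cr_unique ht0 htu hcr (y + y') (c y + c y') (r y + r y') (by
    rw [map_add]; linear_combination hcr y + hcr y')).1).symm

theorem r_add (y y' : O) : r (y + y') = r y + r y' :=
  ((cr_unique ht0 htu hcr (y + y') (c y + c y') (r y + r y') (by
    rw [map_add]; linear_combination hcr y + hcr y')).2).symm

theorem c_mul (y y' : O) : c (y * y') = c y * c y' :=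
  ((cr_unique ht0 htu hcr (y * y') (c y * c y')
    (algebraMap K O (c y) * r y' + r y * y') (by
    rw [map_mul]; linear_combination y' * hcr y + algebraMap K O (c y) * hcr y')).1).symm

theorem r_mul (y y' : O) : r (y * y') = algebraMap K O (c y) * r y' + r y * y' :=
  ((cr_unique ht0 htu hcr (y * y') (c y * c y')
    (algebraMap K O (c y) * r y' + r y * y') (by
    rw [map_mul]; linear_combination y' * hcr y + algebraMap K O (c y) * hcr y')).2).symm

theorem c_algebraMap (a : K) : c (algebraMap K O a) = a :=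
  ((cr_unique ht0 htu hcr (algebraMap K O a) a 0 (by ring)).1).symm

theorem r_algebraMap (a : K) : r (algebraMap K O a) = 0 :=
  ((cr_unique ht0 htu hcr (algebraMap K O a) a 0 (by ring)).2).symm

theorem c_t : c t = 0 :=
  ((cr_unique ht0 htu hcr t 0 1 (by rw [map_zero]; ring)).1).symm

theorem r_t : r t = 1 :=
  ((cr_unique ht0 htu hcr t 0 1 (by rw [map_zero]; ring)).2).symm

theorem r_zero : r 0 = 0 := by
  have := r_algebraMap ht0 htu hcr 0
  rwa [map_zero] at this

theorem c_zero : c 0 = 0 := by
  have := c_algebraMap ht0 htu hcr 0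
  rwa [map_zero] at this

theorem r_iterate_zero (n : ℕ) : r^[n] 0 = 0 := by
  induction n with
  | zero => rfl
  | succ n ih => rw [Function.iterate_succ_apply, r_zero ht0 htu hcr, ih]

theorem r_iterate_add (n : ℕ) (y y' : O) : r^[n] (y + y') = r^[n] y + r^[n] y' := by
  induction n generalizing y y' with
  | zero => rfl
  | succ n ih => rw [Function.iterate_succ_apply, Function.iterate_succ_apply,
      Function.iterate_succ_apply, r_add ht0 htu hcr, ih]

theorem expand_zero : expand c r 0 = 0 := by
  ext n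
  simp [expand, r_iterate_zero ht0 htu hcr, c_zero ht0 htu hcr]

theorem expand_add (y y' : O) : expand c r (y + y') = expand c r y + expand c r y' := by
  ext n
  simp [expand, r_iterate_add ht0 htu hcr, c_add ht0 htu hcr]

theorem expand_algebraMap (a : K) : expand c r (algebraMap K O a) = C a := by
  rw [expand_eq, c_algebraMap ht0 htu hcr, r_algebraMap ht0 htu hcr, expand_zero ht0 htu hcr,
    mul_zero, add_zero]

theorem expand_one : expand c r 1 = 1 := by
  have := expand_algebraMap ht0 htu hcr 1
  rwa [map_one, map_one] at this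

theorem expand_t : expand c r t = X := by
  rw [expand_eq, c_t ht0 htu hcr, r_t ht0 htu hcr, expand_one ht0 htu hcr, map_zero, zero_add,
    mul_one]

theorem coeff_expand_mul (n : ℕ) : ∀ y y' : O,
    coeff n (expand c r (y * y')) = coeff n (expand c r y * expand c r y') := by
  induction n with
  | zero =>
    intro y y'
    rw [coeff_zero_eq_constantCoeff, map_mul]
    simp [expand, c_mul ht0 htu hcr]
  | succ n ih =>
    intro y y'
    have e1 : coeff (n + 1) (expand c r (y * y')) = coeff n (expand c r (r (y * y'))) := by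
      simp [expand]
    have e2 : coeff (n + 1) (expand c r y') = coeff n (expand c r (r y')) := by
      simp [expand]
    rw [e1, r_mul ht0 htu hcr, expand_add ht0 htu hcr, map_add, ih, ih,
      expand_algebraMap ht0 htu hcr]
    conv_rhs => rw [expand_eq y, add_mul, map_add, mul_assoc, coeff_succ_X_mul, coeff_C_mul, e2]
    rw [coeff_C_mul]

theorem expand_mul (y y' : O) : expand c r (y * y') = expand c r y * expand c r y' := by
  ext n
  exact coeff_expand_mul ht0 htu hcr n y y'

/-- the expansion homomorphism -/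
def expandHom : O →ₐ[K] PowerSeries K where
  toFun := expand c r
  map_one' := expand_one ht0 htu hcr
  map_mul' := expand_mul ht0 htu hcr
  map_zero' := expand_zero ht0 htu hcr
  map_add' := expand_add ht0 htu hcr
  commutes' := expand_algebraMap ht0 htu hcr

omit ht0 htu [IsDomain O] in
theorem dvd_of_expand_eq_zero (n : ℕ) : ∀ y : O, expand c r y = 0 → t ^ n ∣ y := by
  induction n with
  | zero => intro y _; simp
  | succ n ih =>
    intro y hy
    have h1 := expand_eq (c := c) (r := r) y
    rw [hy] at h1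
    have h2 : c y = 0 := by
      have := congrArg (coeff 0) h1
      simpa using this.symm
    rw [h2, map_zero, zero_add] at h1
    have h3 : expand c r (r y) = 0 := by
      rcases mul_eq_zero.1 h1.symm with h | h
      · exact absurd h X_ne_zero
      · exact h
    obtain ⟨w, hw⟩ := ih (r y) h3
    refine ⟨w, ?_⟩
    nth_rewrite 1 [hcr y]
    rw [h2, map_zero, zero_add, hw]; ring

end

/-- existence of the expansion homomorphism at a "uniformizer" `t` -/
theorem exists_expansion (t : O) (ht0 : t ≠ 0) (htu : ¬ IsUnit t)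
    (H : ∀ y : O, ∃ a : K, ∃ z : O, y = algebraMap K O a + t * z)
    (Hsep : ∀ y : O, (∀ n : ℕ, t ^ n ∣ y) → y = 0) :
    ∃ φ : O →ₐ[K] PowerSeries K, Function.Injective φ ∧ φ t = X := by
  choose c r hcr using H
  refine ⟨expandHom ht0 htu hcr, ?_, expand_t ht0 htu hcr⟩
  rw [injective_iff_map_eq_zero]
  intro y hy
  exact Hsep y fun n => dvd_of_expand_eq_zero hcr n y hy

end expansion


section series

open PowerSeries

variable {K : Type*} [Field K]

theorem derivative_X_pow_mul [CharZero K] (e : ℕ) (U : PowerSeries K)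
    (hU : constantCoeff U ≠ 0) :
    ∃ W : PowerSeries K, constantCoeff W ≠ 0 ∧
      PowerSeries.derivative K (X ^ (e + 1) * U) = X ^ e * W := by
  refine ⟨((e : PowerSeries K) + 1) * U + X * PowerSeries.derivative K U, ?_, ?_⟩
  · have h1 : constantCoeff ((e : PowerSeries K) + 1) = (e : K) + 1 := by
      rw [map_add, map_natCast, map_one]
    rw [map_add, map_mul, map_mul, constantCoeff_X, zero_mul, add_zero, h1]
    exact mul_ne_zero (Nat.cast_add_one_ne_zero e) hU
  · rw [Derivation.leibniz, derivative_pow, derivative_X, smul_eq_mul, smul_eq_mul,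
      Nat.add_sub_cancel]
    push_cast
    ring

theorem X_pow_mul_cancel (a b : ℕ) (U₁ U₂ : PowerSeries K) (h₁ : constantCoeff U₁ ≠ 0)
    (h₂ : constantCoeff U₂ ≠ 0) (h : X ^ a * U₁ = X ^ b * U₂) : a = b := by
  have o₁ : U₁.order = 0 := order_zero_of_unit (isUnit_iff_constantCoeff.2 (isUnit_iff_ne_zero.2 h₁))
  have o₂ : U₂.order = 0 := order_zero_of_unit (isUnit_iff_constantCoeff.2 (isUnit_iff_ne_zero.2 h₂))
  have := congrArg PowerSeries.order h
  rw [order_mul, order_mul, order_X_pow, order_X_pow, o₁, o₂, add_zero, add_zero] at this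
  exact_mod_cast this

end series


section place

variable {K F : Type*} [Field K] [Field F] [Algebra K F] (v : Place K F)

theorem sep_of_irreducible {π : v.toValuationSubring} (hπ : Irreducible π)
    (y : v.toValuationSubring) (h : ∀ n : ℕ, π ^ n ∣ y) : y = 0 := by
  by_contra hy
  obtain ⟨n, u, hu⟩ := IsDiscreteValuationRing.eq_unit_mul_pow_irreducible hy hπ
  obtain ⟨w, hw⟩ := h (n + 1)
  have h1 : π ^ n * (u : v.toValuationSubring) = π ^ n * (π * w) := by
    rw [mul_comm, ← hu, hw]; ring
  have h2 := mul_left_cancel₀ (pow_ne_zero n hπ.ne_zero) h1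
  exact hπ.not_isUnit (isUnit_of_mul_isUnit_left (h2 ▸ u.isUnit))

/-- elements of nonnegative order lie in the valuation ring -/
theorem mem_of_ord_nonneg {y : F} (hy : 0 ≤ v.ord y) : y ∈ v.toValuationSubring := by
  rcases eq_or_ne y 0 with rfl | hy0
  · exact zero_mem _
  obtain ⟨π, hπ⟩ := IsDiscreteValuationRing.exists_irreducible v.toValuationSubring
  obtain ⟨u, hu⟩ := v.exists_unit_mul_zpow hy0 hπ
  obtain ⟨n, hn⟩ := Int.eq_ofNat_of_zero_le hy
  rw [hu, hn, zpow_natCast]
  exact mul_mem (u : v.toValuationSubring).2 (pow_mem π.2 n)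

/-- nonzero elements of the valuation ring: order and shape of the expansion -/
theorem expansion_shape {π : v.toValuationSubring} (hπ : Irreducible π)
    (φ : v.toValuationSubring →ₐ[K] PowerSeries K) (hφπ : φ π = PowerSeries.X)
    (z : v.toValuationSubring) (hz : z ≠ 0) :
    ∃ (n : ℕ) (U : PowerSeries K), PowerSeries.constantCoeff U ≠ 0 ∧
      φ z = PowerSeries.X ^ n * U ∧ v.ord (z : F) = n := by
  obtain ⟨n, u, hu⟩ := IsDiscreteValuationRing.eq_unit_mul_pow_irreducible hz hπ
  refine ⟨n, φ u, ?_, ?_, ?_⟩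
  · have : IsUnit (φ (u : v.toValuationSubring)) := u.isUnit.map φ
    exact (isUnit_iff_ne_zero.1 (PowerSeries.isUnit_iff_constantCoeff.1 this))
  · rw [hu, map_mul, map_pow, hφπ, mul_comm]
  · have := v.ord_unit_smul_zpow u hπ (n : ℤ)
    rw [zpow_natCast] at this
    rw [hu]
    push_cast
    exact this

theorem place_key [CharZero K] {π : v.toValuationSubring} (hπ : Irreducible π)
    (φ : v.toValuationSubring →ₐ[K] PowerSeries K) (hφ : Function.Injective φ)
    (hφπ : φ π = PowerSeries.X) (y s g₁ : v.toValuationSubring) (hs : s ≠ 0) (hy0 : y ≠ 0)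
    (hy : 0 < v.ord (y : F))
    (h : (s : F) • D K F (y : F) = (g₁ : F) • D K F (π : F)) :
    g₁ ≠ 0 ∧ v.ord (g₁ : F) = v.ord (s : F) + v.ord (y : F) - 1 := by
  -- the derivation `d/dT ∘ φ`
  let _ : Algebra v.toValuationSubring (PowerSeries K) := φ.toRingHom.toAlgebra
  have : IsScalarTower K v.toValuationSubring (PowerSeries K) :=
    IsScalarTower.of_algebraMap_eq (fun a => (φ.commutes a).symm)
  let δ : Derivation K v.toValuationSubring (PowerSeries K) :=
    (PowerSeries.derivative K).compAlgebraMap v.toValuationSubring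
  have hδ : ∀ z : v.toValuationSubring, δ z = PowerSeries.derivative K (φ z) := fun z => rfl
  have hsmul : ∀ (z : v.toValuationSubring) (p : PowerSeries K), z • p = φ z * p :=
    fun z p => rfl
  have hmap : (KaehlerDifferential.map K K v.toValuationSubring F) (s • D K v.toValuationSubring y)
      = (KaehlerDifferential.map K K v.toValuationSubring F)
        (g₁ • D K v.toValuationSubring π) := by
    rw [map_smul, map_smul, KaehlerDifferential.map_D, KaehlerDifferential.map_D,
      ← algebraMap_smul F s, ← algebraMap_smul F g₁]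
    exact h
  obtain ⟨c, hc⟩ := IsLocalizedModule.exists_of_eq
    (S := nonZeroDivisors v.toValuationSubring) hmap
  have hc' := congrArg δ.liftKaehlerDifferential hc
  rw [Submonoid.smul_def, Submonoid.smul_def, map_smul, map_smul, map_smul, map_smul,
    Derivation.liftKaehlerDifferential_comp_D, Derivation.liftKaehlerDifferential_comp_D,
    hδ, hδ, hφπ, PowerSeries.derivative_X, hsmul, hsmul, hsmul, hsmul, mul_one] at hc'
  have hc0 : φ (c : v.toValuationSubring) ≠ 0 := by
    intro h0
    have : (c : v.toValuationSubring) = 0 := hφ (by rw [h0, map_zero])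
    exact nonZeroDivisors.coe_ne_zero c this
  have hE : φ s * PowerSeries.derivative K (φ y) = φ g₁ := mul_left_cancel₀ hc0 hc'
  -- shapes
  obtain ⟨a, Us, hUs, hsφ, hsord⟩ := expansion_shape v hπ φ hφπ s hs
  obtain ⟨m, Uy, hUy, hyφ, hyord⟩ := expansion_shape v hπ φ hφπ y hy0
  obtain ⟨k, rfl⟩ : ∃ k, m = k + 1 := by
    rw [hyord] at hy
    exact ⟨m - 1, by omega⟩
  obtain ⟨W, hW, hder⟩ := derivative_X_pow_mul k Uy hUy
  rw [hsφ, hyφ, hder] at hE
  have hE' : φ g₁ = PowerSeries.X ^ (a + k) * (Us * W) := by rw [← hE]; ring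
  have hUW : PowerSeries.constantCoeff (Us * W) ≠ 0 := by
    rw [map_mul]; exact mul_ne_zero hUs hW
  have hg0 : g₁ ≠ 0 := by
    rintro rfl
    rw [map_zero] at hE'
    have h1 := congrArg (PowerSeries.coeff (a + k)) hE'
    rw [map_zero, PowerSeries.coeff_X_pow_mul', if_pos le_rfl, Nat.sub_self,
      PowerSeries.coeff_zero_eq_constantCoeff] at h1
    exact hUW h1.symm
  refine ⟨hg0, ?_⟩
  obtain ⟨b, Ug, hUg, hgφ, hgord⟩ := expansion_shape v hπ φ hφπ g₁ hg0
  have hab := X_pow_mul_cancel b (a + k) Ug (Us * W) hUg hUW (by rw [← hgφ, hE'])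
  rw [hgord, hsord, hyord, hab]
  push_cast
  ring


theorem ord_neg' (f : F) : v.ord (-f) = v.ord f := by
  simp [Place.ord, Valuation.map_neg]

theorem ord_coe_nonneg (z : v.toValuationSubring) : 0 ≤ v.ord (z : F) := by
  rcases eq_or_ne z 0 with rfl | hz
  · simp
  obtain ⟨π, hπ⟩ := IsDiscreteValuationRing.exists_irreducible v.toValuationSubring
  obtain ⟨n, u, hu⟩ := IsDiscreteValuationRing.eq_unit_mul_pow_irreducible hz hπ
  have := v.ord_unit_smul_zpow u hπ (n : ℤ)
  rw [zpow_natCast] at this
  rw [hu]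
  push_cast
  rw [this]
  exact Int.natCast_nonneg n

theorem ord_algebraMap' (a : K) : v.ord (algebraMap K F a) = 0 := by
  rcases eq_or_ne a 0 with rfl | ha
  · simp
  have h1 := ord_coe_nonneg v (algebraMap K v.toValuationSubring a)
  have h2 := ord_coe_nonneg v (algebraMap K v.toValuationSubring a⁻¹)
  rw [v.coe_algebraMap] at h1 h2
  rw [map_inv₀, v.ord_inv] at h2
  omega

theorem transcendental_of_ord_ne_zero [IsAlgClosed K] {t : F} (ht : v.ord t ≠ 0) :
    Transcendental K t := by
  intro halg
  have hint : IsIntegral K t := halg.isIntegral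
  have hdeg : (minpoly K t).degree = 1 :=
    IsAlgClosed.degree_eq_one_of_irreducible K (minpoly.irreducible hint)
  obtain ⟨a, rfl⟩ := minpoly.mem_range_of_degree_eq_one K t hdeg
  exact ht (ord_algebraMap' v a)

theorem exists_place_expansion {π : v.toValuationSubring} (hπ : Irreducible π)
    (hres : ∀ y ∈ v.toValuationSubring, ∃ (a : K) (z : F), z ∈ v.toValuationSubring ∧
      y = algebraMap K F a + (π : F) * z) :
    ∃ φ : v.toValuationSubring →ₐ[K] PowerSeries K, Function.Injective φ ∧
      φ π = PowerSeries.X := by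
  refine exists_expansion π hπ.ne_zero hπ.not_isUnit ?_ (sep_of_irreducible v hπ)
  intro y
  obtain ⟨a, z, hz, h⟩ := hres y y.2
  exact ⟨a, ⟨z, hz⟩, Subtype.ext (by simpa using h)⟩

theorem ord_coeff_of_pos [CharZero K] {π : v.toValuationSubring} (hπ : Irreducible π)
    (φ : v.toValuationSubring →ₐ[K] PowerSeries K) (hφ : Function.Injective φ)
    (hφπ : φ π = PowerSeries.X) (y g : F) (hy : 0 < v.ord y)
    (h : D K F y = g • D K F (π : F)) : g ≠ 0 ∧ v.ord g = v.ord y - 1 := by
  have hyO : y ∈ v.toValuationSubring := mem_of_ord_nonneg v hy.le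
  have hy0 : y ≠ 0 := by
    rintro rfl
    simp at hy
  have hy0' : (⟨y, hyO⟩ : v.toValuationSubring) ≠ 0 := by
    intro h0
    exact hy0 (congrArg Subtype.val h0)
  rcases v.toValuationSubring.mem_or_inv_mem g with hg | hg
  · obtain ⟨h1, h2⟩ := place_key v hπ φ hφ hφπ ⟨y, hyO⟩ 1 ⟨g, hg⟩ one_ne_zero hy0' hy
      (by simpa using h)
    refine ⟨fun h0 => h1 (Subtype.ext h0), ?_⟩
    simpa using h2
  · have hg0 : g ≠ 0 := by
      rintro rfl
      have hD : D K F y = 0 := by rw [h, zero_smul]
      obtain ⟨h1, -⟩ := place_key v hπ φ hφ hφπ ⟨y, hyO⟩ 1 0 one_ne_zero hy0' hy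
        (by simp [hD])
      exact h1 rfl
    have hs0 : (⟨g⁻¹, hg⟩ : v.toValuationSubring) ≠ 0 := by
      intro h0
      exact inv_ne_zero hg0 (congrArg Subtype.val h0)
    obtain ⟨-, h2⟩ := place_key v hπ φ hφ hφπ ⟨y, hyO⟩ ⟨g⁻¹, hg⟩ 1 hs0 hy0' hy
      (by
        show g⁻¹ • D K F y = ((1 : v.toValuationSubring) : F) • D K F (π : F)
        rw [h, smul_smul, inv_mul_cancel₀ hg0]
        simp)
    refine ⟨hg0, ?_⟩
    have h3 : v.ord (((1 : v.toValuationSubring) : F)) = 0 := by simp
    rw [h3] at h2
    have h4 : v.ord g⁻¹ = -v.ord g := v.ord_inv g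
    change (0 : ℤ) = v.ord g⁻¹ + v.ord y - 1 at h2
    omega

theorem ord_coeff [CharZero K] {π : v.toValuationSubring} (hπ : Irreducible π)
    (φ : v.toValuationSubring →ₐ[K] PowerSeries K) (hφ : Function.Injective φ)
    (hφπ : φ π = PowerSeries.X) (y g : F) (hy : v.ord y ≠ 0)
    (h : D K F y = g • D K F (π : F)) : g ≠ 0 ∧ v.ord g = v.ord y - 1 := by
  rcases lt_or_gt_of_ne hy with hneg | hpos
  · have hy0 : y ≠ 0 := by
      rintro rfl
      simp at hy
    have hinv : D K F y⁻¹ = (-(y⁻¹ ^ 2 * g)) • D K F (π : F) := by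
      rw [Derivation.leibniz_inv, h, smul_smul, neg_mul]
    have hpos : 0 < v.ord y⁻¹ := by rw [v.ord_inv]; omega
    obtain ⟨h1, h2⟩ := ord_coeff_of_pos v hπ φ hφ hφπ y⁻¹ _ hpos hinv
    have hg0 : g ≠ 0 := by
      rintro rfl
      simp at h1
    refine ⟨hg0, ?_⟩
    have hy2 : y⁻¹ ^ 2 ≠ 0 := pow_ne_zero 2 (inv_ne_zero hy0)
    rw [ord_neg', v.ord_mul hy2 hg0, pow_two, v.ord_mul (inv_ne_zero hy0) (inv_ne_zero hy0),
      v.ord_inv] at h2
    omega
  · exact ord_coeff_of_pos v hπ φ hφ hφπ y g hpos h

theorem D_uniformizer_ne_zero [CharZero K] {π : v.toValuationSubring} (hπ : Irreducible π)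
    (φ : v.toValuationSubring →ₐ[K] PowerSeries K) (hφ : Function.Injective φ)
    (hφπ : φ π = PowerSeries.X) : D K F (π : F) ≠ 0 := by
  intro h0
  have h1 : D K F (π : F) = (0 : F) • D K F (π : F) := by rw [zero_smul, h0]
  have h2 : 0 < v.ord (π : F) := by rw [v.ord_coe_irreducible hπ]; norm_num
  exact (ord_coeff_of_pos v hπ φ hφ hφπ (π : F) 0 h2 h1).1 rfl

end place

section core

variable {K F : Type*} [Field K] [Field F] [Algebra K F]

/-- Everything needed at a place `v`, from two facts about places (finite-dimensionality over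
`K(f)` for transcendental `f`, and `𝒪_v = K + t 𝒪_v` for a uniformizer `t`). -/
theorem place_setup [IsAlgClosed K] [CharZero K] (v : Place K F)
    (hfd : ∀ f : F, Transcendental K f → FiniteDimensional K⟮f⟯ F)
    (hres : ∀ t : F, v.ord t = 1 → ∀ y ∈ v.toValuationSubring,
      ∃ (a : K) (z : F), z ∈ v.toValuationSubring ∧ y = algebraMap K F a + t * z) :
    ∃ t : F, v.dCoord = D K F t ∧ D K F t ≠ 0 ∧ (∀ ω : Ω[F⁄K], ∃ f : F, ω = f • D K F t) ∧
      ∀ y g : F, v.ord y ≠ 0 → D K F y = g • D K F t → g ≠ 0 ∧ v.ord g = v.ord y - 1 := by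
  have hπ := (IsDiscreteValuationRing.exists_irreducible v.toValuationSubring).choose_spec
  set π := (IsDiscreteValuationRing.exists_irreducible v.toValuationSubring).choose with hπdef
  have hord : v.ord (π : F) = 1 := v.ord_coe_irreducible hπ
  obtain ⟨φ, hφ, hφπ⟩ := exists_place_expansion v hπ (hres _ hord)
  have htr : Transcendental K (π : F) :=
    transcendental_of_ord_ne_zero v (by rw [hord]; norm_num)
  have := hfd _ htr
  exact ⟨(π : F), rfl, D_uniformizer_ne_zero v hπ φ hφ hφπ,
    exists_smul_D_of_algebraic (π : F), fun y g hy h => ord_coeff v hπ φ hφ hφπ y g hy h⟩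

variable [IsAlgClosed K] [CharZero K]
  (hfd : ∀ f : F, Transcendental K f → FiniteDimensional K⟮f⟯ F)
  (hres : ∀ (v : Place K F) (t : F), v.ord t = 1 → ∀ y ∈ v.toValuationSubring,
      ∃ (a : K) (z : F), z ∈ v.toValuationSubring ∧ y = algebraMap K F a + t * z)

include hfd hres

theorem core_D_ne_zero (hne : Nonempty (Place K F)) (x : F) [Algebra.IsAlgebraic K⟮x⟯ F] :
    D K F x ≠ 0 := by
  obtain ⟨v⟩ := hne
  obtain ⟨t, -, ht0, -, -⟩ := place_setup v hfd (hres v)
  intro h0
  obtain ⟨f, hf⟩ := exists_smul_D_of_algebraic x (D K F t)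
  rw [h0, smul_zero] at hf
  exact ht0 hf

theorem core_dCoordGenerates (v : Place K F) : v.DCoordGenerates := by
  obtain ⟨t, hd, -, hspan, -⟩ := place_setup v hfd (hres v)
  refine ⟨?_⟩
  rw [eq_top_iff]
  intro ω _
  obtain ⟨f, hf⟩ := hspan ω
  rw [hd]
  exact Submodule.mem_span_singleton.2 ⟨f, hf.symm⟩

theorem core_nontrivial (v : Place K F) : Nontrivial Ω[F⁄K] := by
  obtain ⟨t, -, ht0, -, -⟩ := place_setup v hfd (hres v)
  exact ⟨⟨D K F t, 0, ht0⟩⟩

theorem core_ordDifferential_smul_D (x : F) [Algebra.IsAlgebraic K⟮x⟯ F] (v : Place K F)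
    (f : F) (hf : f ≠ 0) :
    v.ordDifferential (f • D K F x) = v.ord f + v.ordDifferential (D K F x) := by
  have := core_dCoordGenerates hfd hres v
  have := core_nontrivial hfd hres v
  have hDx : D K F x ≠ 0 := core_D_ne_zero hfd hres ⟨v⟩ x
  have hg : v.differentialCoeff (D K F x) ≠ 0 := by
    intro h0
    have := v.differentialCoeff_smul_dCoord (D K F x)
    rw [h0, zero_smul] at this
    exact hDx this.symm
  exact v.ordDifferential_smul hf hg

theorem core_ordDifferential_D (x : F) (v : Place K F) (y : F) (hy : v.ord y ≠ 0)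
    (hxy : D K F y = D K F x) :
    v.ordDifferential (D K F x) = v.ord y - 1 := by
  have := core_dCoordGenerates hfd hres v
  obtain ⟨t, hd, -, -, hord⟩ := place_setup v hfd (hres v)
  have hgx : D K F y = v.differentialCoeff (D K F x) • D K F t := by
    rw [hxy, ← hd]
    exact (v.differentialCoeff_smul_dCoord _).symm
  exact (hord y _ hy hgx).2

theorem core_ordDifferential_D_of_zero (x : F) (v : Place K F) (c : K)
    (h : 0 < v.ord (x - algebraMap K F c)) :
    v.ordDifferential (D K F x) = v.ord (x - algebraMap K F c) - 1 :=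
  core_ordDifferential_D hfd hres x v _ h.ne'
    (by rw [map_sub, Derivation.map_algebraMap, sub_zero])

theorem core_ordDifferential_D_of_pole (x : F) (v : Place K F) (h : v.ord x < 0) :
    v.ordDifferential (D K F x) = v.ord x - 1 :=
  core_ordDifferential_D hfd hres x v x h.ne rfl

end core

end Fermat.Agent.S24_DiffCore
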