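import Mathlib
import Fermat.Prelude.Def_AlgebraicCurve_DivisorClassGroup

/-!
# S24, package C5 (abstract part): places of a function field and Dedekind domains

`AlgebraicCurve.Place K F` (DVRs of `F` containing `K`) versus height-one primes of a Dedekind
domain `R ⊆ F` with fraction field `F`.
-/

set_option autoImplicit false

open IsDedekindDomain IsLocalRing WithZero

namespace Fermat.Agent.S24_Places

open AlgebraicCurve

variable {K F : Type*} [Field K] [Field F] [Algebra K F]

section Integral


theorem mem_valuationSubring_of_isIntegral {A : Type*} [CommRing A] [Algebra A F]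
    (V : ValuationSubring F) (hA : ∀ a : A, algebraMap A F a ∈ V) {b : F}
    (hb : IsIntegral A b) : b ∈ V := by
  let φ : A →+* V := (algebraMap A F).codRestrict V.toSubring hA
  obtain ⟨p, hp, hpb⟩ := hb
  have hint : IsIntegral V b := by
    refine ⟨p.map φ, hp.map φ, ?_⟩
    rw [Polynomial.eval₂_map]
    exact hpb
  obtain ⟨y, hy⟩ := IsIntegrallyClosed.isIntegral_iff.mp hint
  rw [← hy]
  exact y.2


end Integral

section Dedekind

variable {R : Type*} [CommRing R] [IsDedekindDomain R] [Algebra R F] [IsFractionRing R F]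


/-- The centre on `R` of a place whose valuation ring contains `R`. -/
theorem exists_heightOneSpectrum_of_le (v : Place K F)
    (h : ∀ r : R, algebraMap R F r ∈ v.toValuationSubring) :
    ∃ w : HeightOneSpectrum R, (w.valuation F).valuationSubring = v.toValuationSubring ∧
      ∀ r : R, r ∈ w.asIdeal ↔
        (⟨algebraMap R F r, h r⟩ : v.toValuationSubring) ∈ maximalIdeal v.toValuationSubring := by
  classical
  let φ : R →+* v.toValuationSubring :=
    (algebraMap R F).codRestrict v.toValuationSubring.toSubring h
  let P : Ideal R := (maximalIdeal v.toValuationSubring).comap φ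
  have hPprime : P.IsPrime := Ideal.comap_isPrime φ _
  have hφinj : Function.Injective φ := by
    intro a b hab
    have : algebraMap R F a = algebraMap R F b := congrArg Subtype.val hab
    exact IsFractionRing.injective R F this
  have hPne : P ≠ ⊥ := by
    intro hbot
    apply v.ne_top'
    refine SetLike.ext fun x => ⟨fun _ => ValuationSubring.mem_top x, fun _ => ?_⟩
    obtain ⟨a, s, hs, rfl⟩ := IsFractionRing.div_surjective (A := R) x
    have hs0 : s ≠ 0 := nonZeroDivisors.ne_zero hs
    have hsP : s ∉ P := by
      rw [hbot]; simpa using hs0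
    have hunit : IsUnit (φ s) := by
      by_contra hnu
      exact hsP (by
        show φ s ∈ maximalIdeal v.toValuationSubring
        exact (IsLocalRing.mem_maximalIdeal _).mpr hnu)
    obtain ⟨u, hu⟩ := hunit
    have : algebraMap R F a / algebraMap R F s
        = ((φ a * (↑u⁻¹ : v.toValuationSubring) : v.toValuationSubring) : F) := by
      have h1 : ((↑u : v.toValuationSubring) : F) = algebraMap R F s := by rw [hu]; rfl
      have h2 : ((↑u : v.toValuationSubring) : F) * ((↑u⁻¹ : v.toValuationSubring) : F) = 1 := by
        rw [← MulMemClass.coe_mul, Units.mul_inv]; rfl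
      have h3 : algebraMap R F s ≠ 0 := by
        intro h0
        exact hs0 (IsFractionRing.injective R F (by rw [h0, map_zero]))
      rw [div_eq_iff h3]
      show algebraMap R F a = algebraMap R F a * _ * _
      rw [mul_assoc, ← h1, mul_comm (((↑u⁻¹ : v.toValuationSubring) : F)), h2, mul_one]
    rw [this]
    exact SetLike.coe_mem _
  let w : HeightOneSpectrum R := ⟨P, hPprime, hPne⟩
  refine ⟨w, ?_, fun r => Iff.rfl⟩
  rw [← HeightOneSpectrum.valuationSubringAtPrime_eq_valuationSubring]
  refine ValuationSubring.eq_of_le_of_ne_top _ ?_ v.ne_top'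
  rintro x ⟨a, s, hs, rfl⟩
  have hsP : s ∉ P := hs
  have hunit : IsUnit (φ s) := by
    by_contra hnu
    exact hsP (by
      show φ s ∈ maximalIdeal v.toValuationSubring
      exact (IsLocalRing.mem_maximalIdeal _).mpr hnu)
  obtain ⟨u, hu⟩ := hunit
  have h1 : ((↑u : v.toValuationSubring) : F) = algebraMap R F s := by rw [hu]; rfl
  have h2 : ((↑u : v.toValuationSubring) : F) * ((↑u⁻¹ : v.toValuationSubring) : F) = 1 := by
    rw [← MulMemClass.coe_mul, Units.mul_inv]; rfl
  have h3 : (algebraMap R F s)⁻¹ = ((↑u⁻¹ : v.toValuationSubring) : F) := by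
    rw [← h1]
    exact inv_eq_of_mul_eq_one_right h2
  rw [h3]
  exact mul_mem (h a) (SetLike.coe_mem _)


theorem ord_ofHeightOneSpectrum [Algebra K R] [IsScalarTower K R F] (w : HeightOneSpectrum R)
    (f : F) :
    (Place.ofHeightOneSpectrum (K := K) (F := F) w).ord f = - WithZero.log (w.valuation F f) := by
  set v := Place.ofHeightOneSpectrum (K := K) (F := F) w with hv
  rcases eq_or_ne f 0 with rfl | hf
  · simp
  obtain ⟨π, hπ⟩ := w.valuation_exists_uniformizer F
  have hπ0 : π ≠ 0 := by
    rintro rfl
    rw [map_zero] at hπ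
    exact exp_ne_zero hπ.symm
  have hmem : ∀ x : F, x ∈ v.toValuationSubring ↔ w.valuation F x ≤ 1 := fun x => Iff.rfl
  have hπmem : π ∈ v.toValuationSubring := by
    rw [hmem, hπ, ← exp_zero, exp_le_exp]; norm_num
  have hirr : Irreducible (⟨π, hπmem⟩ : v.toValuationSubring) := by
    rw [IsDiscreteValuationRing.irreducible_iff_uniformizer]
    apply le_antisymm
    · intro a ha
      rw [Ideal.mem_span_singleton]
      have ha' : w.valuation F (a : F) < 1 := by
        by_contra hnot
        have h1 : w.valuation F (a : F) = 1 := le_antisymm a.2 (not_lt.mp hnot)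
        have hane : (a : F) ≠ 0 := by
          rintro h0; rw [h0] at h1; simp at h1
        have : IsUnit a := by
          refine IsUnit.of_mul_eq_one (⟨(a : F)⁻¹, ?_⟩ : v.toValuationSubring) ?_
          · rw [hmem, map_inv₀, h1, inv_one]
          · ext; simp [hane]
        exact (IsLocalRing.mem_maximalIdeal _).mp ha this
      have hle : w.valuation F (a : F) ≤ exp (-1 : ℤ) := by
        rcases eq_or_ne (w.valuation F (a : F)) 0 with h0 | h0
        · rw [h0]; exact zero_le
        · rw [← exp_log h0] at ha' ⊢
          rw [← exp_zero, exp_lt_exp] at ha'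
          rw [exp_le_exp]; omega
      refine ⟨⟨(a : F) * π⁻¹, ?_⟩, ?_⟩
      · rw [hmem, map_mul, map_inv₀, hπ]
        calc w.valuation F (a : F) * (exp (-1 : ℤ))⁻¹ ≤ exp (-1 : ℤ) * (exp (-1 : ℤ))⁻¹ := by
              gcongr
          _ = 1 := mul_inv_cancel₀ exp_ne_zero
      · ext
        show (a : F) = π * ((a : F) * π⁻¹)
        field_simp
    · rw [Ideal.span_singleton_le_iff_mem, IsLocalRing.mem_maximalIdeal, mem_nonunits_iff]
      intro hu
      obtain ⟨b, hb⟩ := hu.exists_right_inv
      have hb' : π * (b : F) = 1 := congrArg Subtype.val hb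
      have h1 : w.valuation F π * w.valuation F (b : F) = 1 := by rw [← map_mul, hb', map_one]
      have h2 : w.valuation F (b : F) ≤ 1 := b.2
      rw [hπ] at h1
      have h3 : (1 : ℤᵐ⁰) ≤ exp (-1 : ℤ) := by
        calc (1 : ℤᵐ⁰) = exp (-1 : ℤ) * w.valuation F (b : F) := h1.symm
          _ ≤ exp (-1 : ℤ) * 1 := by gcongr
          _ = exp (-1 : ℤ) := mul_one _
      rw [← exp_zero, exp_le_exp] at h3
      omega
  have hf0 : w.valuation F f ≠ 0 := (Valuation.ne_zero_iff _).mpr hf
  set n : ℤ := - WithZero.log (w.valuation F f) with hn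
  have hval : w.valuation F f = exp (-n) := by
    rw [hn, neg_neg, exp_log hf0]
  have hu1 : w.valuation F (f * (π ^ n)⁻¹) = 1 := by
    rw [map_mul, map_inv₀, map_zpow₀, hπ, hval, ← exp_zsmul, smul_eq_mul, mul_neg, mul_one]
    exact mul_inv_cancel₀ exp_ne_zero
  have hu1' : w.valuation F ((f * (π ^ n)⁻¹)⁻¹) = 1 := by rw [map_inv₀, hu1, inv_one]
  have hne : f * (π ^ n)⁻¹ ≠ 0 := mul_ne_zero hf (inv_ne_zero (zpow_ne_zero n hπ0))
  let u : v.toValuationSubringˣ :=
    ⟨⟨f * (π ^ n)⁻¹, (hmem _).mpr hu1.le⟩, ⟨(f * (π ^ n)⁻¹)⁻¹, (hmem _).mpr hu1'.le⟩,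
      Subtype.ext (mul_inv_cancel₀ hne), Subtype.ext (inv_mul_cancel₀ hne)⟩
  have key : f = ((u : v.toValuationSubring) : F) * (((⟨π, hπmem⟩ : v.toValuationSubring) : F) ^ n) := by
    show f = f * (π ^ n)⁻¹ * π ^ n
    field_simp
  rw [key, v.ord_unit_smul_zpow u hirr n]


theorem ofHeightOneSpectrum_injective [Algebra K R] [IsScalarTower K R F] :
    Function.Injective (Place.ofHeightOneSpectrum (K := K) (F := F) (R := R)) := by
  intro w w' h
  have h' : (w.valuation F).valuationSubring = (w'.valuation F).valuationSubring :=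
    congrArg Place.toValuationSubring h
  exact HeightOneSpectrum.eq_of_valuation_isEquiv_valuation
    ((Valuation.isEquiv_iff_valuationSubring _ _).mpr h')

/-- the inclusion `R → O_v` for `v` the place attached to `w`. -/
noncomputable def toValRing [Algebra K R] [IsScalarTower K R F] (w : HeightOneSpectrum R) :
    R →+* (Place.ofHeightOneSpectrum (K := K) (F := F) w).toValuationSubring :=
  (algebraMap R F).codRestrict (w.valuation F).valuationSubring.toSubring
    (fun r => w.valuation_le_one r)

@[simp] theorem coe_toValRing [Algebra K R] [IsScalarTower K R F] (w : HeightOneSpectrum R)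
    (r : R) : ((toValRing (K := K) (F := F) w r : _) : F) = algebraMap R F r := rfl

/-- the residue map `R → κ(v)` for `v` the place attached to `w`. -/
noncomputable def residueHom [Algebra K R] [IsScalarTower K R F] (w : HeightOneSpectrum R) :
    R →ₐ[K] (Place.ofHeightOneSpectrum (K := K) (F := F) w).ResidueField where
  toRingHom := (IsLocalRing.residue _).comp (toValRing (K := K) (F := F) w)
  commutes' k := by
    show IsLocalRing.residue _ _ = IsLocalRing.residue _ (algebraMap K _ k)
    exact congrArg _ (Subtype.ext (IsScalarTower.algebraMap_apply K R F k).symm)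

theorem residueHom_apply [Algebra K R] [IsScalarTower K R F] (w : HeightOneSpectrum R) (r : R) :
    residueHom (K := K) (F := F) w r = IsLocalRing.residue _ (toValRing (K := K) (F := F) w r) :=
  rfl

theorem mem_maximalIdeal_ofHeightOneSpectrum_iff [Algebra K R] [IsScalarTower K R F]
    (w : HeightOneSpectrum R)
    (a : (Place.ofHeightOneSpectrum (K := K) (F := F) w).toValuationSubring) :
    a ∈ maximalIdeal (Place.ofHeightOneSpectrum (K := K) (F := F) w).toValuationSubring ↔
      w.valuation F (a : F) < 1 := by
  rw [IsLocalRing.mem_maximalIdeal, mem_nonunits_iff]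
  constructor
  · intro hnu
    by_contra hnot
    have h1 : w.valuation F (a : F) = 1 := le_antisymm a.2 (not_lt.mp hnot)
    have hane : (a : F) ≠ 0 := by
      rintro h0; rw [h0, map_zero] at h1; exact zero_ne_one h1
    apply hnu
    refine IsUnit.of_mul_eq_one (⟨(a : F)⁻¹, ?_⟩ :
      (Place.ofHeightOneSpectrum (K := K) (F := F) w).toValuationSubring) ?_
    · show w.valuation F (a : F)⁻¹ ≤ 1
      rw [map_inv₀, h1, inv_one]
    · exact Subtype.ext (mul_inv_cancel₀ hane)
  · intro hlt hu
    obtain ⟨b, hb⟩ := hu.exists_right_inv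
    have hb' : (a : F) * (b : F) = 1 := congrArg Subtype.val hb
    have h1 : w.valuation F (a : F) * w.valuation F (b : F) = 1 := by
      rw [← map_mul, hb', map_one]
    have h2 : w.valuation F (b : F) ≤ 1 := b.2
    have h3 : w.valuation F (a : F) * w.valuation F (b : F) < 1 := by
      calc w.valuation F (a : F) * w.valuation F (b : F) ≤ w.valuation F (a : F) * 1 := by gcongr
        _ < 1 := by rwa [mul_one]
    exact absurd h1 h3.ne

theorem ker_residueHom [Algebra K R] [IsScalarTower K R F] (w : HeightOneSpectrum R) :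
    RingHom.ker (residueHom (K := K) (F := F) w) = w.asIdeal := by
  ext r
  rw [RingHom.mem_ker]
  show IsLocalRing.residue _ (toValRing (K := K) (F := F) w r) = 0 ↔ _
  rw [IsLocalRing.residue_eq_zero_iff, mem_maximalIdeal_ofHeightOneSpectrum_iff,
    coe_toValRing, HeightOneSpectrum.valuation_lt_one_iff_mem]

theorem residueHom_surjective [Algebra K R] [IsScalarTower K R F] (w : HeightOneSpectrum R) :
    Function.Surjective (residueHom (K := K) (F := F) w) := by
  intro y
  obtain ⟨a, rfl⟩ := IsLocalRing.residue_surjective y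
  obtain ⟨n, d, hnd⟩ := w.exists_primeCompl_mul_eq_of_integer (a : F) a.2
  have hdw : (d : R) ∉ w.asIdeal := d.2
  have hmax : w.asIdeal.IsMaximal := w.isMaximal
  obtain ⟨d', hd'⟩ := Ideal.Quotient.exists_inv (I := w.asIdeal)
    (a := Ideal.Quotient.mk w.asIdeal (d : R))
    (by rwa [Ne, Ideal.Quotient.eq_zero_iff_mem])
  obtain ⟨e, rfl⟩ := Ideal.Quotient.mk_surjective d'
  have h1 : (d : R) * e - 1 ∈ w.asIdeal := by
    rw [← Ideal.Quotient.eq, map_mul, hd', map_one]
  have h1' : residueHom (K := K) (F := F) w ((d : R) * e - 1) = 0 := by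
    rw [← RingHom.mem_ker, ker_residueHom (K := K) (F := F) w]
    exact h1
  rw [map_sub, map_mul, map_one, sub_eq_zero] at h1'
  refine ⟨n * e, ?_⟩
  have h2 : IsLocalRing.residue _ a * residueHom (K := K) (F := F) w (d : R)
      = residueHom (K := K) (F := F) w n := by
    rw [residueHom_apply, residueHom_apply, ← map_mul]
    exact congrArg _ (Subtype.ext hnd)
  rw [map_mul, ← h2, mul_assoc, h1', mul_one]

theorem deg_ofHeightOneSpectrum [Algebra K R] [IsScalarTower K R F] (w : HeightOneSpectrum R) :
    (Place.ofHeightOneSpectrum (K := K) (F := F) w).deg = Module.finrank K (R ⧸ w.asIdeal) := by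
  have e1 := Ideal.quotientKerAlgEquivOfSurjective (residueHom_surjective (K := K) (F := F) w)
  have e2 : (R ⧸ RingHom.ker (residueHom (K := K) (F := F) w)) ≃ₐ[K] (R ⧸ w.asIdeal) :=
    Ideal.quotientEquivAlgOfEq K (ker_residueHom (K := K) (F := F) w)
  exact (e2.symm.trans e1).toLinearEquiv.finrank_eq.symm


/-- A place whose valuation ring contains the Dedekind domain `R` comes from a unique
height-one prime of `R`. -/
theorem existsUnique_ofHeightOneSpectrum [Algebra K R] [IsScalarTower K R F] (v : Place K F)
    (h : ∀ r : R, algebraMap R F r ∈ v.toValuationSubring) :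
    ∃! w : HeightOneSpectrum R, Place.ofHeightOneSpectrum (K := K) (F := F) w = v := by
  obtain ⟨w, hw, -⟩ := exists_heightOneSpectrum_of_le v h
  refine ⟨w, Place.ext hw, fun w' hw' => ?_⟩
  exact ofHeightOneSpectrum_injective (K := K) (F := F) (hw'.trans (Place.ext hw).symm)

end Dedekind

section FunctionField

open IntermediateField
open scoped IntermediateField.algebraAdjoinAdjoin

/-- Over an algebraically closed field, every maximal ideal of a finitely generated algebra has
residue field `K`. -/
theorem exists_sub_mem_of_isAlgClosed [IsAlgClosed K] {B : Type*} [CommRing B] [Algebra K B]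
    [Algebra.FiniteType K B] (m : Ideal B) [m.IsMaximal] (b : B) :
    ∃ k : K, b - algebraMap K B k ∈ m := by
  let _ := Ideal.Quotient.field m
  have h1 : Algebra.FiniteType K (B ⧸ m) :=
    Algebra.FiniteType.of_surjective (Ideal.Quotient.mkₐ K m) (Ideal.Quotient.mkₐ_surjective K m)
  have h2 : Module.Finite K (B ⧸ m) := finite_of_finite_type_of_isJacobsonRing K (B ⧸ m)
  obtain ⟨k, hk⟩ := (IsAlgClosed.algebraMap_bijective_of_isIntegral (k := K) (K := B ⧸ m)).2
    (Ideal.Quotient.mk m b)
  refine ⟨k, ?_⟩
  rw [← Ideal.Quotient.eq, ← hk]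
  rfl

theorem isPrincipalIdealRing_adjoin {x : F} (hx : Transcendental K x) :
    IsPrincipalIdealRing (Algebra.adjoin K {x}) := by
  have hinj : Function.Injective (Polynomial.aeval (R := K) x) :=
    transcendental_iff_injective.mp hx
  let e : Polynomial K ≃ₐ[K] (Polynomial.aeval (R := K) x).range := AlgEquiv.ofInjective _ hinj
  have hrange : (Polynomial.aeval (R := K) x).range = Algebra.adjoin K {x} :=
    (Algebra.adjoin_singleton_eq_range_aeval K x).symm
  rw [← hrange]
  exact IsPrincipalIdealRing.of_surjective e.toRingEquiv.toRingHom e.surjective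

theorem finiteType_integralClosure {x : F} (hx : Transcendental K x) [FiniteDimensional K⟮x⟯ F]
    [CharZero K] : Algebra.FiniteType K (integralClosure (Algebra.adjoin K {x}) F) := by
  have := isPrincipalIdealRing_adjoin hx
  have h1 : Module.Finite (Algebra.adjoin K {x}) (integralClosure (Algebra.adjoin K {x}) F) :=
    IsIntegralClosure.finite (Algebra.adjoin K {x}) K⟮x⟯ F _
  have h2 : Algebra.FiniteType K (Algebra.adjoin K {x}) :=
    Algebra.FiniteType.adjoin_of_finite (Set.finite_singleton x)
  exact Algebra.FiniteType.trans h2 inferInstance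

/-- the valuation ring of a place as a `K`-subalgebra -/
def placeSubalgebra (v : Place K F) : Subalgebra K F :=
  { v.toValuationSubring.toSubring with algebraMap_mem' := v.algebraMap_mem' }

theorem mem_placeSubalgebra (v : Place K F) (f : F) :
    f ∈ placeSubalgebra v ↔ f ∈ v.toValuationSubring := Iff.rfl

theorem adjoin_le_of_mem (v : Place K F) {x : F} (hx : x ∈ v.toValuationSubring) :
    ∀ a : Algebra.adjoin K {x}, (a : F) ∈ v.toValuationSubring := by
  intro a
  have h : Algebra.adjoin K {x} ≤ placeSubalgebra v :=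
    Algebra.adjoin_le (by simpa [mem_placeSubalgebra] using hx)
  exact h a.2

theorem integralClosure_le_of_mem (v : Place K F) {x : F} (hx : x ∈ v.toValuationSubring) :
    ∀ b : integralClosure (Algebra.adjoin K {x}) F, (b : F) ∈ v.toValuationSubring := by
  intro b
  exact mem_valuationSubring_of_isIntegral (A := Algebra.adjoin K {x}) v.toValuationSubring
    (adjoin_le_of_mem v hx) b.2

/-- Every place with `x ∈ O_v` is attached to a height-one prime of the integral closure of
`K[x]`. -/
theorem exists_ofHeightOneSpectrum_of_mem {x : F}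
    [IsDedekindDomain (integralClosure (Algebra.adjoin K {x}) F)]
    [IsFractionRing (integralClosure (Algebra.adjoin K {x}) F) F]
    (v : Place K F) (hv : x ∈ v.toValuationSubring) :
    ∃! w : HeightOneSpectrum (integralClosure (Algebra.adjoin K {x}) F),
      Place.ofHeightOneSpectrum (K := K) (F := F) w = v :=
  existsUnique_ofHeightOneSpectrum v (integralClosure_le_of_mem v hv)

theorem deg_eq_one_of_mem [IsAlgClosed K] [CharZero K] {x : F} (hx : Transcendental K x)
    [FiniteDimensional K⟮x⟯ F] (v : Place K F) (hv : x ∈ v.toValuationSubring) : v.deg = 1 := by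
  have := isPrincipalIdealRing_adjoin hx
  have : IsDedekindDomain (integralClosure (Algebra.adjoin K {x}) F) :=
    integralClosure.isDedekindDomain (Algebra.adjoin K {x}) K⟮x⟯ F
  have : IsFractionRing (integralClosure (Algebra.adjoin K {x}) F) F :=
    integralClosure.isFractionRing_of_finite_extension K⟮x⟯ F
  have := finiteType_integralClosure (K := K) (F := F) hx
  obtain ⟨w, rfl, -⟩ := exists_ofHeightOneSpectrum_of_mem v hv
  rw [deg_ofHeightOneSpectrum]
  have hmax : w.asIdeal.IsMaximal := w.isMaximal
  let _ := Ideal.Quotient.field w.asIdeal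
  rw [finrank_eq_one_iff_of_nonzero' (1 : integralClosure (Algebra.adjoin K {x}) F ⧸ w.asIdeal)
    one_ne_zero]
  intro y
  obtain ⟨b, rfl⟩ := Ideal.Quotient.mk_surjective y
  obtain ⟨k, hk⟩ := exists_sub_mem_of_isAlgClosed (K := K) w.asIdeal b
  refine ⟨k, ?_⟩
  rw [Algebra.smul_def, mul_one]
  exact (Ideal.Quotient.eq.mpr hk).symm

theorem finiteDimensional_of_eq {E E' : IntermediateField K F} (h : E = E')
    [FiniteDimensional E F] : FiniteDimensional E' F := by
  subst h; infer_instance

theorem adjoin_inv_eq (x : F) : K⟮x⁻¹⟯ = K⟮x⟯ := by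
  apply le_antisymm
  · rw [adjoin_simple_le_iff]
    exact inv_mem (mem_adjoin_simple_self K x)
  · rw [adjoin_simple_le_iff]
    have := inv_mem (mem_adjoin_simple_self K x⁻¹)
    rwa [inv_inv] at this

/-- Over an algebraically closed field of characteristic zero, all places of a function field
of one variable have degree one. -/
theorem deg_eq_one [IsAlgClosed K] [CharZero K] {x : F} (hx : Transcendental K x)
    [FiniteDimensional K⟮x⟯ F] (v : Place K F) : v.deg = 1 := by
  rcases v.toValuationSubring.mem_or_inv_mem x with h | h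
  · exact deg_eq_one_of_mem hx v h
  · have hx' : Transcendental K x⁻¹ := fun halg => hx (by simpa using halg.inv)
    have : FiniteDimensional K⟮x⁻¹⟯ F := finiteDimensional_of_eq (adjoin_inv_eq (K := K) x).symm
    exact deg_eq_one_of_mem hx' v h

end FunctionField

end Fermat.Agent.S24_Places
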