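import Fermat.Agent.S24_Defs
import Fermat.Agent.S24_Places

/-!
# S24_Place (helper3): places of a function field in one variable

Statements of the `s24_iface` row `S24_Place`, proved on top of the abstract Dedekind-domain
dictionary of `Fermat.Agent.S24_Places`.
-/

set_option autoImplicit false
noncomputable section
open Fermat.Agent.S24_Defs ModularCurve AlgebraicCurve UpperHalfPlane IntermediateField
open scoped MatrixGroups ModularForm Manifold Topology

namespace Fermat.Agent.S24_Place

open IsDedekindDomain IsLocalRing WithZero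
open Fermat.Agent.S24_Places
open scoped IntermediateField.algebraAdjoinAdjoin

variable {K F : Type*} [Field K] [Field F] [Algebra K F]

theorem adicValuation_le_one_of_mem (v : Place K F) {y : F} (hy : y ∈ v.toValuationSubring) :
    v.adicValuation y ≤ 1 := by
  have h := v.adicValuation_coe ⟨y, hy⟩
  rw [show ((⟨y, hy⟩ : v.toValuationSubring) : F) = y from rfl] at h
  rw [h]
  exact v.heightOneSpectrum.intValuation_le_one _

theorem adicValuation_lt_one_of_mem_maximalIdeal (v : Place K F) {y : F}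
    (hy : y ∈ v.toValuationSubring)
    (hm : (⟨y, hy⟩ : v.toValuationSubring) ∈ maximalIdeal v.toValuationSubring) :
    v.adicValuation y < 1 := by
  have h := v.adicValuation_coe ⟨y, hy⟩
  rw [show ((⟨y, hy⟩ : v.toValuationSubring) : F) = y from rfl] at h
  rw [h, HeightOneSpectrum.intValuation_lt_one_iff_mem]
  exact hm

theorem ord_nonneg_of_mem (v : Place K F) {y : F} (hy : y ∈ v.toValuationSubring) :
    0 ≤ v.ord y := by
  have h1 := adicValuation_le_one_of_mem v hy
  unfold Place.ord
  rcases eq_or_ne (v.adicValuation y) 0 with h0 | h0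
  · rw [h0]; simp
  · rw [← exp_log h0, ← exp_zero, exp_le_exp] at h1
    omega

theorem ord_pos_of_mem_maximalIdeal (v : Place K F) {y : F} (hy0 : y ≠ 0)
    (hy : y ∈ v.toValuationSubring)
    (hm : (⟨y, hy⟩ : v.toValuationSubring) ∈ maximalIdeal v.toValuationSubring) :
    0 < v.ord y := by
  have h1 := adicValuation_lt_one_of_mem_maximalIdeal v hy hm
  have h0 : v.adicValuation y ≠ 0 := v.adicValuation_ne_zero hy0
  unfold Place.ord
  rw [← exp_log h0, ← exp_zero, exp_lt_exp] at h1
  omega

theorem mem_valuationSubring_iff (v : Place K F) (y : F) :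
    y ∈ v.toValuationSubring ↔ y = 0 ∨ 0 ≤ v.ord y := by
  constructor
  · intro hy
    exact Or.inr (ord_nonneg_of_mem v hy)
  · rintro (rfl | h)
    · exact zero_mem _
    · by_contra hy
      have hy0 : y ≠ 0 := fun h0 => hy (h0 ▸ zero_mem _)
      have hinv : y⁻¹ ∈ v.toValuationSubring :=
        (v.toValuationSubring.mem_or_inv_mem y).resolve_left hy
      have hm : (⟨y⁻¹, hinv⟩ : v.toValuationSubring) ∈ maximalIdeal v.toValuationSubring := by
        rw [IsLocalRing.mem_maximalIdeal, mem_nonunits_iff]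
        intro hu
        obtain ⟨b, hb⟩ := hu.exists_right_inv
        have hb' : y⁻¹ * (b : F) = 1 := congrArg Subtype.val hb
        have : (b : F) = y := by
          field_simp at hb'
          exact hb'
        exact hy (this ▸ b.2)
      have := ord_pos_of_mem_maximalIdeal v (inv_ne_zero hy0) hinv hm
      rw [v.ord_inv] at this
      omega

theorem ord_add_le (v : Place K F) (a b : F) (hab : a + b ≠ 0) :
    min (v.ord a) (v.ord b) ≤ v.ord (a + b) := by
  rcases eq_or_ne a 0 with rfl | ha
  · rw [zero_add]; exact min_le_right _ _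
  rcases eq_or_ne b 0 with rfl | hb
  · rw [add_zero]; exact min_le_left _ _
  have h := v.adicValuation.map_add a b
  have ha0 := v.adicValuation_ne_zero ha
  have hb0 := v.adicValuation_ne_zero hb
  have hab0 := v.adicValuation_ne_zero hab
  unfold Place.ord
  rw [← exp_log ha0, ← exp_log hb0, ← exp_log hab0] at h
  rcases le_max_iff.mp h with h' | h'
  · rw [exp_le_exp] at h'
    exact (min_le_left _ _).trans (by omega)
  · rw [exp_le_exp] at h'
    exact (min_le_right _ _).trans (by omega)

theorem ord_algebraMap (v : Place K F) (a : K) : v.ord (algebraMap K F a) = 0 := by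
  rcases eq_or_ne a 0 with rfl | ha
  · simp
  have ha' : algebraMap K F a ≠ 0 := by simpa using ha
  let u : v.toValuationSubringˣ :=
    ⟨⟨algebraMap K F a, v.algebraMap_mem' a⟩, ⟨algebraMap K F a⁻¹, v.algebraMap_mem' a⁻¹⟩,
      Subtype.ext (by simp [ha']), Subtype.ext (by simp [ha'])⟩
  exact v.ord_coe_unit u

/-- A0 -/
theorem finiteDimensional_adjoin [IsAlgClosed K] [CharZero K] (x : F) (hx : Transcendental K x)
    [FiniteDimensional K⟮x⟯ F] (f : F) (hf : Transcendental K f) :
    FiniteDimensional K⟮f⟯ F := by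
  have e1 : Algebra.EssFiniteType K K⟮x⟯ := by
    have h1 : Algebra.FiniteType K (Algebra.adjoin K {x}) :=
      Algebra.FiniteType.adjoin_of_finite (Set.finite_singleton x)
    have h2 : Algebra.EssFiniteType (Algebra.adjoin K {x}) K⟮x⟯ :=
      .of_isLocalization _ (nonZeroDivisors _)
    exact .comp K (Algebra.adjoin K {x}) K⟮x⟯
  have e2 : Algebra.EssFiniteType K F := .comp K K⟮x⟯ F
  have e3 : Algebra.EssFiniteType K⟮f⟯ F := .of_comp K K⟮f⟯ F
  have a1 : Algebra.IsAlgebraic (Algebra.adjoin K {x}) F :=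
    Algebra.IsAlgebraic.trans (Algebra.adjoin K {x}) K⟮x⟯ F
  have t1 : Algebra.trdeg K F ≤ 1 := by
    simpa using Algebra.IsAlgebraic.trdeg_le_cardinalMk K ({x} : Set F)
  have b : IsTranscendenceBasis K (fun _ : PUnit => f) :=
    AlgebraicIndependent.isTranscendenceBasis_of_trdeg_le_of_finite
      (algebraicIndependent_unique_type_iff.mpr hf) (by simpa using t1)
  have a2 := b.isAlgebraic_field
  have hr : Set.range (fun _ : PUnit => f) = {f} := by simp
  rw [hr] at a2
  exact Algebra.finite_of_essFiniteType_of_isAlgebraic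

/-- A1 -/
theorem deg_eq_one [IsAlgClosed K] [CharZero K] (x : F) (hx : Transcendental K x)
    [FiniteDimensional K⟮x⟯ F] (v : Place K F) : v.deg = 1 :=
  Fermat.Agent.S24_Places.deg_eq_one hx v

/-- A1' -/
theorem exists_eq_add_mul [IsAlgClosed K] [CharZero K] (x : F) (hx : Transcendental K x)
    [FiniteDimensional K⟮x⟯ F] (v : Place K F) (t : F) (ht : v.ord t = 1) (y : F)
    (hy : y ∈ v.toValuationSubring) :
    ∃ (a : K) (z : F), z ∈ v.toValuationSubring ∧ y = algebraMap K F a + t * z := by
  have hdeg : Module.finrank K v.ResidueField = 1 := deg_eq_one x hx v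
  have ht0 : t ≠ 0 := by
    rintro rfl
    rw [v.ord_zero] at ht
    exact zero_ne_one ht
  obtain ⟨a, ha⟩ := (finrank_eq_one_iff_of_nonzero' (1 : v.ResidueField) one_ne_zero).mp hdeg
    (IsLocalRing.residue _ ⟨y, hy⟩)
  have hmem : y - algebraMap K F a ∈ v.toValuationSubring :=
    sub_mem hy (v.algebraMap_mem' a)
  have hm : (⟨y - algebraMap K F a, hmem⟩ : v.toValuationSubring) ∈
      maximalIdeal v.toValuationSubring := by
    rw [← IsLocalRing.residue_eq_zero_iff]
    have h1 : (⟨y - algebraMap K F a, hmem⟩ : v.toValuationSubring)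
        = ⟨y, hy⟩ - algebraMap K v.toValuationSubring a := Subtype.ext rfl
    rw [h1, map_sub, ← ha, Algebra.smul_def, mul_one]
    exact sub_self _
  refine ⟨a, (y - algebraMap K F a) / t, ?_, by field_simp; ring⟩
  rw [mem_valuationSubring_iff]
  rcases eq_or_ne (y - algebraMap K F a) 0 with h0 | h0
  · left; rw [h0, zero_div]
  · right
    have hpos := ord_pos_of_mem_maximalIdeal v h0 hmem hm
    rw [div_eq_mul_inv, v.ord_mul h0 (inv_ne_zero ht0), v.ord_inv, ht]
    omega

/-- the generator `x` of `K[x]` -/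
def genA (x : F) : Algebra.adjoin K {x} := ⟨x, Algebra.self_mem_adjoin_singleton K x⟩

theorem exists_sub_mem_span_gen (x : F) (a : Algebra.adjoin K {x}) :
    ∃ k : K, a - algebraMap K _ k ∈ Ideal.span {genA (K := K) x} := by
  obtain ⟨a, ha⟩ := a
  induction ha using Algebra.adjoin_induction with
  | mem y hy =>
    rw [Set.mem_singleton_iff] at hy
    subst hy
    refine ⟨0, ?_⟩
    rw [map_zero, sub_zero]
    exact Ideal.subset_span rfl
  | algebraMap r =>
    refine ⟨r, ?_⟩
    have : (⟨algebraMap K F r, Subalgebra.algebraMap_mem _ r⟩ : Algebra.adjoin K {x})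
        = algebraMap K _ r := rfl
    rw [this, sub_self]
    exact zero_mem _
  | add y z hy hz ihy ihz =>
    obtain ⟨k1, h1⟩ := ihy
    obtain ⟨k2, h2⟩ := ihz
    refine ⟨k1 + k2, ?_⟩
    have : (⟨y + z, add_mem hy hz⟩ : Algebra.adjoin K {x}) - algebraMap K _ (k1 + k2)
        = ((⟨y, hy⟩ : Algebra.adjoin K {x}) - algebraMap K _ k1)
          + ((⟨z, hz⟩ : Algebra.adjoin K {x}) - algebraMap K _ k2) := by
      rw [map_add]; ext; simp; ring
    rw [this]
    exact add_mem h1 h2
  | mul y z hy hz ihy ihz =>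
    obtain ⟨k1, h1⟩ := ihy
    obtain ⟨k2, h2⟩ := ihz
    refine ⟨k1 * k2, ?_⟩
    have : (⟨y * z, mul_mem hy hz⟩ : Algebra.adjoin K {x}) - algebraMap K _ (k1 * k2)
        = ((⟨y, hy⟩ : Algebra.adjoin K {x}) - algebraMap K _ k1) * ⟨z, hz⟩
          + algebraMap K _ k1 * ((⟨z, hz⟩ : Algebra.adjoin K {x}) - algebraMap K _ k2) := by
      rw [map_mul]; ext; simp; ring
    rw [this]
    exact add_mem (Ideal.mul_mem_right _ _ h1) (Ideal.mul_mem_left _ _ h2)

theorem span_gen_ne_top {x : F} (hx : Transcendental K x) :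
    Ideal.span {genA (K := K) x} ≠ ⊤ := by
  intro htop
  rw [Ideal.eq_top_iff_one, Ideal.mem_span_singleton'] at htop
  obtain ⟨a, ha⟩ := htop
  -- `a * x = 1` with `a ∈ K[x]` contradicts transcendence
  have hinj : Function.Injective (Polynomial.aeval (R := K) x) :=
    transcendental_iff_injective.mp hx
  have hmem : (a : F) ∈ (Polynomial.aeval (R := K) x).range := by
    rw [← Algebra.adjoin_singleton_eq_range_aeval]; exact a.2
  obtain ⟨q, hq⟩ := hmem
  have h1 : Polynomial.aeval x (q * Polynomial.X - 1 : Polynomial K) = 0 := by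
    have ha' : (a : F) * x = 1 := congrArg Subtype.val ha
    simp only [map_sub, map_mul, Polynomial.aeval_X, map_one]
    change Polynomial.aeval x q * x - 1 = 0
    rw [show Polynomial.aeval x q = (a : F) from hq, ha', sub_self]
  have h2 : (q * Polynomial.X - 1 : Polynomial K) = 0 := hinj (by rw [h1, map_zero])
  have h3 := congrArg (Polynomial.eval 0) h2
  simp at h3

theorem span_gen_isMaximal {x : F} (hx : Transcendental K x) :
    (Ideal.span {genA (K := K) x}).IsMaximal := by
  rw [Ideal.isMaximal_iff]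
  refine ⟨fun h1 => span_gen_ne_top hx ((Ideal.eq_top_iff_one _).mpr h1), ?_⟩
  intro J a hJ ha haJ
  obtain ⟨k, hk⟩ := exists_sub_mem_span_gen (K := K) x a
  have hk0 : k ≠ 0 := by
    rintro rfl
    rw [map_zero, sub_zero] at hk
    exact ha hk
  have h1 : algebraMap K (Algebra.adjoin K {x}) k ∈ J := by
    have := J.sub_mem haJ (hJ hk)
    rwa [sub_sub_cancel] at this
  have h2 := J.mul_mem_left (algebraMap K _ k⁻¹) h1
  rwa [← map_mul, inv_mul_cancel₀ hk0, map_one] at h2

theorem ramificationIdx'_span_singleton {A B : Type*} [CommRing A] [CommRing B]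
    [IsDedekindDomain B] [Algebra A B] (w : HeightOneSpectrum B) (a : A)
    (ha : algebraMap A B a ≠ 0) :
    (Ideal.ramificationIdx' (Ideal.span {a}) w.asIdeal : ℤ)
      = - WithZero.log (w.intValuation (algebraMap A B a)) := by
  set val := w.intValuation (algebraMap A B a) with hval
  have h0 : val ≠ 0 := w.intValuation_ne_zero _ ha
  have h1 : val ≤ 1 := w.intValuation_le_one _
  have hlog : WithZero.log val ≤ 0 := by
    rw [← exp_log h0, ← exp_zero, exp_le_exp] at h1
    exact h1
  set n : ℕ := (- WithZero.log val).toNat with hn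
  have hn' : (n : ℤ) = - WithZero.log val := by
    rw [hn]; exact Int.toNat_of_nonneg (by omega)
  have hvaln : val = exp (-(n : ℤ)) := by
    rw [hn', neg_neg, exp_log h0]
  have hmap : Ideal.map (algebraMap A B) (Ideal.span {a}) = Ideal.span {algebraMap A B a} := by
    rw [Ideal.map_span, Set.image_singleton]
  have hle : Ideal.map (algebraMap A B) (Ideal.span {a}) ≤ w.asIdeal ^ n := by
    rw [hmap, Ideal.span_singleton_le_iff_mem, ← HeightOneSpectrum.intValuation_le_pow_iff_mem,
      ← hval, hvaln]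
  have hgt : ¬ Ideal.map (algebraMap A B) (Ideal.span {a}) ≤ w.asIdeal ^ (n + 1) := by
    rw [hmap, Ideal.span_singleton_le_iff_mem, ← HeightOneSpectrum.intValuation_le_pow_iff_mem,
      ← hval, hvaln, exp_le_exp]
    push_cast
    omega
  rw [Ideal.ramificationIdx'_spec hle hgt, hn']

theorem inertiaDeg'_eq_one {K A B : Type*} [Field K] [CommRing A] [CommRing B] [Algebra A B]
    [Algebra K A] [Algebra K B] [IsScalarTower K A B] (p : Ideal A) [p.IsMaximal]
    (P : Ideal B) [P.LiesOver p] (h : ∀ b : B, ∃ k : K, b - algebraMap K B k ∈ P) :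
    Ideal.inertiaDeg' p P = 1 := by
  rw [Ideal.inertiaDeg'_algebraMap]
  have hinj : Function.Injective (algebraMap (A ⧸ p) (B ⧸ P)) :=
    FaithfulSMul.algebraMap_injective _ _
  have hsurj : Function.Surjective (algebraMap (A ⧸ p) (B ⧸ P)) := by
    intro y
    obtain ⟨b, rfl⟩ := Ideal.Quotient.mk_surjective y
    obtain ⟨k, hk⟩ := h b
    refine ⟨Ideal.Quotient.mk p (algebraMap K A k), ?_⟩
    rw [Ideal.Quotient.algebraMap_mk_of_liesOver, ← IsScalarTower.algebraMap_apply]
    exact (Ideal.Quotient.eq.mpr hk).symm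
  have e : (A ⧸ p) ≃ₗ[A ⧸ p] (B ⧸ P) :=
    LinearEquiv.ofBijective (Algebra.linearMap (A ⧸ p) (B ⧸ P)) ⟨hinj, hsurj⟩
  rw [← e.finrank_eq, Module.finrank_self]

theorem exists_finset_zeros_aux {A B L : Type*} [CommRing A] [IsDedekindDomain A]
    [CommRing B] [IsDedekindDomain B] [Algebra A B] [Field L] [Algebra A L] [IsFractionRing A L]
    [Algebra B F] [IsFractionRing B F] [Algebra L F] [Algebra A F] [IsScalarTower A B F]
    [IsScalarTower A L F] [Module.Finite A B] [Algebra K A] [Algebra K B] [IsScalarTower K A B]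
    [IsScalarTower K B F] [Module.IsTorsionFree A B]
    (x : F) (hx0 : x ≠ 0) (a : A) (ha : algebraMap B F (algebraMap A B a) = x)
    (hpmax : (Ideal.span {a}).IsMaximal)
    (hres : ∀ (P : Ideal B), P.IsMaximal → ∀ b : B, ∃ k : K, b - algebraMap K B k ∈ P)
    (hcov : ∀ v : Place K F, x ∈ v.toValuationSubring →
      ∃ w : HeightOneSpectrum B, Place.ofHeightOneSpectrum (K := K) (F := F) w = v) :
    ∃ s : Finset (Place K F), (∀ v, v ∈ s ↔ 0 < v.ord x) ∧
      ∑ v ∈ s, v.ord x = (Module.finrank L F : ℤ) := by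
  classical
  set p : Ideal A := Ideal.span {a} with hp
  set xB : B := algebraMap A B a with hxB
  have hxB0 : xB ≠ 0 := fun h => hx0 (by rw [← ha, h, map_zero])
  have ha0 : a ≠ 0 := fun h => hxB0 (by rw [hxB, h, map_zero])
  have hp0 : p ≠ ⊥ := by
    rw [hp, Ne, Ideal.span_singleton_eq_bot]; exact ha0
  have key := Ideal.sum_ramification_inertia (R := A) B L F hp0
  have hvalx : ∀ w : HeightOneSpectrum B, w.valuation F x = w.intValuation xB := fun w =>
    (congrArg (w.valuation F) ha.symm).trans (w.valuation_of_algebraMap xB)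
  have hP : ∀ P ∈ IsDedekindDomain.primesOverFinset p B, P.IsPrime ∧ P.LiesOver p := fun P hP =>
    (IsDedekindDomain.mem_primesOverFinset_iff hp0 _).mp hP
  have hPmem : ∀ P ∈ IsDedekindDomain.primesOverFinset p B, xB ∈ P := by
    intro P hPm
    have := (hP P hPm).2
    exact (Ideal.mem_of_liesOver P p a).mp (Ideal.subset_span rfl)
  have hPne : ∀ P ∈ IsDedekindDomain.primesOverFinset p B, P ≠ ⊥ := by
    intro P hPm hbot
    have := hPmem P hPm
    rw [hbot, Ideal.mem_bot] at this
    exact hxB0 this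
  let wOf : {P // P ∈ IsDedekindDomain.primesOverFinset p B} → HeightOneSpectrum B :=
    fun P => ⟨P.1, (hP P.1 P.2).1, hPne P.1 P.2⟩
  have hinj : Function.Injective
      (fun P => Place.ofHeightOneSpectrum (K := K) (F := F) (wOf P)) := by
    intro P Q hPQ
    have := ofHeightOneSpectrum_injective (K := K) (F := F) hPQ
    exact Subtype.ext (congrArg HeightOneSpectrum.asIdeal this)
  refine ⟨(IsDedekindDomain.primesOverFinset p B).attach.image
      (fun P => Place.ofHeightOneSpectrum (K := K) (F := F) (wOf P)), ?_, ?_⟩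
  · intro v
    constructor
    · intro hv
      obtain ⟨P, -, rfl⟩ := Finset.mem_image.mp hv
      rw [ord_ofHeightOneSpectrum]
      have hlt : (wOf P).valuation F x < 1 := by
        rw [hvalx, HeightOneSpectrum.intValuation_lt_one_iff_mem]
        exact hPmem P.1 P.2
      have h0 : (wOf P).valuation F x ≠ 0 := (Valuation.ne_zero_iff _).mpr hx0
      rw [← exp_log h0, ← exp_zero, exp_lt_exp] at hlt
      omega
    · intro hv
      have hxmem : x ∈ v.toValuationSubring := (mem_valuationSubring_iff v x).mpr (Or.inr hv.le)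
      obtain ⟨w, rfl⟩ := hcov v hxmem
      rw [ord_ofHeightOneSpectrum] at hv
      have hle1 : w.valuation F x ≤ 1 := by
        rw [hvalx]; exact w.intValuation_le_one xB
      have hlt : w.valuation F x < 1 := by
        refine lt_of_le_of_ne hle1 fun h1 => ?_
        rw [h1] at hv
        simp at hv
      have hmem : xB ∈ w.asIdeal := by
        rw [hvalx] at hlt
        exact (w.intValuation_lt_one_iff_mem xB).mp hlt
      have hlies : w.asIdeal.LiesOver p := by
        refine ⟨?_⟩
        have hle : p ≤ w.asIdeal.under A := by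
          rw [hp, Ideal.span_singleton_le_iff_mem]
          exact hmem
        have hne : w.asIdeal.under A ≠ ⊤ := by
          have := w.isPrime
          exact (Ideal.IsPrime.under A w.asIdeal).ne_top
        exact hpmax.eq_of_le hne hle
      have hmemP : w.asIdeal ∈ IsDedekindDomain.primesOverFinset p B :=
        (IsDedekindDomain.mem_primesOverFinset_iff hp0 _).mpr ⟨w.isPrime, hlies⟩
      exact Finset.mem_image.mpr ⟨⟨w.asIdeal, hmemP⟩, Finset.mem_attach _ _, rfl⟩
  · rw [Finset.sum_image (fun a _ b _ h => hinj h), ← key]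
    push_cast
    rw [← Finset.sum_attach (IsDedekindDomain.primesOverFinset p B)]
    refine Finset.sum_congr rfl fun P _ => ?_
    have hlies := (hP P.1 P.2).2
    have hmaxP : P.1.IsMaximal := (wOf P).isMaximal
    have hf1 : Ideal.inertiaDeg' p P.1 = 1 :=
      inertiaDeg'_eq_one (K := K) p P.1 (hres P.1 hmaxP)
    rw [hf1, Nat.cast_one, mul_one, ord_ofHeightOneSpectrum, hvalx]
    exact (ramificationIdx'_span_singleton (wOf P) a hxB0).symm

theorem exists_finset_zeros [IsAlgClosed K] [CharZero K] (x : F) (hx : Transcendental K x)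
    [FiniteDimensional K⟮x⟯ F] :
    ∃ s : Finset (Place K F), (∀ v, v ∈ s ↔ 0 < v.ord x) ∧
      ∑ v ∈ s, v.ord x = (Module.finrank K⟮x⟯ F : ℤ) := by
  have hPID := isPrincipalIdealRing_adjoin hx
  have hB1 : IsDedekindDomain (integralClosure (Algebra.adjoin K {x}) F) :=
    integralClosure.isDedekindDomain (Algebra.adjoin K {x}) K⟮x⟯ F
  have hB2 : IsFractionRing (integralClosure (Algebra.adjoin K {x}) F) F :=
    integralClosure.isFractionRing_of_finite_extension K⟮x⟯ F
  have hfin : Module.Finite (Algebra.adjoin K {x}) (integralClosure (Algebra.adjoin K {x}) F) :=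
    IsIntegralClosure.finite (Algebra.adjoin K {x}) K⟮x⟯ F _
  have hFT := finiteType_integralClosure (K := K) (F := F) hx
  have hx0 : x ≠ 0 := by
    rintro rfl
    exact hx (isAlgebraic_zero)
  exact exists_finset_zeros_aux (K := K) (A := Algebra.adjoin K {x})
    (B := integralClosure (Algebra.adjoin K {x}) F) (L := K⟮x⟯) x hx0 (genA (K := K) x) rfl
    (span_gen_isMaximal hx)
    (fun P hP b => by
      have := hP
      exact exists_sub_mem_of_isAlgClosed (K := K) P b)
    (fun v hv => (exists_ofHeightOneSpectrum_of_mem v hv).exists)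

/-- A2 -/
theorem finite_zeros [IsAlgClosed K] [CharZero K] (f : F) (hf : Transcendental K f)
    [FiniteDimensional K⟮f⟯ F] : {v : Place K F | 0 < v.ord f}.Finite := by
  obtain ⟨s, hs, -⟩ := exists_finset_zeros f hf
  have : {v : Place K F | 0 < v.ord f} = ↑s := by
    ext v; simp [hs]
  rw [this]
  exact s.finite_toSet

/-- A2 -/
theorem sum_ord_zeros [IsAlgClosed K] [CharZero K] (f : F) (hf : Transcendental K f)
    [FiniteDimensional K⟮f⟯ F] :
    ∑ᶠ (v : Place K F) (_ : 0 < v.ord f), v.ord f = (Module.finrank K⟮f⟯ F : ℤ) := by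
  obtain ⟨s, hs, hsum⟩ := exists_finset_zeros f hf
  rw [← hsum, ← finsum_mem_coe_finset]
  refine finsum_congr fun v => ?_
  have : (0 < v.ord f) = (v ∈ (↑s : Set (Place K F))) := by
    rw [Finset.mem_coe, hs]
  rw [this]

theorem exists_pole_avoiding_aux {B : Type*} [CommRing B] [IsDedekindDomain B] [Algebra B F]
    [IsFractionRing B F] [Algebra K B] [IsScalarTower K B F] (w₀ : HeightOneSpectrum B)
    (T : Finset (HeightOneSpectrum B)) (hw₀ : w₀ ∉ T) :
    ∃ f : F, f ≠ 0 ∧ (Place.ofHeightOneSpectrum (K := K) (F := F) w₀).ord f < 0 ∧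
      ∀ w ∈ T, 0 ≤ (Place.ofHeightOneSpectrum (K := K) (F := F) w).ord f := by
  classical
  -- a nonzero element of `w₀`
  obtain ⟨a', ha'mem, ha'0⟩ := Submodule.exists_mem_ne_zero_of_ne_bot w₀.ne_bot
  have havoid : ¬ ((w₀.asIdeal : Set B) ⊆ ⋃ w ∈ (↑T : Set (HeightOneSpectrum B)), w.asIdeal) := by
    intro hsub
    rw [Ideal.subset_union_prime (f := fun w : HeightOneSpectrum B => w.asIdeal) w₀ w₀
      (fun w _ _ _ => w.isPrime)] at hsub
    obtain ⟨w, hwT, hle⟩ := hsub
    have hmax : w₀.asIdeal.IsMaximal := w₀.isMaximal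
    have heq : w₀.asIdeal = w.asIdeal := hmax.eq_of_le w.isPrime.ne_top hle
    exact hw₀ (HeightOneSpectrum.ext heq ▸ hwT)
  rw [Set.not_subset] at havoid
  obtain ⟨a, hamem, hanot⟩ := havoid
  simp only [Set.mem_iUnion, not_exists] at hanot
  -- the element to invert
  obtain ⟨c, hcmem, hc0, hcT⟩ : ∃ c : B, c ∈ w₀.asIdeal ∧ c ≠ 0 ∧ ∀ w ∈ T, c ∉ w.asIdeal := by
    by_cases ha0 : a = 0
    · refine ⟨a', ha'mem, ha'0, fun w hw => ?_⟩
      exact absurd (ha0 ▸ zero_mem _) (hanot w hw)
    · exact ⟨a, hamem, ha0, fun w hw => hanot w hw⟩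
  have hcF : algebraMap B F c ≠ 0 := by
    intro h
    exact hc0 (IsFractionRing.injective B F (by rw [h, map_zero]))
  refine ⟨(algebraMap B F c)⁻¹, inv_ne_zero hcF, ?_, ?_⟩
  · rw [ord_ofHeightOneSpectrum, map_inv₀, WithZero.log_inv, neg_neg]
    have hlt : w₀.valuation F (algebraMap B F c) < 1 :=
      (w₀.valuation_lt_one_iff_mem c).mpr hcmem
    have h0 : w₀.valuation F (algebraMap B F c) ≠ 0 := (Valuation.ne_zero_iff _).mpr hcF
    rw [← exp_log h0, ← exp_zero, exp_lt_exp] at hlt
    exact hlt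
  · intro w hw
    rw [ord_ofHeightOneSpectrum, map_inv₀, WithZero.log_inv, neg_neg]
    have h1 : w.valuation F (algebraMap B F c) = 1 := by
      refine le_antisymm (w.valuation_le_one c) (not_lt.mp fun hlt => ?_)
      exact hcT w hw ((w.valuation_lt_one_iff_mem c).mp hlt)
    rw [h1, WithZero.log_one]

/-- A5 -/
theorem exists_pole_avoiding [IsAlgClosed K] [CharZero K] (π : F) (hπ : Transcendental K π)
    [FiniteDimensional K⟮π⟯ F] (v₀ : Place K F) (h₀ : 0 < v₀.ord π)
    (S : Finset (Place K F)) (hS : ∀ v ∈ S, 0 < v.ord π) (hv₀ : v₀ ∉ S) :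
    ∃ f : F, f ≠ 0 ∧ v₀.ord f < 0 ∧ ∀ v ∈ S, 0 ≤ v.ord f := by
  classical
  have hPID := isPrincipalIdealRing_adjoin hπ
  have hB1 : IsDedekindDomain (integralClosure (Algebra.adjoin K {π}) F) :=
    integralClosure.isDedekindDomain (Algebra.adjoin K {π}) K⟮π⟯ F
  have hB2 : IsFractionRing (integralClosure (Algebra.adjoin K {π}) F) F :=
    integralClosure.isFractionRing_of_finite_extension K⟮π⟯ F
  have hmem : ∀ v : Place K F, 0 < v.ord π → π ∈ v.toValuationSubring := fun v hv =>
    (mem_valuationSubring_iff v π).mpr (Or.inr hv.le)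
  obtain ⟨w₀, hw₀⟩ := (exists_ofHeightOneSpectrum_of_mem v₀ (hmem v₀ h₀)).exists
  have hex : ∀ v : Place K F, ∃ w : HeightOneSpectrum (integralClosure (Algebra.adjoin K {π}) F),
      v ∈ S → Place.ofHeightOneSpectrum (K := K) (F := F) w = v := by
    intro v
    by_cases hv : v ∈ S
    · obtain ⟨w, hw⟩ := (exists_ofHeightOneSpectrum_of_mem v (hmem v (hS v hv))).exists
      exact ⟨w, fun _ => hw⟩
    · exact ⟨w₀, fun h => absurd h hv⟩
  choose wF hwF using hex
  have hnot : w₀ ∉ S.image wF := by
    intro h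
    obtain ⟨v, hvS, hv⟩ := Finset.mem_image.mp h
    have := hwF v hvS
    rw [hv, hw₀] at this
    exact hv₀ (this ▸ hvS)
  obtain ⟨f, hf0, hf1, hf2⟩ := exists_pole_avoiding_aux (K := K) (F := F) w₀ (S.image wF) hnot
  refine ⟨f, hf0, hw₀ ▸ hf1, fun v hv => ?_⟩
  have := hf2 (wF v) (Finset.mem_image_of_mem wF hv)
  rwa [hwF v hv] at this

end Fermat.Agent.S24_Place

end
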