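import Fermat.Agent.S24_Defs
import Fermat.Agent.S24_Place
import Fermat.Agent.S24_DiffCore

/-!
# S24_Diff (helper5): differentials of a function field in one variable

`Ω[F⁄K] = F · dx`, `dx ≠ 0`, and the orders of `dx` at the places of `F`
(`e - 1` at a zero of `x - c` of order `e`, `-e - 1` at a pole of order `e`).
The proofs are in `S24_DiffCore`; here the two facts about places it needs are taken
from `S24_Place`.
-/

set_option autoImplicit false

noncomputable section

open Fermat.Agent.S24_Defs ModularCurve AlgebraicCurve UpperHalfPlane IntermediateField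
open scoped MatrixGroups ModularForm Manifold Topology

namespace Fermat.Agent.S24_Diff

open KaehlerDifferential

variable {K F : Type*} [Field K] [Field F] [Algebra K F]

theorem nonempty_place [IsAlgClosed K] [CharZero K] (x : F) (hx : Transcendental K x)
    [FiniteDimensional K⟮x⟯ F] : Nonempty (Place K F) := by
  by_contra hempty
  have : IsEmpty (Place K F) := not_nonempty_iff.1 hempty
  have h := S24_Place.sum_ord_zeros x hx
  rw [finsum_of_isEmpty] at h
  have hpos : 0 < Module.finrank K⟮x⟯ F := Module.finrank_pos
  omega

theorem exists_smul_D [IsAlgClosed K] [CharZero K] (x : F) (hx : Transcendental K x)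
    [FiniteDimensional K⟮x⟯ F] (ω : Ω[F⁄K]) : ∃ f : F, ω = f • D K F x :=
  S24_DiffCore.exists_smul_D_of_algebraic x ω

theorem D_ne_zero [IsAlgClosed K] [CharZero K] (x : F) (hx : Transcendental K x)
    [FiniteDimensional K⟮x⟯ F] : D K F x ≠ 0 :=
  S24_DiffCore.core_D_ne_zero (fun f hf => S24_Place.finiteDimensional_adjoin x hx f hf)
    (fun v t ht y hy => S24_Place.exists_eq_add_mul x hx v t ht y hy) (nonempty_place x hx) x

theorem ordDifferential_smul_D [IsAlgClosed K] [CharZero K] (x : F) (hx : Transcendental K x)
    [FiniteDimensional K⟮x⟯ F] (v : Place K F) (f : F) (hf : f ≠ 0) :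
    v.ordDifferential (f • D K F x) = v.ord f + v.ordDifferential (D K F x) :=
  S24_DiffCore.core_ordDifferential_smul_D
    (fun f hf => S24_Place.finiteDimensional_adjoin x hx f hf)
    (fun v t ht y hy => S24_Place.exists_eq_add_mul x hx v t ht y hy) x v f hf

theorem ordDifferential_D_of_zero [IsAlgClosed K] [CharZero K] (x : F) (hx : Transcendental K x)
    [FiniteDimensional K⟮x⟯ F] (v : Place K F) (c : K)
    (h : 0 < v.ord (x - algebraMap K F c)) :
    v.ordDifferential (D K F x) = v.ord (x - algebraMap K F c) - 1 :=
  S24_DiffCore.core_ordDifferential_D_of_zero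
    (fun f hf => S24_Place.finiteDimensional_adjoin x hx f hf)
    (fun v t ht y hy => S24_Place.exists_eq_add_mul x hx v t ht y hy) x v c h

theorem ordDifferential_D_of_pole [IsAlgClosed K] [CharZero K] (x : F) (hx : Transcendental K x)
    [FiniteDimensional K⟮x⟯ F] (v : Place K F) (h : v.ord x < 0) :
    v.ordDifferential (D K F x) = v.ord x - 1 :=
  S24_DiffCore.core_ordDifferential_D_of_pole
    (fun f hf => S24_Place.finiteDimensional_adjoin x hx f hf)
    (fun v t ht y hy => S24_Place.exists_eq_add_mul x hx v t ht y hy) x v h

end Fermat.Agent.S24_Diff
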