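import Fermat.Agent.S24_Defs
import Fermat.Agent.S24_Place
import Fermat.Agent.S24_Diff

/-!
# S24_Genus: the abstract Riemann–Hurwitz computation
-/

set_option autoImplicit false

noncomputable section

namespace Fermat.Agent.S24_Genus

open Fermat.Agent.S24_Defs ModularCurve AlgebraicCurve UpperHalfPlane IntermediateField
open scoped MatrixGroups ModularForm Manifold Topology
open KaehlerDifferential

section Aux

variable {K F : Type} [Field K] [Field F] [Algebra K F]

theorem adjoin_sub_eq (x : F) (c : K) : K⟮x - algebraMap K F c⟯ = K⟮x⟯ := by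
  apply le_antisymm
  · rw [IntermediateField.adjoin_simple_le_iff]
    exact sub_mem (IntermediateField.mem_adjoin_simple_self K x)
      (IntermediateField.algebraMap_mem _ c)
  · rw [IntermediateField.adjoin_simple_le_iff]
    have h := add_mem (IntermediateField.mem_adjoin_simple_self K (x - algebraMap K F c))
      (IntermediateField.algebraMap_mem K⟮x - algebraMap K F c⟯ c)
    simpa using h

theorem adjoin_inv_eq (x : F) : K⟮x⁻¹⟯ = K⟮x⟯ := by
  apply le_antisymm
  · rw [IntermediateField.adjoin_simple_le_iff]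
    exact inv_mem (IntermediateField.mem_adjoin_simple_self K x)
  · rw [IntermediateField.adjoin_simple_le_iff]
    have h := inv_mem (IntermediateField.mem_adjoin_simple_self K x⁻¹)
    simpa using h

theorem transcendental_sub {x : F} (hx : Transcendental K x) (c : K) :
    Transcendental K (x - algebraMap K F c) := by
  intro h
  apply hx
  have := h.add (isAlgebraic_algebraMap (R := K) (A := F) c)
  simpa using this

theorem transcendental_inv {x : F} (hx : Transcendental K x) : Transcendental K x⁻¹ := by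
  intro h
  apply hx
  have := h.inv
  simpa using this

theorem finrank_congr_of_eq {L₁ L₂ : IntermediateField K F} (h : L₁ = L₂)
    [FiniteDimensional L₂ F] :
    FiniteDimensional L₁ F ∧ Module.finrank L₁ F = Module.finrank L₂ F := by
  subst h
  exact ⟨inferInstance, rfl⟩

theorem ord_neg (v : Place K F) (a : F) : v.ord (-a) = v.ord a := by
  rcases eq_or_ne a 0 with rfl | ha
  · simp
  have h1 : (-a) = algebraMap K F (-1) * a := by simp
  have hm1 : algebraMap K F (-1) ≠ 0 := by simp
  rw [h1, v.ord_mul hm1 ha, S24_Place.ord_algebraMap, zero_add]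

/-- The zeros of a transcendental element as a finset. -/
theorem zeros_data [IsAlgClosed K] [CharZero K] (y : F) (hy : Transcendental K y)
    [FiniteDimensional K⟮y⟯ F] :
    ∃ Z : Finset (Place K F), (∀ v, v ∈ Z ↔ 0 < v.ord y) ∧
      ∑ v ∈ Z, v.ord y = (Module.finrank K⟮y⟯ F : ℤ) ∧
      (Z.card : ℤ) = Nat.card {v : Place K F // 0 < v.ord y} := by
  have hfin := S24_Place.finite_zeros y hy
  refine ⟨hfin.toFinset, fun v => by simp, ?_, ?_⟩
  · rw [← S24_Place.sum_ord_zeros y hy]
    exact (finsum_mem_eq_finite_toFinset_sum (fun v : Place K F => v.ord y) hfin).symm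
  · have h1 : Nat.card {v : Place K F // 0 < v.ord y}
        = Set.ncard {v : Place K F | 0 < v.ord y} := Nat.card_coe_set_eq _
    rw [h1, Set.ncard_eq_toFinset_card _ hfin]

end Aux


section Main

variable {K F : Type} [Field K] [IsAlgClosed K] [CharZero K] [Field F] [Algebra K F]

/-- Principal divisors have degree zero (finset form). -/
theorem principal_sum_zero (x : F) (hx : Transcendental K x) [FiniteDimensional K⟮x⟯ F]
    (f : F) :
    ∃ T : Finset (Place K F), (∀ v, v ∉ T → v.ord f = 0) ∧ ∑ v ∈ T, v.ord f = 0 := by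
  classical
  by_cases hfa : IsAlgebraic K f
  · have hint : IsIntegral K f := hfa.isIntegral
    have hdeg := IsAlgClosed.degree_eq_one_of_irreducible K (minpoly.irreducible hint)
    obtain ⟨a, rfl⟩ := minpoly.mem_range_of_degree_eq_one K f hdeg
    exact ⟨∅, fun v _ => S24_Place.ord_algebraMap v a, by simp⟩
  · have hft : Transcendental K f := hfa
    haveI := S24_Place.finiteDimensional_adjoin x hx f hft
    haveI := (finrank_congr_of_eq (adjoin_inv_eq (K := K) f)).1
    obtain ⟨Z, hZ, hZsum, -⟩ := zeros_data f hft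
    obtain ⟨P, hP, hPsum, -⟩ := zeros_data f⁻¹ (transcendental_inv hft)
    have hdisj : Disjoint Z P := by
      rw [Finset.disjoint_left]
      intro v hv1 hv2
      rw [hZ] at hv1
      rw [hP, Place.ord_inv] at hv2
      omega
    refine ⟨Z ∪ P, ?_, ?_⟩
    · intro v hv
      rw [Finset.mem_union, hZ, hP, Place.ord_inv] at hv
      omega
    · rw [Finset.sum_union hdisj, hZsum]
      have : ∑ v ∈ P, v.ord f = -∑ v ∈ P, v.ord f⁻¹ := by
        rw [← Finset.sum_neg_distrib]
        exact Finset.sum_congr rfl fun v _ => by rw [Place.ord_inv, neg_neg]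
      rw [this, hPsum, (finrank_congr_of_eq (adjoin_inv_eq (K := K) f)).2]
      ring

theorem pole_or_zero (x : F) (hx : Transcendental K x) [FiniteDimensional K⟮x⟯ F]
    (v : Place K F) : v.ord x < 0 ∨ ∃ c : K, 0 < v.ord (x - algebraMap K F c) := by
  by_contra hcon
  push Not at hcon
  obtain ⟨h1, h2⟩ := hcon
  have hxmem : x ∈ v.toValuationSubring :=
    (S24_Place.mem_valuationSubring_iff v x).2 (Or.inr h1)
  obtain ⟨ϖ, hϖ⟩ := IsDiscreteValuationRing.exists_irreducible v.toValuationSubring
  have ht : v.ord (ϖ : F) = 1 := v.ord_coe_irreducible hϖ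
  have ht0 : (ϖ : F) ≠ 0 := by
    intro h0
    rw [h0, Place.ord_zero] at ht
    exact zero_ne_one ht
  obtain ⟨a, z, hz, hxa⟩ := S24_Place.exists_eq_add_mul x hx v (ϖ : F) ht x hxmem
  have hz0 : z ≠ 0 := by
    rintro rfl
    apply hx
    rw [hxa, mul_zero, add_zero]
    exact isAlgebraic_algebraMap a
  have e : x - algebraMap K F a = (ϖ : F) * z := by
    rw [hxa]; ring
  have hpos : 0 < v.ord (x - algebraMap K F a) := by
    rw [e, v.ord_mul ht0 hz0, ht]
    have := ((S24_Place.mem_valuationSubring_iff v z).1 hz).resolve_left hz0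
    omega
  exact absurd hpos (not_lt.2 (h2 a))

omit [IsAlgClosed K] [CharZero K] in
theorem zero_unique (v : Place K F) (x : F) (c c' : K)
    (h : 0 < v.ord (x - algebraMap K F c)) (h' : 0 < v.ord (x - algebraMap K F c')) :
    c = c' := by
  by_contra hne
  have e : (x - algebraMap K F c') + -(x - algebraMap K F c) = algebraMap K F (c - c') := by
    rw [map_sub]; ring
  have hne' : algebraMap K F (c - c') ≠ 0 := by
    rw [Ne, map_eq_zero_iff _ (algebraMap K F).injective, sub_eq_zero]
    exact hne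
  have h1 := S24_Place.ord_add_le v (x - algebraMap K F c') (-(x - algebraMap K F c))
    (by rw [e]; exact hne')
  rw [e, S24_Place.ord_algebraMap, ord_neg] at h1
  have h2 := lt_min h' h
  exact absurd h1 (not_le.2 h2)

omit [IsAlgClosed K] [CharZero K] in
theorem ord_nonneg_of_zero (v : Place K F) (x : F) (c : K)
    (h : 0 < v.ord (x - algebraMap K F c)) : 0 ≤ v.ord x := by
  by_cases hx0 : x = 0
  · simp [hx0]
  have h1 := S24_Place.ord_add_le v (x - algebraMap K F c) (algebraMap K F c)
    (by simpa using hx0)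
  rw [sub_add_cancel, S24_Place.ord_algebraMap] at h1
  exact le_trans (le_min h.le le_rfl) h1

/-- Genus of a function field `F/K` from the numbers of places over the points of the `x`-line. -/
theorem genus_eq [HasCanonicalDivisor (K := K) (F := F)]
    (x : F) (hx : Transcendental K x) [FiniteDimensional K⟮x⟯ F] (R : Finset K)
    (hR : ∀ c : K, c ∉ R →
      Nat.card {v : Place K F // 0 < v.ord (x - algebraMap K F c)} = Module.finrank K⟮x⟯ F) :
    AlgebraicCurve.genus K F =
      ((∑ c ∈ R, ((Module.finrank K⟮x⟯ F : ℤ) -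
          Nat.card {v : Place K F // 0 < v.ord (x - algebraMap K F c)}))
        - Module.finrank K⟮x⟯ F - Nat.card {v : Place K F // v.ord x < 0} + 2).toNat / 2 := by
  classical
  have hDx : D K F x ≠ 0 := S24_Diff.D_ne_zero x hx
  have hex : ∃ ω : Ω[F⁄K], ω ≠ 0 := ⟨_, hDx⟩
  -- fibers over finite points
  have hfib : ∀ c : K, ∃ Z : Finset (Place K F),
      (∀ v, v ∈ Z ↔ 0 < v.ord (x - algebraMap K F c)) ∧
      ∑ v ∈ Z, v.ord (x - algebraMap K F c) = (Module.finrank K⟮x⟯ F : ℤ) ∧
      (Z.card : ℤ) = Nat.card {v : Place K F // 0 < v.ord (x - algebraMap K F c)} := by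
    intro c
    haveI := (finrank_congr_of_eq (adjoin_sub_eq (K := K) x c)).1
    obtain ⟨Z, h1, h2, h3⟩ := zeros_data (x - algebraMap K F c) (transcendental_sub hx c)
    exact ⟨Z, h1, by rw [h2, (finrank_congr_of_eq (adjoin_sub_eq (K := K) x c)).2], h3⟩
  choose Zc hZc hZcsum hZccard using hfib
  -- the poles
  obtain ⟨Zinf, hZinf, hZinfsum, hZinfcard⟩ : ∃ Z : Finset (Place K F),
      (∀ v, v ∈ Z ↔ v.ord x < 0) ∧ ∑ v ∈ Z, v.ord x = -(Module.finrank K⟮x⟯ F : ℤ) ∧
      (Z.card : ℤ) = Nat.card {v : Place K F // v.ord x < 0} := by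
    haveI := (finrank_congr_of_eq (adjoin_inv_eq (K := K) x)).1
    obtain ⟨Z, h1, h2, h3⟩ := zeros_data x⁻¹ (transcendental_inv hx)
    refine ⟨Z, fun v => by rw [h1, Place.ord_inv]; omega, ?_, ?_⟩
    · have : ∑ v ∈ Z, v.ord x = -∑ v ∈ Z, v.ord x⁻¹ := by
        rw [← Finset.sum_neg_distrib]
        exact Finset.sum_congr rfl fun v _ => by rw [Place.ord_inv, neg_neg]
      rw [this, h2, (finrank_congr_of_eq (adjoin_inv_eq (K := K) x)).2]
    · rw [h3]
      congr 1
      exact Nat.card_congr (Equiv.subtypeEquivRight fun v => by rw [Place.ord_inv]; omega)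
  -- the order of `dx`
  have hg_inf : ∀ v ∈ Zinf, v.ordDifferential (D K F x) = v.ord x - 1 := fun v hv =>
    S24_Diff.ordDifferential_D_of_pole x hx v ((hZinf v).1 hv)
  have hg_c : ∀ c, ∀ v ∈ Zc c,
      v.ordDifferential (D K F x) = v.ord (x - algebraMap K F c) - 1 := fun c v hv =>
    S24_Diff.ordDifferential_D_of_zero x hx v c ((hZc c v).1 hv)
  have hsum_c : ∀ c, ∑ v ∈ Zc c, v.ordDifferential (D K F x)
      = (Module.finrank K⟮x⟯ F : ℤ) - (Zc c).card := by
    intro c
    rw [Finset.sum_congr rfl (hg_c c), Finset.sum_sub_distrib, hZcsum c]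
    simp
  have hsum_inf : ∑ v ∈ Zinf, v.ordDifferential (D K F x)
      = -(Module.finrank K⟮x⟯ F : ℤ) - Zinf.card := by
    rw [Finset.sum_congr rfl hg_inf, Finset.sum_sub_distrib, hZinfsum]
    simp
  have hg_unram : ∀ c, c ∉ R → ∀ v ∈ Zc c, v.ordDifferential (D K F x) = 0 := by
    intro c hc v hv
    have hcard : ((Zc c).card : ℤ) = (Module.finrank K⟮x⟯ F : ℤ) := by
      rw [hZccard c, hR c hc]
    have hs : ∑ v ∈ Zc c, v.ordDifferential (D K F x) = 0 := by
      rw [hsum_c c, hcard]; ring
    have hnonneg : ∀ v ∈ Zc c, 0 ≤ v.ordDifferential (D K F x) := fun v hv => by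
      rw [hg_c c v hv]
      have := (hZc c v).1 hv
      omega
    exact (Finset.sum_eq_zero_iff_of_nonneg hnonneg).1 hs v hv
  have hg_out : ∀ v, v ∉ Zinf ∪ R.biUnion Zc → v.ordDifferential (D K F x) = 0 := by
    intro v hv
    rcases pole_or_zero x hx v with h | ⟨c, h⟩
    · exact absurd (Finset.mem_union_left _ ((hZinf v).2 h)) hv
    · by_cases hc : c ∈ R
      · exact absurd (Finset.mem_union_right _
          (Finset.mem_biUnion.2 ⟨c, hc, (hZc c v).2 h⟩)) hv
      · exact hg_unram c hc v ((hZc c v).2 h)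
  have hdisj1 : Disjoint Zinf (R.biUnion Zc) := by
    rw [Finset.disjoint_left]
    intro v hv hv'
    obtain ⟨c, _, hvc⟩ := Finset.mem_biUnion.1 hv'
    have h1 := ord_nonneg_of_zero v x c ((hZc c v).1 hvc)
    have h2 := (hZinf v).1 hv
    omega
  have hdisj2 : (R : Set K).PairwiseDisjoint Zc := by
    intro c _ c' _ hne
    rw [Function.onFun, Finset.disjoint_left]
    intro v hv hv'
    exact hne (zero_unique v x c c' ((hZc c v).1 hv) ((hZc c' v).1 hv'))
  have hsumS : ∑ v ∈ Zinf ∪ R.biUnion Zc, v.ordDifferential (D K F x)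
      = (∑ c ∈ R, ((Module.finrank K⟮x⟯ F : ℤ) - (Zc c).card))
        - (Module.finrank K⟮x⟯ F : ℤ) - Zinf.card := by
    rw [Finset.sum_union hdisj1, Finset.sum_biUnion hdisj2, hsum_inf,
      Finset.sum_congr rfl (fun c _ => hsum_c c)]
    ring
  -- the canonical divisor
  unfold AlgebraicCurve.genus
  rw [dif_pos hex]
  obtain ⟨f, hf⟩ := S24_Diff.exists_smul_D x hx hex.choose
  have hf0 : f ≠ 0 := by
    rintro rfl
    rw [zero_smul] at hf
    exact hex.choose_spec hf
  have hD₀ : ∀ v, canonicalDivisorOf hex.choose_spec v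
      = v.ord f + v.ordDifferential (D K F x) := by
    intro v
    rw [canonicalDivisorOf_apply, hf, S24_Diff.ordDifferential_smul_D x hx v f hf0]
  have hdeg : Divisor.degree (canonicalDivisorOf hex.choose_spec)
      = ∑ v ∈ (canonicalDivisorOf hex.choose_spec).support,
          canonicalDivisorOf hex.choose_spec v := by
    rw [Divisor.degree, Finsupp.liftAddHom_apply, Finsupp.sum]
    refine Finset.sum_congr rfl fun v _ => ?_
    rw [AddMonoidHom.coe_mulRight, S24_Place.deg_eq_one x hx v]
    simp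
  obtain ⟨T, hT, hTsum⟩ := principal_sum_zero x hx f
  have h1 : ∑ v ∈ (canonicalDivisorOf hex.choose_spec).support,
      canonicalDivisorOf hex.choose_spec v
      = ∑ v ∈ (canonicalDivisorOf hex.choose_spec).support ∪ (Zinf ∪ R.biUnion Zc) ∪ T,
        canonicalDivisorOf hex.choose_spec v :=
    Finset.sum_subset (fun v hv => Finset.mem_union_left _ (Finset.mem_union_left _ hv))
      (fun v _ hv => Finsupp.notMem_support_iff.1 hv)
  have h2 : ∑ v ∈ (canonicalDivisorOf hex.choose_spec).support ∪ (Zinf ∪ R.biUnion Zc) ∪ T,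
      canonicalDivisorOf hex.choose_spec v
      = ∑ v ∈ (canonicalDivisorOf hex.choose_spec).support ∪ (Zinf ∪ R.biUnion Zc) ∪ T, v.ord f
        + ∑ v ∈ (canonicalDivisorOf hex.choose_spec).support ∪ (Zinf ∪ R.biUnion Zc) ∪ T,
            v.ordDifferential (D K F x) := by
    rw [← Finset.sum_add_distrib]
    exact Finset.sum_congr rfl fun v _ => hD₀ v
  have h3 : ∑ v ∈ (canonicalDivisorOf hex.choose_spec).support ∪ (Zinf ∪ R.biUnion Zc) ∪ T,
      v.ord f = ∑ v ∈ T, v.ord f :=
    (Finset.sum_subset (fun v hv => Finset.mem_union_right _ hv) (fun v _ hv => hT v hv)).symm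
  have h4 : ∑ v ∈ (canonicalDivisorOf hex.choose_spec).support ∪ (Zinf ∪ R.biUnion Zc) ∪ T,
      v.ordDifferential (D K F x) = ∑ v ∈ Zinf ∪ R.biUnion Zc, v.ordDifferential (D K F x) :=
    (Finset.sum_subset (fun v hv => Finset.mem_union_left _ (Finset.mem_union_right _ hv))
      (fun v _ hv => hg_out v hv)).symm
  rw [hdeg, h1, h2, h3, h4, hTsum, hsumS, zero_add, hZinfcard,
    Finset.sum_congr rfl (fun c _ => by rw [hZccard c])]

end Main

end Fermat.Agent.S24_Genus
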