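import Fermat.Agent.S20_DualLocal
import Fermat.Agent.S24_Diff
import Fermat.Agent.S24_Genus

/-!
# S20_DualGlue (helper6): trace duality of the two charts in place language

Glue on top of `S20_DualLocal` (helper1): the trace dual of the functions regular at the
finite places (resp. at the poles) of `x`, in terms of the order of `dx`.
-/

set_option autoImplicit false
noncomputable section
open AlgebraicCurve IntermediateField KaehlerDifferential

namespace Fermat.Agent.S20_DualGlue

variable {K F : Type} [Field K] [Field F] [Algebra K F]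

theorem trace_congr {L₁ L₂ : IntermediateField K F} (h : L₁ = L₂) (y : F) :
    ((Algebra.trace L₁ F y : L₁) : F) = ((Algebra.trace L₂ F y : L₂) : F) := by
  subst h; rfl

theorem ord_sub_const_nonneg_iff (v : Place K F) (x : F) (c : K) :
    0 ≤ v.ord (x - algebraMap K F c) ↔ 0 ≤ v.ord x := by
  constructor
  · intro h
    by_cases hx0 : x = 0
    · rw [hx0, Place.ord_zero]
    have h1 := S24_Place.ord_add_le v (x - algebraMap K F c) (algebraMap K F c)
      (by simpa using hx0)
    rw [sub_add_cancel, S24_Place.ord_algebraMap] at h1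
    exact le_trans (le_min h le_rfl) h1
  · intro h
    by_cases hx0 : x - algebraMap K F c = 0
    · rw [hx0, Place.ord_zero]
    have h1 := S24_Place.ord_add_le v x (-algebraMap K F c) (by rwa [← sub_eq_add_neg])
    rw [← sub_eq_add_neg, S24_Genus.ord_neg, S24_Place.ord_algebraMap] at h1
    exact le_trans (le_min h le_rfl) h1

theorem traceDual_fin [IsAlgClosed K] [CharZero K] (x : F) (hx : Transcendental K x)
    [FiniteDimensional K⟮x⟯ F] (φ : F) :
    (∀ f : F, (∀ v : Place K F, 0 ≤ v.ord x → f = 0 ∨ 0 ≤ v.ord f) →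
      ∀ v : Place K F, 0 ≤ v.ord x →
        ((Algebra.trace K⟮x⟯ F (φ * f) : K⟮x⟯) : F) = 0 ∨
          0 ≤ v.ord ((Algebra.trace K⟮x⟯ F (φ * f) : K⟮x⟯) : F)) ↔
    ∀ v : Place K F, 0 ≤ v.ord x → φ = 0 ∨ 0 ≤ v.ord φ + v.ordDifferential (D K F x) := by
  have hzero : ∀ v : Place K F, 0 ≤ v.ord x → ∃ c : K, 0 < v.ord (x - algebraMap K F c) := by
    intro v hv
    rcases S24_Genus.pole_or_zero x hx v with h | h
    · omega
    · exact h
  constructor
  · intro h v hv
    by_contra hcon
    push Not at hcon
    obtain ⟨hφ, hlt⟩ := hcon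
    obtain ⟨c, hc⟩ := hzero v hv
    rw [S24_Diff.ordDifferential_D_of_zero x hx v c hc] at hlt
    haveI := (S24_Genus.finrank_congr_of_eq (S24_Genus.adjoin_sub_eq (K := K) x c)).1
    obtain ⟨f, hf, hne, hpole⟩ := S20_DualLocal.exists_trace_pole (x - algebraMap K F c)
      (S24_Genus.transcendental_sub hx c) φ hφ v hc (by omega)
    have e := trace_congr (S24_Genus.adjoin_sub_eq (K := K) x c) (φ * f)
    rw [e] at hne hpole
    have h1 := h f (fun w hw => hf w ((ord_sub_const_nonneg_iff w x c).2 hw)) v hv
    rcases h1 with h1 | h1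
    · exact hne h1
    · have := hpole v hc
      omega
  · intro h f hf v hv
    obtain ⟨c, hc⟩ := hzero v hv
    haveI := (S24_Genus.finrank_congr_of_eq (S24_Genus.adjoin_sub_eq (K := K) x c)).1
    have e := trace_congr (S24_Genus.adjoin_sub_eq (K := K) x c) (φ * f)
    have h1 := S20_DualLocal.trace_regular (x - algebraMap K F c)
      (S24_Genus.transcendental_sub hx c) (φ * f) (fun w hw => by
        have hw' : 0 ≤ w.ord x := (ord_sub_const_nonneg_iff w x c).1 hw.le
        by_cases hφ : φ = 0
        · left; rw [hφ, zero_mul]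
        by_cases hf0 : f = 0
        · left; rw [hf0, mul_zero]
        right
        have h2 := (h w hw').resolve_left hφ
        rw [S24_Diff.ordDifferential_D_of_zero x hx w c hw] at h2
        have h3 := (hf w hw').resolve_left hf0
        rw [w.ord_mul hφ hf0]
        omega) v hc
    rwa [e] at h1

theorem traceDual_inf [IsAlgClosed K] [CharZero K] (x : F) (hx : Transcendental K x)
    [FiniteDimensional K⟮x⟯ F] (φ : F) :
    (∀ f : F, (∀ v : Place K F, v.ord x < 0 → f = 0 ∨ 0 ≤ v.ord f) →
      ∀ v : Place K F, v.ord x < 0 →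
        ((Algebra.trace K⟮x⟯ F (φ * f) : K⟮x⟯) : F) = 0 ∨
          0 ≤ v.ord ((Algebra.trace K⟮x⟯ F (φ * f) : K⟮x⟯) : F)) ↔
    ∀ v : Place K F, v.ord x < 0 →
      φ = 0 ∨ 2 * v.ord x ≤ v.ord φ + v.ordDifferential (D K F x) := by
  haveI := (S24_Genus.finrank_congr_of_eq (S24_Genus.adjoin_inv_eq (K := K) x)).1
  have hxi := S24_Genus.transcendental_inv hx
  have e := fun y : F => trace_congr (S24_Genus.adjoin_inv_eq (K := K) x) y
  constructor
  · intro h v hv
    by_contra hcon
    push Not at hcon
    obtain ⟨hφ, hlt⟩ := hcon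
    rw [S24_Diff.ordDifferential_D_of_pole x hx v hv] at hlt
    have hv' : 0 < v.ord x⁻¹ := by rw [Place.ord_inv]; omega
    obtain ⟨f, hf, hne, hpole⟩ := S20_DualLocal.exists_trace_pole x⁻¹ hxi φ hφ v hv'
      (by rw [Place.ord_inv]; omega)
    rw [e] at hne hpole
    have h1 := h f (fun w hw => hf w (by rw [Place.ord_inv]; omega)) v hv
    rcases h1 with h1 | h1
    · exact hne h1
    · have := hpole v hv'
      omega
  · intro h f hf v hv
    have hv' : 0 < v.ord x⁻¹ := by rw [Place.ord_inv]; omega
    have h1 := S20_DualLocal.trace_regular x⁻¹ hxi (φ * f) (fun w hw => by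
        have hw' : w.ord x < 0 := by rw [Place.ord_inv] at hw; omega
        by_cases hφ : φ = 0
        · left; rw [hφ, zero_mul]
        by_cases hf0 : f = 0
        · left; rw [hf0, mul_zero]
        right
        have h2 := (h w hw').resolve_left hφ
        rw [S24_Diff.ordDifferential_D_of_pole x hx w hw'] at h2
        have h3 := (hf w hw').resolve_left hf0
        rw [w.ord_mul hφ hf0, Place.ord_inv]
        omega) v hv'
    rwa [e] at h1

end Fermat.Agent.S20_DualGlue
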