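import Fermat.Agent.S24_Place
import Fermat.Agent.S24_Diff

/-!
# S20, P1/(R3a) (helper1): `v ↦ ord_v(dx)` has finite support

The places where `x` is regular and `ord_v(dx) ≠ 0` are ramified over `K[x]`, hence divide the
different ideal of the integral closure of `K[x]` (Mathlib `pow_sub_one_dvd_differentIdeal`);
the poles of `x` are finite in number.
-/

set_option autoImplicit false
set_option linter.unusedSectionVars false
noncomputable section
open AlgebraicCurve IntermediateField KaehlerDifferential

namespace Fermat.Agent.S20_DualSupp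

open IsDedekindDomain WithZero nonZeroDivisors
open Fermat.Agent.S24_Place Fermat.Agent.S24_Places
open scoped IntermediateField.algebraAdjoinAdjoin

attribute [local instance] FractionRing.liftAlgebra FractionRing.isScalarTower_liftAlgebra

/-- In characteristic zero only finitely many primes of `B` are ramified over `A`. -/
theorem finite_ramified_aux {A B : Type*} [CommRing A] [IsDedekindDomain A] [CommRing B]
    [IsDedekindDomain B] [Algebra A B] [Module.IsTorsionFree A B] [Module.Finite A B]
    [CharZero A] :
    {w : HeightOneSpectrum B | ∃ p : Ideal A, p.IsMaximal ∧ p ≠ ⊥ ∧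
      w.asIdeal ^ 2 ∣ p.map (algebraMap A B)}.Finite := by
  have h1 : IsLocalization (Algebra.algebraMapSubmonoid B A⁰) (FractionRing B) :=
    IsIntegralClosure.isLocalization _ (FractionRing A) _ _
  have h2 : FiniteDimensional (FractionRing A) (FractionRing B) := .of_isLocalization A B A⁰
  have h3 : CharZero (FractionRing A) := inferInstance
  have hsep : Algebra.IsSeparable (FractionRing A) (FractionRing B) := inferInstance
  have h0 : differentIdeal A B ≠ ⊥ := differentIdeal_ne_bot
  refine (Ideal.finite_factors h0).subset ?_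
  rintro w ⟨p, hp, hp0, hdvd⟩
  have := pow_sub_one_dvd_differentIdeal (A := A) w.asIdeal 2 hp0 hdvd
  simpa using this

variable {K F : Type*} [Field K] [Field F] [Algebra K F]

theorem finite_support_aux {A B : Type*} [CommRing A] [IsDedekindDomain A] [CommRing B]
    [IsDedekindDomain B] [Algebra A B] [Module.IsTorsionFree A B] [Module.Finite A B]
    [CharZero A] [Algebra B F] [IsFractionRing B F] [Algebra A F] [IsScalarTower A B F]
    [Algebra K B] [IsScalarTower K B F] (P : Place K F → Prop)
    (hcov : ∀ v : Place K F, P v →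
      ∃ w : HeightOneSpectrum B, Place.ofHeightOneSpectrum (K := K) (F := F) w = v)
    (hram : ∀ v : Place K F, P v →
      ∃ a : A, (Ideal.span {a}).IsMaximal ∧ a ≠ 0 ∧ 2 ≤ v.ord (algebraMap A F a)) :
    {v : Place K F | P v}.Finite := by
  refine ((finite_ramified_aux (A := A) (B := B)).image
    (Place.ofHeightOneSpectrum (K := K) (F := F))).subset ?_
  intro v hv
  obtain ⟨w, rfl⟩ := hcov v hv
  obtain ⟨a, hmax, ha0, hord⟩ := hram _ hv
  refine ⟨w, ⟨Ideal.span {a}, hmax, ?_, ?_⟩, rfl⟩
  · rw [Ne, Ideal.span_singleton_eq_bot]
    exact ha0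
  · have key : w.valuation F (algebraMap A F a) = w.intValuation (algebraMap A B a) := by
      rw [IsScalarTower.algebraMap_apply A B F]
      exact w.valuation_of_algebraMap _
    rw [Ideal.map_span, Set.image_singleton, Ideal.dvd_span_singleton,
      ← w.intValuation_le_pow_iff_mem, ← key]
    rw [ord_ofHeightOneSpectrum] at hord
    by_cases h0 : w.valuation F (algebraMap A F a) = 0
    · rw [h0]
      exact zero_le
    · rw [← exp_log h0, exp_le_exp]
      push_cast
      omega

theorem isMaximal_span_of_adjoin_eq (S : Subalgebra K F) (t : F) (ht : Transcendental K t)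
    (h : Algebra.adjoin K {t} = S) (hmem : t ∈ S) :
    (Ideal.span {(⟨t, hmem⟩ : S)}).IsMaximal := by
  subst h
  exact span_gen_isMaximal ht

theorem adjoin_sub_eq_adjoin (x : F) (c : K) :
    Algebra.adjoin K {x - algebraMap K F c} = Algebra.adjoin K {x} := by
  apply le_antisymm
  · refine Algebra.adjoin_le ?_
    intro y hy
    rw [Set.mem_singleton_iff] at hy
    rw [hy]
    exact sub_mem (Algebra.self_mem_adjoin_singleton K x) (Subalgebra.algebraMap_mem _ c)
  · refine Algebra.adjoin_le ?_
    intro y hy
    rw [Set.mem_singleton_iff] at hy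
    have : y = (x - algebraMap K F c) + algebraMap K F c := by rw [hy]; ring
    rw [this]
    exact add_mem (Algebra.self_mem_adjoin_singleton K _) (Subalgebra.algebraMap_mem _ c)

/-- universe-polymorphic copy of `S24_Genus.transcendental_sub` -/
theorem transcendental_sub {x : F} (hx : Transcendental K x) (c : K) :
    Transcendental K (x - algebraMap K F c) := by
  intro h
  apply hx
  have := h.add (isAlgebraic_algebraMap (R := K) (A := F) c)
  simpa using this

/-- universe-polymorphic copy of `S24_Genus.adjoin_sub_eq` -/
theorem adjoin_sub_eq (x : F) (c : K) : K⟮x - algebraMap K F c⟯ = K⟮x⟯ := by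
  apply le_antisymm
  · rw [IntermediateField.adjoin_simple_le_iff]
    exact sub_mem (IntermediateField.mem_adjoin_simple_self K x)
      (IntermediateField.algebraMap_mem _ c)
  · rw [IntermediateField.adjoin_simple_le_iff]
    have h := add_mem (IntermediateField.mem_adjoin_simple_self K (x - algebraMap K F c))
      (IntermediateField.algebraMap_mem K⟮x - algebraMap K F c⟯ c)
    simpa using h

/-- universe-polymorphic copy of `S24_Genus.pole_or_zero` -/
theorem pole_or_zero [IsAlgClosed K] [CharZero K] (x : F) (hx : Transcendental K x)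
    [FiniteDimensional K⟮x⟯ F] (v : Place K F) :
    v.ord x < 0 ∨ ∃ c : K, 0 < v.ord (x - algebraMap K F c) := by
  by_contra hcon
  push Not at hcon
  obtain ⟨h1, h2⟩ := hcon
  have hxmem : x ∈ v.toValuationSubring :=
    (mem_valuationSubring_iff v x).2 (Or.inr h1)
  obtain ⟨ϖ, hϖ⟩ := IsDiscreteValuationRing.exists_irreducible v.toValuationSubring
  have ht : v.ord (ϖ : F) = 1 := v.ord_coe_irreducible hϖ
  have ht0 : (ϖ : F) ≠ 0 := by
    intro h0
    rw [h0, Place.ord_zero] at ht
    exact zero_ne_one ht
  obtain ⟨a, z, hz, hxa⟩ := exists_eq_add_mul x hx v (ϖ : F) ht x hxmem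
  have hz0 : z ≠ 0 := by
    rintro rfl
    apply hx
    rw [hxa, mul_zero, add_zero]
    exact isAlgebraic_algebraMap a
  have e : x - algebraMap K F a = (ϖ : F) * z := by
    rw [hxa]; ring
  have hpos : 0 < v.ord (x - algebraMap K F a) := by
    rw [e, v.ord_mul ht0 hz0, ht]
    have := ((mem_valuationSubring_iff v z).1 hz).resolve_left hz0
    omega
  exact absurd hpos (not_lt.2 (h2 a))

/-- (R3a) `v ↦ ord_v(dx)` has finite support. -/
theorem finite_support_ordDifferential [IsAlgClosed K] [CharZero K] (x : F)
    (hx : Transcendental K x) [FiniteDimensional K⟮x⟯ F] :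
    {v : Place K F | v.ordDifferential (D K F x) ≠ 0}.Finite := by
  have hx' : Transcendental K x⁻¹ := fun halg => hx (by simpa using halg.inv)
  have hfd : FiniteDimensional K⟮x⁻¹⟯ F :=
    finiteDimensional_of_eq (adjoin_inv_eq (K := K) x).symm
  have hpoles : {v : Place K F | 0 < v.ord x⁻¹}.Finite := finite_zeros x⁻¹ hx'
  have hPID := isPrincipalIdealRing_adjoin hx
  have hB1 : IsDedekindDomain (integralClosure (Algebra.adjoin K {x}) F) :=
    integralClosure.isDedekindDomain (Algebra.adjoin K {x}) K⟮x⟯ F
  have hB2 : IsFractionRing (integralClosure (Algebra.adjoin K {x}) F) F :=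
    integralClosure.isFractionRing_of_finite_extension K⟮x⟯ F
  have hfin : Module.Finite (Algebra.adjoin K {x}) (integralClosure (Algebra.adjoin K {x}) F) :=
    IsIntegralClosure.finite (Algebra.adjoin K {x}) K⟮x⟯ F _
  have hc0 : CharZero (Algebra.adjoin K {x}) :=
    charZero_of_injective_algebraMap (algebraMap K (Algebra.adjoin K {x})).injective
  have hfinite : {v : Place K F | 0 ≤ v.ord x ∧ v.ordDifferential (D K F x) ≠ 0}.Finite := by
    refine finite_support_aux (K := K) (F := F) (A := Algebra.adjoin K {x})
      (B := integralClosure (Algebra.adjoin K {x}) F)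
      (fun v => 0 ≤ v.ord x ∧ v.ordDifferential (D K F x) ≠ 0) ?_ ?_
    · rintro v ⟨hv, -⟩
      exact (exists_ofHeightOneSpectrum_of_mem v
        ((mem_valuationSubring_iff v x).mpr (Or.inr hv))).exists
    · rintro v ⟨hv, hne⟩
      rcases pole_or_zero x hx v with h | ⟨c, hc⟩
      · omega
      · have hd := Fermat.Agent.S24_Diff.ordDifferential_D_of_zero x hx v c hc
        have hmem : x - algebraMap K F c ∈ Algebra.adjoin K {x} :=
          sub_mem (Algebra.self_mem_adjoin_singleton K x) (Subalgebra.algebraMap_mem _ c)
        have htr : Transcendental K (x - algebraMap K F c) := transcendental_sub hx c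
        refine ⟨⟨x - algebraMap K F c, hmem⟩,
          isMaximal_span_of_adjoin_eq _ _ htr (adjoin_sub_eq_adjoin x c) hmem, ?_, ?_⟩
        · intro h0
          have h1 : x - algebraMap K F c = 0 := congrArg Subtype.val h0
          rw [h1] at hc
          simp at hc
        · show 2 ≤ v.ord (x - algebraMap K F c)
          rw [hd] at hne
          omega
  refine (hpoles.union hfinite).subset ?_
  intro v hv
  rcases lt_or_ge (v.ord x) 0 with h | h
  · left
    show 0 < v.ord x⁻¹
    rw [v.ord_inv]
    omega
  · right
    exact ⟨h, hv⟩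

end Fermat.Agent.S20_DualSupp
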