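import Fermat.Agent.S24_Place
import Fermat.Prelude.Def_AlgebraicCurve_Repartitions

/-!
# S20, package P1 (R2) (helper1): Euler characteristic additivity

For a function field `F / K(x)` (`K` algebraically closed of characteristic zero) and a divisor
`D`, let `Mfin x D` (resp. `Minf x D`) be the `K`-space of functions with `ord_v f ≥ -D v` at
all places `v` where `x` is regular (resp. at all poles of `x`).  Then
`Mfin x D ⊓ Minf x D = riemannRochSpace D`, and with
`chi x D = dim (riemannRochSpace D) - dim (F / (Mfin x D + Minf x D))` we show that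
finite-dimensionality at one divisor propagates to all divisors and `chi x D - deg D` is
constant (`chi_eq`).  By-products: strong approximation (`exists_ord_eq`) and the abstract
linear algebra of Euler characteristics of pairs of subspaces (`HasChi`).
-/

set_option autoImplicit false
noncomputable section
open AlgebraicCurve IntermediateField

namespace Fermat.Agent.S20_Euler

section LinAlg
variable {K V : Type*} [Field K] [AddCommGroup V] [Module K V]

/-- the pair `(M, N)` has finite-dimensional intersection and cokernel, with Euler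
characteristic `c` -/
def HasChi (M N : Submodule K V) (c : ℤ) : Prop :=
  FiniteDimensional K ↥(M ⊓ N) ∧ FiniteDimensional K (V ⧸ (M ⊔ N)) ∧
    (Module.finrank K ↥(M ⊓ N) : ℤ) - Module.finrank K (V ⧸ (M ⊔ N)) = c

theorem hasChi_comm (M N : Submodule K V) (c : ℤ) : HasChi M N c ↔ HasChi N M c := by
  unfold HasChi
  rw [inf_comm, sup_comm]

theorem finiteDimensional_sup_span_iff (A : Submodule K V) (n : V) :
    FiniteDimensional K ↥(A ⊔ K ∙ n) ↔ FiniteDimensional K ↥A := by
  constructor
  · intro h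
    exact Submodule.finiteDimensional_of_le (le_sup_left : A ≤ A ⊔ K ∙ n)
  · intro h
    infer_instance

theorem finrank_sup_span (A : Submodule K V) [FiniteDimensional K ↥A] (n : V) (hn : n ∉ A) :
    Module.finrank K ↥(A ⊔ K ∙ n) = Module.finrank K ↥A + 1 := by
  have hn0 : n ≠ 0 := fun h => hn (h ▸ A.zero_mem)
  have h := Submodule.finrank_sup_add_finrank_inf_eq A (K ∙ n)
  have hd : A ⊓ K ∙ n = ⊥ := by
    rw [← disjoint_iff]
    exact (Submodule.disjoint_span_singleton' hn0).mpr hn
  rw [hd, finrank_bot, finrank_span_singleton hn0, add_zero] at h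
  exact h

theorem finiteDimensional_quotient_sup_span_iff (P : Submodule K V) (g : V) :
    FiniteDimensional K (V ⧸ (P ⊔ K ∙ g)) ↔ FiniteDimensional K (V ⧸ P) := by
  have e := Submodule.quotientQuotientEquivQuotientSup P (K ∙ g)
  constructor
  · intro h
    have h1 : FiniteDimensional K ((V ⧸ P) ⧸ (K ∙ g).map P.mkQ) :=
      Module.Finite.equiv e.symm
    have h2 : FiniteDimensional K ↥((K ∙ g).map P.mkQ) := by
      rw [Submodule.map_span, Set.image_singleton]
      infer_instance
    exact Module.Finite.of_submodule_quotient ((K ∙ g).map P.mkQ)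
  · intro h
    exact Module.Finite.equiv e

theorem finrank_quotient_sup_span (P : Submodule K V) [FiniteDimensional K (V ⧸ P)] (g : V)
    (hg : g ∉ P) :
    Module.finrank K (V ⧸ P) = Module.finrank K (V ⧸ (P ⊔ K ∙ g)) + 1 := by
  have e := Submodule.quotientQuotientEquivQuotientSup P (K ∙ g)
  have h := Submodule.finrank_quotient_add_finrank ((K ∙ g).map P.mkQ)
  rw [e.finrank_eq] at h
  have hg0 : P.mkQ g ≠ 0 := by
    rw [Submodule.mkQ_apply, Ne, Submodule.Quotient.mk_eq_zero]
    exact hg
  have h1 : Module.finrank K ↥((K ∙ g).map P.mkQ) = 1 := by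
    rw [Submodule.map_span, Set.image_singleton]
    exact finrank_span_singleton hg0
  rw [h1] at h
  exact h.symm

theorem hasChi_sup_span_iff (M N : Submodule K V) (g : V) (hg : g ∉ M) (c : ℤ) :
    HasChi M N c ↔ HasChi (M ⊔ K ∙ g) N (c + 1) := by
  by_cases hgs : g ∈ M ⊔ N
  · obtain ⟨m, hm, n, hn, hmn⟩ := Submodule.mem_sup.mp hgs
    have hsup : M ⊔ K ∙ g ⊔ N = M ⊔ N := by
      apply le_antisymm
      · refine sup_le (sup_le le_sup_left ?_) le_sup_right
        rw [Submodule.span_singleton_le_iff_mem]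
        exact hgs
      · exact sup_le_sup_right le_sup_left _
    have hnM : n ∉ M ⊓ N := by
      intro h
      apply hg
      rw [← hmn]
      exact M.add_mem hm h.1
    have hn1 : n ∈ M ⊔ K ∙ g := by
      have : n = -m + g := by rw [← hmn]; abel
      rw [this]
      exact Submodule.add_mem_sup (M.neg_mem hm) (Submodule.mem_span_singleton_self g)
    have hinf : (M ⊔ K ∙ g) ⊓ N = (M ⊓ N) ⊔ K ∙ n := by
      apply le_antisymm
      · rintro y ⟨hy1, hy2⟩
        obtain ⟨m', hm', z, hz, rfl⟩ := Submodule.mem_sup.mp hy1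
        obtain ⟨a, rfl⟩ := Submodule.mem_span_singleton.mp hz
        have h1 : m' + a • g = (m' + a • m) + a • n := by
          rw [← hmn, smul_add]; abel
        rw [h1]
        refine Submodule.add_mem_sup ⟨M.add_mem hm' (M.smul_mem a hm), ?_⟩
          (Submodule.smul_mem _ a (Submodule.mem_span_singleton_self n))
        have h2 : m' + a • m = (m' + a • g) - a • n := by rw [h1]; abel
        rw [h2]
        exact N.sub_mem hy2 (N.smul_mem a hn)
      · refine sup_le (inf_le_inf_right _ le_sup_left) ?_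
        rw [Submodule.span_singleton_le_iff_mem]
        exact ⟨hn1, hn⟩
    unfold HasChi
    rw [hsup, hinf, finiteDimensional_sup_span_iff]
    constructor
    · rintro ⟨h1, h2, h3⟩
      refine ⟨h1, h2, ?_⟩
      rw [finrank_sup_span _ n hnM]
      push_cast
      linarith
    · rintro ⟨h1, h2, h3⟩
      refine ⟨h1, h2, ?_⟩
      rw [finrank_sup_span _ n hnM] at h3
      push_cast at h3
      linarith
  · have hinf : (M ⊔ K ∙ g) ⊓ N = M ⊓ N := by
      apply le_antisymm
      · rintro y ⟨hy1, hy2⟩
        obtain ⟨m', hm', z, hz, rfl⟩ := Submodule.mem_sup.mp hy1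
        obtain ⟨a, rfl⟩ := Submodule.mem_span_singleton.mp hz
        by_cases ha : a = 0
        · subst ha
          rw [zero_smul, add_zero] at hy2 ⊢
          exact ⟨hm', hy2⟩
        · exfalso
          apply hgs
          have : g = a⁻¹ • (m' + a • g) - a⁻¹ • m' := by
            rw [smul_add, smul_smul, inv_mul_cancel₀ ha, one_smul]; abel
          rw [this]
          exact Submodule.sub_mem _ (Submodule.mem_sup_right (N.smul_mem _ hy2))
            (Submodule.mem_sup_left (M.smul_mem _ hm'))
      · exact inf_le_inf_right _ le_sup_left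
    have hsup : M ⊔ K ∙ g ⊔ N = (M ⊔ N) ⊔ K ∙ g := sup_right_comm _ _ _
    unfold HasChi
    rw [hsup, hinf, finiteDimensional_quotient_sup_span_iff]
    constructor
    · rintro ⟨h1, h2, h3⟩
      refine ⟨h1, h2, ?_⟩
      rw [finrank_quotient_sup_span _ g hgs] at h3
      push_cast at h3
      linarith
    · rintro ⟨h1, h2, h3⟩
      refine ⟨h1, h2, ?_⟩
      rw [finrank_quotient_sup_span _ g hgs]
      push_cast
      linarith

theorem hasChi_sup_span_iff' (M N : Submodule K V) (g : V) (hg : g ∉ N) (c : ℤ) :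
    HasChi M N c ↔ HasChi M (N ⊔ K ∙ g) (c + 1) := by
  rw [hasChi_comm, hasChi_sup_span_iff N M g hg, hasChi_comm]

end LinAlg

section Dedekind
open IsDedekindDomain WithZero

variable {R : Type*} [CommRing R] [IsDedekindDomain R]

/-- CRT: an element of `R` with valuation exactly `exp (-k)` at `w₀` and `≤ exp (-m w)` on `T`. -/
theorem exists_intValuation_eq (w₀ : HeightOneSpectrum R) (T : Finset (HeightOneSpectrum R))
    (hw₀ : w₀ ∉ T) (k : ℕ) (m : HeightOneSpectrum R → ℕ) :
    ∃ y : R, w₀.intValuation y = exp (-(k : ℤ)) ∧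
      ∀ w ∈ T, w.intValuation y ≤ exp (-(m w : ℤ)) := by
  classical
  obtain ⟨π, hπ⟩ := w₀.intValuation_exists_uniformizer
  obtain ⟨y, hy⟩ := IsDedekindDomain.exists_forall_sub_mem_ideal (s := insert w₀ T)
    (fun w => w.asIdeal) (fun w => if w = w₀ then k + 1 else m w) (fun w _ => w.prime)
    (fun w _ w' _ h hh => h (HeightOneSpectrum.ext hh))
    (fun w => if (w : HeightOneSpectrum R) = w₀ then π ^ k else 0)
  refine ⟨y, ?_, ?_⟩
  · have h := hy w₀ (Finset.mem_insert_self _ _)
    simp only [if_true] at h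
    rw [← HeightOneSpectrum.intValuation_le_pow_iff_mem] at h
    have hπk : w₀.intValuation (π ^ k) = exp (-(k : ℤ)) := by
      rw [map_pow, hπ, ← exp_nsmul]
      simp
    have hlt : w₀.intValuation (y - π ^ k) < w₀.intValuation (π ^ k) := by
      rw [hπk]
      exact lt_of_le_of_lt h (exp_lt_exp.mpr (by push_cast; omega))
    have hy' : y = (y - π ^ k) + π ^ k := by ring
    rw [hy', Valuation.map_add_eq_of_lt_right _ hlt, hπk]
  · intro w hw
    have hne : w ≠ w₀ := fun h => hw₀ (h ▸ hw)
    have h := hy w (Finset.mem_insert_of_mem hw)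
    simp only [hne, if_false, sub_zero] at h
    exact (w.intValuation_le_pow_iff_mem y (m w)).mpr h

variable {F : Type*} [Field F] [Algebra R F] [IsFractionRing R F]

/-- Strong approximation in a Dedekind domain: prescribed valuation at `w₀`, upper bounds on
`T`, integral elsewhere. -/
theorem exists_valuation_eq (w₀ : HeightOneSpectrum R) (T : Finset (HeightOneSpectrum R))
    (hw₀ : w₀ ∉ T) (n₀ : ℤ) (n : HeightOneSpectrum R → ℤ) :
    ∃ f : F, f ≠ 0 ∧ w₀.valuation F f = exp (-n₀) ∧
      (∀ w ∈ T, w.valuation F f ≤ exp (-(n w))) ∧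
      ∀ w : HeightOneSpectrum R, w ≠ w₀ → w ∉ T → w.valuation F f ≤ 1 := by
  classical
  obtain ⟨π, hπ⟩ := w₀.intValuation_exists_uniformizer
  set a : ℕ := (-n₀).toNat with ha
  set k : ℕ := n₀.toNat with hk
  have hka : (k : ℤ) - a = n₀ := by omega
  have hπ0 : π ≠ 0 := by
    rintro rfl
    rw [map_zero] at hπ
    exact exp_ne_zero hπ.symm
  set c : R := π ^ a with hc
  have hc0 : c ≠ 0 := pow_ne_zero _ hπ0
  have hcw₀ : w₀.intValuation c = exp (-(a : ℤ)) := by
    rw [hc, map_pow, hπ, ← exp_nsmul]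
    simp
  have hex : ∀ w : HeightOneSpectrum R, ∃ e : ℕ, w.intValuation c = exp (-(e : ℤ)) := by
    intro w
    have h0 := w.intValuation_ne_zero c hc0
    have h1 := w.intValuation_le_one c
    refine ⟨(- log (w.intValuation c)).toNat, ?_⟩
    have h2 : log (w.intValuation c) ≤ 0 := by
      rw [← exp_le_exp, exp_log h0, exp_zero]
      exact h1
    rw [Int.toNat_of_nonneg (by omega), neg_neg, exp_log h0]
  choose e he using hex
  have hZ : {w : HeightOneSpectrum R | w.asIdeal ∣ Ideal.span {c}}.Finite :=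
    Ideal.finite_factors (by simpa using hc0)
  set T' : Finset (HeightOneSpectrum R) := (T ∪ hZ.toFinset).erase w₀ with hT'
  obtain ⟨y, hy0, hyT⟩ := exists_intValuation_eq w₀ T' (Finset.notMem_erase _ _) k
    (fun w => (n w).toNat + e w)
  have hy_ne : y ≠ 0 := by
    rintro rfl
    rw [map_zero] at hy0
    exact exp_ne_zero hy0.symm
  have hinj := IsFractionRing.injective R F
  have hcF : algebraMap R F c ≠ 0 := fun h => hc0 (hinj (by rw [h, map_zero]))
  have hyF : algebraMap R F y ≠ 0 := fun h => hy_ne (hinj (by rw [h, map_zero]))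
  have hbound : ∀ w ∈ T', w.valuation F (algebraMap R F y / algebraMap R F c)
      ≤ exp (-((n w).toNat : ℤ)) := by
    intro w hw
    rw [map_div₀, HeightOneSpectrum.valuation_of_algebraMap,
      HeightOneSpectrum.valuation_of_algebraMap, he w]
    calc w.intValuation y / exp (-(e w : ℤ))
        ≤ exp (-(((n w).toNat + e w : ℕ) : ℤ)) / exp (-(e w : ℤ)) := by
          gcongr
          exacts [zero_le, hyT w hw]
      _ = exp (-((n w).toNat : ℤ)) := by
          rw [← exp_sub]
          congr 1
          push_cast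
          ring
  refine ⟨algebraMap R F y / algebraMap R F c, div_ne_zero hyF hcF, ?_, ?_, ?_⟩
  · rw [map_div₀, HeightOneSpectrum.valuation_of_algebraMap,
      HeightOneSpectrum.valuation_of_algebraMap, hy0, hcw₀, ← exp_sub]
    congr 1
    omega
  · intro w hw
    have hne : w ≠ w₀ := fun h => hw₀ (h ▸ hw)
    have hwT' : w ∈ T' := Finset.mem_erase.mpr ⟨hne, Finset.mem_union_left _ hw⟩
    exact (hbound w hwT').trans (exp_le_exp.mpr (by omega))
  · intro w hne hwT
    by_cases hwZ : w.asIdeal ∣ Ideal.span {c}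
    · have hwT' : w ∈ T' :=
        Finset.mem_erase.mpr ⟨hne, Finset.mem_union_right _ (hZ.mem_toFinset.mpr hwZ)⟩
      refine (hbound w hwT').trans ?_
      rw [← exp_zero, exp_le_exp]
      omega
    · have h1 : w.intValuation c = 1 := by
        have := (w.intValuation_lt_one_iff_dvd c).not.mpr hwZ
        exact le_antisymm (w.intValuation_le_one c) (not_lt.mp this)
      rw [map_div₀, HeightOneSpectrum.valuation_of_algebraMap,
        HeightOneSpectrum.valuation_of_algebraMap, h1, div_one]
      exact w.intValuation_le_one y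

end Dedekind

section Places
open IsDedekindDomain WithZero Fermat.Agent.S24_Place Fermat.Agent.S24_Places
open scoped IntermediateField.algebraAdjoinAdjoin

variable {K F : Type*} [Field K] [Field F] [Algebra K F]

/-- Strong approximation at the places where `x` is regular. -/
theorem exists_ord_eq [IsAlgClosed K] [CharZero K] (x : F) (hx : Transcendental K x)
    [FiniteDimensional K⟮x⟯ F] (v₀ : Place K F) (h₀ : 0 ≤ v₀.ord x)
    (T : Finset (Place K F)) (hT : ∀ v ∈ T, 0 ≤ v.ord x) (hv₀ : v₀ ∉ T) (n₀ : ℤ)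
    (n : Place K F → ℤ) :
    ∃ f : F, f ≠ 0 ∧ v₀.ord f = n₀ ∧ (∀ v ∈ T, n v ≤ v.ord f) ∧
      ∀ v : Place K F, 0 ≤ v.ord x → v ≠ v₀ → v ∉ T → 0 ≤ v.ord f := by
  classical
  have hPID := isPrincipalIdealRing_adjoin hx
  have hB1 : IsDedekindDomain (integralClosure (Algebra.adjoin K {x}) F) :=
    integralClosure.isDedekindDomain (Algebra.adjoin K {x}) K⟮x⟯ F
  have hB2 : IsFractionRing (integralClosure (Algebra.adjoin K {x}) F) F :=
    integralClosure.isFractionRing_of_finite_extension K⟮x⟯ F
  have hmem : ∀ v : Place K F, 0 ≤ v.ord x → x ∈ v.toValuationSubring := fun v hv =>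
    (mem_valuationSubring_iff v x).mpr (Or.inr hv)
  obtain ⟨w₀, hw₀⟩ := (exists_ofHeightOneSpectrum_of_mem v₀ (hmem v₀ h₀)).exists
  have hex : ∀ v : Place K F, ∃ w : HeightOneSpectrum (integralClosure (Algebra.adjoin K {x}) F),
      v ∈ T → Place.ofHeightOneSpectrum (K := K) (F := F) w = v := by
    intro v
    by_cases hv : v ∈ T
    · obtain ⟨w, hw⟩ := (exists_ofHeightOneSpectrum_of_mem v (hmem v (hT v hv))).exists
      exact ⟨w, fun _ => hw⟩
    · exact ⟨w₀, fun h => absurd h hv⟩
  choose wF hwF using hex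
  have hnot : w₀ ∉ T.image wF := by
    intro h
    obtain ⟨v, hvS, hv⟩ := Finset.mem_image.mp h
    have := hwF v hvS
    rw [hv, hw₀] at this
    exact hv₀ (this ▸ hvS)
  obtain ⟨f, hf0, hf1, hf2, hf3⟩ := exists_valuation_eq (F := F) w₀ (T.image wF) hnot n₀
    (fun w => n (Place.ofHeightOneSpectrum (K := K) (F := F) w))
  have hval0 : ∀ w : HeightOneSpectrum (integralClosure (Algebra.adjoin K {x}) F),
      w.valuation F f ≠ 0 := fun w => (Valuation.ne_zero_iff _).mpr hf0
  refine ⟨f, hf0, ?_, ?_, ?_⟩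
  · rw [← hw₀, ord_ofHeightOneSpectrum, hf1, log_exp, neg_neg]
  · intro v hv
    have h := hf2 (wF v) (Finset.mem_image_of_mem wF hv)
    have e1 := ord_ofHeightOneSpectrum (K := K) (wF v) f
    rw [hwF v hv] at h e1
    rw [e1]
    rw [← exp_log (hval0 (wF v)), exp_le_exp] at h
    omega
  · intro v hv hne hvT
    obtain ⟨w, hw⟩ := (exists_ofHeightOneSpectrum_of_mem v (hmem v hv)).exists
    have hw_ne : w ≠ w₀ := by
      rintro rfl
      exact hne (hw.symm.trans hw₀)
    have hwT : w ∉ T.image wF := by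
      intro h
      obtain ⟨v', hv'T, hv'⟩ := Finset.mem_image.mp h
      have := hwF v' hv'T
      rw [hv', hw] at this
      exact hvT (this ▸ hv'T)
    have h := hf3 w hw_ne hwT
    rw [← hw, ord_ofHeightOneSpectrum]
    rw [← exp_log (hval0 w), ← exp_zero, exp_le_exp] at h
    omega

theorem exists_ord_eq_one (v : Place K F) : ∃ t : F, v.ord t = 1 := by
  obtain ⟨π, hπ⟩ := IsDiscreteValuationRing.exists_irreducible v.toValuationSubring
  exact ⟨π, v.ord_coe_irreducible hπ⟩

/-- functions with `ord_v f ≥ -D v` at all places `v ∈ S` -/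
def Mset (S : Set (Place K F)) (D : Divisor K F) : Submodule K F where
  carrier := {f | ∀ v : Place K F, v ∈ S → v.adicValuation f ≤ exp (D v)}
  zero_mem' := by intro v _; simp
  add_mem' := by
    intro f g hf hg v hv
    exact (Valuation.map_add _ _ _).trans (max_le (hf v hv) (hg v hv))
  smul_mem' := by
    intro c f hf v hv
    show v.adicValuation (c • f) ≤ exp (D v)
    rw [Algebra.smul_def, map_mul]
    exact (mul_le_of_le_one_left' (v.adicValuation_algebraMap_le_one c)).trans (hf v hv)

theorem mem_Mset_iff {S : Set (Place K F)} {D : Divisor K F} {f : F} :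
    f ∈ Mset S D ↔ ∀ v : Place K F, v ∈ S → f = 0 ∨ -D v ≤ v.ord f := by
  show (∀ v : Place K F, v ∈ S → v.adicValuation f ≤ exp (D v)) ↔ _
  exact forall_congr' fun v => imp_congr_right fun _ => v.adicValuation_le_exp_iff

theorem Mset_mono (S : Set (Place K F)) {D D' : Divisor K F} (h : D ≤ D') :
    Mset S D ≤ Mset S D' := fun _ hf v hv =>
  (hf v hv).trans (exp_le_exp.mpr (Finsupp.le_def.mp h v))

theorem Mset_add_single_of_notMem (S : Set (Place K F)) (D : Divisor K F) (v₀ : Place K F)
    (hv₀ : v₀ ∉ S) : Mset S (D + Finsupp.single v₀ 1) = Mset S D := by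
  ext f
  simp only [mem_Mset_iff]
  refine forall_congr' fun v => imp_congr_right fun hv => ?_
  have hne : v ≠ v₀ := fun h => hv₀ (h ▸ hv)
  rw [Finsupp.add_apply, Finsupp.single_eq_of_ne hne, add_zero]

theorem Mset_add_single_of_mem [IsAlgClosed K] [CharZero K] (x : F) (hx : Transcendental K x)
    [FiniteDimensional K⟮x⟯ F] (S : Set (Place K F)) (D : Divisor K F) (v₀ : Place K F)
    (hv₀ : v₀ ∈ S) (g : F) (hg0 : g ≠ 0) (hg1 : v₀.ord g = -D v₀ - 1)
    (hg2 : ∀ v ∈ S, v ≠ v₀ → -D v ≤ v.ord g) :
    g ∉ Mset S D ∧ Mset S (D + Finsupp.single v₀ 1) = Mset S D ⊔ K ∙ g := by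
  have hgmem : g ∈ Mset S (D + Finsupp.single v₀ 1) := by
    rw [mem_Mset_iff]
    intro v hv
    right
    by_cases h : v = v₀
    · subst h
      rw [Finsupp.add_apply, Finsupp.single_eq_same, hg1]
      omega
    · rw [Finsupp.add_apply, Finsupp.single_eq_of_ne h, add_zero]
      exact hg2 v hv h
  have hgnot : g ∉ Mset S D := by
    rw [mem_Mset_iff]
    intro h
    rcases h v₀ hv₀ with h | h
    · exact hg0 h
    · omega
  have hle : D ≤ D + Finsupp.single v₀ 1 := by
    rw [Finsupp.le_def]
    intro v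
    rw [Finsupp.add_apply]
    by_cases h : v = v₀
    · subst h
      rw [Finsupp.single_eq_same]
      omega
    · rw [Finsupp.single_eq_of_ne h, add_zero]
  refine ⟨hgnot, le_antisymm ?_ (sup_le (Mset_mono S hle) ?_)⟩
  · intro f hf
    obtain ⟨t, ht⟩ := exists_ord_eq_one v₀
    have ht0 : t ≠ 0 := by
      rintro rfl
      rw [v₀.ord_zero] at ht
      exact zero_ne_one ht
    by_cases hf0 : f = 0
    · subst hf0
      exact zero_mem _
    have hfg : f / g ∈ v₀.toValuationSubring := by
      rw [mem_valuationSubring_iff]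
      right
      rw [div_eq_mul_inv, v₀.ord_mul hf0 (inv_ne_zero hg0), v₀.ord_inv, hg1]
      have := (mem_Mset_iff.mp hf v₀ hv₀).resolve_left hf0
      rw [Finsupp.add_apply, Finsupp.single_eq_same] at this
      omega
    obtain ⟨a, z, hz, hfz⟩ := exists_eq_add_mul x hx v₀ t ht (f / g) hfg
    have hfa : f - a • g = t * z * g := by
      rw [Algebra.smul_def]
      rw [div_eq_iff hg0] at hfz
      rw [hfz]
      ring
    have hmem : f - a • g ∈ Mset S D := by
      rw [mem_Mset_iff]
      intro v hv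
      by_cases h : v = v₀
      · subst h
        rw [hfa]
        by_cases hz0 : z = 0
        · left
          rw [hz0]
          ring
        · right
          rw [v.ord_mul (mul_ne_zero ht0 hz0) hg0, v.ord_mul ht0 hz0, ht, hg1]
          have := ((mem_valuationSubring_iff v z).mp hz).resolve_left hz0
          omega
      · have h1 : f - a • g ∈ Mset S (D + Finsupp.single v₀ 1) :=
          sub_mem hf (Submodule.smul_mem _ a hgmem)
        have := mem_Mset_iff.mp h1 v hv
        rwa [Finsupp.add_apply, Finsupp.single_eq_of_ne h, add_zero] at this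
    have hsplit : f = (f - a • g) + a • g := by abel
    rw [hsplit]
    exact Submodule.add_mem_sup hmem
      (Submodule.smul_mem _ a (Submodule.mem_span_singleton_self g))
  · rw [Submodule.span_singleton_le_iff_mem]
    exact hgmem

/-- `M(D)`: functions with `ord_v f ≥ -D v` at all places `v` where `x` is regular. -/
def Mfin (x : F) (D : Divisor K F) : Submodule K F := Mset {v : Place K F | 0 ≤ v.ord x} D

/-- `M'(D)`: functions with `ord_v f ≥ -D v` at all poles `v` of `x`. -/
def Minf (x : F) (D : Divisor K F) : Submodule K F := Mset {v : Place K F | v.ord x < 0} D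

theorem mem_Mfin_iff {x : F} {D : Divisor K F} {f : F} :
    f ∈ Mfin x D ↔ ∀ v : Place K F, 0 ≤ v.ord x → f = 0 ∨ -D v ≤ v.ord f :=
  mem_Mset_iff

theorem mem_Minf_iff {x : F} {D : Divisor K F} {f : F} :
    f ∈ Minf x D ↔ ∀ v : Place K F, v.ord x < 0 → f = 0 ∨ -D v ≤ v.ord f :=
  mem_Mset_iff

theorem Mfin_inf_Minf (x : F) (D : Divisor K F) :
    Mfin x D ⊓ Minf x D = riemannRochSpace D := by
  ext f
  rw [Submodule.mem_inf, mem_Mfin_iff, mem_Minf_iff, mem_riemannRochSpace_iff]
  constructor
  · rintro ⟨h1, h2⟩ v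
    rcases le_or_gt 0 (v.ord x) with h | h
    · exact h1 v h
    · exact h2 v h
  · intro h
    exact ⟨fun v _ => h v, fun v _ => h v⟩

theorem Mfin_mono (x : F) {D D' : Divisor K F} (h : D ≤ D') : Mfin x D ≤ Mfin x D' :=
  Mset_mono _ h

theorem Minf_mono (x : F) {D D' : Divisor K F} (h : D ≤ D') : Minf x D ≤ Minf x D' :=
  Mset_mono _ h

/-- the Euler characteristic `ℓ(D) - h¹(D)` of the pair of lattices `(M(D), M'(D))` -/
def chi (x : F) (D : Divisor K F) : ℤ :=
  (Module.finrank K (riemannRochSpace D) : ℤ) - Module.finrank K (F ⧸ (Mfin x D ⊔ Minf x D))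

theorem hasChi_iff (x : F) (D : Divisor K F) (c : ℤ) :
    HasChi (Mfin x D) (Minf x D) c ↔
      FiniteDimensional K (riemannRochSpace D) ∧
        FiniteDimensional K (F ⧸ (Mfin x D ⊔ Minf x D)) ∧ chi x D = c := by
  unfold HasChi chi
  rw [Mfin_inf_Minf]

theorem hasChi_add_single [IsAlgClosed K] [CharZero K] (x : F) (hx : Transcendental K x)
    [FiniteDimensional K⟮x⟯ F] (D : Divisor K F) (v₀ : Place K F) (c : ℤ) :
    HasChi (Mfin x D) (Minf x D) c ↔
      HasChi (Mfin x (D + Finsupp.single v₀ 1)) (Minf x (D + Finsupp.single v₀ 1)) (c + 1) := by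
  classical
  rcases le_or_gt 0 (v₀.ord x) with h₀ | h₀
  · -- a place where `x` is regular
    obtain ⟨g, hg0, hg1, hg2, hg3⟩ := exists_ord_eq x hx v₀ h₀
      ((D.support.filter fun v => 0 ≤ v.ord x).erase v₀)
      (fun v hv => (Finset.mem_filter.mp (Finset.mem_of_mem_erase hv)).2)
      (Finset.notMem_erase _ _) (-D v₀ - 1) (fun v => -D v)
    have hg : ∀ v ∈ {v : Place K F | 0 ≤ v.ord x}, v ≠ v₀ → -D v ≤ v.ord g := by
      intro v hv hne
      by_cases hvs : v ∈ D.support
      · exact hg2 v (Finset.mem_erase.mpr ⟨hne, Finset.mem_filter.mpr ⟨hvs, hv⟩⟩)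
      · have h0 : D v = 0 := Finsupp.notMem_support_iff.mp hvs
        rw [h0, neg_zero]
        refine hg3 v hv hne fun hmem => hvs ?_
        exact (Finset.mem_filter.mp (Finset.mem_of_mem_erase hmem)).1
    obtain ⟨hgnot, heq⟩ := Mset_add_single_of_mem x hx {v : Place K F | 0 ≤ v.ord x} D v₀ h₀
      g hg0 hg1 hg
    have heq' : Minf x (D + Finsupp.single v₀ 1) = Minf x D :=
      Mset_add_single_of_notMem _ D v₀ (by simpa using h₀)
    rw [heq']
    show _ ↔ HasChi (Mset {v : Place K F | 0 ≤ v.ord x} (D + Finsupp.single v₀ 1)) _ _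
    rw [heq]
    exact hasChi_sup_span_iff _ _ g hgnot c
  · -- a pole of `x`
    have hx' : Transcendental K x⁻¹ := fun halg => hx (by simpa using halg.inv)
    have hfd : FiniteDimensional K⟮x⁻¹⟯ F :=
      finiteDimensional_of_eq (adjoin_inv_eq (K := K) x).symm
    have hfin : {v : Place K F | 0 < v.ord x⁻¹}.Finite := finite_zeros x⁻¹ hx'
    obtain ⟨g, hg0, hg1, hg2, -⟩ := exists_ord_eq x⁻¹ hx' v₀
      (by rw [v₀.ord_inv]; omega) (hfin.toFinset.erase v₀)
      (fun v hv => by
        have := hfin.mem_toFinset.mp (Finset.mem_of_mem_erase hv)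
        exact le_of_lt this)
      (Finset.notMem_erase _ _) (-D v₀ - 1) (fun v => -D v)
    have hg : ∀ v ∈ {v : Place K F | v.ord x < 0}, v ≠ v₀ → -D v ≤ v.ord g := by
      intro v hv hne
      refine hg2 v (Finset.mem_erase.mpr ⟨hne, hfin.mem_toFinset.mpr ?_⟩)
      show 0 < v.ord x⁻¹
      rw [v.ord_inv]
      have : v.ord x < 0 := hv
      omega
    obtain ⟨hgnot, heq⟩ := Mset_add_single_of_mem x hx {v : Place K F | v.ord x < 0} D v₀ h₀
      g hg0 hg1 hg
    have heq' : Mfin x (D + Finsupp.single v₀ 1) = Mfin x D :=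
      Mset_add_single_of_notMem _ D v₀ (by simpa using h₀)
    rw [heq']
    show _ ↔ HasChi _ (Mset {v : Place K F | v.ord x < 0} (D + Finsupp.single v₀ 1)) _
    rw [heq]
    exact hasChi_sup_span_iff' _ _ g hgnot c

theorem hasChi_add_single_int [IsAlgClosed K] [CharZero K] (x : F) (hx : Transcendental K x)
    [FiniteDimensional K⟮x⟯ F] (v₀ : Place K F) (n : ℤ) :
    ∀ (D : Divisor K F) (c : ℤ), HasChi (Mfin x D) (Minf x D) c ↔
      HasChi (Mfin x (D + Finsupp.single v₀ n)) (Minf x (D + Finsupp.single v₀ n)) (c + n) := by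
  induction n using Int.induction_on with
  | zero =>
    intro D c
    rw [Finsupp.single_zero, add_zero, add_zero]
  | succ n ih =>
    intro D c
    rw [ih D c, hasChi_add_single x hx (D + Finsupp.single v₀ (n : ℤ)) v₀ (c + n)]
    rw [add_assoc D, ← Finsupp.single_add, add_assoc c]
  | pred n ih =>
    intro D c
    rw [ih D c, hasChi_add_single x hx (D + Finsupp.single v₀ (-(n : ℤ) - 1)) v₀ (c + (-(n : ℤ) - 1))]
    rw [add_assoc D, ← Finsupp.single_add, add_assoc c]
    rw [show (-(n : ℤ) - 1 + 1) = -(n : ℤ) by ring]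

theorem hasChi_add [IsAlgClosed K] [CharZero K] (x : F) (hx : Transcendental K x)
    [FiniteDimensional K⟮x⟯ F] (E : Divisor K F) :
    ∀ (D : Divisor K F) (c : ℤ), HasChi (Mfin x D) (Minf x D) c ↔
      HasChi (Mfin x (D + E)) (Minf x (D + E)) (c + Divisor.degree E) := by
  induction E using Finsupp.induction_linear with
  | zero =>
    intro D c
    rw [map_zero, add_zero, add_zero]
  | add E₁ E₂ h₁ h₂ =>
    intro D c
    rw [h₁ D c, h₂ (D + E₁) (c + Divisor.degree E₁), map_add, add_assoc, add_assoc]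
  | single v n =>
    intro D c
    rw [Divisor.degree_single, deg_eq_one x hx v, Nat.cast_one, mul_one]
    exact hasChi_add_single_int x hx v n D c

/-- (R2): finiteness at one divisor `D₀` propagates to every divisor, and
`chi x D - deg D` is constant. -/
theorem chi_eq [IsAlgClosed K] [CharZero K] (x : F) (hx : Transcendental K x)
    [FiniteDimensional K⟮x⟯ F] (D₀ : Divisor K F)
    (h1 : FiniteDimensional K (riemannRochSpace D₀))
    (h2 : FiniteDimensional K (F ⧸ (Mfin x D₀ ⊔ Minf x D₀))) (D : Divisor K F) :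
    FiniteDimensional K (riemannRochSpace D) ∧
      FiniteDimensional K (F ⧸ (Mfin x D ⊔ Minf x D)) ∧
      chi x D = chi x D₀ + (Divisor.degree D - Divisor.degree D₀) := by
  have h0 : HasChi (Mfin x D₀) (Minf x D₀) (chi x D₀) := (hasChi_iff x D₀ _).mpr ⟨h1, h2, rfl⟩
  have h := (hasChi_add x hx (D - D₀) D₀ (chi x D₀)).mp h0
  rw [add_sub_cancel, map_sub] at h
  exact (hasChi_iff x D _).mp h

end Places

end Fermat.Agent.S20_Euler
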