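import Fermat.Agent.S20_Euler

/-!
# S20, package P1 (R1-concrete) (helper2): the finite chart as a lattice

`Mfin x 0` is the integral closure of `K[x]` in `F`; it is the `K[x]`-span of a `K(x)`-basis of
`F`; its intersection with `K(x)` is `K[x]`; and `ℓ(0) = 1`.
-/

set_option autoImplicit false
noncomputable section
open AlgebraicCurve IntermediateField Polynomial

namespace Fermat.Agent.S20_Lattice

open Fermat.Agent.S20_Euler
open IsDedekindDomain WithZero Fermat.Agent.S24_Place Fermat.Agent.S24_Places
open scoped IntermediateField.algebraAdjoinAdjoin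

variable {K F : Type*} [Field K] [Field F] [Algebra K F]

/-- `Mfin x 0` is the integral closure of `K[x]`. -/
theorem mem_Mfin_zero_iff_isIntegral [IsAlgClosed K] [CharZero K] (x : F)
    (hx : Transcendental K x) [FiniteDimensional K⟮x⟯ F] (f : F) :
    f ∈ Mfin x (0 : Divisor K F) ↔ IsIntegral (Algebra.adjoin K {x}) f := by
  have hPID := isPrincipalIdealRing_adjoin hx
  have hB1 : IsDedekindDomain (integralClosure (Algebra.adjoin K {x}) F) :=
    integralClosure.isDedekindDomain (Algebra.adjoin K {x}) K⟮x⟯ F
  have hB2 : IsFractionRing (integralClosure (Algebra.adjoin K {x}) F) F :=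
    integralClosure.isFractionRing_of_finite_extension K⟮x⟯ F
  rw [mem_Mfin_iff]
  constructor
  · intro h
    have hxB : x ∈ integralClosure (Algebra.adjoin K {x}) F :=
      (integralClosure (Algebra.adjoin K {x}) F).algebraMap_mem (genA (K := K) x)
    have key : ∀ w : HeightOneSpectrum (integralClosure (Algebra.adjoin K {x}) F),
        w.valuation F f ≤ 1 := by
      intro w
      have hxw : x ∈ (Place.ofHeightOneSpectrum (K := K) (F := F) w).toValuationSubring := by
        show x ∈ (w.valuation F).valuationSubring
        rw [Valuation.mem_valuationSubring_iff]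
        exact w.valuation_le_one ⟨x, hxB⟩
      have h0 : 0 ≤ (Place.ofHeightOneSpectrum (K := K) (F := F) w).ord x :=
        ord_nonneg_of_mem _ hxw
      rcases h _ h0 with rfl | h1
      · simp
      · have hmem : f ∈ (Place.ofHeightOneSpectrum (K := K) (F := F) w).toValuationSubring :=
          (mem_valuationSubring_iff _ f).mpr (Or.inr (by simpa using h1))
        exact (Valuation.mem_valuationSubring_iff _ _).mp hmem
    obtain ⟨b, hb⟩ := HeightOneSpectrum.mem_integers_of_valuation_le_one F f key
    rw [← hb]
    exact b.2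
  · intro hf v hv
    have hxv : x ∈ v.toValuationSubring := (mem_valuationSubring_iff v x).mpr (Or.inr hv)
    have hfv : f ∈ v.toValuationSubring := integralClosure_le_of_mem v hxv ⟨f, hf⟩
    rcases (mem_valuationSubring_iff v f).mp hfv with h | h
    · exact Or.inl h
    · exact Or.inr (by simpa using h)

/-- (C3) functions without poles are constant: `ℓ(0) = 1`. -/
theorem finrank_riemannRochSpace_zero [IsAlgClosed K] [CharZero K] (x : F)
    (hx : Transcendental K x) [FiniteDimensional K⟮x⟯ F] :
    FiniteDimensional K (riemannRochSpace (0 : Divisor K F)) ∧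
      Module.finrank K (riemannRochSpace (0 : Divisor K F)) = 1 := by
  have key : riemannRochSpace (0 : Divisor K F) = K ∙ (1 : F) := by
    ext f
    rw [mem_riemannRochSpace_iff, Submodule.mem_span_singleton]
    constructor
    · intro h
      by_cases hf : IsAlgebraic K f
      · have hint : IsIntegral K f := hf.isIntegral
        have hdeg := IsAlgClosed.degree_eq_one_of_irreducible K (minpoly.irreducible hint)
        obtain ⟨a, ha⟩ := minpoly.mem_range_of_degree_eq_one K f hdeg
        exact ⟨a, by rw [← ha, Algebra.smul_def, mul_one]⟩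
      · exfalso
        have hf' : Transcendental K f⁻¹ := fun halg => hf (by simpa using halg.inv)
        have hfd := finiteDimensional_adjoin x hx f⁻¹ hf'
        obtain ⟨s, hs, hsum⟩ := exists_finset_zeros f⁻¹ hf'
        have hpos : (0 : ℤ) < (Module.finrank K⟮f⁻¹⟯ F : ℤ) := by
          exact_mod_cast Module.finrank_pos
        rw [← hsum] at hpos
        obtain ⟨v, hv, -⟩ := Finset.exists_lt_of_sum_lt (f := fun _ => (0 : ℤ))
          (g := fun v : Place K F => v.ord f⁻¹) (s := s) (by simpa using hpos)
        have hv' := (hs v).mp hv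
        rw [Place.ord_inv] at hv'
        have hf0 : f ≠ 0 := by
          rintro rfl
          exact hf isAlgebraic_zero
        rcases h v with h1 | h1
        · exact hf0 h1
        · simp at h1
          omega
    · rintro ⟨a, rfl⟩ v
      right
      rw [Algebra.smul_def, mul_one, ord_algebraMap]
      simp
  rw [key]
  exact ⟨inferInstance, finrank_span_singleton one_ne_zero⟩

theorem coe_aeval_gen (x : F) (p : K[X]) :
    ((aeval (AdjoinSimple.gen K x) p : K⟮x⟯) : F) = aeval x p :=
  AdjoinSimple.coe_aeval_gen_apply K x p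

/-- Every element of `K[x]` is a polynomial in the generator. -/
theorem exists_aeval_eq (x : F) (a : Algebra.adjoin K {x}) :
    ∃ p : K[X], algebraMap (Algebra.adjoin K {x}) K⟮x⟯ a = aeval (AdjoinSimple.gen K x) p := by
  have h : (a : F) ∈ (Polynomial.aeval x : K[X] →ₐ[K] F).range := by
    rw [← Algebra.adjoin_singleton_eq_range_aeval]
    exact a.2
  obtain ⟨p, hp⟩ := h
  refine ⟨p, Subtype.ext ?_⟩
  rw [coe_aeval_gen]
  exact hp.symm

theorem aeval_mem_range (x : F) (p : K[X]) :
    ∃ a : Algebra.adjoin K {x},
      algebraMap (Algebra.adjoin K {x}) K⟮x⟯ a = aeval (AdjoinSimple.gen K x) p := by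
  have h : aeval x p ∈ Algebra.adjoin K {x} := by
    rw [Algebra.adjoin_singleton_eq_range_aeval]
    exact ⟨p, rfl⟩
  refine ⟨⟨aeval x p, h⟩, Subtype.ext ?_⟩
  rw [coe_aeval_gen]
  rfl

/-- (C6a) an element of `K(x)` without poles at the finite places is a polynomial in `x`. -/
theorem mem_Mfin_zero_iff_poly [IsAlgClosed K] [CharZero K] (x : F) (hx : Transcendental K x)
    [FiniteDimensional K⟮x⟯ F] (r : K⟮x⟯) :
    (r : F) ∈ Mfin x (0 : Divisor K F) ↔ ∃ p : K[X], r = aeval (AdjoinSimple.gen K x) p := by
  have hPID := isPrincipalIdealRing_adjoin hx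
  rw [mem_Mfin_zero_iff_isIntegral x hx]
  constructor
  · intro h
    have h' : IsIntegral (Algebra.adjoin K {x}) r :=
      (isIntegral_algebraMap_iff (A := K⟮x⟯) (B := F) (algebraMap K⟮x⟯ F).injective).mp h
    obtain ⟨y, hy⟩ := IsIntegrallyClosed.isIntegral_iff.mp h'
    obtain ⟨p, hp⟩ := exists_aeval_eq x y
    exact ⟨p, by rw [← hy, hp]⟩
  · rintro ⟨p, rfl⟩
    obtain ⟨a, ha⟩ := aeval_mem_range x p
    rw [← ha]
    exact isIntegral_algebraMap (R := Algebra.adjoin K {x}) (A := F) (x := a)

/-- (C1) `Mfin x 0` (= integral closure of `K[x]` in `F`) is the `K[x]`-span of a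
`K(x)`-basis of `F`. -/
theorem exists_polyBasis [IsAlgClosed K] [CharZero K] (x : F) (hx : Transcendental K x)
    [FiniteDimensional K⟮x⟯ F] :
    ∃ (n : ℕ) (b : Module.Basis (Fin n) K⟮x⟯ F), ∀ f : F,
      f ∈ Mfin x (0 : Divisor K F) ↔
        ∀ i, ∃ p : K[X], b.repr f i = aeval (AdjoinSimple.gen K x) p := by
  have hPID := isPrincipalIdealRing_adjoin hx
  have hfin : Module.Finite (Algebra.adjoin K {x}) (integralClosure (Algebra.adjoin K {x}) F) :=
    IsIntegralClosure.finite (Algebra.adjoin K {x}) K⟮x⟯ F _
  have hloc : IsLocalization (Algebra.algebraMapSubmonoid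
      (integralClosure (Algebra.adjoin K {x}) F) (nonZeroDivisors (Algebra.adjoin K {x}))) F :=
    IsIntegralClosure.isLocalization (Algebra.adjoin K {x}) K⟮x⟯ F _
  obtain ⟨n, c⟩ := Module.basisOfFiniteTypeTorsionFree'
    (R := Algebra.adjoin K {x}) (M := integralClosure (Algebra.adjoin K {x}) F)
  refine ⟨n, c.localizationLocalization K⟮x⟯ (nonZeroDivisors (Algebra.adjoin K {x})) F,
    fun f => ?_⟩
  rw [mem_Mfin_zero_iff_isIntegral x hx]
  constructor
  · intro hf i
    have e : f = algebraMap (integralClosure (Algebra.adjoin K {x}) F) F ⟨f, hf⟩ := rfl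
    rw [e, Module.Basis.localizationLocalization_repr_algebraMap]
    exact exists_aeval_eq x _
  · intro h
    choose p hp using h
    choose a ha using fun i => aeval_mem_range x (p i)
    have hsum := (c.localizationLocalization K⟮x⟯ (nonZeroDivisors (Algebra.adjoin K {x})) F).sum_repr f
    have e : f = algebraMap (integralClosure (Algebra.adjoin K {x}) F) F (∑ i, a i • c i) := by
      rw [← hsum, map_sum]
      refine Finset.sum_congr rfl fun i _ => ?_
      rw [hp i, ← ha i, Module.Basis.localizationLocalization_apply, Algebra.smul_def,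
        Algebra.smul_def, map_mul]
      rfl
    rw [e]
    exact (∑ i, a i • c i).2

end Fermat.Agent.S20_Lattice
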