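import Fermat.Agent.S24_Defs

set_option autoImplicit false
set_option linter.unusedSectionVars false
set_option linter.unusedVariables false

open Matrix Matrix.SpecialLinearGroup CongruenceSubgroup ModularGroup

namespace Fermat.Agent.S24_Comb

local notation "SL2Z" => Matrix.SpecialLinearGroup (Fin 2) ℤ

/-- The coset space `SL(2,ℤ) ⧸ Γ₀(N)` (left cosets, with the left multiplication action). -/
abbrev X0Coset (N : ℕ) : Type := SL2Z ⧸ Gamma0 N

theorem inv_mul_apply_one_zero (γ γ' : SL2Z) :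
    (γ⁻¹ * γ') 1 0 = γ 0 0 * γ' 1 0 - γ 1 0 * γ' 0 0 := by
  rw [coe_mul, coe_inv, Matrix.adjugate_fin_two]
  simp [Matrix.mul_apply, Fin.sum_univ_two]
  ring

theorem mk_eq_iff (N : ℕ) (γ γ' : SL2Z) :
    ((γ : SL2Z ⧸ Gamma0 N) = γ') ↔ (N : ℤ) ∣ γ 0 0 * γ' 1 0 - γ 1 0 * γ' 0 0 := by
  rw [QuotientGroup.eq, Gamma0_mem, ZMod.intCast_zmod_eq_zero_iff_dvd, inv_mul_apply_one_zero]

theorem S_mul_apply_zero (γ : SL2Z) : (S * γ) 0 0 = - γ 1 0 := by
  rw [coe_mul, coe_S]
  simp [Matrix.mul_apply, Fin.sum_univ_two]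

theorem S_mul_apply_one (γ : SL2Z) : (S * γ) 1 0 = γ 0 0 := by
  rw [coe_mul, coe_S]
  simp [Matrix.mul_apply, Fin.sum_univ_two]

theorem T_zpow_mul_apply_zero (n : ℤ) (γ : SL2Z) : (T ^ n * γ) 0 0 = γ 0 0 + n * γ 1 0 := by
  rw [coe_mul, coe_T_zpow]
  simp [Matrix.mul_apply, Fin.sum_univ_two]

theorem T_zpow_mul_apply_one (n : ℤ) (γ : SL2Z) : (T ^ n * γ) 1 0 = γ 1 0 := by
  rw [coe_mul, coe_T_zpow]
  simp [Matrix.mul_apply, Fin.sum_univ_two]

theorem T_mul_apply_zero (γ : SL2Z) : (T * γ) 0 0 = γ 0 0 + γ 1 0 := by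
  rw [coe_mul, coe_T]
  simp [Matrix.mul_apply, Fin.sum_univ_two]

theorem T_mul_apply_one (γ : SL2Z) : (T * γ) 1 0 = γ 1 0 := by
  rw [coe_mul, coe_T]
  simp [Matrix.mul_apply, Fin.sum_univ_two]

/-- there is a matrix in `SL(2,ℤ)` with any prescribed coprime first column -/
theorem exists_col (a c : ℤ) (h : IsCoprime a c) : ∃ γ : SL2Z, γ 0 0 = a ∧ γ 1 0 = c := by
  obtain ⟨u, v, huv⟩ := h
  refine ⟨⟨!![a, -v; c, u], ?_⟩, rfl, rfl⟩
  rw [Matrix.det_fin_two_of]
  linarith

theorem isCoprime_col0 (γ : SL2Z) : IsCoprime (γ 0 0) (γ 1 0) := isCoprime_col γ 0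

/-! ### Fixed points of elliptic elements -/

/-- Generic fixed point count: if `g` acts on first columns so that the coset criterion is
`N ∣ a² + t a c + c²`, then the fixed points of `g` on `SL(2,ℤ) ⧸ Γ₀(N)` correspond to the roots of
`x² + t x + 1` in `ZMod N`. -/
theorem card_fixedBy_of_form (N : ℕ) [NeZero N] (g : SL2Z) (t : ℤ)
    (hg : ∀ γ : SL2Z, (g * γ) 0 0 * γ 1 0 - (g * γ) 1 0 * γ 0 0
      = -(γ 0 0 ^ 2 + t * γ 0 0 * γ 1 0 + γ 1 0 ^ 2)) :
    Nat.card (MulAction.fixedBy (X0Coset N) g)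
      = Nat.card {x : ZMod N // x ^ 2 + (t : ZMod N) * x + 1 = 0} := by
  have hfix : ∀ γ : SL2Z, g • (γ : X0Coset N) = γ ↔
      (N : ℤ) ∣ γ 0 0 ^ 2 + t * γ 0 0 * γ 1 0 + γ 1 0 ^ 2 := by
    intro γ
    rw [MulAction.Quotient.smul_mk, smul_eq_mul, mk_eq_iff, hg γ, dvd_neg]
  -- the map from roots to fixed points
  have hex : ∀ x : ZMod N, ∃ γ : SL2Z, γ 0 0 = (x.val : ℤ) ∧ γ 1 0 = 1 :=
    fun x => exists_col _ _ isCoprime_one_right
  choose Γ hΓ0 hΓ1 using hex
  have hcast : ∀ x : ZMod N, ((x.val : ℕ) : ZMod N) = x := by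
    intro x; simp
  let ψ : {x : ZMod N // x ^ 2 + (t : ZMod N) * x + 1 = 0} → MulAction.fixedBy (X0Coset N) g :=
    fun x => ⟨(Γ x.1 : X0Coset N), by
      rw [MulAction.mem_fixedBy, hfix, hΓ0, hΓ1, ← ZMod.intCast_zmod_eq_zero_iff_dvd]
      push_cast
      rw [hcast]
      have := x.2
      linear_combination this⟩
  symm
  apply Nat.card_eq_of_bijective ψ
  constructor
  · intro x y hxy
    have h1 : (Γ x.1 : X0Coset N) = Γ y.1 := congrArg Subtype.val hxy
    rw [mk_eq_iff, hΓ0, hΓ1, hΓ0, hΓ1, ← ZMod.intCast_zmod_eq_zero_iff_dvd] at h1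
    push_cast at h1
    rw [hcast, hcast] at h1
    apply Subtype.ext
    linear_combination h1
  · rintro ⟨x, hx⟩
    induction x using QuotientGroup.induction_on with
    | H γ =>
      rw [MulAction.mem_fixedBy, hfix] at hx
      -- `c` is a unit mod `N`
      have hcop : IsCoprime (γ 1 0) (N : ℤ) := by
        have h1 : IsCoprime (γ 0 0 ^ 2) (γ 1 0) := (isCoprime_col0 γ).pow_left
        have h2 : IsCoprime (γ 0 0 ^ 2 + (t * γ 0 0 + γ 1 0) * γ 1 0) (γ 1 0) :=
          h1.add_mul_right_left _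
        have h3 : IsCoprime (N : ℤ) (γ 1 0) := by
          refine IsCoprime.of_isCoprime_of_dvd_left h2 ?_
          have e : γ 0 0 ^ 2 + (t * γ 0 0 + γ 1 0) * γ 1 0
              = γ 0 0 ^ 2 + t * γ 0 0 * γ 1 0 + γ 1 0 ^ 2 := by ring
          rw [e]; exact hx
        exact h3.symm
      have hunit : IsUnit ((γ 1 0 : ℤ) : ZMod N) := by
        obtain ⟨u, v, huv⟩ := hcop
        refine IsUnit.of_mul_eq_one (u : ZMod N) ?_
        have := congrArg (Int.cast : ℤ → ZMod N) huv
        push_cast at this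
        simp only [ZMod.natCast_self, mul_zero, add_zero] at this
        rw [mul_comm]; exact this
      obtain ⟨c', hc'⟩ := hunit
      have hx' : ((γ 0 0 : ℤ) : ZMod N) ^ 2 + (t : ZMod N) * (γ 0 0 : ℤ) * (c' : ZMod N)
          + (c' : ZMod N) ^ 2 = 0 := by
        have := (ZMod.intCast_zmod_eq_zero_iff_dvd _ N).mpr hx
        push_cast at this
        rw [hc']; exact this
      set y : ZMod N := ((γ 0 0 : ℤ) : ZMod N) * ((c'⁻¹ : (ZMod N)ˣ) : ZMod N) with hy
      have hyc : y * (c' : ZMod N) = ((γ 0 0 : ℤ) : ZMod N) := by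
        rw [hy, mul_assoc, Units.inv_mul, mul_one]
      have hyroot : y ^ 2 + (t : ZMod N) * y + 1 = 0 := by
        have h4 : (y ^ 2 + (t : ZMod N) * y + 1) * (c' : ZMod N) ^ 2 = 0 := by
          rw [← hyc] at hx'
          linear_combination hx'
        have h5 : IsUnit ((c' : ZMod N) ^ 2) := (c'.isUnit).pow 2
        exact (h5.mul_left_eq_zero).mp h4
      refine ⟨⟨y, hyroot⟩, ?_⟩
      apply Subtype.ext
      show (Γ y : X0Coset N) = γ
      rw [mk_eq_iff, hΓ0, hΓ1, ← ZMod.intCast_zmod_eq_zero_iff_dvd]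
      push_cast
      rw [hcast, ← hyc, hc']
      ring

theorem card_fixedBy_S (N : ℕ) [NeZero N] :
    Nat.card (MulAction.fixedBy (X0Coset N) S) = ModularCurve.nuTwo N := by
  rw [card_fixedBy_of_form N S 0, ModularCurve.nuTwo]
  · simp
  · intro γ
    rw [S_mul_apply_zero, S_mul_apply_one]; ring

theorem card_fixedBy_ST (N : ℕ) [NeZero N] :
    Nat.card (MulAction.fixedBy (X0Coset N) (S * T)) = ModularCurve.nuThree N := by
  rw [card_fixedBy_of_form N (S * T) 1, ModularCurve.nuThree]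
  · simp
  · intro γ
    rw [mul_assoc, S_mul_apply_zero, S_mul_apply_one, T_mul_apply_zero, T_mul_apply_one]; ring

/-! ### The index of `Γ₀(N)` -/

theorem Gamma0_mem_iff_dvd (N : ℕ) (γ : SL2Z) : γ ∈ Gamma0 N ↔ (N : ℤ) ∣ γ 1 0 := by
  rw [Gamma0_mem, ZMod.intCast_zmod_eq_zero_iff_dvd]

theorem Gamma0_mul_le (p M : ℕ) : Gamma0 (p * M) ≤ Gamma0 M := by
  intro γ hγ
  rw [Gamma0_mem_iff_dvd] at hγ ⊢
  exact dvd_trans ⟨(p : ℤ), by push_cast; ring⟩ hγ

/-- coset criterion inside `Γ₀(M)` -/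
theorem mk_subgroupOf_eq_iff (p M : ℕ) (γ γ' : Gamma0 M) :
    ((γ : Gamma0 M ⧸ (Gamma0 (p * M)).subgroupOf (Gamma0 M)) = γ') ↔
      ((p * M : ℕ) : ℤ) ∣ γ.1 0 0 * γ'.1 1 0 - γ.1 1 0 * γ'.1 0 0 := by
  rw [QuotientGroup.eq, Subgroup.mem_subgroupOf, Gamma0_mem_iff_dvd]
  have : ((γ⁻¹ * γ' : Gamma0 M) : SL2Z) = (γ : SL2Z)⁻¹ * (γ' : SL2Z) := rfl
  rw [this, inv_mul_apply_one_zero]

theorem exists_Gamma0_col (M : ℕ) (a c₁ : ℤ) (h : IsCoprime a (M * c₁)) :
    ∃ γ : Gamma0 M, γ.1 0 0 = a ∧ γ.1 1 0 = M * c₁ := by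
  obtain ⟨γ, h0, h1⟩ := exists_col a (M * c₁) h
  exact ⟨⟨γ, by rw [Gamma0_mem_iff_dvd, h1]; exact dvd_mul_right _ _⟩, h0, h1⟩

theorem relIndex_Gamma0_of_dvd (p M : ℕ) (hp : p.Prime) (hM : M ≠ 0) (h : p ∣ M) :
    (Gamma0 (p * M)).relIndex (Gamma0 M) = p := by
  have : Fact p.Prime := ⟨hp⟩
  have hMz : (M : ℤ) ≠ 0 := by exact_mod_cast hM
  have hex : ∀ x : ZMod p, ∃ γ : Gamma0 M, γ.1 0 0 = 1 ∧ γ.1 1 0 = M * (x.val : ℤ) :=
    fun x => exists_Gamma0_col M 1 _ isCoprime_one_left
  choose Γ hΓ0 hΓ1 using hex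
  have hcast : ∀ x : ZMod p, ((x.val : ℕ) : ZMod p) = x := by intro x; simp
  have key : ∀ (a c₁ a' c₁' : ℤ), ((p * M : ℕ) : ℤ) ∣ a * (M * c₁') - (M * c₁) * a' ↔
      (a : ZMod p) * c₁' = c₁ * a' := by
    intro a c₁ a' c₁'
    have e : a * (M * c₁') - (M * c₁) * a' = M * (a * c₁' - c₁ * a') := by ring
    rw [e, Nat.cast_mul, mul_comm (p : ℤ) (M : ℤ), mul_dvd_mul_iff_left hMz,
      ← ZMod.intCast_zmod_eq_zero_iff_dvd]
    push_cast
    rw [sub_eq_zero]
  rw [Subgroup.relIndex, Subgroup.index]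
  have hcard : Nat.card (ZMod p) = p := by simp
  refine (Nat.card_eq_of_bijective
    (fun x : ZMod p => (Γ x : Gamma0 M ⧸ (Gamma0 (p * M)).subgroupOf (Gamma0 M))) ?_).symm.trans
    hcard
  constructor
  · intro x y hxy
    simp only [] at hxy
    rw [mk_subgroupOf_eq_iff, hΓ0, hΓ1, hΓ0, hΓ1, key] at hxy
    push_cast at hxy
    rw [hcast, hcast] at hxy
    simpa using hxy.symm
  · intro q
    induction q using QuotientGroup.induction_on with
    | H γ =>
      obtain ⟨c₁, hc₁⟩ := (Gamma0_mem_iff_dvd M γ.1).mp γ.2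
      have hpa : ((γ.1 0 0 : ℤ) : ZMod p) ≠ 0 := by
        rw [Ne, ZMod.intCast_zmod_eq_zero_iff_dvd]
        intro hpa
        have hpc : (p : ℤ) ∣ γ.1 1 0 := by
          rw [hc₁]; exact dvd_mul_of_dvd_left (Int.natCast_dvd_natCast.mpr h) _
        have hu := (isCoprime_col0 γ.1).isUnit_of_dvd' hpa hpc
        have h1 := Int.isUnit_iff.mp hu
        have h2 := hp.one_lt
        omega
      refine ⟨(c₁ : ZMod p) * ((γ.1 0 0 : ℤ) : ZMod p)⁻¹, ?_⟩
      simp only []
      rw [mk_subgroupOf_eq_iff, hΓ0, hΓ1, hc₁, key]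
      push_cast
      rw [hcast, mul_assoc, inv_mul_cancel₀ hpa]
      ring

theorem relIndex_Gamma0_of_not_dvd (p M : ℕ) (hp : p.Prime) (hM : M ≠ 0) (h : ¬ p ∣ M) :
    (Gamma0 (p * M)).relIndex (Gamma0 M) = p + 1 := by
  have : Fact p.Prime := ⟨hp⟩
  have hMz : (M : ℤ) ≠ 0 := by exact_mod_cast hM
  have hex : ∀ x : ZMod p, ∃ γ : Gamma0 M, γ.1 0 0 = 1 ∧ γ.1 1 0 = M * (x.val : ℤ) :=
    fun x => exists_Gamma0_col M 1 _ isCoprime_one_left
  choose Γ hΓ0 hΓ1 using hex
  have hcop : IsCoprime (p : ℤ) ((M : ℤ) * 1) := by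
    rw [mul_one]
    exact Nat.isCoprime_iff_coprime.mpr ((Nat.Prime.coprime_iff_not_dvd hp).mpr h)
  obtain ⟨Γinf, hI0, hI1⟩ := exists_Gamma0_col M p 1 hcop
  have hcast : ∀ x : ZMod p, ((x.val : ℕ) : ZMod p) = x := by intro x; simp
  have key : ∀ (a c₁ a' c₁' : ℤ), ((p * M : ℕ) : ℤ) ∣ a * (M * c₁') - (M * c₁) * a' ↔
      (a : ZMod p) * c₁' = c₁ * a' := by
    intro a c₁ a' c₁'
    have e : a * (M * c₁') - (M * c₁) * a' = M * (a * c₁' - c₁ * a') := by ring
    rw [e, Nat.cast_mul, mul_comm (p : ℤ) (M : ℤ), mul_dvd_mul_iff_left hMz,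
      ← ZMod.intCast_zmod_eq_zero_iff_dvd]
    push_cast
    rw [sub_eq_zero]
  rw [Subgroup.relIndex, Subgroup.index]
  have hcard : Nat.card (Option (ZMod p)) = p + 1 := by simp
  refine (Nat.card_eq_of_bijective
    (fun x : Option (ZMod p) => ((x.elim Γinf Γ : Gamma0 M) :
      Gamma0 M ⧸ (Gamma0 (p * M)).subgroupOf (Gamma0 M))) ?_).symm.trans hcard
  constructor
  · intro x y hxy
    simp only [] at hxy
    rw [mk_subgroupOf_eq_iff] at hxy
    rcases x with _ | x <;> rcases y with _ | y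
    · rfl
    · exfalso
      simp only [Option.elim_none, Option.elim_some] at hxy
      rw [hΓ0, hΓ1, hI0, hI1, key] at hxy
      simp at hxy
    · exfalso
      simp only [Option.elim_none, Option.elim_some] at hxy
      rw [hΓ0, hΓ1, hI0, hI1, key] at hxy
      simp at hxy
    · simp only [Option.elim_some] at hxy
      rw [hΓ0, hΓ1, hΓ0, hΓ1, key] at hxy
      push_cast at hxy
      rw [hcast, hcast] at hxy
      simpa using hxy.symm
  · intro q
    induction q using QuotientGroup.induction_on with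
    | H γ =>
      obtain ⟨c₁, hc₁⟩ := (Gamma0_mem_iff_dvd M γ.1).mp γ.2
      by_cases hpa : ((γ.1 0 0 : ℤ) : ZMod p) = 0
      · refine ⟨none, ?_⟩
        simp only [Option.elim_none]
        rw [mk_subgroupOf_eq_iff, hI0, hI1, hc₁, key]
        push_cast
        rw [hpa]; simp
      · refine ⟨some ((c₁ : ZMod p) * ((γ.1 0 0 : ℤ) : ZMod p)⁻¹), ?_⟩
        simp only [Option.elim_some]
        rw [mk_subgroupOf_eq_iff, hΓ0, hΓ1, hc₁, key]
        push_cast
        rw [hcast, mul_assoc, inv_mul_cancel₀ hpa]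
        ring

open ModularCurve in
theorem dedekindPsi_prime_mul_of_dvd (p M : ℕ) (hp : p.Prime) (hM : M ≠ 0) (h : p ∣ M) :
    dedekindPsi (p * M) = p * dedekindPsi M := by
  have hpM : p * M ≠ 0 := mul_ne_zero hp.ne_zero hM
  have hset : ((p * M).divisors.filter fun d => Squarefree d)
      = (M.divisors.filter fun d => Squarefree d) := by
    ext d
    simp only [Finset.mem_filter, Nat.mem_divisors]
    constructor
    · rintro ⟨⟨hd, -⟩, hsq⟩
      refine ⟨⟨?_, hM⟩, hsq⟩
      by_cases hpd : p ∣ d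
      · obtain ⟨e, rfl⟩ := hpd
        have he : e ∣ M := (Nat.mul_dvd_mul_iff_left hp.pos).mp hd
        have hcop : Nat.Coprime p e := by
          rw [Nat.Prime.coprime_iff_not_dvd hp]
          intro hpe
          obtain ⟨f, rfl⟩ := hpe
          have := hsq p ⟨f, by ring⟩
          exact hp.not_isUnit this
        exact hcop.mul_dvd_of_dvd_of_dvd h he
      · exact (Nat.Coprime.dvd_mul_left
          ((Nat.coprime_comm.mp ((Nat.Prime.coprime_iff_not_dvd hp).mpr hpd)))).mp hd
    · rintro ⟨⟨hd, -⟩, hsq⟩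
      exact ⟨⟨dvd_mul_of_dvd_right hd p, hpM⟩, hsq⟩
  rw [dedekindPsi, dedekindPsi, hset, Finset.mul_sum]
  refine Finset.sum_congr rfl fun d hd => ?_
  rw [Finset.mem_filter, Nat.mem_divisors] at hd
  exact Nat.mul_div_assoc p hd.1.1

open ModularCurve in
theorem dedekindPsi_prime_mul_of_not_dvd (p M : ℕ) (hp : p.Prime) (hM : M ≠ 0) (h : ¬ p ∣ M) :
    dedekindPsi (p * M) = (p + 1) * dedekindPsi M := by
  have hpM : p * M ≠ 0 := mul_ne_zero hp.ne_zero hM
  rw [dedekindPsi, dedekindPsi]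
  rw [← Finset.sum_filter_add_sum_filter_not _ (fun d => p ∣ d)]
  have h1 : ∑ d ∈ ((p * M).divisors.filter fun d => Squarefree d).filter (fun d => p ∣ d),
      p * M / d = ∑ d ∈ M.divisors.filter (fun d => Squarefree d), M / d := by
    symm
    refine Finset.sum_bij (fun d _ => p * d) ?_ ?_ ?_ ?_
    · intro d hd
      simp only [Finset.mem_filter, Nat.mem_divisors] at hd ⊢
      refine ⟨⟨⟨Nat.mul_dvd_mul_left p hd.1.1, hpM⟩, ?_⟩, dvd_mul_right _ _⟩
      have hcop : Nat.Coprime p d := by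
        rw [Nat.Prime.coprime_iff_not_dvd hp]
        exact fun hpd => h (dvd_trans hpd hd.1.1)
      exact (Nat.squarefree_mul hcop).mpr ⟨hp.squarefree, hd.2⟩
    · intro d _ d' _ hdd
      exact Nat.eq_of_mul_eq_mul_left hp.pos hdd
    · intro d hd
      simp only [Finset.mem_filter, Nat.mem_divisors] at hd
      obtain ⟨⟨⟨hd1, -⟩, hsq⟩, e, rfl⟩ := hd
      refine ⟨e, ?_, rfl⟩
      simp only [Finset.mem_filter, Nat.mem_divisors]
      exact ⟨⟨(Nat.mul_dvd_mul_iff_left hp.pos).mp hd1, hM⟩, hsq.of_mul_right⟩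
    · intro d hd
      exact (Nat.mul_div_mul_left M d hp.pos).symm
  have h2 : ∑ d ∈ ((p * M).divisors.filter fun d => Squarefree d).filter (fun d => ¬ p ∣ d),
      p * M / d = p * ∑ d ∈ M.divisors.filter (fun d => Squarefree d), M / d := by
    have hset : (((p * M).divisors.filter fun d => Squarefree d).filter (fun d => ¬ p ∣ d))
        = (M.divisors.filter fun d => Squarefree d) := by
      ext d
      simp only [Finset.mem_filter, Nat.mem_divisors]
      constructor
      · rintro ⟨⟨⟨hd, -⟩, hsq⟩, hpd⟩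
        refine ⟨⟨?_, hM⟩, hsq⟩
        exact (Nat.Coprime.dvd_mul_left
          ((Nat.coprime_comm.mp ((Nat.Prime.coprime_iff_not_dvd hp).mpr hpd)))).mp hd
      · rintro ⟨⟨hd, -⟩, hsq⟩
        exact ⟨⟨⟨dvd_mul_of_dvd_right hd p, hpM⟩, hsq⟩, fun hpd => h (dvd_trans hpd hd)⟩
    rw [hset, Finset.mul_sum]
    refine Finset.sum_congr rfl fun d hd => ?_
    rw [Finset.mem_filter, Nat.mem_divisors] at hd
    exact Nat.mul_div_assoc p hd.1.1
  rw [h1, h2]
  ring

theorem index_Gamma0 (N : ℕ) (hN : N ≠ 0) : (Gamma0 N).index = ModularCurve.dedekindPsi N := by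
  induction N using induction_on_primes with
  | zero => exact absurd rfl hN
  | one =>
    have : Gamma0 1 = ⊤ := by
      ext γ
      rw [Gamma0_mem_iff_dvd]
      simp
    rw [this, Subgroup.index_top, ModularCurve.dedekindPsi_one]
  | prime_mul p M hp ih =>
    have hM : M ≠ 0 := fun h => hN (by rw [h, mul_zero])
    rw [← Subgroup.relIndex_mul_index (Gamma0_mul_le p M), ih hM]
    by_cases h : p ∣ M
    · rw [relIndex_Gamma0_of_dvd p M hp hM h, dedekindPsi_prime_mul_of_dvd p M hp hM h]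
    · rw [relIndex_Gamma0_of_not_dvd p M hp hM h, dedekindPsi_prime_mul_of_not_dvd p M hp hM h]

theorem card_X0Coset (N : ℕ) [NeZero N] : Nat.card (X0Coset N) = ModularCurve.dedekindPsi N :=
  index_Gamma0 N (NeZero.ne N)

/-! ### Orbits of a permutation -/

section PermOrbits

variable {α : Type*} [Fintype α] [DecidableEq α]

/-- number of cycles (including the trivial ones) of a permutation -/
noncomputable def permOrbCount (σ : Equiv.Perm α) : ℕ :=
  Nat.card (Quotient (Equiv.Perm.SameCycle.setoid σ))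

theorem permOrbCount_eq (σ : Equiv.Perm α) :
    permOrbCount σ = Multiset.card σ.cycleType + (Fintype.card α - σ.support.card) := by
  classical
  let g : α → (↥σ.cycleFactorsFinset) ⊕ (Function.fixedPoints σ) := fun x =>
    if h : σ x = x then Sum.inr ⟨x, h⟩
    else Sum.inl ⟨σ.cycleOf x,
      Equiv.Perm.cycleOf_mem_cycleFactorsFinset_iff.mpr (Equiv.Perm.mem_support.mpr h)⟩
  have hg : ∀ x y, g x = g y ↔ σ.SameCycle x y := by
    intro x y
    by_cases hx : σ x = x <;> by_cases hy : σ y = y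
    · simp only [g, dif_pos hx, dif_pos hy, Sum.inr.injEq]
      constructor
      · intro h
        have h' : x = y := congrArg Subtype.val h
        subst h'; exact Equiv.Perm.SameCycle.refl _ _
      · intro h; exact Subtype.ext (h.eq_of_left hx)
    · simp only [g, dif_pos hx, dif_neg hy, reduceCtorEq, false_iff]
      intro h; exact hy (h.apply_eq_self_iff.mp hx)
    · simp only [g, dif_neg hx, dif_pos hy, reduceCtorEq, false_iff]
      intro h; exact hx (h.apply_eq_self_iff.mpr hy)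
    · simp only [g, dif_neg hx, dif_neg hy, Sum.inl.injEq, Subtype.mk.injEq]
      constructor
      · intro h
        have hy' : y ∈ (σ.cycleOf y).support := by
          rw [Equiv.Perm.mem_support_cycleOf_iff' hy]
        rw [← h, Equiv.Perm.mem_support_cycleOf_iff' hx] at hy'
        exact hy'
      · intro h; exact h.cycleOf_eq
  have hsurj : Function.Surjective g := by
    rintro (⟨c, hc⟩ | ⟨x, hx⟩)
    · have hc' := Equiv.Perm.mem_cycleFactorsFinset_iff.mp hc
      obtain ⟨a, ha⟩ := hc'.1.nonempty_support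
      have hfa : σ a ≠ a := by
        rw [← hc'.2 a ha]; exact Equiv.Perm.mem_support.mp ha
      refine ⟨a, ?_⟩
      simp only [g, dif_neg hfa, Sum.inl.injEq, Subtype.mk.injEq]
      exact (Equiv.Perm.cycle_is_cycleOf ha hc).symm
    · refine ⟨x, ?_⟩
      have hx' : σ x = x := hx
      simp only [g, dif_pos hx']
  have hbij : Function.Bijective
      (Quotient.lift (s := Equiv.Perm.SameCycle.setoid σ) g (fun x y h => (hg x y).mpr h)) := by
    constructor
    · intro q q'
      induction q using Quotient.inductionOn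
      induction q' using Quotient.inductionOn
      intro h
      exact Quotient.sound ((hg _ _).mp h)
    · intro z
      obtain ⟨x, rfl⟩ := hsurj z
      exact ⟨Quotient.mk _ x, rfl⟩
  rw [permOrbCount, Nat.card_eq_of_bijective _ hbij, Nat.card_eq_fintype_card, Fintype.card_sum,
    Equiv.Perm.card_fixedPoints, Equiv.Perm.sum_cycleType, Fintype.card_coe,
    Equiv.Perm.cycleType_def, Multiset.card_map, Finset.card_val]

theorem sign_eq_neg_one_pow_permOrbCount (σ : Equiv.Perm α) :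
    Equiv.Perm.sign σ = (-1 : ℤˣ) ^ (Fintype.card α + permOrbCount σ) := by
  rw [Equiv.Perm.sign_of_cycleType, permOrbCount_eq, Equiv.Perm.sum_cycleType]
  have h1 : σ.support.card ≤ Fintype.card α := Finset.card_le_univ _
  have h2 : Fintype.card α + (Multiset.card σ.cycleType + (Fintype.card α - σ.support.card))
      = σ.support.card + Multiset.card σ.cycleType + 2 * (Fintype.card α - σ.support.card) := by
    omega
  rw [h2, pow_add (-1 : ℤˣ) _ (2 * _), pow_mul]
  simp

/-- if `σ ^ p = 1` for a prime `p`, then `p * (#orbits) = n + (p - 1) * #fixed points`. -/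
theorem permOrbCount_of_pow_prime (σ : Equiv.Perm α) (p : ℕ) (hp : p.Prime) (h : σ ^ p = 1) :
    p * permOrbCount σ = Fintype.card α + (p - 1) * Fintype.card (Function.fixedPoints σ) := by
  have hfix : Fintype.card (Function.fixedPoints σ) = Fintype.card α - σ.support.card := by
    rw [Equiv.Perm.card_fixedPoints, Equiv.Perm.sum_cycleType]
  have h1 : σ.support.card ≤ Fintype.card α := Finset.card_le_univ _
  have hsupp : σ.support.card = p * Multiset.card σ.cycleType := by
    by_cases h1 : σ = 1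
    · subst h1; simp
    · have : Fact p.Prime := ⟨hp⟩
      have hord : orderOf σ = p := orderOf_eq_prime h h1
      obtain ⟨n, hn⟩ := Equiv.Perm.cycleType_prime_order (σ := σ) (by rw [hord]; exact hp)
      rw [← Equiv.Perm.sum_cycleType, hn, hord]
      simp only [Multiset.sum_replicate, Multiset.card_replicate, smul_eq_mul]
      ring
  rw [permOrbCount_eq, hfix]
  have hp1 : 1 ≤ p := hp.one_lt.le
  obtain ⟨q, rfl⟩ : ∃ q, p = q + 1 := ⟨p - 1, by omega⟩
  simp only [Nat.add_sub_cancel]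
  set c := Multiset.card σ.cycleType
  set n := Fintype.card α
  set s := σ.support.card
  have hn : n = (n - s) + s := by omega
  generalize n - s = m at *
  rw [hn, hsupp]
  ring

/-- the operator `f ↦ f ∘ σ - f` on functions -/
noncomputable def dOp (σ : Equiv.Perm α) : (α → ℚ) →ₗ[ℚ] (α → ℚ) :=
  LinearMap.funLeft ℚ ℚ σ - LinearMap.id

theorem dOp_apply (σ : Equiv.Perm α) (f : α → ℚ) (x : α) : dOp σ f x = f (σ x) - f x := by
  simp [dOp, LinearMap.funLeft_apply]

theorem mem_ker_dOp (σ : Equiv.Perm α) (f : α → ℚ) :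
    f ∈ LinearMap.ker (dOp σ) ↔ ∀ x, f (σ x) = f x := by
  rw [LinearMap.mem_ker, funext_iff]
  simp only [dOp_apply, Pi.zero_apply, sub_eq_zero]

theorem apply_zpow_of_invariant (σ : Equiv.Perm α) (f : α → ℚ) (h : ∀ x, f (σ x) = f x)
    (i : ℤ) (x : α) : f ((σ ^ i) x) = f x := by
  induction i using Int.induction_on generalizing x with
  | zero => simp
  | succ i ih => rw [_root_.zpow_add_one, Equiv.Perm.mul_apply, ih, h]
  | pred i ih =>
    rw [_root_.zpow_sub_one, Equiv.Perm.mul_apply, ih, ← h (σ⁻¹ x)]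
    simp

theorem finrank_ker_dOp (σ : Equiv.Perm α) :
    Module.finrank ℚ (LinearMap.ker (dOp σ)) = permOrbCount σ := by
  classical
  let Q := Quotient (Equiv.Perm.SameCycle.setoid σ)
  let e : (Q → ℚ) ≃ₗ[ℚ] LinearMap.ker (dOp σ) :=
    { toFun := fun h => ⟨fun x => h (Quotient.mk _ x), by
        rw [mem_ker_dOp]
        intro x
        congr 1
        apply Quotient.sound
        exact ⟨-1, by simp⟩⟩
      map_add' := fun h h' => rfl
      map_smul' := fun c h => rfl
      invFun := fun f => Quotient.lift f.1 (by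
        rintro x y ⟨i, rfl⟩
        exact (apply_zpow_of_invariant σ f.1 ((mem_ker_dOp σ f.1).mp f.2) i x).symm)
      left_inv := fun h => by
        funext q
        induction q using Quotient.inductionOn
        rfl
      right_inv := fun f => rfl }
  rw [← e.finrank_eq, Module.finrank_fintype_fun_eq_card, permOrbCount, Nat.card_eq_fintype_card]


/-- **Scott's lemma / Ree's inequality** for two generators: if the group generated by `s` and `t`
acts transitively, then `#orb(s) + #orb(t) + #orb(s t) ≤ n + 2`. -/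
theorem permOrbCount_add_le (s t : Equiv.Perm α) (x0 : α)
    (htrans : ∀ P : α → Prop, (∀ x, P (s x) ↔ P x) → (∀ x, P (t x) ↔ P x) → P x0 → ∀ y, P y) :
    permOrbCount s + permOrbCount t + permOrbCount (s * t) ≤ Fintype.card α + 2 := by
  classical
  set A := dOp s with hAdef
  set B := dOp t with hBdef
  set C := dOp (s * t) with hCdef
  set Lt : (α → ℚ) →ₗ[ℚ] (α → ℚ) := LinearMap.funLeft ℚ ℚ t with hLt
  have hLt_apply : ∀ (f : α → ℚ) (x : α), Lt f x = f (t x) := fun f x => rfl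
  have hB_eq : ∀ g, B g = Lt g - g := by
    intro g; funext x
    rw [hBdef, dOp_apply, Pi.sub_apply, hLt_apply]
  have hC : ∀ h, C h = Lt (A h) + B h := by
    intro h; funext x
    rw [Pi.add_apply, hLt_apply, hAdef, hBdef, hCdef, dOp_apply, dOp_apply, dOp_apply,
      Equiv.Perm.mul_apply]
    ring
  -- the map `Ψ`
  let Ψ : ((α → ℚ) × (α → ℚ)) →ₗ[ℚ] (α → ℚ) := (Lt ∘ₗ A).coprod B
  have hΨ : ∀ f g, Ψ (f, g) = Lt (A f) + B g := fun f g => by
    simp [Ψ, LinearMap.coprod_apply]
  -- the map `Θ`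
  let Θ : (LinearMap.ker A × LinearMap.ker B × LinearMap.ker C) →ₗ[ℚ] ((α → ℚ) × (α → ℚ)) :=
    { toFun := fun p => ((p.1 : α → ℚ) + (p.2.2 : α → ℚ), (p.2.1 : α → ℚ) + (p.2.2 : α → ℚ))
      map_add' := by
        intro p q
        ext x <;> simp <;> ring
      map_smul' := by
        intro c p
        ext x <;> simp }
  have hΘ_apply : ∀ p, Θ p = ((p.1 : α → ℚ) + (p.2.2 : α → ℚ),
      (p.2.1 : α → ℚ) + (p.2.2 : α → ℚ)) := fun p => rfl
  have hΘΨ : LinearMap.range Θ ≤ LinearMap.ker Ψ := by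
    rintro _ ⟨⟨f, g, h⟩, rfl⟩
    rw [LinearMap.mem_ker, hΘ_apply, hΨ]
    simp only
    rw [map_add, map_add, map_add, LinearMap.mem_ker.mp f.2, LinearMap.mem_ker.mp g.2, map_zero,
      zero_add, zero_add, ← hC, LinearMap.mem_ker.mp h.2]
  -- the kernel of `Θ` has dimension at most one
  have hkerΘ : Module.finrank ℚ (LinearMap.ker Θ) ≤ 1 := by
    let ev : LinearMap.ker Θ →ₗ[ℚ] ℚ :=
      { toFun := fun p => (p.1.2.2 : α → ℚ) x0
        map_add' := fun p q => rfl
        map_smul' := fun c p => rfl }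
    have hinj : Function.Injective ev := by
      have hker : ∀ a, ev a = 0 → a = 0 := by
        rintro ⟨⟨f, g, h⟩, hp⟩ hev
        have hev' : (h : α → ℚ) x0 = 0 := hev
        have hp' : ((f : α → ℚ) + (h : α → ℚ), (g : α → ℚ) + (h : α → ℚ))
            = (0 : (α → ℚ) × (α → ℚ)) := LinearMap.mem_ker.mp hp
        have hf : (f : α → ℚ) = - (h : α → ℚ) := eq_neg_of_add_eq_zero_left (congrArg Prod.fst hp')
        have hg : (g : α → ℚ) = - (h : α → ℚ) := eq_neg_of_add_eq_zero_left (congrArg Prod.snd hp')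
        have hs : ∀ x, (h : α → ℚ) (s x) = (h : α → ℚ) x := by
          intro x
          have := (mem_ker_dOp s f.1).mp f.2 x
          rw [hf] at this
          simpa using this
        have ht : ∀ x, (h : α → ℚ) (t x) = (h : α → ℚ) x := by
          intro x
          have := (mem_ker_dOp t g.1).mp g.2 x
          rw [hg] at this
          simpa using this
        have hconst : ∀ y, (h : α → ℚ) y = (h : α → ℚ) x0 :=
          htrans (fun y => (h : α → ℚ) y = (h : α → ℚ) x0) (fun x => by rw [hs]) (fun x => by rw [ht])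
            rfl
        have hh : (h : α → ℚ) = 0 := funext fun y => (hconst y).trans hev'
        have hf0 : (f : α → ℚ) = 0 := by rw [hf, hh, neg_zero]
        have hg0 : (g : α → ℚ) = 0 := by rw [hg, hh, neg_zero]
        apply Subtype.ext
        show (f, g, h) = 0
        refine Prod.ext (Subtype.ext hf0) (Prod.ext (Subtype.ext hg0) (Subtype.ext hh))
      intro a b hab
      have hd := hker (a - b) (by
        have h0 : ev (a - b) = ev a - ev b := rfl
        rw [h0, hab, sub_self])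
      exact sub_eq_zero.mp hd
    calc Module.finrank ℚ (LinearMap.ker Θ) ≤ Module.finrank ℚ ℚ :=
          LinearMap.finrank_le_finrank_of_injective hinj
      _ = 1 := Module.finrank_self ℚ
  -- the range of `Ψ` has codimension at most one
  have hrangeΨ : Fintype.card α ≤ Module.finrank ℚ (LinearMap.range Ψ) + 1 := by
    let e : α → (α → ℚ) := fun x => Pi.single x 1
    have he : ∀ x y, e x y = if y = x then 1 else 0 := fun x y => by
      simp [e, Pi.single_apply]
    have hA : ∀ f, A f ∈ LinearMap.range Ψ := fun f => ⟨(f, -A f), by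
      rw [hΨ, hB_eq]; simp⟩
    have hB : ∀ g, B g ∈ LinearMap.range Ψ := fun g => ⟨(0, g), by
      rw [hΨ]; simp⟩
    have hes : ∀ x, e (s x) - e x ∈ LinearMap.range Ψ := by
      intro x
      have h1 : A (e (s x)) = -(e (s x) - e x) := by
        funext y
        rw [hAdef, dOp_apply, Pi.neg_apply, Pi.sub_apply, he, he, he]
        simp only [EmbeddingLike.apply_eq_iff_eq]
        ring
      have h2 := hA (e (s x))
      rw [h1] at h2
      exact (Submodule.neg_mem_iff _).mp h2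
    have het : ∀ x, e (t x) - e x ∈ LinearMap.range Ψ := by
      intro x
      have h1 : B (e (t x)) = -(e (t x) - e x) := by
        funext y
        rw [hBdef, dOp_apply, Pi.neg_apply, Pi.sub_apply, he, he, he]
        simp only [EmbeddingLike.apply_eq_iff_eq]
        ring
      have h2 := hB (e (t x))
      rw [h1] at h2
      exact (Submodule.neg_mem_iff _).mp h2
    have hall : ∀ y, e y - e x0 ∈ LinearMap.range Ψ := by
      refine htrans (fun y => e y - e x0 ∈ LinearMap.range Ψ) (fun x => ?_) (fun x => ?_) ?_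
      · constructor
        · intro h
          have := Submodule.sub_mem _ h (hes x)
          rwa [sub_sub_sub_cancel_left] at this
        · intro h
          have := Submodule.add_mem _ (hes x) h
          rwa [sub_add_sub_cancel] at this
      · constructor
        · intro h
          have := Submodule.sub_mem _ h (het x)
          rwa [sub_sub_sub_cancel_left] at this
        · intro h
          have := Submodule.add_mem _ (het x) h
          rwa [sub_add_sub_cancel] at this
      · simp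
    let Ξ : (LinearMap.range Ψ × ℚ) →ₗ[ℚ] (α → ℚ) :=
      (LinearMap.range Ψ).subtype.coprod (LinearMap.toSpanSingleton ℚ (α → ℚ) (e x0))
    have hsurj : Function.Surjective Ξ := by
      intro f
      refine ⟨(⟨∑ x, f x • (e x - e x0),
        Submodule.sum_mem _ (fun x _ => Submodule.smul_mem _ _ (hall x))⟩, ∑ x, f x), ?_⟩
      simp only [Ξ, LinearMap.coprod_apply, Submodule.subtype_apply,
        LinearMap.toSpanSingleton_apply]
      funext y
      simp only [Pi.add_apply, Finset.sum_apply, Pi.smul_apply, Pi.sub_apply, smul_eq_mul, he,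
        mul_sub, Finset.sum_sub_distrib, mul_ite, mul_one, mul_zero, Finset.sum_ite_eq,
        Finset.mem_univ, if_true]
      by_cases hy : y = x0
      · simp [hy]
      · simp [hy]
    have h1 := LinearMap.finrank_le_finrank_of_surjective hsurj
    rw [Module.finrank_prod, Module.finrank_self, Module.finrank_fintype_fun_eq_card] at h1
    exact h1
  have h1 := LinearMap.finrank_range_add_finrank_ker Θ
  have h2 := LinearMap.finrank_range_add_finrank_ker Ψ
  have h3 := Submodule.finrank_mono hΘΨ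
  have hdom : Module.finrank ℚ (LinearMap.ker A × LinearMap.ker B × LinearMap.ker C)
      = permOrbCount s + (permOrbCount t + permOrbCount (s * t)) := by
    rw [Module.finrank_prod, Module.finrank_prod, finrank_ker_dOp, finrank_ker_dOp,
      finrank_ker_dOp]
  have hVV : Module.finrank ℚ ((α → ℚ) × (α → ℚ)) = Fintype.card α + Fintype.card α := by
    rw [Module.finrank_prod, Module.finrank_fintype_fun_eq_card]
  rw [hdom] at h1
  rw [hVV] at h2
  omega

end PermOrbits

/-! ### Cusps: orbits of `T` -/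

theorem gcd_invariant (N : ℕ) (a c a' c' : ℤ) (h : IsCoprime a c) (h' : IsCoprime a' c')
    (hdvd : (N : ℤ) ∣ a * c' - c * a') : Int.gcd c N = Int.gcd c' N := by
  have key : ∀ (a c a' c' : ℤ), IsCoprime a c → (N : ℤ) ∣ a * c' - c * a' →
      Int.gcd c N ∣ Int.gcd c' N := by
    intro a c a' c' h hdvd
    have h1 : ((Int.gcd c N : ℕ) : ℤ) ∣ c := Int.gcd_dvd_left ..
    have h2 : ((Int.gcd c N : ℕ) : ℤ) ∣ N := Int.gcd_dvd_right ..
    have h3 : ((Int.gcd c N : ℕ) : ℤ) ∣ a * c' := by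
      have := dvd_add (dvd_trans h2 hdvd) (dvd_mul_of_dvd_left h1 a')
      rwa [sub_add_cancel] at this
    have h4 : IsCoprime ((Int.gcd c N : ℕ) : ℤ) a :=
      (IsCoprime.of_isCoprime_of_dvd_right h h1).symm
    have h5 : ((Int.gcd c N : ℕ) : ℤ) ∣ c' := h4.dvd_of_dvd_mul_left h3
    exact Int.natCast_dvd_natCast.mp (Int.dvd_coe_gcd h5 h2)
  apply Nat.dvd_antisymm (key a c a' c' h hdvd)
  apply key a' c' a c h'
  have e : a' * c - c' * a = -(a * c' - c * a') := by ring
  rw [e, dvd_neg]; exact hdvd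

theorem isUnit_intCast_of_isCoprime (z : ℤ) (n : ℕ) (h : IsCoprime z (n : ℤ)) :
    IsUnit ((z : ℤ) : ZMod n) := by
  obtain ⟨u, v, huv⟩ := h
  refine IsUnit.of_mul_eq_one (u : ZMod n) ?_
  have := congrArg (Int.cast : ℤ → ZMod n) huv
  push_cast at this
  simp only [ZMod.natCast_self, mul_zero, add_zero] at this
  rw [mul_comm]; exact this

theorem exists_shift (N d : ℕ) (hd : d ∣ N) (hN : N ≠ 0) (a c : ℤ) (hac : IsCoprime a c)
    (hgcd : Int.gcd c N = d) :
    ∃ v : ℤ, IsCoprime (a * v) ((Nat.gcd d (N / d) : ℕ) : ℤ) ∧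
      ∀ a₀ : ℤ, ((Nat.gcd d (N / d) : ℕ) : ℤ) ∣ a₀ - a * v →
        ∃ n : ℤ, (N : ℤ) ∣ (a₀ + n * d) * c - d * a := by
  obtain ⟨m, rfl⟩ := hd
  have hd0 : d ≠ 0 := fun h => hN (by rw [h, zero_mul])
  have hm0 : m ≠ 0 := fun h => hN (by rw [h, mul_zero])
  have hdiv : d * m / d = m := Nat.mul_div_cancel_left m (Nat.pos_of_ne_zero hd0)
  rw [hdiv]
  obtain ⟨w, hw⟩ : (d : ℤ) ∣ c := by rw [← hgcd]; exact Int.gcd_dvd_left ..
  have hwm : IsCoprime w (m : ℤ) := by
    rw [Int.isCoprime_iff_gcd_eq_one]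
    have h1 : Int.gcd ((d : ℤ) * w) ((d : ℤ) * m) = d * Int.gcd w m := by
      rw [Int.gcd_mul_left]; simp
    rw [hw] at hgcd
    push_cast at hgcd
    rw [h1] at hgcd
    have : d * Int.gcd w m = d * 1 := by rw [mul_one]; exact hgcd
    exact Nat.eq_of_mul_eq_mul_left (Nat.pos_of_ne_zero hd0) this
  obtain ⟨v, z, hvz⟩ := hwm
  have hg_d : ((Nat.gcd d m : ℕ) : ℤ) ∣ (d : ℤ) := Int.natCast_dvd_natCast.mpr (Nat.gcd_dvd_left d m)
  have hg_m : ((Nat.gcd d m : ℕ) : ℤ) ∣ (m : ℤ) := Int.natCast_dvd_natCast.mpr (Nat.gcd_dvd_right d m)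
  refine ⟨v, ?_, ?_⟩
  · have h1 : IsCoprime a ((Nat.gcd d m : ℕ) : ℤ) :=
      IsCoprime.of_isCoprime_of_dvd_right hac (dvd_trans hg_d ⟨w, hw⟩)
    have h2 : IsCoprime v ((Nat.gcd d m : ℕ) : ℤ) :=
      IsCoprime.of_isCoprime_of_dvd_right ⟨w, z, by linarith⟩ hg_m
    exact h1.mul_left h2
  · rintro a₀ ⟨k, hk⟩
    have hbez : ((Nat.gcd d m : ℕ) : ℤ) = d * Nat.gcdA d m + m * Nat.gcdB d m :=
      Nat.gcd_eq_gcd_ab d m
    refine ⟨-(Nat.gcdA d m * k), Nat.gcdB d m * k * w - a * z, ?_⟩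
    push_cast
    rw [hw]
    linear_combination ((d : ℤ) * w) * hk + ((d : ℤ) * a) * hvz + ((d : ℤ) * w * k) * hbez

theorem dvd_sub_of_shift (N d : ℕ) (hd : d ∣ N) (hN : N ≠ 0) (a₀ a₁ n : ℤ)
    (h : (N : ℤ) ∣ (a₀ + n * d) * d - d * a₁) :
    ((Nat.gcd d (N / d) : ℕ) : ℤ) ∣ a₀ - a₁ := by
  obtain ⟨m, rfl⟩ := hd
  have hd0 : d ≠ 0 := fun h => hN (by rw [h, zero_mul])
  have hdiv : d * m / d = m := Nat.mul_div_cancel_left m (Nat.pos_of_ne_zero hd0)
  rw [hdiv]
  have hdz : (d : ℤ) ≠ 0 := by exact_mod_cast hd0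
  have h1 : (m : ℤ) ∣ a₀ + n * d - a₁ := by
    have e : (a₀ + n * d) * d - d * a₁ = d * (a₀ + n * d - a₁) := by ring
    rw [e] at h
    push_cast at h
    exact (mul_dvd_mul_iff_left hdz).mp h
  have hg_d : ((Nat.gcd d m : ℕ) : ℤ) ∣ (d : ℤ) := Int.natCast_dvd_natCast.mpr (Nat.gcd_dvd_left d m)
  have hg_m : ((Nat.gcd d m : ℕ) : ℤ) ∣ (m : ℤ) := Int.natCast_dvd_natCast.mpr (Nat.gcd_dvd_right d m)
  have h2 := dvd_sub (dvd_trans hg_m h1) (dvd_mul_of_dvd_right hg_d n)
  have e : a₀ + n * d - a₁ - n * d = a₀ - a₁ := by ring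
  rwa [e] at h2



/-! ### Orbits of cyclic subgroups on the coset space -/

/-- orbits of the cyclic group generated by `g` are the cycles of the permutation `toPerm g` -/
theorem card_orbits_zpowers {G α : Type*} [Group G] [MulAction G α] [Fintype α] [DecidableEq α]
    (g : G) :
    Nat.card (MulAction.orbitRel.Quotient (Subgroup.zpowers g) α)
      = permOrbCount (MulAction.toPerm g : Equiv.Perm α) := by
  have hpow : ∀ (i : ℤ) (x : α), ((MulAction.toPerm g : Equiv.Perm α) ^ i) x = g ^ i • x := by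
    intro i x
    have : (MulAction.toPerm g : Equiv.Perm α) ^ i = MulAction.toPerm (g ^ i) :=
      (map_zpow (MulAction.toPermHom G α) g i).symm
    rw [this]; rfl
  rw [permOrbCount]
  refine Nat.card_congr (Quotient.congr (Equiv.refl α) ?_)
  intro x y
  show x ∈ MulAction.orbit (Subgroup.zpowers g) y ↔
    Equiv.Perm.SameCycle (MulAction.toPerm g : Equiv.Perm α) x y
  rw [MulAction.mem_orbit_iff]
  constructor
  · rintro ⟨⟨h, hh⟩, hx⟩
    obtain ⟨i, rfl⟩ := Subgroup.mem_zpowers_iff.mp hh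
    refine ⟨-i, ?_⟩
    rw [hpow, ← hx]
    show g ^ (-i) • (g ^ i • y) = y
    rw [smul_smul, ← _root_.zpow_add]; simp
  · rintro ⟨i, hi⟩
    refine ⟨⟨g ^ (-i), Subgroup.mem_zpowers_iff.mpr ⟨-i, rfl⟩⟩, ?_⟩
    rw [hpow] at hi
    show g ^ (-i) • y = x
    rw [← hi, smul_smul, ← _root_.zpow_add]; simp

theorem S_sq_smul (N : ℕ) (x : X0Coset N) : (S * S) • x = x := by
  induction x using QuotientGroup.induction_on with
  | H γ =>
    have e0 : (S * (S * γ)) 0 0 = - γ 0 0 := by rw [S_mul_apply_zero, S_mul_apply_one]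
    have e1 : (S * (S * γ)) 1 0 = - γ 1 0 := by rw [S_mul_apply_one, S_mul_apply_zero]
    rw [MulAction.Quotient.smul_mk, smul_eq_mul, mk_eq_iff, mul_assoc, e0, e1]
    ring_nf
    exact dvd_zero _

theorem ST_cube_smul (N : ℕ) (x : X0Coset N) : (S * T * (S * T * (S * T))) • x = x := by
  induction x using QuotientGroup.induction_on with
  | H γ =>
    have h0 : ∀ γ : SL2Z, (S * T * γ) 0 0 = - γ 1 0 := by
      intro γ; rw [mul_assoc, S_mul_apply_zero, T_mul_apply_one]
    have h1 : ∀ γ : SL2Z, (S * T * γ) 1 0 = γ 0 0 + γ 1 0 := by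
      intro γ; rw [mul_assoc, S_mul_apply_one, T_mul_apply_zero]
    have e0 : (S * T * (S * T * (S * T * γ))) 0 0 = - γ 0 0 := by
      simp only [h0, h1]; ring
    have e1 : (S * T * (S * T * (S * T * γ))) 1 0 = - γ 1 0 := by
      simp only [h0, h1]; ring
    rw [MulAction.Quotient.smul_mk, smul_eq_mul, mk_eq_iff]
    simp only [mul_assoc (S * T)]
    rw [e0, e1]
    ring_nf
    exact dvd_zero _

/-- the action of `SL(2,ℤ)` on the coset space is "connected" with respect to `S` and `T` -/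
theorem connected_S_T (N : ℕ) (P : X0Coset N → Prop) (hS : ∀ x, P (S • x) ↔ P x)
    (hT : ∀ x, P (T • x) ↔ P x) (x y : X0Coset N) (hx : P x) : P y := by
  let M : Subgroup SL2Z :=
    { carrier := {g | ∀ x, P (g • x) ↔ P x}
      mul_mem' := by
        intro g h hg hh x
        rw [mul_smul, hg, hh]
      one_mem' := by intro x; rw [one_smul]
      inv_mem' := by
        intro g hg x
        have := hg (g⁻¹ • x)
        rw [smul_inv_smul] at this
        exact this.symm }
  have hM : M = ⊤ := by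
    rw [eq_top_iff, ← SpecialLinearGroup.SL2Z_generators, Subgroup.closure_le]
    intro g hg
    rcases hg with rfl | rfl
    · exact hS
    · exact hT
  obtain ⟨g, rfl⟩ := MulAction.exists_smul_eq SL2Z x y
  have hg : g ∈ M := by rw [hM]; exact Subgroup.mem_top g
  exact (hg x).mpr hx


/-- the `T`-orbit space of the coset space -/
abbrev TOrb (N : ℕ) : Type := MulAction.orbitRel.Quotient (Subgroup.zpowers T) (X0Coset N)

theorem torb_mk_eq_iff (N : ℕ) (γ γ' : SL2Z) :
    ((Quotient.mk'' (γ : X0Coset N) : TOrb N) = Quotient.mk'' (γ' : X0Coset N)) ↔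
      ∃ n : ℤ, (N : ℤ) ∣ (γ' 0 0 + n * γ' 1 0) * γ 1 0 - γ' 1 0 * γ 0 0 := by
  rw [Quotient.eq'']
  show (γ : X0Coset N) ∈ MulAction.orbit (Subgroup.zpowers T) (γ' : X0Coset N) ↔ _
  rw [MulAction.mem_orbit_iff]
  constructor
  · rintro ⟨⟨h, hh⟩, hx⟩
    obtain ⟨n, rfl⟩ := Subgroup.mem_zpowers_iff.mp hh
    refine ⟨n, ?_⟩
    have hx' : ((T ^ n * γ' : SL2Z) : X0Coset N) = γ := hx
    rw [mk_eq_iff, T_zpow_mul_apply_zero, T_zpow_mul_apply_one] at hx'
    exact hx'
  · rintro ⟨n, hn⟩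
    refine ⟨⟨T ^ n, Subgroup.mem_zpowers_iff.mpr ⟨n, rfl⟩⟩, ?_⟩
    show ((T ^ n * γ' : SL2Z) : X0Coset N) = γ
    rw [mk_eq_iff, T_zpow_mul_apply_zero, T_zpow_mul_apply_one]
    exact hn

/-- **The number of cusps**: the number of `T`-orbits on `SL(2,ℤ) ⧸ Γ₀(N)` is
`∑_{d ∣ N} φ(gcd(d, N/d))`. -/
theorem card_TOrb (N : ℕ) [NeZero N] : Nat.card (TOrb N) = ModularCurve.cuspCount N := by
  have hN : N ≠ 0 := NeZero.ne N
  have hgpos : ∀ d : N.divisors, Nat.gcd d.1 (N / d.1) ≠ 0 := by
    intro d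
    have := Nat.pos_of_mem_divisors d.2
    exact Nat.gcd_ne_zero_left (by omega)
  have hex : ∀ p : (Σ d : N.divisors, (ZMod (Nat.gcd d.1 (N / d.1)))ˣ), ∃ γ : SL2Z,
      γ 1 0 = (p.1.1 : ℤ) ∧
      ((γ 0 0 : ℤ) : ZMod (Nat.gcd p.1.1 (N / p.1.1))) = (p.2 : ZMod _) := by
    rintro ⟨⟨d, hd⟩, κ⟩
    have hd0 : d ≠ 0 := (Nat.pos_of_mem_divisors hd).ne'
    have : NeZero d := ⟨hd0⟩
    have hg : Nat.gcd d (N / d) ∣ d := Nat.gcd_dvd_left _ _
    obtain ⟨u, hu⟩ := ZMod.unitsMap_surjective hg κ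
    have hcop : IsCoprime (((u : ZMod d).val : ℕ) : ℤ) (d : ℤ) :=
      Nat.isCoprime_iff_coprime.mpr (ZMod.val_coe_unit_coprime u)
    obtain ⟨γ, h0, h1⟩ := exists_col _ _ hcop
    refine ⟨γ, h1, ?_⟩
    rw [h0, Int.cast_natCast, ZMod.natCast_val, ← hu, ZMod.unitsMap_def]
    rfl
  choose Γ hΓ1 hΓ0 using hex
  let F : (Σ d : N.divisors, (ZMod (Nat.gcd d.1 (N / d.1)))ˣ) → TOrb N :=
    fun p => Quotient.mk'' (Γ p : X0Coset N)
  have hbij : Function.Bijective F := by
    constructor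
    · intro p q hpq
      obtain ⟨n, hn⟩ := (torb_mk_eq_iff N (Γ p) (Γ q)).mp hpq
      rw [hΓ1, hΓ1] at hn
      have hcop : IsCoprime ((Γ q) 0 0 + n * (q.1.1 : ℤ)) (q.1.1 : ℤ) := by
        have := isCoprime_col0 (Γ q)
        rw [hΓ1] at this
        exact this.add_mul_right_left n
      have hcop' : IsCoprime ((Γ p) 0 0) (p.1.1 : ℤ) := by
        have := isCoprime_col0 (Γ p)
        rwa [hΓ1] at this
      have hgcd := gcd_invariant N _ _ _ _ hcop hcop' hn
      have hdq : Int.gcd (q.1.1 : ℤ) (N : ℤ) = q.1.1 := by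
        rw [Int.gcd_natCast_natCast]; exact Nat.gcd_eq_left (Nat.dvd_of_mem_divisors q.1.2)
      have hdp : Int.gcd (p.1.1 : ℤ) (N : ℤ) = p.1.1 := by
        rw [Int.gcd_natCast_natCast]; exact Nat.gcd_eq_left (Nat.dvd_of_mem_divisors p.1.2)
      have hd : q.1.1 = p.1.1 := by rw [← hdq, ← hdp, hgcd]
      obtain ⟨⟨d, hd1⟩, κ⟩ := p
      obtain ⟨⟨d', hd1'⟩, κ'⟩ := q
      simp only at hd
      subst hd
      have hκ : κ = κ' := by
        apply Units.ext
        rw [← hΓ0 ⟨⟨d', hd1⟩, κ⟩, ← hΓ0 ⟨⟨d', hd1'⟩, κ'⟩]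
        have := dvd_sub_of_shift N d' (Nat.dvd_of_mem_divisors hd1) hN _ _ n hn
        symm
        rw [← sub_eq_zero, ← Int.cast_sub, ZMod.intCast_zmod_eq_zero_iff_dvd]
        exact this
      subst hκ
      rfl
    · intro q
      induction q using Quotient.inductionOn' with
      | h x =>
        induction x using QuotientGroup.induction_on with
        | H γ =>
          have hdN : Int.gcd (γ 1 0) N ∣ N := Int.natCast_dvd_natCast.mp (Int.gcd_dvd_right ..)
          have hdmem : Int.gcd (γ 1 0) N ∈ N.divisors := Nat.mem_divisors.mpr ⟨hdN, hN⟩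
          obtain ⟨v, hv, hshift⟩ := exists_shift N (Int.gcd (γ 1 0) N) hdN hN (γ 0 0) (γ 1 0)
            (isCoprime_col0 γ) rfl
          refine ⟨⟨⟨Int.gcd (γ 1 0) N, hdmem⟩, (isUnit_intCast_of_isCoprime _ _ hv).unit⟩, ?_⟩
          show Quotient.mk'' (Γ ⟨⟨Int.gcd (γ 1 0) N, hdmem⟩,
            (isUnit_intCast_of_isCoprime _ _ hv).unit⟩ : X0Coset N) = Quotient.mk'' (γ : X0Coset N)
          rw [eq_comm, torb_mk_eq_iff, hΓ1]
          apply hshift
          rw [← ZMod.intCast_zmod_eq_zero_iff_dvd, Int.cast_sub, hΓ0, sub_eq_zero]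
          rfl
  rw [← Nat.card_eq_of_bijective F hbij]
  have : ∀ d : N.divisors, NeZero (Nat.gcd d.1 (N / d.1)) := fun d => ⟨hgpos d⟩
  rw [Nat.card_eq_fintype_card, Fintype.card_sigma]
  simp only [ZMod.card_units_eq_totient]
  rw [ModularCurve.cuspCount]
  exact Finset.sum_coe_sort N.divisors (fun d => Nat.totient (Nat.gcd d (N / d)))


/-! ### Summary: the numerics of the genus formula -/

/-- the orbit space of the cyclic group generated by `g` on `SL(2,ℤ) ⧸ Γ₀(N)` -/
abbrev Orb (N : ℕ) (g : SL2Z) : Type :=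
  MulAction.orbitRel.Quotient (Subgroup.zpowers g) (X0Coset N)

section Final

variable (N : ℕ) [NeZero N]

open ModularCurve

open Classical in
theorem card_Orb [Fintype (X0Coset N)] (g : SL2Z) :
    Nat.card (Orb N g) = permOrbCount (MulAction.toPerm g : Equiv.Perm (X0Coset N)) :=
  card_orbits_zpowers (G := SL2Z) (α := X0Coset N) g

open Classical in
theorem card_fixedPoints_toPerm [Fintype (X0Coset N)] (g : SL2Z) :
    Fintype.card (Function.fixedPoints (MulAction.toPerm g : Equiv.Perm (X0Coset N)))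
      = Nat.card (MulAction.fixedBy (X0Coset N) g) := by
  rw [← Nat.card_eq_fintype_card]
  rfl

theorem two_mul_card_orb_S : 2 * Nat.card (Orb N S) = dedekindPsi N + nuTwo N := by
  classical
  let _ : Fintype (X0Coset N) := Fintype.ofFinite _
  have h : (MulAction.toPerm S : Equiv.Perm (X0Coset N)) ^ 2 = 1 := by
    ext x
    rw [pow_two, Equiv.Perm.mul_apply]
    show S • S • x = x
    rw [smul_smul, S_sq_smul]
  have := permOrbCount_of_pow_prime _ 2 Nat.prime_two h
  rw [card_fixedPoints_toPerm, card_fixedBy_S, ← Nat.card_eq_fintype_card, card_X0Coset] at this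
  rw [card_Orb, this]
  simp

theorem three_mul_card_orb_ST :
    3 * Nat.card (Orb N (S * T)) = dedekindPsi N + 2 * nuThree N := by
  classical
  let _ : Fintype (X0Coset N) := Fintype.ofFinite _
  have h : (MulAction.toPerm (S * T) : Equiv.Perm (X0Coset N)) ^ 3 = 1 := by
    ext x
    rw [pow_succ, pow_two, Equiv.Perm.mul_apply, Equiv.Perm.mul_apply]
    show (S * T) • (S * T) • (S * T) • x = x
    rw [smul_smul, smul_smul, mul_assoc (S * T) (S * T) (S * T), ST_cube_smul]
  have := permOrbCount_of_pow_prime _ 3 Nat.prime_three h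
  rw [card_fixedPoints_toPerm, card_fixedBy_ST, ← Nat.card_eq_fintype_card, card_X0Coset] at this
  rw [card_Orb, this]

theorem card_orb_T : Nat.card (Orb N T) = cuspCount N := card_TOrb N

theorem card_orb_add_le :
    Nat.card (Orb N S) + Nat.card (Orb N T) + Nat.card (Orb N (S * T)) ≤ dedekindPsi N + 2 := by
  classical
  let _ : Fintype (X0Coset N) := Fintype.ofFinite _
  have hmul : (MulAction.toPerm (S * T) : Equiv.Perm (X0Coset N))
      = MulAction.toPerm S * MulAction.toPerm T := map_mul (MulAction.toPermHom SL2Z (X0Coset N)) S T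
  have := permOrbCount_add_le (MulAction.toPerm S : Equiv.Perm (X0Coset N)) (MulAction.toPerm T)
    ((1 : SL2Z) : X0Coset N)
    (fun P hS hT hx y => connected_S_T N P hS hT _ y hx)
  rw [← hmul, ← Nat.card_eq_fintype_card, card_X0Coset] at this
  rw [card_Orb, card_Orb, card_Orb]
  exact this

theorem card_orb_even :
    Even (dedekindPsi N + Nat.card (Orb N S) + Nat.card (Orb N T) + Nat.card (Orb N (S * T))) := by
  classical
  let _ : Fintype (X0Coset N) := Fintype.ofFinite _
  have hmul : (MulAction.toPerm (S * T) : Equiv.Perm (X0Coset N))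
      = MulAction.toPerm S * MulAction.toPerm T := map_mul (MulAction.toPermHom SL2Z (X0Coset N)) S T
  have h1 := sign_eq_neg_one_pow_permOrbCount (MulAction.toPerm S : Equiv.Perm (X0Coset N))
  have h2 := sign_eq_neg_one_pow_permOrbCount (MulAction.toPerm T : Equiv.Perm (X0Coset N))
  have h3 := sign_eq_neg_one_pow_permOrbCount (MulAction.toPerm (S * T) : Equiv.Perm (X0Coset N))
  rw [hmul, map_mul, h1, h2, ← hmul] at h3
  rw [card_Orb, card_Orb, card_Orb, ← card_X0Coset N, Nat.card_eq_fintype_card]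
  set n := Fintype.card (X0Coset N)
  set a := permOrbCount (MulAction.toPerm S : Equiv.Perm (X0Coset N))
  set b := permOrbCount (MulAction.toPerm T : Equiv.Perm (X0Coset N))
  set c := permOrbCount (MulAction.toPerm (S * T) : Equiv.Perm (X0Coset N))
  have h4 : (-1 : ℤˣ) ^ ((n + a) + (n + b) + (n + c)) = 1 := by
    rw [pow_add, pow_add, h3, ← pow_add, ← two_mul, pow_mul]
    simp
  have h5 : Even ((n + a) + (n + b) + (n + c)) :=
    (neg_one_pow_eq_one_iff_even (by decide)).mp h4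
  obtain ⟨k, hk⟩ := h5
  exact ⟨k - n, by omega⟩

/-- **Numerics of the genus formula.** The Riemann–Hurwitz count
`2 + ψ - #orb(S) - #orb(ST) - #orb(T)` is a nonnegative even integer `2 g` and `g` is the value of
the genus formula. -/
theorem genus_numerics' : ∃ g : ℕ,
    2 * g + (Nat.card (Orb N S) + Nat.card (Orb N (S * T)) + Nat.card (Orb N T))
      = dedekindPsi N + 2 ∧ (g : ℚ) = genusFormula N := by
  have h1 := two_mul_card_orb_S N
  have h2 := three_mul_card_orb_ST N
  have h3 := card_orb_T N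
  have h4 := card_orb_add_le N
  obtain ⟨k, hk⟩ := card_orb_even N
  set a := Nat.card (Orb N S)
  set b := Nat.card (Orb N (S * T))
  set c := Nat.card (Orb N T)
  set n := dedekindPsi N
  refine ⟨n + 1 - k, by omega, ?_⟩
  have hg : 2 * (n + 1 - k) + (a + b + c) = n + 2 := by omega
  have hg' : (2 : ℚ) * ((n + 1 - k : ℕ) : ℚ) + (a + b + c) = n + 2 := by exact_mod_cast hg
  have h1' : (2 : ℚ) * a = n + nuTwo N := by exact_mod_cast h1
  have h2' : (3 : ℚ) * b = n + 2 * nuThree N := by exact_mod_cast h2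
  have h3' : (c : ℚ) = cuspCount N := by exact_mod_cast h3
  rw [genusFormula, ← h3']
  linarith

end Final


/-! ### The interface statements of the S24 plan (`s24_iface`, module `S24_Comb`) -/

section Interface

open Fermat.Agent.S24_Defs ModularCurve

theorem card_coset (N : ℕ) [NeZero N] : Nat.card (Coset N) = dedekindPsi N := card_X0Coset N

theorem two_mul_orbCount_S (N : ℕ) [NeZero N] :
    2 * S24_Defs.orbCount N ModularGroup.S = dedekindPsi N + nuTwo N := two_mul_card_orb_S N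

theorem three_mul_orbCount_ST (N : ℕ) [NeZero N] :
    3 * S24_Defs.orbCount N (ModularGroup.S * ModularGroup.T) = dedekindPsi N + 2 * nuThree N :=
  three_mul_card_orb_ST N

theorem orbCount_T (N : ℕ) [NeZero N] : S24_Defs.orbCount N ModularGroup.T = cuspCount N :=
  card_orb_T N

/-- Euler characteristic is even and at most 2 (sign of permutations + linear algebra on
invariants), combined with the three counts. -/
theorem genus_numerics (N : ℕ) [NeZero N] :
    ∃ g : ℕ, (g : ℚ) = genusFormula N ∧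
      ((Nat.card (Coset N) : ℤ) - S24_Defs.orbCount N ModularGroup.S
        - S24_Defs.orbCount N (ModularGroup.S * ModularGroup.T) - S24_Defs.orbCount N ModularGroup.T
        = 2 * (g : ℤ) - 2) := by
  obtain ⟨g, hg, hgf⟩ := genus_numerics' N
  refine ⟨g, hgf, ?_⟩
  rw [card_coset]
  have hg' : 2 * g + (S24_Defs.orbCount N ModularGroup.S
      + S24_Defs.orbCount N (ModularGroup.S * ModularGroup.T) + S24_Defs.orbCount N ModularGroup.T)
      = dedekindPsi N + 2 := hg
  omega

end Interface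

end Fermat.Agent.S24_Comb
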