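import Mathlib
import Fermat.Prelude.Def_ModularCurve_ArithmeticGalois
import Fermat.Prelude.Def_ModularCurve_GenusNumerics
import Fermat.Prelude.Def_AlgebraicCurve_CanonicalDivisor

/-!
# S24: shared definitions (architect: helper2)

Shared vocabulary for the proof of S24 (genus of the function field of `X₀(N)`).
Everything here is sorry-free; theorem statements of the individual pieces live in the
files `S24_*.lean` of their owners.
-/

set_option autoImplicit false

noncomputable section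

namespace Fermat.Agent.S24_Defs

open ModularCurve AlgebraicCurve UpperHalfPlane
open scoped MatrixGroups ModularForm

/-- The constant field `ℚ̄`. -/
abbrev Kbar : Type := AlgebraicClosure ℚ

/-- The function field of `X₀(N)` over `ℚ̄` (a subfield of `ℚ̄((q))`). -/
abbrev FF (N : ℕ) : Type := ↥(modularFunctionFieldBar N)

/-- Formal generator `j(q^d)` with coefficients in `ℚ̄` (junk value `0` for `d = 0`). -/
def Jd (d : ℕ) : LaurentSeries Kbar :=
  if h : d = 0 then 0 else haveI : NeZero d := ⟨h⟩; coeffEmb Kbar (qExpand ℚ d jq)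

theorem Jd_of_ne_zero (d : ℕ) [NeZero d] : Jd d = coeffEmb Kbar (qExpand ℚ d jq) := by
  simp [Jd, NeZero.ne d]

theorem Jd_mem (N : ℕ) {d : ℕ} (hd : d ∣ N) (hd0 : d ≠ 0) :
    Jd d ∈ modularFunctionFieldBar N := by
  have : NeZero d := ⟨hd0⟩
  rw [Jd_of_ne_zero]
  exact coeffEmb_mem_laurentBaseChange Kbar (jqd_mem_full N hd)

/-- `j` as an element of the function field. -/
def jF (N : ℕ) : FF N := ⟨Jd 1, Jd_mem N (one_dvd N) one_ne_zero⟩

/-- The coset space `SL₂(ℤ)/Γ₀(N)` with its left `SL₂(ℤ)`-action. -/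
abbrev Coset (N : ℕ) : Type := SL(2, ℤ) ⧸ CongruenceSubgroup.Gamma0 N

/-- Number of orbits of the cyclic group generated by `g` on `SL₂(ℤ)/Γ₀(N)`. -/
def orbCount (N : ℕ) (g : SL(2, ℤ)) : ℕ :=
  Nat.card (MulAction.orbitRel.Quotient (Subgroup.zpowers g) (Coset N))

/-- The analytic `j`-function `E₄³/Δ` on the upper half plane. -/
def jFun (τ : ℍ) : ℂ := (ModularForm.E₄ τ) ^ 3 / ModularForm.discriminant τ

/-- `τ ↦ d τ` on the upper half plane (identity for `d = 0`). -/
def dmul (d : ℕ) (τ : ℍ) : ℍ :=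
  if h : d = 0 then τ else
    ⟨(d : ℂ) * τ, by
      have : (0 : ℝ) < d := by exact_mod_cast Nat.pos_of_ne_zero h
      simpa using mul_pos this τ.im_pos⟩

theorem coe_dmul {d : ℕ} (hd : d ≠ 0) (τ : ℍ) : ((dmul d τ : ℍ) : ℂ) = (d : ℂ) * τ := by
  simp [dmul, hd]

/-- The analytic counterpart `τ ↦ j(dτ)` of `Jd d` (junk value `0` for `d = 0`, as for `Jd`). -/
def jS (d : ℕ) (τ : ℍ) : ℂ := if d = 0 then 0 else jFun (dmul d τ)

/-- Formal generator `j(q^d)` with complex coefficients (junk value `0` for `d = 0`). -/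
def JdC (d : ℕ) : LaurentSeries ℂ :=
  if h : d = 0 then 0 else haveI : NeZero d := ⟨h⟩; coeffEmb ℂ (qExpand ℚ d jq)

/-- The elliptic point `ρ = e^{2πi/3}`, fixed by `S * T`. -/
def rho : ℍ := ⟨(-1 / 2 : ℂ) + (Real.sqrt 3 / 2 : ℝ) * Complex.I, by
  simp⟩

/-- "Analytic fiber datum" over the point `π = 0` of the `π`-line: `𝒞`-indexed distinct
embeddings of `F` into a field `E` carrying a `ℚ`-valued valuation `w` with `w(π) = 1`, together
with a group `G` permuting the embeddings compatibly with `w`, and the integrality of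
`(orbit size) • w`. See `S24_Fiber` for the consequence: the places of `F` over `π = 0` are in
bijection with the `G`-orbits on `𝒞`. -/
def HasFiberDatum (K : Type) {F : Type} [Field K] [Field F] [Algebra K F] (π : F)
    (𝒞 : Type) (G : Type) [Group G] [MulAction G 𝒞] : Prop :=
  ∃ (E : Type) (_ : Field E) (_ : Algebra K E) (σ : 𝒞 → (F →ₐ[K] E)) (w : E → ℚ),
    Function.Injective σ ∧ (∀ γ γ', σ γ π = σ γ' π) ∧
    (∀ a b : E, a ≠ 0 → b ≠ 0 → w (a * b) = w a + w b) ∧
    (∀ a b : E, a ≠ 0 → b ≠ 0 → a + b ≠ 0 → min (w a) (w b) ≤ w (a + b)) ∧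
    (∀ a : K, a ≠ 0 → w (algebraMap K E a) = 0) ∧
    (∀ γ, w (σ γ π) = 1) ∧
    (∀ (g : G) (γ : 𝒞) (f : F), w (σ (g • γ) f) = w (σ γ f)) ∧
    (∀ (γ : 𝒞) (f : F), f ≠ 0 →
      ∃ k : ℤ, (Nat.card (MulAction.orbit G γ) : ℚ) * w (σ γ f) = k)

end Fermat.Agent.S24_Defs

end
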