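import Mathlib

/-!
# S24, package C2 (basic part): the analytic `j`-function on the upper half-plane

* `mkLevelOne`: build a level-one modular form from a function with the transformation law.
* `tendsto_coeff_zero`: a level-one modular form tends to its constant coefficient at `i∞`.
* `exists_eq_const_of_invariant`: holomorphic, `SL(2, ℤ)`-invariant and bounded at `i∞`
  implies constant.
* `J`: Klein's invariant `E₄ ^ 3 / Δ`; `J_smul`, `mdifferentiable_J`, `J_surjective`.
-/

set_option autoImplicit false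

open UpperHalfPlane ModularForm ModularFormClass MatrixGroups EisensteinSeries Filter Topology
open scoped Manifold

namespace Fermat.Agent.S24_JBasic

/-- Build a level-one modular form from a holomorphic function on `ℍ` satisfying the
transformation law and bounded at `i∞`. -/
noncomputable def mkLevelOne (k : ℤ) (f : ℍ → ℂ) (hol : MDiff f)
    (hinv : ∀ (γ : SL(2, ℤ)) (z : ℍ), f (γ • z) = denom γ z ^ k * f z)
    (hbdd : IsBoundedAtImInfty f) : ModularForm 𝒮ℒ k where
  toFun := f
  slash_action_eq' := by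
    rintro _ ⟨γ, rfl⟩
    funext z
    have h := hinv γ z
    have hd : denom γ z ^ k ≠ 0 := zpow_ne_zero k (denom_ne_zero γ z)
    change (f ∣[k] γ) z = f z
    rw [SL_slash_apply, h, zpow_neg]
    field_simp
  holo' := hol
  bdd_at_cusps' {c} hc := by
    rw [Subgroup.IsArithmetic.isCusp_iff_isCusp_SL2Z] at hc
    rw [OnePoint.isBoundedAt_iff_forall_SL2Z hc]
    intro γ _
    have : (f ∣[k] γ) = f := by
      funext z
      have h := hinv γ z
      have hd : denom γ z ^ k ≠ 0 := zpow_ne_zero k (denom_ne_zero γ z)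
      rw [SL_slash_apply, h, zpow_neg]
      field_simp
    rw [this]
    exact hbdd

@[simp] theorem mkLevelOne_apply (k : ℤ) (f : ℍ → ℂ) (hol : MDiff f)
    (hinv : ∀ (γ : SL(2, ℤ)) (z : ℍ), f (γ • z) = denom γ z ^ k * f z)
    (hbdd : IsBoundedAtImInfty f) (z : ℍ) : mkLevelOne k f hol hinv hbdd z = f z := rfl

/-- A level-one modular form tends to its constant `q`-coefficient at `i∞`. -/
theorem tendsto_coeff_zero {k : ℤ} (f : ModularForm 𝒮ℒ k) :
    Tendsto f atImInfty (𝓝 ((qExpansion 1 f).coeff 0)) := by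
  have hanal := ModularFormClass.analyticAt_cuspFunction_zero f one_pos one_mem_strictPeriods_SL
  have hper := SlashInvariantFormClass.periodic_comp_ofComplex f one_mem_strictPeriods_SL
  rw [qExpansion_coeff_zero one_pos hanal hper, ← cuspFunction_apply_zero one_pos hanal hper]
  exact (hanal.continuousAt.tendsto.comp (qParam_tendsto_atImInfty one_pos)).congr
    (fun τ ↦ SlashInvariantFormClass.eq_cuspFunction f τ one_mem_strictPeriods_SL one_ne_zero)

theorem tendsto_E₄ : Tendsto E₄ atImInfty (𝓝 1) := by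
  have := tendsto_coeff_zero E₄
  rwa [E_qExpansion_coeff_zero _ ⟨2, rfl⟩] at this

theorem tendsto_E₆ : Tendsto E₆ atImInfty (𝓝 1) := by
  have := tendsto_coeff_zero E₆
  rwa [E_qExpansion_coeff_zero _ ⟨3, rfl⟩] at this

theorem tendsto_discriminant : Tendsto ModularForm.discriminant atImInfty (𝓝 0) :=
  discriminant_isZeroAtImInfty

/-- A holomorphic `SL(2, ℤ)`-invariant function on `ℍ` which is bounded at `i∞` is constant. -/
theorem exists_eq_const_of_invariant (f : ℍ → ℂ) (hol : MDiff f)
    (hinv : ∀ (γ : SL(2, ℤ)) (z : ℍ), f (γ • z) = f z)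
    (hbdd : IsBoundedAtImInfty f) : ∃ c : ℂ, ∀ z, f z = c := by
  obtain ⟨c, hc⟩ := levelOne_weight_zero_const
    (mkLevelOne 0 f hol (fun γ z => by simpa using hinv γ z) hbdd)
  exact ⟨c, fun z => congrFun hc z⟩

/-- A holomorphic `SL(2, ℤ)`-invariant function on `ℍ` which tends to `0` at `i∞` is zero. -/
theorem eq_zero_of_invariant_of_tendsto (f : ℍ → ℂ) (hol : MDiff f)
    (hinv : ∀ (γ : SL(2, ℤ)) (z : ℍ), f (γ • z) = f z)
    (h0 : Tendsto f atImInfty (𝓝 0)) : ∀ z, f z = 0 := by
  obtain ⟨c, hc⟩ := exists_eq_const_of_invariant f hol hinv (h0.isBigO_one ℝ)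
  have h1 : Tendsto f atImInfty (𝓝 c) := by
    have : f = fun _ => c := funext hc
    rw [this]; exact tendsto_const_nhds
  have : c = 0 := tendsto_nhds_unique h1 h0
  intro z; rw [hc z, this]

/-- Klein's `j`-invariant as a function on the upper half-plane. -/
noncomputable def J (z : ℍ) : ℂ := E₄ z ^ 3 / ModularForm.discriminant z

theorem E₄_smul (γ : SL(2, ℤ)) (z : ℍ) : E₄ (γ • z) = denom γ z ^ (4 : ℤ) * E₄ z := by
  have := SlashInvariantForm.slash_action_eqn'' E₄ (γ := (γ : GL (Fin 2) ℝ)) (Γ := 𝒮ℒ) ⟨γ, rfl⟩ z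
  simpa using this

theorem E₆_smul (γ : SL(2, ℤ)) (z : ℍ) : E₆ (γ • z) = denom γ z ^ (6 : ℤ) * E₆ z := by
  have := SlashInvariantForm.slash_action_eqn'' E₆ (γ := (γ : GL (Fin 2) ℝ)) (Γ := 𝒮ℒ) ⟨γ, rfl⟩ z
  simpa using this

theorem discriminant_smul (γ : SL(2, ℤ)) (z : ℍ) :
    ModularForm.discriminant (γ • z) = denom γ z ^ (12 : ℤ) * ModularForm.discriminant z := by
  have := SlashInvariantForm.slash_action_eqn'' CuspForm.discriminant
    (γ := (γ : GL (Fin 2) ℝ)) (Γ := 𝒮ℒ) ⟨γ, rfl⟩ z
  simpa using this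

theorem J_smul (γ : SL(2, ℤ)) (z : ℍ) : J (γ • z) = J z := by
  unfold J
  rw [E₄_smul, discriminant_smul]
  have hd : denom γ z ≠ 0 := denom_ne_zero γ z
  have hD := discriminant_ne_zero z
  field_simp

theorem J_sub_1728 (z : ℍ) : J z - 1728 = E₆ z ^ 2 / ModularForm.discriminant z := by
  unfold J
  have hD := discriminant_ne_zero z
  have h := discriminant_eq_E₄_cube_sub_E₆_sq z
  field_simp
  linear_combination (-1728 : ℂ) * h

theorem J_mul_discriminant (z : ℍ) : J z * ModularForm.discriminant z = E₄ z ^ 3 := by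
  unfold J
  exact div_mul_cancel₀ _ (discriminant_ne_zero z)

theorem mdifferentiable_J : MDiff J :=
  (E₄.holo'.pow 3).div CuspForm.discriminant.holo' discriminant_ne_zero

theorem tendsto_inv_J_sub (c : ℂ) : Tendsto (fun z => (J z - c)⁻¹) atImInfty (𝓝 0) := by
  have h1 : Tendsto (fun z : ℍ => ModularForm.discriminant z /
      (E₄ z ^ 3 - c * ModularForm.discriminant z)) atImInfty (𝓝 (0 / (1 ^ 3 - c * 0))) :=
    tendsto_discriminant.div ((tendsto_E₄.pow 3).sub (tendsto_discriminant.const_mul c))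
      (by norm_num)
  rw [zero_div] at h1
  refine h1.congr fun z => ?_
  unfold J
  have hD := discriminant_ne_zero z
  rw [div_sub' hD, inv_div]
  ring_nf

/-- The `j`-invariant takes every complex value. -/
theorem J_surjective : Function.Surjective J := by
  intro c
  by_contra hne
  push Not at hne
  have hne' : ∀ z, J z - c ≠ 0 := fun z => sub_ne_zero.mpr (hne z)
  have hol : MDiff (fun z => (J z - c)⁻¹) := by
    have h1 : MDiff (fun z => J z - c) := mdifferentiable_J.sub mdifferentiable_const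
    have h2 : MDiff (fun _ : ℍ => (1 : ℂ)) := mdifferentiable_const
    have h3 : (fun z => (J z - c)⁻¹) = (fun _ : ℍ => (1 : ℂ)) / (fun z => J z - c) := by
      funext z; simp [one_div]
    rw [h3]
    exact h2.div h1 hne'
  have := eq_zero_of_invariant_of_tendsto _ hol (fun γ z => by simp only [J_smul])
    (tendsto_inv_J_sub c) I
  exact inv_ne_zero (hne' I) this

end Fermat.Agent.S24_JBasic
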