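import Mathlib
import Fermat.Agent.S24_Defs
import Fermat.Agent.S24_JBasic

/-!
# S24_JFun (helper4): the analytic `j`-function

Interface module of the S24 project (statements fixed by the architect in `s24_iface`):
`jFun_mdiff`, `jFun_smul`, `jFun_surjective`, `jFun_I`, `jFun_rho`, `ST_smul_rho`,
`order_jFun_generic`, `order_jFun_I`, `order_jFun_rho`, `tendsto_q_mul_jFun`.

Method for the orders: `D j ⬝ Δ²` is a cusp form of weight `26`, so `D j ⬝ Δ` is a modular form
of weight `14`, and the space of those is spanned by `E₄² E₆` (`exists_const_DjFun`).  Together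
with `j ⬝ Δ = E₄³`, `(j - 1728) ⬝ Δ = E₆²` and `ord (f') + 1 = ord (f - f z₀)` this pins down the
orders of vanishing of `E₆` at `i` and `E₄` at `ρ` (both `1`), hence those of `j - j(z₀)`.
-/

set_option autoImplicit false

open UpperHalfPlane ModularForm ModularFormClass MatrixGroups EisensteinSeries Filter Topology
  Derivative Fermat.Agent.S24_Defs
open scoped Manifold Real

namespace Fermat.Agent.S24_JFun

open Fermat.Agent.S24_JBasic (mkLevelOne tendsto_coeff_zero tendsto_E₄ tendsto_E₆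
  tendsto_discriminant E₄_smul E₆_smul discriminant_smul)

theorem jFun_mdiff : MDiff jFun := Fermat.Agent.S24_JBasic.mdifferentiable_J

theorem jFun_smul (g : SL(2, ℤ)) (τ : ℍ) : jFun (g • τ) = jFun τ :=
  Fermat.Agent.S24_JBasic.J_smul g τ

theorem jFun_surjective : Function.Surjective jFun := Fermat.Agent.S24_JBasic.J_surjective

theorem jFun_mul_discriminant (z : ℍ) : jFun z * ModularForm.discriminant z = E₄ z ^ 3 :=
  Fermat.Agent.S24_JBasic.J_mul_discriminant z

theorem jFun_sub_1728 (z : ℍ) : jFun z - 1728 = E₆ z ^ 2 / ModularForm.discriminant z :=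
  Fermat.Agent.S24_JBasic.J_sub_1728 z

local notation "𝕢" => Function.Periodic.qParam

theorem hasDerivAt_qParam_one (z : ℂ) :
    HasDerivAt (𝕢 1) (2 * π * Complex.I * 𝕢 1 z) z := by
  unfold Function.Periodic.qParam
  have h1 : HasDerivAt (fun z : ℂ => 2 * π * Complex.I * z / (1 : ℝ)) (2 * π * Complex.I) z := by
    simpa using (hasDerivAt_id z).const_mul (2 * π * Complex.I)
  exact h1.cexp.congr_deriv (by ring)

/-- `D f = q ⬝ F'(q)` where `F` is the cusp function of the level-one modular form `f`. -/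
theorem D_eq_qParam_mul_deriv_cuspFunction {k : ℤ} {F : Type*} [FunLike F ℍ ℂ]
    [ModularFormClass F 𝒮ℒ k] (f : F) (z : ℍ) :
    D f z = 𝕢 1 z * deriv (cuspFunction 1 f) (𝕢 1 z) := by
  have hq : ‖𝕢 1 (z : ℂ)‖ < 1 := Function.Periodic.norm_qParam_lt_one one_pos z.im_pos
  have hF : DifferentiableAt ℂ (cuspFunction 1 f) (𝕢 1 z) :=
    ModularFormClass.differentiableAt_cuspFunction f one_pos one_mem_strictPeriods_SL hq
  have hcomp : HasDerivAt (cuspFunction 1 f ∘ 𝕢 1)
      (deriv (cuspFunction 1 f) (𝕢 1 z) * (2 * π * Complex.I * 𝕢 1 z)) z :=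
    hF.hasDerivAt.comp (z : ℂ) (hasDerivAt_qParam_one z)
  have heq : (f ∘ ofComplex) =ᶠ[𝓝 (z : ℂ)] (cuspFunction 1 f ∘ 𝕢 1) := by
    filter_upwards [isOpen_upperHalfPlaneSet.mem_nhds z.im_pos] with w hw
    have := SlashInvariantFormClass.eq_cuspFunction f ⟨w, hw⟩ one_mem_strictPeriods_SL one_ne_zero
    simp only [Function.comp_apply, ofComplex_apply_of_im_pos hw]
    exact this.symm
  have hd : deriv (f ∘ ofComplex) z = deriv (cuspFunction 1 f) (𝕢 1 z)
      * (2 * π * Complex.I * 𝕢 1 z) := by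
    rw [heq.deriv_eq]; exact hcomp.deriv
  unfold normalizedDerivOfComplex
  rw [hd]
  have hpi : (2 * π * Complex.I : ℂ) ≠ 0 := by
    simp [Real.pi_ne_zero]
  field_simp

/-- `D f → 0` at `i∞` for a level-one modular form `f`. -/
theorem tendsto_D_zero {k : ℤ} {F : Type*} [FunLike F ℍ ℂ]
    [ModularFormClass F 𝒮ℒ k] (f : F) : Tendsto (D f) atImInfty (𝓝 0) := by
  have hanal := ModularFormClass.analyticAt_cuspFunction_zero f one_pos one_mem_strictPeriods_SL
  have hq : Tendsto (fun τ : ℍ => 𝕢 1 τ) atImInfty (𝓝 0) := qParam_tendsto_atImInfty one_pos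
  have h1 : Tendsto (fun τ : ℍ => deriv (cuspFunction 1 f) (𝕢 1 τ)) atImInfty
      (𝓝 (deriv (cuspFunction 1 f) 0)) := hanal.deriv.continuousAt.tendsto.comp hq
  have h2 := hq.mul h1
  rw [zero_mul] at h2
  exact h2.congr fun z => (D_eq_qParam_mul_deriv_cuspFunction f z).symm

local notation "Δ" => ModularForm.discriminant

theorem mdifferentiable_discriminant : MDiff Δ := CuspForm.discriminant.holo'

theorem mdifferentiable_DjFun : MDiff (D jFun) := normalizedDerivOfComplex_mdifferentiable jFun_mdiff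

/-- `D jFun` transforms with weight `2`. -/
theorem DjFun_smul (γ : SL(2, ℤ)) (z : ℍ) : D jFun (γ • z) = denom γ z ^ (2 : ℤ) * D jFun z := by
  have h1 : (jFun ∣[(0 : ℤ)] γ) = jFun := by
    funext w
    rw [SL_slash_apply, jFun_smul]
    simp
  have h2 := normalizedDerivOfComplex_SL_slash (k := 0) (F := jFun) jFun_mdiff (γ := γ)
  rw [h1] at h2
  have h3 := congrFun h2 z
  simp only [Pi.sub_apply, Int.cast_zero, zero_mul, sub_zero, zero_add] at h3
  rw [SL_slash_apply] at h3
  have hd : denom γ z ≠ 0 := denom_ne_zero γ z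
  rw [h3, zpow_neg]
  field_simp

/-- The quotient rule for `J = E₄³/Δ`, cleared of denominators. -/
theorem DjFun_mul_discriminant_sq (z : ℍ) :
    D jFun z * Δ z ^ 2 = 3 * E₄ z ^ 2 * D E₄ z * Δ z - E₄ z ^ 3 * D Δ z := by
  have h1 : jFun * Δ = (⇑E₄) ^ 3 := by
    funext w
    simp only [Pi.mul_apply, Pi.pow_apply]
    exact jFun_mul_discriminant w
  have h2 := normalizedDerivOfComplex_mul jFun Δ jFun_mdiff mdifferentiable_discriminant
  rw [h1, normalizedDerivOfComplex_pow _ 3 (ModularFormClass.holo E₄)] at h2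
  have h3 := congrFun h2 z
  simp only [Pi.mul_apply, Pi.pow_apply, Pi.add_apply] at h3
  have h4 := jFun_mul_discriminant z
  have h5 : ((3 : ℕ) : ℍ → ℂ) z = 3 := rfl
  rw [h5] at h3
  norm_num at h3
  linear_combination (-Δ z) * h3 - (D Δ z) * h4

theorem tendsto_DjFun_mul_discriminant_sq :
    Tendsto (fun z => D jFun z * Δ z ^ 2) atImInfty (𝓝 0) := by
  have h1 : Tendsto (fun z : ℍ => 3 * E₄ z ^ 2 * D E₄ z * Δ z - E₄ z ^ 3 * D Δ z) atImInfty
      (𝓝 (3 * 1 ^ 2 * 0 * 0 - 1 ^ 3 * 0)) :=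
    (((tendsto_E₄.pow 2).const_mul 3).mul (tendsto_D_zero E₄)).mul tendsto_discriminant |>.sub
      ((tendsto_E₄.pow 3).mul (tendsto_D_zero CuspForm.discriminant))
  simp only [mul_zero, sub_zero] at h1
  exact h1.congr fun z => (DjFun_mul_discriminant_sq z).symm

/-- The weight `26` cusp form `D jFun ⬝ Δ²`. -/
noncomputable def cuspDJ : CuspForm 𝒮ℒ 26 :=
  let G : ModularForm 𝒮ℒ 26 := mkLevelOne 26 (fun z => D jFun z * Δ z ^ 2)
    (mdifferentiable_DjFun.mul (mdifferentiable_discriminant.pow 2))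
    (fun γ z => by
      rw [DjFun_smul, discriminant_smul]
      have hd : denom γ z ≠ 0 := denom_ne_zero γ z
      rw [mul_pow, ← zpow_natCast (denom γ z ^ (12 : ℤ)) 2, ← zpow_mul,
        show (26 : ℤ) = 2 + 12 * ((2 : ℕ) : ℤ) by norm_num, zpow_add₀ hd]
      ring)
    (tendsto_DjFun_mul_discriminant_sq.isBigO_one ℝ)
  ModularForm.toCuspForm G (by
    have h1 := tendsto_coeff_zero G
    have h2 : Tendsto G atImInfty (𝓝 0) := tendsto_DjFun_mul_discriminant_sq
    exact tendsto_nhds_unique h1 h2)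

theorem cuspDJ_apply (z : ℍ) : cuspDJ z = D jFun z * Δ z ^ 2 := rfl

/-- The weight `14` modular form `D jFun ⬝ Δ`. -/
noncomputable def formDJ : ModularForm 𝒮ℒ 14 :=
  ModularForm.mcast (by norm_num) (CuspForm.discriminantEquiv cuspDJ)

theorem formDJ_apply (z : ℍ) : formDJ z = D jFun z * Δ z := by
  change (CuspForm.discriminantEquiv cuspDJ) z = _
  rw [CuspForm.discriminantEquiv_apply, cuspDJ_apply]
  have := discriminant_ne_zero z
  field_simp

/-- The weight `14` modular form `E₄² E₆`. -/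
noncomputable def formE14 : ModularForm 𝒮ℒ 14 :=
  ModularForm.mcast (by norm_num) ((E₄.mul E₄).mul E₆)

theorem formE14_apply (z : ℍ) : formE14 z = E₄ z ^ 2 * E₆ z := by
  change (E₄ z * E₄ z) * E₆ z = _
  ring

theorem isPreconnected_upperHalfPlaneSet : IsPreconnected upperHalfPlaneSet :=
  (Complex.isConnected_of_upperHalfPlane subset_rfl (by grind)).isPreconnected

theorem differentiableOn_jFun : DifferentiableOn ℂ (jFun ∘ ofComplex) upperHalfPlaneSet :=
  UpperHalfPlane.mdifferentiable_iff.mp jFun_mdiff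

/-- The key identity: `D j ⬝ Δ = C ⬝ E₄² E₆` with a nonzero constant `C` (in fact `C = -1`). -/
theorem exists_const_DjFun :
    ∃ C : ℂ, C ≠ 0 ∧ ∀ z : ℍ, D jFun z * Δ z = C * (E₄ z ^ 2 * E₆ z) := by
  have hr : Module.rank ℂ (ModularForm 𝒮ℒ 14) = 1 := by
    have := dimension_level_one 14 (by decide)
    simpa [Nat.ModEq] using this
  have hfin : Module.finrank ℂ (ModularForm 𝒮ℒ 14) = 1 :=
    Module.rank_eq_one_iff_finrank_eq_one.mp hr
  obtain ⟨z₁, hz₁⟩ := jFun_surjective 1
  have hE4 : E₄ z₁ ≠ 0 := by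
    intro h0
    have := jFun_mul_discriminant z₁
    rw [hz₁, h0] at this
    simp at this
    exact discriminant_ne_zero z₁ this
  have hE6 : E₆ z₁ ≠ 0 := by
    intro h0
    have := jFun_sub_1728 z₁
    rw [hz₁, h0] at this
    norm_num at this
  have hne : formE14 ≠ 0 := by
    intro h0
    have h1 : formE14 z₁ = 0 := by rw [h0]; rfl
    rw [formE14_apply] at h1
    exact mul_ne_zero (pow_ne_zero 2 hE4) hE6 h1
  obtain ⟨c, hc⟩ := (finrank_eq_one_iff_of_nonzero' formE14 hne).mp hfin formDJ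
  have hcz : ∀ z, D jFun z * Δ z = c * (E₄ z ^ 2 * E₆ z) := fun z => by
    rw [← formDJ_apply, ← formE14_apply, ← hc]
    rfl
  refine ⟨c, ?_, hcz⟩
  rintro rfl
  have hD0 : ∀ z ∈ upperHalfPlaneSet, deriv (jFun ∘ ofComplex) z = 0 := by
    intro z hz
    have h1 := hcz ⟨z, hz⟩
    rw [zero_mul] at h1
    have h2 : D jFun ⟨z, hz⟩ = 0 := by
      rcases mul_eq_zero.mp h1 with h | h
      · exact h
      · exact absurd h (discriminant_ne_zero _)
    unfold normalizedDerivOfComplex at h2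
    have hpi : (2 * π * Complex.I : ℂ)⁻¹ ≠ 0 := by
      simp [Real.pi_ne_zero]
    rcases mul_eq_zero.mp h2 with h | h
    · exact absurd h hpi
    · exact h
  obtain ⟨z₀, hz₀⟩ := jFun_surjective 0
  have := isOpen_upperHalfPlaneSet.is_const_of_deriv_eq_zero isPreconnected_upperHalfPlaneSet
    differentiableOn_jFun hD0 z₁.im_pos z₀.im_pos
  simp only [Function.comp_apply, ofComplex_apply] at this
  rw [hz₁, hz₀] at this
  exact one_ne_zero this

/-! ### The elliptic points `i` and `ρ` -/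

theorem S_smul_I : ModularGroup.S • UpperHalfPlane.I = UpperHalfPlane.I := by
  apply UpperHalfPlane.ext
  rw [UpperHalfPlane.modular_S_smul]
  simp

theorem E₆_I : E₆ UpperHalfPlane.I = 0 := by
  have h := E₆_smul ModularGroup.S UpperHalfPlane.I
  rw [S_smul_I, ModularGroup.denom_S] at h
  have hI6 : (Complex.I : ℂ) ^ (6 : ℤ) = -1 := by
    have : (Complex.I : ℂ) ^ (6 : ℕ) = (Complex.I ^ 2) ^ 3 := by ring
    rw [show (6 : ℤ) = ((6 : ℕ) : ℤ) by norm_num, zpow_natCast, this, Complex.I_sq]; norm_num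
  have hc : ((UpperHalfPlane.I : ℍ) : ℂ) = Complex.I := rfl
  rw [hc, hI6] at h
  have h2 : (2 : ℂ) * E₆ UpperHalfPlane.I = 0 := by linear_combination h
  simpa using h2

theorem jFun_I : jFun UpperHalfPlane.I = 1728 := by
  have := jFun_sub_1728 UpperHalfPlane.I
  rw [E₆_I] at this
  simp at this
  exact sub_eq_zero.mp this

theorem sqrt_three_sq : ((Real.sqrt 3 : ℝ) : ℂ) ^ 2 = 3 := by
  rw [← Complex.ofReal_pow, Real.sq_sqrt (by norm_num)]; norm_num

theorem coe_rho : ((rho : ℍ) : ℂ) = (-1 / 2 : ℂ) + (Real.sqrt 3 / 2 : ℝ) * Complex.I := rfl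

theorem rho_sq_add : ((rho : ℍ) : ℂ) ^ 2 + (rho : ℂ) + 1 = 0 := by
  rw [coe_rho]
  push_cast
  linear_combination (((Real.sqrt 3 : ℝ) : ℂ) ^ 2 / 4) * Complex.I_sq - (1 / 4 : ℂ) * sqrt_three_sq

theorem ST_coe : ((ModularGroup.S * ModularGroup.T : SL(2, ℤ)) : Matrix (Fin 2) (Fin 2) ℤ)
    = !![0, -1; 1, 1] := by
  rw [Matrix.SpecialLinearGroup.coe_mul, ModularGroup.coe_S, ModularGroup.coe_T]
  ext i j
  fin_cases i <;> fin_cases j <;> simp [Matrix.mul_apply, Fin.sum_univ_two]

theorem ST_00 : (ModularGroup.S * ModularGroup.T) 0 0 = 0 := by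
  have := congrFun (congrFun ST_coe 0) 0
  simpa using this

theorem ST_01 : (ModularGroup.S * ModularGroup.T) 0 1 = -1 := by
  have := congrFun (congrFun ST_coe 0) 1
  simpa using this

theorem ST_10 : (ModularGroup.S * ModularGroup.T) 1 0 = 1 := by
  have := congrFun (congrFun ST_coe 1) 0
  simpa using this

theorem ST_11 : (ModularGroup.S * ModularGroup.T) 1 1 = 1 := by
  have := congrFun (congrFun ST_coe 1) 1
  simpa using this

theorem ST_smul_rho : (ModularGroup.S * ModularGroup.T) • rho = rho := by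
  apply UpperHalfPlane.ext
  rw [coe_specialLinearGroup_apply, ST_10, ST_11, ST_00, ST_01]
  have h := rho_sq_add
  have hne : ((rho : ℍ) : ℂ) + 1 ≠ 0 := by
    intro h0
    have : ((rho : ℍ) : ℂ) ^ 2 = 0 := by linear_combination h - h0
    have h1 : ((rho : ℍ) : ℂ) = 0 := pow_eq_zero_iff (by norm_num) |>.mp this
    rw [h1] at h0
    norm_num at h0
  simp only [algebraMap_int_eq, eq_intCast, Int.cast_zero, Int.cast_neg, Int.cast_one,
    Complex.ofReal_zero, Complex.ofReal_neg, Complex.ofReal_one, zero_mul, zero_add, one_mul]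
  rw [div_eq_iff hne]
  linear_combination -h

theorem denom_ST_rho :
    denom (ModularGroup.S * ModularGroup.T : SL(2, ℤ)) rho = (rho : ℂ) + 1 := by
  have := ModularGroup.denom_apply (ModularGroup.S * ModularGroup.T) rho
  rw [ST_10, ST_11] at this
  simpa using this

theorem E₄_rho : E₄ rho = 0 := by
  have h := E₄_smul (ModularGroup.S * ModularGroup.T) rho
  rw [ST_smul_rho, denom_ST_rho] at h
  have hr := rho_sq_add
  have h4 : ((rho : ℂ) + 1) ^ (4 : ℤ) = -(rho : ℂ) - 1 := by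
    rw [show (4 : ℤ) = ((4 : ℕ) : ℤ) by norm_num, zpow_natCast]
    linear_combination ((rho : ℂ) ^ 2 + 3 * (rho : ℂ) + 2) * hr
  rw [h4] at h
  have h5 : ((rho : ℂ) + 2) * E₄ rho = 0 := by linear_combination h
  rcases mul_eq_zero.mp h5 with h0 | h0
  · exfalso
    have him := congrArg Complex.im h0
    rw [coe_rho] at him
    simp at him
  · exact h0

theorem jFun_rho : jFun rho = 0 := by
  have := jFun_mul_discriminant rho
  rw [E₄_rho] at this
  simp at this
  rcases this with h | h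
  · exact h
  · exact absurd h (discriminant_ne_zero rho)

/-! ### Orders of vanishing -/

theorem analyticAt_comp_ofComplex {f : ℍ → ℂ} (hf : MDiff f) (τ : ℍ) :
    AnalyticAt ℂ (f ∘ ofComplex) (τ : ℂ) :=
  (UpperHalfPlane.mdifferentiable_iff.mp hf).analyticOnNhd isOpen_upperHalfPlaneSet τ τ.im_pos

theorem analyticOnNhd_comp_ofComplex {f : ℍ → ℂ} (hf : MDiff f) :
    AnalyticOnNhd ℂ (f ∘ ofComplex) upperHalfPlaneSet :=
  (UpperHalfPlane.mdifferentiable_iff.mp hf).analyticOnNhd isOpen_upperHalfPlaneSet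

theorem mdifferentiable_E₄ : MDiff (⇑E₄) := ModularFormClass.holo E₄

theorem mdifferentiable_E₆ : MDiff (⇑E₆) := ModularFormClass.holo E₆

/-- The key identity in terms of the complex derivative. -/
theorem exists_const_deriv_jFun : ∃ C : ℂ, C ≠ 0 ∧ ∀ w : ℂ, 0 < w.im →
    deriv (jFun ∘ ofComplex) w * (Δ ∘ ofComplex) w
      = C * ((E₄ ∘ ofComplex) w ^ 2 * (E₆ ∘ ofComplex) w) := by
  obtain ⟨C, hC, h⟩ := exists_const_DjFun
  have hpi : (2 * π * Complex.I : ℂ) ≠ 0 := by simp [Real.pi_ne_zero]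
  refine ⟨2 * π * Complex.I * C, mul_ne_zero hpi hC, fun w hw => ?_⟩
  have h1 := h ⟨w, hw⟩
  unfold normalizedDerivOfComplex at h1
  simp only [Function.comp_apply, ofComplex_apply_of_im_pos hw]
  have h2 : ((⟨w, hw⟩ : ℍ) : ℂ) = w := rfl
  rw [h2] at h1
  have h3 : deriv (jFun ∘ ofComplex) w * Δ ⟨w, hw⟩ = (2 * π * Complex.I) *
      ((2 * π * Complex.I)⁻¹ * deriv (jFun ∘ ofComplex) w * Δ ⟨w, hw⟩) := by
    field_simp
  rw [h3, h1]
  ring

theorem order_discriminant (τ : ℍ) : analyticOrderAt (Δ ∘ ofComplex) (τ : ℂ) = 0 := by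
  rw [(analyticAt_comp_ofComplex mdifferentiable_discriminant τ).analyticOrderAt_eq_zero]
  simp only [Function.comp_apply, ofComplex_apply]
  exact discriminant_ne_zero τ

theorem order_deriv_jFun (τ : ℍ) :
    analyticOrderAt (deriv (jFun ∘ ofComplex)) (τ : ℂ)
      = 2 • analyticOrderAt (E₄ ∘ ofComplex) (τ : ℂ) + analyticOrderAt (E₆ ∘ ofComplex) (τ : ℂ) := by
  obtain ⟨C, hC, h⟩ := exists_const_deriv_jFun
  have hj := analyticAt_comp_ofComplex jFun_mdiff τ
  have hd := analyticAt_comp_ofComplex mdifferentiable_discriminant τ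
  have h4 := analyticAt_comp_ofComplex mdifferentiable_E₄ τ
  have h6 := analyticAt_comp_ofComplex mdifferentiable_E₆ τ
  have hev : (deriv (jFun ∘ ofComplex) * (Δ ∘ ofComplex))
      =ᶠ[𝓝 (τ : ℂ)] ((fun _ => C) * ((E₄ ∘ ofComplex) ^ 2 * (E₆ ∘ ofComplex))) := by
    filter_upwards [isOpen_upperHalfPlaneSet.mem_nhds τ.im_pos] with w hw
    exact h w hw
  have e1 := analyticOrderAt_congr hev
  rw [analyticOrderAt_mul hj.deriv hd, order_discriminant, add_zero,
    analyticOrderAt_mul analyticAt_const ((h4.pow 2).mul h6),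
    analyticOrderAt_mul (h4.pow 2) h6, analyticOrderAt_pow h4] at e1
  have hc0 : analyticOrderAt (fun _ : ℂ => C) (τ : ℂ) = 0 := by
    rw [analyticAt_const.analyticOrderAt_eq_zero]; exact hC
  rw [hc0, zero_add] at e1
  exact e1

theorem order_jFun_sub_1728 (τ : ℍ) :
    analyticOrderAt (fun w : ℂ => jFun (ofComplex w) - 1728) (τ : ℂ)
      = 2 • analyticOrderAt (E₆ ∘ ofComplex) (τ : ℂ) := by
  have hj := analyticAt_comp_ofComplex jFun_mdiff τ
  have hd := analyticAt_comp_ofComplex mdifferentiable_discriminant τ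
  have h6 := analyticAt_comp_ofComplex mdifferentiable_E₆ τ
  have hj' : AnalyticAt ℂ (fun w : ℂ => jFun (ofComplex w) - 1728) (τ : ℂ) :=
    hj.sub analyticAt_const
  have hev : ((fun w : ℂ => jFun (ofComplex w) - 1728) * (Δ ∘ ofComplex))
      =ᶠ[𝓝 (τ : ℂ)] ((E₆ ∘ ofComplex) ^ 2) := by
    filter_upwards [isOpen_upperHalfPlaneSet.mem_nhds τ.im_pos] with w hw
    simp only [Pi.mul_apply, Pi.pow_apply, Function.comp_apply]
    rw [jFun_sub_1728]
    exact div_mul_cancel₀ _ (discriminant_ne_zero _)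
  have e1 := analyticOrderAt_congr hev
  rw [analyticOrderAt_mul hj' hd, order_discriminant, add_zero, analyticOrderAt_pow h6] at e1
  exact e1

theorem order_jFun_comp (τ : ℍ) :
    analyticOrderAt (fun w : ℂ => jFun (ofComplex w)) (τ : ℂ)
      = 3 • analyticOrderAt (E₄ ∘ ofComplex) (τ : ℂ) := by
  have hj := analyticAt_comp_ofComplex jFun_mdiff τ
  have hd := analyticAt_comp_ofComplex mdifferentiable_discriminant τ
  have h4 := analyticAt_comp_ofComplex mdifferentiable_E₄ τ
  have hev : ((jFun ∘ ofComplex) * (Δ ∘ ofComplex))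
      =ᶠ[𝓝 (τ : ℂ)] ((E₄ ∘ ofComplex) ^ 3) := by
    filter_upwards [isOpen_upperHalfPlaneSet.mem_nhds τ.im_pos] with w hw
    simp only [Pi.mul_apply, Pi.pow_apply, Function.comp_apply]
    exact jFun_mul_discriminant _
  have e1 := analyticOrderAt_congr hev
  rw [analyticOrderAt_mul hj hd, order_discriminant, add_zero, analyticOrderAt_pow h4] at e1
  exact e1

theorem exists_E₄_E₆_ne_zero : ∃ z : ℍ, E₄ z ≠ 0 ∧ E₆ z ≠ 0 := by
  obtain ⟨z₁, hz₁⟩ := jFun_surjective 1
  refine ⟨z₁, ?_, ?_⟩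
  · intro h0
    have := jFun_mul_discriminant z₁
    rw [hz₁, h0] at this
    simp at this
    exact discriminant_ne_zero z₁ this
  · intro h0
    have := jFun_sub_1728 z₁
    rw [hz₁, h0] at this
    norm_num at this

theorem order_E₄_ne_top (τ : ℍ) : analyticOrderAt (E₄ ∘ ofComplex) (τ : ℂ) ≠ ⊤ := by
  obtain ⟨z₁, h4, -⟩ := exists_E₄_E₆_ne_zero
  refine (analyticOnNhd_comp_ofComplex mdifferentiable_E₄).analyticOrderAt_ne_top_of_isPreconnected
    isPreconnected_upperHalfPlaneSet z₁.im_pos τ.im_pos ?_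
  have : analyticOrderAt (E₄ ∘ ofComplex) (z₁ : ℂ) = 0 := by
    rw [(analyticAt_comp_ofComplex mdifferentiable_E₄ z₁).analyticOrderAt_eq_zero,
      Function.comp_apply, ofComplex_apply]
    exact h4
  rw [this]; simp

theorem order_E₆_ne_top (τ : ℍ) : analyticOrderAt (E₆ ∘ ofComplex) (τ : ℂ) ≠ ⊤ := by
  obtain ⟨z₁, -, h6⟩ := exists_E₄_E₆_ne_zero
  refine (analyticOnNhd_comp_ofComplex mdifferentiable_E₆).analyticOrderAt_ne_top_of_isPreconnected
    isPreconnected_upperHalfPlaneSet z₁.im_pos τ.im_pos ?_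
  have : analyticOrderAt (E₆ ∘ ofComplex) (z₁ : ℂ) = 0 := by
    rw [(analyticAt_comp_ofComplex mdifferentiable_E₆ z₁).analyticOrderAt_eq_zero,
      Function.comp_apply, ofComplex_apply]
    exact h6
  rw [this]; simp

theorem order_deriv_add_one (τ : ℍ) :
    analyticOrderAt (deriv (jFun ∘ ofComplex)) (τ : ℂ) + 1
      = analyticOrderAt (fun w : ℂ => jFun (ofComplex w) - jFun τ) (τ : ℂ) := by
  have := (analyticAt_comp_ofComplex jFun_mdiff τ).analyticOrderAt_deriv_add_one
  simpa using this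

theorem order_jFun_generic (τ : ℍ) (h0 : jFun τ ≠ 0) (h1 : jFun τ ≠ 1728) :
    analyticOrderAt (fun z : ℂ => jFun (ofComplex z) - jFun τ) (τ : ℂ) = 1 := by
  have h4 : E₄ τ ≠ 0 := by
    intro h
    have := jFun_mul_discriminant τ
    rw [h] at this
    simp at this
    rcases this with h' | h'
    · exact h0 h'
    · exact discriminant_ne_zero τ h'
  have h6 : E₆ τ ≠ 0 := by
    intro h
    have := jFun_sub_1728 τ
    rw [h] at this
    simp at this
    exact h1 (sub_eq_zero.mp this)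
  have o4 : analyticOrderAt (E₄ ∘ ofComplex) (τ : ℂ) = 0 := by
    rw [(analyticAt_comp_ofComplex mdifferentiable_E₄ τ).analyticOrderAt_eq_zero,
      Function.comp_apply, ofComplex_apply]
    exact h4
  have o6 : analyticOrderAt (E₆ ∘ ofComplex) (τ : ℂ) = 0 := by
    rw [(analyticAt_comp_ofComplex mdifferentiable_E₆ τ).analyticOrderAt_eq_zero,
      Function.comp_apply, ofComplex_apply]
    exact h6
  rw [← order_deriv_add_one, order_deriv_jFun, o4, o6]
  simp

theorem order_jFun_I :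
    analyticOrderAt (fun z : ℂ => jFun (ofComplex z) - 1728) (UpperHalfPlane.I : ℂ) = 2 := by
  have h4 : E₄ UpperHalfPlane.I ≠ 0 := by
    intro h
    have := jFun_mul_discriminant UpperHalfPlane.I
    rw [h, jFun_I] at this
    simp at this
    exact discriminant_ne_zero _ this
  have o4 : analyticOrderAt (E₄ ∘ ofComplex) (UpperHalfPlane.I : ℂ) = 0 := by
    rw [(analyticAt_comp_ofComplex mdifferentiable_E₄ _).analyticOrderAt_eq_zero,
      Function.comp_apply, ofComplex_apply]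
    exact h4
  have e1 := order_deriv_add_one UpperHalfPlane.I
  rw [jFun_I, order_jFun_sub_1728, order_deriv_jFun, o4] at e1
  obtain ⟨m, hm⟩ := ENat.ne_top_iff_exists.mp (order_E₆_ne_top UpperHalfPlane.I)
  rw [order_jFun_sub_1728, ← hm]
  rw [← hm] at e1
  have e2 : 0 + m + 1 = 2 * m := by
    have : ((0 + m + 1 : ℕ) : ℕ∞) = ((2 * m : ℕ) : ℕ∞) := by
      push_cast
      simpa using e1
    exact_mod_cast this
  have hm1 : m = 1 := by omega
  subst hm1
  simp

theorem order_jFun_rho :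
    analyticOrderAt (fun z : ℂ => jFun (ofComplex z)) (rho : ℂ) = 3 := by
  have h6 : E₆ rho ≠ 0 := by
    intro h
    have := jFun_sub_1728 rho
    rw [h, jFun_rho] at this
    norm_num at this
  have o6 : analyticOrderAt (E₆ ∘ ofComplex) (rho : ℂ) = 0 := by
    rw [(analyticAt_comp_ofComplex mdifferentiable_E₆ _).analyticOrderAt_eq_zero,
      Function.comp_apply, ofComplex_apply]
    exact h6
  have e1 := order_deriv_add_one rho
  rw [jFun_rho] at e1
  simp only [sub_zero] at e1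
  rw [order_jFun_comp, order_deriv_jFun, o6] at e1
  obtain ⟨m, hm⟩ := ENat.ne_top_iff_exists.mp (order_E₄_ne_top rho)
  rw [order_jFun_comp, ← hm]
  rw [← hm] at e1
  have e2 : 2 * m + 0 + 1 = 3 * m := by
    have : ((2 * m + 0 + 1 : ℕ) : ℕ∞) = ((3 * m : ℕ) : ℕ∞) := by
      push_cast
      simpa using e1
    exact_mod_cast this
  have hm1 : m = 1 := by omega
  subst hm1
  simp

/-! ### Behaviour at the cusp -/

/-- `q ⬝ j → 1` at `i∞`. -/
theorem tendsto_q_mul_jFun :
    Filter.Tendsto (fun τ : ℍ => Function.Periodic.qParam 1 τ * jFun τ) atImInfty (𝓝 1) := by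
  have hP : Tendsto (fun x : ℍ ↦ ∏' (n : ℕ), (1 - eta_q n x) ^ 24) atImInfty (𝓝 1) :=
    tendsto_atImInfty_tprod_one_sub_eta_q_pow
  have h1 : Tendsto (fun τ : ℍ => E₄ τ ^ 3 / ∏' (n : ℕ), (1 - eta_q n τ) ^ 24) atImInfty
      (𝓝 (1 ^ 3 / 1)) := (tendsto_E₄.pow 3).div hP one_ne_zero
  rw [one_pow, div_one] at h1
  refine h1.congr fun τ => ?_
  have hq : 𝕢 1 (τ : ℂ) ≠ 0 := Function.Periodic.qParam_ne_zero _
  have hD := discriminant_ne_zero τ
  have hprod := discriminant_eq_q_prod τ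
  have hP0 : ∏' (n : ℕ), (1 - eta_q n τ) ^ 24 ≠ 0 := by
    intro h0
    rw [h0, mul_zero] at hprod
    exact hD hprod
  unfold jFun
  rw [hprod]
  field_simp

end Fermat.Agent.S24_JFun
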