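import Fermat.Agent.S24_Defs
import Fermat.Agent.S24_JFun
set_option autoImplicit false
noncomputable section
open Fermat.Agent.S24_Defs ModularCurve AlgebraicCurve UpperHalfPlane IntermediateField
open scoped MatrixGroups ModularForm Manifold Topology

/-!
# S24_Hermite (helper1): coset dictionary

* `exists_upper_triangular`: `j(d · gτ) = j((aτ + b)/δ)` with `a δ = d` (Hermite normal form of
  `diag(d,1) · g`); the auxiliary version also records `a ∣ g 1 0`.
* `jS_smul_of_mem_Gamma0`: `τ ↦ j(dτ)` is `Γ₀(N)`-invariant for `d ∣ N`.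
* `mem_Gamma0_of_jS_eq`: conversely, invariance of `τ ↦ j(Nτ)` under `g` forces `g ∈ Γ₀(N)`
  (compare the growth along `τ = iy`, using `q · j → 1`).
-/

namespace Fermat.Agent.S24_Hermite

theorem coe_smul_int (g : SL(2, ℤ)) (z : ℍ) :
    ((g • z : ℍ) : ℂ) = ((g 0 0 : ℂ) * z + (g 0 1 : ℂ)) / ((g 1 0 : ℂ) * z + (g 1 1 : ℂ)) := by
  rw [coe_specialLinearGroup_apply]
  simp

theorem int_linear_ne_zero (c d : ℤ) (h : c ≠ 0 ∨ d ≠ 0) (z : ℍ) : (c : ℂ) * z + d ≠ 0 := by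
  intro h0
  have him := congrArg Complex.im h0
  simp at him
  rcases him with hc | hz
  · rcases h with h | h
    · exact h hc
    · rw [hc] at h0
      simp at h0
      exact h h0
  · exact z.im_ne_zero hz

theorem det_eq_one (g : SL(2, ℤ)) : g 0 0 * g 1 1 - g 0 1 * g 1 0 = 1 := by
  have := g.det_coe
  rw [Matrix.det_fin_two] at this
  exact this

theorem denom_ne_zero_int (g : SL(2, ℤ)) (z : ℍ) : (g 1 0 : ℂ) * z + (g 1 1 : ℂ) ≠ 0 := by
  apply int_linear_ne_zero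
  by_contra h
  push Not at h
  have := det_eq_one g
  rw [h.1, h.2] at this
  simp at this

theorem alg_num {K : Type*} [Field K] (x y d A B C D τ Z a : K) (hZ : Z ≠ 0)
    (hZdef : Z = C * τ + D) (hbez : a = d * A * x + C * y) :
    x * (d * ((A * τ + B) / Z)) + y = (a * τ + (x * (d * B) + y * D)) / Z := by
  rw [eq_div_iff hZ, add_mul, mul_assoc x, mul_assoc d, div_mul_cancel₀ _ hZ, hbez, hZdef]
  ring

theorem alg_den {K : Type*} [Field K] (p' r' d A B C D τ Z a δ : K) (hZ : Z ≠ 0)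
    (hZdef : Z = C * τ + D) (hp : d * A = a * p') (hr : C = a * r')
    (hδ : δ = p' * D - r' * (d * B)) :
    (-r') * (d * ((A * τ + B) / Z)) + p' = δ / Z := by
  rw [eq_div_iff hZ, add_mul, mul_assoc (-r'), mul_assoc d, div_mul_cancel₀ _ hZ, hδ, hZdef]
  linear_combination (-(r') * τ) * hp + (p' * τ) * hr

theorem exists_upper_triangular_aux (d : ℕ) (hd : d ≠ 0) (g : SL(2, ℤ)) :
    ∃ (a δ : ℕ) (b : ℤ), a * δ = d ∧ 0 < a ∧ 0 < δ ∧ (a : ℤ) ∣ g 1 0 ∧
      ∀ τ : ℍ, jS d (g • τ) = jFun (ofComplex (((a : ℂ) * τ + b) / δ)) := by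
  have hdet := det_eq_one g
  obtain ⟨p', hp'⟩ := Int.gcd_dvd_left ((d : ℤ) * g 0 0) (g 1 0)
  obtain ⟨r', hr'⟩ := Int.gcd_dvd_right ((d : ℤ) * g 0 0) (g 1 0)
  have hbez := Int.gcd_eq_gcd_ab ((d : ℤ) * g 0 0) (g 1 0)
  have ha0 : Int.gcd ((d : ℤ) * g 0 0) (g 1 0) ≠ 0 := by
    intro h
    rw [Int.gcd_eq_zero_iff] at h
    obtain ⟨h1, h2⟩ := h
    have hA0 : g 0 0 = 0 := by
      rcases mul_eq_zero.mp h1 with h | h
      · exact absurd (by exact_mod_cast h) hd
      · exact h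
    rw [hA0, h2] at hdet
    simp at hdet
  generalize Int.gcd ((d : ℤ) * g 0 0) (g 1 0) = a at hp' hr' hbez ha0
  generalize Int.gcdA ((d : ℤ) * g 0 0) (g 1 0) = x at hbez
  generalize Int.gcdB ((d : ℤ) * g 0 0) (g 1 0) = y at hbez
  have ha' : (a : ℤ) ≠ 0 := by exact_mod_cast ha0
  have hapos : (0 : ℤ) < a := by exact_mod_cast Nat.pos_of_ne_zero ha0
  have hbez' : p' * x + r' * y = 1 := by
    apply mul_left_cancel₀ ha'
    calc (a : ℤ) * (p' * x + r' * y) = (a * p') * x + (a * r') * y := by ring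
      _ = d * g 0 0 * x + g 1 0 * y := by rw [← hp', ← hr']
      _ = a * 1 := by rw [mul_one]; exact hbez.symm
  have haδ : (a : ℤ) * (p' * g 1 1 - r' * (d * g 0 1)) = d := by
    calc (a : ℤ) * (p' * g 1 1 - r' * (d * g 0 1))
        = (a * p') * g 1 1 - (a * r') * (d * g 0 1) := by ring
      _ = d * g 0 0 * g 1 1 - g 1 0 * (d * g 0 1) := by rw [← hp', ← hr']
      _ = d * (g 0 0 * g 1 1 - g 0 1 * g 1 0) := by ring
      _ = d := by rw [hdet, mul_one]
  have hδpos : 0 < p' * g 1 1 - r' * (d * g 0 1) := by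
    have hd' : (0 : ℤ) < d := by exact_mod_cast Nat.pos_of_ne_zero hd
    have h1 : 0 < (a : ℤ) * (p' * g 1 1 - r' * (d * g 0 1)) := by rw [haδ]; exact hd'
    exact (mul_pos_iff_of_pos_left hapos).mp h1
  obtain ⟨δ, hδ⟩ := Int.eq_ofNat_of_zero_le hδpos.le
  rw [hδ] at haδ hδpos
  let γ : SL(2, ℤ) := ⟨!![x, y; -r', p'], by rw [Matrix.det_fin_two_of]; linarith⟩
  refine ⟨a, δ, x * (d * g 0 1) + y * g 1 1, by exact_mod_cast haδ, Nat.pos_of_ne_zero ha0,
    by exact_mod_cast hδpos, ⟨r', hr'⟩, fun τ => ?_⟩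
  have hd1 : jS d (g • τ) = jFun (dmul d (g • τ)) := by simp [jS, hd]
  rw [hd1, ← Fermat.Agent.S24_JFun.jFun_smul γ (dmul d (g • τ))]
  congr 1
  rw [← UpperHalfPlane.ofComplex_apply (γ • dmul d (g • τ))]
  congr 1
  rw [coe_smul_int, coe_dmul hd, coe_smul_int]
  have hZ := denom_ne_zero_int g τ
  have hγ00 : γ 0 0 = x := rfl
  have hγ01 : γ 0 1 = y := rfl
  have hγ10 : γ 1 0 = -r' := rfl
  have hγ11 : γ 1 1 = p' := rfl
  rw [hγ00, hγ01, hγ10, hγ11]
  have hbezC : (a : ℂ) = d * g 0 0 * x + g 1 0 * y := by exact_mod_cast hbez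
  have hpC : (d : ℂ) * g 0 0 = a * p' := by exact_mod_cast hp'
  have hrC : (g 1 0 : ℂ) = a * r' := by exact_mod_cast hr'
  have hδC : (δ : ℂ) = p' * g 1 1 - r' * (d * g 0 1) := by exact_mod_cast hδ.symm
  have hδ0 : (δ : ℂ) ≠ 0 := by
    have : (δ : ℤ) ≠ 0 := hδpos.ne'
    exact_mod_cast this
  have hnum := alg_num (x : ℂ) y d (g 0 0) (g 0 1) (g 1 0) (g 1 1) τ _ a hZ rfl hbezC
  have hden := alg_den (p' : ℂ) r' d (g 0 0) (g 0 1) (g 1 0) (g 1 1) τ _ a δ hZ rfl hpC hrC hδC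
  push_cast
  rw [hnum, hden, div_div_div_cancel_right₀ hZ]

theorem exists_upper_triangular (d : ℕ) (hd : d ≠ 0) (g : SL(2, ℤ)) :
    ∃ (a δ : ℕ) (b : ℤ), a * δ = d ∧ 0 < a ∧ 0 < δ ∧
      ∀ τ : ℍ, jS d (g • τ) = jFun (ofComplex (((a : ℂ) * τ + b) / δ)) := by
  obtain ⟨a, δ, b, h1, h2, h3, -, h5⟩ := exists_upper_triangular_aux d hd g
  exact ⟨a, δ, b, h1, h2, h3, h5⟩

theorem jS_smul_of_mem_Gamma0 (N : ℕ) {d : ℕ} (hd : d ∣ N) (g : SL(2, ℤ))
    (hg : g ∈ CongruenceSubgroup.Gamma0 N) (τ : ℍ) : jS d (g • τ) = jS d τ := by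
  rcases eq_or_ne d 0 with rfl | hd0
  · simp [jS]
  · have hC : (N : ℤ) ∣ g 1 0 := by
      rw [CongruenceSubgroup.Gamma0_mem] at hg
      exact (CharP.intCast_eq_zero_iff (ZMod N) N (g 1 0)).mp hg
    obtain ⟨c', hc'⟩ : (d : ℤ) ∣ g 1 0 := (Int.natCast_dvd_natCast.mpr hd).trans hC
    have hdet := det_eq_one g
    let g' : SL(2, ℤ) := ⟨!![g 0 0, d * g 0 1; c', g 1 1], by
      rw [Matrix.det_fin_two_of]
      rw [hc'] at hdet
      linarith⟩
    have h1 : dmul d (g • τ) = g' • dmul d τ := by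
      apply UpperHalfPlane.ext
      rw [coe_smul_int, coe_dmul hd0, coe_smul_int, coe_dmul hd0]
      have hg00 : g' 0 0 = g 0 0 := rfl
      have hg01 : g' 0 1 = d * g 0 1 := rfl
      have hg10 : g' 1 0 = c' := rfl
      have hg11 : g' 1 1 = g 1 1 := rfl
      rw [hg00, hg01, hg10, hg11]
      have hZ := denom_ne_zero_int g τ
      have hcC : (g 1 0 : ℂ) = d * c' := by exact_mod_cast hc'
      have hZ' : (c' : ℂ) * (d * τ) + g 1 1 = g 1 0 * τ + g 1 1 := by rw [hcC]; ring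
      rw [hZ']
      push_cast
      field_simp
    simp only [jS, hd0, if_false]
    rw [h1, Fermat.Agent.S24_JFun.jFun_smul]

/-! ### Growth at `i∞` -/

theorem tendsto_norm_q_jFun {u : ℝ → ℍ}
    (hu : Filter.Tendsto (fun y => (u y).im) Filter.atTop Filter.atTop) :
    Filter.Tendsto (fun y => Real.exp (-2 * Real.pi * (u y).im) * ‖jFun (u y)‖)
      Filter.atTop (𝓝 1) := by
  have h1 : Filter.Tendsto u Filter.atTop atImInfty := by
    rw [atImInfty, Filter.tendsto_comap_iff]; exact hu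
  have h2 := (Fermat.Agent.S24_JFun.tendsto_q_mul_jFun.comp h1).norm
  simp only [norm_one] at h2
  refine h2.congr fun y => ?_
  simp [Function.comp, Function.Periodic.norm_qParam]

theorem eq_of_jFun_eq {c₁ c₂ : ℝ} {u v : ℝ → ℍ}
    (hu : ∀ y, (u y).im = c₁ * max y 1) (hv : ∀ y, (v y).im = c₂ * max y 1)
    (hc₁ : 0 < c₁) (hc₂ : 0 < c₂) (h : ∀ y, jFun (u y) = jFun (v y)) : c₁ = c₂ := by
  have hm : Filter.Tendsto (fun y : ℝ => max y 1) Filter.atTop Filter.atTop :=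
    Filter.tendsto_atTop_mono (fun y => le_max_left y 1) Filter.tendsto_id
  have hu' : Filter.Tendsto (fun y => (u y).im) Filter.atTop Filter.atTop := by
    simp_rw [hu]; exact hm.const_mul_atTop hc₁
  have hv' : Filter.Tendsto (fun y => (v y).im) Filter.atTop Filter.atTop := by
    simp_rw [hv]; exact hm.const_mul_atTop hc₂
  have T1 := tendsto_norm_q_jFun hu'
  have T2 := tendsto_norm_q_jFun hv'
  have T := T1.div T2 one_ne_zero
  rw [div_one] at T
  have hev : ∀ᶠ y in Filter.atTop, ‖jFun (u y)‖ ≠ 0 := by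
    filter_upwards [T1.eventually (lt_mem_nhds (by norm_num : (1 / 2 : ℝ) < 1))] with y hy h0
    rw [h0, mul_zero] at hy
    norm_num at hy
  have T' : Filter.Tendsto (fun y : ℝ => Real.exp (-2 * Real.pi * (c₁ - c₂) * max y 1))
      Filter.atTop (𝓝 1) := by
    refine T.congr' ?_
    filter_upwards [hev] with y hy
    simp only [Pi.div_apply]
    rw [← h y, hu, hv, mul_div_mul_right _ _ hy, ← Real.exp_sub]
    congr 1
    ring
  by_contra hne
  rcases lt_or_gt_of_ne hne with hlt | hgt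
  · -- c₁ < c₂: the exponent tends to +∞
    have hk : 0 < -2 * Real.pi * (c₁ - c₂) := by
      have := Real.pi_pos
      nlinarith
    have := Real.tendsto_exp_atTop.comp (hm.const_mul_atTop hk)
    exact not_tendsto_nhds_of_tendsto_atTop this 1 T'
  · have hk : -2 * Real.pi * (c₁ - c₂) < 0 := by
      have := Real.pi_pos
      nlinarith
    have := Real.tendsto_exp_atBot.comp (hm.const_mul_atTop_of_neg hk)
    have h01 := tendsto_nhds_unique this T'
    norm_num at h01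

theorem im_ofComplex_of_pos {w : ℂ} (hw : 0 < w.im) : (ofComplex w).im = w.im := by
  rw [ofComplex_apply_of_im_pos hw]
  rfl

theorem mem_Gamma0_of_jS_eq (N : ℕ) [NeZero N] (g : SL(2, ℤ))
    (h : ∀ τ : ℍ, jS N (g • τ) = jS N τ) : g ∈ CongruenceSubgroup.Gamma0 N := by
  have hN : N ≠ 0 := NeZero.ne N
  obtain ⟨a, δ, b, haδ, ha, hδ, hdvd, hτ⟩ := exists_upper_triangular_aux N hN g
  let pt : ℝ → ℍ := fun y => ⟨(max y 1 : ℝ) * Complex.I, by
    have : (0 : ℝ) < max y 1 := lt_max_of_lt_right one_pos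
    simp [this]⟩
  have hpt : ∀ y, ((pt y : ℍ) : ℂ) = (max y 1 : ℝ) * Complex.I := fun y => rfl
  let u : ℝ → ℍ := fun y => dmul N (pt y)
  let v : ℝ → ℍ := fun y => ofComplex (((a : ℂ) * (pt y) + b) / δ)
  have hu : ∀ y, (u y).im = (N : ℝ) * max y 1 := by
    intro y
    show ((dmul N (pt y) : ℍ) : ℂ).im = _
    rw [coe_dmul hN, hpt]
    simp
  have hv : ∀ y, (v y).im = ((a : ℝ) / δ) * max y 1 := by
    intro y
    have him : (((a : ℂ) * (pt y) + b) / δ).im = ((a : ℝ) / δ) * max y 1 := by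
      rw [hpt]
      simp [Complex.div_natCast_im]
      ring
    have hpos : 0 < (((a : ℂ) * (pt y) + b) / δ).im := by
      rw [him]
      have : (0 : ℝ) < max y 1 := lt_max_of_lt_right one_pos
      positivity
    show (ofComplex (((a : ℂ) * (pt y) + b) / δ)).im = _
    rw [im_ofComplex_of_pos hpos, him]
  have hj : ∀ y, jFun (u y) = jFun (v y) := by
    intro y
    have h1 := h (pt y)
    rw [hτ] at h1
    simp only [jS, hN, if_false] at h1
    exact h1.symm
  have hc : (N : ℝ) = (a : ℝ) / δ :=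
    eq_of_jFun_eq hu hv (by positivity) (by positivity) hj
  have hδ0 : (δ : ℝ) ≠ 0 := by positivity
  have h1 : (a : ℝ) = N * δ := by
    rw [hc]; field_simp
  have h2 : a = N * δ := by exact_mod_cast h1
  have h3 : δ = 1 := by
    have e : N * (δ * δ) = N * 1 := by rw [mul_one, ← mul_assoc, ← h2, haδ]
    exact Nat.eq_one_of_mul_eq_one_left (Nat.eq_of_mul_eq_mul_left (Nat.pos_of_ne_zero hN) e)
  have h4 : a = N := by rw [h2, h3, mul_one]
  rw [CongruenceSubgroup.Gamma0_mem]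
  exact (CharP.intCast_eq_zero_iff (ZMod N) N (g 1 0)).mpr (h4 ▸ hdvd)

end Fermat.Agent.S24_Hermite

end
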