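import Fermat.Agent.S24_Embed
import Fermat.Agent.S24_Hermite
set_option autoImplicit false
noncomputable section
open Fermat.Agent.S24_Defs Fermat.Agent.S24_Embed ModularCurve AlgebraicCurve UpperHalfPlane
  IntermediateField
open scoped MatrixGroups ModularForm Manifold Topology

/-!
# S24_IotaMem (helper1): `τ ↦ j(dτ)` is a nice function of level `N` for `d ∣ N`

Main statement: `Fermat.Agent.S24_Iota.jS_mem`.  Holomorphy is inherited from `jFun`; for the
translates use `S24_Hermite.exists_upper_triangular`: `j(d·gτ) = j((aτ+b)/δ)` with `aδ = d`, which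
is `N`-periodic because `δ ∣ N`, and `j((aτ+b)/δ)·q^a` is bounded at `i∞` because `q·j → 1`.
-/

namespace Fermat.Agent.S24_IotaMem

theorem mdiff_jS {d : ℕ} (hd : d ≠ 0) : MDiff (jS d) := by
  rw [UpperHalfPlane.mdifferentiable_iff]
  have hmaps : Set.MapsTo (fun z : ℂ => (d : ℂ) * z) upperHalfPlaneSet upperHalfPlaneSet := by
    intro z hz
    have hd' : (0 : ℝ) < d := by exact_mod_cast Nat.pos_of_ne_zero hd
    have : 0 < ((d : ℂ) * z).im := by
      simpa using mul_pos hd' hz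
    exact this
  have h1 : DifferentiableOn ℂ ((jFun ∘ ofComplex) ∘ fun z : ℂ => (d : ℂ) * z) upperHalfPlaneSet :=
    Fermat.Agent.S24_JFun.differentiableOn_jFun.comp (by fun_prop) hmaps
  refine h1.congr fun z hz => ?_
  have hz' : 0 < z.im := hz
  have hdz : 0 < ((d : ℂ) * z).im := hmaps hz
  simp only [Function.comp_apply, jS, hd, if_false]
  congr 1
  apply UpperHalfPlane.ext
  rw [coe_dmul hd, ofComplex_apply_of_im_pos hz', ofComplex_apply_of_im_pos hdz]

/-- Imaginary part of the affine point `(aτ + b)/δ`. -/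
theorem im_affine (a δ : ℕ) (b : ℤ) (τ : ℍ) :
    (((a : ℂ) * τ + b) / δ).im = (a : ℝ) / δ * τ.im := by
  simp [Complex.div_natCast_im]
  ring

theorem im_affine_pos {a δ : ℕ} (ha : 0 < a) (hδ : 0 < δ) (b : ℤ) (τ : ℍ) :
    0 < (((a : ℂ) * τ + b) / δ).im := by
  rw [im_affine]
  have := τ.im_pos
  positivity

theorem jFun_affine_periodic {a δ : ℕ} (ha : 0 < a) (hδ : 0 < δ) (b : ℤ) {N : ℕ} (hN : δ ∣ N)
    (τ : ℍ) :
    jFun (ofComplex (((a : ℂ) * (((N : ℝ) +ᵥ τ : ℍ) : ℂ) + b) / δ)) =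
      jFun (ofComplex (((a : ℂ) * τ + b) / δ)) := by
  obtain ⟨k, rfl⟩ := hN
  have h1 : ofComplex (((a : ℂ) * ((((δ * k : ℕ) : ℝ) +ᵥ τ : ℍ) : ℂ) + b) / δ) =
      ModularGroup.T ^ ((a * k : ℕ) : ℤ) • ofComplex (((a : ℂ) * τ + b) / δ) := by
    apply UpperHalfPlane.ext
    have key : ∀ w : ℂ, 0 < w.im → ((ofComplex w : ℍ) : ℂ) = w := fun w hw => by
      rw [ofComplex_apply_of_im_pos hw]
    have e1 := key _ (im_affine_pos ha hδ b (((δ * k : ℕ) : ℝ) +ᵥ τ))
    have e2 := key _ (im_affine_pos ha hδ b τ)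
    rw [modular_T_zpow_smul, e1]
    simp only [coe_vadd]
    rw [e2]
    have hδ0 : (δ : ℂ) ≠ 0 := by exact_mod_cast hδ.ne'
    push_cast
    field_simp
    ring
  rw [h1, Fermat.Agent.S24_JFun.jFun_smul]

theorem bounded_affine {a δ : ℕ} (ha : 0 < a) (hδ : 0 < δ) (b : ℤ) :
    IsBoundedAtImInfty (fun τ : ℍ =>
      jFun (ofComplex (((a : ℂ) * τ + b) / δ)) * (Function.Periodic.qParam 1 τ) ^ a) := by
  have hWim : ∀ τ : ℍ, (ofComplex (((a : ℂ) * τ + b) / δ)).im = (a : ℝ) / δ * τ.im := fun τ => by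
    rw [Fermat.Agent.S24_Hermite.im_ofComplex_of_pos (im_affine_pos ha hδ b τ), im_affine]
  have hWt : Filter.Tendsto (fun τ : ℍ => ofComplex (((a : ℂ) * τ + b) / δ)) atImInfty
      atImInfty := by
    rw [atImInfty, Filter.tendsto_comap_iff]
    have e : (UpperHalfPlane.im ∘ fun τ : ℍ => ofComplex (((a : ℂ) * τ + b) / δ)) =
        fun τ : ℍ => (a : ℝ) / δ * τ.im := funext hWim
    rw [e]
    exact (Filter.tendsto_comap).const_mul_atTop (by positivity)
  have h1 := (Fermat.Agent.S24_JFun.tendsto_q_mul_jFun.comp hWt).isBigO_one ℝ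
  refine Asymptotics.IsBigO.trans
    (Asymptotics.IsBigO.of_bound 1 (Filter.Eventually.of_forall fun τ => ?_)) h1
  simp only [Function.comp_apply, one_mul, norm_mul, norm_pow, Function.Periodic.norm_qParam,
    div_one]
  have e1 : ((ofComplex (((a : ℂ) * τ + b) / δ) : ℍ) : ℂ).im = (a : ℝ) / δ * (τ : ℂ).im :=
    hWim τ
  rw [mul_comm, ← Real.exp_nat_mul, e1]
  refine mul_le_mul_of_nonneg_right (Real.exp_le_exp.mpr ?_) (norm_nonneg _)
  have hτ : 0 < (τ : ℂ).im := τ.im_pos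
  have hδ1 : (1 : ℝ) ≤ δ := by exact_mod_cast hδ
  have ha0 : (0 : ℝ) < a := by exact_mod_cast ha
  have hle : (a : ℝ) / δ ≤ a := div_le_self ha0.le hδ1
  have hpi := Real.pi_pos
  have h2 : (a : ℝ) / δ * (τ : ℂ).im ≤ a * (τ : ℂ).im := mul_le_mul_of_nonneg_right hle hτ.le
  nlinarith

theorem isNice_jS (N : ℕ) [NeZero N] {d : ℕ} (hd : d ∣ N) : IsNice N (jS d) := by
  have hN : N ≠ 0 := NeZero.ne N
  have hd0 : d ≠ 0 := ne_zero_of_dvd_ne_zero hN hd
  refine ⟨mdiff_jS hd0, fun g => ?_⟩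
  obtain ⟨a, δ, b, haδ, ha, hδ, hτ⟩ := Fermat.Agent.S24_Hermite.exists_upper_triangular d hd0 g
  have hδN : δ ∣ N := (Dvd.intro_left a haδ).trans hd
  refine ⟨fun τ => ?_, a, ?_⟩
  · rw [hτ, hτ]
    exact jFun_affine_periodic ha hδ b hδN τ
  · have := bounded_affine ha hδ b
    simp_rw [hτ]
    exact this

end Fermat.Agent.S24_IotaMem

namespace Fermat.Agent.S24_Iota

/-- `τ ↦ j(dτ)` is a nice function of level `N` for `d ∣ N`. -/
theorem jS_mem (N : ℕ) [NeZero N] {d : ℕ} (hd : d ∣ N) : jS d ∈ AN N :=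
  Fermat.Agent.S24_IotaMem.isNice_jS N hd

end Fermat.Agent.S24_Iota

end
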