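import Fermat.Agent.S24_DegreeOf
import Fermat.Agent.S24_Hermite
import Fermat.Agent.S24_IotaMem

/-!
# S24_Degree (helper9): `j` is transcendental and `[F : ℚ̄(j)] = [SL₂(ℤ) : Γ₀(N)]`

The proofs are in `S24_DegreeOf.lean` (relative to the analytic inputs `Inputs N`); here the
inputs are supplied from `S24_Hermite` (coset dictionary) and `S24_IotaMem` (`jS d ∈ AN N`).
-/

set_option autoImplicit false

noncomputable section

open Fermat.Agent.S24_Defs Fermat.Agent.S24_Embed ModularCurve AlgebraicCurve UpperHalfPlane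
  IntermediateField
open scoped MatrixGroups ModularForm Manifold Topology

namespace Fermat.Agent.S24_Degree

/-- The analytic inputs of `S24_DegreeOf`. -/
theorem inputs (N : ℕ) [NeZero N] : Fermat.Agent.S24_DegreeOf.Inputs N where
  hmem := fun _ hd => Fermat.Agent.S24_Iota.jS_mem N hd
  hinv := fun _ hd g hg τ => Fermat.Agent.S24_Hermite.jS_smul_of_mem_Gamma0 N hd g hg τ
  hmemG := fun g h => Fermat.Agent.S24_Hermite.mem_Gamma0_of_jS_eq N g h

theorem transcendental_jF (N : ℕ) [NeZero N] : Transcendental Kbar (jF N) :=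
  Fermat.Agent.S24_DegreeOf.transcendental_jF N

theorem finrank_eq (N : ℕ) [NeZero N] :
    FiniteDimensional Kbar⟮jF N⟯ (FF N) ∧
      Module.finrank Kbar⟮jF N⟯ (FF N) = Nat.card (Coset N) :=
  Fermat.Agent.S24_DegreeOf.finrank_eq_of (inputs N)

end Fermat.Agent.S24_Degree

end
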