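import Fermat.Agent.S24_Defs

/-!
# S24_Val: valuations
-/

set_option autoImplicit false

noncomputable section

namespace Fermat.Agent.S24_Val

open Fermat.Agent.S24_Defs ModularCurve AlgebraicCurve UpperHalfPlane IntermediateField
open scoped MatrixGroups ModularForm Manifold Topology

section Basic

variable {F : Type*} [Field F]

/-- A `ℚ`-valued (additive) valuation on the nonzero elements of a field. -/
structure IsVal (w : F → ℚ) : Prop where
  mul : ∀ a b : F, a ≠ 0 → b ≠ 0 → w (a * b) = w a + w b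
  add : ∀ a b : F, a ≠ 0 → b ≠ 0 → a + b ≠ 0 → min (w a) (w b) ≤ w (a + b)

namespace IsVal

variable {w : F → ℚ} (hw : IsVal w)
include hw

theorem one : w 1 = 0 := by
  have := hw.mul 1 1 one_ne_zero one_ne_zero
  rw [mul_one] at this
  linarith

theorem neg_one : w (-1) = 0 := by
  have := hw.mul (-1) (-1) (neg_ne_zero.2 one_ne_zero) (neg_ne_zero.2 one_ne_zero)
  rw [neg_mul_neg, mul_one, hw.one] at this
  linarith

theorem neg {a : F} (ha : a ≠ 0) : w (-a) = w a := by
  have := hw.mul (-1) a (neg_ne_zero.2 one_ne_zero) ha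
  rw [neg_one_mul, hw.neg_one, zero_add] at this
  exact this

theorem inv {a : F} (ha : a ≠ 0) : w a⁻¹ = -w a := by
  have := hw.mul a a⁻¹ ha (inv_ne_zero ha)
  rw [mul_inv_cancel₀ ha, hw.one] at this
  linarith

theorem pow {a : F} (ha : a ≠ 0) (n : ℕ) : w (a ^ n) = n * w a := by
  induction n with
  | zero => simp [hw.one]
  | succ n ih =>
    rw [pow_succ, hw.mul _ _ (pow_ne_zero n ha) ha, ih]
    push_cast
    ring

theorem zpow {a : F} (ha : a ≠ 0) (n : ℤ) : w (a ^ n) = n * w a := by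
  cases n with
  | ofNat n => simpa using hw.pow ha n
  | negSucc n =>
    rw [zpow_negSucc, hw.inv (pow_ne_zero _ ha), hw.pow ha]
    push_cast
    ring

/-- The valuation subring `{a | a = 0 ∨ 0 ≤ w a}`. -/
def valSubring : ValuationSubring F where
  carrier := {a | a = 0 ∨ 0 ≤ w a}
  mul_mem' := by
    rintro a b (rfl | ha) (rfl | hb)
    · left; simp
    · left; simp
    · left; simp
    · by_cases ha0 : a = 0
      · left; simp [ha0]
      by_cases hb0 : b = 0
      · left; simp [hb0]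
      right
      rw [hw.mul a b ha0 hb0]
      exact add_nonneg ha hb
  one_mem' := Or.inr hw.one.ge
  add_mem' := by
    rintro a b ha hb
    by_cases ha0 : a = 0
    · simpa [ha0] using hb
    by_cases hb0 : b = 0
    · simpa [hb0] using ha
    by_cases hab : a + b = 0
    · exact Or.inl hab
    right
    have ha' : 0 ≤ w a := ha.resolve_left ha0
    have hb' : 0 ≤ w b := hb.resolve_left hb0
    exact (le_min ha' hb').trans (hw.add a b ha0 hb0 hab)
  zero_mem' := Or.inl rfl
  neg_mem' := by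
    rintro a (rfl | ha)
    · left; simp
    · by_cases ha0 : a = 0
      · left; simp [ha0]
      right
      rw [hw.neg ha0]; exact ha
  mem_or_inv_mem' := by
    intro a
    by_cases ha0 : a = 0
    · exact Or.inl (Or.inl ha0)
    rcases le_total 0 (w a) with h | h
    · exact Or.inl (Or.inr h)
    · right; right
      rw [hw.inv ha0]
      linarith

theorem mem_valSubring {a : F} : a ∈ hw.valSubring ↔ a = 0 ∨ 0 ≤ w a := Iff.rfl

theorem mem_valSubring_of_ne {a : F} (ha : a ≠ 0) : a ∈ hw.valSubring ↔ 0 ≤ w a := by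
  rw [mem_valSubring]
  exact ⟨fun h => h.resolve_left ha, Or.inr⟩

theorem isUnit_iff (x : hw.valSubring) : IsUnit x ↔ (x : F) ≠ 0 ∧ w x = 0 := by
  constructor
  · rintro ⟨u, rfl⟩
    have hu : ((u : hw.valSubring) : F) ≠ 0 := by
      intro h
      have := u.ne_zero
      exact this (Subtype.ext h)
    have hui : ((u⁻¹ : (hw.valSubring)ˣ) : hw.valSubring).1 ≠ 0 := by
      intro h
      have := (u⁻¹).ne_zero
      exact this (Subtype.ext h)
    refine ⟨hu, ?_⟩
    have h1 : ((u : hw.valSubring) : F) * ((u⁻¹ : (hw.valSubring)ˣ) : hw.valSubring).1 = 1 := by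
      exact congrArg Subtype.val u.mul_inv
    have h2 := hw.mul _ _ hu hui
    rw [h1, hw.one] at h2
    have h3 := (hw.mem_valSubring_of_ne hu).1 (u : hw.valSubring).2
    have h4 := (hw.mem_valSubring_of_ne hui).1 ((u⁻¹ : (hw.valSubring)ˣ) : hw.valSubring).2
    linarith
  · rintro ⟨hx, hwx⟩
    have hinv : (x : F)⁻¹ ∈ hw.valSubring := by
      rw [hw.mem_valSubring_of_ne (inv_ne_zero hx), hw.inv hx, hwx, neg_zero]
    refine IsUnit.of_mul_eq_one (⟨(x : F)⁻¹, hinv⟩ : hw.valSubring) ?_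
    apply Subtype.ext
    simp [hx]

end IsVal

end Basic


variable {K F : Type*} [Field K] [Field F] [Algebra K F]

/-- A4: a discrete `ℚ`-valued valuation on `F`, trivial on `K`, is a positive multiple of the
order function of a place. -/
theorem exists_place_of_valuation (w : F → ℚ)
    (hmul : ∀ a b : F, a ≠ 0 → b ≠ 0 → w (a * b) = w a + w b)
    (hadd : ∀ a b : F, a ≠ 0 → b ≠ 0 → a + b ≠ 0 → min (w a) (w b) ≤ w (a + b))
    (hK : ∀ a : K, a ≠ 0 → w (algebraMap K F a) = 0)
    (h : ℕ) (hh : 0 < h) (hint : ∀ a : F, a ≠ 0 → ∃ k : ℤ, (h : ℚ) * w a = k)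
    (hnt : ∃ a : F, a ≠ 0 ∧ w a ≠ 0) :
    ∃ (v : Place K F) (e : ℚ), 0 < e ∧ ∀ a : F, a ≠ 0 → (v.ord a : ℚ) = e * w a := by
  classical
  have hw : IsVal w := ⟨hmul, hadd⟩
  have hhQ : (0 : ℚ) < (h : ℚ) := by exact_mod_cast hh
  -- a minimal positive value
  have hex : ∃ k : ℕ, 0 < k ∧ ∃ a : F, a ≠ 0 ∧ (h : ℚ) * w a = k := by
    obtain ⟨a, ha, hwa⟩ := hnt
    obtain ⟨k, hk⟩ := hint a ha
    rcases lt_trichotomy k 0 with hk0 | hk0 | hk0
    · refine ⟨(-k).toNat, by omega, a⁻¹, inv_ne_zero ha, ?_⟩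
      have e : (((-k).toNat : ℕ) : ℚ) = ((-k : ℤ) : ℚ) := by
        have := Int.toNat_of_nonneg (show (0 : ℤ) ≤ -k by omega)
        exact_mod_cast this
      rw [hw.inv ha, e]
      push_cast
      linarith
    · exfalso
      rw [hk0, Int.cast_zero] at hk
      rcases mul_eq_zero.1 hk with h' | h'
      · exact hhQ.ne' h'
      · exact hwa h'
    · refine ⟨k.toNat, by omega, a, ha, ?_⟩
      have e : ((k.toNat : ℕ) : ℚ) = (k : ℚ) := by
        have := Int.toNat_of_nonneg hk0.le
        exact_mod_cast this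
      rw [e, hk]
  obtain ⟨hk0pos, π, hπ0, hπ⟩ := Nat.find_spec hex
  have hmin : ∀ k : ℕ, 0 < k → (∃ a : F, a ≠ 0 ∧ (h : ℚ) * w a = k) → Nat.find hex ≤ k :=
    fun k hk hka => Nat.find_min' hex ⟨hk, hka⟩
  generalize Nat.find hex = k0 at hk0pos hπ hmin
  have hk0Q : (0 : ℚ) < (k0 : ℚ) := by exact_mod_cast hk0pos
  have hwπ : 0 < w π := by
    by_contra hneg
    push Not at hneg
    have : (h : ℚ) * w π ≤ 0 := mul_nonpos_of_nonneg_of_nonpos hhQ.le hneg
    linarith
  -- every value is an integer multiple of `w π`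
  have hdiv : ∀ a : F, a ≠ 0 → ∃ q : ℤ, w a = q * w π := by
    intro a ha
    obtain ⟨k, hk⟩ := hint a ha
    have hk0Z : (0 : ℤ) < (k0 : ℤ) := by exact_mod_cast hk0pos
    have hr1 : 0 ≤ k % (k0 : ℤ) := Int.emod_nonneg k hk0Z.ne'
    have hr2 : k % (k0 : ℤ) < k0 := Int.emod_lt_of_pos k hk0Z
    have hqr : (k0 : ℤ) * (k / (k0 : ℤ)) + k % (k0 : ℤ) = k := Int.mul_ediv_add_emod k k0
    have hqrQ : (k0 : ℚ) * ((k / (k0 : ℤ) : ℤ) : ℚ) + ((k % (k0 : ℤ) : ℤ) : ℚ) = (k : ℚ) := by
      exact_mod_cast hqr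
    have hb0 : a * π ^ (-(k / (k0 : ℤ))) ≠ 0 := mul_ne_zero ha (zpow_ne_zero _ hπ0)
    have hb : (h : ℚ) * w (a * π ^ (-(k / (k0 : ℤ)))) = ((k % (k0 : ℤ) : ℤ) : ℚ) := by
      rw [hw.mul _ _ ha (zpow_ne_zero _ hπ0), hw.zpow hπ0, mul_add, hk]
      push_cast
      have : (h : ℚ) * (-((k / (k0 : ℤ) : ℤ) : ℚ) * w π) = -((k / (k0 : ℤ) : ℤ) : ℚ) * (k0 : ℚ) := by
        rw [← hπ]; ring
      rw [this]
      linarith
    have hr0 : k % (k0 : ℤ) = 0 := by
      by_contra hne
      have hpos : 0 < k % (k0 : ℤ) := lt_of_le_of_ne hr1 (Ne.symm hne)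
      have e : (((k % (k0 : ℤ)).toNat : ℕ) : ℚ) = ((k % (k0 : ℤ) : ℤ) : ℚ) := by
        have := Int.toNat_of_nonneg hr1
        exact_mod_cast this
      have := hmin (k % (k0 : ℤ)).toNat (by omega) ⟨_, hb0, by rw [hb, e]⟩
      omega
    refine ⟨k / (k0 : ℤ), ?_⟩
    rw [hr0] at hqrQ
    have : (h : ℚ) * w a = (h : ℚ) * (((k / (k0 : ℤ) : ℤ) : ℚ) * w π) := by
      rw [hk, ← hqrQ]
      have : (h : ℚ) * (((k / (k0 : ℤ) : ℤ) : ℚ) * w π) = ((k / (k0 : ℤ) : ℤ) : ℚ) * (k0 : ℚ) := by
        rw [← hπ]; ring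
      rw [this]
      push_cast
      ring
    exact mul_left_cancel₀ hhQ.ne' this
  have hqnonneg : ∀ (a : F) (q : ℤ), w a = q * w π → 0 ≤ w a → 0 ≤ q := by
    intro a q hq hwa
    by_contra hneg
    push Not at hneg
    have : (q : ℚ) < 0 := by exact_mod_cast hneg
    have : (q : ℚ) * w π < 0 := mul_neg_of_neg_of_pos this hwπ
    linarith
  -- the uniformizer
  have hπmem : π ∈ hw.valSubring := (hw.mem_valSubring_of_ne hπ0).2 hwπ.le
  have hirr : Irreducible (⟨π, hπmem⟩ : hw.valSubring) := by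
    rw [irreducible_iff]
    refine ⟨?_, ?_⟩
    · rw [hw.isUnit_iff]
      rintro ⟨-, h0⟩
      exact hwπ.ne' h0
    · intro a b hab
      have hab' : π = (a : F) * (b : F) := congrArg Subtype.val hab
      have ha0 : (a : F) ≠ 0 := by
        rintro h0; rw [h0, zero_mul] at hab'; exact hπ0 hab'
      have hb0 : (b : F) ≠ 0 := by
        rintro h0; rw [h0, mul_zero] at hab'; exact hπ0 hab'
      obtain ⟨qa, hqa⟩ := hdiv _ ha0
      obtain ⟨qb, hqb⟩ := hdiv _ hb0
      have hqa0 := hqnonneg _ _ hqa ((hw.mem_valSubring_of_ne ha0).1 a.2)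
      have hqb0 := hqnonneg _ _ hqb ((hw.mem_valSubring_of_ne hb0).1 b.2)
      have hsum : w π = w (a : F) + w (b : F) := by
        conv_lhs => rw [hab']
        exact hw.mul _ _ ha0 hb0
      rw [hqa, hqb] at hsum
      have hsum' : ((qa + qb : ℤ) : ℚ) = 1 := by
        push_cast
        have : ((qa : ℚ) + qb) * w π = 1 * w π := by linarith
        exact mul_right_cancel₀ hwπ.ne' this
      have hsumZ : qa + qb = 1 := by exact_mod_cast hsum'
      rcases (show qa = 0 ∨ qb = 0 by omega) with h0 | h0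
      · left
        rw [hw.isUnit_iff]
        exact ⟨ha0, by rw [hqa, h0]; simp⟩
      · right
        rw [hw.isUnit_iff]
        exact ⟨hb0, by rw [hqb, h0]; simp⟩
  have hfact : IsDiscreteValuationRing.HasUnitMulPowIrreducibleFactorization hw.valSubring := by
    refine ⟨⟨π, hπmem⟩, hirr, ?_⟩
    intro x hx
    have hx0 : (x : F) ≠ 0 := fun h0 => hx (Subtype.ext h0)
    obtain ⟨q, hq⟩ := hdiv _ hx0
    have hq0 := hqnonneg _ _ hq ((hw.mem_valSubring_of_ne hx0).1 x.2)
    have hu0 : (x : F) * (π ^ q.toNat)⁻¹ ≠ 0 := mul_ne_zero hx0 (inv_ne_zero (pow_ne_zero _ hπ0))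
    have hwu : w ((x : F) * (π ^ q.toNat)⁻¹) = 0 := by
      rw [hw.mul _ _ hx0 (inv_ne_zero (pow_ne_zero _ hπ0)), hw.inv (pow_ne_zero _ hπ0),
        hw.pow hπ0, hq]
      have e : ((q.toNat : ℕ) : ℚ) = (q : ℚ) := by
        have := Int.toNat_of_nonneg hq0
        exact_mod_cast this
      rw [e]; ring
    have humem : (x : F) * (π ^ q.toNat)⁻¹ ∈ hw.valSubring :=
      (hw.mem_valSubring_of_ne hu0).2 hwu.ge
    have hunit : IsUnit (⟨(x : F) * (π ^ q.toNat)⁻¹, humem⟩ : hw.valSubring) := by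
      rw [hw.isUnit_iff]
      exact ⟨hu0, hwu⟩
    refine ⟨q.toNat, hunit.unit, ?_⟩
    apply Subtype.ext
    rw [IsUnit.unit_spec]
    show π ^ q.toNat * ((x : F) * (π ^ q.toNat)⁻¹) = (x : F)
    field_simp
  haveI : IsDiscreteValuationRing hw.valSubring :=
    IsDiscreteValuationRing.ofHasUnitMulPowIrreducibleFactorization hfact
  let v : Place K F :=
    { toValuationSubring := hw.valSubring
      algebraMap_mem' := by
        intro a
        by_cases ha : a = 0
        · left; rw [ha, map_zero]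
        · right; rw [hK a ha]
      ne_top' := by
        intro htop
        have hmem : π⁻¹ ∈ hw.valSubring := by rw [htop]; exact ValuationSubring.mem_top _
        have := (hw.mem_valSubring_of_ne (inv_ne_zero hπ0)).1 hmem
        rw [hw.inv hπ0] at this
        linarith
      isPrincipalIdealRing' := inferInstance }
  refine ⟨v, (w π)⁻¹, inv_pos.2 hwπ, fun a ha => ?_⟩
  obtain ⟨u, hu⟩ := v.exists_unit_mul_zpow ha (π := ⟨π, hπmem⟩) hirr
  have hu0 : ((u : hw.valSubring) : F) ≠ 0 ∧ w ((u : hw.valSubring) : F) = 0 :=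
    (hw.isUnit_iff _).1 u.isUnit
  have hwa : w a = (v.ord a : ℚ) * w π := by
    conv_lhs => rw [hu]
    rw [hw.mul _ _ hu0.1 (zpow_ne_zero _ hπ0), hu0.2, zero_add, hw.zpow hπ0]
  rw [hwa]
  field_simp


/-- extension of a valuation from a domain to its fraction field -/
theorem exists_extension_fractionRing {A : Type*} [CommRing A] [IsDomain A] (ν : A → ℚ)
    (hmul : ∀ a b : A, a ≠ 0 → b ≠ 0 → ν (a * b) = ν a + ν b)
    (hadd : ∀ a b : A, a ≠ 0 → b ≠ 0 → a + b ≠ 0 → min (ν a) (ν b) ≤ ν (a + b)) :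
    ∃ w : FractionRing A → ℚ,
      (∀ a b : FractionRing A, a ≠ 0 → b ≠ 0 → w (a * b) = w a + w b) ∧
      (∀ a b : FractionRing A, a ≠ 0 → b ≠ 0 → a + b ≠ 0 → min (w a) (w b) ≤ w (a + b)) ∧
      (∀ a : A, a ≠ 0 → w (algebraMap A (FractionRing A) a) = ν a) := by
  classical
  have hinj : Function.Injective (algebraMap A (FractionRing A)) :=
    IsFractionRing.injective A (FractionRing A)
  have hne : ∀ a : A, a ≠ 0 → algebraMap A (FractionRing A) a ≠ 0 := fun a ha h0 =>
    ha (hinj (by rw [h0, map_zero]))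
  have hν1 : ν 1 = 0 := by
    have := hmul 1 1 one_ne_zero one_ne_zero
    rw [mul_one] at this
    linarith
  -- representatives
  have hrep : ∀ x : FractionRing A, x ≠ 0 → ∃ a b : A, a ≠ 0 ∧ b ≠ 0 ∧
      x = algebraMap A (FractionRing A) a / algebraMap A (FractionRing A) b := by
    intro x hx
    obtain ⟨a, b, hb, rfl⟩ := IsFractionRing.div_surjective (A := A) x
    have hb0 : b ≠ 0 := nonZeroDivisors.ne_zero hb
    refine ⟨a, b, ?_, hb0, rfl⟩
    rintro rfl
    apply hx
    simp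
  -- the value of a fraction is independent of the representative
  have hwd : ∀ a b c d : A, a ≠ 0 → b ≠ 0 → c ≠ 0 → d ≠ 0 →
      algebraMap A (FractionRing A) a / algebraMap A (FractionRing A) b
        = algebraMap A (FractionRing A) c / algebraMap A (FractionRing A) d →
      ν a - ν b = ν c - ν d := by
    intro a b c d ha hb hc hd heq
    rw [div_eq_div_iff (hne b hb) (hne d hd), ← map_mul, ← map_mul] at heq
    have heq' := hinj heq
    have h1 := hmul a d ha hd
    have h2 := hmul c b hc hb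
    rw [heq'] at h1
    linarith
  let w : FractionRing A → ℚ := fun x =>
    if hx : x = 0 then 0 else ν (hrep x hx).choose - ν (hrep x hx).choose_spec.choose
  have hw : ∀ a b : A, a ≠ 0 → b ≠ 0 →
      w (algebraMap A (FractionRing A) a / algebraMap A (FractionRing A) b) = ν a - ν b := by
    intro a b ha hb
    have hx : algebraMap A (FractionRing A) a / algebraMap A (FractionRing A) b ≠ 0 :=
      div_ne_zero (hne a ha) (hne b hb)
    show (if hx : _ = 0 then 0 else _) = _
    rw [dif_neg hx]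
    obtain ⟨h1, h2, h3⟩ := (hrep _ hx).choose_spec.choose_spec
    exact (hwd _ _ _ _ ha hb h1 h2 h3).symm
  refine ⟨w, ?_, ?_, ?_⟩
  · intro x y hx hy
    obtain ⟨a, b, ha, hb, rfl⟩ := hrep x hx
    obtain ⟨c, d, hc, hd, rfl⟩ := hrep y hy
    have e : algebraMap A (FractionRing A) a / algebraMap A (FractionRing A) b
        * (algebraMap A (FractionRing A) c / algebraMap A (FractionRing A) d)
        = algebraMap A (FractionRing A) (a * c) / algebraMap A (FractionRing A) (b * d) := by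
      rw [map_mul, map_mul, div_mul_div_comm]
    rw [e, hw _ _ (mul_ne_zero ha hc) (mul_ne_zero hb hd), hw _ _ ha hb, hw _ _ hc hd,
      hmul a c ha hc, hmul b d hb hd]
    ring
  · intro x y hx hy hxy
    obtain ⟨a, b, ha, hb, rfl⟩ := hrep x hx
    obtain ⟨c, d, hc, hd, rfl⟩ := hrep y hy
    have e : algebraMap A (FractionRing A) a / algebraMap A (FractionRing A) b
        + algebraMap A (FractionRing A) c / algebraMap A (FractionRing A) d
        = algebraMap A (FractionRing A) (a * d + b * c) / algebraMap A (FractionRing A) (b * d) := by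
      rw [map_add, map_mul, map_mul, map_mul, div_add_div _ _ (hne b hb) (hne d hd)]
    rw [e] at hxy ⊢
    have hnum : a * d + b * c ≠ 0 := by
      rintro h0
      apply hxy
      rw [h0, map_zero, zero_div]
    rw [hw _ _ hnum (mul_ne_zero hb hd), hw _ _ ha hb, hw _ _ hc hd, hmul b d hb hd]
    have h1 := hadd (a * d) (b * c) (mul_ne_zero ha hd) (mul_ne_zero hb hc) hnum
    rw [hmul a d ha hd, hmul b c hb hc] at h1
    have h2 : min (ν a - ν b) (ν c - ν d) = min (ν a + ν d) (ν b + ν c) - (ν b + ν d) := by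
      rw [← min_sub_sub_right]
      congr 1 <;> ring
    rw [h2]
    linarith
  · intro a ha
    have e : algebraMap A (FractionRing A) a
        = algebraMap A (FractionRing A) a / algebraMap A (FractionRing A) 1 := by
      rw [map_one, div_one]
    rw [e, hw a 1 ha one_ne_zero, hν1, sub_zero]

end Fermat.Agent.S24_Val

end
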