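import Fermat.Agent.S24_Defs
import Fermat.Agent.S24_Val
import Fermat.Agent.S24_Place

/-!
# S24_Fiber: the abstract fiber-counting lemma
-/

set_option autoImplicit false

noncomputable section

namespace Fermat.Agent.S24_Fiber

open Fermat.Agent.S24_Defs ModularCurve AlgebraicCurve UpperHalfPlane IntermediateField
open scoped MatrixGroups ModularForm Manifold Topology
open Fermat.Agent.S24_Val
open Polynomial

section Charpoly

/-- If `L/k` has degree `n` and `σ` is a family of `n` distinct embeddings of `L` into `E`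
restricting to `ι` on `k`, then every `f : L` is a root of a monic polynomial over `k`
whose image in `E[X]` is `∏ (X - σ f)`. -/
theorem exists_monic_map_eq_prod {k L E : Type*} [Field k] [Field L] [Field E] [Algebra k L]
    [FiniteDimensional k L] {𝒞 : Type*} [Fintype 𝒞]
    (hcard : Fintype.card 𝒞 = Module.finrank k L)
    (ι : k →+* E) (σ : 𝒞 → (L →+* E)) (hσ : Function.Injective σ)
    (hι : ∀ γ (c : k), σ γ (algebraMap k L c) = ι c) (f : L) :
    ∃ χ : Polynomial k, χ.Monic ∧ aeval f χ = 0 ∧ χ.map ι = ∏ γ, (X - C (σ γ f)) := by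
  classical
  let b : Module.Basis 𝒞 k L :=
    (Module.finBasis k L).reindex (Fintype.equivFinOfCardEq hcard).symm
  set A : Matrix 𝒞 𝒞 k := Algebra.leftMulMatrix b f with hA
  refine ⟨A.charpoly, Matrix.charpoly_monic A, ?_, ?_⟩
  · apply Algebra.leftMulMatrix_injective b
    rw [map_zero, ← Polynomial.aeval_algHom_apply]
    exact Matrix.aeval_self_charpoly A
  · rw [← Matrix.charpoly_map]
    set M : Matrix 𝒞 𝒞 E := fun γ i => σ γ (b i) with hM
    have hMA : M * A.map ι = Matrix.diagonal (fun γ => σ γ f) * M := by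
      ext γ j
      rw [Matrix.mul_apply, Matrix.diagonal_mul]
      have h1 : f * b j = ∑ i, A i j • b i := by
        rw [hA]
        simp_rw [Algebra.leftMulMatrix_eq_repr_mul]
        exact (b.sum_repr (f * b j)).symm
      have h2 : σ γ (f * b j) = ∑ i, M γ i * (A.map ι) i j := by
        rw [h1, map_sum]
        refine Finset.sum_congr rfl fun i _ => ?_
        rw [Algebra.smul_def, map_mul, hι, Matrix.map_apply, mul_comm]
      rw [← h2, map_mul]
    have hdet : M.det ≠ 0 := by
      intro h0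
      obtain ⟨c, hc0, hc⟩ := Matrix.exists_vecMul_eq_zero_iff.2 h0
      apply hc0
      have hli := (linearIndependent_monoidHom L E).comp
        (fun γ : 𝒞 => ((σ γ : L →+* E) : L →* E)) (by
          intro γ γ' h
          apply hσ
          ext x
          exact congrArg (fun φ : L →* E => φ x) h)
      rw [Fintype.linearIndependent_iff] at hli
      funext γ
      refine hli c ?_ γ
      funext x
      simp only [Function.comp_apply, Finset.sum_apply, Pi.smul_apply, smul_eq_mul,
        Pi.zero_apply]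
      have hx : ∀ γ, σ γ x = ∑ i, ι (b.repr x i) * M γ i := by
        intro γ
        conv_lhs => rw [← b.sum_repr x]
        rw [map_sum]
        refine Finset.sum_congr rfl fun i _ => ?_
        rw [Algebra.smul_def, map_mul, hι]
      calc ∑ γ, c γ * (((σ γ : L →+* E) : L →* E) x)
          = ∑ γ, c γ * ∑ i, ι (b.repr x i) * M γ i := by
            refine Finset.sum_congr rfl fun γ _ => ?_
            rw [← hx γ]; rfl
        _ = ∑ i, ι (b.repr x i) * ∑ γ, c γ * M γ i := by
            simp_rw [Finset.mul_sum]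
            rw [Finset.sum_comm]
            refine Finset.sum_congr rfl fun i _ => Finset.sum_congr rfl fun γ _ => ?_
            ring
        _ = 0 := by
            refine Finset.sum_eq_zero fun i _ => ?_
            have := congrFun hc i
            simp only [Matrix.vecMul, dotProduct, Pi.zero_apply] at this
            rw [this, mul_zero]
    have hunit : IsUnit M.det := isUnit_iff_ne_zero.2 hdet
    have hAι : A.map ι = M⁻¹ * (Matrix.diagonal (fun γ => σ γ f) * M) := by
      rw [← hMA, ← mul_assoc, Matrix.nonsing_inv_mul M hunit, one_mul]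
    rw [hAι, Matrix.charpoly_mul_comm, mul_assoc, Matrix.mul_nonsing_inv M hunit, mul_one,
      Matrix.charpoly_diagonal]

end Charpoly

section Valuations

variable {K F : Type*} [Field K] [Field F] [Algebra K F]

/-- strict ultrametric inequality gives equality -/
theorem isVal_add_eq_of_lt {w : F → ℚ} (hw : IsVal w) {a b : F} (ha : a ≠ 0) (hb : b ≠ 0)
    (hlt : w a < w b) : a + b ≠ 0 ∧ w (a + b) = w a := by
  have hab : a + b ≠ 0 := by
    intro h0
    have : b = -a := eq_neg_of_add_eq_zero_right h0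
    rw [this, hw.neg ha] at hlt
    exact lt_irrefl _ hlt
  refine ⟨hab, le_antisymm ?_ ?_⟩
  · by_contra hgt
    push Not at hgt
    have h1 := hw.add (a + b) (-b) hab (neg_ne_zero.2 hb) (by rwa [add_neg_cancel_right])
    rw [add_neg_cancel_right, hw.neg hb] at h1
    have : w a < min (w (a + b)) (w b) := lt_min hgt hlt
    linarith
  · have := hw.add a b ha hb hab
    rwa [min_eq_left hlt.le] at this

/-- The conditions on a valuation used below: trivial on constants. -/
structure IsValOver (K : Type*) {F : Type*} [Field K] [Field F] [Algebra K F] (w : F → ℚ) : Prop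
    extends IsVal w where
  triv : ∀ a : K, a ≠ 0 → w (algebraMap K F a) = 0

theorem IsValOver.aeval_nonneg {w : F → ℚ} (hw : IsValOver K w) {π : F} (hπ0 : π ≠ 0)
    (hπ : 0 ≤ w π) (p : K[X]) : aeval π p = 0 ∨ 0 ≤ w (aeval π p) := by
  have hmem : aeval π p ∈ hw.toIsVal.valSubring := by
    induction p using Polynomial.induction_on' with
    | add p q hp hq => rw [map_add]; exact add_mem hp hq
    | monomial n a =>
      rw [aeval_monomial]
      refine mul_mem ?_ (pow_mem ((hw.toIsVal.mem_valSubring_of_ne hπ0).2 hπ) n)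
      by_cases ha : a = 0
      · rw [ha, map_zero]; exact zero_mem _
      · exact Or.inr (hw.triv a ha).ge
  exact hmem

theorem IsValOver.aeval_unit {w : F → ℚ} (hw : IsValOver K w) {π : F} (hπ0 : π ≠ 0)
    (hπ : 0 < w π) (p : K[X]) (hp : p.coeff 0 ≠ 0) : aeval π p ≠ 0 ∧ w (aeval π p) = 0 := by
  have hdec : p = C (p.coeff 0) + X * p.divX := by
    conv_lhs => rw [← Polynomial.divX_mul_X_add p]
    ring
  have hc0 : algebraMap K F (p.coeff 0) ≠ 0 := by
    rw [Ne, map_eq_zero_iff _ (algebraMap K F).injective]; exact hp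
  have hwc : w (algebraMap K F (p.coeff 0)) = 0 := hw.triv _ hp
  have hev : aeval π p = algebraMap K F (p.coeff 0) + π * aeval π p.divX := by
    conv_lhs => rw [hdec]
    rw [map_add, aeval_C, map_mul, aeval_X]
  rw [hev]
  by_cases hq : aeval π p.divX = 0
  · rw [hq, mul_zero, add_zero]; exact ⟨hc0, hwc⟩
  · have hq' := (hw.aeval_nonneg hπ0 hπ.le p.divX).resolve_left hq
    have hlt : w (algebraMap K F (p.coeff 0)) < w (π * aeval π p.divX) := by
      rw [hwc, hw.mul _ _ hπ0 hq]
      linarith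
    obtain ⟨h1, h2⟩ := isVal_add_eq_of_lt hw.toIsVal hc0 (mul_ne_zero hπ0 hq) hlt
    exact ⟨h1, h2.trans hwc⟩

theorem IsValOver.aeval_eq {w : F → ℚ} (hw : IsValOver K w) {π : F} (hπ0 : π ≠ 0)
    (hπ : 0 < w π) (p : K[X]) (hp : p ≠ 0) :
    aeval π p ≠ 0 ∧ w (aeval π p) = (p.rootMultiplicity 0 : ℚ) * w π := by
  obtain ⟨q, hq, hdvd⟩ := Polynomial.exists_eq_pow_rootMultiplicity_mul_and_not_dvd p hp 0
  rw [C_0, sub_zero] at hq hdvd
  have hq0 : q.coeff 0 ≠ 0 := fun h0 => hdvd (Polynomial.X_dvd_iff.2 h0)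
  obtain ⟨h1, h2⟩ := hw.aeval_unit hπ0 hπ q hq0
  have hev : aeval π p = π ^ p.rootMultiplicity 0 * aeval π q := by
    conv_lhs => rw [hq]
    rw [map_mul, map_pow, aeval_X]
  rw [hev]
  refine ⟨mul_ne_zero (pow_ne_zero _ hπ0) h1, ?_⟩
  rw [hw.mul _ _ (pow_ne_zero _ hπ0) h1, hw.toIsVal.pow hπ0, h2, add_zero]

/-- The order at `π = 0` of an element of `K(π)` is the same for all valuations over `K`
which are positive at `π`. -/
theorem exists_ord_adjoin {π : F} (hπ0 : π ≠ 0) (x : F) (hx : x ∈ K⟮π⟯) (hx0 : x ≠ 0) :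
    ∃ m : ℤ, ∀ w : F → ℚ, IsValOver K w → 0 < w π → w x = (m : ℚ) * w π := by
  obtain ⟨r, s, rfl⟩ := (IntermediateField.mem_adjoin_simple_iff K x).1 hx
  have hr : aeval π r ≠ 0 := fun h0 => hx0 (by rw [h0, zero_div])
  have hs : aeval π s ≠ 0 := fun h0 => hx0 (by rw [h0, div_zero])
  have hr0 : r ≠ 0 := fun h0 => hr (by rw [h0, map_zero])
  have hs0 : s ≠ 0 := fun h0 => hs (by rw [h0, map_zero])
  refine ⟨(r.rootMultiplicity 0 : ℤ) - (s.rootMultiplicity 0 : ℤ), fun w hw hπ => ?_⟩
  rw [div_eq_mul_inv, hw.mul _ _ hr (inv_ne_zero hs), hw.toIsVal.inv hs,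
    (hw.aeval_eq hπ0 hπ r hr0).2, (hw.aeval_eq hπ0 hπ s hs0).2]
  push_cast
  ring

end Valuations


section Main

variable {K F : Type} [Field K] [Field F] [Algebra K F]

theorem isValOver_ord (v : Place K F) : IsValOver K (fun a : F => (v.ord a : ℚ)) where
  mul a b ha hb := by
    show ((v.ord (a * b) : ℤ) : ℚ) = (v.ord a : ℚ) + (v.ord b : ℚ)
    rw [v.ord_mul ha hb]; push_cast; rfl
  add a b _ _ hab := by
    have := S24_Place.ord_add_le v a b hab
    show min ((v.ord a : ℤ) : ℚ) ((v.ord b : ℤ) : ℚ) ≤ ((v.ord (a + b) : ℤ) : ℚ)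
    exact_mod_cast this
  triv a _ := by
    show ((v.ord (algebraMap K F a) : ℤ) : ℚ) = 0
    rw [S24_Place.ord_algebraMap]; rfl

/-- Two `K`-algebra maps out of `F` agreeing at `π` agree on `K(π)`. -/
theorem algHom_eq_on_adjoin {E : Type} [Field E] [Algebra K E] (φ ψ : F →ₐ[K] E) {π : F}
    (h : φ π = ψ π) (x : F) (hx : x ∈ K⟮π⟯) : φ x = ψ x := by
  obtain ⟨r, s, rfl⟩ := (IntermediateField.mem_adjoin_simple_iff K x).1 hx
  rw [map_div₀, map_div₀, ← Polynomial.aeval_algHom_apply, ← Polynomial.aeval_algHom_apply,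
    ← Polynomial.aeval_algHom_apply, ← Polynomial.aeval_algHom_apply, h]


theorem coeff_prod_X_sub_C_mem {E : Type*} [CommRing E] (O : Subring E) {ι : Type*}
    (s : Finset ι) (x : ι → E) (hx : ∀ γ ∈ s, x γ ∈ O) (i : ℕ) :
    (∏ γ ∈ s, (X - C (x γ))).coeff i ∈ O := by
  have : (∏ γ ∈ s, (X - C (x γ))) ∈ Polynomial.lifts O.subtype := by
    apply Subsemiring.prod_mem
    intro γ hγ
    rw [Polynomial.mem_lifts]
    exact ⟨X - C ⟨x γ, hx γ hγ⟩, by simp⟩
  obtain ⟨y, hy⟩ := (Polynomial.lifts_iff_coeff_lifts _).1 this i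
  rw [← hy]; exact y.2

theorem mem_of_monic_root {F : Type*} [Field F] (O : ValuationSubring F) (p : F[X])
    (hp : p.Monic) (hc : ∀ i, p.coeff i ∈ O) (f : F) (hf : p.eval f = 0) : f ∈ O := by
  have hl : p ∈ Polynomial.lifts O.subtype :=
    (Polynomial.lifts_iff_coeff_lifts _).2 (fun i => ⟨⟨_, hc i⟩, rfl⟩)
  obtain ⟨q, hq, -, hqm⟩ := Polynomial.lifts_and_natDegree_eq_and_monic hl hp
  have hint : IsIntegral O f := by
    refine ⟨q, hqm, ?_⟩
    rw [← Polynomial.eval_map]
    have : q.map (algebraMap O F) = p := hq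
    rw [this, hf]
  obtain ⟨y, hy⟩ := IsIntegrallyClosed.isIntegral_iff.1 hint
  rw [← hy]; exact y.2

/-- The integrality step: if all conjugates `σ γ f` have nonnegative valuation, then `f` lies in
the valuation ring of every place over `π = 0`. -/
theorem mem_place_of_conjugates_nonneg [IsAlgClosed K] [CharZero K] (π : F) (hπ0 : π ≠ 0)
    [FiniteDimensional K⟮π⟯ F]
    {𝒞 : Type} [Fintype 𝒞] (hcard : Fintype.card 𝒞 = Module.finrank K⟮π⟯ F)
    {E : Type} [Field E] [Algebra K E] (σ : 𝒞 → (F →ₐ[K] E)) (w : E → ℚ)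
    (hσ : Function.Injective σ) (hσπ : ∀ γ γ', σ γ π = σ γ' π)
    (hwE : IsVal w) (hwK : ∀ a : K, a ≠ 0 → w (algebraMap K E a) = 0)
    (hwπ : ∀ γ, w (σ γ π) = 1)
    (f : F) (hf : ∀ γ, 0 ≤ w (σ γ f)) (v₀ : Place K F) (h₀ : 0 < v₀.ord π) :
    f ∈ v₀.toValuationSubring := by
  classical
  have hne : Nonempty 𝒞 := by
    rw [← Fintype.card_pos_iff, hcard]
    exact Module.finrank_pos
  obtain ⟨γ₀⟩ := hne
  have hwγ : IsValOver K (fun a : F => w (σ γ₀ a)) :=
    { mul := fun a b ha hb => by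
        show w (σ γ₀ (a * b)) = w (σ γ₀ a) + w (σ γ₀ b)
        rw [map_mul]
        exact hwE.mul _ _ ((_root_.map_ne_zero _).2 ha) ((_root_.map_ne_zero _).2 hb)
      add := fun a b ha hb hab => by
        show min (w (σ γ₀ a)) (w (σ γ₀ b)) ≤ w (σ γ₀ (a + b))
        rw [map_add]
        exact hwE.add _ _ ((_root_.map_ne_zero _).2 ha) ((_root_.map_ne_zero _).2 hb)
          (by rw [← map_add]; exact (_root_.map_ne_zero _).2 hab)
      triv := fun a ha => by
        show w (σ γ₀ (algebraMap K F a)) = 0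
        rw [AlgHom.commutes]; exact hwK a ha }
  let ι : K⟮π⟯ →+* E := (σ γ₀ : F →+* E).comp (algebraMap K⟮π⟯ F)
  have hι : ∀ γ (c : K⟮π⟯), (σ γ : F →+* E) (algebraMap K⟮π⟯ F c) = ι c := by
    intro γ c
    exact algHom_eq_on_adjoin (σ γ) (σ γ₀) (hσπ γ γ₀) (c : F) c.2
  obtain ⟨χ, hmonic, hroot, hmap⟩ := exists_monic_map_eq_prod hcard ι
    (fun γ => (σ γ : F →+* E)) (fun γ γ' h => hσ (AlgHom.coe_ringHom_injective h)) hι f
  -- the coefficients of `χ` are integral at `w ∘ σ γ₀`
  have hcoeffE : ∀ i, ι (χ.coeff i) ∈ hwE.valSubring := by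
    intro i
    rw [← Polynomial.coeff_map, hmap]
    refine coeff_prod_X_sub_C_mem hwE.valSubring.toSubring Finset.univ _ (fun γ _ => ?_) i
    exact Or.inr (hf γ)
  -- hence integral at `v₀`
  have hcoeff : ∀ i, (χ.map (algebraMap K⟮π⟯ F)).coeff i ∈ v₀.toValuationSubring := by
    intro i
    rw [Polynomial.coeff_map]
    by_cases hc0 : ((χ.coeff i : K⟮π⟯) : F) = 0
    · show ((χ.coeff i : K⟮π⟯) : F) ∈ v₀.toValuationSubring
      rw [hc0]; exact zero_mem _
    · obtain ⟨m, hm⟩ := exists_ord_adjoin (K := K) hπ0 ((χ.coeff i : K⟮π⟯) : F) (χ.coeff i).2 hc0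
      have h1 := hm _ hwγ (by show 0 < w (σ γ₀ π); rw [hwπ]; norm_num)
      have h2 := hm _ (isValOver_ord v₀) (by show (0 : ℚ) < ((v₀.ord π : ℤ) : ℚ); exact_mod_cast h₀)
      have hmem := hcoeffE i
      have hmem' : 0 ≤ w (σ γ₀ ((χ.coeff i : K⟮π⟯) : F)) := by
        rcases hmem with h0 | h0
        · have hz : χ.coeff i = 0 := (map_eq_zero ι).1 h0
          exact absurd (by rw [hz]; rfl) hc0
        · exact h0
      have hm0 : (0 : ℚ) ≤ (m : ℚ) := by
        have : w (σ γ₀ ((χ.coeff i : K⟮π⟯) : F)) = (m : ℚ) * w (σ γ₀ π) := h1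
        rw [hwπ, mul_one] at this
        rw [← this]; exact hmem'
      have hord : (0 : ℚ) ≤ ((v₀.ord ((χ.coeff i : K⟮π⟯) : F) : ℤ) : ℚ) := by
        have : ((v₀.ord ((χ.coeff i : K⟮π⟯) : F) : ℤ) : ℚ) = (m : ℚ) * ((v₀.ord π : ℤ) : ℚ) := h2
        rw [this]
        exact mul_nonneg hm0 (by exact_mod_cast h₀.le)
      exact (S24_Place.mem_valuationSubring_iff v₀ _).2 (Or.inr (by exact_mod_cast hord))
  refine mem_of_monic_root v₀.toValuationSubring (χ.map (algebraMap K⟮π⟯ F))
    (hmonic.map _) hcoeff f ?_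
  rw [Polynomial.eval_map, ← Polynomial.aeval_def]
  exact hroot


theorem card_places_eq_card_orbits [IsAlgClosed K] [CharZero K] (π : F)
    (hπ : Transcendental K π) [FiniteDimensional K⟮π⟯ F]
    {𝒞 G : Type} [Finite 𝒞] [Group G] [MulAction G 𝒞]
    (hcard : Nat.card 𝒞 = Module.finrank K⟮π⟯ F) (h : HasFiberDatum K π 𝒞 G) :
    Nat.card {v : Place K F // 0 < v.ord π} = Nat.card (MulAction.orbitRel.Quotient G 𝒞) := by
  classical
  obtain ⟨E, _, _, σ, w, hσ, hσπ, hwmul, hwadd, hwK, hwπ, hwG, hwint⟩ := h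
  have hπ0 : π ≠ 0 := by
    rintro rfl
    exact hπ (isAlgebraic_zero)
  haveI := Fintype.ofFinite 𝒞
  have hcard' : Fintype.card 𝒞 = Module.finrank K⟮π⟯ F := by
    rw [← Nat.card_eq_fintype_card]; exact hcard
  have hwE : IsVal w := ⟨hwmul, hwadd⟩
  have hwγ : ∀ γ, IsValOver K (fun a : F => w (σ γ a)) := fun γ =>
    { mul := fun a b ha hb => by
        show w (σ γ (a * b)) = w (σ γ a) + w (σ γ b)
        rw [map_mul]
        exact hwE.mul _ _ ((_root_.map_ne_zero _).2 ha) ((_root_.map_ne_zero _).2 hb)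
      add := fun a b ha hb hab => by
        show min (w (σ γ a)) (w (σ γ b)) ≤ w (σ γ (a + b))
        rw [map_add]
        exact hwE.add _ _ ((_root_.map_ne_zero _).2 ha) ((_root_.map_ne_zero _).2 hb)
          (by rw [← map_add]; exact (_root_.map_ne_zero _).2 hab)
      triv := fun a ha => by
        show w (σ γ (algebraMap K F a)) = 0
        rw [AlgHom.commutes]; exact hwK a ha }
  have horbpos : ∀ γ : 𝒞, 0 < Nat.card (MulAction.orbit G γ) := by
    intro γ
    haveI : Nonempty (MulAction.orbit G γ) := (MulAction.nonempty_orbit γ).to_subtype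
    exact Nat.card_pos
  -- the places attached to the embeddings
  have hex : ∀ γ, ∃ (v : Place K F) (e : ℚ), 0 < e ∧
      ∀ a : F, a ≠ 0 → (v.ord a : ℚ) = e * w (σ γ a) := fun γ =>
    exists_place_of_valuation (fun a : F => w (σ γ a)) (hwγ γ).mul (hwγ γ).add (hwγ γ).triv
      (Nat.card (MulAction.orbit G γ)) (horbpos γ) (fun a ha => hwint γ a ha)
      ⟨π, hπ0, by show w (σ γ π) ≠ 0; rw [hwπ]; norm_num⟩
  choose pl e he hpl using hex
  have hordπ : ∀ γ, ((pl γ).ord π : ℚ) = e γ := by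
    intro γ
    rw [hpl γ π hπ0, hwπ, mul_one]
  have hpos : ∀ γ, 0 < (pl γ).ord π := by
    intro γ
    have : (0 : ℚ) < ((pl γ).ord π : ℚ) := by rw [hordπ]; exact he γ
    exact_mod_cast this
  have hmem : ∀ γ (a : F), a ∈ (pl γ).toValuationSubring ↔ a = 0 ∨ 0 ≤ w (σ γ a) := by
    intro γ a
    rw [S24_Place.mem_valuationSubring_iff]
    by_cases ha : a = 0
    · simp [ha]
    · have h1 := hpl γ a ha
      constructor
      · rintro (h0 | h0)
        · exact absurd h0 ha
        · right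
          have : (0 : ℚ) ≤ ((pl γ).ord a : ℚ) := by exact_mod_cast h0
          rw [h1] at this
          exact (mul_nonneg_iff_of_pos_left (he γ)).1 this
      · rintro (h0 | h0)
        · exact absurd h0 ha
        · right
          have : (0 : ℚ) ≤ ((pl γ).ord a : ℚ) := by
            rw [h1]; exact mul_nonneg (he γ).le h0
          exact_mod_cast this
  have hsmul : ∀ (g : G) (γ : 𝒞), pl (g • γ) = pl γ := by
    intro g γ
    apply Place.ext
    ext a
    rw [hmem, hmem, hwG]
  -- ramification index ≤ orbit size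
  have hle : ∀ γ, (pl γ).ord π ≤ (Nat.card (MulAction.orbit G γ) : ℤ) := by
    intro γ
    obtain ⟨ϖ, hϖ⟩ := IsDiscreteValuationRing.exists_irreducible (pl γ).toValuationSubring
    have ht : (pl γ).ord (ϖ : F) = 1 := (pl γ).ord_coe_irreducible hϖ
    have ht0 : (ϖ : F) ≠ 0 := by
      intro h0
      rw [h0, Place.ord_zero] at ht
      exact zero_ne_one ht
    have h1 := hpl γ (ϖ : F) ht0
    rw [ht] at h1
    obtain ⟨k, hk⟩ := hwint γ (ϖ : F) ht0
    have he' : e γ ≠ 0 := (he γ).ne'
    have hw' : w (σ γ (ϖ : F)) = 1 / e γ := by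
      field_simp
      rw [mul_comm]
      exact_mod_cast h1.symm
    rw [hw'] at hk
    have hcardQ : (Nat.card (MulAction.orbit G γ) : ℚ) = (k : ℚ) * ((pl γ).ord π : ℚ) := by
      rw [hordπ]
      field_simp at hk
      rw [hk, mul_comm]
    have hcardZ : (Nat.card (MulAction.orbit G γ) : ℤ) = k * (pl γ).ord π := by
      exact_mod_cast hcardQ
    have hposZ : (0 : ℤ) < (Nat.card (MulAction.orbit G γ) : ℤ) := by exact_mod_cast horbpos γ
    exact Int.le_of_dvd hposZ ⟨k, by rw [hcardZ, mul_comm]⟩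
  -- surjectivity
  have hsurj : ∀ v₀ : Place K F, 0 < v₀.ord π → ∃ γ, pl γ = v₀ := by
    intro v₀ h₀
    by_contra hcon
    push Not at hcon
    obtain ⟨f, hf0, hfneg, hfS⟩ := S24_Place.exists_pole_avoiding π hπ v₀ h₀
      (Finset.univ.image pl)
      (by
        intro v hv
        obtain ⟨γ, -, rfl⟩ := Finset.mem_image.1 hv
        exact hpos γ)
      (by
        intro hv
        obtain ⟨γ, -, hγ⟩ := Finset.mem_image.1 hv
        exact hcon γ hγ)
    have hfγ : ∀ γ, 0 ≤ w (σ γ f) := by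
      intro γ
      have h1 := hfS (pl γ) (Finset.mem_image_of_mem pl (Finset.mem_univ γ))
      have h2 := hpl γ f hf0
      have : (0 : ℚ) ≤ ((pl γ).ord f : ℚ) := by exact_mod_cast h1
      rw [h2] at this
      exact (mul_nonneg_iff_of_pos_left (he γ)).1 this
    have hfmem := mem_place_of_conjugates_nonneg π hπ0 hcard' σ w hσ hσπ hwE hwK hwπ f hfγ v₀ h₀
    rcases (S24_Place.mem_valuationSubring_iff v₀ f).1 hfmem with h0 | h0
    · exact hf0 h0
    · omega
  -- the induced map on orbits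
  haveI hPfin : Finite {v : Place K F // 0 < v.ord π} := (S24_Place.finite_zeros π hπ).to_subtype
  haveI := Fintype.ofFinite {v : Place K F // 0 < v.ord π}
  haveI := Fintype.ofFinite (MulAction.orbitRel.Quotient G 𝒞)
  let Φ : MulAction.orbitRel.Quotient G 𝒞 → {v : Place K F // 0 < v.ord π} :=
    Quotient.lift (s := MulAction.orbitRel G 𝒞) (fun γ => ⟨pl γ, hpos γ⟩) (by
      intro a b hab
      obtain ⟨g, rfl⟩ := (MulAction.orbitRel_apply.1 hab)
      exact Subtype.ext (hsmul g b))
  have hΦsurj : Function.Surjective Φ := by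
    rintro ⟨v₀, h₀⟩
    obtain ⟨γ, rfl⟩ := hsurj v₀ h₀
    exact ⟨Quotient.mk'' γ, rfl⟩
  have hΦle : ∀ q : MulAction.orbitRel.Quotient G 𝒞,
      (Φ q).1.ord π ≤ (Nat.card q.orbit : ℤ) := by
    intro q
    induction q using Quotient.inductionOn' with
    | h γ => exact hle γ
  -- the two sums
  have hsum1 : ∑ v : {v : Place K F // 0 < v.ord π}, v.1.ord π
      = (Module.finrank K⟮π⟯ F : ℤ) := by
    rw [← S24_Place.sum_ord_zeros π hπ, ← finsum_eq_sum_of_fintype]
    exact finsum_set_coe_eq_finsum_mem (f := fun v : Place K F => v.ord π)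
      {v : Place K F | 0 < v.ord π}
  have hsum2 : ∑ q : MulAction.orbitRel.Quotient G 𝒞, (Nat.card q.orbit : ℤ)
      = (Module.finrank K⟮π⟯ F : ℤ) := by
    rw [← hcard, Nat.card_congr (MulAction.selfEquivSigmaOrbits' G 𝒞), Nat.card_sigma]
    push_cast
    rfl
  -- a section of `Φ`
  set s := Function.surjInv hΦsurj with hs
  have hs_inj : Function.Injective s := Function.injective_surjInv hΦsurj
  have hs_surj : Function.Surjective s := by
    by_contra hns
    have hne : Finset.univ.image s ≠ Finset.univ := by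
      intro heq
      apply hns
      intro q
      have : q ∈ Finset.univ.image s := by rw [heq]; exact Finset.mem_univ q
      obtain ⟨v, -, rfl⟩ := Finset.mem_image.1 this
      exact ⟨v, rfl⟩
    obtain ⟨q₀, hq₀⟩ : ∃ q₀, q₀ ∉ Finset.univ.image s := by
      by_contra hall
      push Not at hall
      exact hne (Finset.eq_univ_iff_forall.2 hall)
    have hqpos : ∀ q : MulAction.orbitRel.Quotient G 𝒞, (0 : ℤ) < (Nat.card q.orbit : ℤ) := by
      intro q
      induction q using Quotient.inductionOn' with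
      | h γ => exact_mod_cast horbpos γ
    have hlt : ∑ q ∈ Finset.univ.image s, (Nat.card q.orbit : ℤ)
        < ∑ q : MulAction.orbitRel.Quotient G 𝒞, (Nat.card q.orbit : ℤ) :=
      Finset.sum_lt_sum_of_subset (Finset.subset_univ _) (Finset.mem_univ q₀) hq₀ (hqpos q₀)
        (fun j _ _ => (hqpos j).le)
    have hle' : ∑ v : {v : Place K F // 0 < v.ord π}, v.1.ord π
        ≤ ∑ q ∈ Finset.univ.image s, (Nat.card q.orbit : ℤ) := by
      rw [Finset.sum_image (fun a _ b _ hab => hs_inj hab)]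
      refine Finset.sum_le_sum fun v _ => ?_
      have := hΦle (s v)
      rwa [hs, Function.surjInv_eq hΦsurj v] at this
    rw [hsum1] at hle'
    rw [hsum2] at hlt
    exact absurd hle' (not_le.2 hlt)
  exact Nat.card_eq_of_bijective s ⟨hs_inj, hs_surj⟩

end Main

end Fermat.Agent.S24_Fiber
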