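import Fermat.Agent.S24_Defs

/-!
# S24: the ring `AN N` of nice holomorphic functions and its fraction field `EN N`

`AN N` = holomorphic functions on `ℍ` all of whose `SL₂(ℤ)`-translates are `N`-periodic and of
moderate growth at `i∞`.  `SL₂(ℤ)` acts on `AN N` (and on `EN N = Frac (AN N)`) by
`(tr g f) τ = f (g⁻¹ • τ)`.
-/

set_option autoImplicit false

noncomputable section

namespace Fermat.Agent.S24_Embed

open Fermat.Agent.S24_Defs ModularCurve UpperHalfPlane Filter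
open scoped MatrixGroups ModularForm Manifold Topology

/-- The fixed embedding `ℚ̄ → ℂ`. -/
def iotaC : Kbar →+* ℂ :=
  haveI : Algebra.IsAlgebraic ℚ Kbar := AlgebraicClosure.isAlgebraic ℚ
  (IsAlgClosed.lift (R := ℚ) (S := Kbar) (M := ℂ) : Kbar →ₐ[ℚ] ℂ).toRingHom

theorem iotaC_injective : Function.Injective iotaC := iotaC.injective

/-- Nice functions: holomorphic, and every `SL₂(ℤ)`-translate is `N`-periodic and of moderate
growth at `i∞`. -/
def IsNice (N : ℕ) (f : ℍ → ℂ) : Prop :=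
  MDiff f ∧ ∀ g : SL(2, ℤ), (∀ τ : ℍ, f (g • ((N : ℝ) +ᵥ τ)) = f (g • τ)) ∧
    ∃ m : ℕ, IsBoundedAtImInfty (fun τ : ℍ => f (g • τ) * (Function.Periodic.qParam 1 τ) ^ m)

theorem isBoundedAtImInfty_qParam_pow (k : ℕ) :
    IsBoundedAtImInfty (fun τ : ℍ => (Function.Periodic.qParam 1 τ) ^ k) := by
  rw [isBoundedAtImInfty_iff]
  refine ⟨1, 0, fun z _ => ?_⟩
  rw [norm_pow]
  refine pow_le_one₀ (norm_nonneg _) ?_
  rw [Function.Periodic.norm_qParam]
  rw [Real.exp_le_one_iff]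
  have := z.im_pos
  simp only [div_one, coe_im]
  nlinarith [Real.pi_pos]

theorem IsNice.const (N : ℕ) (c : ℂ) : IsNice N (fun _ => c) := by
  refine ⟨mdifferentiable_const, fun g => ⟨fun τ => rfl, 0, ?_⟩⟩
  simp only [pow_zero, mul_one]
  exact Filter.const_boundedAtFilter _ c

theorem IsNice.mul {N : ℕ} {f₁ f₂ : ℍ → ℂ} (h₁ : IsNice N f₁) (h₂ : IsNice N f₂) :
    IsNice N (f₁ * f₂) := by
  refine ⟨h₁.1.mul h₂.1, fun g => ⟨fun τ => ?_, ?_⟩⟩
  · simp only [Pi.mul_apply, (h₁.2 g).1 τ, (h₂.2 g).1 τ]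
  · obtain ⟨m₁, hm₁⟩ := (h₁.2 g).2
    obtain ⟨m₂, hm₂⟩ := (h₂.2 g).2
    refine ⟨m₁ + m₂, ?_⟩
    have := hm₁.mul hm₂
    have heq : (fun τ : ℍ => (f₁ * f₂) (g • τ) * (Function.Periodic.qParam 1 τ) ^ (m₁ + m₂))
        = (fun τ : ℍ => f₁ (g • τ) * Function.Periodic.qParam 1 ↑τ ^ m₁) * fun τ : ℍ =>
          f₂ (g • τ) * Function.Periodic.qParam 1 ↑τ ^ m₂ := by
      funext τ
      simp only [Pi.mul_apply]
      ring
    rw [heq]
    exact this

theorem IsNice.add {N : ℕ} {f₁ f₂ : ℍ → ℂ} (h₁ : IsNice N f₁) (h₂ : IsNice N f₂) :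
    IsNice N (f₁ + f₂) := by
  refine ⟨h₁.1.add h₂.1, fun g => ⟨fun τ => ?_, ?_⟩⟩
  · simp only [Pi.add_apply, (h₁.2 g).1 τ, (h₂.2 g).1 τ]
  · obtain ⟨m₁, hm₁⟩ := (h₁.2 g).2
    obtain ⟨m₂, hm₂⟩ := (h₂.2 g).2
    refine ⟨m₁ + m₂, ?_⟩
    have := (hm₁.mul (isBoundedAtImInfty_qParam_pow m₂)).add
      (hm₂.mul (isBoundedAtImInfty_qParam_pow m₁))
    have heq : (fun τ : ℍ => (f₁ + f₂) (g • τ) * (Function.Periodic.qParam 1 τ) ^ (m₁ + m₂))
        = ((fun τ : ℍ => f₁ (g • τ) * Function.Periodic.qParam 1 ↑τ ^ m₁) *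
            fun τ : ℍ => Function.Periodic.qParam 1 ↑τ ^ m₂) +
          (fun τ : ℍ => f₂ (g • τ) * Function.Periodic.qParam 1 ↑τ ^ m₂) *
            fun τ : ℍ => Function.Periodic.qParam 1 ↑τ ^ m₁ := by
      funext τ
      simp only [Pi.add_apply, Pi.mul_apply]
      ring
    rw [heq]
    exact this

/-- The `ℂ`-algebra of nice functions. -/
def AN (N : ℕ) : Subalgebra ℂ (ℍ → ℂ) where
  carrier := {f | IsNice N f}
  mul_mem' h₁ h₂ := h₁.mul h₂
  add_mem' h₁ h₂ := h₁.add h₂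
  algebraMap_mem' c := IsNice.const N c

theorem mem_AN {N : ℕ} {f : ℍ → ℂ} : f ∈ AN N ↔ IsNice N f := Iff.rfl

theorem AN_coe_mdiff {N : ℕ} (f : AN N) : MDiff (f : ℍ → ℂ) := f.2.1

theorem analyticOnNhd_comp_ofComplex {f : ℍ → ℂ} (hf : MDiff f) :
    AnalyticOnNhd ℂ (f ∘ ofComplex) upperHalfPlaneSet :=
  (UpperHalfPlane.mdifferentiable_iff.mp hf).analyticOnNhd isOpen_upperHalfPlaneSet

theorem isPreconnected_upperHalfPlaneSet : IsPreconnected upperHalfPlaneSet :=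
  (Complex.isConnected_of_upperHalfPlane subset_rfl (by grind)).isPreconnected

/-- A holomorphic function on `ℍ` which is not identically zero has isolated zeros. -/
theorem eventually_ne_zero {f : ℍ → ℂ} (hf : MDiff f) (hne : f ≠ 0) (τ : ℍ) :
    ∀ᶠ w in 𝓝[≠] (τ : ℂ), f (ofComplex w) ≠ 0 := by
  by_contra hcon
  rw [Filter.not_eventually] at hcon
  have h := (analyticOnNhd_comp_ofComplex hf).eqOn_zero_of_preconnected_of_frequently_eq_zero
    isPreconnected_upperHalfPlaneSet τ.im_pos (by simpa using hcon)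
  apply hne
  funext z
  have := h z.im_pos
  simpa [Function.comp_apply, ofComplex_apply] using this

instance (N : ℕ) : NoZeroDivisors (AN N) where
  eq_zero_or_eq_zero_of_mul_eq_zero := by
    intro a b hab
    by_contra hcon
    rw [not_or] at hcon
    obtain ⟨ha, hb⟩ := hcon
    have hab' : ∀ τ : ℍ, (a : ℍ → ℂ) τ * (b : ℍ → ℂ) τ = 0 := fun τ => by
      have := congrArg (fun x : AN N => (x : ℍ → ℂ) τ) hab
      simpa using this
    have h1 := eventually_ne_zero (AN_coe_mdiff a) (fun h => ha (Subtype.ext h)) UpperHalfPlane.I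
    have h2 := eventually_ne_zero (AN_coe_mdiff b) (fun h => hb (Subtype.ext h)) UpperHalfPlane.I
    have h3 : ∀ᶠ _w in 𝓝[≠] ((UpperHalfPlane.I : ℍ) : ℂ), False := by
      filter_upwards [h1, h2] with z hz1 hz2
      exact (mul_ne_zero hz1 hz2) (hab' _)
    exact (Filter.eventually_false_iff_eq_bot.mp h3 ▸
      (inferInstance : (𝓝[≠] ((UpperHalfPlane.I : ℍ) : ℂ)).NeBot)).ne rfl

instance (N : ℕ) : IsDomain (AN N) := NoZeroDivisors.to_isDomain _

/-- The field of fractions of `AN N`. -/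
abbrev EN (N : ℕ) : Type := FractionRing (AN N)

/-- Translation by `g`: `(tr g f) τ = f (g⁻¹ • τ)`. -/
def tr (N : ℕ) (g : SL(2, ℤ)) : AN N →ₐ[ℂ] AN N where
  toFun f := ⟨fun τ => (f : ℍ → ℂ) (g⁻¹ • τ), by
    obtain ⟨hd, hper⟩ := f.2
    refine ⟨?_, fun g' => ⟨fun τ => ?_, ?_⟩⟩
    · have h1 : MDiff (fun τ : ℍ => g⁻¹ • τ) := by
        have := UpperHalfPlane.mdifferentiable_smul (g := ((g⁻¹ : SL(2, ℤ)) : GL (Fin 2) ℝ))
          (by simp)
        exact this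
      exact hd.comp h1
    · have := (hper (g⁻¹ * g')).1 τ
      simpa [mul_smul] using this
    · obtain ⟨m, hm⟩ := (hper (g⁻¹ * g')).2
      exact ⟨m, by simpa [mul_smul] using hm⟩⟩
  map_one' := rfl
  map_mul' _ _ := rfl
  map_zero' := rfl
  map_add' _ _ := rfl
  commutes' _ := rfl

@[simp]
theorem tr_apply (N : ℕ) (g : SL(2, ℤ)) (f : AN N) (τ : ℍ) :
    (tr N g f : ℍ → ℂ) τ = (f : ℍ → ℂ) (g⁻¹ • τ) := rfl

theorem tr_one (N : ℕ) (f : AN N) : tr N 1 f = f := by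
  ext τ; simp

theorem tr_mul (N : ℕ) (g h : SL(2, ℤ)) (f : AN N) : tr N (g * h) f = tr N g (tr N h f) := by
  ext τ; simp [mul_smul]

theorem tr_injective (N : ℕ) (g : SL(2, ℤ)) : Function.Injective (tr N g) := by
  intro a b hab
  have : tr N g⁻¹ (tr N g a) = tr N g⁻¹ (tr N g b) := by rw [hab]
  rwa [← tr_mul, ← tr_mul, inv_mul_cancel, tr_one, tr_one] at this

/-- Translation by `g` on the fraction field. -/
def trE (N : ℕ) (g : SL(2, ℤ)) : EN N →+* EN N :=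
  IsFractionRing.lift (K := EN N) (g := (algebraMap (AN N) (EN N)).comp (tr N g).toRingHom)
    ((IsFractionRing.injective (AN N) (EN N)).comp (tr_injective N g))

@[simp]
theorem trE_algebraMap (N : ℕ) (g : SL(2, ℤ)) (f : AN N) :
    trE N g (algebraMap (AN N) (EN N) f) = algebraMap (AN N) (EN N) (tr N g f) :=
  IsFractionRing.lift_algebraMap _ f

theorem trE_one (N : ℕ) (x : EN N) : trE N 1 x = x := by
  obtain ⟨a, b, hb, rfl⟩ := IsFractionRing.div_surjective (A := AN N) x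
  simp [tr_one]

theorem trE_mul (N : ℕ) (g h : SL(2, ℤ)) (x : EN N) : trE N (g * h) x = trE N g (trE N h x) := by
  obtain ⟨a, b, hb, rfl⟩ := IsFractionRing.div_surjective (A := AN N) x
  simp [tr_mul]

/-- The `ℚ̄`-algebra structure on `EN N` (through the fixed embedding `iotaC`). -/
@[instance_reducible]
def algKE (N : ℕ) : Algebra Kbar (EN N) :=
  ((algebraMap (AN N) (EN N)).comp ((algebraMap ℂ (AN N)).comp iotaC)).toAlgebra

theorem algKE_algebraMap (N : ℕ) (a : Kbar) :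
    (algKE N).algebraMap a = algebraMap (AN N) (EN N) (algebraMap ℂ (AN N) (iotaC a)) := rfl

theorem trE_const (N : ℕ) (g : SL(2, ℤ)) (c : ℂ) :
    trE N g (algebraMap (AN N) (EN N) (algebraMap ℂ (AN N) c)) =
      algebraMap (AN N) (EN N) (algebraMap ℂ (AN N) c) := by
  rw [trE_algebraMap, AlgHom.commutes]

/-- Order of vanishing at `τ₀ ∈ ℍ` (as a rational number). -/
def ordAt (N : ℕ) (τ₀ : ℍ) (f : AN N) : ℚ :=
  ((meromorphicOrderAt (fun z : ℂ => (f : ℍ → ℂ) (ofComplex z)) (τ₀ : ℂ)).untop₀ : ℤ)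

/-- Order at `i∞` in the local parameter `q_N = exp (2πiτ/N)` (as a rational number). -/
def ordInf (N : ℕ) (f : AN N) : ℚ :=
  ((meromorphicOrderAt
    (Function.Periodic.cuspFunction (N : ℝ) (fun z : ℂ => (f : ℍ → ℂ) (ofComplex z))) 0).untop₀ : ℤ)

/-- Specification of the embedding `ι : F → EN N` of the function field into the field of
fractions of nice functions: `ℚ̄`-linear (through `iotaC`) and `Jd d ↦ jS d` for `d ∣ N`. -/
structure IotaSpec (N : ℕ) [NeZero N] where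
  ι : FF N →+* EN N
  hmem : ∀ d : ℕ, d ∣ N → jS d ∈ AN N
  hconst : ∀ a : Kbar, ι (algebraMap Kbar (FF N) a) =
    algebraMap (AN N) (EN N) (algebraMap ℂ (AN N) (iotaC a))
  hJ : ∀ (d : ℕ) (hd : d ∣ N),
    ι ⟨Jd d, Jd_mem N hd (ne_zero_of_dvd_ne_zero (NeZero.ne N) hd)⟩ =
      algebraMap (AN N) (EN N) ⟨jS d, hmem d hd⟩

end Fermat.Agent.S24_Embed

end
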