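import Fermat.Agent.S24_Conv
import Fermat.Agent.S24_Embed

/-!
# S24 (dictionary, `j`-specific part, relative to the `q`-expansion of `j`)

Everything here is stated under the hypothesis `HasSumJ` (the statement of
`S24_QExp.hasSum_jFun`): the formal series `Jd d = j(q^d)` converge on the punctured unit disc
and evaluate to `jS d = j(dτ)`; consequently a polynomial relation between the `Jd d` holds iff
it holds between the functions `jS d` (`qExpansion_principle_of`).
-/

set_option autoImplicit false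

noncomputable section

open Fermat.Agent.S24_Defs Fermat.Agent.S24_Embed ModularCurve AlgebraicCurve UpperHalfPlane
  IntermediateField
open scoped MatrixGroups ModularForm Manifold Topology

namespace Fermat.Agent.S24_Dict

open HahnSeries

/-- The statement of `S24_QExp.hasSum_jFun`: `q · j(τ) = ∑ jNum_n qⁿ`. -/
def HasSumJ : Prop :=
  ∀ τ : ℍ, HasSum
    (fun n : ℕ => ((PowerSeries.coeff n jNum : ℤ) : ℂ) * (Function.Periodic.qParam 1 τ) ^ n)
    (Function.Periodic.qParam 1 τ * jFun τ)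

section General

variable {R S : Type*} [CommRing R] [CommRing S]

theorem coeffMap_ofPowerSeries (f : R →+* S) (P : PowerSeries R) :
    coeffMap f (ofPowerSeries ℤ R P) = ofPowerSeries ℤ S (P.map f) := by
  ext n
  rw [coeffMap_coeff]
  by_cases hn : n < 0
  · rw [ofPowerSeries_coeff_of_neg _ hn, ofPowerSeries_coeff_of_neg _ hn, map_zero]
  · obtain ⟨k, rfl⟩ : ∃ k : ℕ, n = k := ⟨n.toNat, by omega⟩
    rw [ofPowerSeries_apply_coeff, ofPowerSeries_apply_coeff, PowerSeries.coeff_map]

theorem coeffMap_qExpand (f : R →+* S) (d : ℕ) [NeZero d] (A : LaurentSeries R) :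
    coeffMap f (qExpand R d A) = qExpand S d (coeffMap f A) := by
  ext n
  rw [coeffMap_coeff]
  by_cases hn : (d : ℤ) ∣ n
  · obtain ⟨k, rfl⟩ := hn
    rw [qExpand_coeff_mul, qExpand_coeff_mul, coeffMap_coeff]
  · rw [qExpand_coeff_of_not_dvd d A hn, qExpand_coeff_of_not_dvd d _ hn, map_zero]

end General

section Field

variable {K : Type*} [Field K] [Algebra ℚ K] (ι : K →+* ℂ)

theorem qParam_one_eq (z : ℂ) :
    Function.Periodic.qParam 1 z = Complex.exp (2 * Real.pi * Complex.I * z) := by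
  simp [Function.Periodic.qParam]

theorem coeffEmb_jq :
    coeffEmb K jq = single (-1 : ℤ) (1 : K) * ofPowerSeries ℤ K (jNumQ.map (algebraMap ℚ K)) := by
  unfold coeffEmb
  rw [jq, map_mul, coeffMap_single, map_one, coeffMap_ofPowerSeries]

theorem iota_coeff_jNumQ (n : ℕ) :
    ι (PowerSeries.coeff n (jNumQ.map (algebraMap ℚ K))) = ((PowerSeries.coeff n jNum : ℤ) : ℂ) := by
  rw [PowerSeries.coeff_map, jNumQ, PowerSeries.coeff_map]
  simp

/-- Under `HasSumJ`, the formal `j` is convergent. -/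
theorem conv_coeffEmb_jq (hJ : HasSumJ) : Conv ι (coeffEmb K jq) := by
  rw [coeffEmb_jq]
  refine conv_mul (conv_single _ _) (conv_ofPowerSeries _ fun x hx hx1 => ?_)
  obtain ⟨τ, hτ⟩ := exists_uhp_exp hx hx1
  have h := (hJ τ).summable
  rw [qParam_one_eq, hτ] at h
  refine h.congr fun n => ?_
  rw [iota_coeff_jNumQ]

/-- Under `HasSumJ`, the formal `j` evaluates to the analytic `j`. -/
theorem ev_coeffEmb_jq (hJ : HasSumJ) (τ : ℍ) :
    ev ι (Function.Periodic.qParam 1 τ) (coeffEmb K jq) = jFun τ := by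
  have hx : Function.Periodic.qParam 1 (τ : ℂ) ≠ 0 := Function.Periodic.qParam_ne_zero _
  have hx1 : ‖Function.Periodic.qParam 1 (τ : ℂ)‖ < 1 :=
    Function.Periodic.norm_qParam_lt_one one_pos τ.im_pos
  have hconv : Conv ι (ofPowerSeries ℤ K (jNumQ.map (algebraMap ℚ K))) := by
    refine conv_ofPowerSeries _ fun x hx hx1 => ?_
    obtain ⟨τ', hτ'⟩ := exists_uhp_exp hx hx1
    have h := (hJ τ').summable
    rw [qParam_one_eq, hτ'] at h
    refine h.congr fun n => ?_
    rw [iota_coeff_jNumQ]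
  rw [coeffEmb_jq, ev_mul (conv_single _ _) hconv hx hx1, ev_single, ev_ofPowerSeries, map_one,
    one_mul]
  have h := (hJ τ).tsum_eq
  have h2 : (∑' n : ℕ, ι (PowerSeries.coeff n (jNumQ.map (algebraMap ℚ K))) *
      Function.Periodic.qParam 1 (τ : ℂ) ^ n) = Function.Periodic.qParam 1 τ * jFun τ := by
    rw [← h]
    refine tsum_congr fun n => ?_
    rw [iota_coeff_jNumQ]
  rw [h2, zpow_neg_one, inv_mul_cancel_left₀ hx]

theorem qParam_pow (d : ℕ) (z : ℂ) :
    Function.Periodic.qParam 1 z ^ d = Function.Periodic.qParam 1 ((d : ℂ) * z) := by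
  rw [qParam_one_eq, qParam_one_eq, ← Complex.exp_nat_mul]
  congr 1; ring

theorem conv_coeffEmb_qExpand (hJ : HasSumJ) (d : ℕ) [NeZero d] :
    Conv ι (coeffEmb K (qExpand ℚ d jq)) := by
  unfold coeffEmb
  rw [coeffMap_qExpand]
  exact conv_qExpand d (conv_coeffEmb_jq ι hJ)

theorem ev_coeffEmb_qExpand (hJ : HasSumJ) (d : ℕ) [NeZero d] (τ : ℍ) :
    ev ι (Function.Periodic.qParam 1 τ) (coeffEmb K (qExpand ℚ d jq)) = jS d τ := by
  have h1 : coeffEmb K (qExpand ℚ d jq) = qExpand K d (coeffEmb K jq) := by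
    unfold coeffEmb
    rw [coeffMap_qExpand]
  rw [h1, ev_qExpand, qParam_pow, ← coe_dmul (NeZero.ne d) τ, ev_coeffEmb_jq ι hJ]
  simp [jS, NeZero.ne d]

end Field

/-! ### The generators `Jd d` over `ℚ̄` -/

theorem conv_Jd (hJ : HasSumJ) (d : ℕ) : Conv iotaC (Jd d) := by
  by_cases hd : d = 0
  · subst hd
    simpa [Jd] using conv_zero (ι := iotaC)
  · have : NeZero d := ⟨hd⟩
    rw [Jd_of_ne_zero]
    exact conv_coeffEmb_qExpand iotaC hJ d

theorem ev_Jd (hJ : HasSumJ) (d : ℕ) (τ : ℍ) :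
    ev iotaC (Function.Periodic.qParam 1 τ) (Jd d) = jS d τ := by
  by_cases hd : d = 0
  · subst hd
    simp [Jd, jS, ev_zero]
  · have : NeZero d := ⟨hd⟩
    rw [Jd_of_ne_zero]
    exact ev_coeffEmb_qExpand iotaC hJ d τ

/-- Polynomial expressions in the `Jd d` are convergent and evaluate to the corresponding
polynomial expressions in the `jS d`. -/
theorem conv_ev_aeval_Jd (hJ : HasSumJ) (P : MvPolynomial ℕ Kbar) :
    Conv iotaC (MvPolynomial.aeval Jd P) ∧ ∀ τ : ℍ,
      ev iotaC (Function.Periodic.qParam 1 τ) (MvPolynomial.aeval Jd P)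
        = MvPolynomial.eval₂ iotaC (fun d => jS d τ) P := by
  induction P using MvPolynomial.induction_on with
  | C a =>
    rw [MvPolynomial.aeval_C, algebraMap_laurentSeries_eq_single]
    refine ⟨conv_single _ _, fun τ => ?_⟩
    rw [ev_single, MvPolynomial.eval₂_C, zpow_zero, mul_one]
  | add p q hp hq =>
    rw [map_add]
    refine ⟨conv_add hp.1 hq.1, fun τ => ?_⟩
    rw [ev_add hp.1 hq.1 (Function.Periodic.qParam_ne_zero _)
      (Function.Periodic.norm_qParam_lt_one one_pos τ.im_pos), hp.2, hq.2, MvPolynomial.eval₂_add]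
  | mul_X p d hp =>
    rw [map_mul, MvPolynomial.aeval_X]
    refine ⟨conv_mul hp.1 (conv_Jd hJ d), fun τ => ?_⟩
    rw [ev_mul hp.1 (conv_Jd hJ d) (Function.Periodic.qParam_ne_zero _)
      (Function.Periodic.norm_qParam_lt_one one_pos τ.im_pos), hp.2, ev_Jd hJ,
      MvPolynomial.eval₂_mul, MvPolynomial.eval₂_X]

/-- **q-expansion principle** (relative to `HasSumJ`): a polynomial relation between the formal
series `Jd d = j(q^d)` (coefficients in `ℚ̄`) holds iff it holds between the functions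
`jS d = j(dτ)`, constants being embedded by `iotaC`. -/
theorem qExpansion_principle_of (hJ : HasSumJ) (P : MvPolynomial ℕ Kbar) :
    MvPolynomial.aeval Jd P = 0 ↔
      ∀ τ : ℍ, MvPolynomial.eval₂ iotaC (fun d => jS d τ) P = 0 := by
  obtain ⟨hc, he⟩ := conv_ev_aeval_Jd hJ P
  constructor
  · intro h τ
    rw [← he τ, h, ev_zero]
  · intro h
    refine eq_zero_of_ev_eq_zero hc fun x hx hx1 => ?_
    obtain ⟨τ, hτ⟩ := exists_uhp_exp hx hx1
    rw [← hτ, ← qParam_one_eq, he τ, h τ]

end Fermat.Agent.S24_Dict
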