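import Fermat.Agent.S24_Defs

/-!
# S24_QExp: the `q`-expansion principle for the `j`-function

* `HasDiscExp p G`: the power series `p` converges to `G` on the open unit disc.
  Closure under products, inverses; uniqueness; Taylor series of holomorphic functions.
* `hasSum_jFun`: `q · j(τ) = ∑ (jNum)ₙ qⁿ` with the formal coefficients of the Prelude.
-/

set_option autoImplicit false

noncomputable section

open Fermat.Agent.S24_Defs ModularCurve AlgebraicCurve UpperHalfPlane IntermediateField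
open scoped MatrixGroups ModularForm Manifold Topology

namespace Fermat.Agent.S24_QExp

open Filter

/-- `p` is the power series expansion of `G` on the open unit disc. -/
def HasDiscExp (p : PowerSeries ℂ) (G : ℂ → ℂ) : Prop :=
  ∀ q : ℂ, ‖q‖ < 1 → HasSum (fun n : ℕ => PowerSeries.coeff n p * q ^ n) (G q)

/-- The formal multilinear series attached to a power series. -/
def toFMS (p : PowerSeries ℂ) : FormalMultilinearSeries ℂ ℂ ℂ :=
  FormalMultilinearSeries.ofScalars ℂ (fun n => PowerSeries.coeff n p)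

theorem toFMS_injective : Function.Injective toFMS := by
  intro p p' h
  have := FormalMultilinearSeries.ofScalars_series_injective (𝕜 := ℂ) ℂ h
  ext n
  exact congrFun this n

theorem HasDiscExp.one_le_radius {p : PowerSeries ℂ} {G : ℂ → ℂ} (h : HasDiscExp p G) :
    1 ≤ (toFMS p).radius := by
  refine ENNReal.le_of_forall_nnreal_lt fun r hr => ?_
  have hr1 : (r : ℝ) < 1 := by exact_mod_cast hr
  have hs := (h (r : ℂ) (by simpa using hr1)).summable
  have ht := hs.norm.tendsto_atTop_zero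
  refine (toFMS p).le_radius_of_tendsto (l := 0) ?_
  refine ht.congr fun n => ?_
  simp [toFMS]

theorem eball_one : Metric.eball (0 : ℂ) 1 = Metric.ball 0 1 := by
  rw [← ENNReal.ofReal_one, Metric.eball_ofReal]

theorem HasDiscExp.hasFPowerSeriesOnBall {p : PowerSeries ℂ} {G : ℂ → ℂ} (h : HasDiscExp p G) :
    HasFPowerSeriesOnBall G (toFMS p) 0 1 where
  r_le := h.one_le_radius
  r_pos := one_pos
  hasSum := by
    intro y hy
    have hy' : ‖y‖ < 1 := by
      rw [eball_one] at hy
      simpa using hy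
    have := h y hy'
    simpa [toFMS, FormalMultilinearSeries.ofScalars_apply_eq, mul_comm] using this

theorem HasDiscExp.differentiableOn {p : PowerSeries ℂ} {G : ℂ → ℂ} (h : HasDiscExp p G) :
    DifferentiableOn ℂ G (Metric.ball 0 1) := by
  have := h.hasFPowerSeriesOnBall.differentiableOn
  rwa [eball_one] at this

theorem HasDiscExp.summable_norm {p : PowerSeries ℂ} {G : ℂ → ℂ} (h : HasDiscExp p G) {q : ℂ}
    (hq : ‖q‖ < 1) : Summable (fun n : ℕ => ‖PowerSeries.coeff n p * q ^ n‖) := by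
  have h1 : ((‖q‖₊ : NNReal) : ENNReal) < (toFMS p).radius :=
    lt_of_lt_of_le (by exact_mod_cast hq) h.one_le_radius
  have := (toFMS p).summable_norm_mul_pow h1
  refine this.congr fun n => ?_
  simp [toFMS]

theorem HasDiscExp.continuousOn {p : PowerSeries ℂ} {G : ℂ → ℂ} (h : HasDiscExp p G) :
    ContinuousOn G (Metric.ball 0 1) := h.differentiableOn.continuousOn

/-- Uniqueness of the expansion: it suffices that the functions agree on the punctured disc. -/
theorem HasDiscExp.unique {p p' : PowerSeries ℂ} {G G' : ℂ → ℂ} (h : HasDiscExp p G)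
    (h' : HasDiscExp p' G') (hG : ∀ q : ℂ, ‖q‖ < 1 → q ≠ 0 → G q = G' q) : p = p' := by
  have h0mem : (0 : ℂ) ∈ Metric.ball (0 : ℂ) 1 := by simp
  have hnhds : Metric.ball (0 : ℂ) 1 ∈ 𝓝 (0 : ℂ) := Metric.ball_mem_nhds _ one_pos
  have hc : ContinuousAt G 0 := h.continuousOn.continuousAt hnhds
  have hc' : ContinuousAt G' 0 := h'.continuousOn.continuousAt hnhds
  have hev : G =ᶠ[𝓝[≠] (0 : ℂ)] G' := by
    have : ∀ᶠ q in 𝓝[≠] (0 : ℂ), q ∈ Metric.ball (0 : ℂ) 1 := nhdsWithin_le_nhds hnhds
    filter_upwards [this, self_mem_nhdsWithin] with q hq hq0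
    exact hG q (by simpa using hq) hq0
  have h0 : G 0 = G' 0 := by
    have t1 : Tendsto G (𝓝[≠] (0 : ℂ)) (𝓝 (G 0)) := hc.tendsto.mono_left nhdsWithin_le_nhds
    have t2 : Tendsto G (𝓝[≠] (0 : ℂ)) (𝓝 (G' 0)) :=
      (hc'.tendsto.mono_left nhdsWithin_le_nhds).congr' hev.symm
    exact tendsto_nhds_unique t1 t2
  have hEq : Set.EqOn G G' (Metric.eball (0 : ℂ) 1) := by
    intro q hq
    rw [eball_one] at hq
    by_cases hq0 : q = 0
    · rw [hq0, h0]
    · exact hG q (by simpa using hq) hq0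
  have H1 := (h.hasFPowerSeriesOnBall.congr hEq).hasFPowerSeriesAt
  have H2 := h'.hasFPowerSeriesOnBall.hasFPowerSeriesAt
  exact toFMS_injective (H1.eq_formalMultilinearSeries H2)

theorem HasDiscExp.congr {p : PowerSeries ℂ} {G G' : ℂ → ℂ} (h : HasDiscExp p G)
    (hG : ∀ q : ℂ, ‖q‖ < 1 → G q = G' q) : HasDiscExp p G' := fun q hq => by
  rw [← hG q hq]; exact h q hq

theorem HasDiscExp.mul {p p' : PowerSeries ℂ} {G G' : ℂ → ℂ} (h : HasDiscExp p G)
    (h' : HasDiscExp p' G') : HasDiscExp (p * p') (fun q => G q * G' q) := by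
  intro q hq
  have hs := h.summable_norm hq
  have hs' := h'.summable_norm hq
  have hterm : ∀ n : ℕ, (∑ kl ∈ Finset.HasAntidiagonal.antidiagonal n,
      (PowerSeries.coeff kl.1 p * q ^ kl.1) * (PowerSeries.coeff kl.2 p' * q ^ kl.2))
      = PowerSeries.coeff n (p * p') * q ^ n := by
    intro n
    rw [PowerSeries.coeff_mul, Finset.sum_mul]
    refine Finset.sum_congr rfl fun kl hkl => ?_
    rw [← Finset.HasAntidiagonal.mem_antidiagonal.mp hkl, pow_add]
    ring
  have hsum := summable_norm_sum_mul_antidiagonal_of_summable_norm hs hs'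
  have htsum := tsum_mul_tsum_eq_tsum_sum_antidiagonal_of_summable_norm hs hs'
  have hS : Summable (fun n : ℕ => PowerSeries.coeff n (p * p') * q ^ n) := by
    have := hsum.of_norm
    exact this.congr hterm
  have hval : (∑' n : ℕ, PowerSeries.coeff n (p * p') * q ^ n) = G q * G' q := by
    rw [← (h q hq).tsum_eq, ← (h' q hq).tsum_eq, htsum]
    exact (tsum_congr hterm).symm
  show HasSum (fun n : ℕ => PowerSeries.coeff n (p * p') * q ^ n) (G q * G' q)
  rw [← hval]
  exact hS.hasSum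

theorem HasDiscExp.add {p p' : PowerSeries ℂ} {G G' : ℂ → ℂ} (h : HasDiscExp p G)
    (h' : HasDiscExp p' G') : HasDiscExp (p + p') (fun q => G q + G' q) := by
  intro q hq
  have := (h q hq).add (h' q hq)
  convert this using 2
  simp [add_mul]

theorem HasDiscExp.neg {p : PowerSeries ℂ} {G : ℂ → ℂ} (h : HasDiscExp p G) :
    HasDiscExp (-p) (fun q => -G q) := by
  intro q hq
  have := (h q hq).neg
  have e : (fun n : ℕ => PowerSeries.coeff n (-p) * q ^ n)
      = fun n => -(PowerSeries.coeff n p * q ^ n) := by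
    funext n; simp
  show HasSum (fun n : ℕ => PowerSeries.coeff n (-p) * q ^ n) (-G q)
  rw [e]; exact this

theorem HasDiscExp.sub {p p' : PowerSeries ℂ} {G G' : ℂ → ℂ} (h : HasDiscExp p G)
    (h' : HasDiscExp p' G') : HasDiscExp (p - p') (fun q => G q - G' q) := by
  have := h.add h'.neg
  simpa [sub_eq_add_neg] using this

/-- Polynomials. -/
theorem hasDiscExp_polynomial (P : Polynomial ℂ) :
    HasDiscExp (P : PowerSeries ℂ) (fun q => P.eval q) := by
  intro q _
  have h1 : ∀ n ∉ P.support, PowerSeries.coeff n (P : PowerSeries ℂ) * q ^ n = 0 := by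
    intro n hn
    rw [Polynomial.coeff_coe, Polynomial.notMem_support_iff.mp hn, zero_mul]
  have h2 : HasSum (fun n : ℕ => PowerSeries.coeff n (P : PowerSeries ℂ) * q ^ n)
      (∑ n ∈ P.support, PowerSeries.coeff n (P : PowerSeries ℂ) * q ^ n) :=
    hasSum_sum_of_ne_finset_zero h1
  have h3 : P.eval q = ∑ n ∈ P.support, PowerSeries.coeff n (P : PowerSeries ℂ) * q ^ n := by
    rw [Polynomial.eval_eq_sum, Polynomial.sum_def]
    refine Finset.sum_congr rfl fun n _ => ?_
    rw [Polynomial.coeff_coe]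
  show HasSum (fun n : ℕ => PowerSeries.coeff n (P : PowerSeries ℂ) * q ^ n) (P.eval q)
  rw [h3]; exact h2

theorem hasDiscExp_one : HasDiscExp 1 (fun _ => 1) := by
  have := hasDiscExp_polynomial (1 : Polynomial ℂ)
  simpa using this

theorem hasDiscExp_C (c : ℂ) : HasDiscExp (PowerSeries.C c) (fun _ => c) := by
  have := hasDiscExp_polynomial (Polynomial.C c)
  simpa using this

theorem HasDiscExp.pow {p : PowerSeries ℂ} {G : ℂ → ℂ} (h : HasDiscExp p G) (n : ℕ) :
    HasDiscExp (p ^ n) (fun q => G q ^ n) := by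
  induction n with
  | zero =>
    simp only [pow_zero]
    exact hasDiscExp_one
  | succ n ih =>
    have := ih.mul h
    simpa [pow_succ] using this

/-- The Taylor series at `0` of a function, as a power series. -/
def taylorPS (G : ℂ → ℂ) : PowerSeries ℂ :=
  PowerSeries.mk fun n => (n.factorial : ℂ)⁻¹ * iteratedDeriv n G 0

theorem hasDiscExp_taylorPS {G : ℂ → ℂ} (hG : DifferentiableOn ℂ G (Metric.ball 0 1)) :
    HasDiscExp (taylorPS G) G := by
  intro q hq
  have hq' : q ∈ Metric.ball (0 : ℂ) 1 := by simpa using hq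
  have := Complex.hasSum_taylorSeries_on_ball hG hq'
  have e : (fun n : ℕ => PowerSeries.coeff n (taylorPS G) * q ^ n)
      = fun n : ℕ => (n.factorial : ℂ)⁻¹ • (q - 0) ^ n • iteratedDeriv n G 0 := by
    funext n
    simp only [taylorPS, PowerSeries.coeff_mk, sub_zero, smul_eq_mul]
    ring
  rw [e]; exact this

theorem HasDiscExp.eq_taylorPS {p : PowerSeries ℂ} {G : ℂ → ℂ} (h : HasDiscExp p G) :
    p = taylorPS G :=
  h.unique (hasDiscExp_taylorPS h.differentiableOn) fun _ _ _ => rfl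

/-- Inverses. -/
theorem HasDiscExp.inv {p : PowerSeries ℂ} {G : ℂ → ℂ} (h : HasDiscExp p G)
    (hG : ∀ q : ℂ, ‖q‖ < 1 → G q ≠ 0) :
    HasDiscExp (taylorPS fun q => (G q)⁻¹) (fun q => (G q)⁻¹) ∧
      p * (taylorPS fun q => (G q)⁻¹) = 1 := by
  have hd : DifferentiableOn ℂ (fun q => (G q)⁻¹) (Metric.ball 0 1) :=
    h.differentiableOn.inv fun q hq => hG q (by simpa using hq)
  have h' := hasDiscExp_taylorPS hd
  refine ⟨h', ?_⟩
  refine (h.mul h').unique hasDiscExp_one fun q hq _ => ?_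
  exact mul_inv_cancel₀ (hG q hq)

/-- Cauchy's estimate for the coefficients. -/
theorem HasDiscExp.norm_coeff_le {p : PowerSeries ℂ} {G : ℂ → ℂ} (h : HasDiscExp p G)
    {r C : ℝ} (hr : 0 < r) (hr1 : r < 1) (hC : ∀ q : ℂ, ‖q‖ = r → ‖G q‖ ≤ C) (k : ℕ) :
    ‖PowerSeries.coeff k p‖ ≤ C / r ^ k := by
  have hsub : Metric.closedBall (0 : ℂ) r ⊆ Metric.ball 0 1 :=
    Metric.closedBall_subset_ball hr1
  have hd : DiffContOnCl ℂ G (Metric.ball 0 r) := h.differentiableOn.diffContOnCl_ball hsub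
  have hC' : ∀ z ∈ Metric.sphere (0 : ℂ) r, ‖G z‖ ≤ C := fun z hz => hC z (by simpa using hz)
  have hbound := Complex.norm_iteratedDeriv_le_of_forall_mem_sphere_norm_le k hr hd hC'
  rw [h.eq_taylorPS, taylorPS, PowerSeries.coeff_mk, norm_mul, norm_inv, Complex.norm_natCast]
  have hk : (0 : ℝ) < k.factorial := by exact_mod_cast Nat.factorial_pos k
  calc ((k.factorial : ℝ))⁻¹ * ‖iteratedDeriv k G 0‖
      ≤ ((k.factorial : ℝ))⁻¹ * (k.factorial * C / r ^ k) := by gcongr
    _ = C / r ^ k := by field_simp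

/-! ### The Euler product -/

/-- The analytic Euler function `∏ (1 - q^(n+1))`. -/
def eulerFun (q : ℂ) : ℂ := ∏' n : ℕ, (1 - q ^ (n + 1))

/-- Integer partial products of the formal Euler product. -/
def partProdZ (M : ℕ) : PowerSeries ℤ := ∏ n ∈ Finset.range M, (1 - PowerSeries.X ^ (n + 1))

theorem hasDiscExp_partProd (M : ℕ) :
    HasDiscExp ((partProdZ M).map (Int.castRingHom ℂ))
      (fun q => ∏ n ∈ Finset.range M, (1 - q ^ (n + 1))) := by
  induction M with
  | zero =>
    simp only [partProdZ, Finset.range_zero, Finset.prod_empty, map_one]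
    exact hasDiscExp_one
  | succ M ih =>
    have hfac : HasDiscExp (1 - PowerSeries.X ^ (M + 1)) (fun q : ℂ => 1 - q ^ (M + 1)) := by
      have := hasDiscExp_polynomial (1 - Polynomial.X ^ (M + 1))
      simpa using this
    have := ih.mul hfac
    have e : (partProdZ (M + 1)).map (Int.castRingHom ℂ)
        = (partProdZ M).map (Int.castRingHom ℂ) * (1 - PowerSeries.X ^ (M + 1)) := by
      simp [partProdZ, Finset.prod_range_succ]
    rw [e]
    refine this.congr fun q _ => ?_
    rw [Finset.prod_range_succ]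

open PowerSeries.WithPiTopology in
theorem coeff_partProdZ_eventually (k : ℕ) :
    ∀ᶠ M in atTop, PowerSeries.coeff k (partProdZ M) = PowerSeries.coeff k etaProd := by
  have h1 : Tendsto (fun M : ℕ => ∏ n ∈ Finset.range M, ((1 : PowerSeries ℤ) - PowerSeries.X ^ (n + 1)))
      atTop (𝓝 etaProd) :=
    (PowerSeries.WithPiTopology.multipliable_one_sub_X_pow ℤ).hasProd.tendsto_prod_nat
  have h2 := ((PowerSeries.WithPiTopology.continuous_coeff (R := ℤ) k).tendsto etaProd).comp h1
  rw [nhds_discrete, tendsto_pure] at h2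
  exact h2

theorem eulerFun_differentiableOn : DifferentiableOn ℂ eulerFun (Metric.ball 0 1) :=
  ModularForm.differentiableOn_tprod_one_sub_pow

theorem tendstoUniformlyOn_partProd {r : ℝ} (hr1 : r < 1) :
    TendstoUniformlyOn (fun (M : ℕ) (q : ℂ) => ∏ n ∈ Finset.range M, (1 - q ^ (n + 1)))
      eulerFun atTop (Metric.sphere (0 : ℂ) r) := by
  have h1 := ModularForm.multipliableLocallyUniformlyOn_one_sub_pow.hasProdLocallyUniformlyOn
  have h2 := h1.tendstoLocallyUniformlyOn_finsetRange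
  have hsub : Metric.sphere (0 : ℂ) r ⊆ Metric.ball 0 1 :=
    Metric.sphere_subset_closedBall.trans (Metric.closedBall_subset_ball hr1)
  have h3 := h2.mono hsub
  rwa [tendstoLocallyUniformlyOn_iff_tendstoUniformlyOn_of_compact (isCompact_sphere 0 r)] at h3

/-- The Taylor series of the analytic Euler product is the formal Euler product. -/
theorem hasDiscExp_eulerFun : HasDiscExp (etaProd.map (Int.castRingHom ℂ)) eulerFun := by
  have hp := hasDiscExp_taylorPS eulerFun_differentiableOn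
  suffices h : taylorPS eulerFun = etaProd.map (Int.castRingHom ℂ) by rw [← h]; exact hp
  ext k
  have hlim : Tendsto (fun M : ℕ => PowerSeries.coeff k ((partProdZ M).map (Int.castRingHom ℂ)))
      atTop (𝓝 (PowerSeries.coeff k (taylorPS eulerFun))) := by
    rw [Metric.tendsto_atTop]
    intro ε hε
    have hU := tendstoUniformlyOn_partProd (r := 1 / 2) (by norm_num)
    rw [Metric.tendstoUniformlyOn_iff] at hU
    have hε' : 0 < ε * (1 / 2 : ℝ) ^ k / 2 := by positivity
    obtain ⟨N, hN⟩ := (eventually_atTop.mp (hU _ hε'))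
    refine ⟨N, fun M hM => ?_⟩
    have hdiff := (hasDiscExp_partProd M).sub hp
    have hb := hdiff.norm_coeff_le (r := 1 / 2) (C := ε * (1 / 2 : ℝ) ^ k / 2) (by norm_num)
      (by norm_num) (fun q hq => by
        have := hN M hM q (by simpa using hq)
        rw [dist_comm, dist_eq_norm] at this
        exact this.le) k
    rw [dist_eq_norm, ← map_sub]
    calc ‖PowerSeries.coeff k ((partProdZ M).map (Int.castRingHom ℂ) - taylorPS eulerFun)‖
        ≤ ε * (1 / 2 : ℝ) ^ k / 2 / (1 / 2 : ℝ) ^ k := hb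
      _ = ε / 2 := by field_simp
      _ < ε := by linarith
  have hev : ∀ᶠ M in atTop, PowerSeries.coeff k ((partProdZ M).map (Int.castRingHom ℂ))
      = PowerSeries.coeff k (etaProd.map (Int.castRingHom ℂ)) := by
    filter_upwards [coeff_partProdZ_eventually k] with M hM
    simp [PowerSeries.coeff_map, hM]
  exact tendsto_nhds_unique hlim (tendsto_const_nhds.congr' (hev.mono fun M h => h.symm))

theorem eulerFun_ne_zero {q : ℂ} (hq : ‖q‖ < 1) : eulerFun q ≠ 0 := by
  have h1 : ∀ n : ℕ, 1 + -q ^ (n + 1) ≠ 0 := by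
    intro n h
    have h2 : q ^ (n + 1) = 1 := by linear_combination -h
    have h3 : ‖q‖ ^ (n + 1) = 1 := by rw [← norm_pow, h2, norm_one]
    have h4 : ‖q‖ ^ (n + 1) < 1 := pow_lt_one₀ (norm_nonneg _) hq (Nat.succ_ne_zero n)
    linarith
  have h2 : Summable fun n : ℕ => ‖-q ^ (n + 1)‖ := by
    simpa using (summable_nat_add_iff 1).mpr (summable_geometric_of_lt_one (norm_nonneg _) hq)
  have := tprod_one_add_ne_zero_of_summable h1 h2
  simpa [eulerFun, sub_eq_add_neg] using this

/-! ### The Eisenstein series `E₄` -/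

open ModularForm EisensteinSeries in
theorem qExpansion_E₄_coeff (n : ℕ) :
    PowerSeries.coeff n (qExpansion 1 ⇑E₄) = ((PowerSeries.coeff n eisenstein4 : ℤ) : ℂ) := by
  rw [E_qExpansion_coeff _ ⟨2, rfl⟩ n]
  simp only [eisenstein4, PowerSeries.coeff_mk]
  split_ifs with h
  · simp
  · rw [show bernoulli 4 = -1 / 30 by decide +kernel, ArithmeticFunction.sigma_apply]
    push_cast
    ring

open ModularForm EisensteinSeries in
theorem exists_hasDiscExp_E₄ :
    ∃ G : ℂ → ℂ, HasDiscExp (eisenstein4.map (Int.castRingHom ℂ)) G ∧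
      ∀ τ : ℍ, G (Function.Periodic.qParam 1 τ) = E₄ τ := by
  have hτ : ∀ τ : ℍ, HasSum (fun n : ℕ => PowerSeries.coeff n (eisenstein4.map (Int.castRingHom ℂ))
      * Function.Periodic.qParam 1 τ ^ n) (E₄ τ) := by
    intro τ
    have := ModularForm.hasSum_qExpansion E₄ one_pos one_mem_strictPeriods_SL τ
    convert this using 2 with n
    rw [qExpansion_E₄_coeff, PowerSeries.coeff_map]
    simp
  have hsum : ∀ q : ℂ, ‖q‖ < 1 → Summable (fun n : ℕ =>
      PowerSeries.coeff n (eisenstein4.map (Int.castRingHom ℂ)) * q ^ n) := by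
    intro q hq
    by_cases hq0 : q = 0
    · subst hq0
      refine summable_of_ne_finset_zero (s := {0}) fun n hn => ?_
      have hn' : n ≠ 0 := by simpa using hn
      simp [hn']
    · have him : 0 < (Function.Periodic.invQParam 1 q).im := by
        rw [Function.Periodic.im_invQParam]
        have hlog : Real.log ‖q‖ < 0 := Real.log_neg (norm_pos_iff.mpr hq0) hq
        have hpi : 0 < Real.pi := Real.pi_pos
        have : -(1 : ℝ) / (2 * Real.pi) < 0 := by
          apply div_neg_of_neg_of_pos <;> linarith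
        exact mul_pos_of_neg_of_neg this hlog
      have h := (hτ ⟨_, him⟩).summable
      have e : Function.Periodic.qParam 1 ((⟨_, him⟩ : ℍ) : ℂ) = q :=
        Function.Periodic.qParam_right_inv one_ne_zero hq0
      rwa [e] at h
  refine ⟨fun q => ∑' n : ℕ, PowerSeries.coeff n (eisenstein4.map (Int.castRingHom ℂ)) * q ^ n,
    fun q hq => (hsum q hq).hasSum, fun τ => (hτ τ).tsum_eq⟩

/-! ### The `j`-function -/

open ModularForm in
/-- The power series `jNum` converges on the unit disc to a function `G` with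
`G(q(τ)) = q(τ) · j(τ)`. -/
theorem exists_hasDiscExp_jNum :
    ∃ G : ℂ → ℂ, HasDiscExp (jNum.map (Int.castRingHom ℂ)) G ∧
      ∀ τ : ℍ, G (Function.Periodic.qParam 1 τ) = Function.Periodic.qParam 1 τ * jFun τ := by
  obtain ⟨G, hG, hGτ⟩ := exists_hasDiscExp_E₄
  have hE := hasDiscExp_eulerFun.pow 24
  obtain ⟨hinv, hmul⟩ := hE.inv fun q hq => pow_ne_zero 24 (eulerFun_ne_zero hq)
  have hid : taylorPS (fun q => (eulerFun q ^ 24)⁻¹)
      = dedekindEtaUnitInv.map (Int.castRingHom ℂ) := by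
    have h1 : (etaProd.map (Int.castRingHom ℂ)) ^ 24 * dedekindEtaUnitInv.map (Int.castRingHom ℂ)
        = 1 := by
      rw [← map_pow, ← map_mul]
      show (dedekindEtaUnit * dedekindEtaUnitInv).map _ = 1
      rw [dedekindEtaUnit_mul_inv, map_one]
    calc taylorPS (fun q => (eulerFun q ^ 24)⁻¹)
        = taylorPS (fun q => (eulerFun q ^ 24)⁻¹) * ((etaProd.map (Int.castRingHom ℂ)) ^ 24
            * dedekindEtaUnitInv.map (Int.castRingHom ℂ)) := by rw [h1, mul_one]
      _ = ((etaProd.map (Int.castRingHom ℂ)) ^ 24 * taylorPS (fun q => (eulerFun q ^ 24)⁻¹))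
            * dedekindEtaUnitInv.map (Int.castRingHom ℂ) := by ring
      _ = dedekindEtaUnitInv.map (Int.castRingHom ℂ) := by rw [hmul, one_mul]
  have hJ := (hG.pow 3).mul hinv
  rw [hid] at hJ
  have hj : (eisenstein4.map (Int.castRingHom ℂ)) ^ 3 * dedekindEtaUnitInv.map (Int.castRingHom ℂ)
      = jNum.map (Int.castRingHom ℂ) := by
    simp [jNum]
  rw [hj] at hJ
  refine ⟨_, hJ, fun τ => ?_⟩
  have hq1 : ‖Function.Periodic.qParam 1 (τ : ℂ)‖ < 1 :=
    Function.Periodic.norm_qParam_lt_one one_pos τ.im_pos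
  have hq0 : Function.Periodic.qParam 1 (τ : ℂ) ≠ 0 := Function.Periodic.qParam_ne_zero _
  have hprod : ∏' n : ℕ, (1 - eta_q n (τ : ℂ)) ^ 24
      = eulerFun (Function.Periodic.qParam 1 (τ : ℂ)) ^ 24 := by
    rw [eulerFun, ← (ModularForm.multipliable_one_sub_pow hq1).tprod_pow 24]
  have hne := eulerFun_ne_zero hq1
  show G (Function.Periodic.qParam 1 (τ : ℂ)) ^ 3
      * (eulerFun (Function.Periodic.qParam 1 (τ : ℂ)) ^ 24)⁻¹
      = Function.Periodic.qParam 1 (τ : ℂ) * jFun τ
  rw [hGτ, jFun, discriminant_eq_q_prod, hprod]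
  field_simp

/-- `q · j(τ) = ∑ (jNum)ₙ qⁿ`: the `q`-expansion of the analytic `j`-function is the formal
`q`-expansion of the Prelude. -/
theorem hasSum_jFun (τ : ℍ) :
    HasSum (fun n : ℕ => ((PowerSeries.coeff n jNum : ℤ) : ℂ) * (Function.Periodic.qParam 1 τ) ^ n)
      (Function.Periodic.qParam 1 τ * jFun τ) := by
  obtain ⟨G, hG, hGτ⟩ := exists_hasDiscExp_jNum
  have hq1 : ‖Function.Periodic.qParam 1 (τ : ℂ)‖ < 1 :=
    Function.Periodic.norm_qParam_lt_one one_pos τ.im_pos
  have := hG _ hq1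
  have e1 : (fun n : ℕ => PowerSeries.coeff n (jNum.map (Int.castRingHom ℂ))
      * Function.Periodic.qParam 1 (τ : ℂ) ^ n)
      = fun n : ℕ => ((PowerSeries.coeff n jNum : ℤ) : ℂ) * Function.Periodic.qParam 1 (τ : ℂ) ^ n := by
    funext n
    rw [PowerSeries.coeff_map]
    simp
  rw [e1, hGτ] at this
  exact this

/-- Variant of `hasSum_jFun` with the rational coefficients `jNumQ` and `exp (2πiτ)`. -/
theorem hasSum_jFun_rat (τ : ℍ) :
    HasSum (fun n : ℕ => ((PowerSeries.coeff n jNumQ : ℚ) : ℂ)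
        * Complex.exp (2 * Real.pi * Complex.I * τ) ^ n)
      (jFun τ * Complex.exp (2 * Real.pi * Complex.I * τ)) := by
  have h := hasSum_jFun τ
  have hq : Function.Periodic.qParam 1 (τ : ℂ) = Complex.exp (2 * Real.pi * Complex.I * τ) := by
    simp [Function.Periodic.qParam]
  rw [hq] at h
  have e : (fun n : ℕ => ((PowerSeries.coeff n jNumQ : ℚ) : ℂ)
        * Complex.exp (2 * Real.pi * Complex.I * τ) ^ n)
      = fun n : ℕ => ((PowerSeries.coeff n jNum : ℤ) : ℂ)
        * Complex.exp (2 * Real.pi * Complex.I * τ) ^ n := by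
    funext n
    rw [jNumQ, PowerSeries.coeff_map]
    simp
  rw [e, mul_comm (jFun τ)]
  exact h

/-! ### Convergent Laurent series and the `q`-expansion principle -/

theorem exists_qParam_eq {q : ℂ} (hq : ‖q‖ < 1) (hq0 : q ≠ 0) :
    ∃ τ : ℍ, Function.Periodic.qParam 1 (τ : ℂ) = q := by
  have him : 0 < (Function.Periodic.invQParam 1 q).im := by
    rw [Function.Periodic.im_invQParam]
    have hlog : Real.log ‖q‖ < 0 := Real.log_neg (norm_pos_iff.mpr hq0) hq
    have hpi : 0 < Real.pi := Real.pi_pos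
    have : -(1 : ℝ) / (2 * Real.pi) < 0 := by
      apply div_neg_of_neg_of_pos <;> linarith
    exact mul_pos_of_neg_of_neg this hlog
  exact ⟨⟨_, him⟩, Function.Periodic.qParam_right_inv one_ne_zero hq0⟩

/-- `f` is a Laurent series (with finite pole order) converging to `F` on `ℍ` via
`q = e^{2πiτ}`. -/
def LConv (f : LaurentSeries ℂ) (F : ℍ → ℂ) : Prop :=
  ∃ (m : ℕ) (p : PowerSeries ℂ) (G : ℂ → ℂ), HasDiscExp p G ∧
    f = HahnSeries.single (-(m : ℤ)) (1 : ℂ) * HahnSeries.ofPowerSeries ℤ ℂ p ∧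
    ∀ τ : ℍ, G (Function.Periodic.qParam 1 τ) = (Function.Periodic.qParam 1 τ) ^ m * F τ

theorem hasDiscExp_X_pow (m : ℕ) : HasDiscExp (PowerSeries.X ^ m) (fun q => q ^ m) := by
  have := hasDiscExp_polynomial (Polynomial.X ^ m)
  simpa using this

theorem single_neg_mul_single (a b : ℤ) :
    HahnSeries.single a (1 : ℂ) * HahnSeries.single b (1 : ℂ) = HahnSeries.single (a + b) (1 : ℂ) := by
  rw [HahnSeries.single_mul_single, one_mul]

theorem LConv.const (c : ℂ) : LConv (algebraMap ℂ (LaurentSeries ℂ) c) (fun _ => c) := by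
  refine ⟨0, PowerSeries.C c, fun _ => c, hasDiscExp_C c, ?_, fun τ => by simp⟩
  rw [algebraMap_laurentSeries_eq_single, HahnSeries.ofPowerSeries_C]
  show HahnSeries.single 0 c = HahnSeries.single (-((0 : ℕ) : ℤ)) (1 : ℂ) * HahnSeries.single 0 c
  rw [HahnSeries.single_mul_single]
  simp

theorem LConv.mul {f f' : LaurentSeries ℂ} {F F' : ℍ → ℂ} (h : LConv f F) (h' : LConv f' F') :
    LConv (f * f') (fun τ => F τ * F' τ) := by
  obtain ⟨m, p, G, hG, rfl, hτ⟩ := h
  obtain ⟨m', p', G', hG', rfl, hτ'⟩ := h'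
  refine ⟨m + m', p * p', _, hG.mul hG', ?_, fun τ => ?_⟩
  · rw [map_mul]
    have hidx : (-((m + m' : ℕ) : ℤ)) = -(m : ℤ) + -(m' : ℤ) := by push_cast; ring
    have : HahnSeries.single (-((m + m' : ℕ) : ℤ)) (1 : ℂ)
        = HahnSeries.single (-(m : ℤ)) (1 : ℂ) * HahnSeries.single (-(m' : ℤ)) (1 : ℂ) := by
      rw [single_neg_mul_single, hidx]
    rw [this]; ring
  · show G _ * G' _ = _
    rw [hτ, hτ']; ring

theorem LConv.add {f f' : LaurentSeries ℂ} {F F' : ℍ → ℂ} (h : LConv f F) (h' : LConv f' F') :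
    LConv (f + f') (fun τ => F τ + F' τ) := by
  obtain ⟨m, p, G, hG, rfl, hτ⟩ := h
  obtain ⟨m', p', G', hG', rfl, hτ'⟩ := h'
  refine ⟨m + m', PowerSeries.X ^ m' * p + PowerSeries.X ^ m * p', _,
    ((hasDiscExp_X_pow m').mul hG).add ((hasDiscExp_X_pow m).mul hG'), ?_, fun τ => ?_⟩
  · rw [map_add, map_mul, map_mul, HahnSeries.ofPowerSeries_X_pow, HahnSeries.ofPowerSeries_X_pow]
    have hidx1 : (-((m + m' : ℕ) : ℤ)) + (m' : ℤ) = -(m : ℤ) := by push_cast; ring
    have hidx2 : (-((m + m' : ℕ) : ℤ)) + (m : ℤ) = -(m' : ℤ) := by push_cast; ring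
    have e1 : HahnSeries.single (-((m + m' : ℕ) : ℤ)) (1 : ℂ) * HahnSeries.single (m' : ℤ) (1 : ℂ)
        = HahnSeries.single (-(m : ℤ)) (1 : ℂ) := by
      rw [single_neg_mul_single, hidx1]
    have e2 : HahnSeries.single (-((m + m' : ℕ) : ℤ)) (1 : ℂ) * HahnSeries.single (m : ℤ) (1 : ℂ)
        = HahnSeries.single (-(m' : ℤ)) (1 : ℂ) := by
      rw [single_neg_mul_single, hidx2]
    rw [mul_add, ← mul_assoc, ← mul_assoc, e1, e2]
  · show _ ^ m' * G _ + _ ^ m * G' _ = _
    rw [hτ, hτ']; ring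

/-- A convergent Laurent series vanishes iff the function it represents vanishes. -/
theorem LConv.eq_zero_iff {f : LaurentSeries ℂ} {F : ℍ → ℂ} (h : LConv f F) :
    f = 0 ↔ ∀ τ, F τ = 0 := by
  obtain ⟨m, p, G, hG, rfl, hτ⟩ := h
  have hunit : ∀ x : LaurentSeries ℂ,
      HahnSeries.single (-(m : ℤ)) (1 : ℂ) * x = 0 ↔ x = 0 := by
    intro x
    constructor
    · intro hx
      have h1 : HahnSeries.single (m : ℤ) (1 : ℂ) * (HahnSeries.single (-(m : ℤ)) (1 : ℂ) * x) = 0 := by
        rw [hx, mul_zero]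
      rw [← mul_assoc, single_neg_mul_single, add_neg_cancel] at h1
      have h2 : HahnSeries.single (0 : ℤ) (1 : ℂ) = 1 := rfl
      rwa [h2, one_mul] at h1
    · rintro rfl; simp
  rw [hunit]
  constructor
  · intro hp τ
    have hp0 : p = 0 := HahnSeries.ofPowerSeries_injective (Γ := ℤ) (by rw [hp, map_zero])
    subst hp0
    have hq1 : ‖Function.Periodic.qParam 1 (τ : ℂ)‖ < 1 :=
      Function.Periodic.norm_qParam_lt_one one_pos τ.im_pos
    have hG0 : G (Function.Periodic.qParam 1 (τ : ℂ)) = 0 := by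
      have h1 := hG _ hq1
      have h2 : HasSum (fun n : ℕ => PowerSeries.coeff n (0 : PowerSeries ℂ)
          * Function.Periodic.qParam 1 (τ : ℂ) ^ n) 0 := by
        simp
      exact h1.unique h2
    have h3 := hτ τ
    rw [hG0] at h3
    exact (mul_eq_zero.mp h3.symm).resolve_left
      (pow_ne_zero m (Function.Periodic.qParam_ne_zero _))
  · intro hF
    have hp : p = 0 := by
      refine hG.unique (p' := 0) (G' := fun _ => 0) ?_ ?_
      · intro q hq
        simp
      · intro q hq hq0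
        obtain ⟨τ, rfl⟩ := exists_qParam_eq hq hq0
        rw [hτ, hF, mul_zero]
    rw [hp, map_zero]

/-- The power series `p(X^d)`. -/
def expandPS (d : ℕ) (p : PowerSeries ℂ) : PowerSeries ℂ :=
  PowerSeries.mk fun k => if d ∣ k then PowerSeries.coeff (k / d) p else 0

theorem HasDiscExp.expand {p : PowerSeries ℂ} {G : ℂ → ℂ} (h : HasDiscExp p G) {d : ℕ}
    (hd : d ≠ 0) : HasDiscExp (expandPS d p) (fun q => G (q ^ d)) := by
  intro q hq
  have hqd : ‖q ^ d‖ < 1 := by
    rw [norm_pow]; exact pow_lt_one₀ (norm_nonneg _) hq hd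
  have h1 := h (q ^ d) hqd
  have hinj : Function.Injective (fun n : ℕ => d * n) :=
    fun a b hab => Nat.eq_of_mul_eq_mul_left (Nat.pos_of_ne_zero hd) hab
  rw [← hinj.hasSum_iff]
  · have e : ((fun k : ℕ => PowerSeries.coeff k (expandPS d p) * q ^ k) ∘ fun n : ℕ => d * n)
        = fun n : ℕ => PowerSeries.coeff n p * (q ^ d) ^ n := by
      funext n
      simp [expandPS, hd, pow_mul]
    rw [e]; exact h1
  · intro k hk
    have : ¬ d ∣ k := fun ⟨n, hn⟩ => hk ⟨n, hn.symm⟩
    simp [expandPS, this]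

theorem JdC_eq (d : ℕ) (hd : d ≠ 0) :
    JdC d = HahnSeries.single (-(d : ℤ)) (1 : ℂ) *
      HahnSeries.ofPowerSeries ℤ ℂ (expandPS d (jNum.map (Int.castRingHom ℂ))) := by
  have : NeZero d := ⟨hd⟩
  have hJ : JdC d = coeffEmb ℂ (qExpand ℚ d jq) := by simp [JdC, hd]
  rw [hJ]
  ext k
  rw [coeffEmb_coeff, HahnSeries.coeff_single_mul, one_mul, sub_neg_eq_add]
  have hdpos : (0 : ℤ) < d := by exact_mod_cast Nat.pos_of_ne_zero hd
  by_cases hk : (d : ℤ) ∣ k
  · obtain ⟨j, rfl⟩ := hk
    rw [qExpand_coeff_mul, jq, HahnSeries.coeff_single_mul, one_mul, sub_neg_eq_add]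
    by_cases hj : j + 1 < 0
    · rw [ofPowerSeries_coeff_of_neg _ hj, ofPowerSeries_coeff_of_neg _ (by nlinarith)]
      simp
    · obtain ⟨n, hn⟩ := Int.eq_ofNat_of_zero_le (not_lt.mp hj)
      rw [hn, HahnSeries.ofPowerSeries_apply_coeff]
      have e : (d : ℤ) * j + d = ((d * n : ℕ) : ℤ) := by push_cast; rw [← hn]; ring
      rw [e, HahnSeries.ofPowerSeries_apply_coeff]
      simp [expandPS, hd, jNumQ, PowerSeries.coeff_map]
  · rw [qExpand_coeff_of_not_dvd d _ hk, map_zero]
    by_cases hneg : k + d < 0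
    · rw [ofPowerSeries_coeff_of_neg _ hneg]
    · obtain ⟨n, hn⟩ := Int.eq_ofNat_of_zero_le (not_lt.mp hneg)
      rw [hn, HahnSeries.ofPowerSeries_apply_coeff]
      have hnd : ¬ d ∣ n := by
        rintro ⟨c, hc⟩
        apply hk
        refine ⟨(c : ℤ) - 1, ?_⟩
        have : (n : ℤ) = (d : ℤ) * c := by exact_mod_cast hc
        linarith
      simp [expandPS, hnd]

theorem lconv_JdC (d : ℕ) : LConv (JdC d) (jS d) := by
  by_cases hd : d = 0
  · subst hd
    have := LConv.const 0
    have e1 : JdC 0 = algebraMap ℂ (LaurentSeries ℂ) 0 := by simp [JdC]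
    have e2 : jS 0 = fun _ => (0 : ℂ) := by funext τ; simp [jS]
    rw [e1, e2]; exact this
  · obtain ⟨G, hG, hGτ⟩ := exists_hasDiscExp_jNum
    refine ⟨d, expandPS d _, _, hG.expand hd, JdC_eq d hd, fun τ => ?_⟩
    have hq : Function.Periodic.qParam 1 ((dmul d τ : ℍ) : ℂ)
        = (Function.Periodic.qParam 1 (τ : ℂ)) ^ d := by
      rw [coe_dmul hd]
      simp only [Function.Periodic.qParam, ← Complex.exp_nat_mul]
      congr 1
      push_cast; ring
    show G (_ ^ d) = _
    rw [← hq, hGτ, jS, if_neg hd]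

theorem lconv_aeval (P : MvPolynomial ℕ ℂ) :
    LConv (MvPolynomial.aeval JdC P) (fun τ => MvPolynomial.eval (fun d => jS d τ) P) := by
  induction P using MvPolynomial.induction_on with
  | C a =>
    have := LConv.const a
    simpa using this
  | add p q hp hq =>
    have := hp.add hq
    simpa using this
  | mul_X p n hp =>
    have := hp.mul (lconv_JdC n)
    simpa using this

/-- q-expansion principle: a polynomial relation between the `j(q^d)` holds formally iff it holds
for the analytic functions `j(dτ)`. -/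
theorem qExpansion_principle (P : MvPolynomial ℕ ℂ) :
    MvPolynomial.aeval JdC P = 0 ↔ ∀ τ : ℍ, MvPolynomial.eval (fun d => jS d τ) P = 0 :=
  (lconv_aeval P).eq_zero_iff

theorem coeffMap_Jd (ι₀ : Kbar →+* ℂ) (d : ℕ) : coeffMap ι₀ (Jd d) = JdC d := by
  by_cases hd : d = 0
  · simp [Jd, JdC, hd]
  · simp only [Jd, JdC, hd, dite_false, coeffEmb]
    rw [coeffMap_coeffMap]
    exact coeffMap_congr (RingHom.ext_rat _ _) _

end Fermat.Agent.S24_QExp
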