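import Fermat.Agent.S24_Embed
import Fermat.Agent.S24_DictOf
import Fermat.Agent.S24_QExp

/-!
# S24: construction of the embedding `ι : F → EN N` from the q-expansion principle

`nonempty_iotaSpec_of`: if all `jS d` (`d ∣ N`) are nice functions, an `IotaSpec N` exists.
-/

set_option autoImplicit false

noncomputable section

namespace Fermat.Agent.S24_IotaOf

open Fermat.Agent.S24_Defs Fermat.Agent.S24_Embed ModularCurve AlgebraicCurve UpperHalfPlane
  IntermediateField
open scoped MatrixGroups ModularForm Manifold Topology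

/-- The generators of the function field, indexed by all of `ℕ` (`0` outside the divisors). -/
def gen (N : ℕ) (d : ℕ) : LaurentSeries Kbar := if d ∣ N then Jd d else 0

theorem gen_of_dvd {N d : ℕ} (h : d ∣ N) : gen N d = Jd d := by simp [gen, h]

theorem coeffEmb_algebraMap (c : ℚ) :
    coeffEmb Kbar (algebraMap ℚ (LaurentSeries ℚ) c) =
      algebraMap Kbar (LaurentSeries Kbar) (algebraMap ℚ Kbar c) := by
  rw [algebraMap_laurentSeries_eq_single, algebraMap_laurentSeries_eq_single, coeffEmb,
    coeffMap_single]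

/-- The function field is generated over `ℚ̄` by the `Jd d`, `d ∣ N`. -/
theorem modularFunctionFieldBar_eq (N : ℕ) [NeZero N] :
    modularFunctionFieldBar N = IntermediateField.adjoin Kbar (Set.range (gen N)) := by
  have key : ∀ y : LaurentSeries ℚ, y ∈ IntermediateField.adjoin ℚ (divisorExpansions N) →
      coeffEmb Kbar y ∈ IntermediateField.adjoin Kbar (Set.range (gen N)) := by
    intro y hy
    induction hy using IntermediateField.adjoin_induction with
    | mem x hx =>
      obtain ⟨d, hne, hd, rfl⟩ := hx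
      have := hne
      apply IntermediateField.subset_adjoin
      refine ⟨d, ?_⟩
      rw [gen_of_dvd hd, Jd_of_ne_zero]
    | algebraMap c =>
      rw [coeffEmb_algebraMap]
      exact IntermediateField.algebraMap_mem _ _
    | add x y _ _ hx hy => rw [map_add]; exact add_mem hx hy
    | inv x _ hx => rw [map_inv₀]; exact inv_mem hx
    | mul x y _ _ hx hy => rw [map_mul]; exact mul_mem hx hy
  apply le_antisymm
  · rw [modularFunctionFieldBar, laurentBaseChange, IntermediateField.adjoin_le_iff]
    rintro _ ⟨y, hy, rfl⟩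
    exact key y hy
  · rw [IntermediateField.adjoin_le_iff]
    rintro _ ⟨d, rfl⟩
    by_cases hd : d ∣ N
    · rw [gen_of_dvd hd]
      exact Jd_mem N hd (ne_zero_of_dvd_ne_zero (NeZero.ne N) hd)
    · simp only [gen, hd, if_false]
      exact zero_mem _

section Construction

variable (N : ℕ) [NeZero N] (hmem : ∀ d : ℕ, d ∣ N → jS d ∈ AN N)

/-- analytic generators -/
def genA (d : ℕ) : AN N := if h : d ∣ N then ⟨jS d, hmem d h⟩ else 0

/-- the analytic evaluation `ℚ̄[X_d] → AN N` -/
def evA : MvPolynomial ℕ Kbar →+* AN N :=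
  MvPolynomial.eval₂Hom ((algebraMap ℂ (AN N)).comp iotaC) (genA N hmem)

/-- the formal evaluation `ℚ̄[X_d] → ℚ̄((q))` -/
def evF : MvPolynomial ℕ Kbar →ₐ[Kbar] LaurentSeries Kbar := MvPolynomial.aeval (gen N)

/-- substitution killing the variables outside the divisors of `N` -/
def restr : MvPolynomial ℕ Kbar →ₐ[Kbar] MvPolynomial ℕ Kbar :=
  MvPolynomial.bind₁ (fun d => if d ∣ N then MvPolynomial.X d else 0)

theorem evF_eq (P : MvPolynomial ℕ Kbar) : evF N P = MvPolynomial.aeval Jd (restr N P) := by
  rw [restr, MvPolynomial.aeval_bind₁, evF]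
  have : gen N = fun i => (MvPolynomial.aeval Jd)
      (if i ∣ N then (MvPolynomial.X i : MvPolynomial ℕ Kbar) else 0) := by
    funext d
    by_cases hd : d ∣ N <;> simp [gen, hd]
  rw [this]

theorem evA_apply (P : MvPolynomial ℕ Kbar) (τ : ℍ) :
    (evA N hmem P : ℍ → ℂ) τ =
      MvPolynomial.eval₂ iotaC (fun d => jS d τ) (restr N P) := by
  have h1 : (evA N hmem P : ℍ → ℂ) τ =
      ((Pi.evalRingHom (fun _ : ℍ => ℂ) τ).comp (AN N).val.toRingHom) (evA N hmem P) := rfl
  rw [h1, evA, MvPolynomial.coe_eval₂Hom, MvPolynomial.eval₂_comp_left]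
  have h2 : MvPolynomial.eval₂ iotaC (fun d => jS d τ) (restr N P) =
      MvPolynomial.eval₂Hom iotaC (fun d => jS d τ) (restr N P) := rfl
  rw [h2, restr, MvPolynomial.eval₂Hom_bind₁, MvPolynomial.coe_eval₂Hom]
  congr 1
  funext d
  by_cases hd : d ∣ N
  · simp [genA, hd]
  · simp [genA, hd]

theorem evF_eq_zero_iff (P : MvPolynomial ℕ Kbar) : evF N P = 0 ↔ evA N hmem P = 0 := by
  rw [evF_eq, S24_Dict.qExpansion_principle_of S24_QExp.hasSum_jFun]
  constructor
  · intro h
    apply Subtype.ext
    funext τ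
    rw [evA_apply, h τ]
    rfl
  · intro h τ
    rw [← evA_apply N hmem, h]
    rfl

end Construction

section Lift

open IntermediateField.algebraAdjoinAdjoin

variable (N : ℕ) [NeZero N] (hmem : ∀ d : ℕ, d ∣ N → jS d ∈ AN N)

theorem exists_evF_eq (a : Algebra.adjoin Kbar (Set.range (gen N))) :
    ∃ P : MvPolynomial ℕ Kbar, evF N P = (a : LaurentSeries Kbar) := by
  have h : (a : LaurentSeries Kbar) ∈ (MvPolynomial.aeval (R := Kbar) (gen N)).range := by
    rw [← Algebra.adjoin_range_eq_range_aeval]
    exact a.2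
  exact h

/-- the ring hom `ℚ̄[Jd d] → AN N`, `Jd d ↦ jS d` -/
def theta (a : Algebra.adjoin Kbar (Set.range (gen N))) : AN N :=
  evA N hmem (exists_evF_eq N a).choose

theorem theta_spec (a : Algebra.adjoin Kbar (Set.range (gen N))) (P : MvPolynomial ℕ Kbar)
    (hP : evF N P = (a : LaurentSeries Kbar)) : theta N hmem a = evA N hmem P := by
  have h1 := (exists_evF_eq N a).choose_spec
  have : evF N ((exists_evF_eq N a).choose - P) = 0 := by rw [map_sub, h1, hP, sub_self]
  rw [evF_eq_zero_iff N hmem, map_sub, sub_eq_zero] at this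
  exact this

/-- `theta` as a ring hom -/
def thetaHom : Algebra.adjoin Kbar (Set.range (gen N)) →+* AN N where
  toFun := theta N hmem
  map_one' := by
    rw [theta_spec N hmem 1 1 (by simp)]; simp
  map_mul' a b := by
    obtain ⟨P, hP⟩ := exists_evF_eq N a
    obtain ⟨Q, hQ⟩ := exists_evF_eq N b
    rw [theta_spec N hmem (a * b) (P * Q) (by simp [hP, hQ]), theta_spec N hmem a P hP,
      theta_spec N hmem b Q hQ, map_mul]
  map_zero' := by
    rw [theta_spec N hmem 0 0 (by simp)]; simp
  map_add' a b := by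
    obtain ⟨P, hP⟩ := exists_evF_eq N a
    obtain ⟨Q, hQ⟩ := exists_evF_eq N b
    rw [theta_spec N hmem (a + b) (P + Q) (by simp [hP, hQ]), theta_spec N hmem a P hP,
      theta_spec N hmem b Q hQ, map_add]

theorem thetaHom_apply (a : Algebra.adjoin Kbar (Set.range (gen N))) (P : MvPolynomial ℕ Kbar)
    (hP : evF N P = (a : LaurentSeries Kbar)) : thetaHom N hmem a = evA N hmem P :=
  theta_spec N hmem a P hP

theorem thetaHom_injective : Function.Injective (thetaHom N hmem) := by
  rw [injective_iff_map_eq_zero]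
  intro a ha
  obtain ⟨P, hP⟩ := exists_evF_eq N a
  have h0 : evA N hmem P = 0 := by rw [← thetaHom_apply N hmem a P hP]; exact ha
  rw [← evF_eq_zero_iff] at h0
  apply Subtype.ext
  rw [← hP, h0]
  rfl

/-- the embedding on `ℚ̄(Jd d : d ∣ N)` -/
def iotaAdj : ↥(IntermediateField.adjoin Kbar (Set.range (gen N))) →+* EN N :=
  IsFractionRing.lift (A := Algebra.adjoin Kbar (Set.range (gen N)))
    (g := (algebraMap (AN N) (EN N)).comp (thetaHom N hmem))
    ((IsFractionRing.injective (AN N) (EN N)).comp (thetaHom_injective N hmem))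

theorem iotaAdj_apply (a : Algebra.adjoin Kbar (Set.range (gen N))) :
    iotaAdj N hmem (algebraMap (Algebra.adjoin Kbar (Set.range (gen N)))
      (IntermediateField.adjoin Kbar (Set.range (gen N))) a) =
      algebraMap (AN N) (EN N) (thetaHom N hmem a) :=
  IsFractionRing.lift_algebraMap _ a

/-- the embedding `ι : F → EN N` -/
def iota : FF N →+* EN N :=
  (iotaAdj N hmem).comp
    (IntermediateField.inclusion (le_of_eq (modularFunctionFieldBar_eq N))).toRingHom

theorem iota_apply (x : FF N) :
    iota N hmem x = iotaAdj N hmem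
      (IntermediateField.inclusion (le_of_eq (modularFunctionFieldBar_eq N)) x) := rfl

theorem iota_eq (x : FF N) (P : MvPolynomial ℕ Kbar) (hP : evF N P = (x : LaurentSeries Kbar)) :
    iota N hmem x = algebraMap (AN N) (EN N) (evA N hmem P) := by
  have hmemP : evF N P ∈ Algebra.adjoin Kbar (Set.range (gen N)) := by
    rw [Algebra.adjoin_range_eq_range_aeval]
    exact ⟨P, rfl⟩
  have h1 : IntermediateField.inclusion (le_of_eq (modularFunctionFieldBar_eq N)) x =
      algebraMap (Algebra.adjoin Kbar (Set.range (gen N)))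
        (IntermediateField.adjoin Kbar (Set.range (gen N))) ⟨evF N P, hmemP⟩ := by
    apply Subtype.ext
    rw [IntermediateField.coe_inclusion, IntermediateField.algebraAdjoinAdjoin.coe_algebraMap]
    exact hP.symm
  rw [iota_apply, h1, iotaAdj_apply, thetaHom_apply N hmem _ P rfl]

/-- **Existence of the embedding.** -/
theorem nonempty_iotaSpec_of (N : ℕ) [NeZero N] (hmem : ∀ d : ℕ, d ∣ N → jS d ∈ AN N) :
    Nonempty (IotaSpec N) := by
  refine ⟨⟨iota N hmem, hmem, ?_, ?_⟩⟩
  · intro a
    rw [iota_eq N hmem _ (MvPolynomial.C a) (by simp [evF])]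
    simp [evA]
  · intro d hd
    rw [iota_eq N hmem _ (MvPolynomial.X d) (by simp [evF, gen, hd])]
    simp [evA, genA, hd]

end Lift

end Fermat.Agent.S24_IotaOf

end
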