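import Fermat.Agent.S24_IotaMem
import Fermat.Agent.S24_IotaOf
set_option autoImplicit false
open Fermat.Agent.S24_Defs Fermat.Agent.S24_Embed

/-!
# S24_Iota (helper2): existence of the embedding datum `IotaSpec N`

Combines `S24_Iota.jS_mem` (helper1, `S24_IotaMem.lean`) with
`S24_IotaOf.nonempty_iotaSpec_of` (the q-expansion principle construction).
-/

namespace Fermat.Agent.S24_Iota

theorem nonempty_iotaSpec (N : ℕ) [NeZero N] : Nonempty (IotaSpec N) :=
  Fermat.Agent.S24_IotaOf.nonempty_iotaSpec_of N (fun _ hd => jS_mem N hd)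

end Fermat.Agent.S24_Iota
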