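import Mathlib
import Fermat.Agent.S24_Defs
import Fermat.Agent.S24_Embed
import Fermat.Agent.S24_JFun

/-!
# S24_Ord: the valuations `ordAt`, `ordInf` on the ring `AN N` of nice functions

Interface module of the S24 project (helper4).  Statements as in the team table:
`ordAt_mul`, `ordAt_add`, `ordAt_const`, `ordAt_tr`, `ordAt_int`, `ordAt_I_even`,
`ordAt_rho_three`, `ordInf_mul`, `ordInf_add`, `ordInf_const`, `ordInf_tr_T`, `ordInf_dvd`,
`ordAt_jS_generic`, `ordAt_jS_I`, `ordAt_jS_rho`, `ordInf_jS`.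
-/

set_option autoImplicit false

noncomputable section

open Fermat.Agent.S24_Defs Fermat.Agent.S24_Embed ModularCurve UpperHalfPlane Filter
open scoped MatrixGroups ModularForm Manifold Topology Real

namespace Fermat.Agent.S24_Ord

variable {N : ℕ}

/-! ### Generalities on the germ of a nice function at a point of `ℍ` -/

/-- The function on `ℂ` attached to `a : AN N`. -/
def germ (a : AN N) : ℂ → ℂ := fun z : ℂ => (a : ℍ → ℂ) (ofComplex z)

theorem ordAt_def (τ₀ : ℍ) (a : AN N) :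
    ordAt N τ₀ a = ((meromorphicOrderAt (germ a) (τ₀ : ℂ)).untop₀ : ℤ) := rfl

theorem analyticAt_germ (a : AN N) (τ₀ : ℍ) : AnalyticAt ℂ (germ a) (τ₀ : ℂ) :=
  analyticOnNhd_comp_ofComplex (AN_coe_mdiff a) τ₀ τ₀.im_pos

theorem meromorphicAt_germ (a : AN N) (τ₀ : ℍ) : MeromorphicAt (germ a) (τ₀ : ℂ) :=
  (analyticAt_germ a τ₀).meromorphicAt

theorem coe_ne_zero {a : AN N} (ha : a ≠ 0) : (a : ℍ → ℂ) ≠ 0 :=
  fun h => ha (Subtype.ext h)

theorem meromorphicOrderAt_germ_ne_top {a : AN N} (ha : a ≠ 0) (τ₀ : ℍ) :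
    meromorphicOrderAt (germ a) (τ₀ : ℂ) ≠ ⊤ := by
  intro htop
  rw [meromorphicOrderAt_eq_top_iff] at htop
  have h1 := eventually_ne_zero (AN_coe_mdiff a) (coe_ne_zero ha) τ₀
  have h3 : ∀ᶠ _w in 𝓝[≠] (τ₀ : ℂ), False := by
    filter_upwards [h1, htop] with z hz1 hz2
    exact hz1 hz2
  exact (Filter.eventually_false_iff_eq_bot.mp h3 ▸
    (inferInstance : (𝓝[≠] (τ₀ : ℂ)).NeBot)).ne rfl

theorem germ_mul (a b : AN N) : germ (a * b) = germ a * germ b := rfl

theorem germ_add (a b : AN N) : germ (a + b) = germ a + germ b := rfl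

theorem germ_const (c : ℂ) : germ (algebraMap ℂ (AN N) c) = fun _ => c := rfl

theorem ordAt_mul (τ₀ : ℍ) (a b : AN N) (ha : a ≠ 0) (hb : b ≠ 0) :
    ordAt N τ₀ (a * b) = ordAt N τ₀ a + ordAt N τ₀ b := by
  simp only [ordAt_def, germ_mul]
  rw [meromorphicOrderAt_mul (meromorphicAt_germ a τ₀) (meromorphicAt_germ b τ₀),
    WithTop.untop₀_add (meromorphicOrderAt_germ_ne_top ha τ₀)
      (meromorphicOrderAt_germ_ne_top hb τ₀)]
  push_cast
  rfl

theorem ordAt_add (τ₀ : ℍ) (a b : AN N) (ha : a ≠ 0) (hb : b ≠ 0) (hab : a + b ≠ 0) :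
    min (ordAt N τ₀ a) (ordAt N τ₀ b) ≤ ordAt N τ₀ (a + b) := by
  simp only [ordAt_def, germ_add]
  have h := meromorphicOrderAt_add (meromorphicAt_germ a τ₀) (meromorphicAt_germ b τ₀)
  have hab' := meromorphicOrderAt_germ_ne_top hab τ₀
  rw [germ_add] at hab'
  obtain ⟨m, hm⟩ := WithTop.ne_top_iff_exists.mp (meromorphicOrderAt_germ_ne_top ha τ₀)
  obtain ⟨n, hn⟩ := WithTop.ne_top_iff_exists.mp (meromorphicOrderAt_germ_ne_top hb τ₀)
  obtain ⟨k, hk⟩ := WithTop.ne_top_iff_exists.mp hab'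
  rw [← hm, ← hn, ← hk] at h
  rw [← hm, ← hn, ← hk]
  simp only [WithTop.untop₀_coe]
  have h' : min m n ≤ k := by exact_mod_cast h
  exact_mod_cast h'

theorem ordAt_const (τ₀ : ℍ) (c : ℂ) (hc : c ≠ 0) :
    ordAt N τ₀ (algebraMap ℂ (AN N) c) = 0 := by
  classical
  rw [ordAt_def, germ_const, meromorphicOrderAt_const]
  simp [hc]

theorem det_coe_pos (g : SL(2, ℤ)) : 0 < (g : GL (Fin 2) ℝ).val.det := by
  have hdet : (g : GL (Fin 2) ℝ).val.det = 1 := by
    rw [← Matrix.GeneralLinearGroup.val_det_apply]; simp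
  rw [hdet]; exact one_pos

theorem ordAt_tr (τ₀ : ℍ) (g : SL(2, ℤ)) (a : AN N) :
    ordAt N τ₀ (tr N g a) = ordAt N (g⁻¹ • τ₀) a := by
  rw [ordAt_def, ordAt_def]
  have h := UpperHalfPlane.meromorphicOrderAt_comp_smul (f := (a : ℍ → ℂ)) (τ := τ₀)
    (g := ((g⁻¹ : SL(2, ℤ)) : GL (Fin 2) ℝ)) (det_coe_pos g⁻¹)
  exact congrArg (fun x : WithTop ℤ => ((x.untop₀ : ℤ) : ℚ)) h

theorem ordAt_int (τ₀ : ℍ) (a : AN N) : ∃ k : ℤ, ordAt N τ₀ a = k := ⟨_, rfl⟩

/-! ### Invariant germs at elliptic points -/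

/-- If `f ∘ φ = f` near a fixed point `x` of `φ` and `f` has finite order `m` at `x`, then
`φ'(x) ^ m = 1`. -/
theorem pow_deriv_eq_one_of_comp_eq {f φ : ℂ → ℂ} {x : ℂ} {m : ℕ}
    (hf : AnalyticAt ℂ f x) (hm : analyticOrderAt f x = m)
    (hφ : DifferentiableAt ℂ φ x) (hφx : φ x = x)
    (hinv : ∀ᶠ w in 𝓝 x, f (φ w) = f w) : deriv φ x ^ m = 1 := by
  obtain ⟨h, hh, hhx, hfh⟩ := hf.analyticOrderAt_eq_natCast.mp hm
  have hψ : ContinuousAt (dslope φ x) x := continuousAt_dslope_same.mpr hφ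
  have hφt : Tendsto φ (𝓝 x) (𝓝 x) := by
    have := hφ.continuousAt.tendsto
    rwa [hφx] at this
  have e1 : ∀ᶠ w in 𝓝 x, f (φ w) = (φ w - x) ^ m • h (φ w) := hφt.eventually hfh
  have e2 : ∀ᶠ w in 𝓝[≠] x, dslope φ x w ^ m * h (φ w) = h w := by
    have e3 : ∀ᶠ w in 𝓝[≠] x, w ≠ x := self_mem_nhdsWithin
    filter_upwards [e1.filter_mono nhdsWithin_le_nhds, hfh.filter_mono nhdsWithin_le_nhds,
      hinv.filter_mono nhdsWithin_le_nhds, e3] with w h1 h2 h3 h4
    have h5 : φ w - x = (w - x) * dslope φ x w := by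
      have := sub_smul_dslope φ x w
      rw [hφx] at this
      rw [← this, smul_eq_mul]
    rw [h3, h2, h5, mul_pow] at h1
    simp only [smul_eq_mul] at h1
    have h6 : (w - x) ^ m ≠ 0 := pow_ne_zero _ (sub_ne_zero.mpr h4)
    have h7 : (w - x) ^ m * (dslope φ x w ^ m * h (φ w)) = (w - x) ^ m * h w := by
      linear_combination -h1
    exact mul_left_cancel₀ h6 h7
  have t1 : Tendsto (fun w => dslope φ x w ^ m * h (φ w)) (𝓝[≠] x)
      (𝓝 (dslope φ x x ^ m * h x)) := by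
    have c1 : Tendsto (fun w => dslope φ x w ^ m) (𝓝 x) (𝓝 (dslope φ x x ^ m)) :=
      (hψ.tendsto).pow m
    have c2 : Tendsto (fun w => h (φ w)) (𝓝 x) (𝓝 (h x)) := hh.continuousAt.tendsto.comp hφt
    exact (c1.mul c2).mono_left nhdsWithin_le_nhds
  have t2 : Tendsto h (𝓝[≠] x) (𝓝 (h x)) := hh.continuousAt.tendsto.mono_left nhdsWithin_le_nhds
  have e4 := tendsto_nhds_unique_of_eventuallyEq t1 t2 e2
  rw [dslope_same] at e4
  have e5 : (deriv φ x ^ m - 1) * h x = 0 := by linear_combination e4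
  rcases mul_eq_zero.mp e5 with h0 | h0
  · exact sub_eq_zero.mp h0
  · exact absurd h0 hhx

/-- For nonzero `a`, the order `ordAt` is the (finite) analytic order of the germ. -/
theorem exists_analyticOrderAt_eq {a : AN N} (ha : a ≠ 0) (τ₀ : ℍ) :
    ∃ m : ℕ, analyticOrderAt (germ a) (τ₀ : ℂ) = m ∧ ordAt N τ₀ a = m := by
  have h1 := (analyticAt_germ a τ₀).meromorphicOrderAt_eq
  have h2 := meromorphicOrderAt_germ_ne_top ha τ₀
  have h3 : analyticOrderAt (germ a) (τ₀ : ℂ) ≠ ⊤ := by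
    intro h
    rw [h] at h1
    exact h2 (by rw [h1]; rfl)
  obtain ⟨m, hm⟩ := ENat.ne_top_iff_exists.mp h3
  refine ⟨m, hm.symm, ?_⟩
  rw [ordAt_def, h1, ← hm]
  simp

/-- The germ of `a` composed with the action of `g` when `a` is `g`-invariant. -/
theorem germ_comp_smul_eq {a : AN N} {g : SL(2, ℤ)} (hinv : tr N g a = a) (τ₀ : ℍ) :
    ∀ᶠ w in 𝓝 (τ₀ : ℂ), germ a (((g : GL (Fin 2) ℝ) • ofComplex w : ℍ) : ℂ) = germ a w := by
  filter_upwards [isOpen_upperHalfPlaneSet.mem_nhds τ₀.im_pos] with w hw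
  unfold germ
  rw [ofComplex_apply]
  have h1 : (tr N g a : ℍ → ℂ) (g • ofComplex w) = (a : ℍ → ℂ) (g • ofComplex w) := by rw [hinv]
  rw [tr_apply, inv_smul_smul] at h1
  exact h1.symm

/-- `S`-invariant germs at `I` have even order (`S'(I) = -1`). -/
theorem ordAt_I_even (a : AN N) (ha : a ≠ 0) (hinv : tr N ModularGroup.S a = a) :
    ∃ k : ℤ, ordAt N UpperHalfPlane.I a = 2 * k := by
  obtain ⟨m, hm, hord⟩ := exists_analyticOrderAt_eq ha UpperHalfPlane.I
  have hd := UpperHalfPlane.hasStrictDerivAt_smul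
    (g := ((ModularGroup.S : SL(2, ℤ)) : GL (Fin 2) ℝ)) (det_coe_pos _) UpperHalfPlane.I
  have hfix : (((ModularGroup.S : GL (Fin 2) ℝ) • ofComplex ((UpperHalfPlane.I : ℍ) : ℂ) : ℍ) : ℂ)
      = ((UpperHalfPlane.I : ℍ) : ℂ) := by
    rw [ofComplex_apply]
    exact congrArg _ Fermat.Agent.S24_JFun.S_smul_I
  have hpow := pow_deriv_eq_one_of_comp_eq (analyticAt_germ a UpperHalfPlane.I) hm
    hd.hasDerivAt.differentiableAt hfix (germ_comp_smul_eq hinv UpperHalfPlane.I)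
  rw [hd.hasDerivAt.deriv] at hpow
  have hdet : ((ModularGroup.S : SL(2, ℤ)) : GL (Fin 2) ℝ).val.det = 1 := by
    rw [← Matrix.GeneralLinearGroup.val_det_apply]; simp
  have hden : denom ((ModularGroup.S : SL(2, ℤ)) : GL (Fin 2) ℝ) (UpperHalfPlane.I : ℍ)
      = Complex.I := ModularGroup.denom_S _
  rw [hdet, hden, Complex.I_sq] at hpow
  have hneg : ((1 : ℝ) : ℂ) / -1 = -1 := by norm_num
  rw [hneg] at hpow
  have heven : Even m := (neg_one_pow_eq_one_iff_even (by norm_num)).mp hpow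
  obtain ⟨k, hk⟩ := heven
  refine ⟨k, ?_⟩
  rw [hord, hk]
  push_cast
  ring

theorem rho_cube : ((rho : ℍ) : ℂ) ^ 3 = 1 := by
  linear_combination ((rho : ℂ) - 1) * Fermat.Agent.S24_JFun.rho_sq_add

theorem three_dvd_of_rho_pow {m : ℕ} (h : ((rho : ℍ) : ℂ) ^ m = 1) : 3 ∣ m := by
  have hr := Fermat.Agent.S24_JFun.rho_sq_add
  have h3 := rho_cube
  have hm : m = 3 * (m / 3) + m % 3 := (Nat.div_add_mod m 3).symm
  rw [hm, pow_add, pow_mul, h3, one_pow, one_mul] at h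
  have hlt : m % 3 < 3 := Nat.mod_lt _ (by norm_num)
  interval_cases hmod : m % 3
  · exact Nat.dvd_of_mod_eq_zero hmod
  · exfalso
    rw [pow_one] at h
    rw [h] at hr
    norm_num at hr
  · exfalso
    have h2 : ((rho : ℍ) : ℂ) = -2 := by linear_combination hr - h
    rw [h2] at h
    norm_num at h

/-- `ST`-invariant germs at `rho` have order divisible by 3. -/
theorem ordAt_rho_three (a : AN N) (ha : a ≠ 0)
    (hinv : tr N (ModularGroup.S * ModularGroup.T) a = a) :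
    ∃ k : ℤ, ordAt N rho a = 3 * k := by
  obtain ⟨m, hm, hord⟩ := exists_analyticOrderAt_eq ha rho
  have hd := UpperHalfPlane.hasStrictDerivAt_smul
    (g := ((ModularGroup.S * ModularGroup.T : SL(2, ℤ)) : GL (Fin 2) ℝ)) (det_coe_pos _) rho
  have hfix : ((((ModularGroup.S * ModularGroup.T : SL(2, ℤ)) : GL (Fin 2) ℝ) •
      ofComplex ((rho : ℍ) : ℂ) : ℍ) : ℂ) = ((rho : ℍ) : ℂ) := by
    rw [ofComplex_apply]
    exact congrArg _ Fermat.Agent.S24_JFun.ST_smul_rho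
  have hpow := pow_deriv_eq_one_of_comp_eq (analyticAt_germ a rho) hm
    hd.hasDerivAt.differentiableAt hfix (germ_comp_smul_eq hinv rho)
  rw [hd.hasDerivAt.deriv] at hpow
  have hdet : ((ModularGroup.S * ModularGroup.T : SL(2, ℤ)) : GL (Fin 2) ℝ).val.det = 1 := by
    rw [← Matrix.GeneralLinearGroup.val_det_apply]; simp
  have hden : denom ((ModularGroup.S * ModularGroup.T : SL(2, ℤ)) : GL (Fin 2) ℝ) (rho : ℍ)
      = (rho : ℂ) + 1 := Fermat.Agent.S24_JFun.denom_ST_rho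
  have hr := Fermat.Agent.S24_JFun.rho_sq_add
  have hsq : ((rho : ℂ) + 1) ^ 2 = (rho : ℂ) := by linear_combination hr
  rw [hdet, hden, hsq] at hpow
  have hrho0 : ((rho : ℍ) : ℂ) ≠ 0 := by
    intro h0
    rw [h0] at hr
    norm_num at hr
  have hpow' : ((rho : ℍ) : ℂ) ^ m = 1 := by
    rw [Complex.ofReal_one, div_pow, one_pow] at hpow
    have := (div_eq_one_iff_eq (pow_ne_zero m hrho0)).mp hpow
    exact this.symm
  obtain ⟨k, hk⟩ := three_dvd_of_rho_pow hpow'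
  refine ⟨k, ?_⟩
  rw [hord, hk]
  push_cast
  ring

/-! ### The cusp function of a nice function -/

section Cusp

variable [NeZero N]

local notation "𝕢" => Function.Periodic.qParam

theorem N_pos : (0 : ℝ) < (N : ℝ) := by exact_mod_cast Nat.pos_of_ne_zero (NeZero.ne N)

theorem N_ne_zero : (N : ℝ) ≠ 0 := N_pos.ne'

omit [NeZero N] in
/-- The germ of a nice function is `N`-periodic. -/
theorem germ_periodic (a : AN N) : Function.Periodic (germ a) ((N : ℝ) : ℂ) := by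
  intro w
  unfold germ
  by_cases hw : 0 < w.im
  · have hw' : 0 < (w + ((N : ℝ) : ℂ)).im := by simpa using hw
    rw [ofComplex_apply_of_im_pos hw', ofComplex_apply_of_im_pos hw]
    have h1 := (a.2.2 1).1 ⟨w, hw⟩
    simp only [one_smul] at h1
    have h2 : (⟨w + ((N : ℝ) : ℂ), hw'⟩ : ℍ) = (N : ℝ) +ᵥ (⟨w, hw⟩ : ℍ) := by
      apply UpperHalfPlane.ext
      simp [add_comm]
    rw [h2, h1]
  · have hw1 : w.im ≤ 0 := not_lt.mp hw
    have hw' : (w + ((N : ℝ) : ℂ)).im ≤ 0 := by simpa using hw1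
    rw [ofComplex_apply_of_im_nonpos hw', ofComplex_apply_of_im_nonpos hw1]

/-- The cusp function (in the parameter `q_N`) of a nice function. -/
def cusp (a : AN N) : ℂ → ℂ := Function.Periodic.cuspFunction (N : ℝ) (germ a)

omit [NeZero N] in
theorem ordInf_def (a : AN N) :
    ordInf N a = ((meromorphicOrderAt (cusp a) 0).untop₀ : ℤ) := rfl

theorem cusp_qParam (a : AN N) (z : ℂ) : cusp a (𝕢 (N : ℝ) z) = germ a z :=
  Function.Periodic.eq_cuspFunction N_ne_zero (germ_periodic a) z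

omit [NeZero N] in
theorem cusp_of_ne_zero (a : AN N) {q : ℂ} (hq : q ≠ 0) :
    cusp a q = germ a (Function.Periodic.invQParam (N : ℝ) q) :=
  Function.Periodic.cuspFunction_eq_of_nonzero _ _ hq

theorem qParam_pow_N (z : ℂ) : 𝕢 (N : ℝ) z ^ N = 𝕢 1 z := by
  unfold Function.Periodic.qParam
  rw [← Complex.exp_nat_mul]
  congr 1
  have : (N : ℂ) ≠ 0 := by exact_mod_cast NeZero.ne N
  push_cast
  field_simp

theorem eventually_punctured_disc : ∀ᶠ q : ℂ in 𝓝[≠] 0, q ≠ 0 ∧ ‖q‖ < 1 := by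
  have h1 : ∀ᶠ q : ℂ in 𝓝[≠] 0, q ≠ 0 := self_mem_nhdsWithin
  have h2 : ∀ᶠ q : ℂ in 𝓝[≠] 0, ‖q‖ < 1 := by
    have : ∀ᶠ q : ℂ in 𝓝 0, ‖q‖ < 1 := by
      have := Metric.ball_mem_nhds (0 : ℂ) one_pos
      filter_upwards [this] with q hq
      simpa using hq
    exact this.filter_mono nhdsWithin_le_nhds
  filter_upwards [h1, h2] with q hq1 hq2 using ⟨hq1, hq2⟩

theorem im_inv_pos {q : ℂ} (hq : q ≠ 0) (hq1 : ‖q‖ < 1) :
    0 < (Function.Periodic.invQParam (N : ℝ) q).im :=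
  Function.Periodic.im_invQParam_pos_of_norm_lt_one N_pos hq1 hq

theorem qParam_inv {q : ℂ} (hq : q ≠ 0) :
    𝕢 (N : ℝ) (Function.Periodic.invQParam (N : ℝ) q) = q :=
  Function.Periodic.qParam_right_inv N_ne_zero hq

omit [NeZero N] in
theorem qParam_one_add_nat (w : ℂ) (n : ℕ) : 𝕢 1 (w + ((n : ℝ) : ℂ)) = 𝕢 1 w := by
  unfold Function.Periodic.qParam
  have : 2 * (π : ℂ) * Complex.I * (w + ((n : ℝ) : ℂ)) / ((1 : ℝ) : ℂ)
      = 2 * π * Complex.I * w / ((1 : ℝ) : ℂ) + n * (2 * π * Complex.I) := by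
    push_cast; ring
  rw [this, Complex.exp_add, Complex.exp_nat_mul_two_pi_mul_I, mul_one]

omit [NeZero N] in
theorem mdifferentiable_qParam_pow (m : ℕ) : MDiff (fun τ : ℍ => 𝕢 1 (τ : ℂ) ^ m) := by
  rw [UpperHalfPlane.mdifferentiable_iff]
  have h1 : DifferentiableOn ℂ (fun w : ℂ => 𝕢 1 w ^ m) upperHalfPlaneSet :=
    ((Function.Periodic.differentiable_qParam (h := 1)).pow m).differentiableOn
  refine h1.congr fun w hw => ?_
  simp only [Function.comp_apply, ofComplex_apply_of_im_pos hw]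

/-- Near `0`, the cusp function is an analytic function divided by a power of `q`. -/
theorem exists_analytic_cusp (a : AN N) :
    ∃ (m : ℕ) (H : ℂ → ℂ), AnalyticAt ℂ H 0 ∧
      ∀ q : ℂ, q ≠ 0 → ‖q‖ < 1 → H q = cusp a q * q ^ (N * m) := by
  obtain ⟨m, hm⟩ := (a.2.2 1).2
  simp only [one_smul] at hm
  set h : ℍ → ℂ := fun τ => (a : ℍ → ℂ) τ * 𝕢 1 τ ^ m with hh
  have hper : Function.Periodic (h ∘ ofComplex) ((N : ℝ) : ℂ) := by
    intro w
    simp only [Function.comp_apply, hh]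
    by_cases hw : 0 < w.im
    · have hw' : 0 < (w + ((N : ℝ) : ℂ)).im := by simpa using hw
      have e1 := germ_periodic a w
      unfold germ at e1
      rw [e1, ofComplex_apply_of_im_pos hw', ofComplex_apply_of_im_pos hw]
      have e2 : (((⟨w + ((N : ℝ) : ℂ), hw'⟩ : ℍ)) : ℂ) = w + ((N : ℝ) : ℂ) := rfl
      have e3 : (((⟨w, hw⟩ : ℍ)) : ℂ) = w := rfl
      rw [e2, e3, qParam_one_add_nat]
    · have hw1 : w.im ≤ 0 := not_lt.mp hw
      have hw' : (w + ((N : ℝ) : ℂ)).im ≤ 0 := by simpa using hw1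
      rw [ofComplex_apply_of_im_nonpos hw', ofComplex_apply_of_im_nonpos hw1]
  have hhol : MDiff h := (AN_coe_mdiff a).mul (mdifferentiable_qParam_pow m)
  have hanal := UpperHalfPlane.analyticAt_cuspFunction_zero N_pos hper hhol hm
  refine ⟨m, UpperHalfPlane.cuspFunction (N : ℝ) h, hanal, fun q hq hq1 => ?_⟩
  have hz := im_inv_pos (N := N) hq hq1
  have e1 : UpperHalfPlane.cuspFunction (N : ℝ) h
      (𝕢 (N : ℝ) (Function.Periodic.invQParam (N : ℝ) q))
      = (h ∘ ofComplex) (Function.Periodic.invQParam (N : ℝ) q) :=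
    Function.Periodic.eq_cuspFunction N_ne_zero hper _
  rw [qParam_inv hq] at e1
  rw [e1, cusp_of_ne_zero a hq]
  simp only [Function.comp_apply, hh, germ, ofComplex_apply_of_im_pos hz]
  have e3 : (((⟨Function.Periodic.invQParam (N : ℝ) q, hz⟩ : ℍ)) : ℂ)
      = Function.Periodic.invQParam (N : ℝ) q := rfl
  rw [← qParam_pow_N (N := N) (Function.Periodic.invQParam (N : ℝ) q), qParam_inv hq, pow_mul]

theorem meromorphicAt_cusp (a : AN N) : MeromorphicAt (cusp a) 0 := by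
  obtain ⟨m, H, hH, hrel⟩ := exists_analytic_cusp a
  have h1 : MeromorphicAt (fun q : ℂ => H q * (q ^ (N * m))⁻¹) 0 :=
    hH.meromorphicAt.mul ((analyticAt_id.pow (N * m)).meromorphicAt.inv)
  refine h1.congr ?_
  filter_upwards [eventually_punctured_disc] with q hq
  rw [hrel q hq.1 hq.2]
  have : q ^ (N * m) ≠ 0 := pow_ne_zero _ hq.1
  field_simp

theorem meromorphicOrderAt_cusp_ne_top {a : AN N} (ha : a ≠ 0) :
    meromorphicOrderAt (cusp a) 0 ≠ ⊤ := by
  intro htop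
  rw [meromorphicOrderAt_eq_top_iff] at htop
  have h1 : ∀ᶠ z in comap Complex.im atTop, germ a z = 0 := by
    have := (Function.Periodic.qParam_tendsto (N_pos (N := N))).eventually htop
    filter_upwards [this] with z hz
    rwa [cusp_qParam] at hz
  rw [Filter.eventually_comap, Filter.eventually_atTop] at h1
  obtain ⟨A, hA⟩ := h1
  have hpos : 0 < ((max A 0 + 1 : ℝ) * Complex.I).im := by
    simp
    positivity
  let τ₁ : ℍ := ⟨(max A 0 + 1 : ℝ) * Complex.I, hpos⟩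
  have hopen : IsOpen {w : ℂ | A < w.im} := isOpen_lt continuous_const Complex.continuous_im
  have hmem : (τ₁ : ℂ) ∈ {w : ℂ | A < w.im} := by
    change A < ((max A 0 + 1 : ℝ) * Complex.I).im
    simp
    have := le_max_left A 0
    linarith
  have h2 : ∀ᶠ w in 𝓝[≠] (τ₁ : ℂ), germ a w = 0 := by
    have : ∀ᶠ w in 𝓝 (τ₁ : ℂ), germ a w = 0 := by
      filter_upwards [hopen.mem_nhds hmem] with w hw
      exact hA w.im (le_of_lt hw) w rfl
    exact this.filter_mono nhdsWithin_le_nhds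
  have h3 := eventually_ne_zero (AN_coe_mdiff a) (coe_ne_zero ha) τ₁
  have h4 : ∀ᶠ _w in 𝓝[≠] (τ₁ : ℂ), False := by
    filter_upwards [h2, h3] with z hz1 hz2
    exact hz2 hz1
  exact (Filter.eventually_false_iff_eq_bot.mp h4 ▸
    (inferInstance : (𝓝[≠] (τ₁ : ℂ)).NeBot)).ne rfl

omit [NeZero N] in
theorem cusp_mul (a b : AN N) : cusp (a * b) =ᶠ[𝓝[≠] 0] cusp a * cusp b := by
  filter_upwards [self_mem_nhdsWithin] with q hq
  have hq : q ≠ 0 := hq
  rw [Pi.mul_apply, cusp_of_ne_zero _ hq, cusp_of_ne_zero _ hq, cusp_of_ne_zero _ hq]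
  rfl

omit [NeZero N] in
theorem cusp_add (a b : AN N) : cusp (a + b) =ᶠ[𝓝[≠] 0] cusp a + cusp b := by
  filter_upwards [self_mem_nhdsWithin] with q hq
  have hq : q ≠ 0 := hq
  rw [Pi.add_apply, cusp_of_ne_zero _ hq, cusp_of_ne_zero _ hq, cusp_of_ne_zero _ hq]
  rfl

omit [NeZero N] in
theorem cusp_const (c : ℂ) : cusp (algebraMap ℂ (AN N) c) =ᶠ[𝓝[≠] 0] fun _ => c := by
  filter_upwards [self_mem_nhdsWithin] with q hq
  have hq : q ≠ 0 := hq
  rw [cusp_of_ne_zero _ hq]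
  rfl

theorem ordInf_mul (a b : AN N) (ha : a ≠ 0) (hb : b ≠ 0) :
    ordInf N (a * b) = ordInf N a + ordInf N b := by
  simp only [ordInf_def]
  rw [meromorphicOrderAt_congr (cusp_mul a b),
    meromorphicOrderAt_mul (meromorphicAt_cusp a) (meromorphicAt_cusp b),
    WithTop.untop₀_add (meromorphicOrderAt_cusp_ne_top ha) (meromorphicOrderAt_cusp_ne_top hb)]
  push_cast
  rfl

theorem ordInf_add (a b : AN N) (ha : a ≠ 0) (hb : b ≠ 0) (hab : a + b ≠ 0) :
    min (ordInf N a) (ordInf N b) ≤ ordInf N (a + b) := by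
  simp only [ordInf_def]
  have h := meromorphicOrderAt_add (meromorphicAt_cusp a) (meromorphicAt_cusp b)
  have hab' := meromorphicOrderAt_cusp_ne_top hab
  rw [meromorphicOrderAt_congr (cusp_add a b)] at hab' ⊢
  obtain ⟨m, hm⟩ := WithTop.ne_top_iff_exists.mp (meromorphicOrderAt_cusp_ne_top ha)
  obtain ⟨n, hn⟩ := WithTop.ne_top_iff_exists.mp (meromorphicOrderAt_cusp_ne_top hb)
  obtain ⟨k, hk⟩ := WithTop.ne_top_iff_exists.mp hab'
  rw [← hm, ← hn, ← hk] at h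
  rw [← hm, ← hn, ← hk]
  simp only [WithTop.untop₀_coe]
  have h' : min m n ≤ k := by exact_mod_cast h
  exact_mod_cast h'

theorem ordInf_const (c : ℂ) (hc : c ≠ 0) :
    ordInf N (algebraMap ℂ (AN N) c) = 0 := by
  classical
  rw [ordInf_def, meromorphicOrderAt_congr (cusp_const c), meromorphicOrderAt_const]
  simp [hc]

/-! ### Translations `τ ↦ τ + n` -/

omit [NeZero N] in
theorem germ_tr_T_zpow (a : AN N) (n : ℤ) {z : ℂ} (hz : 0 < z.im) :
    germ (tr N (ModularGroup.T ^ n) a) z = germ a (z - n) := by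
  have hz' : 0 < (z - (n : ℂ)).im := by simpa using hz
  unfold germ
  rw [tr_apply, ofComplex_apply_of_im_pos hz, ofComplex_apply_of_im_pos hz', ← zpow_neg,
    UpperHalfPlane.modular_T_zpow_smul]
  apply congrArg
  apply UpperHalfPlane.ext
  rw [UpperHalfPlane.coe_vadd]
  push_cast
  change -(n : ℂ) + z = z - n
  ring

omit [NeZero N] in
theorem qParam_sub_int (z : ℂ) (n : ℤ) :
    𝕢 (N : ℝ) (z - n) = 𝕢 (N : ℝ) z * 𝕢 (N : ℝ) (-(n : ℂ)) := by
  unfold Function.Periodic.qParam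
  rw [← Complex.exp_add]
  congr 1
  ring

theorem cusp_tr_T_zpow (a : AN N) (n : ℤ) {q : ℂ} (hq : q ≠ 0) (hq1 : ‖q‖ < 1) :
    cusp (tr N (ModularGroup.T ^ n) a) q = cusp a (q * 𝕢 (N : ℝ) (-(n : ℂ))) := by
  have hz := im_inv_pos (N := N) hq hq1
  rw [cusp_of_ne_zero _ hq, germ_tr_T_zpow a n hz, ← cusp_qParam, qParam_sub_int, qParam_inv hq]

omit [NeZero N] in
theorem meromorphicOrderAt_comp_mul_const (F : ℂ → ℂ) {ω : ℂ} (hω : ω ≠ 0) :
    meromorphicOrderAt (fun q => F (q * ω)) 0 = meromorphicOrderAt F 0 := by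
  have h1 : AnalyticAt ℂ (fun q : ℂ => q * ω) 0 := by fun_prop
  have h2 : deriv (fun q : ℂ => q * ω) 0 ≠ 0 := by
    have : HasDerivAt (fun q : ℂ => q * ω) (1 * ω) 0 := (hasDerivAt_id (0 : ℂ)).mul_const ω
    rw [this.deriv, one_mul]
    exact hω
  have h3 := meromorphicOrderAt_comp_of_deriv_ne_zero (f := F) h1 h2
  simp only [zero_mul] at h3
  exact h3

theorem ordInf_tr_T_zpow (a : AN N) (n : ℤ) :
    ordInf N (tr N (ModularGroup.T ^ n) a) = ordInf N a := by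
  rw [ordInf_def, ordInf_def]
  have hω : 𝕢 (N : ℝ) (-(n : ℂ)) ≠ 0 := Function.Periodic.qParam_ne_zero _
  have hc : cusp (tr N (ModularGroup.T ^ n) a)
      =ᶠ[𝓝[≠] 0] fun q => cusp a (q * 𝕢 (N : ℝ) (-(n : ℂ))) := by
    filter_upwards [eventually_punctured_disc] with q hq
    exact cusp_tr_T_zpow a n hq.1 hq.2
  rw [meromorphicOrderAt_congr hc, meromorphicOrderAt_comp_mul_const _ hω]

theorem ordInf_tr_T (a : AN N) : ordInf N (tr N ModularGroup.T a) = ordInf N a := by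
  have := ordInf_tr_T_zpow a 1
  rwa [zpow_one] at this

/-- If a meromorphic germ at `0` is invariant under the rotation `q ↦ q ω`, then `ω ^ k = 1`
where `k` is its order. -/
theorem zpow_eq_one_of_rotation_invariant {F : ℂ → ℂ} {ω : ℂ} (hω : ω ≠ 0) {k : ℤ}
    (hF : MeromorphicAt F 0) (hk : meromorphicOrderAt F 0 = k)
    (hinv : ∀ᶠ q in 𝓝[≠] (0 : ℂ), F (q * ω) = F q) : ω ^ k = 1 := by
  obtain ⟨G, hG, hG0, hFG⟩ := (meromorphicOrderAt_eq_int_iff hF).mp hk
  have ht0 : Tendsto (fun q : ℂ => q * ω) (𝓝 0) (𝓝 0) := by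
    have : Continuous (fun q : ℂ => q * ω) := by fun_prop
    have := this.tendsto 0
    simpa using this
  have ht : Tendsto (fun q : ℂ => q * ω) (𝓝[≠] 0) (𝓝[≠] 0) := by
    refine tendsto_nhdsWithin_of_tendsto_nhds_of_eventually_within _
      (ht0.mono_left nhdsWithin_le_nhds) ?_
    filter_upwards [self_mem_nhdsWithin] with q hq
    exact mul_ne_zero hq hω
  have e1 : ∀ᶠ q in 𝓝[≠] (0 : ℂ), F (q * ω) = (q * ω - 0) ^ k • G (q * ω) := ht.eventually hFG
  have e2 : ∀ᶠ q in 𝓝[≠] (0 : ℂ), ω ^ k * G (q * ω) = G q := by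
    filter_upwards [e1, hFG, hinv, self_mem_nhdsWithin] with q h1 h2 h3 h4
    have h4 : q ≠ 0 := h4
    rw [h3, h2] at h1
    simp only [sub_zero, smul_eq_mul, mul_zpow] at h1
    have h6 : q ^ k ≠ 0 := zpow_ne_zero _ h4
    have h7 : q ^ k * (ω ^ k * G (q * ω)) = q ^ k * G q := by linear_combination -h1
    exact mul_left_cancel₀ h6 h7
  have t1 : Tendsto (fun q => ω ^ k * G (q * ω)) (𝓝[≠] 0) (𝓝 (ω ^ k * G 0)) := by
    have c2 : Tendsto (fun q => G (q * ω)) (𝓝 0) (𝓝 (G 0)) := hG.continuousAt.tendsto.comp ht0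
    exact (c2.const_mul _).mono_left nhdsWithin_le_nhds
  have t2 : Tendsto G (𝓝[≠] 0) (𝓝 (G 0)) := hG.continuousAt.tendsto.mono_left nhdsWithin_le_nhds
  have e4 := tendsto_nhds_unique_of_eventuallyEq t1 t2 e2
  have e5 : (ω ^ k - 1) * G 0 = 0 := by linear_combination e4
  rcases mul_eq_zero.mp e5 with h0 | h0
  · exact sub_eq_zero.mp h0
  · exact absurd h0 hG0

/-- `T^h`-invariant (`h ∣ N`) functions have `q_N`-order divisible by `N / h`. -/
theorem ordInf_dvd (h : ℕ) (hh : h ∣ N) (a : AN N) (ha : a ≠ 0)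
    (hinv : tr N (ModularGroup.T ^ h) a = a) :
    ∃ k : ℤ, (h : ℚ) * ordInf N a = (N : ℚ) * k := by
  obtain ⟨m, hm⟩ := WithTop.ne_top_iff_exists.mp (meromorphicOrderAt_cusp_ne_top ha)
  have hω : 𝕢 (N : ℝ) (-((h : ℤ) : ℂ)) ≠ 0 := Function.Periodic.qParam_ne_zero _
  have hinv' : ∀ᶠ q in 𝓝[≠] (0 : ℂ), cusp a (q * 𝕢 (N : ℝ) (-((h : ℤ) : ℂ))) = cusp a q := by
    filter_upwards [eventually_punctured_disc] with q hq
    rw [← cusp_tr_T_zpow a (h : ℤ) hq.1 hq.2, zpow_natCast, hinv]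
  have hpow := zpow_eq_one_of_rotation_invariant hω (meromorphicAt_cusp a) hm.symm hinv'
  unfold Function.Periodic.qParam at hpow
  rw [← Complex.exp_int_mul, Complex.exp_eq_one_iff] at hpow
  obtain ⟨n, hn⟩ := hpow
  refine ⟨-n, ?_⟩
  rw [ordInf_def, ← hm]
  simp only [WithTop.untop₀_coe]
  have hpi : (2 * π * Complex.I : ℂ) ≠ 0 := by simp [Real.pi_ne_zero]
  have hN : ((N : ℝ) : ℂ) ≠ 0 := by exact_mod_cast (N_ne_zero (N := N))
  have e1 : ((h : ℂ)) * (m : ℂ) = (N : ℂ) * ((-n : ℤ) : ℂ) := by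
    have e2 : (m : ℂ) * (2 * π * Complex.I * (-((h : ℤ) : ℂ)) / ((N : ℝ) : ℂ))
        = n * (2 * π * Complex.I) := hn
    field_simp at e2
    push_cast at e2 ⊢
    linear_combination -e2
  have e4 : ((h : ℤ)) * m = (N : ℤ) * (-n) := by exact_mod_cast e1
  have e5 : ((h : ℚ)) * (m : ℚ) = (N : ℚ) * ((-n : ℤ) : ℚ) := by exact_mod_cast e4
  exact e5

end Cusp

/-! ### Values on `j` -/

theorem jS_one : jS 1 = jFun := by
  funext τ
  simp only [jS, one_ne_zero, if_false]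
  congr 1
  apply UpperHalfPlane.ext
  rw [coe_dmul one_ne_zero]
  simp

theorem ordAt_eq_of_analyticOrderAt {a : AN N} {τ₀ : ℍ} {f : ℂ → ℂ} (hf : germ a = f) {m : ℕ}
    (hm : analyticOrderAt f (τ₀ : ℂ) = m) : ordAt N τ₀ a = m := by
  rw [ordAt_def, (analyticAt_germ a τ₀).meromorphicOrderAt_eq, hf, hm]
  simp

theorem ordAt_jS_generic [NeZero N] (hj : jS 1 ∈ AN N) (τ₀ : ℍ) (h0 : jFun τ₀ ≠ 0)
    (h1 : jFun τ₀ ≠ 1728) :
    ordAt N τ₀ ((⟨jS 1, hj⟩ : AN N) - algebraMap ℂ (AN N) (jFun τ₀)) = 1 := by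
  have hf : germ ((⟨jS 1, hj⟩ : AN N) - algebraMap ℂ (AN N) (jFun τ₀))
      = fun z : ℂ => jFun (ofComplex z) - jFun τ₀ := by
    funext z
    change jS 1 (ofComplex z) - jFun τ₀ = _
    rw [jS_one]
  have := ordAt_eq_of_analyticOrderAt hf (m := 1)
    (by simpa using Fermat.Agent.S24_JFun.order_jFun_generic τ₀ h0 h1)
  simpa using this

theorem ordAt_jS_I [NeZero N] (hj : jS 1 ∈ AN N) :
    ordAt N UpperHalfPlane.I ((⟨jS 1, hj⟩ : AN N) - algebraMap ℂ (AN N) 1728) = 2 := by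
  have hf : germ ((⟨jS 1, hj⟩ : AN N) - algebraMap ℂ (AN N) 1728)
      = fun z : ℂ => jFun (ofComplex z) - 1728 := by
    funext z
    change jS 1 (ofComplex z) - 1728 = _
    rw [jS_one]
  have := ordAt_eq_of_analyticOrderAt hf (m := 2) (τ₀ := UpperHalfPlane.I)
    (by simpa using Fermat.Agent.S24_JFun.order_jFun_I)
  simpa using this

theorem ordAt_jS_rho [NeZero N] (hj : jS 1 ∈ AN N) :
    ordAt N rho (⟨jS 1, hj⟩ : AN N) = 3 := by
  have hf : germ (⟨jS 1, hj⟩ : AN N) = fun z : ℂ => jFun (ofComplex z) := by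
    funext z
    change jS 1 (ofComplex z) = _
    rw [jS_one]
  have := ordAt_eq_of_analyticOrderAt hf (m := 3) (τ₀ := rho)
    (by simpa using Fermat.Agent.S24_JFun.order_jFun_rho)
  simpa using this

theorem ordInf_jS [NeZero N] (hj : jS 1 ∈ AN N) :
    ordInf N (⟨jS 1, hj⟩ : AN N) = -(N : ℚ) := by
  set a : AN N := ⟨jS 1, hj⟩ with ha
  have hgerm : ∀ z : ℂ, germ a z = jFun (ofComplex z) := by
    intro z
    change jS 1 (ofComplex z) = _
    rw [jS_one]
  -- `q ^ N * cusp a q → 1`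
  have ht : Tendsto (fun q : ℂ => q ^ N * cusp a q) (𝓝[≠] 0) (𝓝 1) := by
    have h1 : Tendsto (fun q : ℂ => Function.Periodic.qParam 1
          ((ofComplex (Function.Periodic.invQParam (N : ℝ) q) : ℍ) : ℂ)
        * jFun (ofComplex (Function.Periodic.invQParam (N : ℝ) q))) (𝓝[≠] 0) (𝓝 1) :=
      Fermat.Agent.S24_JFun.tendsto_q_mul_jFun.comp
        (tendsto_comap_im_ofComplex.comp (Function.Periodic.invQParam_tendsto N_pos))
    refine h1.congr' ?_
    filter_upwards [eventually_punctured_disc] with q hq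
    have hz := im_inv_pos (N := N) hq.1 hq.2
    rw [cusp_of_ne_zero a hq.1, hgerm, ofComplex_apply_of_im_pos hz]
    have e3 : (((⟨Function.Periodic.invQParam (N : ℝ) q, hz⟩ : ℍ)) : ℂ)
        = Function.Periodic.invQParam (N : ℝ) q := rfl
    rw [e3, ← qParam_pow_N (N := N), qParam_inv hq.1]
  have hmer : MeromorphicAt (fun q : ℂ => q ^ N * cusp a q) 0 :=
    (analyticAt_id.pow N).meromorphicAt.mul (meromorphicAt_cusp a)
  have h0 : meromorphicOrderAt (fun q : ℂ => q ^ N * cusp a q) 0 = 0 :=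
    (tendsto_ne_zero_iff_meromorphicOrderAt_eq_zero hmer).mp ⟨1, one_ne_zero, ht⟩
  have hpow : meromorphicOrderAt (fun q : ℂ => q ^ N) 0 = (N : ℤ) := by
    have := meromorphicOrderAt_pow_id_sub_const (x := (0 : ℂ)) (n := N)
    simp only [sub_zero] at this
    exact_mod_cast this
  have hmul := meromorphicOrderAt_mul (f := fun q : ℂ => q ^ N) (g := cusp a) (x := 0)
    (analyticAt_id.pow N).meromorphicAt (meromorphicAt_cusp a)
  have h0' : meromorphicOrderAt ((fun q : ℂ => q ^ N) * cusp a) 0 = 0 := h0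
  rw [h0', hpow] at hmul
  have hne : a ≠ 0 := by
    intro h
    rw [h] at ht
    have hz : (fun q : ℂ => q ^ N * cusp (0 : AN N) q) =ᶠ[𝓝[≠] 0] fun _ => 0 := by
      filter_upwards [self_mem_nhdsWithin] with q hq
      have hq : q ≠ 0 := hq
      rw [cusp_of_ne_zero _ hq]
      change q ^ N * 0 = 0
      simp
    have := tendsto_nhds_unique (ht.congr' hz) tendsto_const_nhds
    exact one_ne_zero this
  obtain ⟨m, hm⟩ := WithTop.ne_top_iff_exists.mp (meromorphicOrderAt_cusp_ne_top hne)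
  rw [← hm] at hmul
  have hmn : (N : ℤ) + m = 0 := by
    have : ((0 : ℤ) : WithTop ℤ) = (((N : ℤ) + m : ℤ) : WithTop ℤ) := by
      push_cast
      exact hmul
    exact_mod_cast this.symm
  rw [ordInf_def, ← hm]
  simp only [WithTop.untop₀_coe]
  have : (m : ℚ) = -((N : ℤ) : ℚ) := by
    have : m = -(N : ℤ) := by omega
    rw [this]; push_cast; ring
  rw [this]
  simp

end Fermat.Agent.S24_Ord
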