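import Fermat.Agent.S24_Embed
import Fermat.Agent.S24_Hermite
import Fermat.Agent.S24_JFun

/-!
# S24: the embeddings `σ_γ : F → EN N`, `γ ∈ SL₂(ℤ)/Γ₀(N)`

`σ_{gΓ₀(N)} = trE g ∘ ι`.  Well defined because `ι(F)` is `Γ₀(N)`-invariant (`F` is generated by
the `Jd d`, `d ∣ N`, which go to the `Γ₀(N)`-invariant functions `jS d`), injective in `γ`
because `jS N ∘ g = jS N` forces `g ∈ Γ₀(N)`.
-/

set_option autoImplicit false

noncomputable section

namespace Fermat.Agent.S24_Sigma

open Fermat.Agent.S24_Defs Fermat.Agent.S24_Embed ModularCurve AlgebraicCurve UpperHalfPlane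
  IntermediateField
open scoped MatrixGroups ModularForm Manifold Topology

/-- `F` is generated over `ℚ̄` by the `Jd d`, `d ∣ N` (induction principle). -/
theorem FF_induction (N : ℕ) [NeZero N] (S : IntermediateField Kbar (LaurentSeries Kbar))
    (hS : ∀ d : ℕ, d ∣ N → Jd d ∈ S) : modularFunctionFieldBar N ≤ S := by
  show laurentBaseChange Kbar (modularFunctionFieldFull N) ≤ S
  rw [laurentBaseChange, IntermediateField.adjoin_le_iff]
  rintro _ ⟨x, hx, rfl⟩
  -- `x` lies in the closure of `ℚ ∪ divisorExpansions N`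
  have hx' : x ∈ Subfield.closure
      (Set.range (algebraMap ℚ (LaurentSeries ℚ)) ∪ divisorExpansions N) := hx
  have hle : Subfield.closure
      (Set.range (algebraMap ℚ (LaurentSeries ℚ)) ∪ divisorExpansions N)
        ≤ S.toSubfield.comap (coeffEmb Kbar) := by
    rw [Subfield.closure_le]
    rintro y (⟨c, rfl⟩ | ⟨d, hne, hd, rfl⟩)
    · show coeffEmb Kbar (algebraMap ℚ (LaurentSeries ℚ) c) ∈ S
      have : coeffEmb Kbar (algebraMap ℚ (LaurentSeries ℚ) c)
          = algebraMap Kbar (LaurentSeries Kbar) (algebraMap ℚ Kbar c) := by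
        rw [coeffEmb, HahnSeries.algebraMap_apply', HahnSeries.algebraMap_apply']
        simp
      rw [this]
      exact S.algebraMap_mem _
    · show coeffEmb Kbar (qExpand ℚ d jq) ∈ S
      have := hne
      rw [← Jd_of_ne_zero]
      exact hS d hd
  exact hle hx'

/-- Two ring homomorphisms out of `F` agreeing on the constants and on the `Jd d`, `d ∣ N`,
are equal. -/
theorem FF_ringHom_ext (N : ℕ) [NeZero N] {L : Type*} [Field L] (φ ψ : FF N →+* L)
    (hconst : ∀ a : Kbar, φ (algebraMap Kbar (FF N) a) = ψ (algebraMap Kbar (FF N) a))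
    (hJ : ∀ (d : ℕ) (hd : d ∣ N),
      φ ⟨Jd d, Jd_mem N hd (ne_zero_of_dvd_ne_zero (NeZero.ne N) hd)⟩ =
        ψ ⟨Jd d, Jd_mem N hd (ne_zero_of_dvd_ne_zero (NeZero.ne N) hd)⟩) :
    φ = ψ := by
  let T : Subfield (FF N) := RingHom.eqLocusField φ ψ
  let S : IntermediateField Kbar (LaurentSeries Kbar) :=
    Subfield.toIntermediateField (T.map (modularFunctionFieldBar N).val.toRingHom)
      (fun a => ⟨algebraMap Kbar (FF N) a, hconst a, rfl⟩)
  have hS : ∀ d : ℕ, d ∣ N → Jd d ∈ S := fun d hd =>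
    ⟨⟨Jd d, Jd_mem N hd (ne_zero_of_dvd_ne_zero (NeZero.ne N) hd)⟩, hJ d hd, rfl⟩
  have hle := FF_induction N S hS
  ext f
  obtain ⟨t, ht, htf⟩ := hle f.2
  have : t = f := Subtype.ext htf
  rw [← this]
  exact ht

section sigma

attribute [local instance] algKE

variable (N : ℕ) [NeZero N] (I : IotaSpec N)

/-- `ι(F)` is fixed by `Γ₀(N)`. -/
theorem trE_iota_of_mem_Gamma0 {h : SL(2, ℤ)} (hh : h ∈ CongruenceSubgroup.Gamma0 N) (f : FF N) :
    trE N h (I.ι f) = I.ι f := by
  have key : (trE N h).comp I.ι = I.ι := by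
    refine FF_ringHom_ext N _ _ (fun a => ?_) (fun d hd => ?_)
    · rw [RingHom.comp_apply, I.hconst, trE_const]
    · rw [RingHom.comp_apply, I.hJ d hd, trE_algebraMap]
      have : tr N h ⟨jS d, I.hmem d hd⟩ = ⟨jS d, I.hmem d hd⟩ :=
        Subtype.ext (funext fun τ =>
          S24_Hermite.jS_smul_of_mem_Gamma0 N hd h⁻¹ (inv_mem hh) τ)
      rw [this]
  exact congrArg (fun φ : FF N →+* EN N => φ f) key

/-- `trE g ∘ ι` as a `ℚ̄`-algebra homomorphism. -/
def sigmaAux (g : SL(2, ℤ)) : FF N →ₐ[Kbar] EN N where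
  toRingHom := (trE N g).comp I.ι
  commutes' a := by
    show trE N g (I.ι (algebraMap Kbar (FF N) a)) = _
    rw [I.hconst, trE_const]
    rfl

theorem sigmaAux_apply (g : SL(2, ℤ)) (f : FF N) : sigmaAux N I g f = trE N g (I.ι f) := rfl

theorem sigmaAux_eq_of_rel {g g' : SL(2, ℤ)} (h : g⁻¹ * g' ∈ CongruenceSubgroup.Gamma0 N) :
    sigmaAux N I g = sigmaAux N I g' := by
  ext f
  rw [sigmaAux_apply, sigmaAux_apply]
  have : g' = g * (g⁻¹ * g') := by group
  rw [this, trE_mul, trE_iota_of_mem_Gamma0 N I h]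

/-- `σ_γ = trE g ∘ ι` for `γ = g Γ₀(N)`. -/
def sigma (γ : Coset N) : FF N →ₐ[Kbar] EN N :=
  Quotient.liftOn' γ (sigmaAux N I) fun _ _ h =>
    sigmaAux_eq_of_rel N I (QuotientGroup.leftRel_apply.mp h)

theorem sigma_mk (g : SL(2, ℤ)) (f : FF N) :
    sigma N I (QuotientGroup.mk g) f = trE N g (I.ι f) := rfl

theorem sigma_smul (g : SL(2, ℤ)) (γ : Coset N) (f : FF N) :
    sigma N I (g • γ) f = trE N g (sigma N I γ f) := by
  induction γ using QuotientGroup.induction_on with
  | H g' =>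
    have : g • (QuotientGroup.mk g' : Coset N) = QuotientGroup.mk (g * g') := rfl
    rw [this, sigma_mk, sigma_mk, trE_mul]

/-- by `S24_Hermite.mem_Gamma0_of_jS_eq` -/
theorem sigma_injective : Function.Injective (sigma N I) := by
  intro γ γ' hγ
  induction γ using QuotientGroup.induction_on with
  | H g =>
  induction γ' using QuotientGroup.induction_on with
  | H g' =>
    have halg : Function.Injective (algebraMap (AN N) (EN N)) :=
      IsFractionRing.injective (AN N) (EN N)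
    have h1 := congrArg (fun φ : FF N →ₐ[Kbar] EN N =>
      φ ⟨Jd N, Jd_mem N dvd_rfl (ne_zero_of_dvd_ne_zero (NeZero.ne N) dvd_rfl)⟩) hγ
    simp only [sigma_mk, I.hJ N dvd_rfl, trE_algebraMap] at h1
    have h2 := halg h1
    have h3 : ∀ τ : ℍ, jS N ((g'⁻¹ * g) • τ) = jS N τ := by
      intro τ
      have := congrArg (fun a : AN N => (a : ℍ → ℂ) (g • τ)) h2
      simp only [tr_apply] at this
      rw [inv_smul_smul] at this
      rw [mul_smul]
      exact this.symm
    have h4 := S24_Hermite.mem_Gamma0_of_jS_eq N (g'⁻¹ * g) h3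
    rw [QuotientGroup.eq]
    have : g⁻¹ * g' = (g'⁻¹ * g)⁻¹ := by group
    rw [this]
    exact inv_mem h4

theorem jS_one_smul (g : SL(2, ℤ)) (τ : ℍ) : jS 1 (g • τ) = jS 1 τ := by
  have h1 : ∀ τ : ℍ, jS 1 τ = jFun τ := by
    intro τ
    have : dmul 1 τ = τ := by
      apply UpperHalfPlane.ext
      rw [coe_dmul one_ne_zero]
      simp
    simp [jS, this]
  rw [h1, h1, S24_JFun.jFun_smul]

theorem sigma_jF (γ : Coset N) :
    sigma N I γ (jF N) = algebraMap (AN N) (EN N) ⟨jS 1, I.hmem 1 (one_dvd N)⟩ := by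
  induction γ using QuotientGroup.induction_on with
  | H g =>
    rw [sigma_mk]
    have : I.ι (jF N) = algebraMap (AN N) (EN N) ⟨jS 1, I.hmem 1 (one_dvd N)⟩ := I.hJ 1 (one_dvd N)
    rw [this, trE_algebraMap]
    have h2 : tr N g ⟨jS 1, I.hmem 1 (one_dvd N)⟩ = ⟨jS 1, I.hmem 1 (one_dvd N)⟩ :=
      Subtype.ext (funext fun τ => jS_one_smul g⁻¹ τ)
    rw [h2]

/-- `σ_γ` on constants. -/
theorem sigma_const (γ : Coset N) (a : Kbar) :
    sigma N I γ (algebraMap Kbar (FF N) a)
      = algebraMap (AN N) (EN N) (algebraMap ℂ (AN N) (iotaC a)) :=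
  (sigma N I γ).commutes a

end sigma

end Fermat.Agent.S24_Sigma

end
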