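import Fermat.Agent.S24_LocalAux
import Fermat.Agent.S24_Sigma
import Fermat.Agent.S24_Ord
import Fermat.Agent.S24_JFun

/-!
# S24_Local: the four analytic fiber data

Over a generic point `c ∉ {0, 1728}`, over `1728` (elliptic point `I`, group `⟨S⟩`), over `0`
(elliptic point `ρ`, group `⟨ST⟩`) and over `∞` (cusps, group `⟨T⟩`).
-/

set_option autoImplicit false

noncomputable section

namespace Fermat.Agent.S24_Local

open Fermat.Agent.S24_Defs Fermat.Agent.S24_Embed ModularCurve AlgebraicCurve UpperHalfPlane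
  IntermediateField
open Fermat.Agent.S24_LocalAux Fermat.Agent.S24_Sigma
open scoped MatrixGroups ModularForm Manifold Topology

/-! ### Group facts -/

theorem S_sq : ModularGroup.S ^ 2 = (-1 : SL(2, ℤ)) := by
  apply Subtype.ext
  rw [pow_two, Matrix.SpecialLinearGroup.coe_mul]
  exact ModularGroup.S_mul_S_eq

theorem cube_of_coe (x : SL(2, ℤ)) (hx : (x : Matrix (Fin 2) (Fin 2) ℤ) = !![0, -1; 1, 1]) :
    x ^ 3 = (-1 : SL(2, ℤ)) := by
  apply Subtype.ext
  rw [pow_succ, pow_succ, pow_one, Matrix.SpecialLinearGroup.coe_mul,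
    Matrix.SpecialLinearGroup.coe_mul, hx]
  ext i j
  fin_cases i <;> fin_cases j <;> simp [Matrix.mul_apply, Fin.sum_univ_two]

theorem ST_cube : (ModularGroup.S * ModularGroup.T) ^ 3 = (-1 : SL(2, ℤ)) :=
  cube_of_coe _ Fermat.Agent.S24_JFun.ST_coe

theorem neg_one_smul_uhp (τ : ℍ) : (-1 : SL(2, ℤ)) • τ = τ := by
  rw [ModularGroup.SL_neg_smul, one_smul]

theorem tr_neg_one (N : ℕ) (a : AN N) : tr N (-1) a = a := by
  ext τ
  rw [tr_apply]
  have : ((-1 : SL(2, ℤ)))⁻¹ = -1 := by simp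
  rw [this, neg_one_smul_uhp]

theorem neg_one_smul_coset (N : ℕ) (γ : Coset N) : (-1 : SL(2, ℤ)) • γ = γ := by
  induction γ using QuotientGroup.induction_on with
  | H g =>
    show (QuotientGroup.mk ((-1 : SL(2, ℤ)) * g) : Coset N) = QuotientGroup.mk g
    rw [QuotientGroup.eq]
    have : ((-1 : SL(2, ℤ)) * g)⁻¹ * g = -1 := by
      rw [mul_inv_rev]
      simp
    rw [this]
    rw [CongruenceSubgroup.Gamma0_mem]
    simp

theorem T_pow_smul_coset (N : ℕ) (γ : Coset N) : (ModularGroup.T ^ N) • γ = γ := by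
  induction γ using QuotientGroup.induction_on with
  | H g =>
    show (QuotientGroup.mk (ModularGroup.T ^ N * g) : Coset N) = QuotientGroup.mk g
    rw [QuotientGroup.eq]
    rw [CongruenceSubgroup.Gamma0_mem]
    have hT : ((ModularGroup.T ^ N : SL(2, ℤ)) : Matrix (Fin 2) (Fin 2) ℤ)
        = !![1, (N : ℤ); 0, 1] := by
      rw [← zpow_natCast]
      exact ModularGroup.coe_T_zpow N
    have hentry : ((ModularGroup.T ^ N * g)⁻¹ * g : SL(2, ℤ)) 1 0 = (N : ℤ) * (g 1 0) ^ 2 := by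
      rw [Matrix.SpecialLinearGroup.coe_mul, Matrix.SpecialLinearGroup.coe_inv,
        Matrix.SpecialLinearGroup.coe_mul, hT]
      simp [Matrix.adjugate_fin_two, Matrix.mul_apply, Fin.sum_univ_two, Matrix.vecMul,
        dotProduct]
      ring
    rw [hentry]
    simp

theorem tr_T_pow (N : ℕ) (a : AN N) : tr N (ModularGroup.T ^ N) a = a := by
  ext τ
  rw [tr_apply]
  have h1 := (a.2.2 1).1 ((ModularGroup.T ^ N)⁻¹ • τ)
  simp only [one_smul] at h1
  have h2 : ((N : ℕ) : ℝ) +ᵥ ((ModularGroup.T ^ N)⁻¹ • τ) = τ := by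
    rw [← zpow_natCast, ← zpow_neg, UpperHalfPlane.modular_T_zpow_smul]
    apply UpperHalfPlane.ext
    simp
  rw [h2] at h1
  exact h1.symm

/-! ### Orders of the zero function -/

theorem ordAt_zero (N : ℕ) (τ₀ : ℍ) : ordAt N τ₀ 0 = 0 := by
  have h : meromorphicOrderAt (fun z : ℂ => ((0 : AN N) : ℍ → ℂ) (ofComplex z)) (τ₀ : ℂ) = ⊤ := by
    rw [meromorphicOrderAt_eq_top_iff]
    exact Filter.Eventually.of_forall fun z => rfl
  unfold ordAt
  rw [h]
  simp

theorem ordInf_zero (N : ℕ) : ordInf N 0 = 0 := by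
  have h : meromorphicOrderAt (Function.Periodic.cuspFunction (N : ℝ)
      (fun z : ℂ => ((0 : AN N) : ℍ → ℂ) (ofComplex z))) 0 = ⊤ := by
    rw [meromorphicOrderAt_eq_top_iff]
    rw [eventually_nhdsWithin_iff]
    refine Filter.Eventually.of_forall fun q hq => ?_
    rw [Function.Periodic.cuspFunction_eq_of_nonzero _ _ hq]
    rfl
  unfold ordInf
  rw [h]
  simp

/-! ### The four fiber data -/

section data

attribute [local instance] algKE

/-- `j` as an element of `AN N`. -/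
def jA (N : ℕ) [NeZero N] (I : IotaSpec N) : AN N := ⟨jS 1, I.hmem 1 (one_dvd N)⟩

theorem sigma_jF_sub (N : ℕ) [NeZero N] (I : IotaSpec N) (γ : Coset N) (c : Kbar) :
    sigma N I γ (jF N - algebraMap Kbar (FF N) c) * algebraMap (AN N) (EN N) 1
      = algebraMap (AN N) (EN N) (jA N I - algebraMap ℂ (AN N) (iotaC c)) := by
  rw [map_one, mul_one, map_sub, sigma_jF, sigma_const, map_sub]
  rfl

theorem one_eq_algebraMap (N : ℕ) : (1 : AN N) = algebraMap ℂ (AN N) 1 := (map_one _).symm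

theorem fiberDatum_generic (N : ℕ) [NeZero N] (I : IotaSpec N) (c : Kbar) (h0 : c ≠ 0) (h1 : c ≠ 1728) :
    HasFiberDatum Kbar (jF N - algebraMap Kbar (FF N) c) (Coset N)
      (Subgroup.zpowers (1 : SL(2, ℤ))) := by
  obtain ⟨τ₀, hτ₀⟩ := S24_JFun.jFun_surjective (iotaC c)
  have hc0 : jFun τ₀ ≠ 0 := by
    rw [hτ₀]
    exact fun h => h0 (iotaC_injective (by rw [h, map_zero]))
  have hc1 : jFun τ₀ ≠ 1728 := by
    rw [hτ₀]
    intro h
    exact h1 (iotaC_injective (by rw [h, map_ofNat]))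
  have hord : ordAt N τ₀ (jA N I - algebraMap ℂ (AN N) (iotaC c)) = 1 := by
    have := S24_Ord.ordAt_jS_generic (I.hmem 1 (one_dvd N)) τ₀ hc0 hc1
    rw [hτ₀] at this
    exact this
  refine hasFiberDatum_of N (sigma N I) (sigma_smul N I) (sigma_injective N I) (ordAt N τ₀)
    (S24_Ord.ordAt_mul τ₀) (S24_Ord.ordAt_add τ₀) (S24_Ord.ordAt_const τ₀) 1
    (fun a => by rw [tr_one]) 1 one_pos 1 one_pos
    (fun a => by rw [pow_one, tr_one]) (fun γ => by rw [pow_one, one_smul]) ?_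
    (jF N - algebraMap Kbar (FF N) c) (jA N I - algebraMap ℂ (AN N) (iotaC c)) 1 one_ne_zero
    (fun γ => sigma_jF_sub N I γ c) ?_ ?_
  · intro h _ a _ _
    obtain ⟨k, hk⟩ := S24_Ord.ordAt_int τ₀ a
    exact ⟨h * k, by rw [hk]; push_cast; ring⟩
  · rw [hord, one_eq_algebraMap N, S24_Ord.ordAt_const τ₀ 1 one_ne_zero]
    norm_num
  · intro h
    rw [h, ordAt_zero] at hord
    norm_num at hord

theorem fiberDatum_I (N : ℕ) [NeZero N] (I : IotaSpec N) :
    HasFiberDatum Kbar (jF N - algebraMap Kbar (FF N) 1728) (Coset N)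
      (Subgroup.zpowers ModularGroup.S) := by
  have h1728 : iotaC (1728 : Kbar) = 1728 := map_ofNat iotaC 1728
  have hord : ordAt N UpperHalfPlane.I (jA N I - algebraMap ℂ (AN N) (iotaC 1728)) = 2 := by
    rw [h1728]
    exact S24_Ord.ordAt_jS_I (I.hmem 1 (one_dvd N))
  have hSI : (ModularGroup.S)⁻¹ • UpperHalfPlane.I = UpperHalfPlane.I := by
    rw [inv_smul_eq_iff]
    exact S24_JFun.S_smul_I.symm
  refine hasFiberDatum_of N (sigma N I) (sigma_smul N I) (sigma_injective N I)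
    (ordAt N UpperHalfPlane.I)
    (S24_Ord.ordAt_mul _) (S24_Ord.ordAt_add _) (S24_Ord.ordAt_const _) ModularGroup.S
    (fun a => by rw [S24_Ord.ordAt_tr, hSI]) 2 two_pos 2 two_pos
    (fun a => by rw [S_sq, tr_neg_one]) (fun γ => by rw [S_sq, neg_one_smul_coset]) ?_
    (jF N - algebraMap Kbar (FF N) 1728) (jA N I - algebraMap ℂ (AN N) (iotaC 1728)) 1
    one_ne_zero (fun γ => sigma_jF_sub N I γ 1728) ?_ ?_
  · intro h hh a ha hinv
    rcases (Nat.dvd_prime Nat.prime_two).mp hh with rfl | rfl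
    · rw [pow_one] at hinv
      obtain ⟨k, hk⟩ := S24_Ord.ordAt_I_even a ha hinv
      exact ⟨k, by rw [hk]; push_cast; ring⟩
    · obtain ⟨k, hk⟩ := S24_Ord.ordAt_int UpperHalfPlane.I a
      exact ⟨k, by rw [hk]⟩
  · rw [hord, one_eq_algebraMap N, S24_Ord.ordAt_const _ 1 one_ne_zero]
    norm_num
  · intro h
    rw [h, ordAt_zero] at hord
    norm_num at hord

theorem fiberDatum_rho (N : ℕ) [NeZero N] (I : IotaSpec N) :
    HasFiberDatum Kbar (jF N) (Coset N)
      (Subgroup.zpowers (ModularGroup.S * ModularGroup.T)) := by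
  have hord : ordAt N rho (jA N I) = 3 := S24_Ord.ordAt_jS_rho (I.hmem 1 (one_dvd N))
  have hfix : (ModularGroup.S * ModularGroup.T)⁻¹ • rho = rho := by
    rw [inv_smul_eq_iff]
    exact S24_JFun.ST_smul_rho.symm
  refine hasFiberDatum_of N (sigma N I) (sigma_smul N I) (sigma_injective N I)
    (ordAt N rho)
    (S24_Ord.ordAt_mul _) (S24_Ord.ordAt_add _) (S24_Ord.ordAt_const _)
    (ModularGroup.S * ModularGroup.T)
    (fun a => by rw [S24_Ord.ordAt_tr, hfix]) 3 (by norm_num) 3 (by norm_num)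
    (fun a => by rw [ST_cube, tr_neg_one]) (fun γ => by rw [ST_cube, neg_one_smul_coset]) ?_
    (jF N) (jA N I) 1 one_ne_zero
    (fun γ => by rw [map_one, mul_one, sigma_jF]; rfl) ?_ ?_
  · intro h hh a ha hinv
    rcases (Nat.dvd_prime Nat.prime_three).mp hh with rfl | rfl
    · rw [pow_one] at hinv
      obtain ⟨k, hk⟩ := S24_Ord.ordAt_rho_three a ha hinv
      exact ⟨k, by rw [hk]; push_cast; ring⟩
    · obtain ⟨k, hk⟩ := S24_Ord.ordAt_int rho a
      exact ⟨k, by rw [hk]⟩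
  · rw [hord, one_eq_algebraMap N, S24_Ord.ordAt_const _ 1 one_ne_zero]
    norm_num
  · intro h
    rw [h, ordAt_zero] at hord
    norm_num at hord

theorem fiberDatum_infty (N : ℕ) [NeZero N] (I : IotaSpec N) :
    HasFiberDatum Kbar (jF N)⁻¹ (Coset N) (Subgroup.zpowers ModularGroup.T) := by
  have hN : 0 < N := Nat.pos_of_ne_zero (NeZero.ne N)
  have hord : ordInf N (jA N I) = -(N : ℚ) := S24_Ord.ordInf_jS (I.hmem 1 (one_dvd N))
  have hj0 : jA N I ≠ 0 := by
    intro h
    rw [h, ordInf_zero] at hord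
    have : (N : ℚ) = 0 := by linarith
    exact (NeZero.ne N) (by exact_mod_cast this)
  have halg : Function.Injective (algebraMap (AN N) (EN N)) :=
    IsFractionRing.injective (AN N) (EN N)
  have hj0' : algebraMap (AN N) (EN N) (jA N I) ≠ 0 := fun h =>
    hj0 (halg (by rw [h, map_zero]))
  refine hasFiberDatum_of N (sigma N I) (sigma_smul N I) (sigma_injective N I)
    (ordInf N)
    S24_Ord.ordInf_mul S24_Ord.ordInf_add S24_Ord.ordInf_const
    ModularGroup.T
    S24_Ord.ordInf_tr_T N hN N hN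
    (tr_T_pow N) (T_pow_smul_coset N) ?_
    (jF N)⁻¹ 1 (jA N I) hj0
    (fun γ => ?_) ?_ one_ne_zero
  · intro h hh a ha hinv
    exact S24_Ord.ordInf_dvd h hh a ha hinv
  · rw [map_inv₀, sigma_jF, map_one]
    exact inv_mul_cancel₀ hj0'
  · rw [hord, one_eq_algebraMap N, S24_Ord.ordInf_const 1 one_ne_zero]
    ring

end data

end Fermat.Agent.S24_Local

end
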