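import Fermat.Statements.S24
import Fermat.Agent.S24_Iota
import Fermat.Agent.S24_Fiber
import Fermat.Agent.S24_Genus
import Fermat.Agent.S24_Comb
import Fermat.Agent.S24_Local
import Fermat.Agent.S24_Degree

/-!
# S24: the genus of the function field of `X₀(N)` over `ℚ̄` is `genusFormula N`

Final assembly (helper2).  Riemann–Hurwitz for `j : X₀(N) → ℙ¹` (`S24_Genus.genus_eq`), with the
number of places over each point of the `j`-line computed as a number of orbits on
`SL₂(ℤ)/Γ₀(N)` (`S24_Fiber.card_places_eq_card_orbits` applied to the four analytic fiber data of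
`S24_Local`), and the orbit counts evaluated in `S24_Comb`.
-/

set_option autoImplicit false
open ModularCurve

namespace Fermat.Agent.S24

open Fermat.Agent.S24_Defs Fermat.Agent.S24_Embed AlgebraicCurve IntermediateField
open scoped MatrixGroups

/-- `SL₂(ℤ)/Γ₀(N)` is finite. -/
theorem finite_coset (N : ℕ) [NeZero N] : Finite (Coset N) := by
  apply Nat.finite_of_card_ne_zero
  rw [(S24_Degree.finrank_eq N).2.symm]
  have := (S24_Degree.finrank_eq N).1
  exact Module.finrank_pos.ne'

/-- Number of places over the zero of `π` from a fiber datum for a cyclic group. -/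
theorem card_zeros_eq_orbCount (N : ℕ) [NeZero N] (π : FF N) (hadj : Kbar⟮π⟯ = Kbar⟮jF N⟯)
    (hπ : Transcendental Kbar π) (g : SL(2, ℤ))
    (h : HasFiberDatum Kbar π (Coset N) (Subgroup.zpowers g)) :
    Nat.card {v : Place Kbar (FF N) // 0 < v.ord π} = orbCount N g := by
  have := finite_coset N
  have := (S24_Degree.finrank_eq N).1
  obtain ⟨hfd, hfr⟩ := S24_Genus.finrank_congr_of_eq hadj
  have := hfd
  exact S24_Fiber.card_places_eq_card_orbits π hπ
    (by rw [hfr, (S24_Degree.finrank_eq N).2]) h

/-- The trivial group has as many orbits as points. -/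
theorem orbCount_one (N : ℕ) [NeZero N] : orbCount N 1 = Nat.card (Coset N) := by
  unfold orbCount
  refine (Nat.card_congr (Equiv.ofBijective
    (fun x : Coset N => (Quotient.mk'' x :
      MulAction.orbitRel.Quotient (Subgroup.zpowers (1 : SL(2, ℤ))) (Coset N))) ⟨?_, ?_⟩)).symm
  · intro x y hxy
    have h := Quotient.exact' hxy
    rw [MulAction.orbitRel_apply] at h
    obtain ⟨⟨g, hg⟩, hgy⟩ := h
    have hg1 : g = 1 := by
      rw [Subgroup.zpowers_one_eq_bot, Subgroup.mem_bot] at hg
      exact hg
    subst hg1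
    have h2 : (1 : SL(2, ℤ)) • y = x := hgy
    rw [one_smul] at h2
    exact h2.symm
  · intro q
    induction q using Quotient.inductionOn' with
    | h x => exact ⟨x, rfl⟩

theorem result (N : ℕ) [NeZero N]
    [AlgebraicCurve.HasCanonicalDivisor (K := AlgebraicClosure ℚ) (F := ↥(ModularCurve.modularFunctionFieldBar N))] :
    (AlgebraicCurve.genus (AlgebraicClosure ℚ) ↥(ModularCurve.modularFunctionFieldBar N) : ℚ)
      = ModularCurve.genusFormula N := by
  classical
  obtain ⟨I⟩ := S24_Iota.nonempty_iotaSpec N
  have hx : Transcendental Kbar (jF N) := S24_Degree.transcendental_jF N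
  obtain ⟨hfd, hdeg⟩ := S24_Degree.finrank_eq N
  have := hfd
  -- the numbers of places over the points of the `j`-line
  have hgen : ∀ c : Kbar, c ∉ ({0, 1728} : Finset Kbar) →
      Nat.card {v : Place Kbar (FF N) // 0 < v.ord (jF N - algebraMap Kbar (FF N) c)}
        = Module.finrank Kbar⟮jF N⟯ (FF N) := by
    intro c hc
    have h0 : c ≠ 0 := fun h => hc (by simp [h])
    have h1 : c ≠ 1728 := fun h => hc (by simp [h])
    rw [card_zeros_eq_orbCount N _ (S24_Genus.adjoin_sub_eq (jF N) c)
      (S24_Genus.transcendental_sub hx c) 1 (S24_Local.fiberDatum_generic N I c h0 h1),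
      orbCount_one, hdeg]
  have hI : Nat.card {v : Place Kbar (FF N) // 0 < v.ord (jF N - algebraMap Kbar (FF N) 1728)}
      = orbCount N ModularGroup.S :=
    card_zeros_eq_orbCount N _ (S24_Genus.adjoin_sub_eq (jF N) 1728)
      (S24_Genus.transcendental_sub hx 1728) _ (S24_Local.fiberDatum_I N I)
  have hrho : Nat.card {v : Place Kbar (FF N) // 0 < v.ord (jF N - algebraMap Kbar (FF N) 0)}
      = orbCount N (ModularGroup.S * ModularGroup.T) := by
    have h := card_zeros_eq_orbCount N (jF N) rfl hx _ (S24_Local.fiberDatum_rho N I)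
    rw [← h]
    exact Nat.card_congr (Equiv.subtypeEquivRight fun v => by rw [map_zero, sub_zero])
  have hinf : Nat.card {v : Place Kbar (FF N) // v.ord (jF N) < 0}
      = orbCount N ModularGroup.T := by
    have h := card_zeros_eq_orbCount N (jF N)⁻¹ (S24_Genus.adjoin_inv_eq (jF N))
      (S24_Genus.transcendental_inv hx) _ (S24_Local.fiberDatum_infty N I)
    rw [← h]
    exact Nat.card_congr (Equiv.subtypeEquivRight fun v => by rw [Place.ord_inv]; omega)
  -- Riemann–Hurwitz
  have hgenus := S24_Genus.genus_eq (K := Kbar) (F := FF N) (jF N) hx {0, 1728} hgen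
  have h01 : (0 : Kbar) ∉ ({1728} : Finset Kbar) := by
    rw [Finset.mem_singleton]
    exact fun h => by norm_num at h
  rw [Finset.sum_insert h01, Finset.sum_singleton, hI, hrho, hinf, hdeg] at hgenus
  -- numerics
  obtain ⟨g, hgq, hg⟩ := S24_Comb.genus_numerics N
  have hval : (((Nat.card (Coset N) : ℤ) - (orbCount N (ModularGroup.S * ModularGroup.T) : ℤ))
      + ((Nat.card (Coset N) : ℤ) - (orbCount N ModularGroup.S : ℤ))
      - (Nat.card (Coset N) : ℤ) - (orbCount N ModularGroup.T : ℤ) + 2) = 2 * (g : ℤ) := by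
    linarith
  have hfinal : AlgebraicCurve.genus Kbar (FF N) = g := by
    rw [hgenus, hval]
    omega
  rw [← hgq]
  exact_mod_cast hfinal

end Fermat.Agent.S24
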