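import Fermat.Agent.S20_Reduce
import Fermat.Agent.S20_Euler
import Fermat.Agent.S20_DualSupp
import Fermat.Agent.S20_DualGlue
import Fermat.Agent.S20_Lattice
import Fermat.Agent.S24_Genus
import Fermat.Agent.S24_Degree
import Fermat.Agent.S24

/-!
# S20_RR: the space of regular differentials of a function field has dimension `genus`

`K` algebraically closed of characteristic zero, `F/K(x)` finite. With `W = div(dx)`:
`2 * dim L(W) - 2 = deg W` (Dedekind–Weber reduced bases + trace duality + Euler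
characteristic), hence `dim L(W) = genus K F`; for the function field of `X₀(N)` this is
`genusFormula N` by S24.
-/

set_option autoImplicit false

noncomputable section

namespace Fermat.Agent.S20_RR

open AlgebraicCurve IntermediateField Polynomial KaehlerDifferential
open Fermat.Agent.S20_Euler Fermat.Agent.S20_Reduce

variable {K F : Type} [Field K] [Field F] [Algebra K F]

section Poles

/-- strict triangle inequality for `ord`. -/
theorem ord_add_of_lt (v : Place K F) {a b : F} (ha : a ≠ 0) (hb : b ≠ 0)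
    (hlt : v.ord b < v.ord a) : a + b ≠ 0 ∧ v.ord (a + b) = v.ord b := by
  have hne : a + b ≠ 0 := by
    intro h0
    have : a = -b := by linear_combination h0
    rw [this, S24_Genus.ord_neg] at hlt
    exact lt_irrefl _ hlt
  refine ⟨hne, le_antisymm ?_ ?_⟩
  · have h2 := S24_Place.ord_add_le v (a + b) (-a) (by simpa using hb)
    rw [S24_Genus.ord_neg, add_neg_cancel_comm] at h2
    rcases min_le_iff.1 h2 with h3 | h3
    · exact h3
    · omega
  · have h1 := S24_Place.ord_add_le v a b hne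
    rwa [min_eq_right hlt.le] at h1

theorem ord_pow' (v : Place K F) (f : F) (n : ℕ) : v.ord (f ^ n) = n * v.ord f := by
  rw [← zpow_natCast, v.ord_zpow]

/-- The order of a polynomial in `x` at a pole of `x`. -/
theorem ord_aeval_of_pole (x : F) (v : Place K F) (hv : v.ord x < 0) :
    ∀ p : K[X], p ≠ 0 → aeval x p ≠ 0 ∧ v.ord (aeval x p) = p.natDegree * v.ord x := by
  have hx0 : x ≠ 0 := by
    rintro rfl; simp at hv
  intro p
  induction hn : p.natDegree using Nat.strong_induction_on generalizing p with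
  | _ n ih =>
    intro hp
    subst hn
    have hlc : p.leadingCoeff ≠ 0 := leadingCoeff_ne_zero.2 hp
    have hlcF : algebraMap K F p.leadingCoeff ≠ 0 := by
      rw [Ne, map_eq_zero_iff _ (algebraMap K F).injective]; exact hlc
    have hlead0 : algebraMap K F p.leadingCoeff * x ^ p.natDegree ≠ 0 :=
      mul_ne_zero hlcF (pow_ne_zero _ hx0)
    have hleadord : v.ord (algebraMap K F p.leadingCoeff * x ^ p.natDegree)
        = p.natDegree * v.ord x := by
      rw [v.ord_mul hlcF (pow_ne_zero _ hx0), S24_Place.ord_algebraMap, ord_pow', zero_add]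
    have hdecomp : aeval x p = aeval x p.eraseLead
        + algebraMap K F p.leadingCoeff * x ^ p.natDegree := by
      conv_lhs => rw [← p.eraseLead_add_C_mul_X_pow]
      rw [map_add, map_mul, aeval_C, map_pow, aeval_X]
    rcases p.eraseLead_natDegree_lt_or_eraseLead_eq_zero with hlt | h0
    · by_cases he : p.eraseLead = 0
      · rw [hdecomp, he, map_zero, zero_add]
        exact ⟨hlead0, hleadord⟩
      · obtain ⟨h1, h2⟩ := ih _ hlt p.eraseLead rfl he
        have hlt' : v.ord (algebraMap K F p.leadingCoeff * x ^ p.natDegree)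
            < v.ord (aeval x p.eraseLead) := by
          rw [h2, hleadord]
          have : (p.eraseLead.natDegree : ℤ) < p.natDegree := by exact_mod_cast hlt
          nlinarith
        obtain ⟨h3, h4⟩ := ord_add_of_lt v h1 hlead0 hlt'
        rw [hdecomp]
        exact ⟨h3, by rw [h4, hleadord]⟩
    · rw [hdecomp, h0, map_zero, zero_add]
      exact ⟨hlead0, hleadord⟩

/-- every element of `K(x)` is a quotient of polynomials in the generator. -/
theorem exists_frac (x : F) (r : K⟮x⟯) :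
    ∃ p q : K[X], q ≠ 0 ∧ r = aeval (AdjoinSimple.gen K x) p / aeval (AdjoinSimple.gen K x) q := by
  obtain ⟨p, q, hpq⟩ := (mem_adjoin_simple_iff K (r : F)).1 r.2
  by_cases hq : q = 0
  · refine ⟨0, 1, one_ne_zero, ?_⟩
    apply Subtype.ext
    rw [hpq, hq]
    simp
  · refine ⟨p, q, hq, ?_⟩
    apply Subtype.ext
    rw [hpq]
    push_cast
    rw [AdjoinSimple.coe_aeval_gen_apply, AdjoinSimple.coe_aeval_gen_apply]

/-- the degree of an element of `K(x)`, measured at a pole `v₀` of `x`. -/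
def degAt (x : F) (v₀ : Place K F) (r : K⟮x⟯) : ℤ := v₀.ord (r : F) / v₀.ord x

theorem exists_deg (x : F) (r : K⟮x⟯) (hr : r ≠ 0) :
    ∃ m : ℤ, ∀ v : Place K F, v.ord x < 0 → v.ord (r : F) = m * v.ord x := by
  obtain ⟨p, q, hq, rfl⟩ := exists_frac x r
  have hp : p ≠ 0 := by
    rintro rfl
    simp at hr
  refine ⟨(p.natDegree : ℤ) - q.natDegree, fun v hv => ?_⟩
  obtain ⟨hp0, hpo⟩ := ord_aeval_of_pole x v hv p hp
  obtain ⟨hq0, hqo⟩ := ord_aeval_of_pole x v hv q hq
  push_cast
  rw [AdjoinSimple.coe_aeval_gen_apply, AdjoinSimple.coe_aeval_gen_apply, div_eq_mul_inv,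
    v.ord_mul hp0 (inv_ne_zero hq0), v.ord_inv, hpo, hqo]
  ring

theorem ord_eq_degAt (x : F) (v₀ : Place K F) (h₀ : v₀.ord x < 0) (r : K⟮x⟯) (hr : r ≠ 0)
    (v : Place K F) (hv : v.ord x < 0) : v.ord (r : F) = degAt x v₀ r * v.ord x := by
  obtain ⟨m, hm⟩ := exists_deg x r hr
  rw [degAt, hm v₀ h₀, Int.mul_ediv_cancel _ h₀.ne, hm v hv]

theorem isDeg_degAt (x : F) (v₀ : Place K F) (h₀ : v₀.ord x < 0) :
    IsDeg (K := K) (AdjoinSimple.gen K x) (degAt x v₀) := by
  have hx0 : x ≠ 0 := by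
    rintro rfl; simp at h₀
  have hcoe0 : ∀ r : K⟮x⟯, r ≠ 0 → (r : F) ≠ 0 := fun r hr h0 => hr (Subtype.ext h0)
  have key := fun r hr => ord_eq_degAt x v₀ h₀ r hr v₀ h₀
  have hX0 : AdjoinSimple.gen K x ≠ 0 := by
    intro h0
    apply hx0
    have := congrArg (fun r : K⟮x⟯ => (r : F)) h0
    simpa using this
  refine ⟨fun r s hr hs => ?_, fun r s hr hs hrs => ?_, ?_, hX0, fun c hc => ?_,
    fun r => exists_frac x r⟩
  · have h1 := key (r * s) (mul_ne_zero hr hs)
    rw [MulMemClass.coe_mul, v₀.ord_mul (hcoe0 r hr) (hcoe0 s hs), key r hr, key s hs,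
      ← add_mul] at h1
    exact (mul_right_cancel₀ h₀.ne h1).symm
  · have h1 := S24_Place.ord_add_le v₀ (r : F) (s : F) (by
      rw [← AddMemClass.coe_add]; exact hcoe0 _ hrs)
    rw [← AddMemClass.coe_add, key _ hrs, key r hr, key s hs] at h1
    by_contra hcon
    push Not at hcon
    obtain ⟨h2, h3⟩ := max_lt_iff.1 hcon
    rcases min_le_iff.1 h1 with h4 | h4 <;> nlinarith
  · have h1 := key _ hX0
    rw [AdjoinSimple.coe_gen] at h1
    have h2 : (1 : ℤ) * v₀.ord x = degAt x v₀ (AdjoinSimple.gen K x) * v₀.ord x := by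
      rw [one_mul]; exact h1
    exact (mul_right_cancel₀ h₀.ne h2).symm
  · have hc0 : algebraMap K K⟮x⟯ c ≠ 0 := by
      rw [Ne, map_eq_zero_iff _ (algebraMap K K⟮x⟯).injective]; exact hc
    have h1 := key _ hc0
    rw [IntermediateField.coe_algebraMap_apply, S24_Place.ord_algebraMap] at h1
    have h2 : (0 : ℤ) * v₀.ord x = degAt x v₀ (algebraMap K K⟮x⟯ c) * v₀.ord x := by
      rw [zero_mul]; exact h1
    exact (mul_right_cancel₀ h₀.ne h2).symm

end Poles

section Infinity

variable [IsAlgClosed K] [CharZero K]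

/-- the finite set of poles of `x`. -/
theorem exists_poles (x : F) (hx : Transcendental K x) [FiniteDimensional K⟮x⟯ F] :
    ∃ P : Finset (Place K F), (∀ v, v ∈ P ↔ v.ord x < 0) ∧ P.Nonempty := by
  haveI := (S24_Genus.finrank_congr_of_eq (S24_Genus.adjoin_inv_eq (K := K) x)).1
  obtain ⟨Z, h1, h2, -⟩ := S24_Genus.zeros_data x⁻¹ (S24_Genus.transcendental_inv hx)
  refine ⟨Z, fun v => by rw [h1, Place.ord_inv]; omega, ?_⟩
  by_contra hne
  rw [Finset.not_nonempty_iff_eq_empty] at hne
  rw [hne, Finset.sum_empty] at h2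
  have hpos : 0 < Module.finrank K⟮x⁻¹⟯ F := Module.finrank_pos
  omega

theorem mem_Minf_zero_iff (x : F) (f : F) :
    f ∈ Minf x (0 : Divisor K F) ↔ ∀ v : Place K F, v.ord x < 0 → f = 0 ∨ 0 ≤ v.ord f := by
  rw [mem_Minf_iff]
  simp

theorem mem_Mfin_zero_iff (x : F) (f : F) :
    f ∈ Mfin x (0 : Divisor K F) ↔ ∀ v : Place K F, 0 ≤ v.ord x → f = 0 ∨ 0 ≤ v.ord f := by
  rw [mem_Mfin_iff]
  simp

theorem smul_eq_coe_mul (x : F) (r : K⟮x⟯) (f : F) : r • f = (r : F) * f := rfl

theorem coe_gen_zpow (x : F) (k : ℤ) : ((AdjoinSimple.gen K x ^ k : K⟮x⟯) : F) = x ^ k := by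
  show (algebraMap K⟮x⟯ F) (AdjoinSimple.gen K x ^ k) = x ^ k
  rw [map_zpow₀, AdjoinSimple.algebraMap_gen]

/-- `Minf x 0` is a lattice for the degree filtration. -/
theorem isInf_Minf (x : F) (hx : Transcendental K x) [FiniteDimensional K⟮x⟯ F]
    (v₀ : Place K F) (h₀ : v₀.ord x < 0) :
    IsInf (AdjoinSimple.gen K x) (degAt x v₀) (Minf x (0 : Divisor K F)) := by
  have hx0 : x ≠ 0 := by
    rintro rfl; simp at h₀
  obtain ⟨P, hP, -⟩ := exists_poles x hx
  refine ⟨fun r f hr hf => ?_, fun f => ?_, fun f hf => ?_⟩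
  · rw [mem_Minf_zero_iff] at hf ⊢
    intro v hv
    rw [smul_eq_coe_mul]
    by_cases hr0 : r = 0
    · left; rw [hr0]; simp
    by_cases hf0 : f = 0
    · left; rw [hf0, mul_zero]
    right
    have hrF : (r : F) ≠ 0 := fun h0 => hr0 (Subtype.ext h0)
    rw [v.ord_mul hrF hf0, ord_eq_degAt x v₀ h₀ r hr0 v hv]
    have h1 := hr.resolve_left hr0
    have h2 := (hf v hv).resolve_left hf0
    nlinarith
  · refine ⟨-(∑ v ∈ P, |v.ord f|), ?_⟩
    rw [mem_Minf_zero_iff]
    intro v hv
    rw [smul_eq_coe_mul, coe_gen_zpow]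
    by_cases hf0 : f = 0
    · left; rw [hf0, mul_zero]
    right
    rw [v.ord_mul (zpow_ne_zero _ hx0) hf0, v.ord_zpow]
    have h1 : |v.ord f| ≤ ∑ v ∈ P, |v.ord f| :=
      Finset.single_le_sum (f := fun v => |v.ord f|) (fun _ _ => abs_nonneg _) ((hP v).2 hv)
    have h2 := neg_abs_le (v.ord f)
    have h3 : 0 ≤ ∑ v ∈ P, |v.ord f| := Finset.sum_nonneg fun _ _ => abs_nonneg _
    nlinarith
  · refine ⟨|v₀.ord f|, fun k hk => ?_⟩
    rw [mem_Minf_zero_iff] at hk
    have h1 := (hk v₀ h₀).resolve_left (by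
      rw [smul_eq_coe_mul, coe_gen_zpow]
      exact mul_ne_zero (zpow_ne_zero _ hx0) hf)
    rw [smul_eq_coe_mul, coe_gen_zpow, v₀.ord_mul (zpow_ne_zero _ hx0) hf, v₀.ord_zpow] at h1
    by_contra hcon
    push Not at hcon
    have h2 := le_abs_self (v₀.ord f)
    have h3 := abs_nonneg (v₀.ord f)
    nlinarith

/-- elements of `K(x)` regular at the poles of `x` are those of degree `≤ 0`. -/
theorem coe_mem_Minf_zero_iff (x : F) (v₀ : Place K F) (h₀ : v₀.ord x < 0) (r : K⟮x⟯) :
    (r : F) ∈ Minf x (0 : Divisor K F) ↔ Dle (degAt x v₀) 0 r := by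
  rw [mem_Minf_zero_iff]
  by_cases hr0 : r = 0
  · subst hr0
    exact ⟨fun _ => Or.inl rfl, fun _ v _ => Or.inl rfl⟩
  have hrF : (r : F) ≠ 0 := fun h0 => hr0 (Subtype.ext h0)
  constructor
  · intro h
    right
    have h1 := (h v₀ h₀).resolve_left hrF
    rw [ord_eq_degAt x v₀ h₀ r hr0 v₀ h₀] at h1
    by_contra hcon
    push Not at hcon
    nlinarith
  · intro h v hv
    right
    have h1 := h.resolve_left hr0
    rw [ord_eq_degAt x v₀ h₀ r hr0 v hv]
    nlinarith

/-- the pole divisor of `x`. -/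
theorem exists_poleDiv (x : F) (hx : Transcendental K x) [FiniteDimensional K⟮x⟯ F] :
    ∃ E : Divisor K F, ∀ v, E v = if v.ord x < 0 then -v.ord x else 0 := by
  classical
  obtain ⟨P, hP, -⟩ := exists_poles x hx
  refine ⟨Finsupp.onFinset P (fun v => if v.ord x < 0 then -v.ord x else 0) ?_, fun v => rfl⟩
  intro v hv
  rw [hP]
  by_contra hcon
  exact hv (if_neg hcon)

theorem Mfin_add_smul (x : F) (E : Divisor K F)
    (hE : ∀ v, E v = if v.ord x < 0 then -v.ord x else 0) (D : Divisor K F) (k : ℤ) :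
    Mfin x (D + k • E) = Mfin x D := by
  ext f
  rw [mem_Mfin_iff, mem_Mfin_iff]
  refine forall_congr' fun v => forall_congr' fun hv => ?_
  rw [Finsupp.add_apply, Finsupp.smul_apply, hE v, if_neg (not_lt.2 hv), smul_zero, add_zero]

theorem mem_Minf_add_smul_iff (x : F) (E : Divisor K F)
    (hE : ∀ v, E v = if v.ord x < 0 then -v.ord x else 0) (D : Divisor K F) (k : ℤ) (f : F) :
    f ∈ Minf x (D + k • E) ↔ (AdjoinSimple.gen K x) ^ (-k) • f ∈ Minf x D := by
  rw [mem_Minf_iff, mem_Minf_iff]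
  refine forall_congr' fun v => forall_congr' fun hv => ?_
  have hx0 : x ≠ 0 := by
    rintro rfl; simp at hv
  rw [Finsupp.add_apply, Finsupp.smul_apply, hE v, if_pos hv, smul_eq_coe_mul, coe_gen_zpow]
  by_cases hf0 : f = 0
  · subst hf0; simp
  · have hne : x ^ (-k) * f ≠ 0 := mul_ne_zero (zpow_ne_zero _ hx0) hf0
    simp only [hf0, hne, false_or]
    rw [v.ord_mul (zpow_ne_zero _ hx0) hf0, v.ord_zpow, smul_eq_mul]
    constructor <;> intro h <;> linarith

end Infinity

section Main

variable [IsAlgClosed K] [CharZero K]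

/-- the divisor of `dx`. -/
theorem exists_Wdiv (x : F) (hx : Transcendental K x) [FiniteDimensional K⟮x⟯ F] :
    ∃ W : Divisor K F, ∀ v, W v = v.ordDifferential (D K F x) :=
  ⟨Finsupp.ofSupportFinite _ (S20_DualSupp.finite_support_ordDifferential x hx), fun _ => rfl⟩

theorem quot_of_eq_top {V : Type} [AddCommGroup V] [Module K V] (S : Submodule K V)
    (h : S = ⊤) : FiniteDimensional K (V ⧸ S) ∧ Module.finrank K (V ⧸ S) = 0 := by
  haveI : Subsingleton (V ⧸ S) := Submodule.Quotient.subsingleton_iff.2 h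
  exact ⟨inferInstance, Module.finrank_zero_of_subsingleton⟩

theorem sum_toNat_of_nonneg {ι : Type} (s : Finset ι) (a : ι → ℤ) (h : ∀ i ∈ s, 0 ≤ a i) :
    ((∑ i ∈ s, (a i).toNat : ℕ) : ℤ) = ∑ i ∈ s, a i := by
  rw [Nat.cast_sum]
  exact Finset.sum_congr rfl fun i hi => Int.toNat_of_nonneg (h i hi)

/-- **Riemann–Roch for the canonical divisor**: `2 ℓ(W) - 2 = deg W` for `W = div(dx)`. -/
theorem two_mul_finrank_sub_two (x : F) (hx : Transcendental K x) [FiniteDimensional K⟮x⟯ F]
    (W : Divisor K F) (hW : ∀ v, W v = v.ordDifferential (D K F x)) :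
    FiniteDimensional K (riemannRochSpace W) ∧
      2 * (Module.finrank K (riemannRochSpace W) : ℤ) - 2 = Divisor.degree W := by
  classical
  obtain ⟨P, hP, ⟨v₀, hv₀⟩⟩ := exists_poles x hx
  have h₀ : v₀.ord x < 0 := (hP v₀).1 hv₀
  have hdeg := isDeg_degAt x v₀ h₀
  have hinf := isInf_Minf x hx v₀ h₀
  obtain ⟨E, hE⟩ := exists_poleDiv x hx
  obtain ⟨m, b₀, hb₀⟩ := S20_Lattice.exists_polyBasis x hx
  have hb₀' : IsPolyBasis (AdjoinSimple.gen K x) b₀ (Mfin x (0 : Divisor K F)) := hb₀
  obtain ⟨hfin0, hl0⟩ := S20_Lattice.finrank_riemannRochSpace_zero (K := K) x hx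
  haveI : FiniteDimensional K ↥(Mfin x (0 : Divisor K F) ⊓ Minf x (0 : Divisor K F)) := by
    rw [Mfin_inf_Minf]; exact hfin0
  obtain ⟨b, d, hD⟩ := exists_isDiag hdeg hinf hb₀'
  -- the trace form and the dual pair
  have hB : (Algebra.traceForm K⟮x⟯ F).Nondegenerate := traceForm_nondegenerate K⟮x⟯ F
  have hM' : ∀ φ : F, φ ∈ Mfin x W ↔ ∀ f ∈ Mfin x (0 : Divisor K F),
      ∃ p : K[X], Algebra.traceForm K⟮x⟯ F φ f = aeval (AdjoinSimple.gen K x) p := by
    intro φ
    have h1 := S20_DualGlue.traceDual_fin x hx φ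
    rw [mem_Mfin_iff]
    constructor
    · intro hφ f hf
      rw [Algebra.traceForm_apply, ← S20_Lattice.mem_Mfin_zero_iff_poly x hx,
        mem_Mfin_zero_iff]
      refine h1.2 (fun v hv => ?_) f ((mem_Mfin_zero_iff x f).1 hf)
      rcases hφ v hv with h | h
      · exact Or.inl h
      · right; rw [← hW]; omega
    · intro hφ v hv
      have h2 := h1.1 (fun f hf => by
        have := hφ f ((mem_Mfin_zero_iff x f).2 hf)
        rw [Algebra.traceForm_apply, ← S20_Lattice.mem_Mfin_zero_iff_poly x hx,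
          mem_Mfin_zero_iff] at this
        exact this) v hv
      rcases h2 with h | h
      · exact Or.inl h
      · right; rw [hW]; omega
  have hN' : ∀ φ : F, φ ∈ Minf x (W + (2 : ℤ) • E) ↔ ∀ f ∈ Minf x (0 : Divisor K F),
      Dle (degAt x v₀) 0 (Algebra.traceForm K⟮x⟯ F φ f) := by
    intro φ
    have h1 := S20_DualGlue.traceDual_inf x hx φ
    rw [mem_Minf_iff]
    constructor
    · intro hφ f hf
      rw [Algebra.traceForm_apply, ← coe_mem_Minf_zero_iff x v₀ h₀, mem_Minf_zero_iff]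
      refine h1.2 (fun v hv => ?_) f ((mem_Minf_zero_iff x f).1 hf)
      rcases hφ v hv with h | h
      · exact Or.inl h
      · right
        rw [Finsupp.add_apply, Finsupp.smul_apply, hE v, if_pos hv, smul_eq_mul, hW] at h
        omega
    · intro hφ v hv
      have h2 := h1.1 (fun f hf => by
        have := hφ f ((mem_Minf_zero_iff x f).2 hf)
        rw [Algebra.traceForm_apply, ← coe_mem_Minf_zero_iff x v₀ h₀, mem_Minf_zero_iff] at this
        exact this) v hv
      rcases h2 with h | h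
      · exact Or.inl h
      · right
        rw [Finsupp.add_apply, Finsupp.smul_apply, hE v, if_pos hv, smul_eq_mul, hW]
        omega
  have hD' := hD.dual hdeg (Algebra.traceForm K⟮x⟯ F) hB hM' hN'
  -- the shifted pairs
  have hDk : ∀ k : ℤ, IsDiag (AdjoinSimple.gen K x) (degAt x v₀) b (fun i => d i - k)
      (Mfin x (k • E)) (Minf x (k • E)) := by
    intro k
    have h1 := hD.shift hdeg k (N' := Minf x (k • E)) (fun f => by
      have := mem_Minf_add_smul_iff x E hE 0 k f
      rwa [zero_add] at this)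
    have h2 := Mfin_add_smul x E hE 0 k
    rw [zero_add] at h2
    rw [h2]
    exact h1
  have hDk' : ∀ k : ℤ, IsDiag (AdjoinSimple.gen K x) (degAt x v₀)
      ((Algebra.traceForm K⟮x⟯ F).dualBasis hB b) (fun i => -d i - (k - 2))
      (Mfin x (W + k • E)) (Minf x (W + k • E)) := by
    intro k
    have e : W + (2 : ℤ) • E + (k - 2) • E = W + k • E := by
      rw [add_assoc, ← add_smul]; congr 2; ring
    have h1 := hD'.shift hdeg (k - 2) (N' := Minf x (W + k • E)) (fun f => by
      have := mem_Minf_add_smul_iff x E hE (W + (2 : ℤ) • E) (k - 2) f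
      rwa [e] at this)
    rw [Mfin_add_smul x E hE W k]
    exact h1
  -- a large shift
  set k : ℤ := 1 + ∑ i, |d i| with hk
  have hdk : ∀ i, |d i| ≤ ∑ i, |d i| := fun i =>
    Finset.single_le_sum (f := fun i => |d i|) (fun _ _ => abs_nonneg _) (Finset.mem_univ i)
  have hd1 : ∀ i, d i ≤ ∑ i, |d i| := fun i => (le_abs_self _).trans (hdk i)
  have hd2 : ∀ i, -d i ≤ ∑ i, |d i| := fun i => (neg_le_abs _).trans (hdk i)
  obtain ⟨hf1, hr1⟩ := (hDk k).finrank_inf hdeg
  have hs1 := (hDk k).sup_eq_top hdeg (fun i => by have := hd1 i; omega)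
  obtain ⟨hf2, hr2⟩ := (hDk' k).finrank_inf hdeg
  have hs2 := (hDk' k).sup_eq_top hdeg (fun i => by have := hd2 i; omega)
  rw [Mfin_inf_Minf] at hf1 hr1 hf2 hr2
  obtain ⟨hq1, hq1'⟩ := quot_of_eq_top _ hs1
  obtain ⟨hq2, hq2'⟩ := quot_of_eq_top _ hs2
  obtain ⟨-, -, hchi⟩ := chi_eq x hx (k • E) hf1 hq1 (W + k • E)
  rw [chi, chi, hr1, hr2, hq1', hq2', map_add, add_sub_cancel_right,
    sum_toNat_of_nonneg _ _ (fun i _ => by have := hd2 i; omega),
    sum_toNat_of_nonneg _ _ (fun i _ => by have := hd1 i; omega)] at hchi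
  -- the unshifted pairs
  obtain ⟨hf3, hr3⟩ := (hDk 0).finrank_inf hdeg
  obtain ⟨hf4, hr4⟩ := (hDk' 0).finrank_inf hdeg
  rw [Mfin_inf_Minf, zero_smul] at hf3 hr3
  rw [Mfin_inf_Minf, zero_smul, add_zero] at hf4 hr4
  refine ⟨hf4, ?_⟩
  rw [hl0] at hr3
  have hsub : ((∑ i, (1 - (-d i - (0 - 2))).toNat : ℕ) : ℤ) - ((∑ i, (1 - (d i - 0)).toNat : ℕ) : ℤ)
      = ∑ i, (d i - 1) := by
    rw [Nat.cast_sum, Nat.cast_sum, ← Finset.sum_sub_distrib]
    refine Finset.sum_congr rfl fun i _ => ?_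
    have := Int.toNat_sub_toNat_neg (d i - 1)
    have e1 : 1 - (-d i - (0 - 2)) = d i - 1 := by ring
    have e2 : 1 - (d i - 0) = -(d i - 1) := by ring
    rw [e1, e2]
    exact this
  rw [hr4]
  rw [← hr3] at hsub
  simp only [Finset.sum_sub_distrib, Finset.sum_add_distrib, Finset.sum_const, Finset.card_univ,
    Fintype.card_fin, nsmul_eq_mul, mul_one, Nat.cast_one, sub_zero, Finset.sum_neg_distrib]
    at hchi hsub
  linarith

end Main

section Genus

variable [IsAlgClosed K] [CharZero K]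

/-- every nonzero differential of `F/K` has a divisor. -/
theorem hasCanonicalDivisor (x : F) (hx : Transcendental K x) [FiniteDimensional K⟮x⟯ F] :
    HasCanonicalDivisor (K := K) (F := F) := by
  classical
  obtain ⟨W, hW⟩ := exists_Wdiv x hx
  refine ⟨fun ω hω => ?_⟩
  obtain ⟨f, hf⟩ := S24_Diff.exists_smul_D x hx ω
  have hf0 : f ≠ 0 := by
    rintro rfl
    rw [zero_smul] at hf
    exact hω hf
  obtain ⟨T, hT, -⟩ := S24_Genus.principal_sum_zero x hx f
  refine ⟨Finsupp.onFinset T (fun v => v.ord f) (fun v hv => by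
    by_contra h; exact hv (hT v h)) + W, fun v => ?_⟩
  rw [Finsupp.add_apply, Finsupp.onFinset_apply, hW, hf,
    S24_Diff.ordDifferential_smul_D x hx v f hf0]

theorem degree_eq_sum (x : F) (hx : Transcendental K x) [FiniteDimensional K⟮x⟯ F]
    (D : Divisor K F) : Divisor.degree D = ∑ v ∈ D.support, D v := by
  rw [Divisor.degree, Finsupp.liftAddHom_apply, Finsupp.sum]
  refine Finset.sum_congr rfl fun v _ => ?_
  rw [AddMonoidHom.coe_mulRight, S24_Place.deg_eq_one x hx v]
  simp

/-- The space of regular differentials `{h : h dx regular}` has dimension `genus K F`. -/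
theorem finrank_eq_genus [HasCanonicalDivisor (K := K) (F := F)] (x : F)
    (hx : Transcendental K x) [FiniteDimensional K⟮x⟯ F] (W : Divisor K F)
    (hW : ∀ v, W v = v.ordDifferential (D K F x)) :
    Module.finrank K (riemannRochSpace W) = AlgebraicCurve.genus K F := by
  classical
  have hDx : D K F x ≠ 0 := S24_Diff.D_ne_zero x hx
  have hex : ∃ ω : Ω[F⁄K], ω ≠ 0 := ⟨_, hDx⟩
  obtain ⟨-, h2⟩ := two_mul_finrank_sub_two x hx W hW
  unfold AlgebraicCurve.genus
  rw [dif_pos hex]
  obtain ⟨f, hf⟩ := S24_Diff.exists_smul_D x hx hex.choose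
  have hf0 : f ≠ 0 := by
    rintro rfl
    rw [zero_smul] at hf
    exact hex.choose_spec hf
  obtain ⟨T, hT, hTsum⟩ := S24_Genus.principal_sum_zero x hx f
  have hsupp : ∀ v, (fun v : Place K F => v.ord f) v ≠ 0 → v ∈ T := fun v hv => by
    by_contra h; exact hv (hT v h)
  have hcan : canonicalDivisorOf hex.choose_spec
      = Finsupp.onFinset T (fun v => v.ord f) hsupp + W := by
    refine Finsupp.ext fun v => ?_
    rw [canonicalDivisorOf_apply, hf, S24_Diff.ordDifferential_smul_D x hx v f hf0,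
      Finsupp.add_apply, Finsupp.onFinset_apply, hW]
  have hDf : Divisor.degree (Finsupp.onFinset T (fun v : Place K F => v.ord f) hsupp) = 0 := by
    rw [degree_eq_sum x hx, ← hTsum]
    refine Finset.sum_subset Finsupp.support_onFinset_subset fun v _ hv => ?_
    exact Finsupp.notMem_support_iff.1 hv
  rw [hcan, map_add, hDf, zero_add, ← h2]
  have e : (2 * (Module.finrank K ↥(riemannRochSpace W) : ℤ) - 2 + 2).toNat
      = 2 * Module.finrank K ↥(riemannRochSpace W) := by omega
  rw [e]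
  omega

end Genus

section Modular

open Fermat.Agent.S24_Defs ModularCurve

/-- (P1 → P2) a basis of the space of regular differentials of the function field of
`X₀(N)`: `genusFormula N` linearly independent `h` with `h · dj` regular at every place. -/
theorem exists_regular_family (N : ℕ) [NeZero N] :
    ∃ (g : ℕ) (h : Fin g → FF N), (g : ℚ) = genusFormula N ∧ LinearIndependent Kbar h ∧
      ∀ (i : Fin g) (v : Place Kbar (FF N)),
        0 ≤ v.ord (h i) + v.ordDifferential (D Kbar (FF N) (jF N)) := by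
  have hx := S24_Degree.transcendental_jF N
  haveI := (S24_Degree.finrank_eq N).1
  haveI := hasCanonicalDivisor (jF N) hx
  obtain ⟨W, hW⟩ := exists_Wdiv (jF N) hx
  obtain ⟨hfin, -⟩ := two_mul_finrank_sub_two (jF N) hx W hW
  have hg := finrank_eq_genus (jF N) hx W hW
  have h24 := Fermat.Agent.S24.result N
  let bas := Module.finBasis Kbar (riemannRochSpace W)
  refine ⟨Module.finrank Kbar (riemannRochSpace W), fun i => (bas i : FF N), ?_, ?_, ?_⟩
  · rw [hg]; exact h24
  · exact bas.linearIndependent.map' (riemannRochSpace W).subtype (Submodule.ker_subtype _)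
  · intro i v
    have hmem := (bas i).2
    rw [mem_riemannRochSpace_iff] at hmem
    show 0 ≤ v.ord ((bas i : riemannRochSpace W) : FF N)
      + v.ordDifferential (D Kbar (FF N) (jF N))
    rcases hmem v with h0 | h1
    · exact absurd (Subtype.ext h0) (bas.ne_zero i)
    · rw [← hW]; omega

end Modular

end Fermat.Agent.S20_RR
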