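import Mathlib
import Fermat.Agent.S24_Ord

/-!
# S20_CuspForm (helper4): weight-2 cusp forms from quotients of nice functions

Row `P2_S20_CuspForm` of the team table: a quotient `a / b` of nice functions which is
`Γ₀(N)`-invariant, such that `(a / b) · j'` has nonnegative order at every point of `ℍ` and
`a / b` has `q_N`-order at least `N + 1` at every cusp, gives a weight-2 cusp form
`f = (a / b) · j'` (`exists_cuspForm`).

Steps: removable singularities (`exists_analytic_quotient`, `exists_mdiff`), the weight-2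
transformation law (`weight_two`, from `j'(γτ) = (cτ+d)² j'(τ)`), vanishing at the cusps
(`isZeroAtImInfty_of_ordInf`, from `j' ⬝ q → C`), and the packaging.
-/

set_option autoImplicit false
noncomputable section
open Fermat.Agent.S24_Defs Fermat.Agent.S24_Embed ModularCurve UpperHalfPlane Filter
open ModularForm ModularFormClass EisensteinSeries Derivative
open scoped MatrixGroups ModularForm Manifold Topology Real

namespace Fermat.Agent.S20_CuspForm

/-- Removable singularities for a quotient of analytic functions. -/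
theorem exists_analytic_quotient {A B G : ℂ → ℂ} {U : Set ℂ}
    (hA : AnalyticOnNhd ℂ A U) (hB : AnalyticOnNhd ℂ B U) (hG : AnalyticOnNhd ℂ G U)
    (hBne : ∀ z ∈ U, meromorphicOrderAt B z ≠ ⊤)
    (hord : ∀ z ∈ U, meromorphicOrderAt B z ≤ meromorphicOrderAt (A * G) z) :
    ∃ F : ℂ → ℂ, AnalyticOnNhd ℂ F U ∧ ∀ z ∈ U, F z * B z = A z * G z := by
  set φ : ℂ → ℂ := (A * G) / B with hφ
  have hAG : ∀ z ∈ U, MeromorphicAt (A * G) z := fun z hz =>
    ((hA z hz).mul (hG z hz)).meromorphicAt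
  have hBm : ∀ z ∈ U, MeromorphicAt B z := fun z hz => (hB z hz).meromorphicAt
  have hmer : MeromorphicOn φ U := fun z hz => (hAG z hz).div (hBm z hz)
  have hFan : AnalyticOnNhd ℂ (toMeromorphicNFOn φ U) U := by
    intro z hz
    have hNF := meromorphicNFOn_toMeromorphicNFOn φ U hz
    rw [← hNF.meromorphicOrderAt_nonneg_iff_analyticAt, meromorphicOrderAt_toMeromorphicNFOn hmer hz,
      hφ, meromorphicOrderAt_div (hAG z hz) (hBm z hz)]
    have h1 := hord z hz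
    have h2 := hBne z hz
    lift meromorphicOrderAt B z to ℤ using h2 with n hn
    cases h : meromorphicOrderAt (A * G) z with
    | top => simp
    | coe m =>
      rw [h] at h1
      have h3 : n ≤ m := by exact_mod_cast h1
      have h4 : (m : WithTop ℤ) - (n : WithTop ℤ) = ((m - n : ℤ) : WithTop ℤ) := rfl
      rw [h4]
      exact_mod_cast sub_nonneg.mpr h3
  refine ⟨toMeromorphicNFOn φ U, hFan, fun z hz => ?_⟩
  have hev : ∀ᶠ w in 𝓝[≠] z, toMeromorphicNFOn φ U w * B w = A w * G w := by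
    have h1 := hmer.toMeromorphicNFOn_eq_self_on_nhdsNE hz
    have h2 := (meromorphicOrderAt_ne_top_iff_eventually_ne_zero (hBm z hz)).1 (hBne z hz)
    filter_upwards [h1, h2] with w hw1 hw2
    rw [hw1, hφ]
    simp only [Pi.div_apply, Pi.mul_apply]
    field_simp
  have hc1 : Tendsto (fun w => toMeromorphicNFOn φ U w * B w) (𝓝[≠] z)
      (𝓝 (toMeromorphicNFOn φ U z * B z)) :=
    (((hFan z hz).continuousAt.mul (hB z hz).continuousAt).tendsto).mono_left nhdsWithin_le_nhds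
  have hc2 : Tendsto (fun w => A w * G w) (𝓝[≠] z) (𝓝 (A z * G z)) :=
    (((hA z hz).continuousAt.mul (hG z hz).continuousAt).tendsto).mono_left nhdsWithin_le_nhds
  exact tendsto_nhds_unique_of_eventuallyEq hc1 hc2 hev

/-- The same with analytic orders. -/
theorem exists_analytic_quotient' {A B G : ℂ → ℂ} {U : Set ℂ}
    (hA : AnalyticOnNhd ℂ A U) (hB : AnalyticOnNhd ℂ B U) (hG : AnalyticOnNhd ℂ G U)
    (hBne : ∀ z ∈ U, analyticOrderAt B z ≠ ⊤)
    (hord : ∀ z ∈ U, analyticOrderAt B z ≤ analyticOrderAt A z + analyticOrderAt G z) :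
    ∃ F : ℂ → ℂ, AnalyticOnNhd ℂ F U ∧ ∀ z ∈ U, F z * B z = A z * G z := by
  refine exists_analytic_quotient hA hB hG (fun z hz => ?_) (fun z hz => ?_)
  · rw [(hB z hz).meromorphicOrderAt_eq]
    obtain ⟨n, hn⟩ := ENat.ne_top_iff_exists.mp (hBne z hz)
    rw [← hn]
    simp
  · rw [(hB z hz).meromorphicOrderAt_eq, ((hA z hz).mul (hG z hz)).meromorphicOrderAt_eq,
      analyticOrderAt_mul (hA z hz) (hG z hz)]
    have h1 := hord z hz
    obtain ⟨n, hn⟩ := ENat.ne_top_iff_exists.mp (hBne z hz)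
    rw [← hn] at h1 ⊢
    cases h : analyticOrderAt A z + analyticOrderAt G z with
    | top => simp
    | coe m =>
      rw [h] at h1
      have h3 : n ≤ m := by exact_mod_cast h1
      simp only [ENat.map_natCast]
      exact_mod_cast h3

/-- The derivative of `j` (as a function on `ℂ`). -/
def jd : ℂ → ℂ := deriv (fun z : ℂ => jFun (ofComplex z))

theorem jd_eq : jd = deriv (jFun ∘ ofComplex) := rfl

theorem two_pi_I_ne_zero : (2 * π * Complex.I : ℂ) ≠ 0 := by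
  simp [Real.pi_ne_zero]

theorem jd_eq_D (τ : ℍ) : jd τ = (2 * π * Complex.I) * D jFun τ := by
  unfold normalizedDerivOfComplex
  rw [jd_eq]
  field_simp [two_pi_I_ne_zero]

theorem jd_smul (γ : SL(2, ℤ)) (τ : ℍ) :
    jd ((γ • τ : ℍ) : ℂ) = denom γ τ ^ (2 : ℤ) * jd τ := by
  rw [jd_eq_D, jd_eq_D, Fermat.Agent.S24_JFun.DjFun_smul]
  ring

/-- `j' ⬝ q → C ≠ 0` at `i∞`. -/
theorem exists_tendsto_jd_mul_q : ∃ C : ℂ, C ≠ 0 ∧
    Tendsto (fun τ : ℍ => jd τ * Function.Periodic.qParam 1 τ) atImInfty (𝓝 C) := by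
  obtain ⟨C, hC, h⟩ := Fermat.Agent.S24_JFun.exists_const_deriv_jFun
  refine ⟨C, hC, ?_⟩
  have hP : Tendsto (fun x : ℍ ↦ ∏' (n : ℕ), (1 - eta_q n x) ^ 24) atImInfty (𝓝 1) :=
    tendsto_atImInfty_tprod_one_sub_eta_q_pow
  have h1 : Tendsto (fun τ : ℍ => C * (E₄ τ ^ 2 * E₆ τ) / ∏' (n : ℕ), (1 - eta_q n τ) ^ 24)
      atImInfty (𝓝 (C * (1 ^ 2 * 1) / 1)) :=
    (((Fermat.Agent.S24_JBasic.tendsto_E₄.pow 2).mul Fermat.Agent.S24_JBasic.tendsto_E₆).const_mul
      C).div hP one_ne_zero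
  simp only [one_pow, mul_one, div_one] at h1
  refine h1.congr fun τ => ?_
  have hq : Function.Periodic.qParam 1 (τ : ℂ) ≠ 0 := Function.Periodic.qParam_ne_zero _
  have hD := discriminant_ne_zero τ
  have hprod := discriminant_eq_q_prod τ
  have hP0 : ∏' (n : ℕ), (1 - eta_q n τ) ^ 24 ≠ 0 := by
    intro h0
    rw [h0, mul_zero] at hprod
    exact hD hprod
  have h2 := h τ τ.im_pos
  simp only [Function.comp_apply, ofComplex_apply] at h2
  rw [hprod] at h2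
  rw [jd_eq, div_eq_iff hP0, ← h2]
  ring

theorem analyticOnNhd_jd : AnalyticOnNhd ℂ jd upperHalfPlaneSet := fun z hz =>
  (analyticOnNhd_comp_ofComplex Fermat.Agent.S24_JFun.jFun_mdiff z hz).deriv

theorem jFun_not_const (c : ℂ) : ∃ τ : ℍ, jFun τ ≠ c := by
  by_cases h : c = 0
  · refine ⟨UpperHalfPlane.I, ?_⟩
    rw [Fermat.Agent.S24_JFun.jFun_I, h]
    norm_num
  · exact ⟨rho, by rw [Fermat.Agent.S24_JFun.jFun_rho]; exact fun h' => h h'.symm⟩

variable {N : ℕ}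

theorem jA_sub_ne_zero (hj : jS 1 ∈ AN N) (c : ℂ) :
    (⟨jS 1, hj⟩ : AN N) - algebraMap ℂ (AN N) c ≠ 0 := by
  intro h
  obtain ⟨τ, hτ⟩ := jFun_not_const c
  apply hτ
  have h1 := congrArg (fun x : AN N => (x : ℍ → ℂ) τ) h
  change jS 1 τ - c = 0 at h1
  rw [S24_Ord.jS_one] at h1
  exact sub_eq_zero.mp h1

/-- The holomorphic extension of `(a / b) · j'`. -/
theorem exists_mdiff (hj : jS 1 ∈ AN N) (a b : AN N) (ha : a ≠ 0) (hb : b ≠ 0)
    (h1 : ∀ τ₀ : ℍ, 1 ≤ ordAt N τ₀ a - ordAt N τ₀ b +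
      ordAt N τ₀ ((⟨jS 1, hj⟩ : AN N) - algebraMap ℂ (AN N) (jFun τ₀))) :
    ∃ f : ℍ → ℂ, MDiff f ∧ ∀ τ : ℍ, f τ * (b : ℍ → ℂ) τ = (a : ℍ → ℂ) τ * jd τ := by
  have hA : AnalyticOnNhd ℂ (S24_Ord.germ a) upperHalfPlaneSet :=
    analyticOnNhd_comp_ofComplex (AN_coe_mdiff a)
  have hB : AnalyticOnNhd ℂ (S24_Ord.germ b) upperHalfPlaneSet :=
    analyticOnNhd_comp_ofComplex (AN_coe_mdiff b)
  have hBne : ∀ z ∈ upperHalfPlaneSet, analyticOrderAt (S24_Ord.germ b) z ≠ ⊤ := by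
    intro z hz
    obtain ⟨m, hm, -⟩ := S24_Ord.exists_analyticOrderAt_eq hb ⟨z, hz⟩
    have hm' : analyticOrderAt (S24_Ord.germ b) z = m := hm
    rw [hm']
    exact ENat.natCast_ne_top m
  have hord : ∀ z ∈ upperHalfPlaneSet, analyticOrderAt (S24_Ord.germ b) z ≤
      analyticOrderAt (S24_Ord.germ a) z + analyticOrderAt jd z := by
    intro z hz
    set τ₀ : ℍ := ⟨z, hz⟩ with hτ₀
    obtain ⟨mb, hmb, hmb'⟩ := S24_Ord.exists_analyticOrderAt_eq hb τ₀
    obtain ⟨ma, hma, hma'⟩ := S24_Ord.exists_analyticOrderAt_eq ha τ₀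
    obtain ⟨mj, hmj, hmj'⟩ := S24_Ord.exists_analyticOrderAt_eq (jA_sub_ne_zero hj (jFun τ₀)) τ₀
    have hz' : ((τ₀ : ℍ) : ℂ) = z := rfl
    rw [hz'] at hmb hma hmj
    have hgerm : S24_Ord.germ ((⟨jS 1, hj⟩ : AN N) - algebraMap ℂ (AN N) (jFun τ₀))
        = fun w : ℂ => jFun (ofComplex w) - jFun τ₀ := by
      funext w
      show jS 1 (ofComplex w) - jFun τ₀ = _
      rw [S24_Ord.jS_one]
    have hd := Fermat.Agent.S24_JFun.order_deriv_add_one τ₀
    rw [hz', ← hgerm, hmj] at hd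
    have h1' := h1 τ₀
    rw [hma', hmb', hmj'] at h1'
    have h2 : (mb : ℤ) + 1 ≤ ma + mj := by
      have : ((1 : ℤ) : ℚ) ≤ ((ma : ℤ) : ℚ) - ((mb : ℤ) : ℚ) + ((mj : ℤ) : ℚ) := by
        push_cast; exact h1'
      have h3 : (1 : ℤ) ≤ (ma : ℤ) - mb + mj := by exact_mod_cast this
      linarith
    have h3 : mb + 1 ≤ ma + mj := by exact_mod_cast h2
    rw [hma, hmb, jd_eq]
    have h4 : analyticOrderAt (deriv (jFun ∘ ofComplex)) z + 1 ≠ ⊤ := by
      rw [hd]; exact ENat.natCast_ne_top mj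
    have h5 : analyticOrderAt (deriv (jFun ∘ ofComplex)) z ≠ ⊤ := by
      intro h; apply h4; rw [h]; rfl
    obtain ⟨k, hk⟩ := ENat.ne_top_iff_exists.mp h5
    rw [← hk] at hd ⊢
    have h6 : k + 1 = mj := by exact_mod_cast hd
    have h7 : mb ≤ ma + k := by omega
    exact_mod_cast h7
  obtain ⟨F, hF, hFeq⟩ := exists_analytic_quotient' hA hB analyticOnNhd_jd hBne hord
  refine ⟨fun τ => F τ, ?_, fun τ => ?_⟩
  · rw [UpperHalfPlane.mdifferentiable_iff]
    refine (hF.differentiableOn).congr fun z hz => ?_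
    simp only [Function.comp_apply]
    rw [ofComplex_apply_of_im_pos hz]
  · have := hFeq τ τ.im_pos
    simp only [S24_Ord.germ, ofComplex_apply] at this
    exact this

/-- A product of holomorphic functions on `ℍ` vanishes only if a factor does. -/
theorem eq_zero_of_mul_eq_zero {H c : ℍ → ℂ} (hH : MDiff H) (hc : MDiff c) (hc0 : c ≠ 0)
    (h : ∀ τ, H τ * c τ = 0) : ∀ τ, H τ = 0 := by
  intro τ
  by_contra hne
  have hH0 : H ≠ 0 := fun h0 => hne (by rw [h0]; rfl)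
  have e1 := eventually_ne_zero hH hH0 τ
  have e2 := eventually_ne_zero hc hc0 τ
  have e3 : ∀ᶠ _w in 𝓝[≠] ((τ : ℍ) : ℂ), False := by
    filter_upwards [e1, e2] with w h1 h2
    exact (mul_ne_zero h1 h2) (h _)
  exact e3.exists.elim fun _ h => h

/-- Weight-2 transformation law of `f = (a / b) · j'` under an element leaving `a / b`
invariant. -/
theorem weight_two (a b : AN N) (hb : b ≠ 0) (f : ℍ → ℂ) (hf : MDiff f)
    (hfab : ∀ τ : ℍ, f τ * (b : ℍ → ℂ) τ = (a : ℍ → ℂ) τ * jd τ)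
    (γ : SL(2, ℤ)) (h3 : tr N γ⁻¹ a * b = a * tr N γ⁻¹ b) (τ : ℍ) :
    f (γ • τ) = denom γ τ ^ (2 : ℤ) * f τ := by
  have hsm : MDiff (fun τ : ℍ => γ • τ) :=
    UpperHalfPlane.mdifferentiable_smul (g := ((γ : SL(2, ℤ)) : GL (Fin 2) ℝ)) (by simp)
  have hH : MDiff (fun τ : ℍ => f (γ • τ) - denom γ τ ^ (2 : ℤ) * f τ) :=
    (hf.comp hsm).sub ((UpperHalfPlane.mdifferentiable_denom_zpow _ 2).mul hf)
  have hc : MDiff ((tr N γ⁻¹ b * b : AN N) : ℍ → ℂ) := AN_coe_mdiff _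
  have hc0 : ((tr N γ⁻¹ b * b : AN N) : ℍ → ℂ) ≠ 0 := by
    intro h
    have h' : tr N γ⁻¹ b * b = 0 := Subtype.ext h
    rcases mul_eq_zero.mp h' with h1 | h1
    · exact hb (tr_injective N γ⁻¹ (by rw [h1, map_zero]))
    · exact hb h1
  have key := eq_zero_of_mul_eq_zero hH hc hc0 (fun z => ?_) τ
  · exact sub_eq_zero.mp key
  · have e1 := hfab (γ • z)
    have e2 := hfab z
    have e3 := congrArg (fun x : AN N => (x : ℍ → ℂ) z) h3
    have e4 := jd_smul γ z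
    change (a : ℍ → ℂ) (γ⁻¹⁻¹ • z) * (b : ℍ → ℂ) z = (a : ℍ → ℂ) z * (b : ℍ → ℂ) (γ⁻¹⁻¹ • z) at e3
    rw [inv_inv] at e3
    change (f (γ • z) - denom γ z ^ (2 : ℤ) * f z) *
      ((b : ℍ → ℂ) (γ⁻¹⁻¹ • z) * (b : ℍ → ℂ) z) = 0
    rw [inv_inv]
    rw [e4] at e1
    linear_combination (b : ℍ → ℂ) z * e1 - denom γ z ^ (2 : ℤ) * (b : ℍ → ℂ) (γ • z) * e2
      + denom γ z ^ (2 : ℤ) * jd z * e3

/-- Vanishing at `i∞` of `(a / b) · j'` when `a / b` has `q_N`-order at least `N + 1`. -/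
theorem isZeroAtImInfty_of_ordInf [NeZero N] (a b : AN N) (ha : a ≠ 0) (hb : b ≠ 0)
    (h : (N : ℚ) + 1 ≤ ordInf N a - ordInf N b) (F : ℍ → ℂ)
    (hF : ∀ τ : ℍ, F τ * (b : ℍ → ℂ) τ = (a : ℍ → ℂ) τ * jd τ) :
    IsZeroAtImInfty F := by
  obtain ⟨α, hα⟩ := WithTop.ne_top_iff_exists.mp (S24_Ord.meromorphicOrderAt_cusp_ne_top ha)
  obtain ⟨β, hβ⟩ := WithTop.ne_top_iff_exists.mp (S24_Ord.meromorphicOrderAt_cusp_ne_top hb)
  have hαq : ordInf N a = α := by rw [S24_Ord.ordInf_def, ← hα]; simp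
  have hβq : ordInf N b = β := by rw [S24_Ord.ordInf_def, ← hβ]; simp
  have hαβ : (N : ℤ) + 1 ≤ α - β := by
    rw [hαq, hβq] at h
    have : (((N : ℤ) + 1 : ℤ) : ℚ) ≤ ((α - β : ℤ) : ℚ) := by push_cast; exact h
    exact_mod_cast this
  have hpow : meromorphicOrderAt (fun q : ℂ => q ^ N) 0 = (N : ℤ) := by
    have := meromorphicOrderAt_pow_id_sub_const (x := (0 : ℂ)) (n := N)
    simp only [sub_zero] at this
    exact_mod_cast this
  have hpm : MeromorphicAt (fun q : ℂ => q ^ N) 0 := (analyticAt_id.pow N).meromorphicAt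
  set Φ : ℂ → ℂ := S24_Ord.cusp a / S24_Ord.cusp b / (fun q : ℂ => q ^ N) with hΦ
  have hΦord : meromorphicOrderAt Φ 0 = ((α - β - N : ℤ) : WithTop ℤ) := by
    rw [hΦ, meromorphicOrderAt_div ((S24_Ord.meromorphicAt_cusp a).div (S24_Ord.meromorphicAt_cusp b))
      hpm, meromorphicOrderAt_div (S24_Ord.meromorphicAt_cusp a) (S24_Ord.meromorphicAt_cusp b),
      ← hα, ← hβ, hpow]
    rfl
  have hΦ0 : Tendsto Φ (𝓝[≠] 0) (𝓝 0) := by
    apply tendsto_zero_of_meromorphicOrderAt_pos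
    rw [hΦord]
    have : (0 : ℤ) < α - β - N := by omega
    exact_mod_cast this
  have hq : Tendsto (fun τ : ℍ => Function.Periodic.qParam (N : ℝ) τ) atImInfty (𝓝[≠] 0) :=
    tendsto_nhdsWithin_of_tendsto_nhds_of_eventually_within _
      (UpperHalfPlane.qParam_tendsto_atImInfty S24_Ord.N_pos)
      (Eventually.of_forall fun τ => Function.Periodic.qParam_ne_zero _)
  obtain ⟨C, -, hΨ⟩ := exists_tendsto_jd_mul_q
  have hprod : Tendsto (fun τ : ℍ => Φ (Function.Periodic.qParam (N : ℝ) τ) *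
      (jd τ * Function.Periodic.qParam 1 τ)) atImInfty (𝓝 (0 * C)) := (hΦ0.comp hq).mul hΨ
  rw [zero_mul] at hprod
  have hbne : ∀ᶠ q in 𝓝[≠] (0 : ℂ), S24_Ord.cusp b q ≠ 0 :=
    (meromorphicOrderAt_ne_top_iff_eventually_ne_zero (S24_Ord.meromorphicAt_cusp b)).1
      (S24_Ord.meromorphicOrderAt_cusp_ne_top hb)
  refine hprod.congr' ?_
  filter_upwards [hq.eventually hbne] with τ hτ
  have hqa : S24_Ord.cusp a (Function.Periodic.qParam (N : ℝ) τ) = (a : ℍ → ℂ) τ := by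
    rw [S24_Ord.cusp_qParam]
    simp [S24_Ord.germ]
  have hqb : S24_Ord.cusp b (Function.Periodic.qParam (N : ℝ) τ) = (b : ℍ → ℂ) τ := by
    rw [S24_Ord.cusp_qParam]
    simp [S24_Ord.germ]
  have hq1 : Function.Periodic.qParam (N : ℝ) (τ : ℂ) ^ N = Function.Periodic.qParam 1 τ :=
    S24_Ord.qParam_pow_N _
  have hb0 : (b : ℍ → ℂ) τ ≠ 0 := by rw [← hqb]; exact hτ
  have hq0 : Function.Periodic.qParam 1 (τ : ℂ) ≠ 0 := Function.Periodic.qParam_ne_zero _
  have hFτ := hF τ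
  simp only [hΦ, Pi.div_apply]
  rw [hqa, hqb, hq1]
  field_simp
  linear_combination -hFτ

/-- **Row `P2_S20_CuspForm`.** A quotient `a / b` of nice functions, `Γ₀(N)`-invariant, such
that `(a / b) · j'` has nonnegative order at every point of `ℍ` and `a / b` has `q_N`-order
`≥ N + 1` at every cusp, gives a weight-2 cusp form `f = (a / b) · j'`. -/
theorem exists_cuspForm (N : ℕ) [NeZero N] (hj : jS 1 ∈ AN N) (a b : AN N) (hb : b ≠ 0)
    (h1 : ∀ τ₀ : ℍ, 1 ≤ ordAt N τ₀ a - ordAt N τ₀ b +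
      ordAt N τ₀ ((⟨jS 1, hj⟩ : AN N) - algebraMap ℂ (AN N) (jFun τ₀)))
    (h2 : ∀ g : SL(2, ℤ), (N : ℚ) + 1 ≤ ordInf N (tr N g a) - ordInf N (tr N g b))
    (h3 : ∀ g : SL(2, ℤ), g ∈ CongruenceSubgroup.Gamma0 N → tr N g a * b = a * tr N g b) :
    ∃ f : CuspForm (CongruenceSubgroup.Gamma0 N) 2, ∀ τ : ℍ,
      f τ * (b : ℍ → ℂ) τ = (a : ℍ → ℂ) τ * deriv (fun z : ℂ => jFun (ofComplex z)) τ := by
  by_cases ha : a = 0
  · refine ⟨0, fun τ => ?_⟩
    rw [ha]
    show (0 : ℂ) * _ = (0 : ℂ) * _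
    rw [zero_mul, zero_mul]
  obtain ⟨f₀, hf₀, hf₀ab⟩ := exists_mdiff hj a b ha hb h1
  have hw : ∀ γ ∈ CongruenceSubgroup.Gamma0 N, ∀ τ : ℍ,
      f₀ (γ • τ) = denom γ τ ^ (2 : ℤ) * f₀ τ := fun γ hγ τ =>
    weight_two a b hb f₀ hf₀ hf₀ab γ (h3 γ⁻¹ (inv_mem hγ)) τ
  have hslash : ∀ γ ∈ CongruenceSubgroup.Gamma0 N, f₀ ∣[(2 : ℤ)] γ = f₀ := by
    intro γ hγ
    funext z
    have h := hw γ hγ z
    have hd : denom γ z ^ (2 : ℤ) ≠ 0 := zpow_ne_zero 2 (denom_ne_zero γ z)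
    rw [SL_slash_apply, h, zpow_neg]
    field_simp
  have hcusp : ∀ γ : SL(2, ℤ), IsZeroAtImInfty (f₀ ∣[(2 : ℤ)] γ) := by
    intro γ
    refine isZeroAtImInfty_of_ordInf (tr N γ⁻¹ a) (tr N γ⁻¹ b)
      (fun h => ha (tr_injective N γ⁻¹ (by rw [h, map_zero])))
      (fun h => hb (tr_injective N γ⁻¹ (by rw [h, map_zero]))) (h2 γ⁻¹) _ (fun τ => ?_)
    have e1 := hf₀ab (γ • τ)
    have e2 := jd_smul γ τ
    have hd : denom γ τ ^ (2 : ℤ) ≠ 0 := zpow_ne_zero 2 (denom_ne_zero γ τ)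
    rw [SL_slash_apply, zpow_neg]
    change f₀ (γ • τ) * (denom γ τ ^ (2 : ℤ))⁻¹ * (b : ℍ → ℂ) (γ⁻¹⁻¹ • τ) =
      (a : ℍ → ℂ) (γ⁻¹⁻¹ • τ) * jd τ
    rw [inv_inv]
    rw [e2] at e1
    generalize denom γ τ ^ (2 : ℤ) = d2 at e1 hd ⊢
    field_simp
    linear_combination e1
  refine ⟨{ toFun := f₀
            slash_action_eq' := ?_
            holo' := hf₀
            zero_at_cusps' := ?_ }, fun τ => hf₀ab τ⟩
  · rintro _ ⟨γ, hγ, rfl⟩
    exact hslash γ hγ
  · intro c hc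
    rw [Subgroup.IsArithmetic.isCusp_iff_isCusp_SL2Z] at hc
    rw [OnePoint.isZeroAt_iff_forall_SL2Z hc]
    intro γ _
    exact hcusp γ

/-! ### Helpers for the transfer: injectivity and linear independence -/

theorem jd_ne_zero : (fun τ : ℍ => jd τ) ≠ 0 := by
  intro h
  obtain ⟨C, hC, ht⟩ := exists_tendsto_jd_mul_q
  have h0 : Tendsto (fun τ : ℍ => jd τ * Function.Periodic.qParam 1 τ) atImInfty (𝓝 0) := by
    refine tendsto_const_nhds.congr fun τ => ?_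
    have := congrFun h τ
    simp only [Pi.zero_apply] at this
    rw [this, zero_mul]
  exact hC (tendsto_nhds_unique ht h0)

theorem mdiff_jd : MDiff (fun τ : ℍ => jd τ) := by
  rw [UpperHalfPlane.mdifferentiable_iff]
  refine (analyticOnNhd_jd.differentiableOn).congr fun z hz => ?_
  simp only [Function.comp_apply]
  rw [ofComplex_apply_of_im_pos hz]

/-- If `A · j' = 0` on `ℍ` for a nice function `A`, then `A = 0`. -/
theorem eq_zero_of_mul_jd_eq_zero (A : AN N) (h : ∀ τ : ℍ, (A : ℍ → ℂ) τ * jd τ = 0) : A = 0 := by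
  apply Subtype.ext
  funext τ
  exact eq_zero_of_mul_eq_zero (AN_coe_mdiff A) mdiff_jd jd_ne_zero h τ

/-- Injectivity: if `f ⬝ b = a ⬝ j'` and `f = 0` then `a = 0`. -/
theorem eq_zero_of_cuspForm_eq_zero (a b : AN N) (f : ℍ → ℂ) (hf0 : ∀ τ, f τ = 0)
    (hf : ∀ τ : ℍ, f τ * (b : ℍ → ℂ) τ = (a : ℍ → ℂ) τ * jd τ) : a = 0 :=
  eq_zero_of_mul_jd_eq_zero a fun τ => by rw [← hf τ, hf0 τ, zero_mul]

theorem coe_finset_prod {ι : Type*} (s : Finset ι) (b : ι → AN N) (τ : ℍ) :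
    ((∏ j ∈ s, b j : AN N) : ℍ → ℂ) τ = ∏ j ∈ s, (b j : ℍ → ℂ) τ := by
  classical
  induction s using Finset.induction_on with
  | empty => simp
  | insert i s hi ih =>
    rw [Finset.prod_insert hi, Finset.prod_insert hi, ← ih]
    rfl

theorem coe_finset_sum {ι : Type*} (s : Finset ι) (b : ι → AN N) (τ : ℍ) :
    ((∑ j ∈ s, b j : AN N) : ℍ → ℂ) τ = ∑ j ∈ s, (b j : ℍ → ℂ) τ := by
  classical
  induction s using Finset.induction_on with
  | empty => simp
  | insert i s hi ih =>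
    rw [Finset.sum_insert hi, Finset.sum_insert hi, ← ih]
    rfl

/-- Linear independence of the cusp forms `f i = (a i / b i) · j'` from the `ℂ`-linear
independence of the quotients `a i / b i` in `EN N`. -/
theorem linearIndependent_of_quotients {n : ℕ} (a b : Fin n → AN N) (hb : ∀ i, b i ≠ 0)
    (f : Fin n → CuspForm (CongruenceSubgroup.Gamma0 N) 2)
    (hf : ∀ (i : Fin n) (τ : ℍ), f i τ * (b i : ℍ → ℂ) τ =
      (a i : ℍ → ℂ) τ * deriv (fun z : ℂ => jFun (ofComplex z)) τ)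
    (hind : ∀ c : Fin n → ℂ,
      ∑ i, algebraMap (AN N) (EN N) (algebraMap ℂ (AN N) (c i)) *
        (algebraMap (AN N) (EN N) (a i) / algebraMap (AN N) (EN N) (b i)) = 0 → ∀ i, c i = 0) :
    LinearIndependent ℂ f := by
  classical
  rw [Fintype.linearIndependent_iff]
  intro c hc
  apply hind c
  have hinj : Function.Injective (algebraMap (AN N) (EN N)) :=
    IsFractionRing.injective (AN N) (EN N)
  have hne : ∀ x : AN N, x ≠ 0 → algebraMap (AN N) (EN N) x ≠ 0 := fun x hx h0 =>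
    hx (hinj (by rw [h0, map_zero]))
  set B : AN N := ∏ j, b j with hB
  have hB0 : B ≠ 0 := Finset.prod_ne_zero_iff.2 fun j _ => hb j
  set A : AN N := ∑ i, algebraMap ℂ (AN N) (c i) * a i * ∏ j ∈ Finset.univ.erase i, b j with hA
  have hmul : ∀ i, b i * ∏ j ∈ Finset.univ.erase i, b j = B := fun i =>
    Finset.mul_prod_erase Finset.univ b (Finset.mem_univ i)
  -- evaluation of the sum of cusp forms
  have hsum : ∀ (s : Finset (Fin n)) (τ : ℍ), (∑ i ∈ s, c i • f i) τ = ∑ i ∈ s, c i * f i τ := by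
    intro s τ
    induction s using Finset.induction_on with
    | empty => rfl
    | insert i s hi ih =>
      rw [Finset.sum_insert hi, Finset.sum_insert hi, ← ih]
      rfl
  have hA0 : A = 0 := by
    apply eq_zero_of_mul_jd_eq_zero
    intro τ
    have h1 : (∑ i, c i • f i) τ = 0 := by rw [hc]; rfl
    rw [hsum] at h1
    rw [hA, coe_finset_sum, Finset.sum_mul]
    have h2 : ∀ i ∈ Finset.univ, ((algebraMap ℂ (AN N) (c i) * a i *
        ∏ j ∈ Finset.univ.erase i, b j : AN N) : ℍ → ℂ) τ * jd τ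
        = (c i * f i τ) * (B : ℍ → ℂ) τ := by
      intro i _
      have e1 := hf i τ
      have e2 := congrArg (fun x : AN N => (x : ℍ → ℂ) τ) (hmul i)
      change (b i : ℍ → ℂ) τ * ((∏ j ∈ Finset.univ.erase i, b j : AN N) : ℍ → ℂ) τ
        = (B : ℍ → ℂ) τ at e2
      change c i * (a i : ℍ → ℂ) τ * ((∏ j ∈ Finset.univ.erase i, b j : AN N) : ℍ → ℂ) τ * jd τ
        = _
      rw [← e2]
      change f i τ * (b i : ℍ → ℂ) τ = (a i : ℍ → ℂ) τ * jd τ at e1
      linear_combination (-(c i) * ((∏ j ∈ Finset.univ.erase i, b j : AN N) : ℍ → ℂ) τ) * e1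
    rw [Finset.sum_congr rfl h2, ← Finset.sum_mul, h1, zero_mul]
  have hfin : (∑ i, algebraMap (AN N) (EN N) (algebraMap ℂ (AN N) (c i)) *
      (algebraMap (AN N) (EN N) (a i) / algebraMap (AN N) (EN N) (b i))) *
      algebraMap (AN N) (EN N) B = algebraMap (AN N) (EN N) A := by
    rw [hA, map_sum, Finset.sum_mul]
    refine Finset.sum_congr rfl fun i _ => ?_
    rw [← hmul i, map_mul, map_mul, map_mul]
    have := hne (b i) (hb i)
    field_simp
  rw [hA0, map_zero] at hfin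
  exact (mul_eq_zero.mp hfin).resolve_right (hne B hB0)

end Fermat.Agent.S20_CuspForm
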