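import Fermat.Agent.S24_Degree
import Fermat.Agent.S24_Iota

/-!
# S20 (P2): `ℚ̄`-independent elements of `F` have `ℂ`-independent images in `EN N`

The embedding `ι : F → EN N` is only `ℚ̄`-linear, but the images of `ℚ̄`-linearly independent
elements are `ℂ`-linearly independent: write the elements as `A_i / s(j)` with `A_i` polynomial
expressions in the generators; a `ℂ`-linear relation between the analytic functions attached to
the `A_i` descends to a `ℚ̄`-linear relation between the `q`-expansions
(`S24_DegreeOf.exists_kbar_relation`).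
-/

set_option autoImplicit false

noncomputable section

namespace Fermat.Agent.S20_Indep

open Fermat.Agent.S24_Defs Fermat.Agent.S24_Embed ModularCurve AlgebraicCurve UpperHalfPlane
  IntermediateField
open Fermat.Agent.S24_DegreeOf Fermat.Agent.S24_Dict
open scoped MatrixGroups ModularForm Manifold Topology

variable (N : ℕ) [NeZero N]

/-- The generators `j(q^d)`, `d ∣ N`, as elements of `F` (and `0` for the other `d`). -/
def JF (d : ℕ) : FF N :=
  if h : d ∣ N then ⟨Jd d, Jd_mem N h (ne_zero_of_dvd_ne_zero (NeZero.ne N) h)⟩ else 0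

theorem coe_JF (d : ℕ) : ((JF N d : FF N) : LaurentSeries Kbar) = JN N d := by
  unfold JF JN
  split_ifs <;> rfl

theorem coe_aeval_JF (P : MvPolynomial ℕ Kbar) :
    ((MvPolynomial.aeval (JF N) P : FF N) : LaurentSeries Kbar)
      = MvPolynomial.aeval (JN N) P := by
  have h := MvPolynomial.comp_aeval_apply (JF N) (modularFunctionFieldBar N).val P
  have h2 : (fun i => (modularFunctionFieldBar N).val (JF N i)) = JN N :=
    funext fun d => coe_JF N d
  rw [h2] at h
  exact h

/-- `ι` on polynomial expressions in the generators. -/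
theorem iota_aeval_JF (I : IotaSpec N) (P : MvPolynomial ℕ Kbar) :
    I.ι (MvPolynomial.aeval (JF N) P)
      = algebraMap (AN N) (EN N) (phi (S24_Degree.inputs N) P) := by
  have key : I.ι.comp (MvPolynomial.aeval (JF N) : MvPolynomial ℕ Kbar →ₐ[Kbar] FF N).toRingHom
      = (algebraMap (AN N) (EN N)).comp
          (MvPolynomial.eval₂Hom ((algebraMap ℂ (AN N)).comp iotaC)
            (jA (S24_Degree.inputs N))) := by
    apply MvPolynomial.ringHom_ext
    · intro a
      simp only [RingHom.comp_apply, AlgHom.toRingHom_eq_coe, RingHom.coe_coe,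
        MvPolynomial.aeval_C, MvPolynomial.coe_eval₂Hom, MvPolynomial.eval₂_C]
      exact I.hconst a
    · intro d
      simp only [RingHom.comp_apply, AlgHom.toRingHom_eq_coe, RingHom.coe_coe,
        MvPolynomial.aeval_X, MvPolynomial.coe_eval₂Hom, MvPolynomial.eval₂_X]
      unfold JF jA
      split_ifs with h
      · exact I.hJ d h
      · rw [map_zero, map_zero]
  exact DFunLike.congr_fun key P

/-- **T3.** `ℚ̄`-linearly independent elements of `F` have `ℂ`-linearly independent images in
`EN N`. -/
theorem iota_indep (N : ℕ) [NeZero N] (I : IotaSpec N) {n : ℕ} (h : Fin n → FF N)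
    (hind : LinearIndependent Kbar h) (c : Fin n → ℂ)
    (hc : ∑ i, algebraMap (AN N) (EN N) (algebraMap ℂ (AN N) (c i)) * I.ι (h i) = 0) :
    ∀ i, c i = 0 := by
  classical
  by_contra hcon
  push Not at hcon
  -- representation `h i = A_i / s_i(j)`
  have hgood : ∀ i, Good N (h i : LaurentSeries Kbar) :=
    fun i => good_of_mem (S24_Degree.inputs N) (h i).2
  choose P s hs hPs using hgood
  -- common denominator
  set S : Polynomial Kbar := ∏ i, s i with hS
  have hS0 : S ≠ 0 := Finset.prod_ne_zero_iff.mpr fun i _ => hs i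
  let P' : Fin n → MvPolynomial ℕ Kbar :=
    fun i => P i * liftX (∏ k ∈ Finset.univ.erase i, s k)
  have hP' : ∀ i, (h i : LaurentSeries Kbar) * evJ S = MvPolynomial.aeval (JN N) (P' i) := by
    intro i
    have hSi : S = s i * ∏ k ∈ Finset.univ.erase i, s k :=
      (Finset.mul_prod_erase _ _ (Finset.mem_univ i)).symm
    rw [hSi, map_mul, ← mul_assoc, hPs i, map_mul, aeval_JN_liftX]
  -- the same in `F`
  have hF : ∀ i, h i * MvPolynomial.aeval (JF N) (liftX S)
      = MvPolynomial.aeval (JF N) (P' i) := by
    intro i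
    apply Subtype.ext
    have h1 : ((h i * MvPolynomial.aeval (JF N) (liftX S) : FF N) : LaurentSeries Kbar)
        = (h i : LaurentSeries Kbar)
          * ((MvPolynomial.aeval (JF N) (liftX S) : FF N) : LaurentSeries Kbar) := rfl
    rw [h1, coe_aeval_JF, coe_aeval_JF, aeval_JN_liftX]
    exact hP' i
  -- apply `ι`
  have hι : ∀ i, I.ι (h i) * algebraMap (AN N) (EN N) (phi (S24_Degree.inputs N) (liftX S))
      = algebraMap (AN N) (EN N) (phi (S24_Degree.inputs N) (P' i)) := by
    intro i
    rw [← iota_aeval_JF, ← iota_aeval_JF, ← map_mul, hF i]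
  have hsum : algebraMap (AN N) (EN N)
      (∑ i, algebraMap ℂ (AN N) (c i) * phi (S24_Degree.inputs N) (P' i)) = 0 := by
    rw [map_sum]
    have h1 := congrArg
      (fun x => x * algebraMap (AN N) (EN N) (phi (S24_Degree.inputs N) (liftX S))) hc
    simp only [zero_mul, Finset.sum_mul] at h1
    rw [← h1]
    refine Finset.sum_congr rfl fun i _ => ?_
    rw [map_mul, mul_assoc, hι i]
  have hsum' : ∑ i, algebraMap ℂ (AN N) (c i) * phi (S24_Degree.inputs N) (P' i) = 0 :=
    IsFractionRing.injective (AN N) (EN N) (by rw [hsum, map_zero])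
  -- pointwise
  have hpt : ∀ τ : ℍ, ∑ i, c i * ev iotaC (Function.Periodic.qParam 1 τ)
      (MvPolynomial.aeval (JN N) (P' i)) = 0 := by
    intro τ
    have h1 := congrArg (evalAt N τ) hsum'
    rw [map_sum, map_zero] at h1
    rw [← h1]
    refine Finset.sum_congr rfl fun i _ => ?_
    rw [RingHom.map_mul (evalAt N τ), evalAt_apply, evalAt_apply, phi_apply]
    rfl
  obtain ⟨a, ⟨i0, hi0⟩, ha⟩ := exists_kbar_relation
    (fun i => MvPolynomial.aeval (JN N) (P' i))
    (fun i => (conv_ev_aeval_of (JN N) (conv_JN N) (P' i)).1) c hcon hpt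
  -- contradiction with independence
  have h1 : (∑ i, algebraMap Kbar (LaurentSeries Kbar) (a i) * (h i : LaurentSeries Kbar))
      * evJ S = 0 := by
    rw [Finset.sum_mul, ← ha]
    exact Finset.sum_congr rfl fun i _ => by rw [mul_assoc, hP' i]
  have h2 := (mul_eq_zero.mp h1).resolve_right (evJ_ne_zero hS0)
  have hval : (modularFunctionFieldBar N).val (∑ i, a i • h i) = 0 := by
    rw [map_sum, ← h2]
    refine Finset.sum_congr rfl fun i _ => ?_
    rw [Algebra.smul_def, map_mul, AlgHom.commutes]
    rfl
  have hrel : ∑ i, a i • h i = 0 := Subtype.ext hval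
  exact hi0 (Fintype.linearIndependent_iff.mp hind a hrel i0)

end Fermat.Agent.S20_Indep

end
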