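import Fermat.Agent.S20_Orders
import Fermat.Agent.S20_Indep
import Fermat.Agent.S20_CuspForm

/-!
# S20 (P2): transfer of regular differentials to cusp forms

A `ℚ̄`-linearly independent family `h i ∈ F` such that every `h i · dj` is a regular differential
gives a `ℂ`-linearly independent family of weight-2 cusp forms `f i = ι(h i) · j'` on `Γ₀(N)`.
-/

set_option autoImplicit false

noncomputable section

namespace Fermat.Agent.S20_Transfer

open Fermat.Agent.S24_Defs Fermat.Agent.S24_Embed ModularCurve AlgebraicCurve UpperHalfPlane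
  IntermediateField
open scoped MatrixGroups ModularForm Manifold Topology
open KaehlerDifferential

/-- **T4.** Regular differentials give linearly independent cusp forms of weight 2. -/
theorem exists_cuspForms (N : ℕ) [NeZero N] (g : ℕ) (h : Fin g → FF N)
    (hind : LinearIndependent Kbar h)
    (hreg : ∀ (i : Fin g) (v : Place Kbar (FF N)),
      0 ≤ v.ord (h i) + v.ordDifferential (D Kbar (FF N) (jF N))) :
    ∃ f : Fin g → CuspForm (CongruenceSubgroup.Gamma0 N) 2, LinearIndependent ℂ f := by
  obtain ⟨I⟩ := S24_Iota.nonempty_iotaSpec N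
  have hinj : Function.Injective (algebraMap (AN N) (EN N)) :=
    IsFractionRing.injective (AN N) (EN N)
  have hne : ∀ x : AN N, x ≠ 0 → algebraMap (AN N) (EN N) x ≠ 0 := fun x hx h0 =>
    hx (hinj (by rw [h0, map_zero]))
  -- write `ι (h i) = a i / b i`
  have hfrac : ∀ i, ∃ a b : AN N, b ≠ 0 ∧
      I.ι (h i) * algebraMap (AN N) (EN N) b = algebraMap (AN N) (EN N) a := by
    intro i
    obtain ⟨a, b, hb, hab⟩ := IsFractionRing.div_surjective (A := AN N) (I.ι (h i))
    have hb' : b ≠ 0 := nonZeroDivisors.ne_zero hb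
    exact ⟨a, b, hb', by rw [← hab, div_mul_cancel₀ _ (hne b hb')]⟩
  choose a b hb hab using hfrac
  have hh : ∀ i, h i ≠ 0 := fun i => hind.ne_zero i
  -- the cusp forms
  have hcf : ∀ i, ∃ f : CuspForm (CongruenceSubgroup.Gamma0 N) 2, ∀ τ : ℍ,
      f τ * (b i : ℍ → ℂ) τ = (a i : ℍ → ℂ) τ * deriv (fun z : ℂ => jFun (ofComplex z)) τ := by
    intro i
    refine S20_CuspForm.exists_cuspForm N (I.hmem 1 (one_dvd N)) (a i) (b i) (hb i) ?_ ?_ ?_
    · intro τ₀
      exact S20_Orders.regular_ordAt N I (h i) (hh i) (hreg i) 1 (a i) (b i) (hb i)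
        (by rw [trE_one]; exact hab i) τ₀
    · intro γ
      refine S20_Orders.regular_ordInf N I (h i) (hh i) (hreg i) γ (tr N γ (a i))
        (tr N γ (b i)) ?_ ?_
      · intro h0
        exact hb i (tr_injective N γ (by rw [h0, map_zero]))
      · rw [← trE_algebraMap, ← trE_algebraMap, ← RingHom.map_mul (trE N γ), hab i]
    · intro γ hγ
      have h1 := S24_Sigma.trE_iota_of_mem_Gamma0 N I hγ (h i)
      apply hinj
      rw [RingHom.map_mul (algebraMap (AN N) (EN N)), RingHom.map_mul (algebraMap (AN N) (EN N)),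
        ← trE_algebraMap, ← trE_algebraMap, ← hab i, RingHom.map_mul (trE N γ), h1,
        trE_algebraMap]
      ring
  choose f hf using hcf
  refine ⟨f, S20_CuspForm.linearIndependent_of_quotients a b hb f hf ?_⟩
  intro c hc
  apply S20_Indep.iota_indep N I h hind c
  rw [← hc]
  refine Finset.sum_congr rfl fun i _ => ?_
  congr 1
  rw [eq_div_iff (hne (b i) (hb i))]
  exact hab i

/-- P1 ⟹ the lower bound: if there is a `ℚ̄`-independent family of `g = genusFormula N` elements
`h i ∈ F` with `h i · dj` regular (the output of the algebraic Riemann–Roch part), then there are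
`g` linearly independent weight-2 cusp forms on `Γ₀(N)`. -/
theorem lower_bound_of (N : ℕ) [NeZero N]
    (hRR : ∃ (g : ℕ) (h : Fin g → FF N), (g : ℚ) = genusFormula N ∧ LinearIndependent Kbar h ∧
      ∀ (i : Fin g) (v : Place Kbar (FF N)),
        0 ≤ v.ord (h i) + v.ordDifferential (D Kbar (FF N) (jF N))) :
    ∃ (g : ℕ) (f : Fin g → CuspForm (CongruenceSubgroup.Gamma0 N) 2),
      (g : ℚ) = genusFormula N ∧ LinearIndependent ℂ f := by
  obtain ⟨g, h, hg, hind, hreg⟩ := hRR
  obtain ⟨f, hf⟩ := exists_cuspForms N g h hind hreg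
  exact ⟨g, f, hg, hf⟩

end Fermat.Agent.S20_Transfer

end
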