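import Mathlib

set_option autoImplicit false

open Complex Filter Topology Metric

namespace Fermat.Agent.S22_Primitive

/-- A function on the upper half plane of the form `ψ (exp (2πiz/h))` with `ψ` holomorphic on the
unit disc and `ψ 0 = 0`. -/
def IsCuspLike (h : ℝ) (g : ℂ → ℂ) : Prop :=
  ∃ ψ : ℂ → ℂ, DifferentiableOn ℂ ψ (ball 0 1) ∧ ψ 0 = 0 ∧
    ∀ z : ℂ, 0 < z.im → g z = ψ (Function.Periodic.qParam h z)

/-- Faster-than-polynomial decay as `Im z → ∞`, uniformly on vertical strips of finite width. -/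
def IsFastDecay (H : ℂ → ℂ) : Prop :=
  ∀ (m : ℕ) (B : ℝ) (ε : ℝ), 0 < ε →
    ∃ A : ℝ, ∀ z : ℂ, |z.re| ≤ B → A ≤ z.im → ‖z ^ m * H z‖ ≤ ε

theorem IsFastDecay.zero : IsFastDecay (fun _ => (0 : ℂ)) := by
  intro m B ε hε
  exact ⟨0, fun z _ _ => by simpa using hε.le⟩

theorem IsFastDecay.add {H₁ H₂ : ℂ → ℂ} (h₁ : IsFastDecay H₁) (h₂ : IsFastDecay H₂) :
    IsFastDecay (fun z => H₁ z + H₂ z) := by
  intro m B ε hε
  obtain ⟨A₁, hA₁⟩ := h₁ m B (ε / 2) (by positivity)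
  obtain ⟨A₂, hA₂⟩ := h₂ m B (ε / 2) (by positivity)
  refine ⟨max A₁ A₂, fun z hz hA => ?_⟩
  have e1 := hA₁ z hz (le_trans (le_max_left _ _) hA)
  have e2 := hA₂ z hz (le_trans (le_max_right _ _) hA)
  calc ‖z ^ m * (H₁ z + H₂ z)‖ = ‖z ^ m * H₁ z + z ^ m * H₂ z‖ := by rw [mul_add]
    _ ≤ ‖z ^ m * H₁ z‖ + ‖z ^ m * H₂ z‖ := norm_add_le _ _
    _ ≤ ε / 2 + ε / 2 := add_le_add e1 e2
    _ = ε := by ring

theorem IsFastDecay.const_mul {H : ℂ → ℂ} (hH : IsFastDecay H) (c : ℂ) :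
    IsFastDecay (fun z => c * H z) := by
  intro m B ε hε
  obtain ⟨A, hA⟩ := hH m B (ε / (‖c‖ + 1)) (by positivity)
  refine ⟨A, fun z hz hzA => ?_⟩
  have e := hA z hz hzA
  calc ‖z ^ m * (c * H z)‖ = ‖c‖ * ‖z ^ m * H z‖ := by
        rw [← norm_mul]; congr 1; ring
    _ ≤ ‖c‖ * (ε / (‖c‖ + 1)) := by gcongr
    _ ≤ ε := by
        rw [mul_div_assoc']
        rw [div_le_iff₀ (by positivity)]
        nlinarith [norm_nonneg c]

theorem IsFastDecay.neg {H : ℂ → ℂ} (hH : IsFastDecay H) : IsFastDecay (fun z => -H z) := by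
  simpa using hH.const_mul (-1)

theorem IsFastDecay.sub {H₁ H₂ : ℂ → ℂ} (h₁ : IsFastDecay H₁) (h₂ : IsFastDecay H₂) :
    IsFastDecay (fun z => H₁ z - H₂ z) := by
  simpa [sub_eq_add_neg] using h₁.add h₂.neg

theorem IsFastDecay.sum {ι : Type*} (s : Finset ι) {H : ι → ℂ → ℂ}
    (h : ∀ i ∈ s, IsFastDecay (H i)) : IsFastDecay (fun z => ∑ i ∈ s, H i z) := by
  classical
  induction s using Finset.induction_on with
  | empty => simpa using IsFastDecay.zero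
  | insert i t hi IH =>
    have h1 : IsFastDecay (H i) := h i (Finset.mem_insert_self i t)
    have h2 : IsFastDecay (fun z => ∑ i ∈ t, H i z) :=
      IH fun j hj => h j (Finset.mem_insert_of_mem hj)
    simpa [Finset.sum_insert hi] using h1.add h2

theorem IsFastDecay.pow_mul {H : ℂ → ℂ} (hH : IsFastDecay H) (i : ℕ) :
    IsFastDecay (fun z => z ^ i * H z) := by
  intro m B ε hε
  obtain ⟨A, hA⟩ := hH (m + i) B ε hε
  refine ⟨A, fun z hz hzA => ?_⟩
  have e := hA z hz hzA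
  rwa [pow_add, mul_assoc] at e

theorem IsFastDecay.congr {H₁ H₂ : ℂ → ℂ} (h₁ : IsFastDecay H₁)
    (h : ∀ z : ℂ, 0 < z.im → H₂ z = H₁ z) : IsFastDecay H₂ := by
  intro m B ε hε
  obtain ⟨A, hA⟩ := h₁ m B ε hε
  refine ⟨max A 1, fun z hz hzA => ?_⟩
  have hpos : 0 < z.im := lt_of_lt_of_le one_pos (le_trans (le_max_right _ _) hzA)
  rw [h z hpos]
  exact hA z hz (le_trans (le_max_left _ _) hzA)


theorem IsFastDecay.polynomial_mul {H : ℂ → ℂ} (hH : IsFastDecay H) (p : Polynomial ℂ) :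
    IsFastDecay (fun z => p.eval z * H z) := by
  have h1 : IsFastDecay (fun z => ∑ i ∈ Finset.range (p.natDegree + 1),
      p.coeff i * (z ^ i * H z)) :=
    IsFastDecay.sum _ fun i _ => (hH.pow_mul i).const_mul _
  refine h1.congr fun z _ => ?_
  rw [Polynomial.eval_eq_sum_range, Finset.sum_mul]
  refine Finset.sum_congr rfl fun i _ => ?_
  ring

theorem IsFastDecay.comp_affine {H : ℂ → ℂ} (hH : IsFastDecay H) (a b d : ℝ) (ha : 0 < a)
    (hd : 0 < d) : IsFastDecay (fun z => H (((a : ℂ) * z + b) / d)) := by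
  intro m B ε hε
  have hG := hH.polynomial_mul
    ((Polynomial.C ((d / a : ℝ) : ℂ) * Polynomial.X + Polynomial.C ((-b / a : ℝ) : ℂ)) ^ m)
  obtain ⟨A', hA'⟩ := hG 0 ((a * |B| + |b|) / d) ε hε
  refine ⟨d * A' / a, fun z hz hzA => ?_⟩
  have ha' : (a : ℂ) ≠ 0 := by exact_mod_cast ha.ne'
  have hd' : (d : ℂ) ≠ 0 := by exact_mod_cast hd.ne'
  have hre : (((a : ℂ) * z + b) / d).re = (a * z.re + b) / d := by
    have : ((a : ℂ) * z + b) / d = (((a * z.re + b) / d : ℝ) : ℂ) + ((a * z.im / d : ℝ) : ℂ) * I := by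
      apply Complex.ext <;> simp [Complex.div_re, Complex.div_im]
    rw [this]; simp
  have him : (((a : ℂ) * z + b) / d).im = a * z.im / d := by
    have : ((a : ℂ) * z + b) / d = (((a * z.re + b) / d : ℝ) : ℂ) + ((a * z.im / d : ℝ) : ℂ) * I := by
      apply Complex.ext <;> simp [Complex.div_re, Complex.div_im]
    rw [this]; simp
  have key := hA' (((a : ℂ) * z + b) / d) ?_ ?_
  · have hz' : (((d / a : ℝ) : ℂ) * (((a : ℂ) * z + b) / d) + ((-b / a : ℝ) : ℂ)) = z := by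
      push_cast; field_simp; ring
    simp only [pow_zero, one_mul, Polynomial.eval_pow, Polynomial.eval_add, Polynomial.eval_mul,
      Polynomial.eval_C, Polynomial.eval_X] at key
    rw [hz'] at key
    exact key
  · rw [hre, abs_div, abs_of_pos hd]
    apply div_le_div_of_nonneg_right _ hd.le
    calc |a * z.re + b| ≤ |a * z.re| + |b| := abs_add_le _ _
      _ = a * |z.re| + |b| := by rw [abs_mul, abs_of_pos ha]
      _ ≤ a * |B| + |b| := by
          have : |z.re| ≤ |B| := hz.trans (le_abs_self B)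
          gcongr
  · rw [him]
    rw [div_le_iff₀ ha] at hzA
    rw [le_div_iff₀ hd]
    linarith

theorem exists_bound_pow_mul_exp (m : ℕ) (B C c ε : ℝ) (_hC : 0 ≤ C) (hc : 0 < c) (hε : 0 < ε) :
    ∃ A : ℝ, 0 ≤ A ∧ ∀ t : ℝ, A ≤ t → (|B| + t) ^ m * C * Real.exp (-c * t) ≤ ε := by
  have h := Real.tendsto_pow_mul_exp_neg_atTop_nhds_zero m
  have h2 : Tendsto (fun t : ℝ => c * (|B| + t)) atTop atTop :=
    (tendsto_atTop_add_const_left atTop |B| tendsto_id).const_mul_atTop hc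
  have h3 := h.comp h2
  have h4 : Tendsto (fun t : ℝ => (C * (c ^ m)⁻¹ * Real.exp (c * |B|)) *
      ((fun x : ℝ => x ^ m * Real.exp (-x)) ∘ fun t : ℝ => c * (|B| + t)) t) atTop (𝓝 0) := by
    simpa using h3.const_mul (C * (c ^ m)⁻¹ * Real.exp (c * |B|))
  have h5 := h4.eventually_lt_const hε
  obtain ⟨A, hA⟩ := eventually_atTop.mp h5
  refine ⟨max A 0, le_max_right _ _, fun t ht => ?_⟩
  have h6 := hA t (le_trans (le_max_left _ _) ht)
  refine le_of_eq_of_le ?_ h6.le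
  simp only [Function.comp_apply]
  have hcm : (c ^ m) ≠ 0 := pow_ne_zero _ hc.ne'
  have e1 : Real.exp (-(c * (|B| + t))) = Real.exp (-c * t) * (Real.exp (c * |B|))⁻¹ := by
    rw [← Real.exp_neg, ← Real.exp_add]; congr 1; ring
  rw [e1, mul_pow]
  have hne : Real.exp (c * |B|) ≠ 0 := (Real.exp_pos _).ne'
  field_simp

theorem IsCuspLike.norm_le {h : ℝ} (hh : 0 < h) {g : ℂ → ℂ} (hg : IsCuspLike h g) :
    ∃ C : ℝ, 0 ≤ C ∧ ∀ z : ℂ, h ≤ z.im → ‖g z‖ ≤ C * Real.exp (-(2 * Real.pi / h) * z.im) := by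
  obtain ⟨ψ, hψ, hψ0, hgψ⟩ := hg
  have hχ : ContinuousOn (dslope ψ 0) (closedBall (0 : ℂ) (1 / 2)) :=
    (((differentiableOn_dslope (ball_mem_nhds (0 : ℂ) one_pos)).mpr hψ).continuousOn).mono
      (closedBall_subset_ball (by norm_num))
  obtain ⟨C, hC⟩ := (isCompact_closedBall (0 : ℂ) (1 / 2)).exists_bound_of_continuousOn hχ
  have hC0 : 0 ≤ C := (norm_nonneg _).trans (hC 0 (by simp))
  refine ⟨C, hC0, fun z hz => ?_⟩
  have hzpos : 0 < z.im := lt_of_lt_of_le hh hz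
  have hq : ‖Function.Periodic.qParam h z‖ = Real.exp (-(2 * Real.pi / h) * z.im) := by
    rw [Function.Periodic.norm_qParam]; congr 1; ring
  have hq2 : ‖Function.Periodic.qParam h z‖ ≤ 1 / 2 := by
    rw [hq]
    have h1 : -(2 * Real.pi / h) * z.im ≤ -1 := by
      have : 1 ≤ z.im / h := by rw [le_div_iff₀ hh]; linarith
      have hpi : (1 : ℝ) ≤ 2 * Real.pi := by linarith [Real.pi_gt_three]
      have : 1 ≤ 2 * Real.pi * (z.im / h) := by nlinarith
      have e : -(2 * Real.pi / h) * z.im = -(2 * Real.pi * (z.im / h)) := by ring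
      rw [e]; linarith
    calc Real.exp (-(2 * Real.pi / h) * z.im) ≤ Real.exp (-1) := Real.exp_le_exp.mpr h1
      _ ≤ 1 / 2 := by
          rw [Real.exp_neg, one_div]
          apply inv_anti₀ (by norm_num)
          have := Real.add_one_le_exp (1 : ℝ)
          linarith
  rw [hgψ z hzpos]
  have hsl : ψ (Function.Periodic.qParam h z)
      = Function.Periodic.qParam h z * dslope ψ 0 (Function.Periodic.qParam h z) := by
    have := sub_smul_dslope ψ 0 (Function.Periodic.qParam h z)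
    simp only [sub_zero, smul_eq_mul, hψ0] at this
    exact this.symm
  rw [hsl, norm_mul, hq, mul_comm]
  apply mul_le_mul_of_nonneg_right _ (Real.exp_pos _).le
  exact hC _ (by simpa using hq2)

theorem IsCuspLike.isFastDecay {h : ℝ} (hh : 0 < h) {g : ℂ → ℂ} (hg : IsCuspLike h g) :
    IsFastDecay g := by
  obtain ⟨C, hC0, hC⟩ := hg.norm_le hh
  intro m B ε hε
  have hc : 0 < 2 * Real.pi / h := by positivity
  obtain ⟨A, hA0, hA⟩ := exists_bound_pow_mul_exp m B C (2 * Real.pi / h) ε hC0 hc hε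
  refine ⟨max A h, fun z hz hzA => ?_⟩
  have hzA' : A ≤ z.im := le_trans (le_max_left _ _) hzA
  have hzh : h ≤ z.im := le_trans (le_max_right _ _) hzA
  have hzim : 0 ≤ z.im := hA0.trans hzA'
  have hnorm : ‖z‖ ≤ |B| + z.im := by
    calc ‖z‖ ≤ |z.re| + |z.im| := Complex.norm_le_abs_re_add_abs_im z
      _ ≤ |B| + z.im := by
          rw [abs_of_nonneg hzim]
          have : |z.re| ≤ |B| := hz.trans (le_abs_self B)
          linarith
  calc ‖z ^ m * g z‖ = ‖z‖ ^ m * ‖g z‖ := by rw [norm_mul, norm_pow]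
    _ ≤ (|B| + z.im) ^ m * (C * Real.exp (-(2 * Real.pi / h) * z.im)) := by
        gcongr
        exact hC z hzh
    _ = (|B| + z.im) ^ m * C * Real.exp (-(2 * Real.pi / h) * z.im) := by ring
    _ ≤ ε := hA z.im hzA'

theorem IsCuspLike.exists_primitive {h : ℝ} (hh : 0 < h) {g : ℂ → ℂ} (hg : IsCuspLike h g) :
    ∃ G : ℂ → ℂ, IsCuspLike h G ∧ ∀ z : ℂ, 0 < z.im → HasDerivAt G (g z) z := by
  obtain ⟨ψ, hψ, hψ0, hgψ⟩ := hg
  have hχ : DifferentiableOn ℂ (dslope ψ 0) (ball 0 1) :=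
    (differentiableOn_dslope (ball_mem_nhds (0 : ℂ) one_pos)).mpr hψ
  obtain ⟨Ψ, hΨ0, hΨ⟩ := (hχ.isExactOn_ball).with_val_at 0 0
  have hpi : (2 * Real.pi * I : ℂ) ≠ 0 := by
    simp [Real.pi_ne_zero, I_ne_zero]
  have hh' : (h : ℂ) ≠ 0 := by exact_mod_cast hh.ne'
  refine ⟨fun z => (h / (2 * Real.pi * I) : ℂ) * Ψ (Function.Periodic.qParam h z),
    ⟨fun q => (h / (2 * Real.pi * I) : ℂ) * Ψ q, ?_, ?_, fun z _ => rfl⟩, ?_⟩
  · intro q hq
    exact ((hΨ q hq).differentiableAt.const_mul _).differentiableWithinAt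
  · simp [hΨ0]
  · intro z hz
    have hq : Function.Periodic.qParam h z ∈ ball (0 : ℂ) 1 := by
      simpa using Function.Periodic.norm_qParam_lt_one hh hz
    have hq0 := Function.Periodic.qParam_ne_zero (h := h) z
    have hd1 : HasDerivAt (Function.Periodic.qParam h)
        (Function.Periodic.qParam h z * (2 * Real.pi * I / h)) z := by
      unfold Function.Periodic.qParam
      have : HasDerivAt (fun z : ℂ => 2 * Real.pi * I * z / h) (2 * Real.pi * I / h) z := by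
        simpa using ((hasDerivAt_id z).const_mul (2 * Real.pi * I : ℂ)).div_const (h : ℂ)
      exact this.cexp
    have hd2 := (hΨ _ hq).comp z hd1
    have hd3 := hd2.const_mul (h / (2 * Real.pi * I) : ℂ)
    have hsl : ψ (Function.Periodic.qParam h z)
        = Function.Periodic.qParam h z * dslope ψ 0 (Function.Periodic.qParam h z) := by
      have := sub_smul_dslope ψ 0 (Function.Periodic.qParam h z)
      simp only [sub_zero, smul_eq_mul, hψ0] at this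
      exact this.symm
    refine HasDerivAt.congr_deriv hd3 ?_
    rw [hgψ z hz, hsl]
    field_simp

theorem exists_primitive_pow_mul {h : ℝ} (hh : 0 < h) (j : ℕ) :
    ∀ g : ℂ → ℂ, IsCuspLike h g →
      ∃ H : ℂ → ℂ, (∀ z : ℂ, 0 < z.im → HasDerivAt H (z ^ j * g z) z) ∧ IsFastDecay H := by
  induction j with
  | zero =>
    intro g hg
    obtain ⟨G, hG, hGd⟩ := hg.exists_primitive hh
    exact ⟨G, fun z hz => by simpa using hGd z hz, hG.isFastDecay hh⟩
  | succ j ih =>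
    intro g hg
    obtain ⟨G, hG, hGd⟩ := hg.exists_primitive hh
    obtain ⟨H', hH'd, hH'⟩ := ih G hG
    refine ⟨fun z => z ^ (j + 1) * G z - ((j : ℂ) + 1) * H' z, fun z hz => ?_, ?_⟩
    · have h1 := (hasDerivAt_pow (j + 1) z).mul (hGd z hz)
      have h2 := (hH'd z hz).const_mul ((j : ℂ) + 1)
      refine HasDerivAt.congr_deriv (h1.sub h2) ?_
      push_cast
      ring
    · exact ((hG.isFastDecay hh).pow_mul (j + 1)).sub (hH'.const_mul _)

theorem eq_of_hasDerivAt_zero {H : ℂ → ℂ} (hH : ∀ z : ℂ, 0 < z.im → HasDerivAt H 0 z)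
    {z w : ℂ} (hz : 0 < z.im) (hw : 0 < w.im) : H z = H w := by
  have hs : IsOpen {z : ℂ | 0 < z.im} := isOpen_lt continuous_const Complex.continuous_im
  have hc : Convex ℝ {z : ℂ | 0 < z.im} := convex_halfSpace_im_gt 0
  refine hs.is_const_of_fderiv_eq_zero (𝕜 := ℂ) hc.isPreconnected
    (fun x hx => (hH x hx).differentiableAt.differentiableWithinAt) (fun x hx => ?_) hz hw
  have := (hH x hx).hasFDerivAt.fderiv
  rw [this]
  ext
  simp

theorem eq_zero_of_hasDerivAt_zero_of_isFastDecay {H : ℂ → ℂ}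
    (hH : ∀ z : ℂ, 0 < z.im → HasDerivAt H 0 z) (hdec : IsFastDecay H)
    {z : ℂ} (hz : 0 < z.im) : H z = 0 := by
  by_contra hne
  have hpos : 0 < ‖H z‖ / 2 := by positivity
  obtain ⟨A, hA⟩ := hdec 0 0 (‖H z‖ / 2) hpos
  have hw : 0 < ((max A 1 : ℝ) * I : ℂ).im := by simp
  have e := hA ((max A 1 : ℝ) * I) (by simp) (by simp)
  rw [pow_zero, one_mul, ← eq_of_hasDerivAt_zero hH hz hw] at e
  linarith


theorem eq_of_hasDerivAt_of_isFastDecay {H₁ H₂ D : ℂ → ℂ}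
    (h₁ : ∀ z : ℂ, 0 < z.im → HasDerivAt H₁ (D z) z)
    (h₂ : ∀ z : ℂ, 0 < z.im → HasDerivAt H₂ (D z) z)
    (d₁ : IsFastDecay H₁) (d₂ : IsFastDecay H₂) {z : ℂ} (hz : 0 < z.im) : H₁ z = H₂ z := by
  have h0 : ∀ z : ℂ, 0 < z.im → HasDerivAt (fun z => H₁ z - H₂ z) 0 z := by
    intro z hz
    exact ((h₁ z hz).sub (h₂ z hz)).congr_deriv (sub_self _)
  have := eq_zero_of_hasDerivAt_zero_of_isFastDecay h0 (d₁.sub d₂) hz
  exact sub_eq_zero.mp this

theorem IsCuspLike.add {h : ℝ} {g₁ g₂ : ℂ → ℂ} (h₁ : IsCuspLike h g₁) (h₂ : IsCuspLike h g₂) :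
    IsCuspLike h (fun z => g₁ z + g₂ z) := by
  obtain ⟨ψ₁, hd₁, h0₁, he₁⟩ := h₁
  obtain ⟨ψ₂, hd₂, h0₂, he₂⟩ := h₂
  exact ⟨fun q => ψ₁ q + ψ₂ q, hd₁.add hd₂, by simp [h0₁, h0₂],
    fun z hz => by show g₁ z + g₂ z = _; rw [he₁ z hz, he₂ z hz]⟩

theorem IsCuspLike.const_mul {h : ℝ} {g : ℂ → ℂ} (hg : IsCuspLike h g) (c : ℂ) :
    IsCuspLike h (fun z => c * g z) := by
  obtain ⟨ψ, hd, h0, he⟩ := hg
  exact ⟨fun q => c * ψ q, hd.const_mul c, by simp [h0],
    fun z hz => by show c * g z = _; rw [he z hz]⟩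

theorem IsCuspLike.congr {h : ℝ} {g₁ g₂ : ℂ → ℂ} (h₁ : IsCuspLike h g₁)
    (he : ∀ z : ℂ, 0 < z.im → g₂ z = g₁ z) : IsCuspLike h g₂ := by
  obtain ⟨ψ, hd, h0, he'⟩ := h₁
  exact ⟨ψ, hd, h0, fun z hz => by rw [he z hz, he' z hz]⟩

/-- A chosen fast-decaying primitive of `z ^ j * g z` on the upper half plane. -/
noncomputable def prim (g : ℂ → ℂ) (j : ℕ) : ℂ → ℂ :=
  open Classical in
  if hex : ∃ H : ℂ → ℂ, (∀ z : ℂ, 0 < z.im → HasDerivAt H (z ^ j * g z) z) ∧ IsFastDecay H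
  then hex.choose else 0

theorem prim_spec {h : ℝ} (hh : 0 < h) {g : ℂ → ℂ} (hg : IsCuspLike h g) (j : ℕ) :
    (∀ z : ℂ, 0 < z.im → HasDerivAt (prim g j) (z ^ j * g z) z) ∧ IsFastDecay (prim g j) := by
  have hex := exists_primitive_pow_mul hh j g hg
  unfold prim
  rw [dif_pos hex]
  exact hex.choose_spec

/-- The fast-decaying primitive of `g z * (X - z * Y) ^ n`. -/
noncomputable def Phi (g : ℂ → ℂ) (n : ℕ) (X Y : ℂ) (z : ℂ) : ℂ :=
  ∑ j ∈ Finset.range (n + 1), ((-Y) ^ j * X ^ (n - j) * (n.choose j : ℂ)) * prim g j z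

theorem Phi_hasDerivAt {h : ℝ} (hh : 0 < h) {g : ℂ → ℂ} (hg : IsCuspLike h g) (n : ℕ) (X Y : ℂ)
    {z : ℂ} (hz : 0 < z.im) : HasDerivAt (Phi g n X Y) (g z * (X - z * Y) ^ n) z := by
  have h1 : HasDerivAt (Phi g n X Y)
      (∑ j ∈ Finset.range (n + 1), ((-Y) ^ j * X ^ (n - j) * (n.choose j : ℂ)) * (z ^ j * g z)) z := by
    unfold Phi
    exact HasDerivAt.fun_sum fun j _ => ((prim_spec hh hg j).1 z hz).const_mul _
  refine h1.congr_deriv ?_
  have e : X - z * Y = -Y * z + X := by ring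
  rw [e, add_pow, Finset.mul_sum]
  refine Finset.sum_congr rfl fun j _ => ?_
  rw [mul_pow]
  ring

theorem Phi_isFastDecay {h : ℝ} (hh : 0 < h) {g : ℂ → ℂ} (hg : IsCuspLike h g) (n : ℕ) (X Y : ℂ) :
    IsFastDecay (Phi g n X Y) := by
  unfold Phi
  exact IsFastDecay.sum _ fun j _ => ((prim_spec hh hg j).2).const_mul _

theorem Phi_unique {h : ℝ} (hh : 0 < h) {g : ℂ → ℂ} (hg : IsCuspLike h g) (n : ℕ) (X Y : ℂ)
    {H : ℂ → ℂ} (hH : ∀ z : ℂ, 0 < z.im → HasDerivAt H (g z * (X - z * Y) ^ n) z)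
    (hdec : IsFastDecay H) {z : ℂ} (hz : 0 < z.im) : H z = Phi g n X Y z :=
  eq_of_hasDerivAt_of_isFastDecay hH (fun _ hw => Phi_hasDerivAt hh hg n X Y hw) hdec
    (Phi_isFastDecay hh hg n X Y) hz

theorem Phi_smul_vec (g : ℂ → ℂ) (n : ℕ) (t X Y z : ℂ) :
    Phi g n (t * X) (t * Y) z = t ^ n * Phi g n X Y z := by
  unfold Phi
  rw [Finset.mul_sum]
  refine Finset.sum_congr rfl fun j hj => ?_
  have hjn : j ≤ n := Nat.lt_succ_iff.mp (Finset.mem_range.mp hj)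
  have e : t ^ n = t ^ j * t ^ (n - j) := by rw [← pow_add, Nat.add_sub_cancel' hjn]
  rw [e, neg_mul_eq_mul_neg, mul_pow, mul_pow]
  ring

theorem Phi_add {h : ℝ} (hh : 0 < h) {g₁ g₂ : ℂ → ℂ} (h₁ : IsCuspLike h g₁)
    (h₂ : IsCuspLike h g₂) (n : ℕ) (X Y : ℂ) {z : ℂ} (hz : 0 < z.im) :
    Phi (fun z => g₁ z + g₂ z) n X Y z = Phi g₁ n X Y z + Phi g₂ n X Y z := by
  symm
  refine Phi_unique hh (h₁.add h₂) n X Y (H := fun z => Phi g₁ n X Y z + Phi g₂ n X Y z)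
    (fun w hw => ?_) ((Phi_isFastDecay hh h₁ n X Y).add (Phi_isFastDecay hh h₂ n X Y)) hz
  refine ((Phi_hasDerivAt hh h₁ n X Y hw).add (Phi_hasDerivAt hh h₂ n X Y hw)).congr_deriv ?_
  ring

theorem Phi_const_mul {h : ℝ} (hh : 0 < h) {g : ℂ → ℂ} (hg : IsCuspLike h g) (c : ℂ)
    (n : ℕ) (X Y : ℂ) {z : ℂ} (hz : 0 < z.im) :
    Phi (fun z => c * g z) n X Y z = c * Phi g n X Y z := by
  symm
  refine Phi_unique hh (hg.const_mul c) n X Y (H := fun z => c * Phi g n X Y z)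
    (fun w hw => ?_) ((Phi_isFastDecay hh hg n X Y).const_mul c) hz
  refine ((Phi_hasDerivAt hh hg n X Y hw).const_mul c).congr_deriv ?_
  ring

theorem Phi_congr {h : ℝ} (hh : 0 < h) {g₁ g₂ : ℂ → ℂ} (h₁ : IsCuspLike h g₁)
    (he : ∀ z : ℂ, 0 < z.im → g₂ z = g₁ z) (n : ℕ) (X Y : ℂ) {z : ℂ} (hz : 0 < z.im) :
    Phi g₂ n X Y z = Phi g₁ n X Y z := by
  symm
  refine Phi_unique hh (h₁.congr he) n X Y (H := Phi g₁ n X Y)
    (fun w hw => ?_) (Phi_isFastDecay hh h₁ n X Y) hz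
  rw [he w hw]
  exact Phi_hasDerivAt hh h₁ n X Y hw


/-- Behaviour of `Phi` under a Möbius substitution of determinant one. -/
theorem Phi_moebius {h₁ h₂ : ℝ} (hh₁ : 0 < h₁) (hh₂ : 0 < h₂) {g₁ g₂ : ℂ → ℂ}
    (hg₁ : IsCuspLike h₁ g₁) (hg₂ : IsCuspLike h₂ g₂) (n : ℕ) (a b c d : ℂ)
    (hdet : a * d - b * c = 1)
    (hden : ∀ z : ℂ, 0 < z.im → c * z + d ≠ 0)
    (him : ∀ z : ℂ, 0 < z.im → 0 < ((a * z + b) / (c * z + d)).im)
    (hrel : ∀ z : ℂ, 0 < z.im → g₁ ((a * z + b) / (c * z + d)) = (c * z + d) ^ (n + 2) * g₂ z)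
    (X Y : ℂ) {z w : ℂ} (hz : 0 < z.im) (hw : 0 < w.im) :
    Phi g₁ n (a * X + b * Y) (c * X + d * Y) ((a * z + b) / (c * z + d)) - Phi g₂ n X Y z
      = Phi g₁ n (a * X + b * Y) (c * X + d * Y) ((a * w + b) / (c * w + d)) - Phi g₂ n X Y w := by
  refine eq_of_hasDerivAt_zero (H := fun z => Phi g₁ n (a * X + b * Y) (c * X + d * Y)
    ((a * z + b) / (c * z + d)) - Phi g₂ n X Y z) (fun u hu => ?_) hz hw
  have hden' := hden u hu
  have hμ : HasDerivAt (fun z : ℂ => (a * z + b) / (c * z + d)) (1 / (c * u + d) ^ 2) u := by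
    have h1 : HasDerivAt (fun z : ℂ => a * z + b) a u := by
      simpa using ((hasDerivAt_id u).const_mul a).add_const b
    have h2 : HasDerivAt (fun z : ℂ => c * z + d) c u := by
      simpa using ((hasDerivAt_id u).const_mul c).add_const d
    refine (h1.div h2 hden').congr_deriv ?_
    congr 1
    linear_combination hdet
  have h3 := (Phi_hasDerivAt hh₁ hg₁ n (a * X + b * Y) (c * X + d * Y) (him u hu)).comp u hμ
  have h4 := Phi_hasDerivAt hh₂ hg₂ n X Y hu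
  refine (h3.sub h4).congr_deriv ?_
  rw [hrel u hu]
  have e : a * X + b * Y - (a * u + b) / (c * u + d) * (c * X + d * Y)
      = (X - u * Y) / (c * u + d) := by
    rw [eq_div_iff hden']
    have e2 : (a * u + b) / (c * u + d) * (c * X + d * Y) * (c * u + d)
        = (a * u + b) * (c * X + d * Y) := by
      rw [mul_right_comm, div_mul_cancel₀ _ hden']
    rw [sub_mul, e2]
    linear_combination (X - u * Y) * hdet
  rw [e, div_pow]
  field_simp
  ring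

theorem affine_im_pos (a b d : ℝ) (ha : 0 < a) (hd : 0 < d) {z : ℂ} (hz : 0 < z.im) :
    0 < (((a : ℂ) * z + b) / d).im := by
  have : ((a : ℂ) * z + b) / d = (((a * z.re + b) / d : ℝ) : ℂ) + ((a * z.im / d : ℝ) : ℂ) * I := by
    apply Complex.ext <;> simp [Complex.div_re, Complex.div_im]
  rw [this]
  simp only [add_im, ofReal_im, mul_im, ofReal_re, I_im, mul_one, I_re, mul_zero, add_zero,
    zero_add]
  positivity

/-- Behaviour of `Phi` under an upper triangular substitution. -/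
theorem Phi_affine_hasDerivAt {h : ℝ} (hh : 0 < h) {g : ℂ → ℂ} (hg : IsCuspLike h g) (n : ℕ)
    (a b d : ℝ) (ha : 0 < a) (hd : 0 < d) (X Y : ℂ) {z : ℂ} (hz : 0 < z.im) :
    HasDerivAt (fun z : ℂ => Phi g n (a * X + b * Y) (d * Y) (((a : ℂ) * z + b) / d))
      (((a : ℂ) ^ (n + 1) / d) * g (((a : ℂ) * z + b) / d) * (X - z * Y) ^ n) z := by
  have hd' : (d : ℂ) ≠ 0 := by exact_mod_cast hd.ne'
  have hμ : HasDerivAt (fun z : ℂ => ((a : ℂ) * z + b) / d) ((a : ℂ) / d) z := by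
    simpa using (((hasDerivAt_id z).const_mul (a : ℂ)).add_const (b : ℂ)).div_const (d : ℂ)
  have h3 := (Phi_hasDerivAt hh hg n (a * X + b * Y) (d * Y) (affine_im_pos a b d ha hd hz)).comp
    z hμ
  refine h3.congr_deriv ?_
  have e : (a : ℂ) * X + b * Y - ((a : ℂ) * z + b) / d * (d * Y) = a * (X - z * Y) := by
    field_simp
    ring
  rw [e, mul_pow]
  field_simp
  ring

theorem Phi_affine_isFastDecay {h : ℝ} (hh : 0 < h) {g : ℂ → ℂ} (hg : IsCuspLike h g) (n : ℕ)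
    (a b d : ℝ) (ha : 0 < a) (hd : 0 < d) (X Y : ℂ) :
    IsFastDecay (fun z : ℂ => Phi g n (a * X + b * Y) (d * Y) (((a : ℂ) * z + b) / d)) :=
  (Phi_isFastDecay hh hg n _ _).comp_affine a b d ha hd


theorem prim_add {h : ℝ} (hh : 0 < h) {g₁ g₂ : ℂ → ℂ} (h₁ : IsCuspLike h g₁)
    (h₂ : IsCuspLike h g₂) (j : ℕ) {z : ℂ} (hz : 0 < z.im) :
    prim (fun z => g₁ z + g₂ z) j z = prim g₁ j z + prim g₂ j z := by
  have s := prim_spec hh (h₁.add h₂) j
  have s₁ := prim_spec hh h₁ j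
  have s₂ := prim_spec hh h₂ j
  refine eq_of_hasDerivAt_of_isFastDecay (H₂ := fun z => prim g₁ j z + prim g₂ j z) s.1
    (fun w hw => ?_) s.2 (s₁.2.add s₂.2) hz
  refine ((s₁.1 w hw).add (s₂.1 w hw)).congr_deriv ?_
  ring

theorem prim_const_mul {h : ℝ} (hh : 0 < h) {g : ℂ → ℂ} (hg : IsCuspLike h g) (c : ℂ) (j : ℕ)
    {z : ℂ} (hz : 0 < z.im) :
    prim (fun z => c * g z) j z = c * prim g j z := by
  have s := prim_spec hh (hg.const_mul c) j
  have s₁ := prim_spec hh hg j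
  refine eq_of_hasDerivAt_of_isFastDecay (H₂ := fun z => c * prim g j z) s.1
    (fun w hw => ?_) s.2 (s₁.2.const_mul c) hz
  refine ((s₁.1 w hw).const_mul c).congr_deriv ?_
  ring

end Fermat.Agent.S22_Primitive
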