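import Mathlib
import Fermat.Prelude.Thm_CongruenceSubgroup_one_mem_strictPeriods_Gamma0
import Fermat.Prelude.Thm_Subgroup_IsArithmetic_exists_nat_mem_strictPeriods_conj
import Fermat.Agent.S22_Primitive

set_option autoImplicit false

open Complex UpperHalfPlane
open scoped MatrixGroups ModularForm

namespace Fermat.Agent.S22_Period

open Fermat.Agent.S22_Primitive

/-- The Möbius map on `ℂ` attached to an integral matrix. -/
noncomputable def mob (γ : SL(2, ℤ)) (z : ℂ) : ℂ :=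
  (((γ 0 0 : ℤ) : ℂ) * z + ((γ 0 1 : ℤ) : ℂ)) / (((γ 1 0 : ℤ) : ℂ) * z + ((γ 1 1 : ℤ) : ℂ))

/-- First coordinate of `γ • (X, Y)`. -/
def vx (γ : SL(2, ℤ)) (X Y : ℂ) : ℂ := ((γ 0 0 : ℤ) : ℂ) * X + ((γ 0 1 : ℤ) : ℂ) * Y

/-- Second coordinate of `γ • (X, Y)`. -/
def vy (γ : SL(2, ℤ)) (X Y : ℂ) : ℂ := ((γ 1 0 : ℤ) : ℂ) * X + ((γ 1 1 : ℤ) : ℂ) * Y

theorem coe_smul_eq_mob (γ : SL(2, ℤ)) (τ : ℍ) : ((γ • τ : ℍ) : ℂ) = mob γ τ := by
  rw [UpperHalfPlane.coe_specialLinearGroup_apply]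
  simp [mob]

theorem mob_eq_coe (γ : SL(2, ℤ)) {z : ℂ} (hz : 0 < z.im) :
    mob γ z = ((γ • (⟨z, hz⟩ : ℍ) : ℍ) : ℂ) :=
  (coe_smul_eq_mob γ ⟨z, hz⟩).symm

theorem mob_im_pos (γ : SL(2, ℤ)) {z : ℂ} (hz : 0 < z.im) : 0 < (mob γ z).im := by
  rw [mob_eq_coe γ hz]
  exact (γ • (⟨z, hz⟩ : ℍ)).im_pos

theorem denom_ne_zero (γ : SL(2, ℤ)) {z : ℂ} (hz : 0 < z.im) :
    ((γ 1 0 : ℤ) : ℂ) * z + ((γ 1 1 : ℤ) : ℂ) ≠ 0 := by
  have := UpperHalfPlane.denom_ne_zero (γ : GL (Fin 2) ℝ) ⟨z, hz⟩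
  simpa [denom] using this

theorem det_eq (γ : SL(2, ℤ)) :
    ((γ 0 0 : ℤ) : ℂ) * ((γ 1 1 : ℤ) : ℂ) - ((γ 0 1 : ℤ) : ℂ) * ((γ 1 0 : ℤ) : ℂ) = 1 := by
  have h := γ.det_coe
  rw [Matrix.det_fin_two] at h
  exact_mod_cast h

theorem mob_mul (γ γ' : SL(2, ℤ)) {z : ℂ} (hz : 0 < z.im) :
    mob (γ * γ') z = mob γ (mob γ' z) := by
  rw [mob_eq_coe (γ * γ') hz, mul_smul, coe_smul_eq_mob, coe_smul_eq_mob]

theorem mob_one (z : ℂ) : mob 1 z = z := by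
  simp [mob]

theorem vx_mul (γ γ' : SL(2, ℤ)) (X Y : ℂ) :
    vx (γ * γ') X Y = vx γ (vx γ' X Y) (vy γ' X Y) := by
  simp only [vx, vy, Matrix.SpecialLinearGroup.coe_mul, Matrix.mul_apply, Fin.sum_univ_two]
  push_cast
  ring

theorem vy_mul (γ γ' : SL(2, ℤ)) (X Y : ℂ) :
    vy (γ * γ') X Y = vy γ (vx γ' X Y) (vy γ' X Y) := by
  simp only [vx, vy, Matrix.SpecialLinearGroup.coe_mul, Matrix.mul_apply, Fin.sum_univ_two]
  push_cast
  ring

theorem vx_one (X Y : ℂ) : vx 1 X Y = X := by simp [vx]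

theorem vy_one (X Y : ℂ) : vy 1 X Y = Y := by simp [vy]

theorem comp_ofComplex_apply (f : ℍ → ℂ) {z : ℂ} (hz : 0 < z.im) :
    (f ∘ ofComplex) z = f ⟨z, hz⟩ := by
  simp [Function.comp, ofComplex_apply_of_im_pos hz]

theorem isCuspLike_comp_ofComplex {F : Type*} [FunLike F ℍ ℂ] {Γ : Subgroup (GL (Fin 2) ℝ)}
    {k : ℤ} [CuspFormClass F Γ k] (f : F) {h : ℝ} (hh : 0 < h) (hΓ : h ∈ Γ.strictPeriods) :
    IsCuspLike h (⇑f ∘ ofComplex) := by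
  refine ⟨cuspFunction h f, fun q hq => ?_, CuspFormClass.cuspFunction_apply_zero f hh hΓ,
    fun z hz => ?_⟩
  · exact (ModularFormClass.differentiableAt_cuspFunction f hh hΓ
      (by simpa using hq)).differentiableWithinAt
  · rw [comp_ofComplex_apply _ hz]
    exact (SlashInvariantFormClass.eq_cuspFunction f ⟨z, hz⟩ hΓ hh.ne').symm

theorem isCuspLike_cuspForm {N : ℕ} {k : ℤ} (f : CuspForm (CongruenceSubgroup.Gamma0 N) k) :
    IsCuspLike 1 (⇑f ∘ ofComplex) :=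
  isCuspLike_comp_ofComplex f one_pos (CongruenceSubgroup.one_mem_strictPeriods_Gamma0 N)

theorem exists_period_slash (N : ℕ) [NeZero N] :
    ∃ M : ℕ, 0 < M ∧ ∀ (k : ℤ) (f : CuspForm (CongruenceSubgroup.Gamma0 N) k) (δ : SL(2, ℤ)),
      IsCuspLike M ((⇑f ∣[k] δ) ∘ ofComplex) := by
  obtain ⟨M, hM, hconj⟩ := Subgroup.IsArithmetic.exists_nat_mem_strictPeriods_conj
    (CongruenceSubgroup.Gamma0 N : Subgroup (GL (Fin 2) ℝ))
  refine ⟨M, hM, fun k f δ => ?_⟩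
  have h1 := hconj δ⁻¹
  rw [map_inv] at h1
  have h2 := isCuspLike_comp_ofComplex (CuspForm.translate f (Matrix.SpecialLinearGroup.mapGL ℝ δ))
    (h := (M : ℝ)) (by exact_mod_cast hM) h1
  have e : ⇑(CuspForm.translate f (Matrix.SpecialLinearGroup.mapGL ℝ δ)) = ⇑f ∣[k] δ :=
    CuspForm.coe_translate f δ
  rw [e] at h2
  exact h2

theorem comp_ofComplex_mob_slash (k : ℤ) (f : ℍ → ℂ) (δ : SL(2, ℤ)) {z : ℂ} (hz : 0 < z.im) :
    (f ∘ ofComplex) (mob δ z)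
      = (((δ 1 0 : ℤ) : ℂ) * z + ((δ 1 1 : ℤ) : ℂ)) ^ k * ((f ∣[k] δ) ∘ ofComplex) z := by
  rw [comp_ofComplex_apply _ (mob_im_pos δ hz), comp_ofComplex_apply _ hz,
    ModularForm.SL_slash_apply]
  have hd := denom_ne_zero δ hz
  have e1 : (⟨mob δ z, mob_im_pos δ hz⟩ : ℍ) = δ • (⟨z, hz⟩ : ℍ) := by
    ext
    exact mob_eq_coe δ hz
  have e2 : denom (δ : GL (Fin 2) ℝ) ((⟨z, hz⟩ : ℍ) : ℂ)
      = ((δ 1 0 : ℤ) : ℂ) * z + ((δ 1 1 : ℤ) : ℂ) := by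
    simp [denom]
  rw [e1, e2, mul_comm, mul_assoc, ← zpow_add₀ hd]
  simp

theorem comp_ofComplex_mob {N : ℕ} {k : ℤ} (f : CuspForm (CongruenceSubgroup.Gamma0 N) k)
    {γ : SL(2, ℤ)} (hγ : γ ∈ CongruenceSubgroup.Gamma0 N) {z : ℂ} (hz : 0 < z.im) :
    (⇑f ∘ ofComplex) (mob γ z)
      = (((γ 1 0 : ℤ) : ℂ) * z + ((γ 1 1 : ℤ) : ℂ)) ^ k * (⇑f ∘ ofComplex) z := by
  rw [comp_ofComplex_mob_slash k f γ hz]
  have : (⇑f ∣[k] γ) = ⇑f :=
    SlashInvariantForm.slash_action_eqn f _ (Subgroup.mem_map_of_mem _ hγ)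
  rw [this]


theorem I_im_pos : 0 < (Complex.I).im := by simp

theorem zpow_eq_pow_of_eq {k : ℤ} {n : ℕ} (hk : k = (n : ℤ) + 2) (x : ℂ) : x ^ k = x ^ (n + 2) := by
  rw [hk, show (n : ℤ) + 2 = ((n + 2 : ℕ) : ℤ) by push_cast; ring, zpow_natCast]

/-- The period of `f` along `γ` against `(X - wY)^n`. -/
noncomputable def rho (f : ℍ → ℂ) (n : ℕ) (γ : SL(2, ℤ)) (X Y : ℂ) : ℂ :=
  Phi (f ∘ ofComplex) n (vx γ X Y) (vy γ X Y) (mob γ Complex.I) - Phi (f ∘ ofComplex) n X Y Complex.I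

/-- The analogue of `rho` for an arbitrary `δ`, comparing `f` with its translate. -/
noncomputable def kappa (f : ℍ → ℂ) (k : ℤ) (n : ℕ) (δ : SL(2, ℤ)) (X Y : ℂ) : ℂ :=
  Phi (f ∘ ofComplex) n (vx δ X Y) (vy δ X Y) (mob δ Complex.I) - Phi ((f ∣[k] δ) ∘ ofComplex) n X Y Complex.I

theorem Phi_mob {N : ℕ} {k : ℤ} {n : ℕ} (hk : k = (n : ℤ) + 2)
    (f : CuspForm (CongruenceSubgroup.Gamma0 N) k) {γ : SL(2, ℤ)}
    (hγ : γ ∈ CongruenceSubgroup.Gamma0 N) (X Y : ℂ) {z : ℂ} (hz : 0 < z.im) :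
    Phi (⇑f ∘ ofComplex) n (vx γ X Y) (vy γ X Y) (mob γ z)
      = Phi (⇑f ∘ ofComplex) n X Y z + rho f n γ X Y := by
  have key := Phi_moebius one_pos one_pos (isCuspLike_cuspForm f) (isCuspLike_cuspForm f) n
    ((γ 0 0 : ℤ) : ℂ) ((γ 0 1 : ℤ) : ℂ) ((γ 1 0 : ℤ) : ℂ) ((γ 1 1 : ℤ) : ℂ) (det_eq γ)
    (fun z hz => denom_ne_zero γ hz) (fun z hz => mob_im_pos γ hz)
    (fun z hz => by
      have := comp_ofComplex_mob f hγ hz
      rw [zpow_eq_pow_of_eq hk] at this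
      exact this) X Y hz I_im_pos
  unfold rho
  have key' : Phi (⇑f ∘ ofComplex) n (vx γ X Y) (vy γ X Y) (mob γ z) - Phi (⇑f ∘ ofComplex) n X Y z
      = Phi (⇑f ∘ ofComplex) n (vx γ X Y) (vy γ X Y) (mob γ Complex.I) - Phi (⇑f ∘ ofComplex) n X Y Complex.I := key
  linear_combination key'

theorem Phi_mob_slash {N : ℕ} [NeZero N] {k : ℤ} {n : ℕ} (hk : k = (n : ℤ) + 2)
    (f : CuspForm (CongruenceSubgroup.Gamma0 N) k) (δ : SL(2, ℤ)) (X Y : ℂ) {z : ℂ}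
    (hz : 0 < z.im) :
    Phi (⇑f ∘ ofComplex) n (vx δ X Y) (vy δ X Y) (mob δ z)
      = Phi ((⇑f ∣[k] δ) ∘ ofComplex) n X Y z + kappa f k n δ X Y := by
  obtain ⟨M, hM, hcusp⟩ := exists_period_slash N
  have hM' : (0 : ℝ) < (M : ℝ) := by exact_mod_cast hM
  have key := Phi_moebius one_pos hM' (isCuspLike_cuspForm f) (hcusp k f δ) n
    ((δ 0 0 : ℤ) : ℂ) ((δ 0 1 : ℤ) : ℂ) ((δ 1 0 : ℤ) : ℂ) ((δ 1 1 : ℤ) : ℂ) (det_eq δ)
    (fun z hz => denom_ne_zero δ hz) (fun z hz => mob_im_pos δ hz)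
    (fun z hz => by
      have := comp_ofComplex_mob_slash k (⇑f) δ hz
      rw [zpow_eq_pow_of_eq hk] at this
      exact this) X Y hz I_im_pos
  unfold kappa
  have key' : Phi (⇑f ∘ ofComplex) n (vx δ X Y) (vy δ X Y) (mob δ z)
        - Phi ((⇑f ∣[k] δ) ∘ ofComplex) n X Y z
      = Phi (⇑f ∘ ofComplex) n (vx δ X Y) (vy δ X Y) (mob δ Complex.I)
        - Phi ((⇑f ∣[k] δ) ∘ ofComplex) n X Y Complex.I := key
  linear_combination key'

theorem rho_one (f : ℍ → ℂ) (n : ℕ) (X Y : ℂ) : rho f n 1 X Y = 0 := by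
  simp [rho, vx_one, vy_one, mob_one]

theorem rho_mul {N : ℕ} {k : ℤ} {n : ℕ} (hk : k = (n : ℤ) + 2)
    (f : CuspForm (CongruenceSubgroup.Gamma0 N) k) {γ γ' : SL(2, ℤ)}
    (hγ : γ ∈ CongruenceSubgroup.Gamma0 N) (hγ' : γ' ∈ CongruenceSubgroup.Gamma0 N) (X Y : ℂ) :
    rho f n (γ * γ') X Y = rho f n γ (vx γ' X Y) (vy γ' X Y) + rho f n γ' X Y := by
  have h1 := Phi_mob hk f hγ (vx γ' X Y) (vy γ' X Y) (mob_im_pos γ' I_im_pos)
  have h2 := Phi_mob hk f hγ' X Y I_im_pos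
  unfold rho at *
  rw [vx_mul, vy_mul, mob_mul γ γ' I_im_pos]
  linear_combination h1 + h2

theorem rho_inv {N : ℕ} {k : ℤ} {n : ℕ} (hk : k = (n : ℤ) + 2)
    (f : CuspForm (CongruenceSubgroup.Gamma0 N) k) {γ : SL(2, ℤ)}
    (hγ : γ ∈ CongruenceSubgroup.Gamma0 N) (X Y : ℂ) :
    rho f n γ⁻¹ X Y = -rho f n γ (vx γ⁻¹ X Y) (vy γ⁻¹ X Y) := by
  have h := rho_mul hk f hγ (inv_mem hγ) X Y
  rw [mul_inv_cancel, rho_one] at h
  linear_combination -h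


theorem comp_ofComplex_add {N : ℕ} {k : ℤ} (f g : CuspForm (CongruenceSubgroup.Gamma0 N) k) :
    (⇑(f + g) ∘ ofComplex) = fun z => (⇑f ∘ ofComplex) z + (⇑g ∘ ofComplex) z := by
  funext z
  simp

theorem comp_ofComplex_smul {N : ℕ} {k : ℤ} (c : ℂ) (f : CuspForm (CongruenceSubgroup.Gamma0 N) k) :
    (⇑(c • f) ∘ ofComplex) = fun z => c * (⇑f ∘ ofComplex) z := by
  funext z
  simp

/-- The value at `τ` of the chosen primitive of `z ^ j * f z`, as a linear functional of `f`. -/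
noncomputable def primL (N : ℕ) (k : ℤ) (j : ℕ) (τ : ℍ) :
    CuspForm (CongruenceSubgroup.Gamma0 N) k →ₗ[ℂ] ℂ where
  toFun f := prim (⇑f ∘ ofComplex) j (τ : ℂ)
  map_add' f g := by
    rw [comp_ofComplex_add, prim_add one_pos (isCuspLike_cuspForm f) (isCuspLike_cuspForm g) j
      τ.im_pos]
  map_smul' c f := by
    rw [comp_ofComplex_smul, prim_const_mul one_pos (isCuspLike_cuspForm f) c j τ.im_pos]
    simp

/-- The period `rho` as a linear functional of the cusp form. -/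
noncomputable def rhoL (N : ℕ) (k : ℤ) (n : ℕ) (γ : SL(2, ℤ)) (X Y : ℂ) :
    CuspForm (CongruenceSubgroup.Gamma0 N) k →ₗ[ℂ] ℂ where
  toFun f := rho f n γ X Y
  map_add' f g := by
    unfold rho
    rw [comp_ofComplex_add,
      Phi_add one_pos (isCuspLike_cuspForm f) (isCuspLike_cuspForm g) n _ _
        (mob_im_pos γ I_im_pos),
      Phi_add one_pos (isCuspLike_cuspForm f) (isCuspLike_cuspForm g) n _ _ I_im_pos]
    ring
  map_smul' c f := by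
    unfold rho
    rw [comp_ofComplex_smul,
      Phi_const_mul one_pos (isCuspLike_cuspForm f) c n _ _ (mob_im_pos γ I_im_pos),
      Phi_const_mul one_pos (isCuspLike_cuspForm f) c n _ _ I_im_pos]
    simp
    ring

@[simp] theorem rhoL_apply (N : ℕ) (k : ℤ) (n : ℕ) (γ : SL(2, ℤ)) (X Y : ℂ)
    (f : CuspForm (CongruenceSubgroup.Gamma0 N) k) : rhoL N k n γ X Y f = rho f n γ X Y := rfl

@[simp] theorem primL_apply (N : ℕ) (k : ℤ) (j : ℕ) (τ : ℍ)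
    (f : CuspForm (CongruenceSubgroup.Gamma0 N) k) :
    primL N k j τ f = prim (⇑f ∘ ofComplex) j (τ : ℂ) := rfl

theorem coe_smul_I (γ : SL(2, ℤ)) : ((γ • UpperHalfPlane.I : ℍ) : ℂ) = mob γ Complex.I := by
  rw [coe_smul_eq_mob]
  rfl

/-- For integral `(X, Y)` the period functional is an integral combination of finitely many
evaluation functionals. -/
theorem rhoL_mem_span (N : ℕ) (k : ℤ) (n : ℕ) (γ : SL(2, ℤ)) (X Y : ℤ) :
    rhoL N k n γ X Y ∈ Submodule.span ℤ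
      (Set.range (fun j : Fin (n + 1) => primL N k j (γ • UpperHalfPlane.I)) ∪
        Set.range (fun j : Fin (n + 1) => primL N k j UpperHalfPlane.I)) := by
  have e : rhoL N k n γ X Y
      = (∑ j : Fin (n + 1), ((-(γ 1 0 * X + γ 1 1 * Y)) ^ (j : ℕ)
            * (γ 0 0 * X + γ 0 1 * Y) ^ (n - (j : ℕ)) * (n.choose j : ℤ)) •
              primL N k j (γ • UpperHalfPlane.I))
        - ∑ j : Fin (n + 1), ((-Y) ^ (j : ℕ) * X ^ (n - (j : ℕ)) * (n.choose j : ℤ)) •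
              primL N k j UpperHalfPlane.I := by
    refine LinearMap.ext fun f => ?_
    simp only [rhoL_apply, rho, Phi, LinearMap.sub_apply, LinearMap.sum_apply,
      LinearMap.smul_apply, primL_apply, coe_smul_I, zsmul_eq_mul]
    rw [Finset.sum_range, Finset.sum_range]
    simp only [vx, vy]
    push_cast
    rfl
  rw [e]
  refine sub_mem (Submodule.sum_mem _ fun j _ => ?_) (Submodule.sum_mem _ fun j _ => ?_)
  · exact Submodule.smul_mem _ _ (Submodule.subset_span (Or.inl ⟨j, rfl⟩))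
  · exact Submodule.smul_mem _ _ (Submodule.subset_span (Or.inr ⟨j, rfl⟩))


/-- The period lattice: the `ℤ`-span of all integral period functionals. -/
noncomputable def periodLattice (N : ℕ) (k : ℤ) (n : ℕ) :
    Submodule ℤ (CuspForm (CongruenceSubgroup.Gamma0 N) k →ₗ[ℂ] ℂ) :=
  Submodule.span ℤ {φ | ∃ γ ∈ CongruenceSubgroup.Gamma0 N, ∃ X Y : ℤ, φ = rhoL N k n γ X Y}

theorem rhoL_mem_periodLattice (N : ℕ) (k : ℤ) (n : ℕ) {γ : SL(2, ℤ)}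
    (hγ : γ ∈ CongruenceSubgroup.Gamma0 N) (X Y : ℤ) :
    rhoL N k n γ X Y ∈ periodLattice N k n :=
  Submodule.subset_span ⟨γ, hγ, X, Y, rfl⟩

theorem vx_intCast (γ : SL(2, ℤ)) (X Y : ℤ) :
    vx γ X Y = ((γ 0 0 * X + γ 0 1 * Y : ℤ) : ℂ) := by
  simp [vx]

theorem vy_intCast (γ : SL(2, ℤ)) (X Y : ℤ) :
    vy γ X Y = ((γ 1 0 * X + γ 1 1 * Y : ℤ) : ℂ) := by
  simp [vy]

theorem fg_SL2Z : Group.FG SL(2, ℤ) :=
  Group.fg_iff.mpr ⟨{ModularGroup.S, ModularGroup.T}, SpecialLinearGroup.SL2Z_generators,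
    Set.toFinite _⟩

theorem periodLattice_fg (N : ℕ) [NeZero N] {k : ℤ} {n : ℕ} (hk : k = (n : ℤ) + 2) :
    (periodLattice N k n).FG := by
  classical
  have := fg_SL2Z
  have hfg : (CongruenceSubgroup.Gamma0 N).FG :=
    (Group.fg_iff_subgroup_fg _).mp inferInstance
  obtain ⟨G₀, hG₀⟩ := hfg
  set B : Set (CuspForm (CongruenceSubgroup.Gamma0 N) k →ₗ[ℂ] ℂ) :=
    ⋃ γ ∈ (insert 1 G₀ : Finset SL(2, ℤ)),
      Set.range (fun j : Fin (n + 1) => primL N k j (γ • UpperHalfPlane.I)) with hB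
  have hBfin : B.Finite :=
    Set.Finite.biUnion (Finset.finite_toSet _) fun _ _ => Set.finite_range _
  have hM' : (Submodule.span ℤ B).FG := Submodule.fg_span hBfin
  refine hM'.of_le ?_
  rw [periodLattice, Submodule.span_le]
  rintro φ ⟨γ, hγ, X, Y, rfl⟩
  have hγ' : γ ∈ Subgroup.closure (G₀ : Set SL(2, ℤ)) := hG₀ ▸ hγ
  have hcl : ∀ x, x ∈ Subgroup.closure (G₀ : Set SL(2, ℤ)) → x ∈ CongruenceSubgroup.Gamma0 N :=
    fun x hx => hG₀ ▸ hx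
  suffices h : ∀ X Y : ℤ, rhoL N k n γ X Y ∈ Submodule.span ℤ B from h X Y
  clear hγ
  induction hγ' using Subgroup.closure_induction with
  | mem x hx =>
    intro X Y
    refine Submodule.span_mono ?_ (rhoL_mem_span N k n x X Y)
    rintro ψ (⟨j, rfl⟩ | ⟨j, rfl⟩)
    · exact Set.mem_biUnion (Finset.mem_insert_of_mem hx) ⟨j, rfl⟩
    · refine Set.mem_biUnion (Finset.mem_insert_self 1 G₀) ⟨j, ?_⟩
      simp
  | one =>
    intro X Y
    have : rhoL N k n 1 X Y = 0 := LinearMap.ext fun f => by simp [rho_one]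
    rw [this]
    exact zero_mem _
  | mul x y hx hy ihx ihy =>
    intro X Y
    have : rhoL N k n (x * y) X Y
        = rhoL N k n x ((y 0 0 * X + y 0 1 * Y : ℤ) : ℂ) ((y 1 0 * X + y 1 1 * Y : ℤ) : ℂ)
          + rhoL N k n y X Y := by
      refine LinearMap.ext fun f => ?_
      simp only [rhoL_apply, LinearMap.add_apply]
      rw [rho_mul hk f (hcl x hx) (hcl y hy), vx_intCast, vy_intCast]
    rw [this]
    exact add_mem (ihx _ _) (ihy _ _)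
  | inv x hx ihx =>
    intro X Y
    have : rhoL N k n x⁻¹ X Y
        = -rhoL N k n x ((x⁻¹ 0 0 * X + x⁻¹ 0 1 * Y : ℤ) : ℂ)
            ((x⁻¹ 1 0 * X + x⁻¹ 1 1 * Y : ℤ) : ℂ) := by
      refine LinearMap.ext fun f => ?_
      simp only [rhoL_apply, LinearMap.neg_apply]
      rw [rho_inv hk f (hcl x hx), vx_intCast, vy_intCast]
    rw [this]
    exact neg_mem (ihx _ _)

end Fermat.Agent.S22_Period
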