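import Mathlib
import Fermat.Prelude.Def_ModularCurve_PeriodHomPair
import Fermat.Agent.S22_Period

/-!
# S21_Prim (helper2): the primitive of a weight-2 cusp form on `Γ₀(N)` and its periods

`Fprim f τ = ∫_{i∞}^τ f` is THE equivariant primitive in the sense of the Prelude
(`HasEquivariantPrimitive`), it is unique, linear in `f`, and it is a holomorphic function of
`q_M` (plus a constant) at every cusp.  Consequences: `ExistsPeriodMapLinear N`.
-/

set_option autoImplicit false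

open Complex UpperHalfPlane CongruenceSubgroup ModularCurve ModularCurve.Period Filter Topology
open scoped MatrixGroups ModularForm

namespace Fermat.Agent.S21_Prim

open Fermat.Agent.S22_Primitive Fermat.Agent.S22_Period

variable {N : ℕ}

/-- The fast-decaying primitive of `g` agrees on the upper half plane with a function of `q`. -/
theorem prim_zero_cuspLike {h : ℝ} (hh : 0 < h) {g : ℂ → ℂ} (hg : IsCuspLike h g) :
    ∃ ψ : ℂ → ℂ, DifferentiableOn ℂ ψ (Metric.ball 0 1) ∧ ψ 0 = 0 ∧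
      ∀ z : ℂ, 0 < z.im → prim g 0 z = ψ (Function.Periodic.qParam h z) := by
  obtain ⟨G, hG, hGd⟩ := hg.exists_primitive hh
  have hGdec : IsFastDecay G := hG.isFastDecay hh
  obtain ⟨ψ, hψ, hψ0, hψG⟩ := hG
  refine ⟨ψ, hψ, hψ0, fun z hz => ?_⟩
  rw [← hψG z hz]
  have s := prim_spec hh hg 0
  exact eq_of_hasDerivAt_of_isFastDecay (D := g)
    (fun w hw => by simpa using s.1 w hw) hGd s.2 hGdec hz

theorem prim_zero_hasDerivAt {h : ℝ} (hh : 0 < h) {g : ℂ → ℂ} (hg : IsCuspLike h g)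
    {z : ℂ} (hz : 0 < z.im) : HasDerivAt (prim g 0) (g z) z := by
  simpa using (prim_spec hh hg 0).1 z hz

theorem Phi_zero (g : ℂ → ℂ) (X Y z : ℂ) : Phi g 0 X Y z = prim g 0 z := by
  simp [Phi]

/-- The primitive `∫_{i∞}^τ f` of a weight-2 cusp form. -/
noncomputable def Fprim (f : CuspForm (Gamma0 N) 2) : ℍ → ℂ :=
  fun τ => prim (⇑f ∘ ofComplex) 0 (τ : ℂ)

theorem Fprim_apply (f : CuspForm (Gamma0 N) 2) (τ : ℍ) :
    Fprim f τ = prim (⇑f ∘ ofComplex) 0 (τ : ℂ) := rfl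

theorem Fprim_comp_ofComplex (f : CuspForm (Gamma0 N) 2) {z : ℂ} (hz : 0 < z.im) :
    (Fprim f ∘ ofComplex) z = prim (⇑f ∘ ofComplex) 0 z := by
  simp [Function.comp, Fprim, ofComplex_apply_of_im_pos hz]

theorem Fprim_comp_ofComplex_eventuallyEq (f : CuspForm (Gamma0 N) 2) {z : ℂ} (hz : 0 < z.im) :
    (Fprim f ∘ ofComplex) =ᶠ[𝓝 z] prim (⇑f ∘ ofComplex) 0 := by
  have hopen : IsOpen {w : ℂ | 0 < w.im} := isOpen_lt continuous_const Complex.continuous_im
  filter_upwards [hopen.mem_nhds hz] with w hw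
  exact Fprim_comp_ofComplex f hw

theorem Fprim_hasDerivAt (f : CuspForm (Gamma0 N) 2) (τ : ℍ) :
    HasDerivAt (Fprim f ∘ ofComplex) (f τ) (τ : ℂ) := by
  have h1 := prim_zero_hasDerivAt one_pos (isCuspLike_cuspForm f) τ.im_pos
  have h2 : (⇑f ∘ ofComplex) (τ : ℂ) = f τ := by
    simp [Function.comp]
  rw [h2] at h1
  exact h1.congr_of_eventuallyEq (Fprim_comp_ofComplex_eventuallyEq f τ.im_pos)

/-- A function of `q_h` vanishing at `q = 0` tends to zero at `i∞`. -/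
theorem tendsto_cuspLike {h : ℝ} (hh : 0 < h) {ψ : ℂ → ℂ}
    (hψ : DifferentiableOn ℂ ψ (Metric.ball 0 1)) (hψ0 : ψ 0 = 0) :
    Tendsto (fun τ : ℍ => ψ (Function.Periodic.qParam h τ)) atImInfty (𝓝 0) := by
  have hc : ContinuousAt ψ 0 :=
    (hψ.differentiableAt (Metric.ball_mem_nhds 0 one_pos)).continuousAt
  have := hc.tendsto.comp (qParam_tendsto_atImInfty hh)
  rw [hψ0] at this
  exact this

theorem Fprim_tendsto (f : CuspForm (Gamma0 N) 2) : Tendsto (Fprim f) atImInfty (𝓝 0) := by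
  obtain ⟨ψ, hψ, hψ0, hψG⟩ := prim_zero_cuspLike one_pos (isCuspLike_cuspForm f)
  refine (tendsto_cuspLike one_pos hψ hψ0).congr fun τ => ?_
  rw [Fprim_apply, hψG _ τ.im_pos]

theorem two_eq : (2 : ℤ) = ((0 : ℕ) : ℤ) + 2 := by norm_num

/-- Equivariance of the primitive under `Γ₀(N)`. -/
theorem Fprim_smul (f : CuspForm (Gamma0 N) 2) {γ : SL(2, ℤ)} (hγ : γ ∈ Gamma0 N) (z : ℍ) :
    Fprim f (γ • z) = Fprim f z + rho f 0 γ 0 0 := by
  have h := Phi_mob two_eq f hγ 0 0 z.im_pos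
  rw [Phi_zero, Phi_zero] at h
  rw [Fprim_apply, Fprim_apply, coe_smul_eq_mob]
  exact h

/-- Behaviour of the primitive under an arbitrary element of `SL₂(ℤ)`: a function of `q_M` plus a
constant. -/
theorem exists_cusp_expansion (N : ℕ) [NeZero N] :
    ∃ M : ℕ, 0 < M ∧ ∀ (f : CuspForm (Gamma0 N) 2) (δ : SL(2, ℤ)),
      ∃ (ψ : ℂ → ℂ) (κ : ℂ), DifferentiableOn ℂ ψ (Metric.ball 0 1) ∧ ψ 0 = 0 ∧
        ∀ z : ℍ, Fprim f (δ • z) = ψ (Function.Periodic.qParam (M : ℝ) z) + κ := by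
  obtain ⟨M, hM, hcusp⟩ := exists_period_slash N
  have hM' : (0 : ℝ) < (M : ℝ) := by exact_mod_cast hM
  refine ⟨M, hM, fun f δ => ?_⟩
  obtain ⟨ψ, hψ, hψ0, hψG⟩ := prim_zero_cuspLike hM' (hcusp 2 f δ)
  refine ⟨ψ, kappa f 2 0 δ 0 0, hψ, hψ0, fun z => ?_⟩
  have h := Phi_mob_slash two_eq f δ 0 0 z.im_pos
  rw [Phi_zero, Phi_zero] at h
  rw [Fprim_apply, coe_smul_eq_mob, h, hψG _ z.im_pos]

theorem Fprim_tendsto_smul [NeZero N] (f : CuspForm (Gamma0 N) 2) (δ : SL(2, ℤ)) :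
    ∃ L : ℂ, Tendsto (fun w : ℍ => Fprim f (δ • w)) atImInfty (𝓝 L) := by
  obtain ⟨M, hM, hexp⟩ := exists_cusp_expansion N
  have hM' : (0 : ℝ) < (M : ℝ) := by exact_mod_cast hM
  obtain ⟨ψ, κ, hψ, hψ0, hF⟩ := hexp f δ
  refine ⟨κ, ?_⟩
  have h1 := (tendsto_cuspLike hM' hψ hψ0).add_const κ
  rw [zero_add] at h1
  exact h1.congr fun w => (hF w).symm

theorem Fprim_isEquivariantPrimitive (f : CuspForm (Gamma0 N) 2) :
    IsEquivariantPrimitive (Gamma0 N) (Fprim f) := fun γ =>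
  ⟨rho f 0 γ 0 0, fun z => by rw [Fprim_smul f γ.2 z]; ring⟩

/-- `Fprim f` is an equivariant primitive of `f` in the sense of the Prelude. -/
theorem hasEquivariantPrimitive [NeZero N] (f : CuspForm (Gamma0 N) 2) :
    HasEquivariantPrimitive N f (Fprim f) :=
  ⟨Fprim_hasDerivAt f, Fprim_tendsto f, Fprim_isEquivariantPrimitive f, Fprim_tendsto_smul f⟩

/-- Uniqueness of the equivariant primitive. -/
theorem eq_Fprim (f : CuspForm (Gamma0 N) 2) {F : ℍ → ℂ} (hF : HasEquivariantPrimitive N f F) :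
    F = Fprim f := by
  have hd : ∀ z : ℂ, 0 < z.im →
      HasDerivAt (F ∘ ofComplex - Fprim f ∘ ofComplex) 0 z := by
    intro z hz
    have h1 := hF.1 ⟨z, hz⟩
    have h2 := Fprim_hasDerivAt f ⟨z, hz⟩
    have h3 := h1.sub h2
    rw [sub_self] at h3
    exact h3
  have key : ∀ τ : ℍ, (F ∘ ofComplex - Fprim f ∘ ofComplex) (τ : ℂ) = F τ - Fprim f τ :=
    fun τ => by simp only [Pi.sub_apply, Function.comp_apply, ofComplex_apply]
  have hconst : ∀ τ : ℍ, F τ - Fprim f τ = F UpperHalfPlane.I - Fprim f UpperHalfPlane.I := by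
    intro τ
    rw [← key τ, ← key UpperHalfPlane.I]
    exact eq_of_hasDerivAt_zero hd τ.im_pos UpperHalfPlane.I.im_pos
  have hlim : Tendsto (fun τ : ℍ => F τ - Fprim f τ) atImInfty (𝓝 (0 - 0)) :=
    hF.2.1.sub (Fprim_tendsto f)
  have hlim' : Tendsto (fun τ : ℍ => F τ - Fprim f τ) atImInfty
      (𝓝 (F UpperHalfPlane.I - Fprim f UpperHalfPlane.I)) :=
    tendsto_const_nhds.congr fun τ => (hconst τ).symm
  have h0 : F UpperHalfPlane.I - Fprim f UpperHalfPlane.I = 0 - 0 :=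
    tendsto_nhds_unique hlim' hlim
  funext τ
  have := hconst τ
  rw [h0] at this
  linear_combination this

/-- The Prelude's period map in terms of `Fprim`. -/
theorem periodMap_apply [NeZero N] (f : CuspForm (Gamma0 N) 2) (γ : Gamma0 N) (z : ℍ) :
    periodMap N f (Additive.ofMul γ) = Fprim f ((γ : SL(2, ℤ)) • z) - Fprim f z := by
  obtain ⟨F₀, h₀, hF₀⟩ := periodMap_def N f (hasEquivariantPrimitive f)
  have hF : F₀ = Fprim f := eq_Fprim f h₀
  rw [hF₀, IsEquivariantPrimitive.periodHom_apply, ← h₀.2.2.1.sub_eq_period γ z, hF]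

theorem Fprim_add (f g : CuspForm (Gamma0 N) 2) (τ : ℍ) :
    Fprim (f + g) τ = Fprim f τ + Fprim g τ := by
  rw [Fprim_apply, Fprim_apply, Fprim_apply, comp_ofComplex_add,
    prim_add one_pos (isCuspLike_cuspForm f) (isCuspLike_cuspForm g) 0 τ.im_pos]

theorem Fprim_smul_const (c : ℂ) (f : CuspForm (Gamma0 N) 2) (τ : ℍ) :
    Fprim (c • f) τ = c * Fprim f τ := by
  rw [Fprim_apply, Fprim_apply, comp_ofComplex_smul,
    prim_const_mul one_pos (isCuspLike_cuspForm f) c 0 τ.im_pos]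

theorem periodMap_add [NeZero N] (f g : CuspForm (Gamma0 N) 2) :
    periodMap N (f + g) = periodMap N f + periodMap N g := by
  refine AddMonoidHom.ext fun γ => ?_
  have e : γ = Additive.ofMul (Additive.toMul γ) := rfl
  rw [e, AddMonoidHom.add_apply, periodMap_apply _ _ UpperHalfPlane.I,
    periodMap_apply _ _ UpperHalfPlane.I, periodMap_apply _ _ UpperHalfPlane.I,
    Fprim_add, Fprim_add]
  ring

theorem periodMap_smul [NeZero N] (c : ℂ) (f : CuspForm (Gamma0 N) 2) :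
    periodMap N (c • f) = c • periodMap N f := by
  refine AddMonoidHom.ext fun γ => ?_
  have e : γ = Additive.ofMul (Additive.toMul γ) := rfl
  rw [e, AddMonoidHom.smul_apply, periodMap_apply _ _ UpperHalfPlane.I,
    periodMap_apply _ _ UpperHalfPlane.I, Fprim_smul_const, Fprim_smul_const, smul_eq_mul]
  ring

/-- The period map as a linear map. -/
noncomputable def periodMapL (N : ℕ) [NeZero N] :
    CuspForm (Gamma0 N) 2 →ₗ[ℂ] (Additive (Gamma0 N) →+ ℂ) where
  toFun := periodMap N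
  map_add' := periodMap_add
  map_smul' c f := by
    rw [periodMap_smul]
    rfl

theorem periodMapL_apply (N : ℕ) [NeZero N] (f : CuspForm (Gamma0 N) 2) :
    periodMapL N f = periodMap N f := rfl

/-- (D1) The period map is linear. -/
theorem existsPeriodMapLinear (N : ℕ) [NeZero N] : ExistsPeriodMapLinear N :=
  ⟨periodMapL N, fun _ => rfl⟩

end Fermat.Agent.S21_Prim
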