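import Mathlib
import Fermat.Prelude.Def_ModularCurve_PeriodHomPair
import Fermat.Agent.S21_Prim

/-!
# S21_ParVanish (helper2): periods of cusp forms vanish on parabolic elements

An element of `SL₂(ℤ)` of trace `±2` is, up to sign, conjugate to a power of `T`; the primitive of
a cusp form has a limit at every cusp, hence its period along such an element vanishes.
-/

set_option autoImplicit false

open Complex UpperHalfPlane CongruenceSubgroup ModularCurve ModularCurve.Period Filter Topology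
open scoped MatrixGroups ModularForm

namespace Fermat.Agent.S21_ParVanish

open Fermat.Agent.S21_Prim

/-- Trace `2` elements of `SL₂(ℤ)` are conjugate to a power of `T`. -/
theorem exists_conj_T_zpow_of_trace_two (γ : SL(2, ℤ))
    (hγ : (γ : Matrix (Fin 2) (Fin 2) ℤ).trace = 2) :
    ∃ (δ : SL(2, ℤ)) (m : ℤ), γ = δ * ModularGroup.T ^ m * δ⁻¹ := by
  have hdet : γ 0 0 * γ 1 1 - γ 0 1 * γ 1 0 = 1 := by
    have h := γ.det_coe
    rw [Matrix.det_fin_two] at h
    exact h
  have htr : γ 0 0 + γ 1 1 = 2 := by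
    rw [Matrix.trace_fin_two] at hγ
    exact hγ
  set a := γ 0 0 with ha
  set b := γ 0 1 with hb
  set c := γ 1 0 with hc
  set d := γ 1 1 with hd
  -- a coprime vector `(p, q)` fixed by `γ`
  obtain ⟨p, q, hpq, R1, R2⟩ : ∃ p q : ℤ, IsCoprime p q ∧ (a - 1) * p + b * q = 0 ∧
      c * p + (d - 1) * q = 0 := by
    by_cases hc0 : c = 0
    · refine ⟨1, 0, isCoprime_one_left, ?_, ?_⟩
      · have h1 : a * d = 1 := by rw [hc0] at hdet; linarith
        have h2 : (a - 1) ^ 2 = 0 := by linear_combination (-1 : ℤ) * h1 + a * htr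
        have h3 : a - 1 = 0 := by simpa using h2
        rw [h3]; ring
      · rw [hc0]; ring
    · have hg : (Int.gcd (d - 1) c : ℤ) ≠ 0 := by
        exact_mod_cast (Int.gcd_pos_of_ne_zero_right (d - 1) hc0).ne'
      obtain ⟨p, hp⟩ := Int.gcd_dvd_left (d - 1) c
      obtain ⟨q, hq⟩ := Int.gcd_dvd_right (d - 1) c
      have hcop : IsCoprime p q := by
        rw [Int.isCoprime_iff_gcd_eq_one]
        have h := Int.gcd_div_gcd_div_gcd (i := d - 1) (j := c)
          (Int.gcd_pos_of_ne_zero_right (d - 1) hc0)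
        have e1 : (d - 1) / (Int.gcd (d - 1) c : ℤ) = p := by
          nth_rewrite 1 [hp]
          exact Int.mul_ediv_cancel_left _ hg
        have e2 : c / (Int.gcd (d - 1) c : ℤ) = q := by
          nth_rewrite 1 [hq]
          exact Int.mul_ediv_cancel_left _ hg
        rw [e1, e2] at h
        exact h
      refine ⟨p, -q, hcop.neg_right, ?_, ?_⟩
      · apply mul_left_cancel₀ hg
        have : (Int.gcd (d - 1) c : ℤ) * ((a - 1) * p + b * -q)
            = (a - 1) * ((Int.gcd (d - 1) c : ℤ) * p) - b * ((Int.gcd (d - 1) c : ℤ) * q) := by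
          ring
        rw [this, ← hp, ← hq]
        linear_combination hdet - htr
      · apply mul_left_cancel₀ hg
        have : (Int.gcd (d - 1) c : ℤ) * (c * p + (d - 1) * -q)
            = c * ((Int.gcd (d - 1) c : ℤ) * p) - (d - 1) * ((Int.gcd (d - 1) c : ℤ) * q) := by
          ring
        rw [this, ← hp, ← hq]
        ring
  obtain ⟨u, v, huv⟩ := hpq
  -- `huv : u * p + v * q = 1`
  let δ : SL(2, ℤ) := ⟨!![p, -v; q, u], by
    rw [Matrix.det_fin_two_of]; linarith⟩
  refine ⟨δ, b * u ^ 2 - c * v ^ 2 + (d - a) * u * v, ?_⟩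
  rw [eq_mul_inv_iff_mul_eq]
  have hda : d - 1 = -(a - 1) := by linarith
  have R2' : c * p - (a - 1) * q = 0 := by rw [hda] at R2; linarith
  apply Subtype.ext
  rw [Matrix.SpecialLinearGroup.coe_mul, Matrix.SpecialLinearGroup.coe_mul,
    ModularGroup.coe_T_zpow]
  have hγ' : (γ : Matrix (Fin 2) (Fin 2) ℤ) = !![a, b; c, d] := by
    ext i j
    fin_cases i <;> fin_cases j <;> rfl
  have hδ' : (δ : Matrix (Fin 2) (Fin 2) ℤ) = !![p, -v; q, u] := rfl
  rw [hγ', hδ']
  ext i j
  fin_cases i <;> fin_cases j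
  · simp [Matrix.mul_apply, Fin.sum_univ_two]
    linarith
  · simp [Matrix.mul_apply, Fin.sum_univ_two]
    linear_combination v ^ 2 * R2' + u * v * R1 - u * v * p * htr + ((a - 1) * v - b * u) * huv
  · simp [Matrix.mul_apply, Fin.sum_univ_two]
    linarith
  · simp [Matrix.mul_apply, Fin.sum_univ_two]
    linear_combination -u ^ 2 * R1 + u ^ 2 * p * htr - u * v * R2' + (c * v - (d - 1) * u) * huv

/-- Elements of `SL₂(ℤ)` of trace `±2` are, up to sign, conjugate to a power of `T`. -/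
theorem exists_conj_T_zpow (γ : SL(2, ℤ))
    (hγ : (γ : Matrix (Fin 2) (Fin 2) ℤ).trace ^ 2 = 4) :
    ∃ (δ : SL(2, ℤ)) (m : ℤ), γ = δ * ModularGroup.T ^ m * δ⁻¹ ∨
      γ = -(δ * ModularGroup.T ^ m * δ⁻¹) := by
  have h2 : (γ : Matrix (Fin 2) (Fin 2) ℤ).trace = 2 ∨
      (γ : Matrix (Fin 2) (Fin 2) ℤ).trace = -2 := by
    have h : ((γ : Matrix (Fin 2) (Fin 2) ℤ).trace - 2) *
        ((γ : Matrix (Fin 2) (Fin 2) ℤ).trace + 2) = 0 := by
      linear_combination hγ
    rcases mul_eq_zero.mp h with h | h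
    · left; linarith
    · right; linarith
  rcases h2 with h | h
  · obtain ⟨δ, m, hδ⟩ := exists_conj_T_zpow_of_trace_two γ h
    exact ⟨δ, m, Or.inl hδ⟩
  · have h' : ((-γ : SL(2, ℤ)) : Matrix (Fin 2) (Fin 2) ℤ).trace = 2 := by
      rw [Matrix.SpecialLinearGroup.coe_neg, Matrix.trace_neg, h]
      norm_num
    obtain ⟨δ, m, hδ⟩ := exists_conj_T_zpow_of_trace_two (-γ) h'
    exact ⟨δ, m, Or.inr (by rw [← hδ, neg_neg])⟩

theorem tendsto_T_zpow_smul (m : ℤ) :
    Tendsto (fun w : ℍ => ModularGroup.T ^ m • w) atImInfty atImInfty := by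
  unfold atImInfty
  rw [tendsto_comap_iff]
  have : (UpperHalfPlane.im ∘ fun w : ℍ => ModularGroup.T ^ m • w) = UpperHalfPlane.im := by
    funext w
    exact ModularGroup.im_T_zpow_smul w m
  rw [this]
  exact tendsto_comap

variable {N : ℕ} [NeZero N]

/-- Periods of a cusp form along elements of trace `±2` vanish. -/
theorem periodMap_eq_zero_of_trace (f : CuspForm (Gamma0 N) 2) (γ : Gamma0 N)
    (hγ : ((γ : SL(2, ℤ)) : Matrix (Fin 2) (Fin 2) ℤ).trace ^ 2 = 4) :
    periodMap N f (Additive.ofMul γ) = 0 := by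
  obtain ⟨δ, m, hδ⟩ := exists_conj_T_zpow (γ : SL(2, ℤ)) hγ
  have key : ∀ w : ℍ, (γ : SL(2, ℤ)) • (δ • w) = δ • (ModularGroup.T ^ m • w) := by
    intro w
    rcases hδ with h | h
    · rw [h, ← mul_smul, ← mul_smul, inv_mul_cancel_right]
    · rw [h, ModularGroup.SL_neg_smul, ← mul_smul, ← mul_smul, inv_mul_cancel_right]
  have hc : ∀ w : ℍ, periodMap N f (Additive.ofMul γ)
      = Fprim f (δ • (ModularGroup.T ^ m • w)) - Fprim f (δ • w) := by
    intro w
    rw [periodMap_apply f γ (δ • w), key w]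
  obtain ⟨L, hL⟩ := Fprim_tendsto_smul f δ
  have h1 : Tendsto (fun w : ℍ => Fprim f (δ • (ModularGroup.T ^ m • w))) atImInfty (𝓝 L) :=
    hL.comp (tendsto_T_zpow_smul m)
  have h2 : Tendsto (fun _ : ℍ => periodMap N f (Additive.ofMul γ)) atImInfty (𝓝 (L - L)) :=
    (h1.sub hL).congr fun w => (hc w).symm
  have h3 := tendsto_nhds_unique h2 tendsto_const_nhds
  rw [← h3, sub_self]

theorem periodMap_mem_parabolicHoms (f : CuspForm (Gamma0 N) 2) :
    periodMap N f ∈ parabolicHoms ℂ (Gamma0 N) ℂ :=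
  mem_parabolicHoms_iff.mpr fun γ hγ => periodMap_eq_zero_of_trace f γ hγ

/-- (D2) the image of the Eichler–Shimura map consists of parabolic classes. -/
theorem range_periodHomPair_le (N : ℕ) [NeZero N] :
    LinearMap.range (periodHomPair N) ≤ parabolicHoms ℂ (Gamma0 N) ℂ := by
  obtain ⟨pml, hpml, hdef⟩ := periodHomPair_def N (existsPeriodMapLinear N)
  rintro φ ⟨⟨f, g⟩, rfl⟩
  rw [hdef]
  have hf : pml f ∈ parabolicHoms ℂ (Gamma0 N) ℂ := by
    rw [hpml]; exact periodMap_mem_parabolicHoms f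
  have hg : pml g ∈ parabolicHoms ℂ (Gamma0 N) ℂ := by
    rw [hpml]; exact periodMap_mem_parabolicHoms g
  have e : (LinearMap.coprod ((LinearMap.id + charInvolution N ℂ ℂ) ∘ₗ pml)
      ((LinearMap.id - charInvolution N ℂ ℂ) ∘ₗ pml)) (f, g)
      = (pml f + charInvolution N ℂ ℂ (pml f)) + (pml g - charInvolution N ℂ ℂ (pml g)) := by
    simp [LinearMap.coprod_apply]
  rw [e]
  exact Submodule.add_mem _ (Submodule.add_mem _ hf (charInvolution_mem_parabolicHoms N ℂ ℂ hf))
    (Submodule.sub_mem _ hg (charInvolution_mem_parabolicHoms N ℂ ℂ hg))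

end Fermat.Agent.S21_ParVanish
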