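import Fermat.Agent.S24_Defs
import Fermat.Agent.S24_Comb
import Fermat.Prelude.Def_ModularCurve_PeriodMap

set_option autoImplicit false

noncomputable section

open Fermat.Agent.S24_Defs ModularCurve CongruenceSubgroup
open scoped MatrixGroups

namespace Fermat.Agent.S21_Parabolic

/-! ### An abstract orthogonality lemma -/

section Abstract

variable {X : Type*} [Fintype X]

theorem sum_mul_conj_eq_zero_of_S (eS : Equiv.Perm X) (a p : X → ℂ)
    (ha : ∀ x, a (eS x) + a x = 0) (hp : ∀ x, p (eS x) = p x) :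
    ∑ x, a x * (starRingEnd ℂ) (p x) = 0 := by
  have h1 : ∑ x, a (eS x) * (starRingEnd ℂ) (p (eS x)) = ∑ x, a x * (starRingEnd ℂ) (p x) :=
    Equiv.sum_comp eS (fun x => a x * (starRingEnd ℂ) (p x))
  have h2 : ∑ x, a (eS x) * (starRingEnd ℂ) (p (eS x)) = - ∑ x, a x * (starRingEnd ℂ) (p x) := by
    rw [← Finset.sum_neg_distrib]
    refine Finset.sum_congr rfl fun x _ => ?_
    rw [hp x, eq_neg_of_add_eq_zero_left (ha x)]; ring
  have h3 : (2 : ℂ) * ∑ x, a x * (starRingEnd ℂ) (p x) = 0 := by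
    rw [two_mul]; nth_rewrite 1 [← h1]; rw [h2]; ring
  simpa using h3

theorem sum_mul_conj_eq_zero_of_U (eU : Equiv.Perm X) (d q : X → ℂ)
    (hd : ∀ x, d (eU (eU x)) + d (eU x) + d x = 0) (hq : ∀ x, q (eU x) = q x) :
    ∑ x, d x * (starRingEnd ℂ) (q x) = 0 := by
  have h1 : ∑ x, d (eU x) * (starRingEnd ℂ) (q x) = ∑ x, d x * (starRingEnd ℂ) (q x) := by
    rw [← Equiv.sum_comp eU (fun x => d x * (starRingEnd ℂ) (q x))]
    exact Finset.sum_congr rfl fun x _ => by rw [hq x]
  have h2 : ∑ x, d (eU (eU x)) * (starRingEnd ℂ) (q x) = ∑ x, d x * (starRingEnd ℂ) (q x) := by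
    rw [← h1, ← Equiv.sum_comp eU (fun x => d (eU x) * (starRingEnd ℂ) (q x))]
    exact Finset.sum_congr rfl fun x _ => by rw [hq x]
  have h3 : ∑ x, (d (eU (eU x)) + d (eU x) + d x) * (starRingEnd ℂ) (q x) = 0 :=
    Finset.sum_eq_zero fun x _ => by rw [hd x, zero_mul]
  have h4 : (3 : ℂ) * ∑ x, d x * (starRingEnd ℂ) (q x) = 0 := by
    have : ∑ x, (d (eU (eU x)) + d (eU x) + d x) * (starRingEnd ℂ) (q x)
        = ∑ x, d (eU (eU x)) * (starRingEnd ℂ) (q x) + ∑ x, d (eU x) * (starRingEnd ℂ) (q x)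
          + ∑ x, d x * (starRingEnd ℂ) (q x) := by
      rw [← Finset.sum_add_distrib, ← Finset.sum_add_distrib]
      exact Finset.sum_congr rfl fun x _ => by ring
    rw [this, h1, h2] at h3
    linear_combination h3
  simpa using h4

theorem sum_mul_conj_eq_zero_of_T (eT : Equiv.Perm X) (b l : X → ℂ) (w : ℕ) (hw : 0 < w)
    (hbw : ∀ x, ∑ i ∈ Finset.range w, b ((eT ^ i) x) = 0) (hl : ∀ x, l (eT x) = l x) :
    ∑ x, b x * (starRingEnd ℂ) (l x) = 0 := by
  have hl' : ∀ (i : ℕ) (x : X), l ((eT ^ i) x) = l x := by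
    intro i
    induction i with
    | zero => intro x; simp
    | succ i ih => intro x; rw [pow_succ, Equiv.Perm.mul_apply, ih, hl]
  have h1 : ∀ i : ℕ, ∑ x, b ((eT ^ i) x) * (starRingEnd ℂ) (l x)
      = ∑ x, b x * (starRingEnd ℂ) (l x) := by
    intro i
    rw [← Equiv.sum_comp (eT ^ i) (fun x => b x * (starRingEnd ℂ) (l x))]
    exact Finset.sum_congr rfl fun x _ => by rw [hl' i x]
  have h2 : ∑ i ∈ Finset.range w, ∑ x, b ((eT ^ i) x) * (starRingEnd ℂ) (l x) = 0 := by
    rw [Finset.sum_comm]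
    refine Finset.sum_eq_zero fun x _ => ?_
    rw [← Finset.sum_mul, hbw x, zero_mul]
  rw [Finset.sum_congr rfl (fun i _ => h1 i), Finset.sum_const, Finset.card_range,
    nsmul_eq_mul] at h2
  rcases mul_eq_zero.mp h2 with h | h
  · exact absurd (by exact_mod_cast h) hw.ne'
  · exact h

theorem herm_zero (eS eT eU : Equiv.Perm X) (a d b p q l : X → ℂ) (w : ℕ) (hw : 0 < w)
    (ha : ∀ x, a (eS x) + a x = 0)
    (hd : ∀ x, d (eU (eU x)) + d (eU x) + d x = 0)
    (hb : ∀ x, d x = a (eT x) + b x)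
    (hbw : ∀ x, ∑ i ∈ Finset.range w, b ((eT ^ i) x) = 0)
    (hp : ∀ x, p (eS x) = p x) (hq : ∀ x, q (eU x) = q x) (hl : ∀ x, l (eT x) = l x)
    (h1 : ∀ x, a x + p x - l x = 0) (h2 : ∀ x, d x + q x + l x = 0) :
    (∀ x, a x = 0) ∧ (∀ x, d x = 0) := by
  have e1 := sum_mul_conj_eq_zero_of_S eS a p ha hp
  have e2 := sum_mul_conj_eq_zero_of_U eU d q hd hq
  have e3 := sum_mul_conj_eq_zero_of_T eT b l w hw hbw hl
  -- Σ a(Tx) conj l(x) = Σ a(x) conj l(x)
  have e4 : ∑ x, a (eT x) * (starRingEnd ℂ) (l x) = ∑ x, a x * (starRingEnd ℂ) (l x) := by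
    rw [← Equiv.sum_comp eT (fun x => a x * (starRingEnd ℂ) (l x))]
    exact Finset.sum_congr rfl fun x _ => by rw [hl x]
  have e5 : ∑ x, d x * (starRingEnd ℂ) (l x) = ∑ x, a x * (starRingEnd ℂ) (l x) := by
    rw [← e4, ← sub_eq_zero, ← Finset.sum_sub_distrib, ← e3]
    exact Finset.sum_congr rfl fun x _ => by rw [hb x]; ring
  have key : ∑ x, (a x * (starRingEnd ℂ) (a x) + d x * (starRingEnd ℂ) (d x)) = 0 := by
    have : ∀ x, a x * (starRingEnd ℂ) (a x) + d x * (starRingEnd ℂ) (d x)
        = a x * (starRingEnd ℂ) (l x) - a x * (starRingEnd ℂ) (p x)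
          - d x * (starRingEnd ℂ) (q x) - d x * (starRingEnd ℂ) (l x) := by
      intro x
      have ha' : a x = l x - p x := by linear_combination h1 x
      have hd' : d x = - q x - l x := by linear_combination h2 x
      have c1 : (starRingEnd ℂ) (a x) = (starRingEnd ℂ) (l x) - (starRingEnd ℂ) (p x) := by
        rw [ha', map_sub]
      have c2 : (starRingEnd ℂ) (d x) = - (starRingEnd ℂ) (q x) - (starRingEnd ℂ) (l x) := by
        rw [hd', map_sub, map_neg]
      rw [c1, c2]; ring
    rw [Finset.sum_congr rfl (fun x _ => this x), Finset.sum_sub_distrib, Finset.sum_sub_distrib,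
      Finset.sum_sub_distrib, e1, e2, e5]
    ring
  have key' : ∑ x, (Complex.normSq (a x) + Complex.normSq (d x)) = 0 := by
    have : ((∑ x, (Complex.normSq (a x) + Complex.normSq (d x)) : ℝ) : ℂ) = 0 := by
      rw [← key]; push_cast
      exact Finset.sum_congr rfl fun x _ => by rw [Complex.mul_conj, Complex.mul_conj]
    exact_mod_cast this
  have key'' := (Finset.sum_eq_zero_iff_of_nonneg (fun x _ =>
    add_nonneg (Complex.normSq_nonneg (a x)) (Complex.normSq_nonneg (d x)))).mp key'
  constructor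
  · intro x
    have := key'' x (Finset.mem_univ x)
    have h0 : Complex.normSq (a x) = 0 := by
      linarith [Complex.normSq_nonneg (a x), Complex.normSq_nonneg (d x)]
    exact Complex.normSq_eq_zero.mp h0
  · intro x
    have := key'' x (Finset.mem_univ x)
    have h0 : Complex.normSq (d x) = 0 := by
      linarith [Complex.normSq_nonneg (a x), Complex.normSq_nonneg (d x)]
    exact Complex.normSq_eq_zero.mp h0

end Abstract

/-! ### The cocycle attached to a homomorphism `Γ₀(N) → ℂ` -/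

section Cocycle

variable (N : ℕ)

/-- coset representatives -/
def rep (x : Coset N) : SL(2, ℤ) := Quotient.out x

theorem mk_rep (x : Coset N) : (QuotientGroup.mk (rep N x) : Coset N) = x :=
  QuotientGroup.out_eq' x

theorem smul_mk (g h : SL(2, ℤ)) :
    g • (QuotientGroup.mk h : Coset N) = QuotientGroup.mk (g * h) := rfl

/-- the `Γ₀(N)`-valued cocycle on the action groupoid of `SL₂(ℤ)` on the cosets -/
def cocG (g : SL(2, ℤ)) (x : Coset N) : Gamma0 N :=
  ⟨(rep N (g • x))⁻¹ * (g * rep N x), by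
    have h : (QuotientGroup.mk (rep N (g • x)) : Coset N) = QuotientGroup.mk (g * rep N x) := by
      rw [mk_rep, ← smul_mk, mk_rep]
    exact QuotientGroup.eq.mp h⟩

theorem cocG_mul (g h : SL(2, ℤ)) (x : Coset N) :
    cocG N (g * h) x = cocG N g (h • x) * cocG N h x := by
  apply Subtype.ext
  simp only [cocG, Subgroup.coe_mul, mul_smul]
  group

/-- the `ℂ`-valued cocycle attached to `φ`, twisted by the coboundary of `u` -/
def coc (φ : Additive (Gamma0 N) →+ ℂ) (u : Coset N → ℂ) (g : SL(2, ℤ)) (x : Coset N) : ℂ :=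
  φ (Additive.ofMul (cocG N g x)) + (u (g • x) - u x)

variable {N}

theorem coc_mul (φ : Additive (Gamma0 N) →+ ℂ) (u : Coset N → ℂ) (g h : SL(2, ℤ)) (x : Coset N) :
    coc N φ u (g * h) x = coc N φ u g (h • x) + coc N φ u h x := by
  simp only [coc, cocG_mul, ofMul_mul, map_add, mul_smul]
  ring

theorem coc_one (φ : Additive (Gamma0 N) →+ ℂ) (u : Coset N → ℂ) (x : Coset N) :
    coc N φ u 1 x = 0 := by
  have h := coc_mul φ u 1 1 x
  rw [one_mul, one_smul] at h
  linear_combination -h

theorem coc_pow (φ : Additive (Gamma0 N) →+ ℂ) (u : Coset N → ℂ) (g : SL(2, ℤ)) (k : ℕ)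
    (x : Coset N) :
    coc N φ u (g ^ k) x = ∑ i ∈ Finset.range k, coc N φ u g (g ^ i • x) := by
  induction k with
  | zero => simp [coc_one]
  | succ k ih => rw [pow_succ', coc_mul, ih, Finset.sum_range_succ, add_comm]

theorem coc_eq_zero_of_generators (φ : Additive (Gamma0 N) →+ ℂ) (u : Coset N → ℂ)
    (hS : ∀ x, coc N φ u ModularGroup.S x = 0) (hT : ∀ x, coc N φ u ModularGroup.T x = 0)
    (g : SL(2, ℤ)) : ∀ x, coc N φ u g x = 0 := by
  have hg : g ∈ Subgroup.closure {ModularGroup.S, ModularGroup.T} := by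
    rw [SpecialLinearGroup.SL2Z_generators]; exact Subgroup.mem_top g
  induction hg using Subgroup.closure_induction with
  | mem y hy =>
    rcases hy with rfl | rfl
    · exact hS
    · exact hT
  | one => exact coc_one φ u
  | mul y z _ _ hy hz => intro x; rw [coc_mul, hy, hz, add_zero]
  | inv y _ hy =>
    intro x
    have h := coc_mul φ u y⁻¹ y (y⁻¹ • x)
    rw [inv_mul_cancel, coc_one, smul_inv_smul, hy, add_zero] at h
    exact h.symm

theorem coc_eq_zero_of_fixed {φ : Additive (Gamma0 N) →+ ℂ}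
    (hφ : Period.IsParabolicHom (Gamma0 N) φ) (u : Coset N → ℂ) (g : SL(2, ℤ)) (x : Coset N)
    (hx : g • x = x) (htr : (g : Matrix (Fin 2) (Fin 2) ℤ).trace ^ 2 = 4) :
    coc N φ u g x = 0 := by
  have h1 : φ (Additive.ofMul (cocG N g x)) = 0 := by
    apply hφ
    have : ((cocG N g x : Gamma0 N) : SL(2, ℤ)) = (rep N x)⁻¹ * (g * rep N x) := by
      simp only [cocG, hx]
    rw [this, Matrix.SpecialLinearGroup.coe_mul, Matrix.trace_mul_comm,
      ← Matrix.SpecialLinearGroup.coe_mul, mul_assoc, mul_inv_cancel, mul_one]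
    exact htr
  rw [coc, h1, hx, sub_self, add_zero]

theorem exists_coc_eq (φ : Additive (Gamma0 N) →+ ℂ) (u : Coset N → ℂ) (γ : Gamma0 N) :
    ∃ g : SL(2, ℤ), coc N φ u g (QuotientGroup.mk 1 : Coset N) = φ (Additive.ofMul γ) := by
  set x₀ : Coset N := QuotientGroup.mk 1 with hx₀
  have hr : rep N x₀ ∈ Gamma0 N := by
    have h : (QuotientGroup.mk (rep N x₀) : Coset N) = QuotientGroup.mk 1 := mk_rep N x₀
    have := QuotientGroup.eq.mp h
    rw [mul_one] at this
    exact (Subgroup.inv_mem_iff _).mp this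
  set g : SL(2, ℤ) := rep N x₀ * γ * (rep N x₀)⁻¹ with hg
  have hgm : g ∈ Gamma0 N :=
    Subgroup.mul_mem _ (Subgroup.mul_mem _ hr γ.2) (Subgroup.inv_mem _ hr)
  have hfix : g • x₀ = x₀ := by
    rw [hx₀, smul_mk, mul_one]
    refine QuotientGroup.eq.mpr ?_
    rw [mul_one]
    exact Subgroup.inv_mem _ hgm
  refine ⟨g, ?_⟩
  have h1 : cocG N g x₀ = γ := by
    apply Subtype.ext
    simp only [cocG, hfix]
    rw [hg]; group
  rw [coc, h1, hfix, sub_self, add_zero]

theorem coc_add (φ ψ : Additive (Gamma0 N) →+ ℂ) (u v : Coset N → ℂ) (g : SL(2, ℤ))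
    (x : Coset N) : coc N (φ + ψ) (u + v) g x = coc N φ u g x + coc N ψ v g x := by
  simp only [coc, AddMonoidHom.add_apply, Pi.add_apply]; ring

theorem coc_smul (c : ℂ) (φ : Additive (Gamma0 N) →+ ℂ) (u : Coset N → ℂ) (g : SL(2, ℤ))
    (x : Coset N) : coc N (c • φ) (c • u) g x = c * coc N φ u g x := by
  simp only [coc, AddMonoidHom.smul_apply, Pi.smul_apply, smul_eq_mul]; ring

end Cocycle

/-! ### Traces -/

theorem trace_S_mul_S :
    (((ModularGroup.S * ModularGroup.S : SL(2, ℤ)) : Matrix (Fin 2) (Fin 2) ℤ)).trace ^ 2 = 4 := by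
  rw [Matrix.SpecialLinearGroup.coe_mul, ModularGroup.S_mul_S_eq]
  simp

theorem trace_ST_cube :
    (((ModularGroup.S * ModularGroup.T * (ModularGroup.S * ModularGroup.T *
      (ModularGroup.S * ModularGroup.T)) : SL(2, ℤ)) : Matrix (Fin 2) (Fin 2) ℤ)).trace ^ 2
      = 4 := by
  simp only [Matrix.SpecialLinearGroup.coe_mul, ModularGroup.coe_S, ModularGroup.coe_T]
  simp [Matrix.trace_fin_two]

theorem trace_T_pow (w : ℕ) :
    (((ModularGroup.T ^ w : SL(2, ℤ)) : Matrix (Fin 2) (Fin 2) ℤ)).trace ^ 2 = 4 := by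
  rw [← zpow_natCast, ModularGroup.coe_T_zpow]
  simp [Matrix.trace_fin_two]

/-! ### The kernel computation -/

section Kernel

variable {N : ℕ}

theorem toPerm_pow_apply (g : SL(2, ℤ)) (i : ℕ) (x : Coset N) :
    ((MulAction.toPerm g : Equiv.Perm (Coset N)) ^ i) x = g ^ i • x := by
  have : (MulAction.toPerm g : Equiv.Perm (Coset N)) ^ i = MulAction.toPerm (g ^ i) :=
    (map_pow (MulAction.toPermHom SL(2, ℤ) (Coset N)) g i).symm
  rw [this]; rfl

theorem kernel_key [NeZero N] {φ : Additive (Gamma0 N) →+ ℂ} (hφ : Period.IsParabolicHom (Gamma0 N) φ)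
    (u p q l : Coset N → ℂ)
    (hp : ∀ x, p (ModularGroup.S • x) = p x)
    (hq : ∀ x, q ((ModularGroup.S * ModularGroup.T) • x) = q x)
    (hl : ∀ x, l (ModularGroup.T • x) = l x)
    (h1 : ∀ x, coc N φ u ModularGroup.S x + p x - l x = 0)
    (h2 : ∀ x, coc N φ u (ModularGroup.S * ModularGroup.T) x + q x + l x = 0) :
    φ = 0 ∧ (∀ x, u x = u (QuotientGroup.mk 1)) ∧ (∀ x, l x = l (QuotientGroup.mk 1)) ∧
      (∀ x, p x = l x) ∧ (∀ x, q x = - l x) := by
  classical
  let _ : Fintype (Coset N) := Fintype.ofFinite _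
  set eS : Equiv.Perm (Coset N) := MulAction.toPerm ModularGroup.S with heS
  set eT : Equiv.Perm (Coset N) := MulAction.toPerm ModularGroup.T with heT
  set eU : Equiv.Perm (Coset N) := MulAction.toPerm (ModularGroup.S * ModularGroup.T) with heU
  have ha : ∀ x, coc N φ u ModularGroup.S (eS x) + coc N φ u ModularGroup.S x = 0 := by
    intro x
    have h := coc_mul φ u ModularGroup.S ModularGroup.S x
    rw [coc_eq_zero_of_fixed hφ u _ x (S24_Comb.S_sq_smul N x) trace_S_mul_S] at h
    exact h.symm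
  have hd : ∀ x, coc N φ u (ModularGroup.S * ModularGroup.T) (eU (eU x))
      + coc N φ u (ModularGroup.S * ModularGroup.T) (eU x)
      + coc N φ u (ModularGroup.S * ModularGroup.T) x = 0 := by
    intro x
    have h := coc_mul φ u (ModularGroup.S * ModularGroup.T)
      (ModularGroup.S * ModularGroup.T * (ModularGroup.S * ModularGroup.T)) x
    rw [coc_eq_zero_of_fixed hφ u _ x (S24_Comb.ST_cube_smul N x) trace_ST_cube,
      coc_mul φ u (ModularGroup.S * ModularGroup.T) (ModularGroup.S * ModularGroup.T) x,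
      mul_smul] at h
    rw [h]; simp only [heU, MulAction.toPerm_apply]; ring
  have hb : ∀ x, coc N φ u (ModularGroup.S * ModularGroup.T) x
      = coc N φ u ModularGroup.S (eT x) + coc N φ u ModularGroup.T x := by
    intro x
    exact coc_mul φ u ModularGroup.S ModularGroup.T x
  have hw : 0 < orderOf eT := orderOf_pos eT
  have hbw : ∀ x, ∑ i ∈ Finset.range (orderOf eT), coc N φ u ModularGroup.T ((eT ^ i) x) = 0 := by
    intro x
    have hfix : ModularGroup.T ^ orderOf eT • x = x := by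
      rw [← toPerm_pow_apply, ← heT, pow_orderOf_eq_one]; rfl
    have h := coc_pow φ u ModularGroup.T (orderOf eT) x
    rw [coc_eq_zero_of_fixed hφ u _ x hfix (trace_T_pow _)] at h
    rw [h]
    exact Finset.sum_congr rfl fun i _ => by rw [heT, toPerm_pow_apply]
  obtain ⟨a0, d0⟩ := herm_zero eS eT eU (coc N φ u ModularGroup.S)
    (coc N φ u (ModularGroup.S * ModularGroup.T)) (coc N φ u ModularGroup.T) p q l
    (orderOf eT) hw ha hd hb hbw hp hq hl h1 h2
  have b0 : ∀ x, coc N φ u ModularGroup.T x = 0 := by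
    intro x
    have := hb x
    rw [d0, a0] at this
    linear_combination -this
  have hall := coc_eq_zero_of_generators φ u a0 b0
  have hφ0 : φ = 0 := by
    refine AddMonoidHom.ext fun γ => ?_
    obtain ⟨g, hg⟩ := exists_coc_eq φ u (Additive.toMul γ)
    rw [hall g] at hg
    exact hg.symm
  have hu : ∀ (g : SL(2, ℤ)) (x : Coset N), u (g • x) = u x := by
    intro g x
    have := hall g x
    rw [coc, hφ0] at this
    simp only [AddMonoidHom.zero_apply, zero_add] at this
    exact sub_eq_zero.mp this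
  have hpl : ∀ x, p x = l x := by
    intro x
    have := h1 x
    rw [a0] at this
    linear_combination this
  refine ⟨hφ0, ?_, ?_, hpl, ?_⟩
  · intro x
    induction x using QuotientGroup.induction_on with
    | H g =>
      have := hu g (QuotientGroup.mk 1)
      rw [smul_mk, mul_one] at this
      exact this
  · intro x
    refine S24_Comb.connected_S_T N (fun y => l y = l (QuotientGroup.mk 1)) ?_ ?_
      (QuotientGroup.mk 1) x rfl
    · intro y
      show l (ModularGroup.S • y) = _ ↔ l y = _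
      rw [← hpl, hp, hpl]
    · intro y
      show l (ModularGroup.T • y) = _ ↔ l y = _
      rw [hl]
  · intro x
    have := h2 x
    rw [d0] at this
    linear_combination this

end Kernel


/-! ### The dimension count -/

section Count

variable (N : ℕ)

/-- functions on the cosets invariant under `g` -/
def invSub (g : SL(2, ℤ)) : Submodule ℂ (Coset N → ℂ) where
  carrier := {u | ∀ x, u (g • x) = u x}
  zero_mem' := fun _ => rfl
  add_mem' := by
    intro u v hu hv x
    show u (g • x) + v (g • x) = u x + v x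
    rw [hu x, hv x]
  smul_mem' := by
    intro c u hu x
    show c • u (g • x) = c • u x
    rw [hu x]

theorem invSub_zpow {g : SL(2, ℤ)} {u : Coset N → ℂ} (hu : u ∈ invSub N g) (i : ℤ)
    (x : Coset N) : u (g ^ i • x) = u x := by
  induction i using Int.induction_on generalizing x with
  | zero => simp
  | succ i ih => rw [zpow_add_one, mul_smul, ih, hu]
  | pred i ih =>
    rw [zpow_sub_one, mul_smul, ih]
    have := hu (g⁻¹ • x)
    rw [smul_inv_smul] at this
    exact this.symm

/-- invariant functions are functions on the orbit space -/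
def invEquiv (g : SL(2, ℤ)) :
    (MulAction.orbitRel.Quotient (Subgroup.zpowers g) (Coset N) → ℂ) ≃ₗ[ℂ] invSub N g where
  toFun h := ⟨fun x => h (Quotient.mk'' x), by
    intro x
    show h (Quotient.mk'' (g • x)) = h (Quotient.mk'' x)
    congr 1
    apply Quotient.sound
    exact ⟨⟨g, Subgroup.mem_zpowers g⟩, rfl⟩⟩
  map_add' _ _ := rfl
  map_smul' _ _ := rfl
  invFun f := Quotient.lift f.1 (by
    rintro x y ⟨⟨k, hk⟩, rfl⟩
    obtain ⟨i, rfl⟩ := Subgroup.mem_zpowers_iff.mp hk
    exact invSub_zpow N f.2 i y)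
  left_inv h := by
    funext q
    induction q using Quotient.inductionOn
    rfl
  right_inv f := rfl

theorem finrank_invSub [NeZero N] (g : SL(2, ℤ)) :
    Module.finrank ℂ (invSub N g) = orbCount N g := by
  classical
  let _ : Fintype (MulAction.orbitRel.Quotient (Subgroup.zpowers g) (Coset N)) :=
    Fintype.ofFinite _
  rw [← (invEquiv N g).finrank_eq, Module.finrank_fintype_fun_eq_card, orbCount,
    Nat.card_eq_fintype_card]

/-- the domain of the master map -/
abbrev Dom : Type :=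
  (Period.parabolicHoms ℂ (Gamma0 N) ℂ) × (Coset N → ℂ) × (invSub N ModularGroup.S) ×
    (invSub N (ModularGroup.S * ModularGroup.T)) × (invSub N ModularGroup.T)

/-- the master map `(φ, u, p, q, l) ↦ (c(S) + p - l, c(ST) + q + l)` -/
def masterMap : Dom N →ₗ[ℂ] (Coset N → ℂ) × (Coset N → ℂ) where
  toFun z :=
    (fun x => coc N z.1.1 z.2.1 ModularGroup.S x + z.2.2.1.1 x - z.2.2.2.2.1 x,
     fun x => coc N z.1.1 z.2.1 (ModularGroup.S * ModularGroup.T) x + z.2.2.2.1.1 x
       + z.2.2.2.2.1 x)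
  map_add' := by
    intro z z'
    refine Prod.ext (funext fun x => ?_) (funext fun x => ?_)
    · simp only [Prod.fst_add, Prod.snd_add, Submodule.coe_add, coc_add, Pi.add_apply]; ring
    · simp only [Prod.fst_add, Prod.snd_add, Submodule.coe_add, coc_add, Pi.add_apply]; ring
  map_smul' := by
    intro c z
    refine Prod.ext (funext fun x => ?_) (funext fun x => ?_)
    · simp only [Prod.smul_fst, Prod.smul_snd, Submodule.coe_smul, coc_smul, Pi.smul_apply,
        smul_eq_mul, RingHom.id_apply]; ring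
    · simp only [Prod.smul_fst, Prod.smul_snd, Submodule.coe_smul, coc_smul, Pi.smul_apply,
        smul_eq_mul, RingHom.id_apply]; ring

theorem masterMap_eq_zero [NeZero N] {z : Dom N} (hz : masterMap N z = 0) :
    z.1 = 0 ∧ (∀ x, z.2.1 x = z.2.1 (QuotientGroup.mk 1)) ∧
      (∀ x, z.2.2.2.2.1 x = z.2.2.2.2.1 (QuotientGroup.mk 1)) ∧
      (∀ x, z.2.2.1.1 x = z.2.2.2.2.1 x) ∧ (∀ x, z.2.2.2.1.1 x = - z.2.2.2.2.1 x) := by
  have h1 : ∀ x, coc N z.1.1 z.2.1 ModularGroup.S x + z.2.2.1.1 x - z.2.2.2.2.1 x = 0 :=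
    fun x => congrFun (congrArg Prod.fst hz) x
  have h2 : ∀ x, coc N z.1.1 z.2.1 (ModularGroup.S * ModularGroup.T) x + z.2.2.2.1.1 x
      + z.2.2.2.2.1 x = 0 :=
    fun x => congrFun (congrArg Prod.snd hz) x
  obtain ⟨e1, e2, e3, e4, e5⟩ := kernel_key (Period.mem_parabolicHoms_iff.mp z.1.2) z.2.1
    z.2.2.1.1 z.2.2.2.1.1 z.2.2.2.2.1 z.2.2.1.2 z.2.2.2.1.2 z.2.2.2.2.2 h1 h2
  exact ⟨Subtype.ext e1, e2, e3, e4, e5⟩

/-- the kernel of the master map is at most two-dimensional -/
def kerMap : LinearMap.ker (masterMap N) →ₗ[ℂ] ℂ × ℂ where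
  toFun z := (z.1.2.1 (QuotientGroup.mk 1), z.1.2.2.2.2.1 (QuotientGroup.mk 1))
  map_add' _ _ := rfl
  map_smul' _ _ := rfl

theorem kerMap_injective [NeZero N] : Function.Injective (kerMap N) := by
  rw [injective_iff_map_eq_zero]
  rintro ⟨z, hz⟩ h0
  obtain ⟨e1, e2, e3, e4, e5⟩ := masterMap_eq_zero N (LinearMap.mem_ker.mp hz)
  have hu0 : z.2.1 (QuotientGroup.mk 1) = 0 := congrArg Prod.fst h0
  have hl0 : z.2.2.2.2.1 (QuotientGroup.mk 1) = 0 := congrArg Prod.snd h0
  apply Subtype.ext
  show z = 0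
  refine Prod.ext e1 (Prod.ext ?_ (Prod.ext ?_ (Prod.ext ?_ ?_)))
  · funext x; rw [e2 x, hu0]; rfl
  · apply Subtype.ext; funext x; rw [e4 x, e3 x, hl0]; rfl
  · apply Subtype.ext; funext x; rw [e5 x, e3 x, hl0, neg_zero]; rfl
  · apply Subtype.ext; funext x; rw [e3 x, hl0]; rfl

theorem embMap_injective [NeZero N] :
    Function.Injective ((masterMap N) ∘ₗ
      (LinearMap.inl ℂ (Period.parabolicHoms ℂ (Gamma0 N) ℂ)
        ((Coset N → ℂ) × (invSub N ModularGroup.S) ×
          (invSub N (ModularGroup.S * ModularGroup.T)) × (invSub N ModularGroup.T)))) := by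
  rw [injective_iff_map_eq_zero]
  intro φ h0
  exact (masterMap_eq_zero N h0).1

/-- **Finite-dimensionality of the space of parabolic homomorphisms.** -/
theorem finiteDimensional_parabolicHoms [NeZero N] :
    FiniteDimensional ℂ (Period.parabolicHoms ℂ (Gamma0 N) ℂ) :=
  FiniteDimensional.of_injective _ (embMap_injective N)

/-- **Dimension bound for the space of parabolic homomorphisms** (Riemann–Hurwitz form). -/
theorem finrank_parabolicHoms_add_le [NeZero N] :
    Module.finrank ℂ (Period.parabolicHoms ℂ (Gamma0 N) ℂ) + orbCount N ModularGroup.S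
      + orbCount N (ModularGroup.S * ModularGroup.T) + orbCount N ModularGroup.T
      ≤ Nat.card (Coset N) + 2 := by
  classical
  have := finiteDimensional_parabolicHoms N
  let _ : Fintype (Coset N) := Fintype.ofFinite _
  have hV : Module.finrank ℂ (Coset N → ℂ) = Nat.card (Coset N) := by
    rw [Module.finrank_fintype_fun_eq_card, Nat.card_eq_fintype_card]
  have hdom : Module.finrank ℂ (Dom N)
      = Module.finrank ℂ (Period.parabolicHoms ℂ (Gamma0 N) ℂ) + (Nat.card (Coset N)
        + (orbCount N ModularGroup.S + (orbCount N (ModularGroup.S * ModularGroup.T)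
        + orbCount N ModularGroup.T))) := by
    rw [Module.finrank_prod, Module.finrank_prod, Module.finrank_prod, Module.finrank_prod,
      finrank_invSub, finrank_invSub, finrank_invSub, hV]
  have hrk := LinearMap.finrank_range_add_finrank_ker (masterMap N)
  have hrange : Module.finrank ℂ (LinearMap.range (masterMap N)) ≤ 2 * Nat.card (Coset N) := by
    have := Submodule.finrank_le (LinearMap.range (masterMap N))
    rw [Module.finrank_prod, hV] at this
    omega
  have hker : Module.finrank ℂ (LinearMap.ker (masterMap N)) ≤ 2 := by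
    have := LinearMap.finrank_le_finrank_of_injective (kerMap_injective N)
    rw [Module.finrank_prod, Module.finrank_self] at this
    exact this
  omega

/-- **Dimension bound for the space of parabolic homomorphisms** (genus form). -/
theorem finrank_parabolicHoms_le [NeZero N] :
    (Module.finrank ℂ (Period.parabolicHoms ℂ (Gamma0 N) ℂ) : ℚ) ≤ 2 * genusFormula N := by
  obtain ⟨g, hg, hnum⟩ := S24_Comb.genus_numerics N
  have h := finrank_parabolicHoms_add_le N
  rw [← hg]
  have h2 : Module.finrank ℂ (Period.parabolicHoms ℂ (Gamma0 N) ℂ) ≤ 2 * g := by omega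
  exact_mod_cast h2

end Count

end Fermat.Agent.S21_Parabolic
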