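import Mathlib
import Fermat.Prelude.Def_ModularCurve_PeriodHomPair
import Fermat.Agent.S21_Prim

/-!
# S21_Conj (helper2): the conjugate cusp form `f^c(z) = conj (f (-conj z))`

`f^c = f ∣[2] diag(-1,1)` for Mathlib's `GL₂(ℝ)` slash action; it is again a cusp form on `Γ₀(N)`,
and the Prelude's involution `charInvolution` on periods is `P_f ↦ -conj ∘ P_{f^c}`.
-/

set_option autoImplicit false

open Complex UpperHalfPlane CongruenceSubgroup ModularCurve ModularCurve.Period Filter Topology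
open scoped MatrixGroups ModularForm

namespace Fermat.Agent.S21_Conj

open Fermat.Agent.S22_Primitive Fermat.Agent.S22_Period Fermat.Agent.S21_Prim

/-- `J = diag(-1, 1)`. -/
noncomputable def Jm : GL (Fin 2) ℝ :=
  Matrix.GeneralLinearGroup.mkOfDetNeZero !![-1, 0; 0, 1] (by simp [Matrix.det_fin_two_of])

theorem Jm_coe : (Jm : Matrix (Fin 2) (Fin 2) ℝ) = !![-1, 0; 0, 1] := rfl

theorem Jm_det : Jm.det.val = -1 := by
  rw [Matrix.GeneralLinearGroup.val_det_apply, Jm_coe, Matrix.det_fin_two_of]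
  norm_num

theorem Jm_mul_self : Jm * Jm = 1 := by
  apply Units.ext
  rw [Units.val_mul, Jm_coe]
  ext i j
  fin_cases i <;> fin_cases j <;> simp [Matrix.mul_apply, Fin.sum_univ_two]

theorem Jm_inv : Jm⁻¹ = Jm := inv_eq_of_mul_eq_one_left Jm_mul_self

theorem σ_Jm (w : ℂ) : σ Jm w = (starRingEnd ℂ) w := by
  have : ¬ (0 < Jm.det.val) := by rw [Jm_det]; norm_num
  unfold σ
  rw [if_neg this]
  rfl

theorem denom_Jm (z : ℂ) : denom Jm z = 1 := by
  simp [denom, Jm_coe]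

theorem num_Jm (z : ℂ) : num Jm z = -z := by
  simp [num, Jm_coe]

theorem coe_Jm_smul (z : ℍ) : ((Jm • z : ℍ) : ℂ) = -(starRingEnd ℂ) (z : ℂ) := by
  rw [UpperHalfPlane.coe_smul, σ_Jm, num_Jm, denom_Jm]
  simp

/-- `J γ = (jγj) J`. -/
theorem Jm_mul_mapGL (γ : SL(2, ℤ)) :
    Jm * (γ : GL (Fin 2) ℝ) = (jConjSL γ : GL (Fin 2) ℝ) * Jm := by
  apply Units.ext
  rw [Units.val_mul, Units.val_mul, Jm_coe]
  ext i j
  fin_cases i <;> fin_cases j <;>
    simp [Matrix.mul_apply, Fin.sum_univ_two, jConjMat]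

theorem Jm_mul_mapGL' (γ : SL(2, ℤ)) :
    Jm * Matrix.SpecialLinearGroup.mapGL ℝ γ = Matrix.SpecialLinearGroup.mapGL ℝ (jConjSL γ) * Jm :=
  Jm_mul_mapGL γ

open ConjAct Pointwise in
/-- `Γ₀(N)` is normalised by `J`. -/
theorem conj_Gamma0 (N : ℕ) :
    toConjAct Jm⁻¹ • (Gamma0 N : Subgroup (GL (Fin 2) ℝ))
      = (Gamma0 N : Subgroup (GL (Fin 2) ℝ)) := by
  ext x
  rw [Subgroup.mem_pointwise_smul_iff_inv_smul_mem, ← map_inv, inv_inv, ConjAct.smul_def,
    ConjAct.ofConjAct_toConjAct]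
  constructor
  · rintro ⟨γ, hγ, hγx⟩
    refine ⟨jConjSL γ, jConjSL_mem_Gamma0 hγ, ?_⟩
    have h1 : x = Jm⁻¹ * Matrix.SpecialLinearGroup.mapGL ℝ γ * Jm := by
      rw [hγx]; group
    rw [h1, Jm_inv, Jm_mul_mapGL', mul_assoc, Jm_mul_self, mul_one]
  · rintro ⟨γ, hγ, rfl⟩
    refine ⟨jConjSL γ, jConjSL_mem_Gamma0 hγ, ?_⟩
    rw [Jm_mul_mapGL', mul_assoc, mul_inv_cancel, mul_one]

/-- Transport of a cusp form along an equality of groups. -/
noncomputable def castForm {Γ Γ' : Subgroup (GL (Fin 2) ℝ)} {k : ℤ} (h : Γ = Γ')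
    (F : CuspForm Γ k) : CuspForm Γ' k := h ▸ F

theorem castForm_apply {Γ Γ' : Subgroup (GL (Fin 2) ℝ)} {k : ℤ} (h : Γ = Γ')
    (F : CuspForm Γ k) (z : ℍ) : castForm h F z = F z := by
  subst h
  rfl

/-- The conjugate cusp form `f^c(z) = conj (f (-conj z))`. -/
noncomputable def conjForm {N : ℕ} (f : CuspForm (Gamma0 N) 2) : CuspForm (Gamma0 N) 2 :=
  castForm (conj_Gamma0 N) (CuspForm.translate f Jm)

theorem conjForm_apply {N : ℕ} (f : CuspForm (Gamma0 N) 2) (z : ℍ) :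
    conjForm f z = (starRingEnd ℂ) (f (Jm • z)) := by
  unfold conjForm
  rw [castForm_apply]
  show (⇑f ∣[(2 : ℤ)] Jm) z = _
  rw [ModularForm.slash_def]
  have hdet : |(Jm.det.val : ℝ)| = 1 := by rw [Jm_det]; norm_num
  simp only [σ_Jm, denom_Jm, hdet]
  simp

theorem Jm_smul_Jm_smul (z : ℍ) : Jm • (Jm • z) = z := by
  rw [← mul_smul, Jm_mul_self, one_smul]

theorem conjForm_injective {N : ℕ} : Function.Injective (conjForm (N := N)) := by
  intro f g h
  ext z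
  have h1 := congrArg (fun F : CuspForm (Gamma0 N) 2 => F (Jm • z)) h
  simp only [conjForm_apply, Jm_smul_Jm_smul] at h1
  exact (starRingEnd ℂ).injective h1

/-- `-conj (H (-conj z))` has the conjugated derivative. -/
theorem hasDerivAt_neg_conj {H : ℂ → ℂ} {D : ℂ} {z : ℂ}
    (h : HasDerivAt H D (-(starRingEnd ℂ) z)) :
    HasDerivAt (fun z => -(starRingEnd ℂ) (H (-(starRingEnd ℂ) z))) ((starRingEnd ℂ) D) z := by
  have h1 := h.conj_conj
  have e : (starRingEnd ℂ) (-(starRingEnd ℂ) z) = -z := by simp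
  rw [e] at h1
  have h2 := (h1.comp z (hasDerivAt_neg z)).neg
  have e2 : -((starRingEnd ℂ) D * -1) = (starRingEnd ℂ) D := by ring
  rw [e2] at h2
  refine h2.congr_of_eventuallyEq (Filter.Eventually.of_forall fun w => ?_)
  simp [Function.comp]

theorem isFastDecay_neg_conj {H : ℂ → ℂ} (hH : IsFastDecay H) :
    IsFastDecay (fun z => -(starRingEnd ℂ) (H (-(starRingEnd ℂ) z))) := by
  intro m B ε hε
  obtain ⟨A, hA⟩ := hH m B ε hε
  refine ⟨A, fun z hz hzA => ?_⟩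
  have h1 := hA (-(starRingEnd ℂ) z) (by simpa using hz) (by simpa using hzA)
  have e : ‖z ^ m * -(starRingEnd ℂ) (H (-(starRingEnd ℂ) z))‖
      = ‖(-(starRingEnd ℂ) z) ^ m * H (-(starRingEnd ℂ) z)‖ := by
    simp [norm_pow]
  rw [e]
  exact h1

theorem neg_conj_im_pos {z : ℂ} (hz : 0 < z.im) : 0 < (-(starRingEnd ℂ) z).im := by
  simpa using hz

theorem conjForm_comp_ofComplex {N : ℕ} (f : CuspForm (Gamma0 N) 2) {z : ℂ} (hz : 0 < z.im) :
    (⇑(conjForm f) ∘ ofComplex) z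
      = (starRingEnd ℂ) ((⇑f ∘ ofComplex) (-(starRingEnd ℂ) z)) := by
  rw [comp_ofComplex_apply _ hz, comp_ofComplex_apply _ (neg_conj_im_pos hz), conjForm_apply]
  congr 2
  apply UpperHalfPlane.ext
  rw [coe_Jm_smul]

/-- The primitive of the conjugate form. -/
theorem Fprim_conjForm {N : ℕ} (f : CuspForm (Gamma0 N) 2) (z : ℍ) :
    Fprim (conjForm f) z = -(starRingEnd ℂ) (Fprim f (Jm • z)) := by
  have s := prim_spec one_pos (isCuspLike_cuspForm f) 0
  have sc := prim_spec one_pos (isCuspLike_cuspForm (conjForm f)) 0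
  have key := eq_of_hasDerivAt_of_isFastDecay
    (H₁ := fun z => -(starRingEnd ℂ) (prim (⇑f ∘ ofComplex) 0 (-(starRingEnd ℂ) z)))
    (H₂ := prim (⇑(conjForm f) ∘ ofComplex) 0) (D := ⇑(conjForm f) ∘ ofComplex)
    (fun w hw => by
      rw [conjForm_comp_ofComplex f hw]
      exact hasDerivAt_neg_conj (by simpa using s.1 _ (neg_conj_im_pos hw)))
    (fun w hw => by simpa using sc.1 w hw)
    (isFastDecay_neg_conj s.2) sc.2 z.im_pos
  rw [Fprim_apply, ← key, Fprim_apply, coe_Jm_smul]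

theorem Fprim_Jm_smul {N : ℕ} (f : CuspForm (Gamma0 N) 2) (z : ℍ) :
    Fprim f (Jm • z) = -(starRingEnd ℂ) (Fprim (conjForm f) z) := by
  rw [Fprim_conjForm]
  simp

theorem jConjSL_smul_Jm_smul (γ : SL(2, ℤ)) (z : ℍ) : jConjSL γ • (Jm • z) = Jm • (γ • z) := by
  rw [ModularGroup.sl_moeb, ModularGroup.sl_moeb, ← mul_smul, ← mul_smul, Jm_mul_mapGL]

/-- The Prelude's involution on periods is `P_f ↦ -conj ∘ P_{f^c}`. -/
theorem periodMap_jConj {N : ℕ} [NeZero N] (f : CuspForm (Gamma0 N) 2) (γ : Gamma0 N) :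
    periodMap N f (Additive.ofMul (jConjGamma0 N γ))
      = -(starRingEnd ℂ) (periodMap N (conjForm f) (Additive.ofMul γ)) := by
  rw [periodMap_apply f _ (Jm • UpperHalfPlane.I), periodMap_apply (conjForm f) γ UpperHalfPlane.I,
    jConjGamma0_coe, jConjSL_smul_Jm_smul, Fprim_Jm_smul, Fprim_Jm_smul]
  simp only [map_sub]
  ring

theorem charInvolution_periodMap {N : ℕ} [NeZero N] (f : CuspForm (Gamma0 N) 2) (γ : Gamma0 N) :
    charInvolution N ℂ ℂ (periodMap N f) (Additive.ofMul γ)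
      = -(starRingEnd ℂ) (periodMap N (conjForm f) (Additive.ofMul γ)) := by
  rw [charInvolution_apply]
  exact periodMap_jConj f γ

end Fermat.Agent.S21_Conj
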