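import Mathlib
import Fermat.Prelude.Def_ModularCurve_PeriodHomPair

set_option autoImplicit false

open Complex UpperHalfPlane CongruenceSubgroup ModularCurve ModularCurve.Period
open scoped MatrixGroups ModularForm

namespace Fermat.Agent.S21_MaxMod

/-- Maximum principle on `X₀(N)`: a function on `ℍ` whose modulus is `Γ₀(N)`-invariant and which is
a holomorphic function of `q_M` at every cusp is constant. -/
theorem const_of_invariant_norm (N : ℕ) [NeZero N] (E : ℍ → ℂ)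
    (hinv : ∀ γ ∈ Gamma0 N, ∀ z : ℍ, ‖E (γ • z)‖ = ‖E z‖)
    (M : ℝ) (hM : 0 < M)
    (hcusp : ∀ δ : SL(2, ℤ), ∃ Et : ℂ → ℂ, DifferentiableOn ℂ Et (Metric.ball 0 1) ∧
      ∀ z : ℍ, E (δ • z) = Et (Function.Periodic.qParam M z)) :
    ∀ z w : ℍ, E z = E w := by
  classical
  choose Et hEt_diff hEt using hcusp
  have : Finite (SL(2, ℤ) ⧸ Gamma0 N) := inferInstance
  let rep : SL(2, ℤ) ⧸ Gamma0 N → SL(2, ℤ) := Quotient.out
  have hrep : ∀ x, (QuotientGroup.mk (rep x) : SL(2, ℤ) ⧸ Gamma0 N) = x :=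
    fun x => QuotientGroup.out_eq' x
  let Φ : SL(2, ℤ) ⧸ Gamma0 N → ℂ → ℂ := fun x => Et (rep x)⁻¹
  set r : ℝ := Real.exp (-Real.pi / M) with hr
  have hr1 : r < 1 := by
    rw [hr, Real.exp_lt_one_iff]
    exact div_neg_of_neg_of_pos (neg_lt_zero.mpr Real.pi_pos) hM
  have hr0 : 0 < r := Real.exp_pos _
  have hsub : Metric.closedBall (0 : ℂ) r ⊆ Metric.ball 0 1 := Metric.closedBall_subset_ball hr1
  -- every value of `‖E‖` is a value of some `‖Φ x‖` on the closed ball of radius `r`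
  have key : ∀ z : ℍ, ∃ x, ∃ q : ℂ, q ∈ Metric.closedBall (0 : ℂ) r ∧ ‖E z‖ = ‖Φ x q‖ := by
    intro z
    obtain ⟨g, hg⟩ := ModularGroup.exists_smul_mem_fd z
    have him : 1 / 2 ≤ (g • z).im := by
      have h3 := ModularGroup.three_le_four_mul_im_sq_of_mem_fd hg
      have hpos := (g • z).im_pos
      nlinarith
    set x : SL(2, ℤ) ⧸ Gamma0 N := QuotientGroup.mk g with hx
    have hh : (rep x)⁻¹ * g ∈ Gamma0 N := QuotientGroup.eq.mp (hrep x)
    refine ⟨x, Function.Periodic.qParam M ((g • z : ℍ) : ℂ), ?_, ?_⟩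
    · rw [mem_closedBall_zero_iff, Function.Periodic.norm_qParam, hr]
      apply Real.exp_le_exp.mpr
      rw [div_le_div_iff_of_pos_right hM]
      have : (((g • z : ℍ) : ℂ)).im = (g • z).im := rfl
      rw [this]
      nlinarith [Real.pi_pos]
    · have h1 := hEt (rep x)⁻¹ (g • z)
      rw [← mul_smul] at h1
      show ‖E z‖ = ‖Et (rep x)⁻¹ _‖
      rw [← h1, hinv _ hh z]
  -- the maximum of the `‖Φ x‖` on the closed ball
  have hcont : ∀ x, ContinuousOn (fun q => ‖Φ x q‖) (Metric.closedBall (0 : ℂ) r) :=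
    fun x => ((hEt_diff _).continuousOn.mono hsub).norm
  have hmaxx : ∀ x, ∃ q ∈ Metric.closedBall (0 : ℂ) r,
      ∀ q' ∈ Metric.closedBall (0 : ℂ) r, ‖Φ x q'‖ ≤ ‖Φ x q‖ := by
    intro x
    obtain ⟨q, hq, hmax⟩ := (isCompact_closedBall (0 : ℂ) r).exists_isMaxOn
      (Metric.nonempty_closedBall.mpr hr0.le) (hcont x)
    exact ⟨q, hq, fun q' hq' => hmax hq'⟩
  choose qx hqx_mem hqx_max using hmaxx
  obtain ⟨x₀, hx₀⟩ := Finite.exists_max (fun x => ‖Φ x (qx x)‖)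
  have hE_le : ∀ z, ‖E z‖ ≤ ‖Φ x₀ (qx x₀)‖ := by
    intro z
    obtain ⟨x, q, hq, hz⟩ := key z
    rw [hz]
    exact (hqx_max x q hq).trans (hx₀ x)
  -- `‖Φ x₀‖` is bounded by its value at `qx x₀` on the whole open disc
  have hΦ_ne : ∀ q ∈ Metric.ball (0 : ℂ) 1, q ≠ 0 → ‖Φ x₀ q‖ ≤ ‖Φ x₀ (qx x₀)‖ := by
    intro q hq hq0
    have hzc : 0 < (Function.Periodic.invQParam M q).im :=
      Function.Periodic.im_invQParam_pos_of_norm_lt_one hM (mem_ball_zero_iff.mp hq) hq0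
    have h1 := hEt (rep x₀)⁻¹ ⟨Function.Periodic.invQParam M q, hzc⟩
    have h2 : Function.Periodic.qParam M ((⟨Function.Periodic.invQParam M q, hzc⟩ : ℍ) : ℂ) = q :=
      Function.Periodic.qParam_right_inv hM.ne' hq0
    rw [h2] at h1
    show ‖Et (rep x₀)⁻¹ q‖ ≤ _
    rw [← h1]
    exact hE_le _
  have hΦ_le : ∀ q ∈ Metric.ball (0 : ℂ) 1, ‖Φ x₀ q‖ ≤ ‖Φ x₀ (qx x₀)‖ := by
    intro q hq
    by_cases hq0 : q = 0
    · subst hq0
      have hcts : ContinuousAt (fun q => ‖Φ x₀ q‖) 0 :=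
        ((hEt_diff _).continuousOn.continuousAt (Metric.isOpen_ball.mem_nhds hq)).norm
      have htend : Filter.Tendsto (fun q => ‖Φ x₀ q‖) (nhdsWithin 0 {0}ᶜ) (nhds ‖Φ x₀ 0‖) :=
        hcts.tendsto.mono_left nhdsWithin_le_nhds
      refine le_of_tendsto htend ?_
      have hball : Metric.ball (0 : ℂ) 1 ∈ nhdsWithin (0 : ℂ) {0}ᶜ :=
        nhdsWithin_le_nhds (Metric.isOpen_ball.mem_nhds hq)
      filter_upwards [hball, self_mem_nhdsWithin] with q' hq' hq'0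
      exact hΦ_ne q' hq' hq'0
    · exact hΦ_ne q hq hq0
  have hmax : IsMaxOn (norm ∘ Φ x₀) (Metric.ball (0 : ℂ) 1) (qx x₀) := fun q hq => hΦ_le q hq
  have hconst := Complex.eqOn_of_isPreconnected_of_isMaxOn_norm
    (convex_ball (0 : ℂ) 1).isPreconnected Metric.isOpen_ball (hEt_diff (rep x₀)⁻¹)
    (hsub (hqx_mem x₀)) hmax
  have hEc : ∀ z : ℍ, E z = Φ x₀ (qx x₀) := by
    intro z
    have h1 := hEt (rep x₀)⁻¹ (rep x₀ • z)
    rw [inv_smul_smul] at h1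
    rw [h1]
    refine hconst (mem_ball_zero_iff.mpr ?_)
    exact Function.Periodic.norm_qParam_lt_one hM (rep x₀ • z).im_pos
  intro z w
  rw [hEc z, hEc w]

end Fermat.Agent.S21_MaxMod
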