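import Mathlib
import Fermat.Prelude.Def_ModularCurve_PeriodHomPair
import Fermat.Agent.S21_Prim
import Fermat.Agent.S21_Conj
import Fermat.Agent.S21_MaxMod

/-!
# S21_Inj (helper2): injectivity of the Eichler–Shimura map `periodHomPair`

Key lemma: a weight-2 cusp form on `Γ₀(N)` all of whose periods are purely imaginary vanishes
(`exp ∘ Fprim` has `Γ₀(N)`-invariant modulus, hence is constant by the maximum principle).
-/

set_option autoImplicit false

open Complex UpperHalfPlane CongruenceSubgroup ModularCurve ModularCurve.Period Filter Topology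
open scoped MatrixGroups ModularForm

namespace Fermat.Agent.S21_Inj

open Fermat.Agent.S21_Prim Fermat.Agent.S21_Conj

variable {N : ℕ} [NeZero N]

/-- A cusp form whose periods are all purely imaginary vanishes. -/
theorem eq_zero_of_re_periodMap_eq_zero (w : CuspForm (Gamma0 N) 2)
    (h : ∀ γ : Gamma0 N, (periodMap N w (Additive.ofMul γ)).re = 0) : w = 0 := by
  obtain ⟨M, hM, hexp⟩ := exists_cusp_expansion N
  have hM' : (0 : ℝ) < (M : ℝ) := by exact_mod_cast hM
  have hconst := S21_MaxMod.const_of_invariant_norm N (fun z : ℍ => Complex.exp (Fprim w z))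
    (fun γ hγ z => by
      have h1 := periodMap_apply w ⟨γ, hγ⟩ z
      have h2 := h ⟨γ, hγ⟩
      rw [h1] at h2
      simp only [Complex.norm_exp]
      congr 1
      have : (Fprim w (γ • z)).re - (Fprim w z).re = 0 := by
        simpa using h2
      linarith)
    (M : ℝ) hM'
    (fun δ => by
      obtain ⟨ψ, κ, hψ, _, hF⟩ := hexp w δ
      refine ⟨fun q => Complex.exp (ψ q + κ), (hψ.add_const κ).cexp, fun z => ?_⟩
      show Complex.exp (Fprim w (δ • z)) = _
      rw [hF z])
  ext τ
  have hd : HasDerivAt (fun z : ℂ => Complex.exp ((Fprim w ∘ ofComplex) z))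
      (Complex.exp ((Fprim w ∘ ofComplex) (τ : ℂ)) * w τ) (τ : ℂ) :=
    (Fprim_hasDerivAt w τ).cexp
  have hopen : IsOpen {z : ℂ | 0 < z.im} := isOpen_lt continuous_const Complex.continuous_im
  have hev : (fun z : ℂ => Complex.exp ((Fprim w ∘ ofComplex) z))
      =ᶠ[𝓝 (τ : ℂ)] fun _ => Complex.exp (Fprim w τ) := by
    filter_upwards [hopen.mem_nhds τ.im_pos] with z hz
    simp only [Function.comp_apply]
    exact hconst (ofComplex z) τ
  have hd0 : HasDerivAt (fun z : ℂ => Complex.exp ((Fprim w ∘ ofComplex) z)) 0 (τ : ℂ) :=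
    (hasDerivAt_const (τ : ℂ) (Complex.exp (Fprim w τ))).congr_of_eventuallyEq hev
  have h0 := hd.unique hd0
  rcases mul_eq_zero.mp h0 with h1 | h1
  · exact absurd h1 (Complex.exp_ne_zero _)
  · simpa using h1

theorem periodMap_sub (f g : CuspForm (Gamma0 N) 2) :
    periodMap N (f - g) = periodMap N f - periodMap N g :=
  map_sub (periodMapL N) f g

/-- (D3) The Eichler–Shimura map `periodHomPair` is injective. -/
theorem periodHomPair_injective (N : ℕ) [NeZero N] :
    Function.Injective (periodHomPair N) := by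
  obtain ⟨pml, hpml, hdef⟩ := periodHomPair_def N (existsPeriodMapLinear N)
  rw [← LinearMap.ker_eq_bot, LinearMap.ker_eq_bot']
  rintro ⟨f, g⟩ h0
  rw [hdef] at h0
  have e : (LinearMap.coprod ((LinearMap.id + charInvolution N ℂ ℂ) ∘ₗ pml)
      ((LinearMap.id - charInvolution N ℂ ℂ) ∘ₗ pml)) (f, g)
      = (pml f + charInvolution N ℂ ℂ (pml f)) + (pml g - charInvolution N ℂ ℂ (pml g)) := by
    simp [LinearMap.coprod_apply]
  rw [e, hpml, hpml] at h0
  -- the relation between the periods of `a = f + g` and `b = f^c - g^c`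
  have hab : ∀ γ : Gamma0 N, periodMap N (f + g) (Additive.ofMul γ)
      = (starRingEnd ℂ) (periodMap N (conjForm f - conjForm g) (Additive.ofMul γ)) := by
    intro γ
    have h1 := congrArg (fun φ : Additive (Gamma0 N) →+ ℂ => φ (Additive.ofMul γ)) h0
    simp only [AddMonoidHom.add_apply, AddMonoidHom.sub_apply, AddMonoidHom.zero_apply,
      charInvolution_periodMap] at h1
    rw [periodMap_add, periodMap_sub, AddMonoidHom.add_apply, AddMonoidHom.sub_apply, map_sub]
    linear_combination h1
  have h1 : (f + g) - (conjForm f - conjForm g) = 0 := by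
    apply eq_zero_of_re_periodMap_eq_zero
    intro γ
    rw [periodMap_sub, AddMonoidHom.sub_apply, hab γ]
    simp
  have h2 : Complex.I • ((f + g) + (conjForm f - conjForm g)) = 0 := by
    apply eq_zero_of_re_periodMap_eq_zero
    intro γ
    rw [periodMap_smul, AddMonoidHom.smul_apply, periodMap_add, AddMonoidHom.add_apply, hab γ]
    simp
  have h3 : (f + g) + (conjForm f - conjForm g) = 0 := by
    rcases smul_eq_zero.mp h2 with h | h
    · exact absurd h Complex.I_ne_zero
    · exact h
  have two_ne : (2 : ℂ) ≠ 0 := two_ne_zero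
  have ha : f + g = 0 := by
    have : (2 : ℂ) • (f + g) = 0 := by
      rw [two_smul]
      have := congrArg₂ (· + ·) h1 h3
      simp only [add_zero] at this
      rw [← this]
      abel
    exact (smul_eq_zero.mp this).resolve_left two_ne
  have hb : conjForm f - conjForm g = 0 := by
    rw [ha, zero_add] at h3
    exact h3
  have hfg : f = g := conjForm_injective (sub_eq_zero.mp hb)
  have hf : f = 0 := by
    have : (2 : ℂ) • f = 0 := by
      rw [two_smul]
      rw [← hfg] at ha
      exact ha
    exact (smul_eq_zero.mp this).resolve_left two_ne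
  rw [hf] at hfg
  rw [hf, ← hfg]
  rfl

end Fermat.Agent.S21_Inj
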