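import Mathlib
import Fermat.Prelude.Def_ModularCurve_PeriodHomPair
import Fermat.Agent.S21_Prim
import Fermat.Agent.S21_ParVanish
import Fermat.Agent.S21_Inj

/-!
# S21_Period (helper2): the three analytic facts about the period map (package P3)

* `existsPeriodMapLinear` : the Prelude's period map is linear;
* `range_periodHomPair_le` : the image of the Eichler–Shimura map is parabolic;
* `periodHomPair_injective` : the Eichler–Shimura map is injective.
-/

set_option autoImplicit false

open Complex UpperHalfPlane CongruenceSubgroup ModularCurve ModularCurve.Period
open scoped MatrixGroups ModularForm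

namespace Fermat.Agent.S21_Period

/-- (D1) the period map is linear. -/
theorem existsPeriodMapLinear (N : ℕ) [NeZero N] : ExistsPeriodMapLinear N :=
  S21_Prim.existsPeriodMapLinear N

/-- (D2) periods of cusp forms vanish on parabolic elements. -/
theorem range_periodHomPair_le (N : ℕ) [NeZero N] :
    LinearMap.range (periodHomPair N) ≤ parabolicHoms ℂ (Gamma0 N) ℂ :=
  S21_ParVanish.range_periodHomPair_le N

/-- (D3) injectivity of the Eichler–Shimura map. -/
theorem periodHomPair_injective (N : ℕ) [NeZero N] :
    Function.Injective (periodHomPair N) :=
  S21_Inj.periodHomPair_injective N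

end Fermat.Agent.S21_Period
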