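-- Statement S20: dim S₂(Γ₀(N)) equals the genus formula.
import Fermat.Statements.S20
import Fermat.Agent.S21_Parabolic
import Fermat.Agent.S21_ParVanish
import Fermat.Agent.S21_Period
import Fermat.Agent.S20_Transfer
import Fermat.Agent.S20_RR

set_option autoImplicit false
open CuspForm

namespace Fermat.Agent.S20

open CongruenceSubgroup ModularCurve ModularCurve.Period

/-- the Eichler–Shimura map, with codomain restricted to the parabolic classes -/
noncomputable def esMap (N : ℕ) [NeZero N] :
    (CuspForm (Gamma0 N) 2 × CuspForm (Gamma0 N) 2) →ₗ[ℂ] parabolicHoms ℂ (Gamma0 N) ℂ :=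
  LinearMap.codRestrict (parabolicHoms ℂ (Gamma0 N) ℂ) (periodHomPair N)
    (fun c => Fermat.Agent.S21_ParVanish.range_periodHomPair_le N (LinearMap.mem_range_self _ c))

theorem esMap_injective (N : ℕ) [NeZero N] : Function.Injective (esMap N) := by
  intro a b hab
  exact Fermat.Agent.S21_Period.periodHomPair_injective N (congrArg Subtype.val hab)

theorem finiteDimensional_prod (N : ℕ) [NeZero N] :
    FiniteDimensional ℂ (CuspForm (Gamma0 N) 2 × CuspForm (Gamma0 N) 2) := by
  have := Fermat.Agent.S21_Parabolic.finiteDimensional_parabolicHoms N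
  exact FiniteDimensional.of_injective (esMap N) (esMap_injective N)

theorem finiteDimensional_cuspForm (N : ℕ) [NeZero N] :
    FiniteDimensional ℂ (CuspForm (Gamma0 N) 2) := by
  have := finiteDimensional_prod N
  exact FiniteDimensional.of_injective
    (LinearMap.inl ℂ (CuspForm (Gamma0 N) 2) (CuspForm (Gamma0 N) 2)) LinearMap.inl_injective

theorem two_mul_finrank_le (N : ℕ) [NeZero N] :
    2 * Module.finrank ℂ (CuspForm (Gamma0 N) 2)
      ≤ Module.finrank ℂ (parabolicHoms ℂ (Gamma0 N) ℂ) := by
  have := Fermat.Agent.S21_Parabolic.finiteDimensional_parabolicHoms N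
  have := finiteDimensional_cuspForm N
  have h := LinearMap.finrank_le_finrank_of_injective (esMap_injective N)
  rw [Module.finrank_prod] at h
  omega

theorem result (N : ℕ) [NeZero N] :
    (Module.finrank ℂ (CuspForm (CongruenceSubgroup.Gamma0 N) 2) : ℚ) = ModularCurve.genusFormula N := by
  have := finiteDimensional_cuspForm N
  obtain ⟨g, f, hg, hf⟩ := Fermat.Agent.S20_Transfer.lower_bound_of N
    (Fermat.Agent.S20_RR.exists_regular_family N)
  have h1 : g ≤ Module.finrank ℂ (CuspForm (Gamma0 N) 2) := by
    have := hf.fintype_card_le_finrank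
    simpa using this
  have h2 := two_mul_finrank_le N
  have h3 := Fermat.Agent.S21_Parabolic.finrank_parabolicHoms_le N
  rw [← hg] at h3 ⊢
  have h4 : Module.finrank ℂ (parabolicHoms ℂ (Gamma0 N) ℂ) ≤ 2 * g := by exact_mod_cast h3
  have h5 : Module.finrank ℂ (CuspForm (Gamma0 N) 2) = g := by omega
  exact_mod_cast h5

end Fermat.Agent.S20
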