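import Fermat.Agent.S16_Red
import Fermat.Agent.S24_Comb
import Fermat.Agent.S20

/-!
# S16: the prime `p = 5` (genus zero)

`S₂(Γ₀(5)) = 0` by the dimension formula (S20) and `genusFormula 5 = 0`; so `1 ∈ HeckeAlg`
kills it, and `eisensteinNumerator 5 = 1`.
-/

set_option autoImplicit false

open ModularCurve CuspForm CongruenceSubgroup ModularFormClass UpperHalfPlane

namespace Fermat.Agent.S16_Five

open Fermat.Agent.S16_Red

theorem dedekindPsi_five : dedekindPsi 5 = 6 := by
  have h := Fermat.Agent.S24_Comb.dedekindPsi_prime_mul_of_not_dvd 5 1 (by norm_num) one_ne_zero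
    (by norm_num)
  rw [mul_one, dedekindPsi_one, mul_one] at h
  exact h

theorem nuTwo_five : nuTwo 5 = 2 := by
  unfold nuTwo
  rw [Nat.card_eq_fintype_card, Fintype.card_subtype]
  decide

theorem nuThree_five : nuThree 5 = 0 := by
  unfold nuThree
  rw [Nat.card_eq_fintype_card, Fintype.card_subtype]
  decide

theorem cuspCount_five : cuspCount 5 = 2 := by
  decide

theorem genusFormula_five : genusFormula 5 = 0 := by
  unfold genusFormula
  rw [dedekindPsi_five, nuTwo_five, nuThree_five, cuspCount_five]
  norm_num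

theorem cuspForm_eq_zero_five (f : CuspForm (Gamma0 5) 2) : f = 0 := by
  have hfin := Fermat.Agent.S20.finiteDimensional_cuspForm 5
  have h := Fermat.Agent.S20.result 5
  rw [genusFormula_five] at h
  have h0 : Module.finrank ℂ (CuspForm (Gamma0 5) 2) = 0 := by exact_mod_cast h
  have hsub : Subsingleton (CuspForm (Gamma0 5) 2) := Module.finrank_zero_iff.1 h0
  exact Subsingleton.elim _ _

theorem LB_five (p : ℕ) [Fact p.Prime] (hp : p = 5) : ∀ t : HeckeAlg,
    heckeEvalForms p 2 t = 0 →
      (eisensteinNumerator p : ℤ) ∣ MvPolynomial.aeval (eisensteinSystem p) t := by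
  intro t _
  subst hp
  rw [eisensteinNumerator_five]
  exact one_dvd _

theorem UB_five (p : ℕ) [Fact p.Prime] (hp : p = 5) : ∃ t : HeckeAlg,
    heckeEvalForms p 2 t = 0 ∧
      MvPolynomial.aeval (eisensteinSystem p) t = (eisensteinNumerator p : ℤ) := by
  subst hp
  refine ⟨1, ?_, ?_⟩
  · rw [map_one]
    apply Subtype.ext
    apply LinearMap.ext
    intro f
    rw [cuspForm_eq_zero_five f]
    simp
  · rw [map_one, eisensteinNumerator_five]
    rfl

end Fermat.Agent.S16_Five
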