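import Fermat.Agent.S16_Red
import Fermat.Agent.S24_Comb
import Fermat.Prelude.Thm_ModularForm_sturm_bound_Gamma0

/-!
# S16: the primes `p < 5` (`p = 2, 3`)

`S₂(Γ₀(p)) = 0` by the Sturm bound (index `p + 1 ≤ 4`), so `1 ∈ HeckeAlg` kills it, and
`eisensteinNumerator p = 1`.
-/

set_option autoImplicit false

open ModularCurve CuspForm CongruenceSubgroup ModularFormClass UpperHalfPlane

namespace Fermat.Agent.S16_Small

open Fermat.Agent.S16_Red

variable (p : ℕ) [Fact p.Prime]

theorem index_Gamma0_prime : (Gamma0 p).index = p + 1 := by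
  have hp : p.Prime := Fact.out
  rw [Fermat.Agent.S24_Comb.index_Gamma0 p hp.ne_zero]
  have h := Fermat.Agent.S24_Comb.dedekindPsi_prime_mul_of_not_dvd p 1 hp one_ne_zero
    (fun h => hp.one_lt.ne' (Nat.dvd_one.1 h))
  rw [mul_one, dedekindPsi_one, mul_one] at h
  exact h

theorem cuspForm_eq_zero (hp5 : p < 5) (f : CuspForm (Gamma0 p) 2) : f = 0 := by
  have hmf : (ModularFormClass.modularForm f : ModularForm (Gamma0 p) 2) = 0 := by
    refine ModularForm.sturm_bound_Gamma0 p _ fun n hn ↦ ?_
    have hn0 : n = 0 := by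
      rw [index_Gamma0_prime p] at hn
      have : ((2 : ℤ) * ((p + 1 : ℕ) : ℤ)).toNat / 12 = 0 := by
        apply Nat.div_eq_of_lt
        push_cast
        omega
      omega
    subst hn0
    exact CuspFormClass.qExpansion_coeff_zero f one_pos
      (CongruenceSubgroup.one_mem_strictPeriods_Gamma0 p)
  have hcoe : (⇑f : ℍ → ℂ) = 0 := by
    have := congrArg (fun F : ModularForm (Gamma0 p) 2 ↦ (⇑F : ℍ → ℂ)) hmf
    simpa using this
  exact DFunLike.coe_injective (hcoe.trans (FunLike.coe_zero).symm)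

theorem eisensteinNumerator_eq_one (hp5 : p < 5) : eisensteinNumerator p = 1 := by
  have hp : p.Prime := Fact.out
  have h2 := hp.two_le
  interval_cases p
  · decide
  · decide
  · exact absurd hp (by decide)

theorem LB_small (hp5 : p < 5) : ∀ t : HeckeAlg, heckeEvalForms p 2 t = 0 →
    (eisensteinNumerator p : ℤ) ∣ MvPolynomial.aeval (eisensteinSystem p) t := by
  intro t _
  rw [eisensteinNumerator_eq_one p hp5]
  exact one_dvd _

theorem UB_small (hp5 : p < 5) : ∃ t : HeckeAlg, heckeEvalForms p 2 t = 0 ∧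
    MvPolynomial.aeval (eisensteinSystem p) t = (eisensteinNumerator p : ℤ) := by
  refine ⟨1, ?_, ?_⟩
  · rw [map_one]
    apply Subtype.ext
    apply LinearMap.ext
    intro f
    rw [cuspForm_eq_zero p hp5 f]
    simp
  · rw [map_one, eisensteinNumerator_eq_one p hp5]
    rfl

end Fermat.Agent.S16_Small
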