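import Fermat.Agent.S16_NEA
import Fermat.Agent.S16_Small
import Fermat.Agent.S16_Five

/-!
# S16: final assembly from the blocks

`result_of_blocks` : the frozen statement S16 from
* `LB`  (lower bound, Shimura class), for `p ≥ 5`;
* `E`   (the Eisenstein series `e = (p E₂(pz) - E₂(z))/24` of level `p`), for `p ≥ 5`;
* the five leaves `L8 L4 L9 L3 L5` (`S16_NEA.IsOneMod`), for `p ≥ 5`.
The primes `p = 2, 3` are handled by `S16_Small`.
-/

set_option autoImplicit false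

open ModularCurve CuspForm CongruenceSubgroup ModularFormClass

namespace Fermat.Agent.S16_Asm

open Fermat.Agent.S16_Red Fermat.Agent.S16_UBW Fermat.Agent.S16_NEA Fermat.Agent.S16_Small
  Fermat.Agent.S16_Five

theorem result_of_blocks (p : ℕ) [Fact p.Prime]
    (LB : 5 ≤ p → ∀ t : HeckeAlg, heckeEvalForms p 2 t = 0 →
      (eisensteinNumerator p : ℤ) ∣ MvPolynomial.aeval (eisensteinSystem p) t)
    (E : 5 ≤ p → ∃ e : ModularForm (Gamma0 p) 2, qCoeff ⇑e 0 = ((p : ℂ) - 1) / 24 ∧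
      ∀ k, 0 < k → qCoeff ⇑e k = (sigmaP p k : ℂ))
    (L8 : 5 ≤ p → ∀ h, ¬ IsOneMod p 2 3 h)
    (L4 : 5 ≤ p → p % 4 = 1 → ∀ h, ¬ IsOneMod p 2 2 h)
    (L9 : 5 ≤ p → ∀ h, ¬ IsOneMod p 3 2 h)
    (L3 : 5 ≤ p → p % 3 = 1 → ∀ h, ¬ IsOneMod p 3 1 h)
    (L5 : 5 ≤ p → ∀ ℓ : ℕ, ℓ.Prime → 5 ≤ ℓ → ∀ h, ¬ IsOneMod p ℓ 1 h) :
    Nat.card (↥(heckeLatticeAlgebra p ∅) ⧸
        Ideal.map ((latticeRestrictHom p ∅).toRingHom.comp (heckeEvalForms p 2))
          (eisensteinIdeal p)) =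
      eisensteinNumerator p := by
  by_cases hp5 : 5 ≤ p
  · obtain ⟨e, he0, he⟩ := E hp5
    exact card_eq_of_LB_UB p (LB hp5)
      (UB_of_leaves p hp5 e he0 he (L8 hp5) (L4 hp5) (L9 hp5) (L3 hp5) (L5 hp5))
  · have hlt : p < 5 := by omega
    exact card_eq_of_LB_UB p (LB_small p hlt) (UB_small p hlt)

/-- **Final assembly, plan shape**: the frozen statement S16 from `LB`, `E` and the plan's six
non-existence theorems, each needed only for `p ≥ 7` (`p = 2, 3` : `S16_Small`; `p = 5` :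
`S16_Five`). -/
theorem result_of_blocks_int (p : ℕ) [Fact p.Prime]
    (LB : 7 ≤ p → ∀ t : HeckeAlg, heckeEvalForms p 2 t = 0 →
      (eisensteinNumerator p : ℤ) ∣ MvPolynomial.aeval (eisensteinSystem p) t)
    (E : 7 ≤ p → ∃ e : ModularForm (Gamma0 p) 2, qCoeff ⇑e 0 = ((p : ℂ) - 1) / 24 ∧
      ∀ k, 0 < k → qCoeff ⇑e k = (sigmaP p k : ℂ))
    (N8 : 7 ≤ p → NEint p 2 3)
    (N4 : 7 ≤ p → p % 4 = 1 → NEint p 2 2)
    (N3 : 7 ≤ p → p % 3 = 1 → NEint p 3 1)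
    (N9 : 7 ≤ p → p % 3 = 2 → NEint p 3 2)
    (N5 : 7 ≤ p → ∀ ℓ : ℕ, ℓ.Prime → 5 ≤ ℓ → ℓ ≠ p → NEint p ℓ 1)
    (Np : 7 ≤ p → NEint p p 1) :
    Nat.card (↥(heckeLatticeAlgebra p ∅) ⧸
        Ideal.map ((latticeRestrictHom p ∅).toRingHom.comp (heckeEvalForms p 2))
          (eisensteinIdeal p)) =
      eisensteinNumerator p := by
  have hp : p.Prime := Fact.out
  by_cases hp7 : 7 ≤ p
  · obtain ⟨e, he0, he⟩ := E hp7
    exact card_eq_of_LB_UB p (LB hp7)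
      (UB_of_leaves_int p (by omega) e he0 he (N8 hp7) (N4 hp7) (N3 hp7) (N9 hp7) (N5 hp7)
        (Np hp7))
  · by_cases hlt : p < 5
    · exact card_eq_of_LB_UB p (LB_small p hlt) (UB_small p hlt)
    · have h5 : p = 5 := by
        have h56 : p = 5 ∨ p = 6 := by omega
        rcases h56 with h | h
        · exact h
        · exact absurd (h ▸ hp) (by decide)
      exact card_eq_of_LB_UB p (LB_five p h5) (UB_five p h5)

end Fermat.Agent.S16_Asm
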