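import Mathlib
import Fermat.Prelude.Def_CuspForm_HeckeAlgebra
import Fermat.Prelude.Thm_ModularForm_sturm_bound_Gamma0
import Fermat.Prelude.Thm_CongruenceSubgroup_one_mem_strictPeriods_Gamma0

set_option autoImplicit false

open UpperHalfPlane ModularFormClass
open scoped MatrixGroups

/-!
Algebraic side of the finiteness of the Hecke algebra:

* an algebra of endomorphisms generated by operators whose transposes preserve a finitely
  generated separating lattice of linear functionals is a finite `ℤ`-module;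
* in weights `k ≤ 1` the space of cusp forms of level `Γ₀(N)` is zero.
-/

namespace Fermat.Agent.S22_Alg

section abstract

variable {V : Type*} [AddCommGroup V] [Module ℂ V]

/-- Every element of the generated algebra preserves the lattice of functionals. -/
theorem comp_mem_of_mem_adjoin (gens : Set (Module.End ℂ V)) (M : Submodule ℤ (V →ₗ[ℂ] ℂ))
    (hstab : ∀ T ∈ gens, ∀ φ ∈ M, φ ∘ₗ T ∈ M) :
    ∀ t ∈ Algebra.adjoin ℤ gens, ∀ φ ∈ M, φ ∘ₗ t ∈ M := by
  intro t ht
  induction ht using Algebra.adjoin_induction with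
  | mem x hx => exact hstab x hx
  | algebraMap r =>
    intro φ hφ
    have e : φ ∘ₗ (algebraMap ℤ (Module.End ℂ V) r) = r • φ := by
      ext v
      simp
    rw [e]
    exact M.smul_mem r hφ
  | add x y _ _ ihx ihy =>
    intro φ hφ
    rw [LinearMap.comp_add]
    exact M.add_mem (ihx φ hφ) (ihy φ hφ)
  | mul x y _ _ ihx ihy =>
    intro φ hφ
    have e : φ ∘ₗ (x * y) = (φ ∘ₗ x) ∘ₗ y := rfl
    rw [e]
    exact ihy _ (ihx φ hφ)

theorem moduleFinite_adjoin_of_lattice
    (gens : Set (Module.End ℂ V)) (M : Submodule ℤ (V →ₗ[ℂ] ℂ)) (hfg : M.FG)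
    (hsep : ∀ v : V, (∀ φ ∈ M, φ v = 0) → v = 0)
    (hstab : ∀ T ∈ gens, ∀ φ ∈ M, φ ∘ₗ T ∈ M) :
    Module.Finite ℤ (Algebra.adjoin ℤ gens) := by
  classical
  have hcomp := comp_mem_of_mem_adjoin gens M hstab
  have hMfin : Module.Finite ℤ M := Module.Finite.iff_fg.mpr hfg
  obtain ⟨s, hs⟩ := hfg
  -- transposes evaluated on the generators of the lattice
  let Θ : Algebra.adjoin ℤ gens →ₗ[ℤ] (s → M) :=
    { toFun := fun t i => ⟨(i : V →ₗ[ℂ] ℂ) ∘ₗ (t : Module.End ℂ V),
        hcomp t.1 t.2 _ (hs ▸ Submodule.subset_span i.2)⟩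
      map_add' := fun t u => by
        funext i
        apply Subtype.ext
        simp [LinearMap.comp_add]
      map_smul' := fun r t => by
        funext i
        apply Subtype.ext
        apply LinearMap.ext
        intro v
        simp }
  have hΘ : Function.Injective Θ := by
    rw [injective_iff_map_eq_zero]
    intro t ht
    have h1 : ∀ i ∈ s, (i : V →ₗ[ℂ] ℂ) ∘ₗ (t : Module.End ℂ V) = 0 := by
      intro i hi
      have := congrArg (fun F : s → M => ((F ⟨i, hi⟩ : M) : V →ₗ[ℂ] ℂ)) ht
      simpa [Θ] using this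
    have h2 : ∀ φ ∈ M, φ ∘ₗ (t : Module.End ℂ V) = 0 := by
      intro φ hφ
      rw [← hs] at hφ
      induction hφ using Submodule.span_induction with
      | mem x hx => exact h1 x hx
      | zero => exact LinearMap.zero_comp _
      | add x y _ _ hx hy => rw [LinearMap.add_comp, hx, hy, add_zero]
      | smul a x _ hx => rw [LinearMap.smul_comp, hx, smul_zero]
    apply Subtype.ext
    apply LinearMap.ext
    intro v
    apply hsep
    intro φ hφ
    have := congrArg (fun F : V →ₗ[ℂ] ℂ => F v) (h2 φ hφ)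
    simpa using this
  exact Module.Finite.of_injective Θ hΘ

end abstract

section lowWeight

theorem cuspForm_eq_zero_of_nonpos (N : ℕ) [NeZero N] (k : ℤ) (hk : k ≤ 0)
    (f : CuspForm (CongruenceSubgroup.Gamma0 N) k) : f = 0 := by
  have hmf : (ModularFormClass.modularForm f : ModularForm (CongruenceSubgroup.Gamma0 N) k) = 0 := by
    refine ModularForm.sturm_bound_Gamma0 N _ fun n hn ↦ ?_
    have h0 : (k * ((CongruenceSubgroup.Gamma0 N).index : ℤ)).toNat = 0 := by
      have : k * ((CongruenceSubgroup.Gamma0 N).index : ℤ) ≤ 0 :=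
        mul_nonpos_of_nonpos_of_nonneg hk (Int.natCast_nonneg _)
      omega
    have hn0 : n = 0 := by
      rw [h0] at hn
      omega
    subst hn0
    exact CuspFormClass.qExpansion_coeff_zero f one_pos
      (CongruenceSubgroup.one_mem_strictPeriods_Gamma0 N)
  have hcoe : (⇑f : ℍ → ℂ) = 0 := by
    have := congrArg (fun F : ModularForm (CongruenceSubgroup.Gamma0 N) k ↦ (⇑F : ℍ → ℂ)) hmf
    simpa using this
  exact DFunLike.coe_injective (hcoe.trans (FunLike.coe_zero).symm)

theorem cuspForm_eq_zero_of_weight_one (N : ℕ)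
    (f : CuspForm (CongruenceSubgroup.Gamma0 N) 1) : f = 0 := by
  have hmem : (-1 : GL (Fin 2) ℝ) ∈
      Subgroup.map (Matrix.SpecialLinearGroup.mapGL ℝ) (CongruenceSubgroup.Gamma0 N) := by
    refine ⟨-1, ?_, ?_⟩
    · rw [SetLike.mem_coe, CongruenceSubgroup.Gamma0_mem]
      simp
    · ext i j
      simp
  have hmf : (ModularFormClass.modularForm f : ModularForm (CongruenceSubgroup.Gamma0 N) 1) = 0 :=
    ModularForm.eq_zero_of_neg_one_mem hmem (by decide) _
  have hcoe : (⇑f : ℍ → ℂ) = 0 := by
    have := congrArg (fun F : ModularForm (CongruenceSubgroup.Gamma0 N) 1 ↦ (⇑F : ℍ → ℂ)) hmf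
    simpa using this
  exact DFunLike.coe_injective (hcoe.trans (FunLike.coe_zero).symm)

theorem moduleFinite_heckeAlgebra_of_le_one (N : ℕ) [NeZero N] (k : ℤ) (hk : k ≤ 1) (S : Set ℕ) :
    Module.Finite ℤ (CuspForm.heckeAlgebra N k S) := by
  have hsub : Subsingleton (CuspForm (CongruenceSubgroup.Gamma0 N) k) := by
    refine ⟨fun f g => ?_⟩
    rcases lt_or_eq_of_le hk with h | h
    · rw [cuspForm_eq_zero_of_nonpos N k (by omega) f, cuspForm_eq_zero_of_nonpos N k (by omega) g]
    · subst h
      rw [cuspForm_eq_zero_of_weight_one N f, cuspForm_eq_zero_of_weight_one N g]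
  have hsub2 : Subsingleton (Module.End ℂ (CuspForm (CongruenceSubgroup.Gamma0 N) k)) :=
    ⟨fun a b => LinearMap.ext fun x => Subsingleton.elim _ _⟩
  have hsub3 : Subsingleton (CuspForm.heckeAlgebra N k S) :=
    ⟨fun a b => Subtype.ext (Subsingleton.elim _ _)⟩
  exact Module.Finite.of_finite

end lowWeight

end Fermat.Agent.S22_Alg
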