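import Mathlib
import Fermat.Prelude.Def_CuspForm_HeckeAlgebra
import Fermat.Agent.S22_Period

set_option autoImplicit false

open Complex UpperHalfPlane
open scoped MatrixGroups ModularForm

namespace Fermat.Agent.S22_Hecke

open Fermat.Agent.S22_Primitive Fermat.Agent.S22_Period

theorem comp_ofComplex_coe (f : ℍ → ℂ) (τ : ℍ) : (f ∘ ofComplex) (τ : ℂ) = f τ := by
  simp

/-- One summand of the Hecke formula for `Phi`. -/
theorem hecke_term_hasDerivAt {N : ℕ} {k : ℤ} {n : ℕ}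
    (f : CuspForm (CongruenceSubgroup.Gamma0 N) k) (α : GL (Fin 2) ℝ) (a b d : ℕ)
    (ha : 0 < a) (hd : 0 < d)
    (hslash : ∀ τ : ℍ, (⇑f ∣[k] α) τ = ((a : ℂ) ^ (n + 1) / (d : ℂ)) * f (α • τ))
    (hsmul : ∀ τ : ℍ, ((α • τ : ℍ) : ℂ) = ((a : ℂ) * τ + (b : ℂ)) / (d : ℂ)) (X Y : ℂ)
    {z : ℂ} (hz : 0 < z.im) :
    HasDerivAt (fun z : ℂ => Phi (⇑f ∘ ofComplex) n ((a : ℂ) * X + (b : ℂ) * Y) ((d : ℂ) * Y)
        (((a : ℂ) * z + (b : ℂ)) / (d : ℂ)))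
      (((⇑f ∣[k] α) ∘ ofComplex) z * (X - z * Y) ^ n) z := by
  have ha' : (0 : ℝ) < (a : ℝ) := by exact_mod_cast ha
  have hd' : (0 : ℝ) < (d : ℝ) := by exact_mod_cast hd
  have key := Phi_affine_hasDerivAt one_pos (isCuspLike_cuspForm f) n (a : ℝ) (b : ℝ) (d : ℝ)
    ha' hd' X Y hz
  simp only [Complex.ofReal_natCast] at key
  refine key.congr_deriv ?_
  rw [comp_ofComplex_apply _ hz, hslash ⟨z, hz⟩]
  have e : f (α • (⟨z, hz⟩ : ℍ)) = (⇑f ∘ ofComplex) (((a : ℂ) * z + (b : ℂ)) / (d : ℂ)) := by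
    rw [← comp_ofComplex_coe (⇑f) (α • (⟨z, hz⟩ : ℍ)), hsmul]
  rw [e]

theorem hecke_term_isFastDecay {N : ℕ} {k : ℤ} (n : ℕ)
    (f : CuspForm (CongruenceSubgroup.Gamma0 N) k) (a b d : ℕ) (ha : 0 < a) (hd : 0 < d)
    (X Y : ℂ) :
    IsFastDecay (fun z : ℂ => Phi (⇑f ∘ ofComplex) n ((a : ℂ) * X + (b : ℂ) * Y) ((d : ℂ) * Y)
        (((a : ℂ) * z + (b : ℂ)) / (d : ℂ))) := by
  have ha' : (0 : ℝ) < (a : ℝ) := by exact_mod_cast ha
  have hd' : (0 : ℝ) < (d : ℝ) := by exact_mod_cast hd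
  have key := Phi_affine_isFastDecay one_pos (isCuspLike_cuspForm f) n (a : ℝ) (b : ℝ) (d : ℝ)
    ha' hd' X Y
  simpa only [Complex.ofReal_natCast] using key

/-- The Hecke formula for `Phi`. -/
theorem Phi_hecke {N : ℕ} {k : ℤ} {n : ℕ} {ι : Type} [Fintype ι]
    (A : ι → GL (Fin 2) ℝ) (a b d : ι → ℕ) (ha : ∀ i, 0 < a i) (hd : ∀ i, 0 < d i)
    (hslash : ∀ (i : ι) (f : ℍ → ℂ) (τ : ℍ),
      (f ∣[k] A i) τ = ((a i : ℂ) ^ (n + 1) / (d i : ℂ)) * f (A i • τ))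
    (hsmul : ∀ (i : ι) (τ : ℍ), ((A i • τ : ℍ) : ℂ) = ((a i : ℂ) * τ + (b i : ℂ)) / (d i : ℂ))
    (T : CuspForm (CongruenceSubgroup.Gamma0 N) k →ₗ[ℂ] CuspForm (CongruenceSubgroup.Gamma0 N) k)
    (hT : ∀ f : CuspForm (CongruenceSubgroup.Gamma0 N) k, ⇑(T f) = ∑ i, ⇑f ∣[k] A i)
    (f : CuspForm (CongruenceSubgroup.Gamma0 N) k) (X Y : ℂ) {z : ℂ} (hz : 0 < z.im) :
    Phi (⇑(T f) ∘ ofComplex) n X Y z
      = ∑ i, Phi (⇑f ∘ ofComplex) n ((a i : ℂ) * X + (b i : ℂ) * Y) ((d i : ℂ) * Y)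
          (((a i : ℂ) * z + (b i : ℂ)) / (d i : ℂ)) := by
  symm
  refine Phi_unique one_pos (isCuspLike_cuspForm (T f)) n X Y
    (H := fun z => ∑ i, Phi (⇑f ∘ ofComplex) n ((a i : ℂ) * X + (b i : ℂ) * Y) ((d i : ℂ) * Y)
          (((a i : ℂ) * z + (b i : ℂ)) / (d i : ℂ))) (fun w hw => ?_) ?_ hz
  · have h1 := HasDerivAt.fun_sum (u := Finset.univ) fun i _ =>
      hecke_term_hasDerivAt f (A i) (a i) (b i) (d i) (ha i) (hd i) (hslash i f) (hsmul i) X Y hw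
    refine h1.congr_deriv ?_
    rw [hT f, ← Finset.sum_mul]
    congr 1
    simp [Function.comp, Finset.sum_apply]
  · exact IsFastDecay.sum _ fun i _ => hecke_term_isFastDecay n f (a i) (b i) (d i) (ha i) (hd i) X Y


theorem entries_of_rel {α α' : GL (Fin 2) ℝ} {γ g' : SL(2, ℤ)} {a b d a' b' d' : ℕ}
    (hα : (α : Matrix (Fin 2) (Fin 2) ℝ) = !![(a : ℝ), (b : ℝ); 0, (d : ℝ)])
    (hα' : (α' : Matrix (Fin 2) (Fin 2) ℝ) = !![(a' : ℝ), (b' : ℝ); 0, (d' : ℝ)])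
    (hrel : α * Matrix.SpecialLinearGroup.mapGL ℝ γ = Matrix.SpecialLinearGroup.mapGL ℝ g' * α') :
    ((a : ℤ) * γ 0 0 + b * γ 1 0 = g' 0 0 * a') ∧
    ((a : ℤ) * γ 0 1 + b * γ 1 1 = g' 0 0 * b' + g' 0 1 * d') ∧
    ((d : ℤ) * γ 1 0 = g' 1 0 * a') ∧
    ((d : ℤ) * γ 1 1 = g' 1 0 * b' + g' 1 1 * d') := by
  have h := congrArg (fun M : GL (Fin 2) ℝ => (M : Matrix (Fin 2) (Fin 2) ℝ)) hrel
  simp only [Matrix.GeneralLinearGroup.coe_mul, hα, hα'] at h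
  have h00 := congrFun (congrFun h 0) 0
  have h01 := congrFun (congrFun h 0) 1
  have h10 := congrFun (congrFun h 1) 0
  have h11 := congrFun (congrFun h 1) 1
  simp [Matrix.mul_apply, Fin.sum_univ_two] at h00 h01 h10 h11
  refine ⟨?_, ?_, ?_, ?_⟩
  · exact_mod_cast h00
  · exact_mod_cast h01
  · exact_mod_cast h10
  · exact_mod_cast h11

/-- The key identity: the period of `T f` is a sum of periods of `f`. -/
theorem rho_hecke {N : ℕ} {k : ℤ} {n : ℕ} (hk : k = (n : ℤ) + 2) {ι : Type} [Fintype ι]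
    (A : ι → GL (Fin 2) ℝ) (a b d : ι → ℕ) (ha : ∀ i, 0 < a i) (hd : ∀ i, 0 < d i)
    (hA : ∀ i, ((A i : GL (Fin 2) ℝ) : Matrix (Fin 2) (Fin 2) ℝ)
      = !![(a i : ℝ), (b i : ℝ); 0, (d i : ℝ)])
    (hslash : ∀ (i : ι) (f : ℍ → ℂ) (τ : ℍ),
      (f ∣[k] A i) τ = ((a i : ℂ) ^ (n + 1) / (d i : ℂ)) * f (A i • τ))
    (hsmul : ∀ (i : ι) (τ : ℍ), ((A i • τ : ℍ) : ℂ) = ((a i : ℂ) * τ + (b i : ℂ)) / (d i : ℂ))
    (T : CuspForm (CongruenceSubgroup.Gamma0 N) k →ₗ[ℂ] CuspForm (CongruenceSubgroup.Gamma0 N) k)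
    (hT : ∀ f : CuspForm (CongruenceSubgroup.Gamma0 N) k, ⇑(T f) = ∑ i, ⇑f ∣[k] A i)
    (γ : SL(2, ℤ)) (σ : Equiv.Perm ι) (g' : ι → SL(2, ℤ))
    (hg' : ∀ i, g' i ∈ CongruenceSubgroup.Gamma0 N)
    (hrel : ∀ i, A i * Matrix.SpecialLinearGroup.mapGL ℝ γ
      = Matrix.SpecialLinearGroup.mapGL ℝ (g' i) * A (σ i))
    (f : CuspForm (CongruenceSubgroup.Gamma0 N) k) (X Y : ℂ) :
    rho (T f) n γ X Y
      = ∑ i, rho f n (g' i) ((a (σ i) : ℂ) * X + (b (σ i) : ℂ) * Y) ((d (σ i) : ℂ) * Y) := by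
  have hPT := fun (X Y : ℂ) (z : ℂ) (hz : 0 < z.im) =>
    Phi_hecke A a b d ha hd hslash hsmul T hT f X Y hz
  have hL : rho (T f) n γ X Y = Phi (⇑(T f) ∘ ofComplex) n (vx γ X Y) (vy γ X Y) (mob γ Complex.I)
      - Phi (⇑(T f) ∘ ofComplex) n X Y Complex.I := rfl
  rw [hL, hPT _ _ _ (mob_im_pos γ I_im_pos), hPT _ _ _ I_im_pos]
  -- the point `z' i = (a (σ i) * I + b (σ i)) / d (σ i)`
  have hz' : ∀ i, 0 < (((a i : ℂ) * Complex.I + (b i : ℂ)) / (d i : ℂ)).im := by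
    intro i
    have h1 := affine_im_pos (a i : ℝ) (b i : ℝ) (d i : ℝ) (by exact_mod_cast ha i)
      (by exact_mod_cast hd i) I_im_pos
    simpa only [Complex.ofReal_natCast] using h1
  have hterm : ∀ i,
      Phi (⇑f ∘ ofComplex) n ((a i : ℂ) * vx γ X Y + (b i : ℂ) * vy γ X Y) ((d i : ℂ) * vy γ X Y)
          (((a i : ℂ) * mob γ Complex.I + (b i : ℂ)) / (d i : ℂ))
        = Phi (⇑f ∘ ofComplex) n ((a (σ i) : ℂ) * X + (b (σ i) : ℂ) * Y) ((d (σ i) : ℂ) * Y)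
            (((a (σ i) : ℂ) * Complex.I + (b (σ i) : ℂ)) / (d (σ i) : ℂ))
          + rho f n (g' i) ((a (σ i) : ℂ) * X + (b (σ i) : ℂ) * Y) ((d (σ i) : ℂ) * Y) := by
    intro i
    obtain ⟨e1, e2, e3, e4⟩ := entries_of_rel (hA i) (hA (σ i)) (hrel i)
    have e1' := congrArg (Int.cast : ℤ → ℂ) e1
    have e2' := congrArg (Int.cast : ℤ → ℂ) e2
    have e3' := congrArg (Int.cast : ℤ → ℂ) e3
    have e4' := congrArg (Int.cast : ℤ → ℂ) e4
    push_cast at e1' e2' e3' e4'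
    have hV1 : (a i : ℂ) * vx γ X Y + (b i : ℂ) * vy γ X Y
        = vx (g' i) ((a (σ i) : ℂ) * X + (b (σ i) : ℂ) * Y) ((d (σ i) : ℂ) * Y) := by
      simp only [vx, vy]
      linear_combination X * e1' + Y * e2'
    have hV2 : (d i : ℂ) * vy γ X Y
        = vy (g' i) ((a (σ i) : ℂ) * X + (b (σ i) : ℂ) * Y) ((d (σ i) : ℂ) * Y) := by
      simp only [vy]
      linear_combination X * e3' + Y * e4'
    have hZ : ((a i : ℂ) * mob γ Complex.I + (b i : ℂ)) / (d i : ℂ)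
        = mob (g' i) (((a (σ i) : ℂ) * Complex.I + (b (σ i) : ℂ)) / (d (σ i) : ℂ)) := by
      have h1 : (A i * Matrix.SpecialLinearGroup.mapGL ℝ γ) • UpperHalfPlane.I
          = (Matrix.SpecialLinearGroup.mapGL ℝ (g' i) * A (σ i)) • UpperHalfPlane.I := by
        rw [hrel i]
      rw [mul_smul, mul_smul] at h1
      have h2 := congrArg (fun τ : ℍ => (τ : ℂ)) h1
      simp only [hsmul] at h2
      have h3 : ((Matrix.SpecialLinearGroup.mapGL ℝ γ • UpperHalfPlane.I : ℍ) : ℂ)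
          = mob γ Complex.I := coe_smul_I γ
      have h4 : ((Matrix.SpecialLinearGroup.mapGL ℝ (g' i) • (A (σ i) • UpperHalfPlane.I) : ℍ) : ℂ)
          = mob (g' i) ((A (σ i) • UpperHalfPlane.I : ℍ) : ℂ) :=
        coe_smul_eq_mob (g' i) (A (σ i) • UpperHalfPlane.I)
      rw [h3, h4, hsmul] at h2
      exact h2
    rw [hV1, hV2, hZ]
    exact Phi_mob hk f (hg' i) _ _ (hz' (σ i))
  rw [Finset.sum_congr rfl fun i _ => hterm i, Finset.sum_add_distrib]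
  have hperm : ∑ i, Phi (⇑f ∘ ofComplex) n ((a (σ i) : ℂ) * X + (b (σ i) : ℂ) * Y)
        ((d (σ i) : ℂ) * Y) (((a (σ i) : ℂ) * Complex.I + (b (σ i) : ℂ)) / (d (σ i) : ℂ))
      = ∑ i, Phi (⇑f ∘ ofComplex) n ((a i : ℂ) * X + (b i : ℂ) * Y)
        ((d i : ℂ) * Y) (((a i : ℂ) * Complex.I + (b i : ℂ)) / (d i : ℂ)) :=
    Equiv.sum_comp σ (fun i => Phi (⇑f ∘ ofComplex) n ((a i : ℂ) * X + (b i : ℂ) * Y)
        ((d i : ℂ) * Y) (((a i : ℂ) * Complex.I + (b i : ℂ)) / (d i : ℂ)))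
  rw [hperm]
  exact add_sub_cancel_left _ _


/-- Abstract Hecke stability of the period lattice. -/
theorem comp_mem_periodLattice {N : ℕ} {k : ℤ} {n : ℕ} (hk : k = (n : ℤ) + 2) {ι : Type}
    [Fintype ι] (A : ι → GL (Fin 2) ℝ) (a b d : ι → ℕ) (ha : ∀ i, 0 < a i) (hd : ∀ i, 0 < d i)
    (hA : ∀ i, ((A i : GL (Fin 2) ℝ) : Matrix (Fin 2) (Fin 2) ℝ)
      = !![(a i : ℝ), (b i : ℝ); 0, (d i : ℝ)])
    (hslash : ∀ (i : ι) (f : ℍ → ℂ) (τ : ℍ),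
      (f ∣[k] A i) τ = ((a i : ℂ) ^ (n + 1) / (d i : ℂ)) * f (A i • τ))
    (hsmul : ∀ (i : ι) (τ : ℍ), ((A i • τ : ℍ) : ℂ) = ((a i : ℂ) * τ + (b i : ℂ)) / (d i : ℂ))
    (T : CuspForm (CongruenceSubgroup.Gamma0 N) k →ₗ[ℂ] CuspForm (CongruenceSubgroup.Gamma0 N) k)
    (hT : ∀ f : CuspForm (CongruenceSubgroup.Gamma0 N) k, ⇑(T f) = ∑ i, ⇑f ∣[k] A i)
    (hperm : ∀ γ ∈ CongruenceSubgroup.Gamma0 N, ∃ σ : Equiv.Perm ι, ∀ i,
      ∃ g' ∈ CongruenceSubgroup.Gamma0 N, A i * Matrix.SpecialLinearGroup.mapGL ℝ γ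
        = Matrix.SpecialLinearGroup.mapGL ℝ g' * A (σ i))
    {φ : CuspForm (CongruenceSubgroup.Gamma0 N) k →ₗ[ℂ] ℂ} (hφ : φ ∈ periodLattice N k n) :
    φ ∘ₗ T ∈ periodLattice N k n := by
  unfold periodLattice at hφ
  induction hφ using Submodule.span_induction with
  | mem φ h =>
    obtain ⟨γ, hγ, X, Y, rfl⟩ := h
    obtain ⟨σ, hσ⟩ := hperm γ hγ
    choose g' hg' hrel using hσ
    have e : rhoL N k n γ X Y ∘ₗ T
        = ∑ i, rhoL N k n (g' i) (((a (σ i) : ℤ) * X + (b (σ i) : ℤ) * Y : ℤ) : ℂ)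
            ((((d (σ i) : ℤ) * Y : ℤ)) : ℂ) := by
      refine LinearMap.ext fun f => ?_
      simp only [LinearMap.comp_apply, rhoL_apply, LinearMap.sum_apply]
      rw [rho_hecke hk A a b d ha hd hA hslash hsmul T hT γ σ g' hg' hrel f]
      push_cast
      rfl
    rw [e]
    exact Submodule.sum_mem _ fun i _ => rhoL_mem_periodLattice N k n (hg' i) _ _
  | zero => simp
  | add x y _ _ hx hy =>
    rw [LinearMap.add_comp]
    exact add_mem hx hy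
  | smul c x _ hx =>
    rw [LinearMap.smul_comp]
    exact Submodule.smul_mem _ c hx

open P2MW.S_ModularForm_heckeT_slash_eq_self_of_mem_Gamma0.ModularForm.HeckeSlashInvariance in
theorem comp_heckeTLin_mem {N : ℕ} {k : ℤ} {n : ℕ} (hk : k = (n : ℤ) + 2) {p : ℕ}
    (hp : p.Prime) (hpN : ¬ p ∣ N)
    {φ : CuspForm (CongruenceSubgroup.Gamma0 N) k →ₗ[ℂ] ℂ} (hφ : φ ∈ periodLattice N k n) :
    φ ∘ₗ CuspForm.heckeTLin k hp hpN ∈ periodLattice N k n := by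
  have : Fact p.Prime := ⟨hp⟩
  have : NeZero p := ⟨hp.ne_zero⟩
  have hp0 : p ≠ 0 := hp.ne_zero
  have hkz : k - 1 = ((n + 1 : ℕ) : ℤ) := by rw [hk]; push_cast; ring
  refine comp_mem_periodLattice hk (ι := OnePoint (ZMod p)) (heckeRep p)
    (fun x => x.elim p (fun _ => 1)) (fun x => x.elim 0 (fun j => j.val))
    (fun x => x.elim 1 (fun _ => p)) ?_ ?_ ?_ ?_ ?_ (CuspForm.heckeTLin k hp hpN) ?_ ?_ hφ
  · intro x
    induction x using OnePoint.rec with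
    | infty => exact hp.pos
    | coe j => exact one_pos
  · intro x
    induction x using OnePoint.rec with
    | infty => exact one_pos
    | coe j => exact hp.pos
  · intro x
    induction x using OnePoint.rec with
    | infty =>
      show ((ModularForm.heckeDiagMatrix p : GL (Fin 2) ℝ) : Matrix (Fin 2) (Fin 2) ℝ) = _
      rw [ModularForm.val_heckeDiagMatrix hp0]
      simp
    | coe j =>
      show ((ModularForm.heckeMatrix p j.val : GL (Fin 2) ℝ) : Matrix (Fin 2) (Fin 2) ℝ) = _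
      rw [ModularForm.val_heckeMatrix hp0]
      simp
  · intro x f τ
    induction x using OnePoint.rec with
    | infty =>
      show (f ∣[k] ModularForm.heckeDiagMatrix p) τ = _
      rw [ModularForm.slash_heckeDiagMatrix_apply k hp0, hkz, zpow_natCast]
      simp
    | coe j =>
      show (f ∣[k] ModularForm.heckeMatrix p j.val) τ = _
      rw [ModularForm.slash_heckeMatrix_apply k hp0]
      simp
  · intro x τ
    induction x using OnePoint.rec with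
    | infty =>
      show ((ModularForm.heckeDiagMatrix p • τ : ℍ) : ℂ) = _
      rw [ModularForm.coe_heckeDiagMatrix_smul hp0]
      simp
    | coe j =>
      show ((ModularForm.heckeMatrix p j.val • τ : ℍ) : ℂ) = _
      rw [ModularForm.coe_heckeMatrix_smul hp0]
      simp
  · intro f
    rw [CuspForm.coe_heckeTLin_apply, heckeT_eq_sum_onePoint]
  · intro γ hγ
    have hcN : (N : ℤ) ∣ γ 1 0 :=
      (ZMod.intCast_zmod_eq_zero_iff_dvd _ _).mp (CongruenceSubgroup.Gamma0_mem.mp hγ)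
    refine ⟨MulAction.toPerm (redMatrix p γ), fun x => ?_⟩
    obtain ⟨g', hg', hmul⟩ := heckeRep_mul hpN γ hcN x
    exact ⟨g', CongruenceSubgroup.Gamma0_mem.mpr ((ZMod.intCast_zmod_eq_zero_iff_dvd _ _).mpr hg'),
      hmul⟩

open P2MW.S_ModularForm_heckeT_slash_eq_self_of_mem_Gamma0.ModularForm.HeckeSlashInvariance in
theorem comp_heckeULin_mem {N : ℕ} [NeZero N] {k : ℤ} {n : ℕ} (hk : k = (n : ℤ) + 2) {p : ℕ}
    (hpN : p ∣ N)
    {φ : CuspForm (CongruenceSubgroup.Gamma0 N) k →ₗ[ℂ] ℂ} (hφ : φ ∈ periodLattice N k n) :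
    φ ∘ₗ CuspForm.heckeULin k hpN ∈ periodLattice N k n := by
  have hp0 : p ≠ 0 := fun h => NeZero.ne N (by simpa [h] using hpN)
  have : NeZero p := ⟨hp0⟩
  have hppos : 0 < p := Nat.pos_of_ne_zero hp0
  refine comp_mem_periodLattice hk (ι := ZMod p) (fun x => ModularForm.heckeMatrix p x.val)
    (fun _ => 1) (fun x => x.val) (fun _ => p) (fun _ => one_pos) (fun _ => hppos) ?_ ?_ ?_
    (CuspForm.heckeULin k hpN) ?_ ?_ hφ
  · intro x
    rw [ModularForm.val_heckeMatrix hp0]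
    simp
  · intro x f τ
    rw [ModularForm.slash_heckeMatrix_apply k hp0]
    simp
  · intro x τ
    rw [ModularForm.coe_heckeMatrix_smul hp0]
    simp
  · intro f
    rw [CuspForm.coe_heckeULin_apply, heckeU_eq_sum_zmod]
  · intro γ hγ
    have hcN : (N : ℤ) ∣ γ 1 0 :=
      (ZMod.intCast_zmod_eq_zero_iff_dvd _ _).mp (CongruenceSubgroup.Gamma0_mem.mp hγ)
    have hc : (p : ℤ) ∣ γ 1 0 := (Int.natCast_dvd_natCast.mpr hpN).trans hcN
    refine ⟨affinePerm γ ((ZMod.intCast_zmod_eq_zero_iff_dvd _ _).mpr hc), fun x => ?_⟩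
    obtain ⟨g', hg', hmul⟩ := heckeMatrix_mul_of_dvd γ hc x
    refine ⟨g', ?_, hmul⟩
    rw [CongruenceSubgroup.Gamma0_mem, hg']
    push_cast
    rw [CongruenceSubgroup.Gamma0_mem.mp hγ, mul_zero]

end Fermat.Agent.S22_Hecke
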