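import Mathlib
import Fermat.Agent.S22_Primitive

set_option autoImplicit false

/-!
Separation step for the Eichler integral: if the Eichler integral `z ↦ Phi g n z 1 z`
vanishes identically on the upper half plane then so does `g`.
-/

open Complex Filter Topology

namespace Fermat.Agent.S22_Tower

open Fermat.Agent.S22_Primitive

/-- A function vanishing on the upper half plane has vanishing derivative there. -/
theorem deriv_eq_zero_of_eq_zero {H : ℂ → ℂ} (hH : ∀ z : ℂ, 0 < z.im → H z = 0) {z d : ℂ}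
    (hz : 0 < z.im) (hd : HasDerivAt H d z) : d = 0 := by
  have hs : IsOpen {z : ℂ | 0 < z.im} := isOpen_lt continuous_const Complex.continuous_im
  have he : H =ᶠ[𝓝 z] fun _ => (0 : ℂ) := by
    filter_upwards [hs.mem_nhds hz] with w hw using hH w hw
  have h0 : HasDerivAt (fun _ : ℂ => (0 : ℂ)) d z := hd.congr_of_eventuallyEq he.symm
  exact h0.unique (hasDerivAt_const z 0)

/-- The derivative of the Eichler integral of order `m + 1` is `m + 1` times the Eichler
integral of order `m`. -/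
theorem eichler_hasDerivAt {h : ℝ} (hh : 0 < h) {g : ℂ → ℂ} (hg : IsCuspLike h g) (m : ℕ)
    {z : ℂ} (hz : 0 < z.im) :
    HasDerivAt (fun w => Phi g (m + 1) w 1 w) (((m : ℂ) + 1) * Phi g m z 1 z) z := by
  have h1 : HasDerivAt (fun w => Phi g (m + 1) w 1 w)
      (∑ j ∈ Finset.range (m + 1 + 1),
        ((-1 : ℂ) ^ j * ((m + 1).choose j : ℂ)) *
          (((m + 1 - j : ℕ) : ℂ) * z ^ (m + 1 - j - 1) * prim g j z
            + z ^ (m + 1 - j) * (z ^ j * g z))) z := by
    have e : (fun w => Phi g (m + 1) w 1 w) = fun w => ∑ j ∈ Finset.range (m + 1 + 1),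
        ((-1 : ℂ) ^ j * ((m + 1).choose j : ℂ)) * (w ^ (m + 1 - j) * prim g j w) := by
      funext w
      unfold Phi
      refine Finset.sum_congr rfl fun j _ => ?_
      ring
    rw [e]
    refine HasDerivAt.fun_sum fun j _ => ?_
    have hp := (hasDerivAt_pow (m + 1 - j) z).mul ((prim_spec hh hg j).1 z hz)
    exact hp.const_mul _
  refine h1.congr_deriv ?_
  have hB : ∑ j ∈ Finset.range (m + 1 + 1), ((-1 : ℂ) ^ j * ((m + 1).choose j : ℂ)) *
      (z ^ (m + 1 - j) * (z ^ j * g z)) = 0 := by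
    have h2 := add_pow (-z) z (m + 1)
    rw [neg_add_cancel, zero_pow (Nat.succ_ne_zero m)] at h2
    have h3 : ∑ j ∈ Finset.range (m + 1 + 1), ((-1 : ℂ) ^ j * ((m + 1).choose j : ℂ)) *
        (z ^ (m + 1 - j) * (z ^ j * g z)) =
        (∑ j ∈ Finset.range (m + 1 + 1), (-z) ^ j * z ^ (m + 1 - j) * ((m + 1).choose j : ℂ))
          * g z := by
      rw [Finset.sum_mul]
      refine Finset.sum_congr rfl fun j _ => ?_
      rw [neg_pow]
      ring
    rw [h3, ← h2, zero_mul]
  have hA : ∑ j ∈ Finset.range (m + 1 + 1), ((-1 : ℂ) ^ j * ((m + 1).choose j : ℂ)) *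
      (((m + 1 - j : ℕ) : ℂ) * z ^ (m + 1 - j - 1) * prim g j z) =
      ((m : ℂ) + 1) * Phi g m z 1 z := by
    rw [Finset.sum_range_succ, Nat.sub_self, Nat.cast_zero, zero_mul, zero_mul, mul_zero,
      add_zero]
    unfold Phi
    rw [Finset.mul_sum]
    refine Finset.sum_congr rfl fun j hj => ?_
    have hjm : j ≤ m := Nat.lt_succ_iff.mp (Finset.mem_range.mp hj)
    have hc : ((m + 1).choose j : ℂ) * ((m + 1 - j : ℕ) : ℂ) = (m.choose j : ℂ) * ((m : ℂ) + 1) := by
      have h4 := Nat.choose_mul_succ_eq m j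
      have h5 : ((m.choose j * (m + 1) : ℕ) : ℂ) = (((m + 1).choose j * (m + 1 - j) : ℕ) : ℂ) := by
        rw [h4]
      rw [Nat.cast_mul, Nat.cast_mul, Nat.cast_succ] at h5
      exact h5.symm
    rw [show m + 1 - j - 1 = m - j by omega]
    linear_combination ((-1 : ℂ) ^ j * z ^ (m - j) * prim g j z) * hc
  have hsplit : (∑ j ∈ Finset.range (m + 1 + 1),
        ((-1 : ℂ) ^ j * ((m + 1).choose j : ℂ)) *
          (((m + 1 - j : ℕ) : ℂ) * z ^ (m + 1 - j - 1) * prim g j z
            + z ^ (m + 1 - j) * (z ^ j * g z))) =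
      (∑ j ∈ Finset.range (m + 1 + 1), ((-1 : ℂ) ^ j * ((m + 1).choose j : ℂ)) *
        (((m + 1 - j : ℕ) : ℂ) * z ^ (m + 1 - j - 1) * prim g j z)) +
      ∑ j ∈ Finset.range (m + 1 + 1), ((-1 : ℂ) ^ j * ((m + 1).choose j : ℂ)) *
        (z ^ (m + 1 - j) * (z ^ j * g z)) := by
    rw [← Finset.sum_add_distrib]
    exact Finset.sum_congr rfl fun j _ => by ring
  rw [hsplit, hA, hB, add_zero]

theorem eichler_eq_zero_of_succ {h : ℝ} (hh : 0 < h) {g : ℂ → ℂ} (hg : IsCuspLike h g) (m : ℕ)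
    (hE : ∀ z : ℂ, 0 < z.im → Phi g (m + 1) z 1 z = 0) :
    ∀ z : ℂ, 0 < z.im → Phi g m z 1 z = 0 := by
  intro z hz
  have h1 := deriv_eq_zero_of_eq_zero (H := fun w => Phi g (m + 1) w 1 w) hE hz
    (eichler_hasDerivAt hh hg m hz)
  have h2 : ((m : ℂ) + 1) ≠ 0 := Nat.cast_add_one_ne_zero m
  exact (mul_eq_zero.mp h1).resolve_left h2

/-- If the Eichler integral of order `n` vanishes identically then `g` vanishes. -/
theorem eq_zero_of_eichler_eq_zero {h : ℝ} (hh : 0 < h) {g : ℂ → ℂ} (hg : IsCuspLike h g) (n : ℕ)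
    (hE : ∀ z : ℂ, 0 < z.im → Phi g n z 1 z = 0) : ∀ z : ℂ, 0 < z.im → g z = 0 := by
  induction n with
  | zero =>
    intro z hz
    have h0 : ∀ w : ℂ, 0 < w.im → prim g 0 w = 0 := by
      intro w hw
      have := hE w hw
      simpa [Phi] using this
    have h1 := deriv_eq_zero_of_eq_zero h0 hz ((prim_spec hh hg 0).1 z hz)
    simpa using h1
  | succ m ih => exact ih (eichler_eq_zero_of_succ hh hg m hE)

end Fermat.Agent.S22_Tower
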