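import Mathlib
import Fermat.Prelude.Thm_ModularForm_sturm_bound_Gamma0
import Fermat.Agent.S22_Period
import Fermat.Agent.S22_Tower

set_option autoImplicit false

open Complex UpperHalfPlane
open scoped MatrixGroups ModularForm

namespace Fermat.Agent.S22_Sep

open Fermat.Agent.S22_Primitive Fermat.Agent.S22_Period

/-! ### Polynomial lemmas -/

theorem polynomial_eq_zero_of_int {P : Polynomial ℂ} (h : ∀ m : ℤ, P.eval (m : ℂ) = 0) :
    P = 0 := by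
  refine Polynomial.eq_zero_of_infinite_isRoot P ?_
  refine Set.Infinite.mono ?_ (Set.infinite_range_of_injective (Int.cast_injective (α := ℂ)))
  rintro _ ⟨m, rfl⟩
  exact h m

theorem eq_zero_of_forall_int {F : ℂ → ℂ → ℂ}
    (hX : ∀ Y : ℂ, ∃ P : Polynomial ℂ, ∀ X, F X Y = P.eval X)
    (hY : ∀ X : ℂ, ∃ P : Polynomial ℂ, ∀ Y, F X Y = P.eval Y)
    (h : ∀ X Y : ℤ, F X Y = 0) (X Y : ℂ) : F X Y = 0 := by
  have h1 : ∀ (X : ℂ) (Y : ℤ), F X Y = 0 := by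
    intro X Y
    obtain ⟨P, hP⟩ := hX Y
    have : P = 0 := polynomial_eq_zero_of_int fun m => by rw [← hP]; exact h m Y
    rw [hP, this]; simp
  obtain ⟨P, hP⟩ := hY X
  have : P = 0 := polynomial_eq_zero_of_int fun m => by rw [← hP]; exact h1 X m
  rw [hP, this]; simp

theorem Phi_poly (g : ℂ → ℂ) (n : ℕ) (a b c d w : ℂ) :
    ∃ P : Polynomial ℂ, ∀ t, Phi g n (a * t + b) (c * t + d) w = P.eval t := by
  refine ⟨∑ j ∈ Finset.range (n + 1),
    ((-(Polynomial.C c * Polynomial.X + Polynomial.C d)) ^ j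
      * (Polynomial.C a * Polynomial.X + Polynomial.C b) ^ (n - j)
      * Polynomial.C (n.choose j : ℂ)) * Polynomial.C (prim g j w), fun t => ?_⟩
  simp [Phi, Polynomial.eval_finsetSum]

theorem polynomial_eq_zero_of_isFastDecay (P : Polynomial ℂ) {H : ℂ → ℂ} (hH : IsFastDecay H)
    (h : ∀ z : ℂ, 0 < z.im → P.eval z = H z) : P = 0 := by
  by_contra hP
  have hdeg : 0 < (Polynomial.X * P).degree := by
    rw [Polynomial.degree_mul, Polynomial.degree_X]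
    have h0 : 0 ≤ P.degree := Polynomial.zero_le_degree_iff.mpr hP
    calc (0 : WithBot ℕ) < 1 := by decide
      _ = 1 + 0 := by simp
      _ ≤ 1 + P.degree := by gcongr
  have hz : Filter.Tendsto (fun t : ℝ => ‖(t : ℂ) * Complex.I‖) Filter.atTop Filter.atTop := by
    have : (fun t : ℝ => ‖(t : ℂ) * Complex.I‖) = fun t : ℝ => |t| := by
      funext t
      simp
    rw [this]
    exact Filter.tendsto_abs_atTop_atTop
  have ht := Polynomial.tendsto_norm_atTop (Polynomial.X * P) hdeg hz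
  obtain ⟨A, hA⟩ := hH 1 0 1 one_pos
  have hev := (ht.eventually (Filter.eventually_gt_atTop (1 : ℝ))).and
    (Filter.eventually_ge_atTop (max A 1))
  obtain ⟨t, ht1, ht2⟩ := hev.exists
  have htpos : 0 < ((t : ℂ) * Complex.I).im := by
    simp
    exact lt_of_lt_of_le one_pos (le_trans (le_max_right _ _) ht2)
  have e := hA ((t : ℂ) * Complex.I) (by simp) (by simpa using le_trans (le_max_left _ _) ht2)
  rw [← h _ htpos] at e
  simp only [Polynomial.eval_mul, Polynomial.eval_X, pow_one] at ht1 e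
  linarith

theorem polynomial_const_of_periodic (P : Polynomial ℂ) {M : ℝ} (hM : 0 < M)
    (h : ∀ z : ℂ, 0 < z.im → P.eval (z + M) = P.eval z) (z : ℂ) :
    P.eval z = P.eval Complex.I := by
  have h1 : ∀ j : ℕ, P.eval (Complex.I + (j : ℂ) * M) = P.eval Complex.I := by
    intro j
    induction j with
    | zero => simp
    | succ j ih =>
      have := h (Complex.I + (j : ℂ) * M) (by simp)
      rw [← ih, ← this]
      congr 1
      push_cast
      ring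
  have h2 : P - Polynomial.C (P.eval Complex.I) = 0 := by
    refine Polynomial.eq_zero_of_infinite_isRoot _ ?_
    have hinj : Function.Injective (fun j : ℕ => Complex.I + (j : ℂ) * (M : ℂ)) := by
      intro i j hij
      have hM' : (M : ℂ) ≠ 0 := by exact_mod_cast hM.ne'
      have : (i : ℂ) * (M : ℂ) = (j : ℂ) * (M : ℂ) := add_left_cancel hij
      exact_mod_cast mul_right_cancel₀ hM' this
    refine Set.Infinite.mono ?_ (Set.infinite_range_of_injective hinj)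
    rintro _ ⟨j, rfl⟩
    simp [Polynomial.IsRoot, h1 j]
  have h3 := congrArg (Polynomial.eval z) h2
  simpa [sub_eq_zero] using h3

/-! ### The Eichler integral -/

/-- The Eichler integral of `g`: the value at `(X, Y) = (z, 1)` of the polynomial primitive. -/
noncomputable def Eich (g : ℂ → ℂ) (n : ℕ) (z : ℂ) : ℂ := Phi g n z 1 z

theorem Eich_differentiableAt {h : ℝ} (hh : 0 < h) {g : ℂ → ℂ} (hg : IsCuspLike h g) (n : ℕ)
    {z : ℂ} (hz : 0 < z.im) : DifferentiableAt ℂ (Eich g n) z := by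
  unfold Eich Phi
  refine DifferentiableAt.fun_sum fun j _ => ?_
  exact (((differentiableAt_const _).mul (differentiableAt_id.pow _)).mul
    (differentiableAt_const _)).mul ((prim_spec hh hg j).1 z hz).differentiableAt

theorem Eich_isFastDecay {h : ℝ} (hh : 0 < h) {g : ℂ → ℂ} (hg : IsCuspLike h g) (n : ℕ) :
    IsFastDecay (Eich g n) := by
  have h1 : IsFastDecay (fun z => ∑ j ∈ Finset.range (n + 1),
      ((-1 : ℂ) ^ j * (n.choose j : ℂ)) * (z ^ (n - j) * prim g j z)) :=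
    IsFastDecay.sum _ fun j _ => (((prim_spec hh hg j).2).pow_mul (n - j)).const_mul _
  refine h1.congr fun z _ => ?_
  unfold Eich Phi
  refine Finset.sum_congr rfl fun j _ => ?_
  ring

theorem rho_eq_zero_of_int (f : ℍ → ℂ) (n : ℕ) (γ : SL(2, ℤ))
    (h : ∀ X Y : ℤ, rho f n γ X Y = 0) (X Y : ℂ) : rho f n γ X Y = 0 := by
  refine eq_zero_of_forall_int (F := fun X Y => rho f n γ X Y) (fun Y => ?_) (fun X => ?_) h X Y
  · obtain ⟨P₁, hP₁⟩ := Phi_poly (f ∘ ofComplex) n (γ 0 0 : ℤ) ((γ 0 1 : ℤ) * Y) (γ 1 0 : ℤ)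
      ((γ 1 1 : ℤ) * Y) (mob γ Complex.I)
    obtain ⟨P₂, hP₂⟩ := Phi_poly (f ∘ ofComplex) n 1 0 0 Y Complex.I
    refine ⟨P₁ - P₂, fun X => ?_⟩
    rw [Polynomial.eval_sub, ← hP₁, ← hP₂]
    simp [rho, vx, vy]
  · obtain ⟨P₁, hP₁⟩ := Phi_poly (f ∘ ofComplex) n (γ 0 1 : ℤ) ((γ 0 0 : ℤ) * X) (γ 1 1 : ℤ)
      ((γ 1 0 : ℤ) * X) (mob γ Complex.I)
    obtain ⟨P₂, hP₂⟩ := Phi_poly (f ∘ ofComplex) n 0 X 1 0 Complex.I
    refine ⟨P₁ - P₂, fun Y => ?_⟩
    rw [Polynomial.eval_sub, ← hP₁, ← hP₂]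
    simp [rho, vx, vy, add_comm]

theorem kappa_poly (f : ℍ → ℂ) (k : ℤ) (n : ℕ) (δ : SL(2, ℤ)) :
    ∃ P : Polynomial ℂ, ∀ z, kappa f k n δ z 1 = P.eval z := by
  obtain ⟨P₁, hP₁⟩ := Phi_poly (f ∘ ofComplex) n (δ 0 0 : ℤ) (δ 0 1 : ℤ) (δ 1 0 : ℤ) (δ 1 1 : ℤ)
    (mob δ Complex.I)
  obtain ⟨P₂, hP₂⟩ := Phi_poly ((f ∣[k] δ) ∘ ofComplex) n 1 0 0 1 Complex.I
  refine ⟨P₁ - P₂, fun z => ?_⟩
  rw [Polynomial.eval_sub, ← hP₁, ← hP₂]
  simp [kappa, vx, vy]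

theorem denom_mul_mob (δ : SL(2, ℤ)) {z : ℂ} (hz : 0 < z.im) :
    (((δ 1 0 : ℤ) : ℂ) * z + ((δ 1 1 : ℤ) : ℂ)) * mob δ z = vx δ z 1 := by
  have hd := denom_ne_zero δ hz
  unfold mob vx
  rw [mul_div_cancel₀ _ hd]
  ring

theorem Eich_mob_slash {N : ℕ} [NeZero N] {k : ℤ} {n : ℕ} (hk : k = (n : ℤ) + 2)
    (f : CuspForm (CongruenceSubgroup.Gamma0 N) k) (δ : SL(2, ℤ)) {z : ℂ} (hz : 0 < z.im) :
    (((δ 1 0 : ℤ) : ℂ) * z + ((δ 1 1 : ℤ) : ℂ)) ^ n * Eich (⇑f ∘ ofComplex) n (mob δ z)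
      = Eich ((⇑f ∣[k] δ) ∘ ofComplex) n z + kappa f k n δ z 1 := by
  have h1 := Phi_mob_slash hk f δ z 1 hz
  have h2 := Phi_smul_vec (⇑f ∘ ofComplex) n (((δ 1 0 : ℤ) : ℂ) * z + ((δ 1 1 : ℤ) : ℂ))
    (mob δ z) 1 (mob δ z)
  have e2 : (((δ 1 0 : ℤ) : ℂ) * z + ((δ 1 1 : ℤ) : ℂ)) * 1 = vy δ z 1 := by
    unfold vy; ring
  rw [denom_mul_mob δ hz, e2] at h2
  unfold Eich
  rw [← h2, h1]

theorem Eich_mob {N : ℕ} {k : ℤ} {n : ℕ} (hk : k = (n : ℤ) + 2)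
    (f : CuspForm (CongruenceSubgroup.Gamma0 N) k) {γ : SL(2, ℤ)}
    (hγ : γ ∈ CongruenceSubgroup.Gamma0 N) (hρ : ∀ X Y : ℂ, rho f n γ X Y = 0) {z : ℂ}
    (hz : 0 < z.im) :
    (((γ 1 0 : ℤ) : ℂ) * z + ((γ 1 1 : ℤ) : ℂ)) ^ n * Eich (⇑f ∘ ofComplex) n (mob γ z)
      = Eich (⇑f ∘ ofComplex) n z := by
  have h1 := Phi_mob hk f hγ z 1 hz
  have h2 := Phi_smul_vec (⇑f ∘ ofComplex) n (((γ 1 0 : ℤ) : ℂ) * z + ((γ 1 1 : ℤ) : ℂ))
    (mob γ z) 1 (mob γ z)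
  have e2 : (((γ 1 0 : ℤ) : ℂ) * z + ((γ 1 1 : ℤ) : ℂ)) * 1 = vy γ z 1 := by
    unfold vy; ring
  rw [denom_mul_mob γ hz, e2] at h2
  unfold Eich
  rw [← h2, h1, hρ, add_zero]

/-! ### The Eichler integral as a modular form of weight `-n` -/

/-- The Eichler integral as a function on the upper half plane. -/
noncomputable def EichH (g : ℂ → ℂ) (n : ℕ) (τ : ℍ) : ℂ := Eich g n (τ : ℂ)

theorem EichH_slash (g : ℂ → ℂ) (n : ℕ) (δ : SL(2, ℤ)) (τ : ℍ) :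
    (EichH g n ∣[(-(n : ℤ))] δ) τ
      = (((δ 1 0 : ℤ) : ℂ) * τ + ((δ 1 1 : ℤ) : ℂ)) ^ n * Eich g n (mob δ τ) := by
  rw [ModularForm.SL_slash_apply]
  unfold EichH
  rw [coe_smul_eq_mob, neg_neg, zpow_natCast, mul_comm]
  congr 2

theorem EichH_slash_comp {N : ℕ} [NeZero N] {k : ℤ} {n : ℕ} (hk : k = (n : ℤ) + 2)
    (f : CuspForm (CongruenceSubgroup.Gamma0 N) k) (δ : SL(2, ℤ)) {z : ℂ} (hz : 0 < z.im) :
    ((EichH (⇑f ∘ ofComplex) n ∣[(-(n : ℤ))] δ) ∘ ofComplex) z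
      = Eich ((⇑f ∣[k] δ) ∘ ofComplex) n z + kappa f k n δ z 1 := by
  rw [comp_ofComplex_apply _ hz, EichH_slash]
  exact Eich_mob_slash hk f δ hz

theorem EichH_slash_Gamma0 {N : ℕ} {k : ℤ} {n : ℕ} (hk : k = (n : ℤ) + 2)
    (f : CuspForm (CongruenceSubgroup.Gamma0 N) k)
    (hρ : ∀ γ ∈ CongruenceSubgroup.Gamma0 N, ∀ X Y : ℂ, rho f n γ X Y = 0)
    {γ : SL(2, ℤ)} (hγ : γ ∈ CongruenceSubgroup.Gamma0 N) :
    EichH (⇑f ∘ ofComplex) n ∣[(-(n : ℤ))] γ = EichH (⇑f ∘ ofComplex) n := by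
  funext τ
  rw [EichH_slash]
  exact Eich_mob hk f hγ (hρ γ hγ) τ.im_pos

/-- The Eichler integral as a slash invariant form. -/
noncomputable def EichSIF {N : ℕ} {k : ℤ} {n : ℕ} (hk : k = (n : ℤ) + 2)
    (f : CuspForm (CongruenceSubgroup.Gamma0 N) k)
    (hρ : ∀ γ ∈ CongruenceSubgroup.Gamma0 N, ∀ X Y : ℂ, rho f n γ X Y = 0) :
    SlashInvariantForm (CongruenceSubgroup.Gamma0 N : Subgroup (GL (Fin 2) ℝ)) (-(n : ℤ)) where
  toFun := EichH (⇑f ∘ ofComplex) n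
  slash_action_eq' := by
    rintro _ ⟨γ, hγ, rfl⟩
    exact EichH_slash_Gamma0 hk f hρ hγ

theorem EichH_slash_periodic {N : ℕ} [NeZero N] {k : ℤ} {n : ℕ} (hk : k = (n : ℤ) + 2)
    (f : CuspForm (CongruenceSubgroup.Gamma0 N) k)
    (hρ : ∀ γ ∈ CongruenceSubgroup.Gamma0 N, ∀ X Y : ℂ, rho f n γ X Y = 0) :
    ∃ M : ℕ, 0 < M ∧ ∀ δ : SL(2, ℤ),
      Function.Periodic ((EichH (⇑f ∘ ofComplex) n ∣[(-(n : ℤ))] δ) ∘ ofComplex)
        (((M : ℝ) : ℂ)) := by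
  obtain ⟨M, hM, hconj⟩ := Subgroup.IsArithmetic.exists_nat_mem_strictPeriods_conj
    (CongruenceSubgroup.Gamma0 N : Subgroup (GL (Fin 2) ℝ))
  refine ⟨M, hM, fun δ => ?_⟩
  have h1 := hconj δ⁻¹
  rw [map_inv] at h1
  exact SlashInvariantFormClass.periodic_comp_ofComplex
    (SlashInvariantForm.translate (EichSIF hk f hρ) (Matrix.SpecialLinearGroup.mapGL ℝ δ)) h1

theorem strip_bound {F G : ℂ → ℂ} {M : ℝ} (hM : 0 < M) (hper : Function.Periodic F (M : ℂ))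
    (hG : IsFastDecay G) (c : ℂ) (hFG : ∀ z : ℂ, 0 < z.im → F z = G z + c) {ε : ℝ}
    (hε : 0 < ε) : ∃ A : ℝ, ∀ z : ℂ, 0 < z.im → A ≤ z.im → ‖F z - c‖ ≤ ε := by
  obtain ⟨A, hA⟩ := hG 0 M ε hε
  refine ⟨A, fun w hw hAw => ?_⟩
  set j : ℤ := ⌊w.re / M⌋ with hj
  set z : ℂ := w - j * (M : ℂ) with hz
  have hzim : z.im = w.im := by simp [hz]
  have hzre : |z.re| ≤ M := by
    have e : z.re = w.re - j * M := by simp [hz]
    rw [e, abs_le]
    have h1 := Int.floor_le (w.re / M)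
    have h2 := Int.lt_floor_add_one (w.re / M)
    rw [← hj] at h1 h2
    rw [le_div_iff₀ hM] at h1
    rw [div_lt_iff₀ hM] at h2
    constructor <;> nlinarith
  have e1 : F z = F w := hper.sub_int_mul_eq j
  rw [← e1, hFG z (by rw [hzim]; exact hw), add_sub_cancel_right]
  have e3 := hA z hzre (by rw [hzim]; exact hAw)
  simpa using e3

theorem EichH_slash_isBoundedAtImInfty {N : ℕ} [NeZero N] {k : ℤ} {n : ℕ}
    (hk : k = (n : ℤ) + 2) (f : CuspForm (CongruenceSubgroup.Gamma0 N) k)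
    (hρ : ∀ γ ∈ CongruenceSubgroup.Gamma0 N, ∀ X Y : ℂ, rho f n γ X Y = 0) (δ : SL(2, ℤ)) :
    IsBoundedAtImInfty (EichH (⇑f ∘ ofComplex) n ∣[(-(n : ℤ))] δ) := by
  obtain ⟨M, hM, hper⟩ := EichH_slash_periodic hk f hρ
  have hM' : (0 : ℝ) < (M : ℝ) := by exact_mod_cast hM
  obtain ⟨M₂, hM₂, hcusp⟩ := exists_period_slash N
  have hM₂' : (0 : ℝ) < (M₂ : ℝ) := by exact_mod_cast hM₂
  have hdec : IsFastDecay (Eich ((⇑f ∣[k] δ) ∘ ofComplex) n) :=
    Eich_isFastDecay hM₂' (hcusp k f δ) n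
  obtain ⟨P, hP⟩ := kappa_poly (⇑f) k n δ
  set F := (EichH (⇑f ∘ ofComplex) n ∣[(-(n : ℤ))] δ) ∘ ofComplex with hF
  have hFz : ∀ z : ℂ, 0 < z.im → F z = Eich ((⇑f ∣[k] δ) ∘ ofComplex) n z + P.eval z := by
    intro z hz
    rw [hF, EichH_slash_comp hk f δ hz, hP]
  have hPper : ∀ z : ℂ, 0 < z.im → P.eval (z + ((M : ℝ) : ℂ)) = P.eval z := by
    have hQ : P.comp (Polynomial.X + Polynomial.C (((M : ℝ) : ℂ))) - P = 0 := by
      refine polynomial_eq_zero_of_isFastDecay _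
        (H := fun z => Eich ((⇑f ∣[k] δ) ∘ ofComplex) n z
          - Eich ((⇑f ∣[k] δ) ∘ ofComplex) n (z + ((M : ℝ) : ℂ))) ?_ ?_
      · refine hdec.sub ?_
        have := hdec.comp_affine 1 M 1 one_pos one_pos
        refine this.congr fun z _ => ?_
        simp
      · intro z hz
        have hz' : 0 < (z + ((M : ℝ) : ℂ)).im := by simpa using hz
        have e1 := hFz z hz
        have e2 := hFz (z + ((M : ℝ) : ℂ)) hz'
        have e3 : F (z + ((M : ℝ) : ℂ)) = F z := hper δ z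
        simp only [Polynomial.eval_sub, Polynomial.eval_comp, Polynomial.eval_add,
          Polynomial.eval_X, Polynomial.eval_C]
        linear_combination e1 - e2 + e3
    intro z _
    have := congrArg (Polynomial.eval z) hQ
    simpa [sub_eq_zero] using this
  have hconst := polynomial_const_of_periodic P hM' hPper
  obtain ⟨A, hA⟩ := strip_bound hM' (hper δ) hdec (P.eval Complex.I)
    (fun z hz => (hFz z hz).trans (by rw [hconst z])) one_pos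
  rw [isBoundedAtImInfty_iff]
  refine ⟨1 + ‖P.eval Complex.I‖, A, fun τ hτ => ?_⟩
  have e2 : F τ = (EichH (⇑f ∘ ofComplex) n ∣[(-(n : ℤ))] δ) τ := by
    rw [hF]; simp
  have e3 := hA τ τ.im_pos hτ
  rw [← e2]
  calc ‖F τ‖ = ‖(F τ - P.eval Complex.I) + P.eval Complex.I‖ := by rw [sub_add_cancel]
    _ ≤ ‖F τ - P.eval Complex.I‖ + ‖P.eval Complex.I‖ := norm_add_le _ _
    _ ≤ 1 + ‖P.eval Complex.I‖ := by gcongr

/-- The Eichler integral as a modular form of weight `-n`. -/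
noncomputable def EichMF {N : ℕ} [NeZero N] {k : ℤ} {n : ℕ} (hk : k = (n : ℤ) + 2)
    (f : CuspForm (CongruenceSubgroup.Gamma0 N) k)
    (hρ : ∀ γ ∈ CongruenceSubgroup.Gamma0 N, ∀ X Y : ℂ, rho f n γ X Y = 0) :
    ModularForm (CongruenceSubgroup.Gamma0 N : Subgroup (GL (Fin 2) ℝ)) (-(n : ℤ)) where
  toSlashInvariantForm := EichSIF hk f hρ
  holo' := by
    rw [UpperHalfPlane.mdifferentiable_iff]
    intro z hz
    have hd := Eich_differentiableAt one_pos (isCuspLike_cuspForm f) n hz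
    refine (hd.congr_of_eventuallyEq ?_).differentiableWithinAt
    filter_upwards [isOpen_upperHalfPlaneSet.mem_nhds hz] with w hw
    exact comp_ofComplex_apply _ hw
  bdd_at_cusps' {c} hc := by
    rw [Subgroup.IsArithmetic.isCusp_iff_isCusp_SL2Z] at hc
    rw [OnePoint.isBoundedAt_iff_forall_SL2Z hc]
    exact fun δ _ => EichH_slash_isBoundedAtImInfty hk f hρ δ

theorem EichH_isZeroAtImInfty {N : ℕ} [NeZero N] {k : ℤ} {n : ℕ} (hk : k = (n : ℤ) + 2)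
    (f : CuspForm (CongruenceSubgroup.Gamma0 N) k)
    (hρ : ∀ γ ∈ CongruenceSubgroup.Gamma0 N, ∀ X Y : ℂ, rho f n γ X Y = 0) :
    IsZeroAtImInfty (EichH (⇑f ∘ ofComplex) n) := by
  have hper : Function.Periodic (EichH (⇑f ∘ ofComplex) n ∘ ofComplex) (((1 : ℝ) : ℂ)) :=
    SlashInvariantFormClass.periodic_comp_ofComplex (EichSIF hk f hρ)
      (CongruenceSubgroup.one_mem_strictPeriods_Gamma0 N)
  have hdec : IsFastDecay (Eich (⇑f ∘ ofComplex) n) :=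
    Eich_isFastDecay one_pos (isCuspLike_cuspForm f) n
  rw [isZeroAtImInfty_iff]
  intro ε hε
  obtain ⟨A, hA⟩ := strip_bound one_pos hper hdec 0
    (fun z hz => by rw [comp_ofComplex_apply _ hz, add_zero]; rfl) hε
  refine ⟨A, fun τ hτ => ?_⟩
  have e3 := hA τ τ.im_pos hτ
  simpa using e3

/-- A cusp form all of whose integral periods vanish is zero. -/
theorem eq_zero_of_rho_eq_zero {N : ℕ} [NeZero N] {k : ℤ} {n : ℕ} (hk : k = (n : ℤ) + 2)
    (f : CuspForm (CongruenceSubgroup.Gamma0 N) k)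
    (hρ : ∀ γ ∈ CongruenceSubgroup.Gamma0 N, ∀ X Y : ℤ, rho f n γ X Y = 0) : f = 0 := by
  have hρ' : ∀ γ ∈ CongruenceSubgroup.Gamma0 N, ∀ X Y : ℂ, rho f n γ X Y = 0 :=
    fun γ hγ => rho_eq_zero_of_int f n γ (hρ γ hγ)
  have hmf : EichMF hk f hρ' = 0 := by
    refine ModularForm.sturm_bound_Gamma0 N _ fun m hm ↦ ?_
    have hidx : (0 : ℤ) ≤ ((CongruenceSubgroup.Gamma0 N).index : ℤ) := Int.natCast_nonneg _
    have hle : (-(n : ℤ)) * ((CongruenceSubgroup.Gamma0 N).index : ℤ) ≤ 0 := by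
      have hn : (0 : ℤ) ≤ (n : ℤ) := Int.natCast_nonneg _
      nlinarith
    have hm0 : m = 0 := by
      have h0 : ((-(n : ℤ)) * ((CongruenceSubgroup.Gamma0 N).index : ℤ)).toNat = 0 :=
        Int.toNat_of_nonpos hle
      rw [h0] at hm
      simpa using hm
    subst hm0
    have hz : IsZeroAtImInfty (⇑(EichMF hk f hρ')) := EichH_isZeroAtImInfty hk f hρ'
    simp [qExpansion_coeff, hz.cuspFunction_apply_zero one_pos]
  have hE : ∀ z : ℂ, 0 < z.im → Phi (⇑f ∘ ofComplex) n z 1 z = 0 := by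
    intro z hz
    have := congrArg (fun F : ModularForm (CongruenceSubgroup.Gamma0 N) (-(n : ℤ)) =>
      (⇑F : ℍ → ℂ) ⟨z, hz⟩) hmf
    exact this
  have hg := S22_Tower.eq_zero_of_eichler_eq_zero one_pos (isCuspLike_cuspForm f) n hE
  ext τ
  have := hg τ τ.im_pos
  simpa using this

/-- The period lattice separates cusp forms. -/
theorem periodLattice_separates {N : ℕ} [NeZero N] {k : ℤ} {n : ℕ} (hk : k = (n : ℤ) + 2)
    (f : CuspForm (CongruenceSubgroup.Gamma0 N) k)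
    (h : ∀ φ ∈ periodLattice N k n, φ f = 0) : f = 0 :=
  eq_zero_of_rho_eq_zero hk f fun γ hγ X Y => by
    have := h _ (rhoL_mem_periodLattice N k n hγ X Y)
    simpa using this

end Fermat.Agent.S22_Sep
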