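-- Statement S22: the Hecke algebra of level `Γ₀(N)` and weight `k` is a finite `ℤ`-module.
import Fermat.Statements.S22
import Fermat.Agent.S22_Alg
import Fermat.Agent.S22_Hecke
import Fermat.Agent.S22_Sep

set_option autoImplicit false
open CuspForm

namespace Fermat.Agent.S22

theorem result (N : ℕ) [NeZero N] (k : ℤ) (S : Set ℕ) :
    Module.Finite ℤ (CuspForm.heckeAlgebra N k S) := by
  rcases le_or_gt k 1 with hk | hk
  · exact Fermat.Agent.S22_Alg.moduleFinite_heckeAlgebra_of_le_one N k hk S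
  · obtain ⟨n, hn⟩ : ∃ n : ℕ, k = (n : ℤ) + 2 := ⟨(k - 2).toNat, by omega⟩
    refine Fermat.Agent.S22_Alg.moduleFinite_adjoin_of_lattice (CuspForm.heckeGenerators N k S)
      (Fermat.Agent.S22_Period.periodLattice N k n)
      (Fermat.Agent.S22_Period.periodLattice_fg N hn)
      (fun f hf => Fermat.Agent.S22_Sep.periodLattice_separates hn f hf) ?_
    rintro T (⟨ℓ, hℓ, hℓN, -, rfl⟩ | ⟨q, hqN, -, -, rfl⟩) φ hφ
    · exact Fermat.Agent.S22_Hecke.comp_heckeTLin_mem hn hℓ hℓN hφ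
    · exact Fermat.Agent.S22_Hecke.comp_heckeULin_mem hn hqN hφ

end Fermat.Agent.S22
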