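import Mathlib

set_option autoImplicit false

namespace Fermat.Agent.S23_Aut

open MvPolynomial

/-- Every automorphism of a subfield of an algebraically closed field extends to the whole field
(fixing a chosen transcendence basis). -/
theorem exists_ringEquiv_extending {k K : Type*} [Field k] [Field K] [Algebra k K] [IsAlgClosed K]
    (τ : k ≃+* k) : ∃ σ : K ≃+* K, ∀ a : k, σ (algebraMap k K a) = algebraMap k K (τ a) := by
  obtain ⟨ι, v, hv⟩ := exists_isTranscendenceBasis' k K
  have := IsAlgClosed.isAlgClosure_of_transcendence_basis v hv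
  let e : Algebra.adjoin k (Set.range v) ≃+* Algebra.adjoin k (Set.range v) :=
    hv.1.aevalEquiv.symm.toRingEquiv.trans
      ((MvPolynomial.mapEquiv ι τ).trans hv.1.aevalEquiv.toRingEquiv)
  refine ⟨IsAlgClosure.equivOfEquiv K K e, fun a => ?_⟩
  have h1 : ∀ b : k, algebraMap k K b =
      algebraMap (Algebra.adjoin k (Set.range v)) K (hv.1.aevalEquiv (C b)) := by
    intro b
    rw [hv.1.algebraMap_aevalEquiv]
    simp
  rw [h1 a, IsAlgClosure.equivOfEquiv_algebraMap, h1 (τ a)]
  congr 1
  simp [e]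

/-- A transcendental element of an algebraically closed field is moved by some automorphism. -/
theorem exists_ne_of_transcendental {k K : Type*} [Field k] [Field K] [Algebra k K] [IsAlgClosed K]
    [CharZero K] (x : K) (hx : Transcendental k x) : ∃ σ : K ≃+* K, σ x ≠ x := by
  classical
  have hs : AlgebraicIndepOn k id ({x} : Set K) := by
    have : AlgebraicIndependent k (fun i : ({x} : Set K) => (i : K)) :=
      (algebraicIndependent_singleton_iff (⟨x, Set.mem_singleton x⟩ : ({x} : Set K))).mpr hx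
    exact this
  obtain ⟨t, hst, hv⟩ := exists_isTranscendenceBasis_superset hs
  have hxt : x ∈ t := hst (Set.mem_singleton x)
  have := IsAlgClosed.isAlgClosure_of_transcendence_basis _ hv
  let c : t → k := fun i => if (i : K) = x then 1 else 0
  let φ : MvPolynomial t k ≃ₐ[k] MvPolynomial t k :=
    AlgEquiv.ofAlgHom (aeval fun i => X i + C (c i)) (aeval fun i => X i - C (c i))
      (by ext i; simp) (by ext i; simp)
  let e : Algebra.adjoin k (Set.range ((↑) : t → K)) ≃+* Algebra.adjoin k (Set.range ((↑) : t → K)) :=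
    hv.1.aevalEquiv.symm.toRingEquiv.trans (φ.toRingEquiv.trans hv.1.aevalEquiv.toRingEquiv)
  refine ⟨IsAlgClosure.equivOfEquiv K K e, ?_⟩
  have h1 : x = algebraMap (Algebra.adjoin k (Set.range ((↑) : t → K))) K
      (hv.1.aevalEquiv (X ⟨x, hxt⟩)) := by
    rw [hv.1.algebraMap_aevalEquiv]
    simp
  have h2 : IsAlgClosure.equivOfEquiv K K e x = x + 1 := by
    conv_lhs => rw [h1]
    rw [IsAlgClosure.equivOfEquiv_algebraMap]
    have : e (hv.1.aevalEquiv (X ⟨x, hxt⟩)) = hv.1.aevalEquiv (X ⟨x, hxt⟩ + C 1) := by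
      simp [e, φ, c]
    rw [this, hv.1.algebraMap_aevalEquiv]
    simp
  rw [h2]
  simp

/-- An algebraic irrational element of `ℂ`-like fields is moved by some automorphism. -/
theorem exists_ne_of_isAlgebraic {K : Type*} [Field K] [IsAlgClosed K] [CharZero K]
    (x : K) (hx : IsAlgebraic ℚ x) (hxq : x ∉ Set.range (algebraMap ℚ K)) :
    ∃ σ : K ≃+* K, σ x ≠ x := by
  classical
  have hxk : x ∈ algebraicClosure ℚ K := (mem_algebraicClosure_iff).mpr hx
  have : IsAlgClosure ℚ (algebraicClosure ℚ K) := algebraicClosure.isAlgClosure ℚ K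
  have : IsAlgClosed (algebraicClosure ℚ K) := IsAlgClosure.isAlgClosed ℚ
  have : Algebra.IsAlgebraic ℚ (algebraicClosure ℚ K) := IsAlgClosure.isAlgebraic
  have : Normal ℚ (algebraicClosure ℚ K) := IsAlgClosure.normal ℚ _
  let x' : algebraicClosure ℚ K := ⟨x, hxk⟩
  have hx' : IsAlgebraic ℚ x' := Algebra.IsAlgebraic.isAlgebraic x'
  have hint : IsIntegral ℚ x' := hx'.isIntegral
  -- the minimal polynomial has degree at least two
  have hdeg : 2 ≤ (minpoly ℚ x').natDegree := by
    by_contra hlt
    have h1 : (minpoly ℚ x').natDegree = 1 := by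
      have := minpoly.natDegree_pos hint
      omega
    have h2 : x' ∈ (algebraMap ℚ (algebraicClosure ℚ K)).range := by
      have := (minpoly.natDegree_eq_one_iff (A := ℚ) (B := algebraicClosure ℚ K) (x := x')).mp h1
      simpa using this
    obtain ⟨q, hq⟩ := h2
    apply hxq
    refine ⟨q, ?_⟩
    have := congrArg (fun y : algebraicClosure ℚ K => (y : K)) hq
    simpa [x'] using this
  have hsep : (minpoly ℚ x').Separable := (minpoly.irreducible hint).separable
  have hsplit : ((minpoly ℚ x').map (algebraMap ℚ (algebraicClosure ℚ K))).Splits :=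
    IsAlgClosed.splits _
  have hcard : Fintype.card ((minpoly ℚ x').rootSet (algebraicClosure ℚ K)) = (minpoly ℚ x').natDegree :=
    Polynomial.card_rootSet_eq_natDegree hsep hsplit
  obtain ⟨y, hy, hyx⟩ : ∃ y ∈ (minpoly ℚ x').rootSet (algebraicClosure ℚ K), y ≠ x' := by
    by_contra hcon
    push Not at hcon
    have : Fintype.card ((minpoly ℚ x').rootSet (algebraicClosure ℚ K)) ≤ 1 := by
      rw [Fintype.card_le_one_iff]
      intro a b
      exact Subtype.ext ((hcon a a.2).trans (hcon b b.2).symm)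
    omega
  have hy0 : Polynomial.aeval y (minpoly ℚ x') = 0 := by
    rw [Polynomial.mem_rootSet] at hy
    exact hy.2
  obtain ⟨τ, hτ⟩ := minpoly.exists_algEquiv_of_root' hx' hy0
  obtain ⟨σ, hσ⟩ := exists_ringEquiv_extending (K := K) τ.toRingEquiv
  refine ⟨σ, ?_⟩
  have h3 : σ x = (y : K) := by
    have := hσ x'
    simpa [x', hτ] using this
  rw [h3]
  intro h
  exact hyx (Subtype.ext h)

/-- The fixed field of the automorphism group of `ℂ` is `ℚ`. -/
theorem exists_rat_of_fixed (x : ℂ) (h : ∀ σ : ℂ ≃+* ℂ, σ x = x) : ∃ q : ℚ, (q : ℂ) = x := by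
  by_contra hcon
  have hxq : x ∉ Set.range (algebraMap ℚ ℂ) := by
    rintro ⟨q, hq⟩
    exact hcon ⟨q, by simpa using hq⟩
  by_cases hx : IsAlgebraic ℚ x
  · obtain ⟨σ, hσ⟩ := exists_ne_of_isAlgebraic x hx hxq
    exact hσ (h σ)
  · obtain ⟨σ, hσ⟩ := exists_ne_of_transcendental (k := ℚ) x hx
    exact hσ (h σ)

end Fermat.Agent.S23_Aut
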