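import Mathlib
import Fermat.Agent.S23_Aut

set_option autoImplicit false

namespace Fermat.Agent.S23_Descent

/-- Galois descent in coordinates: a complex subspace of `ι → ℂ` which is stable under the
coordinatewise action of every field automorphism of `ℂ` is spanned by its vectors with
integer coordinates. -/
theorem mem_span_int {ι : Type*} [Fintype ι] (W : Submodule ℂ (ι → ℂ))
    (hW : ∀ σ : ℂ ≃+* ℂ, ∀ w ∈ W, (fun i => σ (w i)) ∈ W) (w : ι → ℂ) (hw : w ∈ W) :
    w ∈ Submodule.span ℂ {u : ι → ℂ | u ∈ W ∧ ∀ i, ∃ m : ℤ, u i = (m : ℂ)} := by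
  classical
  let supp : (ι → ℂ) → Finset ι := fun u => Finset.univ.filter fun i => u i ≠ 0
  have hsupp : ∀ (u : ι → ℂ) (i : ι), i ∈ supp u ↔ u i ≠ 0 := fun u i => by simp [supp]
  suffices H : ∀ n : ℕ, ∀ w ∈ W, (supp w).card = n →
      w ∈ Submodule.span ℂ {u : ι → ℂ | u ∈ W ∧ ∀ i, ∃ m : ℤ, u i = (m : ℂ)} from
    H _ w hw rfl
  intro n
  induction n using Nat.strong_induction_on with
  | _ n ih =>
  intro w hw hn
  by_cases hw0 : w = 0
  · subst hw0; exact Submodule.zero_mem _
  -- a nonzero vector of `W` with support inside `supp w` and minimal support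
  have hex : ∃ k, ∃ u ∈ W, u ≠ 0 ∧ supp u ⊆ supp w ∧ (supp u).card = k :=
    ⟨_, w, hw, hw0, subset_rfl, rfl⟩
  obtain ⟨u, huW, hu0, husub, hucard⟩ := Nat.find_spec hex
  have hmin : ∀ u' ∈ W, u' ≠ 0 → supp u' ⊆ supp w → (supp u).card ≤ (supp u').card := by
    intro u' hu'W hu'0 hu'sub
    rw [hucard]
    exact Nat.find_min' hex ⟨u', hu'W, hu'0, hu'sub, rfl⟩
  obtain ⟨i0, hi0⟩ : ∃ i0, u i0 ≠ 0 := by
    by_contra hcon
    push Not at hcon
    exact hu0 (funext hcon)
  let u1 : ι → ℂ := (u i0)⁻¹ • u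
  have hu1W : u1 ∈ W := W.smul_mem _ huW
  have hu1i0 : u1 i0 = 1 := by simp [u1, hi0]
  have hsupp1 : supp u1 = supp u := by
    ext i
    simp [hsupp, u1, hi0]
  -- `u1` is fixed by all automorphisms
  have hfix : ∀ σ : ℂ ≃+* ℂ, ∀ i, σ (u1 i) = u1 i := by
    intro σ i
    by_contra hne
    let d : ι → ℂ := (fun i => σ (u1 i)) - u1
    have hdW : d ∈ W := W.sub_mem (hW σ u1 hu1W) hu1W
    have hd0 : d ≠ 0 := fun h => hne (by
      have := congrFun h i
      simpa [d, sub_eq_zero] using this)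
    have hdsub : supp d ⊆ (supp u1).erase i0 := by
      intro j hj
      rw [Finset.mem_erase, hsupp]
      rw [hsupp] at hj
      refine ⟨?_, ?_⟩
      · rintro rfl
        apply hj
        simp [d, hu1i0]
      · intro h0
        apply hj
        simp [d, h0]
    have h1 : (supp d).card < (supp u).card := by
      calc (supp d).card ≤ ((supp u1).erase i0).card := Finset.card_le_card hdsub
        _ < (supp u1).card := Finset.card_erase_lt_of_mem (by simp [hsupp, hu1i0])
        _ = (supp u).card := by rw [hsupp1]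
    have h2 := hmin d hdW hd0
      ((hdsub.trans (Finset.erase_subset _ _)).trans (hsupp1 ▸ husub))
    omega
  -- hence `u1` is rational
  have hrat : ∀ i, ∃ q : ℚ, (q : ℂ) = u1 i := fun i =>
    Fermat.Agent.S23_Aut.exists_rat_of_fixed (u1 i) fun σ => hfix σ i
  choose q hq using hrat
  let D : ℕ := ∏ i, (q i).den
  have hD : (D : ℂ) ≠ 0 := by
    have : D ≠ 0 := Finset.prod_ne_zero_iff.mpr fun i _ => (q i).den_ne_zero
    exact_mod_cast this
  have hint : ∀ i, ∃ m : ℤ, ((D : ℂ) • u1) i = (m : ℂ) := by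
    intro i
    refine ⟨(q i).num * ∏ j ∈ Finset.univ.erase i, ((q j).den : ℤ), ?_⟩
    have hDi : (D : ℂ) = ((q i).den : ℂ) * ∏ j ∈ Finset.univ.erase i, ((q j).den : ℂ) := by
      simp only [D]
      push_cast
      exact (Finset.mul_prod_erase Finset.univ (fun j => ((q j).den : ℂ)) (Finset.mem_univ i)).symm
    have hqi : (q i : ℂ) = ((q i).num : ℂ) / ((q i).den : ℂ) := Rat.cast_def (q i)
    have hden : ((q i).den : ℂ) ≠ 0 := by exact_mod_cast (q i).den_ne_zero
    rw [Pi.smul_apply, smul_eq_mul, ← hq i, hqi, hDi]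
    push_cast
    field_simp
  have hu1span : u1 ∈ Submodule.span ℂ {u : ι → ℂ | u ∈ W ∧ ∀ i, ∃ m : ℤ, u i = (m : ℂ)} := by
    have : u1 = (D : ℂ)⁻¹ • ((D : ℂ) • u1) := by
      rw [smul_smul, inv_mul_cancel₀ hD, one_smul]
    rw [this]
    exact Submodule.smul_mem _ _ (Submodule.subset_span ⟨W.smul_mem _ hu1W, hint⟩)
  -- subtract the multiple of `u1` killing the coordinate `i0`
  let w' : ι → ℂ := w - (w i0) • u1
  have hw'W : w' ∈ W := W.sub_mem hw (W.smul_mem _ hu1W)
  have hi0w : i0 ∈ supp w := husub (by simp [hsupp, hi0])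
  have hw'supp : supp w' ⊆ (supp w).erase i0 := by
    intro j hj
    rw [Finset.mem_erase, hsupp]
    rw [hsupp] at hj
    refine ⟨?_, ?_⟩
    · rintro rfl
      apply hj
      simp [w', hu1i0]
    · intro h0
      apply hj
      have hj1 : u1 j = 0 := by
        by_contra hne
        have : j ∈ supp w := husub (hsupp1 ▸ (hsupp u1 j).mpr hne)
        exact (hsupp w j).mp this h0
      simp [w', h0, hj1]
  have hlt : (supp w').card < n := by
    calc (supp w').card ≤ ((supp w).erase i0).card := Finset.card_le_card hw'supp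
      _ < (supp w).card := Finset.card_erase_lt_of_mem hi0w
      _ = n := hn
  have hw'span := ih _ hlt w' hw'W rfl
  have hw_eq : w = w' + (w i0) • u1 := by simp [w']
  rw [hw_eq]
  exact Submodule.add_mem _ hw'span (Submodule.smul_mem _ _ hu1span)

end Fermat.Agent.S23_Descent
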