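import Mathlib
import Fermat.Prelude.Def_CuspForm_HeckeAlgebra
import Fermat.Prelude.Def_CuspForm_IntegralStructure
import Fermat.Prelude.Thm_CuspForm_intLattice_fg
import Fermat.Prelude.Thm_ModularFormClass_qCoeff_heckeT
import Fermat.Prelude.Thm_ModularFormClass_qCoeff_heckeU
import Fermat.Prelude.Thm_CongruenceSubgroup_one_mem_strictPeriods_Gamma0
import Fermat.Agent.S23_Descent

set_option autoImplicit false
open CuspForm CongruenceSubgroup ModularFormClass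

namespace Fermat.Agent.S23_Hecke

/-! ### q-coefficients of cusp forms of level `Γ₀(N)` -/

variable {N : ℕ}

theorem hΓ (N : ℕ) :
    (1 : ℝ) ∈ (Subgroup.map (Matrix.SpecialLinearGroup.mapGL ℝ) (Gamma0 N)).strictPeriods :=
  CongruenceSubgroup.one_mem_strictPeriods_Gamma0 N

theorem qCoeff_add (f g : CuspForm (Gamma0 N) 2) (n : ℕ) :
    qCoeff ⇑(f + g) n = qCoeff ⇑f n + qCoeff ⇑g n :=
  P2MW.S_CuspForm_intLattice_fg.W3WsD.qCoeff_add f g n

theorem qCoeff_smul (c : ℂ) (f : CuspForm (Gamma0 N) 2) (n : ℕ) :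
    qCoeff ⇑(c • f) n = c * qCoeff ⇑f n := by
  have h1 : ⇑(c • f) = c • ⇑f := rfl
  simp only [qCoeff, h1]
  rw [ModularForm.qExpansion_smul one_pos (hΓ N) c f]
  simp

/-- The `n`-th q-coefficient as a linear functional. -/
noncomputable def coeffL (N : ℕ) (n : ℕ) : CuspForm (Gamma0 N) 2 →ₗ[ℂ] ℂ where
  toFun f := qCoeff ⇑f n
  map_add' f g := qCoeff_add f g n
  map_smul' c f := by simpa using qCoeff_smul c f n

@[simp] theorem coeffL_apply (n : ℕ) (f : CuspForm (Gamma0 N) 2) : coeffL N n f = qCoeff ⇑f n := rfl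

theorem qCoeff_zsmul (c : ℤ) (f : CuspForm (Gamma0 N) 2) (n : ℕ) :
    qCoeff ⇑(c • f) n = c * qCoeff ⇑f n := by
  rw [← coeffL_apply, map_zsmul, coeffL_apply, zsmul_eq_mul]

theorem qCoeff_sub (f g : CuspForm (Gamma0 N) 2) (n : ℕ) :
    qCoeff ⇑(f - g) n = qCoeff ⇑f n - qCoeff ⇑g n := by
  rw [← coeffL_apply, map_sub, coeffL_apply, coeffL_apply]

theorem qCoeff_zero_index (f : CuspForm (Gamma0 N) 2) : qCoeff ⇑f 0 = 0 :=
  CuspFormClass.qExpansion_coeff_zero f one_pos (hΓ N)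

theorem eq_zero_of_qCoeff (f : CuspForm (Gamma0 N) 2) (h : ∀ n : ℕ, qCoeff ⇑f n = 0) :
    f = 0 := by
  have : Fact (IsCusp OnePoint.infty
      (Subgroup.map (Matrix.SpecialLinearGroup.mapGL ℝ) (Gamma0 N))) :=
    ⟨Subgroup.isCusp_of_mem_strictPeriods one_pos (hΓ N)⟩
  have h0 : UpperHalfPlane.qExpansion 1 ⇑f = 0 := by
    ext n
    simpa [qCoeff] using h n
  have h1 : (⇑f : UpperHalfPlane → ℂ) = 0 :=
    (UpperHalfPlane.qExpansion_eq_zero_iff one_pos
      (SlashInvariantFormClass.periodic_comp_ofComplex f (hΓ N))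
      (ModularFormClass.holo f) (ModularFormClass.bdd_at_infty f)).mp h0
  exact DFunLike.coe_injective h1

theorem qCoeff_T {ℓ : ℕ} (hℓ : ℓ.Prime) (hℓN : ¬ ℓ ∣ N) (f : CuspForm (Gamma0 N) 2) (n : ℕ) :
    qCoeff ⇑(CuspForm.heckeTLin 2 hℓ hℓN f) n =
      qCoeff ⇑f (n * ℓ) + if ℓ ∣ n then (ℓ : ℂ) * qCoeff ⇑f (n / ℓ) else 0 := by
  rw [CuspForm.coe_heckeTLin_apply, ModularFormClass.qCoeff_heckeT f (hΓ N) hℓ.ne_zero n,
    ModularForm.coeffHeckeT_apply]
  norm_num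

theorem qCoeff_U [NeZero N] {ℓ : ℕ} (hℓ : ℓ.Prime) (hℓN : ℓ ∣ N) (f : CuspForm (Gamma0 N) 2)
    (n : ℕ) :
    qCoeff ⇑(CuspForm.heckeULin 2 hℓN f) n = qCoeff ⇑f (n * ℓ) := by
  rw [CuspForm.coe_heckeULin_apply, ModularFormClass.qCoeff_heckeU f (hΓ N) hℓ.ne_zero n,
    ModularForm.coeffHeckeU_apply]

/-! ### Hecke duality: `a_n(f) = a_1(T f)` for a suitable `T` of the Hecke algebra -/

theorem exists_hecke_coeff [NeZero N] (n : ℕ) (hn : 0 < n) :
    ∃ T ∈ heckeAlgebra N 2 (∅ : Set ℕ),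
      ∀ f : CuspForm (Gamma0 N) 2, qCoeff ⇑f n = qCoeff ⇑(T f) 1 := by
  induction n using Nat.strong_induction_on with
  | _ n ih =>
  rcases Nat.lt_or_ge n 2 with h2 | h2
  · have h1 : n = 1 := by omega
    subst h1
    exact ⟨1, Subalgebra.one_mem _, fun f => rfl⟩
  have hp : (n.minFac).Prime := Nat.minFac_prime (by omega)
  set p := n.minFac with hpdef
  obtain ⟨m, hm⟩ : p ∣ n := Nat.minFac_dvd n
  have hp2 : 2 ≤ p := hp.two_le
  have hm0 : 0 < m := by
    rcases Nat.eq_zero_or_pos m with h | h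
    · subst h; omega
    · exact h
  have hmn : m < n := by
    rw [hm]
    nlinarith
  have hnm : n = m * p := by rw [hm, mul_comm]
  obtain ⟨Tm, hTm, hTm'⟩ := ih m hmn hm0
  by_cases hpN : p ∣ N
  · refine ⟨Tm * CuspForm.heckeULin 2 hpN,
      Subalgebra.mul_mem _ hTm (heckeULin_mem_heckeAlgebra hp hpN (Set.notMem_empty p)), fun f => ?_⟩
    rw [Module.End.mul_apply, ← hTm', qCoeff_U hp hpN, hnm]
  · have hTp := heckeTLin_mem_heckeAlgebra (k := 2) (S := (∅ : Set ℕ)) hp hpN (Set.notMem_empty p)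
    by_cases hpm : p ∣ m
    · obtain ⟨m', hm'⟩ := hpm
      have hm'0 : 0 < m' := by
        rcases Nat.eq_zero_or_pos m' with h | h
        · subst h; omega
        · exact h
      have hm'n : m' < n := by
        rw [hm, hm']
        nlinarith
      obtain ⟨Tm', hTm'1, hTm'2⟩ := ih m' hm'n hm'0
      refine ⟨Tm * CuspForm.heckeTLin 2 hp hpN - (p : ℤ) • Tm',
        Subalgebra.sub_mem _ (Subalgebra.mul_mem _ hTm hTp) (Subalgebra.zsmul_mem _ hTm'1 _),
        fun f => ?_⟩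
      have hdiv : m / p = m' := by
        rw [hm']
        exact Nat.mul_div_cancel_left m' hp.pos
      rw [LinearMap.sub_apply, qCoeff_sub, Module.End.mul_apply, ← hTm', qCoeff_T hp hpN,
        if_pos ⟨m', hm'⟩, hdiv, LinearMap.smul_apply, qCoeff_zsmul, ← hTm'2, hnm]
      push_cast
      ring
    · refine ⟨Tm * CuspForm.heckeTLin 2 hp hpN, Subalgebra.mul_mem _ hTm hTp, fun f => ?_⟩
      rw [Module.End.mul_apply, ← hTm', qCoeff_T hp hpN, if_neg hpm, hnm, add_zero]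

/-! ### Hecke operators commute with conjugation of the coefficients -/

theorem conj_hecke [NeZero N] (σ : ℂ →+* ℂ) {S : Set ℕ}
    {T : Module.End ℂ (CuspForm (Gamma0 N) 2)} (hT : T ∈ heckeAlgebra N 2 S) :
    ∀ f g : CuspForm (Gamma0 N) 2, (∀ n : ℕ, qCoeff ⇑g n = σ (qCoeff ⇑f n)) →
      ∀ n : ℕ, qCoeff ⇑(T g) n = σ (qCoeff ⇑(T f) n) := by
  induction hT using Algebra.adjoin_induction with
  | mem T hT =>
    intro f g h n
    rcases hT with ⟨ℓ, hℓ, hℓN, -, rfl⟩ | ⟨q, hqN, hq, -, rfl⟩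
    · rw [qCoeff_T hℓ hℓN, qCoeff_T hℓ hℓN, h, h]
      split_ifs <;> simp
    · rw [qCoeff_U hq hqN, qCoeff_U hq hqN, h]
  | algebraMap r =>
    intro f g h n
    have h1 : ∀ x : CuspForm (Gamma0 N) 2,
        (algebraMap ℤ (Module.End ℂ (CuspForm (Gamma0 N) 2)) r) x = r • x := by
      intro x
      rw [Algebra.algebraMap_eq_smul_one, LinearMap.smul_apply, Module.End.one_apply]
    rw [h1, h1, qCoeff_zsmul, qCoeff_zsmul, h]
    simp
  | add T₁ T₂ _ _ h₁ h₂ =>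
    intro f g h n
    rw [LinearMap.add_apply, LinearMap.add_apply, qCoeff_add, qCoeff_add, h₁ f g h, h₂ f g h,
      map_add]
  | mul T₁ T₂ _ _ h₁ h₂ =>
    intro f g h n
    rw [Module.End.mul_apply, Module.End.mul_apply]
    exact h₁ _ _ (h₂ f g h) n

/-! ### Assembly: integral structure from finiteness of the Hecke algebra and conjugation -/

theorem hasIntegralStructure_of_conj (N : ℕ) [NeZero N]
    (hfin : Module.Finite ℤ (heckeAlgebra N 2 (∅ : Set ℕ)))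
    (hgal : ∀ (σ : ℂ ≃+* ℂ) (f : CuspForm (Gamma0 N) 2), ∃ g : CuspForm (Gamma0 N) 2,
      ∀ n : ℕ, qCoeff ⇑g n = σ (qCoeff ⇑f n)) :
    CuspForm.HasIntegralStructure N 2 := by
  classical
  obtain ⟨r, t, ht⟩ := Module.Finite.exists_fin (R := ℤ) (M := heckeAlgebra N 2 (∅ : Set ℕ))
  let Φ : CuspForm (Gamma0 N) 2 →ₗ[ℂ] (Fin r → ℂ) :=
    LinearMap.pi fun i => (coeffL N 1).comp (t i : Module.End ℂ (CuspForm (Gamma0 N) 2))
  have hΦ : ∀ f i, Φ f i = qCoeff ⇑((t i : Module.End ℂ (CuspForm (Gamma0 N) 2)) f) 1 :=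
    fun f i => rfl
  -- the first coefficient of `T f` is an integral combination of the coordinates of `Φ f`
  have hcomb : ∀ T ∈ heckeAlgebra N 2 (∅ : Set ℕ), ∃ c : Fin r → ℤ,
      ∀ f : CuspForm (Gamma0 N) 2, qCoeff ⇑(T f) 1 = ∑ i, (c i : ℂ) * Φ f i := by
    intro T hT
    have hmem : (⟨T, hT⟩ : heckeAlgebra N 2 (∅ : Set ℕ)) ∈ Submodule.span ℤ (Set.range t) := by
      rw [ht]; exact Submodule.mem_top
    obtain ⟨c, hc⟩ := (Submodule.mem_span_range_iff_exists_fun ℤ).mp hmem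
    refine ⟨c, fun f => ?_⟩
    have hT' : T = ∑ i, c i • (t i : Module.End ℂ (CuspForm (Gamma0 N) 2)) := by
      have := congrArg (Subtype.val) hc
      simpa using this.symm
    rw [hT', ← coeffL_apply, LinearMap.sum_apply, map_sum]
    refine Finset.sum_congr rfl fun i _ => ?_
    rw [LinearMap.smul_apply, map_zsmul, coeffL_apply, hΦ, zsmul_eq_mul]
  -- all coefficients of `f` are integral combinations of the coordinates of `Φ f`
  have hcoeff : ∀ n : ℕ, ∃ c : Fin r → ℤ,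
      ∀ f : CuspForm (Gamma0 N) 2, qCoeff ⇑f n = ∑ i, (c i : ℂ) * Φ f i := by
    intro n
    rcases Nat.eq_zero_or_pos n with rfl | hn
    · exact ⟨0, fun f => by simp [qCoeff_zero_index]⟩
    · obtain ⟨T, hT, hT'⟩ := exists_hecke_coeff (N := N) n hn
      obtain ⟨c, hc⟩ := hcomb T hT
      exact ⟨c, fun f => by rw [hT', hc]⟩
  have hinj : Function.Injective Φ := by
    rw [← LinearMap.ker_eq_bot, LinearMap.ker_eq_bot']
    intro f hf
    apply eq_zero_of_qCoeff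
    intro n
    obtain ⟨c, hc⟩ := hcoeff n
    rw [hc, hf]
    simp
  have hintL : ∀ f : CuspForm (Gamma0 N) 2, (∀ i, ∃ m : ℤ, Φ f i = (m : ℂ)) →
      f ∈ CuspForm.intLattice N 2 := by
    intro f hf
    choose m hm using hf
    refine Submodule.subset_span fun n => ?_
    obtain ⟨c, hc⟩ := hcoeff n
    refine ⟨∑ i, c i * m i, ?_⟩
    rw [hc]
    push_cast
    exact Finset.sum_congr rfl fun i _ => by rw [hm]
  -- the range of `Φ` is stable under all automorphisms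
  have hstable : ∀ σ : ℂ ≃+* ℂ, ∀ w ∈ LinearMap.range Φ,
      (fun i => σ (w i)) ∈ LinearMap.range Φ := by
    rintro σ _ ⟨f, rfl⟩
    obtain ⟨g, hg⟩ := hgal σ f
    refine ⟨g, ?_⟩
    funext i
    rw [hΦ, hΦ]
    exact conj_hecke (σ : ℂ →+* ℂ) (t i).2 f g hg 1
  unfold CuspForm.HasIntegralStructure
  rw [eq_top_iff]
  intro f _
  have h1 := Fermat.Agent.S23_Descent.mem_span_int (LinearMap.range Φ) hstable (Φ f)
    (LinearMap.mem_range_self Φ f)
  have h2 : Submodule.span ℂ {u : Fin r → ℂ | u ∈ LinearMap.range Φ ∧ ∀ i, ∃ m : ℤ, u i = (m : ℂ)}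
      ≤ Submodule.map Φ (Submodule.span ℂ
        ((CuspForm.intLattice N 2 : Submodule ℤ (CuspForm (Gamma0 N) 2)) :
          Set (CuspForm (Gamma0 N) 2))) := by
    rw [Submodule.span_le]
    rintro _ ⟨⟨g, rfl⟩, hint⟩
    exact ⟨g, Submodule.subset_span (hintL g hint), rfl⟩
  obtain ⟨f', hf', hff'⟩ := h2 h1
  rw [← hinj hff']
  exact hf'

end Fermat.Agent.S23_Hecke
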