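import Fermat.Agent.S16_Red
import Fermat.Agent.S22
import Fermat.Agent.S23_Hecke

/-!
# S16, block UBW: the upper bound `UB` from the Eisenstein series and the non-existence
statements

* `exists_dual_rep`: abstract ℤ-duality for a two-sided non-degenerate pairing of finite free
  ℤ-modules.
* `exists_heckeAlg_coeff`: elements `t_n ∈ HeckeAlg` with `a_n(f) = a_1(t_n f)` and
  `χ_E(t_n) = s n` for any coefficient function `s` with the Eisenstein recursion.
* `exists_cuspForm_of_functional`: every ℤ-linear functional `Λ` on the Hecke algebra is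
  `t ↦ a_1(t g)` for a cusp form `g`.
* `UB_of_NE`: the statement `UB` of `S16_Red.card_eq_of_LB_UB`.
-/

set_option autoImplicit false

open ModularCurve CuspForm CongruenceSubgroup ModularFormClass Matrix

namespace Fermat.Agent.S16_UBW

open Fermat.Agent.S16_Red Fermat.Agent.S23_Hecke

noncomputable section

/-- **Abstract ℤ-duality.** A bilinear pairing of finite free ℤ-modules which is non-degenerate
on both sides represents every functional up to a nonzero integer factor. -/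
theorem exists_dual_rep {T L : Type*} [AddCommGroup T] [AddCommGroup L]
    [Module.Finite ℤ T] [Module.Free ℤ T] [Module.Finite ℤ L] [Module.Free ℤ L]
    (β : T →ₗ[ℤ] L →ₗ[ℤ] ℤ)
    (hl : ∀ t, (∀ f, β t f = 0) → t = 0) (hr : ∀ f, (∀ t, β t f = 0) → f = 0)
    (Λ : T →ₗ[ℤ] ℤ) : ∃ (d : ℤ) (f : L), d ≠ 0 ∧ ∀ t, β t f = d * Λ t := by
  classical
  obtain ⟨s, hs⟩ : ∃ s, Module.finrank ℤ T = s := ⟨_, rfl⟩
  obtain ⟨r, hr'⟩ : ∃ r, Module.finrank ℤ L = r := ⟨_, rfl⟩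
  obtain ⟨bT⟩ : Nonempty (Module.Basis (Fin s) ℤ T) := ⟨Module.finBasisOfFinrankEq ℤ T hs⟩
  obtain ⟨bL⟩ : Nonempty (Module.Basis (Fin r) ℤ L) := ⟨Module.finBasisOfFinrankEq ℤ L hr'⟩
  clear hs hr'
  let A : Matrix (Fin s) (Fin r) ℤ := fun i j => β (bT i) (bL j)
  have hA1 : ∀ (x : Fin r → ℤ) (i : Fin s), β (bT i) (∑ j, x j • bL j) = (A *ᵥ x) i := by
    intro x i
    rw [map_sum]
    simp only [map_smul, smul_eq_mul, Matrix.mulVec, dotProduct, A]
    exact Finset.sum_congr rfl fun j _ => mul_comm _ _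
  have hA2 : ∀ (y : Fin s → ℤ) (j : Fin r), β (∑ i, y i • bT i) (bL j) = (y ᵥ* A) j := by
    intro y j
    rw [map_sum, LinearMap.sum_apply]
    simp only [map_smul, LinearMap.smul_apply, smul_eq_mul, Matrix.vecMul, dotProduct, A]
  have hinj1 : ∀ x : Fin r → ℤ, A *ᵥ x = 0 → x = 0 := by
    intro x hx
    have hf : ∑ j, x j • bL j = 0 := by
      apply hr
      intro t
      have h0 : (β.flip (∑ j, x j • bL j)) = 0 := by
        apply bT.ext
        intro i
        rw [LinearMap.flip_apply, hA1, hx]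
        rfl
      exact LinearMap.congr_fun h0 t
    funext j
    have := congrArg (fun f => bL.repr f j) hf
    simpa [Module.Basis.repr_self, Finsupp.single_apply] using this
  have hinj2 : ∀ y : Fin s → ℤ, y ᵥ* A = 0 → y = 0 := by
    intro y hy
    have ht : ∑ i, y i • bT i = 0 := by
      apply hl
      intro f
      have h0 : β (∑ i, y i • bT i) = 0 := by
        apply bL.ext
        intro j
        rw [hA2, hy]
        rfl
      exact LinearMap.congr_fun h0 f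
    funext i
    have := congrArg (fun t => bT.repr t i) ht
    simpa [Module.Basis.repr_self, Finsupp.single_apply] using this
  have hrs : r ≤ s := by
    have hinj : Function.Injective (Matrix.mulVecLin A) := by
      rw [← LinearMap.ker_eq_bot, LinearMap.ker_eq_bot']
      intro x hx
      exact hinj1 x hx
    have := LinearMap.finrank_le_finrank_of_injective hinj
    simpa using this
  have hsr : s ≤ r := by
    have hinj : Function.Injective (Matrix.vecMulLinear A) := by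
      rw [← LinearMap.ker_eq_bot, LinearMap.ker_eq_bot']
      intro y hy
      exact hinj2 y hy
    have := LinearMap.finrank_le_finrank_of_injective hinj
    simpa using this
  obtain rfl : r = s := le_antisymm hrs hsr
  have hdet : A.det ≠ 0 := by
    intro h0
    obtain ⟨v, hv, hAv⟩ := Matrix.exists_mulVec_eq_zero_iff.2 h0
    exact hv (hinj1 v hAv)
  let lam : Fin r → ℤ := fun i => Λ (bT i)
  let x : Fin r → ℤ := A.adjugate *ᵥ lam
  refine ⟨A.det, ∑ j, x j • bL j, hdet, fun t => ?_⟩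
  have h0 : β.flip (∑ j, x j • bL j) = A.det • Λ := by
    apply bT.ext
    intro i
    rw [LinearMap.flip_apply, hA1]
    show (A *ᵥ (A.adjugate *ᵥ lam)) i = _
    rw [Matrix.mulVec_mulVec, Matrix.mul_adjugate, Matrix.smul_mulVec, Matrix.one_mulVec]
    rfl
  have := LinearMap.congr_fun h0 t
  rw [LinearMap.flip_apply] at this
  rw [this]
  rfl


variable (p : ℕ) [Fact p.Prime]

/-- The Eisenstein coefficient recursion (satisfied by `σ'(n) = ∑_{d ∣ n, p ∤ d} d`). -/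
def IsEisCoeff (s : ℕ → ℤ) : Prop :=
  s 1 = 1 ∧ (∀ m, 0 < m → s (m * p) = s m) ∧
    ∀ ℓ : ℕ, ℓ.Prime → ℓ ≠ p → ∀ m, 0 < m →
      s (m * ℓ) = s m * (1 + ℓ) - (if ℓ ∣ m then (ℓ : ℤ) * s (m / ℓ) else 0)

/-- `σ'(n)`: the sum of the divisors of `n` prime to `p`. -/
def sigmaP (p n : ℕ) : ℤ := ∑ d ∈ n.divisors.filter (fun d => ¬ p ∣ d), (d : ℤ)


theorem sigmaP_one : sigmaP p 1 = 1 := by
  have h : ¬ p ∣ 1 := (Fact.out : p.Prime).one_lt.ne' ∘ Nat.dvd_one.1
  unfold sigmaP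
  rw [Nat.divisors_one, Finset.filter_singleton, if_pos h, Finset.sum_singleton, Nat.cast_one]

theorem sigmaP_mul_p (m : ℕ) (hm : 0 < m) : sigmaP p (m * p) = sigmaP p m := by
  have hp : p.Prime := Fact.out
  unfold sigmaP
  congr 1
  ext d
  simp only [Finset.mem_filter, Nat.mem_divisors]
  constructor
  · rintro ⟨⟨hd, -⟩, hpd⟩
    exact ⟨⟨Nat.Coprime.dvd_of_dvd_mul_right ((Nat.Prime.coprime_iff_not_dvd hp).2 hpd).symm hd,
      hm.ne'⟩, hpd⟩
  · rintro ⟨⟨hd, -⟩, hpd⟩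
    exact ⟨⟨hd.mul_right p, Nat.mul_ne_zero hm.ne' hp.ne_zero⟩, hpd⟩

theorem sigmaP_mul_prime (ℓ : ℕ) (hℓ : ℓ.Prime) (hℓp : ℓ ≠ p) (m : ℕ) (hm : 0 < m) :
    sigmaP p (m * ℓ) = sigmaP p m * (1 + ℓ)
      - (if ℓ ∣ m then (ℓ : ℤ) * sigmaP p (m / ℓ) else 0) := by
  classical
  have hp : p.Prime := Fact.out
  have hpℓ : ¬ p ∣ ℓ := fun h => hℓp ((Nat.prime_dvd_prime_iff_eq hp hℓ).1 h).symm
  set D := m.divisors.filter (fun d => ¬ p ∣ d) with hD
  set D' := D.filter (fun d => d * ℓ ∣ m) with hD'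
  have hmemD : ∀ d, d ∈ D ↔ d ∣ m ∧ ¬ p ∣ d := by
    intro d
    simp only [hD, Finset.mem_filter, Nat.mem_divisors]
    exact ⟨fun h => ⟨h.1.1, h.2⟩, fun h => ⟨⟨h.1, hm.ne'⟩, h.2⟩⟩
  have h1 : (m * ℓ).divisors.filter (fun d => ¬ p ∣ d) = D ∪ (D \ D').image (· * ℓ) := by
    ext d
    simp only [Finset.mem_filter, Nat.mem_divisors, Finset.mem_union, Finset.mem_image,
      Finset.mem_sdiff, hD', hmemD]
    constructor
    · rintro ⟨⟨hd, -⟩, hpd⟩
      by_cases hdm : d ∣ m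
      · exact Or.inl ⟨hdm, hpd⟩
      · right
        have hℓd : ℓ ∣ d := by
          by_contra hnd
          exact hdm (Nat.Coprime.dvd_of_dvd_mul_right
            ((Nat.Prime.coprime_iff_not_dvd hℓ).2 hnd).symm hd)
        obtain ⟨d', rfl⟩ := hℓd
        have hd'm : d' ∣ m := by
          rw [mul_comm ℓ d'] at hd
          exact Nat.dvd_of_mul_dvd_mul_right hℓ.pos hd
        have hpd' : ¬ p ∣ d' := fun h => hpd (h.mul_left ℓ)
        refine ⟨d', ⟨⟨hd'm, hpd'⟩, fun h => hdm ?_⟩, mul_comm d' ℓ⟩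
        rw [mul_comm ℓ d']
        exact h.2
    · rintro (⟨hdm, hpd⟩ | ⟨d', ⟨⟨hd'm, hpd'⟩, -⟩, rfl⟩)
      · exact ⟨⟨hdm.mul_right ℓ, Nat.mul_ne_zero hm.ne' hℓ.ne_zero⟩, hpd⟩
      · refine ⟨⟨Nat.mul_dvd_mul_right hd'm ℓ, Nat.mul_ne_zero hm.ne' hℓ.ne_zero⟩, fun h => ?_⟩
        rcases (Nat.Prime.dvd_mul hp).1 h with h | h
        · exact hpd' h
        · exact hpℓ h
  have hdisj : Disjoint D ((D \ D').image (· * ℓ)) := by
    rw [Finset.disjoint_left]
    intro d hd hd2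
    simp only [Finset.mem_image, Finset.mem_sdiff, hD', Finset.mem_filter] at hd2
    obtain ⟨d', ⟨hd'D, hnot⟩, rfl⟩ := hd2
    exact hnot ⟨hd'D, ((hmemD _).1 hd).1⟩
  have h2 : ∑ d ∈ D', (d : ℤ) = if ℓ ∣ m then sigmaP p (m / ℓ) else 0 := by
    split_ifs with hℓm
    · obtain ⟨m', rfl⟩ := hℓm
      have hm' : 0 < m' := by
        rcases Nat.eq_zero_or_pos m' with h0 | h0
        · subst h0; simp at hm
        · exact h0
      rw [Nat.mul_div_cancel_left m' hℓ.pos]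
      unfold sigmaP
      congr 1
      ext d
      simp only [hD', Finset.mem_filter, hmemD, Nat.mem_divisors]
      constructor
      · rintro ⟨⟨-, hpd⟩, hdℓ⟩
        rw [mul_comm ℓ m'] at hdℓ
        exact ⟨⟨Nat.dvd_of_mul_dvd_mul_right hℓ.pos hdℓ, hm'.ne'⟩, hpd⟩
      · rintro ⟨⟨hd, -⟩, hpd⟩
        refine ⟨⟨hd.mul_left ℓ, hpd⟩, ?_⟩
        rw [mul_comm ℓ m']
        exact Nat.mul_dvd_mul_right hd ℓ
    · apply Finset.sum_eq_zero
      intro d hd
      simp only [hD', Finset.mem_filter] at hd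
      exact absurd (dvd_of_mul_left_dvd hd.2) hℓm
  have h3 : ∑ d ∈ D \ D', (d : ℤ) = ∑ d ∈ D, (d : ℤ) - ∑ d ∈ D', (d : ℤ) := by
    rw [eq_sub_iff_add_eq, Finset.sum_sdiff (Finset.filter_subset _ _)]
  have h4 : sigmaP p m = ∑ d ∈ D, (d : ℤ) := rfl
  have hinj : ∀ x ∈ D \ D', ∀ y ∈ D \ D', x * ℓ = y * ℓ → x = y :=
    fun x _ y _ h => Nat.eq_of_mul_eq_mul_right hℓ.pos h
  show ∑ d ∈ (m * ℓ).divisors.filter (fun d => ¬ p ∣ d), (d : ℤ) = _
  rw [h1, Finset.sum_union hdisj, Finset.sum_image hinj, h4]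
  have h5 : ∑ x ∈ D \ D', ((x * ℓ : ℕ) : ℤ) = (ℓ : ℤ) * ∑ d ∈ D \ D', (d : ℤ) := by
    rw [Finset.mul_sum]
    exact Finset.sum_congr rfl fun x _ => by push_cast; ring
  rw [h5, h3, h2]
  split_ifs <;> ring


theorem isEisCoeff_sigmaP : IsEisCoeff p (sigmaP p) :=
  ⟨sigmaP_one p, sigmaP_mul_p p, sigmaP_mul_prime p⟩

/-- the endomorphism of `S₂(Γ₀(p))` attached to `t ∈ HeckeAlg`. -/
def ev (t : HeckeAlg) : Module.End ℂ (CuspForm (Gamma0 p) 2) :=
  ((heckeEvalForms p 2 t : ↥(heckeAlgebra p 2 (∅ : Set ℕ))) :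
    Module.End ℂ (CuspForm (Gamma0 p) 2))

theorem ev_mem (t : HeckeAlg) : ev p t ∈ heckeAlgebra p 2 (∅ : Set ℕ) :=
  (heckeEvalForms p 2 t).2

theorem ev_one : ev p 1 = 1 := by
  unfold ev; rw [map_one]; rfl

theorem ev_mul (a b : HeckeAlg) : ev p (a * b) = ev p a * ev p b := by
  unfold ev; rw [map_mul]; rfl

theorem ev_sub (a b : HeckeAlg) : ev p (a - b) = ev p a - ev p b := by
  unfold ev; rw [map_sub]; rfl

theorem ev_zsmul (c : ℤ) (a : HeckeAlg) : ev p (c • a) = c • ev p a := by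
  unfold ev; rw [map_zsmul]; rfl

theorem ev_heckeGen_of_dvd (P : Nat.Primes) (hqp : (P : ℕ) ∣ p) :
    ev p (heckeGen P) = CuspForm.heckeULin 2 hqp := by
  unfold ev
  rw [heckeEvalForms_heckeGen_of_dvd (N := p) (k := 2) (q := P) hqp]
  rfl

theorem ev_heckeGen_of_not_dvd (P : Nat.Primes) (hℓp : ¬ (P : ℕ) ∣ p) :
    ev p (heckeGen P) = CuspForm.heckeTLin 2 P.2 hℓp := by
  unfold ev
  rw [heckeEvalForms_heckeGen_of_not_dvd (N := p) (k := 2) (ℓ := P) hℓp]
  rfl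

theorem ev_eq_zero_iff (t : HeckeAlg) : ev p t = 0 ↔ heckeEvalForms p 2 t = 0 := by
  unfold ev
  constructor
  · intro h; exact Subtype.ext h
  · intro h; rw [h]; rfl

omit [Fact p.Prime] in
theorem aeval_eis_heckeGen (ℓ : Nat.Primes) :
    MvPolynomial.aeval (eisensteinSystem p) (heckeGen ℓ) = eisensteinSystem p ℓ := by
  unfold heckeGen
  exact MvPolynomial.aeval_X _ ℓ

/-- **Hecke duality in `HeckeAlg`**: `a_n(f) = a_1(t_n f)` with `χ_E(t_n) = s n`. -/
theorem exists_heckeAlg_coeff (s : ℕ → ℤ) (hs : IsEisCoeff p s) (n : ℕ) (hn : 0 < n) :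
    ∃ t : HeckeAlg, (∀ f : CuspForm (Gamma0 p) 2, qCoeff ⇑f n = qCoeff ⇑(ev p t f) 1) ∧
      MvPolynomial.aeval (eisensteinSystem p) t = s n := by
  induction n using Nat.strong_induction_on with
  | _ n ih =>
  rcases Nat.lt_or_ge n 2 with h2 | h2
  · have h1 : n = 1 := by omega
    subst h1
    refine ⟨1, fun f => ?_, ?_⟩
    · rw [ev_one]; rfl
    · rw [map_one, hs.1]
  obtain ⟨P, hP⟩ : ∃ P : Nat.Primes, (P : ℕ) = n.minFac :=
    ⟨⟨n.minFac, Nat.minFac_prime (by omega)⟩, rfl⟩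
  have hℓ : (P : ℕ).Prime := P.2
  obtain ⟨m, hm⟩ : (P : ℕ) ∣ n := hP ▸ Nat.minFac_dvd n
  have hℓ2 : 2 ≤ (P : ℕ) := hℓ.two_le
  have hm0 : 0 < m := by
    rcases Nat.eq_zero_or_pos m with h | h
    · subst h; omega
    · exact h
  have hmn : m < n := by
    rw [hm]
    nlinarith
  have hnm : n = m * (P : ℕ) := by rw [hm, mul_comm]
  obtain ⟨tm, htm, hχm⟩ := ih m hmn hm0
  by_cases hℓp : (P : ℕ) ∣ p
  · have hℓeq : (P : ℕ) = p := (Nat.prime_dvd_prime_iff_eq hℓ Fact.out).1 hℓp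
    refine ⟨tm * heckeGen P, fun f => ?_, ?_⟩
    · rw [ev_mul, Module.End.mul_apply, ← htm, ev_heckeGen_of_dvd p P hℓp, qCoeff_U hℓ hℓp, hnm]
    · rw [map_mul, hχm, aeval_eis_heckeGen, eisensteinSystem_of_dvd (N := p) (ℓ := P) hℓp,
        mul_one, hnm]
      have := hs.2.1 m hm0
      rw [← hℓeq] at this
      exact this.symm
  · have hℓne : (P : ℕ) ≠ p := fun h => hℓp (h ▸ dvd_rfl)
    have hrec := hs.2.2 (P : ℕ) hℓ hℓne m hm0
    have hχℓ : MvPolynomial.aeval (eisensteinSystem p) (heckeGen P) = 1 + ((P : ℕ) : ℤ) := by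
      rw [aeval_eis_heckeGen, eisensteinSystem_of_not_dvd (N := p) (ℓ := P) hℓp]
    by_cases hℓm : (P : ℕ) ∣ m
    · obtain ⟨m', hm'⟩ := hℓm
      have hm'0 : 0 < m' := by
        rcases Nat.eq_zero_or_pos m' with h | h
        · subst h; omega
        · exact h
      have hm'n : m' < n := by
        rw [hm, hm']
        nlinarith
      obtain ⟨tm', htm', hχm'⟩ := ih m' hm'n hm'0
      have hdiv : m / (P : ℕ) = m' := by
        rw [hm']
        exact Nat.mul_div_cancel_left m' hℓ.pos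
      refine ⟨tm * heckeGen P - ((P : ℕ) : ℤ) • tm', fun f => ?_, ?_⟩
      · rw [ev_sub, ev_mul, ev_zsmul, LinearMap.sub_apply, qCoeff_sub, Module.End.mul_apply,
          ← htm, ev_heckeGen_of_not_dvd p P hℓp, qCoeff_T hℓ hℓp, if_pos ⟨m', hm'⟩, hdiv,
          LinearMap.smul_apply, qCoeff_zsmul, ← htm', hnm]
        push_cast
        ring
      · rw [map_sub, map_mul, map_zsmul, hχm, hχm', hχℓ, hnm, hrec, if_pos ⟨m', hm'⟩, hdiv,
          smul_eq_mul]
    · refine ⟨tm * heckeGen P, fun f => ?_, ?_⟩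
      · rw [ev_mul, Module.End.mul_apply, ← htm, ev_heckeGen_of_not_dvd p P hℓp,
          qCoeff_T hℓ hℓp, if_neg hℓm, hnm, add_zero]
      · rw [map_mul, hχm, hχℓ, hnm, hrec, if_neg hℓm, sub_zero]

/-! ### The integral pairing `T × L → ℤ`, `(t, f) ↦ a_1(t f)` -/

theorem exists_int_pair (t : ↥(heckeAlgebra p 2 (∅ : Set ℕ))) (f : ↥(intLattice p 2)) :
    ∃ m : ℤ, qCoeff ⇑((t : Module.End ℂ (CuspForm (Gamma0 p) 2))
      (f : CuspForm (Gamma0 p) 2)) 1 = (m : ℂ) :=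
  (P2MW.S_CuspForm_intLattice_fg.W3WsD.mem_intLattice_iff _).1
    (mem_intLattice_of_mem_heckeAlgebra one_le_two t.2 f.2) 1

/-- the integer `a_1(t f)`. -/
def pairZ (t : ↥(heckeAlgebra p 2 (∅ : Set ℕ))) (f : ↥(intLattice p 2)) : ℤ :=
  (exists_int_pair p t f).choose

theorem pairZ_spec (t : ↥(heckeAlgebra p 2 (∅ : Set ℕ))) (f : ↥(intLattice p 2)) :
    ((pairZ p t f : ℤ) : ℂ) = coeffL p 1 ((t : Module.End ℂ (CuspForm (Gamma0 p) 2))
      (f : CuspForm (Gamma0 p) 2)) :=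
  (exists_int_pair p t f).choose_spec.symm

/-- the bilinear pairing `(t, f) ↦ a_1(t f)`. -/
def pairing : ↥(heckeAlgebra p 2 (∅ : Set ℕ)) →ₗ[ℤ] ↥(intLattice p 2) →ₗ[ℤ] ℤ :=
  LinearMap.mk₂ ℤ (pairZ p)
    (fun t₁ t₂ f => Int.cast_injective (α := ℂ) (by
      rw [Int.cast_add, pairZ_spec, pairZ_spec, pairZ_spec]
      show coeffL p 1 (((t₁ : Module.End ℂ (CuspForm (Gamma0 p) 2)) + t₂) f) = _
      rw [LinearMap.add_apply, map_add]))
    (fun c t f => Int.cast_injective (α := ℂ) (by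
      rw [smul_eq_mul, Int.cast_mul, pairZ_spec, pairZ_spec]
      show coeffL p 1 ((c • (t : Module.End ℂ (CuspForm (Gamma0 p) 2))) f) = _
      rw [LinearMap.smul_apply, map_zsmul, zsmul_eq_mul]))
    (fun t f₁ f₂ => Int.cast_injective (α := ℂ) (by
      rw [Int.cast_add, pairZ_spec, pairZ_spec, pairZ_spec]
      show coeffL p 1 ((t : Module.End ℂ (CuspForm (Gamma0 p) 2))
        ((f₁ : CuspForm (Gamma0 p) 2) + f₂)) = _
      rw [map_add, map_add]))
    (fun c t f => Int.cast_injective (α := ℂ) (by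
      rw [smul_eq_mul, Int.cast_mul, pairZ_spec, pairZ_spec]
      show coeffL p 1 ((t : Module.End ℂ (CuspForm (Gamma0 p) 2))
        (c • (f : CuspForm (Gamma0 p) 2))) = _
      rw [map_zsmul, map_zsmul, zsmul_eq_mul]))

theorem pairing_apply (t : ↥(heckeAlgebra p 2 (∅ : Set ℕ))) (f : ↥(intLattice p 2)) :
    ((pairing p t f : ℤ) : ℂ) = qCoeff ⇑((t : Module.End ℂ (CuspForm (Gamma0 p) 2))
      (f : CuspForm (Gamma0 p) 2)) 1 :=
  pairZ_spec p t f

theorem pairing_right_nondeg (f : ↥(intLattice p 2)) (h : ∀ t, pairing p t f = 0) : f = 0 := by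
  apply Subtype.ext
  apply eq_zero_of_qCoeff
  intro n
  rcases Nat.eq_zero_or_pos n with rfl | hn
  · exact qCoeff_zero_index _
  · obtain ⟨T, hT, hT'⟩ := exists_hecke_coeff (N := p) n hn
    rw [hT']
    have := pairing_apply p ⟨T, hT⟩ f
    rw [h ⟨T, hT⟩] at this
    rw [← this]
    simp

theorem pairing_left_nondeg (t : ↥(heckeAlgebra p 2 (∅ : Set ℕ)))
    (h : ∀ f, pairing p t f = 0) : t = 0 := by
  apply Subtype.ext
  show (t : Module.End ℂ (CuspForm (Gamma0 p) 2)) = 0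
  refine LinearMap.ext_on (Fermat.Agent.S23.result p) fun f hf => ?_
  rw [LinearMap.zero_apply]
  apply eq_zero_of_qCoeff
  intro n
  rcases Nat.eq_zero_or_pos n with rfl | hn
  · exact qCoeff_zero_index _
  · obtain ⟨T, hT, hT'⟩ := exists_hecke_coeff (N := p) n hn
    rw [hT']
    have hcomm : T * (t : Module.End ℂ (CuspForm (Gamma0 p) 2))
        = (t : Module.End ℂ (CuspForm (Gamma0 p) 2)) * T :=
      congrArg Subtype.val (mul_comm (⟨T, hT⟩ : ↥(heckeAlgebra p 2 (∅ : Set ℕ))) t)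
    have h1 : T ((t : Module.End ℂ (CuspForm (Gamma0 p) 2)) f)
        = (t : Module.End ℂ (CuspForm (Gamma0 p) 2)) (T f) := by
      rw [← Module.End.mul_apply, hcomm, Module.End.mul_apply]
    rw [h1]
    have hTf : T f ∈ intLattice p 2 := mem_intLattice_of_mem_heckeAlgebra one_le_two hT hf
    have := pairing_apply p t ⟨T f, hTf⟩
    rw [h ⟨T f, hTf⟩] at this
    rw [← this]
    simp

/-- **Hecke duality.** Every ℤ-linear functional on the Hecke algebra is `t ↦ a_1(t g)` for a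
cusp form `g`. -/
theorem exists_cuspForm_of_functional (Λ : ↥(heckeAlgebra p 2 (∅ : Set ℕ)) →ₗ[ℤ] ℤ) :
    ∃ g : CuspForm (Gamma0 p) 2, ∀ t : ↥(heckeAlgebra p 2 (∅ : Set ℕ)),
      qCoeff ⇑((t : Module.End ℂ (CuspForm (Gamma0 p) 2)) g) 1 = (Λ t : ℂ) := by
  have : Module.Finite ℤ ↥(heckeAlgebra p 2 (∅ : Set ℕ)) := Fermat.Agent.S22.result p 2 ∅
  have : Module.Free ℤ ↥(heckeAlgebra p 2 (∅ : Set ℕ)) :=
    Module.free_of_finite_type_torsion_free'
  have := intLattice.moduleFinite p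
  have := intLattice.moduleFree p
  obtain ⟨d, f, hd, hf⟩ := exists_dual_rep (pairing p) (pairing_left_nondeg p)
    (pairing_right_nondeg p) Λ
  refine ⟨(d : ℂ)⁻¹ • (f : CuspForm (Gamma0 p) 2), fun t => ?_⟩
  have h1 := pairing_apply p t f
  rw [hf t] at h1
  have hd' : (d : ℂ) ≠ 0 := Int.cast_ne_zero.mpr hd
  rw [map_smul, ← coeffL_apply, map_smul, coeffL_apply, ← h1, smul_eq_mul]
  push_cast
  field_simp

/-! ### The upper bound -/

/-- a functional on the Hecke algebra lifting the Eisenstein character modulo `χ_E(ker ev)`. -/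
theorem exists_functional :
    ∃ Λ : ↥(heckeAlgebra p 2 (∅ : Set ℕ)) →ₗ[ℤ] ℤ, ∀ t : HeckeAlg,
      ∃ t' : HeckeAlg, heckeEvalForms p 2 t' = 0 ∧
        Λ (heckeEvalForms p 2 t) - MvPolynomial.aeval (eisensteinSystem p) t
          = MvPolynomial.aeval (eisensteinSystem p) t' := by
  classical
  have : Module.Finite ℤ ↥(heckeAlgebra p 2 (∅ : Set ℕ)) := Fermat.Agent.S22.result p 2 ∅
  have : Module.Free ℤ ↥(heckeAlgebra p 2 (∅ : Set ℕ)) :=
    Module.free_of_finite_type_torsion_free'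
  let b := Module.finBasis ℤ ↥(heckeAlgebra p 2 (∅ : Set ℕ))
  have hsurj := heckeEvalForms_surjective p
  choose u hu using fun i => hsurj (b i)
  let Λ : ↥(heckeAlgebra p 2 (∅ : Set ℕ)) →ₗ[ℤ] ℤ :=
    b.constr ℤ fun i => MvPolynomial.aeval (eisensteinSystem p) (u i)
  refine ⟨Λ, fun t => ?_⟩
  let c := b.repr (heckeEvalForms p 2 t)
  let t₁ : HeckeAlg := ∑ i, c i • u i
  have h1 : heckeEvalForms p 2 t₁ = heckeEvalForms p 2 t := by
    show heckeEvalForms p 2 (∑ i, c i • u i) = _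
    rw [map_sum]
    simp only [map_zsmul, hu]
    exact b.sum_repr (heckeEvalForms p 2 t)
  have h2 : Λ (heckeEvalForms p 2 t) = MvPolynomial.aeval (eisensteinSystem p) t₁ := by
    show Λ (heckeEvalForms p 2 t) = MvPolynomial.aeval (eisensteinSystem p) (∑ i, c i • u i)
    rw [map_sum]
    simp only [map_zsmul]
    conv_lhs => rw [← b.sum_repr (heckeEvalForms p 2 t)]
    rw [map_sum]
    simp only [map_zsmul, Λ, Module.Basis.constr_basis]
    rfl
  refine ⟨t₁ - t, ?_, ?_⟩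
  · rw [map_sub, h1, sub_self]
  · rw [h2, map_sub]

/-- **Block UBW.** The upper bound `UB` from an Eisenstein series `e` (a weight-2 form of level
`p` whose higher coefficients satisfy the Eisenstein recursion) and the non-existence
statements `NE`. -/
theorem UB_of_NE (s : ℕ → ℤ) (hs : IsEisCoeff p s)
    (e : ModularForm (Gamma0 p) 2)
    (he : ∀ k, 0 < k → qCoeff ⇑e k = (s k : ℂ))
    (NE : ∀ ℓ : ℕ, ℓ.Prime → ∀ (r : ℕ) (h : ModularForm (Gamma0 p) 2),
        qCoeff ⇑h 0 = qCoeff ⇑e 0 →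
        (∀ k, 0 < k → ∃ z : ℤ, qCoeff ⇑h k = ((ℓ ^ r : ℕ) : ℂ) * z) →
        ℓ ^ r ∣ eisensteinNumerator p) :
    ∃ t : HeckeAlg, heckeEvalForms p 2 t = 0 ∧
      MvPolynomial.aeval (eisensteinSystem p) t = (eisensteinNumerator p : ℤ) := by
  classical
  -- the ideal `χ_E(ker ev)` of `ℤ`
  let 𝔞 : Ideal ℤ := Ideal.map (chiE p) (RingHom.ker (heckeEvalForms p 2))
  have hχsurj : Function.Surjective (chiE p) := fun a => ⟨MvPolynomial.C a, chiE_C p a⟩
  have hmem : ∀ x : ℤ, x ∈ 𝔞 ↔ ∃ t : HeckeAlg, heckeEvalForms p 2 t = 0 ∧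
      MvPolynomial.aeval (eisensteinSystem p) t = x := by
    intro x
    rw [Ideal.mem_map_iff_of_surjective (chiE p) hχsurj]
    constructor
    · rintro ⟨t, ht, rfl⟩
      exact ⟨t, RingHom.mem_ker.1 ht, rfl⟩
    · rintro ⟨t, ht, rfl⟩
      exact ⟨t, RingHom.mem_ker.2 ht, rfl⟩
  obtain ⟨m, hm⟩ : ∃ m : ℤ, 𝔞 = Ideal.span {m} :=
    ⟨_, (Ideal.span_singleton_generator 𝔞).symm⟩
  rw [← hmem]
  -- it suffices to show `m ∣ n`
  suffices hdvd : m.natAbs ∣ eisensteinNumerator p by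
    rw [hm, Ideal.mem_span_singleton]
    exact Int.natAbs_dvd_natAbs.1 (by simpa using hdvd)
  rw [Nat.dvd_iff_prime_pow_dvd_dvd]
  intro ℓ r hℓ hℓr
  have hℓrm : ((ℓ ^ r : ℕ) : ℤ) ∣ m := Int.natCast_dvd.2 hℓr
  obtain ⟨w, hw⟩ := hℓrm
  -- the cusp form `g` with `a_k(g) ≡ s k` modulo `m`
  obtain ⟨Λ, hΛ⟩ := exists_functional p
  obtain ⟨g, hg⟩ := exists_cuspForm_of_functional p Λ
  have hgk : ∀ k, 0 < k → ∃ z : ℤ, qCoeff ⇑g k = (s k : ℂ) + (m : ℂ) * z := by
    intro k hk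
    obtain ⟨t, ht1, ht2⟩ := exists_heckeAlg_coeff p s hs k hk
    obtain ⟨t', ht'0, ht'⟩ := hΛ t
    have hmem' : MvPolynomial.aeval (eisensteinSystem p) t' ∈ 𝔞 := (hmem _).2 ⟨t', ht'0, rfl⟩
    rw [hm, Ideal.mem_span_singleton] at hmem'
    obtain ⟨z, hz⟩ := hmem'
    refine ⟨z, ?_⟩
    rw [ht1 g]
    have := hg (heckeEvalForms p 2 t)
    rw [show ev p t = ((heckeEvalForms p 2 t : ↥(heckeAlgebra p 2 (∅ : Set ℕ))) :
      Module.End ℂ (CuspForm (Gamma0 p) 2)) from rfl, this]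
    have h3 : Λ (heckeEvalForms p 2 t) = s k + m * z := by
      rw [← ht2, ← hz, ← ht']
      ring
    rw [h3]
    push_cast
    ring
  -- the form `h = e - g`
  let gm : ModularForm (Gamma0 p) 2 := ModularFormClass.modularForm g
  have hcoe : (⇑(e - gm) : UpperHalfPlane → ℂ) = ⇑e - ⇑g := by
    ext z
    simp [gm]
  have hq : ∀ k, qCoeff ⇑(e - gm) k = qCoeff ⇑e k - qCoeff ⇑g k := by
    intro k
    simp only [qCoeff, hcoe]
    rw [ModularForm.qExpansion_sub one_pos (hΓ p) e g, map_sub]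
  refine NE ℓ hℓ r (e - gm) ?_ ?_
  · rw [hq, qCoeff_zero_index, sub_zero]
  · intro k hk
    obtain ⟨z, hz⟩ := hgk k hk
    refine ⟨-(w * z), ?_⟩
    rw [hq, he k hk, hz, hw]
    push_cast
    ring

end

end Fermat.Agent.S16_UBW
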