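import Fermat.Agent.S16_E2N
import Fermat.Agent.S16_UBW

/-!
# S16, block (E) (helper6): the Eisenstein series `e = (p·E₂(pτ) − E₂(τ))/24` on `Γ₀(p)`

`exists_eis p` : there is `e : ModularForm (Γ₀(p)) 2` with `a₀(e) = (p − 1)/24` and
`a_k(e) = σ'(k)` (the sum of the divisors of `k` prime to `p`) for `k ≥ 1`: exactly the hypothesis
`(E)` of `S16_UBW.UB_of_NE` / `S16_Asm`.
-/

set_option autoImplicit false

noncomputable section

open UpperHalfPlane ModularForm ModularFormClass CongruenceSubgroup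
open scoped MatrixGroups ModularForm

namespace Fermat.Agent.S16_Eis

open Fermat.Agent.S16_E2N Fermat.Agent.S16_UBW

/-- the divisors of `n` divisible by the prime `p` are the `p·d`, `d ∣ n/p`. -/
theorem sum_divisors_filter_dvd (p : ℕ) (hp : p.Prime) (n : ℕ) (hn : n ≠ 0) :
    ∑ d ∈ n.divisors.filter (fun d => p ∣ d), (d : ℤ)
      = if p ∣ n then (p : ℤ) * ∑ d ∈ (n / p).divisors, (d : ℤ) else 0 := by
  by_cases h : p ∣ n
  · rw [if_pos h]
    obtain ⟨m, rfl⟩ := h
    have hm : m ≠ 0 := fun h0 => hn (by rw [h0, mul_zero])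
    rw [Nat.mul_div_cancel_left _ hp.pos, Finset.mul_sum]
    have himg : (p * m).divisors.filter (fun d => p ∣ d) = m.divisors.image (fun d => p * d) := by
      ext d
      simp only [Finset.mem_filter, Nat.mem_divisors, Finset.mem_image]
      constructor
      · rintro ⟨⟨hd, -⟩, ⟨d', rfl⟩⟩
        exact ⟨d', ⟨(Nat.mul_dvd_mul_iff_left hp.pos).mp hd, hm⟩, rfl⟩
      · rintro ⟨d', ⟨hd', -⟩, rfl⟩
        exact ⟨⟨Nat.mul_dvd_mul_left p hd', hn⟩, Dvd.intro _ rfl⟩
    rw [himg, Finset.sum_image]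
    · refine Finset.sum_congr rfl fun d _ => ?_
      push_cast
      ring
    · intro a _ b _ hab
      exact Nat.eq_of_mul_eq_mul_left hp.pos hab
  · rw [if_neg h]
    apply Finset.sum_eq_zero
    intro d hd
    rw [Finset.mem_filter, Nat.mem_divisors] at hd
    exact absurd (hd.2.trans hd.1.1) h

/-- `σ₁(n) − p·σ₁(n/p) = σ'(n)`. -/
theorem sigma_sub_eq_sigmaP (p : ℕ) (hp : p.Prime) (n : ℕ) (hn : n ≠ 0) :
    ((ArithmeticFunction.sigma 1 n : ℕ) : ℤ)
      - (p : ℤ) * (if p ∣ n then ((ArithmeticFunction.sigma 1 (n / p) : ℕ) : ℤ) else 0)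
      = sigmaP p n := by
  have h1 : ((ArithmeticFunction.sigma 1 n : ℕ) : ℤ) = ∑ d ∈ n.divisors, (d : ℤ) := by
    rw [ArithmeticFunction.sigma_one_apply]
    push_cast
    rfl
  have h2 : ((ArithmeticFunction.sigma 1 (n / p) : ℕ) : ℤ) = ∑ d ∈ (n / p).divisors, (d : ℤ) := by
    rw [ArithmeticFunction.sigma_one_apply]
    push_cast
    rfl
  have h3 := Finset.sum_filter_add_sum_filter_not n.divisors (fun d => p ∣ d)
    (fun d => (d : ℤ))
  have h4 := sum_divisors_filter_dvd p hp n hn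
  unfold sigmaP
  rw [h1, h2, ← h3, h4]
  split_ifs <;> ring

/-- **Block (E).** -/
theorem exists_eis (p : ℕ) [Fact p.Prime] :
    ∃ e : ModularForm (Gamma0 p) 2, qCoeff ⇑e 0 = ((p : ℂ) - 1) / 24 ∧
      ∀ k, 0 < k → qCoeff ⇑e k = (sigmaP p k : ℂ) := by
  have hp : p.Prime := Fact.out
  haveI : NeZero p := ⟨hp.ne_zero⟩
  refine ⟨((1 / 24 : ℂ)) • eN p, ?_, ?_⟩
  · show (qExpansion 1 ⇑(((1 / 24 : ℂ)) • eN p)).coeff 0 = _
    rw [ModularForm.coe_smul, ModularForm.qExpansion_smul one_pos (gamma0_one_mem p),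
      PowerSeries.coeff_smul, qExpansion_eN_coeff, eCoeff_zero]
    simp only [smul_eq_mul]
    ring
  · intro k hk
    show (qExpansion 1 ⇑(((1 / 24 : ℂ)) • eN p)).coeff k = _
    rw [ModularForm.coe_smul, ModularForm.qExpansion_smul one_pos (gamma0_one_mem p),
      PowerSeries.coeff_smul, qExpansion_eN_coeff, eCoeff_of_pos p hk.ne']
    have h := sigma_sub_eq_sigmaP p hp k hk.ne'
    have h' : ((sigmaP p k : ℤ) : ℂ) = ((ArithmeticFunction.sigma 1 k : ℕ) : ℂ)
        - (p : ℂ) * (if p ∣ k then ((ArithmeticFunction.sigma 1 (k / p) : ℕ) : ℂ) else 0) := by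
      rw [← h]
      split_ifs <;> push_cast <;> ring
    rw [h']
    simp only [smul_eq_mul]
    ring

end Fermat.Agent.S16_Eis
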