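import Fermat.Agent.S16_E2N

/-!
# S16, block Ell (helper6): the elliptic points of `Γ₀(p)`

* `ep2`: for a prime `p ≡ 1 mod 4` there is `τ ∈ ℍ` (fixed by `[[a, b], [p, -a]]`, `a² + bp = -1`,
  automorphy factor `i`) at which every weight-2 form on `Γ₀(p)` and `E₆` vanish;
* `ep3`: for a prime `p ≡ 1 mod 3` there is `τ ∈ ℍ` (fixed by `[[a, b], [p, -a-1]]`,
  `a² + a + 1 = -bp`, automorphy factor a primitive cube root of unity) at which every weight-2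
  form on `Γ₀(p)` and `E₄` vanish.
-/

set_option autoImplicit false

noncomputable section

open UpperHalfPlane ModularForm EisensteinSeries
open scoped MatrixGroups ModularForm

namespace Fermat.Agent.S16_Ell

open Fermat.Agent.S24_Hermite (coe_smul_int)
open Fermat.Agent.S16_E2N (denom_int)

/-- abstract form: a fixed point `τ` of `γ ∈ Γ₀(N)` kills the weight-2 forms if the automorphy
factor `ω` satisfies `ω² ≠ 1`. -/
theorem form_eq_zero_of_fixed {N : ℕ} (γ : SL(2, ℤ)) (hγ : γ ∈ CongruenceSubgroup.Gamma0 N)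
    (τ : ℍ) (hfix : γ • τ = τ) (hne : denom γ τ ^ 2 ≠ 1)
    (h : ModularForm (CongruenceSubgroup.Gamma0 N) 2) : h τ = 0 := by
  have h1 := SlashInvariantForm.slash_action_eqn_SL'' h hγ τ
  rw [hfix] at h1
  have h2 : (1 - denom γ τ ^ 2) * h τ = 0 := by
    have e : denom γ τ ^ (2 : ℤ) = denom γ τ ^ 2 := by norm_cast
    rw [e] at h1
    linear_combination h1
  rcases mul_eq_zero.mp h2 with h3 | h3
  · exact absurd (sub_eq_zero.mp h3).symm hne
  · exact h3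

/-- abstract fixed-point criterion: `cτ + d = ω`, `aτ + b = ωτ` gives `γ • τ = τ` and
`denom γ τ = ω`. -/
theorem smul_eq_self_of (γ : SL(2, ℤ)) (τ : ℍ) (ω : ℂ)
    (hω : (γ 1 0 : ℂ) * (τ : ℂ) + (γ 1 1 : ℂ) = ω)
    (h : (γ 0 0 : ℂ) * (τ : ℂ) + (γ 0 1 : ℂ) = ω * (τ : ℂ)) :
    γ • τ = τ ∧ denom γ τ = ω := by
  have hden : denom γ τ = ω := by rw [denom_int, hω]
  have hω0 : ω ≠ 0 := by
    rw [← hden]
    exact denom_ne_zero γ τ
  refine ⟨?_, hden⟩
  apply UpperHalfPlane.ext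
  rw [coe_smul_int, hω, h, mul_div_cancel_left₀ _ hω0]

theorem exists_sq_add_one (p : ℕ) [Fact p.Prime] (hp4 : p % 4 = 1) :
    ∃ a b : ℤ, a ^ 2 + b * p = -1 := by
  have h1 : IsSquare (-1 : ZMod p) := ZMod.exists_sq_eq_neg_one_iff.mpr (by omega)
  obtain ⟨x, hx⟩ := h1
  obtain ⟨a, rfl⟩ := ZMod.intCast_surjective x
  have h2 : ((a ^ 2 + 1 : ℤ) : ZMod p) = 0 := by
    push_cast
    rw [pow_two, ← hx]
    ring
  obtain ⟨c, hc⟩ := (ZMod.intCast_zmod_eq_zero_iff_dvd _ p).mp h2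
  exact ⟨a, -c, by linear_combination hc⟩

theorem exists_sq_add_self_add_one (p : ℕ) [Fact p.Prime] (hp3 : p % 3 = 1) :
    ∃ a b : ℤ, a ^ 2 + a + 1 + b * p = 0 := by
  have hp : p.Prime := Fact.out
  haveI : Fact (Nat.Prime 3) := ⟨by norm_num⟩
  have hcard : 3 ∣ Fintype.card (ZMod p)ˣ := by
    rw [ZMod.card_units p]
    have := hp.two_le
    omega
  obtain ⟨u, hu⟩ := exists_prime_orderOf_dvd_card 3 hcard
  have hu3 : (u : ZMod p) ^ 3 = 1 := by
    have := pow_orderOf_eq_one u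
    rw [hu] at this
    rw [← Units.val_pow_eq_pow_val, this, Units.val_one]
  have hu1 : (u : ZMod p) ≠ 1 := by
    intro h
    have : u = 1 := Units.ext h
    rw [this, orderOf_one] at hu
    omega
  have h0 : ((u : ZMod p) - 1) * ((u : ZMod p) ^ 2 + (u : ZMod p) + 1) = 0 := by
    linear_combination hu3
  have h1 : (u : ZMod p) ^ 2 + (u : ZMod p) + 1 = 0 := by
    rcases mul_eq_zero.mp h0 with h | h
    · exact absurd (sub_eq_zero.mp h) hu1
    · exact h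
  obtain ⟨a, ha⟩ := ZMod.intCast_surjective (u : ZMod p)
  have h2 : ((a ^ 2 + a + 1 : ℤ) : ZMod p) = 0 := by
    push_cast
    rw [ha]
    exact h1
  obtain ⟨c, hc⟩ := (ZMod.intCast_zmod_eq_zero_iff_dvd _ p).mp h2
  exact ⟨a, -c, by linear_combination hc⟩

/-- **(EP2)** for a prime `p ≡ 1 mod 4` there is a point of `ℍ` at which every weight-2 form on
`Γ₀(p)` vanishes and `E₆` vanishes (so `j = 1728` there). -/
theorem ep2 (p : ℕ) [Fact p.Prime] (hp4 : p % 4 = 1) :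
    ∃ τ : ℍ, (∀ h : ModularForm (CongruenceSubgroup.Gamma0 p) 2, h τ = 0) ∧ E₆ τ = 0 := by
  have hp : p.Prime := Fact.out
  have hp0 : (p : ℂ) ≠ 0 := by exact_mod_cast hp.ne_zero
  have hppos : (0 : ℝ) < p := by exact_mod_cast hp.pos
  obtain ⟨a, b, hab⟩ := exists_sq_add_one p hp4
  let γ : SL(2, ℤ) := ⟨!![a, b; (p : ℤ), -a], by
    rw [Matrix.det_fin_two_of]
    linear_combination -hab⟩
  have hγ00 : γ 0 0 = a := rfl
  have hγ01 : γ 0 1 = b := rfl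
  have hγ10 : γ 1 0 = (p : ℤ) := rfl
  have hγ11 : γ 1 1 = -a := rfl
  have hγ : γ ∈ CongruenceSubgroup.Gamma0 p := by
    rw [CongruenceSubgroup.Gamma0_mem, hγ10]
    simp
  have him : 0 < (((a : ℂ) + Complex.I) / (p : ℂ)).im := by
    have e : (((a : ℂ) + Complex.I) / (p : ℂ)).im = 1 / (p : ℝ) := by
      rw [Complex.div_natCast_im]
      simp
    rw [e]
    positivity
  let τ : ℍ := ⟨((a : ℂ) + Complex.I) / (p : ℂ), him⟩
  have hτ : (τ : ℂ) = ((a : ℂ) + Complex.I) / (p : ℂ) := rfl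
  have habC : (a : ℂ) ^ 2 + (b : ℂ) * (p : ℂ) = -1 := by exact_mod_cast hab
  have h1 : (γ 1 0 : ℂ) * (τ : ℂ) + (γ 1 1 : ℂ) = Complex.I := by
    rw [hγ10, hγ11, hτ]
    push_cast
    field_simp
    ring
  have h2 : (γ 0 0 : ℂ) * (τ : ℂ) + (γ 0 1 : ℂ) = Complex.I * (τ : ℂ) := by
    rw [hγ00, hγ01, hτ]
    field_simp
    linear_combination habC - Complex.I_sq
  obtain ⟨hfix, hden⟩ := smul_eq_self_of γ τ Complex.I h1 h2
  refine ⟨τ, fun h => form_eq_zero_of_fixed γ hγ τ hfix ?_ h, ?_⟩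
  · rw [hden, Complex.I_sq]
    norm_num
  · have h6 := Fermat.Agent.S24_JBasic.E₆_smul γ τ
    rw [hfix, hden] at h6
    have e : (Complex.I : ℂ) ^ (6 : ℤ) = -1 := by
      have : (Complex.I : ℂ) ^ (6 : ℤ) = Complex.I ^ 6 := by norm_cast
      rw [this]
      linear_combination (Complex.I ^ 4 + Complex.I ^ 2 + 1 - 2 * Complex.I ^ 2 + 0) * Complex.I_sq
    rw [e] at h6
    have h7 : (2 : ℂ) * E₆ τ = 0 := by linear_combination h6
    exact (mul_eq_zero.mp h7).resolve_left two_ne_zero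

/-- **(EP3)** for a prime `p ≡ 1 mod 3` there is a point of `ℍ` at which every weight-2 form on
`Γ₀(p)` vanishes and `E₄` vanishes (so `j = 0` there). -/
theorem ep3 (p : ℕ) [Fact p.Prime] (hp3 : p % 3 = 1) :
    ∃ τ : ℍ, (∀ h : ModularForm (CongruenceSubgroup.Gamma0 p) 2, h τ = 0) ∧ E₄ τ = 0 := by
  have hp : p.Prime := Fact.out
  have hp0 : (p : ℂ) ≠ 0 := by exact_mod_cast hp.ne_zero
  have hppos : (0 : ℝ) < p := by exact_mod_cast hp.pos
  obtain ⟨a, b, hab⟩ := exists_sq_add_self_add_one p hp3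
  let γ : SL(2, ℤ) := ⟨!![a, b; (p : ℤ), -a - 1], by
    rw [Matrix.det_fin_two_of]
    linear_combination -hab⟩
  have hγ00 : γ 0 0 = a := rfl
  have hγ01 : γ 0 1 = b := rfl
  have hγ10 : γ 1 0 = (p : ℤ) := rfl
  have hγ11 : γ 1 1 = -a - 1 := rfl
  have hγ : γ ∈ CongruenceSubgroup.Gamma0 p := by
    rw [CongruenceSubgroup.Gamma0_mem, hγ10]
    simp
  set s : ℂ := ((Real.sqrt 3 : ℝ) : ℂ) with hs
  have hs2 : s ^ 2 = 3 := Fermat.Agent.S24_JFun.sqrt_three_sq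
  have him : 0 < ((2 * (a : ℂ) + 1 + s * Complex.I) / (2 * (p : ℂ))).im := by
    have e : ((2 * (a : ℂ) + 1 + s * Complex.I) / (2 * (p : ℂ))).im
        = Real.sqrt 3 / (2 * (p : ℝ)) := by
      have e2 : (2 * (p : ℂ)) = (((2 * (p : ℝ)) : ℝ) : ℂ) := by push_cast; ring
      rw [e2, Complex.div_ofReal_im, hs]
      simp
    rw [e]
    have : (0 : ℝ) < Real.sqrt 3 := Real.sqrt_pos.mpr (by norm_num)
    positivity
  let τ : ℍ := ⟨(2 * (a : ℂ) + 1 + s * Complex.I) / (2 * (p : ℂ)), him⟩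
  have hτ : (τ : ℂ) = (2 * (a : ℂ) + 1 + s * Complex.I) / (2 * (p : ℂ)) := rfl
  have habC : (a : ℂ) ^ 2 + (a : ℂ) + 1 + (b : ℂ) * (p : ℂ) = 0 := by exact_mod_cast hab
  set ω : ℂ := (-1 + s * Complex.I) / 2 with hω
  have hω2 : ω ^ 2 + ω + 1 = 0 := by
    rw [hω]
    linear_combination (s ^ 2 / 4) * Complex.I_sq - (1 / 4 : ℂ) * hs2
  have h1 : (γ 1 0 : ℂ) * (τ : ℂ) + (γ 1 1 : ℂ) = ω := by
    rw [hγ10, hγ11, hτ, hω]
    push_cast
    field_simp
    ring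
  have h2 : (γ 0 0 : ℂ) * (τ : ℂ) + (γ 0 1 : ℂ) = ω * (τ : ℂ) := by
    rw [hγ00, hγ01, hτ, hω]
    field_simp
    linear_combination 4 * habC - s ^ 2 * Complex.I_sq + hs2
  obtain ⟨hfix, hden⟩ := smul_eq_self_of γ τ ω h1 h2
  have hω1 : ω ≠ 1 := by
    intro h
    rw [h] at hω2
    norm_num at hω2
  refine ⟨τ, fun h => form_eq_zero_of_fixed γ hγ τ hfix ?_ h, ?_⟩
  · rw [hden]
    intro h
    have h3 : ω = -2 := by linear_combination hω2 - h
    rw [h3] at h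
    norm_num at h
  · have h4 := Fermat.Agent.S24_JBasic.E₄_smul γ τ
    rw [hfix, hden] at h4
    have e : ω ^ (4 : ℤ) = ω := by
      have : ω ^ (4 : ℤ) = ω ^ 4 := by norm_cast
      rw [this]
      linear_combination (ω ^ 2 - ω) * hω2
    rw [e] at h4
    have h7 : (1 - ω) * E₄ τ = 0 := by linear_combination h4
    rcases mul_eq_zero.mp h7 with h | h
    · exact absurd (sub_eq_zero.mp h).symm hω1
    · exact h

/-- `ep2` with the value of `j` recorded. -/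
theorem ep2_j (p : ℕ) [Fact p.Prime] (hp4 : p % 4 = 1) :
    ∃ τ : ℍ, (∀ h : ModularForm (CongruenceSubgroup.Gamma0 p) 2, h τ = 0) ∧ E₆ τ = 0 ∧
      Fermat.Agent.S24_Defs.jFun τ = 1728 := by
  obtain ⟨τ, h1, h2⟩ := ep2 p hp4
  refine ⟨τ, h1, h2, ?_⟩
  have h3 := Fermat.Agent.S24_JFun.jFun_sub_1728 τ
  rw [h2] at h3
  simp only [ne_eq, OfNat.ofNat_ne_zero, not_false_eq_true, zero_pow, zero_div] at h3
  exact sub_eq_zero.mp h3

/-- `ep3` with the value of `j` recorded. -/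
theorem ep3_j (p : ℕ) [Fact p.Prime] (hp3 : p % 3 = 1) :
    ∃ τ : ℍ, (∀ h : ModularForm (CongruenceSubgroup.Gamma0 p) 2, h τ = 0) ∧ E₄ τ = 0 ∧
      Fermat.Agent.S24_Defs.jFun τ = 0 := by
  obtain ⟨τ, h1, h2⟩ := ep3 p hp3
  refine ⟨τ, h1, h2, ?_⟩
  have h3 : Fermat.Agent.S24_Defs.jFun τ = E₄ τ ^ 3 / ModularForm.discriminant τ := rfl
  rw [h3, h2]
  simp

end Fermat.Agent.S16_Ell
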