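import Fermat.Agent.S16_UBW
import Fermat.Prelude.Def_GaloisRep_Flat

/-!
# S16, block NEA: the non-existence hypothesis `NE` of `S16_UBW.UB_of_NE` from the five
normalised leaf statements

`IsOneMod p ℓ t h` : `h = 1 + ℓ^t · (ℓ-integral q-series)`.

Leaves (for a prime `p ≥ 5`):
* `L8` : no `h` with `IsOneMod p 2 3 h`;
* `L4` : `p ≡ 1 mod 4` ⟹ no `h` with `IsOneMod p 2 2 h`;
* `L9` : no `h` with `IsOneMod p 3 2 h`;
* `L3` : `p ≡ 1 mod 3` ⟹ no `h` with `IsOneMod p 3 1 h`;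
* `L5` : for every prime `ℓ ≥ 5` (including `ℓ = p`) no `h` with `IsOneMod p ℓ 1 h`.
-/

set_option autoImplicit false

open ModularCurve CuspForm CongruenceSubgroup ModularFormClass

namespace Fermat.Agent.S16_NEA

open Fermat.Agent.S16_Red Fermat.Agent.S16_UBW Fermat.Agent.S23_Hecke

noncomputable section

/-- `h = 1 + ℓ^t · (ℓ-integral q-series)`. -/
def IsOneMod (p ℓ t : ℕ) (h : ModularForm (Gamma0 p) 2) : Prop :=
  qCoeff ⇑h 0 = 1 ∧ ∀ k, 0 < k → ∃ r ∈ GaloisRep.ratLocalizedAt ℓ,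
    qCoeff ⇑h k = ((ℓ ^ t : ℕ) : ℂ) * ((r : ℚ) : ℂ)

theorem natCast_inv_mem (ℓ : ℕ) (hℓ : ℓ.Prime) (m : ℕ) (hm : ¬ ℓ ∣ m) :
    ((m : ℚ))⁻¹ ∈ GaloisRep.ratLocalizedAt ℓ := by
  show ((m : ℚ))⁻¹.den.Coprime ℓ
  have hm0 : m ≠ 0 := fun h => hm (h ▸ dvd_zero ℓ)
  have hden : ((m : ℚ))⁻¹.den = m := by
    rw [Rat.inv_natCast_den]
    simp [hm0]
  rw [hden]
  exact ((Nat.Prime.coprime_iff_not_dvd hℓ).2 hm).symm

/-- The arithmetic core: if `ℓ^r ∤ n` then `ℓ^r z / ((p-1)/24) = (ℓ u) ρ` with `ρ` `ℓ`-integral,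
`u = 24 / gcd(p-1, 12)`. -/
theorem arith_core (p ℓ r : ℕ) (hp : 2 ≤ p) (hℓ : ℓ.Prime)
    (hnd : ¬ ℓ ^ r ∣ eisensteinNumerator p) (z : ℤ) :
    ∃ ρ ∈ GaloisRep.ratLocalizedAt ℓ,
      ((ℓ ^ r : ℕ) : ℚ) * z / (((p : ℚ) - 1) / 24)
        = ((ℓ * (24 / Nat.gcd (p - 1) 12) : ℕ) : ℚ) * ρ := by
  set g := Nat.gcd (p - 1) 12 with hg
  have hg12 : g ∣ 12 := Nat.gcd_dvd_right _ _
  have hgp : g ∣ p - 1 := Nat.gcd_dvd_left _ _
  have hg0 : 0 < g := Nat.pos_of_dvd_of_pos hg12 (by norm_num)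
  have hn : eisensteinNumerator p = (p - 1) / g := rfl
  set n := (p - 1) / g with hn'
  have hpn : p - 1 = n * g := (Nat.div_mul_cancel hgp).symm
  have hn0 : n ≠ 0 := by
    intro h0
    rw [h0, zero_mul] at hpn
    omega
  have h24 : 24 = 24 / g * g := (Nat.div_mul_cancel (hg12.trans (by norm_num))).symm
  set u := 24 / g with hu
  obtain ⟨e, n', hn'dvd, hnen'⟩ := Nat.exists_eq_pow_mul_and_not_dvd hn0 ℓ hℓ.ne_one
  rw [hn] at hnd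
  have her : e < r := by
    by_contra hle
    rw [not_lt] at hle
    apply hnd
    rw [hnen']
    exact Dvd.dvd.mul_right (pow_dvd_pow ℓ hle) n'
  obtain ⟨d, rfl⟩ : ∃ d, r = e + 1 + d := ⟨r - e - 1, by omega⟩
  have hn'0 : (n' : ℚ) ≠ 0 := by
    have : n' ≠ 0 := fun h => hn'dvd (h ▸ dvd_zero ℓ)
    exact_mod_cast this
  refine ⟨((ℓ ^ d : ℕ) : ℚ) * z * ((n' : ℚ))⁻¹, ?_, ?_⟩
  · refine Subring.mul_mem _ (Subring.mul_mem _ (natCast_mem _ _) (intCast_mem _ _))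
      (natCast_inv_mem ℓ hℓ n' hn'dvd)
  · have hp1 : ((p : ℚ) - 1) = (n : ℚ) * g := by
      have : ((p - 1 : ℕ) : ℚ) = (p : ℚ) - 1 := by
        rw [Nat.cast_sub (by omega)]; simp
      rw [← this, hpn]
      push_cast
      ring
    have h24' : (24 : ℚ) = (u : ℚ) * g := by exact_mod_cast congrArg (Nat.cast (R := ℚ)) h24
    have hgq : (g : ℚ) ≠ 0 := by exact_mod_cast hg0.ne'
    have hℓq : (ℓ : ℚ) ≠ 0 := by exact_mod_cast hℓ.ne_zero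
    have hnq : (n : ℚ) = (ℓ : ℚ) ^ e * n' := by rw [hnen']; push_cast; ring
    rw [hp1, h24', hnq]
    push_cast
    field_simp
    ring

theorem dvd_aux2a (g : ℕ) (hg : g ∣ 12) : 2 ^ 2 ∣ 2 * (24 / g) := by
  have hle : g ≤ 12 := Nat.le_of_dvd (by norm_num) hg
  interval_cases g <;> revert hg <;> decide

theorem dvd_aux2b (g : ℕ) (hg : g ∣ 12) (h2 : 2 ∣ g) (h4 : ¬ 4 ∣ g) : 2 ^ 3 ∣ 2 * (24 / g) := by
  have hle : g ≤ 12 := Nat.le_of_dvd (by norm_num) hg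
  interval_cases g <;> revert hg h2 h4 <;> decide

theorem dvd_aux3 (g : ℕ) (hg : g ∣ 12) (h3 : ¬ 3 ∣ g) : 3 ^ 2 ∣ 3 * (24 / g) := by
  have hle : g ≤ 12 := Nat.le_of_dvd (by norm_num) hg
  interval_cases g <;> revert hg h3 <;> decide

variable (p : ℕ) [Fact p.Prime]

omit [Fact p.Prime] in
theorem qCoeff_smul_mf (c : ℂ) (h : ModularForm (Gamma0 p) 2) (k : ℕ) :
    qCoeff ⇑(c • h) k = c * qCoeff ⇑h k := by
  have h1 : ⇑(c • h) = c • ⇑h := rfl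
  simp only [qCoeff, h1]
  rw [ModularForm.qExpansion_smul one_pos (hΓ p) c h]
  simp

/-- **Block NEA.** The hypothesis `NE` of `UB_of_NE` from the five leaves, for `p ≥ 5`. -/
theorem NE_of_leaves (hp5 : 5 ≤ p)
    (L8 : ∀ h, ¬ IsOneMod p 2 3 h)
    (L4 : p % 4 = 1 → ∀ h, ¬ IsOneMod p 2 2 h)
    (L9 : ∀ h, ¬ IsOneMod p 3 2 h)
    (L3 : p % 3 = 1 → ∀ h, ¬ IsOneMod p 3 1 h)
    (L5 : ∀ ℓ : ℕ, ℓ.Prime → 5 ≤ ℓ → ∀ h, ¬ IsOneMod p ℓ 1 h)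
    (ℓ : ℕ) (hℓ : ℓ.Prime) (r : ℕ) (h : ModularForm (Gamma0 p) 2)
    (h0 : qCoeff ⇑h 0 = ((p : ℂ) - 1) / 24)
    (hk : ∀ k, 0 < k → ∃ z : ℤ, qCoeff ⇑h k = ((ℓ ^ r : ℕ) : ℂ) * z) :
    ℓ ^ r ∣ eisensteinNumerator p := by
  by_contra hnd
  have hp : p.Prime := Fact.out
  have hc0ne : (((p : ℂ) - 1) / 24) ≠ 0 := by
    have h1 : (p : ℂ) - 1 ≠ 0 := by
      have : ((p - 1 : ℕ) : ℂ) = (p : ℂ) - 1 := by
        rw [Nat.cast_sub (by omega)]; simp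
      rw [← this]
      exact_mod_cast (show p - 1 ≠ 0 by omega)
    exact div_ne_zero h1 (by norm_num)
  set h' : ModularForm (Gamma0 p) 2 := (((p : ℂ) - 1) / 24)⁻¹ • h with hh'
  have h'0 : qCoeff ⇑h' 0 = 1 := by
    rw [hh', qCoeff_smul_mf, h0]
    exact inv_mul_cancel₀ hc0ne
  obtain ⟨g, hgdef⟩ : ∃ g, g = Nat.gcd (p - 1) 12 := ⟨_, rfl⟩
  have hg12 : g ∣ 12 := hgdef ▸ Nat.gcd_dvd_right _ _
  have hgp : g ∣ p - 1 := hgdef ▸ Nat.gcd_dvd_left _ _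
  have h'k : ∀ k, 0 < k → ∃ ρ ∈ GaloisRep.ratLocalizedAt ℓ,
      qCoeff ⇑h' k = ((ℓ * (24 / g) : ℕ) : ℂ) * ((ρ : ℚ) : ℂ) := by
    intro k hkpos
    obtain ⟨z, hz⟩ := hk k hkpos
    obtain ⟨ρ, hρ, hρeq⟩ := arith_core p ℓ r hp.two_le hℓ hnd z
    refine ⟨ρ, hρ, ?_⟩
    rw [hh', qCoeff_smul_mf, hz, hgdef]
    have h2 : (((((ℓ ^ r : ℕ) : ℚ) * z / (((p : ℚ) - 1) / 24) : ℚ)) : ℂ)
        = ((((ℓ * (24 / Nat.gcd (p - 1) 12) : ℕ) : ℚ) * ρ : ℚ) : ℂ) := by rw [hρeq]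
    push_cast at h2 ⊢
    rw [← h2]
    field_simp
  have key : ∀ t, ℓ ^ t ∣ ℓ * (24 / g) → IsOneMod p ℓ t h' := by
    rintro t ⟨w, hw⟩
    refine ⟨h'0, fun k hkpos => ?_⟩
    obtain ⟨ρ, hρ, hρeq⟩ := h'k k hkpos
    refine ⟨(w : ℚ) * ρ, Subring.mul_mem _ (natCast_mem _ _) hρ, ?_⟩
    rw [hρeq, hw]
    push_cast
    ring
  have hpodd : p % 2 = 1 := by
    rcases hp.eq_two_or_odd with h2 | h2
    · omega
    · exact h2
  rcases lt_or_ge ℓ 5 with hlt | hge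
  · have h23 : ℓ = 2 ∨ ℓ = 3 := by
      have h2 := hℓ.two_le
      interval_cases ℓ
      · exact Or.inl rfl
      · exact Or.inr rfl
      · exact absurd hℓ (by decide)
    rcases h23 with rfl | rfl
    · by_cases h4 : p % 4 = 1
      · exact L4 h4 h' (key 2 (dvd_aux2a g hg12))
      · have h2g : 2 ∣ g := by
          rw [hgdef]
          exact Nat.dvd_gcd (by omega) (by norm_num)
        have h4g : ¬ 4 ∣ g := fun h4g => by
          have := h4g.trans hgp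
          omega
        exact L8 h' (key 3 (dvd_aux2b g hg12 h2g h4g))
    · by_cases h3 : p % 3 = 1
      · exact L3 h3 h' (key 1 (by rw [pow_one]; exact dvd_mul_right 3 _))
      · have h3g : ¬ 3 ∣ g := fun h3g => by
          have := h3g.trans hgp
          omega
        exact L9 h' (key 2 (dvd_aux3 g hg12 h3g))
  · exact L5 ℓ hℓ hge h' (key 1 (by rw [pow_one]; exact dvd_mul_right ℓ _))

/-- **The upper bound for `p ≥ 5`** from the Eisenstein series and the five leaves. -/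
theorem UB_of_leaves (hp5 : 5 ≤ p) (e : ModularForm (Gamma0 p) 2)
    (he0 : qCoeff ⇑e 0 = ((p : ℂ) - 1) / 24)
    (he : ∀ k, 0 < k → qCoeff ⇑e k = (sigmaP p k : ℂ))
    (L8 : ∀ h, ¬ IsOneMod p 2 3 h)
    (L4 : p % 4 = 1 → ∀ h, ¬ IsOneMod p 2 2 h)
    (L9 : ∀ h, ¬ IsOneMod p 3 2 h)
    (L3 : p % 3 = 1 → ∀ h, ¬ IsOneMod p 3 1 h)
    (L5 : ∀ ℓ : ℕ, ℓ.Prime → 5 ≤ ℓ → ∀ h, ¬ IsOneMod p ℓ 1 h) :
    ∃ t : HeckeAlg, heckeEvalForms p 2 t = 0 ∧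
      MvPolynomial.aeval (eisensteinSystem p) t = (eisensteinNumerator p : ℤ) :=
  UB_of_NE p (sigmaP p) (isEisCoeff_sigmaP p) e he
    (fun ℓ hℓ r h h0 hk => NE_of_leaves p hp5 L8 L4 L9 L3 L5 ℓ hℓ r h (h0.trans he0) hk)

/-! ### The plan's integer-coefficient leaf predicate -/

/-- `NEint p ℓ r` (the predicate `NE(p,ℓ,r)` of the plan): there is no `h ∈ M₂(Γ₀(p))` with
integer `q`-coefficients `a`, `ℓ ∤ a 0` and `ℓ^r ∣ a k` for all `k ≥ 1`. -/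
def NEint (p ℓ r : ℕ) : Prop :=
  ¬ ∃ (h : ModularForm (Gamma0 p) 2) (a : ℕ → ℤ), (∀ k, qCoeff ⇑h k = (a k : ℂ)) ∧
    ¬ ((ℓ : ℤ) ∣ a 0) ∧ ∀ k, 1 ≤ k → ((ℓ : ℤ) ^ r) ∣ a k

/-- Integer form of the arithmetic core: a uniform `n'` prime to `ℓ` such that
`n' · ℓ^r z / ((p-1)/24) = (ℓ u) w` with `w ∈ ℤ`, and `n' · 1` is the new constant term. -/
theorem arith_core_int (p ℓ r : ℕ) (hp : 2 ≤ p) (hℓ : ℓ.Prime)
    (hnd : ¬ ℓ ^ r ∣ eisensteinNumerator p) :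
    ∃ n' : ℕ, ¬ ℓ ∣ n' ∧ ∀ z : ℤ, ∃ w : ℤ,
      (n' : ℚ) * (((ℓ ^ r : ℕ) : ℚ) * z / (((p : ℚ) - 1) / 24))
        = ((ℓ * (24 / Nat.gcd (p - 1) 12) : ℕ) : ℚ) * w := by
  set g := Nat.gcd (p - 1) 12 with hg
  have hg12 : g ∣ 12 := Nat.gcd_dvd_right _ _
  have hgp : g ∣ p - 1 := Nat.gcd_dvd_left _ _
  have hg0 : 0 < g := Nat.pos_of_dvd_of_pos hg12 (by norm_num)
  have hn : eisensteinNumerator p = (p - 1) / g := rfl
  set n := (p - 1) / g with hn'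
  have hpn : p - 1 = n * g := (Nat.div_mul_cancel hgp).symm
  have hn0 : n ≠ 0 := by
    intro h0
    rw [h0, zero_mul] at hpn
    omega
  have h24 : 24 = 24 / g * g := (Nat.div_mul_cancel (hg12.trans (by norm_num))).symm
  set u := 24 / g with hu
  obtain ⟨e, n', hn'dvd, hnen'⟩ := Nat.exists_eq_pow_mul_and_not_dvd hn0 ℓ hℓ.ne_one
  rw [hn] at hnd
  have her : e < r := by
    by_contra hle
    rw [not_lt] at hle
    apply hnd
    rw [hnen']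
    exact Dvd.dvd.mul_right (pow_dvd_pow ℓ hle) n'
  obtain ⟨d, rfl⟩ : ∃ d, r = e + 1 + d := ⟨r - e - 1, by omega⟩
  have hn'0 : (n' : ℚ) ≠ 0 := by
    have : n' ≠ 0 := fun h => hn'dvd (h ▸ dvd_zero ℓ)
    exact_mod_cast this
  refine ⟨n', hn'dvd, fun z => ⟨((ℓ ^ d : ℕ) : ℤ) * z, ?_⟩⟩
  have hp1 : ((p : ℚ) - 1) = (n : ℚ) * g := by
    have : ((p - 1 : ℕ) : ℚ) = (p : ℚ) - 1 := by
      rw [Nat.cast_sub (by omega)]; simp
    rw [← this, hpn]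
    push_cast
    ring
  have h24' : (24 : ℚ) = (u : ℚ) * g := by exact_mod_cast congrArg (Nat.cast (R := ℚ)) h24
  have hgq : (g : ℚ) ≠ 0 := by exact_mod_cast hg0.ne'
  have hℓq : (ℓ : ℚ) ≠ 0 := by exact_mod_cast hℓ.ne_zero
  have hnq : (n : ℚ) = (ℓ : ℚ) ^ e * n' := by rw [hnen']; push_cast; ring
  rw [hp1, h24', hnq]
  push_cast
  field_simp
  ring

/-- **Block NEA, plan shape.** The hypothesis `NE` of `UB_of_NE` from the six non-existence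
theorems `NE8, NE4, NE3, NE9, NE5, NEp` of the plan, for a prime `p ≥ 5`. -/
theorem NE_of_leaves_int (hp5 : 5 ≤ p)
    (N8 : NEint p 2 3)
    (N4 : p % 4 = 1 → NEint p 2 2)
    (N3 : p % 3 = 1 → NEint p 3 1)
    (N9 : p % 3 = 2 → NEint p 3 2)
    (N5 : ∀ ℓ : ℕ, ℓ.Prime → 5 ≤ ℓ → ℓ ≠ p → NEint p ℓ 1)
    (Np : NEint p p 1)
    (ℓ : ℕ) (hℓ : ℓ.Prime) (r : ℕ) (h : ModularForm (Gamma0 p) 2)
    (h0 : qCoeff ⇑h 0 = ((p : ℂ) - 1) / 24)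
    (hk : ∀ k, 0 < k → ∃ z : ℤ, qCoeff ⇑h k = ((ℓ ^ r : ℕ) : ℂ) * z) :
    ℓ ^ r ∣ eisensteinNumerator p := by
  classical
  by_contra hnd
  have hp : p.Prime := Fact.out
  have hc0ne : (((p : ℂ) - 1) / 24) ≠ 0 := by
    have h1 : (p : ℂ) - 1 ≠ 0 := by
      have : ((p - 1 : ℕ) : ℂ) = (p : ℂ) - 1 := by
        rw [Nat.cast_sub (by omega)]; simp
      rw [← this]
      exact_mod_cast (show p - 1 ≠ 0 by omega)
    exact div_ne_zero h1 (by norm_num)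
  obtain ⟨n', hn', hcore⟩ := arith_core_int p ℓ r hp.two_le hℓ hnd
  obtain ⟨g, hgdef⟩ : ∃ g, g = Nat.gcd (p - 1) 12 := ⟨_, rfl⟩
  have hg12 : g ∣ 12 := hgdef ▸ Nat.gcd_dvd_right _ _
  have hgp : g ∣ p - 1 := hgdef ▸ Nat.gcd_dvd_left _ _
  rw [← hgdef] at hcore
  set H : ModularForm (Gamma0 p) 2 := ((n' : ℂ) * (((p : ℂ) - 1) / 24)⁻¹) • h with hH
  have hH0 : qCoeff ⇑H 0 = ((n' : ℤ) : ℂ) := by
    rw [hH, qCoeff_smul_mf, h0, mul_assoc, inv_mul_cancel₀ hc0ne, mul_one]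
    simp
  have hHk : ∀ k, 0 < k → ∃ w : ℤ, qCoeff ⇑H k = (((ℓ * (24 / g) : ℕ) : ℤ) * w : ℤ) := by
    intro k hkpos
    obtain ⟨z, hz⟩ := hk k hkpos
    obtain ⟨w, hw⟩ := hcore z
    refine ⟨w, ?_⟩
    rw [hH, qCoeff_smul_mf, hz, Int.cast_mul, Int.cast_natCast]
    have hR : (((ℓ * (24 / g) : ℕ) : ℂ) * (w : ℂ))
        = (((((ℓ * (24 / g) : ℕ) : ℚ) * w : ℚ)) : ℂ) := by
      rw [Rat.cast_mul, Rat.cast_natCast, Rat.cast_intCast]
    have hL : ((((n' : ℚ) * (((ℓ ^ r : ℕ) : ℚ) * z / (((p : ℚ) - 1) / 24)) : ℚ)) : ℂ)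
        = (n' : ℂ) * (((p : ℂ) - 1) / 24)⁻¹ * (((ℓ ^ r : ℕ) : ℂ) * z) := by
      push_cast
      field_simp
    rw [hR, ← hw, hL]
  choose w hw using hHk
  let a : ℕ → ℤ := fun k => if hk0 : 0 < k then ((ℓ * (24 / g) : ℕ) : ℤ) * w k hk0 else (n' : ℤ)
  have ha : ∀ k, qCoeff ⇑H k = (a k : ℂ) := by
    intro k
    by_cases hk0 : 0 < k
    · simp only [a, dif_pos hk0]
      exact hw k hk0
    · have : k = 0 := by omega
      subst this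
      simp only [a, dif_neg hk0]
      exact hH0
  have ha0 : ¬ ((ℓ : ℤ) ∣ a 0) := by
    simp only [a, dif_neg (lt_irrefl 0)]
    exact fun hd => hn' (Int.natCast_dvd_natCast.1 hd)
  have key : ∀ t, ℓ ^ t ∣ ℓ * (24 / g) → ¬ NEint p ℓ t := by
    intro t hdvd hNE
    refine hNE ⟨H, a, ha, ha0, fun k hk1 => ?_⟩
    have hk0 : 0 < k := hk1
    simp only [a, dif_pos hk0]
    have h1 : ((ℓ : ℤ) ^ t) ∣ ((ℓ * (24 / g) : ℕ) : ℤ) := by
      have := Int.natCast_dvd_natCast.2 hdvd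
      simpa using this
    exact Dvd.dvd.mul_right h1 _
  have hpodd : p % 2 = 1 := by
    rcases hp.eq_two_or_odd with h2 | h2
    · omega
    · exact h2
  rcases lt_or_ge ℓ 5 with hlt | hge
  · have h23 : ℓ = 2 ∨ ℓ = 3 := by
      have h2 := hℓ.two_le
      interval_cases ℓ
      · exact Or.inl rfl
      · exact Or.inr rfl
      · exact absurd hℓ (by decide)
    rcases h23 with rfl | rfl
    · by_cases h4 : p % 4 = 1
      · exact key 2 (dvd_aux2a g hg12) (N4 h4)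
      · have h2g : 2 ∣ g := by
          rw [hgdef]
          exact Nat.dvd_gcd (by omega) (by norm_num)
        have h4g : ¬ 4 ∣ g := fun h4g => by
          have := h4g.trans hgp
          omega
        exact key 3 (dvd_aux2b g hg12 h2g h4g) N8
    · by_cases h3 : p % 3 = 1
      · exact key 1 (by rw [pow_one]; exact dvd_mul_right 3 _) (N3 h3)
      · have h3g : ¬ 3 ∣ g := fun h3g => by
          have := h3g.trans hgp
          omega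
        have hp3 : p % 3 = 2 := by
          have : p % 3 ≠ 0 := fun h0 => by
            have h3p : 3 ∣ p := Nat.dvd_of_mod_eq_zero h0
            have := (Nat.prime_dvd_prime_iff_eq (by decide) hp).1 h3p
            omega
          omega
        exact key 2 (dvd_aux3 g hg12 h3g) (N9 hp3)
  · by_cases hℓp : ℓ = p
    · subst hℓp
      exact key 1 (by rw [pow_one]; exact dvd_mul_right ℓ _) Np
    · exact key 1 (by rw [pow_one]; exact dvd_mul_right ℓ _) (N5 ℓ hℓ hge hℓp)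

/-- **The upper bound for `p ≥ 5`** from the Eisenstein series and the plan's six leaves. -/
theorem UB_of_leaves_int (hp5 : 5 ≤ p) (e : ModularForm (Gamma0 p) 2)
    (he0 : qCoeff ⇑e 0 = ((p : ℂ) - 1) / 24)
    (he : ∀ k, 0 < k → qCoeff ⇑e k = (sigmaP p k : ℂ))
    (N8 : NEint p 2 3)
    (N4 : p % 4 = 1 → NEint p 2 2)
    (N3 : p % 3 = 1 → NEint p 3 1)
    (N9 : p % 3 = 2 → NEint p 3 2)
    (N5 : ∀ ℓ : ℕ, ℓ.Prime → 5 ≤ ℓ → ℓ ≠ p → NEint p ℓ 1)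
    (Np : NEint p p 1) :
    ∃ t : HeckeAlg, heckeEvalForms p 2 t = 0 ∧
      MvPolynomial.aeval (eisensteinSystem p) t = (eisensteinNumerator p : ℤ) :=
  UB_of_NE p (sigmaP p) (isEisCoeff_sigmaP p) e he
    (fun ℓ hℓ r h h0 hk =>
      NE_of_leaves_int p hp5 N8 N4 N3 N9 N5 Np ℓ hℓ r h (h0.trans he0) hk)

end

end Fermat.Agent.S16_NEA
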