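import Fermat.Agent.S16_L43
import Fermat.Agent.S16_Ell
import Fermat.Agent.S16_NEA

/-!
# S16, leaves `L4` and `L3` (helper6 + helper9): wiring

`L4 = S16_L43.no_oneMod4 ∘ S16_Ell.ep2` and `L3 = S16_L43.no_oneMod3 ∘ S16_Ell.ep3`, in the exact
shape of the hypotheses `L4`, `L3` of `S16_Asm.result_of_blocks`.
-/

set_option autoImplicit false

namespace Fermat.Agent.S16_L4L3

open Fermat.Agent.S16_NEA

/-- **Leaf L4**: for a prime `p ≥ 5`, `p ≡ 1 mod 4`, no weight-2 form on `Γ₀(p)` is `≡ 1 mod 4`. -/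
theorem l4 (p : ℕ) [Fact p.Prime] (hp5 : 5 ≤ p) (hp4 : p % 4 = 1) :
    ∀ h, ¬ IsOneMod p 2 2 h := by
  intro h hh
  obtain ⟨τ, hτ, hE6⟩ := Fermat.Agent.S16_Ell.ep2 p hp4
  exact Fermat.Agent.S16_L43.no_oneMod4 p (by omega) τ hE6 h (hτ h) hh.1 hh.2

/-- **Leaf L3**: for a prime `p ≥ 5`, `p ≡ 1 mod 3`, no weight-2 form on `Γ₀(p)` is `≡ 1 mod 3`. -/
theorem l3 (p : ℕ) [Fact p.Prime] (hp5 : 5 ≤ p) (hp3 : p % 3 = 1) :
    ∀ h, ¬ IsOneMod p 3 1 h := by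
  intro h hh
  obtain ⟨τ, hτ, hE4⟩ := Fermat.Agent.S16_Ell.ep3 p hp3
  exact Fermat.Agent.S16_L43.no_oneMod3 p (by omega) τ hE4 h (hτ h) hh.1 hh.2

end Fermat.Agent.S16_L4L3
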