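import Mathlib
import Fermat.Prelude.Def_ModularCurve_PeriodHomPair
import Fermat.Prelude.Def_CuspForm_HeckeEvalForms
import Fermat.Agent.S22_Hecke
import Fermat.Agent.S21_Prim

/-!
# S16, block H + ES (helper2): Hecke operators on `Hom(Γ₀(N), A)` and Eichler–Shimura equivariance

A *Hecke system* is a finite family of upper triangular matrices `A i ∈ GL₂(ℝ)` (with natural
entries) whose left cosets `Γ₀(N) A i` are pairwise distinct and are permuted by right
multiplication by `Γ₀(N)`:  `A i * γ = c γ i * A (s γ i)`.  It defines an operator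
`(op φ) γ = ∑ i, φ (c γ i)` on `Hom(Γ₀(N), A)`, natural in the abelian group `A`, and the period
map intertwines the corresponding operator on weight-2 cusp forms with `op` (this is the landed
`S22_Hecke.rho_hecke`).  The two instances are `T_ℓ` (`ℓ ∤ N`) and `U_q` (`q ∣ N`).
-/

set_option autoImplicit false

open Complex UpperHalfPlane CongruenceSubgroup ModularCurve ModularCurve.Period
open scoped MatrixGroups ModularForm

namespace Fermat.Agent.S16_Hecke

open Matrix.SpecialLinearGroup (mapGL)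

/-- A Hecke system for `Γ₀(N)`. -/
structure HeckeSys (N : ℕ) (I : Type) where
  A : I → GL (Fin 2) ℝ
  a : I → ℕ
  b : I → ℕ
  d : I → ℕ
  ha : ∀ i, 0 < a i
  hd : ∀ i, 0 < d i
  hA : ∀ i, ((A i : GL (Fin 2) ℝ) : Matrix (Fin 2) (Fin 2) ℝ)
    = !![(a i : ℝ), (b i : ℝ); 0, (d i : ℝ)]
  ex : ∀ (γ : Gamma0 N) (i : I), ∃ (j : I) (g' : Gamma0 N),
    A i * mapGL ℝ (γ : SL(2, ℤ)) = mapGL ℝ (g' : SL(2, ℤ)) * A j
  uniq : ∀ (i j : I) (g : SL(2, ℤ)), A i = mapGL ℝ g * A j → i = j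

namespace HeckeSys

variable {N : ℕ} {I : Type} (H : HeckeSys N I)

/-- the permutation of the cosets induced by `γ`. -/
noncomputable def s (γ : Gamma0 N) (i : I) : I := (H.ex γ i).choose

/-- the cocycle: `A i * γ = c γ i * A (s γ i)`. -/
noncomputable def c (γ : Gamma0 N) (i : I) : Gamma0 N := (H.ex γ i).choose_spec.choose

theorem rel (γ : Gamma0 N) (i : I) :
    H.A i * mapGL ℝ (γ : SL(2, ℤ)) = mapGL ℝ (H.c γ i : SL(2, ℤ)) * H.A (H.s γ i) :=
  (H.ex γ i).choose_spec.choose_spec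

theorem eq_of_rel {γ : Gamma0 N} {i j : I} {g' : Gamma0 N}
    (h : H.A i * mapGL ℝ (γ : SL(2, ℤ)) = mapGL ℝ (g' : SL(2, ℤ)) * H.A j) :
    H.s γ i = j ∧ H.c γ i = g' := by
  have h2 := H.rel γ i
  have h3 : H.A (H.s γ i)
      = mapGL ℝ (((H.c γ i : SL(2, ℤ)))⁻¹ * (g' : SL(2, ℤ))) * H.A j := by
    rw [map_mul, map_inv, mul_assoc, ← h, h2, ← mul_assoc, inv_mul_cancel, one_mul]
  have hj := H.uniq _ _ _ h3
  refine ⟨hj, ?_⟩
  rw [← hj] at h
  have h4 : mapGL ℝ (H.c γ i : SL(2, ℤ)) = mapGL ℝ (g' : SL(2, ℤ)) :=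
    mul_right_cancel (h2.symm.trans h)
  exact Subtype.ext (Matrix.SpecialLinearGroup.mapGL_injective h4)

theorem s_one (i : I) : H.s 1 i = i :=
  (H.eq_of_rel (γ := 1) (i := i) (j := i) (g' := 1) (by simp)).1

theorem c_one (i : I) : H.c 1 i = 1 :=
  (H.eq_of_rel (γ := 1) (i := i) (j := i) (g' := 1) (by simp)).2

theorem s_c_mul (γ γ' : Gamma0 N) (i : I) :
    H.s (γ * γ') i = H.s γ' (H.s γ i) ∧ H.c (γ * γ') i = H.c γ i * H.c γ' (H.s γ i) := by
  refine H.eq_of_rel ?_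
  simp only [Subgroup.coe_mul, map_mul]
  rw [← mul_assoc, H.rel γ i, mul_assoc, H.rel γ' _, mul_assoc]

theorem s_mul (γ γ' : Gamma0 N) (i : I) : H.s (γ * γ') i = H.s γ' (H.s γ i) :=
  (H.s_c_mul γ γ' i).1

theorem c_mul (γ γ' : Gamma0 N) (i : I) :
    H.c (γ * γ') i = H.c γ i * H.c γ' (H.s γ i) :=
  (H.s_c_mul γ γ' i).2

/-- `s γ` as a permutation. -/
noncomputable def sPerm (γ : Gamma0 N) : Equiv.Perm I where
  toFun := H.s γ
  invFun := H.s γ⁻¹
  left_inv i := by rw [← H.s_mul, mul_inv_cancel, H.s_one]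
  right_inv i := by rw [← H.s_mul, inv_mul_cancel, H.s_one]

@[simp] theorem sPerm_apply (γ : Gamma0 N) (i : I) : H.sPerm γ i = H.s γ i := rfl

variable [Fintype I]

/-- the Hecke operator on homomorphisms `Γ₀(N) → A`. -/
noncomputable def opFun (B : Type*) [AddCommGroup B] (φ : Additive (Gamma0 N) →+ B) :
    Additive (Gamma0 N) →+ B where
  toFun γ := ∑ i, φ (Additive.ofMul (H.c (Additive.toMul γ) i))
  map_zero' := by
    simp only [toMul_zero, c_one, ofMul_one, map_zero, Finset.sum_const_zero]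
  map_add' γ δ := by
    simp only [toMul_add, c_mul, ofMul_mul, map_add, Finset.sum_add_distrib]
    congr 1
    exact Equiv.sum_comp (H.sPerm (Additive.toMul γ))
      (fun i => φ (Additive.ofMul (H.c (Additive.toMul δ) i)))

theorem opFun_apply (B : Type*) [AddCommGroup B] (φ : Additive (Gamma0 N) →+ B)
    (γ : Gamma0 N) :
    H.opFun B φ (Additive.ofMul γ) = ∑ i, φ (Additive.ofMul (H.c γ i)) := rfl

/-- the Hecke operator on `Hom(Γ₀(N), B)` as a `ℤ`-linear endomorphism. -/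
noncomputable def op (B : Type*) [AddCommGroup B] :
    Module.End ℤ (Additive (Gamma0 N) →+ B) :=
  AddMonoidHom.toIntLinearMap
    { toFun := H.opFun B
      map_zero' := by
        refine AddMonoidHom.ext fun γ => ?_
        show ∑ i, (0 : Additive (Gamma0 N) →+ B) _ = 0
        simp
      map_add' := fun φ ψ => by
        refine AddMonoidHom.ext fun γ => ?_
        show ∑ i, (φ + ψ) _ = (∑ i, φ _) + ∑ i, ψ _
        simp [Finset.sum_add_distrib] }

theorem op_apply (B : Type*) [AddCommGroup B] (φ : Additive (Gamma0 N) →+ B)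
    (γ : Gamma0 N) :
    H.op B φ (Additive.ofMul γ) = ∑ i, φ (Additive.ofMul (H.c γ i)) := rfl

/-- naturality of the Hecke operator in the coefficient group. -/
theorem op_comp {B C : Type*} [AddCommGroup B] [AddCommGroup C] (g : B →+ C)
    (φ : Additive (Gamma0 N) →+ B) :
    H.op C (g.comp φ) = g.comp (H.op B φ) := by
  refine AddMonoidHom.ext fun γ => ?_
  have e : γ = Additive.ofMul (Additive.toMul γ) := rfl
  rw [e, op_apply, AddMonoidHom.comp_apply, op_apply, map_sum]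
  rfl

/-- a homomorphism which is "multiplicative along the system" is an eigenvector with eigenvalue
the number of cosets. -/
theorem op_eq_card_smul {B : Type*} [AddCommGroup B] (φ : Additive (Gamma0 N) →+ B)
    (D : I → B)
    (hD : ∀ (γ : Gamma0 N) (i : I),
      φ (Additive.ofMul (H.c γ i)) + D (H.s γ i) = φ (Additive.ofMul γ) + D i) :
    H.op B φ = Fintype.card I • φ := by
  refine AddMonoidHom.ext fun γ => ?_
  have e : γ = Additive.ofMul (Additive.toMul γ) := rfl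
  rw [e, op_apply, AddMonoidHom.smul_apply]
  set g := Additive.toMul γ
  have h1 : ∑ i, (φ (Additive.ofMul (H.c g i)) + D (H.s g i))
      = ∑ i, (φ (Additive.ofMul g) + D i) := Finset.sum_congr rfl fun i _ => hD g i
  rw [Finset.sum_add_distrib, Finset.sum_add_distrib, Finset.sum_const, Finset.card_univ] at h1
  have h2 : ∑ i, D (H.s g i) = ∑ i, D i := Equiv.sum_comp (H.sPerm g) D
  rw [h2] at h1
  exact add_right_cancel h1

/-! ### Analytic side: Eichler–Shimura equivariance -/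

omit [Fintype I] in
theorem det_pos (i : I) : 0 < ((H.A i).det : ℝ) := by
  rw [Matrix.GeneralLinearGroup.val_det_apply, H.hA, Matrix.det_fin_two_of]
  have h1 : (0 : ℝ) < (H.a i : ℝ) := by exact_mod_cast H.ha i
  have h2 : (0 : ℝ) < (H.d i : ℝ) := by exact_mod_cast H.hd i
  nlinarith [mul_pos h1 h2]

omit [Fintype I] in
theorem det_eq (i : I) : ((H.A i).det : ℝ) = (H.a i : ℝ) * (H.d i : ℝ) := by
  rw [Matrix.GeneralLinearGroup.val_det_apply, H.hA, Matrix.det_fin_two_of]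
  ring

omit [Fintype I] in
theorem σ_eq (i : I) : UpperHalfPlane.σ (H.A i) = .refl ℝ ℂ := by
  rw [UpperHalfPlane.σ, if_pos (H.det_pos i)]

omit [Fintype I] in
theorem denom_eq (i : I) (τ : ℍ) : UpperHalfPlane.denom (H.A i) τ = (H.d i : ℂ) := by
  simp [UpperHalfPlane.denom, H.hA]

omit [Fintype I] in
theorem coe_smul (i : I) (τ : ℍ) :
    ((H.A i • τ : ℍ) : ℂ) = ((H.a i : ℂ) * τ + (H.b i : ℂ)) / (H.d i : ℂ) := by
  rw [UpperHalfPlane.coe_smul_of_det_pos (H.det_pos i)]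
  simp [UpperHalfPlane.num, UpperHalfPlane.denom, H.hA]

omit [Fintype I] in
theorem slash_apply (i : I) (f : ℍ → ℂ) (τ : ℍ) :
    (f ∣[(2 : ℤ)] H.A i) τ = ((H.a i : ℂ) ^ (0 + 1) / (H.d i : ℂ)) * f (H.A i • τ) := by
  have hd : (H.d i : ℂ) ≠ 0 := by exact_mod_cast (H.hd i).ne'
  have h1 : (0 : ℝ) ≤ (H.a i : ℝ) * (H.d i : ℝ) := by positivity
  rw [ModularForm.slash_apply, H.σ_eq, H.det_eq, H.denom_eq, abs_of_nonneg h1]
  simp only [ContinuousAlgEquiv.refl_apply]
  push_cast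
  rw [zpow_neg, zpow_one]
  field_simp

/-- **Eichler–Shimura equivariance**: the period map intertwines the operator `∑ i, f ∣[2] A i`
on cusp forms with the Hecke operator on homomorphisms. -/
theorem periodMap_op [NeZero N]
    (T : CuspForm (Gamma0 N) 2 →ₗ[ℂ] CuspForm (Gamma0 N) 2)
    (hT : ∀ f : CuspForm (Gamma0 N) 2, ⇑(T f) = ∑ i, ⇑f ∣[(2 : ℤ)] H.A i)
    (f : CuspForm (Gamma0 N) 2) :
    periodMap N (T f) = H.op ℂ (periodMap N f) := by
  have hper : ∀ (F : CuspForm (Gamma0 N) 2) (δ : Gamma0 N),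
      periodMap N F (Additive.ofMul δ) = S22_Period.rho F 0 (δ : SL(2, ℤ)) 0 0 := by
    intro F δ
    rw [S21_Prim.periodMap_apply F δ UpperHalfPlane.I, S21_Prim.Fprim_smul F δ.2]
    ring
  refine AddMonoidHom.ext fun γ => ?_
  have e : γ = Additive.ofMul (Additive.toMul γ) := rfl
  set g := Additive.toMul γ
  rw [e, op_apply, hper]
  simp only [hper]
  have key := S22_Hecke.rho_hecke S21_Prim.two_eq H.A H.a H.b H.d H.ha H.hd H.hA
    (fun i f τ => H.slash_apply i f τ) (fun i τ => H.coe_smul i τ) T hT (g : SL(2, ℤ))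
    (H.sPerm g) (fun i => (H.c g i : SL(2, ℤ))) (fun i => (H.c g i).2) (fun i => H.rel g i) f 0 0
  rw [key]
  simp

omit [Fintype I] in
/-- the matrix relations behind `rel`, on integer entries. -/
theorem entries (γ : Gamma0 N) (i : I) :
    ((H.a i : ℤ) * (γ : SL(2, ℤ)) 0 0 + H.b i * (γ : SL(2, ℤ)) 1 0
        = (H.c γ i : SL(2, ℤ)) 0 0 * H.a (H.s γ i)) ∧
    ((H.a i : ℤ) * (γ : SL(2, ℤ)) 0 1 + H.b i * (γ : SL(2, ℤ)) 1 1
        = (H.c γ i : SL(2, ℤ)) 0 0 * H.b (H.s γ i) + (H.c γ i : SL(2, ℤ)) 0 1 * H.d (H.s γ i)) ∧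
    ((H.d i : ℤ) * (γ : SL(2, ℤ)) 1 0 = (H.c γ i : SL(2, ℤ)) 1 0 * H.a (H.s γ i)) ∧
    ((H.d i : ℤ) * (γ : SL(2, ℤ)) 1 1
        = (H.c γ i : SL(2, ℤ)) 1 0 * H.b (H.s γ i) + (H.c γ i : SL(2, ℤ)) 1 1 * H.d (H.s γ i)) :=
  S22_Hecke.entries_of_rel (H.hA i) (H.hA (H.s γ i)) (H.rel γ i)

end HeckeSys

/-! ### The two concrete systems -/

section Concrete

open P2MW.S_ModularForm_heckeT_slash_eq_self_of_mem_Gamma0.ModularForm.HeckeSlashInvariance

theorem int_natCast_dvd_one_false {ℓ : ℕ} (hℓ : 2 ≤ ℓ) {x : ℤ} (h : (1 : ℤ) = x * (ℓ : ℤ)) :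
    False := by
  have h1 : ((ℓ : ℤ)) ∣ 1 := ⟨x, by rw [h]; ring⟩
  have h2 := Int.le_of_dvd one_pos h1
  omega

theorem zmod_eq_of_val_eq {ℓ : ℕ} [NeZero ℓ] {j j' : ZMod ℓ} {x : ℤ}
    (h : (j.val : ℤ) = (j'.val : ℤ) + x * (ℓ : ℤ)) : j = j' := by
  have h1 := congrArg (Int.cast : ℤ → ZMod ℓ) h
  push_cast at h1
  simpa using h1

/-- the system of `T_ℓ`, `ℓ ∤ N`. -/
noncomputable def sysT (N : ℕ) {ℓ : ℕ} (hℓ : ℓ.Prime) (hℓN : ¬ ℓ ∣ N) :
    HeckeSys N (OnePoint (ZMod ℓ)) where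
  A := heckeRep ℓ
  a := fun x => x.elim ℓ (fun _ => 1)
  b := fun x => x.elim 0 (fun j => j.val)
  d := fun x => x.elim 1 (fun _ => ℓ)
  ha := by
    intro x
    induction x using OnePoint.rec with
    | infty => exact hℓ.pos
    | coe j => exact one_pos
  hd := by
    intro x
    induction x using OnePoint.rec with
    | infty => exact one_pos
    | coe j => exact hℓ.pos
  hA := by
    intro x
    induction x using OnePoint.rec with
    | infty =>
      show ((ModularForm.heckeDiagMatrix ℓ : GL (Fin 2) ℝ) : Matrix (Fin 2) (Fin 2) ℝ) = _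
      rw [ModularForm.val_heckeDiagMatrix hℓ.ne_zero]
      simp
    | coe j =>
      show ((ModularForm.heckeMatrix ℓ j.val : GL (Fin 2) ℝ) : Matrix (Fin 2) (Fin 2) ℝ) = _
      rw [ModularForm.val_heckeMatrix hℓ.ne_zero]
      simp
  ex := by
    intro γ x
    have : Fact ℓ.Prime := ⟨hℓ⟩
    have hcN : (N : ℤ) ∣ (γ : SL(2, ℤ)) 1 0 :=
      (ZMod.intCast_zmod_eq_zero_iff_dvd _ _).mp (Gamma0_mem.mp γ.2)
    obtain ⟨g', hg', hmul⟩ := heckeRep_mul hℓN (γ : SL(2, ℤ)) hcN x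
    exact ⟨_, ⟨g', Gamma0_mem.mpr ((ZMod.intCast_zmod_eq_zero_iff_dvd _ _).mpr hg')⟩, hmul⟩
  uniq := by
    have : NeZero ℓ := ⟨hℓ.ne_zero⟩
    have hA : ∀ x : OnePoint (ZMod ℓ),
        ((heckeRep ℓ x : GL (Fin 2) ℝ) : Matrix (Fin 2) (Fin 2) ℝ)
          = !![((x.elim ℓ (fun _ => 1) : ℕ) : ℝ), ((x.elim 0 (fun j => j.val) : ℕ) : ℝ); 0,
              ((x.elim 1 (fun _ => ℓ) : ℕ) : ℝ)] := by
      intro x
      induction x using OnePoint.rec with
      | infty =>
        show ((ModularForm.heckeDiagMatrix ℓ : GL (Fin 2) ℝ) : Matrix (Fin 2) (Fin 2) ℝ) = _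
        rw [ModularForm.val_heckeDiagMatrix hℓ.ne_zero]
        simp
      | coe j =>
        show ((ModularForm.heckeMatrix ℓ j.val : GL (Fin 2) ℝ) : Matrix (Fin 2) (Fin 2) ℝ) = _
        rw [ModularForm.val_heckeMatrix hℓ.ne_zero]
        simp
    intro x y g h
    have h' : heckeRep ℓ x * mapGL ℝ (1 : SL(2, ℤ)) = mapGL ℝ g * heckeRep ℓ y := by
      rw [map_one, mul_one]; exact h
    obtain ⟨e1, e2, e3, e4⟩ := S22_Hecke.entries_of_rel (hA x) (hA y) h'
    simp only [Matrix.SpecialLinearGroup.coe_one, Matrix.one_apply_eq, mul_one,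
      Matrix.one_apply_ne (show (1 : Fin 2) ≠ 0 by decide),
      Matrix.one_apply_ne (show (0 : Fin 2) ≠ 1 by decide), mul_zero, add_zero, zero_add] at e1 e2 e3 e4
    induction x using OnePoint.rec with
    | infty =>
      induction y using OnePoint.rec with
      | infty => rfl
      | coe j' =>
        exfalso
        simp only [OnePoint.elim_infty, OnePoint.elim_some, Nat.cast_one, mul_one] at e1 e3 e4
        rw [← e3, zero_mul, zero_add] at e4
        exact int_natCast_dvd_one_false hℓ.two_le e4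
    | coe j =>
      induction y using OnePoint.rec with
      | infty =>
        exfalso
        simp only [OnePoint.elim_infty, OnePoint.elim_some, Nat.cast_one] at e1
        exact int_natCast_dvd_one_false hℓ.two_le e1
      | coe j' =>
        simp only [OnePoint.elim_some, Nat.cast_one, mul_one] at e1 e2
        rw [← e1, one_mul] at e2
        rw [zmod_eq_of_val_eq e2]

instance neZero_primes (ℓ : Nat.Primes) : NeZero (ℓ : ℕ) := ⟨ℓ.2.ne_zero⟩

/-- the system of `U_q`, `q ∣ N`. -/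
noncomputable def sysU (N : ℕ) [NeZero N] {q : ℕ} (hqN : q ∣ N) : HeckeSys N (ZMod q) :=
  have hq0 : q ≠ 0 := fun h => NeZero.ne N (by simpa [h] using hqN)
  haveI : NeZero q := ⟨hq0⟩
  have hA : ∀ x : ZMod q,
      ((ModularForm.heckeMatrix q x.val : GL (Fin 2) ℝ) : Matrix (Fin 2) (Fin 2) ℝ)
        = !![((1 : ℕ) : ℝ), ((x.val : ℕ) : ℝ); 0, ((q : ℕ) : ℝ)] := by
    intro x
    rw [ModularForm.val_heckeMatrix hq0]
    simp
  { A := fun x => ModularForm.heckeMatrix q x.val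
    a := fun _ => 1
    b := fun x => x.val
    d := fun _ => q
    ha := fun _ => one_pos
    hd := fun _ => Nat.pos_of_ne_zero hq0
    hA := hA
    ex := by
      intro γ x
      have hcN : (N : ℤ) ∣ (γ : SL(2, ℤ)) 1 0 :=
        (ZMod.intCast_zmod_eq_zero_iff_dvd _ _).mp (Gamma0_mem.mp γ.2)
      have hc : (q : ℤ) ∣ (γ : SL(2, ℤ)) 1 0 := (Int.natCast_dvd_natCast.mpr hqN).trans hcN
      obtain ⟨g', hg', hmul⟩ := heckeMatrix_mul_of_dvd (γ : SL(2, ℤ)) hc x
      refine ⟨_, ⟨g', ?_⟩, hmul⟩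
      rw [Gamma0_mem, hg']
      push_cast
      rw [Gamma0_mem.mp γ.2, mul_zero]
    uniq := by
      intro x y g h
      have h' : ModularForm.heckeMatrix q x.val * mapGL ℝ (1 : SL(2, ℤ))
          = mapGL ℝ g * ModularForm.heckeMatrix q y.val := by
        rw [map_one, mul_one]; exact h
      obtain ⟨e1, e2, e3, e4⟩ := S22_Hecke.entries_of_rel (hA x) (hA y) h'
      simp only [Matrix.SpecialLinearGroup.coe_one, Matrix.one_apply_eq, mul_one,
        Matrix.one_apply_ne (show (1 : Fin 2) ≠ 0 by decide),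
        Matrix.one_apply_ne (show (0 : Fin 2) ≠ 1 by decide), mul_zero, add_zero, zero_add,
        Nat.cast_one] at e1 e2 e3 e4
      rw [← e1, one_mul] at e2
      exact zmod_eq_of_val_eq e2 }

/-- Eichler–Shimura for `T_ℓ`. -/
theorem periodMap_heckeTLin (N : ℕ) [NeZero N] {ℓ : ℕ} [NeZero ℓ] (hℓ : ℓ.Prime) (hℓN : ¬ ℓ ∣ N)
    (f : CuspForm (Gamma0 N) 2) :
    periodMap N (CuspForm.heckeTLin 2 hℓ hℓN f) = (sysT N hℓ hℓN).op ℂ (periodMap N f) :=
  (sysT N hℓ hℓN).periodMap_op (CuspForm.heckeTLin 2 hℓ hℓN)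
    (fun f => by rw [CuspForm.coe_heckeTLin_apply, heckeT_eq_sum_onePoint]; rfl) f

/-- Eichler–Shimura for `U_q`. -/
theorem periodMap_heckeULin (N : ℕ) [NeZero N] {q : ℕ} [NeZero q] (hqN : q ∣ N)
    (f : CuspForm (Gamma0 N) 2) :
    periodMap N (CuspForm.heckeULin 2 hqN f) = (sysU N hqN).op ℂ (periodMap N f) :=
  (sysU N hqN).periodMap_op (CuspForm.heckeULin 2 hqN)
    (fun f => by rw [CuspForm.coe_heckeULin_apply, heckeU_eq_sum_zmod]; rfl) f

end Concrete

end Fermat.Agent.S16_Hecke
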