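import Mathlib

set_option autoImplicit false

namespace Fermat.Agent.S16_Orb

/-- Orbit-wise primitive for an involution. -/
theorem exists_Y2 {X A : Type*} [AddCommGroup A] (σ : X → X) (hσ : ∀ x, σ (σ x) = x) (u : X → A)
    (ha : ∀ x, u (σ x) + u x = 0) (hf : ∀ x, σ x = x → u x = 0) :
    ∃ Y : X → A, ∀ x, Y (σ x) - Y x = u x := by
  classical
  let _ : LinearOrder X := IsWellOrder.linearOrder (α := X) WellOrderingRel
  refine ⟨fun z => if σ z < z then u (σ z) else 0, fun x => ?_⟩
  simp only [hσ]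
  rcases lt_trichotomy x (σ x) with h | h | h
  · rw [if_pos h, if_neg (not_lt.mpr h.le), sub_zero]
  · rw [← h, if_neg (lt_irrefl x), sub_zero]
    exact (hf x h.symm).symm
  · rw [if_neg (not_lt.mpr h.le), if_pos h, zero_sub]
    exact neg_eq_of_add_eq_zero_right (ha x)

/-- Orbit-wise primitive for a map of order three. -/
theorem exists_Y3 {X A : Type*} [AddCommGroup A] (σ : X → X) (hσ : ∀ x, σ (σ (σ x)) = x)
    (u : X → A) (ha : ∀ x, u x + u (σ x) + u (σ (σ x)) = 0) (hf : ∀ x, σ x = x → u x = 0) :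
    ∃ Y : X → A, ∀ x, Y (σ x) - Y x = u x := by
  classical
  let _ : LinearOrder X := IsWellOrder.linearOrder (α := X) WellOrderingRel
  refine ⟨fun z => if z ≤ σ z ∧ z ≤ σ (σ z) then 0
    else if σ (σ z) ≤ z ∧ σ (σ z) ≤ σ z then u (σ (σ z)) else - u z, fun x => ?_⟩
  simp only [hσ]
  by_cases hfix : σ x = x
  · simp only [hfix, le_refl, and_self, if_true, sub_zero]
    exact (hf x hfix).symm
  · have hab : x ≠ σ x := fun h => hfix h.symm
    have hbc : σ x ≠ σ (σ x) := by
      intro h
      apply hfix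
      have := congrArg σ (congrArg σ h)
      rw [hσ] at this
      exact this.symm
    have hca : σ (σ x) ≠ x := by
      intro h
      apply hfix
      have := congrArg σ h
      rw [hσ] at this
      exact this.symm
    have key : -u (σ x) - u (σ (σ x)) = u x := by
      have h := ha x
      have h2 : u x = 0 - u (σ x) - u (σ (σ x)) := by
        rw [← h]; abel
      rw [h2]; abel
    -- which of the three is the minimum
    rcases lt_or_gt_of_ne hab with h1 | h1 <;> rcases lt_or_gt_of_ne hbc with h2 | h2 <;>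
      rcases lt_or_gt_of_ne hca with h3 | h3
    · exact absurd (h1.trans (h2.trans h3)) (lt_irrefl _)
    · -- x < σx < σσx : min = x
      rw [if_neg (fun h => absurd h.2 (not_le.mpr h1)), if_pos ⟨h1.le, h3.le⟩,
        if_pos ⟨h1.le, h3.le⟩, sub_zero]
    · -- x < σ x, σσx < σ x, σσx < x : min = σσx
      rw [if_neg (fun h => absurd h.1 (not_le.mpr h2)),
        if_neg (fun h => absurd h.2 (not_le.mpr h3)),
        if_neg (fun h => absurd h.2 (not_le.mpr h3)), if_pos ⟨h3.le, h2.le⟩]
      exact key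
    · -- x < σx, σσx < σx, x < σσx : min = x
      rw [if_neg (fun h => absurd h.2 (not_le.mpr h1)), if_pos ⟨h1.le, h3.le⟩,
        if_pos ⟨h1.le, h3.le⟩, sub_zero]
    · -- σx < x, σx < σσx, σσx < x : min = σx
      rw [if_pos ⟨h2.le, h1.le⟩, if_neg (fun h => absurd h.1 (not_le.mpr h1)),
        if_neg (fun h => absurd h.2 (not_le.mpr h2)), zero_sub, neg_neg]
    · -- σx < x, σx < σσx, x < σσx : min = σ x
      rw [if_pos ⟨h2.le, h1.le⟩, if_neg (fun h => absurd h.1 (not_le.mpr h1)),
        if_neg (fun h => absurd h.2 (not_le.mpr h2)), zero_sub, neg_neg]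
    · -- σx < x, σσx < σx, σσx < x : min = σσx
      rw [if_neg (fun h => absurd h.1 (not_le.mpr h2)),
        if_neg (fun h => absurd h.2 (not_le.mpr h3)),
        if_neg (fun h => absurd h.2 (not_le.mpr h3)), if_pos ⟨h3.le, h2.le⟩]
      exact key
    · exact absurd (h3.trans (h2.trans h1)) (lt_irrefl _)

end Fermat.Agent.S16_Orb
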