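import Fermat.Agent.S16_PSL
import Fermat.Agent.S16_Orb
import Fermat.Agent.S21_ParVanish
import Fermat.Prelude.Def_ModularCurve_PeriodMap

set_option autoImplicit false

open scoped MatrixGroups
open ModularGroup

namespace Fermat.Agent.S16_Lift

section General

variable {Γ : Subgroup SL(2, ℤ)} {A : Type*} [AddCommGroup A]

/-- The plain action of `SL(2,ℤ)` on `(SL(2,ℤ) ⧸ Γ) × A` (trivial on the second factor). -/
def plain (Γ : Subgroup SL(2, ℤ)) (A : Type*) [AddCommGroup A] :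
    SL(2, ℤ) →* Equiv.Perm ((SL(2, ℤ) ⧸ Γ) × A) where
  toFun g := ⟨fun v => (g • v.1, v.2), fun v => (g⁻¹ • v.1, v.2), fun v => by simp,
    fun v => by simp⟩
  map_one' := by ext v <;> simp
  map_mul' g h := by ext v <;> simp [mul_smul]

@[simp] theorem plain_apply (g : SL(2, ℤ)) (v : (SL(2, ℤ) ⧸ Γ) × A) :
    plain Γ A g v = (g • v.1, v.2) := rfl

/-- Translation of the fibres by a function on the base. -/
def tr (Y : SL(2, ℤ) ⧸ Γ → A) : Equiv.Perm ((SL(2, ℤ) ⧸ Γ) × A) :=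
  ⟨fun v => (v.1, v.2 + Y v.1), fun v => (v.1, v.2 - Y v.1), fun v => by simp, fun v => by simp⟩

@[simp] theorem tr_apply (Y : SL(2, ℤ) ⧸ Γ → A) (v : (SL(2, ℤ) ⧸ Γ) × A) :
    tr Y v = (v.1, v.2 + Y v.1) := rfl

@[simp] theorem tr_symm_apply (Y : SL(2, ℤ) ⧸ Γ → A) (v : (SL(2, ℤ) ⧸ Γ) × A) :
    (tr Y)⁻¹ v = (v.1, v.2 - Y v.1) := rfl

/-- A permutation of `X × A` is a bundle map over `g`. -/
def IsB (g : SL(2, ℤ)) (π : Equiv.Perm ((SL(2, ℤ) ⧸ Γ) × A)) : Prop :=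
  ∀ x a, π (x, a) = (g • x, a + (π (x, 0)).2)

theorem IsB.one : IsB (Γ := Γ) (A := A) 1 1 := by
  intro x a; simp

theorem IsB.mul {g h : SL(2, ℤ)} {π ρ : Equiv.Perm ((SL(2, ℤ) ⧸ Γ) × A)}
    (hπ : IsB g π) (hρ : IsB h ρ) : IsB (g * h) (π * ρ) := by
  intro x a
  simp only [Equiv.Perm.mul_apply]
  rw [hρ x a, hπ (h • x) _, hρ x 0, hπ (h • x) (0 + _), mul_smul]
  simp only [zero_add, Prod.mk.injEq, true_and]
  abel

theorem IsB.inv {g : SL(2, ℤ)} {π : Equiv.Perm ((SL(2, ℤ) ⧸ Γ) × A)}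
    (hπ : IsB g π) : IsB g⁻¹ π⁻¹ := by
  have key : ∀ x a, π⁻¹ (x, a) = (g⁻¹ • x, a - (π (g⁻¹ • x, 0)).2) := by
    intro x a
    rw [Equiv.Perm.inv_eq_iff_eq, hπ]
    simp
  intro x a
  rw [key x a, key x 0]
  simp [sub_eq_add_neg]

theorem isB_plain (g : SL(2, ℤ)) : IsB g (plain Γ A g) := by
  intro x a; simp

theorem isB_tr (Y : SL(2, ℤ) ⧸ Γ → A) : IsB 1 (tr Y) := by
  intro x a; simp

theorem isB_conj (g : SL(2, ℤ)) (Y : SL(2, ℤ) ⧸ Γ → A) :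
    IsB g (tr Y * plain Γ A g * (tr Y)⁻¹) := by
  have h := ((isB_tr Y).mul (isB_plain (A := A) g)).mul (isB_tr Y).inv
  simpa using h

/-- If `θ S` and `θ (T * S)` are bundle maps, so is every `θ g`. -/
theorem isB_all (θ : SL(2, ℤ) →* Equiv.Perm ((SL(2, ℤ) ⧸ Γ) × A))
    (hS : IsB S (θ S)) (hR : IsB (T * S) (θ (T * S))) (g : SL(2, ℤ)) : IsB g (θ g) := by
  have hT : IsB T (θ T) := by
    have h1 : θ T = θ (T * S) * (θ S)⁻¹ := by rw [map_mul]; group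
    have h2 : (T : SL(2, ℤ)) = T * S * S⁻¹ := by group
    rw [h1]
    have := hR.mul hS.inv
    rwa [← h2] at this
  have hg : g ∈ Subgroup.closure ({S, T} : Set SL(2, ℤ)) := by
    rw [SpecialLinearGroup.SL2Z_generators]; trivial
  induction hg using Subgroup.closure_induction with
  | mem x hx =>
    rcases hx with rfl | rfl
    · exact hS
    · exact hT
  | one => rw [map_one]; exact IsB.one
  | mul x y _ _ hx hy => rw [map_mul]; exact hx.mul hy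
  | inv x _ hx => rw [map_inv]; exact hx.inv

/-- The base point of `SL(2,ℤ) ⧸ Γ`. -/
abbrev x₀ (Γ : Subgroup SL(2, ℤ)) : SL(2, ℤ) ⧸ Γ := ((1 : SL(2, ℤ)) : SL(2, ℤ) ⧸ Γ)

theorem smul_x₀ (γ : Γ) : (γ : SL(2, ℤ)) • x₀ Γ = x₀ Γ := by
  show (((γ : SL(2, ℤ)) * 1 : SL(2, ℤ)) : SL(2, ℤ) ⧸ Γ) = ((1 : SL(2, ℤ)) : SL(2, ℤ) ⧸ Γ)
  rw [QuotientGroup.eq]
  simp

theorem smul_x₀_eq_iff (g : SL(2, ℤ)) : g • x₀ Γ = x₀ Γ ↔ g ∈ Γ := by
  show ((g * 1 : SL(2, ℤ)) : SL(2, ℤ) ⧸ Γ) = ((1 : SL(2, ℤ)) : SL(2, ℤ) ⧸ Γ) ↔ _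
  rw [QuotientGroup.eq]
  simp

/-- The increment function of a bundle map. -/
def coc (θ : SL(2, ℤ) →* Equiv.Perm ((SL(2, ℤ) ⧸ Γ) × A)) (g : SL(2, ℤ)) (x : SL(2, ℤ) ⧸ Γ) : A :=
  (θ g (x, 0)).2

theorem apply_eq (θ : SL(2, ℤ) →* Equiv.Perm ((SL(2, ℤ) ⧸ Γ) × A))
    (hB : ∀ g, IsB g (θ g)) (g : SL(2, ℤ)) (x : SL(2, ℤ) ⧸ Γ) (a : A) :
    θ g (x, a) = (g • x, a + coc θ g x) := hB g x a

theorem coc_mul (θ : SL(2, ℤ) →* Equiv.Perm ((SL(2, ℤ) ⧸ Γ) × A))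
    (hB : ∀ g, IsB g (θ g)) (g h : SL(2, ℤ)) (x : SL(2, ℤ) ⧸ Γ) :
    coc θ (g * h) x = coc θ h x + coc θ g (h • x) := by
  have h1 := apply_eq θ hB (g * h) x 0
  rw [map_mul, Equiv.Perm.mul_apply, apply_eq θ hB h x 0, apply_eq θ hB g] at h1
  have h2 := congrArg Prod.snd h1
  simp only [zero_add] at h2
  exact h2.symm

theorem coc_one (θ : SL(2, ℤ) →* Equiv.Perm ((SL(2, ℤ) ⧸ Γ) × A)) (x : SL(2, ℤ) ⧸ Γ) :
    coc θ 1 x = 0 := by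
  simp [coc]

theorem coc_inv (θ : SL(2, ℤ) →* Equiv.Perm ((SL(2, ℤ) ⧸ Γ) × A))
    (hB : ∀ g, IsB g (θ g)) (g : SL(2, ℤ)) (x : SL(2, ℤ) ⧸ Γ) :
    coc θ g⁻¹ x = - coc θ g (g⁻¹ • x) := by
  have h := coc_mul θ hB g g⁻¹ x
  rw [mul_inv_cancel, coc_one] at h
  exact eq_neg_of_add_eq_zero_left h.symm

/-- The homomorphism `Γ → A` attached to a bundle representation. -/
def homOf (θ : SL(2, ℤ) →* Equiv.Perm ((SL(2, ℤ) ⧸ Γ) × A)) (hB : ∀ g, IsB g (θ g)) :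
    Additive Γ →+ A where
  toFun γ := coc θ ((Additive.toMul γ : Γ) : SL(2, ℤ)) (x₀ Γ)
  map_zero' := by
    show coc θ ((1 : Γ) : SL(2, ℤ)) (x₀ Γ) = 0
    rw [Subgroup.coe_one, coc_one]
  map_add' γ δ := by
    show coc θ (((Additive.toMul γ * Additive.toMul δ : Γ)) : SL(2, ℤ)) (x₀ Γ) = _
    rw [Subgroup.coe_mul, coc_mul θ hB, smul_x₀, add_comm]

theorem homOf_apply (θ : SL(2, ℤ) →* Equiv.Perm ((SL(2, ℤ) ⧸ Γ) × A)) (hB : ∀ g, IsB g (θ g))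
    (γ : Γ) : homOf θ hB (Additive.ofMul γ) = coc θ (γ : SL(2, ℤ)) (x₀ Γ) := rfl

/-- Comparison of two bundle representations along a homomorphism of coefficients. -/
theorem compare {A' : Type*} [AddCommGroup A'] (ρ : A →+ A')
    (θ : SL(2, ℤ) →* Equiv.Perm ((SL(2, ℤ) ⧸ Γ) × A))
    (θ' : SL(2, ℤ) →* Equiv.Perm ((SL(2, ℤ) ⧸ Γ) × A'))
    (hS : ∀ v, θ' S (v.1, ρ v.2) = ((θ S v).1, ρ (θ S v).2))
    (hR : ∀ v, θ' (T * S) (v.1, ρ v.2) = ((θ (T * S) v).1, ρ (θ (T * S) v).2))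
    (g : SL(2, ℤ)) : ∀ v, θ' g (v.1, ρ v.2) = ((θ g v).1, ρ (θ g v).2) := by
  -- the set of good `g` is a subgroup
  have hmul : ∀ g h : SL(2, ℤ), (∀ v, θ' g (v.1, ρ v.2) = ((θ g v).1, ρ (θ g v).2)) →
      (∀ v, θ' h (v.1, ρ v.2) = ((θ h v).1, ρ (θ h v).2)) →
      ∀ v, θ' (g * h) (v.1, ρ v.2) = ((θ (g * h) v).1, ρ (θ (g * h) v).2) := by
    intro g h hg hh v
    rw [map_mul, map_mul, Equiv.Perm.mul_apply, Equiv.Perm.mul_apply, hh v, hg (θ h v)]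
  have hinv : ∀ g : SL(2, ℤ), (∀ v, θ' g (v.1, ρ v.2) = ((θ g v).1, ρ (θ g v).2)) →
      ∀ v, θ' g⁻¹ (v.1, ρ v.2) = ((θ g⁻¹ v).1, ρ (θ g⁻¹ v).2) := by
    intro g hg v
    rw [map_inv, map_inv, Equiv.Perm.inv_eq_iff_eq]
    have := hg ((θ g)⁻¹ v)
    rw [this]
    simp
  have hT : ∀ v, θ' T (v.1, ρ v.2) = ((θ T v).1, ρ (θ T v).2) := by
    have h2 : (T : SL(2, ℤ)) = T * S * S⁻¹ := by group
    rw [h2]
    exact hmul _ _ hR (hinv _ hS)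
  have hg : g ∈ Subgroup.closure ({S, T} : Set SL(2, ℤ)) := by
    rw [SpecialLinearGroup.SL2Z_generators]; trivial
  induction hg using Subgroup.closure_induction with
  | mem x hx =>
    rcases hx with rfl | rfl
    · exact hS
    · exact hT
  | one => intro v; simp
  | mul x y _ _ hx hy => exact hmul x y hx hy
  | inv x _ hx => exact hinv x hx

theorem coc_compare {A' : Type*} [AddCommGroup A'] (ρ : A →+ A')
    (θ : SL(2, ℤ) →* Equiv.Perm ((SL(2, ℤ) ⧸ Γ) × A))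
    (θ' : SL(2, ℤ) →* Equiv.Perm ((SL(2, ℤ) ⧸ Γ) × A'))
    (hS : ∀ v, θ' S (v.1, ρ v.2) = ((θ S v).1, ρ (θ S v).2))
    (hR : ∀ v, θ' (T * S) (v.1, ρ v.2) = ((θ (T * S) v).1, ρ (θ (T * S) v).2))
    (g : SL(2, ℤ)) (x : SL(2, ℤ) ⧸ Γ) : coc θ' g x = ρ (coc θ g x) := by
  have h := compare ρ θ θ' hS hR g (x, 0)
  simp only [map_zero] at h
  exact congrArg Prod.snd h

end General


section Section

variable {Γ : Subgroup SL(2, ℤ)} {A : Type*} [AddCommGroup A]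

/-- A section of the quotient map. -/
noncomputable def sec (x : SL(2, ℤ) ⧸ Γ) : SL(2, ℤ) := Quotient.out x

theorem sec_spec (x : SL(2, ℤ) ⧸ Γ) : ((sec x : SL(2, ℤ)) : SL(2, ℤ) ⧸ Γ) = x :=
  QuotientGroup.out_eq' x

theorem smul_coe (g h : SL(2, ℤ)) :
    g • ((h : SL(2, ℤ)) : SL(2, ℤ) ⧸ Γ) = ((g * h : SL(2, ℤ)) : SL(2, ℤ) ⧸ Γ) := rfl

theorem kk_mem (g : SL(2, ℤ)) (x : SL(2, ℤ) ⧸ Γ) : (sec (g • x))⁻¹ * g * sec x ∈ Γ := by
  rw [mul_assoc, ← QuotientGroup.eq, sec_spec, ← smul_coe, sec_spec]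

/-- The Schreier cocycle of the section. -/
noncomputable def kk (g : SL(2, ℤ)) (x : SL(2, ℤ) ⧸ Γ) : Γ :=
  ⟨(sec (g • x))⁻¹ * g * sec x, kk_mem g x⟩

theorem kk_mul (g h : SL(2, ℤ)) (x : SL(2, ℤ) ⧸ Γ) :
    kk (g * h) x = kk g (h • x) * kk h x := by
  apply Subtype.ext
  show (sec ((g * h) • x))⁻¹ * (g * h) * sec x
    = ((sec (g • h • x))⁻¹ * g * sec (h • x)) * ((sec (h • x))⁻¹ * h * sec x)
  rw [mul_smul]; group

theorem kk_one (x : SL(2, ℤ) ⧸ Γ) : kk (1 : SL(2, ℤ)) x = 1 := by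
  apply Subtype.ext
  show (sec ((1 : SL(2, ℤ)) • x))⁻¹ * 1 * sec x = 1
  rw [one_smul]; group

theorem kk_pow_eq_one (g : SL(2, ℤ)) (x : SL(2, ℤ) ⧸ Γ) (hx : g • x = x) (m : ℕ)
    (hg : g ^ m = 1) : (kk g x) ^ m = 1 := by
  apply Subtype.ext
  rw [SubgroupClass.coe_pow]
  show ((sec (g • x))⁻¹ * g * sec x) ^ m = 1
  rw [hx]
  have h := conj_pow (a := (sec x)⁻¹) (b := g) (i := m)
  rw [inv_inv] at h
  rw [h, hg]; group

theorem sec_x₀_mem : sec (x₀ Γ) ∈ Γ := by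
  rw [← smul_x₀_eq_iff]
  show ((sec (x₀ Γ) * 1 : SL(2, ℤ)) : SL(2, ℤ) ⧸ Γ) = x₀ Γ
  rw [mul_one, sec_spec]

theorem map_kk_x₀ (φ : Additive Γ →+ A) (γ : Γ) :
    φ (Additive.ofMul (kk (γ : SL(2, ℤ)) (x₀ Γ))) = φ (Additive.ofMul γ) := by
  have h : kk (γ : SL(2, ℤ)) (x₀ Γ) = (⟨sec (x₀ Γ), sec_x₀_mem⟩ : Γ)⁻¹ * γ * ⟨sec (x₀ Γ), sec_x₀_mem⟩ := by
    apply Subtype.ext
    show (sec ((γ : SL(2, ℤ)) • x₀ Γ))⁻¹ * (γ : SL(2, ℤ)) * sec (x₀ Γ) = _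
    rw [smul_x₀]
    rfl
  rw [h, ofMul_mul, ofMul_mul, ofMul_inv, map_add, map_add, map_neg]
  abel

/-- The induced representation attached to `φ : Γ → A`. -/
noncomputable def repFun (φ : Additive Γ →+ A) (g : SL(2, ℤ)) (v : (SL(2, ℤ) ⧸ Γ) × A) :
    (SL(2, ℤ) ⧸ Γ) × A :=
  (g • v.1, v.2 + φ (Additive.ofMul (kk g v.1)))

theorem repFun_mul (φ : Additive Γ →+ A) (g h : SL(2, ℤ)) (v : (SL(2, ℤ) ⧸ Γ) × A) :
    repFun φ (g * h) v = repFun φ g (repFun φ h v) := by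
  simp only [repFun, mul_smul, kk_mul, ofMul_mul, map_add, Prod.mk.injEq, true_and]
  abel

theorem repFun_one (φ : Additive Γ →+ A) (v : (SL(2, ℤ) ⧸ Γ) × A) : repFun φ 1 v = v := by
  simp [repFun, kk_one]

/-- The induced representation as a homomorphism. -/
noncomputable def rep (φ : Additive Γ →+ A) : SL(2, ℤ) →* Equiv.Perm ((SL(2, ℤ) ⧸ Γ) × A) where
  toFun g := ⟨repFun φ g, repFun φ g⁻¹,
    fun v => by rw [← repFun_mul, inv_mul_cancel, repFun_one],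
    fun v => by rw [← repFun_mul, mul_inv_cancel, repFun_one]⟩
  map_one' := Equiv.ext fun v => repFun_one φ v
  map_mul' g h := Equiv.ext fun v => repFun_mul φ g h v

theorem rep_apply (φ : Additive Γ →+ A) (g : SL(2, ℤ)) (v : (SL(2, ℤ) ⧸ Γ) × A) :
    rep φ g v = (g • v.1, v.2 + φ (Additive.ofMul (kk g v.1))) := rfl

theorem coc_rep (φ : Additive Γ →+ A) (g : SL(2, ℤ)) (x : SL(2, ℤ) ⧸ Γ) :
    coc (rep φ) g x = φ (Additive.ofMul (kk g x)) := by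
  show (0 : A) + φ (Additive.ofMul (kk g x)) = _
  rw [zero_add]

theorem neg_one_smul' (hneg : (-1 : SL(2, ℤ)) ∈ Γ) (x : SL(2, ℤ) ⧸ Γ) :
    (-1 : SL(2, ℤ)) • x = x := by
  induction x using QuotientGroup.induction_on with
  | H g =>
    rw [smul_coe, QuotientGroup.eq]
    have : (-1 * g)⁻¹ * g = (-1 : SL(2, ℤ)) := by
      rw [neg_one_mul, inv_neg, neg_mul, inv_mul_cancel]
    rw [this]; exact hneg

theorem plain_neg_one (hneg : (-1 : SL(2, ℤ)) ∈ Γ) : plain Γ A (-1) = 1 := by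
  ext v
  · simp [neg_one_smul' hneg]
  · simp

theorem conj_sq_eq_one (hneg : (-1 : SL(2, ℤ)) ∈ Γ) (Y : SL(2, ℤ) ⧸ Γ → A) :
    (tr Y * plain Γ A S * (tr Y)⁻¹) ^ 2 = 1 := by
  rw [conj_pow, ← map_pow, S16_PSL.S_sq, plain_neg_one hneg, mul_one, mul_inv_cancel]

theorem conj_cube_eq_one (hneg : (-1 : SL(2, ℤ)) ∈ Γ) (Y : SL(2, ℤ) ⧸ Γ → A) :
    (tr Y * plain Γ A (T * S) * (tr Y)⁻¹) ^ 3 = 1 := by
  rw [conj_pow, ← map_pow, S16_PSL.TS_cube, plain_neg_one hneg, mul_one, mul_inv_cancel]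

theorem conj_apply (g : SL(2, ℤ)) (Y : SL(2, ℤ) ⧸ Γ → A) (v : (SL(2, ℤ) ⧸ Γ) × A) :
    (tr Y * plain Γ A g * (tr Y)⁻¹) v = (g • v.1, v.2 - Y v.1 + Y (g • v.1)) := by
  simp [Equiv.Perm.mul_apply]

/-- One stage of the lifting: integral primitives `YS`, `YR` of the mod `n` cocycle give an
integral bundle representation reducing to the induced representation of `φ`. -/
theorem stage (hneg : (-1 : SL(2, ℤ)) ∈ Γ) {n : ℕ} (φ : Additive Γ →+ ZMod n)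
    (YS YR : SL(2, ℤ) ⧸ Γ → ℤ)
    (hS : ∀ x, ((YS (S • x) : ℤ) : ZMod n) - (YS x : ZMod n) = φ (Additive.ofMul (kk S x)))
    (hR : ∀ x, ((YR ((T * S) • x) : ℤ) : ZMod n) - (YR x : ZMod n)
      = φ (Additive.ofMul (kk (T * S) x))) :
    ∃ θ : SL(2, ℤ) →* Equiv.Perm ((SL(2, ℤ) ⧸ Γ) × ℤ), (∀ g, IsB g (θ g)) ∧
      (∀ x, coc θ S x = YS (S • x) - YS x) ∧
      (∀ x, coc θ (T * S) x = YR ((T * S) • x) - YR x) ∧
      (∀ g x, ((coc θ g x : ℤ) : ZMod n) = φ (Additive.ofMul (kk g x))) ∧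
      (∀ x, coc θ (-1) x = 0) := by
  obtain ⟨θ, hθS, hθR⟩ := S16_PSL.exists_hom (tr YS * plain Γ ℤ S * (tr YS)⁻¹)
    (tr YR * plain Γ ℤ (T * S) * (tr YR)⁻¹) (conj_sq_eq_one hneg YS) (conj_cube_eq_one hneg YR)
  have hB : ∀ g, IsB g (θ g) :=
    isB_all θ (by rw [hθS]; exact isB_conj S YS) (by rw [hθR]; exact isB_conj (T * S) YR)
  have hcS : ∀ x, coc θ S x = YS (S • x) - YS x := by
    intro x
    show (θ S (x, 0)).2 = _
    rw [hθS, conj_apply]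
    simp only [zero_sub]
    ring
  have hcR : ∀ x, coc θ (T * S) x = YR ((T * S) • x) - YR x := by
    intro x
    show (θ (T * S) (x, 0)).2 = _
    rw [hθR, conj_apply]
    simp only [zero_sub]
    ring
  refine ⟨θ, hB, hcS, hcR, ?_, ?_⟩
  · intro g x
    have h := coc_compare (Int.castAddHom (ZMod n)) θ (rep φ) ?_ ?_ g x
    · rw [coc_rep] at h
      exact h.symm
    · intro v
      rw [rep_apply, hθS, conj_apply]
      simp only [Int.coe_castAddHom, Int.cast_add, Int.cast_sub, Prod.mk.injEq, true_and]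
      rw [← hS v.1]; ring
    · intro v
      rw [rep_apply, hθR, conj_apply]
      simp only [Int.coe_castAddHom, Int.cast_add, Int.cast_sub, Prod.mk.injEq, true_and]
      rw [← hR v.1]; ring
  · intro x
    have h1 : θ (-1) = 1 := by
      rw [← S16_PSL.S_sq, map_pow, hθS, conj_sq_eq_one hneg YS]
    show (θ (-1) (x, 0)).2 = 0
    rw [h1]
    rfl

/-- The value at `T` in terms of the primitives. -/
theorem coc_T_formula (hTΓ : T ∈ Γ) (θ : SL(2, ℤ) →* Equiv.Perm ((SL(2, ℤ) ⧸ Γ) × ℤ))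
    (hB : ∀ g, IsB g (θ g)) (YS YR : SL(2, ℤ) ⧸ Γ → ℤ)
    (hcS : ∀ x, coc θ S x = YS (S • x) - YS x)
    (hcR : ∀ x, coc θ (T * S) x = YR ((T * S) • x) - YR x) :
    coc θ T (x₀ Γ) = YS (S⁻¹ • x₀ Γ) - YS (x₀ Γ) + YR (x₀ Γ) - YR (S⁻¹ • x₀ Γ) := by
  have h2 : (T : SL(2, ℤ)) = T * S * S⁻¹ := by group
  have h3 : (T * S) • S⁻¹ • x₀ Γ = x₀ Γ := by
    rw [← mul_smul, ← h2]
    exact (smul_x₀_eq_iff T).2 hTΓ
  have h4 : coc θ T (x₀ Γ) = coc θ S⁻¹ (x₀ Γ) + coc θ (T * S) (S⁻¹ • x₀ Γ) := by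
    nth_rewrite 1 [h2]
    exact coc_mul θ hB (T * S) S⁻¹ (x₀ Γ)
  rw [h4, coc_inv θ hB, hcS, hcR, h3, smul_inv_smul]
  ring

end Section

section Lift

variable {Γ : Subgroup SL(2, ℤ)}

theorem S_pow_twelve : (S : SL(2, ℤ)) ^ 12 = 1 := by decide

theorem TS_pow_twelve : (T * S : SL(2, ℤ)) ^ 12 = 1 := by decide

theorem neg_one_pow_twelve : (-1 : SL(2, ℤ)) ^ 12 = 1 := by decide

theorem exists_lift_general (hneg : (-1 : SL(2, ℤ)) ∈ Γ) (hSΓ : S ∉ Γ) (hTΓ : T ∈ Γ)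
    {n : ℕ} [NeZero n] (φ : Additive Γ →+ ZMod n)
    (h12 : ∀ γ : Γ, γ ^ 12 = 1 → φ (Additive.ofMul γ) = 0)
    (hT : φ (Additive.ofMul ⟨T, hTΓ⟩) = 0) :
    ∃ (θ : SL(2, ℤ) →* Equiv.Perm ((SL(2, ℤ) ⧸ Γ) × ℤ)) (YS YR : SL(2, ℤ) ⧸ Γ → ℤ),
      (∀ g, IsB g (θ g)) ∧
      (∀ x, coc θ S x = YS (S • x) - YS x) ∧
      (∀ x, coc θ (T * S) x = YR ((T * S) • x) - YR x) ∧
      (∀ γ : Γ, ((coc θ (γ : SL(2, ℤ)) (x₀ Γ) : ℤ) : ZMod n) = φ (Additive.ofMul γ)) ∧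
      (∀ x, coc θ (-1) x = 0) ∧ coc θ T (x₀ Γ) = 0 := by
  classical
  have hnegx := neg_one_smul' hneg
  have hkill : ∀ (g : SL(2, ℤ)) (x : SL(2, ℤ) ⧸ Γ), g • x = x → g ^ 12 = 1 →
      φ (Additive.ofMul (kk g x)) = 0 :=
    fun g x hx hg => h12 _ (kk_pow_eq_one g x hx 12 hg)
  obtain ⟨YSb, hYSb⟩ := S16_Orb.exists_Y2 (fun x : SL(2, ℤ) ⧸ Γ => S • x)
    (fun x => by
      show S • S • x = x
      rw [← mul_smul, ← sq, S16_PSL.S_sq]; exact hnegx x)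
    (fun x => φ (Additive.ofMul (kk S x)))
    (fun x => by
      show φ (Additive.ofMul (kk S (S • x))) + φ (Additive.ofMul (kk S x)) = 0
      rw [← map_add, ← ofMul_mul, ← kk_mul, ← sq, S16_PSL.S_sq]
      exact hkill (-1) x (hnegx x) neg_one_pow_twelve)
    (fun x hx => hkill S x hx S_pow_twelve)
  obtain ⟨YRb, hYRb⟩ := S16_Orb.exists_Y3 (fun x : SL(2, ℤ) ⧸ Γ => (T * S) • x)
    (fun x => by
      show (T * S) • (T * S) • (T * S) • x = x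
      rw [← mul_smul, ← mul_smul, ← pow_three', S16_PSL.TS_cube]; exact hnegx x)
    (fun x => φ (Additive.ofMul (kk (T * S) x)))
    (fun x => by
      show φ (Additive.ofMul (kk (T * S) x)) + φ (Additive.ofMul (kk (T * S) ((T * S) • x)))
        + φ (Additive.ofMul (kk (T * S) ((T * S) • (T * S) • x))) = 0
      have e : kk ((T * S) ^ 3) x
          = kk (T * S) ((T * S) • (T * S) • x) * (kk (T * S) ((T * S) • x) * kk (T * S) x) := by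
        rw [pow_three, kk_mul (T * S) (T * S * (T * S)) x, kk_mul (T * S) (T * S) x, mul_smul]
      have h0 : φ (Additive.ofMul (kk ((T * S) ^ 3) x)) = 0 := by
        rw [S16_PSL.TS_cube]
        exact hkill (-1) x (hnegx x) neg_one_pow_twelve
      rw [e, ofMul_mul, ofMul_mul, map_add, map_add] at h0
      linear_combination h0)
    (fun x hx => hkill (T * S) x hx TS_pow_twelve)
  -- integral lifts
  have hval : ∀ a : ZMod n, (((a.val : ℕ) : ℤ) : ZMod n) = a := fun a => by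
    rw [Int.cast_natCast, ZMod.natCast_zmod_val]
  obtain ⟨YS0, hYS0⟩ : ∃ Y : SL(2, ℤ) ⧸ Γ → ℤ, ∀ x, Y x = ((YSb x).val : ℤ) := ⟨_, fun _ => rfl⟩
  obtain ⟨YR0, hYR0⟩ : ∃ Y : SL(2, ℤ) ⧸ Γ → ℤ, ∀ x, Y x = ((YRb x).val : ℤ) := ⟨_, fun _ => rfl⟩
  have hYS0' : ∀ x, ((YS0 x : ℤ) : ZMod n) = YSb x := fun x => by rw [hYS0, hval]
  have hYR0' : ∀ x, ((YR0 x : ℤ) : ZMod n) = YRb x := fun x => by rw [hYR0, hval]
  obtain ⟨θ1, hB1, hcS1, hcR1, hred1, -⟩ := stage hneg φ YS0 YR0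
    (fun x => by rw [hYS0', hYS0']; exact hYSb x) (fun x => by rw [hYR0', hYR0']; exact hYRb x)
  -- the correction at `T`
  have hk0 : ((coc θ1 T (x₀ Γ) : ℤ) : ZMod n) = 0 := by
    rw [hred1 T (x₀ Γ)]
    have h := map_kk_x₀ φ (⟨T, hTΓ⟩ : Γ)
    rw [hT] at h
    exact h
  obtain ⟨YS1, hYS1⟩ : ∃ Y : SL(2, ℤ) ⧸ Γ → ℤ,
      ∀ x, Y x = YS0 x + (if x = x₀ Γ then coc θ1 T (x₀ Γ) else 0) := ⟨_, fun _ => rfl⟩
  have hYS1' : ∀ x, ((YS1 x : ℤ) : ZMod n) = YSb x := by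
    intro y
    rw [hYS1, Int.cast_add, hYS0']
    split_ifs
    · rw [hk0, add_zero]
    · rw [Int.cast_zero, add_zero]
  obtain ⟨θ2, hB2, hcS2, hcR2, hred2, hneg2⟩ := stage hneg φ YS1 YR0
    (fun x => by rw [hYS1', hYS1']; exact hYSb x) (fun x => by rw [hYR0', hYR0']; exact hYRb x)
  refine ⟨θ2, YS1, YR0, hB2, hcS2, hcR2, ?_, hneg2, ?_⟩
  · intro γ
    rw [hred2, map_kk_x₀]
  · rw [coc_T_formula hTΓ θ2 hB2 YS1 YR0 hcS2 hcR2]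
    have h1 := coc_T_formula hTΓ θ1 hB1 YS0 YR0 hcS1 hcR1
    have hne : S⁻¹ • x₀ Γ ≠ x₀ Γ := by
      rw [Ne, smul_x₀_eq_iff]
      intro h
      exact hSΓ (by simpa using Γ.inv_mem h)
    rw [hYS1, hYS1, if_neg hne, if_pos rfl, h1]
    ring

end Lift

section Gamma0

open CongruenceSubgroup ModularCurve.Period

theorem neg_one_mem_Gamma0 (N : ℕ) : (-1 : SL(2, ℤ)) ∈ Gamma0 N := by
  rw [Gamma0_mem]; simp

theorem T_mem_Gamma0 (N : ℕ) : T ∈ Gamma0 N := by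
  rw [Gamma0_mem]; simp [ModularGroup.T]

/-- The matrix `T ^ k * S`. -/
theorem TkS_coe (k : ℤ) :
    ((T ^ k * S : SL(2, ℤ)) : Matrix (Fin 2) (Fin 2) ℤ) = !![k, -1; 1, 0] := by
  rw [Matrix.SpecialLinearGroup.coe_mul, coe_T_zpow, coe_S]
  ext i j
  fin_cases i <;> fin_cases j <;> simp [Matrix.mul_apply, Fin.sum_univ_two]

theorem TkS_inv_mul_entry (k : ℤ) (g : SL(2, ℤ)) :
    ((T ^ k * S)⁻¹ * g : SL(2, ℤ)) 1 0 = -(g 0 0) + k * g 1 0 := by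
  rw [Matrix.SpecialLinearGroup.coe_mul, Matrix.SpecialLinearGroup.coe_inv, TkS_coe,
    Matrix.adjugate_fin_two_of]
  simp [Matrix.mul_apply, Fin.sum_univ_two]

theorem conj_S_entry (m : ℤ) : ((S⁻¹ * T ^ m * S : SL(2, ℤ)) 1 0) = -m := by
  have h := TkS_inv_mul_entry 0 (T ^ m * S)
  rw [zpow_zero, one_mul, ← mul_assoc] at h
  rw [h, TkS_coe]
  simp

variable (p : ℕ) [Fact p.Prime]

theorem S_not_mem_Gamma0 : S ∉ Gamma0 p := by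
  have hp : Fact (1 < p) := ⟨(Fact.out : p.Prime).one_lt⟩
  rw [Gamma0_mem]
  simp [ModularGroup.S]

/-- Enumeration of the cosets of `Γ₀(p)`. -/
noncomputable def enum : Option (Fin p) → SL(2, ℤ) ⧸ Gamma0 p
  | none => x₀ _
  | some i => (T ^ ((i : ℕ) : ℤ) * S) • x₀ _

theorem enum_injective : Function.Injective (enum p) := by
  have hp : Fact (1 < p) := ⟨(Fact.out : p.Prime).one_lt⟩
  have key : ∀ i : Fin p, (T ^ ((i : ℕ) : ℤ) * S) • x₀ (Gamma0 p) ≠ x₀ (Gamma0 p) := by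
    intro i h
    rw [smul_x₀_eq_iff, Gamma0_mem, TkS_coe] at h
    simp at h
  rintro (_ | i) (_ | j) h
  · rfl
  · exact absurd h.symm (key j)
  · exact absurd h (key i)
  · have h' : ((T ^ ((j : ℕ) : ℤ) * S)⁻¹ * (T ^ ((i : ℕ) : ℤ) * S)) ∈ Gamma0 p := by
      rw [← smul_x₀_eq_iff, mul_smul]
      have h2 : (T ^ ((i : ℕ) : ℤ) * S) • x₀ (Gamma0 p) = (T ^ ((j : ℕ) : ℤ) * S) • x₀ (Gamma0 p) := h
      rw [h2, inv_smul_smul]
    rw [Gamma0_mem, TkS_inv_mul_entry, TkS_coe] at h'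
    simp at h'
    have h2 : ((i : ℕ) : ZMod p) = ((j : ℕ) : ZMod p) := by linear_combination -h'
    have h3 := (ZMod.natCast_eq_natCast_iff' _ _ _).mp h2
    rw [Nat.mod_eq_of_lt i.2, Nat.mod_eq_of_lt j.2] at h3
    exact congrArg some (Fin.ext h3)

theorem enum_surjective : Function.Surjective (enum p) := by
  have : NeZero p := ⟨(Fact.out : p.Prime).ne_zero⟩
  intro x
  induction x using QuotientGroup.induction_on with
  | H g =>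
    by_cases hg : g ∈ Gamma0 p
    · refine ⟨none, ?_⟩
      show x₀ _ = (g : SL(2, ℤ) ⧸ Gamma0 p)
      exact (QuotientGroup.eq).2 (by simpa using hg)
    · have hc : ((g 1 0 : ℤ) : ZMod p) ≠ 0 := fun h => hg (Gamma0_mem.2 h)
      let j : Fin p := ⟨(((g 0 0 : ℤ) : ZMod p) * ((g 1 0 : ℤ) : ZMod p)⁻¹).val, ZMod.val_lt _⟩
      refine ⟨some j, ?_⟩
      show ((T ^ ((j : ℕ) : ℤ) * S * 1 : SL(2, ℤ)) : SL(2, ℤ) ⧸ Gamma0 p) = g
      rw [mul_one, QuotientGroup.eq, Gamma0_mem, TkS_inv_mul_entry]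
      push_cast
      have hj : ((j : ℕ) : ZMod p) = ((g 0 0 : ℤ) : ZMod p) * ((g 1 0 : ℤ) : ZMod p)⁻¹ :=
        ZMod.natCast_zmod_val _
      rw [hj, mul_assoc, inv_mul_cancel₀ hc]; ring

theorem coc_conj {Γ : Subgroup SL(2, ℤ)} (θ : SL(2, ℤ) →* Equiv.Perm ((SL(2, ℤ) ⧸ Γ) × ℤ))
    (hB : ∀ g, IsB g (θ g)) (g h : SL(2, ℤ)) (hfix : h • g • x₀ Γ = g • x₀ Γ) :
    coc θ (g⁻¹ * h * g) (x₀ Γ) = coc θ h (g • x₀ Γ) := by
  rw [mul_assoc, coc_mul θ hB g⁻¹ (h * g), coc_mul θ hB h g, mul_smul, hfix, coc_inv θ hB,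
    inv_smul_smul]
  abel

theorem coc_pow {Γ : Subgroup SL(2, ℤ)} (θ : SL(2, ℤ) →* Equiv.Perm ((SL(2, ℤ) ⧸ Γ) × ℤ))
    (hB : ∀ g, IsB g (θ g)) (g : SL(2, ℤ)) (k : ℕ) (y : SL(2, ℤ) ⧸ Γ) :
    coc θ (g ^ k) y = ∑ i ∈ Finset.range k, coc θ g (g ^ i • y) := by
  induction k with
  | zero => simp [coc_one]
  | succ k ih => rw [pow_succ', coc_mul θ hB, ih, Finset.sum_range_succ]

theorem isParabolic_homOf (θ : SL(2, ℤ) →* Equiv.Perm ((SL(2, ℤ) ⧸ Gamma0 p) × ℤ))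
    (hB : ∀ g, IsB g (θ g)) (YS YR : SL(2, ℤ) ⧸ Gamma0 p → ℤ)
    (hcS : ∀ x, coc θ S x = YS (S • x) - YS x)
    (hcR : ∀ x, coc θ (T * S) x = YR ((T * S) • x) - YR x)
    (hneg : ∀ x, coc θ (-1) x = 0) (hT0 : coc θ T (x₀ (Gamma0 p)) = 0) :
    IsParabolicHom (Gamma0 p) (homOf θ hB) := by
  classical
  let E : Option (Fin p) ≃ SL(2, ℤ) ⧸ Gamma0 p :=
    Equiv.ofBijective (enum p) ⟨enum_injective p, enum_surjective p⟩
  let _ : Fintype (SL(2, ℤ) ⧸ Gamma0 p) := Fintype.ofEquiv _ E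
  have hsumS : ∑ x, coc θ S x = 0 := by
    simp only [hcS, Finset.sum_sub_distrib]
    rw [sub_eq_zero]
    exact Equiv.sum_comp (MulAction.toPerm S) YS
  have hsumR : ∑ x, coc θ (T * S) x = 0 := by
    simp only [hcR, Finset.sum_sub_distrib]
    rw [sub_eq_zero]
    exact Equiv.sum_comp (MulAction.toPerm (T * S)) YR
  have hsumT : ∑ x, coc θ T x = 0 := by
    have h2 : (T : SL(2, ℤ)) = T * S * S⁻¹ := by group
    have h3 : ∀ x, coc θ T x = - coc θ S (S⁻¹ • x) + coc θ (T * S) (S⁻¹ • x) := by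
      intro x
      have h := coc_mul θ hB (T * S) S⁻¹ x
      rw [← h2, coc_inv θ hB] at h
      exact h
    simp only [h3, Finset.sum_add_distrib, Finset.sum_neg_distrib]
    have e1 : ∑ x, coc θ S (S⁻¹ • x) = ∑ x, coc θ S x :=
      Equiv.sum_comp (MulAction.toPerm S⁻¹) (coc θ S)
    have e2 : ∑ x, coc θ (T * S) (S⁻¹ • x) = ∑ x, coc θ (T * S) x :=
      Equiv.sum_comp (MulAction.toPerm S⁻¹) (coc θ (T * S))
    rw [e1, e2, hsumS, hsumR]; simp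
  have hcusp : coc θ (T ^ p) (S • x₀ (Gamma0 p)) = 0 := by
    rw [coc_pow θ hB]
    have h4 : ∑ x, coc θ T x = coc θ T (x₀ _) +
        ∑ i ∈ Finset.range p, coc θ T (T ^ i • S • x₀ _) := by
      rw [← Equiv.sum_comp E (coc θ T), Fintype.sum_option]
      congr 1
      rw [← Fin.sum_univ_eq_sum_range (fun i => coc θ T (T ^ i • S • x₀ (Gamma0 p))) p]
      refine Finset.sum_congr rfl fun i _ => ?_
      show coc θ T ((T ^ ((i : ℕ) : ℤ) * S) • x₀ _) = _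
      rw [zpow_natCast, mul_smul]
    rw [hsumT, hT0, zero_add] at h4
    exact h4.symm
  intro γ hγ
  rw [homOf_apply]
  obtain ⟨δ, m, hδ⟩ := Fermat.Agent.S21_ParVanish.exists_conj_T_zpow (γ : SL(2, ℤ)) hγ
  have hγ' : δ * T ^ m * δ⁻¹ ∈ Gamma0 p := by
    rcases hδ with h | h
    · rw [← h]; exact γ.2
    · have h' : δ * T ^ m * δ⁻¹ = -1 * (γ : SL(2, ℤ)) := by rw [h]; simp
      rw [h']; exact (Gamma0 p).mul_mem (neg_one_mem_Gamma0 p) γ.2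
  have h1 : coc θ (γ : SL(2, ℤ)) (x₀ _) = coc θ (δ * T ^ m * δ⁻¹) (x₀ _) := by
    rcases hδ with h | h
    · rw [h]
    · have h' : (γ : SL(2, ℤ)) = -1 * (δ * T ^ m * δ⁻¹) := by rw [h]; simp
      rw [h', coc_mul θ hB, hneg, add_zero]
  rw [h1]
  have hfix : T ^ m • δ⁻¹ • x₀ (Gamma0 p) = δ⁻¹ • x₀ (Gamma0 p) := by
    have h := (smul_x₀_eq_iff (δ * T ^ m * δ⁻¹)).2 hγ'
    rw [mul_smul, mul_smul] at h
    exact eq_inv_smul_iff.2 h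
  have h2 : coc θ (δ * T ^ m * δ⁻¹) (x₀ _) = coc θ (T ^ m) (δ⁻¹ • x₀ _) := by
    have h := coc_conj θ hB δ⁻¹ (T ^ m) hfix
    rwa [inv_inv] at h
  rw [h2]
  obtain ⟨o, ho⟩ := enum_surjective p (δ⁻¹ • x₀ (Gamma0 p))
  rw [← ho] at hfix ⊢
  rcases o with _ | i
  · show coc θ (T ^ m) (x₀ _) = 0
    have h3 : coc θ (T ^ m) (x₀ (Gamma0 p))
        = homOf θ hB (Additive.ofMul ((⟨T, T_mem_Gamma0 p⟩ : Gamma0 p) ^ m)) := by
      rw [homOf_apply, Subgroup.coe_zpow]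
    rw [h3, ofMul_zpow, map_zsmul, homOf_apply]
    show m • coc θ T (x₀ _) = 0
    rw [hT0, smul_zero]
  · have hfix' : T ^ m • (T ^ ((i : ℕ) : ℤ) * S) • x₀ (Gamma0 p)
        = (T ^ ((i : ℕ) : ℤ) * S) • x₀ (Gamma0 p) := hfix
    show coc θ (T ^ m) ((T ^ ((i : ℕ) : ℤ) * S) • x₀ _) = 0
    rw [← coc_conj θ hB (T ^ ((i : ℕ) : ℤ) * S) (T ^ m) hfix']
    have h5 : (T ^ ((i : ℕ) : ℤ) * S)⁻¹ * T ^ m * (T ^ ((i : ℕ) : ℤ) * S) = S⁻¹ * T ^ m * S := by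
      group
    have hmem : S⁻¹ * T ^ m * S ∈ Gamma0 p := by
      rw [← h5, ← smul_x₀_eq_iff, mul_smul, mul_smul, hfix', inv_smul_smul]
    rw [h5]
    obtain ⟨k, rfl⟩ : (p : ℤ) ∣ m := by
      rw [Gamma0_mem, conj_S_entry] at hmem
      have h6 : ((m : ℤ) : ZMod p) = 0 := by simpa using hmem
      exact (ZMod.intCast_zmod_eq_zero_iff_dvd m p).1 h6
    have hV : S⁻¹ * T ^ (p : ℤ) * S ∈ Gamma0 p := by
      rw [Gamma0_mem, conj_S_entry]; simp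
    have h6 : S⁻¹ * T ^ ((p : ℤ) * k) * S
        = (((⟨S⁻¹ * T ^ (p : ℤ) * S, hV⟩ : Gamma0 p) ^ k : Gamma0 p) : SL(2, ℤ)) := by
      rw [Subgroup.coe_zpow, zpow_mul]
      have h := conj_zpow (a := S⁻¹) (b := T ^ (p : ℤ)) (i := k)
      rw [inv_inv] at h
      exact h.symm
    rw [h6]
    have h7 : coc θ ((((⟨S⁻¹ * T ^ (p : ℤ) * S, hV⟩ : Gamma0 p) ^ k : Gamma0 p) : SL(2, ℤ))) (x₀ _)
        = homOf θ hB (Additive.ofMul ((⟨S⁻¹ * T ^ (p : ℤ) * S, hV⟩ : Gamma0 p) ^ k)) := rfl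
    rw [h7, ofMul_zpow, map_zsmul, homOf_apply]
    show k • coc θ (S⁻¹ * T ^ (p : ℤ) * S) (x₀ _) = 0
    have hfixS : T ^ (p : ℤ) • S • x₀ (Gamma0 p) = S • x₀ (Gamma0 p) := by
      have h := (smul_x₀_eq_iff _).2 hV
      rw [mul_smul, mul_smul] at h
      exact inv_smul_eq_iff.1 h
    rw [coc_conj θ hB S (T ^ (p : ℤ)) hfixS, zpow_natCast, hcusp, smul_zero]

/-- **Lifting lemma.** A homomorphism `Γ₀(p) → ℤ/n` killing `T` and the torsion lifts to a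
parabolic homomorphism `Γ₀(p) → ℤ`. -/
theorem exists_parabolic_lift (n : ℕ) [NeZero n] (φ : Additive (Gamma0 p) →+ ZMod n)
    (h12 : ∀ γ : Gamma0 p, γ ^ 12 = 1 → φ (Additive.ofMul γ) = 0)
    (hT : φ (Additive.ofMul ⟨T, T_mem_Gamma0 p⟩) = 0) :
    ∃ Φ : Additive (Gamma0 p) →+ ℤ, IsParabolicHom (Gamma0 p) Φ ∧
      (Int.castAddHom (ZMod n)).comp Φ = φ := by
  obtain ⟨θ, YS, YR, hB, hcS, hcR, hred, hneg, hT0⟩ :=
    exists_lift_general (neg_one_mem_Gamma0 p) (S_not_mem_Gamma0 p) (T_mem_Gamma0 p) φ h12 hT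
  refine ⟨homOf θ hB, isParabolic_homOf p θ hB YS YR hcS hcR hneg hT0, ?_⟩
  ext γ
  exact hred (Additive.toMul γ)

end Gamma0

end Fermat.Agent.S16_Lift
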