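import Fermat.Prelude.Def_ModularCurve_ModularUnit
import Fermat.Agent.S16_Lift

/-!
# S16 (helper7): the Shimura class and its parabolic integral lift

`χ : (ℤ/p)ˣ → ℤ/n`, `n = (p-1)/gcd(p-1,12)`, a surjective character killing the 12-torsion, and a
parabolic homomorphism `Φ : Γ₀(p) → ℤ` reducing mod `n` to `γ ↦ χ (d mod p)`.
-/

set_option autoImplicit false

open CongruenceSubgroup ModularCurve ModularCurve.Period
open scoped MatrixGroups

namespace Fermat.Agent.S16_Sh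

theorem eisensteinNumerator_dvd (p : ℕ) : eisensteinNumerator p ∣ p - 1 :=
  Nat.div_dvd_of_dvd (Nat.gcd_dvd_left _ _)

theorem eisensteinNumerator_pos (p : ℕ) (hp : 2 ≤ p) : 0 < eisensteinNumerator p := by
  have h1 : 0 < p - 1 := by omega
  exact Nat.div_pos (Nat.le_of_dvd h1 (Nat.gcd_dvd_left _ _)) (Nat.gcd_pos_of_pos_left _ h1)

/-- Arithmetic core: `12 a ≡ 0 mod m` implies `a ≡ 0 mod m / gcd(m, 12)`. -/
theorem dvd_of_twelve (m a : ℕ) (hm : 0 < m) (h : m ∣ 12 * a) : m / Nat.gcd m 12 ∣ a := by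
  have hg : 0 < Nat.gcd m 12 := Nat.gcd_pos_of_pos_left _ hm
  obtain ⟨n, hn⟩ := Nat.gcd_dvd_left m 12
  obtain ⟨t, ht⟩ := Nat.gcd_dvd_right m 12
  have hn' : m / Nat.gcd m 12 = n := by
    nth_rewrite 1 [hn]
    exact Nat.mul_div_cancel_left _ hg
  have ht' : 12 / Nat.gcd m 12 = t := by
    nth_rewrite 1 [ht]
    exact Nat.mul_div_cancel_left _ hg
  have hcop : Nat.Coprime n t := by
    have := Nat.coprime_div_gcd_div_gcd hg
    rwa [hn', ht'] at this
  rw [hn']
  have h2 : Nat.gcd m 12 * n ∣ Nat.gcd m 12 * (t * a) := by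
    have e : Nat.gcd m 12 * (t * a) = 12 * a := by
      rw [← mul_assoc, ← ht]
    rw [e, ← hn]
    exact h
  have h3 : n ∣ t * a := (Nat.mul_dvd_mul_iff_left hg).1 h2
  exact hcop.dvd_of_dvd_mul_left h3

/-- A surjective character `(ℤ/p)ˣ → ℤ/n` killing the `12`-torsion. -/
theorem exists_char (p : ℕ) [Fact p.Prime] :
    ∃ χ : (ZMod p)ˣ →* Multiplicative (ZMod (eisensteinNumerator p)),
      Function.Surjective χ ∧ ∀ x : (ZMod p)ˣ, x ^ 12 = 1 → χ x = 1 := by
  have hp2 : 2 ≤ p := (Fact.out : p.Prime).two_le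
  have hcard : Nat.card (ZMod p)ˣ = p - 1 := by
    rw [Nat.card_eq_fintype_card, ZMod.card_units]
  have hcyc : IsCyclic (ZMod p)ˣ := inferInstance
  have hdvd : eisensteinNumerator p ∣ Nat.card (ZMod p)ˣ := by
    rw [hcard]; exact eisensteinNumerator_dvd p
  have hm : 0 < Nat.card (ZMod p)ˣ := by rw [hcard]; omega
  have : NeZero (Nat.card (ZMod p)ˣ) := ⟨hm.ne'⟩
  let e := zmodCyclicMulEquiv hcyc
  let c : ZMod (Nat.card (ZMod p)ˣ) →+* ZMod (eisensteinNumerator p) := ZMod.castHom hdvd _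
  refine ⟨(AddMonoidHom.toMultiplicative c.toAddMonoidHom).comp e.symm.toMonoidHom, ?_, ?_⟩
  · intro y
    obtain ⟨a, ha⟩ := ZMod.castHom_surjective hdvd (Multiplicative.toAdd y)
    refine ⟨e (Multiplicative.ofAdd a), ?_⟩
    show Multiplicative.ofAdd (c (Multiplicative.toAdd (e.symm (e (Multiplicative.ofAdd a))))) = y
    rw [e.symm_apply_apply]
    exact congrArg Multiplicative.ofAdd ha
  · intro x hx
    show Multiplicative.ofAdd (c (Multiplicative.toAdd (e.symm x))) = 1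
    have h1 : (e.symm x) ^ 12 = 1 := by rw [← map_pow, hx, map_one]
    set a : ZMod (Nat.card (ZMod p)ˣ) := Multiplicative.toAdd (e.symm x) with ha
    have h2 : (12 : ℕ) • a = 0 := by
      have := congrArg Multiplicative.toAdd h1
      rwa [toAdd_pow, toAdd_one] at this
    have h3 : Nat.card (ZMod p)ˣ ∣ 12 * a.val := by
      rw [← ZMod.natCast_eq_zero_iff]
      rw [nsmul_eq_mul] at h2
      push_cast
      rw [ZMod.natCast_zmod_val]
      exact_mod_cast h2
    have h4 : eisensteinNumerator p ∣ a.val := by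
      have h := dvd_of_twelve _ _ hm h3
      have e2 : Nat.card (ZMod p)ˣ / (Nat.card (ZMod p)ˣ).gcd 12 = eisensteinNumerator p := by
        show _ = (p - 1) / Nat.gcd (p - 1) 12
        rw [hcard]
      exact e2 ▸ h
    have h5 : c a = 0 := by
      show ZMod.castHom hdvd (ZMod (eisensteinNumerator p)) a = 0
      rw [ZMod.castHom_apply, ← ZMod.natCast_val, ZMod.natCast_eq_zero_iff]
      exact h4
    rw [h5]
    rfl

/-- **The Shimura class with its parabolic lift.** -/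
theorem exists_shimura_lift (p : ℕ) [Fact p.Prime] :
    ∃ (χ : (ZMod p)ˣ →* Multiplicative (ZMod (eisensteinNumerator p)))
      (Φ : Additive (Gamma0 p) →+ ℤ),
      Function.Surjective χ ∧ IsParabolicHom (Gamma0 p) Φ ∧
      ∀ γ : Gamma0 p, ((Φ (Additive.ofMul γ) : ℤ) : ZMod (eisensteinNumerator p))
        = Multiplicative.toAdd (χ ((Gamma0Map p).toHomUnits γ)) := by
  have hp2 : 2 ≤ p := (Fact.out : p.Prime).two_le
  have : NeZero (eisensteinNumerator p) := ⟨(eisensteinNumerator_pos p hp2).ne'⟩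
  obtain ⟨χ, hχ, hkill⟩ := exists_char p
  let φ : Additive (Gamma0 p) →+ ZMod (eisensteinNumerator p) :=
    MonoidHom.toAdditiveLeft (χ.comp (Gamma0Map p).toHomUnits)
  have hφ : ∀ γ : Gamma0 p,
      φ (Additive.ofMul γ) = Multiplicative.toAdd (χ ((Gamma0Map p).toHomUnits γ)) := fun _ => rfl
  have h12 : ∀ γ : Gamma0 p, γ ^ 12 = 1 → φ (Additive.ofMul γ) = 0 := by
    intro γ hγ
    rw [hφ, hkill _ (by rw [← map_pow, hγ, map_one])]
    rfl
  have hT : φ (Additive.ofMul ⟨ModularGroup.T, S16_Lift.T_mem_Gamma0 p⟩) = 0 := by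
    rw [hφ]
    have h1 : (Gamma0Map p).toHomUnits ⟨ModularGroup.T, S16_Lift.T_mem_Gamma0 p⟩ = 1 := by
      apply Units.ext
      show (((ModularGroup.T : SL(2, ℤ)) 1 1 : ℤ) : ZMod p) = 1
      simp [ModularGroup.T]
    rw [h1, map_one]
    rfl
  obtain ⟨Φ, hpar, hΦ⟩ := S16_Lift.exists_parabolic_lift p (eisensteinNumerator p) φ h12 hT
  refine ⟨χ, Φ, hχ, hpar, fun γ => ?_⟩
  rw [← hφ, ← hΦ]
  rfl

end Fermat.Agent.S16_Sh
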