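-- Statement S21: Eichler–Shimura (injectivity and image of the period map).
import Fermat.Statements.S21
import Fermat.Agent.S20

set_option autoImplicit false
open ModularCurve

namespace Fermat.Agent.S21

open CongruenceSubgroup ModularCurve.Period

theorem result (N : ℕ) [NeZero N] :
    Function.Injective (ModularCurve.periodHomPair N)
      ∧ LinearMap.range (ModularCurve.periodHomPair N)
          = ModularCurve.Period.parabolicHoms ℂ (CongruenceSubgroup.Gamma0 N) ℂ := by
  have hinj := Fermat.Agent.S21_Period.periodHomPair_injective N
  refine ⟨hinj, ?_⟩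
  have := Fermat.Agent.S21_Parabolic.finiteDimensional_parabolicHoms N
  have := Fermat.Agent.S20.finiteDimensional_cuspForm N
  refine Submodule.eq_of_le_of_finrank_le (Fermat.Agent.S21_ParVanish.range_periodHomPair_le N) ?_
  rw [LinearMap.finrank_range_of_inj hinj, Module.finrank_prod]
  have h1 := Fermat.Agent.S20.result N
  have h3 := Fermat.Agent.S21_Parabolic.finrank_parabolicHoms_le N
  rw [← h1] at h3
  have h4 : Module.finrank ℂ (parabolicHoms ℂ (Gamma0 N) ℂ)
      ≤ 2 * Module.finrank ℂ (CuspForm (Gamma0 N) 2) := by exact_mod_cast h3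
  omega

end Fermat.Agent.S21
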