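import Mathlib
import Fermat.Prelude.Def_ModularCurve_PeriodHomPair
import Fermat.Prelude.Def_CuspForm_HeckeEvalForms
import Fermat.Prelude.Def_HeckeGalois_EichlerShimura
import Fermat.Agent.S16_Hecke
import Fermat.Agent.S16_Sh
import Fermat.Agent.S21
import Fermat.Agent.S21_Conj

/-!
# S16, lower bound (helper2): a Hecke polynomial killing `S₂(Γ₀(p))` has Eisenstein character
divisible by `n`, given a parabolic integral lift of a Shimura-type class

The free algebra `ℤ⟨X_ℓ⟩` acts on `Hom(Γ₀(N), B)` functorially in `B` (no commutativity needed).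
By Eichler–Shimura equivariance (`S16_Hecke`) and S21, a word `w` whose image in
`End S₂(Γ₀(N))` vanishes kills all parabolic homomorphisms to `ℂ`, hence to `ℤ`.  The class
`γ ↦ χ(d mod p)` is an eigenvector for the Eisenstein character.
-/

set_option autoImplicit false

open Complex UpperHalfPlane CongruenceSubgroup ModularCurve ModularCurve.Period
open scoped MatrixGroups ModularForm

namespace Fermat.Agent.S16_LB

open Fermat.Agent.S16_Hecke

section General

variable (N : ℕ) [NeZero N]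

/-- the Hecke operator attached to the prime `ℓ` on `Hom(Γ₀(N), B)`. -/
noncomputable def homOp (B : Type*) [AddCommGroup B] (ℓ : Nat.Primes) :
    Module.End ℤ (Additive (Gamma0 N) →+ B) :=
  if h : (ℓ : ℕ) ∣ N then (sysU N h).op B else (sysT N ℓ.2 h).op B

theorem homOp_comp {B C : Type*} [AddCommGroup B] [AddCommGroup C] (g : B →+ C) (ℓ : Nat.Primes)
    (φ : Additive (Gamma0 N) →+ B) :
    homOp N C ℓ (g.comp φ) = g.comp (homOp N B ℓ φ) := by
  unfold homOp
  split_ifs
  · exact HeckeSys.op_comp _ g φ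
  · exact HeckeSys.op_comp _ g φ

/-- the action of the free algebra on `Hom(Γ₀(N), B)`. -/
noncomputable def rhoHom (B : Type*) [AddCommGroup B] :
    FreeAlgebra ℤ Nat.Primes →ₐ[ℤ] Module.End ℤ (Additive (Gamma0 N) →+ B) :=
  FreeAlgebra.lift ℤ (homOp N B)

theorem rhoHom_ι (B : Type*) [AddCommGroup B] (ℓ : Nat.Primes) :
    rhoHom N B (FreeAlgebra.ι ℤ ℓ) = homOp N B ℓ :=
  FreeAlgebra.lift_ι_apply _ _

theorem rhoHom_algebraMap (B : Type*) [AddCommGroup B] (r : ℤ) (φ : Additive (Gamma0 N) →+ B) :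
    rhoHom N B (algebraMap ℤ _ r) φ = r • φ := by
  rw [AlgHom.commutes, Module.algebraMap_end_apply]

theorem rhoHom_comp {B C : Type*} [AddCommGroup B] [AddCommGroup C] (g : B →+ C)
    (w : FreeAlgebra ℤ Nat.Primes) (φ : Additive (Gamma0 N) →+ B) :
    rhoHom N C w (g.comp φ) = g.comp (rhoHom N B w φ) := by
  induction w using FreeAlgebra.induction generalizing φ with
  | grade0 r =>
    rw [rhoHom_algebraMap, rhoHom_algebraMap]
    refine AddMonoidHom.ext fun γ => ?_
    simp
  | grade1 ℓ => rw [rhoHom_ι, rhoHom_ι, homOp_comp]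
  | mul a b ha hb =>
    rw [map_mul, map_mul, Module.End.mul_apply, Module.End.mul_apply, hb, ha]
  | add a b ha hb =>
    rw [map_add, map_add, LinearMap.add_apply, LinearMap.add_apply, ha, hb]
    refine AddMonoidHom.ext fun γ => ?_
    simp

/-- the action of the free algebra on cusp forms. -/
noncomputable def rhoForms :
    FreeAlgebra ℤ Nat.Primes →ₐ[ℤ] Module.End ℂ (CuspForm (Gamma0 N) 2) :=
  FreeAlgebra.lift ℤ (fun ℓ =>
    ((CuspForm.heckeFormsGen N 2 ℓ : CuspForm.heckeAlgebra N 2 ∅) :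
      Module.End ℂ (CuspForm (Gamma0 N) 2)))

/-- the abelianisation map `ℤ⟨X_ℓ⟩ → ℤ[X_ℓ]`. -/
noncomputable def toPoly : FreeAlgebra ℤ Nat.Primes →ₐ[ℤ] HeckeAlg :=
  FreeAlgebra.lift ℤ (fun ℓ => (MvPolynomial.X ℓ : HeckeAlg))

theorem toPoly_surjective : Function.Surjective toPoly := by
  intro t
  induction t using MvPolynomial.induction_on with
  | C a => exact ⟨algebraMap ℤ _ a, by rw [AlgHom.commutes]; rfl⟩
  | add p q hp hq =>
    obtain ⟨a, rfl⟩ := hp
    obtain ⟨b, rfl⟩ := hq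
    exact ⟨a + b, map_add _ _ _⟩
  | mul_X p i hp =>
    obtain ⟨a, rfl⟩ := hp
    exact ⟨a * FreeAlgebra.ι ℤ i, by rw [map_mul, toPoly, FreeAlgebra.lift_ι_apply]⟩

theorem rhoForms_eq (w : FreeAlgebra ℤ Nat.Primes) :
    rhoForms N w = ((CuspForm.heckeEvalForms N 2 (toPoly w) : CuspForm.heckeAlgebra N 2 ∅) :
      Module.End ℂ (CuspForm (Gamma0 N) 2)) := by
  have h : rhoForms N = (CuspForm.heckeAlgebra N 2 ∅).val.comp
      ((MvPolynomial.aeval (CuspForm.heckeFormsGen N 2)).comp toPoly) := by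
    apply FreeAlgebra.hom_ext
    funext ℓ
    simp [rhoForms, toPoly]
  rw [h]
  rfl

theorem aeval_toPoly (a : Nat.Primes → ℤ) (w : FreeAlgebra ℤ Nat.Primes) :
    MvPolynomial.aeval a (toPoly w) = FreeAlgebra.lift ℤ a w := by
  have h : (MvPolynomial.aeval a).comp toPoly = FreeAlgebra.lift ℤ a := by
    apply FreeAlgebra.hom_ext
    funext ℓ
    simp [toPoly]
  rw [← h]
  rfl

/-- Eichler–Shimura equivariance for words. -/
theorem periodMap_rhoForms (w : FreeAlgebra ℤ Nat.Primes) (f : CuspForm (Gamma0 N) 2) :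
    periodMap N (rhoForms N w f) = rhoHom N ℂ w (periodMap N f) := by
  induction w using FreeAlgebra.induction generalizing f with
  | grade0 r =>
    rw [rhoHom_algebraMap, AlgHom.commutes, Module.algebraMap_end_apply]
    exact map_zsmul (S21_Prim.periodMapL N) r f
  | grade1 ℓ =>
    rw [rhoHom_ι, rhoForms, FreeAlgebra.lift_ι_apply]
    unfold homOp CuspForm.heckeFormsGen
    split_ifs with h
    · exact periodMap_heckeULin N h f
    · exact periodMap_heckeTLin N ℓ.2 h f
  | mul a b ha hb =>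
    rw [map_mul, map_mul, Module.End.mul_apply, Module.End.mul_apply, ha, hb]
  | add a b ha hb =>
    rw [map_add, map_add, LinearMap.add_apply, LinearMap.add_apply, S21_Prim.periodMap_add, ha, hb]

/-- `-conj` as an additive map. -/
noncomputable def negConj : ℂ →+ ℂ := -((starRingEnd ℂ : ℂ →+* ℂ) : ℂ →+ ℂ)

theorem negConj_apply (z : ℂ) : negConj z = -(starRingEnd ℂ) z := rfl

theorem periodMap_zero : periodMap N (0 : CuspForm (Gamma0 N) 2) = 0 :=
  map_zero (S21_Prim.periodMapL N)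

/-- a word acting as zero on cusp forms kills all parabolic homomorphisms to `ℂ`. -/
theorem rhoHom_parabolic_eq_zero (w : FreeAlgebra ℤ Nat.Primes) (hw : rhoForms N w = 0)
    (ψ : Additive (Gamma0 N) →+ ℂ) (hψ : IsParabolicHom (Gamma0 N) ψ) :
    rhoHom N ℂ w ψ = 0 := by
  have hS21 := (Fermat.Agent.S21.result N).2
  have hmem : ψ ∈ LinearMap.range (periodHomPair N) := by rw [hS21]; exact hψ
  obtain ⟨⟨f, g⟩, rfl⟩ := hmem
  obtain ⟨pml, hpml, hdef⟩ := periodHomPair_def N (S21_Prim.existsPeriodMapLinear N)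
  have h1 : ∀ F : CuspForm (Gamma0 N) 2, rhoHom N ℂ w (periodMap N F) = 0 := by
    intro F
    rw [← periodMap_rhoForms, hw, LinearMap.zero_apply, periodMap_zero]
  have h2 : ∀ F : CuspForm (Gamma0 N) 2,
      rhoHom N ℂ w (charInvolution N ℂ ℂ (periodMap N F)) = 0 := by
    intro F
    have e : charInvolution N ℂ ℂ (periodMap N F)
        = negConj.comp (periodMap N (S21_Conj.conjForm F)) := by
      refine AddMonoidHom.ext fun γ => ?_
      exact S21_Conj.charInvolution_periodMap F (Additive.toMul γ)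
    rw [e, rhoHom_comp, h1]
    refine AddMonoidHom.ext fun γ => ?_
    simp
  rw [hdef]
  simp only [LinearMap.coprod_apply, LinearMap.comp_apply, LinearMap.add_apply,
    LinearMap.sub_apply, LinearMap.id_apply, hpml]
  rw [map_add, map_add, map_sub, h1, h1, h2, h2]
  simp

/-- a word acting as zero on cusp forms kills all parabolic homomorphisms to `ℤ`. -/
theorem rhoHom_int_parabolic_eq_zero (w : FreeAlgebra ℤ Nat.Primes) (hw : rhoForms N w = 0)
    (Φ : Additive (Gamma0 N) →+ ℤ) (hΦ : IsParabolicHom (Gamma0 N) Φ) :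
    rhoHom N ℤ w Φ = 0 := by
  have h := rhoHom_parabolic_eq_zero N w hw ((Int.castAddHom ℂ).comp Φ)
    (fun γ hγ => by
      show ((Φ (Additive.ofMul γ) : ℤ) : ℂ) = 0
      rw [hΦ γ hγ, Int.cast_zero])
  rw [rhoHom_comp] at h
  refine AddMonoidHom.ext fun γ => ?_
  have h' := DFunLike.congr_fun h γ
  simpa using h'

end General

/-! ### The Shimura-type classes -/

section Shimura

open P2MW.S_ModularForm_heckeT_slash_eq_self_of_mem_Gamma0.ModularForm.HeckeSlashInvariance

variable (N : ℕ)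

/-- the unit `d mod N` of `γ = [a, b; c, d] ∈ Γ₀(N)`. -/
noncomputable def unitHom : Gamma0 N →* (ZMod N)ˣ := (Gamma0Map N).toHomUnits

theorem coe_unitHom (γ : Gamma0 N) :
    ((unitHom N γ : (ZMod N)ˣ) : ZMod N) = (((γ : SL(2, ℤ)) 1 1 : ℤ) : ZMod N) := rfl

/-- the class `γ ↦ χ(d mod N)`. -/
noncomputable def shim {B : Type*} [AddCommGroup B] (χ : (ZMod N)ˣ →* Multiplicative B) :
    Additive (Gamma0 N) →+ B where
  toFun γ := Multiplicative.toAdd (χ (unitHom N (Additive.toMul γ)))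
  map_zero' := by simp
  map_add' γ δ := by simp

theorem shim_apply {B : Type*} [AddCommGroup B] (χ : (ZMod N)ˣ →* Multiplicative B)
    (γ : Gamma0 N) :
    shim N χ (Additive.ofMul γ) = Multiplicative.toAdd (χ (unitHom N γ)) := rfl

/-- the classes `γ ↦ χ(d mod N)` are eigenvectors of every Hecke system whose upper left entries
are units mod `N`, with eigenvalue the number of cosets. -/
theorem op_shim {I : Type} [Fintype I] (H : HeckeSys N I)
    (ha : ∀ i, IsUnit ((H.a i : ℕ) : ZMod N)) {B : Type*} [AddCommGroup B]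
    (χ : (ZMod N)ˣ →* Multiplicative B) :
    H.op B (shim N χ) = Fintype.card I • shim N χ := by
  refine H.op_eq_card_smul (shim N χ) (fun i => -Multiplicative.toAdd (χ (ha i).unit)) ?_
  intro γ i
  have key : (ha i).unit * unitHom N (H.c γ i) = unitHom N γ * (ha (H.s γ i)).unit := by
    apply Units.ext
    rw [Units.val_mul, Units.val_mul, coe_unitHom, coe_unitHom, IsUnit.unit_spec,
      IsUnit.unit_spec]
    obtain ⟨e1, -, -, -⟩ := H.entries γ i
    have e1' := congrArg (Int.cast : ℤ → ZMod N) e1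
    push_cast at e1'
    have hγ : (((γ : SL(2, ℤ)) 1 0 : ℤ) : ZMod N) = 0 := Gamma0_mem.mp γ.2
    have hc : (((H.c γ i : SL(2, ℤ)) 1 0 : ℤ) : ZMod N) = 0 := Gamma0_mem.mp (H.c γ i).2
    have u1 := unit_of_apply_one_zero_eq_zero (γ : SL(2, ℤ)) hγ
    have u2 := unit_of_apply_one_zero_eq_zero (H.c γ i : SL(2, ℤ)) hc
    linear_combination
      ((((γ : SL(2, ℤ)) 1 1 : ℤ) : ZMod N) * (((H.c γ i : SL(2, ℤ)) 1 1 : ℤ) : ZMod N)) * e1'
      - ((H.b i : ZMod N) * (((γ : SL(2, ℤ)) 1 1 : ℤ) : ZMod N)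
          * (((H.c γ i : SL(2, ℤ)) 1 1 : ℤ) : ZMod N)) * hγ
      - ((H.a i : ZMod N) * (((H.c γ i : SL(2, ℤ)) 1 1 : ℤ) : ZMod N)) * u1
      + ((((γ : SL(2, ℤ)) 1 1 : ℤ) : ZMod N) * (H.a (H.s γ i) : ZMod N)) * u2
  have k2 := congrArg (fun u => Multiplicative.toAdd (χ u)) key
  simp only [map_mul, toAdd_mul] at k2
  rw [shim_apply, shim_apply]
  calc Multiplicative.toAdd (χ (unitHom N (H.c γ i)))
        + -Multiplicative.toAdd (χ (ha (H.s γ i)).unit)
      = (Multiplicative.toAdd (χ (ha i).unit) + Multiplicative.toAdd (χ (unitHom N (H.c γ i))))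
        + -Multiplicative.toAdd (χ (ha (H.s γ i)).unit)
        + -Multiplicative.toAdd (χ (ha i).unit) := by abel
    _ = (Multiplicative.toAdd (χ (unitHom N γ)) + Multiplicative.toAdd (χ (ha (H.s γ i)).unit))
        + -Multiplicative.toAdd (χ (ha (H.s γ i)).unit)
        + -Multiplicative.toAdd (χ (ha i).unit) := by rw [k2]
    _ = Multiplicative.toAdd (χ (unitHom N γ)) + -Multiplicative.toAdd (χ (ha i).unit) := by abel

/-- every unit mod `N` is the lower right entry of an element of `Γ₀(N)`. -/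
theorem unitHom_surjective [NeZero N] : Function.Surjective (unitHom N) := by
  intro u
  have hcop : Nat.Coprime (u : ZMod N).val N := ZMod.val_coe_unit_coprime u
  have hcop' : IsCoprime (((u : ZMod N).val : ℤ)) (N : ℤ) := Nat.isCoprime_iff_coprime.mpr hcop
  obtain ⟨x, y, hxy⟩ := hcop'
  let g : SL(2, ℤ) := ⟨!![x, -y; (N : ℤ), ((u : ZMod N).val : ℤ)], by
    rw [Matrix.det_fin_two_of]; linear_combination hxy⟩
  have hg : g ∈ Gamma0 N := by
    rw [Gamma0_mem]
    show (((N : ℤ) : ℤ) : ZMod N) = 0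
    simp
  refine ⟨⟨g, hg⟩, ?_⟩
  apply Units.ext
  rw [coe_unitHom]
  show ((((u : ZMod N).val : ℤ) : ℤ) : ZMod N) = u
  simp

end Shimura

/-! ### The lower bound -/

section LB

variable (p : ℕ) [Fact p.Prime] (n : ℕ)

theorem natCast_smul_shim_eq (hn : n ∣ p - 1)
    (φ : Additive (Gamma0 p) →+ ZMod n) : p • φ = φ := by
  refine AddMonoidHom.ext fun γ => ?_
  rw [AddMonoidHom.smul_apply, nsmul_eq_mul]
  have hp1 : 1 ≤ p := (Fact.out : p.Prime).one_lt.le
  have h0 : ((p - 1 : ℕ) : ZMod n) = 0 := (ZMod.natCast_eq_zero_iff _ _).mpr hn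
  have h1 : ((p : ℕ) : ZMod n) = 1 := by
    have : p = (p - 1) + 1 := by omega
    rw [this, Nat.cast_add, h0, zero_add, Nat.cast_one]
  rw [h1, one_mul]

/-- the Shimura classes are Eisenstein eigenvectors. -/
theorem homOp_shim (hn : n ∣ p - 1) (χ : (ZMod p)ˣ →* Multiplicative (ZMod n))
    (ℓ : Nat.Primes) :
    homOp p (ZMod n) ℓ (shim p χ) = eisensteinSystem p ℓ • shim p χ := by
  unfold homOp
  split_ifs with h
  · rw [eisensteinSystem_of_dvd h, one_smul,
      op_shim p (sysU p h) (fun _ => by simp [sysU]) χ, ZMod.card]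
    have hℓ : (ℓ : ℕ) = p := (Nat.prime_dvd_prime_iff_eq ℓ.2 Fact.out).mp h
    rw [hℓ]
    exact natCast_smul_shim_eq p n hn _
  · rw [eisensteinSystem_of_not_dvd h]
    have hcop : Nat.Coprime (ℓ : ℕ) p := (Nat.Prime.coprime_iff_not_dvd ℓ.2).mpr
      (fun h' => h ((Nat.prime_dvd_prime_iff_eq ℓ.2 Fact.out).mp h' ▸ dvd_rfl))
    have hu : IsUnit (((ℓ : ℕ) : ℕ) : ZMod p) := (ZMod.isUnit_iff_coprime _ _).mpr hcop
    rw [op_shim p (sysT p ℓ.2 h) (fun x => by
      induction x using OnePoint.rec with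
      | infty => simpa [sysT] using hu
      | coe j => simp [sysT]) χ]
    have hcard : Fintype.card (OnePoint (ZMod (ℓ : ℕ))) = (ℓ : ℕ) + 1 := by
      have h1 : Fintype.card (Option (ZMod (ℓ : ℕ))) = (ℓ : ℕ) + 1 := by
        rw [Fintype.card_option, ZMod.card]
      rw [← h1]
      exact Fintype.card_congr (Equiv.refl _)
    rw [hcard, ← natCast_zsmul]
    congr 1
    push_cast
    ring

theorem rhoHom_shim (hn : n ∣ p - 1) (χ : (ZMod p)ˣ →* Multiplicative (ZMod n))
    (w : FreeAlgebra ℤ Nat.Primes) :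
    rhoHom p (ZMod n) w (shim p χ) = FreeAlgebra.lift ℤ (eisensteinSystem p) w • shim p χ := by
  induction w using FreeAlgebra.induction with
  | grade0 r =>
    rw [rhoHom_algebraMap, AlgHom.commutes]
    rfl
  | grade1 ℓ => rw [rhoHom_ι, FreeAlgebra.lift_ι_apply, homOp_shim p n hn]
  | mul a b ha hb =>
    rw [map_mul, map_mul, Module.End.mul_apply, hb, map_zsmul, ha, smul_smul, mul_comm]
  | add a b ha hb =>
    rw [map_add, map_add, LinearMap.add_apply, ha, hb, add_smul]

/-- **Lower bound.**  If the Shimura class `γ ↦ χ(d mod p)` (for a surjective character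
`χ : (ℤ/p)ˣ → ℤ/n`, `n ∣ p - 1`) lifts to a parabolic homomorphism `Γ₀(p) → ℤ`, then every Hecke
polynomial acting as zero on `S₂(Γ₀(p))` has Eisenstein character divisible by `n`. -/
theorem lb_of_lift (hn : n ∣ p - 1)
    (χ : (ZMod p)ˣ →* Multiplicative (ZMod n)) (hχ : Function.Surjective χ)
    (Φ : Additive (Gamma0 p) →+ ℤ) (hpar : IsParabolicHom (Gamma0 p) Φ)
    (hΦ : ∀ γ : Gamma0 p, ((Φ (Additive.ofMul γ) : ℤ) : ZMod n)
      = Multiplicative.toAdd (χ ((Gamma0Map p).toHomUnits γ))) :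
    ∀ t : HeckeAlg, CuspForm.heckeEvalForms p 2 t = 0 →
      (n : ℤ) ∣ MvPolynomial.aeval (eisensteinSystem p) t := by
  intro t ht
  obtain ⟨w, rfl⟩ := toPoly_surjective t
  have hw : rhoForms p w = 0 := by
    rw [rhoForms_eq, ht]
    rfl
  have h1 := rhoHom_int_parabolic_eq_zero p w hw Φ hpar
  have h2 : rhoHom p (ZMod n) w ((Int.castAddHom (ZMod n)).comp Φ) = 0 := by
    rw [rhoHom_comp, h1]
    refine AddMonoidHom.ext fun γ => ?_
    simp
  have h3 : (Int.castAddHom (ZMod n)).comp Φ = shim p χ := by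
    refine AddMonoidHom.ext fun γ => ?_
    exact hΦ (Additive.toMul γ)
  rw [h3, rhoHom_shim p n hn, ← aeval_toPoly] at h2
  obtain ⟨u, hu⟩ := hχ (Multiplicative.ofAdd 1)
  obtain ⟨γ, hγ⟩ := unitHom_surjective p u
  have h4 := DFunLike.congr_fun h2 (Additive.ofMul γ)
  rw [AddMonoidHom.smul_apply, shim_apply, hγ, hu, toAdd_ofAdd, AddMonoidHom.zero_apply,
    zsmul_eq_mul, mul_one] at h4
  exact (ZMod.intCast_zmod_eq_zero_iff_dvd _ _).mp h4

/-- **(LB)**, in the shape consumed by `S16_Red.card_eq_of_LB_UB`: every Hecke polynomial acting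
as zero on `S₂(Γ₀(p))` has Eisenstein character divisible by `eisensteinNumerator p`. -/
theorem lb : ∀ t : HeckeAlg, CuspForm.heckeEvalForms p 2 t = 0 →
    (eisensteinNumerator p : ℤ) ∣ MvPolynomial.aeval (eisensteinSystem p) t := by
  obtain ⟨χ, Φ, hχ, hpar, hΦ⟩ := S16_Sh.exists_shimura_lift p
  exact lb_of_lift p _ (S16_Sh.eisensteinNumerator_dvd p) χ hχ Φ hpar hΦ

end LB

end Fermat.Agent.S16_LB
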