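import Fermat.Agent.S24_Hermite
import Fermat.Agent.S24_IotaMem
import Fermat.Prelude.Thm_CongruenceSubgroup_one_mem_strictPeriods_Gamma0

/-!
# S16, block E2N (helper6): the weight-2 Eisenstein series `N·E₂(Nτ) − E₂(τ)` of level `Γ₀(N)`

* `mkGamma0`: build a modular form on `Γ₀(N)` from a holomorphic function with the transformation
  law and bounded `SL₂(ℤ)`-translates;
* `E2_smul`: the quasi-modular transformation law of `E₂` in the form
  `E₂(γτ) = (cτ+d)² E₂(τ) − κ c (cτ+d)`;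
* `eN N : ModularForm (Γ₀(N)) 2`, `eN N τ = N·E₂(Nτ) − E₂(τ)`, with its `q`-expansion.
-/

set_option autoImplicit false

noncomputable section

open UpperHalfPlane ModularForm EisensteinSeries Filter
open scoped MatrixGroups ModularForm Manifold Topology

namespace Fermat.Agent.S16_E2N

open Fermat.Agent.S24_Defs (dmul coe_dmul)
open Fermat.Agent.S24_Hermite (coe_smul_int det_eq_one denom_ne_zero_int)
open Fermat.Agent.S24_IotaMem (im_affine im_affine_pos)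

/-- Build a modular form on `Γ₀(N)` from a holomorphic function with the transformation law
whose `SL₂(ℤ)`-translates are bounded at `i∞`. -/
def mkGamma0 (N : ℕ) [NeZero N] (k : ℤ) (f : ℍ → ℂ) (hol : MDiff f)
    (hinv : ∀ γ : SL(2, ℤ), γ ∈ CongruenceSubgroup.Gamma0 N →
      ∀ z : ℍ, f (γ • z) = denom γ z ^ k * f z)
    (hbdd : ∀ γ : SL(2, ℤ), IsBoundedAtImInfty (f ∣[k] γ)) :
    ModularForm (CongruenceSubgroup.Gamma0 N) k where
  toFun := f
  slash_action_eq' := by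
    rintro _ ⟨γ, hγ, rfl⟩
    funext z
    have h := hinv γ hγ z
    have hd : denom γ z ^ k ≠ 0 := zpow_ne_zero k (denom_ne_zero γ z)
    change (f ∣[k] γ) z = f z
    rw [SL_slash_apply, h, zpow_neg]
    field_simp
  holo' := hol
  bdd_at_cusps' {c} hc := by
    rw [Subgroup.IsArithmetic.isCusp_iff_isCusp_SL2Z] at hc
    rw [OnePoint.isBoundedAt_iff_forall_SL2Z hc]
    intro γ _
    exact hbdd γ

@[simp] theorem mkGamma0_apply (N : ℕ) [NeZero N] (k : ℤ) (f : ℍ → ℂ) (hol : MDiff f)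
    (hinv : ∀ γ : SL(2, ℤ), γ ∈ CongruenceSubgroup.Gamma0 N →
      ∀ z : ℍ, f (γ • z) = denom γ z ^ k * f z)
    (hbdd : ∀ γ : SL(2, ℤ), IsBoundedAtImInfty (f ∣[k] γ)) (z : ℍ) :
    mkGamma0 N k f hol hinv hbdd z = f z := rfl

/-- the constant in the transformation law of `E2` -/
def kap : ℂ := (1 / (2 * riemannZeta 2)) * (2 * Real.pi * Complex.I)

theorem E2_smul (γ : SL(2, ℤ)) (z : ℍ) :
    E2 (γ • z) = denom γ z ^ 2 * E2 z - kap * (γ 1 0 : ℂ) * denom γ z := by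
  have h := congrFun (E2_slash_action γ) z
  rw [SL_slash_apply] at h
  simp only [Pi.sub_apply, Pi.smul_apply, D2, smul_eq_mul] at h
  have hd : denom γ z ≠ 0 := denom_ne_zero γ z
  rw [zpow_neg] at h
  unfold kap
  field_simp at h ⊢
  linear_combination h

/-! ### `N·(γτ) = γ'·(Nτ)` for `γ ∈ Γ₀(N)` -/

theorem denom_int (g : SL(2, ℤ)) (z : ℍ) : denom g z = (g 1 0 : ℂ) * z + (g 1 1 : ℂ) := by
  rw [ModularGroup.denom_apply]

theorem exists_dmul_smul (N : ℕ) (hN : N ≠ 0) (g : SL(2, ℤ))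
    (hg : g ∈ CongruenceSubgroup.Gamma0 N) :
    ∃ g' : SL(2, ℤ), (N : ℤ) * g' 1 0 = g 1 0 ∧
      ∀ τ : ℍ, dmul N (g • τ) = g' • dmul N τ ∧ denom g' (dmul N τ) = denom g τ := by
  have hC : (N : ℤ) ∣ g 1 0 := by
    rw [CongruenceSubgroup.Gamma0_mem] at hg
    exact (CharP.intCast_eq_zero_iff (ZMod N) N (g 1 0)).mp hg
  obtain ⟨c', hc'⟩ := hC
  have hdet := det_eq_one g
  let g' : SL(2, ℤ) := ⟨!![g 0 0, N * g 0 1; c', g 1 1], by
    rw [Matrix.det_fin_two_of]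
    rw [hc'] at hdet
    linarith⟩
  have hg00 : g' 0 0 = g 0 0 := rfl
  have hg01 : g' 0 1 = N * g 0 1 := rfl
  have hg10 : g' 1 0 = c' := rfl
  have hg11 : g' 1 1 = g 1 1 := rfl
  refine ⟨g', by rw [hg10, hc'], fun τ => ?_⟩
  have hcC : (g 1 0 : ℂ) = N * c' := by exact_mod_cast hc'
  have hZ' : (c' : ℂ) * (N * τ) + g 1 1 = g 1 0 * τ + g 1 1 := by rw [hcC]; ring
  constructor
  · apply UpperHalfPlane.ext
    rw [coe_smul_int, coe_dmul hN, coe_smul_int, coe_dmul hN]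
    rw [hg00, hg01, hg10, hg11]
    have hZ := denom_ne_zero_int g τ
    rw [hZ']
    push_cast
    field_simp
  · rw [denom_int, denom_int, coe_dmul hN, hg10, hg11, hZ']

/-! ### Hermite normal form of `diag(d,1)·g` -/

/-- the point `(aτ+b)/δ` of the upper half plane -/
def aff (a δ : ℕ) (b : ℤ) (τ : ℍ) : ℍ := ofComplex (((a : ℂ) * τ + b) / δ)

theorem coe_aff {a δ : ℕ} (ha : 0 < a) (hδ : 0 < δ) (b : ℤ) (τ : ℍ) :
    ((aff a δ b τ : ℍ) : ℂ) = ((a : ℂ) * τ + b) / δ := by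
  rw [aff, ofComplex_apply_of_im_pos (im_affine_pos ha hδ b τ)]

theorem im_aff {a δ : ℕ} (ha : 0 < a) (hδ : 0 < δ) (b : ℤ) (τ : ℍ) :
    (aff a δ b τ).im = (a : ℝ) / δ * τ.im := by
  rw [aff, Fermat.Agent.S24_Hermite.im_ofComplex_of_pos (im_affine_pos ha hδ b τ), im_affine]

theorem tendsto_aff {a δ : ℕ} (ha : 0 < a) (hδ : 0 < δ) (b : ℤ) :
    Tendsto (aff a δ b) atImInfty atImInfty := by
  rw [atImInfty, Filter.tendsto_comap_iff]
  have e : (UpperHalfPlane.im ∘ aff a δ b) = fun τ : ℍ => (a : ℝ) / δ * τ.im :=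
    funext (im_aff ha hδ b)
  rw [e]
  exact (Filter.tendsto_comap).const_mul_atTop (by positivity)

/-- Hermite normal form: `d·(gτ) = γ·((aτ+b)/δ)` with `γ ∈ SL₂(ℤ)`, `aδ = d`, and the automorphy
factors are related by `δ·j(γ, (aτ+b)/δ) = j(g, τ)`. -/
theorem exists_hermite (d : ℕ) (hd : d ≠ 0) (g : SL(2, ℤ)) :
    ∃ (γ : SL(2, ℤ)) (a δ : ℕ) (b : ℤ), a * δ = d ∧ 0 < a ∧ 0 < δ ∧
      ∀ τ : ℍ, dmul d (g • τ) = γ • aff a δ b τ ∧
        (δ : ℂ) * denom γ (aff a δ b τ) = denom g τ := by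
  have hdet := det_eq_one g
  obtain ⟨p', hp'⟩ := Int.gcd_dvd_left ((d : ℤ) * g 0 0) (g 1 0)
  obtain ⟨r', hr'⟩ := Int.gcd_dvd_right ((d : ℤ) * g 0 0) (g 1 0)
  have hbez := Int.gcd_eq_gcd_ab ((d : ℤ) * g 0 0) (g 1 0)
  have ha0 : Int.gcd ((d : ℤ) * g 0 0) (g 1 0) ≠ 0 := by
    intro h
    rw [Int.gcd_eq_zero_iff] at h
    obtain ⟨h1, h2⟩ := h
    have hA0 : g 0 0 = 0 := by
      rcases mul_eq_zero.mp h1 with h | h
      · exact absurd (by exact_mod_cast h) hd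
      · exact h
    rw [hA0, h2] at hdet
    simp at hdet
  generalize Int.gcd ((d : ℤ) * g 0 0) (g 1 0) = a at hp' hr' hbez ha0
  generalize Int.gcdA ((d : ℤ) * g 0 0) (g 1 0) = x at hbez
  generalize Int.gcdB ((d : ℤ) * g 0 0) (g 1 0) = y at hbez
  have ha' : (a : ℤ) ≠ 0 := by exact_mod_cast ha0
  have hapos : (0 : ℤ) < a := by exact_mod_cast Nat.pos_of_ne_zero ha0
  have hbez' : p' * x + r' * y = 1 := by
    apply mul_left_cancel₀ ha'
    calc (a : ℤ) * (p' * x + r' * y) = (a * p') * x + (a * r') * y := by ring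
      _ = d * g 0 0 * x + g 1 0 * y := by rw [← hp', ← hr']
      _ = a * 1 := by rw [mul_one]; exact hbez.symm
  have haδ : (a : ℤ) * (p' * g 1 1 - r' * (d * g 0 1)) = d := by
    calc (a : ℤ) * (p' * g 1 1 - r' * (d * g 0 1))
        = (a * p') * g 1 1 - (a * r') * (d * g 0 1) := by ring
      _ = d * g 0 0 * g 1 1 - g 1 0 * (d * g 0 1) := by rw [← hp', ← hr']
      _ = d * (g 0 0 * g 1 1 - g 0 1 * g 1 0) := by ring
      _ = d := by rw [hdet, mul_one]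
  have hδpos : 0 < p' * g 1 1 - r' * (d * g 0 1) := by
    have hd' : (0 : ℤ) < d := by exact_mod_cast Nat.pos_of_ne_zero hd
    have h1 : 0 < (a : ℤ) * (p' * g 1 1 - r' * (d * g 0 1)) := by rw [haδ]; exact hd'
    exact (mul_pos_iff_of_pos_left hapos).mp h1
  obtain ⟨δ, hδ⟩ := Int.eq_ofNat_of_zero_le hδpos.le
  rw [hδ] at haδ hδpos
  let γ : SL(2, ℤ) := ⟨!![p', -y; r', x], by rw [Matrix.det_fin_two_of]; linarith⟩
  have hapos' : 0 < a := Nat.pos_of_ne_zero ha0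
  have hδpos' : 0 < δ := by exact_mod_cast hδpos
  refine ⟨γ, a, δ, x * (d * g 0 1) + y * g 1 1, by exact_mod_cast haδ, hapos', hδpos',
    fun τ => ?_⟩
  have hγ00 : γ 0 0 = p' := rfl
  have hγ01 : γ 0 1 = -y := rfl
  have hγ10 : γ 1 0 = r' := rfl
  have hγ11 : γ 1 1 = x := rfl
  have hZ := denom_ne_zero_int g τ
  have hbezC : (a : ℂ) = d * g 0 0 * x + g 1 0 * y := by exact_mod_cast hbez
  have hbezC' : (p' : ℂ) * x + r' * y = 1 := by exact_mod_cast hbez'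
  have hpC : (d : ℂ) * g 0 0 = a * p' := by exact_mod_cast hp'
  have hrC : (g 1 0 : ℂ) = a * r' := by exact_mod_cast hr'
  have hδC : (δ : ℂ) = p' * g 1 1 - r' * (d * g 0 1) := by exact_mod_cast hδ.symm
  have hδ0 : (δ : ℂ) ≠ 0 := by
    have : (δ : ℤ) ≠ 0 := hδpos.ne'
    exact_mod_cast this
  have hden : (δ : ℂ) * ((r' : ℂ) * (((a : ℂ) * τ + (x * (d * g 0 1) + y * g 1 1 : ℤ)) / δ) + x)
      = g 1 0 * τ + g 1 1 := by
    push_cast
    field_simp
    linear_combination (-(τ : ℂ)) * hrC + (g 1 1 : ℂ) * hbezC' + (x : ℂ) * hδC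
  have hnum : (δ : ℂ) * ((p' : ℂ) * (((a : ℂ) * τ + (x * (d * g 0 1) + y * g 1 1 : ℤ)) / δ) - y)
      = d * (g 0 0 * τ + g 0 1) := by
    push_cast
    field_simp
    linear_combination (-(τ : ℂ)) * hpC + ((d : ℂ) * g 0 1) * hbezC' - (y : ℂ) * hδC
  constructor
  · apply UpperHalfPlane.ext
    rw [coe_dmul hd, coe_smul_int, coe_smul_int, coe_aff hapos' hδpos', hγ00, hγ01, hγ10, hγ11]
    have hden0 : (r' : ℂ) * (((a : ℂ) * τ + (x * (d * g 0 1) + y * g 1 1 : ℤ)) / δ) + x ≠ 0 := by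
      intro h0
      rw [h0, mul_zero] at hden
      exact hZ hden.symm
    rw [eq_div_iff hden0]
    have e1 : (p' : ℂ) * (((a : ℂ) * τ + (x * (d * g 0 1) + y * g 1 1 : ℤ)) / δ) + ((-y : ℤ) : ℂ)
        = d * (g 0 0 * τ + g 0 1) / δ := by
      rw [eq_div_iff hδ0, ← hnum]
      push_cast
      ring
    have e2 : (r' : ℂ) * (((a : ℂ) * τ + (x * (d * g 0 1) + y * g 1 1 : ℤ)) / δ) + x
        = (g 1 0 * τ + g 1 1) / δ := by
      rw [eq_div_iff hδ0, ← hden]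
      ring
    rw [e1, e2]
    have hZ' : ((g 1 0 : ℂ) * τ + g 1 1) / ((g 1 0 : ℂ) * τ + g 1 1) = 1 := div_self hZ
    linear_combination ((d : ℂ) * ((g 0 0 : ℂ) * τ + g 0 1) / δ) * hZ'
  · rw [denom_int, denom_int, coe_aff hapos' hδpos', hγ10, hγ11]
    exact hden

/-! ### Slash translates of `f(dτ)` -/

theorem slash_comp_dmul (d : ℕ) (hd : d ≠ 0) (f : ℍ → ℂ) (k : ℤ) (g : SL(2, ℤ)) :
    ∃ (γ : SL(2, ℤ)) (a δ : ℕ) (b : ℤ), a * δ = d ∧ 0 < a ∧ 0 < δ ∧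
      ∀ τ : ℍ, ((f ∘ dmul d) ∣[k] g) τ = (f ∣[k] γ) (aff a δ b τ) * (δ : ℂ) ^ (-k) := by
  obtain ⟨γ, a, δ, b, h1, h2, h3, h4⟩ := exists_hermite d hd g
  refine ⟨γ, a, δ, b, h1, h2, h3, fun τ => ?_⟩
  obtain ⟨e1, e2⟩ := h4 τ
  rw [SL_slash_apply, SL_slash_apply, Function.comp_apply, e1, ← e2, mul_zpow]
  ring

theorem isBoundedAtImInfty_comp_aff {a δ : ℕ} (ha : 0 < a) (hδ : 0 < δ) (b : ℤ) {F : ℍ → ℂ}
    (hF : IsBoundedAtImInfty F) : IsBoundedAtImInfty (fun τ : ℍ => F (aff a δ b τ)) :=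
  Asymptotics.IsBigO.comp_tendsto hF (tendsto_aff ha hδ b)

theorem isBoundedAtImInfty_comp_dmul_slash (d : ℕ) (hd : d ≠ 0) (f : ℍ → ℂ) (k : ℤ)
    (hf : ∀ γ : SL(2, ℤ), IsBoundedAtImInfty (f ∣[k] γ)) (g : SL(2, ℤ)) :
    IsBoundedAtImInfty ((f ∘ dmul d) ∣[k] g) := by
  obtain ⟨γ, a, δ, b, -, ha, hδ, h⟩ := slash_comp_dmul d hd f k g
  have h1 := isBoundedAtImInfty_comp_aff ha hδ b (hf γ)
  have h2 : IsBoundedAtImInfty (fun _ : ℍ => (δ : ℂ) ^ (-k)) := Filter.const_boundedAtFilter _ _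
  have h3 := h1.mul h2
  have e : ((f ∘ dmul d) ∣[k] g) = (fun τ : ℍ => (f ∣[k] γ) (aff a δ b τ)) *
      fun _ : ℍ => (δ : ℂ) ^ (-k) := funext h
  rw [e]
  exact h3

theorem mdiff_comp_dmul {d : ℕ} (hd : d ≠ 0) {f : ℍ → ℂ} (hf : MDiff f) :
    MDiff (f ∘ dmul d) := by
  rw [UpperHalfPlane.mdifferentiable_iff] at hf ⊢
  have hmaps : Set.MapsTo (fun z : ℂ => (d : ℂ) * z) upperHalfPlaneSet upperHalfPlaneSet := by
    intro z hz
    have hd' : (0 : ℝ) < d := by exact_mod_cast Nat.pos_of_ne_zero hd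
    have : 0 < ((d : ℂ) * z).im := by
      simpa using mul_pos hd' hz
    exact this
  have h1 : DifferentiableOn ℂ ((f ∘ ofComplex) ∘ fun z : ℂ => (d : ℂ) * z) upperHalfPlaneSet :=
    hf.comp (by fun_prop) hmaps
  refine h1.congr fun z hz => ?_
  have hz' : 0 < z.im := hz
  have hdz : 0 < ((d : ℂ) * z).im := hmaps hz
  simp only [Function.comp_apply]
  congr 1
  apply UpperHalfPlane.ext
  rw [coe_dmul hd, ofComplex_apply_of_im_pos hz', ofComplex_apply_of_im_pos hdz]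

/-- `V_d`: `τ ↦ f(dτ)` as a modular form on `Γ₀(dN)`. -/
def levelRaise (d N : ℕ) [NeZero d] [NeZero N] {k : ℤ}
    (f : ModularForm (CongruenceSubgroup.Gamma0 N) k) :
    ModularForm (CongruenceSubgroup.Gamma0 (d * N)) k :=
  mkGamma0 (d * N) k (f ∘ dmul d) (mdiff_comp_dmul (NeZero.ne d) f.holo')
    (by
      intro g hg z
      have hd : d ≠ 0 := NeZero.ne d
      have hg' : g ∈ CongruenceSubgroup.Gamma0 d := by
        rw [CongruenceSubgroup.Gamma0_mem] at hg ⊢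
        have h1 : ((d * N : ℕ) : ℤ) ∣ g 1 0 :=
          (CharP.intCast_eq_zero_iff (ZMod (d * N)) (d * N) (g 1 0)).mp hg
        exact (CharP.intCast_eq_zero_iff (ZMod d) d (g 1 0)).mpr
          ((Int.natCast_dvd_natCast.mpr (Dvd.intro N rfl)).trans h1)
      obtain ⟨g', h1, h2⟩ := exists_dmul_smul d hd g hg'
      obtain ⟨e1, e2⟩ := h2 z
      have hg'N : g' ∈ CongruenceSubgroup.Gamma0 N := by
        rw [CongruenceSubgroup.Gamma0_mem] at hg ⊢
        have h3 : ((d * N : ℕ) : ℤ) ∣ g 1 0 :=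
          (CharP.intCast_eq_zero_iff (ZMod (d * N)) (d * N) (g 1 0)).mp hg
        rw [← h1] at h3
        push_cast at h3
        have h4 : (N : ℤ) ∣ g' 1 0 :=
          (mul_dvd_mul_iff_left (by exact_mod_cast hd : (d : ℤ) ≠ 0)).mp h3
        exact (CharP.intCast_eq_zero_iff (ZMod N) N (g' 1 0)).mpr h4
      rw [Function.comp_apply, Function.comp_apply, e1,
        SlashInvariantForm.slash_action_eqn_SL'' f hg'N (dmul d z), e2])
    (isBoundedAtImInfty_comp_dmul_slash d (NeZero.ne d) f k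
      (fun γ => ModularFormClass.bdd_at_infty_slash f γ))

@[simp] theorem levelRaise_apply (d N : ℕ) [NeZero d] [NeZero N] {k : ℤ}
    (f : ModularForm (CongruenceSubgroup.Gamma0 N) k) (τ : ℍ) :
    levelRaise d N f τ = f (dmul d τ) := rfl

/-! ### `E₂` and its level-raised companions -/

theorem one_le_norm_denom (g : SL(2, ℤ)) (z : ℍ) (hz : 1 ≤ z.im) : (1 : ℝ) ≤ ‖denom g z‖ := by
  rw [denom_int]
  by_cases hc : g 1 0 = 0
  · have hdet := det_eq_one g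
    rw [hc] at hdet ⊢
    have h1 : g 0 0 * g 1 1 = 1 := by linarith
    have h2 : |g 1 1| = 1 := by
      have := Int.isUnit_iff.mp (IsUnit.of_mul_eq_one (g 0 0) (by rw [mul_comm]; exact h1))
      rcases this with h | h <;> simp [h]
    have h3 : |(g 1 1 : ℝ)| = 1 := by exact_mod_cast h2
    simp only [Int.cast_zero, zero_mul, zero_add]
    rw [show ((g 1 1 : ℤ) : ℂ) = (((g 1 1 : ℤ) : ℝ) : ℂ) by push_cast; rfl, Complex.norm_real,
      Real.norm_eq_abs, h3]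
  · have h1 : (1 : ℝ) ≤ |(g 1 0 : ℝ)| := by exact_mod_cast Int.one_le_abs hc
    have h2 : ((g 1 0 : ℂ) * z + (g 1 1 : ℂ)).im = (g 1 0 : ℝ) * z.im := by simp
    calc (1 : ℝ) ≤ |(g 1 0 : ℝ)| * z.im := by nlinarith
      _ = |((g 1 0 : ℂ) * z + (g 1 1 : ℂ)).im| := by
        rw [h2, abs_mul, abs_of_pos z.im_pos]
      _ ≤ ‖(g 1 0 : ℂ) * z + (g 1 1 : ℂ)‖ := Complex.abs_im_le_norm _

theorem isBoundedAtImInfty_inv_denom (g : SL(2, ℤ)) :
    IsBoundedAtImInfty (fun τ : ℍ => (denom g τ)⁻¹) := by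
  rw [isBoundedAtImInfty_iff]
  refine ⟨1, 1, fun z hz => ?_⟩
  rw [norm_inv]
  exact inv_le_one_of_one_le₀ (one_le_norm_denom g z hz)

theorem E2_slash_apply (γ : SL(2, ℤ)) (z : ℍ) :
    (E2 ∣[(2 : ℤ)] γ) z = E2 z - kap * (γ 1 0 : ℂ) * (denom γ z)⁻¹ := by
  have hd : denom γ z ≠ 0 := denom_ne_zero γ z
  rw [SL_slash_apply, E2_smul, zpow_neg]
  field_simp

theorem isBoundedAtImInfty_E2_slash (γ : SL(2, ℤ)) : IsBoundedAtImInfty (E2 ∣[(2 : ℤ)] γ) := by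
  have h1 : IsBoundedAtImInfty (fun _ : ℍ => kap * (γ 1 0 : ℂ)) :=
    Filter.const_boundedAtFilter _ _
  have h2 := (h1.mul (isBoundedAtImInfty_inv_denom γ)).neg
  have h3 := isBoundedAtImInfty_E2.add h2
  have e : (E2 ∣[(2 : ℤ)] γ) = E2 + -((fun _ : ℍ => kap * (γ 1 0 : ℂ)) *
      fun τ : ℍ => (denom γ τ)⁻¹) := by
    funext z
    rw [E2_slash_apply]
    simp only [Pi.add_apply, Pi.neg_apply, Pi.mul_apply]
    ring
  rw [e]
  exact h3

/-- the function `N·E₂(Nτ) − E₂(τ)` -/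
def eFun (N : ℕ) (τ : ℍ) : ℂ := (N : ℂ) * E2 (dmul N τ) - E2 τ

theorem mdiff_eFun {N : ℕ} (hN : N ≠ 0) : MDiff (eFun N) :=
  (mdifferentiable_const.mul (mdiff_comp_dmul hN E2_mdifferentiable)).sub E2_mdifferentiable

theorem eFun_smul {N : ℕ} (hN : N ≠ 0) (g : SL(2, ℤ)) (hg : g ∈ CongruenceSubgroup.Gamma0 N)
    (z : ℍ) : eFun N (g • z) = denom g z ^ (2 : ℤ) * eFun N z := by
  obtain ⟨g', h1, h2⟩ := exists_dmul_smul N hN g hg
  obtain ⟨e1, e2⟩ := h2 z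
  have h1C : (N : ℂ) * (g' 1 0 : ℂ) = (g 1 0 : ℂ) := by exact_mod_cast h1
  rw [eFun, eFun, e1, E2_smul, E2_smul, e2]
  simp only [zpow_ofNat]
  linear_combination (-(kap * denom g z)) * h1C

theorem eFun_slash (N : ℕ) (g : SL(2, ℤ)) :
    (eFun N ∣[(2 : ℤ)] g) = (fun _ : ℍ => (N : ℂ)) * ((E2 ∘ dmul N) ∣[(2 : ℤ)] g)
      + -(E2 ∣[(2 : ℤ)] g) := by
  funext z
  simp only [Pi.add_apply, Pi.neg_apply, Pi.mul_apply]
  rw [SL_slash_apply, SL_slash_apply, SL_slash_apply, eFun, Function.comp_apply]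
  ring

theorem isBoundedAtImInfty_eFun_slash {N : ℕ} (hN : N ≠ 0) (g : SL(2, ℤ)) :
    IsBoundedAtImInfty (eFun N ∣[(2 : ℤ)] g) := by
  rw [eFun_slash]
  have h1 : IsBoundedAtImInfty (fun _ : ℍ => (N : ℂ)) := Filter.const_boundedAtFilter _ _
  exact (h1.mul (isBoundedAtImInfty_comp_dmul_slash N hN E2 2 isBoundedAtImInfty_E2_slash g)).add
    (isBoundedAtImInfty_E2_slash g).neg

/-- The Eisenstein series `N·E₂(Nτ) − E₂(τ)` of weight `2` on `Γ₀(N)`. -/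
def eN (N : ℕ) [NeZero N] : ModularForm (CongruenceSubgroup.Gamma0 N) 2 :=
  mkGamma0 N 2 (eFun N) (mdiff_eFun (NeZero.ne N)) (eFun_smul (NeZero.ne N))
    (isBoundedAtImInfty_eFun_slash (NeZero.ne N))

theorem eN_apply (N : ℕ) [NeZero N] (τ : ℍ) :
    eN N τ = (N : ℂ) * E2 (dmul N τ) - E2 τ := rfl

/-! ### `q`-expansions -/

theorem qParam_dmul {d : ℕ} (hd : d ≠ 0) (τ : ℍ) :
    Function.Periodic.qParam 1 ((dmul d τ : ℍ) : ℂ) = Function.Periodic.qParam 1 (τ : ℂ) ^ d := by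
  rw [coe_dmul hd, Function.Periodic.qParam, Function.Periodic.qParam, ← Complex.exp_nat_mul]
  congr 1
  simp only [Complex.ofReal_one, div_one]
  ring

theorem hasSum_dilate {d : ℕ} (hd : d ≠ 0) (a : ℕ → ℂ) (q s : ℂ)
    (h : HasSum (fun m => a m * (q ^ d) ^ m) s) :
    HasSum (fun n => (if d ∣ n then a (n / d) else 0) * q ^ n) s := by
  have hinj : Function.Injective (fun m : ℕ => d * m) :=
    fun m n h => Nat.eq_of_mul_eq_mul_left (Nat.pos_of_ne_zero hd) h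
  refine (Function.Injective.hasSum_iff hinj ?_).mp ?_
  · intro n hn
    have : ¬ d ∣ n := fun ⟨m, hm⟩ => hn ⟨m, hm.symm⟩
    simp [this]
  · convert h using 1
    funext m
    simp [Nat.mul_div_cancel_left _ (Nat.pos_of_ne_zero hd), pow_mul]

/-- the `q`-expansion coefficients of a dilated series -/
def dilCoeff (d : ℕ) (a : ℕ → ℂ) (n : ℕ) : ℂ := if d ∣ n then a (n / d) else 0

theorem gamma0_one_mem (N : ℕ) :
    (1 : ℝ) ∈ (Subgroup.map (Matrix.SpecialLinearGroup.mapGL ℝ)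
      (CongruenceSubgroup.Gamma0 N)).strictPeriods :=
  CongruenceSubgroup.one_mem_strictPeriods_Gamma0 N

/-- `q`-expansion of `V_d f`. -/
theorem qExpansion_levelRaise_coeff (d N : ℕ) [NeZero d] [NeZero N] {k : ℤ}
    (f : ModularForm (CongruenceSubgroup.Gamma0 N) k) (n : ℕ) :
    (qExpansion 1 (levelRaise d N f)).coeff n
      = if d ∣ n then (qExpansion 1 f).coeff (n / d) else 0 := by
  have hd : d ≠ 0 := NeZero.ne d
  symm
  refine ModularFormClass.qExpansion_coeff_unique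
    (c := dilCoeff d fun m => (qExpansion 1 f).coeff m) one_pos (gamma0_one_mem (d * N))
    (f := levelRaise d N f) (fun τ => ?_) n
  have h1 := ModularForm.hasSum_qExpansion (f := f) one_pos (gamma0_one_mem N) (dmul d τ)
  rw [qParam_dmul hd] at h1
  have h2 := hasSum_dilate hd _ _ _ h1
  simpa [dilCoeff] using h2

/-- the `q`-expansion coefficients of `E₂` -/
def e2Coeff (m : ℕ) : ℂ := if m = 0 then 1 else -24 * (ArithmeticFunction.sigma 1 m : ℂ)

theorem hasSum_E2 (z : ℍ) :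
    HasSum (fun m : ℕ => e2Coeff m * Function.Periodic.qParam 1 (z : ℂ) ^ m) (E2 z) := by
  have h := hasSum_qExpansion_E2 (z := z)
  simpa [e2Coeff, Function.Periodic.qParam] using h

/-- the `q`-expansion coefficients of `N·E₂(Nτ) − E₂(τ)` -/
def eCoeff (N : ℕ) (n : ℕ) : ℂ := (N : ℂ) * (if N ∣ n then e2Coeff (n / N) else 0) - e2Coeff n

theorem hasSum_eN (N : ℕ) [NeZero N] (z : ℍ) :
    HasSum (fun n : ℕ => eCoeff N n * Function.Periodic.qParam 1 (z : ℂ) ^ n) (eN N z) := by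
  have hN : N ≠ 0 := NeZero.ne N
  have h1 := hasSum_E2 (dmul N z)
  rw [qParam_dmul hN] at h1
  have h2 := (hasSum_dilate hN _ _ _ h1).mul_left (N : ℂ)
  have h3 := h2.sub (hasSum_E2 z)
  rw [eN_apply]
  have e : (fun n : ℕ => eCoeff N n * Function.Periodic.qParam 1 (z : ℂ) ^ n) = fun b : ℕ =>
      (N : ℂ) * ((if N ∣ b then e2Coeff (b / N) else 0) * Function.Periodic.qParam 1 (z : ℂ) ^ b) -
        e2Coeff b * Function.Periodic.qParam 1 (z : ℂ) ^ b := by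
    funext n
    simp only [eCoeff]
    ring
  rw [e]
  exact h3

theorem qExpansion_eN_coeff (N : ℕ) [NeZero N] (n : ℕ) :
    (qExpansion 1 (eN N)).coeff n = eCoeff N n := by
  symm
  refine ModularFormClass.qExpansion_coeff_unique (c := eCoeff N) one_pos (gamma0_one_mem N)
    (f := eN N) (fun τ => ?_) n
  simpa using hasSum_eN N τ

theorem eCoeff_zero (N : ℕ) : eCoeff N 0 = (N : ℂ) - 1 := by
  simp [eCoeff, e2Coeff]

theorem eCoeff_of_pos (N : ℕ) [NeZero N] {n : ℕ} (hn : n ≠ 0) :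
    eCoeff N n = 24 * ((ArithmeticFunction.sigma 1 n : ℂ)
      - (N : ℂ) * (if N ∣ n then (ArithmeticFunction.sigma 1 (n / N) : ℂ) else 0)) := by
  have hN : N ≠ 0 := NeZero.ne N
  by_cases h : N ∣ n
  · have h2 : n / N ≠ 0 := by
      obtain ⟨m, rfl⟩ := h
      rw [Nat.mul_div_cancel_left _ (Nat.pos_of_ne_zero hN)]
      rintro rfl
      exact hn (by simp)
    simp only [eCoeff, e2Coeff, h, hn, h2, if_true, if_false]
    ring
  · simp only [eCoeff, e2Coeff, h, hn, if_false]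
    ring

end Fermat.Agent.S16_E2N
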