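import Fermat.Agent.S24_Defs

/-!
# S23: shared definitions (architect: helper3)

`S23` (integral structure on `S₂(Γ₀(N))`) is proved from `S22` and the stability of
`S₂(Γ₀(N))` under `Aut(ℂ)` acting on `q`-expansion coefficients.  This file contains the shared
vocabulary of the analytic half (the "A-files" `S23_Interp`, `S23_QExp`, `S23_Div`, `S23_Nice`,
`S23_Conj`, `S23_Gal`).
-/

set_option autoImplicit false

noncomputable section

namespace Fermat.Agent.S23_Defs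

open Fermat.Agent.S24_Defs UpperHalfPlane ModularForm EisensteinSeries
open scoped MatrixGroups ModularForm

/-- `Ψ'` is the `σ`-conjugate of `Ψ`: `Ψ = G/G₁` and `Ψ' = G^σ/G₁^σ` for polynomials `G₁, G` in the
`j(dτ)`, `d ∣ N` (as identities of functions on `ℍ`, with `G₁(j) ≢ 0`). -/
def IsConj (N : ℕ) (σ : ℂ ≃+* ℂ) (Ψ Ψ' : ℍ → ℂ) : Prop :=
  ∃ G₁ G : MvPolynomial ℕ ℂ, (∀ d ∈ G₁.vars, d ∣ N) ∧ (∀ d ∈ G.vars, d ∣ N) ∧
    (∃ τ : ℍ, MvPolynomial.eval (fun d => jS d τ) G₁ ≠ 0) ∧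
    (∀ τ : ℍ, Ψ τ * MvPolynomial.eval (fun d => jS d τ) G₁ = MvPolynomial.eval (fun d => jS d τ) G) ∧
    (∀ τ : ℍ, Ψ' τ * MvPolynomial.eval (fun d => jS d τ) (MvPolynomial.map (σ : ℂ →+* ℂ) G₁)
      = MvPolynomial.eval (fun d => jS d τ) (MvPolynomial.map (σ : ℂ →+* ℂ) G))

/-- `Ψ₁ = f·E₄·E₆/Δ` (weight `0`, holomorphic on `ℍ`). -/
def psi1 {N : ℕ} (f : CuspForm (CongruenceSubgroup.Gamma0 N) 2) : ℍ → ℂ :=
  fun τ => f τ * E₄ τ * E₆ τ / ModularForm.discriminant τ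

/-- `Ψ₂ = f⁶/Δ` (weight `0`, holomorphic on `ℍ`). -/
def psi2 {N : ℕ} (f : CuspForm (CongruenceSubgroup.Gamma0 N) 2) : ℍ → ℂ :=
  fun τ => f τ ^ 6 / ModularForm.discriminant τ

theorem psi1_apply {N : ℕ} (f : CuspForm (CongruenceSubgroup.Gamma0 N) 2) (τ : ℍ) :
    psi1 f τ = f τ * E₄ τ * E₆ τ / ModularForm.discriminant τ := rfl

theorem psi2_apply {N : ℕ} (f : CuspForm (CongruenceSubgroup.Gamma0 N) 2) (τ : ℍ) :
    psi2 f τ = f τ ^ 6 / ModularForm.discriminant τ := rfl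

end Fermat.Agent.S23_Defs

end
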