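import Fermat.Agent.S24_Degree

/-!
# S23_Interp (helper9): interpolation over the cosets of `Γ₀(N)` and integrality over `ℂ[j]`

For a `Γ₀(N)`-invariant nice function `Ψ ∈ AN N`:

* (A2) `Ψ · G₁(j, j_N) = G(j, j_N)` for polynomials `G₁`, `G` with `G₁` independent of `Ψ` and
  `G₁(j, j_N) ≢ 0` (Lagrange interpolation over the cosets);
* (A3) `Ψ` satisfies a monic equation of degree `[SL₂(ℤ) : Γ₀(N)]` with coefficients in `ℂ[j]`,
  with degree bounds for the coefficients when all translates of `Δ · Ψ` vanish at `i∞`.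
-/

set_option autoImplicit false

noncomputable section

open Fermat.Agent.S24_Defs Fermat.Agent.S24_Embed ModularCurve UpperHalfPlane Filter
open scoped MatrixGroups ModularForm Manifold Topology

namespace Fermat.Agent.S23_Interp

open Fermat.Agent.S24_JBasic ModularForm ModularFormClass EisensteinSeries
open Fermat.Agent.S24_LevelOne (jFun_eq form_smul)
open Fermat.Agent.S24_DegreeOf (evalAt evalAt_apply exists_poly_of_tr_invariant jS_one)

/-! ### Level one, with degree bounds -/

/-- If `f * Δ ^ m` is a level-one modular form (of weight `12 m`), then `f` is a polynomial of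
degree `≤ m` in `j`. -/
theorem exists_polynomial_of_form_le (m : ℕ) :
    ∀ (f : ℍ → ℂ) (k : ℤ) (_ : k = 12 * (m : ℤ)) (h : ModularForm 𝒮ℒ k),
      (∀ τ, h τ = f τ * ModularForm.discriminant τ ^ m) →
      ∃ P : Polynomial ℂ, P.natDegree ≤ m ∧ ∀ τ : ℍ, f τ = P.eval (jFun τ) := by
  induction m with
  | zero =>
    intro f k hk h hh
    have hk0 : k = 0 := by simpa using hk
    subst hk0
    obtain ⟨c, hc⟩ := levelOne_weight_zero_const h
    refine ⟨Polynomial.C c, by simp, fun τ => ?_⟩
    have := hh τ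
    rw [pow_zero, mul_one] at this
    rw [Polynomial.eval_C, ← this, hc]
    rfl
  | succ m ih =>
    intro f k hk h hh
    set c : ℂ := (PowerSeries.coeff 0) (qExpansion 1 h) with hc
    set F : ℍ → ℂ := fun τ => h τ - c * E₄ τ ^ (3 * (m + 1)) with hF
    have hol : MDiff F := h.holo'.sub (mdifferentiable_const.mul (E₄.holo'.pow _))
    have hinv : ∀ (γ : SL(2, ℤ)) (z : ℍ), F (γ • z) = denom γ z ^ k * F z := by
      intro γ z
      have e1 : (denom γ z ^ (4 : ℤ)) ^ (3 * (m + 1)) = denom γ z ^ k := by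
        rw [← zpow_natCast, ← zpow_mul, hk]
        congr 1
        push_cast; ring
      simp only [hF]
      rw [form_smul, E₄_smul, mul_pow, e1]
      ring
    have htend : Tendsto F atImInfty (𝓝 0) := by
      have h1 : Tendsto h atImInfty (𝓝 c) := tendsto_coeff_zero h
      have h2 : Tendsto (fun τ : ℍ => c * E₄ τ ^ (3 * (m + 1))) atImInfty
          (𝓝 (c * 1 ^ (3 * (m + 1)))) := (tendsto_E₄.pow _).const_mul c
      have h3 := h1.sub h2
      simpa using h3
    set h0 : ModularForm 𝒮ℒ k := mkLevelOne k F hol hinv (htend.isBigO_one ℝ) with hh0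
    have hcusp : (PowerSeries.coeff 0) (qExpansion 1 h0) = 0 :=
      tendsto_nhds_unique (tendsto_coeff_zero h0) htend
    set g : ModularForm 𝒮ℒ (k - 12) := CuspForm.discriminantEquiv (ModularForm.toCuspForm h0 hcusp)
      with hg
    have hgk : k - 12 = 12 * (m : ℤ) := by rw [hk]; push_cast; ring
    obtain ⟨P', hP'deg, hP'⟩ := ih (fun τ => f τ - c * jFun τ ^ (m + 1)) (k - 12) hgk g (fun τ => by
      have hD : ModularForm.discriminant τ ≠ 0 := discriminant_ne_zero τ
      have e1 : g τ = F τ / ModularForm.discriminant τ := by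
        rw [hg, CuspForm.discriminantEquiv_apply, ModularForm.toCuspForm_apply]
        rfl
      rw [e1, hF]
      simp only
      rw [hh τ, jFun_eq, div_pow, ← pow_mul]
      field_simp
      ring)
    refine ⟨P' + Polynomial.C c * Polynomial.X ^ (m + 1), ?_, fun τ => ?_⟩
    · refine (Polynomial.natDegree_add_le _ _).trans (max_le (hP'deg.trans (Nat.le_succ m)) ?_)
      exact Polynomial.natDegree_C_mul_X_pow_le c (m + 1)
    · have := hP' τ
      simp only [Polynomial.eval_add, Polynomial.eval_mul, Polynomial.eval_C, Polynomial.eval_pow,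
        Polynomial.eval_X]
      rw [← this]
      ring

/-- A holomorphic `SL₂(ℤ)`-invariant function `f` with `f · Δ^(m+1) → 0` at `i∞` is a polynomial of
degree `≤ m` in `j`. -/
theorem exists_polynomial_of_cusp (f : ℍ → ℂ) (hf : MDiff f)
    (hinv : ∀ (g : SL(2, ℤ)) (τ : ℍ), f (g • τ) = f τ) (m : ℕ)
    (h0 : Tendsto (fun τ : ℍ => f τ * ModularForm.discriminant τ ^ (m + 1)) atImInfty (𝓝 0)) :
    ∃ P : Polynomial ℂ, P.natDegree ≤ m ∧ ∀ τ : ℍ, f τ = P.eval (jFun τ) := by
  set k : ℤ := 12 * ((m + 1 : ℕ) : ℤ) with hk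
  set F : ℍ → ℂ := fun τ => f τ * ModularForm.discriminant τ ^ (m + 1) with hF
  have hol : MDiff F := hf.mul (CuspForm.discriminant.holo'.pow (m + 1))
  have hinv' : ∀ (γ : SL(2, ℤ)) (z : ℍ), F (γ • z) = denom γ z ^ k * F z := by
    intro γ z
    have e1 : (denom γ z ^ (12 : ℤ)) ^ (m + 1) = denom γ z ^ k := by
      rw [← zpow_natCast, ← zpow_mul]
    simp only [hF]
    rw [hinv, discriminant_smul, mul_pow, e1]
    ring
  set hform : ModularForm 𝒮ℒ k := mkLevelOne k F hol hinv' (h0.isBigO_one ℝ) with hhform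
  have hcusp : (PowerSeries.coeff 0) (qExpansion 1 hform) = 0 :=
    tendsto_nhds_unique (tendsto_coeff_zero hform) h0
  set g : ModularForm 𝒮ℒ (k - 12) :=
    CuspForm.discriminantEquiv (ModularForm.toCuspForm hform hcusp) with hg
  have hgk : k - 12 = 12 * (m : ℤ) := by rw [hk]; push_cast; ring
  refine exists_polynomial_of_form_le m f (k - 12) hgk g fun τ => ?_
  have hD : ModularForm.discriminant τ ≠ 0 := discriminant_ne_zero τ
  have e1 : g τ = F τ / ModularForm.discriminant τ := by
    rw [hg, CuspForm.discriminantEquiv_apply, ModularForm.toCuspForm_apply]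
    rfl
  rw [e1, hF]
  simp only
  field_simp
  ring


/-! ### Translates indexed by cosets -/

section Orb

variable {N : ℕ}

/-- The translates of a `Γ₀(N)`-invariant function, indexed by the cosets of `Γ₀(N)`. -/
def orb (Ψ : AN N)
    (hΨ : ∀ g : SL(2, ℤ), g ∈ CongruenceSubgroup.Gamma0 N → tr N g Ψ = Ψ) (c : Coset N) : AN N :=
  Quotient.liftOn' c (fun g : SL(2, ℤ) => tr N g Ψ) (by
    intro a b hab
    have h : a⁻¹ * b ∈ CongruenceSubgroup.Gamma0 N := QuotientGroup.leftRel_apply.mp hab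
    have hb : b = a * (a⁻¹ * b) := by group
    show tr N a Ψ = tr N b Ψ
    rw [hb, tr_mul, hΨ _ h])

variable (Ψ : AN N) (hΨ : ∀ g : SL(2, ℤ), g ∈ CongruenceSubgroup.Gamma0 N → tr N g Ψ = Ψ)

theorem orb_mk (g : SL(2, ℤ)) : orb Ψ hΨ (QuotientGroup.mk g) = tr N g Ψ := rfl

theorem orb_one : orb Ψ hΨ (QuotientGroup.mk 1) = Ψ := by rw [orb_mk, tr_one]

theorem orb_smul (g : SL(2, ℤ)) (c : Coset N) : orb Ψ hΨ (g • c) = tr N g (orb Ψ hΨ c) := by
  induction c using QuotientGroup.induction_on with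
  | H a =>
    show orb Ψ hΨ (QuotientGroup.mk (g * a)) = _
    rw [orb_mk, orb_mk, tr_mul]

theorem orb_out (c : Coset N) : orb Ψ hΨ c = tr N (Quotient.out c) Ψ := by
  conv_lhs => rw [← QuotientGroup.out_eq' c]
  rfl

end Orb

/-! ### (A3) Integrality over `ℂ[j]` -/

/-- (A3) A `Γ₀(N)`-invariant nice function satisfies a monic equation of degree
`n = [SL₂(ℤ) : Γ₀(N)]` with coefficients in `ℂ[j]`; if all translates of `Δ · Ψ` vanish at `i∞`,
the coefficient of `Ψ^i` has degree `≤ n - i - 1` in `j`. -/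
theorem exists_monic_relation (N : ℕ) [NeZero N] (Ψ : AN N)
    (hΨ : ∀ g : SL(2, ℤ), g ∈ CongruenceSubgroup.Gamma0 N → tr N g Ψ = Ψ) :
    ∃ p : ℕ → Polynomial ℂ,
      (∀ τ : ℍ, (Ψ : ℍ → ℂ) τ ^ Nat.card (Coset N)
        + ∑ i ∈ Finset.range (Nat.card (Coset N)),
            (p i).eval (jFun τ) * (Ψ : ℍ → ℂ) τ ^ i = 0) ∧
      ((∀ g : SL(2, ℤ), Tendsto (fun τ : ℍ =>
          ModularForm.discriminant τ * (tr N g Ψ : ℍ → ℂ) τ) atImInfty (𝓝 0)) →
        ∀ i < Nat.card (Coset N), (p i).natDegree + i + 1 ≤ Nat.card (Coset N)) := by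
  classical
  let _ : Fintype (Coset N) := Fintype.ofFinite _
  have hcard : Fintype.card (Coset N) = Nat.card (Coset N) := (Nat.card_eq_fintype_card).symm
  set Q : Polynomial (AN N) := ∏ c : Coset N, (Polynomial.X - Polynomial.C (orb Ψ hΨ c)) with hQ
  have hQmonic : Q.Monic := Polynomial.monic_prod_of_monic _ _ fun c _ =>
    Polynomial.monic_X_sub_C _
  have hQdeg : Q.natDegree = Nat.card (Coset N) := by
    rw [hQ, Polynomial.natDegree_prod_of_monic _ _ fun c _ => Polynomial.monic_X_sub_C _]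
    simp only [Polynomial.natDegree_X_sub_C, Finset.sum_const, Finset.card_univ, smul_eq_mul,
      mul_one, hcard]
  have hQroot : Q.eval Ψ = 0 := by
    rw [hQ, Polynomial.eval_prod]
    refine Finset.prod_eq_zero (Finset.mem_univ (QuotientGroup.mk 1 : Coset N)) ?_
    rw [orb_one, Polynomial.eval_sub, Polynomial.eval_X, Polynomial.eval_C, sub_self]
  have hQmap : ∀ g : SL(2, ℤ), Q.map (tr N g : AN N →+* AN N) = Q := by
    intro g
    rw [hQ, Polynomial.map_prod]
    have h1 : ∀ c : Coset N, (Polynomial.X - Polynomial.C (orb Ψ hΨ c)).map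
        (tr N g : AN N →+* AN N) = Polynomial.X - Polynomial.C (orb Ψ hΨ (g • c)) := by
      intro c
      rw [Polynomial.map_sub, Polynomial.map_X, Polynomial.map_C, orb_smul]
      rfl
    simp_rw [h1]
    exact Equiv.prod_comp (MulAction.toPerm g : Equiv.Perm (Coset N))
      (fun c => Polynomial.X - Polynomial.C (orb Ψ hΨ c))
  have hcoeff : ∀ (k : ℕ) (g : SL(2, ℤ)), tr N g (Q.coeff k) = Q.coeff k := by
    intro k g
    have := congrArg (fun q : Polynomial (AN N) => q.coeff k) (hQmap g)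
    simpa [Polynomial.coeff_map] using this
  have hinv : ∀ (k : ℕ) (g : SL(2, ℤ)) (τ : ℍ),
      (Q.coeff k : ℍ → ℂ) (g • τ) = (Q.coeff k : ℍ → ℂ) τ := by
    intro k g τ
    have h := congrArg (fun x : AN N => (x : ℍ → ℂ) τ) (hcoeff k g⁻¹)
    simpa using h
  -- Vieta
  have hvieta : ∀ k ≤ Nat.card (Coset N), Q.coeff k
      = ∑ t ∈ (Finset.univ : Finset (Coset N)).powersetCard (Nat.card (Coset N) - k),
          ∏ c ∈ t, (-(orb Ψ hΨ c)) := by
    intro k hk
    have h1 : Q = ∏ c ∈ (Finset.univ : Finset (Coset N)),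
        (Polynomial.X + Polynomial.C (-(orb Ψ hΨ c))) := by
      rw [hQ]
      refine Finset.prod_congr rfl fun c _ => ?_
      rw [Polynomial.C_neg]
      ring
    rw [h1, Finset.prod_X_add_C_coeff _ _ (by rw [Finset.card_univ, hcard]; exact hk),
      Finset.card_univ, hcard]
  have hex : ∀ k : ℕ, ∃ p : Polynomial ℂ,
      (∀ τ : ℍ, (Q.coeff k : ℍ → ℂ) τ = p.eval (jFun τ)) ∧
      ((∀ g : SL(2, ℤ), Tendsto (fun τ : ℍ =>
          ModularForm.discriminant τ * (tr N g Ψ : ℍ → ℂ) τ) atImInfty (𝓝 0)) →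
        k < Nat.card (Coset N) → p.natDegree + k + 1 ≤ Nat.card (Coset N)) := by
    intro k
    by_cases hc : (∀ g : SL(2, ℤ), Tendsto (fun τ : ℍ =>
          ModularForm.discriminant τ * (tr N g Ψ : ℍ → ℂ) τ) atImInfty (𝓝 0)) ∧
        k < Nat.card (Coset N)
    · obtain ⟨hcusp, hk⟩ := hc
      have hm : Nat.card (Coset N) - k - 1 + 1 = Nat.card (Coset N) - k := by omega
      have h0 : Tendsto (fun τ : ℍ => (Q.coeff k : ℍ → ℂ) τ
          * ModularForm.discriminant τ ^ (Nat.card (Coset N) - k - 1 + 1)) atImInfty (𝓝 0) := by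
        rw [hm]
        have hfun : (fun τ : ℍ => (Q.coeff k : ℍ → ℂ) τ
            * ModularForm.discriminant τ ^ (Nat.card (Coset N) - k))
            = fun τ : ℍ => ∑ t ∈ (Finset.univ : Finset (Coset N)).powersetCard
                (Nat.card (Coset N) - k),
                ∏ c ∈ t, (-(ModularForm.discriminant τ * (orb Ψ hΨ c : ℍ → ℂ) τ)) := by
          funext τ
          rw [hvieta k hk.le, ← evalAt_apply, map_sum, Finset.sum_mul]
          refine Finset.sum_congr rfl fun t ht => ?_
          have hcardt : t.card = Nat.card (Coset N) - k := (Finset.mem_powersetCard.mp ht).2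
          rw [map_prod, ← hcardt, ← Finset.prod_const, ← Finset.prod_mul_distrib]
          refine Finset.prod_congr rfl fun c _ => ?_
          rw [map_neg, evalAt_apply]
          ring
        rw [hfun]
        have hterm : ∀ t ∈ (Finset.univ : Finset (Coset N)).powersetCard
            (Nat.card (Coset N) - k),
            Tendsto (fun τ : ℍ => ∏ c ∈ t,
              (-(ModularForm.discriminant τ * (orb Ψ hΨ c : ℍ → ℂ) τ))) atImInfty (𝓝 0) := by
          intro t ht
          have hcardt : t.card = Nat.card (Coset N) - k := (Finset.mem_powersetCard.mp ht).2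
          have h1 : ∀ c ∈ t, Tendsto (fun τ : ℍ =>
              -(ModularForm.discriminant τ * (orb Ψ hΨ c : ℍ → ℂ) τ)) atImInfty (𝓝 0) := by
            intro c _
            have := (hcusp (Quotient.out c)).neg
            rw [neg_zero] at this
            rw [orb_out]
            exact this
          have h2 := tendsto_finsetProd t h1
          rw [Finset.prod_const, zero_pow (by rw [hcardt]; omega)] at h2
          exact h2
        have h3 := tendsto_finsetSum _ hterm
        rw [Finset.sum_const_zero] at h3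
        exact h3
      obtain ⟨p, hpdeg, hp⟩ := exists_polynomial_of_cusp (Q.coeff k : ℍ → ℂ)
        (AN_coe_mdiff (Q.coeff k)) (hinv k) (Nat.card (Coset N) - k - 1) h0
      exact ⟨p, hp, fun _ _ => by omega⟩
    · obtain ⟨p, hp⟩ := exists_poly_of_tr_invariant (Q.coeff k) (hcoeff k)
      exact ⟨p, hp, fun h1 h2 => absurd ⟨h1, h2⟩ hc⟩
  choose p hp hpdeg using hex
  refine ⟨p, fun τ => ?_, fun hcusp i hi => hpdeg i hcusp hi⟩
  have h1 := congrArg (evalAt N τ) hQroot
  rw [Polynomial.eval_eq_sum_range, hQdeg, map_sum, map_zero, Finset.sum_range_succ] at h1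
  have htop : Q.coeff (Nat.card (Coset N)) = 1 := by
    rw [← hQdeg]; exact hQmonic.coeff_natDegree
  rw [htop, one_mul, map_pow, evalAt_apply, add_comm] at h1
  rw [← h1]
  congr 1
  refine Finset.sum_congr rfl fun k _ => ?_
  rw [map_mul, map_pow, evalAt_apply, evalAt_apply, hp]


/-! ### (A2) Interpolation over the cosets -/

theorem eval_aeval_X {ι : Type*} (i : ι) (p : Polynomial ℂ) (f : ι → ℂ) :
    MvPolynomial.eval f (Polynomial.aeval (MvPolynomial.X i : MvPolynomial ι ℂ) p)
      = p.eval (f i) := by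
  induction p using Polynomial.induction_on' with
  | add p q hp hq => rw [map_add, map_add, hp, hq, Polynomial.eval_add]
  | monomial n a => simp [Polynomial.aeval_monomial]

theorem eval_aeval_X_one (p : Polynomial ℂ) (f : ℕ → ℂ) :
    MvPolynomial.eval f (Polynomial.aeval (MvPolynomial.X 1 : MvPolynomial ℕ ℂ) p)
      = p.eval (f 1) := eval_aeval_X 1 p f

/-- (A2), with the denominator as an element of `AN N` and two-variable polynomials evaluated at
`(j(τ), j(Nτ))`. -/
theorem exists_interp_aux₂ (N : ℕ) [NeZero N] :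
    ∃ D : AN N, D ≠ 0 ∧
      ∀ Ψ : AN N, (∀ g : SL(2, ℤ), g ∈ CongruenceSubgroup.Gamma0 N → tr N g Ψ = Ψ) →
        ∃ G : MvPolynomial (Fin 2) ℂ, ∀ τ : ℍ,
          (Ψ : ℍ → ℂ) τ * (D : ℍ → ℂ) τ = MvPolynomial.eval ![jFun τ, jS N τ] G := by
  classical
  let _ : Fintype (Coset N) := Fintype.ofFinite _
  have inp := Fermat.Agent.S24_Degree.inputs N
  set J : AN N := ⟨jS N, inp.hmem N dvd_rfl⟩ with hJdef
  have hJ : ∀ g : SL(2, ℤ), g ∈ CongruenceSubgroup.Gamma0 N → tr N g J = J := fun g hg =>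
    Subtype.ext (funext fun τ => inp.hinv N dvd_rfl g⁻¹ (inv_mem hg) τ)
  set c0 : Coset N := QuotientGroup.mk 1 with hc0
  have hJinj : Function.Injective (orb J hJ) := by
    intro c c' hcc
    have h1 : ∀ τ : ℍ, jS N ((Quotient.out c)⁻¹ • τ) = jS N ((Quotient.out c')⁻¹ • τ) := by
      intro τ
      have := congrArg (fun x : AN N => (x : ℍ → ℂ) τ) hcc
      rw [orb_out, orb_out] at this
      exact this
    have h2 : (Quotient.out c)⁻¹ * Quotient.out c' ∈ CongruenceSubgroup.Gamma0 N := by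
      refine inp.hmemG _ fun τ => ?_
      rw [mul_smul, h1, inv_smul_smul]
    have h3 : (QuotientGroup.mk (Quotient.out c) : Coset N) = QuotientGroup.mk (Quotient.out c') :=
      QuotientGroup.eq.mpr h2
    rwa [QuotientGroup.out_eq', QuotientGroup.out_eq'] at h3
  set D : AN N := ∏ c ∈ (Finset.univ : Finset (Coset N)).erase c0, (J - orb J hJ c) with hD
  have hD0 : D ≠ 0 := by
    refine Finset.prod_ne_zero_iff.mpr fun c hc => ?_
    have hne : c ≠ c0 := Finset.ne_of_mem_erase hc
    rw [sub_ne_zero]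
    intro h
    have h' : orb J hJ c0 = orb J hJ c := by rw [hc0, orb_one]; exact h
    exact hne (hJinj h').symm
  refine ⟨D, hD0, fun Ψ hΨ => ?_⟩
  -- the interpolation polynomial
  set F : Coset N → Polynomial (AN N) := fun c => Polynomial.C (orb Ψ hΨ c)
    * ∏ c' ∈ (Finset.univ : Finset (Coset N)).erase c,
      (Polynomial.X - Polynomial.C (orb J hJ c')) with hF
  set Q : Polynomial (AN N) := ∑ c : Coset N, F c with hQ
  have hQmap : ∀ g : SL(2, ℤ), Q.map (tr N g : AN N →+* AN N) = Q := by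
    intro g
    have h1 : ∀ c : Coset N, (F c).map (tr N g : AN N →+* AN N) = F (g • c) := by
      intro c
      simp only [hF]
      rw [Polynomial.map_mul, Polynomial.map_C, Polynomial.map_prod]
      have e1 : (tr N g : AN N →+* AN N) (orb Ψ hΨ c) = orb Ψ hΨ (g • c) :=
        (orb_smul Ψ hΨ g c).symm
      rw [e1]
      congr 1
      refine Finset.prod_equiv (MulAction.toPerm g : Equiv.Perm (Coset N)) ?_ ?_
      · intro c'
        simp only [Finset.mem_erase, Finset.mem_univ, and_true, MulAction.toPerm_apply, ne_eq]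
        rw [smul_left_cancel_iff]
      · intro c' _
        rw [Polynomial.map_sub, Polynomial.map_X, Polynomial.map_C]
        have e2 : (tr N g : AN N →+* AN N) (orb J hJ c') = orb J hJ (g • c') :=
          (orb_smul J hJ g c').symm
        rw [e2]
        rfl
    rw [hQ, Polynomial.map_sum]
    simp_rw [h1]
    exact Equiv.sum_comp (MulAction.toPerm g : Equiv.Perm (Coset N)) F
  have hcoeff : ∀ (k : ℕ) (g : SL(2, ℤ)), tr N g (Q.coeff k) = Q.coeff k := by
    intro k g
    have := congrArg (fun q : Polynomial (AN N) => q.coeff k) (hQmap g)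
    simpa [Polynomial.coeff_map] using this
  have hex : ∀ k : ℕ, ∃ p : Polynomial ℂ, ∀ τ : ℍ, (Q.coeff k : ℍ → ℂ) τ = p.eval (jFun τ) :=
    fun k => exists_poly_of_tr_invariant (Q.coeff k) (hcoeff k)
  choose p hp using hex
  -- evaluation at `j_N`
  have hQJ : Q.eval J = Ψ * D := by
    rw [hQ, Polynomial.eval_finsetSum, Finset.sum_eq_single c0]
    · simp only [hF]
      rw [Polynomial.eval_mul, Polynomial.eval_C, Polynomial.eval_prod, orb_one, hD]
      congr 1
      refine Finset.prod_congr rfl fun c _ => ?_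
      rw [Polynomial.eval_sub, Polynomial.eval_X, Polynomial.eval_C]
    · intro c _ hc
      simp only [hF]
      rw [Polynomial.eval_mul, Polynomial.eval_prod]
      have hmem : c0 ∈ (Finset.univ : Finset (Coset N)).erase c :=
        Finset.mem_erase.mpr ⟨fun h => hc h.symm, Finset.mem_univ _⟩
      rw [Finset.prod_eq_zero hmem, mul_zero]
      rw [Polynomial.eval_sub, Polynomial.eval_X, Polynomial.eval_C, orb_one, sub_self]
    · intro h; exact absurd (Finset.mem_univ _) h
  refine ⟨∑ k ∈ Finset.range (Q.natDegree + 1),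
    Polynomial.aeval (MvPolynomial.X 0 : MvPolynomial (Fin 2) ℂ) (p k) * MvPolynomial.X 1 ^ k,
    fun τ => ?_⟩
  have h1 := congrArg (evalAt N τ) hQJ
  rw [Polynomial.eval_eq_sum_range, map_sum, map_mul, evalAt_apply, evalAt_apply] at h1
  rw [← h1, map_sum]
  refine Finset.sum_congr rfl fun k _ => ?_
  rw [map_mul, map_pow, evalAt_apply, evalAt_apply, hp, map_mul, map_pow, eval_aeval_X,
    MvPolynomial.eval_X]
  rfl

/-- (A2), with the denominator as an element of `AN N`. -/
theorem exists_interp_aux (N : ℕ) [NeZero N] :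
    ∃ D : AN N, D ≠ 0 ∧
      ∀ Ψ : AN N, (∀ g : SL(2, ℤ), g ∈ CongruenceSubgroup.Gamma0 N → tr N g Ψ = Ψ) →
        ∃ G : MvPolynomial ℕ ℂ, ∀ τ : ℍ,
          (Ψ : ℍ → ℂ) τ * (D : ℍ → ℂ) τ = MvPolynomial.eval (fun d => jS d τ) G := by
  obtain ⟨D, hD0, hD⟩ := exists_interp_aux₂ N
  refine ⟨D, hD0, fun Ψ hΨ => ?_⟩
  obtain ⟨G, hG⟩ := hD Ψ hΨ
  refine ⟨MvPolynomial.rename ![1, N] G, fun τ => ?_⟩
  have hfun : (fun d => jS d τ) ∘ ![1, N] = ![jFun τ, jS N τ] := by
    funext i
    fin_cases i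
    · simp [jS_one]
    · simp
  rw [hG τ, MvPolynomial.eval_rename, hfun]

/-- (A2) **Interpolation over the cosets**: there is a polynomial `G₁` with `G₁(j, j_N) ≢ 0`
such that for every `Γ₀(N)`-invariant nice function `Ψ` the product `Ψ · G₁(j, j_N)` is a
polynomial in `j` and `j_N`.  (Variables are indexed by `ℕ` and evaluated at `jS d`.) -/
theorem exists_interp (N : ℕ) [NeZero N] :
    ∃ G₁ : MvPolynomial ℕ ℂ, (∃ τ : ℍ, MvPolynomial.eval (fun d => jS d τ) G₁ ≠ 0) ∧
      ∀ Ψ : AN N, (∀ g : SL(2, ℤ), g ∈ CongruenceSubgroup.Gamma0 N → tr N g Ψ = Ψ) →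
        ∃ G : MvPolynomial ℕ ℂ, ∀ τ : ℍ,
          (Ψ : ℍ → ℂ) τ * MvPolynomial.eval (fun d => jS d τ) G₁
            = MvPolynomial.eval (fun d => jS d τ) G := by
  obtain ⟨D, hD0, hD⟩ := exists_interp_aux N
  obtain ⟨G₁, hG₁⟩ := hD 1 (fun g _ => map_one _)
  have hG₁' : ∀ τ : ℍ, (D : ℍ → ℂ) τ = MvPolynomial.eval (fun d => jS d τ) G₁ := by
    intro τ
    have := hG₁ τ
    simpa using this
  refine ⟨G₁, ?_, fun Ψ hΨ => ?_⟩
  · by_contra hcon
    apply hD0
    refine Subtype.ext (funext fun τ => ?_)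
    rw [hG₁' τ]
    by_contra h
    exact hcon ⟨τ, h⟩
  · obtain ⟨G, hG⟩ := hD Ψ hΨ
    exact ⟨G, fun τ => by rw [← hG₁' τ, hG τ]⟩


end Fermat.Agent.S23_Interp

end
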