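import Fermat.Agent.S24_QExp

/-!
# S23 (A1): automorphisms of `ℂ` preserve the polynomial relations between the `j(dτ)`
-/

set_option autoImplicit false

noncomputable section

open Fermat.Agent.S24_Defs ModularCurve UpperHalfPlane
open scoped MatrixGroups ModularForm Manifold Topology

namespace Fermat.Agent.S23_RelConj

theorem coeffMap_JdC (σ : ℂ →+* ℂ) (d : ℕ) : coeffMap σ (JdC d) = JdC d := by
  by_cases hd : d = 0
  · simp [JdC, hd]
  · simp only [JdC, hd, dite_false, coeffEmb]
    rw [coeffMap_coeffMap]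
    exact coeffMap_congr (RingHom.ext_rat _ _) _

theorem coeffMap_aeval_JdC (σ : ℂ →+* ℂ) (P : MvPolynomial ℕ ℂ) :
    coeffMap σ (MvPolynomial.aeval JdC P) = MvPolynomial.aeval JdC (MvPolynomial.map σ P) := by
  induction P using MvPolynomial.induction_on with
  | C c =>
    rw [MvPolynomial.aeval_C, MvPolynomial.map_C, MvPolynomial.aeval_C,
      algebraMap_laurentSeries_eq_single, algebraMap_laurentSeries_eq_single, coeffMap_single]
  | add p q hp hq => rw [map_add, map_add, hp, hq, map_add, map_add]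
  | mul_X p d hp =>
    rw [map_mul, map_mul, hp, MvPolynomial.aeval_X, coeffMap_JdC, map_mul, MvPolynomial.map_X,
      map_mul, MvPolynomial.aeval_X]

/-- (A1) A ring endomorphism of `ℂ` (in particular an automorphism) preserves the polynomial
relations between the functions `jS d = j(dτ)`. -/
theorem relation_map (σ : ℂ →+* ℂ) (P : MvPolynomial ℕ ℂ)
    (h : ∀ τ : ℍ, MvPolynomial.eval (fun d => jS d τ) P = 0) :
    ∀ τ : ℍ, MvPolynomial.eval (fun d => jS d τ) (MvPolynomial.map σ P) = 0 := by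
  rw [← Fermat.Agent.S24_QExp.qExpansion_principle] at h ⊢
  rw [← coeffMap_aeval_JdC, h, map_zero]

/-- (A1), for automorphisms. -/
theorem relation_conj (σ : ℂ ≃+* ℂ) (P : MvPolynomial ℕ ℂ)
    (h : ∀ τ : ℍ, MvPolynomial.eval (fun d => jS d τ) P = 0) :
    ∀ τ : ℍ, MvPolynomial.eval (fun d => jS d τ) (MvPolynomial.map (σ : ℂ →+* ℂ) P) = 0 :=
  relation_map (σ : ℂ →+* ℂ) P h

/-- (A1), converse direction for automorphisms: a relation for the conjugate polynomial comes
from a relation for the polynomial. -/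
theorem relation_conj_iff (σ : ℂ ≃+* ℂ) (P : MvPolynomial ℕ ℂ) :
    (∀ τ : ℍ, MvPolynomial.eval (fun d => jS d τ) (MvPolynomial.map (σ : ℂ →+* ℂ) P) = 0) ↔
      ∀ τ : ℍ, MvPolynomial.eval (fun d => jS d τ) P = 0 := by
  refine ⟨fun h => ?_, relation_conj σ P⟩
  have h2 := relation_map (σ.symm : ℂ →+* ℂ) _ h
  have h3 : MvPolynomial.map (σ.symm : ℂ →+* ℂ) (MvPolynomial.map (σ : ℂ →+* ℂ) P) = P := by
    rw [MvPolynomial.map_map]
    have : ((σ.symm : ℂ →+* ℂ)).comp (σ : ℂ →+* ℂ) = RingHom.id ℂ := by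
      ext x; simp
    rw [this, MvPolynomial.map_id]
  rwa [h3] at h2

end Fermat.Agent.S23_RelConj

end
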