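import Fermat.Agent.S24_Degree
import Fermat.Agent.S24_QExp
import Fermat.Agent.S24_JFun
import Fermat.Prelude.Def_FLTPrelim_Modularity
import Fermat.Agent.S23_Defs
import Fermat.Agent.S23_Interp
import Fermat.Agent.S23_RelConj

/-!
# S23_Nice (helper4): `Ψ₁ = f·E₄·E₆/Δ` and `Ψ₂ = f⁶/Δ` are nice, `Γ₀(N)`-invariant functions

Row `S23_Nice` of the team table: `psi1_mem`, `psi2_mem`, `tr_psi1`, `tr_psi2`, `tendsto_psi2`.
-/

set_option autoImplicit false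
noncomputable section

open Fermat.Agent.S24_Defs Fermat.Agent.S24_Embed ModularCurve UpperHalfPlane Filter
open ModularForm EisensteinSeries
open scoped MatrixGroups ModularForm Manifold Topology

open Fermat.Agent.S23_Defs

namespace Fermat.Agent.S23_Nice

theorem coe_T_pow (n : ℕ) : ((ModularGroup.T ^ n : SL(2, ℤ)) : Matrix (Fin 2) (Fin 2) ℤ)
    = !![1, (n : ℤ); 0, 1] := by
  rw [← zpow_natCast]
  exact ModularGroup.coe_T_zpow n

theorem denom_T_pow (n : ℕ) (τ : ℍ) : denom (ModularGroup.T ^ n : SL(2, ℤ)) τ = 1 := by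
  have hT := coe_T_pow n
  have h10 : (ModularGroup.T ^ n : SL(2, ℤ)) 1 0 = 0 := by
    have := congrFun (congrFun hT 1) 0
    simpa using this
  have h11 : (ModularGroup.T ^ n : SL(2, ℤ)) 1 1 = 1 := by
    have := congrFun (congrFun hT 1) 1
    simpa using this
  rw [ModularGroup.denom_apply, h10, h11]
  simp

variable {N : ℕ}

/-- `f ∣[2] γ = f` for `γ ∈ Γ₀(N)`. -/
theorem slash_of_mem (f : CuspForm (CongruenceSubgroup.Gamma0 N) 2) {γ : SL(2, ℤ)}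
    (hγ : γ ∈ CongruenceSubgroup.Gamma0 N) : (f : ℍ → ℂ) ∣[(2 : ℤ)] γ = f := by
  funext τ
  have h := SlashInvariantForm.slash_action_eqn_SL'' f hγ τ
  have hd : denom γ τ ^ (2 : ℤ) ≠ 0 := zpow_ne_zero 2 (denom_ne_zero γ τ)
  rw [SL_slash_apply, h, zpow_neg]
  field_simp

/-- `g T^N g⁻¹ ∈ Γ₀(N)`. -/
theorem conj_T_pow_mem (g : SL(2, ℤ)) :
    g * ModularGroup.T ^ N * g⁻¹ ∈ CongruenceSubgroup.Gamma0 N := by
  rw [CongruenceSubgroup.Gamma0_mem]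
  have hentry : (g * ModularGroup.T ^ N * g⁻¹ : SL(2, ℤ)) 1 0 = -((N : ℤ) * (g 1 0) ^ 2) := by
    rw [Matrix.SpecialLinearGroup.coe_mul, Matrix.SpecialLinearGroup.coe_mul,
      Matrix.SpecialLinearGroup.coe_inv, coe_T_pow]
    simp [Matrix.adjugate_fin_two, Matrix.mul_apply, Fin.sum_univ_two]
    ring
  rw [hentry]
  simp

/-- The slash translates of `f` are `N`-periodic. -/
theorem slash_vadd (f : CuspForm (CongruenceSubgroup.Gamma0 N) 2) (g : SL(2, ℤ)) (τ : ℍ) :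
    ((f : ℍ → ℂ) ∣[(2 : ℤ)] g) ((N : ℝ) +ᵥ τ) = ((f : ℍ → ℂ) ∣[(2 : ℤ)] g) τ := by
  have h1 : ((f : ℍ → ℂ) ∣[(2 : ℤ)] g) ∣[(2 : ℤ)] (ModularGroup.T ^ N : SL(2, ℤ))
      = (f : ℍ → ℂ) ∣[(2 : ℤ)] g := by
    rw [← SlashAction.slash_mul]
    have e : g * ModularGroup.T ^ N = (g * ModularGroup.T ^ N * g⁻¹) * g := by group
    rw [e, SlashAction.slash_mul, slash_of_mem f (conj_T_pow_mem g)]
  have h2 := congrFun h1 τ
  rw [SL_slash_apply, denom_T_pow] at h2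
  have h3 : (ModularGroup.T ^ N : SL(2, ℤ)) • τ = (N : ℝ) +ᵥ τ := by
    have := UpperHalfPlane.modular_T_zpow_smul τ (N : ℤ)
    rw [zpow_natCast] at this
    rw [this]
    norm_cast
  rw [h3] at h2
  simpa using h2

theorem T_pow_smul (n : ℕ) (τ : ℍ) : (ModularGroup.T ^ n : SL(2, ℤ)) • τ = (n : ℝ) +ᵥ τ := by
  have := UpperHalfPlane.modular_T_zpow_smul τ (n : ℤ)
  rw [zpow_natCast] at this
  rw [this]
  norm_cast

theorem E₄_vadd (n : ℕ) (τ : ℍ) : E₄ ((n : ℝ) +ᵥ τ) = E₄ τ := by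
  rw [← T_pow_smul, Fermat.Agent.S24_JBasic.E₄_smul, denom_T_pow]
  simp

theorem E₆_vadd (n : ℕ) (τ : ℍ) : E₆ ((n : ℝ) +ᵥ τ) = E₆ τ := by
  rw [← T_pow_smul, Fermat.Agent.S24_JBasic.E₆_smul, denom_T_pow]
  simp

theorem discriminant_vadd (n : ℕ) (τ : ℍ) :
    ModularForm.discriminant ((n : ℝ) +ᵥ τ) = ModularForm.discriminant τ := by
  rw [← T_pow_smul, Fermat.Agent.S24_JBasic.discriminant_smul, denom_T_pow]
  simp

theorem psi1_smul (f : CuspForm (CongruenceSubgroup.Gamma0 N) 2) (g : SL(2, ℤ)) (τ : ℍ) :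
    psi1 f (g • τ) = ((f : ℍ → ℂ) ∣[(2 : ℤ)] g) τ * E₄ τ * E₆ τ / ModularForm.discriminant τ := by
  rw [psi1_apply, SL_slash_apply, Fermat.Agent.S24_JBasic.E₄_smul,
    Fermat.Agent.S24_JBasic.E₆_smul, Fermat.Agent.S24_JBasic.discriminant_smul]
  have hd := denom_ne_zero g τ
  have hΔ := discriminant_ne_zero τ
  rw [zpow_neg]
  simp only [zpow_ofNat]
  field_simp

theorem psi2_smul (f : CuspForm (CongruenceSubgroup.Gamma0 N) 2) (g : SL(2, ℤ)) (τ : ℍ) :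
    psi2 f (g • τ) = ((f : ℍ → ℂ) ∣[(2 : ℤ)] g) τ ^ 6 / ModularForm.discriminant τ := by
  rw [psi2_apply, SL_slash_apply, Fermat.Agent.S24_JBasic.discriminant_smul]
  have hd := denom_ne_zero g τ
  have hΔ := discriminant_ne_zero τ
  rw [zpow_neg]
  simp only [zpow_ofNat]
  field_simp

theorem mdiff_psi1 (f : CuspForm (CongruenceSubgroup.Gamma0 N) 2) : MDiff (psi1 f) :=
  ((f.holo'.mul E₄.holo').mul E₆.holo').div CuspForm.discriminant.holo' discriminant_ne_zero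

theorem mdiff_psi2 (f : CuspForm (CongruenceSubgroup.Gamma0 N) 2) : MDiff (psi2 f) :=
  (f.holo'.pow 6).div CuspForm.discriminant.holo' discriminant_ne_zero

/-- `q / Δ → 1` at `i∞`. -/
theorem tendsto_q_div_discriminant :
    Tendsto (fun τ : ℍ => Function.Periodic.qParam 1 τ / ModularForm.discriminant τ) atImInfty
      (𝓝 1) := by
  have hP : Tendsto (fun x : ℍ ↦ ∏' (n : ℕ), (1 - eta_q n x) ^ 24) atImInfty (𝓝 1) :=
    tendsto_atImInfty_tprod_one_sub_eta_q_pow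
  have h1 : Tendsto (fun τ : ℍ => (1 : ℂ) / ∏' (n : ℕ), (1 - eta_q n τ) ^ 24) atImInfty
      (𝓝 (1 / 1)) := tendsto_const_nhds.div hP one_ne_zero
  rw [div_one] at h1
  refine h1.congr fun τ => ?_
  have hq : Function.Periodic.qParam 1 (τ : ℂ) ≠ 0 := Function.Periodic.qParam_ne_zero _
  have hD := discriminant_ne_zero τ
  have hprod := discriminant_eq_q_prod τ
  have hP0 : ∏' (n : ℕ), (1 - eta_q n τ) ^ 24 ≠ 0 := by
    intro h0
    rw [h0, mul_zero] at hprod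
    exact hD hprod
  rw [hprod]
  field_simp

variable [NeZero N]

theorem tendsto_slash (f : CuspForm (CongruenceSubgroup.Gamma0 N) 2) (g : SL(2, ℤ)) :
    Tendsto ((f : ℍ → ℂ) ∣[(2 : ℤ)] g) atImInfty (𝓝 0) :=
  CuspFormClass.zero_at_infty_slash f g

theorem isNice_psi1 (f : CuspForm (CongruenceSubgroup.Gamma0 N) 2) : IsNice N (psi1 f) := by
  refine ⟨mdiff_psi1 f, fun g => ⟨fun τ => ?_, 1, ?_⟩⟩
  · rw [psi1_smul, psi1_smul, slash_vadd, E₄_vadd, E₆_vadd, discriminant_vadd]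
  · have h1 : Tendsto (fun τ : ℍ => ((f : ℍ → ℂ) ∣[(2 : ℤ)] g) τ * E₄ τ * E₆ τ *
        (Function.Periodic.qParam 1 τ / ModularForm.discriminant τ)) atImInfty
        (𝓝 (0 * 1 * 1 * 1)) :=
      (((tendsto_slash f g).mul Fermat.Agent.S24_JBasic.tendsto_E₄).mul
        Fermat.Agent.S24_JBasic.tendsto_E₆).mul tendsto_q_div_discriminant
    have h2 : Tendsto (fun τ : ℍ => psi1 f (g • τ) * Function.Periodic.qParam 1 τ ^ 1) atImInfty
        (𝓝 (0 * 1 * 1 * 1)) := by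
      refine h1.congr fun τ => ?_
      rw [psi1_smul, pow_one]
      ring
    exact h2.isBigO_one ℝ

theorem isNice_psi2 (f : CuspForm (CongruenceSubgroup.Gamma0 N) 2) : IsNice N (psi2 f) := by
  refine ⟨mdiff_psi2 f, fun g => ⟨fun τ => ?_, 1, ?_⟩⟩
  · rw [psi2_smul, psi2_smul, slash_vadd, discriminant_vadd]
  · have h1 : Tendsto (fun τ : ℍ => ((f : ℍ → ℂ) ∣[(2 : ℤ)] g) τ ^ 6 *
        (Function.Periodic.qParam 1 τ / ModularForm.discriminant τ)) atImInfty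
        (𝓝 (0 ^ 6 * 1)) :=
      ((tendsto_slash f g).pow 6).mul tendsto_q_div_discriminant
    have h2 : Tendsto (fun τ : ℍ => psi2 f (g • τ) * Function.Periodic.qParam 1 τ ^ 1) atImInfty
        (𝓝 (0 ^ 6 * 1)) := by
      refine h1.congr fun τ => ?_
      rw [psi2_smul, pow_one]
      ring
    exact h2.isBigO_one ℝ

theorem psi1_mem (N : ℕ) [NeZero N] (f : CuspForm (CongruenceSubgroup.Gamma0 N) 2) :
    psi1 f ∈ AN N := isNice_psi1 f

theorem psi2_mem (N : ℕ) [NeZero N] (f : CuspForm (CongruenceSubgroup.Gamma0 N) 2) :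
    psi2 f ∈ AN N := isNice_psi2 f

theorem tr_psi1 (N : ℕ) [NeZero N] (f : CuspForm (CongruenceSubgroup.Gamma0 N) 2)
    (g : SL(2, ℤ)) (hg : g ∈ CongruenceSubgroup.Gamma0 N) :
    tr N g ⟨psi1 f, psi1_mem N f⟩ = ⟨psi1 f, psi1_mem N f⟩ := by
  apply Subtype.ext
  funext τ
  show psi1 f (g⁻¹ • τ) = psi1 f τ
  rw [psi1_smul, slash_of_mem f (inv_mem hg), psi1_apply]

theorem tr_psi2 (N : ℕ) [NeZero N] (f : CuspForm (CongruenceSubgroup.Gamma0 N) 2)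
    (g : SL(2, ℤ)) (hg : g ∈ CongruenceSubgroup.Gamma0 N) :
    tr N g ⟨psi2 f, psi2_mem N f⟩ = ⟨psi2 f, psi2_mem N f⟩ := by
  apply Subtype.ext
  funext τ
  show psi2 f (g⁻¹ • τ) = psi2 f τ
  rw [psi2_smul, slash_of_mem f (inv_mem hg), psi2_apply]

/-- cuspidality: `Δ · (Ψ₂ ∘ g⁻¹) = (f ∣[2] g⁻¹)⁶ → 0` at `i∞` for every `g ∈ SL₂(ℤ)`. -/
theorem tendsto_psi2 (N : ℕ) [NeZero N] (f : CuspForm (CongruenceSubgroup.Gamma0 N) 2)
    (g : SL(2, ℤ)) :
    Tendsto (fun τ : ℍ => ModularForm.discriminant τ *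
      (tr N g ⟨psi2 f, psi2_mem N f⟩ : ℍ → ℂ) τ) atImInfty (𝓝 0) := by
  have h1 : Tendsto (fun τ : ℍ => ((f : ℍ → ℂ) ∣[(2 : ℤ)] g⁻¹) τ ^ 6) atImInfty (𝓝 (0 ^ 6)) :=
    (tendsto_slash f g⁻¹).pow 6
  rw [zero_pow (by norm_num)] at h1
  refine h1.congr fun τ => ?_
  show _ = ModularForm.discriminant τ * psi2 f (g⁻¹ • τ)
  rw [psi2_smul]
  have hΔ := discriminant_ne_zero τ
  field_simp

end Fermat.Agent.S23_Nice
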