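import Fermat.Agent.S24_Degree
import Fermat.Agent.S24_QExp
import Fermat.Agent.S24_JFun
import Fermat.Agent.S24_DictOf
import Fermat.Prelude.Def_FLTPrelim_Modularity
import Fermat.Prelude.Thm_CongruenceSubgroup_one_mem_strictPeriods_Gamma0
import Fermat.Agent.S23_Defs
import Fermat.Agent.S23_Interp
import Fermat.Agent.S23_RelConj

/-!
# S23 (A7): conjugate functions have conjugate `q`-expansions

If `Ψ₁(f) = f·E₄·E₆/Δ` and `Ψ₁(g) = g·E₄·E₆/Δ` are `σ`-conjugate (in the sense of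
`S23_Defs.IsConj`: quotients `G/G₁`, `G^σ/G₁^σ` of polynomials in the `j(dτ)`), then the
`q`-expansion of `g` is the `σ`-conjugate of that of `f`.
-/

set_option autoImplicit false

noncomputable section

open Fermat.Agent.S24_Defs Fermat.Agent.S24_Embed ModularCurve UpperHalfPlane Filter
open ModularForm EisensteinSeries
open scoped MatrixGroups ModularForm Manifold Topology
open Fermat.Agent.S23_Defs
open Fermat.Agent.S24_QExp

namespace Fermat.Agent.S23_QExp

/-- Transport of `LConv` along equalities. -/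
theorem LConv.congr' {f f' : LaurentSeries ℂ} {F F' : ℍ → ℂ} (h : LConv f F) (hf : f = f')
    (hF : ∀ τ, F τ = F' τ) : LConv f' F' := by
  obtain ⟨m, p, G, hG, rfl, hτ⟩ := h
  exact ⟨m, p, G, hG, hf.symm, fun τ => by rw [hτ, hF]⟩

/-- A power series converging to `F` on `ℍ` via `q = e^{2πiτ}` gives an `LConv`. -/
theorem lconv_of_hasSum (F : ℍ → ℂ) (p : PowerSeries ℂ)
    (h : ∀ τ : ℍ, HasSum
      (fun n : ℕ => PowerSeries.coeff n p * Function.Periodic.qParam 1 (τ : ℂ) ^ n) (F τ)) :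
    LConv (HahnSeries.ofPowerSeries ℤ ℂ p) F := by
  refine ⟨0, p, fun q => ∑' n : ℕ, PowerSeries.coeff n p * q ^ n, ?_, ?_, fun τ => ?_⟩
  · intro q hq
    by_cases hq0 : q = 0
    · subst hq0
      refine (summable_of_ne_finset_zero (s := {0}) ?_).hasSum
      intro n hn
      have hn0 : n ≠ 0 := by simpa using hn
      simp [hn0]
    · obtain ⟨τ, rfl⟩ := exists_qParam_eq hq hq0
      exact (h τ).summable.hasSum
  · have h2 : HahnSeries.single (0 : ℤ) (1 : ℂ) = 1 := rfl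
    simp [h2]
  · simpa using (h τ).tsum_eq

/-- The `q`-expansion of a cusp form of level `Γ₀(N)` converges to it. -/
theorem lconv_cuspForm (N : ℕ) [NeZero N] (f : CuspForm (CongruenceSubgroup.Gamma0 N) 2) :
    LConv (HahnSeries.ofPowerSeries ℤ ℂ (qExpansion 1 f)) f := by
  apply lconv_of_hasSum
  intro τ
  have hΓ := CongruenceSubgroup.one_mem_strictPeriods_Gamma0 N
  have : Fact (IsCusp OnePoint.infty
      (Subgroup.map (Matrix.SpecialLinearGroup.mapGL ℝ) (CongruenceSubgroup.Gamma0 N))) :=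
    ⟨Subgroup.isCusp_of_mem_strictPeriods one_pos hΓ⟩
  have := UpperHalfPlane.hasSum_qExpansion one_pos
    (SlashInvariantFormClass.periodic_comp_ofComplex f hΓ)
    (ModularFormClass.holo f) (ModularFormClass.bdd_at_infty f) τ
  simpa using this

/-- The `q`-expansion of a level one modular form converges to it. -/
theorem lconv_levelOne {k : ℤ} (f : ModularForm 𝒮ℒ k) :
    LConv (HahnSeries.ofPowerSeries ℤ ℂ (qExpansion 1 f)) f := by
  apply lconv_of_hasSum
  intro τ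
  have := UpperHalfPlane.hasSum_qExpansion one_pos
    (SlashInvariantFormClass.periodic_comp_ofComplex f one_mem_strictPeriods_SL)
    (ModularFormClass.holo f) (ModularFormClass.bdd_at_infty f) τ
  simpa using this

/-- The `q`-expansions of the normalised Eisenstein series have rational coefficients, hence are
fixed by coefficientwise ring endomorphisms of `ℂ`. -/
theorem coeffMap_E (σ : ℂ →+* ℂ) {k : ℕ} (hk : 3 ≤ k) (hk2 : Even k) :
    coeffMap σ (HahnSeries.ofPowerSeries ℤ ℂ (qExpansion 1 (E hk)))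
      = HahnSeries.ofPowerSeries ℤ ℂ (qExpansion 1 (E hk)) := by
  rw [Fermat.Agent.S24_Dict.coeffMap_ofPowerSeries]
  congr 1
  ext n
  rw [PowerSeries.coeff_map, E_qExpansion_coeff hk hk2]
  split_ifs
  · simp
  · simp [map_ratCast, map_ofNat σ 2]

theorem ofPowerSeries_E_ne_zero {k : ℕ} (hk : 3 ≤ k) (hk2 : Even k) :
    HahnSeries.ofPowerSeries ℤ ℂ (qExpansion 1 (E hk)) ≠ 0 := by
  intro h0
  have h1 : qExpansion 1 (E hk) = 0 :=
    HahnSeries.ofPowerSeries_injective (Γ := ℤ) (by rw [h0, map_zero])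
  have h2 := E_qExpansion_coeff_zero hk hk2
  rw [h1] at h2
  simp at h2

/-- The series identity attached to `Ψ₁(u)·P₁(j) = P(j)`:
`û·Ê₄·Ê₆·P₁(ĵ)·1728 = (Ê₄³ - Ê₆²)·P(ĵ)` in `ℂ((q))`. -/
theorem series_identity (N : ℕ) [NeZero N] (u : CuspForm (CongruenceSubgroup.Gamma0 N) 2)
    (P₁ P : MvPolynomial ℕ ℂ)
    (h : ∀ τ : ℍ, psi1 u τ * MvPolynomial.eval (fun d => jS d τ) P₁
      = MvPolynomial.eval (fun d => jS d τ) P) :
    HahnSeries.ofPowerSeries ℤ ℂ (qExpansion 1 u)
        * HahnSeries.ofPowerSeries ℤ ℂ (qExpansion 1 E₄)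
        * HahnSeries.ofPowerSeries ℤ ℂ (qExpansion 1 E₆)
        * MvPolynomial.aeval JdC P₁ * algebraMap ℂ (LaurentSeries ℂ) 1728
      = (HahnSeries.ofPowerSeries ℤ ℂ (qExpansion 1 E₄) ^ 3
          - HahnSeries.ofPowerSeries ℤ ℂ (qExpansion 1 E₆) ^ 2) * MvPolynomial.aeval JdC P := by
  have hu := lconv_cuspForm N u
  have h4 := lconv_levelOne E₄
  have h6 := lconv_levelOne E₆
  have hP1 := lconv_aeval P₁
  have hP := lconv_aeval P
  have hc := LConv.const 1728
  have hm := LConv.const (-1)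
  have L := ((((hu.mul h4).mul h6).mul hP1).mul hc).add
    (hm.mul ((((h4.mul h4).mul h4).add (hm.mul (h6.mul h6))).mul hP))
  have hz := L.eq_zero_iff.mpr (fun τ => by
    have hΔ := discriminant_ne_zero τ
    have hΔ' := ModularForm.discriminant_eq_E₄_cube_sub_E₆_sq τ
    have h1 := h τ
    rw [psi1_apply] at h1
    have h2 : u τ * E₄ τ * E₆ τ * MvPolynomial.eval (fun d => jS d τ) P₁
        = MvPolynomial.eval (fun d => jS d τ) P * ModularForm.discriminant τ := by
      rw [← h1]; field_simp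
    have h3 : E₄ τ ^ 3 - E₆ τ ^ 2 = 1728 * ModularForm.discriminant τ := by rw [hΔ']; ring
    show u τ * E₄ τ * E₆ τ * MvPolynomial.eval (fun d => jS d τ) P₁ * 1728
      + (-1) * ((E₄ τ * E₄ τ * E₄ τ + (-1) * (E₆ τ * E₆ τ))
        * MvPolynomial.eval (fun d => jS d τ) P) = 0
    linear_combination 1728 * h2 - MvPolynomial.eval (fun d => jS d τ) P * h3)
  have hneg : algebraMap ℂ (LaurentSeries ℂ) (-1) = -1 := by rw [map_neg, map_one]
  rw [hneg] at hz
  linear_combination hz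

/-- (A7) conjugate functions `f·E₄E₆/Δ`, `g·E₄E₆/Δ` have conjugate `q`-expansions. -/
theorem qCoeff_eq_of_isConj (N : ℕ) [NeZero N] (σ : ℂ ≃+* ℂ)
    (f g : CuspForm (CongruenceSubgroup.Gamma0 N) 2) (h : IsConj N σ (psi1 f) (psi1 g)) :
    ∀ n : ℕ, ModularFormClass.qCoeff g n = σ (ModularFormClass.qCoeff f n) := by
  obtain ⟨G₁, G, -, -, ⟨τ₀, hτ₀⟩, h1, h2⟩ := h
  have hf := series_identity N f G₁ G h1
  have hg := series_identity N g _ _ h2
  have hf' := congrArg (coeffMap (σ : ℂ →+* ℂ)) hf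
  have hc : coeffMap (σ : ℂ →+* ℂ) (algebraMap ℂ (LaurentSeries ℂ) 1728)
      = algebraMap ℂ (LaurentSeries ℂ) 1728 := by
    rw [algebraMap_laurentSeries_eq_single, coeffMap_single, map_ofNat (σ : ℂ →+* ℂ) 1728]
  have h4 := coeffMap_E (σ : ℂ →+* ℂ) (k := 4) (by norm_num) ⟨2, rfl⟩
  have h6 := coeffMap_E (σ : ℂ →+* ℂ) (k := 6) (by norm_num) ⟨3, rfl⟩
  have h4' := ofPowerSeries_E_ne_zero (k := 4) (by norm_num) ⟨2, rfl⟩
  have h6' := ofPowerSeries_E_ne_zero (k := 6) (by norm_num) ⟨3, rfl⟩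
  simp only [map_mul, map_sub, map_pow, Fermat.Agent.S23_RelConj.coeffMap_aeval_JdC, hc] at hf'
  rw [h4, h6] at hf'
  have hA : MvPolynomial.aeval JdC (MvPolynomial.map (σ : ℂ →+* ℂ) G₁) ≠ 0 := by
    intro h0
    rw [qExpansion_principle, Fermat.Agent.S23_RelConj.relation_conj_iff] at h0
    exact hτ₀ (h0 τ₀)
  have hc' : algebraMap ℂ (LaurentSeries ℂ) 1728 ≠ 0 := by
    rw [Ne, map_eq_zero_iff _ (algebraMap ℂ (LaurentSeries ℂ)).injective]
    norm_num
  have hne : HahnSeries.ofPowerSeries ℤ ℂ (qExpansion 1 E₄)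
      * HahnSeries.ofPowerSeries ℤ ℂ (qExpansion 1 E₆)
      * MvPolynomial.aeval JdC (MvPolynomial.map (σ : ℂ →+* ℂ) G₁)
      * algebraMap ℂ (LaurentSeries ℂ) 1728 ≠ 0 :=
    mul_ne_zero (mul_ne_zero (mul_ne_zero h4' h6') hA) hc'
  have hprod : (coeffMap (σ : ℂ →+* ℂ) (HahnSeries.ofPowerSeries ℤ ℂ (qExpansion 1 f))
      - HahnSeries.ofPowerSeries ℤ ℂ (qExpansion 1 g))
      * (HahnSeries.ofPowerSeries ℤ ℂ (qExpansion 1 E₄)
      * HahnSeries.ofPowerSeries ℤ ℂ (qExpansion 1 E₆)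
      * MvPolynomial.aeval JdC (MvPolynomial.map (σ : ℂ →+* ℂ) G₁)
      * algebraMap ℂ (LaurentSeries ℂ) 1728) = 0 := by
    linear_combination hf' - hg
  have heq := sub_eq_zero.mp ((mul_eq_zero.mp hprod).resolve_right hne)
  rw [Fermat.Agent.S24_Dict.coeffMap_ofPowerSeries] at heq
  have heq' := HahnSeries.ofPowerSeries_injective heq
  intro n
  have hn := congrArg (PowerSeries.coeff n) heq'
  rw [PowerSeries.coeff_map] at hn
  exact hn.symm

end Fermat.Agent.S23_QExp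

end
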