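import Fermat.Agent.S28_UnitQ
import Fermat.Agent.S23_Nice
import Fermat.Agent.S23_QExp

/-!
# S16_Wt (helper9): weak weight-`k` forms of level `M` and quotients by `Δ(dτ)^m`

Toolkit for the consumers of `S16_QPrin`:

* `IsWt M k F`: `F` is holomorphic on `ℍ`, transforms with weight `k` under `Γ₀(M)`, and every
  `SL₂(ℤ)`-translate `τ ↦ F(gτ)/(cτ+d)^k` is bounded at `i∞`;
* closure: `IsWt.const`, `.add`, `.neg`, `.sub`, `.smul`, `.mul`, `.pow`, `.mono`, `.comp_dmul`;
* sources: `isWt_of_modularForm`, `isWt_E4`, `isWt_E6`, `isWt_discriminant`;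
* sink: `IsWt.isNice_div_delta`, `IsWt.div_delta_smul`, `IsWt.tr_div_delta`: for `F` of weight
  `12 m` and `d ∣ M`, the function `F/Δ(d·)^m` is a `Γ₀(M)`-invariant nice function;
* expansions: `lconv_dmul`, `lconv_discriminant_dmul_inv`, `lconv_quot`, `lconv_modularForm`.
-/

set_option autoImplicit false

noncomputable section

namespace Fermat.Agent.S16_Wt

open Fermat.Agent.S24_Defs Fermat.Agent.S24_Embed Fermat.Agent.S24_QExp ModularCurve
  UpperHalfPlane Filter
open ModularForm EisensteinSeries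
open scoped MatrixGroups ModularForm Manifold Topology
open Fermat.Agent.S28_Unit
open Fermat.Agent.S24_Hermite (coe_smul_int det_eq_one denom_ne_zero_int)

/-- A weak weight-`k` form of level `M`. -/
structure IsWt (M k : ℕ) (F : ℍ → ℂ) : Prop where
  mdiff : MDiff F
  inv : ∀ γ : SL(2, ℤ), γ ∈ CongruenceSubgroup.Gamma0 M → ∀ τ : ℍ,
    F (γ • τ) = denom γ τ ^ k * F τ
  bdd : ∀ g : SL(2, ℤ), IsBoundedAtImInfty (fun τ : ℍ => F (g • τ) / denom g τ ^ k)

namespace IsWt

variable {M N k k' : ℕ} {F G : ℍ → ℂ}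

theorem const (M : ℕ) (c : ℂ) : IsWt M 0 (fun _ => c) :=
  ⟨mdifferentiable_const, fun γ _ τ => by simp, fun g => by
    simp only [pow_zero, div_one]
    exact Filter.const_boundedAtFilter _ c⟩

theorem add (hF : IsWt M k F) (hG : IsWt M k G) : IsWt M k (fun τ => F τ + G τ) := by
  refine ⟨hF.mdiff.add hG.mdiff, fun γ hγ τ => ?_, fun g => ?_⟩
  · rw [hF.inv γ hγ, hG.inv γ hγ]; ring
  · have e : (fun τ : ℍ => (F (g • τ) + G (g • τ)) / denom g τ ^ k)
        = (fun τ : ℍ => F (g • τ) / denom g τ ^ k) + fun τ : ℍ => G (g • τ) / denom g τ ^ k := by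
      funext τ
      simp only [Pi.add_apply]
      ring
    rw [e]
    exact (hF.bdd g).add (hG.bdd g)

theorem smul (c : ℂ) (hF : IsWt M k F) : IsWt M k (fun τ => c * F τ) := by
  refine ⟨mdifferentiable_const.mul hF.mdiff, fun γ hγ τ => ?_, fun g => ?_⟩
  · rw [hF.inv γ hγ]; ring
  · have e : (fun τ : ℍ => c * F (g • τ) / denom g τ ^ k)
        = (fun _ : ℍ => c) * fun τ : ℍ => F (g • τ) / denom g τ ^ k := by
      funext τ
      simp only [Pi.mul_apply]
      ring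
    rw [e]
    exact (Filter.const_boundedAtFilter _ c).mul (hF.bdd g)

theorem neg (hF : IsWt M k F) : IsWt M k (fun τ => -F τ) := by
  have h := hF.smul (-1)
  have e : (fun τ => -F τ) = fun τ => -1 * F τ := by funext τ; ring
  rw [e]; exact h

theorem sub (hF : IsWt M k F) (hG : IsWt M k G) : IsWt M k (fun τ => F τ - G τ) := by
  have h := hF.add hG.neg
  have e : (fun τ => F τ - G τ) = fun τ => F τ + -G τ := by funext τ; ring
  rw [e]; exact h

theorem mul (hF : IsWt M k F) (hG : IsWt M k' G) : IsWt M (k + k') (fun τ => F τ * G τ) := by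
  refine ⟨hF.mdiff.mul hG.mdiff, fun γ hγ τ => ?_, fun g => ?_⟩
  · rw [hF.inv γ hγ, hG.inv γ hγ]; ring
  · have e : (fun τ : ℍ => F (g • τ) * G (g • τ) / denom g τ ^ (k + k'))
        = (fun τ : ℍ => F (g • τ) / denom g τ ^ k) * fun τ : ℍ => G (g • τ) / denom g τ ^ k' := by
      funext τ
      simp only [Pi.mul_apply]
      ring
    rw [e]
    exact (hF.bdd g).mul (hG.bdd g)

theorem congr_weight (h : k = k') (hF : IsWt M k F) : IsWt M k' F := h ▸ hF

theorem pow (hF : IsWt M k F) (n : ℕ) : IsWt M (n * k) (fun τ => F τ ^ n) := by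
  induction n with
  | zero =>
    have h := const M 1
    have e : (fun τ => F τ ^ 0) = fun _ => (1 : ℂ) := by funext τ; simp
    rw [e, Nat.zero_mul]; exact h
  | succ n ih =>
    have h := ih.mul hF
    have e : (fun τ => F τ ^ (n + 1)) = fun τ => F τ ^ n * F τ := by funext τ; ring
    rw [e]
    exact h.congr_weight (by ring)

theorem mono (h : N ∣ M) (hF : IsWt N k F) : IsWt M k F := by
  refine ⟨hF.mdiff, fun γ hγ τ => hF.inv γ ?_ τ, hF.bdd⟩
  rw [CongruenceSubgroup.Gamma0_mem] at hγ ⊢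
  have h1 : (M : ℤ) ∣ γ 1 0 := (ZMod.intCast_zmod_eq_zero_iff_dvd _ _).mp hγ
  exact (ZMod.intCast_zmod_eq_zero_iff_dvd _ _).mpr (dvd_trans (by exact_mod_cast h) h1)

end IsWt

/-! ### Scaling the argument: `τ ↦ F(dτ)` -/

theorem mdiff_comp_dmul {F : ℍ → ℂ} (hF : MDiff F) {d : ℕ} (hd : d ≠ 0) :
    MDiff (fun τ : ℍ => F (dmul d τ)) := by
  rw [UpperHalfPlane.mdifferentiable_iff]
  have hmaps : Set.MapsTo (fun z : ℂ => (d : ℂ) * z) upperHalfPlaneSet upperHalfPlaneSet := by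
    intro z hz
    have hd' : (0 : ℝ) < d := by exact_mod_cast Nat.pos_of_ne_zero hd
    have : 0 < ((d : ℂ) * z).im := by
      simpa using mul_pos hd' hz
    exact this
  have h0 : DifferentiableOn ℂ (F ∘ ofComplex) upperHalfPlaneSet :=
    UpperHalfPlane.mdifferentiable_iff.mp hF
  have h1 : DifferentiableOn ℂ ((F ∘ ofComplex) ∘ fun z : ℂ => (d : ℂ) * z) upperHalfPlaneSet :=
    h0.comp (by fun_prop) hmaps
  refine h1.congr fun z hz => ?_
  have hz' : 0 < z.im := hz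
  have hdz : 0 < ((d : ℂ) * z).im := hmaps hz
  simp only [Function.comp_apply]
  congr 1
  apply UpperHalfPlane.ext
  rw [coe_dmul hd, ofComplex_apply_of_im_pos hz', ofComplex_apply_of_im_pos hdz]

/-- For `g ∈ Γ₀(dN)`: `d · gτ = g'(dτ)` with `g' ∈ Γ₀(N)` and the same automorphy factor. -/
theorem exists_dmul_smul {d N : ℕ} (hd : d ≠ 0) (g : SL(2, ℤ))
    (hg : g ∈ CongruenceSubgroup.Gamma0 (d * N)) :
    ∃ g' : SL(2, ℤ), g' ∈ CongruenceSubgroup.Gamma0 N ∧
      ∀ τ : ℍ, dmul d (g • τ) = g' • dmul d τ ∧ denom g' (dmul d τ) = denom g τ := by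
  have hC : ((d * N : ℕ) : ℤ) ∣ g 1 0 := by
    rw [CongruenceSubgroup.Gamma0_mem] at hg
    exact (ZMod.intCast_zmod_eq_zero_iff_dvd _ _).mp hg
  obtain ⟨c'', hc''⟩ := hC
  have hdet := det_eq_one g
  have hc' : g 1 0 = (d : ℤ) * ((N : ℤ) * c'') := by rw [hc'']; push_cast; ring
  let g' : SL(2, ℤ) := ⟨!![g 0 0, d * g 0 1; (N : ℤ) * c'', g 1 1], by
    rw [Matrix.det_fin_two_of]
    rw [hc'] at hdet
    linarith⟩
  have hg00 : g' 0 0 = g 0 0 := rfl
  have hg01 : g' 0 1 = d * g 0 1 := rfl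
  have hg10 : g' 1 0 = (N : ℤ) * c'' := rfl
  have hg11 : g' 1 1 = g 1 1 := rfl
  refine ⟨g', ?_, fun τ => ?_⟩
  · rw [CongruenceSubgroup.Gamma0_mem, hg10]
    simp
  · have hZ := denom_ne_zero_int g τ
    have hcC : (g 1 0 : ℂ) = d * ((N : ℂ) * c'') := by exact_mod_cast hc'
    have hZ' : (((N : ℤ) * c'' : ℤ) : ℂ) * (d * τ) + g 1 1 = g 1 0 * τ + g 1 1 := by
      rw [hcC]; push_cast; ring
    constructor
    · apply UpperHalfPlane.ext
      rw [coe_smul_int, coe_dmul hd, coe_smul_int, coe_dmul hd, hg00, hg01, hg10, hg11, hZ']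
      push_cast
      field_simp
    · rw [denom_int, denom_int, hg10, hg11, coe_dmul hd, hZ']

/-- `denom γ⁻¹ (γ z) = (denom γ z)⁻¹`. -/
theorem denom_inv_smul (γ : SL(2, ℤ)) (z : ℍ) :
    denom (γ⁻¹ : SL(2, ℤ)) ((γ • z : ℍ) : ℂ) = (denom γ z)⁻¹ := by
  have hZ := denom_ne_zero_int γ z
  have hdet := det_eq_one γ
  have h10 : (γ⁻¹ : SL(2, ℤ)) 1 0 = -γ 1 0 := by
    rw [Matrix.SpecialLinearGroup.coe_inv]
    simp [Matrix.adjugate_fin_two]
  have h11 : (γ⁻¹ : SL(2, ℤ)) 1 1 = γ 0 0 := by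
    rw [Matrix.SpecialLinearGroup.coe_inv]
    simp [Matrix.adjugate_fin_two]
  have hdetC : (γ 0 0 : ℂ) * γ 1 1 - γ 0 1 * γ 1 0 = 1 := by exact_mod_cast hdet
  rw [denom_int, denom_int, h10, h11, coe_smul_int]
  push_cast
  field_simp
  linear_combination hdetC

namespace IsWt

variable {M N k k' : ℕ} {F G : ℍ → ℂ}

/-- Scaling the argument raises the level. -/
theorem comp_dmul (hF : IsWt N k F) {d : ℕ} (hd : d ≠ 0) :
    IsWt (d * N) k (fun τ => F (dmul d τ)) := by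
  refine ⟨mdiff_comp_dmul hF.mdiff hd, fun γ hγ τ => ?_, fun g => ?_⟩
  · obtain ⟨g', hg', h⟩ := exists_dmul_smul hd γ hγ
    obtain ⟨h1, h2⟩ := h τ
    rw [h1, hF.inv g' hg', h2]
  · obtain ⟨a, δ, b, γ, haδ, ha, hδ, h⟩ := exists_upper_triangular_point d hd g
    have hb := (hF.bdd γ⁻¹).comp_tendsto (tendsto_affine ha hδ b)
    have hb2 := (Filter.const_boundedAtFilter atImInfty (((δ : ℂ) ^ k)⁻¹)).mul hb
    have hδ0 : (δ : ℂ) ≠ 0 := by exact_mod_cast hδ.ne'
    refine hb2.congr' (Filter.Eventually.of_forall fun τ => ?_) (Filter.EventuallyEq.refl _ _)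
    obtain ⟨h1, h2⟩ := h τ
    have hZ := denom_ne_zero_int g τ
    have e1 : dmul d (g • τ) = γ⁻¹ • ofComplex (((a : ℂ) * τ + b) / δ) := by
      rw [← h1, ← mul_smul, inv_mul_cancel, one_smul]
    have e2 : denom (γ⁻¹ : SL(2, ℤ)) (ofComplex (((a : ℂ) * τ + b) / δ) : ℍ) = denom g τ / δ := by
      rw [← h1, denom_inv_smul, denom_int, h2, denom_int]
      field_simp
    simp only [Pi.mul_apply, Function.const_apply, Function.comp_apply]
    rw [← e1, e2, div_pow]
    have hD : denom g τ ≠ 0 := by rw [denom_int]; exact hZ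
    field_simp

end IsWt

/-! ### Sources -/

/-- A Mathlib modular form on `Γ₀(N)` is a weak form. -/
theorem isWt_of_modularForm {N : ℕ} [NeZero N] {k : ℕ}
    (f : ModularForm (CongruenceSubgroup.Gamma0 N) (k : ℤ)) : IsWt N k f := by
  refine ⟨ModularFormClass.holo f, fun γ hγ τ => ?_, fun g => ?_⟩
  · have h := SlashInvariantForm.slash_action_eqn_SL'' f hγ τ
    rw [h, zpow_natCast]
  · have h := ModularFormClass.bdd_at_infty_slash f g
    refine h.congr' (Filter.Eventually.of_forall fun τ => ?_) (Filter.EventuallyEq.refl _ _)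
    rw [SL_slash_apply, zpow_neg, zpow_natCast]
    exact (div_eq_mul_inv _ _).symm

theorem isWt_E4 : IsWt 1 4 E₄ := by
  refine ⟨ModularFormClass.holo E₄, fun γ _ τ => ?_, fun g => ?_⟩
  · rw [Fermat.Agent.S24_JBasic.E₄_smul]; norm_cast
  · have e : (fun τ : ℍ => E₄ (g • τ) / denom g τ ^ 4) = E₄ := by
      funext τ
      have hd : denom g τ ≠ 0 := denom_ne_zero g τ
      rw [Fermat.Agent.S24_JBasic.E₄_smul]
      norm_cast
      field_simp
    rw [e]
    exact ModularFormClass.bdd_at_infty E₄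

theorem isWt_E6 : IsWt 1 6 E₆ := by
  refine ⟨ModularFormClass.holo E₆, fun γ _ τ => ?_, fun g => ?_⟩
  · rw [Fermat.Agent.S24_JBasic.E₆_smul]; norm_cast
  · have e : (fun τ : ℍ => E₆ (g • τ) / denom g τ ^ 6) = E₆ := by
      funext τ
      have hd : denom g τ ≠ 0 := denom_ne_zero g τ
      rw [Fermat.Agent.S24_JBasic.E₆_smul]
      norm_cast
      field_simp
    rw [e]
    exact ModularFormClass.bdd_at_infty E₆

theorem isWt_discriminant : IsWt 1 12 ModularForm.discriminant := by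
  refine ⟨Fermat.Agent.S24_JFun.mdifferentiable_discriminant, fun γ _ τ => ?_, fun g => ?_⟩
  · rw [Fermat.Agent.S24_JBasic.discriminant_smul]; norm_cast
  · have e : (fun τ : ℍ => ModularForm.discriminant (g • τ) / denom g τ ^ 12)
        = ModularForm.discriminant := by
      funext τ
      have hd : denom g τ ≠ 0 := denom_ne_zero g τ
      rw [Fermat.Agent.S24_JBasic.discriminant_smul]
      norm_cast
      field_simp
    rw [e]
    exact isBoundedAtImInfty_discriminant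

/-- `τ ↦ Δ(dτ)` is a weak form of weight `12` of every level divisible by `d`. -/
theorem isWt_discriminant_dmul {d M : ℕ} (hd : d ≠ 0) (hdM : d ∣ M) :
    IsWt M 12 (fun τ => ModularForm.discriminant (dmul d τ)) :=
  (isWt_discriminant.comp_dmul hd).mono (by simpa using hdM)

/-! ### Sink: quotients by `Δ(dτ)^m` -/

/-- The quotient `F/Δ(d·)^m`. -/
def quot (F : ℍ → ℂ) (d m : ℕ) : ℍ → ℂ :=
  fun τ => F τ / ModularForm.discriminant (dmul d τ) ^ m

theorem quot_apply (F : ℍ → ℂ) (d m : ℕ) (τ : ℍ) :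
    quot F d m τ = F τ / ModularForm.discriminant (dmul d τ) ^ m := rfl

theorem bdd_pow {f : ℍ → ℂ} (h : IsBoundedAtImInfty f) (n : ℕ) :
    IsBoundedAtImInfty (fun τ => f τ ^ n) := by
  induction n with
  | zero =>
    simp only [pow_zero]
    exact Filter.const_boundedAtFilter _ 1
  | succ n ih =>
    have e : (fun τ => f τ ^ (n + 1)) = (fun τ => f τ ^ n) * f := by
      funext τ
      simp only [Pi.mul_apply]
      ring
    rw [e]
    exact ih.mul h

theorem quot_alg (X Z δ W Q : ℂ) (a m : ℕ) (hZ : Z ≠ 0) (hδ : δ ≠ 0) (hW : W ≠ 0) :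
    X / Z ^ (12 * m) * δ ^ (12 * m) * (Q ^ a / W) ^ m
      = X / ((Z / δ) ^ 12 * W) ^ m * Q ^ (a * m) := by
  have h1 : ((Z / δ) ^ 12 * W) ^ m = Z ^ (12 * m) / δ ^ (12 * m) * W ^ m := by
    rw [mul_pow, ← pow_mul, div_pow]
  have h2 : (Q ^ a / W) ^ m = Q ^ (a * m) / W ^ m := by rw [div_pow, ← pow_mul]
  rw [h1, h2]
  have hA := pow_ne_zero (12 * m) hZ
  have hB := pow_ne_zero (12 * m) hδ
  have hC := pow_ne_zero m hW
  generalize Z ^ (12 * m) = A at hA ⊢
  generalize δ ^ (12 * m) = B at hB ⊢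
  generalize W ^ m = C at hC ⊢
  generalize Q ^ (a * m) = E
  field_simp

namespace IsWt

variable {M k m d : ℕ} {F : ℍ → ℂ}

/-- `F/Δ(d·)^m` is `Γ₀(M)`-invariant. -/
theorem quot_smul (hF : IsWt M (12 * m) F) (hd : d ≠ 0) (hdM : d ∣ M) (γ : SL(2, ℤ))
    (hγ : γ ∈ CongruenceSubgroup.Gamma0 M) (τ : ℍ) : quot F d m (γ • τ) = quot F d m τ := by
  have hD : denom γ τ ≠ 0 := denom_ne_zero γ τ
  have hΔ := ModularForm.discriminant_ne_zero (dmul d τ)
  rw [quot_apply, quot_apply, hF.inv γ hγ, (isWt_discriminant_dmul hd hdM).inv γ hγ, mul_pow,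
    ← pow_mul]
  field_simp

/-- `F/Δ(d·)^m` is a nice function of level `M`. -/
theorem isNice_quot (hF : IsWt M (12 * m) F) (hd : d ≠ 0) (hdM : d ∣ M) :
    IsNice M (quot F d m) := by
  have hΔm := (isWt_discriminant_dmul hd hdM).pow m
  refine ⟨hF.mdiff.div hΔm.mdiff fun τ => pow_ne_zero m (ModularForm.discriminant_ne_zero _),
    fun g => ⟨fun τ => ?_, ?_⟩⟩
  · have h1 : g • ((M : ℝ) +ᵥ τ) = (g * ModularGroup.T ^ M * g⁻¹) • (g • τ) := by
      rw [← Fermat.Agent.S23_Nice.T_pow_smul, ← mul_smul, ← mul_smul]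
      congr 1
      group
    rw [h1]
    exact hF.quot_smul hd hdM _ (Fermat.Agent.S23_Nice.conj_T_pow_mem g) _
  · obtain ⟨a, δ, b, haδ, ha, hδ, h⟩ := exists_discriminant_dmul_smul d hd g
    refine ⟨a * m, ?_⟩
    have hb := ((hF.bdd g).mul (Filter.const_boundedAtFilter atImInfty ((δ : ℂ) ^ (12 * m)))).mul
      (bdd_pow (isBoundedAtImInfty_q_pow_div_discriminant_affine ha hδ b) m)
    refine hb.congr' (Filter.Eventually.of_forall fun τ => ?_) (Filter.EventuallyEq.refl _ _)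
    simp only [Pi.mul_apply, Function.const_apply]
    rw [quot_apply, h τ, denom_int]
    have hδ0 : (δ : ℂ) ≠ 0 := by exact_mod_cast hδ.ne'
    have hZ := denom_ne_zero_int g τ
    have hW := ModularForm.discriminant_ne_zero (ofComplex (((a : ℂ) * τ + b) / δ))
    exact quot_alg _ _ _ _ _ a m hZ hδ0 hW

/-- `F/Δ(d·)^m` as an element of `AN M`. -/
def quotAN (hF : IsWt M (12 * m) F) (hd : d ≠ 0) (hdM : d ∣ M) : AN M :=
  ⟨quot F d m, hF.isNice_quot hd hdM⟩

theorem quotAN_apply (hF : IsWt M (12 * m) F) (hd : d ≠ 0) (hdM : d ∣ M) (τ : ℍ) :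
    (hF.quotAN hd hdM : ℍ → ℂ) τ = F τ / ModularForm.discriminant (dmul d τ) ^ m := rfl

/-- Invariance, in the `tr` form used by `S16_QPrin`. -/
theorem tr_quotAN (hF : IsWt M (12 * m) F) (hd : d ≠ 0) (hdM : d ∣ M) (g : SL(2, ℤ))
    (hg : g ∈ CongruenceSubgroup.Gamma0 M) : tr M g (hF.quotAN hd hdM) = hF.quotAN hd hdM := by
  refine Subtype.ext (funext fun τ => ?_)
  rw [tr_apply]
  exact hF.quot_smul hd hdM g⁻¹ (inv_mem hg) τ

end IsWt

/-! ### Expansions -/

/-- If `f` converges to `F`, then `f(q^d)` converges to `τ ↦ F(dτ)`. -/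
theorem lconv_dmul {f : LaurentSeries ℂ} {F : ℍ → ℂ} (h : LConv f F) (d : ℕ) [NeZero d] :
    LConv (qExpand ℂ d f) (fun τ => F (dmul d τ)) := by
  have hd : d ≠ 0 := NeZero.ne d
  obtain ⟨m, p, G, hG, rfl, hτ⟩ := h
  refine ⟨d * m, expandPS d p, fun q => G (q ^ d), hG.expand hd, ?_, fun τ => ?_⟩
  · have hidx : (d : ℤ) * -(m : ℤ) = -((d * m : ℕ) : ℤ) := by push_cast; ring
    rw [map_mul, qExpand_single, qExpand_ofPowerSeries, hidx]
  · show G (_ ^ d) = _
    rw [← qParam_dmul hd, hτ, qParam_dmul hd, ← pow_mul]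

/-- The `q`-expansion of `1/Δ(dτ)` is the inverse of the formal series `Δ(q^d)`. -/
theorem lconv_discriminant_dmul_inv (d : ℕ) [NeZero d] :
    LConv ((coeffEmb ℂ (deltaSeriesN d))⁻¹)
      (fun τ => (ModularForm.discriminant (dmul d τ))⁻¹) := by
  have hd : d ≠ 0 := NeZero.ne d
  refine ⟨d, expandPS d etaV, fun q => (eulerFun (q ^ d) ^ 24)⁻¹, hasDiscExp_etaV.expand hd, ?_,
    fun τ => ?_⟩
  · rw [coeffEmb_deltaSeriesN]
    apply inv_eq_of_mul_eq_one_right
    have h1 : HahnSeries.single (d : ℤ) (1 : ℂ) * HahnSeries.single (-(d : ℤ)) (1 : ℂ) = 1 := by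
      rw [single_neg_mul_single, add_neg_cancel]
      rfl
    calc HahnSeries.single (d : ℤ) (1 : ℂ) * HahnSeries.ofPowerSeries ℤ ℂ (expandPS d etaU)
          * (HahnSeries.single (-(d : ℤ)) (1 : ℂ) * HahnSeries.ofPowerSeries ℤ ℂ (expandPS d etaV))
        = (HahnSeries.single (d : ℤ) (1 : ℂ) * HahnSeries.single (-(d : ℤ)) (1 : ℂ))
          * (HahnSeries.ofPowerSeries ℤ ℂ (expandPS d etaU)
            * HahnSeries.ofPowerSeries ℤ ℂ (expandPS d etaV)) := by ring
      _ = 1 := by rw [h1, ofPowerSeries_expand_etaU_mul_etaV hd, one_mul]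
  · have hq1 : ‖Function.Periodic.qParam 1 (τ : ℂ)‖ < 1 :=
      Function.Periodic.norm_qParam_lt_one one_pos τ.im_pos
    have hq0 : Function.Periodic.qParam 1 (τ : ℂ) ≠ 0 := Function.Periodic.qParam_ne_zero _
    have hqd : ‖Function.Periodic.qParam 1 (τ : ℂ) ^ d‖ < 1 := by
      rw [norm_pow]; exact pow_lt_one₀ (norm_nonneg _) hq1 hd
    have hE := eulerFun_ne_zero hqd
    have hqd0 := pow_ne_zero d hq0
    show (eulerFun (_ ^ d) ^ 24)⁻¹ = _ ^ d * (ModularForm.discriminant (dmul d τ))⁻¹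
    rw [discriminant_eq_q_mul_eulerFun (dmul d τ), qParam_dmul hd]
    field_simp

/-- The expansion of the quotient `F/Δ(d·)^m`. -/
theorem lconv_quot {f : LaurentSeries ℂ} {F : ℍ → ℂ} (h : LConv f F) (d m : ℕ) [NeZero d] :
    LConv (f * ((coeffEmb ℂ (deltaSeriesN d))⁻¹) ^ m) (quot F d m) := by
  have h1 := h.mul (Fermat.Agent.S28_Mod0.lconv_pow (lconv_discriminant_dmul_inv d) m)
  refine Fermat.Agent.S28_Mod0.lconv_congr h1 rfl (fun τ => ?_)
  rw [quot_apply, div_eq_mul_inv, inv_pow]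

/-- The `q`-expansion of a modular form of level `Γ₀(N)` converges to it. -/
theorem lconv_modularForm {N : ℕ} [NeZero N] {k : ℤ}
    (f : ModularForm (CongruenceSubgroup.Gamma0 N) k) :
    LConv (HahnSeries.ofPowerSeries ℤ ℂ (qExpansion 1 f)) f := by
  apply Fermat.Agent.S23_QExp.lconv_of_hasSum
  intro τ
  have hΓ := CongruenceSubgroup.one_mem_strictPeriods_Gamma0 N
  have : Fact (IsCusp OnePoint.infty
      (Subgroup.map (Matrix.SpecialLinearGroup.mapGL ℝ) (CongruenceSubgroup.Gamma0 N))) :=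
    ⟨Subgroup.isCusp_of_mem_strictPeriods one_pos hΓ⟩
  have := UpperHalfPlane.hasSum_qExpansion one_pos
    (SlashInvariantFormClass.periodic_comp_ofComplex f hΓ)
    (ModularFormClass.holo f) (ModularFormClass.bdd_at_infty f) τ
  simpa using this

end Fermat.Agent.S16_Wt

end
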