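import Fermat.Agent.S16_QPrin
import Fermat.Agent.S16_Wt
import Fermat.Agent.S16_E2N

/-!
# S16, block M8 (helper5): no weight-2 form of level `Γ₀(p)` is `≡ 1 mod 8`

Let `p ≥ 5` be prime.  There is no `h ∈ M₂(Γ₀(p))` whose `q`-expansion is `1 + 8·(2-integral)`.

Proof.  With the level-3 forms `B₂ = (3E₂(3τ) − E₂(τ))/2 = 1 + 12Y`, `C₄ = (B₂² − E₄(3τ))/24`,
`D₆ = (E₆(3τ) − B₂³ + 36B₂C₄)/216` one has `C₄ ≡ Y`, `D₆ ≡ Y² mod 2`, hence
`F₆ = h(15C₄ − B₂²) + B₂³ − 27B₂C₄ − 108D₆ ≡ 0 mod 8`, so `Ψ = F₆D₆/(8Δ(3τ))` is a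
`Γ₀(3p)`-invariant nice function with `2`-integral `q`-expansion.  At the elliptic point
`τ₀ = (−3+√−3)/6` of `Γ₀(3)` (where `j(τ₀) = 0`) the forms `B₂`, `C₄` vanish and `Ψ(τ₀) = 1/2`,
contradicting the `q`-expansion principle `S16_QPrin.rat_value_mem`.
-/

set_option autoImplicit false

noncomputable section

namespace Fermat.Agent.S16_M8

open Fermat.Agent.S24_Defs Fermat.Agent.S24_Embed Fermat.Agent.S24_QExp UpperHalfPlane
  ModularCurve ModularForm EisensteinSeries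
open Fermat.Agent.S28_Unit Fermat.Agent.S28_QExp Fermat.Agent.S23_QExp
open scoped MatrixGroups ArithmeticFunction.sigma


/-- The algebraic core of the congruence `F₆ ≡ 0 mod 8`. -/
theorem alg_core {A : Type*} [CommRing A] (O : Subring A) (c2 c24 c216 c8 : A)
    (h2 : c2 * 2 = 1) (h24 : c24 * 24 = 1) (h216 : c216 * 216 = 1) (h8 : c8 * 8 = 1)
    (hh e e4 e6 dinv Y S3 S5 T a : A)
    (hY : Y ∈ O) (hS3 : S3 ∈ O) (hT : T ∈ O) (ha : a ∈ O) (hd : dinv ∈ O)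
    (he : e = 2 + 24 * Y) (he4 : e4 = 1 + 240 * S3) (he6 : e6 = 1 - 504 * S5)
    (hT' : 7 * S5 + 5 * S3 = 6 * T) (hh' : hh = 1 + 8 * a) :
    c8 * ((hh * (15 * (c24 * ((c2 * e) ^ 2 - e4)) - (c2 * e) ^ 2) + (c2 * e) ^ 3
        - 27 * (c2 * e) * (c24 * ((c2 * e) ^ 2 - e4))
        - 108 * (c216 * (e6 - (c2 * e) ^ 3 + 36 * (c2 * e) * (c24 * ((c2 * e) ^ 2 - e4)))))
      * (c216 * (e6 - (c2 * e) ^ 3 + 36 * (c2 * e) * (c24 * ((c2 * e) ^ 2 - e4)))))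
      * dinv ∈ O := by
  have hB : c2 * e = 1 + 12 * Y := by
    rw [he]; linear_combination (1 + 12 * Y) * h2
  have hC : c24 * ((c2 * e) ^ 2 - e4) = Y + 6 * Y ^ 2 - 10 * S3 := by
    rw [hB, he4]; linear_combination (Y + 6 * Y ^ 2 - 10 * S3) * h24
  have hD : c216 * (e6 - (c2 * e) ^ 3 + 36 * (c2 * e) * (c24 * ((c2 * e) ^ 2 - e4)))
      = Y ^ 2 + 4 * Y ^ 3 - 20 * Y * S3 - 2 * T := by
    rw [hC, hB, he6]
    linear_combination (Y ^ 2 + 4 * Y ^ 3 - 20 * Y * S3 - 2 * T) * h216 + (-72 * c216) * hT'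
  rw [hD, hC, hB, hh']
  have hc : 3 * Y ^ 2 - 5 * S3 ∈ O := by aesop
  have hdd : 2 * Y ^ 3 - 10 * Y * S3 - T ∈ O := by aesop
  have hD6 : Y ^ 2 + 4 * Y ^ 3 - 20 * Y * S3 - 2 * T ∈ O := by aesop
  have hG : a * (15 * (Y + 6 * Y ^ 2 - 10 * S3) - (1 + 12 * Y) ^ 2)
      - 3 * (3 * Y ^ 2 - 5 * S3) - 18 * Y ^ 2 + 216 * Y ^ 3 - 81 * Y * (3 * Y ^ 2 - 5 * S3)
      - 27 * (2 * Y ^ 3 - 10 * Y * S3 - T) ∈ O := by aesop
  have key : c8 * (((1 + 8 * a) * (15 * (Y + 6 * Y ^ 2 - 10 * S3) - (1 + 12 * Y) ^ 2)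
        + (1 + 12 * Y) ^ 3 - 27 * (1 + 12 * Y) * (Y + 6 * Y ^ 2 - 10 * S3)
        - 108 * (Y ^ 2 + 4 * Y ^ 3 - 20 * Y * S3 - 2 * T))
      * (Y ^ 2 + 4 * Y ^ 3 - 20 * Y * S3 - 2 * T)) * dinv
      = (a * (15 * (Y + 6 * Y ^ 2 - 10 * S3) - (1 + 12 * Y) ^ 2)
      - 3 * (3 * Y ^ 2 - 5 * S3) - 18 * Y ^ 2 + 216 * Y ^ 3 - 81 * Y * (3 * Y ^ 2 - 5 * S3)
      - 27 * (2 * Y ^ 3 - 10 * Y * S3 - T)) * (Y ^ 2 + 4 * Y ^ 3 - 20 * Y * S3 - 2 * T) * dinv := by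
    linear_combination ((a * (15 * (Y + 6 * Y ^ 2 - 10 * S3) - (1 + 12 * Y) ^ 2)
      - 3 * (3 * Y ^ 2 - 5 * S3) - 18 * Y ^ 2 + 216 * Y ^ 3 - 81 * Y * (3 * Y ^ 2 - 5 * S3)
      - 27 * (2 * Y ^ 3 - 10 * Y * S3 - T)) * (Y ^ 2 + 4 * Y ^ 3 - 20 * Y * S3 - 2 * T) * dinv) * h8
  rw [key]
  exact O.mul_mem (O.mul_mem hG hD6) hd




/-! ### The elliptic point of order three of `Γ₀(3)` -/

/-- `τ₀ = (-3 + √-3)/6`. -/
def tau0 : ℍ := ⟨⟨-1 / 2, Real.sqrt 3 / 6⟩, by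
  show 0 < Real.sqrt 3 / 6
  positivity⟩

/-- The elliptic element `[[-1,-1],[3,2]]` of `Γ₀(3)` fixing `τ₀`. -/
def gam0 : SL(2, ℤ) := ⟨!![-1, -1; 3, 2], by norm_num [Matrix.det_fin_two_of]⟩

/-- `ζ₆ = (1 + √-3)/2`. -/
def zeta6 : ℂ := ⟨1 / 2, Real.sqrt 3 / 2⟩

theorem gam0_mem : gam0 ∈ CongruenceSubgroup.Gamma0 3 := by
  rw [CongruenceSubgroup.Gamma0_mem]
  show ((3 : ℤ) : ZMod 3) = 0
  decide

theorem coe_tau0 : (tau0 : ℂ) = ⟨-1 / 2, Real.sqrt 3 / 6⟩ := rfl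

theorem sqrt3_sq : Real.sqrt 3 * Real.sqrt 3 = 3 := Real.mul_self_sqrt (by norm_num)

theorem denom_gam0 : denom gam0 tau0 = zeta6 := by
  rw [Fermat.Agent.S28_Unit.denom_int]
  have h10 : gam0 1 0 = 3 := rfl
  have h11 : gam0 1 1 = 2 := rfl
  rw [h10, h11, coe_tau0]
  apply Complex.ext <;> simp [zeta6] <;> ring

theorem gam0_smul : gam0 • tau0 = tau0 := by
  apply UpperHalfPlane.ext
  rw [Fermat.Agent.S24_Hermite.coe_smul_int]
  have h00 : gam0 0 0 = -1 := rfl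
  have h01 : gam0 0 1 = -1 := rfl
  have h10 : gam0 1 0 = 3 := rfl
  have h11 : gam0 1 1 = 2 := rfl
  have hd := Fermat.Agent.S24_Hermite.denom_ne_zero_int gam0 tau0
  rw [h10, h11] at hd
  rw [h00, h01, h10, h11, div_eq_iff hd, coe_tau0]
  have := sqrt3_sq
  apply Complex.ext <;> simp <;> nlinarith

theorem zeta6_sq : zeta6 ^ 2 = ⟨-1 / 2, Real.sqrt 3 / 2⟩ := by
  have := sqrt3_sq
  rw [pow_two]
  apply Complex.ext <;> simp [zeta6] <;> nlinarith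

theorem zeta6_sq_ne_one : zeta6 ^ 2 ≠ 1 := by
  rw [zeta6_sq]
  intro h
  have := congrArg Complex.re h
  norm_num at this

theorem zeta6_pow_four_ne_one : zeta6 ^ 4 ≠ 1 := by
  have h4 : zeta6 ^ 4 = (zeta6 ^ 2) ^ 2 := by ring
  rw [h4, zeta6_sq, pow_two]
  intro h
  have h1 := congrArg Complex.re h
  have := sqrt3_sq
  simp at h1
  nlinarith

/-- A function of weight `2` for `gam0` vanishes at `τ₀`. -/
theorem eq_zero_of_wt_two {F : ℍ → ℂ} (hF : F (gam0 • tau0) = denom gam0 tau0 ^ 2 * F tau0) :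
    F tau0 = 0 := by
  rw [gam0_smul, denom_gam0] at hF
  have h : (zeta6 ^ 2 - 1) * F tau0 = 0 := by linear_combination -hF
  exact (mul_eq_zero.mp h).resolve_left (sub_ne_zero.mpr zeta6_sq_ne_one)

/-- A function of weight `4` for `gam0` vanishes at `τ₀`. -/
theorem eq_zero_of_wt_four {F : ℍ → ℂ} (hF : F (gam0 • tau0) = denom gam0 tau0 ^ 4 * F tau0) :
    F tau0 = 0 := by
  rw [gam0_smul, denom_gam0] at hF
  have h : (zeta6 ^ 4 - 1) * F tau0 = 0 := by linear_combination -hF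
  exact (mul_eq_zero.mp h).resolve_left (sub_ne_zero.mpr zeta6_pow_four_ne_one)

theorem E4_tau0 : ModularForm.E₄ tau0 = 0 := by
  apply eq_zero_of_wt_four
  have := Fermat.Agent.S24_JBasic.E₄_smul gam0 tau0
  exact_mod_cast this

theorem jFun_tau0 : jFun tau0 = 0 := by
  unfold jFun
  rw [E4_tau0]
  simp




/-! ### `2`-integral Laurent series inside `ℂ((q))` -/

/-- The embedding `ℤ_(2)((q)) → ℂ((q))`. -/
def emb2 : LaurentSeries (GaloisRep.ratLocalizedAt 2) →+* LaurentSeries ℂ :=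
  (coeffEmb ℂ).comp (emb 2)

/-- The subring of `2`-integral Laurent series. -/
def O2 : Subring (LaurentSeries ℂ) := emb2.range

theorem ofPowerSeries_mem_O2 (P : PowerSeries ℂ)
    (hP : ∀ n, ∃ r : GaloisRep.ratLocalizedAt 2, PowerSeries.coeff n P = ((r : ℚ) : ℂ)) :
    HahnSeries.ofPowerSeries ℤ ℂ P ∈ O2 := by
  choose r hr using hP
  refine ⟨HahnSeries.ofPowerSeries ℤ _ (PowerSeries.mk r), ?_⟩
  show coeffEmb ℂ (emb 2 (HahnSeries.ofPowerSeries ℤ _ (PowerSeries.mk r))) = _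
  unfold coeffEmb emb
  rw [Fermat.Agent.S24_Dict.coeffMap_ofPowerSeries,
    Fermat.Agent.S24_Dict.coeffMap_ofPowerSeries]
  congr 1
  ext n
  rw [PowerSeries.coeff_map, PowerSeries.coeff_map, PowerSeries.coeff_mk, hr n]
  rfl

theorem single_mem_O2 (k : ℤ) : HahnSeries.single k (1 : ℂ) ∈ O2 := by
  refine ⟨HahnSeries.single k 1, ?_⟩
  show coeffEmb ℂ (emb 2 (HahnSeries.single k 1)) = _
  unfold coeffEmb emb
  rw [coeffMap_single, coeffMap_single]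
  simp

/-- Power series with integer coefficients are `2`-integral. -/
theorem ofPowerSeries_mem_O2_of_int (P : PowerSeries ℂ)
    (hP : ∀ n, ∃ z : ℤ, PowerSeries.coeff n P = (z : ℂ)) :
    HahnSeries.ofPowerSeries ℤ ℂ P ∈ O2 := by
  refine ofPowerSeries_mem_O2 P fun n => ?_
  obtain ⟨z, hz⟩ := hP n
  exact ⟨⟨(z : ℚ), intCast_mem _ z⟩, by rw [hz]; simp⟩

/-! ### Constants -/

/-- Constant Laurent series. -/
abbrev cst (c : ℂ) : LaurentSeries ℂ := algebraMap ℂ (LaurentSeries ℂ) c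

theorem cst_inv_mul {c : ℂ} (hc : c ≠ 0) : cst (1 / c) * cst c = 1 := by
  rw [cst, cst, ← map_mul, one_div, inv_mul_cancel₀ hc, map_one]

theorem cst_ofNat (n : ℕ) [n.AtLeastTwo] : cst (OfNat.ofNat n) = OfNat.ofNat n :=
  map_ofNat _ n

theorem LConv.cmul {f : LaurentSeries ℂ} {F : ℍ → ℂ} (c : ℂ) (h : LConv f F) :
    LConv (cst c * f) (fun τ => c * F τ) :=
  (LConv.const c).mul h

theorem LConv.sub' {f f' : LaurentSeries ℂ} {F F' : ℍ → ℂ} (h : LConv f F) (h' : LConv f' F') :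
    LConv (f - f') (fun τ => F τ - F' τ) := by
  have h1 := h.add (LConv.cmul (-1) h')
  refine LConv.congr' h1 ?_ (fun τ => by ring)
  rw [cst, map_neg, map_one]
  ring

/-- A power series `c + k · Q` in terms of its coefficients. -/
theorem ofPowerSeries_eq_of_coeff (P Q : PowerSeries ℂ) (c k : ℂ)
    (h0 : PowerSeries.coeff 0 P = c) (hQ0 : PowerSeries.coeff 0 Q = 0)
    (hn : ∀ n, n ≠ 0 → PowerSeries.coeff n P = k * PowerSeries.coeff n Q) :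
    HahnSeries.ofPowerSeries ℤ ℂ P = cst c + cst k * HahnSeries.ofPowerSeries ℤ ℂ Q := by
  have hP : P = PowerSeries.C c + PowerSeries.C k * Q := by
    ext n
    rw [map_add, PowerSeries.coeff_C, PowerSeries.coeff_C_mul]
    by_cases hn0 : n = 0
    · subst hn0
      rw [h0, hQ0]
      simp
    · rw [hn n hn0, if_neg hn0, zero_add]
  rw [hP, map_add, map_mul, HahnSeries.ofPowerSeries_C, HahnSeries.ofPowerSeries_C]
  show _ = algebraMap ℂ (LaurentSeries ℂ) c + algebraMap ℂ (LaurentSeries ℂ) k * _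
  rw [algebraMap_laurentSeries_eq_single, algebraMap_laurentSeries_eq_single]
  rfl

theorem ofPowerSeries_C_mul (c : ℂ) (P : PowerSeries ℂ) :
    HahnSeries.ofPowerSeries ℤ ℂ (PowerSeries.C c * P)
      = cst c * HahnSeries.ofPowerSeries ℤ ℂ P := by
  rw [map_mul, HahnSeries.ofPowerSeries_C]
  show _ = algebraMap ℂ (LaurentSeries ℂ) c * _
  rw [algebraMap_laurentSeries_eq_single]
  rfl

/-! ### The level-3 forms and their `q`-expansions -/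

/-- `B₂ = (3E₂(3τ) − E₂(τ))/2`, the Eisenstein series of weight `2` and level `3`. -/
def B2 (τ : ℍ) : ℂ := (1 / 2) * Fermat.Agent.S16_E2N.eN 3 τ

/-- `E₄(3τ)`. -/
def E43 (τ : ℍ) : ℂ := E₄ (dmul 3 τ)

/-- `E₆(3τ)`. -/
def E63 (τ : ℍ) : ℂ := E₆ (dmul 3 τ)

/-- `C₄ = (B₂² − E₄(3τ))/24`. -/
def C4 (τ : ℍ) : ℂ := (1 / 24) * (B2 τ ^ 2 - E43 τ)

/-- `D₆ = (E₆(3τ) − B₂³ + 36 B₂ C₄)/216`. -/
def D6 (τ : ℍ) : ℂ := (1 / 216) * (E63 τ - B2 τ ^ 3 + 36 * B2 τ * C4 τ)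

/-- `F₆ = h (15 C₄ − B₂²) + B₂³ − 27 B₂ C₄ − 108 D₆`. -/
def F6 (h : ℍ → ℂ) (τ : ℍ) : ℂ :=
  h τ * (15 * C4 τ - B2 τ ^ 2) + B2 τ ^ 3 - 27 * B2 τ * C4 τ - 108 * D6 τ

/-- The weight-12 numerator `F₆ D₆ / 8`. -/
def Num (h : ℍ → ℂ) (τ : ℍ) : ℂ := (1 / 8) * (F6 h τ * D6 τ)

/-- `Y = ∑ (∑_{d ∣ n, 3 ∤ d} d) qⁿ`. -/
def YP : PowerSeries ℂ := PowerSeries.mk fun n =>
  if n = 0 then 0 else ((σ 1 n : ℂ) - 3 * (if 3 ∣ n then (σ 1 (n / 3) : ℂ) else 0))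

/-- `S₃ = ∑ σ₃(n) q^{3n}`. -/
def S3P : PowerSeries ℂ := PowerSeries.mk fun n =>
  if 3 ∣ n ∧ n ≠ 0 then (σ 3 (n / 3) : ℂ) else 0

/-- `S₅ = ∑ σ₅(n) q^{3n}`. -/
def S5P : PowerSeries ℂ := PowerSeries.mk fun n =>
  if 3 ∣ n ∧ n ≠ 0 then (σ 5 (n / 3) : ℂ) else 0

/-- `T = ∑ ((7σ₅(n) + 5σ₃(n))/6) q^{3n}`. -/
def TP : PowerSeries ℂ := PowerSeries.mk fun n =>
  if 3 ∣ n ∧ n ≠ 0 then ((7 * σ 5 (n / 3) + 5 * σ 3 (n / 3) : ℕ) : ℂ) / 6 else 0

theorem E4_coeff (m : ℕ) :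
    (qExpansion 1 E₄).coeff m = if m = 0 then 1 else 240 * (σ 3 m : ℂ) := by
  rw [E_qExpansion_coeff _ ⟨2, rfl⟩, show bernoulli 4 = -1 / 30 by decide +kernel]
  split_ifs
  · rfl
  · norm_num

theorem E6_coeff (m : ℕ) :
    (qExpansion 1 E₆).coeff m = if m = 0 then 1 else -504 * (σ 5 m : ℂ) := by
  rw [E_qExpansion_coeff _ ⟨3, rfl⟩, show bernoulli 6 = 1 / 42 by decide +kernel]
  split_ifs
  · rfl
  · norm_num

/-- the series of `B₂·2 = eN 3` -/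
def eN3P : PowerSeries ℂ := PowerSeries.mk (Fermat.Agent.S16_E2N.eCoeff 3)

/-- the series of `E₄(3τ)` -/
def E43P : PowerSeries ℂ := PowerSeries.mk fun n =>
  if 3 ∣ n then (qExpansion 1 E₄).coeff (n / 3) else 0

/-- the series of `E₆(3τ)` -/
def E63P : PowerSeries ℂ := PowerSeries.mk fun n =>
  if 3 ∣ n then (qExpansion 1 E₆).coeff (n / 3) else 0

theorem lconv_eN3 : LConv (HahnSeries.ofPowerSeries ℤ ℂ eN3P) (Fermat.Agent.S16_E2N.eN 3) := by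
  apply lconv_of_hasSum
  intro τ
  simpa [eN3P] using Fermat.Agent.S16_E2N.hasSum_eN 3 τ

theorem lconv_E43 : LConv (HahnSeries.ofPowerSeries ℤ ℂ E43P) E43 := by
  apply lconv_of_hasSum
  intro τ
  have h1 := ModularForm.hasSum_qExpansion (f := E₄) one_pos one_mem_strictPeriods_SL (dmul 3 τ)
  rw [Fermat.Agent.S16_E2N.qParam_dmul (by norm_num)] at h1
  have h2 := Fermat.Agent.S16_E2N.hasSum_dilate (d := 3) (by norm_num) _ _ _ h1
  simpa [E43P, E43] using h2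

theorem lconv_E63 : LConv (HahnSeries.ofPowerSeries ℤ ℂ E63P) E63 := by
  apply lconv_of_hasSum
  intro τ
  have h1 := ModularForm.hasSum_qExpansion (f := E₆) one_pos one_mem_strictPeriods_SL (dmul 3 τ)
  rw [Fermat.Agent.S16_E2N.qParam_dmul (by norm_num)] at h1
  have h2 := Fermat.Agent.S16_E2N.hasSum_dilate (d := 3) (by norm_num) _ _ _ h1
  simpa [E63P, E63] using h2

theorem eN3_series :
    HahnSeries.ofPowerSeries ℤ ℂ eN3P = cst 2 + cst 24 * HahnSeries.ofPowerSeries ℤ ℂ YP := by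
  refine ofPowerSeries_eq_of_coeff _ _ _ _ ?_ ?_ ?_
  · simp [eN3P, Fermat.Agent.S16_E2N.eCoeff_zero]
    norm_num
  · simp [YP]
  · intro n hn
    simp only [eN3P, YP, PowerSeries.coeff_mk, if_neg hn]
    rw [Fermat.Agent.S16_E2N.eCoeff_of_pos 3 hn]
    norm_num

theorem E43_series :
    HahnSeries.ofPowerSeries ℤ ℂ E43P = cst 1 + cst 240 * HahnSeries.ofPowerSeries ℤ ℂ S3P := by
  refine ofPowerSeries_eq_of_coeff _ _ _ _ ?_ ?_ ?_
  · simp [E43P, E4_coeff]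
  · simp [S3P]
  · intro n hn
    simp only [E43P, S3P, PowerSeries.coeff_mk]
    by_cases h3 : 3 ∣ n
    · have hn3 : n / 3 ≠ 0 := by
        obtain ⟨m, rfl⟩ := h3
        omega
      rw [if_pos h3, if_pos ⟨h3, hn⟩, E4_coeff, if_neg hn3]
    · rw [if_neg h3, if_neg (fun h => h3 h.1), mul_zero]

theorem E63_series :
    HahnSeries.ofPowerSeries ℤ ℂ E63P = cst 1 + cst (-504) * HahnSeries.ofPowerSeries ℤ ℂ S5P := by
  refine ofPowerSeries_eq_of_coeff _ _ _ _ ?_ ?_ ?_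
  · simp [E63P, E6_coeff]
  · simp [S5P]
  · intro n hn
    simp only [E63P, S5P, PowerSeries.coeff_mk]
    by_cases h3 : 3 ∣ n
    · have hn3 : n / 3 ≠ 0 := by
        obtain ⟨m, rfl⟩ := h3
        omega
      rw [if_pos h3, if_pos ⟨h3, hn⟩, E6_coeff, if_neg hn3]
    · rw [if_neg h3, if_neg (fun h => h3 h.1), mul_zero]

theorem T_series :
    cst 7 * HahnSeries.ofPowerSeries ℤ ℂ S5P + cst 5 * HahnSeries.ofPowerSeries ℤ ℂ S3P
      = cst 6 * HahnSeries.ofPowerSeries ℤ ℂ TP := by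
  rw [← ofPowerSeries_C_mul, ← ofPowerSeries_C_mul, ← ofPowerSeries_C_mul, ← map_add]
  congr 1
  ext n
  simp only [map_add, PowerSeries.coeff_C_mul, S5P, S3P, TP, PowerSeries.coeff_mk]
  split_ifs
  · push_cast
    ring
  · ring

/-! ### Integrality of the auxiliary series -/

theorem YP_mem : HahnSeries.ofPowerSeries ℤ ℂ YP ∈ O2 := by
  refine ofPowerSeries_mem_O2_of_int _ fun n => ?_
  simp only [YP, PowerSeries.coeff_mk]
  by_cases hn : n = 0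
  · exact ⟨0, by simp [hn]⟩
  · by_cases h3 : 3 ∣ n
    · exact ⟨(σ 1 n : ℤ) - 3 * (σ 1 (n / 3) : ℤ), by simp [hn, h3]⟩
    · exact ⟨(σ 1 n : ℤ), by simp [hn, h3]⟩

theorem S3P_mem : HahnSeries.ofPowerSeries ℤ ℂ S3P ∈ O2 := by
  refine ofPowerSeries_mem_O2_of_int _ fun n => ?_
  simp only [S3P, PowerSeries.coeff_mk]
  by_cases h : 3 ∣ n ∧ n ≠ 0
  · exact ⟨(σ 3 (n / 3) : ℤ), by simp [h]⟩
  · exact ⟨0, by simp [h]⟩

theorem two_dvd_sigma_comb (m : ℕ) : 2 ∣ 7 * σ 5 m + 5 * σ 3 m := by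
  rw [ArithmeticFunction.sigma_apply, ArithmeticFunction.sigma_apply, Finset.mul_sum,
    Finset.mul_sum, ← Finset.sum_add_distrib]
  refine Finset.dvd_sum fun d _ => ?_
  rw [← even_iff_two_dvd]
  rcases Nat.even_or_odd d with hd | hd
  · exact Even.add (Even.mul_left (hd.pow_of_ne_zero (by norm_num)) _)
      (Even.mul_left (hd.pow_of_ne_zero (by norm_num)) _)
  · exact Odd.add_odd (Odd.mul (by decide) hd.pow) (Odd.mul (by decide) hd.pow)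

theorem third_mem : ((3 : ℚ))⁻¹ ∈ GaloisRep.ratLocalizedAt 2 := by
  show ((3 : ℚ))⁻¹.den.Coprime 2
  have h : ((3 : ℚ))⁻¹.den = 3 := by
    simp
  rw [h]
  decide

theorem TP_mem : HahnSeries.ofPowerSeries ℤ ℂ TP ∈ O2 := by
  refine ofPowerSeries_mem_O2 _ fun n => ?_
  simp only [TP, PowerSeries.coeff_mk]
  by_cases h : 3 ∣ n ∧ n ≠ 0
  · obtain ⟨t, ht⟩ := two_dvd_sigma_comb (n / 3)
    refine ⟨⟨(t : ℚ) * (3 : ℚ)⁻¹, Subring.mul_mem _ (_root_.natCast_mem _ t) third_mem⟩, ?_⟩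
    rw [if_pos h, ht]
    push_cast
    ring
  · exact ⟨0, by simp [h]⟩


/-! ### The inverse discriminant series -/

/-- The series of `1/Δ(3τ)`. -/
def dinvL : LaurentSeries ℂ := (coeffEmb ℂ (deltaSeriesN 3))⁻¹

theorem dinvL_eq : dinvL = HahnSeries.single (-(3 : ℤ)) (1 : ℂ)
    * HahnSeries.ofPowerSeries ℤ ℂ (expandPS 3 etaV) := by
  unfold dinvL
  rw [coeffEmb_deltaSeriesN]
  apply inv_eq_of_mul_eq_one_right
  have h1 : HahnSeries.single ((3 : ℕ) : ℤ) (1 : ℂ) * HahnSeries.single (-(3 : ℤ)) (1 : ℂ) = 1 := by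
    rw [single_neg_mul_single]
    norm_num
  calc HahnSeries.single ((3 : ℕ) : ℤ) (1 : ℂ) * HahnSeries.ofPowerSeries ℤ ℂ (expandPS 3 etaU)
        * (HahnSeries.single (-(3 : ℤ)) (1 : ℂ) * HahnSeries.ofPowerSeries ℤ ℂ (expandPS 3 etaV))
      = (HahnSeries.single ((3 : ℕ) : ℤ) (1 : ℂ) * HahnSeries.single (-(3 : ℤ)) (1 : ℂ))
        * (HahnSeries.ofPowerSeries ℤ ℂ (expandPS 3 etaU)
          * HahnSeries.ofPowerSeries ℤ ℂ (expandPS 3 etaV)) := by ring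
    _ = 1 := by rw [h1, ofPowerSeries_expand_etaU_mul_etaV (by norm_num), one_mul]

theorem dinvL_mem : dinvL ∈ O2 := by
  rw [dinvL_eq]
  refine O2.mul_mem (single_mem_O2 _) (ofPowerSeries_mem_O2_of_int _ fun n => ?_)
  have h : expandPS 3 etaV = (expandZ 3 dedekindEtaUnitInv).map (Int.castRingHom ℂ) := by
    rw [map_expandZ]
    rfl
  rw [h, PowerSeries.coeff_map]
  exact ⟨_, rfl⟩

/-! ### Weights -/

open Fermat.Agent.S16_Wt

theorem isWt_B2 : IsWt 3 2 B2 :=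
  (isWt_of_modularForm (k := 2) (Fermat.Agent.S16_E2N.eN 3)).smul (1 / 2)

theorem isWt_E43 : IsWt 3 4 E43 := isWt_E4.comp_dmul (d := 3) (by norm_num)

theorem isWt_E63 : IsWt 3 6 E63 := isWt_E6.comp_dmul (d := 3) (by norm_num)

theorem isWt_C4 : IsWt 3 4 C4 := ((isWt_B2.pow 2).sub isWt_E43).smul (1 / 24)

theorem isWt_D6 : IsWt 3 6 D6 :=
  (((isWt_E63.sub (isWt_B2.pow 3)).add ((isWt_B2.smul 36).mul isWt_C4))).smul (1 / 216)

theorem isWt_F6 {M : ℕ} (hM : 3 ∣ M) {h : ℍ → ℂ} (hh : IsWt M 2 h) : IsWt M 6 (F6 h) := by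
  have hB := isWt_B2.mono hM
  have hC := isWt_C4.mono hM
  have hD := isWt_D6.mono hM
  exact (((hh.mul ((hC.smul 15).sub (hB.pow 2))).add (hB.pow 3)).sub
    ((hB.smul 27).mul hC)).sub (hD.smul 108)

theorem isWt_Num {M : ℕ} (hM : 3 ∣ M) {h : ℍ → ℂ} (hh : IsWt M 2 h) :
    IsWt M (12 * 1) (Num h) :=
  ((isWt_F6 hM hh).mul (isWt_D6.mono hM)).smul (1 / 8)

/-! ### The `2`-integral expansion of `Ψ = F₆ D₆ / (8 Δ(3τ))` -/

theorem LConv.nmul {f : LaurentSeries ℂ} {F : ℍ → ℂ} (n : ℕ) [n.AtLeastTwo] (h : LConv f F) :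
    LConv (OfNat.ofNat n * f) (fun τ => OfNat.ofNat n * F τ) := by
  have h1 := (LConv.const (OfNat.ofNat n)).mul h
  rwa [map_ofNat] at h1

theorem cst_half_mul {n : ℕ} [n.AtLeastTwo] :
    cst (1 / (OfNat.ofNat n : ℂ)) * (OfNat.ofNat n : LaurentSeries ℂ) = 1 := by
  have h := cst_inv_mul (c := (OfNat.ofNat n : ℂ)) (OfNat.ofNat_ne_zero n)
  simp only [cst, map_ofNat] at h ⊢
  exact h

/-- The `q`-series of a form `≡ 1 mod 8`. -/
theorem exists_h_series {N : ℕ} [NeZero N] (h : ModularForm (CongruenceSubgroup.Gamma0 N) 2)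
    (h0 : ModularFormClass.qCoeff ⇑h 0 = 1)
    (hk : ∀ k, 0 < k → ∃ r ∈ GaloisRep.ratLocalizedAt 2,
      ModularFormClass.qCoeff ⇑h k = ((2 ^ 3 : ℕ) : ℂ) * ((r : ℚ) : ℂ)) :
    ∃ aL ∈ O2, HahnSeries.ofPowerSeries ℤ ℂ (qExpansion 1 h) = 1 + 8 * aL := by
  choose r hr hrk using hk
  set AP : PowerSeries ℂ := PowerSeries.mk fun n =>
    if hn : 0 < n then ((r n hn : ℚ) : ℂ) else 0 with hAP
  refine ⟨HahnSeries.ofPowerSeries ℤ ℂ AP, ofPowerSeries_mem_O2 _ fun n => ?_, ?_⟩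
  · by_cases hn : 0 < n
    · exact ⟨⟨r n hn, hr n hn⟩, by simp [hAP, hn]⟩
    · exact ⟨0, by simp [hAP, hn]⟩
  · have h1 := ofPowerSeries_eq_of_coeff (qExpansion 1 h) AP 1 8 h0 (by simp [hAP]) (fun n hn => by
      have hn' : 0 < n := Nat.pos_of_ne_zero hn
      have h2 : (PowerSeries.coeff n) (qExpansion 1 ⇑h) = _ := hrk n hn'
      simp only [hAP, PowerSeries.coeff_mk, dif_pos hn']
      rw [h2]
      norm_num)
    simp only [cst, map_ofNat, map_one] at h1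
    exact h1

/-- the Laurent series of `eN 3 = 2 B₂` -/
def eL : LaurentSeries ℂ := HahnSeries.ofPowerSeries ℤ ℂ eN3P
/-- the Laurent series of `E₄(3τ)` -/
def E43L : LaurentSeries ℂ := HahnSeries.ofPowerSeries ℤ ℂ E43P
/-- the Laurent series of `E₆(3τ)` -/
def E63L : LaurentSeries ℂ := HahnSeries.ofPowerSeries ℤ ℂ E63P
/-- the Laurent series `Y` -/
def YL : LaurentSeries ℂ := HahnSeries.ofPowerSeries ℤ ℂ YP
/-- the Laurent series `S₃` -/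
def S3L : LaurentSeries ℂ := HahnSeries.ofPowerSeries ℤ ℂ S3P
/-- the Laurent series `S₅` -/
def S5L : LaurentSeries ℂ := HahnSeries.ofPowerSeries ℤ ℂ S5P
/-- the Laurent series `T` -/
def TL : LaurentSeries ℂ := HahnSeries.ofPowerSeries ℤ ℂ TP

theorem eL_eq : eL = 2 + 24 * YL := by
  have h1 := eN3_series
  simp only [cst, map_ofNat] at h1
  exact h1

theorem E43L_eq : E43L = 1 + 240 * S3L := by
  have h1 := E43_series
  simp only [cst, map_ofNat, map_one] at h1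
  exact h1

theorem E63L_eq : E63L = 1 - 504 * S5L := by
  have h1 := E63_series
  simp only [cst, map_ofNat, map_one, map_neg] at h1
  unfold E63L S5L
  rw [h1]
  ring

theorem TL_rel : 7 * S5L + 5 * S3L = 6 * TL := by
  have h1 := T_series
  simp only [cst, map_ofNat] at h1
  exact h1

theorem exists_series {N : ℕ} [NeZero N] (h : ModularForm (CongruenceSubgroup.Gamma0 N) 2)
    (h0 : ModularFormClass.qCoeff ⇑h 0 = 1)
    (hk : ∀ k, 0 < k → ∃ r ∈ GaloisRep.ratLocalizedAt 2,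
      ModularFormClass.qCoeff ⇑h k = ((2 ^ 3 : ℕ) : ℂ) * ((r : ℚ) : ℂ)) :
    ∃ f : LaurentSeries (GaloisRep.ratLocalizedAt 2),
      LConv (coeffEmb ℂ (emb 2 f)) (quot (Num h) 3 1) := by
  obtain ⟨aL, haL, hh⟩ := exists_h_series h h0 hk
  have hmem := alg_core O2 (cst (1 / 2)) (cst (1 / 24)) (cst (1 / 216)) (cst (1 / 8))
    cst_half_mul cst_half_mul cst_half_mul cst_half_mul
    (HahnSeries.ofPowerSeries ℤ ℂ (qExpansion 1 h)) eL E43L E63L (dinvL ^ 1) YL S3L S5L TL aL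
    YP_mem S3P_mem TP_mem haL (by rw [pow_one]; exact dinvL_mem) eL_eq E43L_eq E63L_eq TL_rel hh
  obtain ⟨f, hf⟩ := hmem
  refine ⟨f, ?_⟩
  have lh : LConv (HahnSeries.ofPowerSeries ℤ ℂ (qExpansion 1 h)) h := lconv_modularForm h
  have lB : LConv (cst (1 / 2) * eL) B2 := LConv.cmul (1 / 2) lconv_eN3
  have lC : LConv (cst (1 / 24) * ((cst (1 / 2) * eL) ^ 2 - E43L)) C4 :=
    LConv.cmul (1 / 24) (LConv.sub' (Fermat.Agent.S28_Mod0.lconv_pow lB 2) lconv_E43)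
  have lD : LConv (cst (1 / 216) * (E63L - (cst (1 / 2) * eL) ^ 3
      + 36 * (cst (1 / 2) * eL) * (cst (1 / 24) * ((cst (1 / 2) * eL) ^ 2 - E43L)))) D6 :=
    LConv.cmul (1 / 216) ((LConv.sub' lconv_E63 (Fermat.Agent.S28_Mod0.lconv_pow lB 3)).add
      ((LConv.nmul 36 lB).mul lC))
  have lF := LConv.sub' (LConv.sub' ((lh.mul (LConv.sub' (LConv.nmul 15 lC)
    (Fermat.Agent.S28_Mod0.lconv_pow lB 2))).add
    (Fermat.Agent.S28_Mod0.lconv_pow lB 3)) ((LConv.nmul 27 lB).mul lC))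
      (LConv.nmul 108 lD)
  have lN : LConv _ (Num h) := LConv.cmul (1 / 8) (lF.mul lD)
  have lQ := lconv_quot lN 3 1
  refine LConv.congr' lQ ?_ (fun τ => rfl)
  show _ = emb2 f
  rw [hf]
  rfl

/-! ### The value at the elliptic point -/

theorem B2_tau0 : B2 tau0 = 0 := eq_zero_of_wt_two (isWt_B2.inv gam0 gam0_mem tau0)

theorem C4_tau0 : C4 tau0 = 0 := eq_zero_of_wt_four (isWt_C4.inv gam0 gam0_mem tau0)

theorem E43_tau0 : E43 tau0 = 0 := by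
  have h := C4_tau0
  unfold C4 at h
  rw [B2_tau0] at h
  linear_combination (-24 : ℂ) * h

theorem quot_Num_tau0 (h : ℍ → ℂ) : quot (Num h) 3 1 tau0 = 1 / 2 := by
  have hΔ := ModularForm.discriminant_eq_E₄_cube_sub_E₆_sq (dmul 3 tau0)
  have hΔ0 := ModularForm.discriminant_ne_zero (dmul 3 tau0)
  have hE4 : E₄ (dmul 3 tau0) = 0 := E43_tau0
  rw [hE4] at hΔ
  have hE6 : E₆ (dmul 3 tau0) ≠ 0 := by
    intro h0
    apply hΔ0
    rw [hΔ, h0]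
    norm_num
  rw [quot_apply, hΔ]
  unfold Num F6 D6
  rw [B2_tau0, C4_tau0, show E63 tau0 = E₆ (dmul 3 tau0) from rfl]
  field_simp
  ring

/-! ### The main theorem -/

theorem half_not_mem : (1 / 2 : ℚ) ∉ GaloisRep.ratLocalizedAt 2 := by
  intro h
  have h1 : ((1 / 2 : ℚ)).den.Coprime 2 := h
  have h2 : ((1 / 2 : ℚ)).den = 2 := by norm_num
  rw [h2] at h1
  exact absurd h1 (by decide)

/-- **M8.**  For a prime `p ≥ 5` there is no modular form of weight `2` and level `Γ₀(p)` whose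
`q`-expansion is `1 + 8·(2-integral series)`. -/
theorem no_mod8 (p : ℕ) [Fact p.Prime] (hp : 5 ≤ p)
    (h : ModularForm (CongruenceSubgroup.Gamma0 p) 2)
    (h0 : ModularFormClass.qCoeff ⇑h 0 = 1)
    (hk : ∀ k, 0 < k → ∃ r ∈ GaloisRep.ratLocalizedAt 2,
      ModularFormClass.qCoeff ⇑h k = ((2 ^ 3 : ℕ) : ℂ) * ((r : ℚ) : ℂ)) : False := by
  have hpr : p.Prime := Fact.out
  have : NeZero p := ⟨hpr.ne_zero⟩
  have : NeZero (3 * p) := ⟨Nat.mul_ne_zero (by norm_num) hpr.ne_zero⟩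
  have h3M : 3 ∣ 3 * p := Dvd.intro p rfl
  have hh : IsWt (3 * p) 2 h := (isWt_of_modularForm (k := 2) h).mono (Dvd.intro_left 3 rfl)
  have hN := isWt_Num h3M hh
  obtain ⟨f, hf⟩ := exists_series h h0 hk
  have h2M : ¬ 2 ∣ 3 * p := by
    intro hdvd
    rcases (Nat.Prime.dvd_mul Nat.prime_two).mp hdvd with h2 | h2
    · omega
    · have := (Nat.prime_dvd_prime_iff_eq Nat.prime_two hpr).mp h2
      omega
  have key := Fermat.Agent.S16_QPrin.rat_value_mem (3 * p) 2 h2M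
    (hN.quotAN (d := 3) (by norm_num) h3M)
    (fun g hg => hN.tr_quotAN (by norm_num) h3M g hg) f hf tau0 0
    (by rw [jFun_tau0]; simp) (1 / 2)
    (by
      show quot (Num h) 3 1 tau0 = _
      rw [quot_Num_tau0]
      norm_num)
  exact half_not_mem key

end Fermat.Agent.S16_M8

end
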