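import Mathlib

/-!
# S16, block NE5: no `h ∈ M₂(Γ₀(p))` is `≡ 1 mod ℓ` for a prime `ℓ ≥ 5`, `ℓ ≠ p`

Inputs (as explicit hypotheses of `ne5_core`):

* `TR` (block TRPOW): for `h ∈ M₂(Γ₀(p))` with `q`-expansion `A` and `m ≥ 1`, the trace of `h^m`
  to level one is a modular form `T` of weight `2m` with
  `a_n(T) = a_n(A^m) + p (-1/p)^m a_{pn}(B^m)`, `B = ∑ a_{pn}(A) q^n`;
* `SDW` (Swinnerton-Dyer/Serre weight theorem): a level one form of weight `k` which is a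
  nonzero constant modulo `ℓ ≥ 5` has `(ℓ - 1) ∣ k`.

The proof: choose `a ≥ 1` with `p^(ℓ^a - 1) = 1 + ℓ^a w`, `ℓ ∤ w` (`nt_core`), put `m = ℓ^a`.
Then `A^m ≡ B^m ≡ 1 mod ℓ^(a+1)`, so `T ≡ 1 - p^(1-m) = ℓ^a w / p^(m-1) mod ℓ^(a+1)`, and
`ℓ^(-a) T` is a nonzero constant mod `ℓ` of weight `2 ℓ^a`, which `ℓ - 1` does not divide.
-/

set_option autoImplicit false

open ModularFormClass CongruenceSubgroup UpperHalfPlane
open scoped MatrixGroups

namespace Fermat.Agent.S16_NE5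

noncomputable section

/-- `(ℓ - 1) * (1 + ℓ + ⋯ + ℓ^(a-1)) + 1 = ℓ^a`. -/
theorem pred_mul_geom (ℓ a : ℕ) (hℓ : 1 ≤ ℓ) :
    (ℓ - 1) * (∑ i ∈ Finset.range a, ℓ ^ i) + 1 = ℓ ^ a := by
  induction a with
  | zero => simp
  | succ a ih =>
    rw [Finset.sum_range_succ, mul_add, pow_succ]
    have h1 : (ℓ - 1) * ℓ ^ a + ℓ ^ a = ℓ ^ a * ℓ := by
      have : ℓ - 1 + 1 = ℓ := Nat.sub_add_cancel hℓ
      calc (ℓ - 1) * ℓ ^ a + ℓ ^ a = (ℓ - 1 + 1) * ℓ ^ a := by ring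
        _ = ℓ ^ a * ℓ := by rw [this]; ring
    omega

/-- **Number-theoretic core of NE5.** For primes `ℓ ≠ p` there are `a ≥ 1` and `w` prime to `ℓ`
with `p^(ℓ^a - 1) = ℓ^a * w + 1`. -/
theorem nt_core (p ℓ : ℕ) (hp : p.Prime) (hℓ : ℓ.Prime) (hne : ℓ ≠ p) :
    ∃ a w : ℕ, 1 ≤ a ∧ ¬ ℓ ∣ w ∧ p ^ (ℓ ^ a - 1) = ℓ ^ a * w + 1 := by
  have hcop : Nat.Coprime p ℓ := (Nat.coprime_primes hp hℓ).2 (Ne.symm hne)
  have hℓ1 : 1 ≤ ℓ := hℓ.one_le
  -- Fermat
  have hfer : p ^ (ℓ - 1) ≡ 1 [MOD ℓ] := by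
    have := Nat.ModEq.pow_totient hcop
    rwa [Nat.totient_prime hℓ] at this
  have hx1 : 1 ≤ p ^ (ℓ - 1) := Nat.one_le_pow _ _ hp.pos
  have hxne : p ^ (ℓ - 1) - 1 ≠ 0 := by
    have h2 : 2 ≤ p ^ (ℓ - 1) := by
      calc 2 ≤ p := hp.two_le
        _ = p ^ 1 := (pow_one p).symm
        _ ≤ p ^ (ℓ - 1) := Nat.pow_le_pow_right hp.pos (by have := hℓ.two_le; omega)
    omega
  obtain ⟨a, u, hu, hxu⟩ := Nat.exists_eq_pow_mul_and_not_dvd hxne ℓ hℓ.ne_one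
  have hdvd : ℓ ∣ p ^ (ℓ - 1) - 1 := (Nat.modEq_iff_dvd' hx1).1 hfer.symm
  have ha : 1 ≤ a := by
    rcases Nat.eq_zero_or_pos a with h0 | h0
    · subst h0
      rw [pow_zero, one_mul] at hxu
      exact absurd (hxu ▸ hdvd) hu
    · exact h0
  set N := ∑ i ∈ Finset.range a, ℓ ^ i with hN
  have hNeq : (ℓ - 1) * N + 1 = ℓ ^ a := pred_mul_geom ℓ a hℓ1
  have hexp : ℓ ^ a - 1 = (ℓ - 1) * N := by omega
  set x := p ^ (ℓ - 1) with hx
  have hxeq : x = ℓ ^ a * u + 1 := by omega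
  set S := ∑ i ∈ Finset.range N, x ^ i with hS
  -- `x^N = (x - 1) * S + 1`
  have hgeom : x ^ N = ℓ ^ a * u * S + 1 := by
    have hz : ((x : ℤ) - 1) * ∑ i ∈ Finset.range N, (x : ℤ) ^ i = (x : ℤ) ^ N - 1 :=
      mul_geom_sum (x : ℤ) N
    have hxz : ((x : ℤ) - 1) = ((ℓ ^ a * u : ℕ) : ℤ) := by rw [hxeq]; push_cast; ring
    have hSz : (∑ i ∈ Finset.range N, (x : ℤ) ^ i) = ((S : ℕ) : ℤ) := by
      rw [hS]; push_cast; rfl
    rw [hxz, hSz] at hz
    have : ((x ^ N : ℕ) : ℤ) = ((ℓ ^ a * u * S + 1 : ℕ) : ℤ) := by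
      push_cast
      push_cast at hz
      linarith
    exact_mod_cast this
  -- `ℓ ∤ N`
  have hNmod : ¬ ℓ ∣ N := by
    obtain ⟨a', rfl⟩ : ∃ a', a = a' + 1 := ⟨a - 1, by omega⟩
    rw [hN, Finset.sum_range_succ', pow_zero]
    have hd : ℓ ∣ ∑ k ∈ Finset.range a', ℓ ^ (k + 1) :=
      Finset.dvd_sum fun k _ => Dvd.intro_left (ℓ ^ k) (by rw [pow_succ])
    intro h
    have h1 : ℓ ∣ 1 := (Nat.dvd_add_right hd).1 h
    exact hℓ.one_lt.ne' (Nat.dvd_one.1 h1)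
  -- `S ≡ N mod ℓ`
  have hSmod : ¬ ℓ ∣ S := by
    have hxmod : x ≡ 1 [MOD ℓ] := hfer
    have hSN : S ≡ N [MOD ℓ] := by
      have h1 : ∀ i ∈ Finset.range N, x ^ i ≡ 1 [MOD ℓ] := fun i _ => by
        have := hxmod.pow i
        rwa [one_pow] at this
      have h2 : (∑ i ∈ Finset.range N, x ^ i) ≡ ∑ _i ∈ Finset.range N, 1 [MOD ℓ] := by
        unfold Nat.ModEq
        rw [Finset.sum_nat_mod, Finset.sum_nat_mod (f := fun _ => 1)]
        congr 1
        exact Finset.sum_congr rfl fun i hi => h1 i hi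
      simpa using h2
    intro h
    exact hNmod ((Nat.modEq_zero_iff_dvd.1 (hSN.symm.trans (Nat.modEq_zero_iff_dvd.2 h))))
  refine ⟨a, u * S, ha, ?_, ?_⟩
  · intro h
    rcases (Nat.Prime.dvd_mul hℓ).1 h with h | h
    · exact hu h
    · exact hSmod h
  · rw [hexp, pow_mul, ← hx, hgeom]
    ring

section PS

variable {R : Type*} [CommRing R]

/-- Coefficientwise divisibility by a constant gives divisibility in `R⟦X⟧`. -/
theorem C_dvd_of_coeff {c : R} {F : PowerSeries R} (h : ∀ n, c ∣ PowerSeries.coeff n F) :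
    PowerSeries.C c ∣ F := by
  choose d hd using h
  refine ⟨PowerSeries.mk d, ?_⟩
  ext n
  rw [PowerSeries.coeff_C_mul, PowerSeries.coeff_mk, hd n]

theorem coeff_dvd_of_C_dvd {c : R} {F : PowerSeries R} (h : PowerSeries.C c ∣ F) (n : ℕ) :
    c ∣ PowerSeries.coeff n F := by
  obtain ⟨G, rfl⟩ := h
  rw [PowerSeries.coeff_C_mul]
  exact dvd_mul_right _ _

/-- If `F ≡ 1 mod ℓ` coefficientwise then `F^(ℓ^a) ≡ 1 mod ℓ^(a+1)` coefficientwise. -/
theorem pow_sub_one_coeff (ℓ a : ℕ) (F : PowerSeries R)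
    (h : ∀ n, (ℓ : R) ∣ PowerSeries.coeff n (F - 1)) (n : ℕ) :
    (ℓ : R) ^ (a + 1) ∣ PowerSeries.coeff n (F ^ (ℓ ^ a) - 1) := by
  have h1 : ((ℓ : ℕ) : PowerSeries R) ∣ F - 1 := by
    have := C_dvd_of_coeff h
    rwa [map_natCast] at this
  have h2 := dvd_sub_pow_of_dvd_sub h1 a
  rw [one_pow] at h2
  have h3 : ((ℓ : PowerSeries R) ^ (a + 1)) = PowerSeries.C ((ℓ : R) ^ (a + 1)) := by
    rw [map_pow, map_natCast]
  rw [h3] at h2
  exact coeff_dvd_of_C_dvd h2 n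

end PS

/-- **NE5, core.** `A` is the `q`-expansion of a weight two form of level `p` with `A ≡ 1 mod ℓ`
(coefficients in a subring `R ⊆ ℂ` in which every integer prime to `ℓ` is invertible). Given the
trace forms `TR` (block TRPOW) and the weight theorem `SDW` for `(R, I)`, `ℓ ∈ I`, we reach a
contradiction when `ℓ ≥ 5`, `ℓ ≠ p`. -/
theorem ne5_core (p ℓ : ℕ) (hp : p.Prime) (hℓ : ℓ.Prime) (h5 : 5 ≤ ℓ) (hne : ℓ ≠ p)
    (R : Subring ℂ) (hR : ∀ n : ℕ, ¬ ℓ ∣ n → ((n : ℂ))⁻¹ ∈ R)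
    (I : Ideal R) (hlI : (ℓ : R) ∈ I)
    (A : PowerSeries ℂ)
    (hA0 : PowerSeries.coeff 0 A = 1)
    (hA : ∀ n, 1 ≤ n → ∃ y ∈ R, PowerSeries.coeff n A = (ℓ : ℂ) * y)
    (TR : ∀ m : ℕ, 1 ≤ m → ∃ T : ModularForm 𝒮ℒ ((2 * m : ℕ) : ℤ), ∀ n,
        (qExpansion 1 T).coeff n = (A ^ m).coeff n +
          (p : ℂ) * (-1 / (p : ℂ)) ^ m *
            ((PowerSeries.mk fun j => A.coeff (p * j)) ^ m).coeff (p * n))
    (SDW : ∀ (k : ℕ) (f : ModularForm 𝒮ℒ (k : ℤ)) (s : PowerSeries ↥R),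
        PowerSeries.map R.subtype s = qExpansion 1 f →
        (∀ n, 1 ≤ n → PowerSeries.coeff n s ∈ I) →
        (∃ b : ↥R, PowerSeries.coeff 0 s * b - 1 ∈ I) → (ℓ - 1) ∣ k) :
    False := by
  obtain ⟨a, w, ha, hw, hpw⟩ := nt_core p ℓ hp hℓ hne
  obtain ⟨m, hm⟩ : ∃ m, m = ℓ ^ a := ⟨_, rfl⟩
  rw [← hm] at hpw
  have hm1 : 1 ≤ m := hm ▸ Nat.one_le_pow _ _ hℓ.pos
  have hodd : Odd m := hm ▸ (hℓ.odd_of_ne_two (by omega)).pow
  have hmR : (m : R) = (ℓ : R) ^ a := by rw [hm]; push_cast; rfl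
  have hpl : ¬ ℓ ∣ p := fun h => hne ((Nat.prime_dvd_prime_iff_eq hℓ hp).1 h)
  have hp0 : (p : ℂ) ≠ 0 := Nat.cast_ne_zero.2 hp.ne_zero
  have hℓ0 : (ℓ : ℂ) ≠ 0 := Nat.cast_ne_zero.2 hℓ.ne_zero
  -- coefficients of `A` in `R`
  have hmem : ∀ n, PowerSeries.coeff n A ∈ R := by
    intro n
    rcases Nat.eq_zero_or_pos n with rfl | hn
    · rw [hA0]; exact R.one_mem
    · obtain ⟨y, hy, e⟩ := hA n hn
      rw [e]; exact R.mul_mem (natCast_mem R ℓ) hy
  set A' : PowerSeries R := PowerSeries.mk fun n => ⟨PowerSeries.coeff n A, hmem n⟩ with hA'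
  set B' : PowerSeries R := PowerSeries.mk fun n => PowerSeries.coeff (p * n) A' with hB'
  have hmapA : PowerSeries.map R.subtype A' = A := by
    ext n; simp [hA']
  have hmapB : PowerSeries.map R.subtype B' = PowerSeries.mk fun j => A.coeff (p * j) := by
    ext n; simp [hA', hB']
  -- `A' ≡ B' ≡ 1 mod ℓ`
  have hA'd : ∀ n, (ℓ : R) ∣ PowerSeries.coeff n (A' - 1) := by
    intro n
    rcases Nat.eq_zero_or_pos n with rfl | hn
    · have : PowerSeries.coeff 0 (A' - 1) = 0 := by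
        rw [map_sub, hA', PowerSeries.coeff_mk]
        apply Subtype.ext
        simp [hA0]
      rw [this]; exact dvd_zero _
    · obtain ⟨y, hy, e⟩ := hA n hn
      refine ⟨⟨y, hy⟩, ?_⟩
      apply Subtype.ext
      simp [hA', PowerSeries.coeff_one, hn.ne', e]
  have hB'd : ∀ n, (ℓ : R) ∣ PowerSeries.coeff n (B' - 1) := by
    intro n
    rcases Nat.eq_zero_or_pos n with rfl | hn
    · have := hA'd 0
      simpa [hB'] using this
    · have := hA'd (p * n)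
      have hpn : p * n ≠ 0 := (Nat.mul_pos hp.pos hn).ne'
      simpa [hB', PowerSeries.coeff_one, hn.ne', hpn] using this
  have hAm := pow_sub_one_coeff ℓ a A' hA'd
  have hBm := pow_sub_one_coeff ℓ a B' hB'd
  rw [← hm] at hAm hBm
  -- constants
  set pinv : R := ⟨((p : ℂ))⁻¹, hR p hpl⟩ with hpinv
  have hpinv_mul : pinv * (p : R) = 1 := by
    apply Subtype.ext
    simp [hpinv, hp0]
  set u : R := -(pinv ^ (m - 1)) with hu
  have hucoe : (p : ℂ) * (-1 / (p : ℂ)) ^ m = (u : ℂ) := by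
    obtain ⟨m', hm'⟩ : ∃ m', m = m' + 1 := ⟨m - 1, by omega⟩
    have hneg : (-1 / (p : ℂ)) ^ m = -(((p : ℂ))⁻¹ ^ m) := by
      rw [neg_div, one_div, Odd.neg_pow hodd]
    rw [hneg, hu, hm']
    simp only [Nat.add_sub_cancel, hpinv, Subring.coe_neg, Subring.coe_pow, pow_succ]
    field_simp
  -- the key identity `1 + u = pinv^(m-1) * ℓ^a * w`
  have hkey : 1 + u = pinv ^ (m - 1) * ((ℓ : R) ^ a * (w : R)) := by
    have h1 : (p : R) ^ (m - 1) = (ℓ : R) ^ a * (w : R) + 1 := by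
      have := congrArg (Nat.cast : ℕ → R) hpw
      push_cast at this
      rw [hmR] at this
      exact this
    have h2 : pinv ^ (m - 1) * (p : R) ^ (m - 1) = 1 := by
      rw [← mul_pow, hpinv_mul, one_pow]
    rw [h1] at h2
    rw [hu]
    linear_combination (-1 : R) * h2
  -- the trace form
  obtain ⟨T, hT⟩ := TR m hm1
  set c : ℕ → R := fun n => PowerSeries.coeff n (A' ^ m) + u * PowerSeries.coeff (p * n) (B' ^ m)
    with hc
  have hTc : ∀ n, (qExpansion 1 T).coeff n = (c n : ℂ) := by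
    intro n
    rw [hT n, hucoe, ← hmapB, ← hmapA, ← map_pow, ← map_pow, PowerSeries.coeff_map,
      PowerSeries.coeff_map, hc]
    simp
  have hc0 : c 0 = pinv ^ (m - 1) * ((ℓ : R) ^ a * (w : R)) := by
    have e1 : PowerSeries.coeff 0 (A' ^ m) = 1 := by
      have : PowerSeries.coeff 0 A' = 1 := by
        rw [hA', PowerSeries.coeff_mk]; exact Subtype.ext hA0
      rw [PowerSeries.coeff_zero_eq_constantCoeff_apply, map_pow,
        ← PowerSeries.coeff_zero_eq_constantCoeff_apply, this, one_pow]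
    have e2 : PowerSeries.coeff 0 (B' ^ m) = 1 := by
      have : PowerSeries.coeff 0 B' = 1 := by
        rw [hB', PowerSeries.coeff_mk, mul_zero, hA', PowerSeries.coeff_mk]
        exact Subtype.ext hA0
      rw [PowerSeries.coeff_zero_eq_constantCoeff_apply, map_pow,
        ← PowerSeries.coeff_zero_eq_constantCoeff_apply, this, one_pow]
    rw [hc]
    simp only [mul_zero]
    rw [e1, e2, mul_one, hkey]
  have hcpos : ∀ n, 1 ≤ n → ∃ d : R, c n = (ℓ : R) ^ (a + 1) * d := by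
    intro n hn
    obtain ⟨d1, hd1⟩ := hAm n
    obtain ⟨d2, hd2⟩ := hBm (p * n)
    have hpn : p * n ≠ 0 := (Nat.mul_pos hp.pos hn).ne'
    have hn0 : n ≠ 0 := by omega
    rw [map_sub, PowerSeries.coeff_one, if_neg hn0, sub_zero] at hd1
    rw [map_sub, PowerSeries.coeff_one, if_neg hpn, sub_zero] at hd2
    refine ⟨d1 + u * d2, ?_⟩
    rw [hc]
    simp only
    rw [hd1, hd2]
    ring
  choose! d hd using hcpos
  -- the form `f = ℓ^(-a) T`
  set f : ModularForm 𝒮ℒ ((2 * m : ℕ) : ℤ) := (((ℓ : ℂ) ^ a)⁻¹ : ℂ) • T with hf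
  set g : ℕ → R := fun n => if n = 0 then pinv ^ (m - 1) * (w : R) else (ℓ : R) * d n with hg
  have hg0 : g 0 = pinv ^ (m - 1) * (w : R) := by simp [hg]
  have hgpos : ∀ n, 1 ≤ n → g n = (ℓ : R) * d n := fun n hn => by
    have hn0 : n ≠ 0 := by omega
    simp [hg, hn0]
  have hfg : ∀ n, (qExpansion 1 f).coeff n = (g n : ℂ) := by
    intro n
    have h1 : (⇑f : ℍ → ℂ) = (((ℓ : ℂ) ^ a)⁻¹ : ℂ) • ⇑T := rfl
    rw [h1, ModularForm.qExpansion_smul one_pos one_mem_strictPeriods_SL, PowerSeries.coeff_smul,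
      hTc n]
    have hla : ((ℓ : ℂ) ^ a) ≠ 0 := pow_ne_zero _ hℓ0
    rcases Nat.eq_zero_or_pos n with rfl | hn
    · rw [hc0, hg0]
      simp only [Subring.coe_mul, Subring.coe_pow, Subring.coe_natCast, smul_eq_mul]
      field_simp
    · rw [hd n hn, hgpos n hn]
      simp only [Subring.coe_mul, Subring.coe_pow, Subring.coe_natCast, smul_eq_mul, pow_succ]
      field_simp
  have hdvd : (ℓ - 1) ∣ 2 * m := by
    refine SDW (2 * m) f (PowerSeries.mk g) ?_ ?_ ?_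
    · ext n
      rw [PowerSeries.coeff_map, PowerSeries.coeff_mk, hfg n]
      rfl
    · intro n hn
      rw [PowerSeries.coeff_mk, hgpos n hn]
      exact I.mul_mem_right _ hlI
    · -- the constant term is a unit mod `ℓ`
      have hcop : Nat.Coprime w ℓ := (Nat.Coprime.symm ((Nat.Prime.coprime_iff_not_dvd hℓ).2 hw))
      obtain ⟨w', -, hw'⟩ := Nat.exists_mul_mod_eq_one_of_coprime hcop hℓ.one_lt
      have hww : w * w' = ℓ * (w * w' / ℓ) + 1 := by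
        have := Nat.div_add_mod (w * w') ℓ
        omega
      refine ⟨(p : R) ^ (m - 1) * (w' : R), ?_⟩
      rw [PowerSeries.coeff_mk, hg0]
      have h2 : pinv ^ (m - 1) * (p : R) ^ (m - 1) = 1 := by
        rw [← mul_pow, hpinv_mul, one_pow]
      have h3 : (w : R) * (w' : R) = (ℓ : R) * ((w * w' / ℓ : ℕ) : R) + 1 := by
        have := congrArg (Nat.cast : ℕ → R) hww
        push_cast at this
        exact_mod_cast this
      have h4 : pinv ^ (m - 1) * (w : R) * ((p : R) ^ (m - 1) * (w' : R)) - 1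
          = (ℓ : R) * ((w * w' / ℓ : ℕ) : R) := by
        linear_combination (w : R) * (w' : R) * h2 + h3
      rw [h4]
      exact I.mul_mem_right _ hlI
  -- `(ℓ - 1) ∣ 2 ℓ^a` is absurd
  have hcop : Nat.Coprime (ℓ - 1) m := by
    rw [hm]
    apply Nat.Coprime.pow_right
    exact Nat.Coprime.symm ((Nat.Prime.coprime_iff_not_dvd hℓ).2
      (Nat.not_dvd_of_pos_of_lt (by omega) (by omega)))
  have h2 : (ℓ - 1) ∣ 2 := hcop.dvd_of_dvd_mul_right hdvd
  have := Nat.le_of_dvd (by norm_num) h2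
  omega

end

end Fermat.Agent.S16_NE5
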