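import Mathlib
import Fermat.Prelude.Def_GaloisRep_Flat

/-!
# S16, block DEFS (helper2): the ring `OInt ℓ` of `ℓ`-integral complex numbers

`OInt ℓ = {x : ℂ | ∃ n coprime to ℓ, n * x is an algebraic integer}` is the integral closure of
`ℤ_(ℓ)` in `ℂ`.  It contains the algebraic integers and the inverses of integers prime to `ℓ`,
meets `ℚ` in `ℤ_(ℓ)` (the Prelude's `GaloisRep.ratLocalizedAt ℓ`), is integrally closed in `ℂ`, and
`ℓ` is not a unit in it (for `ℓ` prime), so `ellIdeal ℓ = ℓ · OInt ℓ` is a proper ideal.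
-/

set_option autoImplicit false

namespace Fermat.Agent.S16_OInt

theorem isIntegral_intCast_complex (z : ℤ) : IsIntegral ℤ (z : ℂ) := by
  have h := isIntegral_algebraMap (R := ℤ) (A := ℂ) (x := z)
  simpa using h

theorem isIntegral_natCast_complex (n : ℕ) : IsIntegral ℤ (n : ℂ) := by
  have h := isIntegral_intCast_complex (n : ℤ)
  simpa using h

/-- the `ℓ`-integral complex numbers. -/
def OInt (ℓ : ℕ) : Subring ℂ where
  carrier := {x | ∃ n : ℕ, n.Coprime ℓ ∧ IsIntegral ℤ ((n : ℂ) * x)}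
  zero_mem' := ⟨1, Nat.coprime_one_left ℓ, by simpa using isIntegral_zero⟩
  one_mem' := ⟨1, Nat.coprime_one_left ℓ, by simpa using isIntegral_one⟩
  add_mem' := by
    rintro x y ⟨n, hn, hx⟩ ⟨m, hm, hy⟩
    refine ⟨n * m, hn.mul_left hm, ?_⟩
    have h1 : ((n * m : ℕ) : ℂ) * (x + y) = (m : ℂ) * ((n : ℂ) * x) + (n : ℂ) * ((m : ℂ) * y) := by
      push_cast; ring
    rw [h1]
    exact ((isIntegral_natCast_complex m).mul hx).add ((isIntegral_natCast_complex n).mul hy)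
  mul_mem' := by
    rintro x y ⟨n, hn, hx⟩ ⟨m, hm, hy⟩
    refine ⟨n * m, hn.mul_left hm, ?_⟩
    have h1 : ((n * m : ℕ) : ℂ) * (x * y) = ((n : ℂ) * x) * ((m : ℂ) * y) := by
      push_cast; ring
    rw [h1]
    exact hx.mul hy
  neg_mem' := by
    rintro x ⟨n, hn, hx⟩
    refine ⟨n, hn, ?_⟩
    rw [mul_neg]
    exact hx.neg

theorem mem_OInt_iff {ℓ : ℕ} {x : ℂ} :
    x ∈ OInt ℓ ↔ ∃ n : ℕ, n.Coprime ℓ ∧ IsIntegral ℤ ((n : ℂ) * x) := Iff.rfl

/-- algebraic integers are `ℓ`-integral. -/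
theorem isIntegral_mem (ℓ : ℕ) {x : ℂ} (h : IsIntegral ℤ x) : x ∈ OInt ℓ :=
  ⟨1, Nat.coprime_one_left ℓ, by simpa using h⟩

theorem intCast_mem_OInt (ℓ : ℕ) (z : ℤ) : (z : ℂ) ∈ OInt ℓ :=
  isIntegral_mem ℓ (isIntegral_intCast_complex z)

/-- inverses of integers prime to `ℓ` are `ℓ`-integral. -/
theorem inv_natCast_mem {ℓ n : ℕ} (h : n.Coprime ℓ) : ((n : ℂ))⁻¹ ∈ OInt ℓ := by
  rcases Nat.eq_zero_or_pos n with rfl | hn
  · simp
  · refine ⟨n, h, ?_⟩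
    rw [mul_inv_cancel₀ (by exact_mod_cast hn.ne')]
    exact isIntegral_one

/-- the shape used by the Swinnerton-Dyer block. -/
theorem inv_natCast_mem_of_not_dvd {ℓ : ℕ} (hℓ : ℓ.Prime) {n : ℕ} (h : ¬ ℓ ∣ n) :
    ((n : ℂ))⁻¹ ∈ OInt ℓ :=
  inv_natCast_mem ((Nat.Prime.coprime_iff_not_dvd hℓ).mpr h).symm

/-- `OInt ℓ ∩ ℚ = ℤ_(ℓ)`. -/
theorem ratCast_mem_iff {ℓ : ℕ} (q : ℚ) : (q : ℂ) ∈ OInt ℓ ↔ q ∈ GaloisRep.ratLocalizedAt ℓ := by
  constructor
  · rintro ⟨n, hn, hint⟩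
    have h1 : IsIntegral ℤ (((n : ℚ) * q : ℚ)) := by
      have : ((n : ℂ) * (q : ℂ)) = algebraMap ℚ ℂ ((n : ℚ) * q) := by
        simp
      rw [this] at hint
      exact (isIntegral_algebraMap_iff (algebraMap ℚ ℂ).injective).mp hint
    obtain ⟨z, hz⟩ := IsIntegrallyClosed.isIntegral_iff.mp h1
    have hz' : (z : ℚ) = (n : ℚ) * q := by simpa using hz
    show q.den.Coprime ℓ
    rcases Nat.eq_zero_or_pos n with rfl | hn0
    · -- then `ℓ = 1`
      have : ℓ = 1 := by simpa using hn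
      rw [this]; exact Nat.coprime_one_right _
    · have hq : q = (z : ℚ) / (n : ℚ) := by
        rw [hz']; field_simp
      have hdvd : (q.den : ℤ) ∣ (n : ℤ) := by
        have := Rat.den_dvd z (n : ℤ)
        rw [Rat.divInt_eq_div] at this
        rw [hq]
        exact_mod_cast this
      have hdvd' : q.den ∣ n := by exact_mod_cast hdvd
      exact Nat.Coprime.coprime_dvd_left hdvd' hn
  · intro hq
    refine ⟨q.den, hq, ?_⟩
    have : ((q.den : ℂ) * (q : ℂ)) = ((q.num : ℤ) : ℂ) := by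
      have h1 : ((q.den : ℚ) * q : ℚ) = (q.num : ℚ) := Rat.den_mul_eq_num q
      exact_mod_cast congrArg (fun r : ℚ => (r : ℂ)) h1
    rw [this]
    exact isIntegral_intCast_complex _

theorem ratLocalizedAt_mem {ℓ : ℕ} {q : ℚ} (hq : q ∈ GaloisRep.ratLocalizedAt ℓ) :
    (q : ℂ) ∈ OInt ℓ := (ratCast_mem_iff q).mpr hq

/-- `1/ℓ` is not `ℓ`-integral. -/
theorem inv_prime_not_mem {ℓ : ℕ} (hℓ : ℓ.Prime) : ((ℓ : ℂ))⁻¹ ∉ OInt ℓ := by
  intro h
  have h1 : (((ℓ : ℚ)⁻¹ : ℚ) : ℂ) ∈ OInt ℓ := by simpa using h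
  rw [ratCast_mem_iff] at h1
  have h2 : ((ℓ : ℚ)⁻¹).den.Coprime ℓ := h1
  rw [Rat.inv_natCast_den_of_pos hℓ.pos, Nat.coprime_self] at h2
  exact hℓ.ne_one h2

/-- `OInt ℓ` is integrally closed in `ℂ`. -/
theorem mem_of_isIntegral {ℓ : ℕ} {x : ℂ} (h : IsIntegral (OInt ℓ) x) : x ∈ OInt ℓ := by
  obtain ⟨P, hmonic, hP⟩ := h
  -- the polynomial over `ℂ`
  set P' : Polynomial ℂ := P.map (algebraMap (OInt ℓ) ℂ) with hP'
  have hmonic' : P'.Monic := hmonic.map _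
  have hroot : Polynomial.aeval x P' = 0 := by
    rw [hP', Polynomial.aeval_def, Polynomial.eval₂_map]
    simpa using hP
  have hcoeff : ∀ i, ∃ n : ℕ, n.Coprime ℓ ∧ IsIntegral ℤ ((n : ℂ) * P'.coeff i) := by
    intro i
    rw [hP', Polynomial.coeff_map]
    exact (P.coeff i).2
  choose n hn hint using hcoeff
  set d := P'.natDegree with hd
  set N : ℕ := ∏ i ∈ Finset.range d, n i with hN
  have hNcop : N.Coprime ℓ := Nat.Coprime.prod_left fun i _ => hn i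
  refine ⟨N, hNcop, ?_⟩
  -- `N x` is a root of the scaled polynomial, which has algebraic integer coefficients
  set Q : Polynomial ℂ := Polynomial.scaleRoots P' (N : ℂ) with hQ
  have hQmonic : Q.Monic := (Polynomial.monic_scaleRoots_iff _).mpr hmonic'
  have hQroot : Polynomial.aeval ((N : ℂ) * x) Q = 0 := by
    have := Polynomial.scaleRoots_aeval_eq_zero (R := ℂ) (A := ℂ) (p := P') (a := x)
      (r := (N : ℂ)) hroot
    simpa using this
  have hQcoeff : ∀ i, IsIntegral ℤ (Q.coeff i) := by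
    intro i
    rw [hQ, Polynomial.coeff_scaleRoots]
    rcases lt_trichotomy i d with hi | hi | hi
    · -- `i < d`
      obtain ⟨m, hm⟩ : n i ∣ N := Finset.dvd_prod_of_mem n (Finset.mem_range.mpr hi)
      have e : P'.coeff i * (N : ℂ) ^ (d - i)
          = ((n i : ℂ) * P'.coeff i) * ((m : ℂ) * (N : ℂ) ^ (d - i - 1)) := by
        have h1 : (N : ℂ) ^ (d - i) = (N : ℂ) * (N : ℂ) ^ (d - i - 1) := by
          rw [← pow_succ']
          congr 1
          omega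
        rw [h1]
        have h2 : (N : ℂ) = (n i : ℂ) * (m : ℂ) := by rw [hm]; push_cast; ring
        rw [h2]
        ring
      rw [e]
      refine (hint i).mul ?_
      exact (isIntegral_natCast_complex m).mul ((isIntegral_natCast_complex N).pow _)
    · rw [hi, hd, Polynomial.Monic.coeff_natDegree hmonic', Nat.sub_self, pow_zero, mul_one]
      exact isIntegral_one
    · rw [Polynomial.coeff_eq_zero_of_natDegree_lt (by rw [← hd]; exact hi), zero_mul]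
      exact isIntegral_zero
  -- lift to the ring of algebraic integers
  have hlifts : Q ∈ Polynomial.lifts (algebraMap (integralClosure ℤ ℂ) ℂ) := by
    rw [Polynomial.lifts_iff_coeff_lifts]
    intro i
    exact ⟨⟨Q.coeff i, hQcoeff i⟩, rfl⟩
  obtain ⟨Q', hQ'map, -, hQ'monic⟩ := Polynomial.lifts_and_natDegree_eq_and_monic hlifts hQmonic
  have hint' : IsIntegral (integralClosure ℤ ℂ) ((N : ℂ) * x) := by
    refine ⟨Q', hQ'monic, ?_⟩
    rw [← Polynomial.eval_map, hQ'map]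
    simpa [Polynomial.aeval_def, Polynomial.eval₂_eq_eval_map] using hQroot
  exact isIntegral_trans _ hint'

/-! ### The ideal `ℓ · OInt ℓ` -/

/-- the ideal generated by `ℓ`. -/
def ellIdeal (ℓ : ℕ) : Ideal (OInt ℓ) := Ideal.span {(ℓ : OInt ℓ)}

theorem natCast_mem_ellIdeal (ℓ : ℕ) : (ℓ : OInt ℓ) ∈ ellIdeal ℓ :=
  Ideal.subset_span (Set.mem_singleton _)

theorem mem_ellIdeal_iff {ℓ : ℕ} (x : OInt ℓ) :
    x ∈ ellIdeal ℓ ↔ ∃ y ∈ OInt ℓ, (x : ℂ) = (ℓ : ℂ) * y := by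
  rw [ellIdeal, Ideal.mem_span_singleton']
  constructor
  · rintro ⟨a, ha⟩
    refine ⟨(a : ℂ), a.2, ?_⟩
    rw [← ha]
    push_cast
    ring
  · rintro ⟨y, hy, hxy⟩
    refine ⟨⟨y, hy⟩, Subtype.ext ?_⟩
    rw [hxy]
    push_cast
    ring

theorem ellIdeal_ne_top {ℓ : ℕ} (hℓ : ℓ.Prime) : ellIdeal ℓ ≠ ⊤ := by
  intro h
  have h1 : (1 : OInt ℓ) ∈ ellIdeal ℓ := by rw [h]; trivial
  obtain ⟨y, hy, hxy⟩ := (mem_ellIdeal_iff _).mp h1
  have hℓ0 : (ℓ : ℂ) ≠ 0 := by exact_mod_cast hℓ.ne_zero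
  have : y = ((ℓ : ℂ))⁻¹ := by
    refine eq_inv_of_mul_eq_one_right ?_
    rw [← hxy]
    rfl
  rw [this] at hy
  exact inv_prime_not_mem hℓ hy

/-- a rational number lies in `ℓ · OInt ℓ` iff it is `ℓ` times an element of `ℤ_(ℓ)`. -/
theorem ratCast_mem_ellIdeal_iff {ℓ : ℕ} (hℓ : ℓ.Prime) (q : ℚ) (hq : (q : ℂ) ∈ OInt ℓ) :
    (⟨(q : ℂ), hq⟩ : OInt ℓ) ∈ ellIdeal ℓ ↔ q / ℓ ∈ GaloisRep.ratLocalizedAt ℓ := by
  have hℓ0 : (ℓ : ℂ) ≠ 0 := by exact_mod_cast hℓ.ne_zero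
  rw [mem_ellIdeal_iff, ← ratCast_mem_iff]
  constructor
  · rintro ⟨y, hy, hxy⟩
    have : ((q / ℓ : ℚ) : ℂ) = y := by
      push_cast
      rw [div_eq_iff hℓ0, mul_comm]
      exact hxy
    rw [this]
    exact hy
  · intro h
    refine ⟨_, h, ?_⟩
    push_cast
    field_simp

/-- an integer lies in `ℓ · OInt ℓ` iff it is divisible by `ℓ`. -/
theorem intCast_mem_ellIdeal_iff {ℓ : ℕ} (hℓ : ℓ.Prime) (z : ℤ) :
    ((z : OInt ℓ)) ∈ ellIdeal ℓ ↔ (ℓ : ℤ) ∣ z := by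
  constructor
  · intro h
    obtain ⟨y, hy, hxy⟩ := (mem_ellIdeal_iff _).mp h
    by_contra hndvd
    -- `ℓ ∤ z`: then `z` is invertible mod `ℓ`, so `1 ∈ ℓ · OInt ℓ`
    have hcop : IsCoprime z (ℓ : ℤ) := by
      rw [Int.isCoprime_iff_gcd_eq_one]
      have hp : Prime (ℓ : ℤ) := Nat.prime_iff_prime_int.mp hℓ
      exact Int.isCoprime_iff_gcd_eq_one.mp
        ((hp.coprime_iff_not_dvd.mpr hndvd).symm)
    obtain ⟨u, v, huv⟩ := hcop
    have h1 : (1 : OInt ℓ) ∈ ellIdeal ℓ := by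
      have e : (1 : OInt ℓ) = (u : OInt ℓ) * (z : OInt ℓ) + (v : OInt ℓ) * (ℓ : OInt ℓ) := by
        have := congrArg (fun t : ℤ => (t : OInt ℓ)) huv
        simpa using this.symm
      rw [e]
      exact (ellIdeal ℓ).add_mem ((ellIdeal ℓ).mul_mem_left _ h)
        ((ellIdeal ℓ).mul_mem_left _ (natCast_mem_ellIdeal ℓ))
    exact ellIdeal_ne_top hℓ ((Ideal.eq_top_iff_one _).mpr h1)
  · rintro ⟨w, rfl⟩
    have : (((ℓ : ℤ) * w : ℤ) : OInt ℓ) = (w : OInt ℓ) * (ℓ : OInt ℓ) := by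
      push_cast; ring
    rw [this]
    exact (ellIdeal ℓ).mul_mem_left _ (natCast_mem_ellIdeal ℓ)

end Fermat.Agent.S16_OInt
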