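import Mathlib

/-!
# S16_SDwAlg (helper3): the algebraic core of the Swinnerton-Dyer weight congruence

Pure algebra over a field `κ` of characteristic `ℓ ≥ 5`, no modular forms.

Input: three power series `P Q R : κ⟦X⟧` (the reductions of `E₂, E₄, E₆`) satisfying Ramanujan's
identities for `θ = X d/dX`, with `Q = 1 + 240 X + ⋯`, `R = 1 - 504 X + ⋯`.

`IsoSpan Q R k Y` says that `Y` is a `κ`-combination of monomials `Q ^ a * R ^ b`, `4a + 6b = k`
(the reduction of a level-one form of weight `k`).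

Main result `sdw_alg`: if `1` is in weight `ℓ - 1` (the Hasse invariant `E_{ℓ-1} ≡ 1`) and a nonzero
constant `c` is in weight `k`, then `ℓ - 1 ∣ k`.

Method ("diagonal chart"): `Q, R` are units of `κ⟦X⟧`; with `ε = R / Q` and `t = Q³ / R²` one has
`Q = ε² t`, `R = ε³ t`, so every weight-`2m` expression is `ε ^ m * g(t)` for ONE polynomial `g` in
ONE variable, `g ↦ g(t)` is injective, and the Serre derivative becomes the first-order operator
`6 T (T - 1) g' - m (3 T - 2) g` on `κ[T]`.  The weight-`(ℓ-1)` polynomial `g_A` of `1` satisfies a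
second-order ODE, which forces all its nonzero roots to be simple.
-/

set_option autoImplicit false

noncomputable section

open Polynomial

namespace Fermat.Agent.S16_SDwAlg

variable {κ : Type*} [Field κ]

/-- `θ = X d/dX` as a derivation of `κ⟦X⟧`. -/
def theta : Derivation κ (PowerSeries κ) (PowerSeries κ) :=
  (PowerSeries.X : PowerSeries κ) • PowerSeries.derivative κ

lemma theta_apply (f : PowerSeries κ) :
    theta f = PowerSeries.X * PowerSeries.derivative κ f := rfl

lemma coeff_theta (f : PowerSeries κ) (n : ℕ) :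
    PowerSeries.coeff n (theta f) = (n : κ) * PowerSeries.coeff n f := by
  rw [theta_apply]
  cases n with
  | zero => simp
  | succ n =>
    rw [PowerSeries.coeff_succ_X_mul, PowerSeries.coeff_derivative]
    push_cast
    ring

lemma theta_map {K : Type*} [Field K] (φ : κ →+* K) (f : PowerSeries κ) :
    theta (PowerSeries.map φ f) = PowerSeries.map φ (theta f) := by
  ext n
  simp [coeff_theta, PowerSeries.coeff_map]

/-- `Y` is a `κ`-linear combination of the monomials `Q ^ a * R ^ b` with `4 a + 6 b = k`. -/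
inductive IsoSpan (Q R : PowerSeries κ) : ℕ → PowerSeries κ → Prop
  | mono (a b : ℕ) : IsoSpan Q R (4 * a + 6 * b) (Q ^ a * R ^ b)
  | add {k : ℕ} {Y Z : PowerSeries κ} : IsoSpan Q R k Y → IsoSpan Q R k Z → IsoSpan Q R k (Y + Z)
  | smul {k : ℕ} {Y : PowerSeries κ} (c : κ) : IsoSpan Q R k Y → IsoSpan Q R k (c • Y)

namespace IsoSpan

variable {Q R : PowerSeries κ}

lemma congr {k k' : ℕ} {Y Y' : PowerSeries κ} (h : IsoSpan Q R k Y) (hk : k = k') (hY : Y = Y') :
    IsoSpan Q R k' Y' := by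
  subst hk; subst hY; exact h

lemma zero (a b : ℕ) : IsoSpan Q R (4 * a + 6 * b) (0 : PowerSeries κ) := by
  simpa using IsoSpan.smul (0 : κ) (IsoSpan.mono (Q := Q) (R := R) a b)

lemma neg {k : ℕ} {Y : PowerSeries κ} (h : IsoSpan Q R k Y) : IsoSpan Q R k (-Y) := by
  simpa using IsoSpan.smul (-1 : κ) h

lemma sub {k : ℕ} {Y Z : PowerSeries κ} (h : IsoSpan Q R k Y) (h' : IsoSpan Q R k Z) :
    IsoSpan Q R k (Y - Z) := by
  simpa [sub_eq_add_neg] using IsoSpan.add h h'.neg

lemma one : IsoSpan Q R 0 (1 : PowerSeries κ) := by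
  simpa using IsoSpan.mono (Q := Q) (R := R) 0 0

lemma const (c : κ) : IsoSpan Q R 0 (PowerSeries.C c) := by
  have h := IsoSpan.smul c (IsoSpan.one (Q := Q) (R := R))
  refine h.congr rfl ?_
  ext n
  simp [PowerSeries.coeff_one, PowerSeries.coeff_C]

lemma Q_mem : IsoSpan Q R 4 Q := by
  simpa using IsoSpan.mono (Q := Q) (R := R) 1 0

lemma R_mem : IsoSpan Q R 6 R := by
  simpa using IsoSpan.mono (Q := Q) (R := R) 0 1

lemma mul {k k' : ℕ} {Y Z : PowerSeries κ} (h : IsoSpan Q R k Y) (h' : IsoSpan Q R k' Z) :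
    IsoSpan Q R (k + k') (Y * Z) := by
  induction h with
  | mono a b =>
    induction h' with
    | mono a' b' =>
      exact (IsoSpan.mono (Q := Q) (R := R) (a + a') (b + b')).congr (by ring) (by ring)
    | add _ _ ih1 ih2 => simpa [mul_add] using IsoSpan.add ih1 ih2
    | smul c _ ih => simpa [mul_smul_comm] using IsoSpan.smul c ih
  | add _ _ ih1 ih2 => simpa [add_mul] using IsoSpan.add ih1 ih2
  | smul c _ ih => simpa [smul_mul_assoc] using IsoSpan.smul c ih

lemma pow {k : ℕ} {Y : PowerSeries κ} (h : IsoSpan Q R k Y) (n : ℕ) :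
    IsoSpan Q R (n * k) (Y ^ n) := by
  induction n with
  | zero => simpa using IsoSpan.one (Q := Q) (R := R)
  | succ n ih => exact (ih.mul h).congr (by ring) (by ring)

lemma even {k : ℕ} {Y : PowerSeries κ} (h : IsoSpan Q R k Y) : Even k := by
  induction h with
  | mono a b => exact ⟨2 * a + 3 * b, by ring⟩
  | add _ _ ih _ => exact ih
  | smul _ _ ih => exact ih

lemma map {K : Type*} [Field K] (φ : κ →+* K) {k : ℕ} {Y : PowerSeries κ}
    (h : IsoSpan Q R k Y) :
    IsoSpan (PowerSeries.map φ Q) (PowerSeries.map φ R) k (PowerSeries.map φ Y) := by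
  induction h with
  | mono a b => simpa using IsoSpan.mono (Q := PowerSeries.map φ Q) (R := PowerSeries.map φ R) a b
  | add _ _ ih1 ih2 => simpa using IsoSpan.add ih1 ih2
  | smul c _ ih =>
    refine (IsoSpan.smul (φ c) ih).congr rfl ?_
    ext n
    simp [PowerSeries.coeff_map]

end IsoSpan


/-! ### The diagonal chart -/

lemma coeff_one_mul (f g : PowerSeries κ) :
    PowerSeries.coeff 1 (f * g) =
      PowerSeries.coeff 0 f * PowerSeries.coeff 1 g + PowerSeries.coeff 1 f * PowerSeries.coeff 0 g := by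
  simp [PowerSeries.coeff_mul, Finset.Nat.antidiagonal_succ]

lemma constantCoeff_aeval (x : PowerSeries κ) (g : κ[X]) :
    PowerSeries.constantCoeff (aeval x g) = g.eval (PowerSeries.constantCoeff x) := by
  rw [aeval_def, hom_eval₂]
  have : (PowerSeries.constantCoeff (R := κ)).comp (algebraMap κ (PowerSeries κ)) = RingHom.id κ := by
    ext c; simp
  rw [this, eval₂_id]

/-- A power series `t = 1 + a X + ⋯` with `a ≠ 0` is transcendental over `κ`. -/
lemma aeval_eq_zero_of_order_one {t : PowerSeries κ} (ht0 : PowerSeries.constantCoeff t = 1)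
    (ht1 : PowerSeries.coeff 1 t ≠ 0) {g : κ[X]} (h : aeval t g = 0) : g = 0 := by
  by_contra hg
  obtain ⟨u, hu, hnd⟩ := g.exists_eq_pow_rootMultiplicity_mul_and_not_dvd hg 1
  rw [dvd_iff_isRoot] at hnd
  rw [hu] at h
  simp only [map_mul, map_pow, map_sub, aeval_X, aeval_C] at h
  rcases mul_eq_zero.mp h with h1 | h1
  · by_cases hn : rootMultiplicity 1 g = 0
    · rw [hn, pow_zero] at h1; exact one_ne_zero h1
    · have h3 : t - (algebraMap κ (PowerSeries κ)) 1 = 0 := (pow_eq_zero_iff hn).mp h1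
      apply ht1
      have := congrArg (PowerSeries.coeff 1) h3
      simpa [PowerSeries.coeff_one] using this
  · apply hnd
    have := congrArg PowerSeries.constantCoeff h1
    rw [constantCoeff_aeval, ht0] at this
    simpa using this

section Chart

variable (Q R : PowerSeries κ)

/-- The weight-2 unit `ε = R / Q`. -/
def eps : PowerSeries κ := R * Q⁻¹

/-- The weight-0 parameter `t = Q³ / R²`. -/
def tt : PowerSeries κ := Q ^ 3 * (R ^ 2)⁻¹

variable {Q R}

lemma ne_zero_of_constantCoeff {f : PowerSeries κ} (h : PowerSeries.constantCoeff f = 1) : f ≠ 0 := by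
  rintro rfl
  simp at h

lemma eps_mul_Q (hQ0 : PowerSeries.constantCoeff Q = 1) : eps Q R * Q = R := by
  rw [eps, mul_assoc, PowerSeries.inv_mul_cancel _ (by simp [hQ0]), mul_one]

lemma tt_mul_R2 (hR0 : PowerSeries.constantCoeff R = 1) : tt Q R * R ^ 2 = Q ^ 3 := by
  rw [tt, mul_assoc, PowerSeries.inv_mul_cancel _ (by simp [hR0]), mul_one]

lemma Q_eq (hQ0 : PowerSeries.constantCoeff Q = 1) (hR0 : PowerSeries.constantCoeff R = 1) :
    Q = eps Q R ^ 2 * tt Q R := by
  have hQ := ne_zero_of_constantCoeff hQ0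
  have hR := ne_zero_of_constantCoeff hR0
  have hne : Q ^ 2 * R ^ 2 ≠ 0 := mul_ne_zero (pow_ne_zero _ hQ) (pow_ne_zero _ hR)
  apply mul_right_cancel₀ hne
  have h1 := eps_mul_Q (R := R) hQ0
  have h2 := tt_mul_R2 (Q := Q) hR0
  calc Q * (Q ^ 2 * R ^ 2) = R ^ 2 * Q ^ 3 := by ring
    _ = (eps Q R * Q) ^ 2 * (tt Q R * R ^ 2) := by rw [h1, h2]
    _ = eps Q R ^ 2 * tt Q R * (Q ^ 2 * R ^ 2) := by ring

lemma R_eq (hQ0 : PowerSeries.constantCoeff Q = 1) (hR0 : PowerSeries.constantCoeff R = 1) :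
    R = eps Q R ^ 3 * tt Q R := by
  have hQ := ne_zero_of_constantCoeff hQ0
  have hR := ne_zero_of_constantCoeff hR0
  have hne : Q ^ 3 * R ^ 2 ≠ 0 := mul_ne_zero (pow_ne_zero _ hQ) (pow_ne_zero _ hR)
  apply mul_right_cancel₀ hne
  have h1 := eps_mul_Q (R := R) hQ0
  have h2 := tt_mul_R2 (Q := Q) hR0
  calc R * (Q ^ 3 * R ^ 2) = R ^ 3 * Q ^ 3 := by ring
    _ = (eps Q R * Q) ^ 3 * (tt Q R * R ^ 2) := by rw [h1, h2]
    _ = eps Q R ^ 3 * tt Q R * (Q ^ 3 * R ^ 2) := by ring

lemma constantCoeff_eps (hQ0 : PowerSeries.constantCoeff Q = 1)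
    (hR0 : PowerSeries.constantCoeff R = 1) : PowerSeries.constantCoeff (eps Q R) = 1 := by
  have := congrArg PowerSeries.constantCoeff (eps_mul_Q (R := R) hQ0)
  simpa [hQ0, hR0] using this

lemma constantCoeff_tt (hQ0 : PowerSeries.constantCoeff Q = 1)
    (hR0 : PowerSeries.constantCoeff R = 1) : PowerSeries.constantCoeff (tt Q R) = 1 := by
  have := congrArg PowerSeries.constantCoeff (tt_mul_R2 (Q := Q) hR0)
  simpa [hQ0, hR0] using this

lemma coeff_one_tt (hQ0 : PowerSeries.constantCoeff Q = 1) (hR0 : PowerSeries.constantCoeff R = 1)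
    (hQ1 : PowerSeries.coeff 1 Q = 240) (hR1 : PowerSeries.coeff 1 R = -504) :
    PowerSeries.coeff 1 (tt Q R) = 1728 := by
  have h := congrArg (PowerSeries.coeff 1) (tt_mul_R2 (Q := Q) hR0)
  have ht0 := constantCoeff_tt hQ0 hR0
  have hQ0' : PowerSeries.coeff 0 Q = 1 := by simpa using hQ0
  have hR0' : PowerSeries.coeff 0 R = 1 := by simpa using hR0
  have ht0' : PowerSeries.coeff 0 (tt Q R) = 1 := by simpa using ht0
  rw [show R ^ 2 = R * R by ring, show Q ^ 3 = Q * (Q * Q) by ring] at h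
  simp only [coeff_one_mul, PowerSeries.coeff_zero_eq_constantCoeff, map_mul, hQ0, hR0, ht0,
    hQ1, hR1] at h
  linear_combination h


/-- Every isobaric expression of weight `k` is `ε ^ m * g(t)` with `k = 2 m`, `deg g ≤ m / 2`. -/
lemma IsoSpan.exists_rep (hQ0 : PowerSeries.constantCoeff Q = 1)
    (hR0 : PowerSeries.constantCoeff R = 1) {k : ℕ} {Y : PowerSeries κ} (h : IsoSpan Q R k Y) :
    ∃ (m : ℕ) (g : κ[X]), k = 2 * m ∧ g.natDegree ≤ m / 2 ∧
      Y = eps Q R ^ m * aeval (tt Q R) g := by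
  induction h with
  | mono a b =>
    refine ⟨2 * a + 3 * b, X ^ (a + b), by ring, ?_, ?_⟩
    · rw [natDegree_X_pow]; omega
    · have hQ := Q_eq hQ0 hR0
      have hR := R_eq hQ0 hR0
      generalize eps Q R = e at hQ hR ⊢
      generalize tt Q R = t at hQ hR ⊢
      rw [map_pow, aeval_X]
      calc Q ^ a * R ^ b = (e ^ 2 * t) ^ a * (e ^ 3 * t) ^ b := by rw [← hQ, ← hR]
        _ = e ^ (2 * a + 3 * b) * t ^ (a + b) := by ring
  | add _ _ ih1 ih2 =>
    obtain ⟨m1, g1, hk1, hd1, e1⟩ := ih1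
    obtain ⟨m2, g2, hk2, hd2, e2⟩ := ih2
    obtain rfl : m1 = m2 := by omega
    exact ⟨m1, g1 + g2, hk1, (natDegree_add_le _ _).trans (max_le hd1 hd2), by
      rw [e1, e2, map_add, mul_add]⟩
  | smul c _ ih =>
    obtain ⟨m, g, hk, hd, e⟩ := ih
    exact ⟨m, c • g, hk, (natDegree_smul_le c g).trans hd, by
      rw [e, map_smul, mul_smul_comm]⟩

/-! ### The Serre derivative in the diagonal chart -/

lemma six_theta_eps {P : PowerSeries κ} (hQ0 : PowerSeries.constantCoeff Q = 1)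
    (hR0 : PowerSeries.constantCoeff R = 1)
    (hθQ : 3 * theta Q = P * Q - R) (hθR : 2 * theta R = P * R - Q ^ 2) :
    6 * theta (eps Q R) = P * eps Q R + eps Q R ^ 2 * (2 - 3 * tt Q R) := by
  have hQ := ne_zero_of_constantCoeff hQ0
  have h1 := eps_mul_Q (R := R) hQ0
  have h2 := Q_eq hQ0 hR0
  have hL : eps Q R * theta Q + Q * theta (eps Q R) = theta R := by
    have := congrArg theta h1
    rw [Derivation.leibniz] at this
    simpa [smul_eq_mul] using this
  generalize eps Q R = e at h1 h2 hL ⊢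
  generalize tt Q R = t at h2 ⊢
  apply mul_left_cancel₀ hQ
  linear_combination 6 * hL + 3 * hθR - 2 * e * hθQ - (3 * P + 2 * e) * h1 - 3 * Q * h2

lemma theta_tt {P : PowerSeries κ} (hQ0 : PowerSeries.constantCoeff Q = 1)
    (hR0 : PowerSeries.constantCoeff R = 1)
    (hθQ : 3 * theta Q = P * Q - R) (hθR : 2 * theta R = P * R - Q ^ 2) :
    theta (tt Q R) = eps Q R * tt Q R * (tt Q R - 1) := by
  have hR := ne_zero_of_constantCoeff hR0
  have h1 := eps_mul_Q (R := R) hQ0
  have h2 := Q_eq hQ0 hR0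
  have h3 := tt_mul_R2 (Q := Q) hR0
  have hL : tt Q R * (R * theta R + R * theta R) + R * R * theta (tt Q R) =
      Q * (Q * theta Q + Q * theta Q) + Q * Q * theta Q := by
    have := congrArg theta h3
    rw [show R ^ 2 = R * R by ring, show Q ^ 3 = Q * (Q * Q) by ring] at this
    simp only [Derivation.leibniz, smul_eq_mul] at this
    linear_combination this
  generalize eps Q R = e at h1 h2 hL ⊢
  generalize tt Q R = t at h2 h3 hL ⊢
  apply mul_left_cancel₀ (pow_ne_zero 2 hR)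
  linear_combination hL + Q ^ 2 * hθQ - t * R * hθR - P * h3 +
    (t - 1) * R * (Q * h2 + e * t * h1)

end Chart

/-- The chart form of (six times) the Serre derivative of weight `2 a`. -/
def Eop (a : κ) (g : κ[X]) : κ[X] :=
  C 6 * X * (X - 1) * derivative g - C a * (3 * X - 2) * g

lemma six_theta_rep {P Q R : PowerSeries κ} (hQ0 : PowerSeries.constantCoeff Q = 1)
    (hR0 : PowerSeries.constantCoeff R = 1)
    (hθQ : 3 * theta Q = P * Q - R) (hθR : 2 * theta R = P * R - Q ^ 2) (m : ℕ) (g : κ[X]) :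
    6 * theta (eps Q R ^ m * aeval (tt Q R) g) =
      (m : PowerSeries κ) * (P * (eps Q R ^ m * aeval (tt Q R) g)) +
        eps Q R ^ (m + 1) * aeval (tt Q R) (Eop (m : κ) g) := by
  have he := six_theta_eps hQ0 hR0 hθQ hθR
  have ht := theta_tt hQ0 hR0 hθQ hθR
  generalize eps Q R = e at he ht ⊢
  generalize tt Q R = t at he ht ⊢
  have hE : aeval t (Eop (m : κ) g) =
      6 * t * (t - 1) * aeval t (derivative g) - (m : PowerSeries κ) * (3 * t - 2) * aeval t g := by
    have h3 : aeval t (3 : κ[X]) = 3 := map_ofNat (aeval t) 3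
    have h2 : aeval t (2 : κ[X]) = 2 := map_ofNat (aeval t) 2
    have h6 : PowerSeries.C (6 : κ) = 6 := map_ofNat (PowerSeries.C (R := κ)) 6
    simp [Eop, map_sub, map_mul, h3, h2, h6]
  rw [hE, Derivation.leibniz, Derivation.map_aeval, Derivation.leibniz_pow]
  simp only [smul_eq_mul, nsmul_eq_mul]
  rcases m with _ | n
  · simp only [Nat.cast_zero, zero_mul, pow_zero, zero_add, pow_one, mul_zero, add_zero, sub_zero,
      one_mul]
    linear_combination 6 * aeval t (derivative g) * ht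
  · simp only [Nat.add_sub_cancel]
    push_cast
    linear_combination 6 * e ^ (n + 1) * aeval t (derivative g) * ht +
      (aeval t g) * ((n : PowerSeries κ) + 1) * e ^ n * he

/-! ### Characteristic `ℓ ≥ 5` -/

section CharL

variable (ℓ : ℕ) [hℓ : Fact ℓ.Prime] [CharP κ ℓ]

omit hℓ in
lemma natCast_ne_zero_of_lt {d : ℕ} (hd0 : 0 < d) (hd : d < ℓ) : (d : κ) ≠ 0 := by
  intro h
  have := (CharP.cast_eq_zero_iff κ ℓ d).mp h
  exact absurd (Nat.le_of_dvd hd0 this) (by omega)

omit hℓ in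
lemma two_ne_zero_of_five_le (h5 : 5 ≤ ℓ) : (2 : κ) ≠ 0 := by
  have := natCast_ne_zero_of_lt (κ := κ) ℓ (d := 2) (by norm_num) (by omega)
  exact_mod_cast this

omit hℓ in
lemma three_ne_zero_of_five_le (h5 : 5 ≤ ℓ) : (3 : κ) ≠ 0 := by
  have := natCast_ne_zero_of_lt (κ := κ) ℓ (d := 3) (by norm_num) (by omega)
  exact_mod_cast this

omit hℓ in
/-- The second-order ODE satisfied by the chart polynomial of `1` in weight `ℓ - 1 = 2 m`. -/
lemma ode_of_rep (h5 : 5 ≤ ℓ) {P Q R : PowerSeries κ} (hQ0 : PowerSeries.constantCoeff Q = 1)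
    (hR0 : PowerSeries.constantCoeff R = 1)
    (hQ1 : PowerSeries.coeff 1 Q = 240) (hR1 : PowerSeries.coeff 1 R = -504)
    (hθQ : 3 * theta Q = P * Q - R) (hθR : 2 * theta R = P * R - Q ^ 2)
    (hθP : 12 * theta P = P ^ 2 - Q) (m : ℕ) (hm : ℓ = 2 * m + 1) (g : κ[X])
    (hg : (1 : PowerSeries κ) = eps Q R ^ m * aeval (tt Q R) g) :
    4 * Eop ((m : κ) + 1) (Eop (m : κ) g) + X * g = 0 := by
  have h2 := two_ne_zero_of_five_le (κ := κ) ℓ h5
  have h3 := three_ne_zero_of_five_le (κ := κ) ℓ h5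
  have hchar : 2 * (m : PowerSeries κ) + 1 = 0 := by
    have h := CharP.cast_eq_zero κ ℓ
    rw [hm] at h
    have h' := congrArg (PowerSeries.C (R := κ)) h
    rw [map_zero, map_natCast] at h'
    rw [← h']
    push_cast
    ring
  have ht0 := constantCoeff_tt hQ0 hR0
  have ht1 : PowerSeries.coeff 1 (tt Q R) ≠ 0 := by
    rw [coeff_one_tt hQ0 hR0 hQ1 hR1]
    have : (1728 : κ) = 2 ^ 6 * 3 ^ 3 := by norm_num
    rw [this]
    exact mul_ne_zero (pow_ne_zero _ h2) (pow_ne_zero _ h3)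
  apply aeval_eq_zero_of_order_one ht0 ht1
  have s1 := six_theta_rep hQ0 hR0 hθQ hθR m g
  have s2 := six_theta_rep hQ0 hR0 hθQ hθR (m + 1) (Eop (m : κ) g)
  have hQ := Q_eq hQ0 hR0
  have he0 : eps Q R ≠ 0 := ne_zero_of_constantCoeff (constantCoeff_eps hQ0 hR0)
  rw [← hg] at s1
  have h4 : aeval (tt Q R) (4 : κ[X]) = 4 := map_ofNat (aeval (tt Q R)) 4
  simp only [map_add, map_mul, aeval_X, h4]
  push_cast at s2
  generalize aeval (tt Q R) (Eop ((m : κ) + 1) (Eop (m : κ) g)) = A2 at s2 ⊢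
  generalize aeval (tt Q R) (Eop (m : κ) g) = A1 at s1 s2 ⊢
  generalize aeval (tt Q R) g = G at hg ⊢
  generalize eps Q R = e at s1 s2 hQ he0 hg ⊢
  generalize tt Q R = t at s1 s2 hQ hg ⊢
  have s1' : e ^ (m + 1) * A1 = -(m : PowerSeries κ) * P := by
    have : theta (1 : PowerSeries κ) = 0 := Derivation.map_one_eq_zero _
    rw [this] at s1
    linear_combination -s1
  have hY : theta (e ^ (m + 1) * A1) = -(m : PowerSeries κ) * theta P := by
    rw [s1', Derivation.leibniz]
    simp [smul_eq_mul]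
  apply mul_left_cancel₀ (pow_ne_zero (m + 2) he0)
  linear_combination (-4) * s2 + 24 * hY - 2 * (m : PowerSeries κ) * hθP -
    4 * ((m : PowerSeries κ) + 1) * P * s1' - e ^ 2 * t * hg - hQ +
    (Q + 2 * (m : PowerSeries κ) * P ^ 2) * hchar

end CharL

/-! ### Polynomial lemmas for `Eop` -/

lemma Eop_X_sub_C_pow_mul (a α : κ) (n : ℕ) (u : κ[X]) :
    Eop a ((X - C α) ^ (n + 1) * u) =
      (X - C α) ^ n * (C 6 * C ((n + 1 : ℕ) : κ) * X * (X - 1) * u + (X - C α) * Eop a u) := by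
  unfold Eop
  rw [derivative_mul, derivative_X_sub_C_pow]
  simp only [Nat.add_sub_cancel]
  ring

lemma Eop_X_pow_mul (a : κ) (r : ℕ) (h : κ[X]) :
    Eop a (X ^ r * h) = X ^ r * (Eop a h + C 6 * C (r : κ) * (X - 1) * h) := by
  unfold Eop
  rw [derivative_mul, derivative_X_pow]
  rcases r with _ | n
  · simp
  · simp only [Nat.add_sub_cancel]
    ring

section Local

variable (ℓ : ℕ) [hℓ : Fact ℓ.Prime] [CharP κ ℓ]

include hℓ in
/-- A root `α ≠ 0, 1` of a solution of the ODE of multiplicity `≥ 2` has multiplicity `≥ ℓ`. -/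
lemma le_rootMultiplicity_of_ode (h5 : 5 ≤ ℓ) (a : κ) {g : κ[X]} (hg : g ≠ 0)
    (ode : 4 * Eop (a + 1) (Eop a g) + X * g = 0) {α : κ} (hα0 : α ≠ 0) (hα1 : α ≠ 1)
    (hn : 2 ≤ rootMultiplicity α g) : ℓ ≤ rootMultiplicity α g := by
  have h2 := two_ne_zero_of_five_le (κ := κ) ℓ h5
  have h3 := three_ne_zero_of_five_le (κ := κ) ℓ h5
  obtain ⟨u, hu, hnd⟩ := g.exists_eq_pow_rootMultiplicity_mul_and_not_dvd hg α
  rw [dvd_iff_isRoot] at hnd
  obtain ⟨n, hn'⟩ : ∃ n, rootMultiplicity α g = n + 2 := ⟨rootMultiplicity α g - 2, by omega⟩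
  rw [hn'] at hu ⊢
  have e1 := Eop_X_sub_C_pow_mul a α (n + 1) u
  have e2 := Eop_X_sub_C_pow_mul (a + 1) α n
    (C 6 * C ((n + 1 + 1 : ℕ) : κ) * X * (X - 1) * u + (X - C α) * Eop a u)
  rw [hu, e1, e2] at ode
  have hfac : (X - C α) ^ n * (4 * (C 6 * C ((n + 1 : ℕ) : κ) * X * (X - 1) *
      (C 6 * C ((n + 1 + 1 : ℕ) : κ) * X * (X - 1) * u + (X - C α) * Eop a u) +
      (X - C α) * Eop (a + 1)
        (C 6 * C ((n + 1 + 1 : ℕ) : κ) * X * (X - 1) * u + (X - C α) * Eop a u)) +
      X * (X - C α) ^ 2 * u) = 0 := by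
    linear_combination ode
  have h0 := (mul_eq_zero.mp hfac).resolve_left (pow_ne_zero _ (X_sub_C_ne_zero α))
  have h1 := congrArg (eval α) h0
  simp only [eval_add, eval_mul, eval_sub, eval_C, eval_X, eval_pow, eval_ofNat, eval_one,
    sub_self, zero_mul, mul_zero, add_zero, eval_zero, ne_eq, OfNat.ofNat_ne_zero,
    not_false_eq_true, zero_pow] at h1
  have hprod : ((n + 1 : ℕ) : κ) * ((n + 1 + 1 : ℕ) : κ) = 0 := by
    have hne : (4 * 6 * 6 : κ) * α ^ 2 * (α - 1) ^ 2 * eval α u ≠ 0 := by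
      have h6 : (6 : κ) ≠ 0 := by
        have : (6 : κ) = 2 * 3 := by norm_num
        rw [this]; exact mul_ne_zero h2 h3
      have h4 : (4 : κ) ≠ 0 := by
        have : (4 : κ) = 2 * 2 := by norm_num
        rw [this]; exact mul_ne_zero h2 h2
      exact mul_ne_zero (mul_ne_zero (mul_ne_zero (mul_ne_zero (mul_ne_zero h4 h6) h6)
        (pow_ne_zero _ hα0)) (pow_ne_zero _ (sub_ne_zero.mpr hα1))) hnd
    apply mul_left_cancel₀ hne
    linear_combination h1
  have hdvd : ℓ ∣ (n + 1) * (n + 1 + 1) := by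
    apply (CharP.cast_eq_zero_iff κ ℓ _).mp
    push_cast
    push_cast at hprod
    exact hprod
  rcases (Nat.Prime.dvd_mul hℓ.out).mp hdvd with h | h
  · have := Nat.le_of_dvd (by omega) h; omega
  · have := Nat.le_of_dvd (by omega) h; omega

omit hℓ in
/-- If the solution of the ODE is a monomial `c X ^ r`, then `ℓ ∈ {5, 7, 11}` and `r` is pinned. -/
lemma dvd_of_ode_monomial (h5 : 5 ≤ ℓ) (a : κ) (ha : 2 * a + 1 = 0) (r : ℕ) (c : κ) (hc : c ≠ 0)
    (ode : 4 * Eop (a + 1) (Eop a (X ^ r * C c)) + X * (X ^ r * C c) = 0) :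
    ℓ ∣ 385 ∧ ℓ ∣ 144 * r + 31 := by
  have h2 := two_ne_zero_of_five_le (κ := κ) ℓ h5
  have h3 := three_ne_zero_of_five_le (κ := κ) ℓ h5
  rw [Eop_X_pow_mul, Eop_X_pow_mul] at ode
  have hfac : X ^ r * (4 * (Eop (a + 1) (Eop a (C c) + C 6 * C (r : κ) * (X - 1) * C c) +
      C 6 * C (r : κ) * (X - 1) * (Eop a (C c) + C 6 * C (r : κ) * (X - 1) * C c)) + X * C c)
      = 0 := by
    linear_combination ode
  have hp := (mul_eq_zero.mp hfac).resolve_left (pow_ne_zero _ X_ne_zero)
  have hp0 := congrArg (eval 0) hp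
  have hp1 := congrArg (eval (-1)) hp
  simp only [Eop, derivative_add, derivative_sub, derivative_mul, derivative_C, derivative_X,
    derivative_one, derivative_ofNat, derivative_neg, eval_neg, eval_add, eval_mul, eval_sub, eval_C, eval_X, eval_ofNat,
    eval_one, eval_zero, mul_zero, zero_mul, add_zero, zero_add, sub_zero, mul_one, zero_sub]
    at hp0 hp1
  have e0 : 36 * (r : κ) ^ 2 - 1 = 0 := by
    have : (4 * c) * (36 * (r : κ) ^ 2 - 1) = 0 := by
      linear_combination hp0 - 4 * c * (2 * a + 1 - 12 * r) * ha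
    have h4c : (4 * c : κ) ≠ 0 := by
      have : (4 : κ) = 2 * 2 := by norm_num
      rw [this]; exact mul_ne_zero (mul_ne_zero h2 h2) hc
    exact (mul_eq_zero.mp this).resolve_left h4c
  have e1 : 576 * (r : κ) ^ 2 + 288 * r + 46 = 0 := by
    have : c * (576 * (r : κ) ^ 2 + 288 * r + 46) = 0 := by
      linear_combination hp1 - c * (50 * a - 47 - 240 * r) * ha
    exact (mul_eq_zero.mp this).resolve_left hc
  have e2 : 144 * (r : κ) + 31 = 0 := by
    have : (2 : κ) * (144 * (r : κ) + 31) = 0 := by linear_combination e1 - 16 * e0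
    exact (mul_eq_zero.mp this).resolve_left h2
  have e3 : (385 : κ) = 0 := by
    linear_combination 576 * e0 - (144 * (r : κ) - 31) * e2
  constructor
  · apply (CharP.cast_eq_zero_iff κ ℓ _).mp
    exact_mod_cast e3
  · apply (CharP.cast_eq_zero_iff κ ℓ _).mp
    push_cast
    exact e2

end Local

/-! ### Root multiplicity helpers -/

lemma rootMultiplicity_pow' {p : κ[X]} (hp : p ≠ 0) (a : κ) (n : ℕ) :
    rootMultiplicity a (p ^ n) = n * rootMultiplicity a p := by
  induction n with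
  | zero => simp
  | succ n ih =>
    rw [pow_succ, rootMultiplicity_mul (mul_ne_zero (pow_ne_zero _ hp) hp), ih]
    ring

lemma rootMultiplicity_C_mul' {p : κ[X]} (hp : p ≠ 0) {c : κ} (hc : c ≠ 0) (a : κ) :
    rootMultiplicity a (C c * p) = rootMultiplicity a p := by
  rw [rootMultiplicity_mul (mul_ne_zero (C_ne_zero.mpr hc) hp), rootMultiplicity_C, zero_add]

lemma rootMultiplicity_le_natDegree' {p : κ[X]} (hp : p ≠ 0) (a : κ) :
    rootMultiplicity a p ≤ p.natDegree := by
  obtain ⟨u, hu, -⟩ := p.exists_eq_pow_rootMultiplicity_mul_and_not_dvd hp a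
  have hu0 : u ≠ 0 := by
    rintro rfl
    rw [mul_zero] at hu
    exact hp hu
  conv_rhs => rw [hu]
  rw [natDegree_mul (pow_ne_zero _ (X_sub_C_ne_zero a)) hu0, natDegree_pow, natDegree_X_sub_C]
  omega

/-! ### The main theorem -/

/-- The algebraic Swinnerton-Dyer weight congruence over an algebraically closed field. -/
theorem sdw_alg_closed [IsAlgClosed κ] (ℓ : ℕ) [hℓ : Fact ℓ.Prime] [CharP κ ℓ] (h5 : 5 ≤ ℓ)
    (P Q R : PowerSeries κ)
    (hQ0 : PowerSeries.constantCoeff Q = 1) (hR0 : PowerSeries.constantCoeff R = 1)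
    (hQ1 : PowerSeries.coeff 1 Q = 240) (hR1 : PowerSeries.coeff 1 R = -504)
    (hθQ : 3 * theta Q = P * Q - R) (hθR : 2 * theta R = P * R - Q ^ 2)
    (hθP : 12 * theta P = P ^ 2 - Q)
    (k : ℕ) (c : κ) (hc : c ≠ 0)
    (hA : IsoSpan Q R (ℓ - 1) 1) (hF : IsoSpan Q R k (PowerSeries.C c)) : ℓ - 1 ∣ k := by
  have h2 := two_ne_zero_of_five_le (κ := κ) ℓ h5
  have h3 := three_ne_zero_of_five_le (κ := κ) ℓ h5
  obtain ⟨m, gA, hm, hdA, eA⟩ := hA.exists_rep hQ0 hR0
  obtain ⟨m', gF, hm', hdF, eF⟩ := hF.exists_rep hQ0 hR0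
  have hℓm : ℓ = 2 * m + 1 := by omega
  have he1 := constantCoeff_eps hQ0 hR0
  have ht0 := constantCoeff_tt hQ0 hR0
  have ht1 : PowerSeries.coeff 1 (tt Q R) ≠ 0 := by
    rw [coeff_one_tt hQ0 hR0 hQ1 hR1]
    have : (1728 : κ) = 2 ^ 6 * 3 ^ 3 := by norm_num
    rw [this]
    exact mul_ne_zero (pow_ne_zero _ h2) (pow_ne_zero _ h3)
  have he0 : eps Q R ≠ 0 := ne_zero_of_constantCoeff he1
  have gA1 : gA.eval 1 = 1 := by
    have := congrArg PowerSeries.constantCoeff eA
    rw [map_mul, map_pow, he1, one_pow, one_mul, constantCoeff_aeval, ht0] at this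
    simpa using this.symm
  have gA0 : gA ≠ 0 := by
    rintro rfl
    simp at gA1
  have gF0 : gF ≠ 0 := by
    rintro rfl
    rw [map_zero, mul_zero] at eF
    have := congrArg PowerSeries.constantCoeff eF
    simp at this
    exact hc this
  have key : gF ^ (2 * m) = C c ^ (2 * m) * gA ^ (2 * m') := by
    rw [← sub_eq_zero]
    apply aeval_eq_zero_of_order_one ht0 ht1
    simp only [map_sub, map_mul, map_pow, aeval_C]
    apply mul_left_cancel₀ (pow_ne_zero (2 * m * m') he0)
    rw [mul_zero]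
    have h1 : (PowerSeries.C c) ^ (2 * m) = (eps Q R ^ m' * aeval (tt Q R) gF) ^ (2 * m) := by
      rw [← eF]
    have h2 : (1 : PowerSeries κ) ^ (2 * m') = (eps Q R ^ m * aeval (tt Q R) gA) ^ (2 * m') := by
      rw [← eA]
    have h3 : algebraMap κ (PowerSeries κ) c = PowerSeries.C c := rfl
    rw [h3]
    rw [one_pow] at h2
    linear_combination (-1 : PowerSeries κ) * h1 + (PowerSeries.C c) ^ (2 * m) * h2
  have ode := ode_of_rep ℓ h5 hQ0 hR0 hQ1 hR1 hθQ hθR hθP m hℓm gA eA
  have ha : 2 * (m : κ) + 1 = 0 := by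
    have := CharP.cast_eq_zero κ ℓ
    rw [hℓm] at this
    push_cast at this
    exact this
  have hkey_mult : ∀ α : κ, 2 * m * rootMultiplicity α gF = 2 * m' * rootMultiplicity α gA := by
    intro α
    have := congrArg (rootMultiplicity α) key
    rwa [rootMultiplicity_pow' gF0, ← C_pow,
      rootMultiplicity_C_mul' (pow_ne_zero _ gA0) (pow_ne_zero _ hc),
      rootMultiplicity_pow' gA0] at this
  obtain ⟨u, hu, hnd⟩ := gA.exists_eq_pow_rootMultiplicity_mul_and_not_dvd gA0 0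
  by_cases hdeg : u.degree = 0
  · -- `gA` is a monomial
    obtain ⟨c', hc'⟩ : ∃ c', u = C c' := ⟨u.coeff 0, eq_C_of_degree_eq_zero hdeg⟩
    have hc'0 : c' ≠ 0 := by
      rintro rfl
      rw [hc', map_zero, mul_zero] at hu
      exact gA0 hu
    have hgA : gA = X ^ rootMultiplicity 0 gA * C c' := by
      conv_lhs => rw [hu, hc']
      simp
    have hrm : rootMultiplicity 0 gA ≤ m / 2 := (rootMultiplicity_le_natDegree' gA0 0).trans hdA
    have hmult := hkey_mult 0
    generalize rootMultiplicity 0 gA = r at hgA hrm hmult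
    generalize rootMultiplicity 0 gF = s at hmult
    rw [hgA] at ode
    obtain ⟨d385, d144⟩ := dvd_of_ode_monomial ℓ h5 (m : κ) ha r c' hc'0 ode
    have hℓ3 : ℓ = 5 ∨ ℓ = 7 ∨ ℓ = 11 := by
      have h385 : (385 : ℕ) = 5 * 7 * 11 := by norm_num
      rw [h385] at d385
      rcases (Nat.Prime.dvd_mul hℓ.out).mp d385 with h | h
      · rcases (Nat.Prime.dvd_mul hℓ.out).mp h with h | h
        · left; exact (Nat.prime_dvd_prime_iff_eq hℓ.out (by norm_num)).mp h
        · right; left; exact (Nat.prime_dvd_prime_iff_eq hℓ.out (by norm_num)).mp h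
      · right; right; exact (Nat.prime_dvd_prime_iff_eq hℓ.out (by norm_num)).mp h
    rcases hℓ3 with h | h | h
    · subst h
      obtain rfl : m = 2 := by omega
      obtain rfl : r = 1 := by omega
      exact ⟨s, by omega⟩
    · subst h
      obtain rfl : m = 3 := by omega
      obtain rfl : r = 1 := by omega
      exact ⟨s, by omega⟩
    · subst h
      obtain rfl : m = 5 := by omega
      obtain rfl : r = 2 := by omega
      exact ⟨s / 2, by omega⟩
  · -- `gA` has a nonzero root, which is simple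
    obtain ⟨α, hα⟩ := IsAlgClosed.exists_root u hdeg
    have hα0 : α ≠ 0 := by
      rintro rfl
      exact hnd (dvd_iff_isRoot.mpr hα)
    have hαA : gA.IsRoot α := by
      rw [hu, IsRoot.def, eval_mul, hα.eq_zero, mul_zero]
    have hα1 : α ≠ 1 := by
      rintro rfl
      rw [IsRoot.def, gA1] at hαA
      exact one_ne_zero hαA
    have hn1 : 1 ≤ rootMultiplicity α gA := (rootMultiplicity_pos gA0).mpr hαA
    have hnle : rootMultiplicity α gA ≤ m / 2 := (rootMultiplicity_le_natDegree' gA0 α).trans hdA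
    have hn : rootMultiplicity α gA = 1 := by
      by_contra hne
      have := le_rootMultiplicity_of_ode ℓ h5 (m : κ) gA0 ode hα0 hα1 (by omega)
      omega
    have hmult := hkey_mult α
    rw [hn, mul_one] at hmult
    refine ⟨rootMultiplicity α gF, ?_⟩
    have h1 : ℓ - 1 = 2 * m := by omega
    rw [h1, hm']
    exact hmult.symm

/-- **Algebraic Swinnerton-Dyer weight congruence.** Let `κ` be a field of characteristic `ℓ ≥ 5`
and `P, Q, R ∈ κ⟦X⟧` satisfy Ramanujan's identities with `Q = 1 + 240 X + ⋯`, `R = 1 - 504 X + ⋯`.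
If `1` is an isobaric expression of weight `ℓ - 1` in `Q, R` and a nonzero constant `c` is an
isobaric expression of weight `k`, then `ℓ - 1 ∣ k`. -/
theorem sdw_alg (ℓ : ℕ) [hℓ : Fact ℓ.Prime] [CharP κ ℓ] (h5 : 5 ≤ ℓ)
    (P Q R : PowerSeries κ)
    (hQ0 : PowerSeries.constantCoeff Q = 1) (hR0 : PowerSeries.constantCoeff R = 1)
    (hQ1 : PowerSeries.coeff 1 Q = 240) (hR1 : PowerSeries.coeff 1 R = -504)
    (hθQ : 3 * theta Q = P * Q - R) (hθR : 2 * theta R = P * R - Q ^ 2)
    (hθP : 12 * theta P = P ^ 2 - Q)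
    (k : ℕ) (c : κ) (hc : c ≠ 0)
    (hA : IsoSpan Q R (ℓ - 1) 1) (hF : IsoSpan Q R k (PowerSeries.C c)) : ℓ - 1 ∣ k := by
  let φ : κ →+* AlgebraicClosure κ := algebraMap κ (AlgebraicClosure κ)
  have : CharP (AlgebraicClosure κ) ℓ :=
    charP_of_injective_algebraMap (algebraMap κ (AlgebraicClosure κ)).injective ℓ
  have h3 : PowerSeries.map φ (3 : PowerSeries κ) = 3 := map_ofNat (PowerSeries.map φ) 3
  have h2 : PowerSeries.map φ (2 : PowerSeries κ) = 2 := map_ofNat (PowerSeries.map φ) 2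
  have h12 : PowerSeries.map φ (12 : PowerSeries κ) = 12 := map_ofNat (PowerSeries.map φ) 12
  refine sdw_alg_closed (κ := AlgebraicClosure κ) ℓ h5 (PowerSeries.map φ P) (PowerSeries.map φ Q)
    (PowerSeries.map φ R) ?_ ?_ ?_ ?_ ?_ ?_ ?_ k (φ c) ((map_ne_zero φ).mpr hc) ?_ ?_
  · rw [← PowerSeries.coeff_zero_eq_constantCoeff_apply, PowerSeries.coeff_map,
      PowerSeries.coeff_zero_eq_constantCoeff_apply, hQ0, map_one]
  · rw [← PowerSeries.coeff_zero_eq_constantCoeff_apply, PowerSeries.coeff_map,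
      PowerSeries.coeff_zero_eq_constantCoeff_apply, hR0, map_one]
  · rw [PowerSeries.coeff_map, hQ1, map_ofNat]
  · rw [PowerSeries.coeff_map, hR1, map_neg, map_ofNat]
  · rw [theta_map, ← h3, ← map_mul, hθQ, map_sub, map_mul]
  · rw [theta_map, ← h2, ← map_mul, hθR, map_sub, map_mul, map_pow]
  · rw [theta_map, ← h12, ← map_mul, hθP, map_sub, map_pow]
  · simpa using hA.map φ
  · have := hF.map φ
    rwa [PowerSeries.map_C] at this

end Fermat.Agent.S16_SDwAlg
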