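import Mathlib
import Fermat.Agent.S16_SDwAlg

/-!
# S16_L1Int (helper3): integral structure of level-one modular forms

* `QZ RZ DZ : PowerSeries ℤ`: the integer `q`-expansions of `E₄`, `E₆`, `Δ`
  (`1728 * DZ = QZ ^ 3 - RZ ^ 2`, `DZ = X + ⋯`), with the cast lemmas to `ℂ`.
* `peel`: a level-one form of weight `k` is `a₀ E₄^a E₆^b + Δ · g` with `g` of weight `k - 12`.
* `sturm_addSubgroup`: **integral Sturm bound** - for ANY additive subgroup `A ≤ ℂ`, if the
  coefficients `a_n`, `n ≤ k / 12`, of a level-one form of weight `k` lie in `A`, then all do.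
* `L1Span A k Y`: `Y ∈ A⟦X⟧` is an `A`-combination of `E₄^a E₆^b Δ^c` (weight `k`), and
  `exists_l1Span`: a level-one form with coefficients in a subring `S ≤ ℂ` has its `q`-expansion
  in `L1Span S k`; `L1Span.map`, and `L1Span.isoSpan` (the bridge to `S16_SDwAlg.IsoSpan` over a
  field in which `2, 3` are invertible).
-/

set_option autoImplicit false

noncomputable section

open UpperHalfPlane ModularForm ModularFormClass MatrixGroups EisensteinSeries

namespace Fermat.Agent.S16_L1Int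

/-! ### The integer series -/

/-- `∑ σ₃(n) qⁿ`. -/
def AZ : PowerSeries ℤ := PowerSeries.mk fun n => if n = 0 then 0 else (ArithmeticFunction.sigma 3 n : ℤ)

/-- `∑ σ₅(n) qⁿ`. -/
def BZ : PowerSeries ℤ := PowerSeries.mk fun n => if n = 0 then 0 else (ArithmeticFunction.sigma 5 n : ℤ)

/-- The integer `q`-expansion of `E₄`. -/
def QZ : PowerSeries ℤ := 1 + 240 * AZ

/-- The integer `q`-expansion of `E₆`. -/
def RZ : PowerSeries ℤ := 1 - 504 * BZ

lemma coeff_QZ (n : ℕ) :
    PowerSeries.coeff n QZ = if n = 0 then 1 else 240 * (ArithmeticFunction.sigma 3 n : ℤ) := by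
  have h240 : (240 : PowerSeries ℤ) = PowerSeries.C (240 : ℤ) := (map_ofNat (PowerSeries.C (R := ℤ)) 240).symm
  rw [QZ, map_add, h240, PowerSeries.coeff_C_mul, AZ, PowerSeries.coeff_mk, PowerSeries.coeff_one]
  split_ifs <;> simp

lemma coeff_RZ (n : ℕ) :
    PowerSeries.coeff n RZ = if n = 0 then 1 else -504 * (ArithmeticFunction.sigma 5 n : ℤ) := by
  have h504 : (504 : PowerSeries ℤ) = PowerSeries.C (504 : ℤ) := (map_ofNat (PowerSeries.C (R := ℤ)) 504).symm
  rw [RZ, map_sub, h504, PowerSeries.coeff_C_mul, BZ, PowerSeries.coeff_mk, PowerSeries.coeff_one]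
  split_ifs <;> simp

lemma twelve_dvd_aux (d : ℕ) : (12 : ℤ) ∣ 5 * (d : ℤ) ^ 3 + 7 * (d : ℤ) ^ 5 := by
  have h : ∀ x : ZMod 12, 5 * x ^ 3 + 7 * x ^ 5 = 0 := by decide
  have h1 : (((5 * (d : ℤ) ^ (3 : ℕ) + 7 * (d : ℤ) ^ (5 : ℕ) : ℤ)) : ZMod 12) = 0 := by
    push_cast
    exact h (d : ZMod 12)
  have h2 := (ZMod.intCast_zmod_eq_zero_iff_dvd
    (5 * (d : ℤ) ^ (3 : ℕ) + 7 * (d : ℤ) ^ (5 : ℕ)) 12).mp h1
  exact_mod_cast h2

lemma twelve_dvd_sigma (n : ℕ) :
    (12 : ℤ) ∣ 5 * (ArithmeticFunction.sigma 3 n : ℤ) + 7 * (ArithmeticFunction.sigma 5 n : ℤ) := by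
  rw [ArithmeticFunction.sigma_apply, ArithmeticFunction.sigma_apply]
  push_cast
  rw [Finset.mul_sum, Finset.mul_sum, ← Finset.sum_add_distrib]
  exact Finset.dvd_sum fun d _ => twelve_dvd_aux d

/-- `(5 A + 7 B) / 12`. -/
def CZ : PowerSeries ℤ := PowerSeries.mk fun n =>
  if n = 0 then 0 else (5 * (ArithmeticFunction.sigma 3 n : ℤ) + 7 * (ArithmeticFunction.sigma 5 n : ℤ)) / 12

lemma twelve_mul_CZ : 12 * CZ = 5 * AZ + 7 * BZ := by
  have h12 : (12 : PowerSeries ℤ) = PowerSeries.C (12 : ℤ) := (map_ofNat (PowerSeries.C (R := ℤ)) 12).symm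
  have h5 : (5 : PowerSeries ℤ) = PowerSeries.C (5 : ℤ) := (map_ofNat (PowerSeries.C (R := ℤ)) 5).symm
  have h7 : (7 : PowerSeries ℤ) = PowerSeries.C (7 : ℤ) := (map_ofNat (PowerSeries.C (R := ℤ)) 7).symm
  ext n
  rw [h12, h5, h7, map_add, PowerSeries.coeff_C_mul, PowerSeries.coeff_C_mul, PowerSeries.coeff_C_mul,
    CZ, AZ, BZ, PowerSeries.coeff_mk, PowerSeries.coeff_mk, PowerSeries.coeff_mk]
  split_ifs with h
  · simp
  · exact Int.mul_ediv_cancel' (twelve_dvd_sigma n)

/-- The integer `q`-expansion of `Δ`. -/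
def DZ : PowerSeries ℤ := CZ + 100 * AZ ^ 2 + 8000 * AZ ^ 3 - 147 * BZ ^ 2

lemma DZ_spec : 1728 * DZ = QZ ^ 3 - RZ ^ 2 := by
  rw [DZ, QZ, RZ]
  linear_combination 144 * twelve_mul_CZ

lemma coeff_one_mul' {A : Type*} [CommRing A] (f g : PowerSeries A) :
    PowerSeries.coeff 1 (f * g) =
      PowerSeries.coeff 0 f * PowerSeries.coeff 1 g + PowerSeries.coeff 1 f * PowerSeries.coeff 0 g := by
  simp [PowerSeries.coeff_mul, Finset.Nat.antidiagonal_succ]

lemma coeff_zero_mul' {A : Type*} [CommRing A] (f g : PowerSeries A) :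
    PowerSeries.coeff 0 (f * g) = PowerSeries.coeff 0 f * PowerSeries.coeff 0 g := by
  simp

lemma coeff_zero_AZ : PowerSeries.coeff 0 AZ = 0 := by simp [AZ]
lemma coeff_zero_BZ : PowerSeries.coeff 0 BZ = 0 := by simp [BZ]
lemma coeff_one_AZ : PowerSeries.coeff 1 AZ = 1 := by simp [AZ]
lemma coeff_one_BZ : PowerSeries.coeff 1 BZ = 1 := by simp [BZ]
lemma coeff_zero_QZ : PowerSeries.coeff 0 QZ = 1 := by simp [coeff_QZ]
lemma coeff_zero_RZ : PowerSeries.coeff 0 RZ = 1 := by simp [coeff_RZ]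
lemma coeff_one_QZ : PowerSeries.coeff 1 QZ = 240 := by simp [coeff_QZ]
lemma coeff_one_RZ : PowerSeries.coeff 1 RZ = -504 := by simp [coeff_RZ]

lemma coeff_zero_DZ : PowerSeries.coeff 0 DZ = 0 := by
  have h := congrArg (PowerSeries.coeff 0) DZ_spec
  have h1728 : (1728 : PowerSeries ℤ) = PowerSeries.C (1728 : ℤ) :=
    (map_ofNat (PowerSeries.C (R := ℤ)) 1728).symm
  rw [h1728, PowerSeries.coeff_C_mul] at h
  simp only [PowerSeries.coeff_zero_eq_constantCoeff, map_sub, map_pow] at h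
  have hQ : PowerSeries.constantCoeff QZ = 1 := by simpa using coeff_zero_QZ
  have hR : PowerSeries.constantCoeff RZ = 1 := by simpa using coeff_zero_RZ
  rw [hQ, hR] at h
  simpa using h

lemma coeff_one_DZ : PowerSeries.coeff 1 DZ = 1 := by
  have h := congrArg (PowerSeries.coeff 1) DZ_spec
  have h1728 : (1728 : PowerSeries ℤ) = PowerSeries.C (1728 : ℤ) :=
    (map_ofNat (PowerSeries.C (R := ℤ)) 1728).symm
  rw [h1728, PowerSeries.coeff_C_mul, map_sub, show QZ ^ 3 = QZ * (QZ * QZ) by ring,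
    show RZ ^ 2 = RZ * RZ by ring] at h
  simp only [coeff_one_mul', coeff_zero_mul', coeff_zero_QZ, coeff_zero_RZ, coeff_one_QZ,
    coeff_one_RZ] at h
  omega

/-! ### Casts to `ℂ` -/

lemma qExpansion_E4 : qExpansion 1 E₄ = PowerSeries.map (Int.castRingHom ℂ) QZ := by
  ext n
  rw [E_qExpansion_coeff (by norm_num) ⟨2, rfl⟩ n, PowerSeries.coeff_map, coeff_QZ]
  have hb : bernoulli 4 = -1 / 30 := by decide +kernel
  split_ifs with h
  · simp
  · rw [hb]; simp only [eq_intCast]; push_cast; ring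

lemma qExpansion_E6 : qExpansion 1 E₆ = PowerSeries.map (Int.castRingHom ℂ) RZ := by
  ext n
  rw [E_qExpansion_coeff (by norm_num) ⟨3, rfl⟩ n, PowerSeries.coeff_map, coeff_RZ]
  have hb : bernoulli 6 = 1 / 42 := by decide +kernel
  split_ifs with h
  · simp
  · rw [hb]; simp only [eq_intCast]; push_cast; ring

/-- `Δ = (E₄³ - E₆²)/1728` on `q`-expansions. -/
lemma qExpansion_discriminant_mul :
    (1728 : PowerSeries ℂ) * qExpansion 1 discriminant = qExpansion 1 E₄ ^ 3 - qExpansion 1 E₆ ^ 2 := by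
  let F12 : ModularForm 𝒮ℒ 12 :=
    ModularForm.mcast (by decide) (E₄.pow 3) - ModularForm.mcast (by decide) (E₆.pow 2)
  have hF : qExpansion 1 F12 = qExpansion 1 E₄ ^ 3 - qExpansion 1 E₆ ^ 2 := by
    simp only [F12, FunLike.coe_sub, coe_mcast,
      ModularForm.qExpansion_sub one_pos one_mem_strictPeriods_SL,
      ModularForm.qExpansion_pow one_pos one_mem_strictPeriods_SL]
  have hfun : ((1728 : ℂ) • (CuspForm.discriminant : ℍ → ℂ)) = F12 := by
    ext z
    have h := discriminant_eq_E₄_cube_sub_E₆_sq z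
    simp only [F12, Pi.smul_apply, smul_eq_mul, FunLike.coe_sub, coe_mcast, coe_pow, Pi.sub_apply,
      Pi.pow_apply]
    have : (CuspForm.discriminant : ℍ → ℂ) z = discriminant z := rfl
    rw [this, h]
    ring
  have hs := ModularForm.qExpansion_smul one_pos one_mem_strictPeriods_SL (1728 : ℂ)
    CuspForm.discriminant
  rw [hfun, hF] at hs
  have hd : qExpansion 1 (CuspForm.discriminant : ℍ → ℂ) = qExpansion 1 discriminant := rfl
  rw [hd] at hs
  rw [hs, PowerSeries.smul_eq_C_mul]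
  congr 1

lemma qExpansion_discriminant :
    qExpansion 1 discriminant = PowerSeries.map (Int.castRingHom ℂ) DZ := by
  have h1 := qExpansion_discriminant_mul
  have h2 := congrArg (PowerSeries.map (Int.castRingHom ℂ)) DZ_spec
  rw [map_mul, map_sub, map_pow, map_pow, ← qExpansion_E4, ← qExpansion_E6, ← h1] at h2
  have h1728 : PowerSeries.map (Int.castRingHom ℂ) (1728 : PowerSeries ℤ) = 1728 :=
    map_ofNat (PowerSeries.map (Int.castRingHom ℂ)) 1728
  rw [h1728] at h2
  have hne : (1728 : PowerSeries ℂ) ≠ 0 := by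
    intro h
    have := congrArg (PowerSeries.coeff 0) h
    have h' : (1728 : PowerSeries ℂ) = PowerSeries.C (1728 : ℂ) :=
      (map_ofNat (PowerSeries.C (R := ℂ)) 1728).symm
    rw [h'] at this
    simp at this
  exact (mul_left_cancel₀ hne h2).symm

/-! ### Peeling off the constant term -/

lemma exists_monomial_weight (k : ℕ) (hk : Even k) (hk2 : k ≠ 2) : ∃ a b : ℕ, 4 * a + 6 * b = k := by
  obtain ⟨m, rfl⟩ := hk
  refine ⟨if m % 2 = 0 then m / 2 else (m - 3) / 2, if m % 2 = 0 then 0 else 1, ?_⟩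
  split_ifs <;> omega

/-- The level-one form `E₄^a E₆^b`. -/
def monoForm (a b : ℕ) : ModularForm 𝒮ℒ ((a : ℤ) * 4 + (b : ℤ) * 6) := (E₄.pow a).mul (E₆.pow b)

lemma qExpansion_monoForm (a b : ℕ) :
    qExpansion 1 (monoForm a b) = qExpansion 1 E₄ ^ a * qExpansion 1 E₆ ^ b := by
  rw [monoForm, ModularForm.qExpansion_mul one_pos one_mem_strictPeriods_SL,
    ModularForm.qExpansion_pow one_pos one_mem_strictPeriods_SL,
    ModularForm.qExpansion_pow one_pos one_mem_strictPeriods_SL]

lemma coeff_zero_qExpansion_E4 : PowerSeries.coeff 0 (qExpansion 1 E₄) = 1 := by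
  rw [qExpansion_E4, PowerSeries.coeff_map, coeff_zero_QZ]; simp

lemma coeff_zero_qExpansion_E6 : PowerSeries.coeff 0 (qExpansion 1 E₆) = 1 := by
  rw [qExpansion_E6, PowerSeries.coeff_map, coeff_zero_RZ]; simp

/-- **Peeling**: a level-one form of weight `k` is `a₀ E₄^a E₆^b + Δ g`, `g` of weight `k - 12`. -/
theorem peel (k : ℕ) (f : ModularForm 𝒮ℒ (k : ℤ)) :
    ∃ (a b : ℕ) (g : ModularForm 𝒮ℒ ((k : ℤ) - 12)), (f ≠ 0 → 4 * a + 6 * b = k) ∧
      qExpansion 1 f = PowerSeries.coeff 0 (qExpansion 1 f) •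
        (qExpansion 1 E₄ ^ a * qExpansion 1 E₆ ^ b) + qExpansion 1 discriminant * qExpansion 1 g := by
  by_cases hk : Even k ∧ k ≠ 2
  · obtain ⟨a, b, hab⟩ := exists_monomial_weight k hk.1 hk.2
    have hw : (a : ℤ) * 4 + (b : ℤ) * 6 = (k : ℤ) := by
      rw [← hab]; push_cast; ring
    let M : ModularForm 𝒮ℒ (k : ℤ) := ModularForm.mcast hw (monoForm a b)
    have hM : qExpansion 1 M = qExpansion 1 E₄ ^ a * qExpansion 1 E₆ ^ b := by
      simp only [M, coe_mcast]
      exact qExpansion_monoForm a b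
    set c := PowerSeries.coeff 0 (qExpansion 1 f) with hc
    let f' : ModularForm 𝒮ℒ (k : ℤ) := f - c • M
    have hf' : qExpansion 1 f' = qExpansion 1 f - c • (qExpansion 1 E₄ ^ a * qExpansion 1 E₆ ^ b) := by
      have e1 : (f' : ℍ → ℂ) = ⇑f - ⇑(c • M) := rfl
      have e2 : (⇑(c • M) : ℍ → ℂ) = c • ⇑M := rfl
      rw [e1, ModularForm.qExpansion_sub one_pos one_mem_strictPeriods_SL f (c • M), e2,
        ModularForm.qExpansion_smul one_pos one_mem_strictPeriods_SL, hM]
    have hcusp : PowerSeries.coeff 0 (qExpansion 1 f') = 0 := by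
      have h1 : PowerSeries.coeff 0 (qExpansion 1 E₄ ^ a * qExpansion 1 E₆ ^ b) = 1 := by
        rw [PowerSeries.coeff_zero_eq_constantCoeff_apply, map_mul, map_pow, map_pow,
          ← PowerSeries.coeff_zero_eq_constantCoeff_apply,
          ← PowerSeries.coeff_zero_eq_constantCoeff_apply, coeff_zero_qExpansion_E4,
          coeff_zero_qExpansion_E6]
        simp
      rw [hf', map_sub, PowerSeries.coeff_smul, h1]
      simp [hc]
    refine ⟨a, b, CuspForm.discriminantEquiv (toCuspForm f' hcusp), fun _ => hab, ?_⟩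
    have h := qExpansion_eq_qExpansion_discriminant_mul f' hcusp
    rw [← h, hf']
    ring
  · have hf0 : f = 0 := by
      by_cases hk2 : k = 2
      · subst hk2
        exact rank_zero_iff_forall_zero.mp levelOne_weight_two_rank_zero f
      · have hodd : Odd (k : ℤ) := by
          have : ¬ Even k := fun h => hk ⟨h, hk2⟩
          exact_mod_cast Nat.not_even_iff_odd.mp this
        exact levelOne_odd_weight_eq_zero hodd f
    refine ⟨0, 0, 0, fun h => absurd hf0 h, ?_⟩
    subst hf0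
    simp [qExpansion_zero]

/-! ### Division by `Δ` on coefficients -/

lemma coeff_succ_mul_of_order_one {A : Type*} [CommRing A] (D Y : PowerSeries A)
    (h0 : PowerSeries.coeff 0 D = 0) (h1 : PowerSeries.coeff 1 D = 1) (n : ℕ) :
    PowerSeries.coeff (n + 1) (D * Y) = PowerSeries.coeff n Y +
      ∑ i ∈ Finset.range n, PowerSeries.coeff (i + 2) D * PowerSeries.coeff (n - 1 - i) Y := by
  rw [PowerSeries.coeff_mul, Finset.Nat.sum_antidiagonal_eq_sum_range_succ_mk,
    Finset.sum_range_succ', Finset.sum_range_succ']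
  simp only [h0, h1, zero_mul, add_zero, one_mul, zero_add, Nat.add_sub_cancel]
  rw [add_comm]
  congr 1
  refine Finset.sum_congr rfl fun i hi => ?_
  have hi' := Finset.mem_range.mp hi
  have e : n + 1 - (i + 1 + 1) = n - 1 - i := by omega
  rw [e]

lemma coeff_zero_DC : PowerSeries.coeff 0 (PowerSeries.map (Int.castRingHom ℂ) DZ) = 0 := by
  rw [PowerSeries.coeff_map, coeff_zero_DZ]; simp

lemma coeff_one_DC : PowerSeries.coeff 1 (PowerSeries.map (Int.castRingHom ℂ) DZ) = 1 := by
  rw [PowerSeries.coeff_map, coeff_one_DZ]; simp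

/-- If the coefficients `≤ N + 1` of `Δ · Y` lie in `A`, the coefficients `≤ N` of `Y` do. -/
lemma coeff_mem_of_discriminant_mul (A : AddSubgroup ℂ) (Y : PowerSeries ℂ) (N : ℕ)
    (h : ∀ n ≤ N + 1, PowerSeries.coeff n (qExpansion 1 discriminant * Y) ∈ A) :
    ∀ n ≤ N, PowerSeries.coeff n Y ∈ A := by
  rw [qExpansion_discriminant] at h
  intro n
  induction n using Nat.strong_induction_on with
  | _ n ih =>
    intro hn
    have hs := coeff_succ_mul_of_order_one (PowerSeries.map (Int.castRingHom ℂ) DZ) Y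
      coeff_zero_DC coeff_one_DC n
    have e : PowerSeries.coeff n Y =
        PowerSeries.coeff (n + 1) (PowerSeries.map (Int.castRingHom ℂ) DZ * Y) -
        ∑ i ∈ Finset.range n, PowerSeries.coeff (i + 2) (PowerSeries.map (Int.castRingHom ℂ) DZ) *
          PowerSeries.coeff (n - 1 - i) Y := by
      rw [hs]; ring
    rw [e]
    refine A.sub_mem (h (n + 1) (by omega)) (A.sum_mem fun i hi => ?_)
    have hi' := Finset.mem_range.mp hi
    rw [PowerSeries.coeff_map, eq_intCast, ← zsmul_eq_mul]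
    exact A.zsmul_mem (ih (n - 1 - i) (by omega) (by omega)) _

/-- If all coefficients of `Y` lie in `A`, so do those of `Δ · Y`. -/
lemma coeff_discriminant_mul_mem (A : AddSubgroup ℂ) (Y : PowerSeries ℂ)
    (hY : ∀ n, PowerSeries.coeff n Y ∈ A) (n : ℕ) :
    PowerSeries.coeff n (qExpansion 1 discriminant * Y) ∈ A := by
  rw [qExpansion_discriminant, PowerSeries.coeff_mul]
  refine A.sum_mem fun p _ => ?_
  rw [PowerSeries.coeff_map, eq_intCast, ← zsmul_eq_mul]
  exact A.zsmul_mem (hY _) _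

/-- The coefficients of `c • E₄^a E₆^b` are integer multiples of `c`. -/
lemma coeff_smul_mono_mem (A : AddSubgroup ℂ) {c : ℂ} (hc : c ∈ A) (a b n : ℕ) :
    PowerSeries.coeff n (c • (qExpansion 1 E₄ ^ a * qExpansion 1 E₆ ^ b)) ∈ A := by
  rw [qExpansion_E4, qExpansion_E6, ← map_pow, ← map_pow, ← map_mul, PowerSeries.coeff_smul,
    PowerSeries.coeff_map, eq_intCast, smul_eq_mul, mul_comm, ← zsmul_eq_mul]
  exact A.zsmul_mem hc _

/-- **Integral Sturm bound at level one**, for an arbitrary additive subgroup `A` of `ℂ`: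
if the `q`-coefficients `a_n`, `n ≤ k / 12`, of a level-one form of weight `k` lie in `A`,
then all its coefficients lie in `A`. -/
theorem sturm_addSubgroup (A : AddSubgroup ℂ) (k : ℕ) (f : ModularForm 𝒮ℒ (k : ℤ))
    (h : ∀ n ≤ k / 12, PowerSeries.coeff n (qExpansion 1 f) ∈ A) :
    ∀ n, PowerSeries.coeff n (qExpansion 1 f) ∈ A := by
  induction k using Nat.strong_induction_on with
  | _ k ih =>
    obtain ⟨a, b, g, -, hq⟩ := peel k f
    have hc : PowerSeries.coeff 0 (qExpansion 1 f) ∈ A := h 0 (Nat.zero_le _)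
    by_cases hk : k < 12
    · have hg : (g : ℍ → ℂ) = 0 := levelOne_neg_weight_eq_zero (by omega) g
      rw [hg, qExpansion_zero, mul_zero, add_zero] at hq
      intro n
      rw [hq]
      exact coeff_smul_mono_mem A hc a b n
    · have hk12 : 12 ≤ k := by omega
      have hw : (k : ℤ) - 12 = ((k - 12 : ℕ) : ℤ) := by
        rw [Nat.cast_sub hk12]; norm_num
      let g' : ModularForm 𝒮ℒ ((k - 12 : ℕ) : ℤ) := ModularForm.mcast hw g
      have hg' : qExpansion 1 g' = qExpansion 1 g := rfl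
      have hDg : ∀ n ≤ (k - 12) / 12 + 1,
          PowerSeries.coeff n (qExpansion 1 discriminant * qExpansion 1 g) ∈ A := by
        intro n hn
        have e : qExpansion 1 discriminant * qExpansion 1 g = qExpansion 1 f -
            PowerSeries.coeff 0 (qExpansion 1 f) •
              (qExpansion 1 E₄ ^ a * qExpansion 1 E₆ ^ b) := by
          rw [eq_sub_iff_add_eq, add_comm]; exact hq.symm
        rw [e, map_sub]
        exact A.sub_mem (h n (by omega)) (coeff_smul_mono_mem A hc a b n)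
      have hgA := ih (k - 12) (by omega) g' (by
        rw [hg']
        exact coeff_mem_of_discriminant_mul A _ _ hDg)
      rw [hg'] at hgA
      intro n
      rw [hq, map_add]
      exact A.add_mem (coeff_smul_mono_mem A hc a b n) (coeff_discriminant_mul_mem A _ hgA n)

/-! ### The span of `E₄^a E₆^b Δ^c` over a commutative ring -/

section Span

/-- The `q`-expansion of `E₄` with coefficients in `A`. -/
def QA (A : Type*) [CommRing A] : PowerSeries A := PowerSeries.map (Int.castRingHom A) QZ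

/-- The `q`-expansion of `E₆` with coefficients in `A`. -/
def RA (A : Type*) [CommRing A] : PowerSeries A := PowerSeries.map (Int.castRingHom A) RZ

/-- The `q`-expansion of `Δ` with coefficients in `A`. -/
def DA (A : Type*) [CommRing A] : PowerSeries A := PowerSeries.map (Int.castRingHom A) DZ

/-- `Y` is an `A`-linear combination of the `q`-expansions of `E₄^a E₆^b Δ^c`,
`4 a + 6 b + 12 c = k`. -/
inductive L1Span (A : Type*) [CommRing A] : ℕ → PowerSeries A → Prop
  | mono (a b : ℕ) (s : A) : L1Span A (4 * a + 6 * b) (PowerSeries.C s * (QA A ^ a * RA A ^ b))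
  | add {k : ℕ} {Y Z : PowerSeries A} : L1Span A k Y → L1Span A k Z → L1Span A k (Y + Z)
  | mulDelta {k : ℕ} {Y : PowerSeries A} : L1Span A k Y → L1Span A (k + 12) (DA A * Y)

variable {A B : Type*} [CommRing A] [CommRing B]

lemma map_QA (φ : A →+* B) : PowerSeries.map φ (QA A) = QA B := by
  ext n; simp [QA, PowerSeries.coeff_map]

lemma map_RA (φ : A →+* B) : PowerSeries.map φ (RA A) = RA B := by
  ext n; simp [RA, PowerSeries.coeff_map]

lemma map_DA (φ : A →+* B) : PowerSeries.map φ (DA A) = DA B := by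
  ext n; simp [DA, PowerSeries.coeff_map]

lemma DA_spec (A : Type*) [CommRing A] : (1728 : PowerSeries A) * DA A = QA A ^ 3 - RA A ^ 2 := by
  have h := congrArg (PowerSeries.map (Int.castRingHom A)) DZ_spec
  rw [map_mul, map_sub, map_pow, map_pow] at h
  have h1728 : PowerSeries.map (Int.castRingHom A) (1728 : PowerSeries ℤ) = 1728 :=
    map_ofNat (PowerSeries.map (Int.castRingHom A)) 1728
  rw [h1728] at h
  exact h

lemma coeff_zero_QA (A : Type*) [CommRing A] : PowerSeries.coeff 0 (QA A) = 1 := by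
  simp [QA, PowerSeries.coeff_map, coeff_zero_QZ]

lemma coeff_zero_RA (A : Type*) [CommRing A] : PowerSeries.coeff 0 (RA A) = 1 := by
  simp [RA, PowerSeries.coeff_map, coeff_zero_RZ]

lemma coeff_one_QA (A : Type*) [CommRing A] : PowerSeries.coeff 1 (QA A) = 240 := by
  simp [QA, PowerSeries.coeff_map, coeff_one_QZ]

lemma coeff_one_RA (A : Type*) [CommRing A] : PowerSeries.coeff 1 (RA A) = -504 := by
  simp [RA, PowerSeries.coeff_map, coeff_one_RZ]

lemma QA_complex : QA ℂ = qExpansion 1 E₄ := qExpansion_E4.symm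
lemma RA_complex : RA ℂ = qExpansion 1 E₆ := qExpansion_E6.symm
lemma DA_complex : DA ℂ = qExpansion 1 discriminant := qExpansion_discriminant.symm

lemma L1Span.congr {k k' : ℕ} {Y Y' : PowerSeries A} (h : L1Span A k Y) (hk : k = k')
    (hY : Y = Y') : L1Span A k' Y' := by
  subst hk; subst hY; exact h

theorem L1Span.map (φ : A →+* B) {k : ℕ} {Y : PowerSeries A} (h : L1Span A k Y) :
    L1Span B k (PowerSeries.map φ Y) := by
  induction h with
  | mono a b s =>
    refine (L1Span.mono (A := B) a b (φ s)).congr rfl ?_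
    rw [map_mul, map_mul, map_pow, map_pow, map_QA, map_RA, PowerSeries.map_C]
  | add _ _ ih1 ih2 => rw [map_add]; exact ih1.add ih2
  | mulDelta _ ih => rw [map_mul, map_DA]; exact ih.mulDelta

/-- Bridge to `S16_SDwAlg.IsoSpan` over a field in which `2` and `3` are invertible. -/
theorem L1Span.isoSpan {κ : Type*} [Field κ] (h2 : (2 : κ) ≠ 0) (h3 : (3 : κ) ≠ 0) {k : ℕ}
    {Y : PowerSeries κ} (h : L1Span κ k Y) : S16_SDwAlg.IsoSpan (QA κ) (RA κ) k Y := by
  have h1728 : (1728 : κ) ≠ 0 := by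
    have : (1728 : κ) = 2 ^ 6 * 3 ^ 3 := by norm_num
    rw [this]
    exact mul_ne_zero (pow_ne_zero _ h2) (pow_ne_zero _ h3)
  have hD : S16_SDwAlg.IsoSpan (QA κ) (RA κ) 12 (DA κ) := by
    have hspec := DA_spec κ
    have e : (1728 : κ)⁻¹ • (QA κ ^ 3 - RA κ ^ 2) = DA κ := by
      rw [← hspec, PowerSeries.smul_eq_C_mul, ← mul_assoc]
      have h' : (1728 : PowerSeries κ) = PowerSeries.C (1728 : κ) :=
        (map_ofNat (PowerSeries.C (R := κ)) 1728).symm
      rw [h', ← map_mul, inv_mul_cancel₀ h1728, map_one, one_mul]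
    have hQ3 : S16_SDwAlg.IsoSpan (QA κ) (RA κ) 12 (QA κ ^ 3) :=
      ((S16_SDwAlg.IsoSpan.Q_mem (Q := QA κ) (R := RA κ)).pow 3).congr (by norm_num) rfl
    have hR2 : S16_SDwAlg.IsoSpan (QA κ) (RA κ) 12 (RA κ ^ 2) :=
      ((S16_SDwAlg.IsoSpan.R_mem (Q := QA κ) (R := RA κ)).pow 2).congr (by norm_num) rfl
    exact ((hQ3.sub hR2).smul _).congr rfl e
  induction h with
  | mono a b s =>
    exact (S16_SDwAlg.IsoSpan.smul s (S16_SDwAlg.IsoSpan.mono a b)).congr rfl
      (PowerSeries.smul_eq_C_mul _ _)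
  | add _ _ ih1 ih2 => exact ih1.add ih2
  | mulDelta _ ih => exact (hD.mul ih).congr (by ring) rfl

end Span

/-- **Integral structure of level-one forms**: a nonzero level-one form of weight `k` whose
`q`-coefficients lie in a subring `S ≤ ℂ` has its `q`-expansion in the `S`-span of the
`E₄^a E₆^b Δ^c`. -/
theorem exists_l1Span (S : Subring ℂ) (k : ℕ) (f : ModularForm 𝒮ℒ (k : ℤ)) (hf0 : f ≠ 0)
    (hf : ∀ n, PowerSeries.coeff n (qExpansion 1 f) ∈ S) :
    ∃ F : PowerSeries S, PowerSeries.map S.subtype F = qExpansion 1 f ∧ L1Span S k F := by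
  induction k using Nat.strong_induction_on with
  | _ k ih =>
    obtain ⟨a, b, g, hab, hq⟩ := peel k f
    have hab := hab hf0
    set c := PowerSeries.coeff 0 (qExpansion 1 f) with hc
    have hcS : c ∈ S := hf 0
    have hmono : PowerSeries.map S.subtype
        (PowerSeries.C (⟨c, hcS⟩ : S) * (QA S ^ a * RA S ^ b)) =
        c • (qExpansion 1 E₄ ^ a * qExpansion 1 E₆ ^ b) := by
      rw [map_mul, map_mul, map_pow, map_pow, map_QA, map_RA, PowerSeries.map_C, QA_complex,
        RA_complex, PowerSeries.smul_eq_C_mul]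
      rfl
    by_cases hg0 : qExpansion 1 g = 0
    · refine ⟨PowerSeries.C (⟨c, hcS⟩ : S) * (QA S ^ a * RA S ^ b), ?_, ?_⟩
      · rw [hmono, hq, hg0, mul_zero, add_zero]
      · exact (L1Span.mono (A := S) a b ⟨c, hcS⟩).congr hab rfl
    · have hk12 : 12 ≤ k := by
        by_contra hlt
        apply hg0
        have hg : (g : ℍ → ℂ) = 0 := levelOne_neg_weight_eq_zero (by omega) g
        rw [hg, qExpansion_zero]
      have hw : (k : ℤ) - 12 = ((k - 12 : ℕ) : ℤ) := by
        rw [Nat.cast_sub hk12]; norm_num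
      let g' : ModularForm 𝒮ℒ ((k - 12 : ℕ) : ℤ) := ModularForm.mcast hw g
      have hg' : qExpansion 1 g' = qExpansion 1 g := rfl
      have hg'0 : g' ≠ 0 := by
        intro h0
        apply hg0
        rw [← hg', h0]
        exact qExpansion_zero 1
      have hgS : ∀ n, PowerSeries.coeff n (qExpansion 1 g') ∈ S := by
        intro n
        rw [hg']
        refine coeff_mem_of_discriminant_mul S.toAddSubgroup _ n (fun m _ => ?_) n le_rfl
        have e : qExpansion 1 discriminant * qExpansion 1 g = qExpansion 1 f -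
            c • (qExpansion 1 E₄ ^ a * qExpansion 1 E₆ ^ b) := by
          rw [eq_sub_iff_add_eq, add_comm]; exact hq.symm
        rw [e, map_sub]
        exact S.toAddSubgroup.sub_mem (hf m) (coeff_smul_mono_mem S.toAddSubgroup hcS a b m)
      obtain ⟨G, hG, hGspan⟩ := ih (k - 12) (by omega) g' hg'0 hgS
      refine ⟨PowerSeries.C (⟨c, hcS⟩ : S) * (QA S ^ a * RA S ^ b) + DA S * G, ?_, ?_⟩
      · rw [map_add, hmono, map_mul, map_DA, DA_complex, hG, hg', hq]
      · exact ((L1Span.mono (A := S) a b ⟨c, hcS⟩).congr hab rfl).add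
          (hGspan.mulDelta.congr (by omega) rfl)

end Fermat.Agent.S16_L1Int
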