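import Mathlib

/-!
# S16_SDwAn (helper4): analytic input for the level-one Swinnerton-Dyer weight congruence

* `theta`: the operator `q d/dq` on power series;
* q-expansion of the normalized derivative `D F` of a holomorphic, 1-periodic function bounded at
  `i∞`;
* the Serre derivative of a level one modular form as a modular form, with its q-expansion;
* Ramanujan's identities for the integer power series `PZ, QZ, RZ`
  (`1 - 24 ∑ σ₁(n) qⁿ`, `1 + 240 ∑ σ₃(n) qⁿ`, `1 - 504 ∑ σ₅(n) qⁿ`):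
  `ramanujan_Q/R/P` in `ℤ⟦q⟧` and `ramanujan_QA/RA/PA` in any commutative ring.
-/

namespace Fermat.Agent.S16_SDwAn

open UpperHalfPlane ModularForm EisensteinSeries Derivative Filter Function
open scoped Manifold MatrixGroups ModularForm Topology Real

noncomputable section

local notation "𝕢" => Periodic.qParam

/-! ### The theta operator `q d/dq` on power series -/

section Theta

variable {A : Type*} [CommRing A]

/-- `θ = q d/dq` on power series. -/
def theta (s : PowerSeries A) : PowerSeries A :=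
  PowerSeries.mk fun n => (n : A) * PowerSeries.coeff n s

@[simp] lemma coeff_theta (s : PowerSeries A) (n : ℕ) :
    PowerSeries.coeff n (theta s) = (n : A) * PowerSeries.coeff n s :=
  PowerSeries.coeff_mk _ _

lemma theta_add (s t : PowerSeries A) : theta (s + t) = theta s + theta t := by
  ext n; simp [mul_add]

lemma theta_sub (s t : PowerSeries A) : theta (s - t) = theta s - theta t := by
  ext n; simp [mul_sub]

lemma theta_smul (a : A) (s : PowerSeries A) : theta (a • s) = a • theta s := by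
  ext n; simp; ring

lemma theta_zero : theta (0 : PowerSeries A) = 0 := by
  ext n; simp

lemma theta_C (a : A) : theta (PowerSeries.C a) = 0 := by
  ext n
  rcases Nat.eq_zero_or_pos n with rfl | hn
  · simp
  · simp [PowerSeries.coeff_C, hn.ne']

lemma theta_one : theta (1 : PowerSeries A) = 0 := by
  simpa using theta_C (1 : A)

lemma theta_mul (s t : PowerSeries A) : theta (s * t) = theta s * t + s * theta t := by
  ext n
  simp only [coeff_theta, PowerSeries.coeff_mul, map_add, Finset.mul_sum]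
  rw [← Finset.sum_add_distrib]
  refine Finset.sum_congr rfl fun x hx => ?_
  have hx' : x.1 + x.2 = n := Finset.HasAntidiagonal.mem_antidiagonal.mp hx
  rw [← hx']; push_cast; ring

lemma theta_map {B : Type*} [CommRing B] (f : A →+* B) (s : PowerSeries A) :
    theta (PowerSeries.map f s) = PowerSeries.map f (theta s) := by
  ext n; simp

end Theta

/-! ### Functions given by a convergent `q`-expansion -/

section HasSumQ

variable {F : ℍ → ℂ} {c : ℕ → ℂ}

lemma periodic_of_hasSum (hs : ∀ τ : ℍ, HasSum (fun m : ℕ => c m • 𝕢 1 τ ^ m) (F τ)) :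
    Periodic (F ∘ ofComplex) 1 := by
  intro z
  simp only [Function.comp_apply]
  by_cases hz : 0 < z.im
  · have hz1 : 0 < (z + 1).im := by simpa using hz
    have h1 := hs (ofComplex (z + 1))
    have h2 := hs (ofComplex z)
    rw [ofComplex_apply_of_im_pos hz1] at h1
    rw [ofComplex_apply_of_im_pos hz] at h2
    have hq : 𝕢 1 (z + 1) = 𝕢 1 z := by
      simp only [Periodic.qParam, Complex.ofReal_one, div_one]
      rw [mul_add, mul_one]
      exact Complex.exp_periodic _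
    rw [hq] at h1
    have := h1.unique h2
    rw [ofComplex_apply_of_im_pos hz1, ofComplex_apply_of_im_pos hz]
    exact this
  · have hz' : z.im ≤ 0 := not_lt.mp hz
    have hz1 : (z + 1).im ≤ 0 := by simpa using hz'
    rw [ofComplex_apply_eq_of_im_nonpos hz1 hz']

lemma coeff_unique_of_hasSum (han : AnalyticAt ℂ (cuspFunction 1 F) 0)
    (hs : ∀ τ : ℍ, HasSum (fun m : ℕ => c m • 𝕢 1 τ ^ m) (F τ)) (m : ℕ) :
    c m = (qExpansion 1 F).coeff m := by
  have h01 : (0 : ℝ) < 1 := one_pos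
  have h1 := (hasFPowerSeriesOnBall_cuspFunction h01 han hs).hasFPowerSeriesAt
  have h2 : HasFPowerSeriesAt (cuspFunction 1 F)
      (FormalMultilinearSeries.ofScalars ℂ fun n => (qExpansion 1 F).coeff n) 0 := by
    simpa [qExpansion_coeff, div_eq_mul_inv, mul_comm] using han.hasFPowerSeriesAt
  simpa [FormalMultilinearSeries.coeff_ofScalars] using
    congr_arg (FormalMultilinearSeries.coeff · m) (h1.eq_formalMultilinearSeries h2)

/-- A holomorphic function given by a convergent `q`-expansion has an analytic cusp function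
and that `q`-expansion. -/
lemma qExpansion_of_hasSum (hhol : MDiff F)
    (hs : ∀ τ : ℍ, HasSum (fun m : ℕ => c m • 𝕢 1 τ ^ m) (F τ)) :
    AnalyticAt ℂ (cuspFunction 1 F) 0 ∧ qExpansion 1 F = PowerSeries.mk c := by
  have hper : Periodic (F ∘ ofComplex) 1 := periodic_of_hasSum (c := c) hs
  have h01 : (0 : ℝ) < 1 := one_pos
  have hbdd : IsBoundedAtImInfty F := isBoundedAtImInfty_of_hasSum_qExpansion h01 hs
  have han : AnalyticAt ℂ (cuspFunction 1 F) 0 :=
    analyticAt_cuspFunction_zero h01 hper hhol hbdd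
  refine ⟨han, PowerSeries.ext fun m => ?_⟩
  rw [PowerSeries.coeff_mk]
  exact (coeff_unique_of_hasSum han hs m).symm

/-- The `q`-expansion of the normalized derivative. -/
lemma hasSum_D (hper : Periodic (F ∘ ofComplex) 1) (hhol : MDiff F)
    (hbdd : IsBoundedAtImInfty F) (τ : ℍ) :
    HasSum (fun m : ℕ => ((m : ℂ) * (qExpansion 1 F).coeff m) • 𝕢 1 τ ^ m) (D F τ) := by
  have h01 : (0 : ℝ) < 1 := one_pos
  set g := cuspFunction 1 F with hg
  have hgd : DifferentiableOn ℂ g (Metric.ball 0 1) :=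
    differentiableOn_cuspFunction_ball h01 hper hhol hbdd
  have hq : ‖𝕢 1 (τ : ℂ)‖ < 1 := Periodic.norm_qParam_lt_one h01 τ.im_pos
  have hqb : 𝕢 1 (τ : ℂ) ∈ Metric.ball (0 : ℂ) 1 := by simpa using hq
  have hgd' : DifferentiableOn ℂ (deriv g) (Metric.ball 0 1) := hgd.deriv Metric.isOpen_ball
  have hT := Complex.hasSum_taylorSeries_on_ball hgd' hqb
  have hcomp : (F ∘ ofComplex) =ᶠ[𝓝 (τ : ℂ)] fun z => g (𝕢 1 z) := by
    filter_upwards [isOpen_upperHalfPlaneSet.mem_nhds τ.im_pos] with z hz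
    have := eq_cuspFunction (h := 1) (f := F) ⟨z, hz⟩ one_ne_zero hper
    simp only [Function.comp_apply, ofComplex_apply_of_im_pos hz, hg]
    exact this.symm
  have hqd : HasDerivAt (fun z : ℂ => 𝕢 1 z) (2 * π * Complex.I * 𝕢 1 (τ : ℂ)) τ := by
    unfold Periodic.qParam
    have h1 : HasDerivAt (fun z : ℂ => 2 * π * Complex.I * z / ((1 : ℝ) : ℂ))
        (2 * π * Complex.I) τ := by
      simpa using ((hasDerivAt_id (τ : ℂ)).const_mul (2 * π * Complex.I)).div_const ((1 : ℝ) : ℂ)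
    simpa [mul_comm] using h1.cexp
  have hgq : HasDerivAt g (deriv g (𝕢 1 (τ : ℂ))) (𝕢 1 (τ : ℂ)) :=
    (hgd.differentiableAt (Metric.isOpen_ball.mem_nhds hqb)).hasDerivAt
  have hderiv : deriv (F ∘ ofComplex) τ =
      deriv g (𝕢 1 (τ : ℂ)) * (2 * π * Complex.I * 𝕢 1 (τ : ℂ)) := by
    rw [hcomp.deriv_eq]
    exact (hgq.comp (τ : ℂ) hqd).deriv
  have hD : D F τ = 𝕢 1 (τ : ℂ) * deriv g (𝕢 1 (τ : ℂ)) := by
    simp only [normalizedDerivOfComplex, hderiv]
    have : (2 * π * Complex.I : ℂ) ≠ 0 := Complex.two_pi_I_ne_zero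
    field_simp
  rw [hD, ← hasSum_nat_add_iff' 1]
  simp only [Finset.range_one, Finset.sum_singleton, Nat.cast_zero, zero_mul, zero_smul, sub_zero]
  have hT' := hT.mul_left (𝕢 1 (τ : ℂ))
  have hfun : (fun n : ℕ => (((n + 1 : ℕ) : ℂ) * (qExpansion 1 F).coeff (n + 1)) •
      𝕢 1 (τ : ℂ) ^ (n + 1)) = fun n : ℕ => 𝕢 1 (τ : ℂ) *
        ((n.factorial : ℂ)⁻¹ • (𝕢 1 (τ : ℂ) - 0) ^ n • iteratedDeriv n (deriv g) 0) := by
    funext n
    rw [qExpansion_coeff, iteratedDeriv_succ', sub_zero, smul_eq_mul, smul_eq_mul, smul_eq_mul,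
      Nat.factorial_succ]
    have h1 : ((n : ℂ) + 1) ≠ 0 := by exact_mod_cast Nat.succ_ne_zero n
    have h2 : ((n.factorial : ℕ) : ℂ) ≠ 0 := by exact_mod_cast Nat.factorial_ne_zero n
    push_cast
    field_simp
    rw [hg]
    ring
  rw [hfun]
  exact hT'

end HasSumQ

/-! ### The integer power series `PZ, QZ, RZ` -/

/-- `1 - 24 ∑ σ₁(n) qⁿ`. -/
def PZ : PowerSeries ℤ :=
  PowerSeries.mk fun n => if n = 0 then 1 else -24 * (ArithmeticFunction.sigma 1 n : ℤ)

/-- `1 + 240 ∑ σ₃(n) qⁿ`. -/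
def QZ : PowerSeries ℤ :=
  PowerSeries.mk fun n => if n = 0 then 1 else 240 * (ArithmeticFunction.sigma 3 n : ℤ)

/-- `1 - 504 ∑ σ₅(n) qⁿ`. -/
def RZ : PowerSeries ℤ :=
  PowerSeries.mk fun n => if n = 0 then 1 else -504 * (ArithmeticFunction.sigma 5 n : ℤ)

/-- `PZ` with complex coefficients. -/
def Pc : PowerSeries ℂ := PowerSeries.map (Int.castRingHom ℂ) PZ

/-- `QZ` with complex coefficients. -/
def Qc : PowerSeries ℂ := PowerSeries.map (Int.castRingHom ℂ) QZ

/-- `RZ` with complex coefficients. -/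
def Rc : PowerSeries ℂ := PowerSeries.map (Int.castRingHom ℂ) RZ

lemma coeff_Pc (m : ℕ) :
    PowerSeries.coeff m Pc = if m = 0 then 1 else -24 * (ArithmeticFunction.sigma 1 m : ℂ) := by
  simp only [Pc, PZ, PowerSeries.coeff_map, PowerSeries.coeff_mk]
  split_ifs <;> simp

lemma coeff_Qc (m : ℕ) :
    PowerSeries.coeff m Qc = if m = 0 then 1 else 240 * (ArithmeticFunction.sigma 3 m : ℂ) := by
  simp only [Qc, QZ, PowerSeries.coeff_map, PowerSeries.coeff_mk]
  split_ifs <;> simp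

lemma coeff_Rc (m : ℕ) :
    PowerSeries.coeff m Rc = if m = 0 then 1 else -504 * (ArithmeticFunction.sigma 5 m : ℂ) := by
  simp only [Rc, RZ, PowerSeries.coeff_map, PowerSeries.coeff_mk]
  split_ifs <;> simp

lemma qExpansion_E4 : qExpansion 1 E₄ = Qc := by
  refine PowerSeries.ext fun m => ?_
  rw [coeff_Qc, E_qExpansion_coeff _ ⟨2, rfl⟩]
  split_ifs
  · rfl
  · norm_num [show bernoulli 4 = -1 / 30 by decide +kernel]

lemma qExpansion_E6 : qExpansion 1 E₆ = Rc := by
  refine PowerSeries.ext fun m => ?_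
  rw [coeff_Rc, E_qExpansion_coeff _ ⟨3, rfl⟩]
  split_ifs
  · rfl
  · norm_num [show bernoulli 6 = 1 / 42 by decide +kernel]

lemma hasSum_E2 (τ : ℍ) :
    HasSum (fun m : ℕ => (PowerSeries.coeff m Pc) • 𝕢 1 τ ^ m) (E2 τ) := by
  simp only [coeff_Pc]
  simpa only [Function.Periodic.qParam, Complex.ofReal_one, div_one] using
    hasSum_qExpansion_E2 (z := τ)

lemma analyticAt_E2 : AnalyticAt ℂ (cuspFunction 1 E2) 0 :=
  (qExpansion_of_hasSum E2_mdifferentiable hasSum_E2).1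

lemma qExpansion_E2 : qExpansion 1 E2 = Pc := by
  rw [(qExpansion_of_hasSum E2_mdifferentiable hasSum_E2).2]
  exact PowerSeries.ext fun m => by simp

/-! ### The normalized derivative of a level one form -/

section LevelOne

variable {k : ℤ} (f : ModularForm 𝒮ℒ k)

lemma hasSum_D_mf (τ : ℍ) :
    HasSum (fun m : ℕ => (PowerSeries.coeff m (theta (qExpansion 1 f))) • 𝕢 1 τ ^ m)
      (D (⇑f) τ) := by
  simp only [coeff_theta]
  exact hasSum_D (SlashInvariantFormClass.periodic_comp_ofComplex f one_mem_strictPeriods_SL)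
    (ModularFormClass.holo f) (ModularFormClass.bdd_at_infty f) τ

lemma mdiff_D_mf : MDiff (D (⇑f)) :=
  normalizedDerivOfComplex_mdifferentiable (ModularFormClass.holo f)

lemma analyticAt_D_mf : AnalyticAt ℂ (cuspFunction 1 (D (⇑f))) 0 :=
  (qExpansion_of_hasSum (mdiff_D_mf f) (hasSum_D_mf f)).1

lemma qExpansion_D_mf : qExpansion 1 (D (⇑f)) = theta (qExpansion 1 f) := by
  rw [(qExpansion_of_hasSum (mdiff_D_mf f) (hasSum_D_mf f)).2]
  exact PowerSeries.ext fun m => by simp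

lemma isBoundedAtImInfty_D_mf : IsBoundedAtImInfty (D (⇑f)) :=
  isBoundedAtImInfty_of_hasSum_qExpansion (one_pos : (0 : ℝ) < 1) (hasSum_D_mf f)

lemma analyticAt_mf : AnalyticAt ℂ (cuspFunction 1 (⇑f)) 0 :=
  ModularFormClass.analyticAt_cuspFunction_zero f one_pos one_mem_strictPeriods_SL

lemma serre_slash (γ : SL(2, ℤ)) :
    serreDerivative (k : ℂ) (⇑f) ∣[k + 2] γ = serreDerivative (k : ℂ) (⇑f) := by
  have hγ : (γ : GL (Fin 2) ℝ) ∈ 𝒮ℒ := ⟨γ, rfl⟩
  refine serreDerivative_slash_invariant (ModularFormClass.holo f) ?_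
  rw [SL_slash]
  exact SlashInvariantForm.slash_action_eqn f _ hγ

lemma serre_eq : serreDerivative (k : ℂ) (⇑f) = D (⇑f) - ((k : ℂ) * 12⁻¹) • (E2 * ⇑f) := by
  funext z
  simp [serreDerivative_apply, mul_assoc]

lemma isBoundedAtImInfty_serre : IsBoundedAtImInfty (serreDerivative (k : ℂ) (⇑f)) := by
  rw [serre_eq, sub_eq_add_neg]
  refine BoundedAtFilter.add (isBoundedAtImInfty_D_mf f) (BoundedAtFilter.neg ?_)
  exact BoundedAtFilter.smul _ (BoundedAtFilter.mul isBoundedAtImInfty_E2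
    (ModularFormClass.bdd_at_infty f))

/-- The Serre derivative of a level one modular form, as a modular form of weight `k + 2`. -/
def serreMF : ModularForm 𝒮ℒ (k + 2) where
  toFun := serreDerivative (k : ℂ) (⇑f)
  slash_action_eq' := fun _ ⟨γ, hγ⟩ ↦ hγ ▸ serre_slash f γ
  holo' := serreDerivative_mdifferentiable _ (ModularFormClass.holo f)
  bdd_at_cusps' {c} hc := by
    rw [Subgroup.IsArithmetic.isCusp_iff_isCusp_SL2Z] at hc
    rw [OnePoint.isBoundedAt_iff_forall_SL2Z hc]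
    intro γ _
    rw [serre_slash f γ]
    exact isBoundedAtImInfty_serre f

lemma coe_serreMF : ⇑(serreMF f) = serreDerivative (k : ℂ) (⇑f) := rfl

lemma qExpansion_serreMF :
    qExpansion 1 (serreMF f) = theta (qExpansion 1 f) - ((k : ℂ) * 12⁻¹) • (Pc * qExpansion 1 f) := by
  have hE2f : AnalyticAt ℂ (cuspFunction 1 (E2 * ⇑f)) 0 := by
    rw [cuspFunction_mul analyticAt_E2.continuousAt (analyticAt_mf f).continuousAt]
    exact analyticAt_E2.mul (analyticAt_mf f)
  have hsm : AnalyticAt ℂ (cuspFunction 1 (((k : ℂ) * 12⁻¹) • (E2 * ⇑f))) 0 := by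
    rw [cuspFunction_smul hE2f.continuousAt]
    exact hE2f.const_smul
  rw [coe_serreMF, serre_eq, qExpansion_sub (analyticAt_D_mf f) hsm, qExpansion_smul hE2f,
    qExpansion_mul analyticAt_E2 (analyticAt_mf f), qExpansion_D_mf, qExpansion_E2]

end LevelOne

/-! ### The quasi-modular form `E2`: `D E2 - E2^2/12` has weight `4` -/

lemma hasDerivAt_D2 (γ : SL(2, ℤ)) (z : ℍ) :
    HasDerivAt ((D2 γ) ∘ ofComplex)
      (-(2 * π * Complex.I * (γ 1 0 : ℂ)) * (γ 1 0 : ℂ) / (denom γ z) ^ 2) z := by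
  have h1 := (hasDerivAt_denom_zpow (γ : GL (Fin 2) ℝ) (-1) z).const_mul
    (2 * π * Complex.I * (γ 1 0 : ℂ))
  have hev : (D2 γ) ∘ ofComplex =ᶠ[𝓝 (z : ℂ)]
      fun w => (2 * π * Complex.I * (γ 1 0 : ℂ)) * denom (γ : GL (Fin 2) ℝ) w ^ (-1 : ℤ) := by
    filter_upwards [isOpen_upperHalfPlaneSet.mem_nhds z.im_pos] with w hw
    simp only [Function.comp_apply, D2, ofComplex_apply_of_im_pos hw, zpow_neg_one]
    rfl
  refine (h1.congr_of_eventuallyEq hev).congr_deriv ?_
  have hd : denom (γ : GL (Fin 2) ℝ) z ≠ 0 := denom_ne_zero _ z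
  have h10 : (((γ : GL (Fin 2) ℝ) 1 0 : ℝ) : ℂ) = (γ 1 0 : ℂ) := by simp
  rw [h10, show (-1 : ℤ) - 1 = -2 by norm_num, zpow_neg, zpow_ofNat]
  field_simp
  push_cast
  ring

/-- `D E2 - E2^2/12`. -/
def ramG : ℍ → ℂ := D E2 - (12 : ℂ)⁻¹ • (E2 * E2)

lemma D_E2_slash (γ : SL(2, ℤ)) (z : ℍ) :
    (D E2 ∣[(4 : ℤ)] γ) z = D E2 z
      + (1 / (2 * riemannZeta 2)) * ((2 * π * Complex.I * (γ 1 0 : ℂ)) * (γ 1 0 : ℂ) / (denom γ z) ^ 2) * (2 * π * Complex.I)⁻¹
      + 2 * (2 * π * Complex.I)⁻¹ * ((γ 1 0 : ℂ) / denom γ z) *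
        (E2 z - (1 / (2 * riemannZeta 2)) * ((2 * π * Complex.I * (γ 1 0 : ℂ)) / denom γ z)) := by
  have h1 := congrFun (normalizedDerivOfComplex_SL_slash (k := 2) E2_mdifferentiable (γ := γ)) z
  have h2 : (E2 ∣[(2 : ℤ)] γ) = E2 - (1 / (2 * riemannZeta 2)) • D2 γ := E2_slash_action γ
  have hE2 : DifferentiableAt ℂ (E2 ∘ ofComplex) z :=
    UpperHalfPlane.mdifferentiableAt_iff.mp (E2_mdifferentiable z)
  have hD2 := hasDerivAt_D2 γ z
  have h3 : D (E2 ∣[(2 : ℤ)] γ) z = D E2 z - (1 / (2 * riemannZeta 2)) *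
      ((2 * π * Complex.I)⁻¹ * (-(2 * π * Complex.I * (γ 1 0 : ℂ)) * (γ 1 0 : ℂ) / (denom γ z) ^ 2)) := by
    rw [h2]
    simp only [normalizedDerivOfComplex]
    have : ((E2 - (1 / (2 * riemannZeta 2)) • D2 γ) ∘ ofComplex) =
        (E2 ∘ ofComplex) - (1 / (2 * riemannZeta 2)) • (D2 γ ∘ ofComplex) := rfl
    rw [this, (hE2.hasDerivAt.sub (hD2.const_smul (1 / (2 * riemannZeta 2)))).deriv]
    simp only [smul_eq_mul]
    ring
  have h4 : (E2 ∣[(2 : ℤ)] γ) z = E2 z - (1 / (2 * riemannZeta 2)) * ((2 * π * Complex.I * (γ 1 0 : ℂ)) / denom γ z) := by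
    rw [h2]; simp [D2]
  rw [h3] at h1
  simp only [Pi.sub_apply, h4] at h1
  have h10 : (((γ : GL (Fin 2) ℝ) 1 0 : ℝ) : ℂ) = (γ 1 0 : ℂ) := by simp
  have : (D E2 ∣[(4 : ℤ)] γ) z = (D E2 ∣[(2 : ℤ) + 2] γ) z := rfl
  rw [this]
  linear_combination -h1

lemma ramG_slash (γ : SL(2, ℤ)) : ramG ∣[(4 : ℤ)] γ = ramG := by
  funext z
  have h1 := D_E2_slash γ z
  have h2 : ((E2 * E2) ∣[(4 : ℤ)] γ) z = (E2 ∣[(2 : ℤ)] γ) z * (E2 ∣[(2 : ℤ)] γ) z := by
    have := congrFun (mul_slash_SL2 2 2 γ E2 E2) z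
    exact this
  have h4 : (E2 ∣[(2 : ℤ)] γ) z = E2 z - (1 / (2 * riemannZeta 2)) * ((2 * π * Complex.I * (γ 1 0 : ℂ)) / denom γ z) := by
    rw [E2_slash_action γ]; simp [D2]
  have h5 : (ramG ∣[(4 : ℤ)] γ) z = (D E2 ∣[(4 : ℤ)] γ) z - (12 : ℂ)⁻¹ * ((E2 * E2) ∣[(4 : ℤ)] γ) z := by
    simp only [ramG, sub_eq_add_neg, SlashAction.add_slash, SlashAction.neg_slash, SL_smul_slash,
      Pi.add_apply, Pi.neg_apply, Pi.smul_apply, smul_eq_mul]
  rw [h5, h1, h2, h4]
  have hd : denom (γ : GL (Fin 2) ℝ) z ≠ 0 := denom_ne_zero _ z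
  have hpi : (π : ℂ) ≠ 0 := Complex.ofReal_ne_zero.mpr Real.pi_ne_zero
  simp only [ramG, Pi.sub_apply, Pi.smul_apply, Pi.mul_apply, smul_eq_mul, riemannZeta_two]
  have hI2 : Complex.I ^ 2 = -1 := Complex.I_sq
  have hI3 : Complex.I ^ 3 = -Complex.I := by rw [pow_succ, hI2]; ring
  field_simp
  ring_nf
  simp only [hI2, hI3]
  ring

lemma hasSum_D_E2 (τ : ℍ) :
    HasSum (fun m : ℕ => (PowerSeries.coeff m (theta Pc)) • 𝕢 1 τ ^ m) (D E2 τ) := by
  simp only [coeff_theta]
  have := hasSum_D (periodic_of_hasSum hasSum_E2) E2_mdifferentiable isBoundedAtImInfty_E2 τ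
  rwa [qExpansion_E2] at this

lemma mdiff_D_E2 : MDiff (D E2) := normalizedDerivOfComplex_mdifferentiable E2_mdifferentiable

lemma analyticAt_D_E2 : AnalyticAt ℂ (cuspFunction 1 (D E2)) 0 :=
  (qExpansion_of_hasSum mdiff_D_E2 hasSum_D_E2).1

lemma qExpansion_D_E2 : qExpansion 1 (D E2) = theta Pc := by
  rw [(qExpansion_of_hasSum mdiff_D_E2 hasSum_D_E2).2]
  exact PowerSeries.ext fun m => by simp

lemma isBoundedAtImInfty_ramG : IsBoundedAtImInfty ramG := by
  rw [ramG, sub_eq_add_neg]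
  refine BoundedAtFilter.add
    (isBoundedAtImInfty_of_hasSum_qExpansion (one_pos : (0 : ℝ) < 1) hasSum_D_E2)
    (BoundedAtFilter.neg ?_)
  exact BoundedAtFilter.smul _ (BoundedAtFilter.mul isBoundedAtImInfty_E2 isBoundedAtImInfty_E2)

lemma mdiff_ramG : MDiff ramG := by
  rw [ramG]
  exact mdiff_D_E2.sub ((E2_mdifferentiable.mul E2_mdifferentiable).const_smul _)

/-- `D E2 - E2^2/12` as a modular form of weight `4`. -/
def ramGMF : ModularForm 𝒮ℒ 4 where
  toFun := ramG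
  slash_action_eq' := fun _ ⟨γ, hγ⟩ ↦ hγ ▸ ramG_slash γ
  holo' := mdiff_ramG
  bdd_at_cusps' {c} hc := by
    rw [Subgroup.IsArithmetic.isCusp_iff_isCusp_SL2Z] at hc
    rw [OnePoint.isBoundedAt_iff_forall_SL2Z hc]
    intro γ _
    rw [ramG_slash γ]
    exact isBoundedAtImInfty_ramG

lemma qExpansion_ramGMF : qExpansion 1 ramGMF = theta Pc - (12 : ℂ)⁻¹ • (Pc * Pc) := by
  have hEE : AnalyticAt ℂ (cuspFunction 1 (E2 * E2)) 0 := by
    rw [cuspFunction_mul analyticAt_E2.continuousAt analyticAt_E2.continuousAt]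
    exact analyticAt_E2.mul analyticAt_E2
  have hsm : AnalyticAt ℂ (cuspFunction 1 ((12 : ℂ)⁻¹ • (E2 * E2))) 0 := by
    rw [cuspFunction_smul hEE.continuousAt]
    exact hEE.const_smul
  change qExpansion 1 ramG = _
  rw [ramG, qExpansion_sub analyticAt_D_E2 hsm, qExpansion_smul hEE,
    qExpansion_mul analyticAt_E2 analyticAt_E2, qExpansion_D_E2, qExpansion_E2]

/-- Level one forms of weight `< 12` with vanishing constant term vanish. -/
lemma qExpansion_eq_zero_of_coeff_zero {k : ℤ} (hk : k.toNat < 12) (g : ModularForm 𝒮ℒ k)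
    (h0 : PowerSeries.coeff 0 (qExpansion 1 g) = 0) : qExpansion 1 g = 0 := by
  have : g = 0 := by
    apply sturm_bound_levelOne
    rw [Nat.div_eq_of_lt hk, Nat.cast_zero, pos_iff_ne_zero,
      PowerSeries.order_ne_zero_iff_constCoeff_eq_zero]
    simpa using h0
  rw [this]
  exact qExpansion_zero 1


/-! ### Ramanujan's identities -/

lemma constantCoeff_theta {A : Type*} [CommRing A] (s : PowerSeries A) :
    PowerSeries.constantCoeff (theta s) = 0 := by
  rw [← PowerSeries.coeff_zero_eq_constantCoeff_apply, coeff_theta]; simp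

lemma constantCoeff_Pc : PowerSeries.constantCoeff Pc = 1 := by
  rw [← PowerSeries.coeff_zero_eq_constantCoeff_apply, coeff_Pc]; simp

lemma constantCoeff_Qc : PowerSeries.constantCoeff Qc = 1 := by
  rw [← PowerSeries.coeff_zero_eq_constantCoeff_apply, coeff_Qc]; simp

lemma constantCoeff_Rc : PowerSeries.constantCoeff Rc = 1 := by
  rw [← PowerSeries.coeff_zero_eq_constantCoeff_apply, coeff_Rc]; simp

lemma ramanujan_Q_complex :
    theta Qc - ((4 : ℂ) * 12⁻¹) • (Pc * Qc) + (3 : ℂ)⁻¹ • Rc = 0 := by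
  let g : ModularForm 𝒮ℒ ((6 : ℕ) : ℤ) :=
    ModularForm.mcast (by norm_num) (serreMF E₄) + (3 : ℂ)⁻¹ • E₆
  have hg : (⇑g : ℍ → ℂ) = ⇑(serreMF E₄) + (3 : ℂ)⁻¹ • ⇑E₆ := rfl
  have hq : qExpansion 1 g = theta Qc - ((4 : ℂ) * 12⁻¹) • (Pc * Qc) + (3 : ℂ)⁻¹ • Rc := by
    have hsm : AnalyticAt ℂ (cuspFunction 1 ((3 : ℂ)⁻¹ • ⇑E₆)) 0 := by
      rw [cuspFunction_smul (analyticAt_mf E₆).continuousAt]
      exact (analyticAt_mf E₆).const_smul
    rw [hg, qExpansion_add (analyticAt_mf (serreMF E₄)) hsm, qExpansion_smul (analyticAt_mf E₆),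
      qExpansion_serreMF, qExpansion_E4, qExpansion_E6]
    norm_num
  rw [← hq]
  refine qExpansion_eq_zero_of_coeff_zero (by norm_num) g ?_
  rw [hq]
  simp [constantCoeff_theta, constantCoeff_Pc, constantCoeff_Qc, constantCoeff_Rc]
  norm_num

lemma ramanujan_R_complex :
    theta Rc - ((6 : ℂ) * 12⁻¹) • (Pc * Rc) + (2 : ℂ)⁻¹ • (Qc * Qc) = 0 := by
  let g : ModularForm 𝒮ℒ ((8 : ℕ) : ℤ) :=
    ModularForm.mcast (by norm_num) (serreMF E₆) +
      (2 : ℂ)⁻¹ • ModularForm.mcast (by norm_num) (E₄.mul E₄)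
  have hg : (⇑g : ℍ → ℂ) = ⇑(serreMF E₆) + (2 : ℂ)⁻¹ • ⇑(E₄.mul E₄) := rfl
  have hq : qExpansion 1 g = theta Rc - ((6 : ℂ) * 12⁻¹) • (Pc * Rc) + (2 : ℂ)⁻¹ • (Qc * Qc) := by
    have hsm : AnalyticAt ℂ (cuspFunction 1 ((2 : ℂ)⁻¹ • ⇑(E₄.mul E₄))) 0 := by
      rw [cuspFunction_smul (analyticAt_mf (E₄.mul E₄)).continuousAt]
      exact (analyticAt_mf (E₄.mul E₄)).const_smul
    rw [hg, qExpansion_add (analyticAt_mf (serreMF E₆)) hsm,
      qExpansion_smul (analyticAt_mf (E₄.mul E₄)), qExpansion_serreMF,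
      ModularForm.qExpansion_mul one_pos one_mem_strictPeriods_SL, qExpansion_E4, qExpansion_E6]
    norm_num
  rw [← hq]
  refine qExpansion_eq_zero_of_coeff_zero (by norm_num) g ?_
  rw [hq]
  simp [constantCoeff_theta, constantCoeff_Pc, constantCoeff_Qc, constantCoeff_Rc]
  norm_num

lemma ramanujan_P_complex :
    theta Pc - (12 : ℂ)⁻¹ • (Pc * Pc) + (12 : ℂ)⁻¹ • Qc = 0 := by
  let g : ModularForm 𝒮ℒ ((4 : ℕ) : ℤ) := ramGMF + (12 : ℂ)⁻¹ • E₄
  have hg : (⇑g : ℍ → ℂ) = ⇑ramGMF + (12 : ℂ)⁻¹ • ⇑E₄ := rfl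
  have hq : qExpansion 1 g = theta Pc - (12 : ℂ)⁻¹ • (Pc * Pc) + (12 : ℂ)⁻¹ • Qc := by
    have hsm : AnalyticAt ℂ (cuspFunction 1 ((12 : ℂ)⁻¹ • ⇑E₄)) 0 := by
      rw [cuspFunction_smul (analyticAt_mf E₄).continuousAt]
      exact (analyticAt_mf E₄).const_smul
    rw [hg, qExpansion_add (analyticAt_mf ramGMF) hsm, qExpansion_smul (analyticAt_mf E₄),
      qExpansion_ramGMF, qExpansion_E4]
  rw [← hq]
  refine qExpansion_eq_zero_of_coeff_zero (by norm_num) g ?_
  rw [hq]
  simp [constantCoeff_theta, constantCoeff_Pc, constantCoeff_Qc]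

/-! ### Ramanujan's identities: clean forms over `ℂ`, `ℤ` and any commutative ring -/

lemma ramanujan_Q_c : (3 : PowerSeries ℂ) * theta Qc = Pc * Qc - Rc := by
  have h3 : (3 : PowerSeries ℂ) = PowerSeries.C (3 : ℂ) := (map_ofNat _ 3).symm
  rw [h3]
  refine PowerSeries.ext fun n => ?_
  have hn := congrArg (PowerSeries.coeff n) ramanujan_Q_complex
  simp only [map_add, map_sub, PowerSeries.coeff_smul, coeff_theta, map_zero, smul_eq_mul] at hn
  rw [PowerSeries.coeff_C_mul, coeff_theta, map_sub]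
  linear_combination 3 * hn

lemma ramanujan_R_c : (2 : PowerSeries ℂ) * theta Rc = Pc * Rc - Qc ^ 2 := by
  have h3 : (2 : PowerSeries ℂ) = PowerSeries.C (2 : ℂ) := (map_ofNat _ 2).symm
  rw [h3, pow_two]
  refine PowerSeries.ext fun n => ?_
  have hn := congrArg (PowerSeries.coeff n) ramanujan_R_complex
  simp only [map_add, map_sub, PowerSeries.coeff_smul, coeff_theta, map_zero, smul_eq_mul] at hn
  rw [PowerSeries.coeff_C_mul, coeff_theta, map_sub]
  linear_combination 2 * hn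

lemma ramanujan_P_c : (12 : PowerSeries ℂ) * theta Pc = Pc ^ 2 - Qc := by
  have h3 : (12 : PowerSeries ℂ) = PowerSeries.C (12 : ℂ) := (map_ofNat _ 12).symm
  rw [h3, pow_two]
  refine PowerSeries.ext fun n => ?_
  have hn := congrArg (PowerSeries.coeff n) ramanujan_P_complex
  simp only [map_add, map_sub, PowerSeries.coeff_smul, coeff_theta, map_zero, smul_eq_mul] at hn
  rw [PowerSeries.coeff_C_mul, coeff_theta, map_sub]
  linear_combination 12 * hn

lemma map_intCast_injective :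
    Function.Injective (PowerSeries.map (Int.castRingHom ℂ)) := by
  intro a b h
  refine PowerSeries.ext fun n => ?_
  have := congrArg (PowerSeries.coeff n) h
  simpa using this

/-- Ramanujan: `3 θQ = PQ - R` in `ℤ⟦q⟧`. -/
theorem ramanujan_Q : (3 : PowerSeries ℤ) * theta QZ = PZ * QZ - RZ := by
  apply map_intCast_injective
  rw [map_mul, map_sub, map_mul, map_ofNat, ← theta_map]
  exact ramanujan_Q_c

/-- Ramanujan: `2 θR = PR - Q²` in `ℤ⟦q⟧`. -/
theorem ramanujan_R : (2 : PowerSeries ℤ) * theta RZ = PZ * RZ - QZ ^ 2 := by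
  apply map_intCast_injective
  rw [map_mul, map_sub, map_mul, map_pow, map_ofNat, ← theta_map]
  exact ramanujan_R_c

/-- Ramanujan: `12 θP = P² - Q` in `ℤ⟦q⟧`. -/
theorem ramanujan_P : (12 : PowerSeries ℤ) * theta PZ = PZ ^ 2 - QZ := by
  apply map_intCast_injective
  rw [map_mul, map_sub, map_pow, map_ofNat, ← theta_map]
  exact ramanujan_P_c

section AnyRing

variable (A : Type*) [CommRing A]

/-- The reduction of `PZ` in a commutative ring. -/
def PA : PowerSeries A := PowerSeries.map (Int.castRingHom A) PZ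

/-- The reduction of `QZ` in a commutative ring. -/
def QA : PowerSeries A := PowerSeries.map (Int.castRingHom A) QZ

/-- The reduction of `RZ` in a commutative ring. -/
def RA : PowerSeries A := PowerSeries.map (Int.castRingHom A) RZ

theorem ramanujan_QA : (3 : PowerSeries A) * theta (QA A) = PA A * QA A - RA A := by
  have := congrArg (PowerSeries.map (Int.castRingHom A)) ramanujan_Q
  rwa [map_mul, map_sub, map_mul, map_ofNat, ← theta_map] at this

theorem ramanujan_RA : (2 : PowerSeries A) * theta (RA A) = PA A * RA A - QA A ^ 2 := by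
  have := congrArg (PowerSeries.map (Int.castRingHom A)) ramanujan_R
  rwa [map_mul, map_sub, map_mul, map_pow, map_ofNat, ← theta_map] at this

theorem ramanujan_PA : (12 : PowerSeries A) * theta (PA A) = PA A ^ 2 - QA A := by
  have := congrArg (PowerSeries.map (Int.castRingHom A)) ramanujan_P
  rwa [map_mul, map_sub, map_pow, map_ofNat, ← theta_map] at this

lemma constantCoeff_QA : PowerSeries.constantCoeff (QA A) = 1 := by
  rw [← PowerSeries.coeff_zero_eq_constantCoeff_apply, QA, PowerSeries.coeff_map, QZ,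
    PowerSeries.coeff_mk]
  simp

lemma constantCoeff_RA : PowerSeries.constantCoeff (RA A) = 1 := by
  rw [← PowerSeries.coeff_zero_eq_constantCoeff_apply, RA, PowerSeries.coeff_map, RZ,
    PowerSeries.coeff_mk]
  simp

lemma constantCoeff_PA : PowerSeries.constantCoeff (PA A) = 1 := by
  rw [← PowerSeries.coeff_zero_eq_constantCoeff_apply, PA, PowerSeries.coeff_map, PZ,
    PowerSeries.coeff_mk]
  simp

lemma coeff_one_QA : PowerSeries.coeff 1 (QA A) = 240 := by
  rw [QA, PowerSeries.coeff_map, QZ, PowerSeries.coeff_mk]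
  simp

lemma coeff_one_RA : PowerSeries.coeff 1 (RA A) = -504 := by
  rw [RA, PowerSeries.coeff_map, RZ, PowerSeries.coeff_mk]
  simp

end AnyRing

end

end Fermat.Agent.S16_SDwAn
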