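import Fermat.Agent.S16_SDwAlg
import Fermat.Agent.S16_SDwAn
import Fermat.Agent.S16_L1Int

/-!
# S16_SDw (helper4): the level-one Swinnerton-Dyer weight congruence

`sdw`: let `ℓ ≥ 5` be prime, `R ⊆ ℂ` a subring in which every integer prime to `ℓ` is invertible,
`I` a proper ideal of `R` containing `ℓ`.  If a level-one modular form of weight `k` has
`q`-coefficients in `R`, all higher coefficients in `I` and constant coefficient a unit modulo `I`,
then `ℓ - 1 ∣ k`.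

Ingredients: `S16_SDwAlg.sdw_alg` (helper3, algebra), Ramanujan's identities (`S16_SDwAn`),
`E_{ℓ-1} ≡ 1 mod ℓ` (von Staudt-Clausen), and the integral structure of level-one forms.
-/

namespace Fermat.Agent.S16_SDw

open UpperHalfPlane ModularForm EisensteinSeries
open scoped MatrixGroups ModularForm

noncomputable section

/-! ### `E_{ℓ-1} ≡ 1 mod ℓ` -/

lemma exists_bernoulli_rep (l : ℕ) (hl : l.Prime) (hodd : Odd l) :
    ∃ u D : ℤ, ¬ (l : ℤ) ∣ u ∧ (D : ℚ) * l * bernoulli (l - 1) = u := by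
  classical
  obtain ⟨N, hN⟩ := Bernoulli.vonStaudt_clausen ((l - 1) / 2)
  have h2k : 2 * ((l - 1) / 2) = l - 1 := by
    obtain ⟨m, rfl⟩ := hodd; omega
  rw [h2k] at hN
  set S := (Finset.range (l - 1 + 2)).filter (fun p => p.Prime ∧ (p - 1) ∣ l - 1) with hS
  have hlS : l ∈ S := by
    rw [hS, Finset.mem_filter, Finset.mem_range]
    exact ⟨by have := hl.two_le; omega, hl, dvd_rfl⟩
  set T := S.erase l with hT
  set D : ℕ := ∏ p ∈ T, p with hD
  have hprimeT : ∀ p ∈ T, p.Prime := fun p hp =>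
    (Finset.mem_filter.mp (Finset.mem_erase.mp hp).2).2.1
  have hlD : ¬ l ∣ D := by
    rw [hD, Prime.dvd_finsetProd_iff hl.prime]
    rintro ⟨p, hp, hlp⟩
    exact (Finset.mem_erase.mp hp).1 ((Nat.prime_dvd_prime_iff_eq hl (hprimeT p hp)).mp hlp).symm
  set M : ℕ := ∑ p ∈ T, ∏ q ∈ T.erase p, q with hM
  have hsum : (D : ℚ) * ∑ p ∈ T, (1 : ℚ) / p = M := by
    rw [hM, Finset.mul_sum]
    push_cast
    refine Finset.sum_congr rfl fun p hp => ?_
    have hp0 : (p : ℚ) ≠ 0 := by exact_mod_cast (hprimeT p hp).ne_zero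
    rw [hD, ← Finset.mul_prod_erase T _ hp]
    push_cast
    field_simp
  refine ⟨D * l * N - D - l * M, D, ?_, ?_⟩
  · intro hdvd
    have h1 : (l : ℤ) ∣ D * l * N - l * M := ⟨D * N - M, by ring⟩
    have h2 := dvd_sub h1 hdvd
    have h3 : (D : ℤ) * l * N - l * M - (D * l * N - D - l * M) = D := by ring
    rw [h3] at h2
    exact hlD (by exact_mod_cast h2)
  · have hl0 : (l : ℚ) ≠ 0 := by exact_mod_cast hl.ne_zero
    have hsplit : ∑ p ∈ S, (1 : ℚ) / p = 1 / l + ∑ p ∈ T, (1 : ℚ) / p :=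
      (Finset.add_sum_erase S _ hlS).symm
    have hB : bernoulli (l - 1) = N - (1 / l + ∑ p ∈ T, (1 : ℚ) / p) := by
      rw [← hsplit, hN]; ring
    rw [hB]
    push_cast
    field_simp
    linear_combination (-(l : ℚ)) * hsum

/-- The `q`-expansion of `E_{ℓ-1}`: constant term `1`, higher coefficients `ℓ * a / b * σ`. -/
lemma exists_E_coeff (l : ℕ) (hl : l.Prime) (h5 : 5 ≤ l) (hk : 3 ≤ l - 1) :
    ∃ a b : ℤ, ¬ (l : ℤ) ∣ b ∧ ∀ m : ℕ, m ≠ 0 →
      (qExpansion 1 (E hk)).coeff m =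
        (l : ℂ) * a / b * (ArithmeticFunction.sigma (l - 1 - 1) m : ℂ) := by
  have hodd : Odd l := hl.odd_of_ne_two (by omega)
  have heven : Even (l - 1) := by
    obtain ⟨m, rfl⟩ := hodd
    exact ⟨m, by omega⟩
  obtain ⟨u, D, hu, hD⟩ := exists_bernoulli_rep l hl hodd
  have hu0 : (u : ℚ) ≠ 0 := by
    intro h
    have : u = 0 := by exact_mod_cast h
    exact hu (this ▸ dvd_zero _)
  have hl0 : (l : ℚ) ≠ 0 := by exact_mod_cast hl.ne_zero
  have hD0 : (D : ℚ) ≠ 0 := by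
    intro h
    rw [h, zero_mul, zero_mul] at hD
    exact hu0 hD.symm
  have hB : bernoulli (l - 1) = u / (D * l) := by
    rw [← hD]; field_simp
  refine ⟨-(2 * ((l - 1 : ℕ) : ℤ) * D), u, hu, fun m hm => ?_⟩
  rw [E_qExpansion_coeff hk heven m, if_neg hm, hB]
  have hu0' : (u : ℂ) ≠ 0 := by exact_mod_cast hu0
  have hl0' : (l : ℂ) ≠ 0 := by exact_mod_cast hl0
  have hD0' : (D : ℂ) ≠ 0 := by exact_mod_cast hD0
  push_cast
  field_simp


/-! ### The bridge between the two `theta`s -/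

lemma theta_eq {κ : Type*} [Field κ] (f : PowerSeries κ) :
    S16_SDwAlg.theta f = S16_SDwAn.theta f := by
  refine PowerSeries.ext fun n => ?_
  rw [S16_SDwAlg.coeff_theta, S16_SDwAn.coeff_theta]

/-! ### The bridge to `S16_L1Int` -/

lemma QZ_eq : S16_L1Int.QZ = S16_SDwAn.QZ := by
  refine PowerSeries.ext fun n => ?_
  rw [S16_L1Int.coeff_QZ, S16_SDwAn.QZ, PowerSeries.coeff_mk]

lemma RZ_eq : S16_L1Int.RZ = S16_SDwAn.RZ := by
  refine PowerSeries.ext fun n => ?_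
  rw [S16_L1Int.coeff_RZ, S16_SDwAn.RZ, PowerSeries.coeff_mk]

lemma QA_eq (A : Type*) [CommRing A] : S16_L1Int.QA A = S16_SDwAn.QA A := by
  rw [S16_L1Int.QA, S16_SDwAn.QA, QZ_eq]

lemma RA_eq (A : Type*) [CommRing A] : S16_L1Int.RA A = S16_SDwAn.RA A := by
  rw [S16_L1Int.RA, S16_SDwAn.RA, RZ_eq]

/-- The reduction of the `q`-expansion of a nonzero level-one form with coefficients in a subring
`R ⊆ ℂ` is an isobaric expression in the reductions of `E₄`, `E₆`. -/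
theorem isoSpan_of_coeff_mem (R : Subring ℂ) {κ : Type*} [Field κ] (h2 : (2 : κ) ≠ 0)
    (h3 : (3 : κ) ≠ 0) (φ : ↥R →+* κ) (k : ℕ) (f : ModularForm 𝒮ℒ (k : ℤ)) (hf0 : f ≠ 0)
    (s : PowerSeries ↥R) (hs : PowerSeries.map R.subtype s = qExpansion 1 f) :
    S16_SDwAlg.IsoSpan (S16_SDwAn.QA κ) (S16_SDwAn.RA κ) k (PowerSeries.map φ s) := by
  have hf : ∀ n, PowerSeries.coeff n (qExpansion 1 f) ∈ R := by
    intro n
    rw [← hs, PowerSeries.coeff_map]
    exact (PowerSeries.coeff n s).2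
  obtain ⟨F, hF, hspan⟩ := S16_L1Int.exists_l1Span R k f hf0 hf
  have hFs : F = s := by
    refine PowerSeries.ext fun n => Subtype.ext ?_
    have := congrArg (PowerSeries.coeff n) (hF.trans hs.symm)
    simpa using this
  rw [hFs] at hspan
  have := (hspan.map φ).isoSpan h2 h3
  rwa [QA_eq, RA_eq] at this

/-- **Swinnerton-Dyer weight congruence at level one.** -/
theorem sdw (ℓ : ℕ) (hℓ : ℓ.Prime) (h5 : 5 ≤ ℓ) (R : Subring ℂ)
    (hR : ∀ n : ℕ, ¬ ℓ ∣ n → ((n : ℂ))⁻¹ ∈ R) (I : Ideal ↥R) (hI : I ≠ ⊤)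
    (hℓI : ((ℓ : ℕ) : ↥R) ∈ I) (k : ℕ) (f : ModularForm 𝒮ℒ (k : ℤ)) (s : PowerSeries ↥R)
    (hs : PowerSeries.map R.subtype s = qExpansion 1 f)
    (hpos : ∀ n, 1 ≤ n → PowerSeries.coeff n s ∈ I)
    (h0 : ∃ b : ↥R, PowerSeries.coeff 0 s * b - 1 ∈ I) : ℓ - 1 ∣ k := by
  obtain ⟨𝔪, h𝔪, hI𝔪⟩ := Ideal.exists_le_maximal I hI
  have := h𝔪
  let _ : Field (↥R ⧸ 𝔪) := Ideal.Quotient.field 𝔪
  set φ : ↥R →+* (↥R ⧸ 𝔪) := Ideal.Quotient.mk 𝔪 with hφ
  have : Fact ℓ.Prime := ⟨hℓ⟩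
  have hℓκ : ((ℓ : ℕ) : ↥R ⧸ 𝔪) = 0 := by
    have : φ ((ℓ : ℕ) : ↥R) = 0 := Ideal.Quotient.eq_zero_iff_mem.mpr (hI𝔪 hℓI)
    simpa using this
  have : CharP (↥R ⧸ 𝔪) ℓ := (CharP.charP_iff_prime_eq_zero hℓ).mpr hℓκ
  have h2 : (2 : ↥R ⧸ 𝔪) ≠ 0 := by
    intro h
    have h' : ((2 : ℕ) : ↥R ⧸ 𝔪) = 0 := by exact_mod_cast h
    have := (CharP.cast_eq_zero_iff (↥R ⧸ 𝔪) ℓ 2).mp h'
    have := Nat.le_of_dvd (by norm_num) this
    omega
  have h3 : (3 : ↥R ⧸ 𝔪) ≠ 0 := by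
    intro h
    have h' : ((3 : ℕ) : ↥R ⧸ 𝔪) = 0 := by exact_mod_cast h
    have := (CharP.cast_eq_zero_iff (↥R ⧸ 𝔪) ℓ 3).mp h'
    have := Nat.le_of_dvd (by norm_num) this
    omega
  -- the Eisenstein series `E_{ℓ-1}`
  have hk : 3 ≤ ℓ - 1 := by omega
  have heven : Even (ℓ - 1) := by
    obtain ⟨m, rfl⟩ := hℓ.odd_of_ne_two (by omega)
    exact ⟨m, by omega⟩
  obtain ⟨a, b, hb, hE⟩ := exists_E_coeff ℓ hℓ h5 hk
  have hbinv : ((b : ℂ))⁻¹ ∈ R := by
    have hnat : ¬ ℓ ∣ b.natAbs := fun h => hb (Int.natCast_dvd.mpr h)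
    have h1 := hR b.natAbs hnat
    rcases Int.natAbs_eq b with h | h
    · have hc : (b : ℂ) = (b.natAbs : ℂ) := by
        have := congrArg (fun z : ℤ => (z : ℂ)) h
        simpa using this
      rw [hc]; exact h1
    · have hc : (b : ℂ) = -(b.natAbs : ℂ) := by
        have := congrArg (fun z : ℤ => (z : ℂ)) h
        simpa using this
      rw [hc, inv_neg]
      exact R.neg_mem h1
  have hmemE : ∀ m, PowerSeries.coeff m (qExpansion 1 (E hk)) ∈ R := by
    intro m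
    rcases eq_or_ne m 0 with rfl | hm
    · rw [E_qExpansion_coeff_zero hk heven]; exact R.one_mem
    · rw [hE m hm, div_eq_mul_inv]
      exact R.mul_mem (R.mul_mem (R.mul_mem (natCast_mem R ℓ) (intCast_mem R a)) hbinv)
        (natCast_mem R _)
  set sE : PowerSeries ↥R := PowerSeries.mk fun m => ⟨_, hmemE m⟩ with hsE
  have hsE_map : PowerSeries.map R.subtype sE = qExpansion 1 (E hk) := by
    refine PowerSeries.ext fun m => ?_
    simp [hsE]
  have hsE_red : PowerSeries.map φ sE = 1 := by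
    refine PowerSeries.ext fun m => ?_
    rw [PowerSeries.coeff_map, PowerSeries.coeff_one, hsE, PowerSeries.coeff_mk]
    split_ifs with hm
    · subst hm
      have : (⟨_, hmemE 0⟩ : ↥R) = 1 := Subtype.ext (E_qExpansion_coeff_zero hk heven)
      rw [this, map_one]
    · have hmem : (⟨_, hmemE m⟩ : ↥R) ∈ I := by
        have hx : ((a : ℂ) * (b : ℂ)⁻¹ * (ArithmeticFunction.sigma (ℓ - 1 - 1) m : ℂ)) ∈ R :=
          R.mul_mem (R.mul_mem (intCast_mem R a) hbinv) (natCast_mem R _)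
        have : (⟨_, hmemE m⟩ : ↥R) = ((ℓ : ℕ) : ↥R) * ⟨_, hx⟩ := by
          apply Subtype.ext
          simp only [Subring.coe_mul, Subring.coe_natCast]
          rw [hE m hm]
          ring
        rw [this]
        exact I.mul_mem_right _ hℓI
      exact Ideal.Quotient.eq_zero_iff_mem.mpr (hI𝔪 hmem)
  have hA := isoSpan_of_coeff_mem R h2 h3 φ (ℓ - 1) (E hk) (E_ne_zero hk heven) sE hsE_map
  rw [hsE_red] at hA
  -- the form `f`
  obtain ⟨b0, hb0⟩ := h0
  set c := φ (PowerSeries.coeff 0 s) with hc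
  have hs_red : PowerSeries.map φ s = PowerSeries.C c := by
    refine PowerSeries.ext fun m => ?_
    rw [PowerSeries.coeff_map, PowerSeries.coeff_C]
    split_ifs with hm
    · subst hm; rfl
    · exact Ideal.Quotient.eq_zero_iff_mem.mpr
        (hI𝔪 (hpos m (Nat.one_le_iff_ne_zero.mpr hm)))
  have hc0 : c ≠ 0 := by
    intro h
    have h1 : φ (PowerSeries.coeff 0 s * b0 - 1) = 0 :=
      Ideal.Quotient.eq_zero_iff_mem.mpr (hI𝔪 hb0)
    rw [map_sub, map_mul, map_one, ← hc, h, zero_mul, zero_sub, neg_eq_zero] at h1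
    exact one_ne_zero h1
  have hf0 : f ≠ 0 := by
    rintro rfl
    apply hc0
    have hs0 : s = 0 := by
      refine PowerSeries.ext fun n => Subtype.ext ?_
      have := congrArg (PowerSeries.coeff n) hs
      rw [show (⇑(0 : ModularForm 𝒮ℒ (k : ℤ)) : ℍ → ℂ) = 0 from rfl, qExpansion_zero] at this
      simpa using this
    rw [hc, hs0]
    simp
  have hF := isoSpan_of_coeff_mem R h2 h3 φ k f hf0 s hs
  rw [hs_red] at hF
  exact S16_SDwAlg.sdw_alg ℓ h5 (S16_SDwAn.PA _) (S16_SDwAn.QA _) (S16_SDwAn.RA _)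
    (S16_SDwAn.constantCoeff_QA _) (S16_SDwAn.constantCoeff_RA _) (S16_SDwAn.coeff_one_QA _)
    (S16_SDwAn.coeff_one_RA _) (by rw [theta_eq]; exact S16_SDwAn.ramanujan_QA _)
    (by rw [theta_eq]; exact S16_SDwAn.ramanujan_RA _)
    (by rw [theta_eq]; exact S16_SDwAn.ramanujan_PA _) k c hc0 hA hF

end

end Fermat.Agent.S16_SDw
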