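import Mathlib
import Fermat.Prelude.Def_ModularForm_HeckeOperator
import Fermat.Prelude.Thm_CongruenceSubgroup_one_mem_strictPeriods_Gamma0

/-!
# S16 (helper7): block TR — the trace from `Γ₀(p)` to level one

* `trace_apply` (T1): `Tr F (τ) = F τ + ∑_{k<p} (F ∣ S)(τ + k)`;
* `qExpansion_trace_coeff` (T2): `a_n(Tr F) = a_n(F) + p b_{pn}`, where `b_m = bCoeff p F m` are the
  coefficients of the expansion of `F ∣ S` in `e^{2πiτ/p}`;
* `qExpansion_trace_pow_coeff`: the same for powers `F ^ m`.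
-/

set_option autoImplicit false

open UpperHalfPlane CongruenceSubgroup Matrix.SpecialLinearGroup ModularGroup
open scoped MatrixGroups ModularForm

namespace Fermat.Agent.S16_TR

variable (p : ℕ)

/-- The coset space `SL₂(ℤ) / Γ₀(p)` in Mathlib's `GL₂(ℝ)`-form. -/
abbrev Q : Type :=
  (𝒮ℒ : Subgroup (GL (Fin 2) ℝ)) ⧸ ((Gamma0 p : Subgroup (GL (Fin 2) ℝ)).subgroupOf 𝒮ℒ)

/-- The class of `g ∈ SL₂(ℤ)`. -/
def toQ (g : SL(2, ℤ)) : Q p :=
  QuotientGroup.mk (⟨mapGL ℝ g, ⟨g, rfl⟩⟩ : (𝒮ℒ : Subgroup (GL (Fin 2) ℝ)))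

theorem toQ_eq_iff (g g' : SL(2, ℤ)) : toQ p g = toQ p g' ↔ g⁻¹ * g' ∈ Gamma0 p := by
  unfold toQ
  rw [QuotientGroup.eq, Subgroup.mem_subgroupOf]
  show (mapGL ℝ g)⁻¹ * mapGL ℝ g' ∈ Subgroup.map (mapGL ℝ) (Gamma0 p) ↔ _
  rw [← map_inv, ← map_mul, Subgroup.mem_map_iff_mem mapGL_injective]

theorem toQ_surjective : Function.Surjective (toQ p) := by
  intro q
  induction q using QuotientGroup.induction_on with
  | H x =>
    obtain ⟨g, hg⟩ := x.2
    refine ⟨g, ?_⟩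
    unfold toQ
    congr 1
    exact Subtype.ext hg


section Rep

/-- The matrix `S * T ^ k`. -/
theorem STk_coe (k : ℤ) :
    ((S * T ^ k : SL(2, ℤ)) : Matrix (Fin 2) (Fin 2) ℤ) = !![0, -1; 1, k] := by
  rw [Matrix.SpecialLinearGroup.coe_mul, coe_T_zpow, coe_S]
  ext i j
  fin_cases i <;> fin_cases j <;> simp [Matrix.mul_apply, Fin.sum_univ_two]

theorem STk_mul_entry (k : ℤ) (g : SL(2, ℤ)) :
    ((S * T ^ k) * g : SL(2, ℤ)) 1 0 = g 0 0 + k * g 1 0 := by
  rw [Matrix.SpecialLinearGroup.coe_mul, STk_coe]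
  simp [Matrix.mul_apply, Fin.sum_univ_two]

theorem STk_mul_inv_entry (k k' : ℤ) :
    ((S * T ^ k) * (S * T ^ k')⁻¹ : SL(2, ℤ)) 1 0 = k' - k := by
  rw [STk_mul_entry, Matrix.SpecialLinearGroup.coe_inv, STk_coe, Matrix.adjugate_fin_two_of]
  simp
  ring

/-- Coset representatives: `1` and `(S T^k)⁻¹`, `k < p`. -/
def rep : Option (Fin p) → SL(2, ℤ)
  | none => 1
  | some k => (S * T ^ ((k : ℕ) : ℤ))⁻¹

variable [Fact p.Prime]

theorem rep_injective : Function.Injective (fun o : Option (Fin p) => toQ p (rep p o)) := by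
  have hp : Fact (1 < p) := ⟨(Fact.out : p.Prime).one_lt⟩
  have key : ∀ k : Fin p, (S * T ^ ((k : ℕ) : ℤ)) ∉ Gamma0 p := by
    intro k h
    rw [Gamma0_mem, STk_coe] at h
    simp at h
  rintro (_ | k) (_ | k') h
  · rfl
  · exfalso
    have h' := (toQ_eq_iff p _ _).1 h
    simp only [rep, inv_one, one_mul] at h'
    exact key k' (by simpa using (Gamma0 p).inv_mem h')
  · exfalso
    have h' := (toQ_eq_iff p _ _).1 h
    simp only [rep, inv_inv, mul_one] at h'
    exact key k h'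
  · have h' := (toQ_eq_iff p _ _).1 h
    simp only [rep, inv_inv] at h'
    rw [Gamma0_mem, STk_mul_inv_entry] at h'
    have h2 : ((k' : ℕ) : ZMod p) = ((k : ℕ) : ZMod p) := by
      push_cast at h'
      linear_combination h'
    have h3 := (ZMod.natCast_eq_natCast_iff' _ _ _).mp h2
    rw [Nat.mod_eq_of_lt k.2, Nat.mod_eq_of_lt k'.2] at h3
    exact congrArg some (Fin.ext h3.symm)

theorem rep_surjective : Function.Surjective (fun o : Option (Fin p) => toQ p (rep p o)) := by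
  have : NeZero p := ⟨(Fact.out : p.Prime).ne_zero⟩
  intro q
  obtain ⟨g, rfl⟩ := toQ_surjective p q
  by_cases hg : g ∈ Gamma0 p
  · refine ⟨none, ?_⟩
    show toQ p 1 = toQ p g
    rw [toQ_eq_iff]
    simpa using hg
  · have hc : ((g 1 0 : ℤ) : ZMod p) ≠ 0 := fun h => hg (Gamma0_mem.2 h)
    let j : Fin p := ⟨(-((g 0 0 : ℤ) : ZMod p) * ((g 1 0 : ℤ) : ZMod p)⁻¹).val, ZMod.val_lt _⟩
    refine ⟨some j, ?_⟩
    show toQ p (S * T ^ ((j : ℕ) : ℤ))⁻¹ = toQ p g
    rw [toQ_eq_iff, inv_inv, Gamma0_mem, STk_mul_entry]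
    push_cast
    have hj : ((j : ℕ) : ZMod p) = -((g 0 0 : ℤ) : ZMod p) * ((g 1 0 : ℤ) : ZMod p)⁻¹ :=
      ZMod.natCast_zmod_val _
    rw [hj, mul_assoc, inv_mul_cancel₀ hc]
    ring

/-- The enumeration of the cosets as an equivalence. -/
noncomputable def repEquiv : Option (Fin p) ≃ Q p :=
  Equiv.ofBijective _ ⟨rep_injective p, rep_surjective p⟩

theorem repEquiv_apply (o : Option (Fin p)) : repEquiv p o = toQ p (rep p o) := rfl

end Rep


section Trace

variable [Fact p.Prime] {w : ℤ}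

theorem neZero_p : NeZero p := ⟨(Fact.out : p.Prime).ne_zero⟩

theorem slash_T_zpow_apply (f : ℍ → ℂ) (k : ℤ) (τ : ℍ) :
    (f ∣[w] (T ^ k : SL(2, ℤ))) τ = f ((k : ℝ) +ᵥ τ) := by
  rw [ModularForm.SL_slash_apply]
  have h1 : T ^ k • τ = (k : ℝ) +ᵥ τ := by
    apply UpperHalfPlane.ext
    rw [coe_T_zpow_smul_eq, UpperHalfPlane.coe_vadd]
    push_cast
    ring
  have h2 : denom (T ^ k : SL(2, ℤ)) τ = 1 := by
    rw [ModularGroup.denom_apply, coe_T_zpow]
    simp
  rw [h1, h2, one_zpow, mul_one]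

/-- **(T1)** The trace to level one, over the cosets `1`, `S T^k`. -/
theorem trace_apply [NeZero p] (F : ModularForm (Gamma0 p) w) (τ : ℍ) :
    ModularForm.trace 𝒮ℒ F τ
      = F τ + ∑ k ∈ Finset.range p, (⇑F ∣[w] (S : SL(2, ℤ))) (((k : ℕ) : ℝ) +ᵥ τ) := by
  have h1 : (ModularForm.trace 𝒮ℒ F : ℍ → ℂ) τ
      = ∑ o : Option (Fin p), SlashInvariantForm.quotientFunc F (repEquiv p o) τ := by
    rw [ModularForm.coe_trace]
    let _ := Fintype.ofFinite (Q p)
    simp only [Finset.sum_apply]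
    exact (Equiv.sum_comp (repEquiv p) (fun q => SlashInvariantForm.quotientFunc F q τ)).symm
  rw [h1, Fintype.sum_option]
  congr 1
  · show ((⇑F) ∣[w] ((mapGL ℝ (1 : SL(2, ℤ)) : GL (Fin 2) ℝ))⁻¹) τ = F τ
    rw [map_one, inv_one, SlashAction.slash_one]
  · rw [← Fin.sum_univ_eq_sum_range (fun k => (⇑F ∣[w] (S : SL(2, ℤ))) (((k : ℕ) : ℝ) +ᵥ τ)) p]
    refine Finset.sum_congr rfl fun k _ => ?_
    show ((⇑F) ∣[w] ((mapGL ℝ ((S * T ^ ((k : ℕ) : ℤ))⁻¹ : SL(2, ℤ)) : GL (Fin 2) ℝ))⁻¹) τ = _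
    rw [← map_inv, inv_inv]
    show ((⇑F) ∣[w] (S * T ^ ((k : ℕ) : ℤ) : SL(2, ℤ))) τ = _
    rw [SlashAction.slash_mul, slash_T_zpow_apply]
    push_cast
    rfl

end Trace


section QExp

variable [Fact p.Prime] {w : ℤ}

open ConjAct Pointwise

/-- `F ∣ S` as a modular form for the conjugate group. -/
noncomputable def slashS (F : ModularForm (Gamma0 p) w) :
    ModularForm (toConjAct (mapGL ℝ S)⁻¹ • (Gamma0 p : Subgroup (GL (Fin 2) ℝ))) w :=
  ModularForm.translate F (mapGL ℝ S)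

omit [Fact p.Prime] in
theorem coe_slashS (F : ModularForm (Gamma0 p) w) :
    ⇑(slashS p F) = ⇑F ∣[w] (S : SL(2, ℤ)) := rfl

theorem p_mem_strictPeriods :
    (p : ℝ) ∈ (toConjAct (mapGL ℝ S)⁻¹ • (Gamma0 p : Subgroup (GL (Fin 2) ℝ))).strictPeriods := by
  rw [Subgroup.mem_strictPeriods_iff, map_inv, Subgroup.mem_inv_pointwise_smul_iff, toConjAct_smul]
  have h1 : Matrix.GeneralLinearGroup.upperRightHom (p : ℝ) = mapGL ℝ (T ^ (p : ℤ)) := by
    apply Matrix.GeneralLinearGroup.ext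
    intro i j
    show (!![1, (p : ℝ); 0, 1] : Matrix (Fin 2) (Fin 2) ℝ) i j
      = (((T ^ (p : ℤ) : SL(2, ℤ)) : Matrix (Fin 2) (Fin 2) ℤ).map (algebraMap ℤ ℝ)) i j
    rw [coe_T_zpow]
    fin_cases i <;> fin_cases j <;> simp
  rw [h1, ← map_inv, ← map_mul, ← map_mul]
  refine Subgroup.mem_map_of_mem _ ?_
  rw [Gamma0_mem, STk_mul_entry, Matrix.SpecialLinearGroup.coe_inv, coe_S,
    Matrix.adjugate_fin_two_of]
  simp

end QExp


section QExp2

variable [Fact p.Prime] {w : ℤ}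

open ConjAct Pointwise Function

/-- The coefficients of the expansion of `F ∣ S` in `x = e^{2πiτ/p}`. -/
noncomputable def bCoeff (F : ModularForm (Gamma0 p) w) (m : ℕ) : ℂ :=
  (qExpansion (p : ℝ) (slashS p F)).coeff m

theorem p_pos_real : (0 : ℝ) < p := by
  exact_mod_cast (Fact.out : p.Prime).pos

theorem hasSum_slashS (F : ModularForm (Gamma0 p) w) (τ : ℍ) :
    HasSum (fun m => bCoeff p F m * Periodic.qParam (p : ℝ) τ ^ m)
      ((⇑F ∣[w] (S : SL(2, ℤ))) τ) := by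
  haveI : Fact (IsCusp OnePoint.infty
      (toConjAct (mapGL ℝ S)⁻¹ • (Gamma0 p : Subgroup (GL (Fin 2) ℝ)))) :=
    ⟨Subgroup.isCusp_of_mem_strictPeriods (p_pos_real p) (p_mem_strictPeriods p)⟩
  exact ModularForm.hasSum_qExpansion (slashS p F) (p_pos_real p) (p_mem_strictPeriods p) τ

/-- The primitive `p`-th root of unity `e^{2πi/p}`. -/
noncomputable def zeta : ℂ := Complex.exp (2 * Real.pi * Complex.I / p)

theorem zeta_prim : IsPrimitiveRoot (zeta p) p :=
  Complex.isPrimitiveRoot_exp p (Fact.out : p.Prime).ne_zero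

theorem qParam_vadd (k : ℕ) (τ : ℍ) :
    Periodic.qParam (p : ℝ) (((k : ℝ) +ᵥ τ : ℍ) : ℂ) = zeta p ^ k * Periodic.qParam (p : ℝ) τ := by
  have hp : (p : ℂ) ≠ 0 := by exact_mod_cast (Fact.out : p.Prime).ne_zero
  rw [UpperHalfPlane.coe_vadd, Periodic.qParam, Periodic.qParam, zeta, ← Complex.exp_nat_mul,
    ← Complex.exp_add]
  congr 1
  push_cast
  field_simp

theorem qParam_pow (τ : ℍ) :
    Periodic.qParam (p : ℝ) τ ^ p = Periodic.qParam (1 : ℝ) τ := by
  have hp : (p : ℂ) ≠ 0 := by exact_mod_cast (Fact.out : p.Prime).ne_zero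
  rw [Periodic.qParam, Periodic.qParam, ← Complex.exp_nat_mul]
  congr 1
  push_cast
  field_simp

theorem zeta_sum (m : ℕ) :
    ∑ k ∈ Finset.range p, (zeta p ^ k) ^ m = if p ∣ m then (p : ℂ) else 0 := by
  have hpr : p.Prime := Fact.out
  have h1 : ∀ k, (zeta p ^ k) ^ m = (zeta p ^ m) ^ k := fun k => by
    rw [← pow_mul, ← pow_mul, mul_comm]
  simp only [h1]
  split_ifs with h
  · have h2 : zeta p ^ m = 1 := (zeta_prim p).pow_eq_one_iff_dvd m |>.2 h
    simp [h2]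
  · have hcop : Nat.Coprime m p := (Nat.Prime.coprime_iff_not_dvd hpr).2 h |>.symm
    exact ((zeta_prim p).pow_of_coprime m hcop).geom_sum_eq_zero hpr.one_lt

/-- **(T2)** The `q`-expansion of the trace. -/
theorem qExpansion_trace_coeff [NeZero p] (F : ModularForm (Gamma0 p) w) (n : ℕ) :
    (qExpansion 1 (ModularForm.trace 𝒮ℒ F)).coeff n
      = (qExpansion 1 F).coeff n + p * bCoeff p F (p * n) := by
  have hpr : p.Prime := Fact.out
  symm
  refine ModularFormClass.qExpansion_coeff_unique (c := fun n => (qExpansion 1 F).coeff n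
    + p * bCoeff p F (p * n)) one_pos _root_.one_mem_strictPeriods_SL
    (f := ModularForm.trace 𝒮ℒ F) (fun τ => ?_) n
  rw [trace_apply]
  haveI : Fact (IsCusp OnePoint.infty (Gamma0 p : Subgroup (GL (Fin 2) ℝ))) :=
    ⟨Subgroup.isCusp_of_mem_strictPeriods one_pos (one_mem_strictPeriods_Gamma0 p)⟩
  have hF := ModularForm.hasSum_qExpansion F one_pos (one_mem_strictPeriods_Gamma0 p) τ
  -- the sum over the translates
  have hG : HasSum (fun m : ℕ => (if p ∣ m then (p : ℂ) * bCoeff p F m else 0)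
      * Periodic.qParam (p : ℝ) τ ^ m)
      (∑ k ∈ Finset.range p, (⇑F ∣[w] (S : SL(2, ℤ))) (((k : ℕ) : ℝ) +ᵥ τ)) := by
    have h1 := hasSum_sum (s := Finset.range p) (fun k _ => hasSum_slashS p F (((k : ℕ) : ℝ) +ᵥ τ))
    convert h1 using 1
    funext m
    simp only [qParam_vadd, mul_pow]
    rw [← Finset.mul_sum, ← Finset.sum_mul, zeta_sum]
    split_ifs <;> ring
  have hG2 : HasSum (fun n : ℕ => ((p : ℂ) * bCoeff p F (p * n)) * Periodic.qParam (1 : ℝ) τ ^ n)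
      (∑ k ∈ Finset.range p, (⇑F ∣[w] (S : SL(2, ℤ))) (((k : ℕ) : ℝ) +ᵥ τ)) := by
    have hinj : Function.Injective (fun n : ℕ => p * n) :=
      fun a b hab => Nat.eq_of_mul_eq_mul_left hpr.pos hab
    have h2 := (hinj.hasSum_iff (f := fun m : ℕ => (if p ∣ m then (p : ℂ) * bCoeff p F m else 0)
      * Periodic.qParam (p : ℝ) τ ^ m) ?_).2 hG
    · convert h2 using 1
      funext n
      simp only [Function.comp_apply, dvd_mul_right, if_true]
      rw [pow_mul, qParam_pow]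
    · intro m hm
      have : ¬ p ∣ m := fun ⟨c, hc⟩ => hm ⟨c, hc.symm⟩
      simp [this]
  have hsum := hF.add hG2
  convert hsum using 1
  funext m
  simp only [smul_eq_mul]
  ring

end QExp2


section Pow

variable [Fact p.Prime] {w : ℤ}

open ConjAct Pointwise Function

theorem pow_slash_SL (f : ℍ → ℂ) (A : SL(2, ℤ)) (m : ℕ) :
    (f ^ m) ∣[(m : ℤ) * w] A = (f ∣[w] A) ^ m := by
  induction m with
  | zero =>
    rw [pow_zero, pow_zero, Nat.cast_zero, zero_mul]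
    exact ModularForm.is_invariant_one A
  | succ m ih =>
    rw [pow_succ, pow_succ, ← ih, ← ModularForm.mul_slash_SL2]
    congr 1
    push_cast
    ring

theorem coe_slashS_pow (F : ModularForm (Gamma0 p) w) (m : ℕ) :
    (⇑(slashS p (F.pow m)) : ℍ → ℂ) = ⇑((slashS p F).pow m) := by
  rw [coe_slashS, ModularForm.coe_pow, ModularForm.coe_pow, coe_slashS, pow_slash_SL]

omit [Fact p.Prime] in
theorem mk_bCoeff (F : ModularForm (Gamma0 p) w) :
    PowerSeries.mk (bCoeff p F) = qExpansion (p : ℝ) (slashS p F) := by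
  ext n
  rw [PowerSeries.coeff_mk]
  rfl

theorem bCoeff_pow (F : ModularForm (Gamma0 p) w) (m n : ℕ) :
    bCoeff p (F.pow m) n = ((PowerSeries.mk (bCoeff p F)) ^ m).coeff n := by
  rw [mk_bCoeff]
  show (qExpansion (p : ℝ) (slashS p (F.pow m))).coeff n = _
  rw [coe_slashS_pow, ModularForm.qExpansion_pow (p_pos_real p) (p_mem_strictPeriods p)]

/-- **(TRPOW, general weight)** -/
theorem qExpansion_trace_pow_coeff [NeZero p] (F : ModularForm (Gamma0 p) w) (m n : ℕ) :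
    (qExpansion 1 (ModularForm.trace 𝒮ℒ (F.pow m))).coeff n
      = ((qExpansion 1 F) ^ m).coeff n
        + p * ((PowerSeries.mk (bCoeff p F)) ^ m).coeff (p * n) := by
  rw [qExpansion_trace_coeff, bCoeff_pow,
    ModularForm.qExpansion_pow one_pos (one_mem_strictPeriods_Gamma0 p)]

end Pow

end Fermat.Agent.S16_TR
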