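import Mathlib
import Fermat.Prelude.Def_ModularForm_HeckeOperator
import Fermat.Prelude.Def_ModularForm_HeckeOperatorForms
import Fermat.Prelude.Thm_ModularForm_isBoundedAtImInfty_heckeU
import Fermat.Prelude.Thm_ModularForm_isBoundedAtImInfty_heckeT
import Fermat.Prelude.Thm_ModularForm_mdifferentiable_heckeU
import Fermat.Prelude.Thm_ModularForm_heckeU_slash_eq_self_of_mem_Gamma0
import Fermat.Prelude.Thm_ModularFormClass_qCoeff_heckeU
import Fermat.Prelude.Thm_CongruenceSubgroup_one_mem_strictPeriods_Gamma0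

set_option autoImplicit false

noncomputable section

open UpperHalfPlane ModularForm Filter
open scoped MatrixGroups ModularForm Manifold Topology

namespace Fermat.Agent.S16_W2

/-- A function invariant under `S` and `T` is invariant under `SL₂(ℤ)`. -/
theorem slash_eq_of_S_T (k : ℤ) (f : ℍ → ℂ) (hS : f ∣[k] ModularGroup.S = f)
    (hT : f ∣[k] ModularGroup.T = f) (γ : SL(2, ℤ)) : f ∣[k] γ = f := by
  have hmem : γ ∈ Subgroup.closure {ModularGroup.S, ModularGroup.T} := by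
    rw [SpecialLinearGroup.SL2Z_generators]; trivial
  induction hmem using Subgroup.closure_induction with
  | mem x hx =>
    rcases hx with rfl | rfl
    · exact hS
    · exact hT
  | one => exact SlashAction.slash_one k f
  | mul x y _ _ hx hy => rw [SlashAction.slash_mul, hx, hy]
  | inv x _ hx =>
    conv_lhs => rw [← hx]
    rw [← SlashAction.slash_mul, mul_inv_cancel, SlashAction.slash_one]

/-- Build a level-one modular form from a holomorphic function invariant under `S`, `T`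
and bounded at `i∞`. -/
def levelOneMk (k : ℤ) (f : ℍ → ℂ) (hol : MDiff f) (hS : f ∣[k] ModularGroup.S = f)
    (hT : f ∣[k] ModularGroup.T = f) (hbdd : IsBoundedAtImInfty f) : ModularForm 𝒮ℒ k where
  toFun := f
  slash_action_eq' := by
    rintro _ ⟨γ, rfl⟩
    exact slash_eq_of_S_T k f hS hT γ
  holo' := hol
  bdd_at_cusps' {c} hc := by
    rw [OnePoint.isBoundedAt_iff_forall_SL2Z hc]
    intro γ _
    rw [slash_eq_of_S_T k f hS hT γ]
    exact hbdd

@[simp] theorem levelOneMk_apply (k : ℤ) (f : ℍ → ℂ) (hol : MDiff f)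
    (hS : f ∣[k] ModularGroup.S = f) (hT : f ∣[k] ModularGroup.T = f)
    (hbdd : IsBoundedAtImInfty f) (z : ℍ) : levelOneMk k f hol hS hT hbdd z = f z := rfl

theorem coe_levelOneMk (k : ℤ) (f : ℍ → ℂ) (hol : MDiff f)
    (hS : f ∣[k] ModularGroup.S = f) (hT : f ∣[k] ModularGroup.T = f)
    (hbdd : IsBoundedAtImInfty f) : ⇑(levelOneMk k f hol hS hT hbdd) = f := rfl

/-- A weight-2 function of level one vanishes. -/
theorem eq_zero_of_S_T_weight_two (f : ℍ → ℂ) (hol : MDiff f) (hS : f ∣[(2 : ℤ)] ModularGroup.S = f)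
    (hT : f ∣[(2 : ℤ)] ModularGroup.T = f) (hbdd : IsBoundedAtImInfty f) : f = 0 := by
  have h0 : levelOneMk 2 f hol hS hT hbdd = 0 := by
    have := levelOne_weight_two_rank_zero
    rw [rank_zero_iff_forall_zero] at this
    exact this _
  funext z
  have := DFunLike.congr_fun h0 z
  simpa using this


/-- the Fricke matrix `[0,-1;p,0]` -/
def frickeGL (p : ℕ) : GL (Fin 2) ℝ :=
  if hp : p = 0 then 1 else
    Matrix.GeneralLinearGroup.mkOfDetNeZero !![0, -1; (p : ℝ), 0]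
      (by rw [Matrix.det_fin_two_of]; simpa using hp)

theorem val_frickeGL {p : ℕ} (hp : p ≠ 0) :
    ((frickeGL p : GL (Fin 2) ℝ) : Matrix (Fin 2) (Fin 2) ℝ) = !![0, -1; (p : ℝ), 0] := by
  simp [frickeGL, hp]

/-- entries of the image of an integer matrix in `GL₂(ℝ)` -/
theorem val_mapGL (g : SL(2, ℤ)) :
    ((Matrix.SpecialLinearGroup.mapGL ℝ g : GL (Fin 2) ℝ) : Matrix (Fin 2) (Fin 2) ℝ)
      = !![(g 0 0 : ℝ), (g 0 1 : ℝ); (g 1 0 : ℝ), (g 1 1 : ℝ)] := by
  rw [Matrix.SpecialLinearGroup.mapGL_coe_matrix]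
  ext i j
  fin_cases i <;> fin_cases j <;> rfl

/-- integer matrix with given entries -/
def mkSL (a b c d : ℤ) (h : a * d - b * c = 1) : SL(2, ℤ) :=
  ⟨!![a, b; c, d], by rw [Matrix.det_fin_two_of]; exact h⟩

@[simp] theorem mkSL_00 (a b c d : ℤ) (h : a * d - b * c = 1) : mkSL a b c d h 0 0 = a := rfl
@[simp] theorem mkSL_01 (a b c d : ℤ) (h : a * d - b * c = 1) : mkSL a b c d h 0 1 = b := rfl
@[simp] theorem mkSL_10 (a b c d : ℤ) (h : a * d - b * c = 1) : mkSL a b c d h 1 0 = c := rfl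
@[simp] theorem mkSL_11 (a b c d : ℤ) (h : a * d - b * c = 1) : mkSL a b c d h 1 1 = d := rfl

theorem S_eq : ModularGroup.S = mkSL 0 (-1) 1 0 (by norm_num) := rfl
theorem T_eq : ModularGroup.T = mkSL 1 1 0 1 (by norm_num) := rfl

theorem fricke_mul_S {p : ℕ} (hp : p ≠ 0) :
    frickeGL p * Matrix.SpecialLinearGroup.mapGL ℝ ModularGroup.S
      = Matrix.SpecialLinearGroup.mapGL ℝ (mkSL (-1) 0 0 (-1) (by norm_num)) * heckeMatrix p 0 := by
  apply Units.ext
  rw [Units.val_mul, Units.val_mul, val_frickeGL hp, val_heckeMatrix hp, val_mapGL, val_mapGL, S_eq]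
  ext i j
  fin_cases i <;> fin_cases j <;> simp [Matrix.mul_apply, Fin.sum_univ_two]

theorem hecke0_mul_S {p : ℕ} (hp : p ≠ 0) :
    heckeMatrix p 0 * Matrix.SpecialLinearGroup.mapGL ℝ ModularGroup.S = frickeGL p := by
  apply Units.ext
  rw [Units.val_mul, val_frickeGL hp, val_heckeMatrix hp, val_mapGL, S_eq]
  ext i j
  fin_cases i <;> fin_cases j <;> simp [Matrix.mul_apply, Fin.sum_univ_two]

theorem hecke_mul_S {p : ℕ} (hp : p ≠ 0) (j j' : ℕ) (c : ℤ) (hc : (j : ℤ) * j' + 1 = p * c) :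
    heckeMatrix p j * Matrix.SpecialLinearGroup.mapGL ℝ ModularGroup.S
      = Matrix.SpecialLinearGroup.mapGL ℝ (mkSL j (-c) p (-j') (by linarith)) * heckeMatrix p j' := by
  apply Units.ext
  rw [Units.val_mul, Units.val_mul, val_heckeMatrix hp, val_heckeMatrix hp, val_mapGL, val_mapGL, S_eq]
  have hc' : (j : ℝ) * j' + 1 = p * c := by exact_mod_cast hc
  ext a b
  fin_cases a <;> fin_cases b <;> simp [Matrix.mul_apply, Fin.sum_univ_two] <;> linarith

theorem fricke_mul_T {p : ℕ} (hp : p ≠ 0) :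
    frickeGL p * Matrix.SpecialLinearGroup.mapGL ℝ ModularGroup.T
      = Matrix.SpecialLinearGroup.mapGL ℝ (mkSL 1 0 (-p) 1 (by norm_num)) * frickeGL p := by
  apply Units.ext
  rw [Units.val_mul, Units.val_mul, val_frickeGL hp, val_mapGL, val_mapGL, T_eq]
  ext i j
  fin_cases i <;> fin_cases j <;> simp [Matrix.mul_apply, Fin.sum_univ_two]

/-- `S = (1/p) W_p M_0` up to the scalar: `W_p * M_0 = p • S`; in weight 2 scalars act trivially,
so we record the relation `W_p * M₀ = (p·1) * S`. -/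
theorem fricke_mul_hecke0 {p : ℕ} (hp : p ≠ 0) :
    ((frickeGL p * heckeMatrix p 0 : GL (Fin 2) ℝ) : Matrix (Fin 2) (Fin 2) ℝ)
      = (p : ℝ) • ((Matrix.SpecialLinearGroup.mapGL ℝ ModularGroup.S : GL (Fin 2) ℝ) :
          Matrix (Fin 2) (Fin 2) ℝ) := by
  rw [Units.val_mul, val_frickeGL hp, val_heckeMatrix hp, val_mapGL, S_eq]
  ext i j
  fin_cases i <;> fin_cases j <;> simp [Matrix.mul_apply, Fin.sum_univ_two]


/-! ### The `T_p`-type family `h|W_p, h|M_0, …, h|M_{p-1}` -/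

section family

variable {p : ℕ} {k : ℤ}

theorem slash_mem (h : ModularForm (CongruenceSubgroup.Gamma0 p) k) (γ : SL(2, ℤ))
    (hγ : γ ∈ CongruenceSubgroup.Gamma0 p) :
    ⇑h ∣[k] (Matrix.SpecialLinearGroup.mapGL ℝ γ) = ⇑h :=
  SlashInvariantFormClass.slash_action_eq h _ ⟨γ, hγ, rfl⟩

theorem mkSL_mem_Gamma0 (a b c d : ℤ) (hdet : a * d - b * c = 1) (hc : (p : ℤ) ∣ c) :
    mkSL a b c d hdet ∈ CongruenceSubgroup.Gamma0 p := by
  rw [CongruenceSubgroup.Gamma0_mem]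
  show ((c : ℤ) : ZMod p) = 0
  exact (ZMod.intCast_zmod_eq_zero_iff_dvd c p).mpr hc

theorem fricke_slash_S (hp : p ≠ 0) (h : ModularForm (CongruenceSubgroup.Gamma0 p) k) :
    (⇑h ∣[k] frickeGL p) ∣[k] (Matrix.SpecialLinearGroup.mapGL ℝ ModularGroup.S)
      = ⇑h ∣[k] heckeMatrix p 0 := by
  rw [← SlashAction.slash_mul, fricke_mul_S hp, SlashAction.slash_mul,
    slash_mem h _ (mkSL_mem_Gamma0 _ _ _ _ _ (dvd_zero _))]

theorem hecke0_slash_S (hp : p ≠ 0) (h : ModularForm (CongruenceSubgroup.Gamma0 p) k) :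
    (⇑h ∣[k] heckeMatrix p 0) ∣[k] (Matrix.SpecialLinearGroup.mapGL ℝ ModularGroup.S)
      = ⇑h ∣[k] frickeGL p := by
  rw [← SlashAction.slash_mul, hecke0_mul_S hp]

theorem hecke_slash_S (hp : p ≠ 0) (h : ModularForm (CongruenceSubgroup.Gamma0 p) k)
    (j j' : ℕ) (c : ℤ) (hc : (j : ℤ) * j' + 1 = p * c) :
    (⇑h ∣[k] heckeMatrix p j) ∣[k] (Matrix.SpecialLinearGroup.mapGL ℝ ModularGroup.S)
      = ⇑h ∣[k] heckeMatrix p j' := by
  rw [← SlashAction.slash_mul, hecke_mul_S hp j j' c hc, SlashAction.slash_mul,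
    slash_mem h _ (mkSL_mem_Gamma0 _ _ _ _ _ (dvd_refl _))]

theorem fricke_slash_T (hp : p ≠ 0) (h : ModularForm (CongruenceSubgroup.Gamma0 p) k) :
    (⇑h ∣[k] frickeGL p) ∣[k] (Matrix.SpecialLinearGroup.mapGL ℝ ModularGroup.T)
      = ⇑h ∣[k] frickeGL p := by
  rw [← SlashAction.slash_mul, fricke_mul_T hp, SlashAction.slash_mul,
    slash_mem h _ (mkSL_mem_Gamma0 _ _ _ _ _ (by simp))]

end family

/-! ### The involution `j ↦ -1/j` on `{1, …, p-1}` -/

section invol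

variable (p : ℕ) [Fact p.Prime]

/-- `j ↦ -1/j mod p` -/
def negInv (j : ℕ) : ℕ := (-((j : ZMod p))⁻¹).val

theorem natCast_ne_zero_of_mem {j : ℕ} (hj : j ∈ Finset.Ico 1 p) : (j : ZMod p) ≠ 0 := by
  rw [Finset.mem_Ico] at hj
  rw [Ne, ZMod.natCast_eq_zero_iff]
  exact Nat.not_dvd_of_pos_of_lt (by omega) hj.2

theorem negInv_cast (j : ℕ) : ((negInv p j : ℕ) : ZMod p) = -((j : ZMod p))⁻¹ := by
  unfold negInv
  rw [ZMod.natCast_zmod_val]

theorem negInv_mem {j : ℕ} (hj : j ∈ Finset.Ico 1 p) : negInv p j ∈ Finset.Ico 1 p := by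
  have hp : p.Prime := Fact.out
  have : NeZero p := ⟨hp.ne_zero⟩
  rw [Finset.mem_Ico]
  refine ⟨?_, ZMod.val_lt _⟩
  rw [Nat.one_le_iff_ne_zero]
  intro h0
  unfold negInv at h0
  rw [ZMod.val_eq_zero] at h0
  have := natCast_ne_zero_of_mem p hj
  simp_all

theorem negInv_negInv {j : ℕ} (hj : j ∈ Finset.Ico 1 p) : negInv p (negInv p j) = j := by
  have hne := natCast_ne_zero_of_mem p hj
  rw [Finset.mem_Ico] at hj
  show (-((negInv p j : ℕ) : ZMod p)⁻¹).val = j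
  rw [negInv_cast, inv_neg, inv_inv, neg_neg, ZMod.val_natCast_of_lt hj.2]

theorem negInv_spec {j : ℕ} (hj : j ∈ Finset.Ico 1 p) :
    ∃ c : ℤ, (j : ℤ) * (negInv p j : ℕ) + 1 = p * c := by
  have hne := natCast_ne_zero_of_mem p hj
  have h0 : (((j : ℤ) * (negInv p j : ℕ) + 1 : ℤ) : ZMod p) = 0 := by
    push_cast
    rw [negInv_cast, mul_neg, mul_inv_cancel₀ hne]
    ring
  obtain ⟨c, hc⟩ := (ZMod.intCast_zmod_eq_zero_iff_dvd _ p).mp h0
  exact ⟨c, hc⟩

end invol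


section main

variable (p : ℕ) [Fact p.Prime]

/-- the `T_p`-type sum `h|W_p + U_p h` -/
def frickeSum (h : ModularForm (CongruenceSubgroup.Gamma0 p) 2) : ℍ → ℂ :=
  ⇑h ∣[(2 : ℤ)] frickeGL p + heckeU 2 p ⇑h

theorem heckeU_split {k : ℤ} {q : ℕ} (hq : 0 < q) (f : ℍ → ℂ) :
    heckeU k q f = f ∣[k] heckeMatrix q 0 + ∑ j ∈ Finset.Ico 1 q, f ∣[k] heckeMatrix q j := by
  rw [heckeU_def, Finset.range_eq_Ico, Finset.sum_eq_sum_Ico_succ_bot hq]

theorem frickeSum_slash_S (h : ModularForm (CongruenceSubgroup.Gamma0 p) 2) :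
    frickeSum p h ∣[(2 : ℤ)] ModularGroup.S = frickeSum p h := by
  have hp : p.Prime := Fact.out
  have hp0 : p ≠ 0 := hp.ne_zero
  unfold frickeSum
  rw [heckeU_split hp.pos]
  change (_ + (_ + _)) ∣[(2 : ℤ)] (Matrix.SpecialLinearGroup.mapGL ℝ ModularGroup.S) = _
  rw [SlashAction.add_slash, SlashAction.add_slash, SlashAction.sum_slash,
    fricke_slash_S hp0, hecke0_slash_S hp0]
  have hsum : ∑ j ∈ Finset.Ico 1 p, (⇑h ∣[(2 : ℤ)] heckeMatrix p j) ∣[(2 : ℤ)]
        (Matrix.SpecialLinearGroup.mapGL ℝ ModularGroup.S)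
      = ∑ j ∈ Finset.Ico 1 p, ⇑h ∣[(2 : ℤ)] heckeMatrix p j := by
    have h1 : ∀ j ∈ Finset.Ico 1 p, (⇑h ∣[(2 : ℤ)] heckeMatrix p j) ∣[(2 : ℤ)]
        (Matrix.SpecialLinearGroup.mapGL ℝ ModularGroup.S)
          = ⇑h ∣[(2 : ℤ)] heckeMatrix p (negInv p j) := by
      intro j hj
      obtain ⟨c, hc⟩ := negInv_spec p hj
      exact hecke_slash_S hp0 h j (negInv p j) c hc
    rw [Finset.sum_congr rfl h1]
    exact Finset.sum_nbij' (negInv p) (negInv p) (fun j hj => negInv_mem p hj)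
      (fun j hj => negInv_mem p hj) (fun j hj => negInv_negInv p hj)
      (fun j hj => negInv_negInv p hj) (fun j hj => rfl)
  rw [hsum]
  abel

theorem frickeSum_slash_T (h : ModularForm (CongruenceSubgroup.Gamma0 p) 2) :
    frickeSum p h ∣[(2 : ℤ)] ModularGroup.T = frickeSum p h := by
  have hp : p.Prime := Fact.out
  have hp0 : p ≠ 0 := hp.ne_zero
  unfold frickeSum
  change (_ + _) ∣[(2 : ℤ)] (Matrix.SpecialLinearGroup.mapGL ℝ ModularGroup.T) = _
  rw [SlashAction.add_slash, fricke_slash_T hp0]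
  congr 1
  exact heckeU_slash_eq_self_of_mem_Gamma0 2 (dvd_refl p)
    (fun γ hγ => SlashInvariantFormClass.slash_action_eq h γ hγ) _
    ⟨ModularGroup.T, mkSL_mem_Gamma0 1 1 0 1 (by norm_num) (dvd_zero _), rfl⟩

theorem frickeSum_mdiff (h : ModularForm (CongruenceSubgroup.Gamma0 p) 2) :
    MDiff (frickeSum p h) :=
  ((ModularFormClass.holo h).slash 2 (frickeGL p)).add
    (mdifferentiable_heckeU (ModularFormClass.holo h) 2 p)

theorem fricke_eq {q : ℕ} (hq : q ≠ 0) :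
    frickeGL q = Matrix.SpecialLinearGroup.mapGL ℝ ModularGroup.S * heckeDiagMatrix q := by
  apply Units.ext
  rw [Units.val_mul, val_frickeGL hq, val_heckeDiagMatrix hq, val_mapGL, S_eq]
  ext i j
  fin_cases i <;> fin_cases j <;> simp [Matrix.mul_apply, Fin.sum_univ_two]

theorem slash_fricke_eq {q : ℕ} (hq : q ≠ 0) (k : ℤ) (f : ℍ → ℂ) :
    f ∣[k] frickeGL q = (f ∣[k] ModularGroup.S) ∣[k] heckeDiagMatrix q := by
  rw [fricke_eq hq, SlashAction.slash_mul]
  rfl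

theorem frickeSum_bdd (h : ModularForm (CongruenceSubgroup.Gamma0 p) 2) :
    IsBoundedAtImInfty (frickeSum p h) := by
  have hp0 : p ≠ 0 := (Fact.out : p.Prime).ne_zero
  have hS : IsBoundedAtImInfty (⇑h ∣[(2 : ℤ)] ModularGroup.S) :=
    ModularFormClass.bdd_at_infty_slash h ModularGroup.S
  have h1' : IsBoundedAtImInfty (⇑h ∣[(2 : ℤ)] (1 : SL(2, ℤ))) :=
    ModularFormClass.bdd_at_infty_slash h 1
  have h1 : IsBoundedAtImInfty ⇑h := by
    rwa [SlashAction.slash_one] at h1'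
  have h2 : ⇑h ∣[(2 : ℤ)] frickeGL p = heckeT 2 p (⇑h ∣[(2 : ℤ)] ModularGroup.S)
      + -(heckeU 2 p (⇑h ∣[(2 : ℤ)] ModularGroup.S)) := by
    rw [slash_fricke_eq hp0, heckeT_eq_heckeU_add]
    abel
  unfold frickeSum
  rw [h2]
  exact ((isBoundedAtImInfty_heckeT hS 2 p).add (isBoundedAtImInfty_heckeU hS 2 p).neg).add
    (isBoundedAtImInfty_heckeU h1 2 p)

/-- (W2a) Fricke `= -U_p` in weight 2 -/
theorem fricke_slash_eq (h : ModularForm (CongruenceSubgroup.Gamma0 p) 2) :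
    ⇑h ∣[(2 : ℤ)] frickeGL p = -heckeU 2 p ⇑h := by
  have := eq_zero_of_S_T_weight_two (frickeSum p h) (frickeSum_mdiff p h)
    (frickeSum_slash_S p h) (frickeSum_slash_T p h) (frickeSum_bdd p h)
  unfold frickeSum at this
  exact eq_neg_of_add_eq_zero_left this

/-- (W2b) `(h|S)(pτ) = -(1/p) (U_p h)(τ)` -/
theorem slash_S_apply_smul (h : ModularForm (CongruenceSubgroup.Gamma0 p) 2) (τ : ℍ) :
    (⇑h ∣[(2 : ℤ)] ModularGroup.S) (heckeDiagMatrix p • τ) = -(p : ℂ)⁻¹ * heckeU 2 p ⇑h τ := by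
  have hp0 : p ≠ 0 := (Fact.out : p.Prime).ne_zero
  have hpc : (p : ℂ) ≠ 0 := by exact_mod_cast hp0
  have h1 := congrFun (fricke_slash_eq p h) τ
  rw [slash_fricke_eq hp0, slash_heckeDiagMatrix_apply 2 hp0] at h1
  simp only [Pi.neg_apply] at h1
  have h3 : ((p : ℂ) ^ ((2 : ℤ) - 1)) = p := by norm_num
  rw [h3] at h1
  field_simp
  linear_combination h1

/-- (W2c) expansion of `h|S` in `x = exp(2πiτ/p)` -/
theorem hasSum_slash_S (h : ModularForm (CongruenceSubgroup.Gamma0 p) 2) (τ : ℍ) :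
    HasSum (fun n : ℕ => (-(1 / (p : ℂ)) * (qExpansion 1 h).coeff (p * n)) * Function.Periodic.qParam p τ ^ n)
      ((⇑h ∣[(2 : ℤ)] ModularGroup.S) τ) := by
  have hp0 : p ≠ 0 := (Fact.out : p.Prime).ne_zero
  have hpc : (p : ℂ) ≠ 0 := by exact_mod_cast hp0
  have : NeZero p := ⟨hp0⟩
  set τ' : ℍ := heckeMatrix p 0 • τ with hτ'
  have hτ : heckeDiagMatrix p • τ' = τ := by
    apply UpperHalfPlane.ext
    rw [coe_heckeDiagMatrix_smul hp0, hτ', coe_heckeMatrix_smul hp0]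
    push_cast
    field_simp
    ring
  have hq : Function.Periodic.qParam 1 (τ' : ℂ) = Function.Periodic.qParam p (τ : ℂ) := by
    simp only [Function.Periodic.qParam]
    rw [hτ', coe_heckeMatrix_smul hp0]
    congr 1
    push_cast
    field_simp
    ring
  have hU := ModularForm.hasSum_qExpansion (heckeULin 2 (dvd_refl p) h) one_pos
    (CongruenceSubgroup.one_mem_strictPeriods_Gamma0 p) τ'
  have hc : ∀ n, (qExpansion 1 (heckeULin 2 (dvd_refl p) h)).coeff n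
      = (qExpansion 1 h).coeff (p * n) := by
    intro n
    have := ModularFormClass.qCoeff_heckeU h (CongruenceSubgroup.one_mem_strictPeriods_Gamma0 p) hp0 n
    simpa [ModularFormClass.qCoeff, coeffHeckeU, mul_comm] using this
  have hval : (⇑h ∣[(2 : ℤ)] ModularGroup.S) τ = -(p : ℂ)⁻¹ * heckeU 2 p ⇑h τ' := by
    rw [← slash_S_apply_smul p h τ', hτ]
  rw [hval]
  have h4 := hU.mul_left (-(p : ℂ)⁻¹)
  have hfun : (fun n : ℕ => (-(1 / (p : ℂ)) * (qExpansion 1 h).coeff (p * n))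
        * Function.Periodic.qParam p τ ^ n)
      = fun i => -(p : ℂ)⁻¹ * ((qExpansion 1 (heckeULin 2 (dvd_refl p) h)).coeff i
        * Function.Periodic.qParam 1 τ' ^ i) := by
    funext n
    rw [hc, hq, one_div]
    ring
  rw [hfun]
  exact h4

end main

end Fermat.Agent.S16_W2
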