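import Fermat.Agent.S16_Wt
import Fermat.Agent.S16_SDwAn
import Fermat.Agent.S16_W2
import Fermat.Agent.S16_E2N
import Fermat.Agent.S16_TR

/-!
# S16, block TR (helper2 + helper7 + helper1): traces to level one of the isobaric expressions
in a weight-2 form `h` of level `p` and `E₄`, `E₆`

`TwoExp p h k a b` : `a` is the `q`-expansion at `∞` and `b` the `x = q^(1/p)`-expansion of the
`S`-translate of an isobaric polynomial expression of weight `k` in `h`, `E₄`, `E₆`.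
`exists_trace` : its trace to level one is a modular form with `q`-expansion `a + p • U_p b`.
-/

set_option autoImplicit false

open UpperHalfPlane ModularForm
open scoped MatrixGroups ModularForm Manifold

namespace Fermat.Agent.S16_TwoExp

/-- `V_p` on power series: `q ↦ q^p`. -/
noncomputable def Vp (p : ℕ) (f : PowerSeries ℂ) : PowerSeries ℂ :=
  PowerSeries.mk fun n => if p ∣ n then PowerSeries.coeff (n / p) f else 0

/-- `U_p` on power series: keep the coefficients at multiples of `p`. -/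
noncomputable def Up (p : ℕ) (f : PowerSeries ℂ) : PowerSeries ℂ :=
  PowerSeries.mk fun n => PowerSeries.coeff (p * n) f

/-- Pairs of expansions (at `∞` in `q`, and of `F ∣ S` in `x = q^(1/p)`) of the isobaric polynomial
expressions in `h` (weight 2, level `p`), `E₄`, `E₆`. -/
inductive TwoExp (p : ℕ) (h : ModularForm (CongruenceSubgroup.Gamma0 p) 2) :
    ℕ → PowerSeries ℂ → PowerSeries ℂ → Prop
  | base : TwoExp p h 2 (qExpansion 1 h) ((-(1 / (p : ℂ))) • Up p (qExpansion 1 h))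
  | e4 : TwoExp p h 4 (qExpansion 1 E₄) (Vp p (qExpansion 1 E₄))
  | e6 : TwoExp p h 6 (qExpansion 1 E₆) (Vp p (qExpansion 1 E₆))
  | add {k : ℕ} {a b a' b' : PowerSeries ℂ} :
      TwoExp p h k a b → TwoExp p h k a' b' → TwoExp p h k (a + a') (b + b')
  | smul {k : ℕ} {a b : PowerSeries ℂ} (c : ℂ) : TwoExp p h k a b → TwoExp p h k (c • a) (c • b)
  | mul {k k' : ℕ} {a b a' b' : PowerSeries ℂ} :
      TwoExp p h k a b → TwoExp p h k' a' b' → TwoExp p h (k + k') (a * a') (b * b')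

open Fermat.Agent.S24_QExp (HasDiscExp)
open Function.Periodic (qParam)

/-! ### Preliminaries on `qParam` -/

theorem exists_qParam_eq_nat {d : ℕ} (hd : 0 < d) {q : ℂ} (hq : ‖q‖ < 1) (hq0 : q ≠ 0) :
    ∃ τ : ℍ, qParam (d : ℝ) (τ : ℂ) = q := by
  have hd' : (0 : ℝ) < (d : ℝ) := by exact_mod_cast hd
  have him : 0 < (Function.Periodic.invQParam (d : ℝ) q).im := by
    rw [Function.Periodic.im_invQParam]
    have hlog : Real.log ‖q‖ < 0 := Real.log_neg (norm_pos_iff.mpr hq0) hq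
    have hpi : 0 < Real.pi := Real.pi_pos
    have : -(d : ℝ) / (2 * Real.pi) < 0 := by
      apply div_neg_of_neg_of_pos <;> linarith
    exact mul_pos_of_neg_of_neg this hlog
  exact ⟨⟨_, him⟩, Function.Periodic.qParam_right_inv hd'.ne' hq0⟩

theorem norm_qParam_nat_lt_one {d : ℕ} (hd : 0 < d) (τ : ℍ) : ‖qParam (d : ℝ) (τ : ℂ)‖ < 1 :=
  Function.Periodic.norm_qParam_lt_one (by exact_mod_cast hd) τ.im_pos

theorem qParam_nat_pow {d : ℕ} (hd : 0 < d) (z : ℂ) : qParam (d : ℝ) z ^ d = qParam 1 z := by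
  have hd' : (d : ℂ) ≠ 0 := by exact_mod_cast hd.ne'
  simp only [qParam, ← Complex.exp_nat_mul]
  congr 1
  push_cast
  field_simp

/-- a power series converging on `ℍ` via `x = e^{2πiτ/d}` converges on the whole unit disc. -/
theorem hasDiscExp_of_hasSum {d : ℕ} (hd : 0 < d) (c : PowerSeries ℂ) (G : ℍ → ℂ)
    (h : ∀ τ : ℍ, HasSum (fun n : ℕ => PowerSeries.coeff n c * qParam (d : ℝ) (τ : ℂ) ^ n) (G τ)) :
    ∃ B : ℂ → ℂ, HasDiscExp c B ∧ ∀ τ : ℍ, G τ = B (qParam (d : ℝ) (τ : ℂ)) := by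
  refine ⟨fun q => ∑' n : ℕ, PowerSeries.coeff n c * q ^ n, ?_, fun τ => (h τ).tsum_eq.symm⟩
  intro q hq
  by_cases hq0 : q = 0
  · subst hq0
    refine (summable_of_ne_finset_zero (s := {0}) ?_).hasSum
    intro n hn
    have hn0 : n ≠ 0 := by simpa using hn
    simp [hn0]
  · obtain ⟨τ, rfl⟩ := exists_qParam_eq_nat hd hq hq0
    exact (h τ).summable.hasSum

/-! ### The invariant -/

/-- the invariant carried along `TwoExp`: a weak form `F` of weight `k` and level `p` with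
expansion `a` at `∞` and `b` for `F ∣ S` (in `x = e^{2πiτ/p}`). -/
def Inv (p k : ℕ) (a b : PowerSeries ℂ) : Prop :=
  ∃ (F : ℍ → ℂ) (A B : ℂ → ℂ), S16_Wt.IsWt p k F ∧ HasDiscExp a A ∧ HasDiscExp b B ∧
    (∀ τ : ℍ, F τ = A (qParam 1 (τ : ℂ))) ∧
    (∀ τ : ℍ, (F ∣[(k : ℤ)] ModularGroup.S) τ = B (qParam (p : ℝ) (τ : ℂ)))

theorem Inv.add {p k : ℕ} {a b a' b' : PowerSeries ℂ} (h : Inv p k a b) (h' : Inv p k a' b') :
    Inv p k (a + a') (b + b') := by
  obtain ⟨F, A, B, hF, hA, hB, hFA, hFB⟩ := h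
  obtain ⟨F', A', B', hF', hA', hB', hFA', hFB'⟩ := h'
  refine ⟨fun τ => F τ + F' τ, _, _, hF.add hF', hA.add hA', hB.add hB', fun τ => ?_, fun τ => ?_⟩
  · show F τ + F' τ = _
    rw [hFA, hFA']
  · have e : (fun τ => F τ + F' τ) = F + F' := rfl
    rw [e, SlashAction.add_slash, Pi.add_apply, hFB, hFB']

theorem Inv.smul {p k : ℕ} {a b : PowerSeries ℂ} (c : ℂ) (h : Inv p k a b) :
    Inv p k (c • a) (c • b) := by
  obtain ⟨F, A, B, hF, hA, hB, hFA, hFB⟩ := h
  have hcA : HasDiscExp (c • a) (fun q => c * A q) := by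
    have := (S24_QExp.hasDiscExp_C c).mul hA
    rwa [← PowerSeries.smul_eq_C_mul] at this
  have hcB : HasDiscExp (c • b) (fun q => c * B q) := by
    have := (S24_QExp.hasDiscExp_C c).mul hB
    rwa [← PowerSeries.smul_eq_C_mul] at this
  refine ⟨fun τ => c * F τ, _, _, hF.smul c, hcA, hcB, fun τ => ?_, fun τ => ?_⟩
  · show c * F τ = _
    rw [hFA]
  · have e : (fun τ => c * F τ) = c • F := rfl
    rw [e, ModularForm.SL_smul_slash, Pi.smul_apply, hFB, smul_eq_mul]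

theorem Inv.mul {p k k' : ℕ} {a b a' b' : PowerSeries ℂ} (h : Inv p k a b) (h' : Inv p k' a' b') :
    Inv p (k + k') (a * a') (b * b') := by
  obtain ⟨F, A, B, hF, hA, hB, hFA, hFB⟩ := h
  obtain ⟨F', A', B', hF', hA', hB', hFA', hFB'⟩ := h'
  refine ⟨fun τ => F τ * F' τ, _, _, hF.mul hF', hA.mul hA', hB.mul hB', fun τ => ?_, fun τ => ?_⟩
  · show F τ * F' τ = _
    rw [hFA, hFA']
  · have e : (fun τ => F τ * F' τ) = F * F' := rfl
    have hk : ((k + k' : ℕ) : ℤ) = (k : ℤ) + (k' : ℤ) := by push_cast; ring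
    rw [e, hk, ModularForm.mul_slash_SL2, Pi.mul_apply, hFB, hFB']

/-- level one forms: `F ∣ S = F`, so the `x`-expansion is `V_p` of the `q`-expansion. -/
theorem Inv.of_levelOne {p : ℕ} (hp : 0 < p) {k : ℕ} {F : ℍ → ℂ} (hF : S16_Wt.IsWt 1 k F)
    (a : PowerSeries ℂ)
    (ha : ∀ τ : ℍ, HasSum (fun n : ℕ => PowerSeries.coeff n a * qParam 1 (τ : ℂ) ^ n) (F τ)) :
    Inv p k a (Vp p a) := by
  obtain ⟨A, hA, hFA⟩ := hasDiscExp_of_hasSum (d := 1) one_pos a F (by simpa using ha)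
  have hFA' : ∀ τ : ℍ, F τ = A (qParam 1 (τ : ℂ)) := by simpa using hFA
  refine ⟨F, A, fun x => A (x ^ p), hF.mono (one_dvd p), hA, hA.expand hp.ne', hFA', fun τ => ?_⟩
  have hS : ModularGroup.S ∈ CongruenceSubgroup.Gamma0 1 := by
    rw [CongruenceSubgroup.Gamma0_mem]
    exact Subsingleton.elim _ _
  have h1 := hF.inv ModularGroup.S hS τ
  have hd : denom ModularGroup.S τ ≠ 0 := denom_ne_zero _ τ
  rw [SL_slash_apply, h1]
  show _ = A (qParam (p : ℝ) (τ : ℂ) ^ p)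
  rw [qParam_nat_pow hp, ← hFA' τ, zpow_neg, zpow_natCast]
  field_simp

theorem hasSum_levelOne {k : ℤ} (f : ModularForm 𝒮ℒ k) (τ : ℍ) :
    HasSum (fun n : ℕ => PowerSeries.coeff n (qExpansion 1 f) * qParam 1 (τ : ℂ) ^ n) (f τ) := by
  have := UpperHalfPlane.hasSum_qExpansion one_pos
    (SlashInvariantFormClass.periodic_comp_ofComplex f one_mem_strictPeriods_SL)
    (ModularFormClass.holo f) (ModularFormClass.bdd_at_infty f) τ
  simpa using this

theorem hasSum_gamma0 {N : ℕ} [NeZero N] {k : ℤ} (f : ModularForm (CongruenceSubgroup.Gamma0 N) k)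
    (τ : ℍ) :
    HasSum (fun n : ℕ => PowerSeries.coeff n (qExpansion 1 f) * qParam 1 (τ : ℂ) ^ n) (f τ) := by
  have hΓ := CongruenceSubgroup.one_mem_strictPeriods_Gamma0 N
  have : Fact (IsCusp OnePoint.infty
      (Subgroup.map (Matrix.SpecialLinearGroup.mapGL ℝ) (CongruenceSubgroup.Gamma0 N))) :=
    ⟨Subgroup.isCusp_of_mem_strictPeriods one_pos hΓ⟩
  have := UpperHalfPlane.hasSum_qExpansion one_pos
    (SlashInvariantFormClass.periodic_comp_ofComplex f hΓ)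
    (ModularFormClass.holo f) (ModularFormClass.bdd_at_infty f) τ
  simpa using this

theorem Inv.e4 {p : ℕ} (hp : 0 < p) : Inv p 4 (qExpansion 1 E₄) (Vp p (qExpansion 1 E₄)) :=
  Inv.of_levelOne hp S16_Wt.isWt_E4 _ (hasSum_levelOne E₄)

theorem Inv.e6 {p : ℕ} (hp : 0 < p) : Inv p 6 (qExpansion 1 E₆) (Vp p (qExpansion 1 E₆)) :=
  Inv.of_levelOne hp S16_Wt.isWt_E6 _ (hasSum_levelOne E₆)

theorem Inv.base (p : ℕ) [Fact p.Prime] (h : ModularForm (CongruenceSubgroup.Gamma0 p) 2) :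
    Inv p 2 (qExpansion 1 h) ((-(1 / (p : ℂ))) • Up p (qExpansion 1 h)) := by
  have hp : 0 < p := (Fact.out : p.Prime).pos
  have : NeZero p := ⟨hp.ne'⟩
  obtain ⟨A, hA, hFA⟩ := hasDiscExp_of_hasSum (d := 1) one_pos (qExpansion 1 h) (⇑h)
    (by simpa using hasSum_gamma0 h)
  have hFA' : ∀ τ : ℍ, h τ = A (qParam 1 (τ : ℂ)) := by simpa using hFA
  obtain ⟨B, hB, hFB⟩ := hasDiscExp_of_hasSum (d := p) hp
    ((-(1 / (p : ℂ))) • Up p (qExpansion 1 h)) (⇑h ∣[(2 : ℤ)] ModularGroup.S) (by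
      intro τ
      have := S16_W2.hasSum_slash_S p h τ
      have e : (fun n : ℕ => PowerSeries.coeff n ((-(1 / (p : ℂ))) • Up p (qExpansion 1 h))
            * qParam (p : ℝ) (τ : ℂ) ^ n)
          = fun n : ℕ => (-(1 / (p : ℂ)) * (qExpansion 1 h).coeff (p * n))
            * qParam (p : ℝ) (τ : ℂ) ^ n := by
        funext n
        simp [Up]
      rw [e]
      exact this)
  exact ⟨⇑h, A, B, S16_Wt.isWt_of_modularForm (k := 2) h, hA, hB, hFA', hFB⟩

theorem inv_of_twoExp (p : ℕ) [Fact p.Prime] (h : ModularForm (CongruenceSubgroup.Gamma0 p) 2)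
    {k : ℕ} {a b : PowerSeries ℂ} (H : TwoExp p h k a b) : Inv p k a b := by
  have hp : 0 < p := (Fact.out : p.Prime).pos
  induction H with
  | base => exact Inv.base p h
  | e4 => exact Inv.e4 hp
  | e6 => exact Inv.e6 hp
  | add _ _ ih ih' => exact ih.add ih'
  | smul c _ ih => exact ih.smul c
  | mul _ _ ih ih' => exact ih.mul ih'

/-! ### The trace -/

/-- the sum over the `p` translates picks the coefficients at multiples of `p`. -/
theorem hasSum_translates {p : ℕ} (hp : 0 < p) {b : PowerSeries ℂ} {B : ℂ → ℂ}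
    (hB : HasDiscExp b B) (τ : ℍ) :
    HasSum (fun m : ℕ => (p : ℂ) * PowerSeries.coeff (p * m) b * qParam 1 (τ : ℂ) ^ m)
      (∑ j ∈ Finset.range p, B (qParam (p : ℝ) ((((j : ℝ) +ᵥ τ : ℍ) : ℂ)))) := by
  set x := qParam (p : ℝ) (τ : ℂ) with hx
  have hxq : x ^ p = qParam 1 (τ : ℂ) := qParam_nat_pow hp τ
  have hx1 : ‖x‖ < 1 := norm_qParam_nat_lt_one hp τ
  set ζ : ℂ := Complex.exp (2 * Real.pi * Complex.I / p) with hζ
  have hζprim : IsPrimitiveRoot ζ p := Complex.isPrimitiveRoot_exp p hp.ne'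
  have hζnorm : ‖ζ‖ = 1 := hζprim.norm'_eq_one hp.ne'
  have hpC : (p : ℂ) ≠ 0 := by exact_mod_cast hp.ne'
  have htrans : ∀ j : ℕ, qParam (p : ℝ) ((((j : ℝ) +ᵥ τ : ℍ) : ℂ)) = ζ ^ j * x := by
    intro j
    rw [UpperHalfPlane.coe_vadd]
    simp only [qParam, hζ, hx, ← Complex.exp_nat_mul, ← Complex.exp_add]
    congr 1
    push_cast
    field_simp
  have h2 : ∀ j ∈ Finset.range p, HasSum (fun n : ℕ => PowerSeries.coeff n b * (ζ ^ j * x) ^ n)
      (B (qParam (p : ℝ) ((((j : ℝ) +ᵥ τ : ℍ) : ℂ)))) := by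
    intro j _
    rw [htrans]
    exact hB _ (by rw [norm_mul, norm_pow, hζnorm, one_pow, one_mul]; exact hx1)
  have h3 := hasSum_sum h2
  have hsum : ∀ n : ℕ, ∑ j ∈ Finset.range p, PowerSeries.coeff n b * (ζ ^ j * x) ^ n
      = if p ∣ n then (p : ℂ) * PowerSeries.coeff n b * x ^ n else 0 := by
    intro n
    have e1 : ∀ j : ℕ, PowerSeries.coeff n b * (ζ ^ j * x) ^ n
        = PowerSeries.coeff n b * x ^ n * (ζ ^ n) ^ j := by
      intro j
      rw [mul_pow, ← pow_mul, ← pow_mul, mul_comm j n]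
      ring
    simp only [e1, ← Finset.mul_sum]
    split_ifs with hdvd
    · have h1 : ζ ^ n = 1 := (hζprim.pow_eq_one_iff_dvd n).mpr hdvd
      rw [h1]
      simp
      ring
    · have hne : ζ ^ n ≠ 1 := fun h => hdvd ((hζprim.pow_eq_one_iff_dvd n).mp h)
      have hpow : (ζ ^ n) ^ p = 1 := by
        rw [← pow_mul, mul_comm, pow_mul, hζprim.pow_eq_one, one_pow]
      rw [geom_sum_eq hne, hpow, sub_self, zero_div, mul_zero]
  simp only [hsum] at h3
  have hinj : Function.Injective (fun m : ℕ => p * m) :=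
    fun a b hab => Nat.eq_of_mul_eq_mul_left hp hab
  have hsupp : ∀ n : ℕ, n ∉ Set.range (fun m : ℕ => p * m) →
      (if p ∣ n then (p : ℂ) * PowerSeries.coeff n b * x ^ n else 0) = 0 := by
    intro n hn
    have : ¬ p ∣ n := fun ⟨m, hm⟩ => hn ⟨m, hm.symm⟩
    simp [this]
  have h4 := (hinj.hasSum_iff hsupp).mpr h3
  have e : ((fun n : ℕ => if p ∣ n then (p : ℂ) * PowerSeries.coeff n b * x ^ n else 0)
        ∘ fun m : ℕ => p * m)
      = fun m : ℕ => (p : ℂ) * PowerSeries.coeff (p * m) b * qParam 1 (τ : ℂ) ^ m := by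
    funext m
    simp only [Function.comp_apply, dvd_mul_right, if_true]
    rw [pow_mul, hxq]
  rw [e] at h4
  exact h4

/-- the trace to level one of a weak form of weight `k` and level `p`, as a sum over the cosets
`1`, `S T^j`. -/
theorem exists_levelOne (p : ℕ) [Fact p.Prime] (k : ℕ) (F : ℍ → ℂ) (hF : S16_Wt.IsWt p k F) :
    ∃ T : ModularForm 𝒮ℒ (k : ℤ), ∀ τ : ℍ,
      T τ = F τ + ∑ j ∈ Finset.range p, (F ∣[(k : ℤ)] ModularGroup.S) ((j : ℝ) +ᵥ τ) := by
  have hp : 0 < p := (Fact.out : p.Prime).pos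
  have : NeZero p := ⟨hp.ne'⟩
  have hinv : ∀ γ : SL(2, ℤ), γ ∈ CongruenceSubgroup.Gamma0 p →
      ∀ z : ℍ, F (γ • z) = denom γ z ^ (k : ℤ) * F z := by
    intro γ hγ z
    rw [hF.inv γ hγ z, zpow_natCast]
  have hbdd : ∀ γ : SL(2, ℤ), IsBoundedAtImInfty (F ∣[(k : ℤ)] γ) := by
    intro g
    refine (hF.bdd g).congr' (Filter.Eventually.of_forall fun τ => ?_) (Filter.EventuallyEq.refl _ _)
    rw [SL_slash_apply, zpow_neg, zpow_natCast]
    exact div_eq_mul_inv _ _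
  refine ⟨ModularForm.trace 𝒮ℒ (S16_E2N.mkGamma0 p (k : ℤ) F hF.mdiff hinv hbdd), fun τ => ?_⟩
  exact S16_TR.trace_apply p (S16_E2N.mkGamma0 p (k : ℤ) F hF.mdiff hinv hbdd) τ

theorem Inv.exists_trace {p : ℕ} [Fact p.Prime] {k : ℕ} {a b : PowerSeries ℂ}
    (H : Inv p k a b) :
    ∃ T : ModularForm 𝒮ℒ (k : ℤ), qExpansion 1 T = a + (p : ℂ) • Up p b := by
  have hp : 0 < p := (Fact.out : p.Prime).pos
  obtain ⟨F, A, B, hF, hA, hB, hFA, hFB⟩ := H
  obtain ⟨T, hT⟩ := exists_levelOne p k F hF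
  refine ⟨T, ?_⟩
  have key : ∀ τ : ℍ, HasSum (fun m : ℕ =>
      (PowerSeries.coeff m a + (p : ℂ) * PowerSeries.coeff (p * m) b) • qParam 1 (τ : ℂ) ^ m)
      (T τ) := by
    intro τ
    have hq1 : ‖qParam 1 (τ : ℂ)‖ < 1 :=
      Function.Periodic.norm_qParam_lt_one one_pos τ.im_pos
    have h1 : HasSum (fun m : ℕ => PowerSeries.coeff m a * qParam 1 (τ : ℂ) ^ m) (F τ) := by
      rw [hFA]
      exact hA _ hq1
    have h2 := hasSum_translates hp hB τ
    have h5 := h1.add h2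
    rw [hT τ]
    have e : ∑ j ∈ Finset.range p, (F ∣[(k : ℤ)] ModularGroup.S) ((j : ℝ) +ᵥ τ)
        = ∑ j ∈ Finset.range p, B (qParam (p : ℝ) ((((j : ℝ) +ᵥ τ : ℍ) : ℂ))) :=
      Finset.sum_congr rfl fun j _ => hFB _
    rw [e]
    convert h5 using 1
    funext m
    simp only [smul_eq_mul]
    ring
  have hmd : MDiff (⇑T) := ModularFormClass.holo T
  rw [(S16_SDwAn.qExpansion_of_hasSum hmd key).2]
  ext m
  simp [Up]

/-- TRACE: every such expression has a trace to level 1 with the expected `q`-expansion. -/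
theorem exists_trace (p : ℕ) [Fact p.Prime] (h : ModularForm (CongruenceSubgroup.Gamma0 p) 2)
    {k : ℕ} {a b : PowerSeries ℂ} (H : TwoExp p h k a b) :
    ∃ T : ModularForm 𝒮ℒ (k : ℤ), qExpansion 1 T = a + (p : ℂ) • Up p b :=
  (inv_of_twoExp p h H).exists_trace

end Fermat.Agent.S16_TwoExp
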