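import Mathlib
import Fermat.Agent.S16_NE5
import Fermat.Agent.S16_NEA
import Fermat.Agent.S16_OInt
import Fermat.Agent.S16_TwoExp
import Fermat.Agent.S16_SDw

/-!
# S16, block NE5 (final form)

`ne5`: for primes `ℓ ≥ 5`, `ℓ ≠ p`, no `h ∈ M₂(Γ₀(p))` has `a_0 = 1` and `a_k ∈ ℓ ℤ_(ℓ)` for
`k ≥ 1`. This is `S16_NE5.ne5_core` fed with the trace forms `S16_TwoExp.exists_trace` and the
weight theorem `S16_SDw.sdw` for `R = OInt ℓ`, `I = ℓ R`.
-/

set_option autoImplicit false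

open ModularFormClass CongruenceSubgroup UpperHalfPlane
open scoped MatrixGroups

namespace Fermat.Agent.S16_NE5F

open Fermat.Agent.S16_TwoExp

/-- Powers of the base pair of expansions. -/
theorem twoExp_pow (p : ℕ) (h : ModularForm (Gamma0 p) 2) (m : ℕ) (hm : 1 ≤ m) :
    TwoExp p h (2 * m) ((qExpansion 1 h) ^ m)
      (((-(1 / (p : ℂ))) • Up p (qExpansion 1 h)) ^ m) := by
  induction m, hm using Nat.le_induction with
  | base => simpa using TwoExp.base (p := p) (h := h)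
  | succ m hm ih =>
    have := TwoExp.mul ih (TwoExp.base (p := p) (h := h))
    rw [pow_succ, pow_succ]
    exact this

/-- **Block NE5.** -/
theorem ne5 (p ℓ : ℕ) [Fact p.Prime] (hℓ : ℓ.Prime) (h5 : 5 ≤ ℓ) (hne : ℓ ≠ p) :
    ∀ h : ModularForm (Gamma0 p) 2, ¬ S16_NEA.IsOneMod p ℓ 1 h := by
  rintro h ⟨h0, hk⟩
  refine S16_NE5.ne5_core p ℓ Fact.out hℓ h5 hne (S16_OInt.OInt ℓ)
    (fun n hn => S16_OInt.inv_natCast_mem_of_not_dvd hℓ hn) (S16_OInt.ellIdeal ℓ)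
    (S16_OInt.natCast_mem_ellIdeal ℓ) (qExpansion 1 h) h0 ?_ ?_ ?_
  · intro n hn
    obtain ⟨r, hr, e⟩ := hk n hn
    refine ⟨((r : ℚ) : ℂ), S16_OInt.ratLocalizedAt_mem hr, ?_⟩
    have e' : PowerSeries.coeff n (qExpansion 1 h) = ((ℓ ^ 1 : ℕ) : ℂ) * ((r : ℚ) : ℂ) := e
    rw [e', pow_one]
  · intro m hm
    obtain ⟨T, hT⟩ := exists_trace p h (twoExp_pow p h m hm)
    refine ⟨T, fun n => ?_⟩
    rw [hT, smul_pow]
    simp only [Up, map_add, PowerSeries.coeff_smul, PowerSeries.coeff_mk, smul_eq_mul]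
    rw [neg_div, mul_assoc]
  · intro k f s hs hpos hz
    exact S16_SDw.sdw ℓ hℓ h5 (S16_OInt.OInt ℓ)
      (fun n hn => S16_OInt.inv_natCast_mem_of_not_dvd hℓ hn) (S16_OInt.ellIdeal ℓ)
      (S16_OInt.ellIdeal_ne_top hℓ) (S16_OInt.natCast_mem_ellIdeal ℓ) k f s hs hpos hz

end Fermat.Agent.S16_NE5F
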