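import Mathlib
import Fermat.Prelude.Def_GaloisRep_Flat
import Fermat.Agent.S16_L1Int

/-!
# S16, block L1S: integral Sturm bound at level one, `ℤ_(ℓ)`-shapes

Corollaries of `S16_L1Int.sturm_addSubgroup` in the "complex coefficient" shapes used by the
consumers (`∃ r ∈ GaloisRep.ratLocalizedAt ℓ, coeff = ℓ^t * r`).
-/

set_option autoImplicit false

open UpperHalfPlane ModularForm ModularFormClass
open scoped MatrixGroups ModularForm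

namespace Fermat.Agent.S16_L1S

/-- The additive subgroup `c · ℤ_(ℓ)` of `ℂ`. -/
def mulLoc (ℓ : ℕ) (c : ℂ) : AddSubgroup ℂ where
  carrier := {z | ∃ r ∈ GaloisRep.ratLocalizedAt ℓ, z = c * ((r : ℚ) : ℂ)}
  zero_mem' := ⟨0, zero_mem _, by simp⟩
  add_mem' := by
    rintro _ _ ⟨r, hr, rfl⟩ ⟨s, hs, rfl⟩
    exact ⟨r + s, add_mem hr hs, by push_cast; ring⟩
  neg_mem' := by
    rintro _ ⟨r, hr, rfl⟩
    exact ⟨-r, neg_mem hr, by push_cast; ring⟩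

theorem mem_mulLoc {ℓ : ℕ} {c z : ℂ} :
    z ∈ mulLoc ℓ c ↔ ∃ r ∈ GaloisRep.ratLocalizedAt ℓ, z = c * ((r : ℚ) : ℂ) := Iff.rfl

/-- **Integral Sturm bound, general scalar**: if the `q`-coefficients `a_n`, `12 n ≤ K`, of a
level-one form of weight `K` lie in `c · ℤ_(ℓ)`, then all of them do. -/
theorem sturm_mul (ℓ : ℕ) (c : ℂ) (K : ℕ) (T : ModularForm 𝒮ℒ (K : ℤ))
    (hlow : ∀ n, 12 * n ≤ K → ∃ r ∈ GaloisRep.ratLocalizedAt ℓ,
      (qExpansion 1 T).coeff n = c * ((r : ℚ) : ℂ)) :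
    ∀ n, ∃ r ∈ GaloisRep.ratLocalizedAt ℓ, (qExpansion 1 T).coeff n = c * ((r : ℚ) : ℂ) := by
  intro n
  have := S16_L1Int.sturm_addSubgroup (mulLoc ℓ c) K T (fun n hn => by
    rw [mem_mulLoc]
    apply hlow
    have := Nat.mul_div_le K 12
    nlinarith [Nat.mul_le_mul_left 12 hn]) n
  exact mem_mulLoc.1 this

/-- **Integral Sturm bound** (the lead's requested shape): a level-one form of weight `K` whose
`q`-coefficients `a_n`, `12 n ≤ K`, lie in `ℓ · ℤ_(ℓ)` has all coefficients in `ℓ · ℤ_(ℓ)`.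
(The hypothesis `hint` is not needed; it is kept for the requested signature.) -/
theorem sturm_int (ℓ : ℕ) [Fact ℓ.Prime] (K : ℕ) (T : ModularForm 𝒮ℒ (K : ℤ))
    (hint : ∀ n, ∃ r ∈ GaloisRep.ratLocalizedAt ℓ, (qExpansion 1 T).coeff n = ((r : ℚ) : ℂ))
    (hlow : ∀ n, 12 * n ≤ K → ∃ r ∈ GaloisRep.ratLocalizedAt ℓ,
      (qExpansion 1 T).coeff n = (ℓ : ℂ) * ((r : ℚ) : ℂ)) :
    ∀ n, ∃ r ∈ GaloisRep.ratLocalizedAt ℓ, (qExpansion 1 T).coeff n = (ℓ : ℂ) * ((r : ℚ) : ℂ) :=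
  sturm_mul ℓ (ℓ : ℂ) K T hlow

/-- Integral Sturm bound, integrality version (`c = 1`): if the low coefficients are in `ℤ_(ℓ)`,
all are. -/
theorem sturm_one (ℓ : ℕ) (K : ℕ) (T : ModularForm 𝒮ℒ (K : ℤ))
    (hlow : ∀ n, 12 * n ≤ K → ∃ r ∈ GaloisRep.ratLocalizedAt ℓ,
      (qExpansion 1 T).coeff n = ((r : ℚ) : ℂ)) :
    ∀ n, ∃ r ∈ GaloisRep.ratLocalizedAt ℓ, (qExpansion 1 T).coeff n = ((r : ℚ) : ℂ) := by
  intro n
  obtain ⟨r, hr, h⟩ := sturm_mul ℓ 1 K T (fun n hn => by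
    obtain ⟨r, hr, h⟩ := hlow n hn
    exact ⟨r, hr, by rw [h, one_mul]⟩) n
  exact ⟨r, hr, by rw [h, one_mul]⟩

/-- Integral Sturm bound with a prime power: low coefficients in `ℓ^t · ℤ_(ℓ)` ⟹ all. -/
theorem sturm_pow (ℓ t : ℕ) (K : ℕ) (T : ModularForm 𝒮ℒ (K : ℤ))
    (hlow : ∀ n, 12 * n ≤ K → ∃ r ∈ GaloisRep.ratLocalizedAt ℓ,
      (qExpansion 1 T).coeff n = ((ℓ ^ t : ℕ) : ℂ) * ((r : ℚ) : ℂ)) :
    ∀ n, ∃ r ∈ GaloisRep.ratLocalizedAt ℓ,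
      (qExpansion 1 T).coeff n = ((ℓ ^ t : ℕ) : ℂ) * ((r : ℚ) : ℂ) :=
  sturm_mul ℓ _ K T hlow

/-- A level-one form whose low coefficients (`12 n ≤ K`) all vanish is zero on coefficients. -/
theorem sturm_zero (K : ℕ) (T : ModularForm 𝒮ℒ (K : ℤ))
    (hlow : ∀ n, 12 * n ≤ K → (qExpansion 1 T).coeff n = 0) :
    ∀ n, (qExpansion 1 T).coeff n = 0 := by
  intro n
  have := S16_L1Int.sturm_addSubgroup ⊥ K T (fun n hn => by
    rw [AddSubgroup.mem_bot]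
    apply hlow
    have := Nat.mul_div_le K 12
    nlinarith [Nat.mul_le_mul_left 12 hn]) n
  simpa using this

end Fermat.Agent.S16_L1S
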