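import Fermat.Agent.S16_NE9a
import Fermat.Agent.S16_L1S

/-!
# S16, leaf L9 for `p ≡ 2 mod 3`, case `3 ∤ (p+1)/3` (helper6): the Sturm endgame

`case_one`: a level-one form of weight `24` whose `q`-expansion is
`γ_a² γ_a'² + p · U_p(γ_b² γ_b'²)` with
`γ_a ≡ -A`, `γ_b ≡ d₀ - V_p A`, `γ_a' ≡ d₁ - A`, `γ_b' ≡ -V_p A mod 3`
(`A = ∑ σ₃(n) qⁿ`, `p d₀ = -s`, `p + 1 = 3 s`, `3 ∤ s`, `d₀ + d₁ ≡ 0 mod 3`) cannot exist:
the expansion is `≡ d₀ A³ mod 3`, of `q`-order `3 > 24/12`, against the integral Sturm bound.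
-/

set_option autoImplicit false

open UpperHalfPlane ModularForm PowerSeries
open scoped MatrixGroups ModularForm

namespace Fermat.Agent.S16_NE9c1

open Fermat.Agent.S16_NE9a

noncomputable section

/-- `(x + 3a)² (y + 3b)² ≡ x² y² mod 3`, with explicit quotient. -/
theorem sq_mul_sq {R : Type*} [CommRing R] (x y a b : R) :
    (x + 3 * a) ^ 2 * (y + 3 * b) ^ 2 =
      x ^ 2 * y ^ 2 + 3 * ((2 * x * a + 3 * a ^ 2) * (y + 3 * b) ^ 2 + x ^ 2 * (2 * y * b + 3 * b ^ 2)) := by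
  ring

theorem U_three_mul {R : Type*} [CommRing R] (p : ℕ) (f : R⟦X⟧) :
    U p (3 * f) = 3 * U p f := by
  have h := U_natCast_mul (R := R) p 3 f
  simpa using h

theorem V_sub {R : Type*} [CommRing R] (p : ℕ) (hp : 0 < p) (f g : R⟦X⟧) :
    V p (f - g) = V p f - V p g := map_sub (Vhom p hp) f g

theorem V_pow {R : Type*} [CommRing R] (p : ℕ) (hp : 0 < p) (f : R⟦X⟧) (n : ℕ) :
    V p (f ^ n) = V p f ^ n := map_pow (Vhom p hp) f n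

/-- The congruence `γ_a² γ_a'² + p U_p(γ_b² γ_b'²) ≡ d₀ A³ mod 3`. -/
theorem series_congr (p : ℕ) (hp : 0 < p) (s : ℕ) (hps : p + 1 = 3 * s)
    (d0 d1 : ↥Z3) (hd : ∃ n : ↥Z3, d0 + d1 = 3 * n)
    (ga gb ga' gb' : (↥Z3)⟦X⟧)
    (h1 : ∃ w, ga = -Aser + 3 * w) (h2 : ∃ w, gb = PowerSeries.C d0 - V p Aser + 3 * w)
    (h3 : ∃ w, ga' = PowerSeries.C d1 - Aser + 3 * w) (h4 : ∃ w, gb' = -V p Aser + 3 * w) :
    ∃ W : (↥Z3)⟦X⟧, ga ^ 2 * ga' ^ 2 + (p : (↥Z3)⟦X⟧) * U p (gb ^ 2 * gb' ^ 2)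
      = PowerSeries.C d0 * Aser ^ 3 + 3 * W := by
  obtain ⟨n, hn⟩ := hd
  obtain ⟨w1, rfl⟩ := h1
  obtain ⟨w2, rfl⟩ := h2
  obtain ⟨w3, rfl⟩ := h3
  obtain ⟨w4, rfl⟩ := h4
  have hd1 : d1 = 3 * n - d0 := by linear_combination hn
  subst hd1
  have hC : (PowerSeries.C (3 * n - d0) : (↥Z3)⟦X⟧) = 3 * PowerSeries.C n - PowerSeries.C d0 := by
    rw [map_sub, map_mul, map_ofNat]
  have hP : (p : (↥Z3)⟦X⟧) = 3 * (s : (↥Z3)⟦X⟧) - 1 := by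
    have : ((p + 1 : ℕ) : (↥Z3)⟦X⟧) = ((3 * s : ℕ) : (↥Z3)⟦X⟧) := by rw [hps]
    push_cast at this
    linear_combination this
  -- the `a`-side
  have e1 := sq_mul_sq (-Aser) (PowerSeries.C (3 * n - d0) - Aser) w1 w3
  -- the `b`-side
  have e2 := sq_mul_sq (PowerSeries.C d0 - V p Aser) (-V p Aser) w2 w4
  have e3 : (PowerSeries.C d0 - V p Aser) ^ 2 * (-V p Aser) ^ 2
      = V p ((PowerSeries.C d0 - Aser) ^ 2 * Aser ^ 2) := by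
    rw [V_mul p hp, V_pow p hp, V_pow p hp, V_sub p hp, V_C p hp]
    ring
  have e4 : U p ((PowerSeries.C d0 - V p Aser + 3 * w2) ^ 2 * (-V p Aser + 3 * w4) ^ 2)
      = (PowerSeries.C d0 - Aser) ^ 2 * Aser ^ 2
        + 3 * U p ((2 * (PowerSeries.C d0 - V p Aser) * w2 + 3 * w2 ^ 2) * (-V p Aser + 3 * w4) ^ 2
          + (PowerSeries.C d0 - V p Aser) ^ 2 * (2 * (-V p Aser) * w4 + 3 * w4 ^ 2)) := by
    rw [e2, e3, U_add, U_V p hp, U_three_mul]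
  rw [e4, e1, hC, hP]
  set A := Aser
  set D0 : (↥Z3)⟦X⟧ := PowerSeries.C d0
  set N : (↥Z3)⟦X⟧ := PowerSeries.C n
  set S : (↥Z3)⟦X⟧ := (s : (↥Z3)⟦X⟧)
  set Y1 := (2 * -A * w1 + 3 * w1 ^ 2) * (3 * N - D0 - A + 3 * w3) ^ 2
    + (-A) ^ 2 * (2 * (3 * N - D0 - A) * w3 + 3 * w3 ^ 2) with hY1
  set UY2 := U p ((2 * (D0 - V p A) * w2 + 3 * w2 ^ 2) * (-V p A + 3 * w4) ^ 2
          + (D0 - V p A) ^ 2 * (2 * (-V p A) * w4 + 3 * w4 ^ 2)) with hUY2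
  refine ⟨D0 * A ^ 3 + A ^ 2 * (3 * N ^ 2 - 2 * N * A - 2 * N * D0) + Y1
    + S * ((D0 - A) ^ 2 * A ^ 2 + 3 * UY2) - UY2, ?_⟩
  ring

/-- **NE9, case `a = 1`**: the Sturm endgame. -/
theorem case_one (p : ℕ) (hp : 0 < p) (s : ℕ) (hps : p + 1 = 3 * s) (hs3 : ¬ 3 ∣ s)
    (d0 d1 : ↥Z3) (hd0 : (p : ↥Z3) * d0 = -(s : ↥Z3)) (hd : ∃ n : ↥Z3, d0 + d1 = 3 * n)
    (ga gb ga' gb' : (↥Z3)⟦X⟧)
    (h1 : ∃ w, ga = -Aser + 3 * w) (h2 : ∃ w, gb = PowerSeries.C d0 - V p Aser + 3 * w)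
    (h3 : ∃ w, ga' = PowerSeries.C d1 - Aser + 3 * w) (h4 : ∃ w, gb' = -V p Aser + 3 * w)
    (K : ℕ) (hK : K = 24) (T : ModularForm 𝒮ℒ (K : ℤ))
    (hT : qExpansion 1 T = PowerSeries.map ι (ga ^ 2 * ga' ^ 2
      + (p : (↥Z3)⟦X⟧) * U p (gb ^ 2 * gb' ^ 2))) : False := by
  obtain ⟨W, hW⟩ := series_congr p hp s hps d0 d1 hd ga gb ga' gb' h1 h2 h3 h4
  rw [hW] at hT
  have h3C : ((3 : (↥Z3)⟦X⟧)) = PowerSeries.C (3 : ↥Z3) := (map_ofNat (PowerSeries.C (R := ↥Z3)) 3).symm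
  have hcoeff : ∀ m, (qExpansion 1 T).coeff m
      = ι (d0 * PowerSeries.coeff m (Aser ^ 3) + 3 * PowerSeries.coeff m W) := by
    intro m
    rw [hT, PowerSeries.coeff_map, map_add, PowerSeries.coeff_C_mul, h3C, PowerSeries.coeff_C_mul]
  have h3ι : ι (3 : ↥Z3) = (3 : ℂ) := by
    rw [ι_apply]
    have h3q : ((3 : ↥Z3) : ℚ) = 3 := rfl
    rw [h3q]
    norm_num
  have hlow : ∀ m, 12 * m ≤ K → ∃ r ∈ GaloisRep.ratLocalizedAt 3,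
      (qExpansion 1 T).coeff m = (3 : ℂ) * ((r : ℚ) : ℂ) := by
    intro m hm
    have hm3 : m < 3 := by omega
    refine ⟨(PowerSeries.coeff m W : ↥Z3), (PowerSeries.coeff m W).2, ?_⟩
    have h0 : PowerSeries.coeff m (Aser ^ 3) = 0 := by
      have := coeff_Aser_pow_mul_of_lt 3 m hm3 1
      rwa [one_mul] at this
    rw [hcoeff m, h0, mul_zero, zero_add, map_mul, h3ι, ι_apply]
  obtain ⟨r, hr, hr3⟩ := S16_L1S.sturm_mul 3 (3 : ℂ) K T hlow 3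
  rw [hcoeff 3, coeff_Aser_pow 3, mul_one] at hr3
  have hr3' : ι (d0 + 3 * PowerSeries.coeff 3 W) = ι (3 * (⟨r, hr⟩ : ↥Z3)) := by
    rw [hr3, map_mul, h3ι, ι_apply]
  have hd0' : d0 = 3 * ((⟨r, hr⟩ : ↥Z3) - PowerSeries.coeff 3 W) := by
    have := ι_injective hr3'
    linear_combination this
  have hs : ((s : ℤ) : ↥Z3) = 3 * (-((p : ↥Z3) * ((⟨r, hr⟩ : ↥Z3) - PowerSeries.coeff 3 W))) := by
    push_cast
    rw [hd0'] at hd0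
    linear_combination hd0
  have h3s : (3 : ℤ) ∣ (s : ℤ) := three_dvd_of_Z3 (s : ℤ) _ hs
  exact hs3 (by exact_mod_cast h3s)

end

end Fermat.Agent.S16_NE9c1
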