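import Fermat.Agent.S16_NE9a
import Fermat.Agent.S16_L1S

/-!
# S16, leaf L9 for `p ≡ 2 mod 3`, case `p + 1 = 3^a u` (helper7): the Sturm endgame

The trace `T` of `γ^(3^a)` (`γ = (h E₄ - E₆)/3`) has weight `6·3^a` and `q`-expansion
`γ^(3^a) + p U_p(b^(3^a))`, where `γ ≡ -A` and `b ≡ -V_p A` modulo `3`.  Hence the expansion is
`≡ (1 + p) (-A)^(3^a) = -3^a u A^(3^a)` modulo `3^(a+1)`, which contradicts the integral Sturm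
bound at level one (`S16_L1S.sturm_mul`) as soon as `3 ∤ u`.
-/

set_option autoImplicit false

open UpperHalfPlane ModularForm PowerSeries
open scoped MatrixGroups ModularForm

namespace Fermat.Agent.S16_NE9c2

open Fermat.Agent.S16_NE9a

/-- Coefficients of a product with a natural number constant. -/
theorem coeff_natCast_mul' (k n : ℕ) (f : (↥Z3)⟦X⟧) :
    coeff n ((k : (↥Z3)⟦X⟧) * f) = (k : ↥Z3) * coeff n f := by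
  have h : ((k : (↥Z3)⟦X⟧)) = C (k : ↥Z3) := (map_natCast (C (R := ↥Z3)) k).symm
  rw [h, coeff_C_mul]

/-- The power-series congruence: `γ^(3^a) + p U_p(b^(3^a)) = -3^a u A^(3^a) + 3^(a+1) W`. -/
theorem series_eq (p : ℕ) (hp : 0 < p) (a u : ℕ) (hpu : p + 1 = 3 ^ a * u)
    (ga gb : (↥Z3)⟦X⟧) (h1 : ∃ w, ga = -Aser + 3 * w) (h2 : ∃ w, gb = -V p Aser + 3 * w) :
    ∃ W : (↥Z3)⟦X⟧, ga ^ 3 ^ a + (p : (↥Z3)⟦X⟧) * U p (gb ^ 3 ^ a)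
      = -(((3 ^ a * u : ℕ) : (↥Z3)⟦X⟧) * Aser ^ 3 ^ a) + ((3 ^ (a + 1) : ℕ) : (↥Z3)⟦X⟧) * W := by
  have hodd : Odd (3 ^ a) := Odd.pow (by decide)
  obtain ⟨w1, hw1⟩ := h1
  obtain ⟨w2, hw2⟩ := h2
  have d1 : ((3 : ℕ) : (↥Z3)⟦X⟧) ∣ ga - (-Aser) := ⟨w1, by rw [hw1]; push_cast; ring⟩
  have d2 : ((3 : ℕ) : (↥Z3)⟦X⟧) ∣ gb - (-V p Aser) := ⟨w2, by rw [hw2]; push_cast; ring⟩
  obtain ⟨x1, hx1⟩ := dvd_sub_pow_of_dvd_sub d1 a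
  obtain ⟨x2, hx2⟩ := dvd_sub_pow_of_dvd_sub d2 a
  have e1 : ga ^ 3 ^ a = -(Aser ^ 3 ^ a) + ((3 ^ (a + 1) : ℕ) : (↥Z3)⟦X⟧) * x1 := by
    have h3 : (-Aser) ^ 3 ^ a = -(Aser ^ 3 ^ a) := hodd.neg_pow _
    rw [← h3]
    push_cast at hx1 ⊢
    linear_combination hx1
  have e2 : gb ^ 3 ^ a = V p (-(Aser ^ 3 ^ a)) + ((3 ^ (a + 1) : ℕ) : (↥Z3)⟦X⟧) * x2 := by
    have h3 : (-V p Aser) ^ 3 ^ a = V p (-(Aser ^ 3 ^ a)) := by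
      rw [← Vhom_apply p hp, ← Vhom_apply p hp, map_neg, map_pow, hodd.neg_pow]
    rw [← h3]
    push_cast at hx2 ⊢
    linear_combination hx2
  have eU : U p (gb ^ 3 ^ a)
      = -(Aser ^ 3 ^ a) + ((3 ^ (a + 1) : ℕ) : (↥Z3)⟦X⟧) * U p x2 := by
    rw [e2, U_add, U_V p hp, U_natCast_mul]
  refine ⟨x1 + (p : (↥Z3)⟦X⟧) * U p x2, ?_⟩
  have hpu' : ((p : (↥Z3)⟦X⟧)) + 1 = ((3 ^ a * u : ℕ) : (↥Z3)⟦X⟧) := by
    rw [← hpu]; push_cast; ring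
  rw [e1, eU, ← hpu']
  ring

theorem case_two (p : ℕ) (hp : 0 < p) (a u : ℕ) (hpu : p + 1 = 3 ^ a * u) (hu : ¬ 3 ∣ u)
    (ga gb : (↥Z3)⟦X⟧) (h1 : ∃ w, ga = -Aser + 3 * w) (h2 : ∃ w, gb = -V p Aser + 3 * w)
    (K : ℕ) (hK : K = 6 * 3 ^ a) (T : ModularForm 𝒮ℒ (K : ℤ))
    (hT : qExpansion 1 T
      = PowerSeries.map ι (ga ^ 3 ^ a + (p : (↥Z3)⟦X⟧) * U p (gb ^ 3 ^ a))) : False := by
  obtain ⟨W, hW⟩ := series_eq p hp a u hpu ga gb h1 h2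
  rw [hW] at hT
  have hm1 : 1 ≤ 3 ^ a := Nat.one_le_pow _ _ (by norm_num)
  -- the coefficients of `T`
  have hcoeff : ∀ n, (qExpansion 1 T).coeff n
      = ι (-(((3 ^ a * u : ℕ) : ↥Z3) * coeff n (Aser ^ 3 ^ a))
          + ((3 ^ (a + 1) : ℕ) : ↥Z3) * coeff n W) := by
    intro n
    rw [hT, coeff_map, map_add, map_neg, coeff_natCast_mul', coeff_natCast_mul']
  have hlow : ∀ n, 12 * n ≤ K → ∃ r ∈ GaloisRep.ratLocalizedAt 3,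
      (qExpansion 1 T).coeff n = (3 : ℂ) ^ (a + 1) * ((r : ℚ) : ℂ) := by
    intro n hn
    have hlt : n < 3 ^ a := by omega
    have h0 : coeff n (Aser ^ 3 ^ a) = 0 := by
      have := coeff_Aser_pow_mul_of_lt (3 ^ a) n hlt 1
      rwa [one_mul] at this
    refine ⟨((coeff n W : ↥Z3) : ℚ), (coeff n W).2, ?_⟩
    rw [hcoeff n, h0, mul_zero, neg_zero, zero_add, map_mul, map_natCast, ι_apply]
    push_cast
    ring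
  obtain ⟨r, hr, hr'⟩ := S16_L1S.sturm_mul 3 ((3 : ℂ) ^ (a + 1)) K T hlow (3 ^ a)
  rw [hcoeff (3 ^ a), coeff_Aser_pow, mul_one, map_add, map_neg, map_mul, map_natCast,
    map_natCast, ι_apply] at hr'
  -- descend to `ℚ`
  have hq : -((3 : ℚ) ^ a * (u : ℚ)) + (3 : ℚ) ^ (a + 1) * ((coeff (3 ^ a) W : ↥Z3) : ℚ)
      = (3 : ℚ) ^ (a + 1) * r := by
    have : ((-((3 : ℚ) ^ a * (u : ℚ)) + (3 : ℚ) ^ (a + 1) * ((coeff (3 ^ a) W : ↥Z3) : ℚ) : ℚ) : ℂ)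
        = (((3 : ℚ) ^ (a + 1) * r : ℚ) : ℂ) := by
      push_cast at hr' ⊢
      exact hr'
    exact_mod_cast this
  have h3a : (3 : ℚ) ^ a ≠ 0 := pow_ne_zero _ (by norm_num)
  have hu' : (u : ℚ) = 3 * (((coeff (3 ^ a) W : ↥Z3) : ℚ) - r) := by
    have h4 : (3 : ℚ) ^ a * (u : ℚ) = (3 : ℚ) ^ a * (3 * (((coeff (3 ^ a) W : ↥Z3) : ℚ) - r)) := by
      rw [pow_succ] at hq
      linear_combination -hq
    exact mul_left_cancel₀ h3a h4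
  have hdvd : (3 : ℤ) ∣ (u : ℤ) := by
    refine three_dvd_of_Z3 (u : ℤ) (coeff (3 ^ a) W - ⟨r, hr⟩) (Subtype.ext ?_)
    push_cast
    exact hu'
  exact hu (by exact_mod_cast hdvd)

end Fermat.Agent.S16_NE9c2
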