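import Fermat.Agent.S16_NE9a
import Fermat.Agent.S16_NE9c1
import Fermat.Agent.S16_NE9c2

/-!
# S16, leaf L9 for `p ≡ 2 mod 3`: the `TwoExp` side and the final statement `ne9`

For `h ≡ 1 mod 9` of weight two and level `p` put `γ_c = (h E₄ - c E₆)/3` (`c = 1` and
`c = -1/p`).  Their pairs of expansions have `Z_(3)`-coefficients, congruent mod 3 to
`(-A, d₀ - V A)` resp. `(-d₀ - A, -V A)` with `d₀ = -(p+1)/(3p)`.  The traces of
`γ² γ'²` (if `9 ∤ p + 1`) resp. of `γ^(3^a)` (`3^a ∥ p + 1`) contradict the integral Sturm bound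
(`S16_NE9c1.case_one`, `S16_NE9c2.case_two`).
-/

set_option autoImplicit false

open UpperHalfPlane ModularForm PowerSeries
open scoped MatrixGroups ModularForm

namespace Fermat.Agent.S16_NE9h8

open Fermat.Agent.S16_NE9a Fermat.Agent.S16_TwoExp

noncomputable section

/-- Powers of a pair of expansions. -/
theorem twoExp_pow {p : ℕ} {h : ModularForm (CongruenceSubgroup.Gamma0 p) 2} {k : ℕ}
    {a b : ℂ⟦X⟧} (H : TwoExp p h k a b) (m : ℕ) (hm : 1 ≤ m) :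
    TwoExp p h (k * m) (a ^ m) (b ^ m) := by
  induction m, hm using Nat.le_induction with
  | base => simpa using H
  | succ m hm ih =>
    have := TwoExp.mul ih H
    rw [pow_succ, pow_succ, Nat.mul_succ]
    exact this

/-- Lift of the `q`-expansion of `h ≡ 1 mod 9` to `Z_(3)`. -/
theorem exists_lift (p : ℕ) (h : ModularForm (CongruenceSubgroup.Gamma0 p) 2)
    (hh : S16_NEA.IsOneMod p 3 2 h) :
    ∃ W : (↥Z3)⟦X⟧, PowerSeries.map ι (1 + 9 * W) = qExpansion 1 h := by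
  obtain ⟨h0, hk⟩ := hh
  choose! r hr hre using hk
  refine ⟨PowerSeries.mk fun n =>
    if hn : n = 0 then 0 else ⟨r n, hr n (Nat.pos_of_ne_zero hn)⟩, ?_⟩
  ext n
  have h9 : (9 : (↥Z3)⟦X⟧) = C (9 : ↥Z3) := (map_ofNat (C (R := ↥Z3)) 9).symm
  rw [coeff_map, map_add, h9, coeff_C_mul, coeff_one, coeff_mk]
  by_cases hn : n = 0
  · subst hn
    have h0' : coeff 0 (qExpansion 1 h) = 1 := h0
    rw [h0']
    simp
  · have e : coeff n (qExpansion 1 h) = ((3 ^ 2 : ℕ) : ℂ) * ((r n : ℚ) : ℂ) :=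
      hre n (Nat.pos_of_ne_zero hn)
    rw [e, if_neg hn, dif_neg hn, zero_add, map_mul, ι_apply, ι_apply]
    have hc : ((9 : ↥Z3) : ℚ) = 9 := rfl
    rw [hc]
    push_cast
    norm_num

lemma third_map {x y : (↥Z3)⟦X⟧} (h : 3 * x = y) :
    (1 / 3 : ℂ) • PowerSeries.map ι y = PowerSeries.map ι x := by
  rw [← h, map_mul]
  have h3 : PowerSeries.map ι (3 : (↥Z3)⟦X⟧) = C (3 : ℂ) := by
    rw [map_ofNat]; exact (map_ofNat (C (R := ℂ)) 3).symm
  rw [h3, PowerSeries.smul_eq_C_mul, ← mul_assoc, ← map_mul]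
  norm_num

lemma U_lift (p : ℕ) (hp : 0 < p) (W : (↥Z3)⟦X⟧) : U p (1 + 9 * W) = 1 + 9 * U p W := by
  rw [U_add, U_one p hp]
  congr 1
  have h9 : (9 : (↥Z3)⟦X⟧) = ((9 : ℕ) : (↥Z3)⟦X⟧) := by norm_num
  rw [h9, U_natCast_mul]

lemma V_E4s (p : ℕ) (hp : 0 < p) : V p (1 + 240 * Aser) = 1 + 240 * V p Aser := by
  rw [← Vhom_apply p hp, ← Vhom_apply p hp, map_add, map_one, map_mul, map_ofNat]

lemma V_E6s (p : ℕ) (hp : 0 < p) : V p (1 - 504 * Bser) = 1 - 504 * V p Bser := by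
  rw [← Vhom_apply p hp, ← Vhom_apply p hp, map_sub, map_one, map_mul, map_ofNat]

lemma trace_map (p : ℕ) (x y : (↥Z3)⟦X⟧) :
    PowerSeries.map ι x + (p : ℂ) • Up p (PowerSeries.map ι y)
      = PowerSeries.map ι (x + (p : (↥Z3)⟦X⟧) * U p y) := by
  rw [map_add, map_mul, map_natCast, map_U, Up_eq, PowerSeries.smul_eq_C_mul,
    ← map_natCast (C (R := ℂ)) p]

/-- The pair of expansions of `γ_c = (h E₄ - c E₆)/3`, in terms of `Z_(3)`-series. -/
theorem twoExp_gamma (p : ℕ) (hp : 0 < p) (h : ModularForm (CongruenceSubgroup.Gamma0 p) 2)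
    (W : (↥Z3)⟦X⟧) (hW : PowerSeries.map ι (1 + 9 * W) = qExpansion 1 h)
    (pinv : ↥Z3) (hpinv : (p : ↥Z3) * pinv = 1) (c0 : ↥Z3) (ga gb : (↥Z3)⟦X⟧)
    (hga : 3 * ga = (1 + 9 * W) * (1 + 240 * Aser) - C c0 * (1 - 504 * Bser))
    (hgb : 3 * gb = -(C pinv * (1 + 9 * U p W) * (1 + 240 * V p Aser))
      - C c0 * (1 - 504 * V p Bser)) :
    TwoExp p h 6 (PowerSeries.map ι ga) (PowerSeries.map ι gb) := by
  have H := TwoExp.smul (1 / 3 : ℂ) (TwoExp.add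
    (TwoExp.mul (TwoExp.base (p := p) (h := h)) TwoExp.e4) (TwoExp.smul (-(ι c0)) TwoExp.e6))
  have hp0 : (p : ℂ) ≠ 0 := Nat.cast_ne_zero.2 hp.ne'
  have hιp : ι pinv = 1 / (p : ℂ) := by
    have := congrArg ι hpinv
    rw [map_mul, map_natCast, map_one] at this
    field_simp
    linear_combination this
  have ea : (1 / 3 : ℂ) • (qExpansion 1 h * qExpansion 1 E₄ + (-(ι c0)) • qExpansion 1 E₆)
      = PowerSeries.map ι ga := by
    rw [← third_map hga, ← hW, ← map_E4, ← map_E6]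
    congr 1
    simp only [PowerSeries.smul_eq_C_mul, map_sub, map_mul, map_add, map_neg, map_one,
      map_ofNat, PowerSeries.map_C]
    ring
  have eb : (1 / 3 : ℂ) • (((-(1 / (p : ℂ))) • Up p (qExpansion 1 h)) * Vp p (qExpansion 1 E₄)
      + (-(ι c0)) • Vp p (qExpansion 1 E₆)) = PowerSeries.map ι gb := by
    rw [← third_map hgb, ← hW, ← map_E4, ← map_E6, Up_eq, Vp_eq, Vp_eq, ← map_U, ← map_V,
      ← map_V, U_lift p hp, V_E4s p hp, V_E6s p hp]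
    congr 1
    simp only [PowerSeries.smul_eq_C_mul, map_sub, map_mul, map_add, map_neg, map_one,
      map_ofNat, PowerSeries.map_C, hιp]
    ring
  rw [ea, eb] at H
  exact H

/-- **Leaf L9 for `p ≡ 2 mod 3`.** -/
theorem ne9 (p : ℕ) [Fact p.Prime] (hp5 : 5 ≤ p) (hp3 : p % 3 = 2) :
    ∀ h : ModularForm (CongruenceSubgroup.Gamma0 p) 2, ¬ S16_NEA.IsOneMod p 3 2 h := by
  intro h hh
  have hp : p.Prime := Fact.out
  have hp0 : 0 < p := hp.pos
  obtain ⟨W, hW⟩ := exists_lift p h hh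
  obtain ⟨s, hs⟩ : ∃ s, p + 1 = 3 * s := ⟨(p + 1) / 3, by omega⟩
  have h3p : ¬ 3 ∣ p := by omega
  obtain ⟨pinv, hpinv⟩ : ∃ pinv : ↥Z3, (p : ↥Z3) * pinv = 1 := by
    refine ⟨⟨((p : ℚ))⁻¹, S16_NEA.natCast_inv_mem 3 Nat.prime_three p h3p⟩, ?_⟩
    apply Subtype.ext
    have hpq : (p : ℚ) ≠ 0 := Nat.cast_ne_zero.2 hp.ne_zero
    simp [hpq]
  obtain ⟨d0, hd0⟩ : ∃ d0 : ↥Z3, d0 = -((s : ↥Z3) * pinv) := ⟨_, rfl⟩
  have hpd0 : (p : ↥Z3) * d0 = -(s : ↥Z3) := by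
    rw [hd0]; linear_combination (-(s : ↥Z3)) * hpinv
  have hkey : 1 + pinv = -3 * d0 := by
    have h1 : ((p : ↥Z3) + 1) = 3 * (s : ↥Z3) := by
      exact_mod_cast congrArg (Nat.cast : ℕ → ↥Z3) hs
    rw [hd0]
    linear_combination pinv * h1 - hpinv
  have hPD : (1 : (↥Z3)⟦X⟧) + C pinv = -3 * C d0 := by
    have := congrArg (C (R := ↥Z3)) hkey
    simpa only [map_add, map_mul, map_neg, map_one, map_ofNat] using this
  -- the `Z_(3)`-series of `γ = (h E₄ - E₆)/3`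
  obtain ⟨ga, hga⟩ : ∃ ga : (↥Z3)⟦X⟧,
      ga = 80 * Aser + 168 * Bser + 3 * W * (1 + 240 * Aser) := ⟨_, rfl⟩
  obtain ⟨gb, hgb⟩ : ∃ gb : (↥Z3)⟦X⟧,
      gb = C d0 - 80 * C pinv * V p Aser + 168 * V p Bser
        - 3 * C pinv * (U p W * (1 + 240 * V p Aser)) := ⟨_, rfl⟩
  have Hγ : TwoExp p h 6 (PowerSeries.map ι ga) (PowerSeries.map ι gb) := by
    refine twoExp_gamma p hp0 h W hW pinv hpinv 1 ga gb ?_ ?_
    · rw [hga, map_one]; ring
    · rw [hgb, map_one]; linear_combination hPD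
  have h1 : ∃ w, ga = -Aser + 3 * w :=
    ⟨27 * Aser + 56 * Bser + W * (1 + 240 * Aser), by rw [hga]; ring⟩
  have h2 : ∃ w, gb = C d0 - V p Aser + 3 * w :=
    ⟨(27 + 80 * C d0) * V p Aser + 56 * V p Bser - C pinv * (U p W * (1 + 240 * V p Aser)), by
      rw [hgb]; linear_combination (-80 * V p Aser) * hPD⟩
  by_cases h3s : 3 ∣ s
  · -- `9 ∣ p + 1`: trace of `γ^(3^a)`
    obtain ⟨a, u, hu, hpu⟩ := Nat.exists_eq_pow_mul_and_not_dvd (n := p + 1) (by omega) 3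
      (by norm_num)
    obtain ⟨s', hs'⟩ := h3s
    have h2' : ∃ w, gb = -V p Aser + 3 * w := by
      obtain ⟨w, hw⟩ := h2
      refine ⟨C (-((s' : ↥Z3) * pinv)) + w, ?_⟩
      have hd : C d0 = 3 * C (-((s' : ↥Z3) * pinv)) := by
        rw [hd0, hs']
        have h3 : (3 : (↥Z3)⟦X⟧) = C (3 : ↥Z3) := (map_ofNat (C (R := ↥Z3)) 3).symm
        rw [h3, ← map_mul]
        congr 1
        push_cast
        ring
      rw [hw, hd]; ring
    obtain ⟨T, hT⟩ := exists_trace p h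
      (twoExp_pow Hγ (3 ^ a) (Nat.one_le_pow _ _ (by norm_num)))
    refine S16_NE9c2.case_two p hp0 a u hpu hu ga gb h1 h2' (6 * 3 ^ a) rfl T ?_
    rw [hT, ← map_pow, ← map_pow, trace_map]
  · -- `9 ∤ p + 1`: trace of `γ² γ'²`, `γ' = (h E₄ + p⁻¹ E₆)/3`
    obtain ⟨ga', hga'⟩ : ∃ ga' : (↥Z3)⟦X⟧, ga' = ga - C d0 * (1 - 504 * Bser) := ⟨_, rfl⟩
    obtain ⟨gb', hgb'⟩ : ∃ gb' : (↥Z3)⟦X⟧, gb' = gb - C d0 * (1 - 504 * V p Bser) := ⟨_, rfl⟩
    have Hγ' : TwoExp p h 6 (PowerSeries.map ι ga') (PowerSeries.map ι gb') := by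
      refine twoExp_gamma p hp0 h W hW pinv hpinv (-pinv) ga' gb' ?_ ?_
      · rw [hga', hga, map_neg]; linear_combination (-(1 - 504 * Bser)) * hPD
      · rw [hgb', hgb, map_neg]; linear_combination (504 * V p Bser) * hPD
    have h3 : ∃ w, ga' = C (-d0) - Aser + 3 * w := by
      obtain ⟨w, hw⟩ := h1
      exact ⟨w + 168 * C d0 * Bser, by rw [hga', hw, map_neg]; ring⟩
    have h4 : ∃ w, gb' = -V p Aser + 3 * w := by
      obtain ⟨w, hw⟩ := h2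
      exact ⟨w + 168 * C d0 * V p Bser, by rw [hgb', hw]; ring⟩
    obtain ⟨T, hT⟩ := exists_trace p h (TwoExp.mul (TwoExp.mul Hγ Hγ) (TwoExp.mul Hγ' Hγ'))
    refine S16_NE9c1.case_one p hp0 s hs h3s d0 (-d0) hpd0 ⟨0, by ring⟩ ga gb ga' gb' h1 h2 h3 h4
      (6 + 6 + (6 + 6)) rfl T ?_
    have e1 : PowerSeries.map ι ga * PowerSeries.map ι ga
        * (PowerSeries.map ι ga' * PowerSeries.map ι ga') = PowerSeries.map ι (ga ^ 2 * ga' ^ 2) := by
      simp only [map_mul, map_pow]; ring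
    have e2 : PowerSeries.map ι gb * PowerSeries.map ι gb
        * (PowerSeries.map ι gb' * PowerSeries.map ι gb') = PowerSeries.map ι (gb ^ 2 * gb' ^ 2) := by
      simp only [map_mul, map_pow]; ring
    rw [hT, e1, e2, trace_map]

end

end Fermat.Agent.S16_NE9h8
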