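import Mathlib
import Fermat.Agent.S16_NEA
import Fermat.Agent.S16_OInt
import Fermat.Agent.S16_TwoExp

/-!
# S16, leaf NEp: no `h ∈ M₂(Γ₀(p))` with `h ≡ 1 mod p` (for a prime `p ≥ 5`)

The trace to level one of `h²` (weight 4, `p ≥ 7`) resp. `h³` (weight 6, `p = 5`), multiplied by
`p` resp. `p²`, is `p`-integral with constant term `p + 1` resp. `p² - 1` and first coefficient
divisible by `p`; but it is a multiple of `E₄` resp. `E₆`, whose first coefficient is `240` resp.
`-504` times the constant term.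
-/

set_option autoImplicit false

noncomputable section

open UpperHalfPlane ModularForm EisensteinSeries
open scoped MatrixGroups ModularForm

namespace Fermat.Agent.S16_NEp

open Fermat.Agent.S16_TwoExp Fermat.Agent.S16_OInt

/-! ### level one, weights 4 and 6 -/

theorem coeff_one_weight_four (T : ModularForm 𝒮ℒ 4) :
    (qExpansion 1 T).coeff 1 = 240 * (qExpansion 1 T).coeff 0 := by
  obtain ⟨c, hc⟩ : ∃ c : ℂ, c • E₄ = T :=
    (finrank_eq_one_iff_of_nonzero' E₄ (E_ne_zero _ ⟨2, rfl⟩)).mp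
      (Module.rank_eq_one_iff_finrank_eq_one.mp levelOne_weight_four_rank_one) _
  have hq : qExpansion 1 (T : ℍ → ℂ) = c • qExpansion 1 (E₄ : ℍ → ℂ) := by
    rw [← ModularForm.qExpansion_smul one_pos one_mem_strictPeriods_SL c E₄, ← hc]
    rfl
  rw [hq]
  simp only [map_smul, smul_eq_mul, E₄_qExpansion_coeff_one, E_qExpansion_coeff_zero _ ⟨2, rfl⟩]
  ring

theorem coeff_one_weight_six (T : ModularForm 𝒮ℒ 6) :
    (qExpansion 1 T).coeff 1 = -504 * (qExpansion 1 T).coeff 0 := by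
  obtain ⟨c, hc⟩ : ∃ c : ℂ, c • E₆ = T :=
    (finrank_eq_one_iff_of_nonzero' E₆ (E_ne_zero _ ⟨3, rfl⟩)).mp
      (Module.rank_eq_one_iff_finrank_eq_one.mp levelOne_weight_six_rank_one) _
  have hq : qExpansion 1 (T : ℍ → ℂ) = c • qExpansion 1 (E₆ : ℍ → ℂ) := by
    rw [← ModularForm.qExpansion_smul one_pos one_mem_strictPeriods_SL c E₆, ← hc]
    rfl
  rw [hq]
  simp only [map_smul, smul_eq_mul, E₆_qExpansion_coeff_one, E_qExpansion_coeff_zero _ ⟨3, rfl⟩]
  ring

theorem coeff_one_weight_four' (k : ℕ) (hk : k = 4) (T : ModularForm 𝒮ℒ (k : ℤ)) :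
    (qExpansion 1 T).coeff 1 = 240 * (qExpansion 1 T).coeff 0 := by
  subst hk
  exact coeff_one_weight_four (ModularForm.mcast (by norm_num) T)

theorem coeff_one_weight_six' (k : ℕ) (hk : k = 6) (T : ModularForm 𝒮ℒ (k : ℤ)) :
    (qExpansion 1 T).coeff 1 = -504 * (qExpansion 1 T).coeff 0 := by
  subst hk
  exact coeff_one_weight_six (ModularForm.mcast (by norm_num) T)

/-! ### power series -/

section ps

variable {R : Type*} [CommRing R]

/-- `U_p` on power series over any ring -/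
def UpR (p : ℕ) (f : PowerSeries R) : PowerSeries R :=
  PowerSeries.mk fun n => PowerSeries.coeff (p * n) f

theorem coeff_UpR (p n : ℕ) (f : PowerSeries R) :
    PowerSeries.coeff n (UpR p f) = PowerSeries.coeff (p * n) f := by
  simp [UpR]

theorem map_UpR_eq_one {S : Type*} [CommRing S] (φ : R →+* S) {p : ℕ} (hp : p ≠ 0)
    (f : PowerSeries R) (hf : PowerSeries.map φ f = 1) : PowerSeries.map φ (UpR p f) = 1 := by
  ext n
  rw [PowerSeries.coeff_map, coeff_UpR, ← PowerSeries.coeff_map, hf, PowerSeries.coeff_one,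
    PowerSeries.coeff_one]
  simp [hp]

theorem coeff_mem_of_map_eq_one (I : Ideal R) (f : PowerSeries R)
    (hf : PowerSeries.map (Ideal.Quotient.mk I) f = 1) {n : ℕ} (hn : n ≠ 0) :
    PowerSeries.coeff n f ∈ I := by
  rw [← Ideal.Quotient.eq_zero_iff_mem, ← PowerSeries.coeff_map, hf, PowerSeries.coeff_one,
    if_neg hn]

end ps

theorem Up_map (R : Subring ℂ) (p : ℕ) (f : PowerSeries R) :
    Up p (PowerSeries.map R.subtype f) = PowerSeries.map R.subtype (UpR p f) := by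
  ext n
  simp [Up, UpR]

/-- The arithmetic core. -/
theorem key (R : Subring ℂ) (I : Ideal R) (p : ℕ) (hp : p ≠ 0) (hpI : ((p : ℕ) : R) ∈ I)
    (A' : PowerSeries R) (hA' : PowerSeries.map (Ideal.Quotient.mk I) A' = 1)
    (hA0 : PowerSeries.coeff 0 A' = 1) (m : ℕ) (hm : 2 ≤ m) (t : PowerSeries ℂ)
    (ht : t = (PowerSeries.map R.subtype A') ^ m
      + (p : ℂ) • Up p (((-(1 / (p : ℂ))) • Up p (PowerSeries.map R.subtype A')) ^ m))
    (κ : ℂ) (hκ : t.coeff 1 = κ * t.coeff 0) :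
    ∃ x ∈ I, ((x : R) : ℂ) = κ * ((p : ℂ) ^ (m - 1) + (-1) ^ m) := by
  have hpc : (p : ℂ) ≠ 0 := by exact_mod_cast hp
  -- the general coefficient
  have hcoeff : ∀ n, (p : ℂ) ^ (m - 1) * t.coeff n
      = (((p : R) ^ (m - 1) * PowerSeries.coeff n (A' ^ m)
          + (-1) ^ m * PowerSeries.coeff (p * n) (UpR p A' ^ m) : R) : ℂ) := by
    intro n
    rw [ht, Up_map, smul_pow, ← map_pow, ← map_pow]
    simp only [map_add, PowerSeries.coeff_smul, Up, PowerSeries.coeff_mk, PowerSeries.coeff_map,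
      Subring.coe_subtype, smul_eq_mul]
    push_cast
    have h1 : (p : ℂ) ^ (m - 1) * ((p : ℂ) * ((-(1 / (p : ℂ))) ^ m)) = (-1) ^ m := by
      obtain ⟨j, rfl⟩ : ∃ j, m = j + 1 := ⟨m - 1, by omega⟩
      simp only [Nat.add_sub_cancel]
      rw [neg_pow, one_div, inv_pow]
      field_simp
      ring
    linear_combination ((PowerSeries.coeff (p * n) (UpR p A' ^ m) : R) : ℂ) * h1
  refine ⟨(p : R) ^ (m - 1) * PowerSeries.coeff 1 (A' ^ m)
          + (-1) ^ m * PowerSeries.coeff (p * 1) (UpR p A' ^ m), ?_, ?_⟩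
  · refine I.add_mem (I.mul_mem_right _ ?_) (I.mul_mem_left _ ?_)
    · obtain ⟨j, hj⟩ : ∃ j, m - 1 = j + 1 := ⟨m - 2, by omega⟩
      rw [hj, pow_succ]
      exact I.mul_mem_left _ hpI
    · apply coeff_mem_of_map_eq_one I
      · rw [map_pow, map_UpR_eq_one _ hp _ hA', one_pow]
      · simpa using hp
  · rw [← hcoeff 1, hκ]
    have h0 := hcoeff 0
    have hA0' : PowerSeries.coeff 0 (A' ^ m) = 1 := by
      rw [PowerSeries.coeff_zero_eq_constantCoeff_apply, map_pow,
        ← PowerSeries.coeff_zero_eq_constantCoeff_apply, hA0, one_pow]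
    have hU0 : PowerSeries.coeff (p * 0) (UpR p A' ^ m) = 1 := by
      rw [mul_zero, PowerSeries.coeff_zero_eq_constantCoeff_apply, map_pow,
        ← PowerSeries.coeff_zero_eq_constantCoeff_apply, coeff_UpR, mul_zero, hA0, one_pow]
    rw [hA0', hU0] at h0
    push_cast at h0
    linear_combination κ * h0

/-- The `q`-expansion of a form `≡ 1 mod ℓ^t` (`t ≥ 1`) as a power series over `OInt ℓ`,
congruent to `1` modulo `ℓ`. -/
theorem exists_series (p ℓ t : ℕ) (ht : 1 ≤ t) (h : ModularForm (CongruenceSubgroup.Gamma0 p) 2)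
    (hh : S16_NEA.IsOneMod p ℓ t h) :
    ∃ A' : PowerSeries (OInt ℓ), PowerSeries.map (OInt ℓ).subtype A' = qExpansion 1 h ∧
      PowerSeries.coeff 0 A' = 1 ∧ PowerSeries.map (Ideal.Quotient.mk (ellIdeal ℓ)) A' = 1 := by
  obtain ⟨h0, hk⟩ := hh
  have h0' : (qExpansion 1 h).coeff 0 = 1 := h0
  have hk' : ∀ n, n ≠ 0 → ∃ y ∈ OInt ℓ, (qExpansion 1 h).coeff n = (ℓ : ℂ) * y := by
    intro n hn
    obtain ⟨r, hr, hrk⟩ := hk n (Nat.pos_of_ne_zero hn)
    have hrk' : (qExpansion 1 h).coeff n = ((ℓ ^ t : ℕ) : ℂ) * ((r : ℚ) : ℂ) := hrk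
    obtain ⟨j, rfl⟩ : ∃ j, t = j + 1 := ⟨t - 1, by omega⟩
    refine ⟨((ℓ ^ j : ℕ) : ℂ) * ((r : ℚ) : ℂ), (OInt ℓ).mul_mem ?_ (ratLocalizedAt_mem hr), ?_⟩
    · exact_mod_cast intCast_mem_OInt ℓ ((ℓ ^ j : ℕ) : ℤ)
    · rw [hrk']
      push_cast
      ring
  have hmem : ∀ n, (qExpansion 1 h).coeff n ∈ OInt ℓ := by
    intro n
    rcases eq_or_ne n 0 with rfl | hn
    · rw [h0']
      exact (OInt ℓ).one_mem
    · obtain ⟨y, hy, hny⟩ := hk' n hn
      rw [hny]
      exact (OInt ℓ).mul_mem (by exact_mod_cast intCast_mem_OInt ℓ (ℓ : ℤ)) hy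
  refine ⟨PowerSeries.mk fun n => ⟨(qExpansion 1 h).coeff n, hmem n⟩, ?_, ?_, ?_⟩
  · ext n
    simp
  · rw [PowerSeries.coeff_mk]
    exact Subtype.ext h0'
  · ext n
    rw [PowerSeries.coeff_map, PowerSeries.coeff_one, PowerSeries.coeff_mk]
    split_ifs with hn
    · subst hn
      have : (⟨(qExpansion 1 h).coeff 0, hmem 0⟩ : OInt ℓ) = 1 := Subtype.ext h0'
      rw [this, map_one]
    · rw [Ideal.Quotient.eq_zero_iff_mem, mem_ellIdeal_iff]
      exact hk' n hn

/-- **NEp**: for a prime `p ≥ 5` there is no weight-2 form of level `p` congruent to `1` mod `p`. -/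
theorem nep (p : ℕ) [Fact p.Prime] (hp5 : 5 ≤ p) :
    ∀ h : ModularForm (CongruenceSubgroup.Gamma0 p) 2, ¬ S16_NEA.IsOneMod p p 1 h := by
  intro h hh
  have hp : p.Prime := Fact.out
  obtain ⟨A', hAmap, hA0, hA1⟩ := exists_series p p 1 le_rfl h hh
  rcases Nat.lt_or_ge p 7 with hlt | hge
  · have hp5' : p = 5 := by
      interval_cases p
      · rfl
      · exact absurd hp (by norm_num)
    obtain ⟨T, hT⟩ := exists_trace p h ((TwoExp.base.mul TwoExp.base).mul TwoExp.base)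
    have hκ := coeff_one_weight_six' _ rfl T
    obtain ⟨x, hxI, hx⟩ := key (OInt p) (ellIdeal p) p hp.ne_zero (natCast_mem_ellIdeal p) A' hA1
      hA0 3 (by norm_num) (qExpansion 1 T)
      (by rw [hT, hAmap]; simp only [pow_succ, pow_zero, one_mul]) (-504) hκ
    have hx' : x = (((-504 * ((p : ℤ) ^ 2 - 1) : ℤ)) : OInt p) := by
      apply Subtype.ext
      rw [hx, Subring.coe_intCast]
      push_cast
      ring
    rw [hx', intCast_mem_ellIdeal_iff hp] at hxI
    subst hp5'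
    norm_num at hxI
  · obtain ⟨T, hT⟩ := exists_trace p h (TwoExp.base.mul TwoExp.base)
    have hκ := coeff_one_weight_four' _ rfl T
    obtain ⟨x, hxI, hx⟩ := key (OInt p) (ellIdeal p) p hp.ne_zero (natCast_mem_ellIdeal p) A' hA1
      hA0 2 (by norm_num) (qExpansion 1 T)
      (by rw [hT, hAmap]; simp only [pow_succ, pow_zero, one_mul]) 240 hκ
    have hx' : x = (((240 * ((p : ℤ) + 1) : ℤ)) : OInt p) := by
      apply Subtype.ext
      rw [hx, Subring.coe_intCast]
      push_cast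
      ring
    rw [hx', intCast_mem_ellIdeal_iff hp] at hxI
    have h1 : p ∣ 240 * (p + 1) := by exact_mod_cast hxI
    rcases (Nat.Prime.dvd_mul hp).mp h1 with h2 | h2
    · have h240 : p ∣ 2 ^ 4 * 3 * 5 := by
        norm_num
        exact h2
      rcases (Nat.Prime.dvd_mul hp).mp h240 with h3 | h3
      · rcases (Nat.Prime.dvd_mul hp).mp h3 with h4 | h4
        · have := Nat.le_of_dvd (by norm_num) (hp.dvd_of_dvd_pow h4)
          omega
        · have := Nat.le_of_dvd (by norm_num) h4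
          omega
      · have := Nat.le_of_dvd (by norm_num) h3
        omega
    · have h3 : p ∣ 1 := (Nat.dvd_add_right (dvd_refl p)).mp h2
      have := Nat.le_of_dvd (by norm_num) h3
      omega

end Fermat.Agent.S16_NEp
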