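-- Statement S16: |𝕋 / I_Eis| = numerator of (p - 1)/12 (Mazur's Eisenstein ideal, index).
import Fermat.Statements.S16
import Fermat.Agent.S16_Asm
import Fermat.Agent.S16_LB
import Fermat.Agent.S16_Eis
import Fermat.Agent.S16_M8
import Fermat.Agent.S16_L4L3
import Fermat.Agent.S16_NE9h8
import Fermat.Agent.S16_NE5F
import Fermat.Agent.S16_NEp

set_option autoImplicit false
open ModularCurve CuspForm
open ModularCurve

namespace Fermat.Agent.S16

theorem result
    (p : ℕ) [Fact p.Prime] :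
    Nat.card (↥(heckeLatticeAlgebra p ∅) ⧸
        Ideal.map ((latticeRestrictHom p ∅).toRingHom.comp (heckeEvalForms p 2))
          (eisensteinIdeal p)) =
      eisensteinNumerator p := by
  have hp : p.Prime := Fact.out
  refine S16_Asm.result_of_blocks p (fun _ => S16_LB.lb p) (fun _ => S16_Eis.exists_eis p)
    ?_ (S16_L4L3.l4 p) ?_ (S16_L4L3.l3 p) ?_
  · -- leaf L8: no `h ≡ 1 mod 8`
    rintro hp5 h ⟨h0, hk⟩
    exact S16_M8.no_mod8 p hp5 h h0 hk
  · -- leaf L9: no `h ≡ 1 mod 9`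
    intro hp5 h hh
    have h3 : p % 3 = 1 ∨ p % 3 = 2 := by
      have : ¬ 3 ∣ p := fun hd => by
        have := (Nat.prime_dvd_prime_iff_eq Nat.prime_three hp).1 hd
        omega
      omega
    rcases h3 with h3 | h3
    · refine S16_L4L3.l3 p hp5 h3 h ⟨hh.1, fun k hk => ?_⟩
      obtain ⟨r, hr, e⟩ := hh.2 k hk
      refine ⟨3 * r, Subring.mul_mem _ (natCast_mem _ 3) hr, ?_⟩
      rw [e]
      push_cast
      ring
    · exact S16_NE9h8.ne9 p hp5 h3 h hh
  · -- leaf L5: no `h ≡ 1 mod ℓ` for primes `ℓ ≥ 5`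
    intro hp5 ℓ hℓ h5 h
    by_cases e : ℓ = p
    · subst e
      exact S16_NEp.nep ℓ hp5 h
    · exact S16_NE5F.ne5 p ℓ hℓ h5 e h

end Fermat.Agent.S16
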