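import Fermat.Agent.S16_QPrin
import Fermat.Agent.S16_Wt

/-!
# S16_IntExp (helper9): a calculus of `ℓ`-integral `q`-expansions, and the packaged
`q`-expansion principle for quotients `F/Δ(d·)^m`

* `IntExp ℓ F`: the function `F : ℍ → ℂ` has a convergent Laurent expansion in `q = e^{2πiτ}`
  with coefficients in `ℤ_(ℓ)` (`GaloisRep.ratLocalizedAt ℓ`);
* closure: `IntExp.const`, `.add`, `.neg`, `.sub`, `.mul`, `.pow`, `.congr`, `.comp_dmul`, `.quot`;
* sources: `IntExp.of_hasSum`, `IntExp.of_hasSum_sub_div`, `intExp_E4`, `intExp_E6`, `intExp_E2`,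
  `intExp_modularForm_sub_one_div`, `intExp_discriminant_dmul_inv`;
* sink: `rat_value_mem_of_intExp`.
-/

set_option autoImplicit false

noncomputable section

namespace Fermat.Agent.S16_IntExp

open Fermat.Agent.S24_Defs Fermat.Agent.S24_Embed Fermat.Agent.S24_QExp ModularCurve
  UpperHalfPlane
open ModularForm EisensteinSeries
open scoped MatrixGroups ModularForm Manifold Topology ArithmeticFunction.sigma
open Fermat.Agent.S28_Mod0 Fermat.Agent.S28_Unit Fermat.Agent.S28_QExp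
open Fermat.Agent.S16_Wt

/-- The ring homomorphism `ℤ_(ℓ) → ℂ`. -/
def toCl (ℓ : ℕ) : GaloisRep.ratLocalizedAt ℓ →+* ℂ :=
  (algebraMap ℚ ℂ).comp (GaloisRep.ratLocalizedAt ℓ).subtype

theorem toCl_apply (ℓ : ℕ) (c : GaloisRep.ratLocalizedAt ℓ) : toCl ℓ c = ((c : ℚ) : ℂ) := rfl

/-- The ring homomorphism `ℤ_(ℓ)((q)) → ℂ((q))`. -/
def embC (ℓ : ℕ) : LaurentSeries (GaloisRep.ratLocalizedAt ℓ) →+* LaurentSeries ℂ :=
  (coeffEmb ℂ).comp (emb ℓ)

theorem embC_apply (ℓ : ℕ) (f : LaurentSeries (GaloisRep.ratLocalizedAt ℓ)) :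
    embC ℓ f = coeffEmb ℂ (emb ℓ f) := rfl

theorem embC_C (ℓ : ℕ) (c : GaloisRep.ratLocalizedAt ℓ) :
    embC ℓ (HahnSeries.C c) = algebraMap ℂ (LaurentSeries ℂ) ((c : ℚ) : ℂ) := by
  rw [embC_apply, algebraMap_laurentSeries_eq_single]
  show coeffMap _ (coeffMap _ (HahnSeries.single 0 c)) = _
  rw [coeffMap_single, coeffMap_single]
  rfl

theorem embC_ofPowerSeries (ℓ : ℕ) (P : PowerSeries (GaloisRep.ratLocalizedAt ℓ)) :
    embC ℓ (HahnSeries.ofPowerSeries ℤ _ P) = HahnSeries.ofPowerSeries ℤ ℂ (P.map (toCl ℓ)) := by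
  rw [embC_apply]
  unfold emb coeffEmb
  rw [Fermat.Agent.S24_Dict.coeffMap_ofPowerSeries, Fermat.Agent.S24_Dict.coeffMap_ofPowerSeries,
    ← RingHom.comp_apply (PowerSeries.map (algebraMap ℚ ℂ)), ← PowerSeries.map_comp]
  rfl

/-- `F` has a convergent `q`-expansion with `ℓ`-integral rational coefficients. -/
def IntExp (ℓ : ℕ) (F : ℍ → ℂ) : Prop :=
  ∃ f : LaurentSeries (GaloisRep.ratLocalizedAt ℓ), LConv (embC ℓ f) F

namespace IntExp

variable {ℓ : ℕ} {F G : ℍ → ℂ}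

theorem congr (h : IntExp ℓ F) (hFG : ∀ τ, F τ = G τ) : IntExp ℓ G := by
  obtain ⟨f, hf⟩ := h
  exact ⟨f, lconv_congr hf rfl hFG⟩

theorem const (c : GaloisRep.ratLocalizedAt ℓ) : IntExp ℓ (fun _ => ((c : ℚ) : ℂ)) :=
  ⟨HahnSeries.C c, by rw [embC_C]; exact LConv.const _⟩

/-- Constants given by rational numbers in `ℤ_(ℓ)`. -/
theorem const_rat {r : ℚ} (hr : r ∈ GaloisRep.ratLocalizedAt ℓ) : IntExp ℓ (fun _ => (r : ℂ)) :=
  const ⟨r, hr⟩

theorem const_int (n : ℤ) : IntExp ℓ (fun _ => (n : ℂ)) := by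
  have h := const (ℓ := ℓ) (n : GaloisRep.ratLocalizedAt ℓ)
  refine h.congr fun τ => ?_
  push_cast
  rfl

theorem const_nat (n : ℕ) : IntExp ℓ (fun _ => (n : ℂ)) := by
  have h := const_int (ℓ := ℓ) (n : ℤ)
  exact h.congr fun τ => by push_cast; rfl

theorem add (h : IntExp ℓ F) (h' : IntExp ℓ G) : IntExp ℓ (fun τ => F τ + G τ) := by
  obtain ⟨f, hf⟩ := h
  obtain ⟨g, hg⟩ := h'
  exact ⟨f + g, by rw [map_add]; exact hf.add hg⟩

theorem mul (h : IntExp ℓ F) (h' : IntExp ℓ G) : IntExp ℓ (fun τ => F τ * G τ) := by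
  obtain ⟨f, hf⟩ := h
  obtain ⟨g, hg⟩ := h'
  exact ⟨f * g, by rw [map_mul]; exact hf.mul hg⟩

theorem neg (h : IntExp ℓ F) : IntExp ℓ (fun τ => -F τ) := by
  have h1 := (const_int (ℓ := ℓ) (-1)).mul h
  exact h1.congr fun τ => by push_cast; ring

theorem sub (h : IntExp ℓ F) (h' : IntExp ℓ G) : IntExp ℓ (fun τ => F τ - G τ) :=
  (h.add h'.neg).congr fun τ => by ring

theorem pow (h : IntExp ℓ F) (n : ℕ) : IntExp ℓ (fun τ => F τ ^ n) := by
  obtain ⟨f, hf⟩ := h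
  exact ⟨f ^ n, by rw [map_pow]; exact lconv_pow hf n⟩

/-- Multiplication by an integer constant. -/
theorem int_mul (n : ℤ) (h : IntExp ℓ F) : IntExp ℓ (fun τ => (n : ℂ) * F τ) :=
  (const_int n).mul h

/-- Multiplication by a rational constant in `ℤ_(ℓ)`. -/
theorem rat_mul {r : ℚ} (hr : r ∈ GaloisRep.ratLocalizedAt ℓ) (h : IntExp ℓ F) :
    IntExp ℓ (fun τ => (r : ℂ) * F τ) :=
  (const_rat hr).mul h

/-- Substitution `τ ↦ dτ`. -/
theorem comp_dmul (h : IntExp ℓ F) (d : ℕ) [NeZero d] : IntExp ℓ (fun τ => F (dmul d τ)) := by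
  obtain ⟨f, hf⟩ := h
  refine ⟨qExpand _ d f, ?_⟩
  have h1 := lconv_dmul hf d
  have e : embC ℓ (qExpand _ d f) = qExpand ℂ d (embC ℓ f) := by
    rw [embC_apply, embC_apply]
    unfold emb coeffEmb
    rw [Fermat.Agent.S24_Dict.coeffMap_qExpand, Fermat.Agent.S24_Dict.coeffMap_qExpand]
  rw [e]
  exact h1

/-- A convergent power series with `ℓ`-integral coefficients. -/
theorem of_hasSum (c : ℕ → ℂ) (hc : ∀ n, ∃ r : GaloisRep.ratLocalizedAt ℓ, c n = ((r : ℚ) : ℂ))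
    (h : ∀ τ : ℍ, HasSum (fun n : ℕ => c n * Function.Periodic.qParam 1 (τ : ℂ) ^ n) (F τ)) :
    IntExp ℓ F := by
  choose r hr using hc
  refine ⟨HahnSeries.ofPowerSeries ℤ _ (PowerSeries.mk r), ?_⟩
  rw [embC_ofPowerSeries]
  apply Fermat.Agent.S23_QExp.lconv_of_hasSum
  intro τ
  have e : (fun n : ℕ => PowerSeries.coeff n ((PowerSeries.mk r).map (toCl ℓ))
      * Function.Periodic.qParam 1 (τ : ℂ) ^ n)
      = fun n : ℕ => c n * Function.Periodic.qParam 1 (τ : ℂ) ^ n := by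
    funext n
    rw [PowerSeries.coeff_map, PowerSeries.coeff_mk, toCl_apply, hr n]
  rw [e]
  exact h τ

/-- If `F = ∑ cₙ qⁿ` and `cₙ ∈ N·ℤ_(ℓ)` for `n ≥ 1`, then `(F - c₀)/N` is `ℓ`-integral. -/
theorem of_hasSum_sub_div (c : ℕ → ℂ) (N : ℂ) (hN : N ≠ 0)
    (hc : ∀ n, 0 < n → ∃ r : GaloisRep.ratLocalizedAt ℓ, c n = N * ((r : ℚ) : ℂ))
    (h : ∀ τ : ℍ, HasSum (fun n : ℕ => c n * Function.Periodic.qParam 1 (τ : ℂ) ^ n) (F τ)) :
    IntExp ℓ (fun τ => (F τ - c 0) / N) := by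
  refine of_hasSum (fun n => if n = 0 then 0 else c n / N) (fun n => ?_) (fun τ => ?_)
  · by_cases hn : n = 0
    · exact ⟨0, by simp [hn]⟩
    · obtain ⟨r, hr⟩ := hc n (Nat.pos_of_ne_zero hn)
      refine ⟨r, ?_⟩
      rw [if_neg hn, hr]
      field_simp
  · have h0 : HasSum (fun n : ℕ => (if n = 0 then c 0 else 0)
        * Function.Periodic.qParam 1 (τ : ℂ) ^ n) (c 0) := by
      have h1 := hasSum_ite_eq (0 : ℕ) (c 0)
      have e : (fun n : ℕ => (if n = 0 then c 0 else 0) * Function.Periodic.qParam 1 (τ : ℂ) ^ n)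
          = fun n : ℕ => if n = 0 then c 0 else 0 := by
        funext n
        by_cases hn : n = 0
        · simp [hn]
        · simp [hn]
      rw [e]
      exact h1
    have h2 := ((h τ).sub h0).div_const N
    have e : (fun n : ℕ => (if n = 0 then 0 else c n / N) * Function.Periodic.qParam 1 (τ : ℂ) ^ n)
        = fun n : ℕ => (c n * Function.Periodic.qParam 1 (τ : ℂ) ^ n
          - (if n = 0 then c 0 else 0) * Function.Periodic.qParam 1 (τ : ℂ) ^ n) / N := by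
      funext n
      by_cases hn : n = 0
      · simp [hn]
      · simp only [if_neg hn]
        ring
    rw [e]
    exact h2

end IntExp

/-! ### Sources -/

/-- The `q`-expansion of a modular form of level `Γ₀(N)` as a `HasSum`. -/
theorem hasSum_modularForm {N : ℕ} [NeZero N] {k : ℤ}
    (f : ModularForm (CongruenceSubgroup.Gamma0 N) k) (τ : ℍ) :
    HasSum (fun n : ℕ => ModularFormClass.qCoeff f n * Function.Periodic.qParam 1 (τ : ℂ) ^ n)
      (f τ) := by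
  have hΓ := CongruenceSubgroup.one_mem_strictPeriods_Gamma0 N
  have : Fact (IsCusp OnePoint.infty
      (Subgroup.map (Matrix.SpecialLinearGroup.mapGL ℝ) (CongruenceSubgroup.Gamma0 N))) :=
    ⟨Subgroup.isCusp_of_mem_strictPeriods one_pos hΓ⟩
  have := UpperHalfPlane.hasSum_qExpansion one_pos
    (SlashInvariantFormClass.periodic_comp_ofComplex f hΓ)
    (ModularFormClass.holo f) (ModularFormClass.bdd_at_infty f) τ
  simpa [ModularFormClass.qCoeff] using this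

/-- The `q`-expansion of a level one modular form as a `HasSum`. -/
theorem hasSum_levelOne {k : ℤ} (f : ModularForm 𝒮ℒ k) (τ : ℍ) :
    HasSum (fun n : ℕ => (qExpansion 1 f).coeff n * Function.Periodic.qParam 1 (τ : ℂ) ^ n)
      (f τ) := by
  have := UpperHalfPlane.hasSum_qExpansion one_pos
    (SlashInvariantFormClass.periodic_comp_ofComplex f one_mem_strictPeriods_SL)
    (ModularFormClass.holo f) (ModularFormClass.bdd_at_infty f) τ
  simpa using this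

/-- A modular form with `ℓ`-integral `q`-expansion coefficients. -/
theorem intExp_modularForm {N : ℕ} [NeZero N] {k : ℤ} (ℓ : ℕ)
    (f : ModularForm (CongruenceSubgroup.Gamma0 N) k)
    (hf : ∀ n, ∃ r : GaloisRep.ratLocalizedAt ℓ, ModularFormClass.qCoeff f n = ((r : ℚ) : ℂ)) :
    IntExp ℓ f :=
  IntExp.of_hasSum _ hf (hasSum_modularForm f)

/-- A modular form `h ≡ 1 mod ℓ^t` (in helper8's `IsOneMod` normalisation): `(h - 1)/ℓ^t` is
`ℓ`-integral. -/
theorem intExp_modularForm_sub_one_div {N : ℕ} [NeZero N] {k : ℤ} (ℓ t : ℕ) (hℓ : ℓ ≠ 0)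
    (f : ModularForm (CongruenceSubgroup.Gamma0 N) k)
    (h0 : ModularFormClass.qCoeff f 0 = 1)
    (hf : ∀ n, 0 < n → ∃ r ∈ GaloisRep.ratLocalizedAt ℓ,
      ModularFormClass.qCoeff f n = ((ℓ ^ t : ℕ) : ℂ) * ((r : ℚ) : ℂ)) :
    IntExp ℓ (fun τ => (f τ - 1) / ((ℓ ^ t : ℕ) : ℂ)) := by
  have hN : ((ℓ ^ t : ℕ) : ℂ) ≠ 0 := by exact_mod_cast pow_ne_zero t hℓ
  have h := IntExp.of_hasSum_sub_div (ℓ := ℓ) (fun n => ModularFormClass.qCoeff f n) _ hN
    (fun n hn => by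
      obtain ⟨r, hr, h⟩ := hf n hn
      exact ⟨⟨r, hr⟩, h⟩) (hasSum_modularForm f)
  exact h.congr fun τ => by simp only [h0]

/-- `E₄ ≡ 1 mod 240`. -/
theorem intExp_E4 (ℓ : ℕ) : IntExp ℓ (fun τ => (E₄ τ - 1) / 240) := by
  have h := IntExp.of_hasSum_sub_div (ℓ := ℓ) (fun n => (qExpansion 1 E₄).coeff n) 240
    (by norm_num) (fun n hn => by
      refine ⟨((σ 3 n : ℕ) : ℤ), ?_⟩
      rw [E_qExpansion_coeff _ ⟨2, rfl⟩, if_neg hn.ne',
        show bernoulli 4 = -1 / 30 by decide +kernel]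
      push_cast
      ring) (hasSum_levelOne E₄)
  refine h.congr fun τ => ?_
  simp only [E_qExpansion_coeff_zero _ ⟨2, rfl⟩]

/-- `E₆ ≡ 1 mod 504`. -/
theorem intExp_E6 (ℓ : ℕ) : IntExp ℓ (fun τ => (E₆ τ - 1) / 504) := by
  have h := IntExp.of_hasSum_sub_div (ℓ := ℓ) (fun n => (qExpansion 1 E₆).coeff n) 504
    (by norm_num) (fun n hn => by
      refine ⟨-((σ 5 n : ℕ) : ℤ), ?_⟩
      rw [E_qExpansion_coeff _ ⟨3, rfl⟩, if_neg hn.ne',
        show bernoulli 6 = 1 / 42 by decide +kernel]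
      push_cast
      ring) (hasSum_levelOne E₆)
  refine h.congr fun τ => ?_
  simp only [E_qExpansion_coeff_zero _ ⟨3, rfl⟩]

/-- `E₂ ≡ 1 mod 24`. -/
theorem intExp_E2 (ℓ : ℕ) : IntExp ℓ (fun τ => (E2 τ - 1) / 24) := by
  have h := IntExp.of_hasSum_sub_div (ℓ := ℓ) (F := E2)
    (fun n => (if n = 0 then 1 else -24 * (σ 1 n : ℂ))) 24
    (by norm_num) (fun n hn => by
      refine ⟨-((σ 1 n : ℕ) : ℤ), ?_⟩
      rw [if_neg hn.ne']
      push_cast
      ring) (fun τ => by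
      have := hasSum_qExpansion_E2 (z := τ)
      simpa [Function.Periodic.qParam] using this)
  refine h.congr fun τ => ?_
  simp

/-! ### The inverse of `Δ(dτ)` -/

/-- The `ℓ`-integral Laurent series `Δ(q^d)⁻¹ = q^{-d} ∏ (1 - q^{dn})^{-24}`. -/
def deltaInvL (ℓ d : ℕ) [NeZero d] : LaurentSeries (GaloisRep.ratLocalizedAt ℓ) :=
  HahnSeries.single (-(d : ℤ)) 1 * qExpand _ d (Fermat.Agent.S28_Defs.etaUInv _)

theorem embC_deltaInvL (ℓ d : ℕ) [NeZero d] :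
    embC ℓ (deltaInvL ℓ d) = (coeffEmb ℂ (deltaSeriesN d))⁻¹ := by
  have hd : d ≠ 0 := NeZero.ne d
  have e1 : embC ℓ (deltaInvL ℓ d) = HahnSeries.single (-(d : ℤ)) (1 : ℂ)
      * HahnSeries.ofPowerSeries ℤ ℂ (expandPS d etaV) := by
    rw [embC_apply, deltaInvL]
    unfold emb coeffEmb
    rw [map_mul, map_mul, coeffMap_single, coeffMap_single, map_one, map_one,
      Fermat.Agent.S24_Dict.coeffMap_qExpand, Fermat.Agent.S24_Dict.coeffMap_qExpand,
      Fermat.Agent.S28_Defs.coeffMap_etaUInv, Fermat.Agent.S28_Defs.coeffMap_etaUInv]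
    show _ * qExpand ℂ d (HahnSeries.ofPowerSeries ℤ ℂ etaV) = _
    rw [qExpand_ofPowerSeries]
  rw [e1, coeffEmb_deltaSeriesN]
  symm
  apply inv_eq_of_mul_eq_one_right
  have h1 : HahnSeries.single (d : ℤ) (1 : ℂ) * HahnSeries.single (-(d : ℤ)) (1 : ℂ) = 1 := by
    rw [single_neg_mul_single, add_neg_cancel]
    rfl
  calc HahnSeries.single (d : ℤ) (1 : ℂ) * HahnSeries.ofPowerSeries ℤ ℂ (expandPS d etaU)
        * (HahnSeries.single (-(d : ℤ)) (1 : ℂ) * HahnSeries.ofPowerSeries ℤ ℂ (expandPS d etaV))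
      = (HahnSeries.single (d : ℤ) (1 : ℂ) * HahnSeries.single (-(d : ℤ)) (1 : ℂ))
        * (HahnSeries.ofPowerSeries ℤ ℂ (expandPS d etaU)
          * HahnSeries.ofPowerSeries ℤ ℂ (expandPS d etaV)) := by ring
    _ = 1 := by rw [h1, ofPowerSeries_expand_etaU_mul_etaV hd, one_mul]

/-- `1/Δ(dτ)` has an `ℓ`-integral expansion. -/
theorem intExp_discriminant_dmul_inv (ℓ d : ℕ) [NeZero d] :
    IntExp ℓ (fun τ => (ModularForm.discriminant (dmul d τ))⁻¹) :=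
  ⟨deltaInvL ℓ d, by rw [embC_deltaInvL]; exact lconv_discriminant_dmul_inv d⟩

/-- `ℓ`-integrality passes to the quotient `F/Δ(d·)^m`. -/
theorem IntExp.quot {ℓ : ℕ} {F : ℍ → ℂ} (h : IntExp ℓ F) (d m : ℕ) [NeZero d] :
    IntExp ℓ (quot F d m) :=
  (h.mul ((intExp_discriminant_dmul_inv ℓ d).pow m)).congr fun τ => by
    rw [quot_apply, div_eq_mul_inv, inv_pow]

/-! ### The sink: the `q`-expansion principle for `F/Δ(d·)^m` -/

/-- **Packaged `q`-expansion principle.**  Let `ℓ ∤ M`, let `F` be a weak form of weight `12 m`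
and level `M` with `ℓ`-integral expansion, and let `d ∣ M`.  If `j(τ₀)` is an `ℓ`-integral
rational number and `F(τ₀) = r·Δ(dτ₀)^m` with `r` rational, then `r` is `ℓ`-integral. -/
theorem rat_value_mem_of_intExp (M : ℕ) [NeZero M] (ℓ : ℕ) [Fact ℓ.Prime] (hℓM : ¬ ℓ ∣ M)
    {F : ℍ → ℂ} {m d : ℕ} (hF : IsWt M (12 * m) F) (hd : d ≠ 0) (hdM : d ∣ M)
    (hI : IntExp ℓ F) (τ₀ : ℍ) (j₀ : GaloisRep.ratLocalizedAt ℓ)
    (hj : jFun τ₀ = ((j₀ : ℚ) : ℂ)) (r : ℚ)
    (hr : F τ₀ = (r : ℂ) * ModularForm.discriminant (dmul d τ₀) ^ m) :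
    r ∈ GaloisRep.ratLocalizedAt ℓ := by
  have : NeZero d := ⟨hd⟩
  obtain ⟨f, hf⟩ := hI.quot d m
  refine Fermat.Agent.S16_QPrin.rat_value_mem M ℓ hℓM (hF.quotAN hd hdM)
    (hF.tr_quotAN hd hdM) f hf τ₀ j₀ hj r ?_
  rw [IsWt.quotAN_apply, hr]
  have hΔ := ModularForm.discriminant_ne_zero (dmul d τ₀)
  field_simp

end Fermat.Agent.S16_IntExp

end
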