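import Fermat.Agent.S16_IntExp

/-!
# S16_L43 (helper9): the analytic halves of the leaves `L4` and `L3`

Let `p` be an odd prime and `h ∈ M₂(Γ₀(p))`.

* `no_oneMod4`: if `τ₀ ∈ ℍ` satisfies `h(τ₀) = 0` and `E₆(τ₀) = 0` (an elliptic point of
  order `2`), then `h ≢ 1 mod 4`: otherwise `F = ((h² - E₄)/8)³` is a weight `12` form with
  `2`-integral expansion and `F(τ₀) = -(27/8)·Δ(τ₀)`, `j(τ₀) = 1728`.
* `no_oneMod3`: if `h(τ₀) = 0` and `E₄(τ₀) = 0` (an elliptic point of order `3`), then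
  `h ≢ 1 mod 3` (`p ≠ 3`): `F = ((h³ - E₆)/9)²`, `F(τ₀) = -(64/3)·Δ(τ₀)`, `j(τ₀) = 0`.
-/

set_option autoImplicit false

noncomputable section

namespace Fermat.Agent.S16_L43

open Fermat.Agent.S24_Defs UpperHalfPlane
open ModularForm EisensteinSeries
open scoped MatrixGroups ModularForm
open Fermat.Agent.S16_Wt Fermat.Agent.S16_IntExp

theorem not_mem_two : (-27 / 8 : ℚ) ∉ GaloisRep.ratLocalizedAt 2 := by
  intro h
  have h1 : (-27 / 8 : ℚ).den.Coprime 2 := h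
  have h2 : (-27 / 8 : ℚ).den = 8 := by norm_num [Rat.den_div_eq_of_coprime]
  rw [h2] at h1
  exact absurd h1 (by decide)

theorem not_mem_three : (-64 / 3 : ℚ) ∉ GaloisRep.ratLocalizedAt 3 := by
  intro h
  have h1 : (-64 / 3 : ℚ).den.Coprime 3 := h
  have h2 : (-64 / 3 : ℚ).den = 3 := by norm_num [Rat.den_div_eq_of_coprime]
  rw [h2] at h1
  exact absurd h1 (by decide)

/-- (A4) no `h ≡ 1 mod 4` when `h` and `E₆` vanish at a common point. -/
theorem no_oneMod4 (p : ℕ) [Fact p.Prime] (hp2 : p ≠ 2) (τ₀ : ℍ) (hE6 : E₆ τ₀ = 0)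
    (h : ModularForm (CongruenceSubgroup.Gamma0 p) 2) (hτ : h τ₀ = 0)
    (h0 : ModularFormClass.qCoeff h 0 = 1)
    (hk : ∀ k, 0 < k → ∃ r ∈ GaloisRep.ratLocalizedAt 2,
      ModularFormClass.qCoeff h k = ((2 ^ 2 : ℕ) : ℂ) * ((r : ℚ) : ℂ)) : False := by
  have hp : p.Prime := Fact.out
  have : NeZero p := ⟨hp.ne_zero⟩
  have : Fact (Nat.Prime 2) := ⟨Nat.prime_two⟩
  have h2p : ¬ 2 ∣ p := fun hd =>
    hp2 ((Nat.prime_dvd_prime_iff_eq Nat.prime_two hp).mp hd).symm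
  -- integrality
  have hu := intExp_modularForm_sub_one_div 2 2 (by norm_num) h h0 hk
  have hv := intExp_E4 2
  have hG : IntExp 2 (fun τ => (h τ ^ 2 - E₄ τ) / 8) := by
    refine ((hu.add ((IntExp.const_int 2).mul (hu.mul hu))).sub
      ((IntExp.const_int 30).mul hv)).congr fun τ => ?_
    push_cast
    ring
  have hFI : IntExp 2 (fun τ => ((h τ ^ 2 - E₄ τ) / 8) ^ 3) := hG.pow 3
  -- weight
  have hh : IsWt p 2 h := isWt_of_modularForm (k := 2) h
  have hE4 : IsWt p 4 E₄ := isWt_E4.mono (one_dvd p)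
  have hGw : IsWt p 4 (fun τ => (h τ ^ 2 - E₄ τ) / 8) := by
    have h1 := (((hh.pow 2).congr_weight (by norm_num : 2 * 2 = 4)).sub hE4).smul (1 / 8)
    have e : (fun τ => (h τ ^ 2 - E₄ τ) / 8) = fun τ => 1 / 8 * (h τ ^ 2 - E₄ τ) := by
      funext τ; ring
    rw [e]; exact h1
  have hFw : IsWt p (12 * 1) (fun τ => ((h τ ^ 2 - E₄ τ) / 8) ^ 3) :=
    (hGw.pow 3).congr_weight (by norm_num)
  -- the value
  have hΔ := ModularForm.discriminant_eq_E₄_cube_sub_E₆_sq τ₀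
  have hΔ0 := ModularForm.discriminant_ne_zero τ₀
  rw [hE6] at hΔ
  have hE43 : E₄ τ₀ ^ 3 = 1728 * ModularForm.discriminant τ₀ := by rw [hΔ]; ring
  have hd1 : dmul 1 τ₀ = τ₀ := by
    apply UpperHalfPlane.ext
    rw [coe_dmul one_ne_zero]
    simp
  have hj : jFun τ₀ = (((1728 : GaloisRep.ratLocalizedAt 2) : ℚ) : ℂ) := by
    have e : ((1728 : GaloisRep.ratLocalizedAt 2) : ℚ) = 1728 := rfl
    rw [jFun, hE43, e]
    push_cast
    field_simp
  have hmem := rat_value_mem_of_intExp p 2 h2p hFw one_ne_zero (one_dvd p) hFI τ₀ 1728 hj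
    (-27 / 8) (by
      simp only [hτ, hd1]
      push_cast
      linear_combination (-1 / 512 : ℂ) * hE43)
  exact not_mem_two hmem

/-- (A3) no `h ≡ 1 mod 3` when `h` and `E₄` vanish at a common point. -/
theorem no_oneMod3 (p : ℕ) [Fact p.Prime] (hp3 : p ≠ 3) (τ₀ : ℍ) (hE4 : E₄ τ₀ = 0)
    (h : ModularForm (CongruenceSubgroup.Gamma0 p) 2) (hτ : h τ₀ = 0)
    (h0 : ModularFormClass.qCoeff h 0 = 1)
    (hk : ∀ k, 0 < k → ∃ r ∈ GaloisRep.ratLocalizedAt 3,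
      ModularFormClass.qCoeff h k = ((3 ^ 1 : ℕ) : ℂ) * ((r : ℚ) : ℂ)) : False := by
  have hp : p.Prime := Fact.out
  have : NeZero p := ⟨hp.ne_zero⟩
  have : Fact (Nat.Prime 3) := ⟨Nat.prime_three⟩
  have h3p : ¬ 3 ∣ p := fun hd =>
    hp3 ((Nat.prime_dvd_prime_iff_eq Nat.prime_three hp).mp hd).symm
  -- integrality
  have hu := intExp_modularForm_sub_one_div 3 1 (by norm_num) h h0 hk
  have hw := intExp_E6 3
  have hG : IntExp 3 (fun τ => (h τ ^ 3 - E₆ τ) / 9) := by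
    refine (((hu.add ((IntExp.const_int 3).mul (hu.mul hu))).add
      ((IntExp.const_int 3).mul (hu.pow 3))).sub ((IntExp.const_int 56).mul hw)).congr fun τ => ?_
    push_cast
    ring
  have hFI : IntExp 3 (fun τ => ((h τ ^ 3 - E₆ τ) / 9) ^ 2) := hG.pow 2
  -- weight
  have hh : IsWt p 2 h := isWt_of_modularForm (k := 2) h
  have hE6 : IsWt p 6 E₆ := isWt_E6.mono (one_dvd p)
  have hGw : IsWt p 6 (fun τ => (h τ ^ 3 - E₆ τ) / 9) := by
    have h1 := (((hh.pow 3).congr_weight (by norm_num : 3 * 2 = 6)).sub hE6).smul (1 / 9)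
    have e : (fun τ => (h τ ^ 3 - E₆ τ) / 9) = fun τ => 1 / 9 * (h τ ^ 3 - E₆ τ) := by
      funext τ; ring
    rw [e]; exact h1
  have hFw : IsWt p (12 * 1) (fun τ => ((h τ ^ 3 - E₆ τ) / 9) ^ 2) :=
    (hGw.pow 2).congr_weight (by norm_num)
  -- the value
  have hΔ := ModularForm.discriminant_eq_E₄_cube_sub_E₆_sq τ₀
  have hΔ0 := ModularForm.discriminant_ne_zero τ₀
  rw [hE4] at hΔ
  have hE62 : E₆ τ₀ ^ 2 = -1728 * ModularForm.discriminant τ₀ := by rw [hΔ]; ring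
  have hd1 : dmul 1 τ₀ = τ₀ := by
    apply UpperHalfPlane.ext
    rw [coe_dmul one_ne_zero]
    simp
  have hj : jFun τ₀ = (((0 : GaloisRep.ratLocalizedAt 3) : ℚ) : ℂ) := by
    rw [jFun, hE4]
    simp
  have hmem := rat_value_mem_of_intExp p 3 h3p hFw one_ne_zero (one_dvd p) hFI τ₀ 0 hj
    (-64 / 3) (by
      simp only [hτ, hd1]
      push_cast
      linear_combination (1 / 81 : ℂ) * hE62)
  exact not_mem_three hmem

end Fermat.Agent.S16_L43

end
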