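import Mathlib
import Fermat.Agent.S16_NEA
import Fermat.Agent.S16_SDwAn
import Fermat.Agent.S16_TwoExp

/-!
# S16, leaf L9 for `p ≡ 2 mod 3` (lead), part a: `U_p`, `V_p` on power series, `Z_(3)`, `A`, `B`

Two trace arguments (block TR: `S16_TwoExp.exists_trace`) against the integral Sturm bound at
level one.  With `γ = (h E₄ - E₆)/3`, `γ' = (h E₄ - c' E₆)/3` (`c' p ≡ -1 mod 9`), `p + 1 = 3 s`:
* `3 ∤ s`: `Tr(γ² γ'²)` has weight 24 and is `≡ d₀ A³ mod 3` (`A = ∑ σ₃(n) qⁿ`, `d₀` a unit);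
* `3 ∣ s`: with `p + 1 = 3^a u`, `3^(-a) Tr(γ^(3^a))` has weight `6·3^a` and is `≡ u (-A)^(3^a)`.
-/

set_option autoImplicit false

open UpperHalfPlane ModularForm PowerSeries
open scoped MatrixGroups ModularForm

namespace Fermat.Agent.S16_NE9a

noncomputable section

/-! ### The operators `U_p`, `V_p` on power series over any commutative ring -/

section UV

variable {R : Type*} [CommRing R]

/-- `U_p`: keep the coefficients at multiples of `p`. -/
def U (p : ℕ) (f : R⟦X⟧) : R⟦X⟧ := PowerSeries.mk fun n => coeff (p * n) f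

/-- `V_p`: `q ↦ q^p`. -/
def V (p : ℕ) (f : R⟦X⟧) : R⟦X⟧ :=
  PowerSeries.mk fun n => if p ∣ n then coeff (n / p) f else 0

@[simp] lemma coeff_U (p n : ℕ) (f : R⟦X⟧) : coeff n (U p f) = coeff (p * n) f := coeff_mk _ _

@[simp] lemma coeff_V (p n : ℕ) (f : R⟦X⟧) :
    coeff n (V p f) = if p ∣ n then coeff (n / p) f else 0 := coeff_mk _ _

lemma U_add (p : ℕ) (f g : R⟦X⟧) : U p (f + g) = U p f + U p g := by
  ext n; simp

lemma U_C_mul (p : ℕ) (r : R) (f : R⟦X⟧) : U p (C r * f) = C r * U p f := by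
  ext n; simp

lemma U_natCast_mul (p : ℕ) (m : ℕ) (f : R⟦X⟧) : U p ((m : R⟦X⟧) * f) = (m : R⟦X⟧) * U p f := by
  have h : ((m : R⟦X⟧)) = C (m : R) := (map_natCast (C (R := R)) m).symm
  rw [h, U_C_mul]

lemma U_one (p : ℕ) (hp : 0 < p) : U p (1 : R⟦X⟧) = 1 := by
  ext n
  simp only [coeff_U, coeff_one]
  have : p * n = 0 ↔ n = 0 := by
    constructor
    · intro h; rcases Nat.mul_eq_zero.mp h with h | h
      · omega
      · exact h
    · rintro rfl; simp
  simp [this]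

lemma U_V (p : ℕ) (hp : 0 < p) (f : R⟦X⟧) : U p (V p f) = f := by
  ext n
  simp [Nat.mul_div_cancel_left n hp]

lemma V_add (p : ℕ) (f g : R⟦X⟧) : V p (f + g) = V p f + V p g := by
  ext n; simp only [coeff_V, map_add]; split_ifs <;> simp

lemma V_one (p : ℕ) (hp : 0 < p) : V p (1 : R⟦X⟧) = 1 := by
  ext n
  simp only [coeff_V, coeff_one]
  by_cases hn : n = 0
  · subst hn; simp
  · rw [if_neg hn]
    split_ifs with h1 h2
    · exfalso
      obtain ⟨m, rfl⟩ := h1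
      rw [Nat.mul_div_cancel_left m hp] at h2
      subst h2; simp at hn
    · rfl
    · rfl

lemma V_zero (p : ℕ) : V p (0 : R⟦X⟧) = 0 := by
  ext n; simp

lemma V_mul (p : ℕ) (hp : 0 < p) (f g : R⟦X⟧) : V p (f * g) = V p f * V p g := by
  ext n
  rw [coeff_V]
  by_cases hn : p ∣ n
  · obtain ⟨m, rfl⟩ := hn
    rw [if_pos (dvd_mul_right p m), Nat.mul_div_cancel_left m hp, PowerSeries.coeff_mul,
      PowerSeries.coeff_mul]
    let e : ℕ × ℕ ↪ ℕ × ℕ := ⟨fun y => (p * y.1, p * y.2), fun y z hyz => by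
      simp only [Prod.mk.injEq] at hyz
      exact Prod.ext (Nat.eq_of_mul_eq_mul_left hp hyz.1) (Nat.eq_of_mul_eq_mul_left hp hyz.2)⟩
    have hsub : (Finset.HasAntidiagonal.antidiagonal m).map e ⊆ Finset.HasAntidiagonal.antidiagonal (p * m) := by
      intro x hx
      simp only [Finset.mem_map, Finset.HasAntidiagonal.mem_antidiagonal] at hx ⊢
      obtain ⟨y, hy, rfl⟩ := hx
      show p * y.1 + p * y.2 = p * m
      rw [← hy]; ring
    rw [← Finset.sum_subset hsub, Finset.sum_map]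
    · refine Finset.sum_congr rfl fun y _ => ?_
      show _ = coeff (p * y.1) (V p f) * coeff (p * y.2) (V p g)
      simp [Nat.mul_div_cancel_left _ hp]
    · intro x hx hx'
      simp only [Finset.HasAntidiagonal.mem_antidiagonal] at hx
      simp only [coeff_V]
      by_cases h1 : p ∣ x.1
      · have h2 : p ∣ x.2 := by
          have : p ∣ x.1 + x.2 := hx ▸ dvd_mul_right p m
          exact (Nat.dvd_add_right h1).mp this
        exfalso
        apply hx'
        simp only [Finset.mem_map, Finset.HasAntidiagonal.mem_antidiagonal]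
        obtain ⟨a, ha⟩ := h1
        obtain ⟨b, hb⟩ := h2
        refine ⟨(a, b), ?_, ?_⟩
        · apply Nat.eq_of_mul_eq_mul_left hp
          rw [← hx, ha, hb]; ring
        · show (p * a, p * b) = x
          rw [← ha, ← hb]
      · rw [if_neg h1, zero_mul]
  · rw [if_neg hn, PowerSeries.coeff_mul]
    symm
    apply Finset.sum_eq_zero
    intro x hx
    simp only [Finset.HasAntidiagonal.mem_antidiagonal] at hx
    rw [coeff_V, coeff_V]
    by_cases h1 : p ∣ x.1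
    · have h2 : ¬ p ∣ x.2 := fun h2 => hn (hx ▸ dvd_add h1 h2)
      rw [if_neg h2, mul_zero]
    · rw [if_neg h1, zero_mul]

/-- `V_p` as a ring homomorphism. -/
def Vhom (p : ℕ) (hp : 0 < p) : R⟦X⟧ →+* R⟦X⟧ where
  toFun := V p
  map_one' := V_one p hp
  map_mul' := V_mul p hp
  map_zero' := V_zero p
  map_add' := V_add p

lemma Vhom_apply (p : ℕ) (hp : 0 < p) (f : R⟦X⟧) : Vhom p hp f = V p f := rfl

lemma V_C (p : ℕ) (hp : 0 < p) (r : R) : V p (C r : R⟦X⟧) = C r := by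
  ext n
  simp only [coeff_V, coeff_C]
  by_cases hn : n = 0
  · subst hn; simp
  · rw [if_neg hn]
    split_ifs with h1 h2
    · exfalso
      obtain ⟨m, rfl⟩ := h1
      rw [Nat.mul_div_cancel_left m hp] at h2
      subst h2; simp at hn
    · rfl
    · rfl

lemma map_U {S : Type*} [CommRing S] (φ : R →+* S) (p : ℕ) (f : R⟦X⟧) :
    PowerSeries.map φ (U p f) = U p (PowerSeries.map φ f) := by
  ext n; simp

lemma map_V {S : Type*} [CommRing S] (φ : R →+* S) (p : ℕ) (f : R⟦X⟧) :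
    PowerSeries.map φ (V p f) = V p (PowerSeries.map φ f) := by
  ext n
  simp only [coeff_map, coeff_V]
  split_ifs <;> simp

end UV

lemma Up_eq (p : ℕ) (f : ℂ⟦X⟧) : S16_TwoExp.Up p f = U p f := rfl

lemma Vp_eq (p : ℕ) (f : ℂ⟦X⟧) : S16_TwoExp.Vp p f = V p f := rfl

/-! ### The ring `Z_(3)` and the basic series -/

/-- `Z_(3)` as a subring of `ℚ`. -/
abbrev Z3 : Subring ℚ := GaloisRep.ratLocalizedAt 3

/-- The embedding of `Z_(3)` in `ℂ`. -/
def ι : ↥Z3 →+* ℂ := (algebraMap ℚ ℂ).comp Z3.subtype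

lemma ι_apply (x : ↥Z3) : ι x = ((x : ℚ) : ℂ) := rfl

lemma ι_injective : Function.Injective ι := by
  intro x y h
  have h' : ((x : ℚ) : ℂ) = ((y : ℚ) : ℂ) := h
  exact Subtype.ext (by exact_mod_cast h')

/-- An integer divisible by `3` in `Z_(3)` is divisible by `3`. -/
lemma three_dvd_of_Z3 (n : ℤ) (r : ↥Z3) (h : (n : ↥Z3) = 3 * r) : (3 : ℤ) ∣ n := by
  have hr : (r : ℚ).den.Coprime 3 := r.2
  have h' : (n : ℚ) = 3 * (r : ℚ) := by
    have := congrArg (Subtype.val) h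
    push_cast at this
    exact this
  have h2 : (n : ℚ) * ((r : ℚ).den : ℚ) = 3 * ((r : ℚ).num : ℚ) := by
    rw [h', mul_assoc, Rat.mul_den_eq_num]
  have h3 : n * ((r : ℚ).den : ℤ) = 3 * (r : ℚ).num := by exact_mod_cast h2
  have h4 : (3 : ℤ) ∣ n * ((r : ℚ).den : ℤ) := ⟨_, h3⟩
  have hcop : IsCoprime (3 : ℤ) ((r : ℚ).den : ℤ) := by
    have : Nat.Coprime 3 (r : ℚ).den := hr.symm
    exact_mod_cast (Nat.isCoprime_iff_coprime.mpr this)
  exact hcop.dvd_of_dvd_mul_right h4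

/-- `A = ∑ σ₃(n) qⁿ` over `Z_(3)`. -/
def Aser : (↥Z3)⟦X⟧ := PowerSeries.mk fun n => ((ArithmeticFunction.sigma 3 n : ℕ) : ↥Z3)

/-- `B = ∑ σ₅(n) qⁿ` over `Z_(3)`. -/
def Bser : (↥Z3)⟦X⟧ := PowerSeries.mk fun n => ((ArithmeticFunction.sigma 5 n : ℕ) : ↥Z3)

lemma map_E4 : PowerSeries.map ι (1 + 240 * Aser) = qExpansion 1 E₄ := by
  rw [S16_SDwAn.qExpansion_E4]
  ext n
  rw [S16_SDwAn.coeff_Qc]
  have h240 : ((240 : (↥Z3)⟦X⟧)) = C (240 : ↥Z3) := (map_ofNat (C (R := ↥Z3)) 240).symm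
  rw [coeff_map, map_add, h240, coeff_C_mul, coeff_one]
  by_cases hn : n = 0
  · subst hn
    simp [Aser, ι_apply]
  · rw [if_neg hn, if_neg hn]
    have hc : ((240 : ↥Z3) : ℚ) = 240 := rfl
    simp only [Aser, coeff_mk, zero_add, map_mul, ι_apply, hc]
    push_cast
    ring

lemma map_E6 : PowerSeries.map ι (1 - 504 * Bser) = qExpansion 1 E₆ := by
  rw [S16_SDwAn.qExpansion_E6]
  ext n
  rw [S16_SDwAn.coeff_Rc]
  have h504 : ((504 : (↥Z3)⟦X⟧)) = C (504 : ↥Z3) := (map_ofNat (C (R := ↥Z3)) 504).symm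
  rw [coeff_map, map_sub, h504, coeff_C_mul, coeff_one]
  by_cases hn : n = 0
  · subst hn
    simp [Bser, ι_apply]
  · rw [if_neg hn, if_neg hn]
    have hc : ((504 : ↥Z3) : ℚ) = 504 := rfl
    simp only [Bser, coeff_mk, zero_sub, map_neg, map_mul, ι_apply, hc]
    push_cast
    ring

lemma Aser_spec : ∃ A₁ : (↥Z3)⟦X⟧, Aser = X * A₁ ∧ constantCoeff A₁ = 1 := by
  refine ⟨PowerSeries.mk fun n => ((ArithmeticFunction.sigma 3 (n + 1) : ℕ) : ↥Z3), ?_, ?_⟩
  · ext n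
    cases n with
    | zero => simp [Aser]
    | succ n => simp [Aser, coeff_succ_X_mul]
  · simp

lemma coeff_Aser_pow_mul_of_lt (m n : ℕ) (hn : n < m) (W : (↥Z3)⟦X⟧) :
    coeff n (W * Aser ^ m) = 0 := by
  obtain ⟨A₁, hA, -⟩ := Aser_spec
  rw [hA, mul_pow, ← mul_assoc, mul_comm W, mul_assoc, coeff_X_pow_mul', if_neg (by omega)]

lemma coeff_Aser_pow (m : ℕ) : coeff m (Aser ^ m) = 1 := by
  obtain ⟨A₁, hA, hA1⟩ := Aser_spec
  rw [hA, mul_pow, coeff_X_pow_mul', if_pos le_rfl, Nat.sub_self, coeff_zero_eq_constantCoeff_apply,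
    map_pow, hA1, one_pow]

end

end Fermat.Agent.S16_NE9a
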