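import Mathlib
import Fermat.Agent.S16_NE9a
import Fermat.Agent.S16_NE9c1
import Fermat.Agent.S16_NE9c2

/-!
# S16, leaf L9 for `p ≡ 2 mod 3` (lead): no weight-2 form of level `p` is `≡ 1 mod 9`

Two trace arguments (block TR: `S16_TwoExp.exists_trace`) against the integral Sturm bound at
level one.  With `γ = (h E₄ - E₆)/3`, `γ' = (h E₄ - c' E₆)/3` (`c' p ≡ -1 mod 9`), `p + 1 = 3 s`:
* `3 ∤ s`: `Tr(γ² γ'²)` has weight 24 and is `≡ d₀ A³ mod 3` (`A = ∑ σ₃(n) qⁿ`, `d₀` a unit);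
* `3 ∣ s`: with `p + 1 = 3^a u`, `3^(-a) Tr(γ^(3^a))` has weight `6·3^a` and is `≡ u (-A)^(3^a)`.
The two endgames are `S16_NE9c1.case_one` and `S16_NE9c2.case_two`.
-/

set_option autoImplicit false

open UpperHalfPlane ModularForm PowerSeries
open scoped MatrixGroups ModularForm
open Fermat.Agent.S16_NE9a

namespace Fermat.Agent.S16_NE9

noncomputable section

/-- The `Z_(3)`-integral series `g` with `h = 1 + 9 g`. -/
lemma exists_g (p : ℕ) (h : ModularForm (CongruenceSubgroup.Gamma0 p) 2)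
    (H : S16_NEA.IsOneMod p 3 2 h) :
    ∃ g : (↥Z3)⟦X⟧, qExpansion 1 h = PowerSeries.map ι (1 + 9 * g) := by
  obtain ⟨h0, hk⟩ := H
  choose! r hr hrk using hk
  refine ⟨PowerSeries.mk fun k => if hk : 0 < k then (⟨r k, hr k hk⟩ : ↥Z3) else 0, ?_⟩
  ext n
  have h9 : ((9 : (↥Z3)⟦X⟧)) = C (9 : ↥Z3) := (map_ofNat (C (R := ↥Z3)) 9).symm
  rw [coeff_map, map_add, h9, coeff_C_mul, coeff_one, coeff_mk]
  by_cases hn : n = 0
  · subst hn
    simp only [lt_self_iff_false, dite_false, mul_zero, add_zero, if_true, map_one]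
    exact h0
  · have hpos : 0 < n := Nat.pos_of_ne_zero hn
    rw [if_neg hn, dif_pos hpos, zero_add, map_mul, ι_apply, ι_apply]
    have h2 := hrk n hpos
    have hc : ((9 : ↥Z3) : ℚ) = 9 := rfl
    rw [hc]
    simp only [ModularFormClass.qCoeff] at h2
    rw [h2]
    push_cast
    norm_num

lemma third_smul (x y : ℂ⟦X⟧) (h : 3 * y = x) : (1 / 3 : ℂ) • x = y := by
  rw [← h, smul_eq_C_mul, ← mul_assoc]
  have h3 : C (1 / 3 : ℂ) * 3 = 1 := by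
    rw [show (3 : ℂ⟦X⟧) = C (3 : ℂ) from (map_ofNat (C (R := ℂ)) 3).symm, ← map_mul]
    norm_num
  rw [h3, one_mul]

/-- `(h E₄ - c E₆)/3` as a `TwoExp` of weight 6 with `Z_(3)`-integral expansions. -/
lemma twoExp_lin (p : ℕ) [Fact p.Prime] (h : ModularForm (CongruenceSubgroup.Gamma0 p) 2)
    (g : (↥Z3)⟦X⟧) (hg : qExpansion 1 h = PowerSeries.map ι (1 + 9 * g)) (c : ℕ)
    (pinv : ↥Z3) (hpinv : (p : ↥Z3) * pinv = 1) (xa xb : (↥Z3)⟦X⟧)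
    (ha : 3 * xa = (1 + 9 * g) * (1 + 240 * Aser) - (c : (↥Z3)⟦X⟧) * (1 - 504 * Bser))
    (hb : 3 * xb = C (-pinv) * U p (1 + 9 * g) * V p (1 + 240 * Aser)
      - (c : (↥Z3)⟦X⟧) * V p (1 - 504 * Bser)) :
    S16_TwoExp.TwoExp p h 6 (PowerSeries.map ι xa) (PowerSeries.map ι xb) := by
  have H := S16_TwoExp.TwoExp.smul (p := p) (h := h) (1 / 3 : ℂ)
    (S16_TwoExp.TwoExp.add (S16_TwoExp.TwoExp.mul S16_TwoExp.TwoExp.base S16_TwoExp.TwoExp.e4)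
      (S16_TwoExp.TwoExp.smul (-(c : ℂ)) S16_TwoExp.TwoExp.e6))
  have hp0 : (p : ℂ) ≠ 0 := by
    exact_mod_cast (Fact.out : p.Prime).ne_zero
  have hpinvC : ι pinv = 1 / (p : ℂ) := by
    have := congrArg ι hpinv
    rw [map_mul, map_natCast, map_one] at this
    field_simp
    rw [mul_comm]; exact this
  have e1 : PowerSeries.map ι xa = (1 / 3 : ℂ) • (qExpansion 1 h * qExpansion 1 E₄
      + (-(c : ℂ)) • qExpansion 1 E₆) := by
    symm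
    apply third_smul
    have : (3 : ℂ⟦X⟧) * PowerSeries.map ι xa = PowerSeries.map ι (3 * xa) := by
      rw [map_mul, map_ofNat]
    rw [this, ha, hg, ← map_E4, ← map_E6, smul_eq_C_mul, map_sub, map_mul, map_mul, map_natCast,
      map_neg, map_natCast]
    ring
  have e2 : PowerSeries.map ι xb = (1 / 3 : ℂ) • ((-(1 / (p : ℂ))) • S16_TwoExp.Up p (qExpansion 1 h)
      * S16_TwoExp.Vp p (qExpansion 1 E₄) + (-(c : ℂ)) • S16_TwoExp.Vp p (qExpansion 1 E₆)) := by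
    symm
    apply third_smul
    have : (3 : ℂ⟦X⟧) * PowerSeries.map ι xb = PowerSeries.map ι (3 * xb) := by
      rw [map_mul, map_ofNat]
    have hC : PowerSeries.map ι (C (-pinv)) = C (-(1 / (p : ℂ))) := by
      rw [map_C, map_neg, hpinvC]
    have hCc : C (-(c : ℂ)) = -(c : ℂ⟦X⟧) := by rw [map_neg, map_natCast]
    rw [this, hb, hg, ← map_E4, ← map_E6, Up_eq, Vp_eq, Vp_eq, smul_eq_C_mul, smul_eq_C_mul,
      map_sub, map_mul, map_mul, map_mul, map_natCast, hC, map_U, map_V, map_V, hCc]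
    ring
  rw [e1, e2]
  exact H

lemma TwoExp_pow_succ (p : ℕ) (h : ModularForm (CongruenceSubgroup.Gamma0 p) 2) {k : ℕ}
    {a b : ℂ⟦X⟧} (H : S16_TwoExp.TwoExp p h k a b) (n : ℕ) :
    S16_TwoExp.TwoExp p h ((n + 1) * k) (a ^ (n + 1)) (b ^ (n + 1)) := by
  induction n with
  | zero => simpa using H
  | succ n ih =>
    have e : (n + 1 + 1) * k = (n + 1) * k + k := by ring
    rw [e, pow_succ a, pow_succ b]
    exact S16_TwoExp.TwoExp.mul ih H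

lemma TwoExp_pow (p : ℕ) (h : ModularForm (CongruenceSubgroup.Gamma0 p) 2) {k : ℕ}
    {a b : ℂ⟦X⟧} (H : S16_TwoExp.TwoExp p h k a b) (n : ℕ) (hn : 0 < n) :
    S16_TwoExp.TwoExp p h (n * k) (a ^ n) (b ^ n) := by
  obtain ⟨m, rfl⟩ : ∃ m, n = m + 1 := Nat.exists_eq_succ_of_ne_zero hn.ne'
  exact TwoExp_pow_succ p h H m

lemma trace_series (p : ℕ) (x y : (↥Z3)⟦X⟧) :
    PowerSeries.map ι x + (p : ℂ) • S16_TwoExp.Up p (PowerSeries.map ι y)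
      = PowerSeries.map ι (x + (p : (↥Z3)⟦X⟧) * U p y) := by
  rw [Up_eq, ← map_U, smul_eq_C_mul, map_add, map_mul, map_natCast, map_natCast]

/-- `U_p`, `V_p` of the basic expressions. -/
lemma U_one_add (p : ℕ) (hp : 0 < p) (g : (↥Z3)⟦X⟧) : U p (1 + 9 * g) = 1 + 9 * U p g := by
  have h9 : ((9 : (↥Z3)⟦X⟧)) = ((9 : ℕ) : (↥Z3)⟦X⟧) := by norm_num
  rw [U_add, U_one p hp, h9, U_natCast_mul]

lemma V_one_add (p : ℕ) (hp : 0 < p) (f : (↥Z3)⟦X⟧) (n : ℕ) [n.AtLeastTwo] :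
    V p (1 + (OfNat.ofNat n) * f) = 1 + (OfNat.ofNat n) * V p f := by
  rw [← Vhom_apply p hp, ← Vhom_apply p hp, map_add, map_one, map_mul, map_ofNat]

lemma V_one_sub (p : ℕ) (hp : 0 < p) (f : (↥Z3)⟦X⟧) (n : ℕ) [n.AtLeastTwo] :
    V p (1 - (OfNat.ofNat n) * f) = 1 - (OfNat.ofNat n) * V p f := by
  rw [← Vhom_apply p hp, ← Vhom_apply p hp, map_sub, map_one, map_mul, map_ofNat]

/-- **Leaf L9 for `p ≡ 2 mod 3`.** -/
theorem ne9 (p : ℕ) [Fact p.Prime] (hp5 : 5 ≤ p) (hp3 : p % 3 = 2) :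
    ∀ h : ModularForm (CongruenceSubgroup.Gamma0 p) 2, ¬ S16_NEA.IsOneMod p 3 2 h := by
  intro h H
  have hp : 0 < p := by omega
  obtain ⟨g, hg⟩ := exists_g p h H
  -- arithmetic atoms
  have h3p : ¬ 3 ∣ p := by omega
  let pinv : ↥Z3 := ⟨((p : ℚ))⁻¹, S16_NEA.natCast_inv_mem 3 Nat.prime_three p h3p⟩
  have hpp : (p : ↥Z3) * pinv = 1 := by
    apply Subtype.ext
    have hp0 : (p : ℚ) ≠ 0 := by exact_mod_cast hp.ne'
    show ((p : ↥Z3) : ℚ) * ((p : ℚ))⁻¹ = 1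
    push_cast
    field_simp
  obtain ⟨s, hps⟩ : ∃ s, p + 1 = 3 * s := ⟨(p + 1) / 3, by omega⟩
  obtain ⟨c, t, hct⟩ : ∃ c t : ℕ, 1 + c * p = 9 * t := by
    have h9 : p % 9 = 2 ∨ p % 9 = 5 ∨ p % 9 = 8 := by omega
    rcases h9 with h9 | h9 | h9
    · exact ⟨4, (1 + 4 * p) / 9, by omega⟩
    · exact ⟨7, (1 + 7 * p) / 9, by omega⟩
    · exact ⟨1, (1 + 1 * p) / 9, by omega⟩
  -- the atoms as series
  set P : (↥Z3)⟦X⟧ := (p : (↥Z3)⟦X⟧) with hP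
  set Pi : (↥Z3)⟦X⟧ := C pinv with hPi
  set Sd : (↥Z3)⟦X⟧ := (s : (↥Z3)⟦X⟧) with hSd
  set Td : (↥Z3)⟦X⟧ := (t : (↥Z3)⟦X⟧) with hTd
  set Cc : (↥Z3)⟦X⟧ := (c : (↥Z3)⟦X⟧) with hCc
  have hPPi : P * Pi = 1 := by
    rw [hP, hPi, ← map_natCast (C (R := ↥Z3)) p, ← map_mul, hpp, map_one]
  have hPS : P + 1 = 3 * Sd := by
    rw [hP, hSd]; exact_mod_cast congrArg (Nat.cast : ℕ → (↥Z3)⟦X⟧) hps
  have h9 : 1 + Cc * P = 9 * Td := by
    rw [hP, hCc, hTd]; exact_mod_cast congrArg (Nat.cast : ℕ → (↥Z3)⟦X⟧) hct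
  have hCneg : C (-pinv) = -Pi := by rw [hPi, map_neg]
  -- γ
  set E4s : (↥Z3)⟦X⟧ := 1 + 240 * Aser with hE4s
  set VA : (↥Z3)⟦X⟧ := V p Aser with hVA
  set VB : (↥Z3)⟦X⟧ := V p Bser with hVB
  set Ug : (↥Z3)⟦X⟧ := U p g with hUg
  set VE4 : (↥Z3)⟦X⟧ := 1 + 240 * VA with hVE4
  set ga : (↥Z3)⟦X⟧ := 80 * Aser + 3 * g * E4s + 168 * Bser with hga
  set gb : (↥Z3)⟦X⟧ := -(Sd * Pi) + 80 * (-Pi) * VA + 3 * (-Pi) * Ug * VE4 + 168 * VB with hgb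
  set ga' : (↥Z3)⟦X⟧ := (3 * Td - Cc * Sd) + 80 * Aser + 3 * g * E4s + 168 * Cc * Bser with hga'
  set gb' : (↥Z3)⟦X⟧ := -(3 * Td * Pi) + 80 * (-Pi) * VA + 3 * (-Pi) * Ug * VE4 + 168 * Cc * VB
    with hgb'
  have HU : U p (1 + 9 * g) = 1 + 9 * Ug := U_one_add p hp g
  have HV4 : V p (1 + 240 * Aser) = VE4 := V_one_add p hp Aser 240
  have HV6 : V p (1 - 504 * Bser) = 1 - 504 * VB := V_one_sub p hp Bser 504
  have Hγ : S16_TwoExp.TwoExp p h 6 (PowerSeries.map ι ga) (PowerSeries.map ι gb) := by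
    apply twoExp_lin p h g hg 1 pinv hpp
    · rw [hga, hE4s]; push_cast; ring
    · rw [HU, HV4, HV6, hCneg, hgb]
      push_cast
      linear_combination Pi * hPS - hPPi
  have Hγ' : S16_TwoExp.TwoExp p h 6 (PowerSeries.map ι ga') (PowerSeries.map ι gb') := by
    apply twoExp_lin p h g hg c pinv hpp
    · rw [hga', hE4s]
      linear_combination Cc * hPS - h9
    · rw [HU, HV4, HV6, hCneg, hgb']
      linear_combination Pi * h9 - Cc * hPPi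
  -- the four congruences
  have c1 : ∃ w, ga = -Aser + 3 * w := ⟨27 * Aser + g * E4s + 56 * Bser, by rw [hga]; ring⟩
  have c2 : ∃ w, gb = -(Sd * Pi) - VA + 3 * w :=
    ⟨Pi * (Sd - 27) * VA - Pi * Ug * VE4 + 56 * VB, by
      rw [hgb]; linear_combination (-VA) * hPPi + (VA * Pi) * hPS⟩
  have c3 : ∃ w, ga' = (3 * Td - Cc * Sd) - Aser + 3 * w :=
    ⟨27 * Aser + g * E4s + 56 * Cc * Bser, by rw [hga']; ring⟩
  have c4 : ∃ w, gb' = -VA + 3 * w :=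
    ⟨-(Td * Pi) + (Sd * Pi - 27 * Pi) * VA - Pi * Ug * VE4 + 56 * Cc * VB, by
      rw [hgb']; linear_combination (-VA) * hPPi + (VA * Pi) * hPS⟩
  by_cases h3s : 3 ∣ s
  · -- case `3 ∣ s`
    obtain ⟨s', hs'⟩ := h3s
    obtain ⟨a, u, hu, hpu⟩ := Nat.exists_eq_pow_mul_and_not_dvd (n := p + 1) (by omega) 3 (by norm_num)
    obtain ⟨T, hT⟩ := S16_TwoExp.exists_trace p h
      (TwoExp_pow p h Hγ (3 ^ a) (pow_pos (by norm_num) a))
    rw [← map_pow, ← map_pow, trace_series] at hT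
    have c2' : ∃ w, gb = -VA + 3 * w := by
      obtain ⟨w, hw⟩ := c2
      refine ⟨w - (s' : (↥Z3)⟦X⟧) * Pi, ?_⟩
      have hS' : Sd = 3 * (s' : (↥Z3)⟦X⟧) := by
        rw [hSd, hs']; push_cast; ring
      rw [hw, hS']; ring
    exact S16_NE9c2.case_two p hp a u hpu hu ga gb c1 c2' (3 ^ a * 6) (by ring) T hT
  · -- case `3 ∤ s`
    obtain ⟨T, hT⟩ := S16_TwoExp.exists_trace p h
      (S16_TwoExp.TwoExp.mul (S16_TwoExp.TwoExp.mul Hγ Hγ) (S16_TwoExp.TwoExp.mul Hγ' Hγ'))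
    rw [← map_mul, ← map_mul, ← map_mul, ← map_mul, ← map_mul, ← map_mul, trace_series] at hT
    have e1 : ga * ga * (ga' * ga') = ga ^ 2 * ga' ^ 2 := by ring
    have e2 : gb * gb * (gb' * gb') = gb ^ 2 * gb' ^ 2 := by ring
    rw [e1, e2] at hT
    have hT' : qExpansion 1 T = PowerSeries.map ι (ga ^ 2 * ga' ^ 2 + P * U p (gb ^ 2 * gb' ^ 2)) :=
      hT
    let d0 : ↥Z3 := -((s : ↥Z3) * pinv)
    let d1 : ↥Z3 := 3 * (t : ↥Z3) - (c : ↥Z3) * (s : ↥Z3)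
    have hd0 : (p : ↥Z3) * d0 = -(s : ↥Z3) := by
      show (p : ↥Z3) * (-((s : ↥Z3) * pinv)) = -(s : ↥Z3)
      linear_combination (-(s : ↥Z3)) * hpp
    have hctZ : (1 : ↥Z3) + (c : ↥Z3) * (p : ↥Z3) = 9 * (t : ↥Z3) := by
      exact_mod_cast congrArg (Nat.cast : ℕ → ↥Z3) hct
    have hd : ∃ n : ↥Z3, d0 + d1 = 3 * n := by
      refine ⟨(t : ↥Z3) - 3 * (s : ↥Z3) * (t : ↥Z3) * pinv, ?_⟩
      show -((s : ↥Z3) * pinv) + (3 * (t : ↥Z3) - (c : ↥Z3) * (s : ↥Z3)) = _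
      linear_combination (-(s : ↥Z3) * pinv) * hctZ + ((s : ↥Z3) * (c : ↥Z3)) * hpp
    have hCd0 : C d0 = -(Sd * Pi) := by
      show C (-((s : ↥Z3) * pinv)) = _
      rw [map_neg, map_mul, map_natCast]
    have hCd1 : C d1 = 3 * Td - Cc * Sd := by
      show C (3 * (t : ↥Z3) - (c : ↥Z3) * (s : ↥Z3)) = _
      rw [map_sub, map_mul, map_mul, map_natCast, map_natCast, map_natCast, map_ofNat]
    exact S16_NE9c1.case_one p hp s hps h3s d0 d1 hd0 hd ga gb ga' gb' c1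
      (by rw [hCd0]; exact c2) (by rw [hCd1]; exact c3) c4 (6 + 6 + (6 + 6)) rfl T hT'

end

end Fermat.Agent.S16_NE9
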