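import Mathlib

/-!
# S16, block P: the universal property of `SL(2,ℤ)` modulo `±1`

`PSL(2,ℤ) = C₂ * C₃` (ping-pong on the upper half plane), in the form:
for every group `K` and `s r : K` with `s ^ 2 = 1`, `r ^ 3 = 1` there is a homomorphism
`θ : SL(2,ℤ) →* K` with `θ S = s` and `θ (T * S) = r`.
-/

set_option autoImplicit false

open scoped MatrixGroups Pointwise
open UpperHalfPlane ModularGroup

namespace Fermat.Agent.S16_PSL

/-- The homomorphism `C_m → K` attached to an element of order dividing `m`. -/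
noncomputable def cycHom {K : Type*} [Group K] (m : ℕ) (a : K) (ha : a ^ m = 1) :
    Multiplicative (ZMod m) →* K :=
  AddMonoidHom.toMultiplicativeLeft
    (ZMod.lift m ⟨(zmultiplesHom (Additive K)) (Additive.ofMul a), by
      simp only [zmultiplesHom_apply, natCast_zsmul]
      rw [← ofMul_pow, ha]; rfl⟩)

theorem cycHom_intCast {K : Type*} [Group K] (m : ℕ) (a : K) (ha : a ^ m = 1) (x : ℤ) :
    cycHom m a ha (Multiplicative.ofAdd (x : ZMod m)) = a ^ x := by
  change Additive.toMul ((ZMod.lift m ⟨(zmultiplesHom (Additive K)) (Additive.ofMul a), _⟩)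
    (x : ZMod m)) = a ^ x
  rw [ZMod.lift_coe]
  simp [zmultiplesHom_apply]

theorem cycHom_one {K : Type*} [Group K] (m : ℕ) (a : K) (ha : a ^ m = 1) :
    cycHom m a ha (Multiplicative.ofAdd 1) = a := by
  have := cycHom_intCast m a ha 1
  simpa using this

/-- The two cyclic factors `C₂`, `C₃`. -/
abbrev Fac (i : Fin 2) : Type := Multiplicative (ZMod (i.val + 2))

/-- The family of homomorphisms attached to `s` (order 2) and `r` (order 3). -/
noncomputable def fam {K : Type*} [Group K] (s r : K) (hs : s ^ 2 = 1) (hr : r ^ 3 = 1) :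
    ∀ i : Fin 2, Fac i →* K
  | ⟨0, _⟩ => cycHom 2 s hs
  | ⟨1, _⟩ => cycHom 3 r hr

theorem fam_zero {K : Type*} [Group K] (s r : K) (hs : s ^ 2 = 1) (hr : r ^ 3 = 1) :
    fam s r hs hr 0 (Multiplicative.ofAdd (1 : ZMod 2)) = s := cycHom_one 2 s hs

theorem fam_one {K : Type*} [Group K] (s r : K) (hs : s ^ 2 = 1) (hr : r ^ 3 = 1) :
    fam s r hs hr 1 (Multiplicative.ofAdd (1 : ZMod 3)) = r := cycHom_one 3 r hr

theorem fam_one_two {K : Type*} [Group K] (s r : K) (hs : s ^ 2 = 1) (hr : r ^ 3 = 1) :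
    fam s r hs hr 1 (Multiplicative.ofAdd (2 : ZMod 3)) = r ^ 2 := by
  show cycHom 3 r hr (Multiplicative.ofAdd (2 : ZMod 3)) = r ^ 2
  have := cycHom_intCast 3 r hr 2
  simpa using this

theorem S_sq : (S : SL(2, ℤ)) ^ 2 = -1 := by decide

theorem TS_cube : (T * S : SL(2, ℤ)) ^ 3 = -1 := by decide

/-- The permutation of `ℍ` attached to an element of `SL(2,ℤ)`. -/
noncomputable abbrev perm : SL(2, ℤ) →* Equiv.Perm ℍ := MulAction.toPermHom SL(2, ℤ) ℍ

theorem perm_apply (g : SL(2, ℤ)) (z : ℍ) : perm g z = g • z := rfl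

theorem perm_neg_one : perm (-1 : SL(2, ℤ)) = 1 := by
  ext z
  rw [perm_apply, SL_neg_smul, one_smul]
  rfl

theorem perm_S_sq : perm S ^ 2 = 1 := by
  rw [← map_pow, S_sq, perm_neg_one]

theorem perm_TS_cube : perm (T * S) ^ 3 = 1 := by
  rw [← map_pow, TS_cube, perm_neg_one]

theorem re_S_smul (z : ℍ) : (S • z).re = -z.re / Complex.normSq z := by
  rw [modular_S_smul]
  show ((-(z : ℂ))⁻¹).re = _
  rw [Complex.inv_re, Complex.normSq_neg, Complex.neg_re]
  rfl

theorem re_T_smul' (z : ℍ) : (T • z).re = z.re + 1 := by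
  rw [modular_T_smul, UpperHalfPlane.vadd_re, add_comm]

theorem normSq_pos' (z : ℍ) : 0 < Complex.normSq (z : ℂ) :=
  Complex.normSq_pos.mpr z.ne_zero

theorem re_TS_smul (z : ℍ) : ((T * S) • z).re = 1 - z.re / Complex.normSq z := by
  rw [mul_smul, re_T_smul', re_S_smul]; ring

theorem re_TS_smul_pos {z : ℍ} (hz : z.re < 0) : 1 < ((T * S) • z).re := by
  rw [re_TS_smul]
  have h := normSq_pos' z
  have : z.re / Complex.normSq z < 0 := div_neg_of_neg_of_pos hz h
  linarith

theorem re_TS_smul_pos' {z : ℍ} (hz : 1 < z.re) : 0 < ((T * S) • z).re := by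
  rw [re_TS_smul]
  have h := normSq_pos' z
  have h1 : z.re < Complex.normSq z := by
    rw [Complex.normSq_apply]
    have : (z : ℂ).re = z.re := rfl
    rw [this]
    nlinarith [mul_self_nonneg (z : ℂ).im]
  have : z.re / Complex.normSq z < 1 := (div_lt_one h).mpr h1
  linarith

/-- The ping-pong sets. -/
def pp : Fin 2 → Set ℍ
  | ⟨0, _⟩ => {z | z.re < 0}
  | ⟨1, _⟩ => {z | 0 < z.re}

/-- `C₂ * C₃ → Perm ℍ` is injective. -/
theorem lift_injective :
    Function.Injective (Monoid.CoprodI.lift (fam (perm S) (perm (T * S)) perm_S_sq perm_TS_cube)) := by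
  refine Monoid.CoprodI.lift_injective_of_ping_pong _ (Or.inr ⟨1, ?_⟩) pp ?_ ?_ ?_
  · rw [Cardinal.mk_fintype]
    simp [ZMod.card]
  · intro i
    fin_cases i
    · exact ⟨⟨(⟨-1, 1⟩ : ℂ), by norm_num⟩, by show (-1 : ℝ) < 0; norm_num⟩
    · exact ⟨⟨(⟨1, 1⟩ : ℂ), by norm_num⟩, by show (0 : ℝ) < 1; norm_num⟩
  · intro i j hij
    fin_cases i <;> fin_cases j
    · exact absurd rfl hij
    · show Disjoint {z : ℍ | z.re < 0} {z : ℍ | 0 < z.re}
      rw [Set.disjoint_left]
      intro z hz hz'
      simp only [Set.mem_ofPred_eq] at hz hz'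
      linarith
    · show Disjoint {z : ℍ | 0 < z.re} {z : ℍ | z.re < 0}
      rw [Set.disjoint_left]
      intro z hz hz'
      simp only [Set.mem_ofPred_eq] at hz hz'
      linarith
    · exact absurd rfl hij
  · intro i j hij h hh
    fin_cases i <;> fin_cases j
    · exact absurd rfl hij
    · -- `S` maps the right half plane to the left half plane
      obtain ⟨x, rfl⟩ := Multiplicative.ofAdd.surjective h
      have hx : x = 1 := by
        fin_cases x
        · exact absurd rfl hh
        · rfl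
      subst hx
      show fam (perm S) (perm (T * S)) perm_S_sq perm_TS_cube 0 (Multiplicative.ofAdd (1 : ZMod 2)) •
        {z : ℍ | 0 < z.re} ⊆ {z : ℍ | z.re < 0}
      rw [fam_zero, Set.smul_set_subset_iff]
      intro z hz
      simp only [Set.mem_ofPred_eq] at hz ⊢
      show (S • z).re < 0
      rw [re_S_smul]
      exact div_neg_of_neg_of_pos (by linarith) (normSq_pos' z)
    · obtain ⟨x, rfl⟩ := Multiplicative.ofAdd.surjective h
      have hx : x = 1 ∨ x = 2 := by
        fin_cases x
        · exact absurd rfl hh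
        · exact Or.inl rfl
        · exact Or.inr rfl
      rcases hx with rfl | rfl
      · show fam (perm S) (perm (T * S)) perm_S_sq perm_TS_cube 1
          (Multiplicative.ofAdd (1 : ZMod 3)) • {z : ℍ | z.re < 0} ⊆ {z : ℍ | 0 < z.re}
        rw [fam_one, Set.smul_set_subset_iff]
        intro z hz
        simp only [Set.mem_ofPred_eq] at hz ⊢
        show 0 < ((T * S) • z).re
        linarith [re_TS_smul_pos hz]
      · show fam (perm S) (perm (T * S)) perm_S_sq perm_TS_cube 1
          (Multiplicative.ofAdd (2 : ZMod 3)) • {z : ℍ | z.re < 0} ⊆ {z : ℍ | 0 < z.re}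
        rw [fam_one_two, Set.smul_set_subset_iff]
        intro z hz
        simp only [Set.mem_ofPred_eq] at hz ⊢
        show 0 < ((T * S) • ((T * S) • z)).re
        exact re_TS_smul_pos' (re_TS_smul_pos hz)
    · exact absurd rfl hij

theorem perm_mem_range (g : SL(2, ℤ)) :
    perm g ∈ (Monoid.CoprodI.lift (fam (perm S) (perm (T * S)) perm_S_sq perm_TS_cube)).range := by
  have hS : perm S ∈ (Monoid.CoprodI.lift
      (fam (perm S) (perm (T * S)) perm_S_sq perm_TS_cube)).range :=
    ⟨Monoid.CoprodI.of (i := (0 : Fin 2)) (Multiplicative.ofAdd (1 : ZMod 2)), by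
      rw [Monoid.CoprodI.lift_of, fam_zero]⟩
  have hTS : perm (T * S) ∈ (Monoid.CoprodI.lift
      (fam (perm S) (perm (T * S)) perm_S_sq perm_TS_cube)).range :=
    ⟨Monoid.CoprodI.of (i := (1 : Fin 2)) (Multiplicative.ofAdd (1 : ZMod 3)), by
      rw [Monoid.CoprodI.lift_of, fam_one]⟩
  have hT : perm T ∈ (Monoid.CoprodI.lift
      (fam (perm S) (perm (T * S)) perm_S_sq perm_TS_cube)).range := by
    have : perm T = perm (T * S) * (perm S)⁻¹ := by rw [map_mul]; group
    rw [this]
    exact mul_mem hTS (inv_mem hS)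
  have hg : g ∈ Subgroup.closure ({S, T} : Set SL(2, ℤ)) := by
    rw [SpecialLinearGroup.SL2Z_generators]; trivial
  induction hg using Subgroup.closure_induction with
  | mem x hx =>
    rcases hx with rfl | rfl
    · exact hS
    · exact hT
  | one => rw [map_one]; exact one_mem _
  | mul x y _ _ hx hy =>
    have h := mul_mem hx hy
    rwa [← map_mul perm x y] at h
  | inv x _ hx => rw [map_inv]; exact inv_mem hx

/-- **Universal property of `PSL(2,ℤ) = C₂ * C₃`.** -/
theorem exists_hom {K : Type*} [Group K] (s r : K) (hs : s ^ 2 = 1) (hr : r ^ 3 = 1) :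
    ∃ θ : SL(2, ℤ) →* K, θ S = s ∧ θ (T * S) = r := by
  let F := Monoid.CoprodI.lift (fam (perm S) (perm (T * S)) perm_S_sq perm_TS_cube)
  let e := MonoidHom.ofInjective lift_injective
  let π : SL(2, ℤ) →* F.range := perm.codRestrict F.range perm_mem_range
  refine ⟨(Monoid.CoprodI.lift (fam s r hs hr)).comp (e.symm.toMonoidHom.comp π), ?_, ?_⟩
  · have h1 : e.symm (π S) = Monoid.CoprodI.of (i := (0 : Fin 2))
        (Multiplicative.ofAdd (1 : ZMod 2)) := by
      rw [MulEquiv.symm_apply_eq]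
      apply Subtype.ext
      show perm S = F _
      rw [Monoid.CoprodI.lift_of, fam_zero]
    show Monoid.CoprodI.lift (fam s r hs hr) (e.symm (π S)) = s
    rw [h1, Monoid.CoprodI.lift_of, fam_zero]
  · have h1 : e.symm (π (T * S)) = Monoid.CoprodI.of (i := (1 : Fin 2))
        (Multiplicative.ofAdd (1 : ZMod 3)) := by
      rw [MulEquiv.symm_apply_eq]
      apply Subtype.ext
      show perm (T * S) = F _
      rw [Monoid.CoprodI.lift_of, fam_one]
    show Monoid.CoprodI.lift (fam s r hs hr) (e.symm (π (T * S))) = r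
    rw [h1, Monoid.CoprodI.lift_of, fam_one]

end Fermat.Agent.S16_PSL
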