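import Mathlib
import Fermat.Agent.S24_Defs
import Fermat.Agent.S24_JBasic
import Fermat.Agent.S24_JFun
import Fermat.Agent.S24_Embed
import Fermat.Agent.S24_Hermite
import Fermat.Agent.S24_IotaMem
import Fermat.Agent.S24_QExp
import Fermat.Prelude.Def_ModularCurve_ModularUnit
import Fermat.Prelude.Def_ModularCurve_X0ModL

/-!
# S28_Unit (helper1): the modular unit `u(τ) = Δ(pτ)/Δ(τ)` at function level

Block (UNIT) of the S28 plan.  Exports (namespace `Fermat.Agent.S28_Unit`):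

* `uFun p τ = Δ(pτ)/Δ(τ)`, `uFun_ne_zero`;
* (U1) `isNice_uFun`, `isNice_uFun_inv`, `uFun_mem`, `uFun_inv_mem`: `u` and `1/u` lie in the
  ring `AN p` of nice functions (Hermite normal form with the weight-12 automorphy factor:
  `u(gτ) = δ⁻¹² Δ((aτ+b)/δ)/Δ(τ)`, `exists_uFun_smul`);
* (U2) `uFun_smul_of_mem_Gamma0`, `tr_uFun`, `tr_uFun_inv`: invariance under `Γ₀(p)`;
* (U3) `fricke p τ = -1/(pτ)`: `fricke_fricke`, `jS_one_fricke`, `jS_fricke`, `uFun_fricke`,
  `uFun_inv_fricke`;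
* (U4) `lconv_uFun`, `lconv_uFun'`, `lconv_uFun_inv`: the `q`-expansions of `u`, `1/u` are the
  formal series `Δ(q^p)/Δ(q)` and the Prelude's `modularUnitSeries p = Δ(q)/Δ(q^p)`;
  `unitSer_eq_coeffMap`, `modularUnitSeries_eq_coeffMap`: both have integer coefficients
  (explicit integral models `unitSerZ p`, `unitInvSerZ p`, inverse to each other, leading
  coefficient `1` in degrees `p - 1` and `1 - p`).
-/

set_option autoImplicit false
noncomputable section
open Fermat.Agent.S24_Defs Fermat.Agent.S24_Embed ModularCurve UpperHalfPlane Filter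
open scoped MatrixGroups ModularForm Manifold Topology

namespace Fermat.Agent.S28_Unit

open Fermat.Agent.S24_Hermite (coe_smul_int det_eq_one denom_ne_zero_int alg_num alg_den
  im_ofComplex_of_pos)
open Fermat.Agent.S24_IotaMem (im_affine im_affine_pos)

/-- The automorphy factor of an integral matrix, in coordinates. -/
theorem denom_int (g : SL(2, ℤ)) (z : ℍ) :
    denom g z = (g 1 0 : ℂ) * z + (g 1 1 : ℂ) := ModularGroup.denom_apply g z

/-- `Δ(γ z) = (c z + d)^12 Δ(z)` in coordinates. -/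
theorem discriminant_smul_int (g : SL(2, ℤ)) (z : ℍ) :
    ModularForm.discriminant (g • z)
      = ((g 1 0 : ℂ) * z + (g 1 1 : ℂ)) ^ 12 * ModularForm.discriminant z := by
  have h := Fermat.Agent.S24_JBasic.discriminant_smul g z
  rw [denom_int] at h
  exact_mod_cast h

/-- Point-level Hermite normal form of `diag(d, 1) · g`: there is `γ ∈ SL₂(ℤ)` with
`γ (d · gτ) = (aτ + b)/δ`, `a δ = d`, and automorphy factor `δ / (cτ + d')`. -/
theorem exists_upper_triangular_point (d : ℕ) (hd : d ≠ 0) (g : SL(2, ℤ)) :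
    ∃ (a δ : ℕ) (b : ℤ) (γ : SL(2, ℤ)), a * δ = d ∧ 0 < a ∧ 0 < δ ∧
      ∀ τ : ℍ, γ • dmul d (g • τ) = ofComplex (((a : ℂ) * τ + b) / δ) ∧
        (γ 1 0 : ℂ) * (dmul d (g • τ) : ℂ) + (γ 1 1 : ℂ)
          = (δ : ℂ) / ((g 1 0 : ℂ) * τ + (g 1 1 : ℂ)) := by
  have hdet := det_eq_one g
  obtain ⟨p', hp'⟩ := Int.gcd_dvd_left ((d : ℤ) * g 0 0) (g 1 0)
  obtain ⟨r', hr'⟩ := Int.gcd_dvd_right ((d : ℤ) * g 0 0) (g 1 0)
  have hbez := Int.gcd_eq_gcd_ab ((d : ℤ) * g 0 0) (g 1 0)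
  have ha0 : Int.gcd ((d : ℤ) * g 0 0) (g 1 0) ≠ 0 := by
    intro h
    rw [Int.gcd_eq_zero_iff] at h
    obtain ⟨h1, h2⟩ := h
    have hA0 : g 0 0 = 0 := by
      rcases mul_eq_zero.mp h1 with h | h
      · exact absurd (by exact_mod_cast h) hd
      · exact h
    rw [hA0, h2] at hdet
    simp at hdet
  generalize Int.gcd ((d : ℤ) * g 0 0) (g 1 0) = a at hp' hr' hbez ha0
  generalize Int.gcdA ((d : ℤ) * g 0 0) (g 1 0) = x at hbez
  generalize Int.gcdB ((d : ℤ) * g 0 0) (g 1 0) = y at hbez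
  have ha' : (a : ℤ) ≠ 0 := by exact_mod_cast ha0
  have hapos : (0 : ℤ) < a := by exact_mod_cast Nat.pos_of_ne_zero ha0
  have hbez' : p' * x + r' * y = 1 := by
    apply mul_left_cancel₀ ha'
    calc (a : ℤ) * (p' * x + r' * y) = (a * p') * x + (a * r') * y := by ring
      _ = d * g 0 0 * x + g 1 0 * y := by rw [← hp', ← hr']
      _ = a * 1 := by rw [mul_one]; exact hbez.symm
  have haδ : (a : ℤ) * (p' * g 1 1 - r' * (d * g 0 1)) = d := by
    calc (a : ℤ) * (p' * g 1 1 - r' * (d * g 0 1))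
        = (a * p') * g 1 1 - (a * r') * (d * g 0 1) := by ring
      _ = d * g 0 0 * g 1 1 - g 1 0 * (d * g 0 1) := by rw [← hp', ← hr']
      _ = d * (g 0 0 * g 1 1 - g 0 1 * g 1 0) := by ring
      _ = d := by rw [hdet, mul_one]
  have hδpos : 0 < p' * g 1 1 - r' * (d * g 0 1) := by
    have hd' : (0 : ℤ) < d := by exact_mod_cast Nat.pos_of_ne_zero hd
    have h1 : 0 < (a : ℤ) * (p' * g 1 1 - r' * (d * g 0 1)) := by rw [haδ]; exact hd'
    exact (mul_pos_iff_of_pos_left hapos).mp h1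
  obtain ⟨δ, hδ⟩ := Int.eq_ofNat_of_zero_le hδpos.le
  rw [hδ] at haδ hδpos
  let γ : SL(2, ℤ) := ⟨!![x, y; -r', p'], by rw [Matrix.det_fin_two_of]; linarith⟩
  refine ⟨a, δ, x * (d * g 0 1) + y * g 1 1, γ, by exact_mod_cast haδ, Nat.pos_of_ne_zero ha0,
    by exact_mod_cast hδpos, fun τ => ?_⟩
  have hZ := denom_ne_zero_int g τ
  have hγ00 : γ 0 0 = x := rfl
  have hγ01 : γ 0 1 = y := rfl
  have hγ10 : γ 1 0 = -r' := rfl
  have hγ11 : γ 1 1 = p' := rfl
  have hbezC : (a : ℂ) = d * g 0 0 * x + g 1 0 * y := by exact_mod_cast hbez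
  have hpC : (d : ℂ) * g 0 0 = a * p' := by exact_mod_cast hp'
  have hrC : (g 1 0 : ℂ) = a * r' := by exact_mod_cast hr'
  have hδC : (δ : ℂ) = p' * g 1 1 - r' * (d * g 0 1) := by exact_mod_cast hδ.symm
  have hnum := alg_num (x : ℂ) y d (g 0 0) (g 0 1) (g 1 0) (g 1 1) τ _ a hZ rfl hbezC
  have hden := alg_den (p' : ℂ) r' d (g 0 0) (g 0 1) (g 1 0) (g 1 1) τ _ a δ hZ rfl hpC hrC hδC
  constructor
  · rw [← UpperHalfPlane.ofComplex_apply (γ • dmul d (g • τ))]
    congr 1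
    rw [coe_smul_int, coe_dmul hd, coe_smul_int, hγ00, hγ01, hγ10, hγ11]
    push_cast
    rw [hnum, hden, div_div_div_cancel_right₀ hZ]
  · rw [coe_dmul hd, coe_smul_int, hγ10, hγ11]
    push_cast
    exact hden

/-- `Δ(d · gτ) = ((cτ + d')/δ)^12 Δ((aτ + b)/δ)`. -/
theorem exists_discriminant_dmul_smul (d : ℕ) (hd : d ≠ 0) (g : SL(2, ℤ)) :
    ∃ (a δ : ℕ) (b : ℤ), a * δ = d ∧ 0 < a ∧ 0 < δ ∧
      ∀ τ : ℍ, ModularForm.discriminant (dmul d (g • τ))
        = (((g 1 0 : ℂ) * τ + (g 1 1 : ℂ)) / δ) ^ 12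
          * ModularForm.discriminant (ofComplex (((a : ℂ) * τ + b) / δ)) := by
  obtain ⟨a, δ, b, γ, haδ, ha, hδ, h⟩ := exists_upper_triangular_point d hd g
  refine ⟨a, δ, b, haδ, ha, hδ, fun τ => ?_⟩
  obtain ⟨h1, h2⟩ := h τ
  have hZ := denom_ne_zero_int g τ
  have hδ0 : (δ : ℂ) ≠ 0 := by exact_mod_cast hδ.ne'
  rw [← h1, discriminant_smul_int, h2]
  field_simp


/-! ### The modular unit `u(τ) = Δ(pτ)/Δ(τ)` -/

/-- The modular unit `u(τ) = Δ(pτ)/Δ(τ)` of level `p`. -/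
def uFun (p : ℕ) (τ : ℍ) : ℂ :=
  ModularForm.discriminant (dmul p τ) / ModularForm.discriminant τ

theorem uFun_ne_zero (p : ℕ) (τ : ℍ) : uFun p τ ≠ 0 :=
  div_ne_zero (ModularForm.discriminant_ne_zero _) (ModularForm.discriminant_ne_zero _)

theorem uFun_mul_discriminant (p : ℕ) (τ : ℍ) :
    uFun p τ * ModularForm.discriminant τ = ModularForm.discriminant (dmul p τ) :=
  div_mul_cancel₀ _ (ModularForm.discriminant_ne_zero τ)

/-- `u(gτ) = δ^(-12) Δ((aτ + b)/δ)/Δ(τ)` for every `g ∈ SL₂(ℤ)` (the automorphy factors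
cancel). -/
theorem exists_uFun_smul (p : ℕ) (hp : p ≠ 0) (g : SL(2, ℤ)) :
    ∃ (a δ : ℕ) (b : ℤ), a * δ = p ∧ 0 < a ∧ 0 < δ ∧
      ∀ τ : ℍ, uFun p (g • τ)
        = ((δ : ℂ) ^ 12)⁻¹ * ModularForm.discriminant (ofComplex (((a : ℂ) * τ + b) / δ))
          / ModularForm.discriminant τ := by
  obtain ⟨a, δ, b, haδ, ha, hδ, h⟩ := exists_discriminant_dmul_smul p hp g
  refine ⟨a, δ, b, haδ, ha, hδ, fun τ => ?_⟩
  have hZ := denom_ne_zero_int g τ
  have hδ0 : (δ : ℂ) ≠ 0 := by exact_mod_cast hδ.ne'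
  have hD := ModularForm.discriminant_ne_zero τ
  unfold uFun
  rw [h τ, discriminant_smul_int]
  field_simp

theorem mdiff_discriminant_dmul {d : ℕ} (hd : d ≠ 0) :
    MDiff (fun τ : ℍ => ModularForm.discriminant (dmul d τ)) := by
  rw [UpperHalfPlane.mdifferentiable_iff]
  have hmaps : Set.MapsTo (fun z : ℂ => (d : ℂ) * z) upperHalfPlaneSet upperHalfPlaneSet := by
    intro z hz
    have hd' : (0 : ℝ) < d := by exact_mod_cast Nat.pos_of_ne_zero hd
    have : 0 < ((d : ℂ) * z).im := by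
      simpa using mul_pos hd' hz
    exact this
  have h0 : DifferentiableOn ℂ (ModularForm.discriminant ∘ ofComplex) upperHalfPlaneSet :=
    UpperHalfPlane.mdifferentiable_iff.mp Fermat.Agent.S24_JFun.mdifferentiable_discriminant
  have h1 : DifferentiableOn ℂ
      ((ModularForm.discriminant ∘ ofComplex) ∘ fun z : ℂ => (d : ℂ) * z) upperHalfPlaneSet :=
    h0.comp (by fun_prop) hmaps
  refine h1.congr fun z hz => ?_
  have hz' : 0 < z.im := hz
  have hdz : 0 < ((d : ℂ) * z).im := hmaps hz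
  simp only [Function.comp_apply]
  congr 1
  apply UpperHalfPlane.ext
  rw [coe_dmul hd, ofComplex_apply_of_im_pos hz', ofComplex_apply_of_im_pos hdz]

theorem mdiff_uFun {p : ℕ} (hp : p ≠ 0) : MDiff (uFun p) :=
  (mdiff_discriminant_dmul hp).div Fermat.Agent.S24_JFun.mdifferentiable_discriminant
    ModularForm.discriminant_ne_zero

theorem mdiff_uFun_inv {p : ℕ} (hp : p ≠ 0) : MDiff (fun τ : ℍ => (uFun p τ)⁻¹) := by
  have h : (fun τ : ℍ => (uFun p τ)⁻¹)
      = fun τ : ℍ => ModularForm.discriminant τ / ModularForm.discriminant (dmul p τ) := by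
    funext τ
    unfold uFun
    rw [inv_div]
  rw [h]
  exact Fermat.Agent.S24_JFun.mdifferentiable_discriminant.div (mdiff_discriminant_dmul hp)
    fun τ => ModularForm.discriminant_ne_zero _


/-! ### Niceness of `u` and `1/u` -/

theorem ofComplex_affine_vadd {a δ : ℕ} (ha : 0 < a) (hδ : 0 < δ) (b : ℤ) (k : ℕ) (τ : ℍ) :
    ofComplex (((a : ℂ) * ((((δ * k : ℕ) : ℝ) +ᵥ τ : ℍ) : ℂ) + b) / δ) =
      ModularGroup.T ^ ((a * k : ℕ) : ℤ) • ofComplex (((a : ℂ) * τ + b) / δ) := by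
  apply UpperHalfPlane.ext
  have key : ∀ w : ℂ, 0 < w.im → ((ofComplex w : ℍ) : ℂ) = w := fun w hw => by
    rw [ofComplex_apply_of_im_pos hw]
  have e1 := key _ (im_affine_pos ha hδ b (((δ * k : ℕ) : ℝ) +ᵥ τ))
  have e2 := key _ (im_affine_pos ha hδ b τ)
  rw [modular_T_zpow_smul, e1]
  simp only [coe_vadd]
  rw [e2]
  have hδ0 : (δ : ℂ) ≠ 0 := by exact_mod_cast hδ.ne'
  push_cast
  field_simp
  ring

theorem discriminant_T_zpow_smul (n : ℤ) (z : ℍ) :
    ModularForm.discriminant (ModularGroup.T ^ n • z) = ModularForm.discriminant z := by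
  rw [discriminant_smul_int]
  simp [ModularGroup.coe_T_zpow]

theorem discriminant_natCast_vadd (n : ℕ) (z : ℍ) :
    ModularForm.discriminant ((n : ℝ) +ᵥ z) = ModularForm.discriminant z := by
  have h := discriminant_T_zpow_smul (n : ℤ) z
  rw [modular_T_zpow_smul] at h
  exact_mod_cast h

/-- `Δ((aτ + b)/δ)` is `aδ`-periodic. -/
theorem discriminant_affine_periodic {a δ : ℕ} (ha : 0 < a) (hδ : 0 < δ) (b : ℤ) (τ : ℍ) :
    ModularForm.discriminant (ofComplex (((a : ℂ) * ((((a * δ : ℕ) : ℝ) +ᵥ τ : ℍ) : ℂ) + b) / δ))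
      = ModularForm.discriminant (ofComplex (((a : ℂ) * τ + b) / δ)) := by
  rw [Nat.mul_comm a δ, ofComplex_affine_vadd ha hδ b a τ, discriminant_T_zpow_smul]

theorem tendsto_affine {a δ : ℕ} (ha : 0 < a) (hδ : 0 < δ) (b : ℤ) :
    Tendsto (fun τ : ℍ => ofComplex (((a : ℂ) * τ + b) / δ)) atImInfty atImInfty := by
  have hWim : ∀ τ : ℍ, (ofComplex (((a : ℂ) * τ + b) / δ)).im = (a : ℝ) / δ * τ.im := fun τ => by
    rw [im_ofComplex_of_pos (im_affine_pos ha hδ b τ), im_affine]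
  rw [atImInfty, Filter.tendsto_comap_iff]
  have e : (UpperHalfPlane.im ∘ fun τ : ℍ => ofComplex (((a : ℂ) * τ + b) / δ)) =
      fun τ : ℍ => (a : ℝ) / δ * τ.im := funext hWim
  rw [e]
  exact (Filter.tendsto_comap).const_mul_atTop (by positivity)

theorem isBoundedAtImInfty_discriminant : IsBoundedAtImInfty ModularForm.discriminant :=
  ModularForm.discriminant_isZeroAtImInfty.boundedAtFilter

theorem isBoundedAtImInfty_discriminant_affine {a δ : ℕ} (ha : 0 < a) (hδ : 0 < δ) (b : ℤ) :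
    IsBoundedAtImInfty
      (fun τ : ℍ => ModularForm.discriminant (ofComplex (((a : ℂ) * τ + b) / δ))) :=
  isBoundedAtImInfty_discriminant.comp_tendsto (tendsto_affine ha hδ b)

/-- `q/Δ` is bounded at `i∞`. -/
theorem isBoundedAtImInfty_q_div_discriminant :
    IsBoundedAtImInfty
      (fun τ : ℍ => Function.Periodic.qParam 1 τ / ModularForm.discriminant τ) := by
  obtain ⟨c, hc⟩ := ModularForm.exp_isBigO_discriminant.bound
  refine Asymptotics.IsBigO.of_bound c (hc.mono fun τ hτ => ?_)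
  have hD : 0 < ‖ModularForm.discriminant τ‖ :=
    norm_pos_iff.mpr (ModularForm.discriminant_ne_zero τ)
  simp only [Pi.one_apply, norm_one, mul_one, norm_div, Function.Periodic.norm_qParam, div_one]
  rw [div_le_iff₀ hD]
  have e : Real.exp (-2 * Real.pi * (τ : ℂ).im) = ‖Real.exp (-2 * Real.pi * τ.im)‖ := by
    rw [Real.norm_eq_abs, abs_of_pos (Real.exp_pos _)]
    rfl
  rw [e]
  exact hτ

/-- `q^a/Δ((aτ + b)/δ)` is bounded at `i∞`. -/
theorem isBoundedAtImInfty_q_pow_div_discriminant_affine {a δ : ℕ} (ha : 0 < a) (hδ : 0 < δ)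
    (b : ℤ) :
    IsBoundedAtImInfty (fun τ : ℍ => (Function.Periodic.qParam 1 τ) ^ a
      / ModularForm.discriminant (ofComplex (((a : ℂ) * τ + b) / δ))) := by
  have hWim : ∀ τ : ℍ, (ofComplex (((a : ℂ) * τ + b) / δ)).im = (a : ℝ) / δ * τ.im := fun τ => by
    rw [im_ofComplex_of_pos (im_affine_pos ha hδ b τ), im_affine]
  obtain ⟨c, hc⟩ :=
    (ModularForm.exp_isBigO_discriminant.comp_tendsto (tendsto_affine ha hδ b)).bound
  refine Asymptotics.IsBigO.of_bound c (hc.mono fun τ hτ => ?_)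
  have hD : 0 < ‖ModularForm.discriminant (ofComplex (((a : ℂ) * τ + b) / δ))‖ :=
    norm_pos_iff.mpr (ModularForm.discriminant_ne_zero _)
  simp only [Pi.one_apply, norm_one, mul_one, norm_div, norm_pow, Function.Periodic.norm_qParam,
    div_one]
  rw [div_le_iff₀ hD]
  simp only [Function.comp_apply] at hτ
  rw [hWim τ, Real.norm_eq_abs, abs_of_pos (Real.exp_pos _)] at hτ
  refine le_trans ?_ hτ
  rw [← Real.exp_nat_mul]
  refine Real.exp_le_exp.mpr ?_
  have hτ0 : 0 < (τ : ℂ).im := τ.im_pos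
  have hδ1 : (1 : ℝ) ≤ δ := by exact_mod_cast hδ
  have ha0 : (0 : ℝ) < a := by exact_mod_cast ha
  have hle : (a : ℝ) / δ ≤ a := div_le_self ha0.le hδ1
  have hpi := Real.pi_pos
  have h2 : (a : ℝ) / δ * (τ : ℂ).im ≤ a * (τ : ℂ).im := mul_le_mul_of_nonneg_right hle hτ0.le
  have h3 : (a : ℝ) / δ * τ.im = (a : ℝ) / δ * (τ : ℂ).im := rfl
  rw [h3]
  nlinarith

/-- (U1) `u = Δ(p·)/Δ` is a nice function of level `p`. -/
theorem isNice_uFun {p : ℕ} (hp : p ≠ 0) : IsNice p (uFun p) := by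
  refine ⟨mdiff_uFun hp, fun g => ?_⟩
  obtain ⟨a, δ, b, haδ, ha, hδ, h⟩ := exists_uFun_smul p hp g
  refine ⟨fun τ => ?_, 1, ?_⟩
  · rw [h, h]
    subst haδ
    rw [discriminant_affine_periodic ha hδ b τ, discriminant_natCast_vadd]
  · have hb := ((Filter.const_boundedAtFilter atImInfty (((δ : ℂ) ^ 12)⁻¹)).mul
      (isBoundedAtImInfty_discriminant_affine ha hδ b)).mul
        isBoundedAtImInfty_q_div_discriminant
    refine hb.congr' (Filter.Eventually.of_forall fun τ => ?_) (Filter.EventuallyEq.refl _ _)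
    simp only [Pi.mul_apply, pow_one, Function.const_apply]
    rw [h]
    ring

/-- (U1) `1/u = Δ/Δ(p·)` is a nice function of level `p`. -/
theorem isNice_uFun_inv {p : ℕ} (hp : p ≠ 0) : IsNice p (fun τ => (uFun p τ)⁻¹) := by
  refine ⟨mdiff_uFun_inv hp, fun g => ?_⟩
  obtain ⟨a, δ, b, haδ, ha, hδ, h⟩ := exists_uFun_smul p hp g
  refine ⟨fun τ => ?_, a, ?_⟩
  · show (uFun p (g • ((p : ℝ) +ᵥ τ)))⁻¹ = (uFun p (g • τ))⁻¹
    rw [h, h]
    subst haδ
    rw [discriminant_affine_periodic ha hδ b τ, discriminant_natCast_vadd]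
  · have hb := ((Filter.const_boundedAtFilter atImInfty ((δ : ℂ) ^ 12)).mul
      isBoundedAtImInfty_discriminant).mul
        (isBoundedAtImInfty_q_pow_div_discriminant_affine ha hδ b)
    refine hb.congr' (Filter.Eventually.of_forall fun τ => ?_) (Filter.EventuallyEq.refl _ _)
    simp only [Pi.mul_apply, Function.const_apply]
    rw [h]
    have hδ0 : (δ : ℂ) ≠ 0 := by exact_mod_cast hδ.ne'
    have hD := ModularForm.discriminant_ne_zero τ
    have hW := ModularForm.discriminant_ne_zero (ofComplex (((a : ℂ) * τ + b) / δ))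
    field_simp

theorem uFun_mem {p : ℕ} (hp : p ≠ 0) : uFun p ∈ AN p := isNice_uFun hp

theorem uFun_inv_mem {p : ℕ} (hp : p ≠ 0) : (fun τ => (uFun p τ)⁻¹) ∈ AN p := isNice_uFun_inv hp


/-! ### `Γ₀(p)`-invariance -/

/-- (U2) `u` is `Γ₀(p)`-invariant. -/
theorem uFun_smul_of_mem_Gamma0 (p : ℕ) (g : SL(2, ℤ))
    (hg : g ∈ CongruenceSubgroup.Gamma0 p) (τ : ℍ) : uFun p (g • τ) = uFun p τ := by
  rcases eq_or_ne p 0 with rfl | hp0
  · have h0 : ∀ z : ℍ, dmul 0 z = z := fun z => by simp [dmul]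
    have hD := ModularForm.discriminant_ne_zero
    unfold uFun
    rw [h0, h0, div_self (hD _), div_self (hD _)]
  · have hC : (p : ℤ) ∣ g 1 0 := by
      rw [CongruenceSubgroup.Gamma0_mem] at hg
      exact (CharP.intCast_eq_zero_iff (ZMod p) p (g 1 0)).mp hg
    obtain ⟨c', hc'⟩ := hC
    have hdet := det_eq_one g
    let g' : SL(2, ℤ) := ⟨!![g 0 0, p * g 0 1; c', g 1 1], by
      rw [Matrix.det_fin_two_of]
      rw [hc'] at hdet
      linarith⟩
    have hg00 : g' 0 0 = g 0 0 := rfl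
    have hg01 : g' 0 1 = p * g 0 1 := rfl
    have hg10 : g' 1 0 = c' := rfl
    have hg11 : g' 1 1 = g 1 1 := rfl
    have hZ := denom_ne_zero_int g τ
    have hcC : (g 1 0 : ℂ) = p * c' := by exact_mod_cast hc'
    have hZ' : (c' : ℂ) * (p * τ) + g 1 1 = g 1 0 * τ + g 1 1 := by rw [hcC]; ring
    have h1 : dmul p (g • τ) = g' • dmul p τ := by
      apply UpperHalfPlane.ext
      rw [coe_smul_int, coe_dmul hp0, coe_smul_int, coe_dmul hp0, hg00, hg01, hg10, hg11, hZ']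
      push_cast
      field_simp
    have hD := ModularForm.discriminant_ne_zero τ
    unfold uFun
    rw [h1, discriminant_smul_int, discriminant_smul_int, hg10, hg11, coe_dmul hp0, hZ']
    field_simp

/-- (U2), in the `tr` form used by `S23_Interp.exists_monic_relation` / `exists_interp_vars`. -/
theorem tr_uFun {p : ℕ} (hp : p ≠ 0) (g : SL(2, ℤ)) (hg : g ∈ CongruenceSubgroup.Gamma0 p) :
    tr p g ⟨uFun p, uFun_mem hp⟩ = ⟨uFun p, uFun_mem hp⟩ := by
  refine Subtype.ext (funext fun τ => ?_)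
  rw [tr_apply]
  exact uFun_smul_of_mem_Gamma0 p g⁻¹ (inv_mem hg) τ

theorem tr_uFun_inv {p : ℕ} (hp : p ≠ 0) (g : SL(2, ℤ)) (hg : g ∈ CongruenceSubgroup.Gamma0 p) :
    tr p g ⟨fun τ => (uFun p τ)⁻¹, uFun_inv_mem hp⟩ = ⟨fun τ => (uFun p τ)⁻¹, uFun_inv_mem hp⟩ := by
  refine Subtype.ext (funext fun τ => ?_)
  rw [tr_apply]
  show (uFun p (g⁻¹ • τ))⁻¹ = (uFun p τ)⁻¹
  rw [uFun_smul_of_mem_Gamma0 p g⁻¹ (inv_mem hg) τ]

/-! ### The Fricke involution `τ ↦ -1/(pτ)` -/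

/-- The Fricke involution `τ ↦ -1/(pτ)` of the upper half plane. -/
def fricke (p : ℕ) (τ : ℍ) : ℍ := ModularGroup.S • dmul p τ

theorem coe_S_smul (z : ℍ) : ((ModularGroup.S • z : ℍ) : ℂ) = (-(z : ℂ))⁻¹ := by
  rw [modular_S_smul]

theorem coe_fricke {p : ℕ} (hp : p ≠ 0) (τ : ℍ) :
    ((fricke p τ : ℍ) : ℂ) = (-((p : ℂ) * τ))⁻¹ := by
  rw [fricke, coe_S_smul, coe_dmul hp]

theorem dmul_fricke {p : ℕ} (hp : p ≠ 0) (τ : ℍ) : dmul p (fricke p τ) = ModularGroup.S • τ := by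
  apply UpperHalfPlane.ext
  rw [coe_dmul hp, coe_fricke hp, coe_S_smul]
  have hp' : (p : ℂ) ≠ 0 := by exact_mod_cast hp
  have hτ : (τ : ℂ) ≠ 0 := ne_zero τ
  field_simp

/-- (U3) the Fricke map is an involution. -/
theorem fricke_fricke {p : ℕ} (hp : p ≠ 0) (τ : ℍ) : fricke p (fricke p τ) = τ := by
  apply UpperHalfPlane.ext
  have h : fricke p (fricke p τ) = ModularGroup.S • (ModularGroup.S • τ) := by
    conv_lhs => rw [fricke, dmul_fricke hp]
  rw [h, coe_S_smul, coe_S_smul]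
  have hτ : (τ : ℂ) ≠ 0 := ne_zero τ
  field_simp

theorem discriminant_S_smul (z : ℍ) :
    ModularForm.discriminant (ModularGroup.S • z) = (z : ℂ) ^ 12 * ModularForm.discriminant z := by
  rw [discriminant_smul_int]
  simp [ModularGroup.S]

theorem jS_of_ne_zero {d : ℕ} (hd : d ≠ 0) (τ : ℍ) : jS d τ = jFun (dmul d τ) := by
  simp [jS, hd]

theorem jS_one_eq (τ : ℍ) : jS 1 τ = jFun τ := by
  have h : dmul 1 τ = τ := UpperHalfPlane.ext (by rw [coe_dmul one_ne_zero]; simp)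
  rw [jS_of_ne_zero one_ne_zero, h]

/-- (U3) `j(-1/(pτ)) = j(pτ)`. -/
theorem jS_one_fricke {p : ℕ} (hp : p ≠ 0) (τ : ℍ) : jS 1 (fricke p τ) = jS p τ := by
  rw [jS_one_eq, fricke, Fermat.Agent.S24_JFun.jFun_smul, jS_of_ne_zero hp]

/-- (U3) `j(p · (-1/(pτ))) = j(τ)`. -/
theorem jS_fricke {p : ℕ} (hp : p ≠ 0) (τ : ℍ) : jS p (fricke p τ) = jS 1 τ := by
  rw [jS_of_ne_zero hp, dmul_fricke hp, Fermat.Agent.S24_JFun.jFun_smul, jS_one_eq]

/-- (U3) `u(-1/(pτ)) = p⁻¹² / u(τ)`. -/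
theorem uFun_fricke {p : ℕ} (hp : p ≠ 0) (τ : ℍ) :
    uFun p (fricke p τ) = ((p : ℂ) ^ 12)⁻¹ * (uFun p τ)⁻¹ := by
  have hp' : (p : ℂ) ≠ 0 := by exact_mod_cast hp
  have hτ : (τ : ℂ) ≠ 0 := ne_zero τ
  have hD := ModularForm.discriminant_ne_zero τ
  have hDp := ModularForm.discriminant_ne_zero (dmul p τ)
  have h1 : ModularForm.discriminant (fricke p τ)
      = ((p : ℂ) * τ) ^ 12 * ModularForm.discriminant (dmul p τ) := by
    rw [fricke, discriminant_S_smul, coe_dmul hp]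
  unfold uFun
  rw [dmul_fricke hp, discriminant_S_smul, h1]
  field_simp

theorem uFun_inv_fricke {p : ℕ} (hp : p ≠ 0) (τ : ℍ) :
    (uFun p (fricke p τ))⁻¹ = (p : ℂ) ^ 12 * uFun p τ := by
  rw [uFun_fricke hp, mul_inv, inv_inv, inv_inv]


/-! ### The `q`-expansions of `u` and `1/u` -/

open Fermat.Agent.S24_QExp

/-- `η`-unit `∏ (1 - qⁿ)^24` with complex coefficients. -/
def etaU : PowerSeries ℂ := dedekindEtaUnit.map (Int.castRingHom ℂ)

/-- Its inverse. -/
def etaV : PowerSeries ℂ := dedekindEtaUnitInv.map (Int.castRingHom ℂ)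

theorem etaU_mul_etaV : etaU * etaV = 1 := by
  unfold etaU etaV
  rw [← map_mul, dedekindEtaUnit_mul_inv, map_one]

theorem hasDiscExp_etaU : HasDiscExp etaU (fun q => eulerFun q ^ 24) := by
  have h := hasDiscExp_eulerFun.pow 24
  have e : (etaProd.map (Int.castRingHom ℂ)) ^ 24 = etaU := by
    unfold etaU dedekindEtaUnit
    rw [map_pow]
  rwa [e] at h

theorem hasDiscExp_etaV : HasDiscExp etaV (fun q => (eulerFun q ^ 24)⁻¹) := by
  obtain ⟨hinv, hmul⟩ := hasDiscExp_etaU.inv fun q hq => pow_ne_zero 24 (eulerFun_ne_zero hq)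
  have hid : taylorPS (fun q => (eulerFun q ^ 24)⁻¹) = etaV := by
    calc taylorPS (fun q => (eulerFun q ^ 24)⁻¹)
        = taylorPS (fun q => (eulerFun q ^ 24)⁻¹) * (etaU * etaV) := by
          rw [etaU_mul_etaV, mul_one]
      _ = (etaU * taylorPS (fun q => (eulerFun q ^ 24)⁻¹)) * etaV := by ring
      _ = etaV := by rw [hmul, one_mul]
  rwa [hid] at hinv

theorem expandPS_etaU_mul_etaV {d : ℕ} (hd : d ≠ 0) : expandPS d etaU * expandPS d etaV = 1 := by
  refine ((hasDiscExp_etaU.expand hd).mul (hasDiscExp_etaV.expand hd)).unique hasDiscExp_one ?_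
  intro q hq _
  have hqd : ‖q ^ d‖ < 1 := by
    rw [norm_pow]; exact pow_lt_one₀ (norm_nonneg _) hq hd
  exact mul_inv_cancel₀ (pow_ne_zero 24 (eulerFun_ne_zero hqd))

theorem qExpand_ofPowerSeries (d : ℕ) [NeZero d] (P : PowerSeries ℂ) :
    qExpand ℂ d (HahnSeries.ofPowerSeries ℤ ℂ P) = HahnSeries.ofPowerSeries ℤ ℂ (expandPS d P) := by
  have hd : d ≠ 0 := NeZero.ne d
  have hdpos : (0 : ℤ) < d := by exact_mod_cast Nat.pos_of_ne_zero hd
  ext k
  by_cases hk : (d : ℤ) ∣ k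
  · obtain ⟨j, rfl⟩ := hk
    rw [qExpand_coeff_mul]
    by_cases hj : j < 0
    · rw [ofPowerSeries_coeff_of_neg _ hj, ofPowerSeries_coeff_of_neg _ (by nlinarith)]
    · obtain ⟨n, hn⟩ := Int.eq_ofNat_of_zero_le (not_lt.mp hj)
      rw [hn, HahnSeries.ofPowerSeries_apply_coeff]
      have e : (d : ℤ) * (n : ℤ) = ((d * n : ℕ) : ℤ) := by push_cast; ring
      rw [e, HahnSeries.ofPowerSeries_apply_coeff]
      simp [expandPS, hd]
  · rw [qExpand_coeff_of_not_dvd d _ hk]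
    by_cases hneg : k < 0
    · rw [ofPowerSeries_coeff_of_neg _ hneg]
    · obtain ⟨n, hn⟩ := Int.eq_ofNat_of_zero_le (not_lt.mp hneg)
      rw [hn, HahnSeries.ofPowerSeries_apply_coeff]
      have hnd : ¬ d ∣ n := by
        rintro ⟨c, hc⟩
        apply hk
        refine ⟨(c : ℤ), ?_⟩
        rw [hn]
        exact_mod_cast hc
      simp [expandPS, hnd]

theorem coeffEmb_deltaSeries :
    coeffEmb ℂ deltaSeries = HahnSeries.single (1 : ℤ) (1 : ℂ) * HahnSeries.ofPowerSeries ℤ ℂ etaU := by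
  have e : (dedekindEtaUnitQ).map (algebraMap ℚ ℂ) = etaU := by
    unfold dedekindEtaUnitQ etaU
    rw [← RingHom.comp_apply (PowerSeries.map (algebraMap ℚ ℂ))
      (PowerSeries.map (Int.castRingHom ℚ)), ← PowerSeries.map_comp,
      RingHom.ext_int ((algebraMap ℚ ℂ).comp (Int.castRingHom ℚ)) (Int.castRingHom ℂ)]
  unfold deltaSeries coeffEmb
  rw [map_mul, coeffMap_single, map_one, coeffMap_ofPowerSeries, e]

theorem coeffEmb_deltaSeriesN (p : ℕ) [NeZero p] :
    coeffEmb ℂ (deltaSeriesN p)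
      = HahnSeries.single (p : ℤ) (1 : ℂ) * HahnSeries.ofPowerSeries ℤ ℂ (expandPS p etaU) := by
  unfold deltaSeriesN coeffEmb
  rw [coeffMap_qExpand]
  have h := coeffEmb_deltaSeries
  unfold coeffEmb at h
  rw [h, map_mul, qExpand_single, qExpand_ofPowerSeries, mul_one]

theorem coeffEmb_deltaSeries_ne_zero : coeffEmb ℂ deltaSeries ≠ 0 :=
  (map_ne_zero (coeffEmb ℂ)).mpr deltaSeries_ne_zero

theorem coeffEmb_deltaSeriesN_ne_zero (p : ℕ) [NeZero p] : coeffEmb ℂ (deltaSeriesN p) ≠ 0 :=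
  (map_ne_zero (coeffEmb ℂ)).mpr (deltaSeriesN_ne_zero p)

theorem ofPowerSeries_etaU_mul_etaV :
    HahnSeries.ofPowerSeries ℤ ℂ etaU * HahnSeries.ofPowerSeries ℤ ℂ etaV = 1 := by
  rw [← map_mul, etaU_mul_etaV, map_one]

theorem ofPowerSeries_expand_etaU_mul_etaV {d : ℕ} (hd : d ≠ 0) :
    HahnSeries.ofPowerSeries ℤ ℂ (expandPS d etaU) * HahnSeries.ofPowerSeries ℤ ℂ (expandPS d etaV)
      = 1 := by
  rw [← map_mul, expandPS_etaU_mul_etaV hd, map_one]

theorem comm_aux {R : Type*} [CommRing R] (s₁ s₂ a b c : R) :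
    s₁ * (a * b) * (s₂ * c) = (s₁ * s₂) * a * (c * b) := by ring

/-- Formal shape of `Δ(q^p)/Δ(q)` over `ℂ`. -/
theorem coeffEmb_unitSer (p : ℕ) [NeZero p] :
    coeffEmb ℂ (deltaSeriesN p * deltaSeries⁻¹)
      = HahnSeries.single ((p : ℤ) - 1) (1 : ℂ)
        * HahnSeries.ofPowerSeries ℤ ℂ (expandPS p etaU * etaV) := by
  have hp : p ≠ 0 := NeZero.ne p
  have hmul : coeffEmb ℂ (deltaSeriesN p * deltaSeries⁻¹) * coeffEmb ℂ deltaSeries
      = coeffEmb ℂ (deltaSeriesN p) := by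
    rw [← map_mul, mul_assoc, inv_mul_cancel₀ deltaSeries_ne_zero, mul_one]
  have h1 : HahnSeries.single ((p : ℤ) - 1) (1 : ℂ) * HahnSeries.single (1 : ℤ) (1 : ℂ)
      = HahnSeries.single (p : ℤ) (1 : ℂ) := by
    rw [single_neg_mul_single, sub_add_cancel]
  have hmul' : HahnSeries.single ((p : ℤ) - 1) (1 : ℂ)
        * HahnSeries.ofPowerSeries ℤ ℂ (expandPS p etaU * etaV) * coeffEmb ℂ deltaSeries
      = coeffEmb ℂ (deltaSeriesN p) := by
    rw [coeffEmb_deltaSeries, coeffEmb_deltaSeriesN, map_mul, comm_aux, h1,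
      ofPowerSeries_etaU_mul_etaV, mul_one]
  exact mul_right_cancel₀ coeffEmb_deltaSeries_ne_zero (hmul.trans hmul'.symm)

/-- Formal shape of `Δ(q)/Δ(q^p)` (the Prelude's `modularUnitSeries p`) over `ℂ`. -/
theorem coeffEmb_modularUnitSeries (p : ℕ) [NeZero p] :
    coeffEmb ℂ (modularUnitSeries p)
      = HahnSeries.single (1 - (p : ℤ)) (1 : ℂ)
        * HahnSeries.ofPowerSeries ℤ ℂ (etaU * expandPS p etaV) := by
  have hp : p ≠ 0 := NeZero.ne p
  have hmul : coeffEmb ℂ (modularUnitSeries p) * coeffEmb ℂ (deltaSeriesN p)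
      = coeffEmb ℂ deltaSeries := by
    rw [← map_mul, modularUnitSeries_mul_deltaSeriesN]
  have h1 : HahnSeries.single (1 - (p : ℤ)) (1 : ℂ) * HahnSeries.single (p : ℤ) (1 : ℂ)
      = HahnSeries.single (1 : ℤ) (1 : ℂ) := by
    rw [single_neg_mul_single, sub_add_cancel]
  have hmul' : HahnSeries.single (1 - (p : ℤ)) (1 : ℂ)
        * HahnSeries.ofPowerSeries ℤ ℂ (etaU * expandPS p etaV) * coeffEmb ℂ (deltaSeriesN p)
      = coeffEmb ℂ deltaSeries := by
    rw [coeffEmb_deltaSeries, coeffEmb_deltaSeriesN, map_mul, comm_aux, h1,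
      ofPowerSeries_expand_etaU_mul_etaV hp, mul_one]
  exact mul_right_cancel₀ (coeffEmb_deltaSeriesN_ne_zero p) (hmul.trans hmul'.symm)

theorem qParam_dmul {d : ℕ} (hd : d ≠ 0) (τ : ℍ) :
    Function.Periodic.qParam 1 ((dmul d τ : ℍ) : ℂ) = (Function.Periodic.qParam 1 (τ : ℂ)) ^ d := by
  rw [coe_dmul hd]
  simp only [Function.Periodic.qParam, ← Complex.exp_nat_mul]
  congr 1
  push_cast; ring

/-- `Δ(τ) = q ∏ (1 - qⁿ)^24` in terms of `eulerFun`. -/
theorem discriminant_eq_q_mul_eulerFun (τ : ℍ) :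
    ModularForm.discriminant τ
      = Function.Periodic.qParam 1 (τ : ℂ) * eulerFun (Function.Periodic.qParam 1 (τ : ℂ)) ^ 24 := by
  have hq1 : ‖Function.Periodic.qParam 1 (τ : ℂ)‖ < 1 :=
    Function.Periodic.norm_qParam_lt_one one_pos τ.im_pos
  have hprod : ∏' n : ℕ, (1 - ModularForm.eta_q n (τ : ℂ)) ^ 24
      = eulerFun (Function.Periodic.qParam 1 (τ : ℂ)) ^ 24 := by
    rw [eulerFun, ← (ModularForm.multipliable_one_sub_pow hq1).tprod_pow 24]
  rw [ModularForm.discriminant_eq_q_prod, hprod]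

/-- (U4) the `q`-expansion of `u = Δ(p·)/Δ` is the formal series `Δ(q^p)/Δ(q)`. -/
theorem lconv_uFun (p : ℕ) [NeZero p] :
    LConv (coeffEmb ℂ (deltaSeriesN p * deltaSeries⁻¹)) (uFun p) := by
  have hp : p ≠ 0 := NeZero.ne p
  refine ⟨0, PowerSeries.X ^ (p - 1) * (expandPS p etaU * etaV),
    fun q => q ^ (p - 1) * (eulerFun (q ^ p) ^ 24 * (eulerFun q ^ 24)⁻¹),
    (hasDiscExp_X_pow (p - 1)).mul ((hasDiscExp_etaU.expand hp).mul hasDiscExp_etaV), ?_,
    fun τ => ?_⟩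
  · have hc : ((p - 1 : ℕ) : ℤ) = (p : ℤ) - 1 := by
      have := Nat.pos_of_ne_zero hp
      omega
    have hX : HahnSeries.ofPowerSeries ℤ ℂ (PowerSeries.X ^ (p - 1) * (expandPS p etaU * etaV))
        = HahnSeries.single ((p : ℤ) - 1) (1 : ℂ)
          * HahnSeries.ofPowerSeries ℤ ℂ (expandPS p etaU * etaV) := by
      rw [map_mul, HahnSeries.ofPowerSeries_X_pow, hc]
    have h0 : HahnSeries.single (-((0 : ℕ) : ℤ)) (1 : ℂ) = 1 := by
      simp
    rw [coeffEmb_unitSer, hX, h0, one_mul]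
  · have hq0 : Function.Periodic.qParam 1 (τ : ℂ) ≠ 0 := Function.Periodic.qParam_ne_zero _
    have hq1 : ‖Function.Periodic.qParam 1 (τ : ℂ)‖ < 1 :=
      Function.Periodic.norm_qParam_lt_one one_pos τ.im_pos
    have hE := eulerFun_ne_zero hq1
    have hpp : (Function.Periodic.qParam 1 (τ : ℂ)) ^ p
        = (Function.Periodic.qParam 1 (τ : ℂ)) ^ (p - 1) * Function.Periodic.qParam 1 (τ : ℂ) := by
      rw [← pow_succ, Nat.sub_add_cancel (Nat.pos_of_ne_zero hp)]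
    simp only [pow_zero, one_mul]
    unfold uFun
    rw [discriminant_eq_q_mul_eulerFun τ, discriminant_eq_q_mul_eulerFun (dmul p τ),
      qParam_dmul hp, hpp]
    field_simp

/-- (U4) the `q`-expansion of `1/u = Δ/Δ(p·)` is the Prelude's `modularUnitSeries p`. -/
theorem lconv_uFun_inv (p : ℕ) [NeZero p] :
    LConv (coeffEmb ℂ (modularUnitSeries p)) (fun τ => (uFun p τ)⁻¹) := by
  have hp : p ≠ 0 := NeZero.ne p
  refine ⟨p - 1, etaU * expandPS p etaV,
    fun q => eulerFun q ^ 24 * (eulerFun (q ^ p) ^ 24)⁻¹,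
    hasDiscExp_etaU.mul (hasDiscExp_etaV.expand hp), ?_, fun τ => ?_⟩
  · have hc : -((p - 1 : ℕ) : ℤ) = 1 - (p : ℤ) := by
      have := Nat.pos_of_ne_zero hp
      omega
    rw [coeffEmb_modularUnitSeries, hc]
  · have hq0 : Function.Periodic.qParam 1 (τ : ℂ) ≠ 0 := Function.Periodic.qParam_ne_zero _
    have hq1 : ‖Function.Periodic.qParam 1 (τ : ℂ)‖ < 1 :=
      Function.Periodic.norm_qParam_lt_one one_pos τ.im_pos
    have hqp1 : ‖Function.Periodic.qParam 1 (τ : ℂ) ^ p‖ < 1 := by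
      rw [norm_pow]; exact pow_lt_one₀ (norm_nonneg _) hq1 hp
    have hE := eulerFun_ne_zero hq1
    have hEp := eulerFun_ne_zero hqp1
    have hpp : (Function.Periodic.qParam 1 (τ : ℂ)) ^ p
        = (Function.Periodic.qParam 1 (τ : ℂ)) ^ (p - 1) * Function.Periodic.qParam 1 (τ : ℂ) := by
      rw [← pow_succ, Nat.sub_add_cancel (Nat.pos_of_ne_zero hp)]
    show eulerFun _ ^ 24 * (eulerFun (_ ^ p) ^ 24)⁻¹ = _ ^ (p - 1) * (uFun p τ)⁻¹
    unfold uFun
    rw [discriminant_eq_q_mul_eulerFun τ, discriminant_eq_q_mul_eulerFun (dmul p τ),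
      qParam_dmul hp]
    have hpm : Function.Periodic.qParam 1 (τ : ℂ) ^ (p - 1) ≠ 0 := pow_ne_zero _ hq0
    generalize eulerFun (Function.Periodic.qParam 1 (τ : ℂ) ^ p) = Ep at hEp ⊢
    rw [hpp]
    field_simp


/-! ### Integral models of the two `q`-series -/

/-- `f(X^d)` for an integral power series. -/
def expandZ (d : ℕ) (f : PowerSeries ℤ) : PowerSeries ℤ :=
  PowerSeries.mk fun k => if d ∣ k then PowerSeries.coeff (k / d) f else 0

theorem map_expandZ (d : ℕ) (f : PowerSeries ℤ) :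
    (expandZ d f).map (Int.castRingHom ℂ) = expandPS d (f.map (Int.castRingHom ℂ)) := by
  ext k
  simp only [expandZ, expandPS, PowerSeries.coeff_map, PowerSeries.coeff_mk]
  split_ifs <;> simp

theorem constantCoeff_expandZ (d : ℕ) (f : PowerSeries ℤ) :
    PowerSeries.constantCoeff (expandZ d f) = PowerSeries.constantCoeff f := by
  rw [← PowerSeries.coeff_zero_eq_constantCoeff]
  simp [expandZ]

/-- Integral power series with `Δ(q^p)/Δ(q) = q^(p-1) · unitNumZ p`. -/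
def unitNumZ (p : ℕ) : PowerSeries ℤ := expandZ p dedekindEtaUnit * dedekindEtaUnitInv

/-- Integral power series with `Δ(q)/Δ(q^p) = q^(1-p) · unitInvNumZ p`. -/
def unitInvNumZ (p : ℕ) : PowerSeries ℤ := dedekindEtaUnit * expandZ p dedekindEtaUnitInv

theorem constantCoeff_unitNumZ (p : ℕ) : PowerSeries.constantCoeff (unitNumZ p) = 1 := by
  rw [unitNumZ, map_mul, constantCoeff_expandZ, constantCoeff_dedekindEtaUnit,
    constantCoeff_dedekindEtaUnitInv, mul_one]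

theorem constantCoeff_unitInvNumZ (p : ℕ) : PowerSeries.constantCoeff (unitInvNumZ p) = 1 := by
  rw [unitInvNumZ, map_mul, constantCoeff_expandZ, constantCoeff_dedekindEtaUnit,
    constantCoeff_dedekindEtaUnitInv, mul_one]

/-- The integral Laurent series `Δ(q^p)/Δ(q) = q^(p-1) (1 + …)`. -/
def unitSerZ (p : ℕ) : LaurentSeries ℤ :=
  HahnSeries.single ((p : ℤ) - 1) (1 : ℤ) * HahnSeries.ofPowerSeries ℤ ℤ (unitNumZ p)

/-- The integral Laurent series `Δ(q)/Δ(q^p) = q^(1-p) (1 + …)`. -/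
def unitInvSerZ (p : ℕ) : LaurentSeries ℤ :=
  HahnSeries.single (1 - (p : ℤ)) (1 : ℤ) * HahnSeries.ofPowerSeries ℤ ℤ (unitInvNumZ p)

theorem coeffEmb_coeffMap_int (x : LaurentSeries ℤ) :
    coeffEmb ℂ (coeffMap (Int.castRingHom ℚ) x) = coeffMap (Int.castRingHom ℂ) x := by
  unfold coeffEmb
  rw [coeffMap_coeffMap]
  exact coeffMap_congr (RingHom.ext_int _ _) x

/-- (U4) `Δ(q^p)/Δ(q)` has integer coefficients. -/
theorem unitSer_eq_coeffMap (p : ℕ) [NeZero p] :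
    deltaSeriesN p * deltaSeries⁻¹ = coeffMap (Int.castRingHom ℚ) (unitSerZ p) := by
  have hR : coeffMap (Int.castRingHom ℂ) (unitSerZ p)
      = HahnSeries.single ((p : ℤ) - 1) (1 : ℂ)
        * HahnSeries.ofPowerSeries ℤ ℂ (expandPS p etaU * etaV) := by
    unfold unitSerZ
    rw [map_mul, coeffMap_single, map_one, coeffMap_ofPowerSeries, unitNumZ, map_mul, map_expandZ]
    rfl
  apply (coeffEmb ℂ).injective
  rw [coeffEmb_unitSer, coeffEmb_coeffMap_int, hR]

/-- (U4) the Prelude's `modularUnitSeries p = Δ(q)/Δ(q^p)` has integer coefficients. -/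
theorem modularUnitSeries_eq_coeffMap (p : ℕ) [NeZero p] :
    modularUnitSeries p = coeffMap (Int.castRingHom ℚ) (unitInvSerZ p) := by
  have hR : coeffMap (Int.castRingHom ℂ) (unitInvSerZ p)
      = HahnSeries.single (1 - (p : ℤ)) (1 : ℂ)
        * HahnSeries.ofPowerSeries ℤ ℂ (etaU * expandPS p etaV) := by
    unfold unitInvSerZ
    rw [map_mul, coeffMap_single, map_one, coeffMap_ofPowerSeries, unitInvNumZ, map_mul,
      map_expandZ]
    rfl
  apply (coeffEmb ℂ).injective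
  rw [coeffEmb_modularUnitSeries, coeffEmb_coeffMap_int, hR]

theorem unitSer_mul_modularUnitSeries (p : ℕ) [NeZero p] :
    (deltaSeriesN p * deltaSeries⁻¹) * modularUnitSeries p = 1 := by
  have h1 := deltaSeries_ne_zero
  have h2 := deltaSeriesN_ne_zero p
  unfold modularUnitSeries
  field_simp

theorem unitSer_inv_eq (p : ℕ) [NeZero p] :
    (deltaSeriesN p * deltaSeries⁻¹)⁻¹ = modularUnitSeries p :=
  inv_eq_of_mul_eq_one_right (unitSer_mul_modularUnitSeries p)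

theorem coeffMap_int_injective : Function.Injective (coeffMap (Int.castRingHom ℚ)) := by
  intro x y h
  ext k
  have := congrArg (fun z : LaurentSeries ℚ => z.coeff k) h
  simpa [coeffMap_coeff] using this

theorem unitSerZ_mul_unitInvSerZ (p : ℕ) [NeZero p] : unitSerZ p * unitInvSerZ p = 1 := by
  apply coeffMap_int_injective
  rw [map_mul, ← unitSer_eq_coeffMap, ← modularUnitSeries_eq_coeffMap,
    unitSer_mul_modularUnitSeries, map_one]

theorem coeff_unitSerZ_self (p : ℕ) : (unitSerZ p).coeff ((p : ℤ) - 1) = 1 := by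
  rw [unitSerZ, HahnSeries.coeff_single_mul, one_mul, sub_self,
    show (0 : ℤ) = ((0 : ℕ) : ℤ) from rfl, HahnSeries.ofPowerSeries_apply_coeff,
    PowerSeries.coeff_zero_eq_constantCoeff, constantCoeff_unitNumZ]

theorem coeff_unitSerZ_of_lt (p : ℕ) {k : ℤ} (hk : k < (p : ℤ) - 1) :
    (unitSerZ p).coeff k = 0 := by
  rw [unitSerZ, HahnSeries.coeff_single_mul, one_mul]
  exact ofPowerSeries_coeff_of_neg _ (by omega)

theorem coeff_unitInvSerZ_self (p : ℕ) : (unitInvSerZ p).coeff (1 - (p : ℤ)) = 1 := by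
  rw [unitInvSerZ, HahnSeries.coeff_single_mul, one_mul, sub_self,
    show (0 : ℤ) = ((0 : ℕ) : ℤ) from rfl, HahnSeries.ofPowerSeries_apply_coeff,
    PowerSeries.coeff_zero_eq_constantCoeff, constantCoeff_unitInvNumZ]

theorem coeff_unitInvSerZ_of_lt (p : ℕ) {k : ℤ} (hk : k < 1 - (p : ℤ)) :
    (unitInvSerZ p).coeff k = 0 := by
  rw [unitInvSerZ, HahnSeries.coeff_single_mul, one_mul]
  exact ofPowerSeries_coeff_of_neg _ (by omega)

/-- (U4), `LConv` of `u` stated with the inverse of the Prelude's `modularUnitSeries`. -/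
theorem lconv_uFun' (p : ℕ) [NeZero p] :
    LConv (coeffEmb ℂ (modularUnitSeries p)⁻¹) (uFun p) := by
  rw [← unitSer_inv_eq, inv_inv]
  exact lconv_uFun p

end Fermat.Agent.S28_Unit
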