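import Fermat.Agent.S28_Mod0
import Fermat.Agent.S28_Unit

/-!
# S28_UnitQ (helper9): the modular unit `Δ(q^p)/Δ(q)` over `ℚ(j, j_p)`

Char-0 inputs of the Igusa project (S28), block `S28_Char0` of `s28_iface`:

* `exists_unit_repr` (UQ1): `u = Δ(q^p)/Δ(q)` lies in `ℚ(j, j_p)`, compatibly with the Fricke
  involution (`u ↦ p⁻¹² u⁻¹`, `j ↔ j_p`);
* `isIntegral_unitSer`, `isIntegral_unitSer_inv` (UQ2): `u` and `u⁻¹` are integral over `ℚ[j]`.
-/

set_option autoImplicit false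

noncomputable section

namespace Fermat.Agent.S28_UnitQ

open Fermat.Agent.S24_Defs Fermat.Agent.S24_Embed Fermat.Agent.S24_QExp ModularCurve
  UpperHalfPlane Polynomial
open scoped MatrixGroups
open Fermat.Agent.S28_Mod0 Fermat.Agent.S28_Unit

/-- `Δ(q^p)/Δ(q) = q^(p-1) (1 + …)`, the inverse of the Prelude's `modularUnitSeries p`. -/
def unitSer (p : ℕ) [NeZero p] : LaurentSeries ℚ := deltaSeriesN p * deltaSeries⁻¹

theorem unitSer_inv (p : ℕ) [NeZero p] : (unitSer p)⁻¹ = modularUnitSeries p :=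
  unitSer_inv_eq p

/-! ### General tools -/

/-- Two convergent series representing the same function are equal. -/
theorem lconv_unique {f g : LaurentSeries ℂ} {F G : ℍ → ℂ} (hf : LConv f F) (hg : LConv g G)
    (h : ∀ τ, F τ = G τ) : f = g := by
  have h1 := hf.add ((LConv.const (-1)).mul hg)
  have h2 := h1.eq_zero_iff.mpr (fun τ => by rw [h τ]; ring)
  rw [map_neg, map_one] at h2
  linear_combination h2

theorem aevalAeval_eq_eval₂ {K : Type*} [Field K] {A : Type*} [CommRing A] [Algebra K A]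
    (u v : A) (P : Polynomial (Polynomial K)) :
    aevalAeval u v P = P.eval₂ (aeval u : Polynomial K →ₐ[K] A).toRingHom v := by
  induction P using Polynomial.induction_on' with
  | add p q hp hq => rw [map_add, hp, hq, Polynomial.eval₂_add]
  | monomial n a =>
    rw [aevalAeval_monomial, Polynomial.eval₂_monomial]
    rfl

/-- A monic relation over `ℚ[j]` gives integrality over the subalgebra `ℚ[j]`. -/
theorem isIntegral_of_monic {s : LaurentSeries ℚ} {Φ : Polynomial (Polynomial ℚ)}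
    (hΦ : Φ.Monic) (h : aevalAeval (jq : LaurentSeries ℚ) s Φ = 0) :
    IsIntegral (Algebra.adjoin ℚ {(jq : LaurentSeries ℚ)}) s := by
  set φ : Polynomial ℚ →ₐ[ℚ] Algebra.adjoin ℚ {(jq : LaurentSeries ℚ)} :=
    AlgHom.codRestrict (aeval (jq : LaurentSeries ℚ)) _
      (fun r => Polynomial.aeval_mem_adjoin_singleton ℚ _) with hφ
  refine ⟨Φ.map φ.toRingHom, hΦ.map _, ?_⟩
  rw [Polynomial.eval₂_map, ← h, aevalAeval_eq_eval₂]
  rfl

/-- The monic equation of a `Γ₀(p)`-invariant nice function, as a bivariate polynomial. -/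
theorem exists_monic_fun (p : ℕ) [NeZero p] (Ψ : AN p)
    (hΨ : ∀ g : SL(2, ℤ), g ∈ CongruenceSubgroup.Gamma0 p → tr p g Ψ = Ψ) :
    ∃ Φ : Polynomial (Polynomial ℂ), Φ.Monic ∧ ∀ τ, Φ.evalEval (jFun τ) ((Ψ : ℍ → ℂ) τ) = 0 := by
  obtain ⟨c, hc, -⟩ := Fermat.Agent.S23_Interp.exists_monic_relation p Ψ hΨ
  set n := Nat.card (Coset p) with hn
  set R : Polynomial (Polynomial ℂ) := ∑ i ∈ Finset.range n, C (c i) * X ^ i with hR
  have hRdeg : R.degree < (n : WithBot ℕ) := by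
    refine (Polynomial.degree_sum_le _ _).trans_lt ?_
    refine (Finset.sup_lt_iff (WithBot.bot_lt_coe n)).mpr fun i hi => ?_
    exact (Polynomial.degree_C_mul_X_pow_le i _).trans_lt
      (WithBot.coe_lt_coe.mpr (Finset.mem_range.mp hi))
  refine ⟨X ^ n + R, Polynomial.monic_X_pow_add hRdeg, fun τ => ?_⟩
  have h := hc τ
  rw [evalEval_add, evalEval_pow, evalEval_X, hR, evalEval_finsetSum]
  rw [← h]
  congr 1
  refine Finset.sum_congr rfl fun i _ => ?_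
  rw [evalEval_mul, evalEval_C, evalEval_pow, evalEval_X]

/-- A `Γ₀(p)`-invariant nice function with rational `q`-expansion `s` is integral over `ℚ[j]`. -/
theorem isIntegral_of_lconv (p : ℕ) [NeZero p] (Ψ : AN p)
    (hΨ : ∀ g : SL(2, ℤ), g ∈ CongruenceSubgroup.Gamma0 p → tr p g Ψ = Ψ)
    {s : LaurentSeries ℚ} (hs : LConv (coeffEmb ℂ s) (Ψ : ℍ → ℂ)) :
    IsIntegral (Algebra.adjoin ℚ {(jq : LaurentSeries ℚ)}) s := by
  obtain ⟨Φ, hmonic, hΦ⟩ := exists_monic_fun p Ψ hΨ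
  obtain ⟨L, hL⟩ := exists_functional (one_ne_zero : (1 : ℂ) ≠ 0)
  have h1 : aevalAeval (coeffEmb ℂ jq) (coeffEmb ℂ s) Φ = 0 :=
    (aevalAeval_eq_zero_iff lconv_j hs Φ).mpr hΦ
  obtain ⟨hm, -⟩ := descP_monic L hL hmonic
  refine isIntegral_of_monic hm ?_
  have h := Lam_aevalAeval L 1 jq s Φ
  rw [h1, mul_zero, Lam_zero, one_mul] at h
  exact h.symm

/-- (UQ2) `Δ(q^p)/Δ(q)` is integral over `ℚ[j]`. -/
theorem isIntegral_unitSer (p : ℕ) [NeZero p] (_hp : p.Prime) :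
    IsIntegral (Algebra.adjoin ℚ {(jq : LaurentSeries ℚ)}) (unitSer p) :=
  isIntegral_of_lconv p ⟨uFun p, uFun_mem (NeZero.ne p)⟩ (tr_uFun (NeZero.ne p)) (lconv_uFun p)

/-- (UQ2) `Δ(q)/Δ(q^p)` is integral over `ℚ[j]`. -/
theorem isIntegral_unitSer_inv (p : ℕ) [NeZero p] (_hp : p.Prime) :
    IsIntegral (Algebra.adjoin ℚ {(jq : LaurentSeries ℚ)}) (unitSer p)⁻¹ := by
  rw [unitSer_inv]
  exact isIntegral_of_lconv p ⟨fun τ => (uFun p τ)⁻¹, uFun_inv_mem (NeZero.ne p)⟩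
    (tr_uFun_inv (NeZero.ne p)) (lconv_uFun_inv p)

/-! ### (UQ1) -/

theorem exists_bivariate (G : MvPolynomial (Fin 2) ℂ) :
    ∃ P : Polynomial (Polynomial ℂ), ∀ x y : ℂ, MvPolynomial.eval ![x, y] G = P.evalEval x y := by
  induction G using MvPolynomial.induction_on with
  | C a => exact ⟨C (C a), fun x y => by rw [MvPolynomial.eval_C, evalEval_C, eval_C]⟩
  | add p q hp hq =>
    obtain ⟨P, hP⟩ := hp
    obtain ⟨Q, hQ⟩ := hq
    exact ⟨P + Q, fun x y => by rw [map_add, hP, hQ, evalEval_add]⟩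
  | mul_X p i hp =>
    obtain ⟨P, hP⟩ := hp
    fin_cases i
    · exact ⟨P * C X, fun x y => by
        rw [map_mul, hP, evalEval_mul, evalEval_C, MvPolynomial.eval_X, eval_X]; rfl⟩
    · exact ⟨P * X, fun x y => by
        rw [map_mul, hP, evalEval_mul, evalEval_X, MvPolynomial.eval_X]; rfl⟩

/-- (UQ1) over `ℂ`, at the level of functions. -/
theorem exists_unit_repr_fun (p : ℕ) [NeZero p] :
    ∃ P₁ P : Polynomial (Polynomial ℂ),
      (∃ τ, P₁.evalEval (jFun τ) (jS p τ) ≠ 0) ∧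
      (∀ τ, uFun p τ * P₁.evalEval (jFun τ) (jS p τ) = P.evalEval (jFun τ) (jS p τ)) ∧
      (∀ τ, ((p : ℂ) ^ 12)⁻¹ * (uFun p τ)⁻¹ * P₁.evalEval (jS p τ) (jFun τ)
        = P.evalEval (jS p τ) (jFun τ)) := by
  have hp0 : p ≠ 0 := NeZero.ne p
  obtain ⟨D, hD0, hD⟩ := Fermat.Agent.S23_Interp.exists_interp_aux₂ p
  obtain ⟨G₁, hG₁⟩ := hD 1 (fun g _ => map_one _)
  obtain ⟨G, hG⟩ := hD ⟨uFun p, uFun_mem hp0⟩ (tr_uFun hp0)
  obtain ⟨P₁, hP₁⟩ := exists_bivariate G₁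
  obtain ⟨P, hP⟩ := exists_bivariate G
  have h1 : ∀ τ, (D : ℍ → ℂ) τ = P₁.evalEval (jFun τ) (jS p τ) := by
    intro τ
    have := hG₁ τ
    rw [hP₁] at this
    rw [← this]
    show _ = (1 : ℂ) * _
    rw [one_mul]
  have h2 : ∀ τ, uFun p τ * P₁.evalEval (jFun τ) (jS p τ) = P.evalEval (jFun τ) (jS p τ) := by
    intro τ
    have := hG τ
    rw [hP, h1] at this
    exact this
  refine ⟨P₁, P, ?_, h2, fun τ => ?_⟩
  · by_contra hcon
    push Not at hcon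
    exact hD0 (Subtype.ext (funext fun τ => by rw [h1 τ, hcon τ]; rfl))
  · have := h2 (Fermat.Agent.S28_Mod0.fricke p τ)
    rw [Fermat.Agent.S28_Mod0.jFun_fricke, Fermat.Agent.S28_Mod0.jS_fricke] at this
    rw [← this]
    congr 1
    exact (uFun_fricke hp0 τ).symm

/-- (UQ1) `u = Δ(q^p)/Δ(q)` lies in `ℚ(j, j_p)`, compatibly with the Fricke involution. -/
theorem exists_unit_repr (p : ℕ) [NeZero p] (_hp : p.Prime) :
    ∃ G₁ G : Polynomial (Polynomial ℚ),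
      G₁.aevalAeval (jq : LaurentSeries ℚ) (qExpand ℚ p jq) ≠ 0 ∧
      unitSer p * G₁.aevalAeval (jq : LaurentSeries ℚ) (qExpand ℚ p jq)
        = G.aevalAeval (jq : LaurentSeries ℚ) (qExpand ℚ p jq) ∧
      ((p : LaurentSeries ℚ) ^ 12)⁻¹ * (unitSer p)⁻¹ *
          G₁.aevalAeval (qExpand ℚ p jq) (jq : LaurentSeries ℚ)
        = G.aevalAeval (qExpand ℚ p jq) (jq : LaurentSeries ℚ) := by
  obtain ⟨P₁, P, ⟨τ₀, hτ₀⟩, hP, hP'⟩ := exists_unit_repr_fun p
  -- the series identities over `ℂ`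
  have hne : aevalAeval (coeffEmb ℂ jq) (coeffEmb ℂ (qExpand ℚ p jq)) P₁ ≠ 0 := by
    intro h0
    exact hτ₀ ((aevalAeval_eq_zero_iff lconv_j (lconv_jp p) P₁).mp h0 τ₀)
  have hu : LConv (coeffEmb ℂ (unitSer p)) (uFun p) := lconv_uFun p
  have hui : LConv (coeffEmb ℂ (((p : LaurentSeries ℚ) ^ 12)⁻¹ * (unitSer p)⁻¹))
      (fun τ => ((p : ℂ) ^ 12)⁻¹ * (uFun p τ)⁻¹) := by
    have h := (LConv.const (((p : ℂ) ^ 12)⁻¹)).mul (lconv_uFun_inv p)
    refine lconv_congr h ?_ (fun τ => rfl)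
    rw [map_mul, unitSer_inv, map_inv₀, map_pow, map_natCast, map_inv₀, map_pow, map_natCast]
  have e1 : coeffEmb ℂ (unitSer p) * aevalAeval (coeffEmb ℂ jq) (coeffEmb ℂ (qExpand ℚ p jq)) P₁
      = aevalAeval (coeffEmb ℂ jq) (coeffEmb ℂ (qExpand ℚ p jq)) P :=
    lconv_unique (hu.mul (lconv_aevalAeval lconv_j (lconv_jp p) P₁))
      (lconv_aevalAeval lconv_j (lconv_jp p) P) hP
  have e2 : coeffEmb ℂ (((p : LaurentSeries ℚ) ^ 12)⁻¹ * (unitSer p)⁻¹)
        * aevalAeval (coeffEmb ℂ (qExpand ℚ p jq)) (coeffEmb ℂ jq) P₁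
      = aevalAeval (coeffEmb ℂ (qExpand ℚ p jq)) (coeffEmb ℂ jq) P :=
    lconv_unique (hui.mul (lconv_aevalAeval (lconv_jp p) lconv_j P₁))
      (lconv_aevalAeval (lconv_jp p) lconv_j P) hP'
  -- a functional detecting a nonzero coefficient of the denominator
  obtain ⟨n₀, hn₀⟩ : ∃ n₀ : ℤ,
      (aevalAeval (coeffEmb ℂ jq) (coeffEmb ℂ (qExpand ℚ p jq)) P₁).coeff n₀ ≠ 0 := by
    by_contra hcon
    push Not at hcon
    exact hne (HahnSeries.ext (funext hcon))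
  obtain ⟨L, hL⟩ := exists_functional hn₀
  have d1 := Lam_aevalAeval L 1 jq (qExpand ℚ p jq) P₁
  have d2 := Lam_aevalAeval L (unitSer p) jq (qExpand ℚ p jq) P₁
  have d3 := Lam_aevalAeval L 1 jq (qExpand ℚ p jq) P
  have d4 := Lam_aevalAeval L (((p : LaurentSeries ℚ) ^ 12)⁻¹ * (unitSer p)⁻¹)
    (qExpand ℚ p jq) jq P₁
  have d5 := Lam_aevalAeval L 1 (qExpand ℚ p jq) jq P
  rw [map_one, one_mul, one_mul] at d1 d3 d5
  refine ⟨descP L P₁, descP L P, ?_, ?_, ?_⟩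
  · intro h0
    have h := congrArg (fun f : LaurentSeries ℚ => f.coeff n₀) d1
    simp only [Lam_coeff, hL, h0, HahnSeries.coeff_zero] at h
    exact one_ne_zero h
  · rw [← d2, ← d3, e1]
  · rw [← d4, ← d5, e2]

end Fermat.Agent.S28_UnitQ

end
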