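import Fermat.Agent.S28
import Fermat.Agent.S28_UnitQ

/-!
# S16_QPrin (helper9): the `q`-expansion principle for analytic functions

Let `ℓ ∤ M` and let `Ψ` be a `Γ₀(M)`-invariant nice function (holomorphic on `ℍ`, all translates
meromorphic at `i∞`) whose `q`-expansion at `i∞` has `ℓ`-integral rational coefficients.  Then

* `exists_repr`, `mem_full`: the expansion lies in `ℚ(j, j_M)` (for every rational expansion);
* `isIntegral_full`: it is integral over `ℤ_(ℓ)[j]` inside the full modular function field;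
* `exists_monic_value`: there is a monic `P ∈ ℤ_(ℓ)[j][Y]` with `P(j(τ), Ψ(τ)) = 0` for all `τ`;
* `rat_value_mem`: if `j(τ₀)` is an `ℓ`-integral rational number and `Ψ(τ₀)` is rational, then
  `Ψ(τ₀)` is `ℓ`-integral.
-/

set_option autoImplicit false

noncomputable section

namespace Fermat.Agent.S16_QPrin

open Fermat.Agent.S24_Defs Fermat.Agent.S24_Embed Fermat.Agent.S24_QExp ModularCurve
  ModularCurve.IgusaScheme UpperHalfPlane Polynomial
open scoped MatrixGroups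
open Fermat.Agent.S28_Mod0 Fermat.Agent.S28_Unit Fermat.Agent.S28_UnitQ Fermat.Agent.S28_QExp

/-! ### Rationality: the expansion lies in `ℚ(j, j_M)` -/

/-- A `Γ₀(M)`-invariant nice function is a quotient of polynomials in `j(τ)`, `j(Mτ)`. -/
theorem exists_repr_fun (M : ℕ) [NeZero M] (Ψ : AN M)
    (hΨ : ∀ g : SL(2, ℤ), g ∈ CongruenceSubgroup.Gamma0 M → tr M g Ψ = Ψ) :
    ∃ P₁ P : Polynomial (Polynomial ℂ),
      (∃ τ, P₁.evalEval (jFun τ) (jS M τ) ≠ 0) ∧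
      (∀ τ, (Ψ : ℍ → ℂ) τ * P₁.evalEval (jFun τ) (jS M τ) = P.evalEval (jFun τ) (jS M τ)) := by
  obtain ⟨D, hD0, hD⟩ := Fermat.Agent.S23_Interp.exists_interp_aux₂ M
  obtain ⟨G₁, hG₁⟩ := hD 1 (fun g _ => map_one _)
  obtain ⟨G, hG⟩ := hD Ψ hΨ
  obtain ⟨P₁, hP₁⟩ := exists_bivariate G₁
  obtain ⟨P, hP⟩ := exists_bivariate G
  have h1 : ∀ τ, (D : ℍ → ℂ) τ = P₁.evalEval (jFun τ) (jS M τ) := by
    intro τ
    have := hG₁ τ
    rw [hP₁] at this
    rw [← this]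
    show _ = (1 : ℂ) * _
    rw [one_mul]
  refine ⟨P₁, P, ?_, fun τ => ?_⟩
  · by_contra hcon
    push Not at hcon
    exact hD0 (Subtype.ext (funext fun τ => by rw [h1 τ, hcon τ]; rfl))
  · have := hG τ
    rw [hP, h1] at this
    exact this

/-- The rational `q`-expansion of a `Γ₀(M)`-invariant nice function is a quotient of rational
polynomials in `j(q)`, `j(q^M)`. -/
theorem exists_repr (M : ℕ) [NeZero M] (Ψ : AN M)
    (hΨ : ∀ g : SL(2, ℤ), g ∈ CongruenceSubgroup.Gamma0 M → tr M g Ψ = Ψ)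
    {s : LaurentSeries ℚ} (hs : LConv (coeffEmb ℂ s) (Ψ : ℍ → ℂ)) :
    ∃ G₁ G : Polynomial (Polynomial ℚ),
      G₁.aevalAeval (jq : LaurentSeries ℚ) (qExpand ℚ M jq) ≠ 0 ∧
      s * G₁.aevalAeval (jq : LaurentSeries ℚ) (qExpand ℚ M jq)
        = G.aevalAeval (jq : LaurentSeries ℚ) (qExpand ℚ M jq) := by
  obtain ⟨P₁, P, ⟨τ₀, hτ₀⟩, hP⟩ := exists_repr_fun M Ψ hΨ
  have hne : aevalAeval (coeffEmb ℂ jq) (coeffEmb ℂ (qExpand ℚ M jq)) P₁ ≠ 0 := by
    intro h0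
    exact hτ₀ ((aevalAeval_eq_zero_iff lconv_j (lconv_jp M) P₁).mp h0 τ₀)
  have e1 : coeffEmb ℂ s * aevalAeval (coeffEmb ℂ jq) (coeffEmb ℂ (qExpand ℚ M jq)) P₁
      = aevalAeval (coeffEmb ℂ jq) (coeffEmb ℂ (qExpand ℚ M jq)) P :=
    lconv_unique (hs.mul (lconv_aevalAeval lconv_j (lconv_jp M) P₁))
      (lconv_aevalAeval lconv_j (lconv_jp M) P) hP
  obtain ⟨n₀, hn₀⟩ : ∃ n₀ : ℤ,
      (aevalAeval (coeffEmb ℂ jq) (coeffEmb ℂ (qExpand ℚ M jq)) P₁).coeff n₀ ≠ 0 := by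
    by_contra hcon
    push Not at hcon
    exact hne (HahnSeries.ext (funext hcon))
  obtain ⟨L, hL⟩ := exists_functional hn₀
  have d1 := Lam_aevalAeval L 1 jq (qExpand ℚ M jq) P₁
  have d2 := Lam_aevalAeval L s jq (qExpand ℚ M jq) P₁
  have d3 := Lam_aevalAeval L 1 jq (qExpand ℚ M jq) P
  rw [map_one, one_mul, one_mul] at d1 d3
  refine ⟨descP L P₁, descP L P, ?_, ?_⟩
  · intro h0
    have h := congrArg (fun f : LaurentSeries ℚ => f.coeff n₀) d1
    simp only [Lam_coeff, hL, h0, HahnSeries.coeff_zero] at h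
    exact one_ne_zero h
  · rw [← d2, ← d3, e1]

theorem aevalAeval_mem {K : Type*} [Field K] {A : Type*} [CommRing A] [Algebra K A]
    (S : Subalgebra K A) {u v : A} (hu : u ∈ S) (hv : v ∈ S) (P : Polynomial (Polynomial K)) :
    aevalAeval u v P ∈ S := by
  induction P using Polynomial.induction_on' with
  | add p q hp hq => rw [map_add]; exact add_mem hp hq
  | monomial n a =>
    rw [aevalAeval_monomial]
    refine mul_mem ?_ (pow_mem hv n)
    have h := Polynomial.aeval_subalgebra_coe a S ⟨u, hu⟩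
    rw [← h]
    exact (aeval (⟨u, hu⟩ : S) a).2

/-- The rational `q`-expansion of a `Γ₀(M)`-invariant nice function lies in the full modular
function field of level `M`. -/
theorem mem_full (M : ℕ) [NeZero M] (Ψ : AN M)
    (hΨ : ∀ g : SL(2, ℤ), g ∈ CongruenceSubgroup.Gamma0 M → tr M g Ψ = Ψ)
    {s : LaurentSeries ℚ} (hs : LConv (coeffEmb ℂ s) (Ψ : ℍ → ℂ)) :
    s ∈ modularFunctionFieldFull M := by
  obtain ⟨G₁, G, hne, h⟩ := exists_repr M Ψ hΨ hs
  have h1 : s = G.aevalAeval (jq : LaurentSeries ℚ) (qExpand ℚ M jq) /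
      G₁.aevalAeval (jq : LaurentSeries ℚ) (qExpand ℚ M jq) := by
    rw [eq_div_iff hne]; exact h
  rw [h1]
  have hj : (jq : LaurentSeries ℚ) ∈ (modularFunctionFieldFull M).toSubalgebra :=
    modularFunctionField_le_full M (jq_mem M)
  have hjM : qExpand ℚ M jq ∈ (modularFunctionFieldFull M).toSubalgebra :=
    modularFunctionField_le_full M (jqN_mem M)
  exact div_mem (aevalAeval_mem _ hj hjM G) (aevalAeval_mem _ hj hjM G₁)

/-! ### Integrality over `ℚ[j]`, bivariate form, and scaling -/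

/-- A `Γ₀(M)`-invariant nice function with rational `q`-expansion `s` satisfies a monic
equation over `ℚ[j]`, as an identity of `q`-series. -/
theorem exists_monic_rat (M : ℕ) [NeZero M] (Ψ : AN M)
    (hΨ : ∀ g : SL(2, ℤ), g ∈ CongruenceSubgroup.Gamma0 M → tr M g Ψ = Ψ)
    {s : LaurentSeries ℚ} (hs : LConv (coeffEmb ℂ s) (Ψ : ℍ → ℂ)) :
    ∃ Φ : Polynomial (Polynomial ℚ), Φ.Monic ∧ aevalAeval (jq : LaurentSeries ℚ) s Φ = 0 := by
  obtain ⟨Φ, hmonic, hΦ⟩ := exists_monic_fun M Ψ hΨ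
  obtain ⟨L, hL⟩ := exists_functional (one_ne_zero : (1 : ℂ) ≠ 0)
  have h1 : aevalAeval (coeffEmb ℂ jq) (coeffEmb ℂ s) Φ = 0 :=
    (aevalAeval_eq_zero_iff lconv_j hs Φ).mpr hΦ
  obtain ⟨hm, -⟩ := descP_monic L hL hmonic
  refine ⟨descP L Φ, hm, ?_⟩
  have h := Lam_aevalAeval L 1 jq s Φ
  rw [h1, mul_zero, Lam_zero, one_mul] at h
  exact h.symm

/-- A monic bivariate rational polynomial becomes `ℓ`-integral after scaling its roots by a
power of `ℓ`. -/
theorem exists_scaleRoots (ℓ : ℕ) [Fact ℓ.Prime] (Φ : Polynomial (Polynomial ℚ)) (hΦ : Φ.Monic) :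
    ∃ (m : ℕ) (Φ' : Polynomial (Polynomial (GaloisRep.ratLocalizedAt ℓ))), Φ'.Monic ∧
      Φ'.map (mapRingHom (GaloisRep.ratLocalizedAt ℓ).subtype)
        = scaleRoots Φ (C ((ℓ : ℚ) ^ m)) := by
  classical
  set n := Φ.natDegree with hn
  obtain ⟨m, f', hf', -⟩ := exists_scale ℓ (fun i : Fin n => Φ.coeff (i : ℕ))
  have hl : scaleRoots Φ (C ((ℓ : ℚ) ^ m)) ∈
      Polynomial.lifts (mapRingHom (GaloisRep.ratLocalizedAt ℓ).subtype) := by
    rw [Polynomial.lifts_iff_coeff_lifts]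
    intro k
    rw [Polynomial.coeff_scaleRoots, ← hn]
    rcases lt_trichotomy k n with hk | hk | hk
    · obtain ⟨e, he⟩ : ∃ e : ℕ, n - k = e + 1 := ⟨n - k - 1, by omega⟩
      refine ⟨f' ⟨k, hk⟩ * C ((ℓ : GaloisRep.ratLocalizedAt ℓ) ^ m) ^ e, ?_⟩
      have h1 := hf' ⟨k, hk⟩
      have h2 : (mapRingHom (GaloisRep.ratLocalizedAt ℓ).subtype)
          (C ((ℓ : GaloisRep.ratLocalizedAt ℓ) ^ m)) = C ((ℓ : ℚ) ^ m) := by
        rw [coe_mapRingHom, Polynomial.map_C]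
        congr 1
      rw [map_mul, map_pow, h2, coe_mapRingHom, h1, he, pow_succ]
      ring
    · subst hk
      refine ⟨1, ?_⟩
      have h1 : Φ.coeff n = 1 := hΦ
      rw [map_one, h1, Nat.sub_self, pow_zero, mul_one]
    · refine ⟨0, ?_⟩
      rw [map_zero, Polynomial.coeff_eq_zero_of_natDegree_lt hk, zero_mul]
  obtain ⟨q, hq, -, hqm⟩ := Polynomial.lifts_and_natDegree_eq_and_monic hl
    ((Polynomial.monic_scaleRoots_iff _).2 hΦ)
  exact ⟨m, q, hqm, hq⟩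

/-! ### Integrality over `ℤ_(ℓ)[j]` -/

section Main

variable (M : ℕ) [NeZero M] (ℓ : ℕ) [Fact ℓ.Prime]

/-- `incl ∘ aeval j = aeval jq ∘ map`. -/
theorem incl_comp_aeval :
    (incl M).comp ((aeval (jFull M) :
        (GaloisRep.ratLocalizedAt ℓ)[X] →ₐ[GaloisRep.ratLocalizedAt ℓ]
          ↥(modularFunctionFieldFull M)) :
        (GaloisRep.ratLocalizedAt ℓ)[X] →+* ↥(modularFunctionFieldFull M)) =
      ((aeval (jq : LaurentSeries ℚ) : ℚ[X] →ₐ[ℚ] LaurentSeries ℚ) :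
        ℚ[X] →+* LaurentSeries ℚ).comp
        (mapRingHom (GaloisRep.ratLocalizedAt ℓ).subtype) := by
  refine Polynomial.ringHom_ext (fun c => ?_) ?_
  · simp only [RingHom.comp_apply, RingHom.coe_coe, aeval_C, coe_mapRingHom, Polynomial.map_C]
    rw [incl_algebraMap, algebraMap_eq_C]
    rfl
  · simp only [RingHom.comp_apply, RingHom.coe_coe, aeval_X, coe_mapRingHom, Polynomial.map_X]
    rfl

/-- **`q`-expansion principle, function-field form.**  A `Γ₀(M)`-invariant nice function with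
`ℓ`-integral `q`-expansion (`ℓ ∤ M`) is integral over `ℤ_(ℓ)[j]`. -/
theorem isIntegral_full (hℓM : ¬ ℓ ∣ M) (Ψ : AN M)
    (hΨ : ∀ g : SL(2, ℤ), g ∈ CongruenceSubgroup.Gamma0 M → tr M g Ψ = Ψ)
    (f : LaurentSeries (GaloisRep.ratLocalizedAt ℓ))
    (hf : LConv (coeffEmb ℂ (emb ℓ f)) (Ψ : ℍ → ℂ)) :
    ∃ x : ↥(modularFunctionFieldFull M), (x : LaurentSeries ℚ) = emb ℓ f ∧
      IsIntegral (Algebra.adjoin (GaloisRep.ratLocalizedAt ℓ) {jFull M}) x := by
  obtain ⟨θF, θ, H⟩ := exists_hyp M ℓ (Fermat.Agent.S28.exists_indep_family M ℓ hℓM)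
  set x : ↥(modularFunctionFieldFull M) := ⟨emb ℓ f, mem_full M Ψ hΨ hf⟩ with hx
  refine ⟨x, rfl, ?_⟩
  have hO : incl M x ∈ Oring ℓ := emb_mem_Oring ℓ f
  obtain ⟨s₀, hs₀, hint⟩ := H.exists_isIntegral_mul x hO
  obtain ⟨Φ, hΦm, hΦ⟩ := exists_monic_rat M Ψ hΨ hf
  obtain ⟨m, Φ', hΦ'm, hΦ'⟩ := exists_scaleRoots ℓ Φ hΦm
  set φ : (GaloisRep.ratLocalizedAt ℓ)[X] →ₐ[GaloisRep.ratLocalizedAt ℓ]
      Algebra.adjoin (GaloisRep.ratLocalizedAt ℓ) {jFull M} :=
    AlgHom.codRestrict (aeval (jFull M)) _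
      (fun r => Polynomial.aeval_mem_adjoin_singleton (GaloisRep.ratLocalizedAt ℓ) _) with hφ
  have hℓx : IsIntegral (Algebra.adjoin (GaloisRep.ratLocalizedAt ℓ) {jFull M})
      ((ℓ : ↥(modularFunctionFieldFull M)) ^ m * x) := by
    refine ⟨Φ'.map φ.toRingHom, hΦ'm.map _, ?_⟩
    rw [Polynomial.eval₂_map]
    have hcomp : (algebraMap (Algebra.adjoin (GaloisRep.ratLocalizedAt ℓ) {jFull M})
          ↥(modularFunctionFieldFull M)).comp φ.toRingHom
        = ((aeval (jFull M) : (GaloisRep.ratLocalizedAt ℓ)[X] →ₐ[GaloisRep.ratLocalizedAt ℓ]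
            ↥(modularFunctionFieldFull M)) :
          (GaloisRep.ratLocalizedAt ℓ)[X] →+* ↥(modularFunctionFieldFull M)) := rfl
    rw [hcomp]
    apply (incl M).injective
    rw [Polynomial.hom_eval₂, incl_comp_aeval, map_zero, ← Polynomial.eval₂_map, hΦ']
    have h1 : incl M ((ℓ : ↥(modularFunctionFieldFull M)) ^ m * x)
        = ((aeval (jq : LaurentSeries ℚ) : ℚ[X] →ₐ[ℚ] LaurentSeries ℚ) :
            ℚ[X] →+* LaurentSeries ℚ) (C ((ℓ : ℚ) ^ m)) * emb ℓ f := by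
      rw [map_mul, map_pow, map_natCast]
      simp only [map_pow, map_natCast]
      rfl
    rw [h1, Polynomial.scaleRoots_eval₂_mul]
    have h2 : Φ.eval₂ ((aeval (jq : LaurentSeries ℚ) : ℚ[X] →ₐ[ℚ] LaurentSeries ℚ) :
        ℚ[X] →+* LaurentSeries ℚ) (emb ℓ f) = 0 := by
      rw [← hΦ, aevalAeval_eq_eval₂]
      rfl
    rw [h2, mul_zero]
  have hic := isIntegrallyClosed_ratLocalizedAt ℓ
  have hs₀' : ¬ C (ℓ : GaloisRep.ratLocalizedAt ℓ) ∣ s₀ := by
    rintro ⟨s', rfl⟩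
    apply hs₀
    rw [Polynomial.map_mul, Polynomial.map_C, resHom_ell, C_0, zero_mul]
  have hℓF : algebraMap (GaloisRep.ratLocalizedAt ℓ) ↥(modularFunctionFieldFull M)
      (ℓ : GaloisRep.ratLocalizedAt ℓ) = (ℓ : ↥(modularFunctionFieldFull M)) := map_natCast _ ℓ
  have hℓint : IsIntegral (Algebra.adjoin (GaloisRep.ratLocalizedAt ℓ) {jFull M})
      (ℓ : ↥(modularFunctionFieldFull M)) := by
    rw [← hℓF]
    exact isIntegral_algebraMap (R := Algebra.adjoin (GaloisRep.ratLocalizedAt ℓ) {jFull M})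
      (x := algebraMap (GaloisRep.ratLocalizedAt ℓ)
        (Algebra.adjoin (GaloisRep.ratLocalizedAt ℓ) {jFull M}) (ℓ : GaloisRep.ratLocalizedAt ℓ))
  have key : ∀ k : ℕ, k ≤ m → IsIntegral (Algebra.adjoin (GaloisRep.ratLocalizedAt ℓ) {jFull M})
      ((ℓ : ↥(modularFunctionFieldFull M)) ^ (m - k) * x) := by
    intro k
    induction k with
    | zero => intro _; simpa using hℓx
    | succ k ih =>
      intro hk
      have ih' := ih (by omega)
      refine isIntegral_adjoin_of_isIntegral_mul H.aeval_injective (prime_ell ℓ) hs₀' ?_ ?_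
      · rw [hℓF, ← mul_assoc, ← pow_succ']
        have : m - (k + 1) + 1 = m - k := by omega
        rw [this]
        exact ih'
      · have : aeval (jFull M) s₀ * ((ℓ : ↥(modularFunctionFieldFull M)) ^ (m - (k + 1)) * x)
            = (ℓ : ↥(modularFunctionFieldFull M)) ^ (m - (k + 1)) * (aeval (jFull M) s₀ * x) := by
          ring
        rw [this]
        exact (hℓint.pow _).mul hint
  simpa using key m le_rfl

/-- **`q`-expansion principle, pointwise form.**  A `Γ₀(M)`-invariant nice function `Ψ` with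
`ℓ`-integral `q`-expansion (`ℓ ∤ M`) satisfies `P(j(τ), Ψ(τ)) = 0` for all `τ`, with `P` monic
over `ℤ_(ℓ)[j]`. -/
theorem exists_monic_value (hℓM : ¬ ℓ ∣ M) (Ψ : AN M)
    (hΨ : ∀ g : SL(2, ℤ), g ∈ CongruenceSubgroup.Gamma0 M → tr M g Ψ = Ψ)
    (f : LaurentSeries (GaloisRep.ratLocalizedAt ℓ))
    (hf : LConv (coeffEmb ℂ (emb ℓ f)) (Ψ : ℍ → ℂ)) :
    ∃ P : Polynomial (Polynomial (GaloisRep.ratLocalizedAt ℓ)), P.Monic ∧
      ∀ τ : ℍ, (toC (P.map (mapRingHom (GaloisRep.ratLocalizedAt ℓ).subtype))).evalEval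
        (jFun τ) ((Ψ : ℍ → ℂ) τ) = 0 := by
  obtain ⟨x, hx, hint⟩ := isIntegral_full M ℓ hℓM Ψ hΨ f hf
  set φ : (GaloisRep.ratLocalizedAt ℓ)[X] →ₐ[GaloisRep.ratLocalizedAt ℓ]
      Algebra.adjoin (GaloisRep.ratLocalizedAt ℓ) {jFull M} :=
    AlgHom.codRestrict (aeval (jFull M)) _
      (fun r => Polynomial.aeval_mem_adjoin_singleton (GaloisRep.ratLocalizedAt ℓ) _) with hφ
  have hφsurj : Function.Surjective φ.toRingHom := by
    rintro ⟨y, hy⟩
    rw [Algebra.adjoin_singleton_eq_range_aeval] at hy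
    obtain ⟨g, rfl⟩ := hy
    exact ⟨g, Subtype.ext rfl⟩
  obtain ⟨p, hpm, hp⟩ := hint
  have hl : p ∈ Polynomial.lifts φ.toRingHom := by
    rw [Polynomial.lifts_iff_coeff_lifts]
    intro k
    exact hφsurj _
  obtain ⟨P, hP, -, hPm⟩ := Polynomial.lifts_and_natDegree_eq_and_monic hl hpm
  refine ⟨P, hPm, ?_⟩
  have hcomp : (algebraMap (Algebra.adjoin (GaloisRep.ratLocalizedAt ℓ) {jFull M})
        ↥(modularFunctionFieldFull M)).comp φ.toRingHom
      = ((aeval (jFull M) : (GaloisRep.ratLocalizedAt ℓ)[X] →ₐ[GaloisRep.ratLocalizedAt ℓ]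
          ↥(modularFunctionFieldFull M)) :
        (GaloisRep.ratLocalizedAt ℓ)[X] →+* ↥(modularFunctionFieldFull M)) := rfl
  have h1 : P.eval₂ ((aeval (jFull M) : (GaloisRep.ratLocalizedAt ℓ)[X] →ₐ[GaloisRep.ratLocalizedAt ℓ]
          ↥(modularFunctionFieldFull M)) :
        (GaloisRep.ratLocalizedAt ℓ)[X] →+* ↥(modularFunctionFieldFull M)) x = 0 := by
    rw [← hcomp, ← Polynomial.eval₂_map, hP]
    exact hp
  have h2 : aevalAeval (jq : LaurentSeries ℚ) (emb ℓ f)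
      (P.map (mapRingHom (GaloisRep.ratLocalizedAt ℓ).subtype)) = 0 := by
    have h3 := congrArg (incl M) h1
    rw [Polynomial.hom_eval₂, incl_comp_aeval, map_zero, ← Polynomial.eval₂_map] at h3
    rw [aevalAeval_eq_eval₂, ← hx]
    exact h3
  have h4 := congrArg (coeffEmb ℂ) h2
  rw [coeffEmb_aevalAeval, map_zero] at h4
  exact (aevalAeval_eq_zero_iff lconv_j hf _).mp h4

/-- **`q`-expansion principle, rational values.**  If moreover `j(τ₀)` is an `ℓ`-integral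
rational number and `Ψ(τ₀)` is rational, then `Ψ(τ₀)` is `ℓ`-integral. -/
theorem rat_value_mem (hℓM : ¬ ℓ ∣ M) (Ψ : AN M)
    (hΨ : ∀ g : SL(2, ℤ), g ∈ CongruenceSubgroup.Gamma0 M → tr M g Ψ = Ψ)
    (f : LaurentSeries (GaloisRep.ratLocalizedAt ℓ))
    (hf : LConv (coeffEmb ℂ (emb ℓ f)) (Ψ : ℍ → ℂ)) (τ₀ : ℍ)
    (j₀ : GaloisRep.ratLocalizedAt ℓ) (hj : jFun τ₀ = ((j₀ : ℚ) : ℂ))
    (r : ℚ) (hr : (Ψ : ℍ → ℂ) τ₀ = (r : ℂ)) : r ∈ GaloisRep.ratLocalizedAt ℓ := by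
  obtain ⟨P, hPm, hP⟩ := exists_monic_value M ℓ hℓM Ψ hΨ f hf
  have h1 := hP τ₀
  rw [hj, hr, toC] at h1
  have h2 : (P.map (mapRingHom (GaloisRep.ratLocalizedAt ℓ).subtype)).evalEval (j₀ : ℚ) r = 0 := by
    have h3 := Polynomial.map_mapRingHom_evalEval (algebraMap ℚ ℂ)
      (P.map (mapRingHom (GaloisRep.ratLocalizedAt ℓ).subtype)) (j₀ : ℚ) r
    have h4 : (algebraMap ℚ ℂ) ((P.map (mapRingHom (GaloisRep.ratLocalizedAt ℓ).subtype)).evalEval
        (j₀ : ℚ) r) = 0 := by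
      rw [← h3]
      exact h1
    exact (algebraMap ℚ ℂ).injective (h4.trans (map_zero _).symm)
  -- the univariate polynomial at `j = j₀`
  have h5 : (P.map (evalRingHom j₀)).eval₂ (GaloisRep.ratLocalizedAt ℓ).subtype r = 0 := by
    rw [Polynomial.eval₂_map]
    have hc : (GaloisRep.ratLocalizedAt ℓ).subtype.comp (evalRingHom j₀)
        = (evalRingHom (j₀ : ℚ)).comp (mapRingHom (GaloisRep.ratLocalizedAt ℓ).subtype) := by
      refine Polynomial.ringHom_ext (fun c => ?_) ?_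
      · simp
      · simp
    rw [hc, ← Polynomial.eval₂_map, Polynomial.eval₂_evalRingHom]
    exact h2
  have hint : IsIntegral (GaloisRep.ratLocalizedAt ℓ) r :=
    ⟨P.map (evalRingHom j₀), hPm.map _, h5⟩
  have hic := isIntegrallyClosed_ratLocalizedAt ℓ
  have hfr := isFractionRing_ratLocalizedAt ℓ
  obtain ⟨y, hy⟩ := (IsIntegrallyClosed.isIntegral_iff (R := GaloisRep.ratLocalizedAt ℓ) (K := ℚ)).1 hint
  rw [← hy]
  exact y.2

end Main

end Fermat.Agent.S16_QPrin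

end
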