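import Fermat.Agent.S24_Embed

/-!
# S23_Div (helper5): the division lemma

If `a, b : ℍ → ℂ` are holomorphic, `b ≢ 0`, and `a / b` satisfies a monic polynomial equation with
holomorphic coefficients (`a^d + ∑_{i<d} p_i a^i b^(d-i) = 0`), then `a = b c` with `c`
holomorphic (and `c` satisfies the monic equation).
-/

set_option autoImplicit false

noncomputable section

open UpperHalfPlane Filter
open scoped Manifold Topology

namespace Fermat.Agent.S23_Div

open Fermat.Agent.S24_Embed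

/-- the germ on `ℂ` of a function on `ℍ` -/
def gm (f : ℍ → ℂ) : ℂ → ℂ := fun z => f (ofComplex z)

theorem gm_coe (f : ℍ → ℂ) (τ : ℍ) : gm f (τ : ℂ) = f τ := by
  simp [gm, ofComplex_apply]

theorem analyticAt_gm {f : ℍ → ℂ} (hf : MDiff f) (τ : ℍ) : AnalyticAt ℂ (gm f) (τ : ℂ) :=
  analyticOnNhd_comp_ofComplex hf (τ : ℂ) τ.im_pos

/-- A root of a monic polynomial is bounded by `1 +` the sum of the norms of the coefficients. -/
theorem norm_le_of_monic_relation (d : ℕ) (x : ℂ) (c : ℕ → ℂ)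
    (h : x ^ d + ∑ i ∈ Finset.range d, c i * x ^ i = 0) :
    ‖x‖ ≤ 1 + ∑ i ∈ Finset.range d, ‖c i‖ := by
  have hC : 0 ≤ ∑ i ∈ Finset.range d, ‖c i‖ := Finset.sum_nonneg fun i _ => norm_nonneg _
  by_cases hx : ‖x‖ ≤ 1
  · linarith
  · rw [not_le] at hx
    rcases Nat.eq_zero_or_pos d with hd | hd
    · subst hd; simp at h
    have h1 : ‖x‖ ^ d ≤ (∑ i ∈ Finset.range d, ‖c i‖) * ‖x‖ ^ (d - 1) := by
      have e : x ^ d = - ∑ i ∈ Finset.range d, c i * x ^ i := eq_neg_of_add_eq_zero_left h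
      calc ‖x‖ ^ d = ‖x ^ d‖ := (norm_pow x d).symm
        _ = ‖∑ i ∈ Finset.range d, c i * x ^ i‖ := by rw [e, norm_neg]
        _ ≤ ∑ i ∈ Finset.range d, ‖c i * x ^ i‖ := norm_sum_le _ _
        _ ≤ ∑ i ∈ Finset.range d, ‖c i‖ * ‖x‖ ^ (d - 1) := by
          refine Finset.sum_le_sum fun i hi => ?_
          rw [norm_mul, norm_pow]
          refine mul_le_mul_of_nonneg_left ?_ (norm_nonneg _)
          exact pow_le_pow_right₀ hx.le (by have := Finset.mem_range.mp hi; omega)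
        _ = (∑ i ∈ Finset.range d, ‖c i‖) * ‖x‖ ^ (d - 1) := by rw [Finset.sum_mul]
    have h2 : ‖x‖ ^ d = ‖x‖ * ‖x‖ ^ (d - 1) := by
      rw [← pow_succ']; congr 1; omega
    rw [h2] at h1
    have h3 : 0 < ‖x‖ ^ (d - 1) := pow_pos (by linarith) _
    have h4 := le_of_mul_le_mul_right h1 h3
    linarith

/-- identity principle: `u v = 0` with `v ≢ 0` holomorphic and `u` continuous forces `u = 0`. -/
theorem eq_zero_of_mul_eq_zero {u v : ℍ → ℂ} (hu : ∀ τ : ℍ, ContinuousAt (gm u) (τ : ℂ))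
    (hv : MDiff v) (hv0 : v ≠ 0) (h : ∀ τ, u τ * v τ = 0) : ∀ τ, u τ = 0 := by
  intro τ
  have h1 := eventually_ne_zero hv hv0 τ
  have h2 : (gm u) =ᶠ[𝓝[≠] (τ : ℂ)] fun _ => (0 : ℂ) := by
    filter_upwards [h1] with w hw
    have := h (ofComplex w)
    rcases mul_eq_zero.mp this with h0 | h0
    · exact h0
    · exact absurd h0 hw
  have h3 := tendsto_nhds_unique_of_eventuallyEq ((hu τ).tendsto.mono_left nhdsWithin_le_nhds)
    (tendsto_const_nhds (x := (0 : ℂ)) (f := 𝓝[≠] (τ : ℂ))) h2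
  rw [gm_coe] at h3
  exact h3

/-- **Division lemma.** -/
theorem exists_mdiff_quotient (d : ℕ) (a b : ℍ → ℂ) (p : ℕ → ℍ → ℂ) (ha : MDiff a)
    (hb : MDiff b) (hb0 : b ≠ 0) (hp : ∀ i < d, MDiff (p i))
    (hrel : ∀ τ, a τ ^ d + ∑ i ∈ Finset.range d, p i τ * a τ ^ i * b τ ^ (d - i) = 0) :
    ∃ c : ℍ → ℂ, MDiff c ∧ (∀ τ, a τ = b τ * c τ) ∧
      ∀ τ, c τ ^ d + ∑ i ∈ Finset.range d, p i τ * c τ ^ i = 0 := by
  classical
  set φ : ℂ → ℂ := gm a * (gm b)⁻¹ with hφdef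
  have hmer : ∀ τ : ℍ, MeromorphicAt φ (τ : ℂ) := fun τ =>
    (analyticAt_gm ha τ).meromorphicAt.mul (analyticAt_gm hb τ).meromorphicAt.inv
  have hφ : MeromorphicOn φ upperHalfPlaneSet := fun z hz => hmer ⟨z, hz⟩
  -- the monic relation for `φ` near every point
  have hrelφ : ∀ τ : ℍ, ∀ᶠ w in 𝓝[≠] (τ : ℂ),
      φ w ^ d + ∑ i ∈ Finset.range d, gm (p i) w * φ w ^ i = 0 := by
    intro τ
    filter_upwards [eventually_ne_zero hb hb0 τ] with w hw
    have hw' : gm b w ≠ 0 := hw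
    have h := hrel (ofComplex w)
    have e : (φ w ^ d + ∑ i ∈ Finset.range d, gm (p i) w * φ w ^ i) * gm b w ^ d = 0 := by
      rw [add_mul, Finset.sum_mul, ← h]
      have hφw : ∀ k : ℕ, φ w ^ k * gm b w ^ k = gm a w ^ k := by
        intro k
        rw [hφdef]
        simp only [Pi.mul_apply, Pi.inv_apply]
        rw [mul_pow, inv_pow, mul_assoc, inv_mul_cancel₀ (pow_ne_zero k hw'), mul_one]
      congr 1
      · exact hφw d
      · refine Finset.sum_congr rfl fun i hi => ?_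
        have hi' : i ≤ d := (Finset.mem_range.mp hi).le
        have e2 : gm b w ^ d = gm b w ^ i * gm b w ^ (d - i) := by
          rw [← pow_add]; congr 1; omega
        rw [e2]
        show gm (p i) w * φ w ^ i * (gm b w ^ i * gm b w ^ (d - i))
          = gm (p i) w * gm a w ^ i * gm b w ^ (d - i)
        rw [← hφw i]; ring
    exact (mul_eq_zero.mp e).resolve_right (pow_ne_zero d hw')
  -- `φ` is bounded near every point, hence has nonnegative order
  have hordφ : ∀ τ : ℍ, 0 ≤ meromorphicOrderAt φ (τ : ℂ) := by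
    intro τ
    by_contra hneg
    rw [not_le] at hneg
    have htend := tendsto_cobounded_of_meromorphicOrderAt_neg hneg
    have hbd : ∀ᶠ w in 𝓝[≠] (τ : ℂ), ∀ i ∈ Finset.range d, ‖gm (p i) w‖ ≤ ‖gm (p i) (τ : ℂ)‖ + 1 := by
      rw [Filter.eventually_all_finset]
      intro i hi
      have hc : ContinuousAt (gm (p i)) (τ : ℂ) :=
        (analyticAt_gm (hp i (Finset.mem_range.mp hi)) τ).continuousAt
      have ht : Tendsto (fun w => ‖gm (p i) w‖) (𝓝[≠] (τ : ℂ)) (𝓝 ‖gm (p i) (τ : ℂ)‖) :=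
        hc.norm.tendsto.mono_left nhdsWithin_le_nhds
      exact ht.eventually_le_const (by linarith)
    set C₀ : ℝ := 1 + ∑ i ∈ Finset.range d, (‖gm (p i) (τ : ℂ)‖ + 1) with hC₀
    have hle : ∀ᶠ w in 𝓝[≠] (τ : ℂ), ‖φ w‖ ≤ C₀ := by
      filter_upwards [hrelφ τ, hbd] with w hw hw2
      refine (norm_le_of_monic_relation d (φ w) (fun i => gm (p i) w) hw).trans ?_
      rw [hC₀]
      have := Finset.sum_le_sum hw2
      linarith
    have hgt : ∀ᶠ w in 𝓝[≠] (τ : ℂ), C₀ < ‖φ w‖ := by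
      have := (tendsto_norm_cobounded_atTop.comp htend).eventually (Filter.eventually_gt_atTop C₀)
      exact this
    obtain ⟨w, hw1, hw2⟩ := (hle.and hgt).exists
    linarith
  set Φ : ℂ → ℂ := toMeromorphicNFOn φ upperHalfPlaneSet with hΦdef
  have hΦan : ∀ τ : ℍ, AnalyticAt ℂ Φ (τ : ℂ) := by
    intro τ
    have hnf := meromorphicNFOn_toMeromorphicNFOn φ upperHalfPlaneSet τ.im_pos
    rw [← hnf.meromorphicOrderAt_nonneg_iff_analyticAt,
      meromorphicOrderAt_toMeromorphicNFOn hφ τ.im_pos]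
    exact hordφ τ
  have hΦφ : ∀ τ : ℍ, Φ =ᶠ[𝓝[≠] (τ : ℂ)] φ := fun τ =>
    hφ.toMeromorphicNFOn_eq_self_on_nhdsNE τ.im_pos
  refine ⟨fun τ : ℍ => Φ (τ : ℂ), ?_, ?_, ?_⟩
  · rw [UpperHalfPlane.mdifferentiable_iff]
    have h1 : DifferentiableOn ℂ Φ upperHalfPlaneSet := fun z hz =>
      (hΦan ⟨z, hz⟩).differentiableAt.differentiableWithinAt
    refine h1.congr fun z hz => ?_
    simp only [Function.comp_apply, ofComplex_apply_of_im_pos hz]
  · intro τ
    have h3 : (fun w => gm b w * Φ w) =ᶠ[𝓝[≠] (τ : ℂ)] gm a := by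
      filter_upwards [hΦφ τ, eventually_ne_zero hb hb0 τ] with w hw1 hw2
      have hw2' : gm b w ≠ 0 := hw2
      rw [hw1, hφdef]
      simp only [Pi.mul_apply, Pi.inv_apply]
      field_simp
    have c1 : ContinuousAt (fun w => gm b w * Φ w) (τ : ℂ) :=
      (analyticAt_gm hb τ).continuousAt.mul (hΦan τ).continuousAt
    have c2 : ContinuousAt (gm a) (τ : ℂ) := (analyticAt_gm ha τ).continuousAt
    have h4 := tendsto_nhds_unique_of_eventuallyEq (c1.tendsto.mono_left nhdsWithin_le_nhds)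
      (c2.tendsto.mono_left nhdsWithin_le_nhds) h3
    simp only [gm_coe] at h4
    exact h4.symm
  · intro τ
    have h3 : (fun w => Φ w ^ d + ∑ i ∈ Finset.range d, gm (p i) w * Φ w ^ i)
        =ᶠ[𝓝[≠] (τ : ℂ)] fun _ => (0 : ℂ) := by
      filter_upwards [hΦφ τ, hrelφ τ] with w hw1 hw2
      rw [hw1]; exact hw2
    have c1 : ContinuousAt (fun w => Φ w ^ d + ∑ i ∈ Finset.range d, gm (p i) w * Φ w ^ i)
        (τ : ℂ) := by
      refine ((hΦan τ).continuousAt.pow d).add ?_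
      refine tendsto_finsetSum _ fun i hi => ?_
      exact ((analyticAt_gm (hp i (Finset.mem_range.mp hi)) τ).continuousAt.mul
        ((hΦan τ).continuousAt.pow i)).tendsto
    have h4 := tendsto_nhds_unique_of_eventuallyEq (c1.tendsto.mono_left nhdsWithin_le_nhds)
      (tendsto_const_nhds (x := (0 : ℂ)) (f := 𝓝[≠] (τ : ℂ))) h3
    simp only [gm_coe] at h4
    exact h4

end Fermat.Agent.S23_Div
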