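import Fermat.Agent.S24_JFun
import Fermat.Agent.S23_Div

/-!
# S23_Build (helper5): packaging a cusp form

A holomorphic weight-2 invariant function `g₀` on `Γ₀(N)` with `g₀⁶ = Ψ₂'·Δ`, where `Ψ₂'` satisfies
a monic equation over `ℂ[j]` with the cuspidal degree bounds, is (the function of) a cusp form.
-/

set_option autoImplicit false

noncomputable section

open Fermat.Agent.S24_Defs ModularCurve UpperHalfPlane Filter
open ModularForm EisensteinSeries
open scoped MatrixGroups ModularForm Manifold Topology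

namespace Fermat.Agent.S23_Build

/-- A root of a monic polynomial whose lower coefficients tend to zero tends to zero. -/
theorem tendsto_zero_of_monic_relation {α : Type*} (l : Filter α) (n : ℕ) (Y : α → ℂ)
    (c : ℕ → α → ℂ) (hc : ∀ i < n, Tendsto (c i) l (𝓝 0))
    (hrel : ∀ a, Y a ^ n + ∑ i ∈ Finset.range n, c i a * Y a ^ i = 0) :
    Tendsto Y l (𝓝 0) := by
  rw [Metric.tendsto_nhds]
  intro ε hε
  set δ : ℝ := ε / (n + 2) with hδ
  have hn2 : (0 : ℝ) < (n : ℝ) + 2 := by positivity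
  have hδpos : 0 < δ := div_pos hε hn2
  have hev : ∀ᶠ a in l, ∀ i ∈ Finset.range n, ‖c i a‖ ≤ δ ^ (n - i) := by
    rw [Filter.eventually_all_finset]
    intro i hi
    have h1 := hc i (Finset.mem_range.mp hi)
    rw [Metric.tendsto_nhds] at h1
    filter_upwards [h1 (δ ^ (n - i)) (pow_pos hδpos _)] with a ha
    rw [dist_zero_right] at ha
    exact ha.le
  filter_upwards [hev] with a ha
  rw [dist_zero_right]
  have hδne : (δ : ℂ) ≠ 0 := by exact_mod_cast hδpos.ne'
  have hZ : (Y a / δ) ^ n + ∑ i ∈ Finset.range n, (c i a / (δ : ℂ) ^ (n - i)) * (Y a / δ) ^ i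
      = 0 := by
    have e : ((Y a / δ) ^ n + ∑ i ∈ Finset.range n, (c i a / (δ : ℂ) ^ (n - i)) * (Y a / δ) ^ i)
        * (δ : ℂ) ^ n = 0 := by
      rw [add_mul, Finset.sum_mul, ← hrel a]
      congr 1
      · rw [div_pow, div_mul_cancel₀ _ (pow_ne_zero n hδne)]
      · refine Finset.sum_congr rfl fun i hi => ?_
        have hi' : i ≤ n := (Finset.mem_range.mp hi).le
        have e2 : (δ : ℂ) ^ n = (δ : ℂ) ^ (n - i) * (δ : ℂ) ^ i := by
          rw [← pow_add]; congr 1; omega
        rw [e2, div_pow]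
        field_simp
    exact (mul_eq_zero.mp e).resolve_right (pow_ne_zero n hδne)
  have hb := Fermat.Agent.S23_Div.norm_le_of_monic_relation n (Y a / δ)
    (fun i => c i a / (δ : ℂ) ^ (n - i)) hZ
  have hsum : ∑ i ∈ Finset.range n, ‖c i a / (δ : ℂ) ^ (n - i)‖ ≤ n := by
    have : ∑ i ∈ Finset.range n, ‖c i a / (δ : ℂ) ^ (n - i)‖ ≤ ∑ i ∈ Finset.range n, (1 : ℝ) := by
      refine Finset.sum_le_sum fun i hi => ?_
      rw [norm_div, norm_pow, Complex.norm_real, Real.norm_of_nonneg hδpos.le]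
      exact div_le_one_of_le₀ (ha i hi) (pow_pos hδpos _).le
    simpa using this
  have hY : ‖Y a‖ ≤ (1 + n) * δ := by
    have h1 : ‖Y a / δ‖ ≤ 1 + n := hb.trans (by linarith)
    rw [norm_div, Complex.norm_real, Real.norm_of_nonneg hδpos.le, div_le_iff₀ hδpos] at h1
    exact h1
  have hlt : (1 + (n : ℝ)) * δ < ε := by
    rw [hδ, ← mul_div_assoc, div_lt_iff₀ hn2]
    nlinarith
  linarith

/-- `Δ^(n-i) · p(j) → 0` at `i∞` when `deg p + i + 1 ≤ n`. -/
theorem tendsto_discriminant_pow_mul_eval (p : Polynomial ℂ) (m : ℕ) (hm : p.natDegree + 1 ≤ m) :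
    Tendsto (fun τ : ℍ => ModularForm.discriminant τ ^ m * p.eval (jFun τ)) atImInfty (𝓝 0) := by
  have hΔ := Fermat.Agent.S24_JBasic.tendsto_discriminant
  have hE := Fermat.Agent.S24_JBasic.tendsto_E₄
  have heq : (fun τ : ℍ => ModularForm.discriminant τ ^ m * p.eval (jFun τ))
      = fun τ : ℍ => ∑ k ∈ Finset.range (p.natDegree + 1),
          p.coeff k * (ModularForm.discriminant τ ^ (m - k) * E₄ τ ^ (3 * k)) := by
    funext τ
    rw [Polynomial.eval_eq_sum_range, Finset.mul_sum]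
    refine Finset.sum_congr rfl fun k hk => ?_
    have hk' : k ≤ m := by have := Finset.mem_range.mp hk; omega
    have e1 : ModularForm.discriminant τ ^ m
        = ModularForm.discriminant τ ^ (m - k) * ModularForm.discriminant τ ^ k := by
      rw [← pow_add]; congr 1; omega
    have e2 : E₄ τ ^ (3 * k) = (jFun τ * ModularForm.discriminant τ) ^ k := by
      rw [Fermat.Agent.S24_JFun.jFun_mul_discriminant, ← pow_mul]
    rw [e1, e2, mul_pow]; ring
  rw [heq]
  have hsum : Tendsto (fun τ : ℍ => ∑ k ∈ Finset.range (p.natDegree + 1),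
      p.coeff k * (ModularForm.discriminant τ ^ (m - k) * E₄ τ ^ (3 * k))) atImInfty
      (𝓝 (∑ k ∈ Finset.range (p.natDegree + 1), p.coeff k * ((0 : ℂ) ^ (m - k) * 1 ^ (3 * k)))) := by
    refine tendsto_finsetSum _ fun k hk => ?_
    exact ((hΔ.pow (m - k)).mul (hE.pow (3 * k))).const_mul _
  have hz : ∑ k ∈ Finset.range (p.natDegree + 1), p.coeff k * ((0 : ℂ) ^ (m - k) * 1 ^ (3 * k))
      = 0 := by
    refine Finset.sum_eq_zero fun k hk => ?_
    have hk' : m - k ≠ 0 := by have := Finset.mem_range.mp hk; omega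
    rw [zero_pow hk', zero_mul, mul_zero]
  rw [hz] at hsum
  exact hsum

/-- **Packaging a cusp form.** -/
theorem exists_cuspForm_of (N : ℕ) [NeZero N] (g₀ Ψ₂' : ℍ → ℂ) (hg₀ : MDiff g₀)
    (hinv : ∀ γ : SL(2, ℤ), γ ∈ CongruenceSubgroup.Gamma0 N → ∀ τ : ℍ,
      g₀ (γ • τ) = denom γ τ ^ (2 : ℤ) * g₀ τ)
    (h6 : ∀ τ : ℍ, g₀ τ ^ 6 = Ψ₂' τ * ModularForm.discriminant τ)
    (n : ℕ) (p : ℕ → Polynomial ℂ)
    (hrel : ∀ τ : ℍ, Ψ₂' τ ^ n + ∑ i ∈ Finset.range n, (p i).eval (jFun τ) * Ψ₂' τ ^ i = 0)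
    (hdeg : ∀ i < n, (p i).natDegree + i + 1 ≤ n) :
    ∃ g : CuspForm (CongruenceSubgroup.Gamma0 N) 2, ∀ τ : ℍ, g τ = g₀ τ := by
  have hslash : ∀ γ ∈ CongruenceSubgroup.Gamma0 N, g₀ ∣[(2 : ℤ)] γ = g₀ := by
    intro γ hγ
    funext z
    have h := hinv γ hγ z
    have hd : denom γ z ^ (2 : ℤ) ≠ 0 := zpow_ne_zero 2 (denom_ne_zero γ z)
    rw [SL_slash_apply, h, zpow_neg]
    field_simp
  have hcusp : ∀ γ : SL(2, ℤ), IsZeroAtImInfty (g₀ ∣[(2 : ℤ)] γ) := by
    intro γ
    -- `Y := (g₀ ∣ γ)⁶ = Δ · (Ψ₂' ∘ γ)`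
    have hY : ∀ τ : ℍ, (g₀ ∣[(2 : ℤ)] γ) τ ^ 6 = ModularForm.discriminant τ * Ψ₂' (γ • τ) := by
      intro τ
      have hd : denom γ τ ≠ 0 := denom_ne_zero γ τ
      rw [SL_slash_apply, mul_pow, h6 (γ • τ), Fermat.Agent.S24_JBasic.discriminant_smul]
      rw [zpow_neg, ← zpow_natCast (denom γ τ ^ (2 : ℤ))⁻¹ 6, inv_zpow, ← zpow_mul]
      have e : ((2 : ℤ) * ((6 : ℕ) : ℤ)) = 12 := by norm_num
      rw [e]
      have hd12 : denom γ τ ^ (12 : ℤ) ≠ 0 := zpow_ne_zero 12 hd
      field_simp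
    have hYtend : Tendsto (fun τ : ℍ => ModularForm.discriminant τ * Ψ₂' (γ • τ)) atImInfty
        (𝓝 0) := by
      refine tendsto_zero_of_monic_relation atImInfty n _
        (fun i τ => ModularForm.discriminant τ ^ (n - i) * (p i).eval (jFun τ)) ?_ ?_
      · intro i hi
        exact tendsto_discriminant_pow_mul_eval (p i) (n - i) (by have := hdeg i hi; omega)
      · intro τ
        have h := hrel (γ • τ)
        rw [Fermat.Agent.S24_JFun.jFun_smul] at h
        have e : (ModularForm.discriminant τ * Ψ₂' (γ • τ)) ^ n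
            + ∑ i ∈ Finset.range n, ModularForm.discriminant τ ^ (n - i) * (p i).eval (jFun τ)
              * (ModularForm.discriminant τ * Ψ₂' (γ • τ)) ^ i
            = ModularForm.discriminant τ ^ n * (Ψ₂' (γ • τ) ^ n
              + ∑ i ∈ Finset.range n, (p i).eval (jFun τ) * Ψ₂' (γ • τ) ^ i) := by
          rw [mul_add, Finset.mul_sum, mul_pow]
          congr 1
          refine Finset.sum_congr rfl fun i hi => ?_
          have hi' : i ≤ n := (Finset.mem_range.mp hi).le
          have e2 : ModularForm.discriminant τ ^ n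
              = ModularForm.discriminant τ ^ (n - i) * ModularForm.discriminant τ ^ i := by
            rw [← pow_add]; congr 1; omega
          rw [e2, mul_pow]; ring
        rw [e, h, mul_zero]
    show Tendsto (g₀ ∣[(2 : ℤ)] γ) atImInfty (𝓝 0)
    refine tendsto_zero_of_monic_relation atImInfty 6 _
      (fun i τ => if i = 0 then -(ModularForm.discriminant τ * Ψ₂' (γ • τ)) else 0) ?_ ?_
    · intro i hi
      by_cases h0 : i = 0
      · simp only [h0, if_true]
        simpa using hYtend.neg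
      · simp only [h0, if_false]
        exact tendsto_const_nhds
    · intro τ
      rw [Finset.sum_eq_single 0]
      · simp only [if_true, pow_zero, mul_one]
        rw [hY τ]; ring
      · intro i _ hi0
        simp only [hi0, if_false, zero_mul]
      · intro h; exact absurd (Finset.mem_range.mpr (by norm_num)) h
  refine ⟨{ toFun := g₀
            slash_action_eq' := ?_
            holo' := hg₀
            zero_at_cusps' := ?_ }, fun τ => rfl⟩
  · rintro _ ⟨γ, hγ, rfl⟩
    exact hslash γ hγ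
  · intro c hc
    rw [Subgroup.IsArithmetic.isCusp_iff_isCusp_SL2Z] at hc
    rw [OnePoint.isZeroAt_iff_forall_SL2Z hc]
    intro γ _
    exact hcusp γ

end Fermat.Agent.S23_Build
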