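import Fermat.Agent.S23_Interp

/-!
# S23_InterpVars (helper9): (A2) with the variables restricted to `X d`, `d ∣ N`
-/

set_option autoImplicit false

noncomputable section

open Fermat.Agent.S24_Defs Fermat.Agent.S24_Embed ModularCurve UpperHalfPlane Filter
open scoped MatrixGroups ModularForm Manifold Topology

namespace Fermat.Agent.S23_InterpVars

open Fermat.Agent.S24_DegreeOf (jS_one)

theorem eval_rename (N : ℕ) (G : MvPolynomial (Fin 2) ℂ) (τ : ℍ) :
    MvPolynomial.eval (fun d => jS d τ) (MvPolynomial.rename ![1, N] G)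
      = MvPolynomial.eval ![jFun τ, jS N τ] G := by
  have hfun : (fun d => jS d τ) ∘ ![1, N] = ![jFun τ, jS N τ] := by
    funext i
    fin_cases i
    · simp [jS_one]
    · simp
  rw [MvPolynomial.eval_rename, hfun]

theorem dvd_of_mem_vars_rename (N : ℕ) (G : MvPolynomial (Fin 2) ℂ) :
    ∀ d ∈ (MvPolynomial.rename ![1, N] G).vars, d ∣ N := by
  classical
  intro d hd
  have h := MvPolynomial.vars_rename ![1, N] G hd
  rw [Finset.mem_image] at h
  obtain ⟨i, -, rfl⟩ := h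
  fin_cases i
  · simp
  · simp

theorem exists_interp_vars (N : ℕ) [NeZero N] :
    ∃ G₁ : MvPolynomial ℕ ℂ, (∀ d ∈ G₁.vars, d ∣ N) ∧
      (∃ τ : ℍ, MvPolynomial.eval (fun d => jS d τ) G₁ ≠ 0) ∧
      ∀ Ψ : AN N, (∀ g : SL(2, ℤ), g ∈ CongruenceSubgroup.Gamma0 N → tr N g Ψ = Ψ) →
        ∃ G : MvPolynomial ℕ ℂ, (∀ d ∈ G.vars, d ∣ N) ∧ ∀ τ : ℍ,
          (Ψ : ℍ → ℂ) τ * MvPolynomial.eval (fun d => jS d τ) G₁
            = MvPolynomial.eval (fun d => jS d τ) G := by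
  obtain ⟨D, hD0, hD⟩ := Fermat.Agent.S23_Interp.exists_interp_aux₂ N
  obtain ⟨G₁, hG₁⟩ := hD 1 (fun g _ => map_one _)
  have hG₁' : ∀ τ : ℍ, (D : ℍ → ℂ) τ
      = MvPolynomial.eval (fun d => jS d τ) (MvPolynomial.rename ![1, N] G₁) := by
    intro τ
    have := hG₁ τ
    rw [eval_rename]
    simpa using this
  refine ⟨MvPolynomial.rename ![1, N] G₁, dvd_of_mem_vars_rename N G₁, ?_, fun Ψ hΨ => ?_⟩
  · by_contra hcon
    apply hD0
    refine Subtype.ext (funext fun τ => ?_)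
    rw [hG₁' τ]
    by_contra h
    exact hcon ⟨τ, h⟩
  · obtain ⟨G, hG⟩ := hD Ψ hΨ
    exact ⟨MvPolynomial.rename ![1, N] G, dvd_of_mem_vars_rename N G,
      fun τ => by rw [← hG₁' τ, hG τ, eval_rename]⟩

end Fermat.Agent.S23_InterpVars

end
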