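import Fermat.Agent.S23_Conj
import Fermat.Agent.S23_InterpVars
import Fermat.Agent.S23_Div

/-!
# S23_Exists (helper3): existence of holomorphic conjugates

For a `Γ₀(N)`-invariant nice function `Ψ = G/G₁` (`G₁, G` polynomials in `j(τ), j(Nτ)`) satisfying a
monic equation over `ℂ[j]`, the conjugate `Ψ' = G^σ/G₁^σ` is holomorphic on `ℍ` and satisfies the
conjugated monic equation: the relation `G^n + Σ pᵢ(j) Gⁱ G₁^(n-i) = 0` between the `j(dτ)` is
conjugated by `S23_RelConj.relation_conj`, and the division lemma `S23_Div.exists_mdiff_quotient`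
makes the quotient holomorphic.
-/

set_option autoImplicit false

noncomputable section

open Fermat.Agent.S24_Defs Fermat.Agent.S24_Embed Fermat.Agent.S23_Defs ModularCurve UpperHalfPlane
  Filter
open scoped MatrixGroups ModularForm Manifold Topology

namespace Fermat.Agent.S23_Exists

open Fermat.Agent.S23_Conj

/-- conjugation commutes with substituting `X 1` into a one-variable polynomial -/
theorem map_aeval_X_one (σ : ℂ →+* ℂ) (p : Polynomial ℂ) :
    MvPolynomial.map σ (Polynomial.aeval (MvPolynomial.X 1 : MvPolynomial ℕ ℂ) p)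
      = Polynomial.aeval (MvPolynomial.X 1 : MvPolynomial ℕ ℂ) (p.map σ) := by
  induction p using Polynomial.induction_on' with
  | add p q hp hq => simp [hp, hq]
  | monomial n a =>
    simp [Polynomial.aeval_monomial, MvPolynomial.algebraMap_eq]

theorem eval_map_aeval_X_one (σ : ℂ →+* ℂ) (p : Polynomial ℂ) (τ : ℍ) :
    MvPolynomial.eval (fun d => jS d τ)
      (MvPolynomial.map σ (Polynomial.aeval (MvPolynomial.X 1 : MvPolynomial ℕ ℂ) p))
      = (p.map σ).eval (jFun τ) := by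
  rw [map_aeval_X_one, Fermat.Agent.S23_Interp.eval_aeval_X_one,
    Fermat.Agent.S24_DegreeOf.jS_one]

theorem mdiff_eval_jFun (p : Polynomial ℂ) : MDiff (fun τ : ℍ => p.eval (jFun τ)) := by
  have h := mdiff_evJ (Polynomial.aeval (MvPolynomial.X 1 : MvPolynomial ℕ ℂ) p)
  have e : (fun τ : ℍ => evJ (Polynomial.aeval (MvPolynomial.X 1 : MvPolynomial ℕ ℂ) p) τ)
      = fun τ : ℍ => p.eval (jFun τ) := by
    funext τ
    rw [evJ, Fermat.Agent.S23_Interp.eval_aeval_X_one, Fermat.Agent.S24_DegreeOf.jS_one]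
  rwa [e] at h

/-- the algebraic identity behind the relation polynomial -/
theorem monic_identity (n : ℕ) (x g : ℂ) (c : ℕ → ℂ) :
    (x * g) ^ n + ∑ i ∈ Finset.range n, c i * (x * g) ^ i * g ^ (n - i)
      = g ^ n * (x ^ n + ∑ i ∈ Finset.range n, c i * x ^ i) := by
  rw [mul_add, Finset.mul_sum, mul_pow]
  congr 1
  · ring
  · refine Finset.sum_congr rfl fun i hi => ?_
    have hi' : i ≤ n := (Finset.mem_range.mp hi).le
    have : g ^ n = g ^ i * g ^ (n - i) := by rw [← pow_add, Nat.add_sub_cancel' hi']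
    rw [this, mul_pow]
    ring

/-- (A5) existence of the holomorphic conjugate of a `Γ₀(N)`-invariant nice function, together
with the conjugated monic relation over `ℂ[j]`. -/
theorem exists_isConj_monic (N : ℕ) [NeZero N] (σ : ℂ ≃+* ℂ) (Ψ : AN N)
    (hΨ : ∀ g : SL(2, ℤ), g ∈ CongruenceSubgroup.Gamma0 N → tr N g Ψ = Ψ)
    (n : ℕ) (p : ℕ → Polynomial ℂ)
    (hrel : ∀ τ : ℍ, (Ψ : ℍ → ℂ) τ ^ n
      + ∑ i ∈ Finset.range n, (p i).eval (jFun τ) * (Ψ : ℍ → ℂ) τ ^ i = 0) :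
    ∃ Ψ' : ℍ → ℂ, MDiff Ψ' ∧ IsConj N σ (Ψ : ℍ → ℂ) Ψ' ∧
      ∀ τ : ℍ, Ψ' τ ^ n + ∑ i ∈ Finset.range n,
        ((p i).map (σ : ℂ →+* ℂ)).eval (jFun τ) * Ψ' τ ^ i = 0 := by
  obtain ⟨G₁, hv₁, hne, hG⟩ := Fermat.Agent.S23_InterpVars.exists_interp_vars N
  obtain ⟨G, hv, hΨG⟩ := hG Ψ hΨ
  -- the relation polynomial
  set H : MvPolynomial ℕ ℂ := G ^ n + ∑ i ∈ Finset.range n,
    Polynomial.aeval (MvPolynomial.X 1 : MvPolynomial ℕ ℂ) (p i) * G ^ i * G₁ ^ (n - i) with hH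
  have hH0 : ∀ τ : ℍ, MvPolynomial.eval (fun d => jS d τ) H = 0 := by
    intro τ
    simp only [hH, map_add, map_pow, map_sum, map_mul,
      Fermat.Agent.S23_Interp.eval_aeval_X_one, Fermat.Agent.S24_DegreeOf.jS_one]
    rw [← hΨG τ, monic_identity, hrel τ, mul_zero]
  have hH0' := Fermat.Agent.S23_RelConj.relation_conj σ H hH0
  have hb0 : (fun τ : ℍ => evJ (cj σ G₁) τ) ≠ 0 := by
    obtain ⟨τ, hτ⟩ := evJ_cj_ne_zero σ G₁ hne
    intro h
    exact hτ (congrFun h τ)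
  obtain ⟨c, mc, hac, hcrel⟩ := Fermat.Agent.S23_Div.exists_mdiff_quotient n
    (fun τ => evJ (cj σ G) τ) (fun τ => evJ (cj σ G₁) τ)
    (fun i τ => ((p i).map (σ : ℂ →+* ℂ)).eval (jFun τ)) (mdiff_evJ _) (mdiff_evJ _) hb0
    (fun i _ => mdiff_eval_jFun _) (fun τ => by
      have h := hH0' τ
      simp only [hH, map_add, map_pow, map_sum, map_mul, eval_map_aeval_X_one] at h
      exact h)
  refine ⟨c, mc, ⟨G₁, G, hv₁, hv, hne, hΨG, fun τ => ?_⟩, hcrel⟩
  have := hac τ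
  simp only [evJ, cj] at this
  rw [this]
  ring

/-- (A5) existence of the holomorphic conjugate of a `Γ₀(N)`-invariant nice function. -/
theorem exists_isConj (N : ℕ) [NeZero N] (σ : ℂ ≃+* ℂ) (Ψ : AN N)
    (hΨ : ∀ g : SL(2, ℤ), g ∈ CongruenceSubgroup.Gamma0 N → tr N g Ψ = Ψ) :
    ∃ Ψ' : ℍ → ℂ, MDiff Ψ' ∧ IsConj N σ (Ψ : ℍ → ℂ) Ψ' := by
  obtain ⟨p, hrel, -⟩ := Fermat.Agent.S23_Interp.exists_monic_relation N Ψ hΨ
  obtain ⟨Ψ', m, c, -⟩ := exists_isConj_monic N σ Ψ hΨ _ p hrel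
  exact ⟨Ψ', m, c⟩

end Fermat.Agent.S23_Exists

end
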