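import Fermat.Agent.S24_JFun
import Fermat.Agent.S23_Div

/-!
# S23_Root (helper8): the sixth root `g₀ = Ψ₁' · Δ / (E₄ E₆)`

From holomorphic `Ψ₁, Ψ₂` on `ℍ` with `Ψ₁⁶ = Ψ₂ · j² (j - 1728)³` we produce a holomorphic `g₀` with
`Ψ₁ · Δ = E₄ · E₆ · g₀` and `g₀⁶ = Ψ₂ · Δ`; if `Ψ₁` is invariant under `γ`, then `g₀` transforms
with weight `2` under `γ`.
-/

set_option autoImplicit false

noncomputable section

open Fermat.Agent.S24_Defs Fermat.Agent.S24_Embed ModularCurve UpperHalfPlane Filter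
open ModularForm EisensteinSeries
open scoped MatrixGroups ModularForm Manifold Topology

namespace Fermat.Agent.S23_Root

local notation "Δ" => ModularForm.discriminant

theorem E₄_mul_E₆_ne_zero : (fun τ : ℍ => E₄ τ * E₆ τ) ≠ 0 := by
  obtain ⟨z, h4, h6⟩ := Fermat.Agent.S24_JFun.exists_E₄_E₆_ne_zero
  intro h
  exact mul_ne_zero h4 h6 (congrFun h z)

theorem mdiff_E₄_mul_E₆ : MDiff (fun τ : ℍ => E₄ τ * E₆ τ) :=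
  Fermat.Agent.S24_JFun.mdifferentiable_E₄.mul Fermat.Agent.S24_JFun.mdifferentiable_E₆

/-- The algebraic identity behind the sixth root. -/
theorem pow_six_identity (Ψ₁ Ψ₂ : ℍ → ℂ)
    (hrel : ∀ τ : ℍ, Ψ₁ τ ^ 6 = Ψ₂ τ * (jFun τ ^ 2 * (jFun τ - 1728) ^ 3)) (τ : ℍ) :
    (Ψ₁ τ * Δ τ) ^ 6 = Ψ₂ τ * Δ τ * (E₄ τ * E₆ τ) ^ 6 := by
  have hD : Δ τ ≠ 0 := ModularForm.discriminant_ne_zero τ
  have h1 : jFun τ * Δ τ = E₄ τ ^ 3 := Fermat.Agent.S24_JFun.jFun_mul_discriminant τ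
  have h2 : (jFun τ - 1728) * Δ τ = E₆ τ ^ 2 := by
    rw [Fermat.Agent.S24_JFun.jFun_sub_1728, div_mul_cancel₀ _ hD]
  calc (Ψ₁ τ * Δ τ) ^ 6 = Ψ₁ τ ^ 6 * Δ τ ^ 6 := by ring
    _ = Ψ₂ τ * Δ τ * ((jFun τ * Δ τ) ^ 2 * ((jFun τ - 1728) * Δ τ) ^ 3) := by
        rw [hrel τ]; ring
    _ = Ψ₂ τ * Δ τ * (E₄ τ * E₆ τ) ^ 6 := by rw [h1, h2]; ring

/-- Existence of the holomorphic sixth root. -/
theorem exists_root_aux (Ψ₁ Ψ₂ : ℍ → ℂ) (h1 : MDiff Ψ₁) (h2 : MDiff Ψ₂)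
    (hrel : ∀ τ : ℍ, Ψ₁ τ ^ 6 = Ψ₂ τ * (jFun τ ^ 2 * (jFun τ - 1728) ^ 3)) :
    ∃ g₀ : ℍ → ℂ, MDiff g₀ ∧ (∀ τ : ℍ, Ψ₁ τ * Δ τ = E₄ τ * E₆ τ * g₀ τ) ∧
      (∀ τ : ℍ, g₀ τ ^ 6 = Ψ₂ τ * Δ τ) := by
  have hΔ : MDiff (fun τ : ℍ => Δ τ) := Fermat.Agent.S24_JFun.mdifferentiable_discriminant
  have ha : MDiff (fun τ : ℍ => Ψ₁ τ * Δ τ) := h1.mul hΔ
  have hp0 : MDiff (fun τ : ℍ => -(Ψ₂ τ * Δ τ)) := (h2.mul hΔ).neg
  obtain ⟨c, hc, hac, hc6⟩ := Fermat.Agent.S23_Div.exists_mdiff_quotient 6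
    (fun τ => Ψ₁ τ * Δ τ) (fun τ => E₄ τ * E₆ τ)
    (fun i => if i = 0 then fun τ => -(Ψ₂ τ * Δ τ) else 0) ha mdiff_E₄_mul_E₆ E₄_mul_E₆_ne_zero
    (fun i _ => by
      by_cases hi : i = 0
      · simp only [hi, if_true]; exact hp0
      · simp only [hi, if_false]; exact mdifferentiable_const)
    (fun τ => by
      have h := pow_six_identity Ψ₁ Ψ₂ hrel τ
      simp only [Finset.sum_range_succ, Finset.sum_range_zero]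
      simp
      linear_combination h)
  refine ⟨c, hc, hac, fun τ => ?_⟩
  have h := hc6 τ
  simp only [Finset.sum_range_succ, Finset.sum_range_zero] at h
  simp at h
  linear_combination h

/-- Weight-2 transformation of the sixth root under every `γ` fixing `Ψ₁`. -/
theorem root_smul (Ψ₁ g₀ : ℍ → ℂ) (hg : MDiff g₀)
    (hg₀ : ∀ τ : ℍ, Ψ₁ τ * Δ τ = E₄ τ * E₆ τ * g₀ τ)
    (γ : SL(2, ℤ)) (hγ : ∀ τ : ℍ, Ψ₁ (γ • τ) = Ψ₁ τ) (τ : ℍ) :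
    g₀ (γ • τ) = denom γ τ ^ 2 * g₀ τ := by
  have hsm : MDiff (fun τ : ℍ => γ • τ) := by
    have := UpperHalfPlane.mdifferentiable_smul (g := ((γ : SL(2, ℤ)) : GL (Fin 2) ℝ))
      (by simp)
    exact this
  have hF : MDiff (fun τ : ℍ => g₀ (γ • τ) - denom γ τ ^ 2 * g₀ τ) := by
    have h1 : MDiff (fun τ : ℍ => g₀ (γ • τ)) := hg.comp hsm
    have h2 : MDiff (fun τ : ℍ => denom γ τ ^ 2) :=
      (UpperHalfPlane.mdifferentiable_denom ((γ : SL(2, ℤ)) : GL (Fin 2) ℝ)).pow 2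
    exact h1.sub (h2.mul hg)
  have key := Fermat.Agent.S23_Div.eq_zero_of_mul_eq_zero
    (u := fun τ : ℍ => g₀ (γ • τ) - denom γ τ ^ 2 * g₀ τ) (v := fun τ : ℍ => E₄ τ * E₆ τ)
    (fun τ => (Fermat.Agent.S23_Div.analyticAt_gm hF τ).continuousAt) mdiff_E₄_mul_E₆
    E₄_mul_E₆_ne_zero (fun z => by
      have hd : denom γ z ≠ 0 := denom_ne_zero γ z
      have e1 := hg₀ (γ • z)
      have e2 := hg₀ z
      rw [hγ z, Fermat.Agent.S24_JBasic.discriminant_smul, Fermat.Agent.S24_JBasic.E₄_smul,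
        Fermat.Agent.S24_JBasic.E₆_smul] at e1
      have e3 : denom γ z ^ 10 * ((g₀ (γ • z) - denom γ z ^ 2 * g₀ z) * (E₄ z * E₆ z)) = 0 := by
        have e1' : Ψ₁ z * (denom γ z ^ 12 * Δ z)
            = denom γ z ^ 4 * E₄ z * (denom γ z ^ 6 * E₆ z) * g₀ (γ • z) := by
          exact_mod_cast e1
        linear_combination -e1' + denom γ z ^ 12 * e2
      exact (mul_eq_zero.mp e3).resolve_left (pow_ne_zero _ hd))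
  have := key τ
  exact sub_eq_zero.mp this

/-- **Row `S23_Root`.** From holomorphic `Ψ₁', Ψ₂'` with `Ψ₁'⁶ = Ψ₂' · j² (j - 1728)³` and
`Γ₀(N)`-invariance of `Ψ₁'`: a holomorphic `g₀` with `Ψ₁' · Δ = E₄ · E₆ · g₀`, `g₀⁶ = Ψ₂' · Δ`,
transforming with weight `2` under `Γ₀(N)`. -/
theorem exists_root (N : ℕ) [NeZero N] (Ψ₁' Ψ₂' : ℍ → ℂ) (h1 : MDiff Ψ₁') (h2 : MDiff Ψ₂')
    (hrel : ∀ τ, Ψ₁' τ ^ 6 = Ψ₂' τ * (jFun τ ^ 2 * (jFun τ - 1728) ^ 3))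
    (hinv : ∀ g : SL(2, ℤ), g ∈ CongruenceSubgroup.Gamma0 N → ∀ τ, Ψ₁' (g • τ) = Ψ₁' τ) :
    ∃ g₀ : ℍ → ℂ, MDiff g₀ ∧
      (∀ τ, Ψ₁' τ * ModularForm.discriminant τ = E₄ τ * E₆ τ * g₀ τ) ∧
      (∀ τ, g₀ τ ^ 6 = Ψ₂' τ * ModularForm.discriminant τ) ∧
      (∀ γ : SL(2, ℤ), γ ∈ CongruenceSubgroup.Gamma0 N → ∀ τ,
        g₀ (γ • τ) = denom γ τ ^ (2 : ℤ) * g₀ τ) := by
  obtain ⟨g₀, hg, hg₀, hg6⟩ := exists_root_aux Ψ₁' Ψ₂' h1 h2 hrel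
  refine ⟨g₀, hg, hg₀, hg6, fun γ hγ τ => ?_⟩
  rw [root_smul Ψ₁' g₀ hg hg₀ γ (hinv γ hγ) τ, zpow_ofNat]

end Fermat.Agent.S23_Root

end
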