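import Fermat.Agent.S23_Conj
import Fermat.Agent.S23_Nice
import Fermat.Agent.S23_Root
import Fermat.Agent.S23_QExp
import Fermat.Agent.S23_Exists
import Fermat.Agent.S23_Build

/-!
# S23_Gal (helper3): `S₂(Γ₀(N))` is stable under `Aut(ℂ)` acting on `q`-expansion coefficients

For a cusp form `f` of weight `2` on `Γ₀(N)` and `σ ∈ Aut(ℂ)` there is a cusp form `g` with
`aₙ(g) = σ(aₙ(f))`.  Proof: `Ψ₁ = f E₄ E₆/Δ` and `Ψ₂ = f⁶/Δ` are `Γ₀(N)`-invariant nice functions,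
hence rational in `j(τ), j(Nτ)` (`S23_Interp`); their coefficientwise conjugates `Ψ₁', Ψ₂'` are
holomorphic (`S23_Exists`), `Γ₀(N)`-invariant and satisfy `Ψ₁'⁶ = Ψ₂' j²(j - 1728)³`
(`S23_Conj`); `g₀ = Ψ₁' Δ/(E₄ E₆)` is holomorphic of weight `2` with `g₀⁶ = Ψ₂' Δ` (`S23_Root`) and
vanishes at all cusps by the conjugated monic relation of `Ψ₂'` over `ℂ[j]` (`S23_Build`); its
`q`-expansion is the conjugate of that of `f` (`S23_QExp`).
-/

set_option autoImplicit false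
noncomputable section

open Fermat.Agent.S24_Defs Fermat.Agent.S24_Embed ModularCurve UpperHalfPlane Filter
open ModularForm EisensteinSeries
open scoped MatrixGroups ModularForm Manifold Topology

open Fermat.Agent.S23_Defs

namespace Fermat.Agent.S23_Gal

open Fermat.Agent.S23_Conj Fermat.Agent.S23_Nice

theorem exists_conj (N : ℕ) [NeZero N] (σ : ℂ ≃+* ℂ)
    (f : CuspForm (CongruenceSubgroup.Gamma0 N) 2) :
    ∃ g : CuspForm (CongruenceSubgroup.Gamma0 N) 2,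
      ∀ n : ℕ, ModularFormClass.qCoeff g n = σ (ModularFormClass.qCoeff f n) := by
  -- the two invariant nice functions
  set Ψ₁ : AN N := ⟨psi1 f, psi1_mem N f⟩ with hΨ₁
  set Ψ₂ : AN N := ⟨psi2 f, psi2_mem N f⟩ with hΨ₂
  have inv1 : ∀ g : SL(2, ℤ), g ∈ CongruenceSubgroup.Gamma0 N → tr N g Ψ₁ = Ψ₁ :=
    fun g hg => tr_psi1 N f g hg
  have inv2 : ∀ g : SL(2, ℤ), g ∈ CongruenceSubgroup.Gamma0 N → tr N g Ψ₂ = Ψ₂ :=
    fun g hg => tr_psi2 N f g hg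
  -- monic relation of Ψ₂ over ℂ[j] with the cuspidal degree bounds
  obtain ⟨p, hrel, hdeg⟩ := Fermat.Agent.S23_Interp.exists_monic_relation N Ψ₂ inv2
  have hdeg' := hdeg (fun g => tendsto_psi2 N f g)
  -- conjugates
  obtain ⟨Ψ₂', m2, c2, hrel'⟩ :=
    Fermat.Agent.S23_Exists.exists_isConj_monic N σ Ψ₂ inv2 _ p hrel
  obtain ⟨Ψ₁', m1, c1⟩ := Fermat.Agent.S23_Exists.exists_isConj N σ Ψ₁ inv1
  -- the relation Ψ₁'⁶ = Ψ₂' j² (j - 1728)³
  have rel' : ∀ τ, Ψ₁' τ ^ 6 = Ψ₂' τ * (jFun τ ^ 2 * (jFun τ - 1728) ^ 3) :=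
    IsConj.rel6 c1 c2 m1.continuous m2.continuous (fun τ => psi_rel f τ)
  -- the sixth root
  obtain ⟨g₀, mg, e1, e6, hw⟩ := Fermat.Agent.S23_Root.exists_root N Ψ₁' Ψ₂' m1 m2 rel'
    (fun g hg τ => IsConj.smul_eq c1 m1.continuous g hg τ)
  -- the cusp form
  obtain ⟨g, hg⟩ := Fermat.Agent.S23_Build.exists_cuspForm_of N g₀ Ψ₂' mg hw e6 _
    (fun i => (p i).map (σ : ℂ →+* ℂ)) hrel' (fun i hi => by
      rw [Polynomial.natDegree_map_eq_of_injective (RingHom.injective _)]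
      exact hdeg' i hi)
  refine ⟨g, Fermat.Agent.S23_QExp.qCoeff_eq_of_isConj N σ f g ?_⟩
  have hpsi : psi1 g = Ψ₁' := by
    funext τ
    have hΔ : ModularForm.discriminant τ ≠ 0 := ModularForm.discriminant_ne_zero τ
    rw [psi1_apply, hg τ, div_eq_iff hΔ, e1 τ]
    ring
  rw [hpsi]
  exact c1

end Fermat.Agent.S23_Gal
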