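-- Statement S23: S_2(Gamma0(N)) has an integral structure.
-- Assembly: finiteness of the Hecke algebra (S22) + stability of S_2(Gamma0(N)) under the
-- automorphisms of the complex numbers acting on q-expansion coefficients (S23_Gal)
-- + Galois descent in coordinates and Hecke duality (S23_Hecke).
import Fermat.Statements.S23
import Fermat.Agent.S22
import Fermat.Agent.S23_Hecke
import Fermat.Agent.S23_Gal

set_option autoImplicit false
open CuspForm

namespace Fermat.Agent.S23

theorem result (N : ℕ) [NeZero N] : CuspForm.HasIntegralStructure N 2 :=
  Fermat.Agent.S23_Hecke.hasIntegralStructure_of_conj N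
    (Fermat.Agent.S22.result N 2 (∅ : Set ℕ))
    (fun σ f => Fermat.Agent.S23_Gal.exists_conj N σ f)

end Fermat.Agent.S23
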