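import Fermat.Statements.S16
import Fermat.Agent.S23

/-!
# S16, block RED: the frozen cardinality statement from the two Eisenstein-character facts

`HeckeAlg = ℤ[X_ℓ]`, `ψ : HeckeAlg → heckeLatticeAlgebra p ∅` (surjective),
`χ := aeval (eisensteinSystem p) : HeckeAlg → ℤ` (surjective, kernel `eisensteinIdeal p`).
Then `T_lat / ψ(ker χ) ≃ ℤ / χ(ker ψ)`, so the statement follows from
* (LB) `t` kills `S₂(Γ₀(p))`  ⟹  `n ∣ χ t`;
* (UB) some `t` killing `S₂(Γ₀(p))` has `χ t = n`.
-/

set_option autoImplicit false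

open ModularCurve CuspForm

namespace Fermat.Agent.S16_Red

noncomputable section

variable (p : ℕ) [Fact p.Prime]

instance neZero_of_fact_prime : NeZero p := ⟨(Fact.out : p.Prime).ne_zero⟩

/-- the Eisenstein character `χ : HeckeAlg → ℤ`. -/
def chiE : HeckeAlg →+* ℤ := (MvPolynomial.aeval (R := ℤ) (eisensteinSystem p)).toRingHom

omit [Fact p.Prime] in
theorem chiE_apply (t : HeckeAlg) : chiE p t = MvPolynomial.aeval (eisensteinSystem p) t := rfl

omit [Fact p.Prime] in
theorem chiE_C (a : ℤ) : chiE p (MvPolynomial.C a) = a := by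
  rw [chiE_apply, MvPolynomial.aeval_C]; rfl

omit [Fact p.Prime] in
theorem ker_chiE : RingHom.ker (chiE p) = eisensteinIdeal p := rfl

/-- the composite `ψ : HeckeAlg → heckeLatticeAlgebra p ∅` of the frozen statement. -/
def psi : HeckeAlg →+* ↥(heckeLatticeAlgebra p ∅) :=
  (latticeRestrictHom p ∅).toRingHom.comp (heckeEvalForms p 2)

theorem heckeEvalForms_surjective : Function.Surjective (heckeEvalForms p 2) := by
  have key : ∀ T ∈ heckeAlgebra p 2 ∅, ∃ t : HeckeAlg,
      ((heckeEvalForms p 2 t : ↥(heckeAlgebra p 2 ∅)) :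
        Module.End ℂ (CuspForm (CongruenceSubgroup.Gamma0 p) 2)) = T := by
    intro T hT
    induction hT using Algebra.adjoin_induction with
    | mem T hT =>
      rcases hT with ⟨ℓ, hℓ, hℓN, hℓS, rfl⟩ | ⟨q, hqN, hq, hqS, rfl⟩
      · refine ⟨heckeGen (⟨ℓ, hℓ⟩ : Nat.Primes), ?_⟩
        rw [heckeEvalForms_heckeGen_of_not_dvd (N := p) (k := 2) (ℓ := (⟨ℓ, hℓ⟩ : Nat.Primes)) hℓN]
        rfl
      · refine ⟨heckeGen (⟨q, hq⟩ : Nat.Primes), ?_⟩
        rw [heckeEvalForms_heckeGen_of_dvd (N := p) (k := 2) (q := (⟨q, hq⟩ : Nat.Primes)) hqN]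
        rfl
    | algebraMap r =>
      refine ⟨MvPolynomial.C r, ?_⟩
      rw [heckeEvalForms_C]
      rfl
    | add x y _ _ hx hy =>
      obtain ⟨tx, rfl⟩ := hx
      obtain ⟨ty, rfl⟩ := hy
      exact ⟨tx + ty, by rw [map_add]; rfl⟩
    | mul x y _ _ hx hy =>
      obtain ⟨tx, rfl⟩ := hx
      obtain ⟨ty, rfl⟩ := hy
      exact ⟨tx * ty, by rw [map_mul]; rfl⟩
  intro ⟨T, hT⟩
  obtain ⟨t, ht⟩ := key T hT
  exact ⟨t, Subtype.ext ht⟩

theorem psi_surjective : Function.Surjective (psi p) :=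
  (latticeRestrictHom_surjective p ∅).comp (heckeEvalForms_surjective p)

theorem psi_eq_zero_iff (t : HeckeAlg) : psi p t = 0 ↔ heckeEvalForms p 2 t = 0 := by
  have hbij := latticeRestrictHom_bijective p ∅ (Fermat.Agent.S23.result p)
  constructor
  · intro h
    apply hbij.1
    rw [map_zero]
    exact h
  · intro h
    show (latticeRestrictHom p ∅) (heckeEvalForms p 2 t) = 0
    rw [h, map_zero]

/-- **Block RED.** The frozen statement S16 from (LB) and (UB). -/
theorem card_eq_of_LB_UB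
    (LB : ∀ t : HeckeAlg, heckeEvalForms p 2 t = 0 →
      (eisensteinNumerator p : ℤ) ∣ MvPolynomial.aeval (eisensteinSystem p) t)
    (UB : ∃ t : HeckeAlg, heckeEvalForms p 2 t = 0 ∧
      MvPolynomial.aeval (eisensteinSystem p) t = (eisensteinNumerator p : ℤ)) :
    Nat.card (↥(heckeLatticeAlgebra p ∅) ⧸
        Ideal.map ((latticeRestrictHom p ∅).toRingHom.comp (heckeEvalForms p 2))
          (eisensteinIdeal p)) =
      eisensteinNumerator p := by
  set n := eisensteinNumerator p with hn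
  -- `θ : HeckeAlg → ZMod n`
  let θ : HeckeAlg →+* ZMod n := (Int.castRingHom (ZMod n)).comp (chiE p)
  have hθsurj : Function.Surjective θ := by
    intro x
    obtain ⟨a, rfl⟩ := ZMod.intCast_surjective x
    exact ⟨MvPolynomial.C a, by show ((chiE p (MvPolynomial.C a) : ℤ) : ZMod n) = a; rw [chiE_C]⟩
  -- `f : HeckeAlg → T_lat ⧸ ψ(I)`
  let J : Ideal ↥(heckeLatticeAlgebra p ∅) := Ideal.map (psi p) (eisensteinIdeal p)
  let f : HeckeAlg →+* (↥(heckeLatticeAlgebra p ∅) ⧸ J) := (Ideal.Quotient.mk J).comp (psi p)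
  have hfsurj : Function.Surjective f :=
    Ideal.Quotient.mk_surjective.comp (psi_surjective p)
  have hker : RingHom.ker f = RingHom.ker θ := by
    have h1 : RingHom.ker f = eisensteinIdeal p ⊔ RingHom.ker (psi p) := by
      rw [RingHom.ker_eq_comap_bot, ← Ideal.comap_comap, ← RingHom.ker_eq_comap_bot,
        Ideal.mk_ker]
      rw [show J = Ideal.map (psi p) (eisensteinIdeal p) from rfl,
        Ideal.comap_map_of_surjective _ (psi_surjective p), RingHom.ker_eq_comap_bot]
    rw [h1]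
    apply le_antisymm
    · refine sup_le ?_ ?_
      · intro t ht
        rw [RingHom.mem_ker]
        have : chiE p t = 0 := by rw [← RingHom.mem_ker, ker_chiE]; exact ht
        simp [θ, this]
      · intro t ht
        rw [RingHom.mem_ker] at ht ⊢
        obtain ⟨k, hk⟩ := LB t ((psi_eq_zero_iff p t).1 ht)
        show ((chiE p t : ℤ) : ZMod n) = 0
        rw [chiE_apply, hk]
        simp
    · intro t ht
      rw [RingHom.mem_ker] at ht
      have ht' : ((chiE p t : ℤ) : ZMod n) = 0 := ht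
      rw [ZMod.intCast_zmod_eq_zero_iff_dvd] at ht'
      obtain ⟨k, hk⟩ := ht'
      obtain ⟨t0, ht0, hχ0⟩ := UB
      have hmem : t - MvPolynomial.C k * t0 ∈ eisensteinIdeal p := by
        rw [← ker_chiE, RingHom.mem_ker, map_sub, map_mul, chiE_C, chiE_apply p t0, hχ0,
          hk]
        ring
      have hmem2 : MvPolynomial.C k * t0 ∈ RingHom.ker (psi p) := by
        rw [RingHom.mem_ker, map_mul, (psi_eq_zero_iff p t0).2 ht0, mul_zero]
      have := Submodule.add_mem_sup hmem hmem2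
      rwa [sub_add_cancel] at this
  have e1 : (HeckeAlg ⧸ RingHom.ker f) ≃+* (↥(heckeLatticeAlgebra p ∅) ⧸ J) :=
    RingHom.quotientKerEquivOfSurjective hfsurj
  have e2 : (HeckeAlg ⧸ RingHom.ker θ) ≃+* ZMod n :=
    RingHom.quotientKerEquivOfSurjective hθsurj
  have e3 : (HeckeAlg ⧸ RingHom.ker f) ≃+* (HeckeAlg ⧸ RingHom.ker θ) :=
    Ideal.quotEquivOfEq hker
  have hcard : Nat.card (↥(heckeLatticeAlgebra p ∅) ⧸ J) = Nat.card (ZMod n) :=
    Nat.card_congr (e1.symm.trans (e3.trans e2)).toEquiv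
  show Nat.card (↥(heckeLatticeAlgebra p ∅) ⧸ J) = n
  rw [hcard, Nat.card_zmod]

end

end Fermat.Agent.S16_Red
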