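import Fermat.Agent.S24_Defs
import Fermat.Agent.S24_Embed
import Fermat.Agent.S24_Ord
import Fermat.Agent.S24_JFun

/-!
# S20_CuspBuild (helper7): building a weight-2 cusp form from a fraction of nice functions

Let `a / b` (`a b : AN N`, `b ≠ 0`) be a `Γ₀(N)`-invariant fraction of nice functions such that
`(a / b) ⬝ (j - j(τ₀))` vanishes at every `τ₀ ∈ ℍ` and such that every `SL(2, ℤ)`-translate of
`a / b` has `q_N`-order `> N` at `i∞`.  Then `(a / b) ⬝ D j` is (the function underlying) a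
cusp form of weight `2` on `Γ₀(N)` (`exists_cuspForm`).

This is the analytic half of the transfer "regular differentials of the function field of
`X₀(N)` ↦ weight-2 cusp forms".
-/

set_option autoImplicit false

noncomputable section

open Fermat.Agent.S24_Defs ModularCurve AlgebraicCurve UpperHalfPlane IntermediateField
open scoped MatrixGroups ModularForm Manifold Topology

namespace Fermat.Agent.S20_CuspBuild

open Fermat.Agent.S24_Embed Fermat.Agent.S24_Ord Derivative Filter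

local notation "𝕢" => Function.Periodic.qParam

/-! ### The germ of `D j` -/

/-- The germ on `ℂ` of `D j`. -/
def djGerm : ℂ → ℂ := fun z => D jFun (ofComplex z)

theorem analyticAt_djGerm (τ : ℍ) : AnalyticAt ℂ djGerm (τ : ℂ) :=
  Fermat.Agent.S24_JFun.analyticAt_comp_ofComplex Fermat.Agent.S24_JFun.mdifferentiable_DjFun τ

theorem two_pi_I_inv_ne_zero : ((2 * Real.pi * Complex.I)⁻¹ : ℂ) ≠ 0 := by
  simp [Real.pi_ne_zero]

/-- The order of `D j` at `τ`, plus one, is the order of `j - j(τ)` at `τ`. -/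
theorem order_djGerm_add_one (τ : ℍ) :
    analyticOrderAt djGerm (τ : ℂ) + 1
      = analyticOrderAt (fun w : ℂ => jFun (ofComplex w) - jFun τ) (τ : ℂ) := by
  rw [← Fermat.Agent.S24_JFun.order_deriv_add_one τ]
  congr 1
  have hj := Fermat.Agent.S24_JFun.analyticAt_comp_ofComplex Fermat.Agent.S24_JFun.jFun_mdiff τ
  have hev : djGerm =ᶠ[𝓝 (τ : ℂ)]
      ((fun _ : ℂ => ((2 * Real.pi * Complex.I)⁻¹ : ℂ)) * deriv (jFun ∘ ofComplex)) := by
    filter_upwards [isOpen_upperHalfPlaneSet.mem_nhds τ.im_pos] with w hw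
    simp only [djGerm, normalizedDerivOfComplex, Pi.mul_apply, ofComplex_apply_of_im_pos hw]
  rw [analyticOrderAt_congr hev, analyticOrderAt_mul analyticAt_const hj.deriv]
  have hc0 : analyticOrderAt (fun _ : ℂ => ((2 * Real.pi * Complex.I)⁻¹ : ℂ)) (τ : ℂ) = 0 := by
    rw [analyticAt_const.analyticOrderAt_eq_zero]; exact two_pi_I_inv_ne_zero
  rw [hc0, zero_add]

/-! ### An identity principle on `ℍ` -/

theorem eq_zero_of_mul_eq_zero {u v : ℍ → ℂ} (hu : MDiff u) (hv : MDiff v) (hv0 : v ≠ 0)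
    (h : ∀ τ, u τ * v τ = 0) : u = 0 := by
  funext τ
  have h1 := eventually_ne_zero hv hv0 τ
  have h2 : (u ∘ ofComplex) =ᶠ[𝓝[≠] (τ : ℂ)] fun _ => (0 : ℂ) := by
    filter_upwards [h1] with w hw
    have := h (ofComplex w)
    rcases mul_eq_zero.mp this with h0 | h0
    · exact h0
    · exact absurd h0 hw
  have hc : ContinuousAt (u ∘ ofComplex) (τ : ℂ) :=
    (Fermat.Agent.S24_JFun.analyticAt_comp_ofComplex hu τ).continuousAt
  have h3 := tendsto_nhds_unique_of_eventuallyEq (hc.tendsto.mono_left nhdsWithin_le_nhds)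
    (tendsto_const_nhds (x := (0 : ℂ)) (f := 𝓝[≠] (τ : ℂ))) h2
  simpa [Function.comp_apply, ofComplex_apply] using h3

/-! ### Removable singularities -/

theorem jA_sub_ne_zero (N : ℕ) (hj : jS 1 ∈ AN N) (c : ℂ) :
    (⟨jS 1, hj⟩ : AN N) - algebraMap ℂ (AN N) c ≠ 0 := by
  intro h
  obtain ⟨z, hz⟩ := Fermat.Agent.S24_JFun.jFun_surjective (c + 1)
  have h1 := congrArg (fun x : AN N => (x : ℍ → ℂ) z) h
  have h2 : jS 1 z - c = 0 := h1
  rw [jS_one, hz] at h2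
  simp at h2

theorem exists_holo (N : ℕ) [NeZero N] (hj : jS 1 ∈ AN N) (a b : AN N) (ha : a ≠ 0) (hb : b ≠ 0)
    (hord : ∀ τ₀ : ℍ, ordAt N τ₀ b <
      ordAt N τ₀ a + ordAt N τ₀ ((⟨jS 1, hj⟩ : AN N) - algebraMap ℂ (AN N) (jFun τ₀))) :
    ∃ f : ℍ → ℂ, MDiff f ∧ ∀ τ : ℍ, f τ * (b : ℍ → ℂ) τ = (a : ℍ → ℂ) τ * D jFun τ := by
  classical
  set φ : ℂ → ℂ := (germ a * djGerm) * (germ b)⁻¹ with hφdef
  have hmer : ∀ τ : ℍ, MeromorphicAt φ (τ : ℂ) := fun τ =>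
    ((analyticAt_germ a τ).meromorphicAt.mul (analyticAt_djGerm τ).meromorphicAt).mul
      (analyticAt_germ b τ).meromorphicAt.inv
  have hφ : MeromorphicOn φ upperHalfPlaneSet := fun z hz => hmer ⟨z, hz⟩
  set Φ : ℂ → ℂ := toMeromorphicNFOn φ upperHalfPlaneSet with hΦdef
  -- orders
  have hordφ : ∀ τ : ℍ, 0 ≤ meromorphicOrderAt φ (τ : ℂ) := by
    intro τ
    obtain ⟨ma, hma, hma'⟩ := exists_analyticOrderAt_eq ha τ
    obtain ⟨mb, hmb, hmb'⟩ := exists_analyticOrderAt_eq hb τ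
    obtain ⟨mj, hmj, hmj'⟩ := exists_analyticOrderAt_eq (jA_sub_ne_zero N hj (jFun τ)) τ
    have hgj : germ ((⟨jS 1, hj⟩ : AN N) - algebraMap ℂ (AN N) (jFun τ))
        = fun w : ℂ => jFun (ofComplex w) - jFun τ := by
      funext w
      change jS 1 (ofComplex w) - jFun τ = _
      rw [jS_one]
    rw [hgj] at hmj
    have hd := order_djGerm_add_one τ
    rw [hmj] at hd
    have hd1 : analyticOrderAt djGerm (τ : ℂ) ≠ ⊤ := by
      intro htop
      rw [htop] at hd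
      simp at hd
    obtain ⟨d, hd2⟩ := ENat.ne_top_iff_exists.mp hd1
    rw [← hd2] at hd
    have hd3 : d + 1 = mj := by exact_mod_cast hd
    have hlt := hord τ
    rw [hma', hmb', hmj'] at hlt
    have hlt' : mb < ma + mj := by exact_mod_cast hlt
    have hle : mb ≤ ma + d := by omega
    rw [hφdef, meromorphicOrderAt_mul ((analyticAt_germ a τ).meromorphicAt.mul
      (analyticAt_djGerm τ).meromorphicAt) (analyticAt_germ b τ).meromorphicAt.inv,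
      meromorphicOrderAt_mul (analyticAt_germ a τ).meromorphicAt
        (analyticAt_djGerm τ).meromorphicAt, meromorphicOrderAt_inv,
      (analyticAt_germ a τ).meromorphicOrderAt_eq, (analyticAt_djGerm τ).meromorphicOrderAt_eq,
      (analyticAt_germ b τ).meromorphicOrderAt_eq, hma, hmb, ← hd2]
    simp only [ENat.map_natCast]
    have h0 : (0 : ℤ) ≤ (ma : ℤ) + (d : ℤ) + -(mb : ℤ) := by omega
    have e1 : (-(((mb : ℤ)) : WithTop ℤ)) = (((-(mb : ℤ) : ℤ)) : WithTop ℤ) := rfl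
    rw [e1, ← WithTop.coe_add, ← WithTop.coe_add]
    exact_mod_cast h0
  have hΦan : ∀ τ : ℍ, AnalyticAt ℂ Φ (τ : ℂ) := by
    intro τ
    have hnf := meromorphicNFOn_toMeromorphicNFOn φ upperHalfPlaneSet τ.im_pos
    rw [← hnf.meromorphicOrderAt_nonneg_iff_analyticAt,
      meromorphicOrderAt_toMeromorphicNFOn hφ τ.im_pos]
    exact hordφ τ
  refine ⟨fun τ : ℍ => Φ (τ : ℂ), ?_, ?_⟩
  · rw [UpperHalfPlane.mdifferentiable_iff]
    have h1 : DifferentiableOn ℂ Φ upperHalfPlaneSet := fun z hz =>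
      (hΦan ⟨z, hz⟩).differentiableAt.differentiableWithinAt
    refine h1.congr fun z hz => ?_
    simp only [Function.comp_apply, ofComplex_apply_of_im_pos hz]
  · intro τ
    have h1 : Φ =ᶠ[𝓝[≠] (τ : ℂ)] φ := hφ.toMeromorphicNFOn_eq_self_on_nhdsNE τ.im_pos
    have h2 := eventually_ne_zero (AN_coe_mdiff b) (coe_ne_zero hb) τ
    have h3 : (fun w => Φ w * germ b w) =ᶠ[𝓝[≠] (τ : ℂ)] (fun w => germ a w * djGerm w) := by
      filter_upwards [h1, h2] with w hw1 hw2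
      have hw2' : germ b w ≠ 0 := hw2
      rw [hw1, hφdef]
      simp only [Pi.mul_apply, Pi.inv_apply]
      field_simp
    have c1 : ContinuousAt (fun w => Φ w * germ b w) (τ : ℂ) :=
      (hΦan τ).continuousAt.mul (analyticAt_germ b τ).continuousAt
    have c2 : ContinuousAt (fun w => germ a w * djGerm w) (τ : ℂ) :=
      (analyticAt_germ a τ).continuousAt.mul (analyticAt_djGerm τ).continuousAt
    have h4 := tendsto_nhds_unique_of_eventuallyEq (c1.tendsto.mono_left nhdsWithin_le_nhds)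
      (c2.tendsto.mono_left nhdsWithin_le_nhds) h3
    simpa [germ, djGerm, ofComplex_apply] using h4

/-! ### Behaviour of `D j` at `i∞` -/

theorem exists_tendsto_q_mul_DjFun :
    ∃ c : ℂ, Tendsto (fun τ : ℍ => 𝕢 1 (τ : ℂ) * D jFun τ) atImInfty (𝓝 c) := by
  have h1 := Fermat.Agent.S24_JBasic.tendsto_coeff_zero Fermat.Agent.S24_JFun.formDJ
  have h2 := Fermat.Agent.S24_JFun.tendsto_q_mul_jFun
  have h3 := Fermat.Agent.S24_JBasic.tendsto_E₄
  refine ⟨_, ((h1.mul h2).div (h3.pow 3) (by norm_num)).congr' ?_⟩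
  have hE : ∀ᶠ τ in atImInfty, ModularForm.E₄ τ ≠ 0 := h3.eventually_ne one_ne_zero
  filter_upwards [hE] with τ hτ
  have e1 := Fermat.Agent.S24_JFun.formDJ_apply τ
  have e2 := Fermat.Agent.S24_JFun.jFun_mul_discriminant τ
  show Fermat.Agent.S24_JFun.formDJ τ * (𝕢 1 (τ : ℂ) * jFun τ) / ModularForm.E₄ τ ^ 3
    = 𝕢 1 (τ : ℂ) * D jFun τ
  rw [e1, div_eq_iff (pow_ne_zero 3 hτ), ← e2]
  ring

theorem tr_ne_zero' (N : ℕ) (g : SL(2, ℤ)) {a : AN N} (ha : a ≠ 0) : tr N g a ≠ 0 := fun h =>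
  ha (tr_injective N g (by rw [h, map_zero]))

/-- Vanishing at `i∞` from the `q_N`-orders. -/
theorem isZeroAtImInfty_of (N : ℕ) [NeZero N] (a b : AN N) (ha : a ≠ 0) (hb : b ≠ 0)
    (F : ℍ → ℂ) (hF : ∀ τ : ℍ, F τ * (b : ℍ → ℂ) τ = (a : ℍ → ℂ) τ * D jFun τ)
    (h : ordInf N b + N < ordInf N a) : IsZeroAtImInfty F := by
  obtain ⟨c, hc⟩ := exists_tendsto_q_mul_DjFun
  set G : ℂ → ℂ := (cusp a * (cusp b)⁻¹) * (fun s : ℂ => s ^ N)⁻¹ with hG
  have hma := meromorphicAt_cusp a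
  have hmb := meromorphicAt_cusp b
  have hpow : MeromorphicAt (fun s : ℂ => s ^ N) 0 := (analyticAt_id.pow N).meromorphicAt
  have hGord : 0 < meromorphicOrderAt G 0 := by
    obtain ⟨oa, hoa⟩ := WithTop.ne_top_iff_exists.mp (meromorphicOrderAt_cusp_ne_top ha)
    obtain ⟨ob, hob⟩ := WithTop.ne_top_iff_exists.mp (meromorphicOrderAt_cusp_ne_top hb)
    have hpo : meromorphicOrderAt (fun s : ℂ => s ^ N) 0 = ((N : ℤ) : WithTop ℤ) := by
      have := meromorphicOrderAt_pow_id_sub_const (x := (0 : ℂ)) (n := N)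
      have e : ((fun s : ℂ => s - 0) ^ N) = (fun s : ℂ => s ^ N) := by
        funext s
        simp
      rw [e] at this
      exact this
    rw [ordInf_def, ordInf_def, ← hoa, ← hob] at h
    simp only [WithTop.untop₀_coe] at h
    have h' : ob + (N : ℤ) < oa := by exact_mod_cast h
    rw [hG, meromorphicOrderAt_mul (hma.mul hmb.inv) hpow.inv, meromorphicOrderAt_mul hma hmb.inv,
      meromorphicOrderAt_inv, meromorphicOrderAt_inv, ← hoa, ← hob, hpo]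
    have e1 : (-((ob : ℤ) : WithTop ℤ)) = (((-ob : ℤ)) : WithTop ℤ) := rfl
    have e2 : (-(((N : ℤ)) : WithTop ℤ)) = (((-(N : ℤ) : ℤ)) : WithTop ℤ) := rfl
    rw [e1, e2, ← WithTop.coe_add, ← WithTop.coe_add]
    have h0 : (0 : ℤ) < oa + -ob + -(N : ℤ) := by omega
    exact_mod_cast h0
  have hGt : Tendsto G (𝓝[≠] 0) (𝓝 0) := tendsto_zero_of_meromorphicOrderAt_pos hGord
  have hq : Tendsto (fun τ : ℍ => 𝕢 (N : ℝ) (τ : ℂ)) atImInfty (𝓝[≠] 0) := by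
    rw [tendsto_nhdsWithin_iff]
    exact ⟨UpperHalfPlane.qParam_tendsto_atImInfty N_pos,
      Eventually.of_forall fun τ => Function.Periodic.qParam_ne_zero _⟩
  have hGq := hGt.comp hq
  have hbne : ∀ᶠ τ in atImInfty, (b : ℍ → ℂ) τ ≠ 0 := by
    have h1 := (meromorphicOrderAt_ne_top_iff_eventually_ne_zero hmb).mp
      (meromorphicOrderAt_cusp_ne_top hb)
    have h2 := hq.eventually h1
    filter_upwards [h2] with τ hτ
    rw [cusp_qParam] at hτ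
    simpa [germ] using hτ
  have key : (fun τ : ℍ => G (𝕢 (N : ℝ) (τ : ℂ)) * (𝕢 1 (τ : ℂ) * D jFun τ)) =ᶠ[atImInfty] F := by
    filter_upwards [hbne] with τ hτ
    have e1 : cusp a (𝕢 (N : ℝ) (τ : ℂ)) = (a : ℍ → ℂ) τ := by rw [cusp_qParam]; simp [germ]
    have e2 : cusp b (𝕢 (N : ℝ) (τ : ℂ)) = (b : ℍ → ℂ) τ := by rw [cusp_qParam]; simp [germ]
    have e3 : 𝕢 (N : ℝ) (τ : ℂ) ^ N = 𝕢 1 (τ : ℂ) := qParam_pow_N _
    have hq0 : 𝕢 1 (τ : ℂ) ≠ 0 := Function.Periodic.qParam_ne_zero _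
    simp only [hG, Pi.mul_apply, Pi.inv_apply, e1, e2, e3]
    have := hF τ
    field_simp
    linear_combination -this
  have := (hGq.mul hc).congr' key
  rw [zero_mul] at this
  exact this

/-! ### The cusp form -/

theorem exists_cuspForm (N : ℕ) [NeZero N] (hj : jS 1 ∈ AN N) (a b : AN N) (hb : b ≠ 0)
    (hinv : ∀ g : SL(2, ℤ), g ∈ CongruenceSubgroup.Gamma0 N → tr N g a * b = a * tr N g b)
    (hord : ∀ τ₀ : ℍ, ordAt N τ₀ b <
      ordAt N τ₀ a + ordAt N τ₀ ((⟨jS 1, hj⟩ : AN N) - algebraMap ℂ (AN N) (jFun τ₀)))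
    (hcusp : ∀ g : SL(2, ℤ), ordInf N (tr N g b) + N < ordInf N (tr N g a)) :
    ∃ f : CuspForm (CongruenceSubgroup.Gamma0 N) 2,
      ∀ τ : ℍ, f τ * (b : ℍ → ℂ) τ = (a : ℍ → ℂ) τ * D jFun τ := by
  by_cases ha : a = 0
  · subst ha
    exact ⟨0, fun τ => by simp⟩
  obtain ⟨f, hf, hfb⟩ := exists_holo N hj a b ha hb hord
  have hsl : ∀ (γ : SL(2, ℤ)) (τ : ℍ), (f ∣[(2 : ℤ)] γ) τ * (tr N γ⁻¹ b : ℍ → ℂ) τ
      = (tr N γ⁻¹ a : ℍ → ℂ) τ * D jFun τ := by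
    intro γ τ
    rw [ModularForm.SL_slash_apply, tr_apply, tr_apply, inv_inv]
    have h1 := hfb (γ • τ)
    rw [Fermat.Agent.S24_JFun.DjFun_smul] at h1
    have hd : denom γ τ ≠ 0 := denom_ne_zero γ τ
    rw [zpow_neg]
    have e : denom γ τ ^ (2 : ℤ) = denom γ τ ^ 2 := by norm_cast
    rw [e] at h1 ⊢
    field_simp
    linear_combination h1
  have hinvf : ∀ γ : SL(2, ℤ), γ ∈ CongruenceSubgroup.Gamma0 N → f ∣[(2 : ℤ)] γ = f := by
    intro γ hγ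
    have hγ' : γ⁻¹ ∈ CongruenceSubgroup.Gamma0 N := inv_mem hγ
    have h1 := hinv γ⁻¹ hγ'
    have h1' : ∀ τ, (tr N γ⁻¹ a : ℍ → ℂ) τ * (b : ℍ → ℂ) τ
        = (a : ℍ → ℂ) τ * (tr N γ⁻¹ b : ℍ → ℂ) τ :=
      fun τ => congrArg (fun x : AN N => (x : ℍ → ℂ) τ) h1
    have hu : MDiff (f ∣[(2 : ℤ)] γ - f) := by
      rw [ModularForm.SL_slash]
      exact (hf.slash 2 _).sub hf
    have hv : MDiff ((tr N γ⁻¹ b * b : AN N) : ℍ → ℂ) := AN_coe_mdiff _
    have hv0 : ((tr N γ⁻¹ b * b : AN N) : ℍ → ℂ) ≠ 0 :=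
      coe_ne_zero (mul_ne_zero (tr_ne_zero' N γ⁻¹ hb) hb)
    have := eq_zero_of_mul_eq_zero hu hv hv0 (fun τ => by
      show ((f ∣[(2 : ℤ)] γ) τ - f τ) * ((tr N γ⁻¹ b : ℍ → ℂ) τ * (b : ℍ → ℂ) τ) = 0
      linear_combination ((b : ℍ → ℂ) τ) * hsl γ τ - ((tr N γ⁻¹ b : ℍ → ℂ) τ) * hfb τ
        + (D jFun τ) * h1' τ)
    exact sub_eq_zero.mp this
  refine ⟨{ toFun := f
            slash_action_eq' := ?_
            holo' := hf
            zero_at_cusps' := ?_ }, hfb⟩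
  · rintro _ ⟨γ, hγ, rfl⟩
    exact hinvf γ hγ
  · intro c hc
    rw [Subgroup.IsArithmetic.isCusp_iff_isCusp_SL2Z] at hc
    rw [OnePoint.isZeroAt_iff_forall_SL2Z hc]
    intro γ _
    exact isZeroAtImInfty_of N (tr N γ⁻¹ a) (tr N γ⁻¹ b) (tr_ne_zero' N γ⁻¹ ha)
      (tr_ne_zero' N γ⁻¹ hb) (f ∣[(2 : ℤ)] γ) (hsl γ) (hcusp γ⁻¹)

/-- The same statement in the shape of the `s20_iface` row `P2_S20_CuspForm` (with the complex
derivative `j'` instead of `D j = (2πi)⁻¹ j'`, and the order hypotheses written as `1 ≤ …`,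
`N + 1 ≤ …`). -/
theorem exists_cuspForm_deriv (N : ℕ) [NeZero N] (hj : jS 1 ∈ AN N) (a b : AN N) (hb : b ≠ 0)
    (h1 : ∀ τ₀ : ℍ, 1 ≤ ordAt N τ₀ a - ordAt N τ₀ b +
      ordAt N τ₀ ((⟨jS 1, hj⟩ : AN N) - algebraMap ℂ (AN N) (jFun τ₀)))
    (h2 : ∀ g : SL(2, ℤ), (N : ℚ) + 1 ≤ ordInf N (tr N g a) - ordInf N (tr N g b))
    (h3 : ∀ g : SL(2, ℤ), g ∈ CongruenceSubgroup.Gamma0 N → tr N g a * b = a * tr N g b) :
    ∃ f : CuspForm (CongruenceSubgroup.Gamma0 N) 2, ∀ τ : ℍ,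
      f τ * (b : ℍ → ℂ) τ = (a : ℍ → ℂ) τ * deriv (fun z : ℂ => jFun (ofComplex z)) τ := by
  obtain ⟨f, hf⟩ := exists_cuspForm N hj a b hb h3
    (fun τ₀ => by have := h1 τ₀; linarith) (fun g => by have := h2 g; linarith)
  refine ⟨(2 * Real.pi * Complex.I : ℂ) • f, fun τ => ?_⟩
  have hpi : (2 * Real.pi * Complex.I : ℂ) ≠ 0 := by simp [Real.pi_ne_zero]
  have e1 : D jFun τ = (2 * Real.pi * Complex.I)⁻¹ * deriv (fun z : ℂ => jFun (ofComplex z)) τ :=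
    rfl
  have e2 : ((2 * Real.pi * Complex.I : ℂ) • f) τ = (2 * Real.pi * Complex.I : ℂ) * f τ := rfl
  rw [e2, mul_assoc, hf τ, e1]
  field_simp

/-! ### Uniqueness, injectivity and linearity helpers -/

theorem mdifferentiable_DjFun' : MDiff (D jFun) := Fermat.Agent.S24_JFun.mdifferentiable_DjFun

theorem DjFun_ne_zero : (D jFun : ℍ → ℂ) ≠ 0 := by
  intro h
  -- `D j = 0` would give `ord (j - j τ) = 1 + ⊤` at every point, but it is `1` at generic points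
  obtain ⟨τ, hτ⟩ := Fermat.Agent.S24_JFun.jFun_surjective 1
  have h0 : jFun τ ≠ 0 := by rw [hτ]; exact one_ne_zero
  have h1 : jFun τ ≠ 1728 := by rw [hτ]; norm_num
  have h2 := Fermat.Agent.S24_JFun.order_jFun_generic τ h0 h1
  have h3 := order_djGerm_add_one τ
  rw [h2] at h3
  have h4 : djGerm = fun _ => 0 := by
    funext z
    simp [djGerm, h]
  have h5 : analyticOrderAt djGerm (τ : ℂ) = ⊤ := by
    rw [h4, analyticOrderAt_eq_top]
    exact Eventually.of_forall fun _ => rfl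
  rw [h5] at h3
  simp at h3

/-- If `f ⬝ b = a ⬝ D j` with `f = 0`, then `a = 0`. -/
theorem eq_zero_of_cuspForm_eq_zero (N : ℕ) (a b : AN N) (f : ℍ → ℂ)
    (hf : ∀ τ : ℍ, f τ * (b : ℍ → ℂ) τ = (a : ℍ → ℂ) τ * D jFun τ) (h0 : f = 0) : a = 0 := by
  have h1 : ((a : AN N) : ℍ → ℂ) = 0 :=
    eq_zero_of_mul_eq_zero (AN_coe_mdiff a) mdifferentiable_DjFun' DjFun_ne_zero (fun τ => by
      rw [← hf τ, h0]; simp)
  exact Subtype.ext h1

/-- The holomorphic function `f` with `f ⬝ b = a ⬝ D j` only depends on the fraction `a / b`. -/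
theorem eq_of_fraction_eq (N : ℕ) (a b a' b' : AN N) (hb : b ≠ 0) (hb' : b' ≠ 0)
    (hab : a * b' = a' * b) (f f' : ℍ → ℂ) (hfm : MDiff f) (hfm' : MDiff f')
    (hf : ∀ τ : ℍ, f τ * (b : ℍ → ℂ) τ = (a : ℍ → ℂ) τ * D jFun τ)
    (hf' : ∀ τ : ℍ, f' τ * (b' : ℍ → ℂ) τ = (a' : ℍ → ℂ) τ * D jFun τ) : f = f' := by
  have hab' : ∀ τ, (a : ℍ → ℂ) τ * (b' : ℍ → ℂ) τ = (a' : ℍ → ℂ) τ * (b : ℍ → ℂ) τ :=
    fun τ => congrArg (fun x : AN N => (x : ℍ → ℂ) τ) hab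
  have hv0 : ((b * b' : AN N) : ℍ → ℂ) ≠ 0 := coe_ne_zero (mul_ne_zero hb hb')
  have := eq_zero_of_mul_eq_zero (hfm.sub hfm') (AN_coe_mdiff (b * b')) hv0 (fun τ => by
    show (f τ - f' τ) * ((b : ℍ → ℂ) τ * (b' : ℍ → ℂ) τ) = 0
    linear_combination ((b' : ℍ → ℂ) τ) * hf τ - ((b : ℍ → ℂ) τ) * hf' τ + (D jFun τ) * hab' τ)
  exact sub_eq_zero.mp this

/-- Linear combinations: if `f₁ ⬝ b₁ = a₁ ⬝ D j` and `f₂ ⬝ b₂ = a₂ ⬝ D j` then
`(c₁ f₁ + c₂ f₂) ⬝ (b₁ b₂) = (c₁ a₁ b₂ + c₂ a₂ b₁) ⬝ D j`. -/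
theorem linear_combination_eq (N : ℕ) (a₁ b₁ a₂ b₂ : AN N) (f₁ f₂ : ℍ → ℂ) (c₁ c₂ : ℂ)
    (hf₁ : ∀ τ : ℍ, f₁ τ * (b₁ : ℍ → ℂ) τ = (a₁ : ℍ → ℂ) τ * D jFun τ)
    (hf₂ : ∀ τ : ℍ, f₂ τ * (b₂ : ℍ → ℂ) τ = (a₂ : ℍ → ℂ) τ * D jFun τ) (τ : ℍ) :
    (c₁ * f₁ τ + c₂ * f₂ τ) * ((b₁ * b₂ : AN N) : ℍ → ℂ) τ
      = ((algebraMap ℂ (AN N) c₁ * a₁ * b₂ + algebraMap ℂ (AN N) c₂ * a₂ * b₁ : AN N) : ℍ → ℂ) τ
        * D jFun τ := by
  show (c₁ * f₁ τ + c₂ * f₂ τ) * ((b₁ : ℍ → ℂ) τ * (b₂ : ℍ → ℂ) τ)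
    = (c₁ * (a₁ : ℍ → ℂ) τ * (b₂ : ℍ → ℂ) τ + c₂ * (a₂ : ℍ → ℂ) τ * (b₁ : ℍ → ℂ) τ) * D jFun τ
  linear_combination (c₁ * (b₂ : ℍ → ℂ) τ) * hf₁ τ + (c₂ * (b₁ : ℍ → ℂ) τ) * hf₂ τ

/-- Finite linear combinations in the fraction field: if `fᵢ ⬝ bᵢ = aᵢ ⬝ D j` (`bᵢ ≠ 0`) and
`∑ cᵢ fᵢ = 0`, then `∑ cᵢ (aᵢ / bᵢ) = 0` in `EN N`. -/
theorem sum_fraction_eq_zero (N : ℕ) {ι : Type*} (s : Finset ι) (a b : ι → AN N)
    (hb : ∀ i ∈ s, b i ≠ 0) (f : ι → ℍ → ℂ) (c : ι → ℂ)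
    (hf : ∀ i ∈ s, ∀ τ : ℍ, f i τ * (b i : ℍ → ℂ) τ = (a i : ℍ → ℂ) τ * D jFun τ)
    (hsum : ∀ τ : ℍ, ∑ i ∈ s, c i * f i τ = 0) :
    ∑ i ∈ s, algebraMap (AN N) (EN N) (algebraMap ℂ (AN N) (c i)) *
      (algebraMap (AN N) (EN N) (a i) / algebraMap (AN N) (EN N) (b i)) = 0 := by
  classical
  have halg : Function.Injective (algebraMap (AN N) (EN N)) :=
    IsFractionRing.injective (AN N) (EN N)
  have halg0 : ∀ {x : AN N}, x ≠ 0 → algebraMap (AN N) (EN N) x ≠ 0 := fun {x} hx h =>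
    hx (halg (by rw [h, map_zero]))
  -- common denominator `B = ∏ b i`, numerators `A i = a i * ∏_{j ≠ i} b j`
  set B : AN N := ∏ i ∈ s, b i with hB
  have hB0 : B ≠ 0 := Finset.prod_ne_zero_iff.mpr hb
  set E : ι → AN N := fun i => ∏ j ∈ s.erase i, b j with hE
  have hBE : ∀ i ∈ s, B = b i * E i := fun i hi => (Finset.mul_prod_erase s b hi).symm
  -- the numerator of the sum vanishes
  have hnum : ∑ i ∈ s, algebraMap ℂ (AN N) (c i) * (a i * E i) = 0 := by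
    have h1 : (((∑ i ∈ s, algebraMap ℂ (AN N) (c i) * (a i * E i) : AN N)) : ℍ → ℂ) = 0 := by
      refine eq_zero_of_mul_eq_zero (AN_coe_mdiff _) mdifferentiable_DjFun' DjFun_ne_zero
        (fun τ => ?_)
      have e1 : ((∑ i ∈ s, algebraMap ℂ (AN N) (c i) * (a i * E i) : AN N) : ℍ → ℂ) τ
          = ∑ i ∈ s, c i * ((a i : ℍ → ℂ) τ * (E i : ℍ → ℂ) τ) := by
        have : ∀ t : Finset ι,
            ((∑ i ∈ t, algebraMap ℂ (AN N) (c i) * (a i * E i) : AN N) : ℍ → ℂ) τ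
              = ∑ i ∈ t, c i * ((a i : ℍ → ℂ) τ * (E i : ℍ → ℂ) τ) := by
          intro t
          induction t using Finset.induction_on with
          | empty => simp
          | insert i t hi ih =>
            rw [Finset.sum_insert hi, Finset.sum_insert hi, ← ih]
            rfl
        exact this s
      rw [e1, Finset.sum_mul]
      have e2 : ∀ i ∈ s, c i * ((a i : ℍ → ℂ) τ * (E i : ℍ → ℂ) τ) * D jFun τ
          = c i * f i τ * (B : ℍ → ℂ) τ := by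
        intro i hi
        have h2 : (B : ℍ → ℂ) τ = (b i : ℍ → ℂ) τ * (E i : ℍ → ℂ) τ :=
          congrArg (fun x : AN N => (x : ℍ → ℂ) τ) (hBE i hi)
        have h3 := hf i hi τ
        rw [h2]
        linear_combination (-(c i * (E i : ℍ → ℂ) τ)) * h3
      rw [Finset.sum_congr rfl e2, ← Finset.sum_mul, hsum τ, zero_mul]
    exact Subtype.ext h1
  have hterm : ∀ i ∈ s, algebraMap (AN N) (EN N) (algebraMap ℂ (AN N) (c i)) *
      (algebraMap (AN N) (EN N) (a i) / algebraMap (AN N) (EN N) (b i))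
      = algebraMap (AN N) (EN N) (algebraMap ℂ (AN N) (c i) * (a i * E i))
        / algebraMap (AN N) (EN N) B := by
    intro i hi
    have hbi := halg0 (hb i hi)
    have hBi := halg0 hB0
    rw [map_mul, map_mul, mul_div_assoc]
    congr 1
    rw [div_eq_div_iff hbi hBi, ← map_mul, ← map_mul, ← map_mul, hBE i hi]
    congr 1
    ring
  rw [Finset.sum_congr rfl hterm, ← Finset.sum_div, ← map_sum, hnum, map_zero, zero_div]

end Fermat.Agent.S20_CuspBuild
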