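import Mathlib

/-!
# S20, P1/(R3) core (helper3): tame different via traces modulo a maximal ideal

Abstract (Mathlib-only) core for the trace duals of the two charts of a function field:
`A ⊆ B` Dedekind, `B` the integral closure of `A` in `F`, `(a)` a maximal ideal of `A` with
residue characteristic zero.

* `intTrace_mem_of_forall_mem`: an element of `B` lying in every prime above `p` has trace in `p`.
* `intTrace_notMem_of_idempotent`: an idempotent modulo `p` which is not `0` modulo `p` has trace
  outside `p`.
* `exists_smul_mem_range`: clearing denominators away from the point `a = 0`.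
* `trace_of_valuation_lt_one`: if `a * y` has positive valuation at all primes above `a`, then
  `s * Tr y ∈ A` for some `s ∉ (a)`  (the trace is regular at `a = 0`).
* `exists_idempotent`: an element `ε` with `ε ≡ 1` at `w₀`, highly divisible at the other primes
  above `a`, whose trace is not in `(a)`  (so `Tr (ε / a)` has a pole at `a = 0`).
-/

set_option autoImplicit false
set_option linter.unusedSectionVars false

namespace Fermat.Agent.S20_DualCore

open IsDedekindDomain WithZero

attribute [local instance] Ideal.Quotient.field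

section Abstract

variable {A B : Type*} [CommRing A] [IsDedekindDomain A] [CommRing B] [IsDomain B] [Algebra A B]
  [Module.IsTorsionFree A B] [Module.Finite A B] [IsIntegrallyClosed B]
  (p : Ideal A) [p.IsMaximal]

/-- an element lying in all primes above `p` has trace in `p` -/
theorem intTrace_mem_of_forall_mem (b : B)
    (hb : ∀ P : Ideal B, P.IsPrime → p.map (algebraMap A B) ≤ P → b ∈ P) :
    Algebra.intTrace A B b ∈ p := by
  have hrad : b ∈ (p.map (algebraMap A B)).radical := by
    rw [Ideal.radical_eq_sInf, Ideal.mem_sInf]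
    rintro P ⟨hle, hP⟩
    exact hb P hP hle
  obtain ⟨m, hm⟩ := hrad
  have hnil : IsNilpotent (Ideal.Quotient.mk (p.map (algebraMap A B)) b) :=
    ⟨m, by rw [← map_pow]; exact Ideal.Quotient.eq_zero_iff_mem.mpr hm⟩
  have h1 := Algebra.trace_quotient_eq_of_isDedekindDomain B p b
  have h2 : IsNilpotent (Algebra.trace (A ⧸ p) (B ⧸ p.map (algebraMap A B))
      (Ideal.Quotient.mk (p.map (algebraMap A B)) b)) := by
    rw [Algebra.trace_apply]
    apply LinearMap.isNilpotent_trace_of_isNilpotent
    obtain ⟨k, hk⟩ := hnil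
    exact ⟨k, by rw [← map_pow, hk, map_zero]⟩
  rw [h1] at h2
  exact Ideal.Quotient.eq_zero_iff_mem.mp h2.eq_zero

/-- the trace of a non-trivial idempotent modulo `p` is not in `p` (characteristic zero) -/
theorem intTrace_notMem_of_idempotent [CharZero (A ⧸ p)] (ε : B)
    (h1 : ε * ε - ε ∈ p.map (algebraMap A B)) (h2 : ε ∉ p.map (algebraMap A B)) :
    Algebra.intTrace A B ε ∉ p := by
  intro hmem
  have h3 := Algebra.trace_quotient_eq_of_isDedekindDomain B p ε
  rw [Ideal.Quotient.eq_zero_iff_mem.mpr hmem, Algebra.trace_apply] at h3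
  set e := Algebra.lmul (A ⧸ p) (B ⧸ p.map (algebraMap A B))
    (Ideal.Quotient.mk (p.map (algebraMap A B)) ε) with he
  have hid : IsIdempotentElem e := by
    show e * e = e
    rw [he, ← map_mul, ← map_mul]
    congr 1
    rw [← sub_eq_zero, ← map_sub]
    exact Ideal.Quotient.eq_zero_iff_mem.mpr h1
  have h0 : e = 0 := (LinearMap.IsIdempotentElem.trace_eq_zero_iff hid).mp h3
  have h4 : e 1 = 0 := by rw [h0]; rfl
  rw [he] at h4
  have h5 : (Ideal.Quotient.mk (p.map (algebraMap A B)) ε) * 1 = 0 := h4
  rw [mul_one] at h5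
  exact h2 (Ideal.Quotient.eq_zero_iff_mem.mp h5)

end Abstract

section AbstractVal

variable {A B L F : Type*} [CommRing A] [IsDedekindDomain A] [CommRing B] [IsDedekindDomain B]
  [Algebra A B] [Field L] [Field F] [Algebra A L] [IsFractionRing A L] [Algebra B F]
  [IsFractionRing B F] [Algebra L F] [Algebra A F] [IsScalarTower A B F] [IsScalarTower A L F]
  [Module.Finite A B] [Module.IsTorsionFree A B] [FiniteDimensional L F] [IsIntegralClosure B A F]

theorem valuation_eq_one_of_notMem (w : HeightOneSpectrum B) (b : B) (hb : b ∉ w.asIdeal) :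
    w.valuation F (algebraMap B F b) = 1 := by
  refine le_antisymm (w.valuation_le_one b) ?_
  by_contra h
  exact hb ((w.valuation_lt_one_iff_mem b).mp (not_le.mp h))

/-- elements of `A` outside the maximal ideal `(a)` are units at every prime above `a` -/
theorem valuation_eq_one_of_notMem_span (a : A) (hmax : (Ideal.span {a}).IsMaximal)
    (w : HeightOneSpectrum B) (hw : algebraMap A B a ∈ w.asIdeal) (s : A)
    (hs : s ∉ Ideal.span {a}) :
    w.valuation F (algebraMap A F s) = 1 := by
  rw [IsScalarTower.algebraMap_apply A B F]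
  apply valuation_eq_one_of_notMem
  intro hsw
  obtain ⟨c, i, hi, hci⟩ := hmax.exists_inv hs
  obtain ⟨d, rfl⟩ := Ideal.mem_span_singleton'.mp hi
  have h1 : algebraMap A B (c * s + d * a) ∈ w.asIdeal := by
    rw [map_add, map_mul, map_mul]
    exact add_mem (Ideal.mul_mem_left _ _ hsw) (Ideal.mul_mem_left _ _ hw)
  rw [hci, map_one] at h1
  exact w.isPrime.ne_top ((Ideal.eq_top_iff_one _).mpr h1)

/-- clearing denominators away from the point `a = 0` -/
theorem exists_smul_mem_range
    (hloc : IsLocalization (Algebra.algebraMapSubmonoid B (nonZeroDivisors A)) F)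
    (a : A) (ha : ¬ IsUnit a) (y : F)
    (hy : ∀ w : HeightOneSpectrum B, algebraMap A B a ∈ w.asIdeal → w.valuation F y ≤ 1) :
    ∃ s : A, ¬ a ∣ s ∧ ∃ b : B, algebraMap B F b = algebraMap A F s * y := by
  obtain ⟨⟨b₀, ⟨d, hd⟩⟩, hyd⟩ := IsLocalization.surj (Algebra.algebraMapSubmonoid B (nonZeroDivisors A)) y
  obtain ⟨a₀, ha₀, rfl⟩ := hd
  have ha₀0 : a₀ ≠ 0 := nonZeroDivisors.ne_zero ha₀
  have hfin : FiniteMultiplicity a a₀ := FiniteMultiplicity.of_not_isUnit ha ha₀0
  obtain ⟨s, hs, hsdvd⟩ := hfin.exists_eq_pow_mul_and_not_dvd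
  set k := multiplicity a a₀ with hk
  refine ⟨s, hsdvd, ?_⟩
  have hmem := HeightOneSpectrum.mem_integers_of_valuation_le_one (R := B) F (algebraMap A F s * y) ?_
  · obtain ⟨b, hb⟩ := hmem
    exact ⟨b, hb⟩
  intro w
  by_cases hw : algebraMap A B a ∈ w.asIdeal
  · rw [map_mul]
    have h1 : w.valuation F (algebraMap A F s) ≤ 1 := by
      rw [IsScalarTower.algebraMap_apply A B F]; exact w.valuation_le_one _
    exact mul_le_one' h1 (hy w hw)
  · have h1 : w.valuation F (algebraMap A F a) = 1 := by
      rw [IsScalarTower.algebraMap_apply A B F]; exact valuation_eq_one_of_notMem w _ hw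
    have h2 : algebraMap A F s * y * algebraMap A F a ^ k = algebraMap B F b₀ := by
      have : y * algebraMap B F (algebraMap A B a₀) = algebraMap B F b₀ := hyd
      rw [← this, ← IsScalarTower.algebraMap_apply A B F, hs, map_mul, map_pow]
      ring
    have h3 := congrArg (w.valuation F) h2
    rw [map_mul, map_pow, h1, one_pow, mul_one] at h3
    rw [h3]
    exact w.valuation_le_one _

/-- (i): if `a * y` lies in every prime above `a`, then `Tr y` is regular at `a = 0` -/
theorem trace_of_valuation_lt_one (a : A) (ha0 : a ≠ 0) (hmax : (Ideal.span {a}).IsMaximal)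
    (y : F)
    (hy : ∀ w : HeightOneSpectrum B, algebraMap A B a ∈ w.asIdeal →
      w.valuation F (algebraMap A F a * y) < 1) :
    ∃ s : A, s ∉ Ideal.span {a} ∧ ∃ c : A,
      algebraMap A L s * Algebra.trace L F y = algebraMap A L c := by
  have ha : ¬ IsUnit a := fun hu => hmax.ne_top (Ideal.span_singleton_eq_top.mpr hu)
  have halg : Algebra.IsAlgebraic L F := Algebra.IsAlgebraic.of_finite L F
  have hloc : IsLocalization (Algebra.algebraMapSubmonoid B (nonZeroDivisors A)) F :=
    IsIntegralClosure.isLocalization A L F B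
  have hinj : Function.Injective (algebraMap A B) := FaithfulSMul.algebraMap_injective A B
  obtain ⟨s, hs, b, hb⟩ := exists_smul_mem_range hloc a ha (algebraMap A F a * y)
    (fun w hw => (hy w hw).le)
  have hs' : s ∉ Ideal.span {a} := fun h => hs (Ideal.mem_span_singleton.mp h)
  refine ⟨s, hs', ?_⟩
  have hbw : ∀ w : HeightOneSpectrum B, algebraMap A B a ∈ w.asIdeal → b ∈ w.asIdeal := by
    intro w hw
    refine (w.valuation_lt_one_iff_mem (K := F) b).mp ?_
    show w.valuation F (algebraMap B F b) < 1
    rw [hb, map_mul]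
    have h1 : w.valuation F (algebraMap A F s) ≤ 1 := by
      rw [IsScalarTower.algebraMap_apply A B F]; exact w.valuation_le_one _
    calc w.valuation F (algebraMap A F s) * w.valuation F (algebraMap A F a * y)
        ≤ 1 * w.valuation F (algebraMap A F a * y) := mul_le_mul_left h1 _
      _ = w.valuation F (algebraMap A F a * y) := one_mul _
      _ < 1 := hy w hw
  have htr : Algebra.intTrace A B b ∈ Ideal.span {a} := by
    have := hmax
    apply intTrace_mem_of_forall_mem (Ideal.span {a}) b
    intro P hP hle
    have hτ : algebraMap A B a ∈ P := hle (Ideal.mem_map_of_mem _ (Ideal.subset_span rfl))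
    have hne : P ≠ ⊥ := by
      rintro rfl
      exact ha0 (hinj (by rw [map_zero]; exact hτ))
    exact hbw ⟨P, hP, hne⟩ hτ
  obtain ⟨c, hc⟩ := Ideal.mem_span_singleton'.mp htr
  refine ⟨c, ?_⟩
  have h1 := Algebra.algebraMap_intTrace (A := A) (K := L) (L := F) (B := B) b
  have h2 : algebraMap B F b = (algebraMap A L (s * a)) • y := by
    rw [hb, Algebra.smul_def, ← IsScalarTower.algebraMap_apply A L F, map_mul]
    ring
  rw [h2, map_smul, smul_eq_mul, ← hc, map_mul, map_mul] at h1
  have ha' : algebraMap A L a ≠ 0 := by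
    intro h
    exact ha0 (IsFractionRing.injective A L (by rw [h, map_zero]))
  have h3 : algebraMap A L a * (algebraMap A L s * Algebra.trace L F y)
      = algebraMap A L a * algebraMap A L c := by
    rw [mul_comm (algebraMap A L c)] at h1
    rw [h1]; ring
  exact mul_left_cancel₀ ha' h3

/-- (ii): an element which is `1` at `w₀`, highly divisible at the other primes above `a`,
and whose trace is a unit at `a = 0`. -/
theorem exists_idempotent (a : A) (ha0 : a ≠ 0) (hmax : (Ideal.span {a}).IsMaximal)
    [CharZero (A ⧸ Ideal.span {a})] (w₀ : HeightOneSpectrum B)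
    (hw₀ : algebraMap A B a ∈ w₀.asIdeal) (N : HeightOneSpectrum B → ℕ) :
    ∃ ε : B, ε - 1 ∈ w₀.asIdeal ∧
      (∀ w : HeightOneSpectrum B, w ≠ w₀ → algebraMap A B a ∈ w.asIdeal → ε ∈ w.asIdeal ^ N w) ∧
      Algebra.intTrace A B ε ∉ Ideal.span {a} := by
  classical
  have hinj : Function.Injective (algebraMap A B) := FaithfulSMul.algebraMap_injective A B
  set τ : B := algebraMap A B a with hτ
  have hτ0 : τ ≠ 0 := fun h => ha0 (hinj (by rw [map_zero]; exact h))
  have hfin : {w : HeightOneSpectrum B | w.asIdeal ∣ Ideal.span {τ}}.Finite :=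
    Ideal.finite_factors (by simpa using hτ0)
  have hS : ∀ w : HeightOneSpectrum B, w ∈ hfin.toFinset ↔ τ ∈ w.asIdeal := by
    intro w
    rw [Set.Finite.mem_toFinset, Set.mem_ofPred_eq, Ideal.dvd_span_singleton]
  let n : HeightOneSpectrum B → ℕ := fun w => (- WithZero.log (w.intValuation τ)).toNat
  have hn : ∀ w : HeightOneSpectrum B, w.intValuation τ = exp (-(n w : ℤ)) := by
    intro w
    have h0 : w.intValuation τ ≠ 0 := w.intValuation_ne_zero _ hτ0
    have h1 : w.intValuation τ ≤ 1 := w.intValuation_le_one _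
    have hlog : WithZero.log (w.intValuation τ) ≤ 0 := by
      rw [← exp_log h0, ← exp_zero, exp_le_exp] at h1
      exact h1
    have hn' : ((n w : ℕ) : ℤ) = - WithZero.log (w.intValuation τ) :=
      Int.toNat_of_nonneg (by omega)
    rw [hn', neg_neg, exp_log h0]
  obtain ⟨ε, hε⟩ := IsDedekindDomain.exists_forall_sub_mem_ideal
    (fun w : HeightOneSpectrum B => w.asIdeal) (fun w => n w + N w + 1) (s := hfin.toFinset)
    (fun w _ => w.prime) (fun w _ w' _ hne h => hne (HeightOneSpectrum.ext h))
    (fun w => if (w : HeightOneSpectrum B) = w₀ then 1 else 0)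
  have h1 : ε - 1 ∈ w₀.asIdeal ^ (n w₀ + N w₀ + 1) := by
    have := hε w₀ ((hS w₀).mpr hw₀)
    simpa using this
  have h2 : ∀ w : HeightOneSpectrum B, w ≠ w₀ → τ ∈ w.asIdeal →
      ε ∈ w.asIdeal ^ (n w + N w + 1) := by
    intro w hne hw
    have := hε w ((hS w).mpr hw)
    simpa [hne] using this
  have h1' : ε - 1 ∈ w₀.asIdeal := Ideal.pow_le_self (by omega) h1
  refine ⟨ε, h1', fun w hne hw => Ideal.pow_le_pow_right (by omega) (h2 w hne hw), ?_⟩
  have := hmax
  have hmap : Ideal.map (algebraMap A B) (Ideal.span {a}) = Ideal.span {τ} := by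
    rw [Ideal.map_span, Set.image_singleton]
  apply intTrace_notMem_of_idempotent
  · rw [hmap, Ideal.mem_span_singleton]
    have hmem := HeightOneSpectrum.mem_integers_of_valuation_le_one (R := B) (FractionRing B)
      (algebraMap B (FractionRing B) (ε * ε - ε) / algebraMap B (FractionRing B) τ) ?_
    · obtain ⟨c, hc⟩ := hmem
      refine ⟨c, ?_⟩
      apply IsFractionRing.injective B (FractionRing B)
      have hτF : algebraMap B (FractionRing B) τ ≠ 0 := fun h =>
        hτ0 (IsFractionRing.injective B (FractionRing B) (by rw [h, map_zero]))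
      rw [map_mul, hc]
      field_simp
    intro w
    have hτF : w.valuation (FractionRing B) (algebraMap B (FractionRing B) τ) ≠ 0 := by
      rw [Valuation.ne_zero_iff]
      exact fun h => hτ0 (IsFractionRing.injective B (FractionRing B) (by rw [h, map_zero]))
    rw [map_div₀, div_le_one₀ (zero_lt_iff.mpr hτF)]
    by_cases hw : τ ∈ w.asIdeal
    · rw [HeightOneSpectrum.valuation_of_algebraMap, HeightOneSpectrum.valuation_of_algebraMap,
        hn w, HeightOneSpectrum.intValuation_le_pow_iff_mem]
      by_cases hww : w = w₀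
      · subst hww
        have e1 : ε * ε - ε = ε * (ε - 1) := by ring
        rw [e1]
        exact Ideal.mul_mem_left _ _ (Ideal.pow_le_pow_right (by omega) h1)
      · have e1 : ε * ε - ε = (ε - 1) * ε := by ring
        rw [e1]
        exact Ideal.mul_mem_left _ _ (Ideal.pow_le_pow_right (by omega) (h2 w hww hw))
    · rw [valuation_eq_one_of_notMem (F := FractionRing B) w τ hw]
      exact w.valuation_le_one _
  · rw [hmap, Ideal.mem_span_singleton]
    rintro ⟨c, rfl⟩
    have h3 : τ * c ∈ w₀.asIdeal := Ideal.mul_mem_right _ _ hw₀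
    have h4 : (1 : B) ∈ w₀.asIdeal := by
      have := sub_mem h3 h1'
      simpa using this
    exact w₀.isPrime.ne_top ((Ideal.eq_top_iff_one _).mpr h4)

end AbstractVal

end Fermat.Agent.S20_DualCore
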