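import Fermat.Agent.S24_Place
import Fermat.Agent.S24_Diff
import Fermat.Agent.S20_DualCore

/-!
# S20_Dual (helper7): trace duals of the two charts of a function field, in place language

P1/(R3) of the S20 plan.  For a function field `F/K` (`K` algebraically closed of characteristic
zero) and a transcendental `x` with `[F : K(x)] < ∞`:

* `finite_support_ordDifferential`: `v ↦ ord_v(dx)` has finite support;
* `traceDual_fin`: `Tr(φ·O) ⊆ O` iff `ord_v φ ≥ -ord_v(dx)` at all finite `v`
  (`O` = functions regular at the places where `x` is regular);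
* `traceDual_inf`: `Tr(φ·O∞) ⊆ O∞` iff `ord_v φ ≥ 1 + ord_v x` at all poles `v` of `x`.

The proofs rest on the abstract "tame different" core `Fermat.Agent.S20_DualCore` (helper3):
locally at a point `a = 0` of the base line, `Tr(φ·f)` is regular at `a = 0` for all `f` regular
above `a = 0` iff `ord_w(a φ) ≥ 1` at all primes `w` above `a` (`local_dual`).
-/

set_option autoImplicit false
set_option linter.unusedSectionVars false
noncomputable section
open AlgebraicCurve IntermediateField KaehlerDifferential

namespace Fermat.Agent.S20_Dual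

open IsDedekindDomain WithZero Fermat.Agent.S20_DualCore

/-! ### Abstract local statements -/

section AbstractLocal

variable {A B L F : Type*} [CommRing A] [IsDedekindDomain A] [CommRing B] [IsDedekindDomain B]
  [Algebra A B] [Field L] [Field F] [Algebra A L] [IsFractionRing A L] [Algebra B F]
  [IsFractionRing B F] [Algebra L F] [Algebra A F] [IsScalarTower A B F] [IsScalarTower A L F]
  [Module.Finite A B] [Module.IsTorsionFree A B] [FiniteDimensional L F] [IsIntegralClosure B A F]

/-- An element of `L = Frac A` which is integral at one prime of `B` above the principal maximal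
ideal `(a)` of `A` has a denominator prime to `a`. -/
theorem exists_smul_eq_of_valuation_le_one (a : A) (ha0 : a ≠ 0)
    (hmax : (Ideal.span {a}).IsMaximal) (w : HeightOneSpectrum B)
    (hw : algebraMap A B a ∈ w.asIdeal) (r : L) (hr : w.valuation F (algebraMap L F r) ≤ 1) :
    ∃ s : A, s ∉ Ideal.span {a} ∧ ∃ c : A, algebraMap A L s * r = algebraMap A L c := by
  have ha : ¬ IsUnit a := fun hu => hmax.ne_top (Ideal.span_singleton_eq_top.mpr hu)
  obtain ⟨p, q, hq, rfl⟩ := IsFractionRing.div_surjective (A := A) r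
  have hq0 : q ≠ 0 := nonZeroDivisors.ne_zero hq
  have hqL : algebraMap A L q ≠ 0 := fun h =>
    hq0 (IsFractionRing.injective A L (by rw [h, map_zero]))
  by_cases hp0 : p = 0
  · refine ⟨1, fun h => hmax.ne_top ((Ideal.eq_top_iff_one _).mpr h), 0, ?_⟩
    rw [hp0, map_zero, zero_div, mul_zero]
  obtain ⟨p', hp', hp'dvd⟩ := (FiniteMultiplicity.of_not_isUnit ha hp0).exists_eq_pow_mul_and_not_dvd
  obtain ⟨q', hq', hq'dvd⟩ := (FiniteMultiplicity.of_not_isUnit ha hq0).exists_eq_pow_mul_and_not_dvd
  set i := multiplicity a p with hi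
  set j := multiplicity a q with hj
  have hp's : p' ∉ Ideal.span {a} := fun h => hp'dvd (Ideal.mem_span_singleton.mp h)
  have hq's : q' ∉ Ideal.span {a} := fun h => hq'dvd (Ideal.mem_span_singleton.mp h)
  have hvp : w.valuation F (algebraMap A F p') = 1 :=
    valuation_eq_one_of_notMem_span a hmax w hw p' hp's
  have hvq : w.valuation F (algebraMap A F q') = 1 :=
    valuation_eq_one_of_notMem_span a hmax w hw q' hq's
  set t := w.valuation F (algebraMap A F a) with ht
  have ht1 : t < 1 := by
    rw [ht, IsScalarTower.algebraMap_apply A B F]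
    exact (w.valuation_lt_one_iff_mem _).mpr hw
  have haF : algebraMap A F a ≠ 0 := by
    rw [IsScalarTower.algebraMap_apply A L F]
    intro h
    have h1 : algebraMap A L a = 0 := (algebraMap L F).injective (by rw [h, map_zero])
    exact ha0 (IsFractionRing.injective A L (by rw [h1, map_zero]))
  have ht0 : t ≠ 0 := (Valuation.ne_zero_iff _).mpr haF
  have hval : w.valuation F (algebraMap L F (algebraMap A L p / algebraMap A L q)) = t ^ i / t ^ j := by
    rw [map_div₀, map_div₀, ← IsScalarTower.algebraMap_apply A L F,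
      ← IsScalarTower.algebraMap_apply A L F, hp', hq', map_mul, map_mul, map_pow, map_pow,
      map_mul, map_mul, map_pow, map_pow, hvp, hvq, mul_one, mul_one]
  rw [hval, div_le_one₀ (zero_lt_iff.mpr (pow_ne_zero j ht0))] at hr
  have hji : j ≤ i := by
    by_contra hlt
    rw [not_le] at hlt
    exact absurd hr (not_le.mpr (pow_lt_pow_right_of_lt_one₀ (zero_lt_iff.mpr ht0) ht1 hlt))
  refine ⟨q', hq's, a ^ (i - j) * p', ?_⟩
  have haL : algebraMap A L a ≠ 0 := fun h =>
    ha0 (IsFractionRing.injective A L (by rw [h, map_zero]))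
  have hq'L : algebraMap A L q' ≠ 0 := by
    intro h
    apply hqL
    rw [hq', map_mul, h, mul_zero]
  rw [mul_div_assoc', div_eq_iff hqL, ← map_mul, ← map_mul]
  congr 1
  rw [hp', hq']
  have : a ^ i = a ^ (i - j) * a ^ j := by rw [← pow_add, Nat.sub_add_cancel hji]
  rw [this]
  ring

/-- (ii), abstract form: if `Tr(φ b)` is regular at `a = 0` for every `b ∈ B`, then `a φ` lies in
every prime above `a`. -/
theorem valuation_lt_one_of_trace (a : A) (ha0 : a ≠ 0) (hmax : (Ideal.span {a}).IsMaximal)
    [CharZero (A ⧸ Ideal.span {a})] (φ : F)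
    (h : ∀ b : B, ∃ s : A, s ∉ Ideal.span {a} ∧ ∃ c : A,
      algebraMap A L s * Algebra.trace L F (φ * algebraMap B F b) = algebraMap A L c)
    (w₀ : HeightOneSpectrum B) (hw₀ : algebraMap A B a ∈ w₀.asIdeal) :
    w₀.valuation F (algebraMap A F a * φ) < 1 := by
  by_contra hge
  rw [not_lt] at hge
  have ha : ¬ IsUnit a := fun hu => hmax.ne_top (Ideal.span_singleton_eq_top.mpr hu)
  have hprime : (Ideal.span {a}).IsPrime := hmax.isPrime
  have haL : algebraMap A L a ≠ 0 := fun h =>
    ha0 (IsFractionRing.injective A L (by rw [h, map_zero]))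
  have haF : algebraMap A F a ≠ 0 := by
    rw [IsScalarTower.algebraMap_apply A L F]
    intro h
    exact haL ((algebraMap L F).injective (by rw [h, map_zero]))
  have hφ0 : φ ≠ 0 := by
    rintro rfl
    rw [mul_zero, map_zero] at hge
    exact absurd hge (by simp)
  have hy0 : algebraMap A F a * φ ≠ 0 := mul_ne_zero haF hφ0
  have hloc : IsLocalization (Algebra.algebraMapSubmonoid B (nonZeroDivisors A)) F :=
    IsIntegralClosure.isLocalization A L F B
  -- the exponents
  let N : HeightOneSpectrum B → ℕ := fun w =>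
    (- WithZero.log (w.valuation F (algebraMap A F a * φ))).toNat
  have hN : ∀ w : HeightOneSpectrum B,
      exp (-(N w : ℤ)) ≤ w.valuation F (algebraMap A F a * φ) := by
    intro w
    have h0 : w.valuation F (algebraMap A F a * φ) ≠ 0 := (Valuation.ne_zero_iff _).mpr hy0
    conv_rhs => rw [← exp_log h0]
    rw [exp_le_exp]
    have := Int.self_le_toNat (- WithZero.log (w.valuation F (algebraMap A F a * φ)))
    show -((((- WithZero.log (w.valuation F (algebraMap A F a * φ))).toNat : ℕ) : ℤ)) ≤ _
    omega
  obtain ⟨ε, hε1, hε2, hε3⟩ := exists_idempotent a ha0 hmax w₀ hw₀ N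
  set y : F := algebraMap B F ε / (algebraMap A F a * φ) with hy
  have hyv : ∀ w : HeightOneSpectrum B, algebraMap A B a ∈ w.asIdeal → w.valuation F y ≤ 1 := by
    intro w hw
    have h0 : w.valuation F (algebraMap A F a * φ) ≠ 0 := (Valuation.ne_zero_iff _).mpr hy0
    rw [hy, map_div₀, div_le_one₀ (zero_lt_iff.mpr h0)]
    by_cases hww : w = w₀
    · subst hww
      exact (w.valuation_le_one ε).trans hge
    · refine le_trans ?_ (hN w)
      rw [HeightOneSpectrum.valuation_of_algebraMap,
        HeightOneSpectrum.intValuation_le_pow_iff_mem]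
      exact hε2 w hww hw
  obtain ⟨s, hs, b, hb⟩ := exists_smul_mem_range hloc a ha y hyv
  obtain ⟨s', hs', c, hc⟩ := h b
  have hs'' : s ∉ Ideal.span {a} := fun h => hs (Ideal.mem_span_singleton.mp h)
  -- compute the trace
  have e1 : φ * algebraMap B F b = (algebraMap A L s / algebraMap A L a) • algebraMap B F ε := by
    rw [hb, hy, Algebra.smul_def, map_div₀, ← IsScalarTower.algebraMap_apply A L F,
      ← IsScalarTower.algebraMap_apply A L F]
    field_simp
  have e2 : Algebra.trace L F (φ * algebraMap B F b)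
      = algebraMap A L s / algebraMap A L a * algebraMap A L (Algebra.intTrace A B ε) := by
    rw [e1, map_smul, smul_eq_mul, Algebra.algebraMap_intTrace (A := A) (K := L) (L := F) (B := B)]
  rw [e2] at hc
  have e3 : algebraMap A L (s' * s * Algebra.intTrace A B ε) = algebraMap A L (c * a) := by
    rw [map_mul, map_mul, map_mul, ← hc]
    field_simp
  have e4 : s' * s * Algebra.intTrace A B ε = c * a := IsFractionRing.injective A L e3
  have hmem : s' * s * Algebra.intTrace A B ε ∈ Ideal.span {a} := by
    rw [e4]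
    exact Ideal.mul_mem_left _ _ (Ideal.subset_span rfl)
  rcases hprime.mem_or_mem hmem with h1 | h1
  · rcases hprime.mem_or_mem h1 with h2 | h2
    · exact hs' h2
    · exact hs'' h2
  · exact hε3 h1

end AbstractLocal

/-! ### The local statement in place language (abstract rings) -/

section PlaceLocal

open Fermat.Agent.S24_Places Fermat.Agent.S24_Place

variable {K F : Type*} [Field K] [Field F] [Algebra K F]

theorem ord_pos_iff_valuation_lt_one {B : Type*} [CommRing B] [IsDedekindDomain B] [Algebra B F]
    [IsFractionRing B F] [Algebra K B] [IsScalarTower K B F] (w : HeightOneSpectrum B) {f : F}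
    (hf : f ≠ 0) :
    0 < (Place.ofHeightOneSpectrum (K := K) (F := F) w).ord f ↔ w.valuation F f < 1 := by
  rw [ord_ofHeightOneSpectrum]
  have h0 : w.valuation F f ≠ 0 := (Valuation.ne_zero_iff _).mpr hf
  constructor
  · intro h
    rw [← exp_log h0, ← exp_zero, exp_lt_exp]
    omega
  · intro h
    rw [← exp_log h0, ← exp_zero, exp_lt_exp] at h
    omega

theorem ord_nonneg_iff_valuation_le_one {B : Type*} [CommRing B] [IsDedekindDomain B]
    [Algebra B F] [IsFractionRing B F] [Algebra K B] [IsScalarTower K B F]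
    (w : HeightOneSpectrum B) {f : F} (hf : f ≠ 0) :
    0 ≤ (Place.ofHeightOneSpectrum (K := K) (F := F) w).ord f ↔ w.valuation F f ≤ 1 := by
  rw [ord_ofHeightOneSpectrum]
  have h0 : w.valuation F f ≠ 0 := (Valuation.ne_zero_iff _).mpr hf
  constructor
  · intro h
    rw [← exp_log h0, ← exp_zero, exp_le_exp]
    omega
  · intro h
    rw [← exp_log h0, ← exp_zero, exp_le_exp] at h
    omega

theorem local_dual_aux {A B L : Type*} [CommRing A] [IsDedekindDomain A]
    [CommRing B] [IsDedekindDomain B] [Algebra A B] [Field L] [Algebra A L] [IsFractionRing A L]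
    [Algebra B F] [IsFractionRing B F] [Algebra L F] [Algebra A F] [IsScalarTower A B F]
    [IsScalarTower A L F] [Module.Finite A B] [Module.IsTorsionFree A B] [FiniteDimensional L F]
    [IsIntegralClosure B A F] [Algebra K B] [IsScalarTower K B F]
    (π : F) (hπ0 : π ≠ 0) (a : A) (ha : algebraMap A F a = π)
    (hmax : (Ideal.span {a}).IsMaximal) [CharZero (A ⧸ Ideal.span {a})]
    (hcov : ∀ v : Place K F, π ∈ v.toValuationSubring →
      ∃ w : HeightOneSpectrum B, Place.ofHeightOneSpectrum (K := K) (F := F) w = v)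
    (hint : ∀ (b : B) (v : Place K F), π ∈ v.toValuationSubring →
      algebraMap B F b ∈ v.toValuationSubring)
    (φ : F) :
    ((∀ v : Place K F, 0 < v.ord π → φ = 0 ∨ 1 ≤ v.ord φ + v.ord π) →
      ∀ f : F, (∀ v : Place K F, 0 < v.ord π → f = 0 ∨ 0 ≤ v.ord f) →
        ∀ v : Place K F, 0 < v.ord π →
          algebraMap L F (Algebra.trace L F (φ * f)) = 0 ∨
            0 ≤ v.ord (algebraMap L F (Algebra.trace L F (φ * f)))) ∧
    ((∀ f : F, (∀ v : Place K F, 0 ≤ v.ord π → f = 0 ∨ 0 ≤ v.ord f) →
        ∀ v : Place K F, 0 < v.ord π →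
          algebraMap L F (Algebra.trace L F (φ * f)) = 0 ∨
            0 ≤ v.ord (algebraMap L F (Algebra.trace L F (φ * f)))) →
      ∀ v : Place K F, 0 < v.ord π → φ = 0 ∨ 1 ≤ v.ord φ + v.ord π) := by
  have ha0 : a ≠ 0 := by
    rintro rfl
    rw [map_zero] at ha
    exact hπ0 ha.symm
  have haB : algebraMap B F (algebraMap A B a) = π := by
    rw [← IsScalarTower.algebraMap_apply A B F, ha]
  have k1 : ∀ w : HeightOneSpectrum B, algebraMap A B a ∈ w.asIdeal ↔
      0 < (Place.ofHeightOneSpectrum (K := K) (F := F) w).ord π := by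
    intro w
    rw [ord_pos_iff_valuation_lt_one (K := K) w hπ0, ← haB]
    exact (w.valuation_lt_one_iff_mem (K := F) _).symm
  have k2 : ∀ v : Place K F, 0 < v.ord π → ∃ w : HeightOneSpectrum B,
      Place.ofHeightOneSpectrum (K := K) (F := F) w = v ∧ algebraMap A B a ∈ w.asIdeal := by
    intro v hv
    obtain ⟨w, rfl⟩ := hcov v ((mem_valuationSubring_iff v π).mpr (Or.inr hv.le))
    exact ⟨w, rfl, (k1 w).mpr hv⟩
  constructor
  · intro h2 f hf v hv
    have hy : ∀ w : HeightOneSpectrum B, algebraMap A B a ∈ w.asIdeal →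
        w.valuation F (algebraMap A F a * (φ * f)) < 1 := by
      intro w hw
      have hv' := (k1 w).mp hw
      by_cases h0 : φ * f = 0
      · rw [h0, mul_zero, map_zero]
        exact zero_lt_one
      · have hφ : φ ≠ 0 := left_ne_zero_of_mul h0
        have hf0 : f ≠ 0 := right_ne_zero_of_mul h0
        have h2' := (h2 _ hv').resolve_left hφ
        have hf' := (hf _ hv').resolve_left hf0
        rw [ha, ← ord_pos_iff_valuation_lt_one (K := K) w (mul_ne_zero hπ0 h0),
          Place.ord_mul _ hπ0 h0, Place.ord_mul _ hφ hf0]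
        omega
    obtain ⟨s, hs, c, hc⟩ := trace_of_valuation_lt_one (L := L) a ha0 hmax (φ * f) hy
    obtain ⟨w, rfl, hw⟩ := k2 v hv
    by_cases hT : algebraMap L F (Algebra.trace L F (φ * f)) = 0
    · exact Or.inl hT
    · right
      have e : algebraMap A F s * algebraMap L F (Algebra.trace L F (φ * f))
          = algebraMap A F c := by
        rw [IsScalarTower.algebraMap_apply A L F, IsScalarTower.algebraMap_apply A L F c,
          ← map_mul, hc]
      have hs1 : w.valuation F (algebraMap A F s) = 1 :=
        valuation_eq_one_of_notMem_span a hmax w hw s hs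
      have hc1 : w.valuation F (algebraMap A F c) ≤ 1 := by
        rw [IsScalarTower.algebraMap_apply A B F]
        exact w.valuation_le_one _
      rw [ord_nonneg_iff_valuation_le_one (K := K) w hT]
      have h3 := congrArg (w.valuation F) e
      rw [map_mul, hs1, one_mul] at h3
      rw [h3]
      exact hc1
  · intro h1 v hv
    by_cases hφ : φ = 0
    · exact Or.inl hφ
    right
    obtain ⟨w, rfl, hw⟩ := k2 v hv
    have key := valuation_lt_one_of_trace (L := L) a ha0 hmax φ (fun b => by
      have hreg : ∀ v' : Place K F, 0 ≤ v'.ord π →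
          algebraMap B F b = 0 ∨ 0 ≤ v'.ord (algebraMap B F b) := fun v' hv' =>
        (mem_valuationSubring_iff v' _).mp
          (hint b v' ((mem_valuationSubring_iff v' π).mpr (Or.inr hv')))
      have hT := h1 (algebraMap B F b) hreg _ hv
      apply exists_smul_eq_of_valuation_le_one (L := L) (F := F) a ha0 hmax w hw
      by_cases hT0 : algebraMap L F (Algebra.trace L F (φ * algebraMap B F b)) = 0
      · rw [hT0, map_zero]
        exact zero_le_one
      · exact (ord_nonneg_iff_valuation_le_one (K := K) w hT0).mp (hT.resolve_left hT0)) w hw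
    rw [ha, ← ord_pos_iff_valuation_lt_one (K := K) w (mul_ne_zero hπ0 hφ),
      Place.ord_mul _ hπ0 hφ] at key
    omega

end PlaceLocal

/-! ### The local statement for a transcendental `π` -/

section FunctionField

open Fermat.Agent.S24_Places Fermat.Agent.S24_Place
open scoped IntermediateField.algebraAdjoinAdjoin

variable {K F : Type*} [Field K] [Field F] [Algebra K F]

/-- Local trace duality at the zeros of a transcendental `π` (with `[F : K(π)] < ∞`): the trace
`Tr_{F/K(π)}(φ f)` is regular at `π = 0` for all `f` regular above `π = 0` as soon as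
`ord_v φ ≥ 1 - ord_v π` at all zeros `v` of `π`; conversely this condition follows if the trace is
regular at `π = 0` for all `f` regular at all places where `π` is regular. -/
theorem local_dual [CharZero K] (π : F) (hπ : Transcendental K π) [FiniteDimensional K⟮π⟯ F]
    (φ : F) :
    ((∀ v : Place K F, 0 < v.ord π → φ = 0 ∨ 1 ≤ v.ord φ + v.ord π) →
      ∀ f : F, (∀ v : Place K F, 0 < v.ord π → f = 0 ∨ 0 ≤ v.ord f) →
        ∀ v : Place K F, 0 < v.ord π →
          ((Algebra.trace K⟮π⟯ F (φ * f) : K⟮π⟯) : F) = 0 ∨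
            0 ≤ v.ord ((Algebra.trace K⟮π⟯ F (φ * f) : K⟮π⟯) : F)) ∧
    ((∀ f : F, (∀ v : Place K F, 0 ≤ v.ord π → f = 0 ∨ 0 ≤ v.ord f) →
        ∀ v : Place K F, 0 < v.ord π →
          ((Algebra.trace K⟮π⟯ F (φ * f) : K⟮π⟯) : F) = 0 ∨
            0 ≤ v.ord ((Algebra.trace K⟮π⟯ F (φ * f) : K⟮π⟯) : F)) →
      ∀ v : Place K F, 0 < v.ord π → φ = 0 ∨ 1 ≤ v.ord φ + v.ord π) := by
  have hPID := isPrincipalIdealRing_adjoin hπ
  have hB1 : IsDedekindDomain (integralClosure (Algebra.adjoin K {π}) F) :=
    integralClosure.isDedekindDomain (Algebra.adjoin K {π}) K⟮π⟯ F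
  have hB2 : IsFractionRing (integralClosure (Algebra.adjoin K {π}) F) F :=
    integralClosure.isFractionRing_of_finite_extension K⟮π⟯ F
  have hfin : Module.Finite (Algebra.adjoin K {π}) (integralClosure (Algebra.adjoin K {π}) F) :=
    IsIntegralClosure.finite (Algebra.adjoin K {π}) K⟮π⟯ F _
  have hπ0 : π ≠ 0 := by
    rintro rfl
    exact hπ isAlgebraic_zero
  have hmax := span_gen_isMaximal hπ
  have hnt : Nontrivial (Algebra.adjoin K {π} ⧸ Ideal.span {genA (K := K) π}) :=
    Ideal.Quotient.nontrivial_iff.mpr hmax.ne_top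
  have hchar : CharZero (Algebra.adjoin K {π} ⧸ Ideal.span {genA (K := K) π}) :=
    charZero_of_injective_algebraMap
      (algebraMap K (Algebra.adjoin K {π} ⧸ Ideal.span {genA (K := K) π})).injective
  exact local_dual_aux (K := K) (A := Algebra.adjoin K {π})
    (B := integralClosure (Algebra.adjoin K {π}) F) (L := K⟮π⟯) π hπ0 (genA (K := K) π) rfl hmax
    (fun v hv => (exists_ofHeightOneSpectrum_of_mem v hv).exists)
    (fun b v hv => integralClosure_le_of_mem v hv b) φ

end FunctionField

/-! ### Small universe-polymorphic helpers -/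

section Helpers

open Fermat.Agent.S24_Places Fermat.Agent.S24_Place

variable {K F : Type*} [Field K] [Field F] [Algebra K F]

theorem adjoin_sub_eq' (x : F) (c : K) : K⟮x - algebraMap K F c⟯ = K⟮x⟯ := by
  apply le_antisymm
  · rw [IntermediateField.adjoin_simple_le_iff]
    exact sub_mem (IntermediateField.mem_adjoin_simple_self K x)
      (IntermediateField.algebraMap_mem _ c)
  · rw [IntermediateField.adjoin_simple_le_iff]
    have h := add_mem (IntermediateField.mem_adjoin_simple_self K (x - algebraMap K F c))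
      (IntermediateField.algebraMap_mem K⟮x - algebraMap K F c⟯ c)
    simpa using h

theorem transcendental_sub' {x : F} (hx : Transcendental K x) (c : K) :
    Transcendental K (x - algebraMap K F c) := by
  intro h
  apply hx
  have := h.add (isAlgebraic_algebraMap (R := K) (A := F) c)
  simpa using this

theorem transcendental_inv' {x : F} (hx : Transcendental K x) : Transcendental K x⁻¹ := by
  intro h
  apply hx
  have := h.inv
  simpa using this

theorem trace_coe_eq_of_eq {E E' : IntermediateField K F} (h : E = E') (y : F) :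
    ((Algebra.trace E F y : E) : F) = ((Algebra.trace E' F y : E') : F) := by
  subst h
  rfl

theorem ord_nonneg_iff_mem (v : Place K F) (y : F) : 0 ≤ v.ord y ↔ y ∈ v.toValuationSubring :=
  ⟨fun h => (mem_valuationSubring_iff v y).mpr (Or.inr h), fun h => ord_nonneg_of_mem v h⟩

theorem ord_sub_nonneg_iff (v : Place K F) (x : F) (c : K) :
    0 ≤ v.ord (x - algebraMap K F c) ↔ 0 ≤ v.ord x := by
  rw [ord_nonneg_iff_mem, ord_nonneg_iff_mem]
  constructor
  · intro h
    have := add_mem h (v.algebraMap_mem' c)
    simpa using this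
  · intro h
    exact sub_mem h (v.algebraMap_mem' c)

theorem pole_or_zero' [IsAlgClosed K] [CharZero K] (x : F) (hx : Transcendental K x)
    [FiniteDimensional K⟮x⟯ F] (v : Place K F) :
    v.ord x < 0 ∨ ∃ c : K, 0 < v.ord (x - algebraMap K F c) := by
  by_contra hcon
  push Not at hcon
  obtain ⟨h1, h2⟩ := hcon
  have hxmem : x ∈ v.toValuationSubring := (mem_valuationSubring_iff v x).2 (Or.inr h1)
  obtain ⟨ϖ, hϖ⟩ := IsDiscreteValuationRing.exists_irreducible v.toValuationSubring
  have ht : v.ord (ϖ : F) = 1 := v.ord_coe_irreducible hϖ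
  have ht0 : (ϖ : F) ≠ 0 := by
    intro h0
    rw [h0, Place.ord_zero] at ht
    exact zero_ne_one ht
  obtain ⟨a, z, hz, hxa⟩ := exists_eq_add_mul x hx v (ϖ : F) ht x hxmem
  have hz0 : z ≠ 0 := by
    rintro rfl
    apply hx
    rw [hxa, mul_zero, add_zero]
    exact isAlgebraic_algebraMap a
  have e : x - algebraMap K F a = (ϖ : F) * z := by
    rw [hxa]; ring
  have hpos : 0 < v.ord (x - algebraMap K F a) := by
    rw [e, v.ord_mul ht0 hz0, ht]
    have := ((mem_valuationSubring_iff v z).1 hz).resolve_left hz0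
    omega
  exact absurd hpos (not_lt.2 (h2 a))

end Helpers

/-! ### The two charts -/

section Charts

open Fermat.Agent.S24_Places Fermat.Agent.S24_Place

variable {K F : Type*} [Field K] [Field F] [Algebra K F]

/-- (R3b) trace dual of the finite chart `O = {f | ord_v f ≥ 0 at all v with ord_v x ≥ 0}`:
`Tr(φ·O) ⊆ O` iff `ord_v φ ≥ -ord_v(dx)` at all finite `v`. -/
theorem traceDual_fin [IsAlgClosed K] [CharZero K] (x : F) (hx : Transcendental K x)
    [FiniteDimensional K⟮x⟯ F] (φ : F) :
    (∀ f : F, (∀ v : Place K F, 0 ≤ v.ord x → f = 0 ∨ 0 ≤ v.ord f) →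
      ∀ v : Place K F, 0 ≤ v.ord x →
        ((Algebra.trace K⟮x⟯ F (φ * f) : K⟮x⟯) : F) = 0 ∨
          0 ≤ v.ord ((Algebra.trace K⟮x⟯ F (φ * f) : K⟮x⟯) : F)) ↔
    ∀ v : Place K F, 0 ≤ v.ord x → φ = 0 ∨ 0 ≤ v.ord φ + v.ordDifferential (D K F x) := by
  constructor
  · intro h v₀ hv₀
    obtain ⟨c, hc⟩ := (pole_or_zero' x hx v₀).resolve_left (not_lt.mpr hv₀)
    have hπ : Transcendental K (x - algebraMap K F c) := transcendental_sub' hx c
    have hE : K⟮x - algebraMap K F c⟯ = K⟮x⟯ := adjoin_sub_eq' x c
    have : FiniteDimensional K⟮x - algebraMap K F c⟯ F := finiteDimensional_of_eq hE.symm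
    have h2 := (local_dual (x - algebraMap K F c) hπ φ).2 (fun f hf v hv => by
      have hv' : 0 ≤ v.ord x := (ord_sub_nonneg_iff v x c).mp hv.le
      have := h f (fun v' hv' => hf v' ((ord_sub_nonneg_iff v' x c).mpr hv')) v hv'
      rwa [trace_coe_eq_of_eq hE]) v₀ hc
    rcases h2 with h2 | h2
    · exact Or.inl h2
    · right
      rw [S24_Diff.ordDifferential_D_of_zero x hx v₀ c hc]
      omega
  · intro h f hf v hv
    obtain ⟨c, hc⟩ := (pole_or_zero' x hx v).resolve_left (not_lt.mpr hv)
    have hπ : Transcendental K (x - algebraMap K F c) := transcendental_sub' hx c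
    have hE : K⟮x - algebraMap K F c⟯ = K⟮x⟯ := adjoin_sub_eq' x c
    have : FiniteDimensional K⟮x - algebraMap K F c⟯ F := finiteDimensional_of_eq hE.symm
    have h1 := (local_dual (x - algebraMap K F c) hπ φ).1 (fun v' hv' => by
      have hv'' : 0 ≤ v'.ord x := (ord_sub_nonneg_iff v' x c).mp hv'.le
      rcases h v' hv'' with h0 | h0
      · exact Or.inl h0
      · right
        rw [S24_Diff.ordDifferential_D_of_zero x hx v' c hv'] at h0
        omega)
      f (fun v' hv' => hf v' ((ord_sub_nonneg_iff v' x c).mp hv'.le)) v hc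
    rwa [trace_coe_eq_of_eq hE] at h1

/-- (R3c) trace dual of the chart at infinity `O∞ = {f | ord_v f ≥ 0 at all poles v of x}`:
`Tr(φ·O∞) ⊆ O∞` iff `ord_v φ ≥ 1 + ord_v x` at all poles `v` of `x`. -/
theorem traceDual_inf [IsAlgClosed K] [CharZero K] (x : F) (hx : Transcendental K x)
    [FiniteDimensional K⟮x⟯ F] (φ : F) :
    (∀ f : F, (∀ v : Place K F, v.ord x < 0 → f = 0 ∨ 0 ≤ v.ord f) →
      ∀ v : Place K F, v.ord x < 0 →
        ((Algebra.trace K⟮x⟯ F (φ * f) : K⟮x⟯) : F) = 0 ∨
          0 ≤ v.ord ((Algebra.trace K⟮x⟯ F (φ * f) : K⟮x⟯) : F)) ↔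
    ∀ v : Place K F, v.ord x < 0 →
      φ = 0 ∨ 2 * v.ord x ≤ v.ord φ + v.ordDifferential (D K F x) := by
  have hπ : Transcendental K x⁻¹ := transcendental_inv' hx
  have hE : K⟮x⁻¹⟯ = K⟮x⟯ := adjoin_inv_eq x
  have : FiniteDimensional K⟮x⁻¹⟯ F := finiteDimensional_of_eq hE.symm
  have hord : ∀ v : Place K F, v.ord x⁻¹ = -v.ord x := fun v => v.ord_inv x
  constructor
  · intro h v₀ hv₀
    have hv₀' : 0 < v₀.ord x⁻¹ := by rw [hord]; omega
    have h2 := (local_dual x⁻¹ hπ φ).2 (fun f hf v hv => by
      have hv' : v.ord x < 0 := by rw [hord] at hv; omega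
      have := h f (fun v' hv' => hf v' (by rw [hord]; omega)) v hv'
      rwa [trace_coe_eq_of_eq hE]) v₀ hv₀'
    rcases h2 with h2 | h2
    · exact Or.inl h2
    · right
      rw [S24_Diff.ordDifferential_D_of_pole x hx v₀ hv₀]
      rw [hord] at h2
      omega
  · intro h f hf v hv
    have h1 := (local_dual x⁻¹ hπ φ).1 (fun v' hv' => by
      have hv'' : v'.ord x < 0 := by rw [hord] at hv'; omega
      rcases h v' hv'' with h0 | h0
      · exact Or.inl h0
      · right
        rw [S24_Diff.ordDifferential_D_of_pole x hx v' hv''] at h0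
        rw [hord]
        omega)
      f (fun v' hv' => hf v' (by rw [hord] at hv'; omega)) v (by rw [hord]; omega)
    rwa [trace_coe_eq_of_eq hE] at h1

end Charts

/-! ### Finiteness of the ramification -/

section AbstractFinite

variable {A B L F : Type*} [CommRing A] [IsDedekindDomain A] [CommRing B] [IsDedekindDomain B]
  [Algebra A B] [Field L] [Field F] [Algebra A L] [IsFractionRing A L] [Algebra B F]
  [IsFractionRing B F] [Algebra L F] [Algebra A F] [IsScalarTower A B F] [IsScalarTower A L F]
  [Module.Finite A B] [Module.IsTorsionFree A B] [FiniteDimensional L F] [IsIntegralClosure B A F]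
  [Algebra.IsSeparable L F]

include L F in
theorem differentIdeal_ne_bot' : differentIdeal A B ≠ ⊥ := by
  rw [ne_eq, ← FractionalIdeal.coeIdeal_inj (K := F), coeIdeal_differentIdeal (K := L)]
  simp

include L F in
/-- Only finitely many primes of `B` are ramified over a principal maximal ideal of `A`. -/
theorem finite_ramified :
    {w : HeightOneSpectrum B | ∃ a : A, (Ideal.span {a}).IsMaximal ∧ a ≠ 0 ∧
      algebraMap A B a ∈ w.asIdeal ^ 2}.Finite := by
  refine (Ideal.finite_factors (differentIdeal_ne_bot' (A := A) (B := B) (L := L) (F := F))).subset ?_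
  rintro w ⟨a, hmax, ha0, hmem⟩
  have hp0 : Ideal.span {a} ≠ ⊥ := by
    rw [Ne, Ideal.span_singleton_eq_bot]; exact ha0
  have hdvd : w.asIdeal ^ 2 ∣ (Ideal.span {a}).map (algebraMap A B) := by
    rw [Ideal.map_span, Set.image_singleton, Ideal.dvd_iff_le, Ideal.span_singleton_le_iff_mem]
    exact hmem
  have := pow_sub_one_dvd_differentIdeal_aux A L F w.asIdeal (e := 2) (by norm_num) hp0 hdvd
  simpa using this

end AbstractFinite

section Finite

open Fermat.Agent.S24_Places Fermat.Agent.S24_Place
open scoped IntermediateField.algebraAdjoinAdjoin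

variable {K F : Type*} [Field K] [Field F] [Algebra K F]

theorem adjoin_sub_eq_adjoin (x : F) (c : K) :
    Algebra.adjoin K {x - algebraMap K F c} = Algebra.adjoin K {x} := by
  apply le_antisymm
  · apply Algebra.adjoin_le
    intro y hy
    rw [Set.mem_singleton_iff.mp hy]
    exact sub_mem (Algebra.self_mem_adjoin_singleton K x) (Subalgebra.algebraMap_mem _ c)
  · apply Algebra.adjoin_le
    intro y hy
    rw [Set.mem_singleton_iff.mp hy]
    have := add_mem (Algebra.self_mem_adjoin_singleton K (x - algebraMap K F c))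
      (Subalgebra.algebraMap_mem (Algebra.adjoin K {x - algebraMap K F c}) c)
    simpa using this

theorem isMaximal_span_of_eq {S₁ S₂ : Subalgebra K F} (h : S₁ = S₂) (a₁ : S₁) (a₂ : S₂)
    (ha : (a₁ : F) = a₂) (hmax : (Ideal.span {a₁}).IsMaximal) : (Ideal.span {a₂}).IsMaximal := by
  subst h
  have : a₁ = a₂ := Subtype.ext ha
  rw [← this]
  exact hmax

theorem span_gen_sub_isMaximal {x : F} (hx : Transcendental K x) (c : K) :
    (Ideal.span {genA (K := K) x - algebraMap K (Algebra.adjoin K {x}) c}).IsMaximal :=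
  isMaximal_span_of_eq (adjoin_sub_eq_adjoin x c) (genA (K := K) (x - algebraMap K F c)) _ rfl
    (span_gen_isMaximal (transcendental_sub' hx c))

/-- (R3a) `v ↦ ord_v(dx)` has finite support. -/
theorem finite_support_ordDifferential [IsAlgClosed K] [CharZero K] (x : F)
    (hx : Transcendental K x) [FiniteDimensional K⟮x⟯ F] :
    {v : Place K F | v.ordDifferential (D K F x) ≠ 0}.Finite := by
  classical
  have hPID := isPrincipalIdealRing_adjoin hx
  have hB1 : IsDedekindDomain (integralClosure (Algebra.adjoin K {x}) F) :=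
    integralClosure.isDedekindDomain (Algebra.adjoin K {x}) K⟮x⟯ F
  have hB2 : IsFractionRing (integralClosure (Algebra.adjoin K {x}) F) F :=
    integralClosure.isFractionRing_of_finite_extension K⟮x⟯ F
  have hfin : Module.Finite (Algebra.adjoin K {x}) (integralClosure (Algebra.adjoin K {x}) F) :=
    IsIntegralClosure.finite (Algebra.adjoin K {x}) K⟮x⟯ F _
  -- poles
  have hE : K⟮x⁻¹⟯ = K⟮x⟯ := adjoin_inv_eq x
  have hfd : FiniteDimensional K⟮x⁻¹⟯ F := finiteDimensional_of_eq hE.symm
  have hpoles : {v : Place K F | 0 < v.ord x⁻¹}.Finite :=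
    finite_zeros x⁻¹ (transcendental_inv' hx)
  -- ramified primes
  have hram := finite_ramified (A := Algebra.adjoin K {x})
    (B := integralClosure (Algebra.adjoin K {x}) F) (L := K⟮x⟯) (F := F)
  refine (hpoles.union (hram.image (Place.ofHeightOneSpectrum (K := K) (F := F)))).subset ?_
  intro v hv
  have hv : v.ordDifferential (D K F x) ≠ 0 := hv
  rcases pole_or_zero' x hx v with hp | ⟨c, hc⟩
  · left
    show 0 < v.ord x⁻¹
    rw [v.ord_inv]
    omega
  · right
    rw [S24_Diff.ordDifferential_D_of_zero x hx v c hc] at hv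
    have h2 : 2 ≤ v.ord (x - algebraMap K F c) := by omega
    have hxv : x ∈ v.toValuationSubring :=
      (ord_nonneg_iff_mem v x).mp ((ord_sub_nonneg_iff v x c).mp hc.le)
    obtain ⟨w, rfl⟩ := (exists_ofHeightOneSpectrum_of_mem v hxv).exists
    refine ⟨w, ?_, rfl⟩
    have hπ0 : x - algebraMap K F c ≠ 0 := by
      intro h0
      exact transcendental_sub' hx c (by rw [h0]; exact isAlgebraic_zero)
    refine ⟨genA (K := K) x - algebraMap K (Algebra.adjoin K {x}) c, span_gen_sub_isMaximal hx c,
      ?_, ?_⟩
    · intro h0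
      apply hπ0
      have := congrArg (fun a : Algebra.adjoin K {x} => (a : F)) h0
      simpa [genA] using this
    · rw [← HeightOneSpectrum.intValuation_le_pow_iff_mem,
        ← HeightOneSpectrum.valuation_of_algebraMap (K := F)]
      change w.valuation F (x - algebraMap K F c) ≤ _
      rw [ord_ofHeightOneSpectrum] at h2
      have h0 : w.valuation F (x - algebraMap K F c) ≠ 0 := (Valuation.ne_zero_iff _).mpr hπ0
      rw [← exp_log h0, exp_le_exp]
      push_cast
      omega

end Finite

end Fermat.Agent.S20_Dual
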