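import Fermat.Agent.S24_Place
import Fermat.Agent.S20_DualCore

/-!
# S20, P1/(R3), local part (helper1): trace duality at the zeros of `x`, in place language

`F / K(x)` a function field (`K` algebraically closed of characteristic zero).

* `trace_regular`: if `x * y` vanishes at every zero of `x`, then `Tr_{F/K(x)} y` is regular at
  the zeros of `x`.
* `exists_trace_pole`: if `φ` has a pole of order at least `ord_v₀ x` at a zero `v₀` of `x`,
  there is a function `f`, regular at all places where `x` is regular, such that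
  `Tr_{F/K(x)} (φ f)` has a pole at every zero of `x`.

Both are the place-language translations of the abstract statements of `S20_DualCore`.
-/

set_option autoImplicit false
set_option linter.unusedSectionVars false
noncomputable section
open AlgebraicCurve IntermediateField

namespace Fermat.Agent.S20_DualLocal

open IsDedekindDomain WithZero
open Fermat.Agent.S24_Place Fermat.Agent.S24_Places Fermat.Agent.S20_DualCore
open scoped IntermediateField.algebraAdjoinAdjoin

variable {K F : Type*} [Field K] [Field F] [Algebra K F]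

section Abstract

variable {A B L : Type*} [CommRing A] [IsDedekindDomain A] [CommRing B] [IsDedekindDomain B]
  [Algebra A B] [Field L] [Algebra A L] [IsFractionRing A L] [Algebra B F]
  [IsFractionRing B F] [Algebra L F] [Algebra A F] [IsScalarTower A B F] [IsScalarTower A L F]
  [Module.Finite A B] [Module.IsTorsionFree A B] [FiniteDimensional L F] [IsIntegralClosure B A F]
  [Algebra K B] [IsScalarTower K B F]

theorem ord_pos_iff_mem (w : HeightOneSpectrum B) (a : A) (h0 : algebraMap A F a ≠ 0) :
    0 < (Place.ofHeightOneSpectrum (K := K) (F := F) w).ord (algebraMap A F a) ↔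
      algebraMap A B a ∈ w.asIdeal := by
  have h0' : w.valuation F (algebraMap A F a) ≠ 0 := (Valuation.ne_zero_iff _).mpr h0
  have key : w.valuation F (algebraMap A F a) < 1 ↔ algebraMap A B a ∈ w.asIdeal := by
    rw [IsScalarTower.algebraMap_apply A B F]
    exact w.valuation_lt_one_iff_mem (K := F) _
  rw [ord_ofHeightOneSpectrum, ← key]
  constructor
  · intro h
    rw [← exp_log h0', ← exp_zero, exp_lt_exp]
    omega
  · intro h
    rw [← exp_log h0', ← exp_zero, exp_lt_exp] at h
    omega

theorem ord_nonneg_of_valuation_le_one (w : HeightOneSpectrum B) (f : F)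
    (h : w.valuation F f ≤ 1) :
    0 ≤ (Place.ofHeightOneSpectrum (K := K) (F := F) w).ord f := by
  rw [ord_ofHeightOneSpectrum]
  by_cases h0 : w.valuation F f = 0
  · rw [h0]
    simp
  · rw [← exp_log h0, ← exp_zero, exp_le_exp] at h
    omega

theorem valuation_lt_one_of_ord_pos (w : HeightOneSpectrum B) (f : F)
    (h : 0 < (Place.ofHeightOneSpectrum (K := K) (F := F) w).ord f) :
    w.valuation F f < 1 := by
  rw [ord_ofHeightOneSpectrum] at h
  by_cases h0 : w.valuation F f = 0
  · rw [h0]
    exact zero_lt_one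
  · rw [← exp_log h0, ← exp_zero, exp_lt_exp]
    omega

theorem ord_eq_zero_of_valuation_eq_one (w : HeightOneSpectrum B) (f : F)
    (h : w.valuation F f = 1) :
    (Place.ofHeightOneSpectrum (K := K) (F := F) w).ord f = 0 := by
  rw [ord_ofHeightOneSpectrum, h]
  simp

theorem trace_regular_aux (x : F) (a : A) (ha : algebraMap A F a = x) (ha0 : a ≠ 0)
    (hmax : (Ideal.span {a}).IsMaximal)
    (hcov : ∀ v : Place K F, 0 < v.ord x →
      ∃ w : HeightOneSpectrum B, Place.ofHeightOneSpectrum (K := K) (F := F) w = v)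
    (y : F) (hy : ∀ v : Place K F, 0 < v.ord x → y = 0 ∨ 1 - v.ord x ≤ v.ord y) :
    ∀ v : Place K F, 0 < v.ord x →
      algebraMap L F (Algebra.trace L F y) = 0 ∨
        0 ≤ v.ord (algebraMap L F (Algebra.trace L F y)) := by
  have hinjF : Function.Injective (algebraMap A F) := by
    rw [IsScalarTower.algebraMap_eq A L F]
    exact (algebraMap L F).injective.comp (IsFractionRing.injective A L)
  have haF : algebraMap A F a ≠ 0 := fun h => ha0 (hinjF (by rw [h, map_zero]))
  have hx0 : x ≠ 0 := ha ▸ haF
  have hyw : ∀ w : HeightOneSpectrum B, algebraMap A B a ∈ w.asIdeal →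
      w.valuation F (algebraMap A F a * y) < 1 := by
    intro w hw
    have hvx : 0 < (Place.ofHeightOneSpectrum (K := K) (F := F) w).ord x := by
      rw [← ha]
      exact (ord_pos_iff_mem w a haF).mpr hw
    rcases hy _ hvx with rfl | h
    · simp
    · by_cases hy0 : y = 0
      · subst hy0
        simp
      · apply valuation_lt_one_of_ord_pos (K := K)
        rw [ha, Place.ord_mul _ hx0 hy0]
        omega
  obtain ⟨s, hs, c, hc⟩ := trace_of_valuation_lt_one (L := L) a ha0 hmax y hyw
  intro v hv
  obtain ⟨w, rfl⟩ := hcov v hv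
  have haw : algebraMap A B a ∈ w.asIdeal := by
    rw [← ha] at hv
    exact (ord_pos_iff_mem w a haF).mp hv
  have hsv : w.valuation F (algebraMap A F s) = 1 :=
    valuation_eq_one_of_notMem_span a hmax w haw s hs
  have hT : algebraMap A F s * algebraMap L F (Algebra.trace L F y) = algebraMap A F c := by
    have := congrArg (algebraMap L F) hc
    rwa [map_mul, ← IsScalarTower.algebraMap_apply, ← IsScalarTower.algebraMap_apply] at this
  right
  apply ord_nonneg_of_valuation_le_one
  have h1 := congrArg (w.valuation F) hT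
  rw [map_mul, hsv, one_mul] at h1
  rw [h1, IsScalarTower.algebraMap_apply A B F]
  exact w.valuation_le_one _

theorem exists_trace_pole_aux (x : F) (a : A) (ha : algebraMap A F a = x) (ha0 : a ≠ 0)
    (hmax : (Ideal.span {a}).IsMaximal) [CharZero (A ⧸ Ideal.span {a})]
    (hcov : ∀ v : Place K F, 0 < v.ord x →
      ∃ w : HeightOneSpectrum B, Place.ofHeightOneSpectrum (K := K) (F := F) w = v)
    (hreg : ∀ (b : B) (v : Place K F), 0 ≤ v.ord x → algebraMap B F b ∈ v.toValuationSubring)
    (φ : F) (hφ : φ ≠ 0) (v₀ : Place K F) (h₀ : 0 < v₀.ord x)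
    (hv₀ : v₀.ord φ ≤ - v₀.ord x) :
    ∃ f : F, (∀ v : Place K F, 0 ≤ v.ord x → f = 0 ∨ 0 ≤ v.ord f) ∧
      algebraMap L F (Algebra.trace L F (φ * f)) ≠ 0 ∧
      ∀ v : Place K F, 0 < v.ord x →
        v.ord (algebraMap L F (Algebra.trace L F (φ * f))) < 0 := by
  obtain ⟨w₀, rfl⟩ := hcov v₀ h₀
  have hinjF : Function.Injective (algebraMap A F) := by
    rw [IsScalarTower.algebraMap_eq A L F]
    exact (algebraMap L F).injective.comp (IsFractionRing.injective A L)
  have haF : algebraMap A F a ≠ 0 := fun h => ha0 (hinjF (by rw [h, map_zero]))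
  have hx0 : x ≠ 0 := ha ▸ haF
  have hxφ : x * φ ≠ 0 := mul_ne_zero hx0 hφ
  have hw₀ : algebraMap A B a ∈ w₀.asIdeal := by
    rw [← ha] at h₀
    exact (ord_pos_iff_mem w₀ a haF).mp h₀
  have hval0 : ∀ w : HeightOneSpectrum B, w.valuation F (x * φ) ≠ 0 := fun w =>
    (Valuation.ne_zero_iff _).mpr hxφ
  obtain ⟨ε, hε1, hε2, hε3⟩ := exists_idempotent a ha0 hmax w₀ hw₀
    (fun w => (- log (w.valuation F (x * φ))).toNat)
  have hy₀ : ∀ w : HeightOneSpectrum B, algebraMap A B a ∈ w.asIdeal →
      w.valuation F (algebraMap B F ε / (x * φ)) ≤ 1 := by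
    intro w hw
    rw [map_div₀, div_le_one₀ (zero_lt_iff.mpr (hval0 w))]
    by_cases hww : w = w₀
    · subst hww
      have h1 : (Place.ofHeightOneSpectrum (K := K) (F := F) w).ord (x * φ) ≤ 0 := by
        rw [Place.ord_mul _ hx0 hφ]
        omega
      rw [ord_ofHeightOneSpectrum] at h1
      refine (w.valuation_le_one ε).trans ?_
      rw [← exp_log (hval0 w), ← exp_zero, exp_le_exp]
      omega
    · have h1 := hε2 w hww hw
      rw [← w.intValuation_le_pow_iff_mem] at h1
      rw [HeightOneSpectrum.valuation_of_algebraMap]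
      refine h1.trans ?_
      conv_rhs => rw [← exp_log (hval0 w)]
      rw [exp_le_exp]
      omega
  have hau : ¬ IsUnit a := fun hu => hmax.ne_top (Ideal.span_singleton_eq_top.mpr hu)
  have hloc : IsLocalization (Algebra.algebraMapSubmonoid B (nonZeroDivisors A)) F :=
    IsIntegralClosure.isLocalization A L F B
  obtain ⟨s, hs, b, hb⟩ := exists_smul_mem_range hloc a hau (algebraMap B F ε / (x * φ)) hy₀
  have hs' : s ∉ Ideal.span {a} := fun h => hs (Ideal.mem_span_singleton.mp h)
  have haL : algebraMap A L a ≠ 0 := by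
    intro h
    exact ha0 (IsFractionRing.injective A L (by rw [h, map_zero]))
  have hφf : φ * algebraMap B F b
      = (algebraMap A L s / algebraMap A L a) • algebraMap B F ε := by
    rw [hb, Algebra.smul_def, map_div₀, ← IsScalarTower.algebraMap_apply A L F,
      ← IsScalarTower.algebraMap_apply A L F, ha]
    field_simp
  have hT : algebraMap L F (Algebra.trace L F (φ * algebraMap B F b))
      = algebraMap A F s / x * algebraMap A F (Algebra.intTrace A B ε) := by
    rw [hφf, map_smul, smul_eq_mul, map_mul, map_div₀, ← IsScalarTower.algebraMap_apply,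
      ← IsScalarTower.algebraMap_apply, ha,
      ← Algebra.algebraMap_intTrace (A := A) (K := L) (L := F) (B := B) ε,
      ← IsScalarTower.algebraMap_apply A L F]
  have hsF : algebraMap A F s ≠ 0 := by
    intro h
    apply hs'
    have : s = 0 := hinjF (by rw [h, map_zero])
    rw [this]
    exact zero_mem _
  have htF : algebraMap A F (Algebra.intTrace A B ε) ≠ 0 := by
    intro h
    apply hε3
    have : Algebra.intTrace A B ε = 0 := hinjF (by rw [h, map_zero])
    rw [this]
    exact zero_mem _
  refine ⟨algebraMap B F b, fun v hv => (mem_valuationSubring_iff v _).mp (hreg b v hv), ?_, ?_⟩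
  · rw [hT]
    exact mul_ne_zero (div_ne_zero hsF hx0) htF
  · intro v hv
    obtain ⟨w, rfl⟩ := hcov v hv
    have haw : algebraMap A B a ∈ w.asIdeal := by
      rw [← ha] at hv
      exact (ord_pos_iff_mem w a haF).mp hv
    have h1 := ord_eq_zero_of_valuation_eq_one (K := K) w _
      (valuation_eq_one_of_notMem_span (F := F) a hmax w haw s hs')
    have h2 := ord_eq_zero_of_valuation_eq_one (K := K) w _
      (valuation_eq_one_of_notMem_span (F := F) a hmax w haw _ hε3)
    rw [hT, Place.ord_mul _ (div_ne_zero hsF hx0) htF, div_eq_mul_inv,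
      Place.ord_mul _ hsF (inv_ne_zero hx0), Place.ord_inv, h1, h2]
    omega

end Abstract

theorem charZero_quotient_gen [CharZero K] {x : F} (hx : Transcendental K x) :
    CharZero (Algebra.adjoin K {x} ⧸ Ideal.span {genA (K := K) x}) := by
  have hne : Ideal.span {genA (K := K) x} ≠ ⊤ := span_gen_ne_top hx
  have : Nontrivial (Algebra.adjoin K {x} ⧸ Ideal.span {genA (K := K) x}) :=
    Ideal.Quotient.nontrivial_iff.mpr hne
  exact charZero_of_injective_algebraMap
    (algebraMap K (Algebra.adjoin K {x} ⧸ Ideal.span {genA (K := K) x})).injective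

/-- (L1) if `x * y` vanishes at every zero of `x`, then `Tr y` is regular at the zeros of `x`. -/
theorem trace_regular [IsAlgClosed K] [CharZero K] (x : F) (hx : Transcendental K x)
    [FiniteDimensional K⟮x⟯ F] (y : F)
    (hy : ∀ v : Place K F, 0 < v.ord x → y = 0 ∨ 1 - v.ord x ≤ v.ord y) :
    ∀ v : Place K F, 0 < v.ord x →
      ((Algebra.trace K⟮x⟯ F y : K⟮x⟯) : F) = 0 ∨
        0 ≤ v.ord ((Algebra.trace K⟮x⟯ F y : K⟮x⟯) : F) := by
  have hPID := isPrincipalIdealRing_adjoin hx
  have hB1 : IsDedekindDomain (integralClosure (Algebra.adjoin K {x}) F) :=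
    integralClosure.isDedekindDomain (Algebra.adjoin K {x}) K⟮x⟯ F
  have hB2 : IsFractionRing (integralClosure (Algebra.adjoin K {x}) F) F :=
    integralClosure.isFractionRing_of_finite_extension K⟮x⟯ F
  have hfin : Module.Finite (Algebra.adjoin K {x}) (integralClosure (Algebra.adjoin K {x}) F) :=
    IsIntegralClosure.finite (Algebra.adjoin K {x}) K⟮x⟯ F _
  have hx0 : x ≠ 0 := by
    rintro rfl
    exact hx isAlgebraic_zero
  have ha0 : genA (K := K) x ≠ 0 := by
    intro h
    exact hx0 (congrArg Subtype.val h)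
  exact trace_regular_aux (K := K) (A := Algebra.adjoin K {x})
    (B := integralClosure (Algebra.adjoin K {x}) F) (L := K⟮x⟯) x (genA (K := K) x) rfl ha0
    (span_gen_isMaximal hx)
    (fun v hv => (exists_ofHeightOneSpectrum_of_mem v
      ((mem_valuationSubring_iff v x).mpr (Or.inr hv.le))).exists) y hy

/-- (L2) if `φ` has a pole of order `≥ ord_v₀ x` at a zero `v₀` of `x`, there is `f` regular
at all places where `x` is regular such that `Tr (φ f)` has a pole at every zero of `x`. -/
theorem exists_trace_pole [IsAlgClosed K] [CharZero K] (x : F) (hx : Transcendental K x)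
    [FiniteDimensional K⟮x⟯ F] (φ : F) (hφ : φ ≠ 0) (v₀ : Place K F) (h₀ : 0 < v₀.ord x)
    (hv₀ : v₀.ord φ ≤ - v₀.ord x) :
    ∃ f : F, (∀ v : Place K F, 0 ≤ v.ord x → f = 0 ∨ 0 ≤ v.ord f) ∧
      ((Algebra.trace K⟮x⟯ F (φ * f) : K⟮x⟯) : F) ≠ 0 ∧
      ∀ v : Place K F, 0 < v.ord x →
        v.ord ((Algebra.trace K⟮x⟯ F (φ * f) : K⟮x⟯) : F) < 0 := by
  have hPID := isPrincipalIdealRing_adjoin hx
  have hB1 : IsDedekindDomain (integralClosure (Algebra.adjoin K {x}) F) :=
    integralClosure.isDedekindDomain (Algebra.adjoin K {x}) K⟮x⟯ F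
  have hB2 : IsFractionRing (integralClosure (Algebra.adjoin K {x}) F) F :=
    integralClosure.isFractionRing_of_finite_extension K⟮x⟯ F
  have hfin : Module.Finite (Algebra.adjoin K {x}) (integralClosure (Algebra.adjoin K {x}) F) :=
    IsIntegralClosure.finite (Algebra.adjoin K {x}) K⟮x⟯ F _
  have hx0 : x ≠ 0 := by
    rintro rfl
    exact hx isAlgebraic_zero
  have ha0 : genA (K := K) x ≠ 0 := by
    intro h
    exact hx0 (congrArg Subtype.val h)
  have hchar := charZero_quotient_gen (K := K) hx
  exact exists_trace_pole_aux (K := K) (A := Algebra.adjoin K {x})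
    (B := integralClosure (Algebra.adjoin K {x}) F) (L := K⟮x⟯) x (genA (K := K) x) rfl ha0
    (span_gen_isMaximal hx)
    (fun v hv => (exists_ofHeightOneSpectrum_of_mem v
      ((mem_valuationSubring_iff v x).mpr (Or.inr hv.le))).exists)
    (fun b v hv => integralClosure_le_of_mem v
      ((mem_valuationSubring_iff v x).mpr (Or.inr hv)) b)
    φ hφ v₀ h₀ hv₀

end Fermat.Agent.S20_DualLocal
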