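import Fermat.Agent.S24_Local
import Fermat.Agent.S24_Iota
import Fermat.Agent.S24_Degree
import Fermat.Agent.S24_Genus
import Fermat.Agent.S24_Diff

/-!
# S20 (P2): orders of regular differentials

If `h ∈ F` and `h · dj` is regular at every place of `F`, then for every coset translate
`trE g (ι h) = a / b` the function `(a / b) · j'` has nonnegative order at every point of `ℍ`
(`regular_ordAt`) and `a / b` has `q_N`-order at least `N + 1` at `i∞` (`regular_ordInf`).
-/

set_option autoImplicit false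

noncomputable section

namespace Fermat.Agent.S20_Orders

open Fermat.Agent.S24_Defs Fermat.Agent.S24_Embed ModularCurve AlgebraicCurve UpperHalfPlane
  IntermediateField
open Fermat.Agent.S24_LocalAux Fermat.Agent.S24_Sigma Fermat.Agent.S24_Local
open scoped MatrixGroups ModularForm Manifold Topology
open KaehlerDifferential

attribute [local instance] algKE

section generic

variable (N : ℕ) [NeZero N] (I : IotaSpec N)

/-- the image of `j - c` under `trE g ∘ ι`. -/
theorem trE_iota_jF_sub (g : SL(2, ℤ)) (c : Kbar) :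
    trE N g (I.ι (jF N - algebraMap Kbar (FF N) c))
      = algebraMap (AN N) (EN N) (jA N I - algebraMap ℂ (AN N) (iotaC c)) := by
  have h := sigma_jF_sub N I (QuotientGroup.mk g) c
  rw [map_one, mul_one] at h
  exact h

theorem trE_iota_jF (g : SL(2, ℤ)) :
    trE N g (I.ι (jF N)) = algebraMap (AN N) (EN N) (jA N I) :=
  sigma_jF N I (QuotientGroup.mk g)

theorem trE_iota_const (g : SL(2, ℤ)) (c : Kbar) :
    trE N g (I.ι (algebraMap Kbar (FF N) c))
      = algebraMap (AN N) (EN N) (algebraMap ℂ (AN N) (iotaC c)) :=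
  sigma_const N I (QuotientGroup.mk g) c

theorem trE_iota_ne_zero (g : SL(2, ℤ)) {f : FF N} (hf : f ≠ 0) : trE N g (I.ι f) ≠ 0 := by
  intro h
  apply hf
  have : (trE N g).comp I.ι f = (trE N g).comp I.ι 0 := by
    rw [RingHom.comp_apply, h, map_zero]
  exact ((trE N g).comp I.ι).injective this

/-- A valuation on `AN N` (integer valued, trivial on constants), transported to `F` along
`trE g ∘ ι`, is either trivial or a positive multiple of the order function of a place. -/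
theorem exists_place_or_trivial (ν : AN N → ℚ)
    (hmul : ∀ a b : AN N, a ≠ 0 → b ≠ 0 → ν (a * b) = ν a + ν b)
    (hadd : ∀ a b : AN N, a ≠ 0 → b ≠ 0 → a + b ≠ 0 → min (ν a) (ν b) ≤ ν (a + b))
    (hconst : ∀ c : ℂ, c ≠ 0 → ν (algebraMap ℂ (AN N) c) = 0)
    (hint : ∀ a : AN N, ∃ k : ℤ, ν a = k) (g : SL(2, ℤ)) :
    ∃ w₀ : EN N → ℚ,
      (∀ (x : EN N) (a b : AN N), a ≠ 0 → b ≠ 0 →
        x * algebraMap (AN N) (EN N) b = algebraMap (AN N) (EN N) a → w₀ x = ν a - ν b) ∧
      ((∀ f : FF N, f ≠ 0 → w₀ (trE N g (I.ι f)) = 0) ∨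
        ∃ (v : Place Kbar (FF N)) (e : ℚ), 0 < e ∧
          ∀ f : FF N, f ≠ 0 → (v.ord f : ℚ) = e * w₀ (trE N g (I.ι f))) := by
  obtain ⟨w₀, hw₀mul, hw₀add, hw₀ext⟩ := S24_Val.exists_extension_fractionRing ν hmul hadd
  have halg : Function.Injective (algebraMap (AN N) (EN N)) :=
    IsFractionRing.injective (AN N) (EN N)
  have halg0 : ∀ {a : AN N}, a ≠ 0 → algebraMap (AN N) (EN N) a ≠ 0 := fun {a} ha h =>
    ha (halg (by rw [h, map_zero]))
  have hw₀div : ∀ (x : EN N) (a b : AN N), a ≠ 0 → b ≠ 0 →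
      x * algebraMap (AN N) (EN N) b = algebraMap (AN N) (EN N) a → w₀ x = ν a - ν b := by
    intro x a b ha hb hx
    have hx0 : x ≠ 0 := by
      rintro rfl
      rw [zero_mul] at hx
      exact halg0 ha hx.symm
    have := hw₀mul x _ hx0 (halg0 hb)
    rw [hx, hw₀ext a ha, hw₀ext b hb] at this
    linarith
  refine ⟨w₀, hw₀div, ?_⟩
  by_cases htriv : ∀ f : FF N, f ≠ 0 → w₀ (trE N g (I.ι f)) = 0
  · exact Or.inl htriv
  right
  push Not at htriv
  obtain ⟨f₀, hf₀, hf₀w⟩ := htriv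
  set w : FF N → ℚ := fun f => w₀ (trE N g (I.ι f)) with hw
  have hwint : ∀ x : EN N, x ≠ 0 → ∃ k : ℤ, w₀ x = k := by
    intro x hx
    obtain ⟨a, b, hb, rfl⟩ := IsFractionRing.div_surjective (A := AN N) x
    have hb' : b ≠ 0 := nonZeroDivisors.ne_zero hb
    have ha' : a ≠ 0 := by
      rintro rfl
      simp at hx
    obtain ⟨ka, hka⟩ := hint a
    obtain ⟨kb, hkb⟩ := hint b
    refine ⟨ka - kb, ?_⟩
    rw [hw₀div _ a b ha' hb' (div_mul_cancel₀ _ (halg0 hb')), hka, hkb]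
    push_cast
    ring
  obtain ⟨v, e, he, hv⟩ := S24_Val.exists_place_of_valuation (K := Kbar) (F := FF N) w
    (fun a b ha hb => by
      show w₀ (trE N g (I.ι (a * b))) = _
      rw [RingHom.map_mul I.ι, RingHom.map_mul (trE N g)]
      exact hw₀mul _ _ (trE_iota_ne_zero N I g ha) (trE_iota_ne_zero N I g hb))
    (fun a b ha hb hab => by
      show min (w₀ (trE N g (I.ι a))) (w₀ (trE N g (I.ι b))) ≤ w₀ (trE N g (I.ι (a + b)))
      rw [RingHom.map_add I.ι, RingHom.map_add (trE N g)]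
      refine hw₀add _ _ (trE_iota_ne_zero N I g ha) (trE_iota_ne_zero N I g hb) ?_
      have h3 := trE_iota_ne_zero N I g hab
      rwa [RingHom.map_add I.ι, RingHom.map_add (trE N g)] at h3)
    (fun a ha => by
      show w₀ (trE N g (I.ι (algebraMap Kbar (FF N) a))) = 0
      rw [trE_iota_const]
      have hc : iotaC a ≠ 0 := fun h => ha (iotaC_injective (by rw [h, map_zero]))
      have hc' : algebraMap ℂ (AN N) (iotaC a) ≠ 0 := fun h =>
        hc ((algebraMap ℂ (AN N)).injective (by rw [h, map_zero]))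
      rw [hw₀ext _ hc', hconst _ hc])
    1 one_pos
    (fun a ha => by
      obtain ⟨k, hk⟩ := hwint _ (trE_iota_ne_zero N I g ha)
      exact ⟨k, by rw [Nat.cast_one, one_mul]; exact hk⟩)
    ⟨f₀, hf₀, hf₀w⟩
  exact ⟨v, e, he, hv⟩

end generic

section main

variable (N : ℕ) [NeZero N] (I : IotaSpec N)

/-- `j` is not constant. -/
theorem jA_sub_const_ne_zero (c : ℂ) : jA N I - algebraMap ℂ (AN N) c ≠ 0 := by
  intro h
  have hord : ordInf N (jA N I) = -(N : ℚ) := S24_Ord.ordInf_jS (I.hmem 1 (one_dvd N))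
  rw [sub_eq_zero.mp h] at hord
  have hN : (N : ℚ) ≠ 0 := Nat.cast_ne_zero.mpr (NeZero.ne N)
  by_cases hc : c = 0
  · rw [hc, map_zero, ordInf_zero] at hord
    exact hN (by linarith)
  · rw [S24_Ord.ordInf_const c hc] at hord
    exact hN (by linarith)

theorem jA_ne_zero : jA N I ≠ 0 := by
  have := jA_sub_const_ne_zero N I 0
  rwa [map_zero, sub_zero] at this

theorem germ_jA_sub (c : ℂ) (τ₀ : ℍ) :
    S24_Ord.germ (jA N I - algebraMap ℂ (AN N) c) (τ₀ : ℂ) = jFun τ₀ - c := by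
  change jS 1 (ofComplex (τ₀ : ℂ)) - c = _
  rw [S24_Ord.jS_one, ofComplex_apply]

/-- `j - j(τ₀)` vanishes at `τ₀`. -/
theorem exists_ordAt_jA_sub (τ₀ : ℍ) :
    ∃ m : ℕ, 1 ≤ m ∧ ordAt N τ₀ (jA N I - algebraMap ℂ (AN N) (jFun τ₀)) = m := by
  obtain ⟨m, hm, hm'⟩ :=
    S24_Ord.exists_analyticOrderAt_eq (jA_sub_const_ne_zero N I (jFun τ₀)) τ₀
  refine ⟨m, ?_, hm'⟩
  by_contra hlt
  have hm0 : m = 0 := by omega
  rw [hm0] at hm
  have := (S24_Ord.analyticAt_germ (jA N I - algebraMap ℂ (AN N) (jFun τ₀))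
    τ₀).analyticOrderAt_eq_zero.mp (by simpa using hm)
  exact this (by rw [germ_jA_sub, sub_self])

/-- `j - c` vanishes at `τ₀` only if `c = j(τ₀)`. -/
theorem eq_of_ordAt_jA_sub_pos (c : ℂ) (τ₀ : ℍ)
    (h : 0 < ordAt N τ₀ (jA N I - algebraMap ℂ (AN N) c)) : jFun τ₀ = c := by
  by_contra hne
  obtain ⟨m, hm, hm'⟩ := S24_Ord.exists_analyticOrderAt_eq (jA_sub_const_ne_zero N I c) τ₀
  have h0 : analyticOrderAt (S24_Ord.germ (jA N I - algebraMap ℂ (AN N) c)) (τ₀ : ℂ) = 0 :=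
    (S24_Ord.analyticAt_germ _ τ₀).analyticOrderAt_eq_zero.mpr
      (by rw [germ_jA_sub]; exact sub_ne_zero.mpr hne)
  rw [h0] at hm
  have hm0 : m = 0 := by exact_mod_cast hm.symm
  rw [hm', hm0] at h
  simp at h

end main

/-- **T1, finite part.**  If `h · dj` is regular at every place, then for every translate
`trE g (ι h) = a / b` the function `(a / b) · (j - j(τ₀))` vanishes at `τ₀`. -/
theorem regular_ordAt (N : ℕ) [NeZero N] (I : IotaSpec N) (h : FF N) (hh : h ≠ 0)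
    (hreg : ∀ v : Place Kbar (FF N), 0 ≤ v.ord h + v.ordDifferential (D Kbar (FF N) (jF N)))
    (g : SL(2, ℤ)) (a b : AN N) (hb : b ≠ 0)
    (hab : trE N g (I.ι h) * algebraMap (AN N) (EN N) b = algebraMap (AN N) (EN N) a) (τ₀ : ℍ) :
    1 ≤ ordAt N τ₀ a - ordAt N τ₀ b +
      ordAt N τ₀ ((⟨jS 1, I.hmem 1 (one_dvd N)⟩ : AN N) - algebraMap ℂ (AN N) (jFun τ₀)) := by
  have halg : Function.Injective (algebraMap (AN N) (EN N)) :=
    IsFractionRing.injective (AN N) (EN N)
  have ha : a ≠ 0 := by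
    rintro rfl
    rw [map_zero] at hab
    rcases mul_eq_zero.mp hab with h1 | h1
    · exact trE_iota_ne_zero N I g hh h1
    · exact hb (halg (by rw [h1, map_zero]))
  have hx : Transcendental Kbar (jF N) := S24_Degree.transcendental_jF N
  have : FiniteDimensional Kbar⟮jF N⟯ (FF N) := (S24_Degree.finrank_eq N).1
  obtain ⟨m, hm1, hm⟩ := exists_ordAt_jA_sub N I τ₀
  change 1 ≤ ordAt N τ₀ a - ordAt N τ₀ b + ordAt N τ₀ (jA N I - algebraMap ℂ (AN N) (jFun τ₀))
  rw [hm]
  obtain ⟨w₀, hw₀, hcase⟩ := exists_place_or_trivial N I (ordAt N τ₀) (S24_Ord.ordAt_mul τ₀)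
    (S24_Ord.ordAt_add τ₀) (S24_Ord.ordAt_const τ₀) (S24_Ord.ordAt_int τ₀) g
  have hwx : w₀ (trE N g (I.ι h)) = ordAt N τ₀ a - ordAt N τ₀ b := hw₀ _ a b ha hb hab
  have hw₀alg : ∀ a' : AN N, a' ≠ 0 → w₀ (algebraMap (AN N) (EN N) a') = ordAt N τ₀ a' := by
    intro a' ha'
    have := hw₀ (algebraMap (AN N) (EN N) a') a' 1 ha' one_ne_zero (by rw [map_one, mul_one])
    rw [this, one_eq_algebraMap N, S24_Ord.ordAt_const τ₀ 1 one_ne_zero, sub_zero]
  rcases hcase with htriv | ⟨v, e, he, hv⟩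
  · have h0 := htriv h hh
    rw [hwx] at h0
    rw [h0, zero_add]
    exact_mod_cast hm1
  · -- the place case
    have hjF0 : jF N ≠ 0 := fun h0 => hx (by rw [h0]; exact isAlgebraic_zero)
    have hvj : (v.ord (jF N) : ℚ) = e * ordAt N τ₀ (jA N I) := by
      rw [hv _ hjF0, trE_iota_jF, hw₀alg _ (jA_ne_zero N I)]
    have hvj0 : 0 ≤ v.ord (jF N) := by
      obtain ⟨m', -, hm'⟩ := S24_Ord.exists_analyticOrderAt_eq (jA_ne_zero N I) τ₀
      rw [hm'] at hvj
      have : (0 : ℚ) ≤ (v.ord (jF N) : ℚ) := by rw [hvj]; positivity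
      exact_mod_cast this
    rcases S24_Genus.pole_or_zero (jF N) hx v with hpole | ⟨c, hc⟩
    · exact absurd hpole (not_lt.mpr hvj0)
    · have hne : jF N - algebraMap Kbar (FF N) c ≠ 0 := by
        intro h0
        rw [h0, Place.ord_zero] at hc
        exact lt_irrefl _ hc
      have hvc : (v.ord (jF N - algebraMap Kbar (FF N) c) : ℚ)
          = e * ordAt N τ₀ (jA N I - algebraMap ℂ (AN N) (iotaC c)) := by
        rw [hv _ hne, trE_iota_jF_sub, hw₀alg _ (jA_sub_const_ne_zero N I _)]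
      have hpos : 0 < ordAt N τ₀ (jA N I - algebraMap ℂ (AN N) (iotaC c)) := by
        have h1 : (0 : ℚ) < (v.ord (jF N - algebraMap Kbar (FF N) c) : ℚ) := by exact_mod_cast hc
        rw [hvc] at h1
        exact (mul_pos_iff_of_pos_left he).mp h1
      have hcτ : jFun τ₀ = iotaC c := eq_of_ordAt_jA_sub_pos N I _ τ₀ hpos
      rw [← hcτ, hm] at hvc
      have hD := S24_Diff.ordDifferential_D_of_zero (jF N) hx v c hc
      have hr := hreg v
      rw [hD] at hr
      have hr' : (1 : ℚ) ≤ (v.ord h : ℚ) + (v.ord (jF N - algebraMap Kbar (FF N) c) : ℚ) := by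
        have h1 : (1 : ℤ) ≤ v.ord h + v.ord (jF N - algebraMap Kbar (FF N) c) := by omega
        exact_mod_cast h1
      rw [hvc, hv _ hh, hwx] at hr'
      obtain ⟨ka, hka⟩ := S24_Ord.ordAt_int τ₀ a
      obtain ⟨kb, hkb⟩ := S24_Ord.ordAt_int τ₀ b
      rw [hka, hkb] at hr' ⊢
      have hpos' : (0 : ℚ) < ((ka - kb + m : ℤ) : ℚ) := by
        push_cast
        by_contra hcon
        push Not at hcon
        have h1 : e * ((ka : ℚ) - kb + m) ≤ 0 := mul_nonpos_of_nonneg_of_nonpos he.le hcon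
        nlinarith
      have h2 : (1 : ℤ) ≤ ka - kb + m := by
        have h3 : (0 : ℤ) < ka - kb + m := by exact_mod_cast hpos'
        omega
      have h4 : ((1 : ℤ) : ℚ) ≤ ((ka - kb + m : ℤ) : ℚ) := by exact_mod_cast h2
      push_cast at h4
      exact h4

/-- **T1, cusp part.**  If `h · dj` is regular at every place, then every translate
`trE g (ι h) = a / b` has `q_N`-order at least `N + 1` at `i∞`. -/
theorem regular_ordInf (N : ℕ) [NeZero N] (I : IotaSpec N) (h : FF N) (hh : h ≠ 0)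
    (hreg : ∀ v : Place Kbar (FF N), 0 ≤ v.ord h + v.ordDifferential (D Kbar (FF N) (jF N)))
    (g : SL(2, ℤ)) (a b : AN N) (hb : b ≠ 0)
    (hab : trE N g (I.ι h) * algebraMap (AN N) (EN N) b = algebraMap (AN N) (EN N) a) :
    (N : ℚ) + 1 ≤ ordInf N a - ordInf N b := by
  have halg : Function.Injective (algebraMap (AN N) (EN N)) :=
    IsFractionRing.injective (AN N) (EN N)
  have ha : a ≠ 0 := by
    rintro rfl
    rw [map_zero] at hab
    rcases mul_eq_zero.mp hab with h1 | h1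
    · exact trE_iota_ne_zero N I g hh h1
    · exact hb (halg (by rw [h1, map_zero]))
  have hx : Transcendental Kbar (jF N) := S24_Degree.transcendental_jF N
  have : FiniteDimensional Kbar⟮jF N⟯ (FF N) := (S24_Degree.finrank_eq N).1
  have hN : (0 : ℚ) < (N : ℚ) := Nat.cast_pos.mpr (Nat.pos_of_ne_zero (NeZero.ne N))
  have hordj : ordInf N (jA N I) = -(N : ℚ) := S24_Ord.ordInf_jS (I.hmem 1 (one_dvd N))
  have hintInf : ∀ a' : AN N, ∃ k : ℤ, ordInf N a' = k := fun a' => ⟨_, rfl⟩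
  obtain ⟨w₀, hw₀, hcase⟩ := exists_place_or_trivial N I (ordInf N) S24_Ord.ordInf_mul
    S24_Ord.ordInf_add S24_Ord.ordInf_const hintInf g
  have hwx : w₀ (trE N g (I.ι h)) = ordInf N a - ordInf N b := hw₀ _ a b ha hb hab
  have hw₀alg : ∀ a' : AN N, a' ≠ 0 → w₀ (algebraMap (AN N) (EN N) a') = ordInf N a' := by
    intro a' ha'
    have := hw₀ (algebraMap (AN N) (EN N) a') a' 1 ha' one_ne_zero (by rw [map_one, mul_one])
    rw [this, one_eq_algebraMap N, S24_Ord.ordInf_const 1 one_ne_zero, sub_zero]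
  have hjF0 : jF N ≠ 0 := fun h0 => hx (by rw [h0]; exact isAlgebraic_zero)
  have hwj : w₀ (trE N g (I.ι (jF N))) = -(N : ℚ) := by
    rw [trE_iota_jF, hw₀alg _ (jA_ne_zero N I), hordj]
  rcases hcase with htriv | ⟨v, e, he, hv⟩
  · have h0 := htriv (jF N) hjF0
    rw [hwj] at h0
    linarith
  · have hvj : (v.ord (jF N) : ℚ) = e * -(N : ℚ) := by rw [hv _ hjF0, hwj]
    have hpole : v.ord (jF N) < 0 := by
      have h1 : (v.ord (jF N) : ℚ) < 0 := by
        rw [hvj]
        exact mul_neg_of_pos_of_neg he (by linarith)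
      exact_mod_cast h1
    have hD := S24_Diff.ordDifferential_D_of_pole (jF N) hx v hpole
    have hr := hreg v
    rw [hD] at hr
    have hr' : (1 : ℚ) ≤ (v.ord h : ℚ) + (v.ord (jF N) : ℚ) := by
      have h1 : (1 : ℤ) ≤ v.ord h + v.ord (jF N) := by omega
      exact_mod_cast h1
    rw [hvj, hv _ hh, hwx] at hr'
    obtain ⟨ka, hka⟩ := hintInf a
    obtain ⟨kb, hkb⟩ := hintInf b
    rw [hka, hkb] at hr' ⊢
    have hpos' : (0 : ℚ) < ((ka - kb - N : ℤ) : ℚ) := by
      push_cast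
      by_contra hcon
      push Not at hcon
      have h1 : e * ((ka : ℚ) - kb - N) ≤ 0 := mul_nonpos_of_nonneg_of_nonpos he.le hcon
      nlinarith
    have h2 : (1 : ℤ) ≤ ka - kb - N := by
      have h3 : (0 : ℤ) < ka - kb - N := by exact_mod_cast hpos'
      omega
    have h4 : ((1 : ℤ) : ℚ) ≤ ((ka - kb - N : ℤ) : ℚ) := by exact_mod_cast h2
    push_cast at h4
    linarith

end Fermat.Agent.S20_Orders

end
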