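import Mathlib

/-!
# S20_Reduce: reduced bases for a pair of lattices over `K[X]` and the degree filtration

Abstract (Mathlib-only) linear algebra behind the Dedekind–Weber proof of Riemann–Roch:
`Q = K(X)` with a degree function, `V` a finite-dimensional `Q`-vector space, `M ⊆ V` a
`K[X]`-lattice and `N ⊆ V` a lattice for the degree filtration. There is a `Q`-basis of `V`
in which both lattices are diagonal (`exists_reduced`), and for diagonal pairs the dimensions
of `M ⊓ N` and the equality `M ⊔ N = ⊤` can be read off.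
-/

set_option autoImplicit false

noncomputable section

namespace Fermat.Agent.S20_Reduce

open Polynomial

variable {K Q : Type*} [Field K] [Field Q] [Algebra K Q]

/-- Axioms of the degree function on `Q = K(X)`. -/
structure IsDeg (X : Q) (deg : Q → ℤ) : Prop where
  mul : ∀ r s : Q, r ≠ 0 → s ≠ 0 → deg (r * s) = deg r + deg s
  add : ∀ r s : Q, r ≠ 0 → s ≠ 0 → r + s ≠ 0 → deg (r + s) ≤ max (deg r) (deg s)
  degX : deg X = 1
  X_ne : X ≠ 0
  const : ∀ c : K, c ≠ 0 → deg (algebraMap K Q c) = 0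
  frac : ∀ r : Q, ∃ p q : K[X], q ≠ 0 ∧ r = aeval X p / aeval X q

/-- `r = 0` or `deg r ≤ m`. -/
def Dle (deg : Q → ℤ) (m : ℤ) (r : Q) : Prop := r = 0 ∨ deg r ≤ m

section Deg

variable {X : Q} {deg : Q → ℤ}

theorem IsDeg.deg_one (h : IsDeg (K := K) X deg) : deg 1 = 0 := by
  have := h.const 1 one_ne_zero
  rwa [map_one] at this

theorem IsDeg.deg_inv (h : IsDeg (K := K) X deg) {r : Q} (hr : r ≠ 0) : deg r⁻¹ = -deg r := by
  have h1 := h.mul r r⁻¹ hr (inv_ne_zero hr)
  rw [mul_inv_cancel₀ hr, h.deg_one] at h1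
  omega

theorem IsDeg.deg_neg (h : IsDeg (K := K) X deg) (r : Q) (hr : r ≠ 0) : deg (-r) = deg r := by
  have h0 : algebraMap K Q (-1) ≠ 0 := by
    rw [Ne, map_eq_zero_iff _ (algebraMap K Q).injective]; exact neg_ne_zero.2 one_ne_zero
  have h1 := h.mul (algebraMap K Q (-1)) r h0 hr
  rw [h.const (-1) (neg_ne_zero.2 one_ne_zero), zero_add] at h1
  rw [← h1]; congr 1; simp

theorem IsDeg.deg_pow (h : IsDeg (K := K) X deg) (n : ℕ) : deg (X ^ n) = n := by
  induction n with
  | zero => simpa using h.deg_one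
  | succ n ih =>
    rw [pow_succ, h.mul _ _ (pow_ne_zero n h.X_ne) h.X_ne, ih, h.degX]; push_cast; ring

theorem IsDeg.deg_zpow (h : IsDeg (K := K) X deg) (k : ℤ) : deg (X ^ k) = k := by
  obtain ⟨n, rfl | rfl⟩ := k.eq_nat_or_neg
  · rw [zpow_natCast, h.deg_pow]
  · rw [zpow_neg, zpow_natCast, h.deg_inv (pow_ne_zero n h.X_ne), h.deg_pow]

theorem IsDeg.zpow_ne (h : IsDeg (K := K) X deg) (k : ℤ) : X ^ k ≠ 0 := zpow_ne_zero k h.X_ne

theorem Dle.mono {m m' : ℤ} {r : Q} (hr : Dle deg m r) (hm : m ≤ m') : Dle deg m' r := by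
  rcases hr with rfl | hr
  · exact Or.inl rfl
  · exact Or.inr (hr.trans hm)

theorem Dle.zero (m : ℤ) : Dle deg m (0 : Q) := Or.inl rfl

theorem IsDeg.dle_add (h : IsDeg (K := K) X deg) {m : ℤ} {r s : Q} (hr : Dle deg m r)
    (hs : Dle deg m s) : Dle deg m (r + s) := by
  rcases hr with rfl | hr
  · rwa [zero_add]
  rcases hs with rfl | hs
  · rw [add_zero]; exact Or.inr hr
  by_cases hr0 : r = 0
  · subst hr0; rw [zero_add]; exact Or.inr hs
  by_cases hs0 : s = 0
  · subst hs0; rw [add_zero]; exact Or.inr hr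
  by_cases hrs : r + s = 0
  · exact Or.inl hrs
  · exact Or.inr ((h.add r s hr0 hs0 hrs).trans (max_le hr hs))

theorem IsDeg.dle_mul (h : IsDeg (K := K) X deg) {m m' : ℤ} {r s : Q} (hr : Dle deg m r)
    (hs : Dle deg m' s) : Dle deg (m + m') (r * s) := by
  by_cases hr0 : r = 0
  · subst hr0; rw [zero_mul]; exact Or.inl rfl
  by_cases hs0 : s = 0
  · subst hs0; rw [mul_zero]; exact Or.inl rfl
  have hr' := hr.resolve_left hr0
  have hs' := hs.resolve_left hs0
  exact Or.inr (by rw [h.mul r s hr0 hs0]; omega)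

theorem IsDeg.dle_sum (h : IsDeg (K := K) X deg) {ι : Type*} (s : Finset ι) {m : ℤ}
    (f : ι → Q) (hf : ∀ i ∈ s, Dle deg m (f i)) : Dle deg m (∑ i ∈ s, f i) := by
  classical
  induction s using Finset.induction_on with
  | empty => simpa using Dle.zero m
  | insert a s ha ih =>
    rw [Finset.sum_insert ha]
    exact h.dle_add (hf a (Finset.mem_insert_self a s))
      (ih fun i hi => hf i (Finset.mem_insert_of_mem hi))

theorem IsDeg.dle_const (h : IsDeg (K := K) X deg) (c : K) : Dle deg 0 (algebraMap K Q c) := by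
  by_cases hc : c = 0
  · subst hc; rw [map_zero]; exact Or.inl rfl
  · exact Or.inr (h.const c hc).le

theorem IsDeg.dle_zpow (h : IsDeg (K := K) X deg) (k : ℤ) : Dle deg k (X ^ k) :=
  Or.inr (h.deg_zpow k).le

theorem IsDeg.dle_self (r : Q) : Dle deg (deg r) r := Or.inr le_rfl

theorem IsDeg.deg_add_of_lt (h : IsDeg (K := K) X deg) {r s : Q} (hr : r ≠ 0) (hs : s ≠ 0)
    (hlt : deg r < deg s) : r + s ≠ 0 ∧ deg (r + s) = deg s := by
  have hne : r + s ≠ 0 := by
    intro h0
    have : s = -r := by linear_combination h0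
    rw [this, h.deg_neg r hr] at hlt
    exact lt_irrefl _ hlt
  refine ⟨hne, le_antisymm ((h.add r s hr hs hne).trans (max_le hlt.le le_rfl)) ?_⟩
  have h2 := h.add (r + s) (-r) hne (neg_ne_zero.2 hr) (by simpa using hs)
  rw [h.deg_neg r hr, add_neg_cancel_comm] at h2
  rcases le_max_iff.1 h2 with h3 | h3
  · exact h3
  · omega

theorem IsDeg.aeval_ne_zero_and_deg (h : IsDeg (K := K) X deg) :
    ∀ p : K[X], p ≠ 0 → aeval X p ≠ 0 ∧ deg (aeval X p) = p.natDegree := by
  intro p
  induction hn : p.natDegree using Nat.strong_induction_on generalizing p with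
  | _ n ih =>
    intro hp
    subst hn
    have hlc : p.leadingCoeff ≠ 0 := leadingCoeff_ne_zero.2 hp
    have hlead0 : algebraMap K Q p.leadingCoeff * X ^ p.natDegree ≠ 0 :=
      mul_ne_zero (by rw [Ne, map_eq_zero_iff _ (algebraMap K Q).injective]; exact hlc)
        (pow_ne_zero _ h.X_ne)
    have hleaddeg : deg (algebraMap K Q p.leadingCoeff * X ^ p.natDegree) = p.natDegree := by
      rw [h.mul _ _ (by rw [Ne, map_eq_zero_iff _ (algebraMap K Q).injective]; exact hlc)
        (pow_ne_zero _ h.X_ne), h.const _ hlc, h.deg_pow, zero_add]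
    have hdecomp : aeval X p = aeval X p.eraseLead
        + algebraMap K Q p.leadingCoeff * X ^ p.natDegree := by
      conv_lhs => rw [← p.eraseLead_add_C_mul_X_pow]
      rw [map_add, map_mul, aeval_C, map_pow, aeval_X]
    rcases p.eraseLead_natDegree_lt_or_eraseLead_eq_zero with hlt | h0
    · by_cases he : p.eraseLead = 0
      · rw [hdecomp, he, map_zero, zero_add]
        exact ⟨hlead0, hleaddeg⟩
      · obtain ⟨h1, h2⟩ := ih _ hlt p.eraseLead rfl he
        have hlt' : deg (aeval X p.eraseLead)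
            < deg (algebraMap K Q p.leadingCoeff * X ^ p.natDegree) := by
          rw [h2, hleaddeg]; exact_mod_cast hlt
        obtain ⟨h3, h4⟩ := h.deg_add_of_lt h1 hlead0 hlt'
        rw [hdecomp]
        exact ⟨h3, by rw [h4, hleaddeg]⟩
    · rw [hdecomp, h0, map_zero, zero_add]
      exact ⟨hlead0, hleaddeg⟩

theorem IsDeg.aeval_ne_zero (h : IsDeg (K := K) X deg) {p : K[X]} (hp : p ≠ 0) :
    aeval X p ≠ 0 := (h.aeval_ne_zero_and_deg p hp).1

theorem IsDeg.deg_aeval (h : IsDeg (K := K) X deg) {p : K[X]} (hp : p ≠ 0) :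
    deg (aeval X p) = p.natDegree := (h.aeval_ne_zero_and_deg p hp).2

theorem IsDeg.aeval_injective (h : IsDeg (K := K) X deg) :
    Function.Injective (aeval (R := K) X) := by
  rw [injective_iff_map_eq_zero]
  intro p hp
  by_contra hne
  exact h.aeval_ne_zero hne hp

theorem IsDeg.dle_aeval_iff (h : IsDeg (K := K) X deg) (p : K[X]) (m : ℤ) :
    Dle deg m (aeval X p) ↔ p = 0 ∨ (p.natDegree : ℤ) ≤ m := by
  by_cases hp : p = 0
  · subst hp; simp [Dle]
  · simp only [Dle, h.aeval_ne_zero hp, hp, false_or, h.deg_aeval hp]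

/-- polynomial part: every `r` is a polynomial plus something of degree `≤ -1`. -/
theorem IsDeg.exists_poly_part (h : IsDeg (K := K) X deg) (r : Q) :
    ∃ p : K[X], Dle deg (-1) (r - aeval X p) := by
  obtain ⟨p, q, hq, rfl⟩ := h.frac r
  refine ⟨p / q, ?_⟩
  have hq0 := h.aeval_ne_zero hq
  have e : aeval X p / aeval X q - aeval X (p / q) = aeval X (p % q) / aeval X q := by
    have h1 : aeval X p = aeval X q * aeval X (p / q) + aeval X (p % q) := by
      rw [← map_mul, ← map_add, EuclideanDomain.div_add_mod]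
    rw [h1]; field_simp; ring
  rw [e]
  by_cases hm : p % q = 0
  · rw [hm, map_zero, zero_div]; exact Or.inl rfl
  · refine Or.inr ?_
    rw [div_eq_mul_inv, h.mul _ _ (h.aeval_ne_zero hm) (inv_ne_zero hq0), h.deg_inv hq0,
      h.deg_aeval hm, h.deg_aeval hq]
    have := Polynomial.natDegree_lt_natDegree hm (Polynomial.degree_mod_lt p hq)
    omega

end Deg

section Norm

variable {V : Type*} [AddCommGroup V] [Module Q V] [Module K V] [IsScalarTower K Q V]
variable {X : Q} {deg : Q → ℤ}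

/-- Axioms of the lattice at infinity. -/
structure IsInf (X : Q) (deg : Q → ℤ) (N : Submodule K V) : Prop where
  smul : ∀ (r : Q) (f : V), Dle deg 0 r → f ∈ N → r • f ∈ N
  ex : ∀ f : V, ∃ k : ℤ, X ^ k • f ∈ N
  bdd : ∀ f : V, f ≠ 0 → ∃ k₀ : ℤ, ∀ k : ℤ, X ^ k • f ∈ N → k ≤ k₀

/-- `f ∈ X^k N`. -/
def Ple (X : Q) (N : Submodule K V) (k : ℤ) (f : V) : Prop := X ^ (-k) • f ∈ N

variable {N : Submodule K V}

theorem ple_zero_iff (f : V) : Ple X N 0 f ↔ f ∈ N := by
  rw [Ple, neg_zero, zpow_zero, one_smul]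

theorem Ple.zero (k : ℤ) : Ple X N k (0 : V) := by
  rw [Ple, smul_zero]; exact N.zero_mem

theorem Ple.add {k : ℤ} {f g : V} (hf : Ple X N k f) (hg : Ple X N k g) :
    Ple X N k (f + g) := by
  rw [Ple, smul_add]; exact N.add_mem hf hg

theorem Ple.sum {ι : Type*} (s : Finset ι) {k : ℤ} (f : ι → V)
    (hf : ∀ i ∈ s, Ple X N k (f i)) : Ple X N k (∑ i ∈ s, f i) := by
  rw [Ple, Finset.smul_sum]; exact N.sum_mem hf

theorem Ple.neg {k : ℤ} {f : V} (hf : Ple X N k f) : Ple X N k (-f) := by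
  rw [Ple, smul_neg]; exact N.neg_mem hf

theorem Ple.sub {k : ℤ} {f g : V} (hf : Ple X N k f) (hg : Ple X N k g) :
    Ple X N k (f - g) := by
  rw [sub_eq_add_neg]; exact hf.add hg.neg

theorem IsInf.ple_smul (h : IsDeg (K := K) X deg) (hN : IsInf X deg N) {m k : ℤ} {r : Q}
    {f : V} (hr : Dle deg m r) (hf : Ple X N k f) : Ple X N (m + k) (r • f) := by
  have e : X ^ (-(m + k)) • r • f = (r * X ^ (-m)) • (X ^ (-k) • f) := by
    rw [smul_smul, smul_smul, neg_add, zpow_add₀ h.X_ne]; congr 1; ring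
  rw [Ple, e]
  refine hN.smul _ _ ?_ hf
  have := h.dle_mul hr (h.dle_zpow (-m))
  rwa [add_neg_cancel] at this

theorem IsInf.ple_mono (h : IsDeg (K := K) X deg) (hN : IsInf X deg N) {k k' : ℤ} {f : V}
    (hf : Ple X N k f) (hk : k ≤ k') : Ple X N k' f := by
  have h1 : Dle deg (k' - k) (1 : Q) := Or.inr (by rw [h.deg_one]; omega)
  have := hN.ple_smul h h1 hf
  rwa [one_smul, sub_add_cancel] at this

theorem IsInf.exists_nu (h : IsDeg (K := K) X deg) (hN : IsInf X deg N) {f : V} (hf : f ≠ 0) :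
    ∃ n : ℤ, ∀ k, Ple X N k f ↔ n ≤ k := by
  obtain ⟨k₁, hk₁⟩ := hN.ex f
  obtain ⟨k₀, hk₀⟩ := hN.bdd f hf
  obtain ⟨n, hn, hmin⟩ := Int.exists_least_of_bdd (P := fun k => Ple X N k f)
    ⟨-k₀, fun z hz => by have := hk₀ (-z) hz; omega⟩ ⟨-k₁, by rw [Ple, neg_neg]; exact hk₁⟩
  exact ⟨n, fun k => ⟨fun hk => hmin k hk, fun hk => hN.ple_mono h hn hk⟩⟩

open Classical in
/-- The norm at infinity: the least `k` with `f ∈ X^k N`. -/
def nu (X : Q) (N : Submodule K V) (f : V) : ℤ :=
  if hf : ∃ n : ℤ, ∀ k, Ple X N k f ↔ n ≤ k then hf.choose else 0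

theorem IsInf.ple_iff (h : IsDeg (K := K) X deg) (hN : IsInf X deg N) {f : V} (hf : f ≠ 0)
    (k : ℤ) : Ple X N k f ↔ nu X N f ≤ k := by
  have hex := hN.exists_nu h hf
  rw [nu, dif_pos hex]
  exact hex.choose_spec k

theorem IsInf.ple_nu (h : IsDeg (K := K) X deg) (hN : IsInf X deg N) (f : V) :
    Ple X N (nu X N f) f := by
  by_cases hf : f = 0
  · subst hf; exact Ple.zero _
  · exact (hN.ple_iff h hf _).2 le_rfl

theorem IsInf.nu_smul (h : IsDeg (K := K) X deg) (hN : IsInf X deg N) {r : Q} (hr : r ≠ 0)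
    {f : V} (hf : f ≠ 0) : nu X N (r • f) = deg r + nu X N f := by
  have hrf : r • f ≠ 0 := smul_ne_zero hr hf
  apply le_antisymm
  · rw [← hN.ple_iff h hrf]
    exact hN.ple_smul h (Or.inr le_rfl) (hN.ple_nu h f)
  · have h1 : Ple X N (deg r⁻¹ + nu X N (r • f)) (r⁻¹ • r • f) :=
      hN.ple_smul h (Or.inr le_rfl) (hN.ple_nu h (r • f))
    rw [inv_smul_smul₀ hr, hN.ple_iff h hf, h.deg_inv hr] at h1
    omega

theorem IsInf.ple_smul_iff (h : IsDeg (K := K) X deg) (hN : IsInf X deg N) (r : Q)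
    {f : V} (hf : f ≠ 0) (k : ℤ) : Ple X N k (r • f) ↔ Dle deg (k - nu X N f) r := by
  by_cases hr : r = 0
  · subst hr; rw [zero_smul]; exact ⟨fun _ => Or.inl rfl, fun _ => Ple.zero _⟩
  · rw [hN.ple_iff h (smul_ne_zero hr hf), hN.nu_smul h hr hf, Dle]
    constructor
    · intro h1; exact Or.inr (by omega)
    · intro h1; have := h1.resolve_left hr; omega

end Norm

section Basis

open Module

variable {V : Type*} [AddCommGroup V] [Module Q V] [Module K V] [IsScalarTower K Q V]
variable {X : Q} {deg : Q → ℤ} {ι : Type*} [Fintype ι]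

/-- `M` is the `K[X]`-span of the basis `b`. -/
def IsPolyBasis (X : Q) (b : Basis ι Q V) (M : Submodule K V) : Prop :=
  ∀ f, f ∈ M ↔ ∀ i, ∃ p : K[X], b.repr f i = aeval X p

theorem exists_update [DecidableEq ι] (b : Basis ι Q V) (i₀ : ι) (g : V) (c : Q) (hc : c ≠ 0)
    (hg : b.repr g i₀ = c) :
    ∃ b' : Basis ι Q V, (∀ i, b' i = Function.update b i₀ g i) ∧
      ∀ v j, b'.repr v j = b.repr v j
        - c⁻¹ * b.repr v i₀ * (b.repr g j - if j = i₀ then 1 else 0) := by
  set w : V := g - b i₀ with hw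
  have hφw : b.coord i₀ w = c - 1 := by
    rw [hw, map_sub, Basis.coord_apply, Basis.coord_apply, hg, Basis.repr_self,
      Finsupp.single_eq_same]
  let T₁ : V →ₗ[Q] V := LinearMap.id + (b.coord i₀).smulRight w
  let T₂ : V →ₗ[Q] V := LinearMap.id - (c⁻¹ • b.coord i₀).smulRight w
  have h12 : T₁.comp T₂ = LinearMap.id := by
    ext v
    simp only [T₁, T₂, LinearMap.comp_apply, LinearMap.add_apply, LinearMap.sub_apply,
      LinearMap.id_apply, LinearMap.smulRight_apply, LinearMap.smul_apply, map_sub, map_smul,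
      hφw, smul_eq_mul]
    have e1 : w + (c - 1) • w = c • w := by module
    have e2 : c⁻¹ * b.coord i₀ v * c = b.coord i₀ v := by field_simp
    rw [e1, smul_smul, e2]; abel
  have h21 : T₂.comp T₁ = LinearMap.id := by
    ext v
    simp only [T₁, T₂, LinearMap.comp_apply, LinearMap.add_apply, LinearMap.sub_apply,
      LinearMap.id_apply, LinearMap.smulRight_apply, LinearMap.smul_apply, map_add, map_smul,
      hφw, smul_eq_mul]
    have e0 : (1 - c⁻¹ * (c - 1)) = c⁻¹ := by field_simp; ring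
    have e1 : w - (c⁻¹ * (c - 1)) • w = c⁻¹ • w := by
      calc w - (c⁻¹ * (c - 1)) • w = (1 - c⁻¹ * (c - 1)) • w := by rw [sub_smul, one_smul]
        _ = c⁻¹ • w := by rw [e0]
    rw [e1, smul_smul, mul_comm (b.coord i₀ v) c⁻¹]; abel
  let T : V ≃ₗ[Q] V := LinearEquiv.ofLinear T₁ T₂ h12 h21
  refine ⟨b.map T, fun i => ?_, fun v j => ?_⟩
  · rw [Basis.map_apply]
    show b i + (b.coord i₀ (b i)) • w = _
    rw [Basis.coord_apply, Basis.repr_self]
    by_cases hi : i = i₀
    · subst hi; rw [Finsupp.single_eq_same, one_smul, Function.update_self, hw]; abel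
    · rw [Finsupp.single_eq_of_ne (Ne.symm hi), zero_smul, add_zero, Function.update_of_ne hi]
  · rw [Basis.map_repr, LinearEquiv.trans_apply]
    show b.repr (v - (c⁻¹ • b.coord i₀) v • w) j = _
    rw [map_sub, map_smul, Finsupp.sub_apply, Finsupp.smul_apply, hw, map_sub,
      Finsupp.sub_apply, Basis.repr_self, LinearMap.smul_apply, Basis.coord_apply, smul_eq_mul,
      smul_eq_mul, Finsupp.single_apply]
    congr 2
    by_cases hj : j = i₀
    · subst hj; simp
    · simp [hj, Ne.symm hj]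

theorem IsPolyBasis.update [DecidableEq ι] {b : Basis ι Q V} {M : Submodule K V}
    (hM : IsPolyBasis X b M) (i₀ : ι) (g : V) (c : K) (hc : c ≠ 0)
    (hg : b.repr g i₀ = algebraMap K Q c) (hgM : g ∈ M) :
    ∃ b' : Basis ι Q V, (∀ i, b' i = Function.update b i₀ g i) ∧ IsPolyBasis X b' M := by
  have hc' : algebraMap K Q c ≠ 0 := by
    rw [Ne, map_eq_zero_iff _ (algebraMap K Q).injective]; exact hc
  obtain ⟨b', hb', hrepr⟩ := exists_update b i₀ g (algebraMap K Q c) hc' hg
  refine ⟨b', hb', fun f => ?_⟩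
  rw [hM f]
  obtain ⟨G, hG⟩ := Classical.axiomOfChoice ((hM g).1 hgM)
  have hinv : (algebraMap K Q c)⁻¹ = aeval X (C c⁻¹ : K[X]) := by
    rw [aeval_C, map_inv₀]
  constructor
  · intro hf j
    obtain ⟨pj, hpj⟩ := hf j
    obtain ⟨p0, hp0⟩ := hf i₀
    refine ⟨pj - C c⁻¹ * p0 * (G j - if j = i₀ then 1 else 0), ?_⟩
    rw [hrepr, hpj, hp0, hG j, hinv]
    simp only [map_sub, map_mul]
    split_ifs <;> simp
  · intro hf j
    obtain ⟨pj, hpj⟩ := hf j
    obtain ⟨p0, hp0⟩ := hf i₀
    have h0 : b.repr f i₀ = algebraMap K Q c * b'.repr f i₀ := by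
      rw [hrepr f i₀, hg]
      simp only [if_true]
      field_simp; ring
    refine ⟨pj + p0 * (G j - if j = i₀ then 1 else 0), ?_⟩
    have h1 := hrepr f j
    rw [h0, hG j] at h1
    have h2 : b.repr f j = b'.repr f j + b'.repr f i₀ * (aeval X (G j) - if j = i₀ then 1 else 0) := by
      rw [h1]; field_simp; ring
    rw [h2, hpj, hp0]
    simp only [map_add, map_sub, map_mul]
    split_ifs <;> simp

variable {N : Submodule K V}

/-- The exchange step: a cancellation of leading terms lets us lower the sum of the norms. -/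
theorem exists_better (h : IsDeg (K := K) X deg) (hN : IsInf X deg N) {b : Basis ι Q V}
    {M : Submodule K V} (hM : IsPolyBasis X b M) (P : ι → K[X]) (k' : ℤ)
    (hk' : ∀ i, P i ≠ 0 → ((P i).natDegree : ℤ) + nu X N (b i) ≤ k')
    (hex : ∃ i, P i ≠ 0 ∧ ((P i).natDegree : ℤ) + nu X N (b i) = k')
    (hg : Ple X N (k' - 1) (∑ i, aeval X (P i) • b i)) :
    ∃ b' : Basis ι Q V, IsPolyBasis X b' M ∧ ∑ i, nu X N (b' i) < ∑ i, nu X N (b i) := by
  classical
  set I : Finset ι := Finset.univ.filter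
    (fun i => P i ≠ 0 ∧ ((P i).natDegree : ℤ) + nu X N (b i) = k') with hI
  have hIne : I.Nonempty := by
    obtain ⟨i, hi⟩ := hex
    exact ⟨i, by rw [hI, Finset.mem_filter]; exact ⟨Finset.mem_univ _, hi⟩⟩
  obtain ⟨i₀, hi₀I, hi₀min⟩ := Finset.exists_min_image I (fun i => (P i).natDegree) hIne
  have hmemI : ∀ i, i ∈ I ↔ (P i ≠ 0 ∧ ((P i).natDegree : ℤ) + nu X N (b i) = k') := by
    intro i; rw [hI, Finset.mem_filter]; simp
  obtain ⟨hP0, hk0⟩ := (hmemI i₀).1 hi₀I
  set m₀ := (P i₀).natDegree with hm₀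
  set G : ι → K[X] := fun i =>
    if i ∈ I then C (P i).leadingCoeff * Polynomial.X ^ ((P i).natDegree - m₀) else 0 with hG
  set g₁ : V := ∑ i, aeval X (G i) • b i with hg₁
  have hrepr : ∀ j, b.repr g₁ j = aeval X (G j) := by
    intro j
    rw [hg₁, Basis.repr_sum_self]
  have hg₁M : g₁ ∈ M := (hM g₁).2 fun j => ⟨G j, hrepr j⟩
  have hlc0 : (P i₀).leadingCoeff ≠ 0 := leadingCoeff_ne_zero.2 hP0
  have hrepr0 : b.repr g₁ i₀ = algebraMap K Q (P i₀).leadingCoeff := by
    rw [hrepr, hG]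
    simp only [hi₀I, if_true]
    rw [← hm₀, Nat.sub_self, pow_zero, mul_one, aeval_C]
  have hg₁0 : g₁ ≠ 0 := by
    intro h0
    rw [h0, map_zero, Finsupp.zero_apply] at hrepr0
    exact hlc0 ((map_eq_zero_iff _ (algebraMap K Q).injective).1 hrepr0.symm)
  -- the remainders
  set R : ι → K[X] := fun i => if i ∈ I then (P i).eraseLead else P i with hR
  have hkey : X ^ (m₀ : ℤ) • g₁ = (∑ i, aeval X (P i) • b i) - ∑ i, aeval X (R i) • b i := by
    rw [hg₁, Finset.smul_sum, ← Finset.sum_sub_distrib]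
    refine Finset.sum_congr rfl fun i _ => ?_
    rw [smul_smul, ← sub_smul]
    congr 1
    by_cases hi : i ∈ I
    · have hle : m₀ ≤ (P i).natDegree := hi₀min i hi
      simp only [hG, hR, hi, if_true]
      rw [eq_sub_iff_add_eq, zpow_natCast]
      conv_rhs => rw [← (P i).eraseLead_add_C_mul_X_pow]
      rw [map_add, map_mul, map_mul, aeval_C, map_pow, map_pow, aeval_X, add_comm]
      congr 1
      rw [mul_comm (X ^ m₀), mul_assoc, ← pow_add, Nat.sub_add_cancel hle]
    · simp only [hG, hR, hi, if_false]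
      rw [map_zero, mul_zero, sub_self]
  have hRple : ∀ i, Ple X N (k' - 1) (aeval X (R i) • b i) := by
    intro i
    by_cases hi : i ∈ I
    · obtain ⟨hPi, hki⟩ := (hmemI i).1 hi
      simp only [hR, hi, if_true]
      rcases (P i).eraseLead_natDegree_lt_or_eraseLead_eq_zero with hlt | h0
      · have h1 : Dle deg ((P i).natDegree - 1) (aeval X (P i).eraseLead) := by
          rw [h.dle_aeval_iff]; right; omega
        have := hN.ple_smul h h1 (hN.ple_nu h (b i))
        exact hN.ple_mono h this (by omega)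
      · rw [h0, map_zero, zero_smul]; exact Ple.zero _
    · simp only [hR, hi, if_false]
      by_cases hPi : P i = 0
      · rw [hPi, map_zero, zero_smul]; exact Ple.zero _
      · have hle := hk' i hPi
        have hne : ((P i).natDegree : ℤ) + nu X N (b i) ≠ k' := fun he =>
          hi ((hmemI i).2 ⟨hPi, he⟩)
        have h1 : Dle deg ((P i).natDegree) (aeval X (P i)) := by
          rw [h.dle_aeval_iff]; right; exact le_rfl
        have := hN.ple_smul h h1 (hN.ple_nu h (b i))
        exact hN.ple_mono h this (by omega)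
  have hple1 : Ple X N (k' - 1) (X ^ (m₀ : ℤ) • g₁) := by
    rw [hkey]
    exact hg.sub (Ple.sum _ _ fun i _ => hRple i)
  have hple2 : Ple X N (-(m₀ : ℤ) + (k' - 1)) g₁ := by
    have := hN.ple_smul h (h.dle_zpow (-(m₀ : ℤ))) hple1
    rwa [smul_smul, ← zpow_add₀ h.X_ne, neg_add_cancel, zpow_zero, one_smul] at this
  have hnu : nu X N g₁ < nu X N (b i₀) := by
    have := (hN.ple_iff h hg₁0 _).1 hple2
    omega
  obtain ⟨b', hb', hb'M⟩ := hM.update i₀ g₁ (P i₀).leadingCoeff hlc0 hrepr0 hg₁M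
  refine ⟨b', hb'M, ?_⟩
  apply Finset.sum_lt_sum
  · intro i _
    rw [hb']
    by_cases hi : i = i₀
    · subst hi; rw [Function.update_self]; exact hnu.le
    · rw [Function.update_of_ne hi]
  · exact ⟨i₀, Finset.mem_univ _, by rw [hb', Function.update_self]; exact hnu⟩

/-- Lower bound for the norms of the vectors of a `K[X]`-basis of `M`. -/
theorem nu_ge (h : IsDeg (K := K) X deg) (hN : IsInf X deg N) {b : Basis ι Q V}
    {M : Submodule K V} (hM : IsPolyBasis X b M) [FiniteDimensional K ↥(M ⊓ N)] (i : ι) :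
    -(Module.finrank K ↥(M ⊓ N) : ℤ) ≤ nu X N (b i) := by
  classical
  by_contra hlt
  push Not at hlt
  set l := Module.finrank K ↥(M ⊓ N) with hl
  have hbi : b i ≠ 0 := b.ne_zero i
  let φ₀ : K[X] →ₗ[K] V :=
    { toFun := fun p => aeval X p • b i
      map_add' := by intro p q; rw [map_add, add_smul]
      map_smul' := by intro c p; rw [map_smul, smul_assoc]; rfl }
  have hmem : ∀ p : degreeLT K (l + 1), φ₀.domRestrict (degreeLT K (l + 1)) p ∈ M ⊓ N := by
    rintro ⟨p, hp⟩
    show aeval X p • b i ∈ M ⊓ N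
    rw [Submodule.mem_inf]
    refine ⟨(hM _).2 fun j => ?_, ?_⟩
    · rw [map_smul, Basis.repr_self, Finsupp.smul_apply, smul_eq_mul, Finsupp.single_apply]
      by_cases hj : i = j
      · exact ⟨p, by rw [if_pos hj, mul_one]⟩
      · exact ⟨0, by rw [if_neg hj, mul_zero, map_zero]⟩
    · rw [← ple_zero_iff (X := X), hN.ple_smul_iff h _ hbi, h.dle_aeval_iff]
      by_cases hp0 : p = 0
      · exact Or.inl hp0
      · right
        rw [mem_degreeLT] at hp
        have := (natDegree_lt_iff_degree_lt hp0).2 hp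
        omega
  let ψ : degreeLT K (l + 1) →ₗ[K] ↥(M ⊓ N) :=
    (φ₀.domRestrict (degreeLT K (l + 1))).codRestrict (M ⊓ N) hmem
  have hinj : Function.Injective ψ := by
    rintro ⟨p, hp⟩ ⟨q, hq⟩ hpq
    have h1 : aeval X p • b i = aeval X q • b i := congrArg Subtype.val hpq
    have h2 : aeval X p = aeval X q := smul_left_injective Q hbi h1
    exact Subtype.ext (h.aeval_injective h2)
  have h1 := LinearMap.finrank_le_finrank_of_injective hinj
  have h2 : Module.finrank K (degreeLT K (l + 1)) = l + 1 := by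
    rw [(degreeLTEquiv K (l + 1)).finrank_eq, Module.finrank_fin_fun]
  omega

/-- **Reduced basis** (Dedekind–Weber): there is a `K[X]`-basis of `M` in which the lattice at
infinity `N` is diagonal. -/
theorem exists_reduced (h : IsDeg (K := K) X deg) (hN : IsInf X deg N) {b₀ : Basis ι Q V}
    {M : Submodule K V} (hM : IsPolyBasis X b₀ M) [FiniteDimensional K ↥(M ⊓ N)] :
    ∃ b : Basis ι Q V, IsPolyBasis X b M ∧
      ∀ f, f ∈ N ↔ ∀ i, Dle deg (-nu X N (b i)) (b.repr f i) := by
  classical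
  set l := Module.finrank K ↥(M ⊓ N) with hl
  obtain ⟨z, ⟨b, hbM, hbz⟩, hmin⟩ := Int.exists_least_of_bdd
    (P := fun z : ℤ => ∃ b : Basis ι Q V, IsPolyBasis X b M ∧ ∑ i, nu X N (b i) = z)
    ⟨-(Fintype.card ι * l : ℤ), by
      rintro z ⟨b, hbM, rfl⟩
      have : ∑ _i : ι, (-(l : ℤ)) ≤ ∑ i, nu X N (b i) :=
        Finset.sum_le_sum fun i _ => nu_ge h hN hbM i
      simpa using this⟩
    ⟨_, b₀, hM, rfl⟩
  refine ⟨b, hbM, fun f => ⟨fun hf => ?_, fun hf => ?_⟩⟩
  · by_contra hcon
    push Not at hcon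
    obtain ⟨i₁, hi₁⟩ := hcon
    have hr1 : b.repr f i₁ ≠ 0 := fun h0 => hi₁ (Or.inl h0)
    have hd1 : -nu X N (b i₁) < deg (b.repr f i₁) := by
      by_contra hle
      exact hi₁ (Or.inr (not_lt.1 hle))
    -- common denominator
    choose p q hq hpq using fun i => h.frac (b.repr f i)
    set Sden : K[X] := ∏ i, q i with hSden
    have hSden0 : Sden ≠ 0 := Finset.prod_ne_zero_iff.2 fun i _ => hq i
    set P : ι → K[X] := fun i => p i * ∏ j ∈ Finset.univ.erase i, q j with hP
    have hPs : ∀ i, aeval X (P i) = aeval X Sden * b.repr f i := by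
      intro i
      have hqi := h.aeval_ne_zero (hq i)
      rw [hP, hSden, ← Finset.mul_prod_erase Finset.univ q (Finset.mem_univ i), map_mul,
        map_mul, hpq i]
      field_simp
    have hs0 := h.aeval_ne_zero hSden0
    have hgsum : (∑ i, aeval X (P i) • b i) = aeval X Sden • f := by
      conv_rhs => rw [← b.sum_repr f]
      rw [Finset.smul_sum]
      exact Finset.sum_congr rfl fun i _ => by rw [hPs, smul_smul]
    have hPi₁ : P i₁ ≠ 0 := by
      intro h0
      have := hPs i₁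
      rw [h0, map_zero] at this
      exact mul_ne_zero hs0 hr1 this.symm
    set J : Finset ι := Finset.univ.filter (fun i => P i ≠ 0) with hJ
    have hJne : J.Nonempty := ⟨i₁, by rw [hJ, Finset.mem_filter]; exact ⟨Finset.mem_univ _, hPi₁⟩⟩
    obtain ⟨i₂, hi₂J, hi₂max⟩ := Finset.exists_max_image J
      (fun i => ((P i).natDegree : ℤ) + nu X N (b i)) hJne
    have hi₂P : P i₂ ≠ 0 := by
      rw [hJ, Finset.mem_filter] at hi₂J; exact hi₂J.2
    set k' : ℤ := ((P i₂).natDegree : ℤ) + nu X N (b i₂) with hk'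
    have hdegP1 : ((P i₁).natDegree : ℤ) = deg (aeval X Sden) + deg (b.repr f i₁) := by
      rw [← h.deg_aeval hPi₁, hPs, h.mul _ _ hs0 hr1]
    have hk'1 : deg (aeval X Sden) + 1 ≤ k' := by
      have := hi₂max i₁ (by rw [hJ, Finset.mem_filter]; exact ⟨Finset.mem_univ _, hPi₁⟩)
      omega
    have hple : Ple X N (k' - 1) (∑ i, aeval X (P i) • b i) := by
      rw [hgsum]
      have := hN.ple_smul h (IsDeg.dle_self (deg := deg) (aeval X Sden))
        ((ple_zero_iff (X := X) f).2 hf)
      exact hN.ple_mono h this (by omega)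
    obtain ⟨b', hb'M, hlt⟩ := exists_better h hN hbM P k'
      (fun i hi => hi₂max i (by rw [hJ, Finset.mem_filter]; exact ⟨Finset.mem_univ _, hi⟩))
      ⟨i₂, hi₂P, rfl⟩ hple
    have := hmin _ ⟨b', hb'M, rfl⟩
    omega
  · rw [← b.sum_repr f]
    refine N.sum_mem fun i _ => ?_
    rw [← ple_zero_iff (X := X), hN.ple_smul_iff h _ (b.ne_zero i), zero_sub]
    exact hf i

/-- The pair `(M, N)` is diagonal in the basis `b`, with invariants `d`. -/
def IsDiag (X : Q) (deg : Q → ℤ) (b : Basis ι Q V) (d : ι → ℤ) (M N : Submodule K V) : Prop :=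
  IsPolyBasis X b M ∧ ∀ f, f ∈ N ↔ ∀ i, Dle deg (-d i) (b.repr f i)

theorem exists_isDiag (h : IsDeg (K := K) X deg) (hN : IsInf X deg N) {b₀ : Basis ι Q V}
    {M : Submodule K V} (hM : IsPolyBasis X b₀ M) [FiniteDimensional K ↥(M ⊓ N)] :
    ∃ (b : Basis ι Q V) (d : ι → ℤ), IsDiag X deg b d M N := by
  obtain ⟨b, h1, h2⟩ := exists_reduced h hN hM
  exact ⟨b, fun i => nu X N (b i), h1, h2⟩

theorem IsDeg.dle_zpow_mul_iff (h : IsDeg (K := K) X deg) (j m : ℤ) (r : Q) :
    Dle deg m (X ^ j * r) ↔ Dle deg (m - j) r := by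
  constructor
  · intro h1
    have := h.dle_mul (h.dle_zpow (-j)) h1
    rwa [← mul_assoc, ← zpow_add₀ h.X_ne, neg_add_cancel, zpow_zero, one_mul, neg_add_eq_sub]
      at this
  · intro h1
    have := h.dle_mul (h.dle_zpow j) h1
    rwa [add_sub_cancel] at this

/-- Dimension of `M ⊓ N` for a diagonal pair. -/
theorem IsDiag.finrank_inf (h : IsDeg (K := K) X deg) {b : Basis ι Q V} {d : ι → ℤ}
    {M : Submodule K V} (hD : IsDiag X deg b d M N) :
    FiniteDimensional K ↥(M ⊓ N) ∧ Module.finrank K ↥(M ⊓ N) = ∑ i, (1 - d i).toNat := by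
  classical
  obtain ⟨hM, hNd⟩ := hD
  let Ψ : (∀ i, degreeLT K (1 - d i).toNat) →ₗ[K] V :=
    { toFun := fun p => ∑ i, aeval X (p i : K[X]) • b i
      map_add' := by
        intro p q
        rw [← Finset.sum_add_distrib]
        exact Finset.sum_congr rfl fun i _ => by
          rw [Pi.add_apply, Submodule.coe_add, map_add, add_smul]
      map_smul' := by
        intro c p
        rw [RingHom.id_apply, Finset.smul_sum]
        exact Finset.sum_congr rfl fun i _ => by
          rw [Pi.smul_apply, Submodule.coe_smul, map_smul, smul_assoc] }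
  have hΨrepr : ∀ p i, b.repr (Ψ p) i = aeval X (p i : K[X]) := by
    intro p i
    show b.repr (∑ i, aeval X (p i : K[X]) • b i) i = _
    rw [Basis.repr_sum_self]
  have hinj : Function.Injective Ψ := by
    intro p q hpq
    funext i
    have := hΨrepr p i
    rw [hpq, hΨrepr q i] at this
    exact Subtype.ext (h.aeval_injective this.symm)
  have hrange : LinearMap.range Ψ = M ⊓ N := by
    apply le_antisymm
    · rintro _ ⟨p, rfl⟩
      rw [Submodule.mem_inf]
      refine ⟨(hM _).2 fun i => ⟨p i, hΨrepr p i⟩, (hNd _).2 fun i => ?_⟩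
      rw [hΨrepr, h.dle_aeval_iff]
      by_cases hp0 : (p i : K[X]) = 0
      · exact Or.inl hp0
      · right
        have hp := (p i).2
        rw [mem_degreeLT] at hp
        have := (natDegree_lt_iff_degree_lt hp0).2 hp
        omega
    · intro f hf
      rw [Submodule.mem_inf] at hf
      obtain ⟨hfM, hfN⟩ := hf
      choose p hp using (hM f).1 hfM
      have hpdeg : ∀ i, p i ∈ degreeLT K (1 - d i).toNat := by
        intro i
        have := (hNd f).1 hfN i
        rw [hp i, h.dle_aeval_iff] at this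
        rw [mem_degreeLT]
        rcases this with h0 | h1
        · rw [h0, degree_zero]; exact WithBot.bot_lt_coe _
        · refine lt_of_le_of_lt degree_le_natDegree ?_
          have : (p i).natDegree < (1 - d i).toNat := by omega
          exact_mod_cast this
      refine ⟨fun i => ⟨p i, hpdeg i⟩, ?_⟩
      show ∑ i, aeval X (p i) • b i = f
      conv_rhs => rw [← b.sum_repr f]
      exact Finset.sum_congr rfl fun i _ => by rw [hp i]
  have hfin : FiniteDimensional K ↥(LinearMap.range Ψ) := inferInstance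
  have hrank : Module.finrank K ↥(LinearMap.range Ψ) = ∑ i, (1 - d i).toNat := by
    rw [LinearMap.finrank_range_of_inj hinj, Module.finrank_pi_fintype]
    refine Finset.sum_congr rfl fun i _ => ?_
    rw [(degreeLTEquiv K _).finrank_eq, Module.finrank_fin_fun]
  rw [hrange] at hfin hrank
  exact ⟨hfin, hrank⟩

/-- `M ⊔ N = ⊤` for a diagonal pair with all invariants `≤ 1`. -/
theorem IsDiag.sup_eq_top (h : IsDeg (K := K) X deg) {b : Basis ι Q V} {d : ι → ℤ}
    {M : Submodule K V} (hD : IsDiag X deg b d M N) (hd : ∀ i, d i ≤ 1) : M ⊔ N = ⊤ := by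
  classical
  obtain ⟨hM, hNd⟩ := hD
  rw [eq_top_iff]
  intro f _
  choose p hp using fun i => h.exists_poly_part (b.repr f i)
  rw [Submodule.mem_sup]
  refine ⟨∑ i, aeval X (p i) • b i, (hM _).2 fun i => ⟨p i, by rw [Basis.repr_sum_self]⟩,
    ∑ i, (b.repr f i - aeval X (p i)) • b i, (hNd _).2 fun i => ?_, ?_⟩
  · rw [Basis.repr_sum_self]
    exact (hp i).mono (by have := hd i; omega)
  · rw [← Finset.sum_add_distrib]
    conv_rhs => rw [← b.sum_repr f]
    exact Finset.sum_congr rfl fun i _ => by rw [← add_smul]; congr 1; ring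

/-- Shifting the lattice at infinity by `X^k`. -/
theorem IsDiag.shift (h : IsDeg (K := K) X deg) {b : Basis ι Q V} {d : ι → ℤ}
    {M : Submodule K V} (hD : IsDiag X deg b d M N) (k : ℤ) {N' : Submodule K V}
    (hN' : ∀ f, f ∈ N' ↔ X ^ (-k) • f ∈ N) : IsDiag X deg b (fun i => d i - k) M N' := by
  obtain ⟨hM, hNd⟩ := hD
  refine ⟨hM, fun f => ?_⟩
  rw [hN', hNd]
  refine forall_congr' fun i => ?_
  rw [map_smul, Finsupp.smul_apply, smul_eq_mul, h.dle_zpow_mul_iff]
  have e : -d i - -k = -(d i - k) := by ring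
  rw [e]

/-- The dual of a diagonal pair with respect to a nondegenerate bilinear form is diagonal in
the dual basis, with the opposite invariants. -/
theorem IsDiag.dual [DecidableEq ι] (h : IsDeg (K := K) X deg) {b : Basis ι Q V} {d : ι → ℤ}
    {M : Submodule K V} (hD : IsDiag X deg b d M N) (B : LinearMap.BilinForm Q V)
    (hB : B.Nondegenerate) {M' N' : Submodule K V}
    (hM' : ∀ φ, φ ∈ M' ↔ ∀ f ∈ M, ∃ p : K[X], B φ f = aeval X p)
    (hN' : ∀ φ, φ ∈ N' ↔ ∀ f ∈ N, Dle deg 0 (B φ f)) :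
    IsDiag X deg (B.dualBasis hB b) (fun i => -d i) M' N' := by
  obtain ⟨hM, hNd⟩ := hD
  have hBsum : ∀ φ f, B φ f = ∑ j, b.repr f j * B φ (b j) := by
    intro φ f
    conv_lhs => rw [← b.sum_repr f]
    rw [map_sum]
    exact Finset.sum_congr rfl fun j _ => by rw [map_smul, smul_eq_mul]
  refine ⟨fun φ => ?_, fun φ => ?_⟩
  · rw [hM']
    constructor
    · intro hφ i
      rw [LinearMap.BilinForm.dualBasis_repr_apply]
      refine hφ (b i) ((hM _).2 fun j => ?_)
      rw [Basis.repr_self, Finsupp.single_apply]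
      by_cases hj : i = j
      · exact ⟨1, by rw [if_pos hj, map_one]⟩
      · exact ⟨0, by rw [if_neg hj, map_zero]⟩
    · intro hφ f hf
      choose q hq using (hM f).1 hf
      choose p hp using hφ
      refine ⟨∑ j, q j * p j, ?_⟩
      rw [hBsum, map_sum]
      refine Finset.sum_congr rfl fun j _ => ?_
      rw [hq j, map_mul, ← hp j, LinearMap.BilinForm.dualBasis_repr_apply]
  · rw [hN']
    constructor
    · intro hφ i
      rw [LinearMap.BilinForm.dualBasis_repr_apply, neg_neg]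
      have hmem : X ^ (-d i) • b i ∈ N := by
        rw [hNd]
        intro j
        rw [map_smul, Basis.repr_self, Finsupp.smul_apply, smul_eq_mul, Finsupp.single_apply]
        by_cases hj : i = j
        · subst hj; rw [if_pos rfl, mul_one]; exact h.dle_zpow _
        · rw [if_neg hj, mul_zero]; exact Dle.zero _
      have := hφ _ hmem
      rw [map_smul, smul_eq_mul, h.dle_zpow_mul_iff] at this
      simpa using this
    · intro hφ f hf
      rw [hBsum]
      refine h.dle_sum _ _ fun j _ => ?_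
      have h1 := (hNd f).1 hf j
      have h2 := hφ j
      rw [LinearMap.BilinForm.dualBasis_repr_apply, neg_neg] at h2
      have := h.dle_mul h1 h2
      rwa [neg_add_cancel] at this

end Basis

end Fermat.Agent.S20_Reduce
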