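import Fermat.Agent.S23_Defs
import Fermat.Agent.S23_RelConj
import Fermat.Agent.S23_Interp
import Fermat.Agent.S24_IotaMem

/-!
# S23_Conj (helper3): conjugation of `Γ₀(N)`-invariant functions by automorphisms of `ℂ`

Closure properties of the relation `S23_Defs.IsConj N σ Ψ Ψ'` (`Ψ = G/G₁`, `Ψ' = G^σ/G₁^σ` for
polynomials `G₁, G` in the functions `j(dτ)`, `d ∣ N`): constants, `j`, sums, products; the
conjugate of `0` is `0` (so polynomial relations transport); conjugates are `Γ₀(N)`-invariant.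
-/

set_option autoImplicit false

noncomputable section

open Fermat.Agent.S24_Defs Fermat.Agent.S24_Embed Fermat.Agent.S23_Defs ModularCurve UpperHalfPlane
  Filter
open scoped MatrixGroups ModularForm Manifold Topology

namespace Fermat.Agent.S23_Conj

/-- evaluation of a polynomial at the functions `j(dτ)` -/
abbrev evJ (P : MvPolynomial ℕ ℂ) (τ : ℍ) : ℂ := MvPolynomial.eval (fun d => jS d τ) P

/-- coefficientwise conjugation of a polynomial -/
abbrev cj (σ : ℂ ≃+* ℂ) (P : MvPolynomial ℕ ℂ) : MvPolynomial ℕ ℂ :=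
  MvPolynomial.map (σ : ℂ →+* ℂ) P

theorem mdiff_jS' (d : ℕ) : MDiff (jS d) := by
  rcases eq_or_ne d 0 with rfl | hd
  · have : jS 0 = fun _ => (0 : ℂ) := by funext τ; simp [jS]
    rw [this]; exact mdifferentiable_const
  · exact Fermat.Agent.S24_IotaMem.mdiff_jS hd

theorem mdiff_evJ (P : MvPolynomial ℕ ℂ) : MDiff (fun τ => evJ P τ) := by
  induction P using MvPolynomial.induction_on with
  | C a =>
    have : (fun τ : ℍ => evJ (MvPolynomial.C a) τ) = fun _ => a := by funext τ; simp [evJ]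
    rw [this]; exact mdifferentiable_const
  | add p q hp hq =>
    have : (fun τ : ℍ => evJ (p + q) τ) = (fun τ => evJ p τ) + fun τ => evJ q τ := by
      funext τ; simp [evJ]
    rw [this]; exact hp.add hq
  | mul_X p n hp =>
    have : (fun τ : ℍ => evJ (p * MvPolynomial.X n) τ) = (fun τ => evJ p τ) * jS n := by
      funext τ; simp [evJ]
    rw [this]; exact hp.mul (mdiff_jS' n)

theorem vars_cj (σ : ℂ ≃+* ℂ) {N : ℕ} {P : MvPolynomial ℕ ℂ} (hP : ∀ d ∈ P.vars, d ∣ N) :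
    ∀ d ∈ (cj σ P).vars, d ∣ N := fun d hd => hP d (MvPolynomial.vars_map P _ hd)

theorem evJ_smul (N : ℕ) (P : MvPolynomial ℕ ℂ) (hP : ∀ d ∈ P.vars, d ∣ N) (g : SL(2, ℤ))
    (hg : g ∈ CongruenceSubgroup.Gamma0 N) (τ : ℍ) : evJ P (g • τ) = evJ P τ := by
  refine MvPolynomial.eval₂Hom_congr' rfl (fun d hd _ => ?_) rfl
  exact Fermat.Agent.S24_Hermite.jS_smul_of_mem_Gamma0 N (hP d hd) g hg τ

/-- identity principle: a continuous function killed by a nonzero holomorphic function is zero -/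
theorem eq_zero_of_mul_eq_zero {u h : ℍ → ℂ} (hu : Continuous u) (hh : MDiff h)
    (hne : ∃ τ, h τ ≠ 0) (H : ∀ τ, u τ * h τ = 0) : ∀ τ, u τ = 0 := by
  intro τ
  have hne' : h ≠ 0 := by
    rintro rfl
    obtain ⟨τ₀, hτ₀⟩ := hne
    exact hτ₀ rfl
  have h1 := eventually_ne_zero hh hne' τ
  have h2 : ∀ᶠ w in 𝓝[≠] (τ : ℂ), u (ofComplex w) = 0 :=
    h1.mono fun w hw => (mul_eq_zero.mp (H (ofComplex w))).resolve_right hw
  have hcont : ContinuousAt (fun w : ℂ => u (ofComplex w)) (τ : ℂ) :=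
    ContinuousAt.comp hu.continuousAt
      (UpperHalfPlane.contMDiffAt_ofComplex (n := 0) τ.im_pos).continuousAt
  have h3 : Tendsto (fun w : ℂ => u (ofComplex w)) (𝓝[≠] (τ : ℂ)) (𝓝 (u (ofComplex (τ : ℂ)))) :=
    hcont.tendsto.mono_left nhdsWithin_le_nhds
  have h4 : Tendsto (fun w : ℂ => u (ofComplex w)) (𝓝[≠] (τ : ℂ)) (𝓝 0) :=
    tendsto_const_nhds.congr' (h2.mono fun w hw => hw.symm)
  have := tendsto_nhds_unique h3 h4
  rwa [ofComplex_apply] at this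

theorem exists_mul_ne_zero {h₁ h₂ : ℍ → ℂ} (m₁ : MDiff h₁) (m₂ : MDiff h₂)
    (n₁ : ∃ τ, h₁ τ ≠ 0) (n₂ : ∃ τ, h₂ τ ≠ 0) : ∃ τ, h₁ τ * h₂ τ ≠ 0 := by
  have hne₁ : h₁ ≠ 0 := by
    rintro rfl; obtain ⟨τ₀, hτ₀⟩ := n₁; exact hτ₀ rfl
  have hne₂ : h₂ ≠ 0 := by
    rintro rfl; obtain ⟨τ₀, hτ₀⟩ := n₂; exact hτ₀ rfl
  have e1 := eventually_ne_zero m₁ hne₁ UpperHalfPlane.I
  have e2 := eventually_ne_zero m₂ hne₂ UpperHalfPlane.I
  obtain ⟨w, hw1, hw2⟩ := (e1.and e2).exists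
  exact ⟨ofComplex w, mul_ne_zero hw1 hw2⟩

theorem evJ_cj_ne_zero (σ : ℂ ≃+* ℂ) (P : MvPolynomial ℕ ℂ) (h : ∃ τ, evJ P τ ≠ 0) :
    ∃ τ, evJ (cj σ P) τ ≠ 0 := by
  by_contra hcon
  have hcon' : ∀ τ, evJ (cj σ P) τ = 0 := fun τ => by
    by_contra hτ
    exact hcon ⟨τ, hτ⟩
  have := (Fermat.Agent.S23_RelConj.relation_conj_iff σ P).mp hcon'
  obtain ⟨τ, hτ⟩ := h
  exact hτ (this τ)

theorem isConj_const (N : ℕ) (σ : ℂ ≃+* ℂ) (c : ℂ) :
    IsConj N σ (fun _ => c) (fun _ => σ c) := by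
  refine ⟨1, MvPolynomial.C c, ?_, ?_, ⟨UpperHalfPlane.I, ?_⟩, fun τ => ?_, fun τ => ?_⟩
  · simp [MvPolynomial.vars_one]
  · simp [MvPolynomial.vars_C]
  · simp
  · simp
  · simp

theorem isConj_jFun (N : ℕ) (σ : ℂ ≃+* ℂ) : IsConj N σ jFun jFun := by
  refine ⟨1, MvPolynomial.X 1, ?_, ?_, ⟨UpperHalfPlane.I, ?_⟩, fun τ => ?_, fun τ => ?_⟩
  · simp [MvPolynomial.vars_one]
  · simp [MvPolynomial.vars_X]
  · simp
  · simp [Fermat.Agent.S24_DegreeOf.jS_one]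
  · simp [Fermat.Agent.S24_DegreeOf.jS_one]

theorem IsConj.add {N : ℕ} {σ : ℂ ≃+* ℂ} {u u' v v' : ℍ → ℂ} (hu : IsConj N σ u u')
    (hv : IsConj N σ v v') : IsConj N σ (fun τ => u τ + v τ) (fun τ => u' τ + v' τ) := by
  classical
  obtain ⟨G₁, G, a₁, a, n₁, e, e'⟩ := hu
  obtain ⟨H₁, H, b₁, b, n₂, f, f'⟩ := hv
  refine ⟨G₁ * H₁, G * H₁ + H * G₁, ?_, ?_, ?_, fun τ => ?_, fun τ => ?_⟩
  · intro d hd
    rcases Finset.mem_union.mp (MvPolynomial.vars_mul _ _ hd) with h | h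
    · exact a₁ d h
    · exact b₁ d h
  · intro d hd
    rcases Finset.mem_union.mp (MvPolynomial.vars_add_subset _ _ hd) with h | h
    · rcases Finset.mem_union.mp (MvPolynomial.vars_mul _ _ h) with h | h
      · exact a d h
      · exact b₁ d h
    · rcases Finset.mem_union.mp (MvPolynomial.vars_mul _ _ h) with h | h
      · exact b d h
      · exact a₁ d h
  · obtain ⟨τ, hτ⟩ := exists_mul_ne_zero (mdiff_evJ G₁) (mdiff_evJ H₁) n₁ n₂
    exact ⟨τ, by simpa using hτ⟩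
  · have h1 := e τ
    have h2 := f τ
    simp only [map_mul, map_add]
    linear_combination (MvPolynomial.eval (fun d => jS d τ) H₁) * h1
      + (MvPolynomial.eval (fun d => jS d τ) G₁) * h2
  · have h1 := e' τ
    have h2 := f' τ
    simp only [map_mul, map_add]
    linear_combination
      (MvPolynomial.eval (fun d => jS d τ) (MvPolynomial.map (σ : ℂ →+* ℂ) H₁)) * h1
      + (MvPolynomial.eval (fun d => jS d τ) (MvPolynomial.map (σ : ℂ →+* ℂ) G₁)) * h2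

theorem IsConj.mul {N : ℕ} {σ : ℂ ≃+* ℂ} {u u' v v' : ℍ → ℂ} (hu : IsConj N σ u u')
    (hv : IsConj N σ v v') : IsConj N σ (fun τ => u τ * v τ) (fun τ => u' τ * v' τ) := by
  classical
  obtain ⟨G₁, G, a₁, a, n₁, e, e'⟩ := hu
  obtain ⟨H₁, H, b₁, b, n₂, f, f'⟩ := hv
  refine ⟨G₁ * H₁, G * H, ?_, ?_, ?_, fun τ => ?_, fun τ => ?_⟩
  · intro d hd
    rcases Finset.mem_union.mp (MvPolynomial.vars_mul _ _ hd) with h | h
    · exact a₁ d h
    · exact b₁ d h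
  · intro d hd
    rcases Finset.mem_union.mp (MvPolynomial.vars_mul _ _ hd) with h | h
    · exact a d h
    · exact b d h
  · obtain ⟨τ, hτ⟩ := exists_mul_ne_zero (mdiff_evJ G₁) (mdiff_evJ H₁) n₁ n₂
    exact ⟨τ, by simpa using hτ⟩
  · have h1 := e τ
    have h2 := f τ
    simp only [map_mul]
    linear_combination (v τ * MvPolynomial.eval (fun d => jS d τ) H₁) * h1
      + (MvPolynomial.eval (fun d => jS d τ) G) * h2
  · have h1 := e' τ
    have h2 := f' τ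
    simp only [map_mul]
    linear_combination
      (v' τ * MvPolynomial.eval (fun d => jS d τ) (MvPolynomial.map (σ : ℂ →+* ℂ) H₁)) * h1
      + (MvPolynomial.eval (fun d => jS d τ) (MvPolynomial.map (σ : ℂ →+* ℂ) G)) * h2

/-- the conjugate of `0` is `0` -/
theorem IsConj.eq_zero {N : ℕ} {σ : ℂ ≃+* ℂ} {u u' : ℍ → ℂ} (h : IsConj N σ u u')
    (hu : ∀ τ, u τ = 0) (hc : Continuous u') : ∀ τ, u' τ = 0 := by
  obtain ⟨G₁, G, -, -, hn, e, e'⟩ := h
  have hG : ∀ τ, MvPolynomial.eval (fun d => jS d τ) G = 0 := fun τ => by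
    rw [← e τ, hu τ, zero_mul]
  have hG' := Fermat.Agent.S23_RelConj.relation_conj σ G hG
  exact eq_zero_of_mul_eq_zero hc (mdiff_evJ (cj σ G₁)) (evJ_cj_ne_zero σ G₁ hn)
    (fun τ => by rw [e' τ, hG' τ])

/-- conjugates are `Γ₀(N)`-invariant -/
theorem IsConj.smul_eq {N : ℕ} {σ : ℂ ≃+* ℂ} {u u' : ℍ → ℂ} (h : IsConj N σ u u')
    (hc : Continuous u') (g : SL(2, ℤ)) (hg : g ∈ CongruenceSubgroup.Gamma0 N) (τ : ℍ) :
    u' (g • τ) = u' τ := by
  obtain ⟨G₁, G, a₁, a, hn, e, e'⟩ := h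
  have key : ∀ τ : ℍ, (u' (g • τ) - u' τ) * evJ (cj σ G₁) τ = 0 := fun τ => by
    have h1 := e' (g • τ)
    have e1 := evJ_smul N (cj σ G₁) (vars_cj σ a₁) g hg τ
    have e2 := evJ_smul N (cj σ G) (vars_cj σ a) g hg τ
    simp only [evJ, cj] at e1 e2
    rw [e1, e2] at h1
    have h2 := e' τ
    linear_combination h1 - h2
  have hsmul : MDiff (fun τ : ℍ => g • τ) :=
    UpperHalfPlane.mdifferentiable_smul (g := ((g : SL(2, ℤ)) : GL (Fin 2) ℝ)) (by simp)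
  have hcont : Continuous (fun τ : ℍ => u' (g • τ) - u' τ) :=
    (hc.comp hsmul.continuous).sub hc
  have := eq_zero_of_mul_eq_zero hcont (mdiff_evJ (cj σ G₁)) (evJ_cj_ne_zero σ G₁ hn) key τ
  exact sub_eq_zero.mp this

theorem IsConj.congr {N : ℕ} {σ : ℂ ≃+* ℂ} {u u' v v' : ℍ → ℂ} (h : IsConj N σ u u')
    (hu : ∀ τ, u τ = v τ) (hu' : ∀ τ, u' τ = v' τ) : IsConj N σ v v' := by
  obtain rfl : u = v := funext hu
  obtain rfl : u' = v' := funext hu'
  exact h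

theorem IsConj.neg {N : ℕ} {σ : ℂ ≃+* ℂ} {u u' : ℍ → ℂ} (h : IsConj N σ u u') :
    IsConj N σ (fun τ => -u τ) (fun τ => -u' τ) :=
  IsConj.congr (IsConj.mul (isConj_const N σ (-1)) h) (fun τ => by simp) (fun τ => by simp)

theorem IsConj.sub {N : ℕ} {σ : ℂ ≃+* ℂ} {u u' v v' : ℍ → ℂ} (hu : IsConj N σ u u')
    (hv : IsConj N σ v v') : IsConj N σ (fun τ => u τ - v τ) (fun τ => u' τ - v' τ) :=
  IsConj.congr (IsConj.add hu (IsConj.neg hv)) (fun τ => by ring) (fun τ => by ring)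

theorem IsConj.pow {N : ℕ} {σ : ℂ ≃+* ℂ} {u u' : ℍ → ℂ} (h : IsConj N σ u u') (n : ℕ) :
    IsConj N σ (fun τ => u τ ^ n) (fun τ => u' τ ^ n) := by
  induction n with
  | zero => exact IsConj.congr (isConj_const N σ 1) (fun τ => by simp) (fun τ => by simp)
  | succ n ih => exact IsConj.congr (IsConj.mul ih h) (fun τ => by ring) (fun τ => by ring)

/-- transport of the relation `u⁶ = v·j²(j − 1728)³` to conjugates -/
theorem IsConj.rel6 {N : ℕ} {σ : ℂ ≃+* ℂ} {u u' v v' : ℍ → ℂ} (hu : IsConj N σ u u')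
    (hv : IsConj N σ v v') (cu : Continuous u') (cv : Continuous v')
    (h : ∀ τ, u τ ^ 6 = v τ * (jFun τ ^ 2 * (jFun τ - 1728) ^ 3)) :
    ∀ τ, u' τ ^ 6 = v' τ * (jFun τ ^ 2 * (jFun τ - 1728) ^ 3) := by
  have hj := isConj_jFun N σ
  have hc := isConj_const N σ 1728
  have key := IsConj.sub (IsConj.pow hu 6)
    (IsConj.mul hv (IsConj.mul (IsConj.pow hj 2) (IsConj.pow (IsConj.sub hj hc) 3)))
  have hcont : Continuous
      (fun τ : ℍ => u' τ ^ 6 - v' τ * (jFun τ ^ 2 * (jFun τ - σ 1728) ^ 3)) := by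
    have cj : Continuous jFun := Fermat.Agent.S24_JFun.jFun_mdiff.continuous
    fun_prop
  have h0 := IsConj.eq_zero key (fun τ => by rw [h τ]; ring) hcont
  intro τ
  have := h0 τ
  simp only [map_ofNat] at this
  exact sub_eq_zero.mp this

/-- the relation `Ψ₁⁶ = Ψ₂·j²(j − 1728)³` between `Ψ₁ = f E₄ E₆/Δ` and `Ψ₂ = f⁶/Δ` -/
theorem psi_rel {N : ℕ} (f : CuspForm (CongruenceSubgroup.Gamma0 N) 2) (τ : ℍ) :
    psi1 f τ ^ 6 = psi2 f τ * (jFun τ ^ 2 * (jFun τ - 1728) ^ 3) := by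
  have hΔ : ModularForm.discriminant τ ≠ 0 := ModularForm.discriminant_ne_zero τ
  have h1 : jFun τ = ModularForm.E₄ τ ^ 3 / ModularForm.discriminant τ := by
    rw [eq_div_iff hΔ]; exact Fermat.Agent.S24_JFun.jFun_mul_discriminant τ
  rw [psi1_apply, psi2_apply, Fermat.Agent.S24_JFun.jFun_sub_1728, h1]
  field_simp

end Fermat.Agent.S23_Conj

end
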