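import Fermat.Agent.S24_Degree
import Fermat.Agent.S24_QExp
import Fermat.Agent.S24_JFun
import Fermat.Prelude.Def_FLTPrelim_Modularity
import Fermat.Agent.S23_Defs
import Fermat.Agent.S23_Interp
import Fermat.Agent.S23_RelConj
import Fermat.Agent.S23_Conj
import Fermat.Agent.S23_Nice
import Fermat.Agent.S23_Root
import Fermat.Agent.S23_Build
import Fermat.Agent.S23_QExp

/-!
# S23 (A6c): assembly of the Galois-conjugate cusp form from holomorphic conjugates

Given holomorphic `σ`-conjugates `Ψ₁'`, `Ψ₂'` of `Ψ₁ = f·E₄·E₆/Δ` and `Ψ₂ = f⁶/Δ`, we build a cusp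
form `g ∈ S₂(Γ₀(N))` whose `q`-expansion is the `σ`-conjugate of that of `f`.
-/

set_option autoImplicit false

noncomputable section

open Fermat.Agent.S24_Defs Fermat.Agent.S24_Embed ModularCurve UpperHalfPlane Filter
open ModularForm EisensteinSeries
open scoped MatrixGroups ModularForm Manifold Topology
open Fermat.Agent.S23_Defs Fermat.Agent.S23_Conj

namespace Fermat.Agent.S23_GalOf

/-- polynomials in `j` are conjugated coefficientwise -/
theorem isConj_polynomial_jFun (N : ℕ) (σ : ℂ ≃+* ℂ) (p : Polynomial ℂ) :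
    IsConj N σ (fun τ => p.eval (jFun τ))
      (fun τ => (p.map (σ : ℂ →+* ℂ)).eval (jFun τ)) := by
  induction p using Polynomial.induction_on with
  | C a =>
    exact IsConj.congr (isConj_const N σ a) (fun τ => by simp) (fun τ => by simp)
  | add p q hp hq =>
    exact IsConj.congr (IsConj.add hp hq) (fun τ => by simp) (fun τ => by simp)
  | monomial n a ih =>
    exact IsConj.congr (IsConj.mul ih (isConj_jFun N σ))
      (fun τ => by simp [pow_succ, mul_assoc]) (fun τ => by simp [pow_succ, mul_assoc])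

/-- finite sums of conjugate pairs are conjugate -/
theorem isConj_sum_range (N : ℕ) (σ : ℂ ≃+* ℂ) (n : ℕ) (u u' : ℕ → ℍ → ℂ)
    (h : ∀ i < n, IsConj N σ (u i) (u' i)) :
    IsConj N σ (fun τ => ∑ i ∈ Finset.range n, u i τ)
      (fun τ => ∑ i ∈ Finset.range n, u' i τ) := by
  induction n with
  | zero =>
    exact IsConj.congr (isConj_const N σ 0) (fun τ => by simp) (fun τ => by simp)
  | succ n ih =>
    exact IsConj.congr
      (IsConj.add (ih fun i hi => h i (Nat.lt_succ_of_lt hi)) (h n (Nat.lt_succ_self n)))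
      (fun τ => by rw [Finset.sum_range_succ]) (fun τ => by rw [Finset.sum_range_succ])

/-- (A6c) assembly: from holomorphic conjugates of `Ψ₁(f)` and `Ψ₂(f)` to the conjugate cusp
form. -/
theorem exists_conj_of (N : ℕ) [NeZero N] (σ : ℂ ≃+* ℂ)
    (f : CuspForm (CongruenceSubgroup.Gamma0 N) 2) (Ψ₁' Ψ₂' : ℍ → ℂ)
    (h1 : MDiff Ψ₁') (h2 : MDiff Ψ₂')
    (c1 : IsConj N σ (psi1 f) Ψ₁') (c2 : IsConj N σ (psi2 f) Ψ₂') :
    ∃ g : CuspForm (CongruenceSubgroup.Gamma0 N) 2,
      ∀ n : ℕ, ModularFormClass.qCoeff g n = σ (ModularFormClass.qCoeff f n) := by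
  have cj : Continuous jFun := Fermat.Agent.S24_JFun.jFun_mdiff.continuous
  -- the degree six relation and the invariance of `Ψ₁'`
  have hrel6 := IsConj.rel6 c1 c2 h1.continuous h2.continuous (psi_rel f)
  have hinv : ∀ g : SL(2, ℤ), g ∈ CongruenceSubgroup.Gamma0 N → ∀ τ, Ψ₁' (g • τ) = Ψ₁' τ :=
    fun g hg τ => IsConj.smul_eq c1 h1.continuous g hg τ
  obtain ⟨g₀, hg₀, hΨg, hg6, hwt⟩ :=
    Fermat.Agent.S23_Root.exists_root N Ψ₁' Ψ₂' h1 h2 hrel6 hinv
  -- the monic relation of `Ψ₂` and its conjugate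
  obtain ⟨p, hp, hdeg⟩ := Fermat.Agent.S23_Interp.exists_monic_relation N
    ⟨psi2 f, Fermat.Agent.S23_Nice.psi2_mem N f⟩ (Fermat.Agent.S23_Nice.tr_psi2 N f)
  have hdeg' := hdeg (Fermat.Agent.S23_Nice.tendsto_psi2 N f)
  have key : IsConj N σ
      (fun τ => psi2 f τ ^ Nat.card (Coset N) + ∑ i ∈ Finset.range (Nat.card (Coset N)),
        (p i).eval (jFun τ) * psi2 f τ ^ i)
      (fun τ => Ψ₂' τ ^ Nat.card (Coset N) + ∑ i ∈ Finset.range (Nat.card (Coset N)),
        ((p i).map (σ : ℂ →+* ℂ)).eval (jFun τ) * Ψ₂' τ ^ i) :=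
    IsConj.add (Fermat.Agent.S23_Conj.IsConj.pow c2 _) (isConj_sum_range N σ _ _ _ fun i _ =>
      IsConj.mul (isConj_polynomial_jFun N σ (p i)) (Fermat.Agent.S23_Conj.IsConj.pow c2 i))
  have hcont : Continuous (fun τ => Ψ₂' τ ^ Nat.card (Coset N)
      + ∑ i ∈ Finset.range (Nat.card (Coset N)),
        ((p i).map (σ : ℂ →+* ℂ)).eval (jFun τ) * Ψ₂' τ ^ i) := by
    refine (h2.continuous.pow _).add (continuous_finsetSum _ fun i _ => ?_)
    exact ((Polynomial.continuous _).comp cj).mul (h2.continuous.pow i)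
  have hrel' := IsConj.eq_zero key hp hcont
  obtain ⟨g, hg⟩ := Fermat.Agent.S23_Build.exists_cuspForm_of N g₀ Ψ₂' hg₀ hwt hg6
    (Nat.card (Coset N)) (fun i => (p i).map (σ : ℂ →+* ℂ)) hrel'
    (fun i hi => le_trans (by
      have := Polynomial.natDegree_map_le (f := (σ : ℂ →+* ℂ)) (p := p i)
      omega) (hdeg' i hi))
  refine ⟨g, Fermat.Agent.S23_QExp.qCoeff_eq_of_isConj N σ f g (IsConj.congr c1 (fun _ => rfl) ?_)⟩
  intro τ
  have hΔ : ModularForm.discriminant τ ≠ 0 := ModularForm.discriminant_ne_zero τ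
  rw [psi1_apply, hg τ, eq_div_iff hΔ, hΨg τ]
  ring

end Fermat.Agent.S23_GalOf

end
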