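import Mathlib
import Fermat.Prelude.Def_ModularCurve_ArithmeticGalois

/-!
# S24 (dictionary, general part): convergent Laurent series and their evaluation

(The declarations live in the namespace `Fermat.Agent.S24_Dict`.)

For a field `K` with a ring homomorphism `ι : K →+* ℂ`, a Laurent series `A : LaurentSeries K`
is *convergent* (`Conv ι A`) if `∑ ι (A.coeff n) * x ^ n` converges absolutely on the punctured
open unit disc.  Convergent series form a subring, evaluation `ev ι x` is a ring homomorphism on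
it, and a convergent series evaluating to zero everywhere is zero (identity theorem).
We also provide the twist `t ↦ ζ t` and the compatibility with the substitution `t ↦ t ^ m`
(`ModularCurve.qExpand`).
-/

set_option autoImplicit false

open HahnSeries

namespace Fermat.Agent.S24_Dict

section Cauchy

/-- Cauchy product for absolutely summable families indexed by `ℤ`. -/
theorem int_cauchy {f g : ℤ → ℂ} (hf : Summable fun n => ‖f n‖)
    (hg : Summable fun n => ‖g n‖) :
    (∀ n, Summable fun i => ‖f i * g (n - i)‖) ∧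
    Summable (fun n => ∑' i, ‖f i * g (n - i)‖) ∧
    HasSum (fun n => ∑' i, f i * g (n - i)) ((∑' i, f i) * ∑' j, g j) := by
  -- the shear `(n, i) ↦ (i, n - i)`
  let e : ℤ × ℤ ≃ ℤ × ℤ :=
    { toFun := fun p => (p.2, p.1 - p.2)
      invFun := fun p => (p.1 + p.2, p.1)
      left_inv := fun p => by simp
      right_inv := fun p => by simp }
  have hF : Summable fun p : ℤ × ℤ => f p.1 * g p.2 := summable_mul_of_summable_norm hf hg
  have hFn : Summable fun p : ℤ × ℤ => ‖f p.1 * g p.2‖ := Summable.mul_norm hf hg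
  have hG : Summable fun p : ℤ × ℤ => f p.2 * g (p.1 - p.2) :=
    (e.summable_iff (f := fun p : ℤ × ℤ => f p.1 * g p.2)).mpr hF
  have hGn : Summable fun p : ℤ × ℤ => ‖f p.2 * g (p.1 - p.2)‖ :=
    (e.summable_iff (f := fun p : ℤ × ℤ => ‖f p.1 * g p.2‖)).mpr hFn
  refine ⟨fun n => hGn.prod_factor n, hGn.prod, ?_⟩
  have hsum : ∑' p : ℤ × ℤ, f p.2 * g (p.1 - p.2) = (∑' i, f i) * ∑' j, g j := by
    rw [tsum_mul_tsum_of_summable_norm hf hg]
    exact e.tsum_eq (fun p : ℤ × ℤ => f p.1 * g p.2)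
  rw [← hsum]
  exact hG.hasSum.prod_fiberwise fun n => (hG.prod_factor n).hasSum

end Cauchy

variable {K : Type*} [Field K] (ι : K →+* ℂ)

/-- A Laurent series over `K` converges (absolutely) on the punctured open unit disc. -/
def Conv (A : LaurentSeries K) : Prop :=
  ∀ x : ℂ, x ≠ 0 → ‖x‖ < 1 → Summable fun n : ℤ => ‖ι (A.coeff n) * x ^ n‖

/-- Evaluation of a Laurent series at a complex number. -/
noncomputable def ev (x : ℂ) (A : LaurentSeries K) : ℂ := ∑' n : ℤ, ι (A.coeff n) * x ^ n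

variable {ι}

theorem Conv.summable {A : LaurentSeries K} (hA : Conv ι A) {x : ℂ} (hx : x ≠ 0)
    (hx1 : ‖x‖ < 1) : Summable fun n : ℤ => ι (A.coeff n) * x ^ n :=
  (hA x hx hx1).of_norm

theorem Conv.hasSum {A : LaurentSeries K} (hA : Conv ι A) {x : ℂ} (hx : x ≠ 0)
    (hx1 : ‖x‖ < 1) : HasSum (fun n : ℤ => ι (A.coeff n) * x ^ n) (ev ι x A) :=
  (hA.summable hx hx1).hasSum

theorem conv_zero : Conv ι (0 : LaurentSeries K) := by
  intro x _ _
  simp

theorem ev_zero (x : ℂ) : ev ι x (0 : LaurentSeries K) = 0 := by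
  simp [ev]

theorem conv_single (k : ℤ) (c : K) : Conv ι (single k c : LaurentSeries K) := by
  intro x _ _
  refine summable_of_ne_finset_zero (s := {k}) fun n hn => ?_
  have : n ≠ k := by simpa using hn
  simp [coeff_single_of_ne this]

theorem ev_single (x : ℂ) (k : ℤ) (c : K) :
    ev ι x (single k c : LaurentSeries K) = ι c * x ^ k := by
  unfold ev
  rw [tsum_eq_single k]
  · simp
  · intro n hn
    simp [coeff_single_of_ne hn]

theorem conv_one : Conv ι (1 : LaurentSeries K) := conv_single 0 1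

theorem ev_one (x : ℂ) : ev ι x (1 : LaurentSeries K) = 1 := by
  have h := ev_single (ι := ι) x 0 1
  simpa using h

theorem conv_C (c : K) : Conv ι (C c : LaurentSeries K) := conv_single 0 c

theorem ev_C (x : ℂ) (c : K) : ev ι x (C c : LaurentSeries K) = ι c := by
  have h := ev_single (ι := ι) x 0 c
  simpa using h

theorem conv_add {A B : LaurentSeries K} (hA : Conv ι A) (hB : Conv ι B) : Conv ι (A + B) := by
  intro x hx hx1
  refine Summable.of_nonneg_of_le (fun _ => norm_nonneg _) (fun n => ?_)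
    ((hA x hx hx1).add (hB x hx hx1))
  rw [coeff_add, map_add, add_mul]
  exact norm_add_le _ _

theorem ev_add {A B : LaurentSeries K} (hA : Conv ι A) (hB : Conv ι B) {x : ℂ} (hx : x ≠ 0)
    (hx1 : ‖x‖ < 1) : ev ι x (A + B) = ev ι x A + ev ι x B := by
  unfold ev
  rw [← (hA.summable hx hx1).tsum_add (hB.summable hx hx1)]
  refine tsum_congr fun n => ?_
  rw [coeff_add, map_add, add_mul]

theorem conv_neg {A : LaurentSeries K} (hA : Conv ι A) : Conv ι (-A) := by
  intro x hx hx1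
  simpa using hA x hx hx1

theorem ev_neg (x : ℂ) (A : LaurentSeries K) : ev ι x (-A) = -ev ι x A := by
  unfold ev
  rw [← tsum_neg]
  refine tsum_congr fun n => ?_
  simp

/-- The coefficient of a product as a `tsum` over `ℤ`, after applying `ι` and inserting powers. -/
theorem coeff_mul_tsum (A B : LaurentSeries K) {x : ℂ} (hx : x ≠ 0) (n : ℤ) :
    ι ((A * B).coeff n) * x ^ n
      = ∑' i : ℤ, (ι (A.coeff i) * x ^ i) * (ι (B.coeff (n - i)) * x ^ (n - i)) := by
  classical
  rw [coeff_mul, map_sum, Finset.sum_mul]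
  rw [tsum_eq_sum (s := (Finset.antidiagonal A.isPWO_support B.isPWO_support n).image Prod.fst)]
  · rw [Finset.sum_image]
    · refine Finset.sum_congr rfl fun ij hij => ?_
      obtain ⟨-, -, h3⟩ := Finset.mem_antidiagonal.mp hij
      have h4 : n - ij.1 = ij.2 := by omega
      rw [h4, map_mul]
      have h5 : x ^ n = x ^ ij.1 * x ^ ij.2 := by rw [← zpow_add₀ hx, h3]
      rw [h5]; ring
    · intro p hp q hq hpq
      obtain ⟨-, -, h3⟩ := Finset.mem_antidiagonal.mp hp
      obtain ⟨-, -, h3'⟩ := Finset.mem_antidiagonal.mp hq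
      refine Prod.ext hpq ?_
      have : p.1 = q.1 := hpq
      omega
  · intro i hi
    by_cases hA : A.coeff i = 0
    · simp [hA]
    by_cases hB : B.coeff (n - i) = 0
    · simp [hB]
    exfalso
    apply hi
    refine Finset.mem_image.mpr ⟨(i, n - i), Finset.mem_antidiagonal.mpr ⟨hA, hB, by simp⟩, rfl⟩

theorem conv_mul {A B : LaurentSeries K} (hA : Conv ι A) (hB : Conv ι B) : Conv ι (A * B) := by
  intro x hx hx1
  obtain ⟨h1, h2, -⟩ := int_cauchy (hA x hx hx1) (hB x hx hx1)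
  refine Summable.of_nonneg_of_le (fun _ => norm_nonneg _) (fun n => ?_) h2
  rw [coeff_mul_tsum A B hx n]
  exact norm_tsum_le_tsum_norm (h1 n)

theorem ev_mul {A B : LaurentSeries K} (hA : Conv ι A) (hB : Conv ι B) {x : ℂ} (hx : x ≠ 0)
    (hx1 : ‖x‖ < 1) : ev ι x (A * B) = ev ι x A * ev ι x B := by
  obtain ⟨-, -, h3⟩ := int_cauchy (hA x hx hx1) (hB x hx hx1)
  unfold ev
  rw [← h3.tsum_eq]
  exact tsum_congr fun n => coeff_mul_tsum A B hx n

variable (ι) in
/-- The subring of convergent Laurent series. -/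
def convSubring : Subring (LaurentSeries K) where
  carrier := {A | Conv ι A}
  mul_mem' := conv_mul
  one_mem' := conv_one
  add_mem' := conv_add
  zero_mem' := conv_zero
  neg_mem' := conv_neg

theorem mem_convSubring {A : LaurentSeries K} : A ∈ convSubring ι ↔ Conv ι A := Iff.rfl

variable (ι) in
/-- Evaluation at a point of the punctured unit disc, as a ring homomorphism on convergent
series. -/
noncomputable def evHom (x : ℂ) (hx : x ≠ 0) (hx1 : ‖x‖ < 1) : convSubring ι →+* ℂ where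
  toFun A := ev ι x (A : LaurentSeries K)
  map_one' := ev_one x
  map_mul' A B := ev_mul A.2 B.2 hx hx1
  map_zero' := ev_zero x
  map_add' A B := ev_add A.2 B.2 hx hx1

@[simp] theorem evHom_apply (x : ℂ) (hx : x ≠ 0) (hx1 : ‖x‖ < 1) (A : convSubring ι) :
    evHom ι x hx hx1 A = ev ι x (A : LaurentSeries K) := rfl

theorem conv_sub {A B : LaurentSeries K} (hA : Conv ι A) (hB : Conv ι B) : Conv ι (A - B) :=
  (convSubring ι).sub_mem hA hB

theorem ev_sub {A B : LaurentSeries K} (hA : Conv ι A) (hB : Conv ι B) {x : ℂ} (hx : x ≠ 0)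
    (hx1 : ‖x‖ < 1) : ev ι x (A - B) = ev ι x A - ev ι x B :=
  map_sub (evHom ι x hx hx1) ⟨A, hA⟩ ⟨B, hB⟩

theorem conv_pow {A : LaurentSeries K} (hA : Conv ι A) (n : ℕ) : Conv ι (A ^ n) :=
  (convSubring ι).pow_mem hA n

theorem ev_pow {A : LaurentSeries K} (hA : Conv ι A) (n : ℕ) {x : ℂ} (hx : x ≠ 0)
    (hx1 : ‖x‖ < 1) : ev ι x (A ^ n) = ev ι x A ^ n :=
  map_pow (evHom ι x hx hx1) ⟨A, hA⟩ n

theorem conv_sum {α : Type*} (s : Finset α) (f : α → LaurentSeries K)
    (h : ∀ i ∈ s, Conv ι (f i)) : Conv ι (∑ i ∈ s, f i) :=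
  (convSubring ι).sum_mem h

theorem conv_prod {α : Type*} (s : Finset α) (f : α → LaurentSeries K)
    (h : ∀ i ∈ s, Conv ι (f i)) : Conv ι (∏ i ∈ s, f i) :=
  (convSubring ι).prod_mem h


theorem ev_sum {α : Type*} (s : Finset α) (f : α → LaurentSeries K)
    (h : ∀ i ∈ s, Conv ι (f i)) {x : ℂ} (hx : x ≠ 0) (hx1 : ‖x‖ < 1) :
    ev ι x (∑ i ∈ s, f i) = ∑ i ∈ s, ev ι x (f i) := by
  classical
  induction s using Finset.induction_on with
  | empty => simp [ev_zero]
  | insert a s ha ih =>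
    rw [Finset.sum_insert ha, Finset.sum_insert ha,
      ev_add (h a (Finset.mem_insert_self a s))
        (conv_sum s f fun i hi => h i (Finset.mem_insert_of_mem hi)) hx hx1,
      ih fun i hi => h i (Finset.mem_insert_of_mem hi)]

theorem ev_prod {α : Type*} (s : Finset α) (f : α → LaurentSeries K)
    (h : ∀ i ∈ s, Conv ι (f i)) {x : ℂ} (hx : x ≠ 0) (hx1 : ‖x‖ < 1) :
    ev ι x (∏ i ∈ s, f i) = ∏ i ∈ s, ev ι x (f i) := by
  classical
  induction s using Finset.induction_on with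
  | empty => simp [ev_one]
  | insert a s ha ih =>
    rw [Finset.prod_insert ha, Finset.prod_insert ha,
      ev_mul (h a (Finset.mem_insert_self a s))
        (conv_prod s f fun i hi => h i (Finset.mem_insert_of_mem hi)) hx hx1,
      ih fun i hi => h i (Finset.mem_insert_of_mem hi)]

/-! ### The twist `t ↦ ζ t` -/

section Twist

/-- The substitution `t ↦ ζ t` on Laurent series (`ζ ≠ 0`). -/
noncomputable def twist (ζ : K) (hζ : ζ ≠ 0) : LaurentSeries K →+* LaurentSeries K where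
  toFun A := ⟨fun n => ζ ^ n * A.coeff n, A.isPWO_support.mono fun n hn => by
    simp only [Function.mem_support, ne_eq, mul_eq_zero, not_or] at hn
    exact hn.2⟩
  map_one' := by
    ext n
    show ζ ^ n * (1 : LaurentSeries K).coeff n = (1 : LaurentSeries K).coeff n
    rw [coeff_one]
    split_ifs with h
    · subst h; simp
    · simp
  map_zero' := by
    ext n
    show ζ ^ n * (0 : LaurentSeries K).coeff n = (0 : LaurentSeries K).coeff n
    simp
  map_add' A B := by
    ext n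
    show ζ ^ n * (A + B).coeff n = ζ ^ n * A.coeff n + ζ ^ n * B.coeff n
    rw [coeff_add, mul_add]
  map_mul' A B := by
    ext n
    show ζ ^ n * (A * B).coeff n = _
    rw [coeff_mul, coeff_mul, Finset.mul_sum]
    have hsupp : ∀ X : LaurentSeries K,
        (⟨fun n => ζ ^ n * X.coeff n, X.isPWO_support.mono fun n hn => by
          simp only [Function.mem_support, ne_eq, mul_eq_zero, not_or] at hn
          exact hn.2⟩ : LaurentSeries K).support = X.support := by
      intro X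
      ext k
      simp [zpow_ne_zero k hζ]
    have hset : Finset.antidiagonal
        (⟨fun n => ζ ^ n * A.coeff n, A.isPWO_support.mono fun n hn => by
          simp only [Function.mem_support, ne_eq, mul_eq_zero, not_or] at hn
          exact hn.2⟩ : LaurentSeries K).isPWO_support
        (⟨fun n => ζ ^ n * B.coeff n, B.isPWO_support.mono fun n hn => by
          simp only [Function.mem_support, ne_eq, mul_eq_zero, not_or] at hn
          exact hn.2⟩ : LaurentSeries K).isPWO_support n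
        = Finset.antidiagonal A.isPWO_support B.isPWO_support n := by
      ext p
      rw [Finset.mem_antidiagonal, Finset.mem_antidiagonal, hsupp A, hsupp B]
    rw [hset]
    refine Finset.sum_congr rfl fun ij hij => ?_
    obtain ⟨-, -, h3⟩ := Finset.mem_antidiagonal.mp hij
    show ζ ^ n * (A.coeff ij.1 * B.coeff ij.2) = (ζ ^ ij.1 * A.coeff ij.1) * (ζ ^ ij.2 * B.coeff ij.2)
    rw [← h3, zpow_add₀ hζ]; ring

@[simp] theorem twist_coeff (ζ : K) (hζ : ζ ≠ 0) (A : LaurentSeries K) (n : ℤ) :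
    (twist ζ hζ A).coeff n = ζ ^ n * A.coeff n := rfl

theorem conv_twist {ζ : K} (hζ : ζ ≠ 0) (h1 : ‖ι ζ‖ = 1) {A : LaurentSeries K}
    (hA : Conv ι A) : Conv ι (twist ζ hζ A) := by
  intro x hx hx1
  have hζ' : ι ζ ≠ 0 := fun h => by simp [h] at h1
  have := hA (ι ζ * x) (mul_ne_zero hζ' hx) (by rw [norm_mul, h1, one_mul]; exact hx1)
  refine this.congr fun n => ?_
  rw [twist_coeff, map_mul, map_zpow₀, mul_zpow]
  congr 1; ring

theorem ev_twist {ζ : K} (hζ : ζ ≠ 0) (A : LaurentSeries K) (x : ℂ) :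
    ev ι x (twist ζ hζ A) = ev ι (ι ζ * x) A := by
  unfold ev
  refine tsum_congr fun n => ?_
  rw [twist_coeff, map_mul, map_zpow₀, mul_zpow]
  ring

end Twist

/-! ### Substitution `t ↦ t ^ m` -/

section QExpand

open ModularCurve

theorem conv_qExpand (m : ℕ) [NeZero m] {A : LaurentSeries K} (hA : Conv ι A) :
    Conv ι (qExpand K m A) := by
  intro x hx hx1
  have hm : (m : ℤ) ≠ 0 := by exact_mod_cast NeZero.ne m
  have hinj : Function.Injective fun k : ℤ => (m : ℤ) * k := mul_right_injective₀ hm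
  have hxm : ‖x ^ m‖ < 1 := by
    rw [norm_pow]
    exact pow_lt_one₀ (norm_nonneg x) hx1 (NeZero.ne m)
  have h := hA (x ^ m) (pow_ne_zero m hx) hxm
  rw [← hinj.summable_iff]
  · refine h.congr fun k => ?_
    show ‖ι (A.coeff k) * (x ^ m) ^ k‖ = ‖ι ((qExpand K m A).coeff ((m : ℤ) * k)) * x ^ ((m : ℤ) * k)‖
    rw [qExpand_coeff_mul, zpow_mul, zpow_natCast]
  · intro n hn
    have : ¬ (m : ℤ) ∣ n := fun ⟨k, hk⟩ => hn ⟨k, hk.symm⟩
    simp [qExpand_coeff_of_not_dvd m A this]

theorem ev_qExpand (m : ℕ) [NeZero m] (A : LaurentSeries K) (x : ℂ) :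
    ev ι x (qExpand K m A) = ev ι (x ^ m) A := by
  have hm : (m : ℤ) ≠ 0 := by exact_mod_cast NeZero.ne m
  have hinj : Function.Injective fun k : ℤ => (m : ℤ) * k := mul_right_injective₀ hm
  unfold ev
  rw [← hinj.tsum_eq]
  · refine tsum_congr fun k => ?_
    rw [qExpand_coeff_mul, zpow_mul, zpow_natCast]
  · intro n hn
    by_contra hn'
    have : ¬ (m : ℤ) ∣ n := fun ⟨k, hk⟩ => hn' ⟨k, hk.symm⟩
    simp [qExpand_coeff_of_not_dvd m A this] at hn

end QExpand


/-! ### Estimates near `0` and the identity theorem -/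

section Estimates

/-- Leading term estimate: if `A` has no terms of degree `< m`, then
`ev x A - ι (A.coeff m) * x ^ m = O(‖x‖ ^ (m + 1))` near `0`. -/
theorem exists_ev_sub_lead_le {A : LaurentSeries K} (hA : Conv ι A) (m : ℤ)
    (hm : ∀ n < m, A.coeff n = 0) :
    ∃ C : ℝ, 0 ≤ C ∧ ∀ x : ℂ, x ≠ 0 → ‖x‖ ≤ 1 / 2 →
      ‖ev ι x A - ι (A.coeff m) * x ^ m‖ ≤ C * ‖x‖ ^ (m + 1) := by
  have hhalf : Summable fun n : ℤ => ‖ι (A.coeff n) * ((1 / 2 : ℝ) : ℂ) ^ n‖ :=
    hA _ (by norm_num) (by rw [Complex.norm_real]; norm_num)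
  set S : ℝ := ∑' n : ℤ, ‖ι (A.coeff n) * ((1 / 2 : ℝ) : ℂ) ^ n‖ with hS
  have hS0 : 0 ≤ S := tsum_nonneg fun _ => norm_nonneg _
  refine ⟨(2 : ℝ) ^ (m + 1) * S, mul_nonneg (zpow_nonneg (by norm_num) _) hS0, ?_⟩
  intro x hx hx2
  have hx1 : ‖x‖ < 1 := lt_of_le_of_lt hx2 (by norm_num)
  have hr : 0 < ‖x‖ := norm_pos_iff.mpr hx
  have h1 : HasSum (fun n : ℤ => ι (A.coeff n) * x ^ n - if n = m then ι (A.coeff m) * x ^ m else 0)
      (ev ι x A - ι (A.coeff m) * x ^ m) :=
    (hA.hasSum hx hx1).sub (hasSum_ite_eq m _)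
  have h2 : HasSum (fun n : ℤ => (2 * ‖x‖) ^ (m + 1) * ‖ι (A.coeff n) * ((1 / 2 : ℝ) : ℂ) ^ n‖)
      ((2 * ‖x‖) ^ (m + 1) * S) := hhalf.hasSum.mul_left _
  have h3 := h1.norm_le_of_bounded h2 ?_
  · calc ‖ev ι x A - ι (A.coeff m) * x ^ m‖ ≤ (2 * ‖x‖) ^ (m + 1) * S := h3
      _ = (2 : ℝ) ^ (m + 1) * S * ‖x‖ ^ (m + 1) := by rw [mul_zpow]; ring
  · intro n
    have hpos : 0 ≤ (2 * ‖x‖) ^ (m + 1) * ‖ι (A.coeff n) * ((1 / 2 : ℝ) : ℂ) ^ n‖ :=
      mul_nonneg (zpow_nonneg (by positivity) _) (norm_nonneg _)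
    rcases lt_trichotomy n m with hlt | heq | hgt
    · rw [hm n hlt]
      simp [hlt.ne]
    · subst heq
      simpa using hpos
    · rw [if_neg hgt.ne', sub_zero, norm_mul, norm_mul, norm_zpow, norm_zpow, Complex.norm_real]
      obtain ⟨k, hk⟩ : ∃ k : ℕ, n = (m + 1) + k := ⟨(n - (m + 1)).toNat, by omega⟩
      have e1 : ‖x‖ ^ n = ‖x‖ ^ (m + 1) * ‖x‖ ^ k := by
        rw [hk, zpow_add₀ hr.ne', zpow_natCast]
      have e2 : (2 * ‖x‖) ^ (m + 1) * (‖ι (A.coeff n)‖ * ‖(1 / 2 : ℝ)‖ ^ n)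
          = ‖ι (A.coeff n)‖ * (‖x‖ ^ (m + 1) * (1 / 2 : ℝ) ^ k) := by
        have e3 : ‖(1 / 2 : ℝ)‖ = 1 / 2 := by norm_num
        have e4 : (2 : ℝ) ^ (m + 1) * (1 / 2 : ℝ) ^ (m + 1) = 1 := by
          rw [← mul_zpow]; norm_num
        rw [e3, hk, zpow_add₀ (by norm_num : (1 / 2 : ℝ) ≠ 0), zpow_natCast, mul_zpow]
        calc (2 : ℝ) ^ (m + 1) * ‖x‖ ^ (m + 1) * (‖ι (A.coeff (m + 1 + k))‖ * ((1 / 2 : ℝ) ^ (m + 1) * (1 / 2 : ℝ) ^ k))
            = ((2 : ℝ) ^ (m + 1) * (1 / 2 : ℝ) ^ (m + 1)) * (‖ι (A.coeff (m + 1 + k))‖ * (‖x‖ ^ (m + 1) * (1 / 2 : ℝ) ^ k)) := by ring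
          _ = _ := by rw [e4, one_mul]
      rw [e2, e1]
      refine mul_le_mul_of_nonneg_left ?_ (norm_nonneg _)
      refine mul_le_mul_of_nonneg_left ?_ (zpow_nonneg hr.le _)
      exact pow_le_pow_left₀ hr.le hx2 k

/-- **Identity theorem**: a convergent Laurent series vanishing on the punctured disc is zero. -/
theorem eq_zero_of_ev_eq_zero {A : LaurentSeries K} (hA : Conv ι A)
    (h : ∀ x : ℂ, x ≠ 0 → ‖x‖ < 1 → ev ι x A = 0) : A = 0 := by
  by_contra hne
  have hc : A.coeff A.order ≠ 0 := fun h0 => hne (coeff_order_eq_zero.mp h0)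
  have hc' : 0 < ‖ι (A.coeff A.order)‖ :=
    norm_pos_iff.mpr ((map_ne_zero ι).mpr hc)
  obtain ⟨C, hC0, hC⟩ := exists_ev_sub_lead_le hA A.order fun n hn => coeff_eq_zero_of_lt_order hn
  set c := ‖ι (A.coeff A.order)‖ with hcdef
  -- choose a small positive real `r`
  set r : ℝ := min (1 / 2) (c / (2 * (C + 1))) with hrdef
  have hr0 : 0 < r := lt_min (by norm_num) (by positivity)
  have hr2 : r ≤ 1 / 2 := min_le_left _ _
  have hr3 : r ≤ c / (2 * (C + 1)) := min_le_right _ _
  have hxne : (r : ℂ) ≠ 0 := by exact_mod_cast hr0.ne'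
  have hxn : ‖(r : ℂ)‖ = r := by rw [Complex.norm_real, Real.norm_of_nonneg hr0.le]
  have key := hC (r : ℂ) hxne (by rw [hxn]; exact hr2)
  rw [h (r : ℂ) hxne (by rw [hxn]; linarith), zero_sub, norm_neg, norm_mul, norm_zpow, hxn,
    zpow_add₀ hr0.ne', zpow_one] at key
  have hpow : 0 < r ^ A.order := zpow_pos hr0 _
  have key2 : c ≤ C * r := by
    have : c * r ^ A.order ≤ (C * r) * r ^ A.order := by linarith
    exact le_of_mul_le_mul_right this hpow
  have key3 : C * r ≤ C * (c / (2 * (C + 1))) := mul_le_mul_of_nonneg_left hr3 hC0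
  have key4 : C * (c / (2 * (C + 1))) ≤ c / 2 := by
    rw [mul_div_assoc']
    rw [div_le_div_iff₀ (by positivity) (by norm_num)]
    nlinarith
  linarith

/-- A convergent series without negative terms is bounded near `0`. -/
theorem exists_ev_bound {A : LaurentSeries K} (hA : Conv ι A) (h0 : ∀ n < 0, A.coeff n = 0) :
    ∃ M : ℝ, ∀ x : ℂ, x ≠ 0 → ‖x‖ ≤ 1 / 2 → ‖ev ι x A‖ ≤ M := by
  obtain ⟨C, hC0, hC⟩ := exists_ev_sub_lead_le hA 0 h0
  refine ⟨‖ι (A.coeff 0)‖ + C, fun x hx hx2 => ?_⟩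
  have h1 := hC x hx hx2
  rw [zpow_zero, mul_one, zero_add, zpow_one] at h1
  have h2 : ‖ev ι x A‖ ≤ ‖ev ι x A - ι (A.coeff 0)‖ + ‖ι (A.coeff 0)‖ := by
    simpa using norm_add_le (ev ι x A - ι (A.coeff 0)) (ι (A.coeff 0))
  have h3 : C * ‖x‖ ≤ C := by nlinarith [norm_nonneg x]
  linarith

/-- A convergent series without negative terms whose evaluation is a constant function is
constant. -/
theorem eq_C_of_ev_eq_const {A : LaurentSeries K} (hA : Conv ι A) (h0 : ∀ n < 0, A.coeff n = 0)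
    (c : ℂ) (h : ∀ x : ℂ, x ≠ 0 → ‖x‖ < 1 → ev ι x A = c) : A = C (A.coeff 0) := by
  obtain ⟨D, hD0, hD⟩ := exists_ev_sub_lead_le hA 0 h0
  -- first `c = ι (A.coeff 0)`
  have hc : c = ι (A.coeff 0) := by
    by_contra hne
    have hpos : 0 < ‖c - ι (A.coeff 0)‖ := norm_pos_iff.mpr (sub_ne_zero.mpr hne)
    set e := ‖c - ι (A.coeff 0)‖ with hedef
    set r : ℝ := min (1 / 2) (e / (2 * (D + 1))) with hrdef
    have hr0 : 0 < r := lt_min (by norm_num) (by positivity)
    have hr2 : r ≤ 1 / 2 := min_le_left _ _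
    have hr3 : r ≤ e / (2 * (D + 1)) := min_le_right _ _
    have hxne : (r : ℂ) ≠ 0 := by exact_mod_cast hr0.ne'
    have hxn : ‖(r : ℂ)‖ = r := by rw [Complex.norm_real, Real.norm_of_nonneg hr0.le]
    have key := hD (r : ℂ) hxne (by rw [hxn]; exact hr2)
    rw [h (r : ℂ) hxne (by rw [hxn]; linarith), zpow_zero, mul_one, zero_add, zpow_one, hxn] at key
    have key3 : D * r ≤ D * (e / (2 * (D + 1))) := mul_le_mul_of_nonneg_left hr3 hD0
    have key4 : D * (e / (2 * (D + 1))) ≤ e / 2 := by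
      rw [mul_div_assoc']
      rw [div_le_div_iff₀ (by positivity) (by norm_num)]
      nlinarith
    linarith
  have hsub : A - C (A.coeff 0) = 0 := by
    refine eq_zero_of_ev_eq_zero (conv_sub hA (conv_C _)) fun x hx hx1 => ?_
    rw [ev_sub hA (conv_C _) hx hx1, h x hx hx1, ev_C, hc, sub_self]
  exact sub_eq_zero.mp hsub

end Estimates

/-! ### Injectivity of evaluation and every point of the punctured disc is `exp (2πi z)` -/

theorem eq_of_ev_eq {A B : LaurentSeries K} (hA : Conv ι A) (hB : Conv ι B)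
    (h : ∀ x : ℂ, x ≠ 0 → ‖x‖ < 1 → ev ι x A = ev ι x B) : A = B := by
  have : A - B = 0 := eq_zero_of_ev_eq_zero (conv_sub hA hB) fun x hx hx1 => by
    rw [ev_sub hA hB hx hx1, h x hx hx1, sub_self]
  exact sub_eq_zero.mp this


open UpperHalfPlane in
/-- Every point of the punctured open unit disc is `exp (2 π i z)` for some `z` in the upper
half plane. -/
theorem exists_uhp_exp {x : ℂ} (hx : x ≠ 0) (hx1 : ‖x‖ < 1) :
    ∃ z : ℍ, Complex.exp (2 * Real.pi * Complex.I * z) = x := by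
  have him : 0 < (Function.Periodic.invQParam 1 x).im := by
    rw [Function.Periodic.im_invQParam]
    have hlog : Real.log ‖x‖ < 0 := Real.log_neg (norm_pos_iff.mpr hx) hx1
    have hpi : 0 < Real.pi := Real.pi_pos
    have : -1 / (2 * Real.pi) < 0 := by
      apply div_neg_of_neg_of_pos <;> linarith
    nlinarith
  refine ⟨⟨Function.Periodic.invQParam 1 x, him⟩, ?_⟩
  have h := Function.Periodic.qParam_right_inv (h := 1) one_ne_zero hx
  simpa [Function.Periodic.qParam] using h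

section PowerSeries

open ModularCurve

theorem conv_ofPowerSeries (P : PowerSeries K)
    (hP : ∀ x : ℂ, x ≠ 0 → ‖x‖ < 1 → Summable fun n : ℕ => ι (PowerSeries.coeff n P) * x ^ n) :
    Conv ι (ofPowerSeries ℤ K P) := by
  intro x hx hx1
  have hinj : Function.Injective (Nat.cast : ℕ → ℤ) := Nat.cast_injective
  rw [← hinj.summable_iff]
  · refine ((summable_norm_iff (f := fun n : ℕ => ι (PowerSeries.coeff n P) * x ^ n)).mpr
      (hP x hx hx1)).congr fun k => ?_
    show ‖ι (PowerSeries.coeff k P) * x ^ k‖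
      = ‖ι ((ofPowerSeries ℤ K P).coeff (k : ℤ)) * x ^ (k : ℤ)‖
    rw [ofPowerSeries_apply_coeff, zpow_natCast]
  · intro n hn
    have hneg : n < 0 := by
      by_contra h
      exact hn ⟨n.toNat, by omega⟩
    simp [ofPowerSeries_coeff_of_neg P hneg]

theorem ev_ofPowerSeries (P : PowerSeries K) (x : ℂ) :
    ev ι x (ofPowerSeries ℤ K P) = ∑' n : ℕ, ι (PowerSeries.coeff n P) * x ^ n := by
  have hinj : Function.Injective (Nat.cast : ℕ → ℤ) := Nat.cast_injective
  unfold ev
  rw [← hinj.tsum_eq]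
  · refine tsum_congr fun k => ?_
    rw [ofPowerSeries_apply_coeff, zpow_natCast]
  · intro n hn
    by_contra hn'
    have hneg : n < 0 := by
      by_contra h
      exact hn' ⟨n.toNat, by omega⟩
    simp [ofPowerSeries_coeff_of_neg P hneg] at hn

end PowerSeries

end Fermat.Agent.S24_Dict
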