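import Fermat.Agent.S24_Iota
import Fermat.Agent.S24_Sigma
set_option autoImplicit false
noncomputable section
open Fermat.Agent.S24_Defs Fermat.Agent.S24_Embed ModularCurve AlgebraicCurve UpperHalfPlane
  IntermediateField
open scoped MatrixGroups ModularForm Manifold Topology

/-!
# S24_DegLower (helper2): the lower bound `|SL₂(ℤ)/Γ₀(N)| ≤ [F : ℚ̄(j)]`

The `σ_γ` of `S24_Sigma` are pairwise distinct `ℚ̄(j)`-embeddings of `F` into the field `EN N`.
-/

namespace Fermat.Agent.S24_DegLower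

/-- The equalizer of two algebra homomorphisms of fields, as an intermediate field. -/
def eqField {K F E : Type*} [Field K] [Field F] [Field E] [Algebra K F] [Algebra K E]
    (φ ψ : F →ₐ[K] E) : IntermediateField K F where
  toSubalgebra := AlgHom.equalizer φ ψ
  inv_mem' := fun x hx => by
    have hx' : φ x = ψ x := hx
    show φ x⁻¹ = ψ x⁻¹
    rw [map_inv₀, map_inv₀, hx']

theorem mem_eqField {K F E : Type*} [Field K] [Field F] [Field E] [Algebra K F] [Algebra K E]
    (φ ψ : F →ₐ[K] E) (x : F) : x ∈ eqField φ ψ ↔ φ x = ψ x := Iff.rfl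

/-- Abstract form: pairwise distinct `K`-embeddings of `F` that agree on `x` are at most
`[F : K(x)]` in number. -/
theorem card_le_finrank_adjoin {K F E : Type*} [Field K] [Field F] [Field E] [Algebra K F]
    [Algebra K E] (x : F) [FiniteDimensional K⟮x⟯ F] {ι : Type*}
    (σ : ι → (F →ₐ[K] E)) (hσ : Function.Injective σ) (hx : ∀ i j, σ i x = σ j x) :
    Nat.card ι ≤ Module.finrank K⟮x⟯ F := by
  rcases isEmpty_or_nonempty ι with hι | ⟨⟨i₀⟩⟩
  · simp
  -- all `σ i` agree on `K(x)`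
  have hagree : ∀ i, ∀ y ∈ K⟮x⟯, σ i y = σ i₀ y := by
    intro i y hy
    have hle : K⟮x⟯ ≤ eqField (σ i) (σ i₀) := by
      rw [IntermediateField.adjoin_simple_le_iff]
      exact hx i i₀
    exact hle hy
  let algLE : Algebra K⟮x⟯ E := ((σ i₀).toRingHom.comp (algebraMap K⟮x⟯ F)).toAlgebra
  let τ : ι → (F →ₐ[K⟮x⟯] E) := fun i =>
    { toRingHom := (σ i).toRingHom
      commutes' := fun y => by
        show σ i (y : F) = σ i₀ (y : F)
        exact hagree i y y.2 }
  have hτ : Function.Injective τ := by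
    intro i j hij
    apply hσ
    ext f
    exact congrArg (fun φ : F →ₐ[K⟮x⟯] E => φ f) hij
  calc Nat.card ι ≤ Nat.card (F →ₐ[K⟮x⟯] E) := Nat.card_le_card_of_injective τ hτ
    _ ≤ Module.finrank K⟮x⟯ F := card_algHom_le_finrank K⟮x⟯ F E

/-- `|SL₂(ℤ)/Γ₀(N)| ≤ [F : ℚ̄(j)]` as soon as the latter is finite. -/
theorem card_coset_le_finrank (N : ℕ) [NeZero N]
    [FiniteDimensional Kbar⟮jF N⟯ (FF N)] :
    Nat.card (Coset N) ≤ Module.finrank Kbar⟮jF N⟯ (FF N) := by
  obtain ⟨I⟩ := S24_Iota.nonempty_iotaSpec N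
  let _ := algKE N
  exact card_le_finrank_adjoin (jF N) (S24_Sigma.sigma N I) (S24_Sigma.sigma_injective N I)
    (fun i j => by rw [S24_Sigma.sigma_jF, S24_Sigma.sigma_jF])

end Fermat.Agent.S24_DegLower
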