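import Fermat.Agent.S24_Defs
import Fermat.Agent.S24_JBasic

/-!
# S24_LevelOne (helper9)

* `exists_polynomial_of_invariant`: a holomorphic `SL(2, ℤ)`-invariant function on `ℍ` with at
  most a pole at `i∞` is a polynomial in `j`.
* `linearIndependent_coeffMap`: formal linear disjointness for Laurent series under a field
  embedding into `ℂ`.
-/

set_option autoImplicit false

noncomputable section

open Fermat.Agent.S24_Defs ModularCurve AlgebraicCurve UpperHalfPlane IntermediateField
open scoped MatrixGroups ModularForm Manifold Topology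

namespace Fermat.Agent.S24_LevelOne

open Fermat.Agent.S24_JBasic ModularForm ModularFormClass EisensteinSeries Filter

theorem jFun_eq (τ : ℍ) : jFun τ = E₄ τ ^ 3 / ModularForm.discriminant τ := rfl

theorem form_smul {k : ℤ} (h : ModularForm 𝒮ℒ k) (γ : SL(2, ℤ)) (z : ℍ) :
    h (γ • z) = denom γ z ^ k * h z := by
  have := SlashInvariantForm.slash_action_eqn'' h (γ := (γ : GL (Fin 2) ℝ)) (Γ := 𝒮ℒ) ⟨γ, rfl⟩ z
  simpa using this

/-- Key induction: if `f * Δ ^ m` is a level-one modular form (of weight `12 m`), then `f` is a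
polynomial in `j`. -/
theorem exists_polynomial_of_form (m : ℕ) :
    ∀ (f : ℍ → ℂ) (k : ℤ) (_ : k = 12 * (m : ℤ)) (h : ModularForm 𝒮ℒ k),
      (∀ τ, h τ = f τ * ModularForm.discriminant τ ^ m) →
      ∃ P : Polynomial ℂ, ∀ τ : ℍ, f τ = P.eval (jFun τ) := by
  induction m with
  | zero =>
    intro f k hk h hh
    have hk0 : k = 0 := by simpa using hk
    subst hk0
    obtain ⟨c, hc⟩ := levelOne_weight_zero_const h
    refine ⟨Polynomial.C c, fun τ => ?_⟩
    have := hh τ
    rw [pow_zero, mul_one] at this
    rw [Polynomial.eval_C, ← this, hc]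
    rfl
  | succ m ih =>
    intro f k hk h hh
    set c : ℂ := (PowerSeries.coeff 0) (qExpansion 1 h) with hc
    set F : ℍ → ℂ := fun τ => h τ - c * E₄ τ ^ (3 * (m + 1)) with hF
    have hol : MDiff F := h.holo'.sub (mdifferentiable_const.mul (E₄.holo'.pow _))
    have hinv : ∀ (γ : SL(2, ℤ)) (z : ℍ), F (γ • z) = denom γ z ^ k * F z := by
      intro γ z
      have e1 : (denom γ z ^ (4 : ℤ)) ^ (3 * (m + 1)) = denom γ z ^ k := by
        rw [← zpow_natCast, ← zpow_mul, hk]
        congr 1
        push_cast; ring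
      simp only [hF]
      rw [form_smul, E₄_smul, mul_pow, e1]
      ring
    have htend : Tendsto F atImInfty (𝓝 0) := by
      have h1 : Tendsto h atImInfty (𝓝 c) := tendsto_coeff_zero h
      have h2 : Tendsto (fun τ : ℍ => c * E₄ τ ^ (3 * (m + 1))) atImInfty
          (𝓝 (c * 1 ^ (3 * (m + 1)))) := (tendsto_E₄.pow _).const_mul c
      have h3 := h1.sub h2
      simpa using h3
    set h0 : ModularForm 𝒮ℒ k := mkLevelOne k F hol hinv (htend.isBigO_one ℝ) with hh0
    have hcusp : (PowerSeries.coeff 0) (qExpansion 1 h0) = 0 :=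
      tendsto_nhds_unique (tendsto_coeff_zero h0) htend
    set g : ModularForm 𝒮ℒ (k - 12) := CuspForm.discriminantEquiv (ModularForm.toCuspForm h0 hcusp)
      with hg
    have hgk : k - 12 = 12 * (m : ℤ) := by rw [hk]; push_cast; ring
    obtain ⟨P', hP'⟩ := ih (fun τ => f τ - c * jFun τ ^ (m + 1)) (k - 12) hgk g (fun τ => by
      have hD : ModularForm.discriminant τ ≠ 0 := discriminant_ne_zero τ
      have e1 : g τ = F τ / ModularForm.discriminant τ := by
        rw [hg, CuspForm.discriminantEquiv_apply, ModularForm.toCuspForm_apply]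
        rfl
      rw [e1, hF]
      simp only
      rw [hh τ, jFun_eq, div_pow, ← pow_mul]
      field_simp
      ring)
    refine ⟨P' + Polynomial.C c * Polynomial.X ^ (m + 1), fun τ => ?_⟩
    have := hP' τ
    simp only [Polynomial.eval_add, Polynomial.eval_mul, Polynomial.eval_C, Polynomial.eval_pow,
      Polynomial.eval_X]
    rw [← this]
    ring

theorem exists_polynomial_of_invariant (f : ℍ → ℂ) (hf : MDiff f)
    (hinv : ∀ (g : SL(2, ℤ)) (τ : ℍ), f (g • τ) = f τ) (m : ℕ)
    (hb : IsBoundedAtImInfty (fun τ : ℍ => f τ * (Function.Periodic.qParam 1 τ) ^ m)) :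
    ∃ P : Polynomial ℂ, ∀ τ : ℍ, f τ = P.eval (jFun τ) := by
  set F : ℍ → ℂ := fun τ => f τ * ModularForm.discriminant τ ^ m with hF
  have hol : MDiff F := hf.mul (CuspForm.discriminant.holo'.pow m)
  have hinv' : ∀ (γ : SL(2, ℤ)) (z : ℍ), F (γ • z) = denom γ z ^ (12 * (m : ℤ)) * F z := by
    intro γ z
    have e1 : (denom γ z ^ (12 : ℤ)) ^ m = denom γ z ^ (12 * (m : ℤ)) := by
      rw [← zpow_natCast, ← zpow_mul]
    simp only [hF]
    rw [hinv, discriminant_smul, mul_pow, e1]
    ring
  have hbdd : IsBoundedAtImInfty F := by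
    have h1 : (ModularForm.discriminant : ℍ → ℂ) =O[atImInfty]
        fun τ : ℍ => Function.Periodic.qParam 1 (τ : ℂ) := by
      have := CuspFormClass.exp_decay_atImInfty (h := 1) CuspForm.discriminant one_pos
        one_mem_strictPeriods_SL
      rw [← Asymptotics.isBigO_norm_right]
      refine this.congr_right fun τ => ?_
      rw [Function.Periodic.norm_qParam]
      rfl
    have h2 : (fun τ : ℍ => ModularForm.discriminant τ ^ m) =O[atImInfty]
        fun τ : ℍ => Function.Periodic.qParam 1 (τ : ℂ) ^ m := h1.pow m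
    have h3 : F =O[atImInfty] fun τ : ℍ => f τ * (Function.Periodic.qParam 1 τ) ^ m :=
      (Asymptotics.isBigO_refl f atImInfty).mul h2
    exact h3.trans hb
  exact exists_polynomial_of_form m f (12 * (m : ℤ)) rfl
    (mkLevelOne (12 * (m : ℤ)) F hol hinv' hbdd) (fun τ => rfl)

/-- formal linear disjointness: `K`-independent Laurent series stay independent over `ℂ` -/
theorem linearIndependent_coeffMap {K : Type*} [Field K] (ι₀ : K →+* ℂ) {m : ℕ}
    (v : Fin m → LaurentSeries K) (hv : LinearIndependent K v) :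
    LinearIndependent ℂ (fun i => coeffMap ι₀ (v i)) := by
  classical
  let _ : Algebra K ℂ := ι₀.toAlgebra
  rw [Fintype.linearIndependent_iff] at hv ⊢
  intro c hc i
  -- a `K`-basis of `ℂ`
  let B := Module.Free.chooseBasis K ℂ
  have hcoeff : ∀ n : ℤ, ∑ i, c i * ι₀ ((v i).coeff n) = 0 := by
    intro n
    have := congrArg (fun x : LaurentSeries ℂ => x.coeff n) hc
    simpa [HahnSeries.coeff_smul] using this
  have key : ∀ j, ∀ i, B.repr (c i) j = 0 := by
    intro j
    apply hv (fun i => B.repr (c i) j)
    ext n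
    have h1 := hcoeff n
    have h2 : ∀ i, c i * ι₀ ((v i).coeff n) = ((v i).coeff n) • c i := by
      intro i
      rw [Algebra.smul_def, mul_comm]
      rfl
    simp only [h2] at h1
    have h3 := congrArg (fun x => B.repr x j) h1
    simp only [map_sum, map_smul, Finsupp.coe_finsetSum, Finsupp.coe_smul, Finset.sum_apply,
      Pi.smul_apply, map_zero, Finsupp.coe_zero, Pi.zero_apply, smul_eq_mul] at h3
    have h4 : (∑ i, B.repr (c i) j • v i).coeff n = ∑ i, B.repr (c i) j * (v i).coeff n := by
      have : ∀ s : Finset (Fin m), (∑ i ∈ s, B.repr (c i) j • v i).coeff n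
          = ∑ i ∈ s, B.repr (c i) j * (v i).coeff n := by
        intro s
        induction s using Finset.induction_on with
        | empty => simp
        | insert a s ha ih =>
          rw [Finset.sum_insert ha, Finset.sum_insert ha, HahnSeries.coeff_add, ih,
            HahnSeries.coeff_smul, smul_eq_mul]
      exact this Finset.univ
    rw [h4, HahnSeries.coeff_zero]
    rw [← h3]
    exact Finset.sum_congr rfl fun i _ => mul_comm _ _
  have : B.repr (c i) = 0 := Finsupp.ext fun j => key j i
  exact (B.repr.map_eq_zero_iff).mp this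

end Fermat.Agent.S24_LevelOne
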