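import Fermat.Agent.S24_Dict
import Fermat.Agent.S24_LevelOne
import Fermat.Agent.S24_JFun
import Fermat.Agent.S24_Comb

/-!
# S24_DegreeOf (helper9): `[F : ℚ̄(j)] = [SL₂(ℤ) : Γ₀(N)]`, relative to the coset dictionary

The function field `F = FF N` of `X₀(N)` over `ℚ̄` is generated by the formal series
`Jd d = j(q^d)`, `d ∣ N`.  We show that `j` is transcendental and that
`[F : ℚ̄(j)] = Nat.card (Coset N)`, assuming (structure `Inputs N`) that the functions
`jS d = j(dτ)`, `d ∣ N`, are nice, `Γ₀(N)`-invariant, and that `jS N` is invariant under no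
other element of `SL₂(ℤ)`.
-/

set_option autoImplicit false

noncomputable section

open Fermat.Agent.S24_Defs Fermat.Agent.S24_Embed ModularCurve AlgebraicCurve UpperHalfPlane
  IntermediateField
open scoped MatrixGroups ModularForm Manifold Topology

namespace Fermat.Agent.S24_DegreeOf

open HahnSeries Fermat.Agent.S24_Dict

/-! ### Formal part: `j` is transcendental -/

theorem Jd_one : Jd 1 = coeffEmb Kbar jq := by
  rw [Jd_of_ne_zero, qExpand_one_apply]

theorem coeff_Jd_one_pow_self (k : ℕ) : ((Jd 1) ^ k).coeff (-(k : ℤ)) = 1 := by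
  rw [Jd_one, ← map_pow, coeffEmb_coeff, coeff_jq_pow_self, map_one]

theorem coeff_Jd_one_pow_of_lt {k : ℕ} {m : ℤ} (hm : m < -(k : ℤ)) :
    ((Jd 1) ^ k).coeff m = 0 := by
  rw [Jd_one, ← map_pow, coeffEmb_coeff, coeff_jq_pow_of_lt hm, map_zero]

/-- Coefficients of a scalar multiple (for the algebra structure of `LaurentSeries Kbar`). -/
theorem coeff_algebraMap_mul (c : Kbar) (x : LaurentSeries Kbar) (a : ℤ) :
    (algebraMap Kbar (LaurentSeries Kbar) c * x).coeff a = c * x.coeff a := by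
  rw [algebraMap_laurentSeries_eq_single, HahnSeries.coeff_single_mul, sub_zero]

theorem aeval_Jd_one_ne_zero {p : Polynomial Kbar} (hp : p ≠ 0) :
    Polynomial.aeval (Jd 1) p ≠ 0 := by
  intro h
  have h1 := congrArg (fun x : LaurentSeries Kbar => x.coeff (-(p.natDegree : ℤ))) h
  simp only [coeff_zero] at h1
  rw [Polynomial.aeval_eq_sum_range, coeff_sum, Finset.sum_eq_single p.natDegree] at h1
  · rw [Algebra.smul_def, coeff_algebraMap_mul, coeff_Jd_one_pow_self, mul_one] at h1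
    exact hp (Polynomial.leadingCoeff_eq_zero.mp h1)
  · intro i hi hne
    have hlt : i < p.natDegree := lt_of_le_of_ne (Nat.lt_succ_iff.mp (Finset.mem_range.mp hi)) hne
    rw [Algebra.smul_def, coeff_algebraMap_mul, coeff_Jd_one_pow_of_lt (by omega), mul_zero]
  · intro hn
    exact absurd (Finset.mem_range.mpr (Nat.lt_succ_self _)) hn

theorem aeval_Jd_one_injective :
    Function.Injective (Polynomial.aeval (R := Kbar) (Jd 1)) := by
  rw [injective_iff_map_eq_zero]
  intro p hp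
  by_contra hne
  exact aeval_Jd_one_ne_zero hne hp

theorem coe_aeval_jF (N : ℕ) (p : Polynomial Kbar) :
    ((Polynomial.aeval (jF N) p : FF N) : LaurentSeries Kbar) = Polynomial.aeval (Jd 1) p :=
  (Polynomial.aeval_algHom_apply (modularFunctionFieldBar N).val (jF N) p).symm

theorem transcendental_jF (N : ℕ) : Transcendental Kbar (jF N) := by
  rintro ⟨p, hp, h⟩
  apply aeval_Jd_one_ne_zero hp
  rw [← coe_aeval_jF N, h]
  rfl

theorem aeval_jF_injective (N : ℕ) :
    Function.Injective (Polynomial.aeval (R := Kbar) (jF N)) :=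
  transcendental_iff_injective.mp (transcendental_jF N)

/-! ### Formal part: generation of `F` -/

theorem FF_le (N : ℕ) [NeZero N] (𝒜 : Subfield (LaurentSeries Kbar))
    (hc : ∀ a : Kbar, algebraMap Kbar (LaurentSeries Kbar) a ∈ 𝒜)
    (h : ∀ d : ℕ, d ∣ N → Jd d ∈ 𝒜) :
    ∀ x ∈ modularFunctionFieldBar N, x ∈ 𝒜 := by
  intro x hx
  rw [mem_laurentBaseChange_iff] at hx
  have hle : Subfield.closure (Set.range (algebraMap Kbar (LaurentSeries Kbar)) ∪
      (⇑(coeffEmb Kbar) '' (modularFunctionFieldFull N : Set (LaurentSeries ℚ)))) ≤ 𝒜 := by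
    rw [Subfield.closure_le]
    rintro y (⟨a, rfl⟩ | ⟨z, hz, rfl⟩)
    · exact hc a
    · have hz' : z ∈ Subfield.closure (Set.range (algebraMap ℚ (LaurentSeries ℚ)) ∪
          divisorExpansions N) := hz
      have hle2 : Subfield.closure (Set.range (algebraMap ℚ (LaurentSeries ℚ)) ∪
          divisorExpansions N) ≤ 𝒜.comap (coeffEmb Kbar) := by
        rw [Subfield.closure_le]
        rintro w (⟨c, rfl⟩ | ⟨d, hd0, hd, rfl⟩)
        · rw [eq_ratCast]
          exact SubfieldClass.ratCast_mem _ c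
        · show coeffEmb Kbar (qExpand ℚ d jq) ∈ 𝒜
          rw [← Jd_of_ne_zero]
          exact h d hd
      exact hle2 hz'
  exact hle hx


/-! ### Dictionary: further general lemmas -/

section Dictionary

variable {K : Type*} [Field K] {ι : K →+* ℂ}

theorem conv_smul' (c : K) {A : LaurentSeries K} (hA : Conv ι A) : Conv ι (c • A) := by
  rw [← C_mul_eq_smul]
  exact conv_mul (conv_C c) hA

theorem ev_smul' (c : K) {A : LaurentSeries K} (hA : Conv ι A) {x : ℂ} (hx : x ≠ 0)
    (hx1 : ‖x‖ < 1) : ev ι x (c • A) = ι c * ev ι x A := by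
  rw [← C_mul_eq_smul, ev_mul (conv_C c) hA hx hx1, ev_C]

theorem conv_coeffMap {A : LaurentSeries K} (hA : Conv ι A) :
    Conv (RingHom.id ℂ) (coeffMap ι A) := hA

theorem ev_coeffMap (x : ℂ) (A : LaurentSeries K) :
    ev (RingHom.id ℂ) x (coeffMap ι A) = ev ι x A := rfl

end Dictionary

theorem smul_eq_algebraMap_mul (c : Kbar) (x : LaurentSeries Kbar) :
    c • x = algebraMap Kbar (LaurentSeries Kbar) c * x := by
  rw [algebraMap_laurentSeries_eq_single, single_zero_mul_eq_smul]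

theorem qParam_ne_zero' (τ : ℍ) : Function.Periodic.qParam 1 (τ : ℂ) ≠ 0 :=
  Function.Periodic.qParam_ne_zero _

theorem norm_qParam_lt_one' (τ : ℍ) : ‖Function.Periodic.qParam 1 (τ : ℂ)‖ < 1 :=
  Function.Periodic.norm_qParam_lt_one one_pos τ.im_pos

/-- Polynomial expressions in convergent series are convergent, and evaluation commutes. -/
theorem conv_ev_aeval_of {σ : Type*} (a : σ → LaurentSeries Kbar) (ha : ∀ i, Conv iotaC (a i))
    (P : MvPolynomial σ Kbar) :
    Conv iotaC (MvPolynomial.aeval a P) ∧ ∀ x : ℂ, x ≠ 0 → ‖x‖ < 1 →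
      ev iotaC x (MvPolynomial.aeval a P)
        = MvPolynomial.eval₂ iotaC (fun i => ev iotaC x (a i)) P := by
  induction P using MvPolynomial.induction_on with
  | C c =>
    rw [MvPolynomial.aeval_C, algebraMap_laurentSeries_eq_single]
    refine ⟨conv_single _ _, fun x _ _ => ?_⟩
    rw [ev_single, MvPolynomial.eval₂_C, zpow_zero, mul_one]
  | add p q hp hq =>
    rw [map_add]
    refine ⟨conv_add hp.1 hq.1, fun x hx hx1 => ?_⟩
    rw [ev_add hp.1 hq.1 hx hx1, hp.2 x hx hx1, hq.2 x hx hx1, MvPolynomial.eval₂_add]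
  | mul_X p d hp =>
    rw [map_mul, MvPolynomial.aeval_X]
    refine ⟨conv_mul hp.1 (ha d), fun x hx hx1 => ?_⟩
    rw [ev_mul hp.1 (ha d) hx hx1, hp.2 x hx hx1, MvPolynomial.eval₂_mul, MvPolynomial.eval₂_X]

/-- One-variable version. -/
theorem conv_ev_aeval_poly {A : LaurentSeries Kbar} (hA : Conv iotaC A) (p : Polynomial Kbar) :
    Conv iotaC (Polynomial.aeval A p) ∧ ∀ x : ℂ, x ≠ 0 → ‖x‖ < 1 →
      ev iotaC x (Polynomial.aeval A p) = Polynomial.eval₂ iotaC (ev iotaC x A) p := by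
  induction p using Polynomial.induction_on' with
  | add p q hp hq =>
    rw [map_add]
    refine ⟨conv_add hp.1 hq.1, fun x hx hx1 => ?_⟩
    rw [ev_add hp.1 hq.1 hx hx1, hp.2 x hx hx1, hq.2 x hx hx1, Polynomial.eval₂_add]
  | monomial n c =>
    rw [Polynomial.aeval_monomial, algebraMap_laurentSeries_eq_single]
    refine ⟨conv_mul (conv_single _ _) (conv_pow hA n), fun x hx hx1 => ?_⟩
    rw [ev_mul (conv_single _ _) (conv_pow hA n) hx hx1, ev_single, ev_pow hA n hx hx1,
      Polynomial.eval₂_monomial, zpow_zero, mul_one]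

/-- **Descent of linear relations**: if convergent series over `ℚ̄` satisfy a nontrivial
`ℂ`-linear relation after evaluation at every point, they satisfy a nontrivial `ℚ̄`-linear
relation. -/
theorem exists_kbar_relation {m : Type} [Fintype m] (v : m → LaurentSeries Kbar)
    (hv : ∀ i, Conv iotaC (v i)) (c : m → ℂ) (hc : ∃ i, c i ≠ 0)
    (h : ∀ τ : ℍ, ∑ i, c i * ev iotaC (Function.Periodic.qParam 1 τ) (v i) = 0) :
    ∃ a : m → Kbar, (∃ i, a i ≠ 0) ∧
      ∑ i, algebraMap Kbar (LaurentSeries Kbar) (a i) * v i = 0 := by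
  classical
  have hnot : ¬ LinearIndependent Kbar v := by
    intro hli
    let e : m ≃ Fin (Fintype.card m) := Fintype.equivFin m
    have h1 : LinearIndependent Kbar (v ∘ e.symm) := (linearIndependent_equiv e.symm).mpr hli
    have h2 := Fermat.Agent.S24_LevelOne.linearIndependent_coeffMap iotaC (v ∘ e.symm) h1
    have h3 : LinearIndependent ℂ (fun i => coeffMap iotaC (v i)) :=
      (linearIndependent_equiv e.symm).mp h2
    rw [Fintype.linearIndependent_iff] at h3
    obtain ⟨i0, hi0⟩ := hc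
    refine hi0 (h3 c ?_ i0)
    have hconv : ∀ i ∈ (Finset.univ : Finset m),
        Conv (RingHom.id ℂ) (c i • coeffMap iotaC (v i)) :=
      fun i _ => conv_smul' (c i) (conv_coeffMap (hv i))
    refine eq_zero_of_ev_eq_zero (ι := RingHom.id ℂ) (conv_sum _ _ hconv) fun x hx hx1 => ?_
    obtain ⟨τ, hτ⟩ := exists_uhp_exp hx hx1
    rw [ev_sum _ _ hconv hx hx1]
    have := h τ
    rw [qParam_one_eq, hτ] at this
    rw [← this]
    refine Finset.sum_congr rfl fun i _ => ?_
    rw [ev_smul' (c i) (conv_coeffMap (hv i)) hx hx1, ev_coeffMap]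
    rfl
  rw [Fintype.not_linearIndependent_iff] at hnot
  obtain ⟨g, hg, hg0⟩ := hnot
  refine ⟨g, hg0, ?_⟩
  rw [← hg]
  exact Finset.sum_congr rfl fun i _ => (smul_eq_algebraMap_mul _ _).symm



/-! ### Analytic inputs and the analytic side -/

/-- The analytic inputs (coset dictionary), to be supplied by `S24_Hermite` and `S24_Iota`:
the functions `jS d = j(dτ)`, `d ∣ N`, are nice and `Γ₀(N)`-invariant, and `jS N` is invariant
under no other element of `SL₂(ℤ)`. -/
structure Inputs (N : ℕ) : Prop where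
  hmem : ∀ d : ℕ, d ∣ N → jS d ∈ AN N
  hinv : ∀ d : ℕ, d ∣ N → ∀ g : SL(2, ℤ), g ∈ CongruenceSubgroup.Gamma0 N →
    ∀ τ : ℍ, jS d (g • τ) = jS d τ
  hmemG : ∀ g : SL(2, ℤ), (∀ τ : ℍ, jS N (g • τ) = jS N τ) →
    g ∈ CongruenceSubgroup.Gamma0 N

theorem jS_one (τ : ℍ) : jS 1 τ = jFun τ := by
  have h : dmul 1 τ = τ := UpperHalfPlane.ext (by rw [coe_dmul one_ne_zero]; simp)
  simp [jS, h]

/-- The formal generators of `F`: `j(q^d)` for `d ∣ N` (and `0` otherwise). -/
def JN (N : ℕ) (d : ℕ) : LaurentSeries Kbar := if d ∣ N then Jd d else 0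

theorem conv_JN (N d : ℕ) : Conv iotaC (JN N d) := by
  unfold JN
  split_ifs
  · exact conv_Jd hasSumJ d
  · exact conv_zero

section Analytic

variable {N : ℕ} (inp : Inputs N)

/-- The analytic generators, as elements of `AN N`. -/
def jA (d : ℕ) : AN N := if h : d ∣ N then ⟨jS d, inp.hmem d h⟩ else 0

/-- Evaluation at a point, as a ring homomorphism on `AN N`. -/
def evalAt (N : ℕ) (τ : ℍ) : AN N →+* ℂ :=
  (Pi.evalRingHom (fun _ : ℍ => ℂ) τ).comp (AN N).val.toRingHom

@[simp] theorem evalAt_apply (τ : ℍ) (f : AN N) : evalAt N τ f = (f : ℍ → ℂ) τ := rfl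

theorem jA_apply (d : ℕ) (τ : ℍ) :
    (jA inp d : ℍ → ℂ) τ = ev iotaC (Function.Periodic.qParam 1 τ) (JN N d) := by
  unfold jA JN
  split_ifs with h
  · exact (ev_Jd hasSumJ d τ).symm
  · rw [ev_zero]; rfl

theorem tr_jA {g : SL(2, ℤ)} (hg : g ∈ CongruenceSubgroup.Gamma0 N) (d : ℕ) :
    tr N g (jA inp d) = jA inp d := by
  unfold jA
  split_ifs with h
  · refine Subtype.ext (funext fun τ => ?_)
    rw [tr_apply]
    exact inp.hinv d h g⁻¹ (inv_mem hg) τ
  · exact map_zero _

/-- The analytic function attached to a polynomial in the generators. -/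
def phi (P : MvPolynomial ℕ Kbar) : AN N :=
  MvPolynomial.eval₂ ((algebraMap ℂ (AN N)).comp iotaC) (jA inp) P

theorem phi_apply (P : MvPolynomial ℕ Kbar) (τ : ℍ) :
    (phi inp P : ℍ → ℂ) τ
      = ev iotaC (Function.Periodic.qParam 1 τ) (MvPolynomial.aeval (JN N) P) := by
  rw [(conv_ev_aeval_of (JN N) (conv_JN N) P).2 _ (qParam_ne_zero' τ) (norm_qParam_lt_one' τ)]
  rw [← evalAt_apply, phi, MvPolynomial.eval₂_comp_left]
  have h1 : (evalAt N τ).comp ((algebraMap ℂ (AN N)).comp iotaC) = iotaC :=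
    RingHom.ext fun a => rfl
  have h2 : (⇑(evalAt N τ) ∘ jA inp)
      = fun d => ev iotaC (Function.Periodic.qParam 1 τ) (JN N d) :=
    funext fun d => jA_apply inp d τ
  rw [h1, h2]

theorem tr_phi (P : MvPolynomial ℕ Kbar) {g : SL(2, ℤ)}
    (hg : g ∈ CongruenceSubgroup.Gamma0 N) : tr N g (phi inp P) = phi inp P := by
  have h0 : tr N g (phi inp P) = (tr N g : AN N →+* AN N) (phi inp P) := rfl
  rw [h0, phi, MvPolynomial.eval₂_comp_left]
  have h1 : ((tr N g : AN N →+* AN N)).comp ((algebraMap ℂ (AN N)).comp iotaC)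
      = (algebraMap ℂ (AN N)).comp iotaC :=
    RingHom.ext fun a => (tr N g).commutes (iotaC a)
  have h2 : (⇑(tr N g : AN N →+* AN N) ∘ jA inp) = jA inp := funext fun d => tr_jA inp hg d
  rw [h1, h2]

/-- The translates of `phi inp P`, indexed by the cosets of `Γ₀(N)`. -/
def PhiC (P : MvPolynomial ℕ Kbar) (c : Coset N) : AN N :=
  Quotient.liftOn' c (fun g : SL(2, ℤ) => tr N g (phi inp P)) (by
    intro a b hab
    have h : a⁻¹ * b ∈ CongruenceSubgroup.Gamma0 N := QuotientGroup.leftRel_apply.mp hab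
    have hb : b = a * (a⁻¹ * b) := by group
    show tr N a (phi inp P) = tr N b (phi inp P)
    rw [hb, tr_mul, tr_phi inp P h])

theorem PhiC_mk (P : MvPolynomial ℕ Kbar) (g : SL(2, ℤ)) :
    PhiC inp P (QuotientGroup.mk g) = tr N g (phi inp P) := rfl

theorem PhiC_smul (P : MvPolynomial ℕ Kbar) (g : SL(2, ℤ)) (c : Coset N) :
    PhiC inp P (g • c) = tr N g (PhiC inp P c) := by
  induction c using QuotientGroup.induction_on with
  | H a =>
    show PhiC inp P (QuotientGroup.mk (g * a)) = _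
    rw [PhiC_mk, PhiC_mk, tr_mul]

end Analytic


/-! ### The orbit polynomial and the algebraic relation -/

section Orbit

variable {N : ℕ} [NeZero N]

omit [NeZero N] in
/-- An invariant nice function is a polynomial in `j`. -/
theorem exists_poly_of_tr_invariant (f : AN N) (hf : ∀ g : SL(2, ℤ), tr N g f = f) :
    ∃ p : Polynomial ℂ, ∀ τ : ℍ, (f : ℍ → ℂ) τ = p.eval (jFun τ) := by
  obtain ⟨m, hm⟩ := (f.2.2 1).2
  refine Fermat.Agent.S24_LevelOne.exists_polynomial_of_invariant (f : ℍ → ℂ) (AN_coe_mdiff f)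
    (fun g τ => ?_) m (by simpa using hm)
  have h := congrArg (fun x : AN N => (x : ℍ → ℂ) τ) (hf g⁻¹)
  simpa using h

/-- **Upper bound, analytic core**: every polynomial expression `A` in the `Jd d`, `d ∣ N`,
satisfies a nontrivial polynomial relation of degree `≤ [SL₂(ℤ) : Γ₀(N)]` over `ℚ̄[j]`. -/
theorem exists_rel (inp : Inputs N) (P : MvPolynomial ℕ Kbar) :
    ∃ w : Fin (Nat.card (Coset N) + 1) → Polynomial Kbar, w ≠ 0 ∧
      ∑ k, Polynomial.aeval (Jd 1) (w k) * (MvPolynomial.aeval (JN N) P) ^ (k : ℕ) = 0 := by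
  classical
  let _ : Fintype (Coset N) := Fintype.ofFinite _
  set n := Nat.card (Coset N) with hn
  have hcard : Fintype.card (Coset N) = n := (Nat.card_eq_fintype_card).symm
  set A := MvPolynomial.aeval (JN N) P with hA
  have hAc : Conv iotaC A := (conv_ev_aeval_of (JN N) (conv_JN N) P).1
  set φ := phi inp P with hφ
  -- the orbit polynomial
  set Q : Polynomial (AN N) := ∏ c : Coset N, (Polynomial.X - Polynomial.C (PhiC inp P c)) with hQ
  have hQmonic : Q.Monic := Polynomial.monic_prod_of_monic _ _ fun c _ =>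
    Polynomial.monic_X_sub_C _
  have hQdeg : Q.natDegree = n := by
    rw [hQ, Polynomial.natDegree_prod_of_monic _ _ fun c _ => Polynomial.monic_X_sub_C _]
    simp [hcard]
  have hQroot : Q.eval φ = 0 := by
    rw [hQ, Polynomial.eval_prod]
    refine Finset.prod_eq_zero (Finset.mem_univ (QuotientGroup.mk 1 : Coset N)) ?_
    rw [PhiC_mk, tr_one]
    simp [hφ]
  have hQmap : ∀ g : SL(2, ℤ), Q.map (tr N g : AN N →+* AN N) = Q := by
    intro g
    rw [hQ, Polynomial.map_prod]
    have h1 : ∀ c : Coset N, (Polynomial.X - Polynomial.C (PhiC inp P c)).map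
        (tr N g : AN N →+* AN N) = Polynomial.X - Polynomial.C (PhiC inp P (g • c)) := by
      intro c
      rw [Polynomial.map_sub, Polynomial.map_X, Polynomial.map_C, PhiC_smul]
      rfl
    simp_rw [h1]
    exact Equiv.prod_comp (MulAction.toPerm g : Equiv.Perm (Coset N))
      (fun c => Polynomial.X - Polynomial.C (PhiC inp P c))
  have hcoeff : ∀ (k : ℕ) (g : SL(2, ℤ)), tr N g (Q.coeff k) = Q.coeff k := by
    intro k g
    have := congrArg (fun q : Polynomial (AN N) => q.coeff k) (hQmap g)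
    simpa [Polynomial.coeff_map] using this
  have hex : ∀ k : ℕ, ∃ p : Polynomial ℂ, ∀ τ : ℍ, (Q.coeff k : ℍ → ℂ) τ = p.eval (jFun τ) :=
    fun k => exists_poly_of_tr_invariant (Q.coeff k) (hcoeff k)
  choose p0 hp0 using hex
  -- normalise the top coefficient
  set p : ℕ → Polynomial ℂ := fun k => if k = n then 1 else p0 k with hpdef
  have hp : ∀ (k : ℕ) (τ : ℍ), (Q.coeff k : ℍ → ℂ) τ = (p k).eval (jFun τ) := by
    intro k τ
    by_cases hk : k = n
    · have h1 : Q.coeff n = 1 := by rw [← hQdeg]; exact hQmonic.coeff_natDegree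
      rw [hk, h1]
      simp [hpdef]
    · simp [hpdef, hk, hp0]
  -- the relation, pointwise
  have hrel : ∀ τ : ℍ, ∑ k ∈ Finset.range (n + 1), (p k).eval (jFun τ) * (φ : ℍ → ℂ) τ ^ k = 0 := by
    intro τ
    have h1 := congrArg (evalAt N τ) hQroot
    rw [Polynomial.eval_eq_sum_range, hQdeg, map_sum, map_zero] at h1
    rw [← h1]
    refine Finset.sum_congr rfl fun k _ => ?_
    rw [map_mul, map_pow, evalAt_apply, evalAt_apply, hp]
  -- a uniform degree bound
  set D := (Finset.range (n + 1)).sup (fun k => (p k).natDegree) with hD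
  have hDle : ∀ k : Fin (n + 1), (p k).natDegree < D + 1 := fun k =>
    Nat.lt_succ_of_le (Finset.le_sup (f := fun k => (p k).natDegree) (Finset.mem_range.mpr k.2))
  -- the family `j^i * A^k`
  set v : Fin (D + 1) × Fin (n + 1) → LaurentSeries Kbar :=
    fun x => (Jd 1) ^ (x.1 : ℕ) * A ^ (x.2 : ℕ) with hv
  have hvc : ∀ x, Conv iotaC (v x) := fun x =>
    conv_mul (conv_pow (conv_Jd hasSumJ 1) _) (conv_pow hAc _)
  have hvev : ∀ (x : Fin (D + 1) × Fin (n + 1)) (τ : ℍ),
      ev iotaC (Function.Periodic.qParam 1 τ) (v x)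
        = jFun τ ^ (x.1 : ℕ) * (φ : ℍ → ℂ) τ ^ (x.2 : ℕ) := by
    intro x τ
    rw [hv, ev_mul (conv_pow (conv_Jd hasSumJ 1) _) (conv_pow hAc _) (qParam_ne_zero' τ)
      (norm_qParam_lt_one' τ), ev_pow (conv_Jd hasSumJ 1) _ (qParam_ne_zero' τ)
      (norm_qParam_lt_one' τ), ev_pow hAc _ (qParam_ne_zero' τ) (norm_qParam_lt_one' τ),
      ev_Jd hasSumJ 1 τ, jS_one, hφ, phi_apply]
  set c : Fin (D + 1) × Fin (n + 1) → ℂ := fun x => (p (x.2 : ℕ)).coeff (x.1 : ℕ) with hc
  have hc0 : ∃ x, c x ≠ 0 := by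
    refine ⟨(0, Fin.last n), ?_⟩
    simp [hc, hpdef]
  have hsum : ∀ τ : ℍ, ∑ x, c x * ev iotaC (Function.Periodic.qParam 1 τ) (v x) = 0 := by
    intro τ
    rw [Fintype.sum_prod_type_right]
    rw [← hrel τ, ← Fin.sum_univ_eq_sum_range (fun k => (p k).eval (jFun τ) * (φ : ℍ → ℂ) τ ^ k)]
    refine Finset.sum_congr rfl fun k _ => ?_
    rw [Polynomial.eval_eq_sum_range' (hDle k), Finset.sum_mul,
      ← Fin.sum_univ_eq_sum_range (fun i => (p k).coeff i * jFun τ ^ i * (φ : ℍ → ℂ) τ ^ (k : ℕ))]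
    refine Finset.sum_congr rfl fun i _ => ?_
    rw [hvev]
    simp only [hc]
    ring
  obtain ⟨a, ⟨x0, hx0⟩, ha⟩ := exists_kbar_relation v hvc c hc0 hsum
  refine ⟨fun k => ∑ i : Fin (D + 1), Polynomial.monomial (i : ℕ) (a (i, k)), ?_, ?_⟩
  · intro h0
    apply hx0
    have h1 := congrArg (fun w : Fin (n + 1) → Polynomial Kbar => (w x0.2).coeff (x0.1 : ℕ)) h0
    simp only [Pi.zero_apply, Polynomial.coeff_zero, Polynomial.finsetSum_coeff,
      Polynomial.coeff_monomial] at h1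
    rw [Finset.sum_eq_single x0.1] at h1
    · simpa using h1
    · intro b _ hb
      rw [if_neg (fun h => hb (Fin.ext h))]
    · intro h; exact absurd (Finset.mem_univ _) h
  · rw [← ha, Fintype.sum_prod_type_right]
    refine Finset.sum_congr rfl fun k _ => ?_
    rw [map_sum, Finset.sum_mul]
    refine Finset.sum_congr rfl fun i _ => ?_
    rw [Polynomial.aeval_monomial, hv]
    ring

end Orbit



/-! ### Lower bound: `j(Nτ)` has `[SL₂(ℤ) : Γ₀(N)]` distinct conjugates -/

section Lower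

variable {N : ℕ} [NeZero N]

/-- **Lower bound, analytic core**: `Jd N` satisfies no nontrivial polynomial relation of degree
`< [SL₂(ℤ) : Γ₀(N)]` over `ℚ̄[j]`. -/
theorem eq_zero_of_rel (inp : Inputs N) (u : Fin (Nat.card (Coset N)) → Polynomial Kbar)
    (h : ∑ k, Polynomial.aeval (Jd 1) (u k) * (Jd N) ^ (k : ℕ) = 0) : u = 0 := by
  classical
  let _ : Fintype (Coset N) := Fintype.ofFinite _
  have hcard : Fintype.card (Coset N) = Nat.card (Coset N) := (Nat.card_eq_fintype_card).symm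
  by_contra hu
  obtain ⟨k0, hk0⟩ : ∃ k0, u k0 ≠ 0 := by
    by_contra hcon
    exact hu (funext fun k => by_contra fun hk => hcon ⟨k, hk⟩)
  -- the relation, pointwise
  have hrel : ∀ τ : ℍ,
      ∑ k, Polynomial.eval₂ iotaC (jFun τ) (u k) * jS N τ ^ (k : ℕ) = 0 := by
    intro τ
    have hx := qParam_ne_zero' τ
    have hx1 := norm_qParam_lt_one' τ
    have hc1 : ∀ k, Conv iotaC (Polynomial.aeval (Jd 1) (u k)) := fun k =>
      (conv_ev_aeval_poly (conv_Jd hasSumJ 1) (u k)).1
    have hc2 : ∀ k : ℕ, Conv iotaC ((Jd N) ^ k) := fun k => conv_pow (conv_Jd hasSumJ N) k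
    have h1 := congrArg (ev iotaC (Function.Periodic.qParam 1 τ)) h
    rw [ev_sum _ _ (fun k _ => conv_mul (hc1 k) (hc2 k)) hx hx1, ev_zero] at h1
    rw [← h1]
    refine Finset.sum_congr rfl fun k _ => ?_
    rw [ev_mul (hc1 k) (hc2 k) hx hx1, (conv_ev_aeval_poly (conv_Jd hasSumJ 1) (u k)).2 _ hx hx1,
      ev_pow (conv_Jd hasSumJ N) _ hx hx1, ev_Jd hasSumJ 1 τ, jS_one, ev_Jd hasSumJ N τ]
  -- elements of `AN N`
  set jN' : AN N := ⟨jS N, inp.hmem N dvd_rfl⟩ with hjN'
  set j1' : AN N := ⟨jS 1, inp.hmem 1 (one_dvd N)⟩ with hj1'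
  set F0 : AN N := Polynomial.eval₂ ((algebraMap ℂ (AN N)).comp iotaC) j1' (u k0) with hF0
  have hF0v : ∀ τ : ℍ, (F0 : ℍ → ℂ) τ = Polynomial.eval₂ iotaC (jFun τ) (u k0) := by
    intro τ
    rw [← evalAt_apply, hF0, Polynomial.hom_eval₂]
    have h1 : (evalAt N τ).comp ((algebraMap ℂ (AN N)).comp iotaC) = iotaC :=
      RingHom.ext fun a => rfl
    rw [h1, evalAt_apply, hj1']
    show Polynomial.eval₂ iotaC (jS 1 τ) (u k0) = _
    rw [jS_one]
  have hF0ne : F0 ≠ 0 := by
    intro h0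
    have h1 : (u k0).map iotaC = 0 := by
      refine Polynomial.funext fun z => ?_
      obtain ⟨τ, rfl⟩ := Fermat.Agent.S24_JFun.jFun_surjective z
      rw [Polynomial.eval_map, ← hF0v, h0]
      simp
    exact hk0 (Polynomial.map_injective iotaC iotaC.injective (by rw [h1, Polynomial.map_zero]))
  set ψ : Coset N → AN N := fun c => tr N (Quotient.out c) jN' with hψ
  have hψv : ∀ (c : Coset N) (τ : ℍ), (ψ c : ℍ → ℂ) τ = jS N ((Quotient.out c)⁻¹ • τ) :=
    fun c τ => rfl
  have hψinj : Function.Injective ψ := by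
    intro c c' hcc
    have h1 : ∀ τ : ℍ, jS N ((Quotient.out c)⁻¹ • τ) = jS N ((Quotient.out c')⁻¹ • τ) := by
      intro τ
      rw [← hψv, ← hψv, hcc]
    have h2 : (Quotient.out c)⁻¹ * Quotient.out c' ∈ CongruenceSubgroup.Gamma0 N := by
      refine inp.hmemG _ fun τ => ?_
      rw [mul_smul, h1, inv_smul_smul]
    have h3 : (QuotientGroup.mk (Quotient.out c) : Coset N) = QuotientGroup.mk (Quotient.out c') :=
      QuotientGroup.eq.mpr h2
    rwa [QuotientGroup.out_eq', QuotientGroup.out_eq'] at h3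
  set Pi0 : AN N := F0 * ∏ x ∈ (Finset.univ : Finset (Coset N)).offDiag, (ψ x.1 - ψ x.2) with hPi0
  have hPi0ne : Pi0 ≠ 0 := by
    refine mul_ne_zero hF0ne (Finset.prod_ne_zero_iff.mpr fun x hx => ?_)
    exact sub_ne_zero.mpr (hψinj.ne (Finset.mem_offDiag.mp hx).2.2)
  obtain ⟨τ, hτ⟩ : ∃ τ : ℍ, (Pi0 : ℍ → ℂ) τ ≠ 0 := by
    by_contra hcon
    exact hPi0ne (Subtype.ext (funext fun τ => by_contra fun hτ => hcon ⟨τ, hτ⟩))
  rw [← evalAt_apply, hPi0, map_mul, map_prod] at hτ
  have hτ1 : (F0 : ℍ → ℂ) τ ≠ 0 := (mul_ne_zero_iff.mp hτ).1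
  have hτ2 : ∀ c c' : Coset N, c ≠ c' → (ψ c : ℍ → ℂ) τ ≠ (ψ c' : ℍ → ℂ) τ := by
    intro c c' hcc
    have h1 := Finset.prod_ne_zero_iff.mp (mul_ne_zero_iff.mp hτ).2 (c, c')
      (Finset.mem_offDiag.mpr ⟨Finset.mem_univ _, Finset.mem_univ _, hcc⟩)
    rw [map_sub] at h1
    exact sub_ne_zero.mp h1
  -- the polynomial over `ℂ`
  set f : Polynomial ℂ :=
    Polynomial.ofFn (Nat.card (Coset N)) (fun k => Polynomial.eval₂ iotaC (jFun τ) (u k)) with hf
  have hn1 : 1 ≤ Nat.card (Coset N) := Nat.one_le_iff_ne_zero.mpr fun h0 => by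
    have := k0.2
    omega
  have hfdeg : f.natDegree < Fintype.card (Coset N) := by
    rw [hcard]; exact Polynomial.ofFn_natDegree_lt hn1 _
  have hfroot : ∀ c : Coset N, f.eval ((ψ c : ℍ → ℂ) τ) = 0 := by
    intro c
    rw [hf, Polynomial.ofFn_eq_sum_monomial, Polynomial.eval_finsetSum, hψv]
    rw [← hrel ((Quotient.out c)⁻¹ • τ)]
    refine Finset.sum_congr rfl fun k _ => ?_
    rw [Polynomial.eval_monomial, Fermat.Agent.S24_JFun.jFun_smul]
  have hfinj : Function.Injective (fun c : Coset N => (ψ c : ℍ → ℂ) τ) := by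
    intro c c' hcc
    by_contra hne
    exact hτ2 c c' hne hcc
  have hf0 : f = 0 :=
    Polynomial.eq_zero_of_natDegree_lt_card_of_eval_eq_zero f hfinj hfroot hfdeg
  have h1 := congrArg (fun q : Polynomial ℂ => q.coeff (k0 : ℕ)) hf0
  simp only [hf, Polynomial.ofFn_coeff_eq_val_of_lt _ k0.2, Polynomial.coeff_zero] at h1
  rw [← hF0v] at h1
  exact hτ1 h1

end Lower


/-! ### Algebra: from the relations to the degree -/

/-- Evaluation of a polynomial at the formal `j`. -/
def evJ : Polynomial Kbar →+* LaurentSeries Kbar := (Polynomial.aeval (Jd 1)).toRingHom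

theorem evJ_apply (s : Polynomial Kbar) : evJ s = Polynomial.aeval (Jd 1) s := rfl

theorem evJ_injective : Function.Injective evJ := aeval_Jd_one_injective

theorem evJ_ne_zero {s : Polynomial Kbar} (hs : s ≠ 0) : evJ s ≠ 0 := aeval_Jd_one_ne_zero hs

/-- The inclusion `ℚ̄[X] → ℚ̄[X_d : d]`, `X ↦ X₁`. -/
def liftX : Polynomial Kbar →+* MvPolynomial ℕ Kbar :=
  (Polynomial.aeval (MvPolynomial.X 1 : MvPolynomial ℕ Kbar)).toRingHom

theorem JN_one (N : ℕ) : JN N 1 = Jd 1 := if_pos (one_dvd N)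

theorem aeval_JN_liftX (N : ℕ) (s : Polynomial Kbar) :
    MvPolynomial.aeval (JN N) (liftX s) = evJ s := by
  show MvPolynomial.aeval (JN N) (Polynomial.aeval (MvPolynomial.X 1) s)
    = Polynomial.aeval (Jd 1) s
  rw [← Polynomial.aeval_algHom_apply, MvPolynomial.aeval_X, JN_one]

theorem aeval_JN_eval₂ (N : ℕ) (G : Polynomial (Polynomial Kbar)) (P : MvPolynomial ℕ Kbar) :
    MvPolynomial.aeval (JN N) (G.eval₂ liftX P)
      = G.eval₂ evJ (MvPolynomial.aeval (JN N) P) := by
  have h := Polynomial.hom_eval₂ G liftX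
    (MvPolynomial.aeval (R := Kbar) (JN N)).toRingHom P
  have h2 : ((MvPolynomial.aeval (R := Kbar) (JN N)).toRingHom).comp liftX = evJ :=
    RingHom.ext fun s => aeval_JN_liftX N s
  rw [h2] at h
  exact h

section Algebra

variable {N : ℕ} [NeZero N]

/-- The relation of `exists_rel`, as a polynomial in two variables. -/
theorem exists_rel' (inp : Inputs N) (P : MvPolynomial ℕ Kbar) :
    ∃ W : Polynomial (Polynomial Kbar), W ≠ 0 ∧ W.natDegree ≤ Nat.card (Coset N) ∧
      W.eval₂ evJ (MvPolynomial.aeval (JN N) P) = 0 := by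
  classical
  obtain ⟨w, hw, hrel⟩ := exists_rel inp P
  refine ⟨Polynomial.ofFn _ w, ?_, ?_, ?_⟩
  · intro h0
    apply hw
    exact Polynomial.injective_ofFn _ (by rw [h0, Polynomial.ofFn_zero])
  · exact Nat.lt_succ_iff.mp (Polynomial.ofFn_natDegree_lt (Nat.succ_le_succ (Nat.zero_le _)) w)
  · rw [Polynomial.ofFn_eq_sum_monomial, Polynomial.eval₂_finsetSum, ← hrel]
    refine Finset.sum_congr rfl fun k _ => ?_
    rw [Polynomial.eval₂_monomial]
    rfl

omit [NeZero N] in
/-- `x = A / s(j)` with `A` a polynomial in the generators `Jd d`, `d ∣ N`, and `s ≠ 0`. -/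
def Good (N : ℕ) (x : LaurentSeries Kbar) : Prop :=
  ∃ (P : MvPolynomial ℕ Kbar) (s : Polynomial Kbar),
    s ≠ 0 ∧ x * evJ s = MvPolynomial.aeval (JN N) P

omit [NeZero N] in
theorem good_zero : Good N 0 := ⟨0, 1, one_ne_zero, by simp⟩

omit [NeZero N] in
theorem good_one : Good N 1 := ⟨1, 1, one_ne_zero, by simp⟩

omit [NeZero N] in
theorem good_algebraMap (a : Kbar) : Good N (algebraMap Kbar (LaurentSeries Kbar) a) :=
  ⟨MvPolynomial.C a, 1, one_ne_zero, by simp⟩

omit [NeZero N] in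
theorem good_Jd {d : ℕ} (hd : d ∣ N) : Good N (Jd d) :=
  ⟨MvPolynomial.X d, 1, one_ne_zero, by simp [JN, hd]⟩

omit [NeZero N] in
theorem Good.mul {x y : LaurentSeries Kbar} (hx : Good N x) (hy : Good N y) : Good N (x * y) := by
  obtain ⟨P, s, hs, h1⟩ := hx
  obtain ⟨P', s', hs', h2⟩ := hy
  refine ⟨P * P', s * s', mul_ne_zero hs hs', ?_⟩
  rw [map_mul, map_mul, ← h1, ← h2]
  ring

omit [NeZero N] in
theorem Good.add {x y : LaurentSeries Kbar} (hx : Good N x) (hy : Good N y) : Good N (x + y) := by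
  obtain ⟨P, s, hs, h1⟩ := hx
  obtain ⟨P', s', hs', h2⟩ := hy
  refine ⟨P * liftX s' + P' * liftX s, s * s', mul_ne_zero hs hs', ?_⟩
  rw [map_add, map_mul, map_mul, map_mul, aeval_JN_liftX, aeval_JN_liftX, ← h1, ← h2]
  ring

omit [NeZero N] in
theorem Good.neg {x : LaurentSeries Kbar} (hx : Good N x) : Good N (-x) := by
  obtain ⟨P, s, hs, h1⟩ := hx
  refine ⟨-P, s, hs, ?_⟩
  rw [map_neg, ← h1]
  ring

theorem Good.inv (inp : Inputs N) {x : LaurentSeries Kbar} (hx : Good N x) : Good N x⁻¹ := by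
  by_cases hx0 : x = 0
  · rw [hx0, inv_zero]; exact good_zero
  obtain ⟨P, s, hs, h1⟩ := hx
  have hA0 : MvPolynomial.aeval (JN N) P ≠ 0 := by
    rw [← h1]; exact mul_ne_zero hx0 (evJ_ne_zero hs)
  obtain ⟨W, hW0, -, hWA⟩ := exists_rel' inp P
  obtain ⟨q, hq, hnd⟩ := Polynomial.exists_eq_pow_rootMultiplicity_mul_and_not_dvd W hW0 0
  rw [Polynomial.C_0, sub_zero] at hq hnd
  have hq0 : q.coeff 0 ≠ 0 := fun h => hnd (Polynomial.X_dvd_iff.mpr h)
  have hqA : q.eval₂ evJ (MvPolynomial.aeval (JN N) P) = 0 := by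
    rw [hq, Polynomial.eval₂_mul, Polynomial.eval₂_pow, Polynomial.eval₂_X] at hWA
    exact (mul_eq_zero.mp hWA).resolve_left (pow_ne_zero _ hA0)
  have hdiv : q.divX.eval₂ evJ (MvPolynomial.aeval (JN N) P) * MvPolynomial.aeval (JN N) P
      + evJ (q.coeff 0) = 0 := by
    conv_rhs => rw [← hqA, ← Polynomial.divX_mul_X_add q]
    rw [Polynomial.eval₂_add, Polynomial.eval₂_mul, Polynomial.eval₂_X, Polynomial.eval₂_C]
  refine ⟨liftX s * (-(q.divX.eval₂ liftX P)), q.coeff 0, hq0, ?_⟩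
  rw [map_mul, map_neg, aeval_JN_liftX, aeval_JN_eval₂]
  have h3 : evJ (q.coeff 0) = -(q.divX.eval₂ evJ (MvPolynomial.aeval (JN N) P)
      * MvPolynomial.aeval (JN N) P) := by linear_combination hdiv
  have h4 : x⁻¹ * MvPolynomial.aeval (JN N) P = evJ s := by
    rw [← h1, inv_mul_cancel_left₀ hx0]
  rw [h3]
  calc x⁻¹ * -(q.divX.eval₂ evJ (MvPolynomial.aeval (JN N) P) * MvPolynomial.aeval (JN N) P)
      = -(q.divX.eval₂ evJ (MvPolynomial.aeval (JN N) P)
          * (x⁻¹ * MvPolynomial.aeval (JN N) P)) := by ring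
    _ = evJ s * -(q.divX.eval₂ evJ (MvPolynomial.aeval (JN N) P)) := by rw [h4]; ring

/-- The field of all `A / s(j)`. -/
def goodField (inp : Inputs N) : Subfield (LaurentSeries Kbar) where
  carrier := {x | Good N x}
  mul_mem' := Good.mul
  one_mem' := good_one
  add_mem' := Good.add
  zero_mem' := good_zero
  neg_mem' := Good.neg
  inv_mem' := fun _ hx => Good.inv inp hx

theorem good_of_mem (inp : Inputs N) {x : LaurentSeries Kbar}
    (hx : x ∈ modularFunctionFieldBar N) : Good N x :=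
  FF_le N (goodField inp) good_algebraMap (fun _ hd => good_Jd hd) x hx

/-- Every element of `F` satisfies a nontrivial relation of degree `≤ [SL₂(ℤ) : Γ₀(N)]` over
`ℚ̄[j]`. -/
theorem exists_rel_of_mem (inp : Inputs N) {x : LaurentSeries Kbar}
    (hx : x ∈ modularFunctionFieldBar N) :
    ∃ W : Polynomial (Polynomial Kbar), W ≠ 0 ∧ W.natDegree ≤ Nat.card (Coset N) ∧
      W.eval₂ evJ x = 0 := by
  obtain ⟨P, s, hs, h1⟩ := good_of_mem inp hx
  obtain ⟨W, hW0, hWdeg, hWA⟩ := exists_rel' inp P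
  have hq : (Polynomial.C s * Polynomial.X : Polynomial (Polynomial Kbar)).natDegree = 1 :=
    Polynomial.natDegree_C_mul_X s hs
  refine ⟨W.comp (Polynomial.C s * Polynomial.X), ?_, ?_, ?_⟩
  · intro h0
    rw [Polynomial.comp_eq_zero_iff] at h0
    rcases h0 with h0 | ⟨-, h0⟩
    · exact hW0 h0
    · rw [h0, Polynomial.natDegree_C] at hq
      exact zero_ne_one hq
  · rw [Polynomial.natDegree_comp, hq, mul_one]
    exact hWdeg
  · rw [Polynomial.eval₂_comp, Polynomial.eval₂_mul, Polynomial.eval₂_C, Polynomial.eval₂_X,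
      mul_comm, h1]
    exact hWA

end Algebra



/-! ### The degree of `F` over `ℚ̄(j)` -/

/-- In characteristic zero, if all elements of a field extension are algebraic of degree `≤ n`,
then the extension is finite of degree `≤ n`. -/
theorem finrank_le_of_forall_natDegree_minpoly_le {K E : Type*} [Field K] [Field E]
    [Algebra K E] [CharZero K] (n : ℕ)
    (h : ∀ x : E, IsIntegral K x ∧ (minpoly K x).natDegree ≤ n) :
    FiniteDimensional K E ∧ Module.finrank K E ≤ n := by
  have halg : Algebra.IsAlgebraic K E := ⟨fun x => (h x).1.isAlgebraic⟩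
  have hfin : FiniteDimensional K E := by
    by_contra hnfd
    obtain ⟨M, hM, hlt⟩ := IntermediateField.exists_lt_finrank_of_infinite_dimensional hnfd n
    obtain ⟨α, hα⟩ := Field.exists_primitive_element K M
    have h1 := (Field.primitive_element_iff_minpoly_natDegree_eq K α).mp hα
    have h2 : minpoly K (α : E) = minpoly K α := (IntermediateField.minpoly_eq α).symm
    have h3 := (h (α : E)).2
    rw [h2] at h3
    omega
  refine ⟨hfin, ?_⟩
  obtain ⟨α, hα⟩ := Field.exists_primitive_element K E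
  have h1 := (Field.primitive_element_iff_minpoly_natDegree_eq K α).mp hα
  have h3 := (h α).2
  omega

section Final

variable {N : ℕ} [NeZero N]

omit [NeZero N] in
theorem coe_algebraMap_aeval_gen (s : Polynomial Kbar) :
    ((algebraMap Kbar⟮jF N⟯ (FF N)
      (Polynomial.aeval (AdjoinSimple.gen Kbar (jF N)) s) : FF N) : LaurentSeries Kbar)
      = evJ s := by
  have h1 : algebraMap Kbar⟮jF N⟯ (FF N) (Polynomial.aeval (AdjoinSimple.gen Kbar (jF N)) s)
      = Polynomial.aeval (jF N) s := by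
    have := Polynomial.aeval_algHom_apply (Kbar⟮jF N⟯).val (AdjoinSimple.gen Kbar (jF N)) s
    rw [← AdjoinSimple.coe_gen Kbar (jF N)]
    exact this.symm
  rw [h1, coe_aeval_jF]
  rfl

omit [NeZero N] in
theorem aeval_gen_injective :
    Function.Injective (Polynomial.aeval (R := Kbar) (AdjoinSimple.gen Kbar (jF N))) := by
  intro s t hst
  apply evJ_injective
  rw [← coe_algebraMap_aeval_gen (N := N), ← coe_algebraMap_aeval_gen (N := N), hst]

/-- Every element of `F` is algebraic of degree `≤ [SL₂(ℤ) : Γ₀(N)]` over `ℚ̄(j)`. -/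
theorem isIntegral_and_natDegree_le (inp : Inputs N) (θ : FF N) :
    IsIntegral Kbar⟮jF N⟯ θ ∧ (minpoly Kbar⟮jF N⟯ θ).natDegree ≤ Nat.card (Coset N) := by
  obtain ⟨W, hW0, hWdeg, hWθ⟩ := exists_rel_of_mem inp θ.2
  set φ : Polynomial Kbar →+* Kbar⟮jF N⟯ :=
    (Polynomial.aeval (R := Kbar) (AdjoinSimple.gen Kbar (jF N))).toRingHom with hφ
  have hφinj : Function.Injective φ := aeval_gen_injective
  have hq0 : W.map φ ≠ 0 := (Polynomial.map_ne_zero_iff hφinj).mpr hW0
  have hqdeg : (W.map φ).natDegree ≤ Nat.card (Coset N) :=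
    (Polynomial.natDegree_map_le).trans hWdeg
  have hqθ : Polynomial.aeval θ (W.map φ) = 0 := by
    rw [Polynomial.aeval_def, Polynomial.eval₂_map]
    have h1 := Polynomial.hom_eval₂ W ((algebraMap Kbar⟮jF N⟯ (FF N)).comp φ)
      ((modularFunctionFieldBar N).val).toRingHom θ
    have h2 : (((modularFunctionFieldBar N).val).toRingHom).comp
        ((algebraMap Kbar⟮jF N⟯ (FF N)).comp φ) = evJ :=
      RingHom.ext fun s => coe_algebraMap_aeval_gen s
    rw [h2] at h1
    have h3 : ((modularFunctionFieldBar N).val).toRingHom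
        (Polynomial.eval₂ ((algebraMap Kbar⟮jF N⟯ (FF N)).comp φ) θ W) = 0 := by
      rw [h1]; exact hWθ
    exact Subtype.val_injective h3
  have hint : IsIntegral Kbar⟮jF N⟯ θ :=
    IsAlgebraic.isIntegral (show IsAlgebraic Kbar⟮jF N⟯ θ from ⟨W.map φ, hq0, hqθ⟩)
  exact ⟨hint, (Polynomial.natDegree_le_natDegree
    (minpoly.degree_le_of_ne_zero _ θ hq0 hqθ)).trans hqdeg⟩

open scoped IntermediateField.algebraAdjoinAdjoin in
/-- The powers of `j(q^N)` below `[SL₂(ℤ) : Γ₀(N)]` are linearly independent over `ℚ̄(j)`. -/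
theorem linearIndependent_pow (inp : Inputs N) :
    LinearIndependent Kbar⟮jF N⟯ (fun k : Fin (Nat.card (Coset N)) =>
      (⟨Jd N, Jd_mem N dvd_rfl (NeZero.ne N)⟩ : FF N) ^ (k : ℕ)) := by
  rw [← LinearIndependent.iff_fractionRing (Algebra.adjoin Kbar {jF N}) Kbar⟮jF N⟯,
    Fintype.linearIndependent_iff]
  intro g hg k
  have hex : ∀ k, ∃ u : Polynomial Kbar, Polynomial.aeval (jF N) u = (g k : FF N) := by
    intro k
    have h1 : (g k : FF N) ∈ (Polynomial.aeval (R := Kbar) (jF N)).range := by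
      rw [← Algebra.adjoin_singleton_eq_range_aeval]
      exact (g k).2
    exact h1
  choose u hu using hex
  have hrel : ∑ k, Polynomial.aeval (Jd 1) (u k) * (Jd N) ^ (k : ℕ) = 0 := by
    have h1 := congrArg ((modularFunctionFieldBar N).val) hg
    rw [map_sum, map_zero] at h1
    rw [← h1]
    refine Finset.sum_congr rfl fun k _ => ?_
    rw [Subalgebra.smul_def, smul_eq_mul, map_mul, map_pow, ← hu k, ← coe_aeval_jF N]
    rfl
  have hu0 := eq_zero_of_rel inp u hrel
  apply Subtype.ext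
  rw [← hu k, hu0]
  simp

/-- **`[F : ℚ̄(j)] = [SL₂(ℤ) : Γ₀(N)]`**, relative to the analytic inputs. -/
theorem finrank_eq_of (inp : Inputs N) :
    FiniteDimensional Kbar⟮jF N⟯ (FF N) ∧
      Module.finrank Kbar⟮jF N⟯ (FF N) = Nat.card (Coset N) := by
  have : CharZero Kbar⟮jF N⟯ :=
    charZero_of_injective_algebraMap (algebraMap Kbar Kbar⟮jF N⟯).injective
  obtain ⟨hfin, hle⟩ := finrank_le_of_forall_natDegree_minpoly_le (Nat.card (Coset N))
    (isIntegral_and_natDegree_le inp)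
  refine ⟨hfin, le_antisymm hle ?_⟩
  have := (linearIndependent_pow inp).fintype_card_le_finrank
  simpa using this

end Final


end Fermat.Agent.S24_DegreeOf

end
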