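import Fermat.Agent.S24_DictOf
import Fermat.Agent.S24_QExp

/-!
# S24_Dict (helper9): q-expansion dictionary and q-expansion principle over `ℚ̄`

* general part (convergent Laurent series, evaluation, identity theorem): `S24_Conv.lean`;
* `j`-specific part relative to the hypothesis `HasSumJ`: `S24_DictOf.lean`
  (`conv_Jd`, `ev_Jd`, `qExpansion_principle_of`);
* here: the unconditional statements, using `S24_QExp.hasSum_jFun`.

All declarations live in the namespace `Fermat.Agent.S24_Dict`.
-/

set_option autoImplicit false

noncomputable section

open Fermat.Agent.S24_Defs Fermat.Agent.S24_Embed ModularCurve AlgebraicCurve UpperHalfPlane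
  IntermediateField
open scoped MatrixGroups ModularForm Manifold Topology

namespace Fermat.Agent.S24_Dict

theorem hasSumJ : HasSumJ := Fermat.Agent.S24_QExp.hasSum_jFun

/-- A polynomial relation between the formal series `Jd d = j(q^d)` (coefficients in `ℚ̄`) holds
iff it holds between the functions `jS d = j(dτ)`, constants being embedded by `iotaC`. -/
theorem qExpansion_principle (P : MvPolynomial ℕ Kbar) :
    MvPolynomial.aeval Jd P = 0 ↔
      ∀ τ : ℍ, MvPolynomial.eval₂ iotaC (fun d => jS d τ) P = 0 :=
  qExpansion_principle_of hasSumJ P

end Fermat.Agent.S24_Dict
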