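import Mathlib

/-!
# S24, package C2: a period lattice is determined by its invariants `g₂`, `g₃`

The Weierstrass differential equation `℘'² = 4℘³ - g₂℘ - g₃` (Mathlib) determines `℘` near `0`
(comparison of two solutions gives a singular linear ODE, solved by an order count), hence
everywhere (identity theorem for meromorphic functions), hence its pole set, the lattice.

Main result: `lattice_eq_of_g_eq`.
-/

set_option autoImplicit false

open Filter Topology
open scoped PeriodPair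

namespace Fermat.Agent.S24_JLattice

/-- Uniqueness for a singular linear ODE by comparing orders: if `deriv w * A = B * w` near `x`
with `A x ≠ 0`, `B x = 0` and `w x = 0` then `w` vanishes near `x`. -/
theorem eventually_eq_zero_of_deriv_mul_eq {w A B : ℂ → ℂ} {x : ℂ}
    (hw : AnalyticAt ℂ w x) (hA : AnalyticAt ℂ A x) (hB : AnalyticAt ℂ B x)
    (hAx : A x ≠ 0) (hBx : B x = 0) (hwx : w x = 0)
    (h : ∀ᶠ z in 𝓝 x, deriv w z * A z = B z * w z) :
    ∀ᶠ z in 𝓝 x, w z = 0 := by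
  rw [← analyticOrderAt_eq_top]
  by_contra htop
  have h1 : analyticOrderAt (deriv w) x + 1 = analyticOrderAt w x := by
    have := hw.analyticOrderAt_deriv_add_one
    simpa [hwx] using this
  have h2 : analyticOrderAt (fun z => deriv w z * A z) x
      = analyticOrderAt (fun z => B z * w z) x := analyticOrderAt_congr h
  have h3 : analyticOrderAt (fun z => deriv w z * A z) x = analyticOrderAt (deriv w) x := by
    have := analyticOrderAt_mul (f := deriv w) (g := A) hw.deriv hA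
    have hA0 : analyticOrderAt A x = 0 := hA.analyticOrderAt_eq_zero.mpr hAx
    rw [hA0, add_zero] at this
    exact this
  have h4 : analyticOrderAt (fun z => B z * w z) x = analyticOrderAt B x + analyticOrderAt w x :=
    analyticOrderAt_mul (f := B) (g := w) hB hw
  have hB1 : 1 ≤ analyticOrderAt B x := by
    have : analyticOrderAt B x ≠ 0 := hB.analyticOrderAt_ne_zero.mpr hBx
    exact Order.one_le_iff_ne_zero.mpr this
  rw [h3, h4] at h2
  -- ord w' = ord B + ord w ≥ 1 + ord w = ord w' + 2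
  obtain ⟨n, hn⟩ := ENat.ne_top_iff_exists.mp htop
  rw [← hn] at h1 h2
  have hd : analyticOrderAt (deriv w) x ≠ ⊤ := by
    intro htop'
    rw [htop'] at h1
    simp at h1
  obtain ⟨m, hm⟩ := ENat.ne_top_iff_exists.mp hd
  rw [← hm] at h1 h2
  have h1' : m + 1 = n := by exact_mod_cast h1
  have : ((1 : ℕ) : ℕ∞) + (n : ℕ∞) ≤ (m : ℕ∞) := by
    rw [h2]
    gcongr
    exact_mod_cast hB1
  have : 1 + n ≤ m := by exact_mod_cast this
  omega

/-- Near `0` (and away from it), `℘` is `z⁻²` plus the analytic function `℘[L - 0]`. -/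
theorem eventually_decomp (L : PeriodPair) :
    ∀ᶠ z in 𝓝 (0 : ℂ), z ≠ 0 → (z ∉ L.lattice ∧ ℘[L] z = ℘[L - (0 : ℂ)] z + 1 / z ^ 2 ∧
      ℘'[L] z = deriv ℘[L - (0 : ℂ)] z - 2 / z ^ 3) := by
  filter_upwards [L.compl_lattice_sdiff_singleton_mem_nhds 0] with z hz hz0
  have hzL : z ∉ L.lattice := by
    intro hmem
    exact hz ⟨hmem, hz0⟩
  refine ⟨hzL, ?_, ?_⟩
  · have := L.weierstrassPExcept_def (0 : L.lattice) z
    simp only [ZeroMemClass.coe_zero, sub_zero] at this
    rw [this]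
    simp
  · rw [L.eqOn_deriv_weierstrassPExcept_derivWeierstrassPExcept 0 hz]
    have := L.derivWeierstrassPExcept_def (0 : L.lattice) z
    simp only [ZeroMemClass.coe_zero, sub_zero] at this
    rw [this]
    ring

/-- Two period lattices with the same invariants `g₂`, `g₃` have the same `℘`-function near `0`. -/
theorem eventually_weierstrassP_eq (L₁ L₂ : PeriodPair) (h2 : L₁.g₂ = L₂.g₂)
    (h3 : L₁.g₃ = L₂.g₃) : ∀ᶠ z in 𝓝[≠] (0 : ℂ), ℘[L₁] z = ℘[L₂] z := by
  have hp₁ : AnalyticAt ℂ ℘[L₁ - (0 : ℂ)] 0 := L₁.analyticAt_weierstrassPExcept 0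
  have hp₂ : AnalyticAt ℂ ℘[L₂ - (0 : ℂ)] 0 := L₂.analyticAt_weierstrassPExcept 0
  have hd₁ := hp₁.deriv
  have hd₂ := hp₂.deriv
  set p₁ := ℘[L₁ - (0 : ℂ)] with hp₁def
  set p₂ := ℘[L₂ - (0 : ℂ)] with hp₂def
  let w : ℂ → ℂ := fun z => z ^ 3 * (p₁ z - p₂ z)
  let A : ℂ → ℂ := fun z => z ^ 3 * (deriv p₁ z + deriv p₂ z) - 4
  let B : ℂ → ℂ := fun z => z * (3 * z * (deriv p₁ z + deriv p₂ z) + 12 * (p₁ z + p₂ z)
    + z ^ 2 * (4 * (p₁ z ^ 2 + p₁ z * p₂ z + p₂ z ^ 2) - L₁.g₂))
  have hw : AnalyticAt ℂ w 0 := by fun_prop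
  have hA : AnalyticAt ℂ A 0 := by fun_prop
  have hB : AnalyticAt ℂ B 0 := by fun_prop
  have hkey : ∀ᶠ z in 𝓝 (0 : ℂ), deriv w z * A z = B z * w z := by
    filter_upwards [eventually_decomp L₁, eventually_decomp L₂, hp₁.eventually_analyticAt,
      hp₂.eventually_analyticAt] with z h1 h2' ha1 ha2
    have hdw : deriv w z = 3 * z ^ 2 * (p₁ z - p₂ z) + z ^ 3 * (deriv p₁ z - deriv p₂ z) := by
      have e1 : HasDerivAt (fun z : ℂ => z ^ 3) (3 * z ^ 2) z := by
        simpa using hasDerivAt_pow 3 z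
      have e2 : HasDerivAt (fun z => p₁ z - p₂ z) (deriv p₁ z - deriv p₂ z) z :=
        ha1.differentiableAt.hasDerivAt.sub ha2.differentiableAt.hasDerivAt
      exact (e1.mul e2).deriv
    rw [hdw]
    by_cases hz : z = 0
    · subst hz; simp [A, B, w]
    obtain ⟨hz1, hP1, hP1'⟩ := h1 hz
    obtain ⟨hz2, hP2, hP2'⟩ := h2' hz
    have E1 := L₁.derivWeierstrassP_sq z hz1
    have E2 := L₂.derivWeierstrassP_sq z hz2
    rw [hP1, hP1'] at E1
    rw [hP2, hP2', ← h2, ← h3] at E2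
    simp only [A, B, w]
    field_simp at E1 E2
    linear_combination E1 - E2
  have hw0 := eventually_eq_zero_of_deriv_mul_eq hw hA hB (by simp [A]) (by simp [B])
    (by simp [w]) hkey
  have hw0' : ∀ᶠ z in 𝓝[≠] (0 : ℂ), w z = 0 := hw0.filter_mono nhdsWithin_le_nhds
  filter_upwards [hw0', (eventually_decomp L₁).filter_mono nhdsWithin_le_nhds,
    (eventually_decomp L₂).filter_mono nhdsWithin_le_nhds, self_mem_nhdsWithin] with z hwz h1 h2' hz
  have hz : z ≠ 0 := hz
  obtain ⟨-, hP1, -⟩ := h1 hz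
  obtain ⟨-, hP2, -⟩ := h2' hz
  have : p₁ z - p₂ z = 0 := by
    have : z ^ 3 * (p₁ z - p₂ z) = 0 := hwz
    rcases mul_eq_zero.mp this with h | h
    · exact absurd (pow_eq_zero_iff (by norm_num) |>.mp h) hz
    · exact h
  rw [hP1, hP2]
  change p₁ z + 1 / z ^ 2 = p₂ z + 1 / z ^ 2
  rw [sub_eq_zero.mp this]

/-- Two period lattices with the same invariants `g₂`, `g₃` are equal (one inclusion). -/
theorem lattice_le_of_g_eq (L₁ L₂ : PeriodPair) (h2 : L₁.g₂ = L₂.g₂) (h3 : L₁.g₃ = L₂.g₃) :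
    L₁.lattice ≤ L₂.lattice := by
  intro l hl
  by_contra hl2
  let f : ℂ → ℂ := fun z => ℘[L₁] z - ℘[L₂] z
  have hf : MeromorphicOn f Set.univ := fun x _ =>
    (L₁.meromorphic_weierstrassP x).sub (L₂.meromorphic_weierstrassP x)
  have h0 : meromorphicOrderAt f 0 = ⊤ := by
    rw [meromorphicOrderAt_eq_top_iff]
    filter_upwards [eventually_weierstrassP_eq L₁ L₂ h2 h3] with z hz
    simp [f, hz]
  have hlt : meromorphicOrderAt f l = ⊤ := by
    by_contra hne
    exact hf.meromorphicOrderAt_ne_top_of_isPreconnected isPreconnected_univ (Set.mem_univ l)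
      (Set.mem_univ 0) hne h0
  rw [meromorphicOrderAt_eq_top_iff] at hlt
  have hcongr : ℘[L₁] =ᶠ[𝓝[≠] l] ℘[L₂] := by
    filter_upwards [hlt] with z hz
    exact sub_eq_zero.mp hz
  have e1 := meromorphicOrderAt_congr hcongr
  rw [L₁.order_weierstrassP l hl] at e1
  have e2 : (0 : WithTop ℤ) ≤ meromorphicOrderAt ℘[L₂] l :=
    (L₂.analyticOnNhd_weierstrassP l hl2).meromorphicOrderAt_nonneg
  rw [← e1] at e2
  exact absurd e2 (by decide)

/-- Two period lattices with the same invariants `g₂`, `g₃` are equal. -/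
theorem lattice_eq_of_g_eq (L₁ L₂ : PeriodPair) (h2 : L₁.g₂ = L₂.g₂) (h3 : L₁.g₃ = L₂.g₃) :
    L₁.lattice = L₂.lattice :=
  le_antisymm (lattice_le_of_g_eq L₁ L₂ h2 h3) (lattice_le_of_g_eq L₂ L₁ h2.symm h3.symm)

end Fermat.Agent.S24_JLattice
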