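import Mathlib
import Fermat.Agent.S24_Defs
import Fermat.Agent.S24_JBasic
import Fermat.Agent.S24_JLattice

/-!
# S24, package C2: the `j`-function separates `SL(2, ℤ)`-orbits

`J z = J w` implies that the lattices `ℤ z + ℤ` and `ℤ w + ℤ` are homothetic (their invariants
`g₂`, `g₃` are proportional with weights `4`, `6`, and these determine the lattice by
`S24_JLattice.lattice_eq_of_g_eq`), hence `w ∈ SL(2, ℤ) • z`.

Main result: `jFun_eq_iff` (not needed by the S24 plan v2, kept as a reusable fact).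
-/

set_option autoImplicit false

open Filter Topology UpperHalfPlane ModularForm EisensteinSeries MatrixGroups
open scoped PeriodPair

namespace Fermat.Agent.S24_JInj

/-- The period pair `(c τ, c)` attached to `τ ∈ ℍ` and a nonzero scalar `c`. -/
noncomputable def pp (τ : ℍ) (c : ℂ) (hc : c ≠ 0) : PeriodPair where
  ω₁ := c * τ
  ω₂ := c
  indep := by
    rw [LinearIndependent.pair_iff]
    intro s t h
    have h' : c * ((s : ℂ) * τ + t) = 0 := by
      simp only [Complex.real_smul] at h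
      linear_combination h
    have h2 : (s : ℂ) * τ + t = 0 := by
      rcases mul_eq_zero.mp h' with h0 | h0
      · exact absurd h0 hc
      · exact h0
    have him := congrArg Complex.im h2
    simp at him
    have hs : s = 0 := by
      rcases him with h0 | h0
      · exact h0
      · exact absurd h0 τ.im_pos.ne'
    subst hs
    simp at h2
    exact ⟨rfl, h2⟩

@[simp] theorem pp_ω₁ (τ : ℍ) (c : ℂ) (hc : c ≠ 0) : (pp τ c hc).ω₁ = c * τ := rfl
@[simp] theorem pp_ω₂ (τ : ℍ) (c : ℂ) (hc : c ≠ 0) : (pp τ c hc).ω₂ = c := rfl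

theorem G_pp (τ : ℍ) (c : ℂ) (hc : c ≠ 0) (k : ℕ) :
    (pp τ c hc).G k = (c ^ k)⁻¹ * ∑' v : Fin 2 → ℤ, eisSummand k v τ := by
  unfold PeriodPair.G
  rw [← (pp τ c hc).latticeEquivProd.symm.toEquiv.tsum_eq, ← (finTwoArrowEquiv ℤ).symm.tsum_eq,
    ← tsum_mul_left]
  refine tsum_congr fun x => ?_
  simp only [LinearEquiv.coe_toEquiv, PeriodPair.latticeEquiv_symm_apply, pp_ω₁, pp_ω₂,
    finTwoArrowEquiv_symm_apply, eisSummand]
  simp only [Matrix.cons_val_zero, Matrix.cons_val_one, zpow_neg, zpow_natCast]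
  rw [← mul_inv, ← mul_pow]
  ring_nf

theorem tsum_eisSummand_eq (k : ℕ) (hk : 3 ≤ k) (τ : ℍ) :
    ∑' v : Fin 2 → ℤ, eisSummand k v τ = 2 * riemannZeta k * E hk τ := by
  rw [tsum_eisSummand_eq_riemannZeta_mul_eisensteinSeries hk τ]
  rw [show E hk τ = (1 / 2 : ℂ) • eisensteinSeriesSIF (N := 1) 0 k τ from rfl,
    eisensteinSeriesSIF_apply 0 k τ]
  simp only [smul_eq_mul]
  ring

theorem zeta_four_ne_zero : riemannZeta 4 ≠ 0 :=
  riemannZeta_ne_zero_of_one_lt_re (by norm_num)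

theorem zeta_six_ne_zero : riemannZeta 6 ≠ 0 :=
  riemannZeta_ne_zero_of_one_lt_re (by norm_num)

theorem g₂_pp (τ : ℍ) (c : ℂ) (hc : c ≠ 0) :
    (pp τ c hc).g₂ = 120 * riemannZeta 4 * ((c ^ 4)⁻¹ * E₄ τ) := by
  unfold PeriodPair.g₂
  rw [G_pp, tsum_eisSummand_eq 4 (by norm_num)]
  push_cast
  ring

theorem g₃_pp (τ : ℍ) (c : ℂ) (hc : c ≠ 0) :
    (pp τ c hc).g₃ = 280 * riemannZeta 6 * ((c ^ 6)⁻¹ * E₆ τ) := by
  unfold PeriodPair.g₃
  rw [G_pp, tsum_eisSummand_eq 6 (by norm_num)]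
  push_cast
  ring

/-- Weighted projective equality: if `a³ b'² = a'³ b²` and both discriminants are nonzero then
`(a', b') = (c⁴ a, c⁶ b)` for some nonzero `c`. -/
theorem exists_scalar {a b a' b' : ℂ} (h : a ^ 3 * b' ^ 2 = a' ^ 3 * b ^ 2)
    (hd : a ^ 3 - b ^ 2 ≠ 0) (hd' : a' ^ 3 - b' ^ 2 ≠ 0) :
    ∃ c : ℂ, c ≠ 0 ∧ a' = c ^ 4 * a ∧ b' = c ^ 6 * b := by
  by_cases ha : a = 0
  · subst ha
    have hb : b ≠ 0 := by
      intro hb; apply hd; simp [hb]
    have ha' : a' = 0 := by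
      have : a' ^ 3 * b ^ 2 = 0 := by rw [← h]; simp
      rcases mul_eq_zero.mp this with h0 | h0
      · exact pow_eq_zero_iff (by norm_num) |>.mp h0
      · exact absurd (pow_eq_zero_iff (by norm_num) |>.mp h0) hb
    subst ha'
    have hb' : b' ≠ 0 := by
      intro hb'; apply hd'; simp [hb']
    obtain ⟨c, hc⟩ := IsAlgClosed.exists_pow_nat_eq (b' / b) (n := 6) (by norm_num)
    refine ⟨c, ?_, by simp, ?_⟩
    · intro h0; subst h0
      have h00 : b' / b = 0 := by rw [← hc]; norm_num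
      rcases div_eq_zero_iff.mp h00 with h1 | h1
      · exact hb' h1
      · exact hb h1
    · rw [hc]; field_simp
  by_cases hb : b = 0
  · subst hb
    have hb' : b' = 0 := by
      have : a ^ 3 * b' ^ 2 = 0 := by rw [h]; simp
      rcases mul_eq_zero.mp this with h0 | h0
      · exact absurd (pow_eq_zero_iff (by norm_num) |>.mp h0) ha
      · exact pow_eq_zero_iff (by norm_num) |>.mp h0
    subst hb'
    have ha' : a' ≠ 0 := by
      intro ha'; apply hd'; simp [ha']
    obtain ⟨c, hc⟩ := IsAlgClosed.exists_pow_nat_eq (a' / a) (n := 4) (by norm_num)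
    refine ⟨c, ?_, ?_, by simp⟩
    · intro h0; subst h0
      have h00 : a' / a = 0 := by rw [← hc]; norm_num
      rcases div_eq_zero_iff.mp h00 with h1 | h1
      · exact ha' h1
      · exact ha h1
    · rw [hc]; field_simp
  have ha' : a' ≠ 0 := by
    intro ha'; subst ha'
    have : a ^ 3 * b' ^ 2 = 0 := by rw [h]; simp
    rcases mul_eq_zero.mp this with h0 | h0
    · exact ha (pow_eq_zero_iff (by norm_num) |>.mp h0)
    · apply hd'
      have : b' = 0 := pow_eq_zero_iff (by norm_num) |>.mp h0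
      simp [this]
  obtain ⟨μ, hμ⟩ := IsAlgClosed.exists_pow_nat_eq (a' / a) (n := 4) (by norm_num)
  have hμ0 : μ ≠ 0 := by
    intro h0; subst h0
    have h00 : a' / a = 0 := by rw [← hμ]; norm_num
    rcases div_eq_zero_iff.mp h00 with h1 | h1
    · exact ha' h1
    · exact ha h1
  have hμa : a' = μ ^ 4 * a := by rw [hμ]; field_simp
  have hsq : (b' - μ ^ 6 * b) * (b' + μ ^ 6 * b) = 0 := by
    have : a ^ 3 * (b' ^ 2 - μ ^ 12 * b ^ 2) = 0 := by
      rw [hμa] at h
      linear_combination h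
    rcases mul_eq_zero.mp this with h0 | h0
    · exact absurd (pow_eq_zero_iff (by norm_num) |>.mp h0) ha
    · linear_combination h0
  rcases mul_eq_zero.mp hsq with h0 | h0
  · exact ⟨μ, hμ0, hμa, by linear_combination h0⟩
  · refine ⟨Complex.I * μ, mul_ne_zero Complex.I_ne_zero hμ0, ?_, ?_⟩
    · rw [mul_pow, Complex.I_pow_four, one_mul]; exact hμa
    · have hI6 : Complex.I ^ 6 = -1 := by
        have : Complex.I ^ 6 = (Complex.I ^ 2) ^ 3 := by ring
        rw [this, Complex.I_sq]; norm_num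
      rw [mul_pow, hI6]
      linear_combination h0

theorem int_mul_add_eq_zero (z : ℍ) (p q : ℤ) (h : (p : ℂ) * z + q = 0) : p = 0 ∧ q = 0 := by
  have him := congrArg Complex.im h
  simp at him
  have hp : p = 0 := by
    rcases him with h0 | h0
    · exact h0
    · exact absurd h0 z.im_pos.ne'
  subst hp
  simp at h
  exact ⟨rfl, h⟩

/-- If the lattices `c (ℤ w + ℤ)` and `ℤ z + ℤ` coincide then `w` is in the `SL(2, ℤ)`-orbit
of `z`. -/
theorem exists_smul_of_lattice_eq (z w : ℍ) (c : ℂ) (hc : c ≠ 0)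
    (h : (pp w c hc).lattice = (pp z 1 one_ne_zero).lattice) : ∃ γ : SL(2, ℤ), γ • z = w := by
  have h1 : c * w ∈ (pp z 1 one_ne_zero).lattice := h ▸ (pp w c hc).ω₁_mem_lattice
  have h2 : c ∈ (pp z 1 one_ne_zero).lattice := h ▸ (pp w c hc).ω₂_mem_lattice
  have h3 : (z : ℂ) ∈ (pp w c hc).lattice := by
    rw [h]; simpa using (pp z 1 one_ne_zero).ω₁_mem_lattice
  have h4 : (1 : ℂ) ∈ (pp w c hc).lattice := by
    rw [h]; exact (pp z 1 one_ne_zero).ω₂_mem_lattice
  obtain ⟨a, b, hab⟩ := PeriodPair.mem_lattice.mp h1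
  obtain ⟨m, n, hmn⟩ := PeriodPair.mem_lattice.mp h2
  obtain ⟨a', b', hab'⟩ := PeriodPair.mem_lattice.mp h3
  obtain ⟨m', n', hmn'⟩ := PeriodPair.mem_lattice.mp h4
  simp only [pp_ω₁, pp_ω₂, one_mul, mul_one] at hab hmn hab' hmn'
  -- the two integer matrices are mutually inverse
  have e1 : ((a' * a + b' * m - 1 : ℤ) : ℂ) * z + ((a' * b + b' * n : ℤ) : ℂ) = 0 := by
    push_cast
    linear_combination hab' + (a' : ℂ) * hab + (b' : ℂ) * hmn
  have e2 : ((m' * a + n' * m : ℤ) : ℂ) * z + ((m' * b + n' * n - 1 : ℤ) : ℂ) = 0 := by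
    push_cast
    linear_combination hmn' + (m' : ℂ) * hab + (n' : ℂ) * hmn
  obtain ⟨f1, f2⟩ := int_mul_add_eq_zero z _ _ e1
  obtain ⟨f3, f4⟩ := int_mul_add_eq_zero z _ _ e2
  have hdet : (a' * n' - b' * m') * (a * n - b * m) = 1 := by
    linear_combination (m' * b + n' * n) * f1 + f4 - (m' * a + n' * m) * f2
  have hden : (m : ℂ) * z + n ≠ 0 := by rw [hmn]; exact hc
  have hw : (w : ℂ) = ((a : ℂ) * z + b) / ((m : ℂ) * z + n) := by
    rw [eq_div_iff hden, hab, hmn]; ring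
  have him : (w : ℂ).im = ((a * n - b * m : ℤ) : ℝ) * (z : ℂ).im
      / Complex.normSq ((m : ℂ) * z + n) := by
    rw [hw, Complex.div_im]
    simp
    ring
  have hpos : 0 < a * n - b * m := by
    have hN : 0 < Complex.normSq ((m : ℂ) * z + n) := Complex.normSq_pos.mpr hden
    have hwpos : 0 < (w : ℂ).im := w.im_pos
    rw [him] at hwpos
    have hzpos : 0 < (z : ℂ).im := z.im_pos
    have : 0 < ((a * n - b * m : ℤ) : ℝ) := by
      by_contra hneg
      push Not at hneg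
      have : ((a * n - b * m : ℤ) : ℝ) * (z : ℂ).im / Complex.normSq ((m : ℂ) * z + n) ≤ 0 :=
        div_nonpos_of_nonpos_of_nonneg (mul_nonpos_of_nonpos_of_nonneg hneg hzpos.le) hN.le
      linarith
    exact_mod_cast this
  have hdet1 : a * n - b * m = 1 := by
    rcases Int.eq_one_or_neg_one_of_mul_eq_one' hdet with ⟨-, h0⟩ | ⟨-, h0⟩
    · exact h0
    · omega
  let γ : SL(2, ℤ) := ⟨!![a, b; m, n], by rw [Matrix.det_fin_two_of]; exact hdet1⟩
  refine ⟨γ, ?_⟩
  apply UpperHalfPlane.ext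
  rw [coe_specialLinearGroup_apply, hw]
  simp [γ]

open Fermat.Agent.S24_Defs in
/-- The `j`-function separates `SL(2, ℤ)`-orbits. -/
theorem exists_smul_of_jFun_eq (z w : ℍ) (h : jFun z = jFun w) : ∃ γ : SL(2, ℤ), γ • z = w := by
  have hz := discriminant_eq_E₄_cube_sub_E₆_sq z
  have hw := discriminant_eq_E₄_cube_sub_E₆_sq w
  have hDz := discriminant_ne_zero z
  have hDw := discriminant_ne_zero w
  have key : E₄ z ^ 3 * E₆ w ^ 2 = E₄ w ^ 3 * E₆ z ^ 2 := by
    unfold jFun at h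
    rw [div_eq_div_iff hDz hDw, hz, hw] at h
    linear_combination (-1728 : ℂ) * h
  have hdz : E₄ z ^ 3 - E₆ z ^ 2 ≠ 0 := by
    intro h0; apply hDz; rw [hz, h0]; simp
  have hdw : E₄ w ^ 3 - E₆ w ^ 2 ≠ 0 := by
    intro h0; apply hDw; rw [hw, h0]; simp
  obtain ⟨c, hc, h4, h6⟩ := exists_scalar key hdz hdw
  apply exists_smul_of_lattice_eq z w c hc
  apply Fermat.Agent.S24_JLattice.lattice_eq_of_g_eq
  · rw [g₂_pp, g₂_pp, h4]; field_simp
  · rw [g₃_pp, g₃_pp, h6]; field_simp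

open Fermat.Agent.S24_Defs in
/-- `jFun z = jFun w` if and only if `z` and `w` are in the same `SL(2, ℤ)`-orbit. -/
theorem jFun_eq_iff (z w : ℍ) : jFun z = jFun w ↔ ∃ γ : SL(2, ℤ), γ • z = w :=
  ⟨exists_smul_of_jFun_eq z w, fun ⟨γ, hγ⟩ => by
    rw [← hγ]; exact (Fermat.Agent.S24_JBasic.J_smul γ z).symm⟩

end Fermat.Agent.S24_JInj
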