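import Fermat.Agent.S24_Embed
import Fermat.Agent.S24_Val

/-!
# S24: building an analytic fiber datum (abstract part of `S24_Local`)

`hasFiberDatum_of`: from a valuation `ν` on `AN N` (order at a point / at `i∞`), invariant under
`tr g₀`, a family of embeddings `σ_γ = trE g ∘ ι` indexed by the cosets, and the divisibility
property of the orders of invariant functions, we get a `HasFiberDatum` for the cyclic group
generated by `g₀`.
-/

set_option autoImplicit false

noncomputable section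

namespace Fermat.Agent.S24_LocalAux

open Fermat.Agent.S24_Defs Fermat.Agent.S24_Embed ModularCurve AlgebraicCurve UpperHalfPlane
open scoped MatrixGroups ModularForm Manifold Topology

/-! ### The norm trick -/

section norm

variable {A : Type*} [CommRing A] [IsDomain A]

/-- An element of the fraction field fixed by (the extension of) a finite-order endomorphism `φ`
of `A` is a quotient of two `φ`-fixed elements of `A`. -/
theorem exists_fixed_fraction (φ : ℕ → A →+* A) (Φ : FractionRing A →+* FractionRing A)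
    (hΦ : ∀ a : A, Φ (algebraMap A (FractionRing A) a) = algebraMap A (FractionRing A) (φ 1 a))
    (hφ0 : ∀ a, φ 0 a = a)
    (hφs : ∀ (i : ℕ) (a : A), φ 1 (φ i a) = φ (i + 1) a)
    (hinj : ∀ i, Function.Injective (φ i))
    (M : ℕ) (hM : 0 < M) (hφM : ∀ a, φ M a = a)
    (x : FractionRing A) (hx : x ≠ 0) (hfix : Φ x = x) :
    ∃ a b : A, a ≠ 0 ∧ b ≠ 0 ∧ φ 1 a = a ∧ φ 1 b = b ∧
      x * algebraMap A (FractionRing A) b = algebraMap A (FractionRing A) a := by
  obtain ⟨a₀, b₀, hb₀, rfl⟩ := IsFractionRing.div_surjective (A := A) x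
  have hb₀' : b₀ ≠ 0 := nonZeroDivisors.ne_zero hb₀
  have halg : Function.Injective (algebraMap A (FractionRing A)) :=
    IsFractionRing.injective A (FractionRing A)
  have ha₀ : a₀ ≠ 0 := by
    rintro rfl
    simp at hx
  obtain ⟨M', rfl⟩ : ∃ M', M = M' + 1 := ⟨M - 1, by omega⟩
  set b : A := ∏ i ∈ Finset.range (M' + 1), φ i b₀ with hb
  set c : A := ∏ i ∈ Finset.range M', φ (i + 1) b₀ with hc
  have hbc : b = c * b₀ := by
    rw [hb, hc, Finset.prod_range_succ', hφ0]
  have hφb : φ 1 b = b := by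
    have h1 : φ 1 b = ∏ i ∈ Finset.range (M' + 1), φ (i + 1) b₀ := by
      rw [hb, map_prod]
      exact Finset.prod_congr rfl fun i _ => hφs i b₀
    have h2 : (∏ i ∈ Finset.range (M' + 1), φ (i + 1) b₀) * φ 0 b₀
        = (∏ i ∈ Finset.range (M' + 1), φ i b₀) * φ (M' + 1) b₀ := by
      rw [← Finset.prod_range_succ' (fun i => φ i b₀) (M' + 1),
        ← Finset.prod_range_succ (fun i => φ i b₀) (M' + 1)]
    rw [hφ0, hφM] at h2
    rw [h1]
    exact mul_right_cancel₀ hb₀' h2
  have hne : ∀ i, φ i b₀ ≠ 0 := fun i h => hb₀' (hinj i (by rw [h, map_zero]))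
  have hb0 : b ≠ 0 := Finset.prod_ne_zero_iff.mpr fun i _ => hne i
  have hc0 : c ≠ 0 := Finset.prod_ne_zero_iff.mpr fun i _ => hne (i + 1)
  have hb₀alg : algebraMap A (FractionRing A) b₀ ≠ 0 := fun h => hb₀' (halg (by rw [h, map_zero]))
  have hrel : algebraMap A (FractionRing A) a₀ / algebraMap A (FractionRing A) b₀ *
      algebraMap A (FractionRing A) b = algebraMap A (FractionRing A) (a₀ * c) := by
    rw [hbc, map_mul, map_mul]
    field_simp
  refine ⟨a₀ * c, b, mul_ne_zero ha₀ hc0, hb0, ?_, hφb, hrel⟩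
  apply halg
  rw [← hΦ, ← hrel, map_mul, hfix, hΦ, hφb]

end norm

/-! ### The fiber-datum builder -/

attribute [local instance] algKE

section builder

variable (N : ℕ)

theorem tr_inv_tr (g : SL(2, ℤ)) (a : AN N) : tr N g⁻¹ (tr N g a) = a := by
  rw [← tr_mul, inv_mul_cancel, tr_one]

theorem tr_tr_inv (g : SL(2, ℤ)) (a : AN N) : tr N g (tr N g⁻¹ a) = a := by
  rw [← tr_mul, mul_inv_cancel, tr_one]

theorem tr_pow_of_fixed (g : SL(2, ℤ)) (a : AN N) (h : tr N g a = a) (k : ℕ) :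
    tr N (g ^ k) a = a := by
  induction k with
  | zero => rw [pow_zero, tr_one]
  | succ k ih => rw [pow_succ, tr_mul, h, ih]

theorem tr_ne_zero (g : SL(2, ℤ)) {a : AN N} (ha : a ≠ 0) : tr N g a ≠ 0 := fun h =>
  ha (tr_injective N g (by rw [h, map_zero]))

/-- the subgroup of `SL₂(ℤ)` preserving a function `ν` on `AN N`. -/
theorem nu_tr_of_mem_zpowers (ν : AN N → ℚ) (g₀ : SL(2, ℤ))
    (htr : ∀ a : AN N, ν (tr N g₀ a) = ν a) {g : SL(2, ℤ)} (hg : g ∈ Subgroup.zpowers g₀)
    (a : AN N) : ν (tr N g a) = ν a := by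
  let H : Subgroup SL(2, ℤ) :=
    { carrier := {g | ∀ a : AN N, ν (tr N g a) = ν a}
      mul_mem' := fun {x y} hx hy a => by rw [tr_mul, hx, hy]
      one_mem' := fun a => by rw [tr_one]
      inv_mem' := fun {x} hx a => by
        have := hx (tr N x⁻¹ a)
        rw [tr_tr_inv] at this
        exact this.symm }
  have hle : Subgroup.zpowers g₀ ≤ H := (Subgroup.zpowers_le).mpr htr
  exact hle hg a

theorem hasFiberDatum_of [NeZero N]
    (sigma : Coset N → (FF N →ₐ[Kbar] EN N))
    (hsig : ∀ (g : SL(2, ℤ)) (γ : Coset N) (f : FF N), sigma (g • γ) f = trE N g (sigma γ f))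
    (hinj : Function.Injective sigma)
    (ν : AN N → ℚ)
    (hmul : ∀ a b : AN N, a ≠ 0 → b ≠ 0 → ν (a * b) = ν a + ν b)
    (hadd : ∀ a b : AN N, a ≠ 0 → b ≠ 0 → a + b ≠ 0 → min (ν a) (ν b) ≤ ν (a + b))
    (hconst : ∀ c : ℂ, c ≠ 0 → ν (algebraMap ℂ (AN N) c) = 0)
    (g₀ : SL(2, ℤ)) (htr : ∀ a : AN N, ν (tr N g₀ a) = ν a)
    (e : ℕ) (he : 0 < e)
    (M : ℕ) (hM : 0 < M) (hMtr : ∀ a : AN N, tr N (g₀ ^ M) a = a)
    (hMcos : ∀ γ : Coset N, (g₀ ^ M) • γ = γ)
    (hint : ∀ h : ℕ, h ∣ M → ∀ a : AN N, a ≠ 0 → tr N (g₀ ^ h) a = a →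
      ∃ k : ℤ, (h : ℚ) * ν a = (e : ℚ) * k)
    (π : FF N) (p q : AN N) (hq : q ≠ 0)
    (hπ : ∀ γ, sigma γ π * algebraMap (AN N) (EN N) q = algebraMap (AN N) (EN N) p)
    (hpq : ν p - ν q = e) (hp : p ≠ 0) :
    HasFiberDatum Kbar π (Coset N) (Subgroup.zpowers g₀) := by
  classical
  obtain ⟨w₀, hw₀mul, hw₀add, hw₀ext⟩ := S24_Val.exists_extension_fractionRing ν hmul hadd
  have hw₀ : S24_Val.IsVal w₀ := ⟨hw₀mul, hw₀add⟩
  have heQ : (0 : ℚ) < e := by exact_mod_cast he
  have halg : Function.Injective (algebraMap (AN N) (EN N)) :=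
    IsFractionRing.injective (AN N) (EN N)
  have halg0 : ∀ {a : AN N}, a ≠ 0 → algebraMap (AN N) (EN N) a ≠ 0 := fun {a} ha h =>
    ha (halg (by rw [h, map_zero]))
  -- value of `w₀` on a fraction
  have hw₀div : ∀ (x : EN N) (a b : AN N), a ≠ 0 → b ≠ 0 →
      x * algebraMap (AN N) (EN N) b = algebraMap (AN N) (EN N) a → w₀ x = ν a - ν b := by
    intro x a b ha hb hx
    have hx0 : x ≠ 0 := by
      rintro rfl
      rw [zero_mul] at hx
      exact halg0 ha hx.symm
    have := hw₀mul x _ hx0 (halg0 hb)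
    rw [hx, hw₀ext a ha, hw₀ext b hb] at this
    linarith
  have hσπ : ∀ γ, sigma γ π = algebraMap (AN N) (EN N) p / algebraMap (AN N) (EN N) q := by
    intro γ
    rw [eq_div_iff (halg0 hq)]
    exact hπ γ
  -- invariance of `w₀` under `trE g`, `g ∈ zpowers g₀`
  have hw₀tr : ∀ g ∈ Subgroup.zpowers g₀, ∀ x : EN N, w₀ (trE N g x) = w₀ x := by
    intro g hg x
    by_cases hx : x = 0
    · rw [hx, map_zero]
    obtain ⟨a, b, hb, rfl⟩ := IsFractionRing.div_surjective (A := AN N) x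
    have hb' : b ≠ 0 := nonZeroDivisors.ne_zero hb
    have ha' : a ≠ 0 := by
      rintro rfl
      simp at hx
    have h1 : trE N g (algebraMap (AN N) (EN N) a / algebraMap (AN N) (EN N) b)
        * algebraMap (AN N) (EN N) (tr N g b) = algebraMap (AN N) (EN N) (tr N g a) := by
      rw [map_div₀, trE_algebraMap, trE_algebraMap]
      exact div_mul_cancel₀ _ (halg0 (tr_ne_zero N g hb'))
    have h2 : algebraMap (AN N) (EN N) a / algebraMap (AN N) (EN N) b
        * algebraMap (AN N) (EN N) b = algebraMap (AN N) (EN N) a :=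
      div_mul_cancel₀ _ (halg0 hb')
    rw [hw₀div _ _ _ (tr_ne_zero N g ha') (tr_ne_zero N g hb') h1, hw₀div _ _ _ ha' hb' h2,
      nu_tr_of_mem_zpowers N ν g₀ htr hg, nu_tr_of_mem_zpowers N ν g₀ htr hg]
  refine ⟨EN N, inferInstance, algKE N, sigma, fun x => w₀ x / e, hinj, ?_, ?_, ?_, ?_, ?_, ?_, ?_⟩
  · intro γ γ'
    rw [hσπ γ, hσπ γ']
  · intro a b ha hb
    show w₀ (a * b) / e = w₀ a / e + w₀ b / e
    rw [hw₀mul a b ha hb, add_div]
  · intro a b ha hb hab
    show min (w₀ a / e) (w₀ b / e) ≤ w₀ (a + b) / e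
    rw [min_div_div_right heQ.le]
    exact div_le_div_of_nonneg_right (hw₀add a b ha hb hab) heQ.le
  · intro a ha
    show w₀ (algebraMap (AN N) (EN N) (algebraMap ℂ (AN N) (iotaC a))) / e = 0
    have hc : iotaC a ≠ 0 := fun h => ha (iotaC_injective (by rw [h, map_zero]))
    have hc' : algebraMap ℂ (AN N) (iotaC a) ≠ 0 := fun h =>
      hc ((algebraMap ℂ (AN N)).injective (by rw [h, map_zero]))
    rw [hw₀ext _ hc', hconst _ hc, zero_div]
  · intro γ
    show w₀ (sigma γ π) / e = 1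
    rw [hw₀div _ p q hp hq (hπ γ), hpq, div_self heQ.ne']
  · intro g γ f
    show w₀ (sigma (g • γ) f) / e = w₀ (sigma γ f) / e
    have : sigma (g • γ) f = trE N (g : SL(2, ℤ)) (sigma γ f) := hsig (g : SL(2, ℤ)) γ f
    rw [this, hw₀tr _ g.2]
  · intro γ f hf
    show ∃ k : ℤ, (Nat.card (MulAction.orbit (Subgroup.zpowers g₀) γ) : ℚ)
      * (w₀ (sigma γ f) / e) = k
    set h : ℕ := Function.minimalPeriod (g₀ • ·) γ with hh
    have hcard : Nat.card (MulAction.orbit (Subgroup.zpowers g₀) γ) = h := by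
      have h1 := Nat.card_congr (MulAction.orbitZPowersEquiv g₀ γ)
      rw [Nat.card_zmod] at h1
      exact h1
    have hper : Function.IsPeriodicPt (g₀ • ·) M γ := by
      show (g₀ • ·)^[M] γ = γ
      rw [smul_iterate]
      exact hMcos γ
    have hdvd : h ∣ M := hper.minimalPeriod_dvd
    have hfixγ : g₀ ^ h • γ = γ := by
      have := Function.isPeriodicPt_minimalPeriod (g₀ • ·) γ
      rw [Function.IsPeriodicPt, Function.IsFixedPt, smul_iterate] at this
      exact this
    set x : EN N := sigma γ f with hx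
    have hx0 : x ≠ 0 := by
      intro h0
      apply hf
      exact (sigma γ).toRingHom.injective (by rw [AlgHom.toRingHom_eq_coe, RingHom.coe_coe, ← hx, h0, map_zero])
    have hxfix : trE N (g₀ ^ h) x = x := by
      rw [hx, ← hsig, hfixγ]
    obtain ⟨a, b, ha, hb, hfa, hfb, hrel⟩ := exists_fixed_fraction
      (fun i => (tr N ((g₀ ^ h) ^ i)).toRingHom) (trE N (g₀ ^ h))
      (fun a => by rw [trE_algebraMap, pow_one]; rfl)
      (fun a => by
        show tr N ((g₀ ^ h) ^ 0) a = a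
        rw [pow_zero, tr_one])
      (fun i a => by
        show tr N ((g₀ ^ h) ^ 1) (tr N ((g₀ ^ h) ^ i) a) = tr N ((g₀ ^ h) ^ (i + 1)) a
        rw [← tr_mul, ← pow_add, add_comm])
      (fun i => tr_injective N _) M hM
      (fun a => by
        show tr N ((g₀ ^ h) ^ M) a = a
        rw [← pow_mul, mul_comm, pow_mul]
        exact tr_pow_of_fixed N _ a (hMtr a) h)
      x hx0 hxfix
    have hfa' : tr N (g₀ ^ h) a = a := by
      have : tr N ((g₀ ^ h) ^ 1) a = a := hfa
      rwa [pow_one] at this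
    have hfb' : tr N (g₀ ^ h) b = b := by
      have : tr N ((g₀ ^ h) ^ 1) b = b := hfb
      rwa [pow_one] at this
    obtain ⟨ka, hka⟩ := hint h hdvd a ha hfa'
    obtain ⟨kb, hkb⟩ := hint h hdvd b hb hfb'
    refine ⟨ka - kb, ?_⟩
    rw [hcard, hw₀div x a b ha hb hrel]
    push_cast
    field_simp
    linear_combination hka - hkb

end builder

end Fermat.Agent.S24_LocalAux

end
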