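import Mathlib

/-!
# S24_Perm: the Euler characteristic of a triple of permutations

For a group `G` acting on a finite set `X` and `a b c : G` with `a * b * c` acting trivially and
`⟨a, b⟩` transitive, the number `|X| - #orb(a) - #orb(b) - #orb(c)` is of the form `2g - 2` with
`g : ℕ` (Riemann–Hurwitz / Ree–Scott).  Parity comes from signs of permutations, the bound from
linear algebra on `X → ℚ`.
-/

set_option autoImplicit false

namespace Fermat.Agent.S24_Perm

open MulAction Module

section Linear

variable {G X : Type*} [Group G] [MulAction G X]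

/-- The coboundary map `f ↦ f - f ∘ (g • ·)` on `X → ℚ`. -/
def dmap (g : G) : (X → ℚ) →ₗ[ℚ] (X → ℚ) where
  toFun f := fun x => f x - f (g • x)
  map_add' f f' := by funext x; simp; ring
  map_smul' r f := by funext x; simp; ring

@[simp] theorem dmap_apply (g : G) (f : X → ℚ) (x : X) : dmap g f x = f x - f (g • x) := rfl

theorem mem_ker_dmap {g : G} {f : X → ℚ} :
    f ∈ LinearMap.ker (dmap g) ↔ ∀ x, f (g • x) = f x := by
  rw [LinearMap.mem_ker]
  constructor
  · intro h x
    have := congrFun h x
    simp only [dmap_apply, Pi.zero_apply] at this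
    linarith
  · intro h
    funext x
    simp [h x]

theorem invariant_zpow {g : G} {f : X → ℚ} (h : ∀ x, f (g • x) = f x) (k : ℤ) (x : X) :
    f (g ^ k • x) = f x := by
  induction k using Int.induction_on generalizing x with
  | zero => simp
  | succ n ih =>
    rw [zpow_add_one, mul_smul, ih, h]
  | pred n ih =>
    rw [zpow_sub_one, mul_smul, ih]
    have := h (g⁻¹ • x)
    rw [smul_inv_smul] at this
    exact this.symm

/-- Invariant functions are the functions on the orbit space. -/
def kerEquiv (g : G) :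
    LinearMap.ker (dmap (X := X) g) ≃ₗ[ℚ] (orbitRel.Quotient (Subgroup.zpowers g) X → ℚ) where
  toFun f := Quotient.lift (f : X → ℚ) (by
    intro x y hxy
    have hxy' : x ∈ orbit (Subgroup.zpowers g) y := hxy
    obtain ⟨⟨h, hh⟩, rfl⟩ := hxy'
    obtain ⟨k, rfl⟩ := Subgroup.mem_zpowers_iff.mp hh
    exact invariant_zpow (mem_ker_dmap.mp f.2) k y)
  map_add' f f' := by
    funext q
    induction q using Quotient.inductionOn with
    | h x => rfl
  map_smul' r f := by
    funext q
    induction q using Quotient.inductionOn with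
    | h x => rfl
  invFun h := ⟨fun x => h (Quotient.mk'' x), mem_ker_dmap.mpr fun x => by
    congr 1
    apply Quotient.sound
    show g • x ∈ orbit (Subgroup.zpowers g) x
    exact ⟨⟨g, Subgroup.mem_zpowers g⟩, rfl⟩⟩
  left_inv f := by
    ext x
    rfl
  right_inv h := by
    funext q
    induction q using Quotient.inductionOn with
    | h x => rfl

variable [Finite X]

theorem finrank_ker_dmap (g : G) :
    finrank ℚ (LinearMap.ker (dmap (X := X) g))
      = Nat.card (orbitRel.Quotient (Subgroup.zpowers g) X) := by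
  classical
  have : Fintype (orbitRel.Quotient (Subgroup.zpowers g) X) := Fintype.ofFinite _
  rw [(kerEquiv g).finrank_eq, Module.finrank_fintype_fun_eq_card, Nat.card_eq_fintype_card]

theorem finrank_fun : finrank ℚ (X → ℚ) = Nat.card X := by
  classical
  have : Fintype X := Fintype.ofFinite _
  rw [Module.finrank_fintype_fun_eq_card, Nat.card_eq_fintype_card]

theorem finrank_range_dmap (g : G) :
    finrank ℚ (LinearMap.range (dmap (X := X) g))
      + Nat.card (orbitRel.Quotient (Subgroup.zpowers g) X) = Nat.card X := by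
  have : Fintype X := Fintype.ofFinite _
  rw [← finrank_ker_dmap, ← finrank_fun]
  exact LinearMap.finrank_range_add_finrank_ker (dmap g)

omit [Finite X] in
/-- `e_x - e_{g x}` lies in the range of `dmap g`. -/
theorem single_sub_single_mem_range [DecidableEq X] (g : G) (x : X) :
    (Pi.single x (1 : ℚ) - Pi.single (g • x) (1 : ℚ) : X → ℚ) ∈ LinearMap.range (dmap g) := by
  refine ⟨-Pi.single (g • x) (1 : ℚ), ?_⟩
  funext y
  simp only [dmap_apply, Pi.neg_apply, Pi.sub_apply, Pi.single_apply, smul_left_cancel_iff]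
  ring

/-- The key inequality: `#orb(c) ≤ |X| + 2 - #orb(a) - #orb(b)`. -/
theorem orbits_add_le [Nonempty X] (a b c : G) (habc : ∀ x : X, (a * b * c) • x = x)
    (htrans : ∀ x y : X, ∃ g ∈ Subgroup.closure ({a, b} : Set G), g • x = y) :
    Nat.card (orbitRel.Quotient (Subgroup.zpowers a) X)
      + Nat.card (orbitRel.Quotient (Subgroup.zpowers b) X)
      + Nat.card (orbitRel.Quotient (Subgroup.zpowers c) X) ≤ Nat.card X + 2 := by
  classical
  have : Fintype X := Fintype.ofFinite _
  obtain ⟨x₀⟩ := ‹Nonempty X›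
  set A := LinearMap.range (dmap (X := X) a) with hA
  set B := LinearMap.range (dmap (X := X) b) with hB
  set Z := LinearMap.ker (dmap (X := X) c) with hZ
  -- the identity `f (a • b • x) = f x` for `c`-invariant `f`
  have hab : ∀ f ∈ Z, ∀ x, f (a • b • x) = f x := by
    intro f hf x
    have hc := mem_ker_dmap.mp hf
    have h1 := habc (c⁻¹ • x)
    rw [mul_smul, mul_smul, smul_inv_smul] at h1
    rw [h1]
    have h2 := hc (c⁻¹ • x)
    rw [smul_inv_smul] at h2
    exact h2.symm
  -- (iii) `A ⊔ B` has codimension at most one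
  have hdiff : ∀ g ∈ Subgroup.closure ({a, b} : Set G), ∀ x : X,
      (Pi.single x (1 : ℚ) - Pi.single (g • x) (1 : ℚ) : X → ℚ) ∈ A ⊔ B := by
    intro g hg
    induction hg using Subgroup.closure_induction with
    | mem g hg =>
      intro x
      rcases hg with rfl | rfl
      · exact Submodule.mem_sup_left (single_sub_single_mem_range _ x)
      · exact Submodule.mem_sup_right (single_sub_single_mem_range _ x)
    | one => intro x; simp
    | mul g h _ _ ihg ihh =>
      intro x
      have h1 := ihh x
      have h2 := ihg (h • x)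
      have := Submodule.add_mem _ h1 h2
      rw [mul_smul]
      convert this using 1
      abel
    | inv g _ ihg =>
      intro x
      have h1 := ihg (g⁻¹ • x)
      rw [smul_inv_smul] at h1
      have := Submodule.neg_mem _ h1
      convert this using 1
      abel
  have htop : (⊤ : Submodule ℚ (X → ℚ)) ≤ (A ⊔ B) ⊔ Submodule.span ℚ {Pi.single x₀ (1 : ℚ)} := by
    intro f _
    have hf : f = ∑ x, f x • (Pi.single x (1 : ℚ) : X → ℚ) := by
      funext y
      simp [Finset.sum_apply, Pi.single_apply]
    rw [hf]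
    refine Submodule.sum_mem _ fun x _ => Submodule.smul_mem _ _ ?_
    obtain ⟨g, hg, hgx⟩ := htrans x₀ x
    have h1 := hdiff g hg x₀
    rw [hgx] at h1
    have h2 : (Pi.single x₀ (1 : ℚ) : X → ℚ) ∈ Submodule.span ℚ {Pi.single x₀ (1 : ℚ)} :=
      Submodule.subset_span rfl
    have : (Pi.single x (1 : ℚ) : X → ℚ)
        = -(Pi.single x₀ (1 : ℚ) - Pi.single x (1 : ℚ)) + Pi.single x₀ (1 : ℚ) := by abel
    rw [this]
    exact Submodule.add_mem _ (Submodule.mem_sup_left (Submodule.neg_mem _ h1))
      (Submodule.mem_sup_right h2)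
  have hsup : Nat.card X ≤ finrank ℚ ↥(A ⊔ B) + 1 := by
    have h1 : finrank ℚ (X → ℚ) ≤ finrank ℚ ↥((A ⊔ B) ⊔ Submodule.span ℚ {Pi.single x₀ (1 : ℚ)}) := by
      rw [← finrank_top ℚ (X → ℚ)]
      exact Submodule.finrank_mono htop
    have h2 := Submodule.finrank_add_le_finrank_add_finrank (A ⊔ B)
      (Submodule.span ℚ {(Pi.single x₀ (1 : ℚ) : X → ℚ)})
    have h3 : finrank ℚ ↥(Submodule.span ℚ {(Pi.single x₀ (1 : ℚ) : X → ℚ)}) ≤ 1 := by
      have hne : (Pi.single x₀ (1 : ℚ) : X → ℚ) ≠ 0 := by
        intro h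
        have := congrFun h x₀
        simp at this
      exact (finrank_span_singleton hne).le
    rw [finrank_fun] at h1
    omega
  -- (i) `finrank Z ≤ 1 + finrank (A ⊓ B)`
  let φ : Z →ₗ[ℚ] (X → ℚ) := (dmap a).domRestrict Z
  have hrange : LinearMap.range φ ≤ A ⊓ B := by
    rintro _ ⟨⟨f, hf⟩, rfl⟩
    refine ⟨⟨f, rfl⟩, ⟨-(fun x => f (a • x)), ?_⟩⟩
    funext x
    show -(f (a • x)) - -(f (a • b • x)) = f x - f (a • x)
    rw [hab f hf x]
    ring
  have hconst : ∀ f ∈ Z, dmap a f = 0 → ∀ x, f x = f x₀ := by
    intro f hf hfa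
    have ha : ∀ x, f (a • x) = f x := mem_ker_dmap.mp (LinearMap.mem_ker.mpr hfa)
    have hb : ∀ x, f (b • x) = f x := by
      intro x
      rw [← ha (b • x), hab f hf x]
    have hinv : ∀ g ∈ Subgroup.closure ({a, b} : Set G), ∀ x, f (g • x) = f x := by
      intro g hg
      induction hg using Subgroup.closure_induction with
      | mem g hg =>
        rcases hg with rfl | rfl
        · exact ha
        · exact hb
      | one => intro x; simp
      | mul g h _ _ ihg ihh => intro x; rw [mul_smul, ihg, ihh]
      | inv g _ ihg =>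
        intro x
        have := ihg (g⁻¹ • x)
        rw [smul_inv_smul] at this
        exact this.symm
    intro x
    obtain ⟨g, hg, hgx⟩ := htrans x₀ x
    rw [← hgx, hinv g hg]
  have hker : finrank ℚ (LinearMap.ker φ) ≤ 1 := by
    let ψ : LinearMap.ker φ →ₗ[ℚ] ℚ :=
      (LinearMap.proj x₀ : (X → ℚ) →ₗ[ℚ] ℚ) ∘ₗ Z.subtype ∘ₗ (LinearMap.ker φ).subtype
    have hinj : Function.Injective ψ := by
      rintro ⟨⟨f, hf⟩, hfφ⟩ ⟨⟨f', hf'⟩, hfφ'⟩ h0
      have h0' : f x₀ = f' x₀ := h0
      have h1 : dmap a f = 0 := LinearMap.mem_ker.mp hfφ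
      have h2 : dmap a f' = 0 := LinearMap.mem_ker.mp hfφ'
      have hff : f = f' := by
        funext x
        rw [hconst f hf h1 x, hconst f' hf' h2 x, h0']
      exact Subtype.ext (Subtype.ext hff)
    have := LinearMap.finrank_le_finrank_of_injective hinj
    simpa using this
  have hZ1 : finrank ℚ Z ≤ finrank ℚ ↥(A ⊓ B) + 1 := by
    have h1 := LinearMap.finrank_range_add_finrank_ker φ
    have h2 : finrank ℚ (LinearMap.range φ) ≤ finrank ℚ ↥(A ⊓ B) := Submodule.finrank_mono hrange
    omega
  -- (ii)
  have hAB := Submodule.finrank_sup_add_finrank_inf_eq A B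
  have hA' := finrank_range_dmap (X := X) a
  have hB' := finrank_range_dmap (X := X) b
  have hZ' := finrank_ker_dmap (X := X) c
  rw [← hA] at hA'
  rw [← hB] at hB'
  rw [← hZ] at hZ'
  omega

end Linear

section Parity

variable {X : Type*} [Fintype X] [DecidableEq X]

/-- Classifier of the cycles of a permutation: fixed points, resp. nontrivial cycles. -/
def cls (σ : Equiv.Perm X) (x : X) : X ⊕ Equiv.Perm X :=
  if σ x = x then Sum.inl x else Sum.inr (σ.cycleOf x)

theorem cls_eq_iff (σ : Equiv.Perm X) (x y : X) : cls σ x = cls σ y ↔ σ.SameCycle x y := by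
  constructor
  · intro h
    by_cases hx : σ x = x <;> by_cases hy : σ y = y
    · simp only [cls, hx, hy, if_true] at h
      rw [Sum.inl.injEq] at h
      rw [h]
    · simp [cls, hx, hy] at h
    · simp [cls, hx, hy] at h
    · simp only [cls, hx, hy, if_false] at h
      rw [Sum.inr.injEq] at h
      have hy' : y ∈ (σ.cycleOf y).support :=
        Equiv.Perm.mem_support_cycleOf_iff.mpr ⟨Equiv.Perm.SameCycle.refl σ y,
          Equiv.Perm.mem_support.mpr hy⟩
      rw [← h] at hy'
      exact (Equiv.Perm.mem_support_cycleOf_iff.mp hy').1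
  · intro h
    by_cases hx : σ x = x
    · have hy : σ y = y := h.apply_eq_self_iff.mp hx
      have : x = y := h.eq_of_left hx
      simp [cls, this]
    · have hy : ¬ σ y = y := fun hy => hx (h.apply_eq_self_iff.mpr hy)
      simp [cls, hx, hy, h.cycleOf_eq]

theorem range_cls (σ : Equiv.Perm X) :
    Set.range (cls σ) = ↑((Finset.univ.filter fun x => σ x = x).disjSum σ.cycleFactorsFinset) := by
  ext z
  simp only [Set.mem_range, Finset.mem_coe, Finset.mem_disjSum, Finset.mem_filter,
    Finset.mem_univ, true_and]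
  constructor
  · rintro ⟨x, rfl⟩
    by_cases hx : σ x = x
    · left; exact ⟨x, hx, by simp [cls, hx]⟩
    · right
      exact ⟨σ.cycleOf x, Equiv.Perm.cycleOf_mem_cycleFactorsFinset_iff.mpr
        (Equiv.Perm.mem_support.mpr hx), by simp [cls, hx]⟩
  · rintro (⟨x, hx, rfl⟩ | ⟨c, hc, rfl⟩)
    · exact ⟨x, by simp [cls, hx]⟩
    · obtain ⟨x, hx⟩ := (Equiv.Perm.mem_cycleFactorsFinset_iff.mp hc).1.nonempty_support
      have hcx : c = σ.cycleOf x := Equiv.Perm.cycle_is_cycleOf hx hc
      have hx' : σ x ≠ x := by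
        have := Equiv.Perm.cycleOf_mem_cycleFactorsFinset_iff.mp (hcx ▸ hc)
        exact Equiv.Perm.mem_support.mp this
      exact ⟨x, by simp [cls, hx', hcx]⟩

/-- The number of cycles (including fixed points) of a permutation. -/
theorem card_sameCycle_quotient (σ : Equiv.Perm X) :
    Nat.card (Quotient (Equiv.Perm.SameCycle.setoid σ)) + σ.support.card
      = Fintype.card X + Multiset.card σ.cycleType := by
  have hker : Equiv.Perm.SameCycle.setoid σ = Setoid.ker (cls σ) := by
    ext x y
    exact (cls_eq_iff σ x y).symm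
  have h1 : Nat.card (Quotient (Equiv.Perm.SameCycle.setoid σ))
      = ((Finset.univ.filter fun x => σ x = x).disjSum σ.cycleFactorsFinset).card := by
    rw [hker, Nat.card_congr (Setoid.quotientKerEquivRange (cls σ)), Nat.card_coe_set_eq,
      range_cls, Set.ncard_coe_finset]
  have h2 : (Finset.univ.filter fun x => σ x = x).card + σ.support.card = Fintype.card X := by
    have : (Finset.univ.filter fun x => σ x = x) = σ.supportᶜ := by
      ext x
      simp [Equiv.Perm.mem_support]
    rw [this, Finset.card_compl]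
    have := Finset.card_le_univ σ.support
    omega
  have h3 : Multiset.card σ.cycleType = σ.cycleFactorsFinset.card := by
    rw [Equiv.Perm.cycleType_def, Multiset.card_map]
    rfl
  rw [h1, Finset.card_disjSum, h3]
  omega

/-- `sign σ = (-1) ^ (|X| + #cycles)`. -/
theorem sign_eq_neg_one_pow (σ : Equiv.Perm X) :
    Equiv.Perm.sign σ
      = (-1) ^ (Fintype.card X + Nat.card (Quotient (Equiv.Perm.SameCycle.setoid σ))) := by
  have h := card_sameCycle_quotient σ
  rw [Equiv.Perm.sign_of_cycleType, Equiv.Perm.sum_cycleType]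
  have e : Fintype.card X + Nat.card (Quotient (Equiv.Perm.SameCycle.setoid σ))
      + 2 * σ.support.card
      = σ.support.card + Multiset.card σ.cycleType + 2 * Fintype.card X := by omega
  have e1 : ((-1 : ℤˣ)) ^ (Fintype.card X + Nat.card (Quotient (Equiv.Perm.SameCycle.setoid σ))
      + 2 * σ.support.card)
      = (-1) ^ (Fintype.card X + Nat.card (Quotient (Equiv.Perm.SameCycle.setoid σ))) := by
    rw [pow_add, pow_mul]; simp
  have e2 : ((-1 : ℤˣ)) ^ (σ.support.card + Multiset.card σ.cycleType + 2 * Fintype.card X)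
      = (-1) ^ (σ.support.card + Multiset.card σ.cycleType) := by
    rw [pow_add, pow_mul]; simp
  rw [← e1, e, e2]

end Parity

section Main

variable {G X : Type*} [Group G] [MulAction G X]

theorem toPerm_zpow_apply (g : G) (i : ℤ) (x : X) :
    ((MulAction.toPerm g : Equiv.Perm X) ^ i) x = g ^ i • x := by
  have := map_zpow (MulAction.toPermHom G X) g i
  rw [MulAction.toPermHom_apply, MulAction.toPermHom_apply] at this
  rw [← this]; rfl

theorem card_orbits_eq (g : G) :
    Nat.card (orbitRel.Quotient (Subgroup.zpowers g) X)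
      = Nat.card (Quotient (Equiv.Perm.SameCycle.setoid (MulAction.toPerm g : Equiv.Perm X))) := by
  refine Nat.card_congr (Quotient.congr (Equiv.refl X) fun x y => ?_)
  show x ∈ orbit (Subgroup.zpowers g) y ↔ (MulAction.toPerm g : Equiv.Perm X).SameCycle x y
  constructor
  · rintro ⟨⟨h, hh⟩, rfl⟩
    obtain ⟨k, rfl⟩ := Subgroup.mem_zpowers_iff.mp hh
    refine ⟨-k, ?_⟩
    rw [toPerm_zpow_apply]
    show g ^ (-k) • (g ^ k • y) = y
    rw [zpow_neg, inv_smul_smul]
  · rintro ⟨i, hi⟩
    rw [toPerm_zpow_apply] at hi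
    refine ⟨⟨g ^ (-i), Subgroup.zpow_mem_zpowers g (-i)⟩, ?_⟩
    show g ^ (-i) • y = x
    rw [← hi, zpow_neg, inv_smul_smul]

variable [Finite X]

/-- **Euler characteristic of a triple of permutations** (Riemann–Hurwitz, Ree–Scott):
if `a * b * c` acts trivially on the finite set `X` and `⟨a, b⟩` acts transitively, then
`|X| - #orb(a) - #orb(b) - #orb(c) = 2g - 2` for some natural number `g`. -/
theorem euler_char (a b c : G) (habc : ∀ x : X, (a * b * c) • x = x)
    (htrans : ∀ x y : X, ∃ g ∈ Subgroup.closure ({a, b} : Set G), g • x = y) :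
    ∃ g : ℕ, (Nat.card X : ℤ) - Nat.card (orbitRel.Quotient (Subgroup.zpowers a) X)
      - Nat.card (orbitRel.Quotient (Subgroup.zpowers b) X)
      - Nat.card (orbitRel.Quotient (Subgroup.zpowers c) X) = 2 * (g : ℤ) - 2 := by
  classical
  have : Fintype X := Fintype.ofFinite _
  -- parity from signs
  have hsign : Equiv.Perm.sign (MulAction.toPerm a : Equiv.Perm X)
      * Equiv.Perm.sign (MulAction.toPerm b : Equiv.Perm X)
      * Equiv.Perm.sign (MulAction.toPerm c : Equiv.Perm X) = 1 := by
    rw [← map_mul, ← map_mul]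
    have h1 : (MulAction.toPerm a : Equiv.Perm X) * MulAction.toPerm b * MulAction.toPerm c
        = 1 := by
      ext x
      have := habc x
      rw [mul_smul, mul_smul] at this
      exact this
    rw [h1, map_one]
  rw [sign_eq_neg_one_pow, sign_eq_neg_one_pow, sign_eq_neg_one_pow, ← card_orbits_eq,
    ← card_orbits_eq, ← card_orbits_eq, ← pow_add, ← pow_add, ← Nat.card_eq_fintype_card] at hsign
  have hev : Even (Nat.card X + Nat.card (orbitRel.Quotient (Subgroup.zpowers a) X)
      + (Nat.card X + Nat.card (orbitRel.Quotient (Subgroup.zpowers b) X))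
      + (Nat.card X + Nat.card (orbitRel.Quotient (Subgroup.zpowers c) X))) := by
    by_contra hodd
    rw [Nat.not_even_iff_odd] at hodd
    rw [hodd.neg_one_pow] at hsign
    exact absurd hsign (by decide)
  obtain ⟨m, hm⟩ := hev
  rcases isEmpty_or_nonempty X with hX | hX
  · have h0 : Nat.card X = 0 := Nat.card_eq_zero.mpr (Or.inl hX)
    have hq : ∀ g : G, Nat.card (orbitRel.Quotient (Subgroup.zpowers g) X) = 0 := by
      intro g
      have : IsEmpty (orbitRel.Quotient (Subgroup.zpowers g) X) :=
        ⟨fun q => Quotient.inductionOn q fun x => hX.false x⟩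
      exact Nat.card_eq_zero.mpr (Or.inl this)
    refine ⟨1, ?_⟩
    rw [h0, hq a, hq b, hq c]
    norm_num
  · have hle := orbits_add_le a b c habc htrans
    refine ⟨(Nat.card X + 2 - (Nat.card (orbitRel.Quotient (Subgroup.zpowers a) X)
      + Nat.card (orbitRel.Quotient (Subgroup.zpowers b) X)
      + Nat.card (orbitRel.Quotient (Subgroup.zpowers c) X))) / 2, ?_⟩
    omega

end Main

end Fermat.Agent.S24_Perm
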