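import Mathlib
import Fermat.Prelude.Def_ModularCurve_IgusaScheme

/-!
# S28, scheme glue: integrality of the base change of the Igusa scheme from ring-level facts

The Igusa scheme is glued from the spectra of the two chart algebras `chartAlgFin`, `chartAlgInf`
along the spectrum of `chartAlgMid`.  Its base change to a field `K` is integral as soon as
the two chart algebras tensored with `K` are domains and the middle one is nontrivial.
-/

set_option autoImplicit false

open AlgebraicGeometry CategoryTheory CategoryTheory.Limits ModularCurve ModularCurve.IgusaScheme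
open TensorProduct

noncomputable section

namespace Fermat.Agent.S28_Glue

section Topology

variable {X : Type*} [TopologicalSpace X]

/-- A space covered by two irreducible subsets, one of them open, which meet, is irreducible. -/
theorem irreducibleSpace_of_union {U V : Set X} (hU : IsIrreducible U) (hV : IsIrreducible V)
    (hUo : IsOpen U) (hUV : (U ∩ V).Nonempty) (hcov : U ∪ V = Set.univ) :
    IrreducibleSpace X := by
  have hVU : V ⊆ closure U := by
    intro x hx
    rw [mem_closure_iff]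
    intro W hW hxW
    obtain ⟨y, hyV, hyW, hyU⟩ := hV.2 W U hW hUo ⟨x, hx, hxW⟩
      (by obtain ⟨z, hzU, hzV⟩ := hUV; exact ⟨z, hzV, hzU⟩)
    exact ⟨y, hyW, hyU⟩
  have hcl : closure U = Set.univ := by
    apply Set.eq_univ_of_univ_subset
    rw [← hcov]
    exact Set.union_subset subset_closure hVU
  rw [irreducibleSpace_def]
  have := hU.closure
  rwa [hcl] at this

end Topology

section Scheme

variable (N : ℕ) [NeZero N] (ℓ : ℕ) [Fact ℓ.Prime] (K : Type) [Field K]
  [Algebra ↥(GaloisRep.ratLocalizedAt ℓ) K]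

/-- The base morphism `Spec K ⟶ Spec ℤ_(ℓ)`. -/
abbrev baseK : Spec (CommRingCat.of K) ⟶ Spec (CommRingCat.of ↥(GaloisRep.ratLocalizedAt ℓ)) :=
  Spec.map (CommRingCat.ofHom (algebraMap ↥(GaloisRep.ratLocalizedAt ℓ) K))

/-- The base change of the Igusa scheme. -/
abbrev XK : Scheme.{0} := pullback (igusaTo N ℓ) (baseK ℓ K)

/-- The projection of the base change to the Igusa scheme. -/
abbrev πK : XK N ℓ K ⟶ ModularCurve.IgusaScheme N ℓ := pullback.fst (igusaTo N ℓ) (baseK ℓ K)

/-- The preimage in the base change of an affine piece `Spec S ⟶ IgusaScheme` over `ℤ_(ℓ)` is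
`Spec (S ⊗ K)`. -/
def pieceIso {S : Type} [CommRing S] [Algebra ↥(GaloisRep.ratLocalizedAt ℓ) S]
    (h : Spec (CommRingCat.of S) ⟶ ModularCurve.IgusaScheme N ℓ)
    (hh : h ≫ igusaTo N ℓ =
      Spec.map (CommRingCat.ofHom (algebraMap ↥(GaloisRep.ratLocalizedAt ℓ) S))) :
    pullback h (πK N ℓ K) ≅ Spec (CommRingCat.of (S ⊗[↥(GaloisRep.ratLocalizedAt ℓ)] K)) :=
  pullbackRightPullbackFstIso (igusaTo N ℓ) (baseK ℓ K) h ≪≫ pullback.congrHom hh rfl ≪≫
    pullbackSpecIso ↥(GaloisRep.ratLocalizedAt ℓ) S K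

theorem mid_base : (fFin N ℓ ≫ ιFin N ℓ) ≫ igusaTo N ℓ =
    Spec.map (CommRingCat.ofHom (algebraMap ↥(GaloisRep.ratLocalizedAt ℓ) (chartAlgMid N ℓ))) := by
  rw [Category.assoc, ιFin_igusaTo, ← Spec.map_comp, ← CommRingCat.ofHom_comp]
  congr 2

theorem isIntegral_piece {S : Type} [CommRing S] [Algebra ↥(GaloisRep.ratLocalizedAt ℓ) S]
    (h : Spec (CommRingCat.of S) ⟶ ModularCurve.IgusaScheme N ℓ)
    (hh : h ≫ igusaTo N ℓ =
      Spec.map (CommRingCat.ofHom (algebraMap ↥(GaloisRep.ratLocalizedAt ℓ) S)))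
    (hS : IsDomain (S ⊗[↥(GaloisRep.ratLocalizedAt ℓ)] K)) :
    IsIntegral (pullback h (πK N ℓ K)) := by
  have : IsDomain (CommRingCat.of (S ⊗[↥(GaloisRep.ratLocalizedAt ℓ)] K)) := hS
  exact IsIntegral.of_isIso (pieceIso N ℓ K h hh).inv

theorem nonempty_piece {S : Type} [CommRing S] [Algebra ↥(GaloisRep.ratLocalizedAt ℓ) S]
    (h : Spec (CommRingCat.of S) ⟶ ModularCurve.IgusaScheme N ℓ)
    (hh : h ≫ igusaTo N ℓ =
      Spec.map (CommRingCat.ofHom (algebraMap ↥(GaloisRep.ratLocalizedAt ℓ) S)))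
    (hS : Nontrivial (S ⊗[↥(GaloisRep.ratLocalizedAt ℓ)] K)) :
    Nonempty (pullback h (πK N ℓ K) : Scheme.{0}) := by
  have hne : Nonempty (Spec (CommRingCat.of (S ⊗[↥(GaloisRep.ratLocalizedAt ℓ)] K))) := by
    show Nonempty (PrimeSpectrum (S ⊗[↥(GaloisRep.ratLocalizedAt ℓ)] K))
    infer_instance
  exact Nonempty.map (pieceIso N ℓ K h hh).inv.base hne

/-- **Scheme glue for S28**: the base change of the Igusa scheme to `K` is integral as soon as the
two chart algebras tensored with `K` are domains and the middle chart algebra tensored with `K`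
is nontrivial. -/
theorem isIntegral_pullback_igusaTo
    (hFin : IsDomain (chartAlgFin N ℓ ⊗[↥(GaloisRep.ratLocalizedAt ℓ)] K))
    (hInf : IsDomain (chartAlgInf N ℓ ⊗[↥(GaloisRep.ratLocalizedAt ℓ)] K))
    (hMid : Nontrivial (chartAlgMid N ℓ ⊗[↥(GaloisRep.ratLocalizedAt ℓ)] K)) :
    IsIntegral ↑(pullback (igusaTo N ℓ)
      (Spec.map (CommRingCat.ofHom (algebraMap ↥(GaloisRep.ratLocalizedAt ℓ) K)))) := by
  have i1 : IsIntegral (pullback (ιFin N ℓ) (πK N ℓ K)) :=
    isIntegral_piece N ℓ K (ιFin N ℓ) (ιFin_igusaTo N ℓ) hFin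
  have i2 : IsIntegral (pullback (ιInf N ℓ) (πK N ℓ K)) :=
    isIntegral_piece N ℓ K (ιInf N ℓ) (ιInf_igusaTo N ℓ) hInf
  have i3 : Nonempty (pullback (fFin N ℓ ≫ ιFin N ℓ) (πK N ℓ K) : Scheme.{0}) :=
    nonempty_piece N ℓ K (fFin N ℓ ≫ ιFin N ℓ) (mid_base N ℓ) hMid
  have hr1 : Set.range (pullback.snd (ιFin N ℓ) (πK N ℓ K)) =
      (πK N ℓ K) ⁻¹' Set.range (ιFin N ℓ) := Scheme.Pullback.range_snd _ _
  have hr2 : Set.range (pullback.snd (ιInf N ℓ) (πK N ℓ K)) =
      (πK N ℓ K) ⁻¹' Set.range (ιInf N ℓ) := Scheme.Pullback.range_snd _ _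
  have hcov : Set.range (pullback.snd (ιFin N ℓ) (πK N ℓ K)) ∪
      Set.range (pullback.snd (ιInf N ℓ) (πK N ℓ K)) = Set.univ := by
    rw [hr1, hr2]
    ext x
    simp only [Set.mem_union, Set.mem_preimage, Set.mem_univ, iff_true]
    exact mem_range_ιFin_or_mem_range_ιInf N ℓ _
  have hirr : IrreducibleSpace (XK N ℓ K) := by
    refine irreducibleSpace_of_union
      (U := Set.range (pullback.snd (ιFin N ℓ) (πK N ℓ K)))
      (V := Set.range (pullback.snd (ιInf N ℓ) (πK N ℓ K))) ?_ ?_ ?_ ?_ hcov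
    · rw [← Set.image_univ]
      exact (IrreducibleSpace.isIrreducible_univ _).image _
        (pullback.snd (ιFin N ℓ) (πK N ℓ K)).continuous.continuousOn
    · rw [← Set.image_univ]
      exact (IrreducibleSpace.isIrreducible_univ _).image _
        (pullback.snd (ιInf N ℓ) (πK N ℓ K)).continuous.continuousOn
    · exact (pullback.snd (ιFin N ℓ) (πK N ℓ K)).isOpenEmbedding.isOpen_range
    · obtain ⟨z⟩ := i3
      refine ⟨(pullback.snd (fFin N ℓ ≫ ιFin N ℓ) (πK N ℓ K)) z, ?_, ?_⟩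
      · rw [hr1]
        refine ⟨(fFin N ℓ) ((pullback.fst (fFin N ℓ ≫ ιFin N ℓ) (πK N ℓ K)) z), ?_⟩
        rw [← Scheme.Hom.comp_apply, ← Scheme.Hom.comp_apply, ← Scheme.Hom.comp_apply,
          ← pullback.condition]
      · rw [hr2]
        refine ⟨(fInf N ℓ) ((pullback.fst (fFin N ℓ ≫ ιFin N ℓ) (πK N ℓ K)) z), ?_⟩
        rw [← Scheme.Hom.comp_apply, ← Scheme.Hom.comp_apply, ← Scheme.Hom.comp_apply,
          ← pullback.condition, ← glue_condition]
  have hred : IsReduced (XK N ℓ K) := by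
    have hU : TopologicalSpace.IsOpenCover (fun b : Bool =>
        cond b (pullback.snd (ιFin N ℓ) (πK N ℓ K)).opensRange
          (pullback.snd (ιInf N ℓ) (πK N ℓ K)).opensRange) := by
      show ⨆ b : Bool, cond b (pullback.snd (ιFin N ℓ) (πK N ℓ K)).opensRange
          (pullback.snd (ιInf N ℓ) (πK N ℓ K)).opensRange = ⊤
      rw [← SetLike.coe_set_eq]
      apply Set.eq_univ_of_univ_subset
      rw [← hcov]
      rintro x (hx | hx)
      · exact TopologicalSpace.Opens.mem_iSup.mpr ⟨true, hx⟩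
      · exact TopologicalSpace.Opens.mem_iSup.mpr ⟨false, hx⟩
    have hpiece : ∀ b, IsReduced (((XK N ℓ K).openCoverOfIsOpenCover _ hU).X b) := by
      intro b
      cases b
      · have h2 : IsReduced ((pullback.snd (ιInf N ℓ) (πK N ℓ K)).opensRange : Scheme.{0}) :=
          isReduced_of_isOpenImmersion (pullback.snd (ιInf N ℓ) (πK N ℓ K)).isoOpensRange.inv
        exact h2
      · have h1 : IsReduced ((pullback.snd (ιFin N ℓ) (πK N ℓ K)).opensRange : Scheme.{0}) :=
          isReduced_of_isOpenImmersion (pullback.snd (ιFin N ℓ) (πK N ℓ K)).isoOpensRange.inv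
        exact h1
    exact IsReduced.of_openCover _ ((XK N ℓ K).openCoverOfIsOpenCover _ hU)
  exact isIntegral_of_irreducibleSpace_of_isReduced _

end Scheme

end Fermat.Agent.S28_Glue
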