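import Mathlib
import Fermat.Prelude.Def_ModularCurve_ModularUnit
import Fermat.Prelude.Def_ModularCurve_X0ModL

/-!
# S28_Defs (helper2): the formal modular unit `Δ(q^p)/Δ(q)` over an arbitrary commutative ring

* `uSer R p = q^(p-1) * E(q^p)^24 / E(q)^24`, `uInv R p` its inverse, `uUnit R p` the unit;
* compatibility with `coeffMap`, order `p - 1` and leading coefficient `1`;
* `uSer ℚ p = deltaSeriesN p * deltaSeries⁻¹ = (modularUnitSeries p)⁻¹` (Prelude names).
-/

set_option autoImplicit false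

noncomputable section

open HahnSeries ModularCurve

namespace Fermat.Agent.S28_Defs

section General

variable (R : Type*) [CommRing R]

/-- `E(q)^24 = ∏ (1 - q^n)^24` as a Laurent series over `R`. -/
def etaU : LaurentSeries R :=
  HahnSeries.ofPowerSeries ℤ R (dedekindEtaUnit.map (Int.castRingHom R))

/-- `E(q)^(-24)` as a Laurent series over `R`. -/
def etaUInv : LaurentSeries R :=
  HahnSeries.ofPowerSeries ℤ R (dedekindEtaUnitInv.map (Int.castRingHom R))

theorem etaU_mul_etaUInv : etaU R * etaUInv R = 1 := by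
  rw [etaU, etaUInv, ← map_mul, ← map_mul, dedekindEtaUnit_mul_inv, map_one, map_one]

theorem etaUInv_mul_etaU : etaUInv R * etaU R = 1 := by
  rw [mul_comm, etaU_mul_etaUInv]

variable {R} in
theorem coeffMap_etaU {S : Type*} [CommRing S] (f : R →+* S) :
    coeffMap f (etaU R) = etaU S := by
  rw [etaU, coeffMap_ofPowerSeries,
    ← RingHom.comp_apply (PowerSeries.map f) (PowerSeries.map (Int.castRingHom R)),
    ← PowerSeries.map_comp, RingHom.ext_int (f.comp (Int.castRingHom R)) (Int.castRingHom S)]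
  rfl

variable {R} in
theorem coeffMap_etaUInv {S : Type*} [CommRing S] (f : R →+* S) :
    coeffMap f (etaUInv R) = etaUInv S := by
  rw [etaUInv, coeffMap_ofPowerSeries,
    ← RingHom.comp_apply (PowerSeries.map f) (PowerSeries.map (Int.castRingHom R)),
    ← PowerSeries.map_comp, RingHom.ext_int (f.comp (Int.castRingHom R)) (Int.castRingHom S)]
  rfl

variable (p : ℕ) [NeZero p]

/-- The formal modular unit `Δ(q^p)/Δ(q) = q^(p-1) E(q^p)^24 / E(q)^24` over `R`. -/
def uSer : LaurentSeries R :=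
  HahnSeries.single ((p : ℤ) - 1) 1 * (qExpand R p (etaU R) * etaUInv R)

/-- Its inverse `Δ(q)/Δ(q^p) = q^(1-p) E(q)^24 / E(q^p)^24`. -/
def uInv : LaurentSeries R :=
  HahnSeries.single (1 - (p : ℤ)) 1 * (qExpand R p (etaUInv R) * etaU R)

theorem uSer_mul_uInv : uSer R p * uInv R p = 1 := by
  have h1 : (HahnSeries.single ((p : ℤ) - 1) (1 : R)) * HahnSeries.single (1 - (p : ℤ)) 1 = 1 := by
    rw [HahnSeries.single_mul_single, mul_one]
    have : (p : ℤ) - 1 + (1 - (p : ℤ)) = 0 := by ring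
    rw [this]
    rfl
  have h2 : qExpand R p (etaU R) * qExpand R p (etaUInv R) = 1 := by
    rw [← map_mul, etaU_mul_etaUInv, map_one]
  have h3 := etaU_mul_etaUInv R
  rw [uSer, uInv]
  calc HahnSeries.single ((p : ℤ) - 1) 1 * (qExpand R p (etaU R) * etaUInv R) *
        (HahnSeries.single (1 - (p : ℤ)) 1 * (qExpand R p (etaUInv R) * etaU R))
      = (HahnSeries.single ((p : ℤ) - 1) (1 : R) * HahnSeries.single (1 - (p : ℤ)) 1) *
          (qExpand R p (etaU R) * qExpand R p (etaUInv R)) * (etaU R * etaUInv R) := by ring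
    _ = 1 := by rw [h1, h2, h3, one_mul, one_mul]

theorem uInv_mul_uSer : uInv R p * uSer R p = 1 := by
  rw [mul_comm, uSer_mul_uInv]

/-- The modular unit as a unit of the ring of Laurent series. -/
def uUnit : (LaurentSeries R)ˣ :=
  ⟨uSer R p, uInv R p, uSer_mul_uInv R p, uInv_mul_uSer R p⟩

@[simp] theorem coe_uUnit : ((uUnit R p : (LaurentSeries R)ˣ) : LaurentSeries R) = uSer R p := rfl

@[simp] theorem coe_uUnit_inv :
    (((uUnit R p)⁻¹ : (LaurentSeries R)ˣ) : LaurentSeries R) = uInv R p := rfl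

variable {R} in
theorem coeffMap_uSer {S : Type*} [CommRing S] (f : R →+* S) :
    coeffMap f (uSer R p) = uSer S p := by
  rw [uSer, uSer, map_mul, map_mul, coeffMap_single, map_one, coeffMap_qExpand, coeffMap_etaU,
    coeffMap_etaUInv]

variable {R} in
theorem coeffMap_uInv {S : Type*} [CommRing S] (f : R →+* S) :
    coeffMap f (uInv R p) = uInv S p := by
  rw [uInv, uInv, map_mul, map_mul, coeffMap_single, map_one, coeffMap_qExpand, coeffMap_etaU,
    coeffMap_etaUInv]

variable {R} in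
theorem map_uUnit {S : Type*} [CommRing S] (f : R →+* S) :
    Units.map (coeffMap f : LaurentSeries R →* LaurentSeries S) (uUnit R p) = uUnit S p :=
  Units.ext (coeffMap_uSer p f)

variable {R} in
/-- `coeffMap` commutes with integer powers of the modular unit. -/
theorem coeffMap_uUnit_zpow {S : Type*} [CommRing S] (f : R →+* S) (m : ℤ) :
    coeffMap f ((uUnit R p ^ m : (LaurentSeries R)ˣ) : LaurentSeries R)
      = ((uUnit S p ^ m : (LaurentSeries S)ˣ) : LaurentSeries S) := by
  rw [← map_uUnit p f, ← map_zpow]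
  rfl

end General

section Rat

variable (p : ℕ) [NeZero p]

theorem etaU_rat : etaU ℚ = HahnSeries.ofPowerSeries ℤ ℚ dedekindEtaUnitQ := rfl

theorem deltaSeries_inv :
    deltaSeries⁻¹ = HahnSeries.single (-1 : ℤ) 1 * etaUInv ℚ := by
  refine inv_eq_of_mul_eq_one_right ?_
  rw [deltaSeries, ← etaU_rat]
  calc HahnSeries.single (1 : ℤ) (1 : ℚ) * etaU ℚ * (HahnSeries.single (-1 : ℤ) 1 * etaUInv ℚ)
      = (HahnSeries.single (1 : ℤ) (1 : ℚ) * HahnSeries.single (-1 : ℤ) 1) *
          (etaU ℚ * etaUInv ℚ) := by ring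
    _ = 1 := by
        rw [etaU_mul_etaUInv, mul_one, HahnSeries.single_mul_single, mul_one]
        rfl

/-- `uSer ℚ p` is `Δ(q^p)/Δ(q)` in the Prelude's notation. -/
theorem uSer_rat : uSer ℚ p = deltaSeriesN p * deltaSeries⁻¹ := by
  rw [deltaSeries_inv, deltaSeriesN, deltaSeries, ← etaU_rat, map_mul, qExpand_single, mul_one,
    uSer]
  calc HahnSeries.single ((p : ℤ) - 1) (1 : ℚ) * (qExpand ℚ p (etaU ℚ) * etaUInv ℚ)
      = HahnSeries.single ((p : ℤ) + (-1)) ((1 : ℚ) * 1) * (qExpand ℚ p (etaU ℚ) * etaUInv ℚ) := by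
        rw [mul_one]; rfl
    _ = HahnSeries.single (p : ℤ) (1 : ℚ) * qExpand ℚ p (etaU ℚ) *
          (HahnSeries.single (-1 : ℤ) 1 * etaUInv ℚ) := by
        rw [← HahnSeries.single_mul_single]; ring

theorem uSer_rat_eq_inv : uSer ℚ p = (modularUnitSeries p)⁻¹ := by
  rw [uSer_rat, modularUnitSeries, mul_inv, inv_inv, mul_comm]

theorem isMonicOfOrder_uSer_rat : IsMonicOfOrder (uSer ℚ p) ((p : ℤ) - 1) := by
  have h1 : IsMonicOfOrder (uSer ℚ p * modularUnitSeries p) 0 := by
    rw [uSer_rat_eq_inv, inv_mul_cancel₀ (modularUnitSeries_ne_zero p)]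
    exact IsMonicOfOrder.single 0
  have h2 := IsMonicOfOrder.of_mul_right h1 (isMonicOfOrder_modularUnitSeries p)
  have e : (0 : ℤ) - (1 - (p : ℤ)) = (p : ℤ) - 1 := by ring
  rwa [e] at h2

end Rat

section Coeff

variable (R : Type*) [CommRing R] (p : ℕ) [NeZero p]

theorem coeff_uSer_int_self : (uSer ℤ p).coeff ((p : ℤ) - 1) = 1 := by
  have h := (isMonicOfOrder_uSer_rat p).coeff_self
  rw [← coeffMap_uSer p (Int.castRingHom ℚ), coeffMap_coeff, eq_intCast] at h
  exact_mod_cast h

theorem coeff_uSer_int_of_lt {k : ℤ} (hk : k < (p : ℤ) - 1) : (uSer ℤ p).coeff k = 0 := by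
  have h := (isMonicOfOrder_uSer_rat p).coeff_of_lt hk
  rw [← coeffMap_uSer p (Int.castRingHom ℚ), coeffMap_coeff, eq_intCast] at h
  exact_mod_cast h

/-- leading coefficient `1` at `q^(p-1)`. -/
theorem coeff_uSer_self : (uSer R p).coeff ((p : ℤ) - 1) = 1 := by
  rw [← coeffMap_uSer p (Int.castRingHom R), coeffMap_coeff, coeff_uSer_int_self, map_one]

/-- no terms below `q^(p-1)`. -/
theorem coeff_uSer_of_lt {k : ℤ} (hk : k < (p : ℤ) - 1) : (uSer R p).coeff k = 0 := by
  rw [← coeffMap_uSer p (Int.castRingHom R), coeffMap_coeff, coeff_uSer_int_of_lt p hk, map_zero]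

theorem uSer_ne_zero [Nontrivial R] : uSer R p ≠ 0 := fun h => by
  have := coeff_uSer_self R p
  rw [h] at this
  simp at this

end Coeff

end Fermat.Agent.S28_Defs

end
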