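import Fermat.Agent.S23_InterpVars

/-!
# S28_Mod0 (helper9): the modular equation of prime level over `ℚ` and its swap symmetry

Char-0 inputs of the Igusa project (S28), block `S28_Char0` of `s28_iface`:

* `exists_modular_relation` (M0): a monic `Φ ∈ ℚ[X][Y]` of `Y`-degree `p + 1` with
  `Φ(j, j_p) = 0` and `Φ(j_p, j) = 0` in `ℚ((q))`;
* `swap_relation` (M0'): `H(j, j_p) = 0 ↔ H(j_p, j) = 0` for every `H ∈ ℚ[X][Y]`.

Reusable tools: the descent from `ℂ` to `ℚ` by a `ℚ`-linear functional applied to coefficients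
(`desc1`, `descP`, `Lam`, `Lam_aevalAeval`), convergence of bivariate polynomial expressions
(`lconv_aevalAeval`, `aevalAeval_eq_zero_iff`) and the Fricke map `fricke p τ = -1/(pτ)`.
-/

set_option autoImplicit false

noncomputable section

namespace Fermat.Agent.S28_Mod0

open Fermat.Agent.S24_Defs Fermat.Agent.S24_Embed Fermat.Agent.S24_QExp ModularCurve
  UpperHalfPlane Polynomial
open scoped MatrixGroups

/-! ### Coefficientwise application of a `ℚ`-linear functional `ℂ → ℚ` -/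

/-- Apply a `ℚ`-linear functional to the coefficients of a complex polynomial. -/
def desc1 (L : ℂ →ₗ[ℚ] ℚ) (p : ℂ[X]) : ℚ[X] := p.sum fun a c => monomial a (L c)

theorem coeff_desc1 (L : ℂ →ₗ[ℚ] ℚ) (p : ℂ[X]) (a : ℕ) : (desc1 L p).coeff a = L (p.coeff a) := by
  classical
  rw [desc1, Polynomial.sum_def, Polynomial.finsetSum_coeff]
  simp only [Polynomial.coeff_monomial]
  rw [Finset.sum_ite_eq' p.support a]
  split_ifs with h
  · rfl
  · rw [Polynomial.notMem_support_iff.mp h, map_zero]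

theorem desc1_add (L : ℂ →ₗ[ℚ] ℚ) (p q : ℂ[X]) : desc1 L (p + q) = desc1 L p + desc1 L q := by
  ext a
  simp [coeff_desc1]

theorem desc1_zero (L : ℂ →ₗ[ℚ] ℚ) : desc1 L 0 = 0 := by
  ext a
  simp [coeff_desc1]

theorem desc1_monomial (L : ℂ →ₗ[ℚ] ℚ) (a : ℕ) (c : ℂ) :
    desc1 L (monomial a c) = monomial a (L c) := by
  ext b
  simp only [coeff_desc1, Polynomial.coeff_monomial]
  split_ifs
  · rfl
  · exact map_zero L

theorem desc1_one (L : ℂ →ₗ[ℚ] ℚ) (hL : L 1 = 1) : desc1 L 1 = 1 := by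
  have h : (1 : ℂ[X]) = monomial 0 1 := rfl
  rw [h, desc1_monomial, hL]
  rfl

theorem natDegree_desc1_le (L : ℂ →ₗ[ℚ] ℚ) (p : ℂ[X]) : (desc1 L p).natDegree ≤ p.natDegree := by
  refine Polynomial.natDegree_le_iff_coeff_eq_zero.mpr fun n hn => ?_
  rw [coeff_desc1, Polynomial.coeff_eq_zero_of_natDegree_lt hn, map_zero]

/-- Apply a `ℚ`-linear functional to the coefficients of a complex bivariate polynomial. -/
def descP (L : ℂ →ₗ[ℚ] ℚ) (P : Polynomial (Polynomial ℂ)) : Polynomial (Polynomial ℚ) := P.sum fun b pb => monomial b (desc1 L pb)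

theorem coeff_descP (L : ℂ →ₗ[ℚ] ℚ) (P : Polynomial (Polynomial ℂ)) (b : ℕ) :
    (descP L P).coeff b = desc1 L (P.coeff b) := by
  classical
  rw [descP, Polynomial.sum_def, Polynomial.finsetSum_coeff]
  simp only [Polynomial.coeff_monomial]
  rw [Finset.sum_ite_eq' P.support b]
  split_ifs with h
  · rfl
  · rw [Polynomial.notMem_support_iff.mp h, desc1_zero]

theorem descP_add (L : ℂ →ₗ[ℚ] ℚ) (P Q : Polynomial (Polynomial ℂ)) : descP L (P + Q) = descP L P + descP L Q := by
  ext b : 1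
  simp [coeff_descP, desc1_add]

theorem descP_monomial (L : ℂ →ₗ[ℚ] ℚ) (b : ℕ) (p : ℂ[X]) :
    descP L (monomial b p) = monomial b (desc1 L p) := by
  ext c : 1
  simp only [coeff_descP, Polynomial.coeff_monomial]
  split_ifs
  · rfl
  · exact desc1_zero L

theorem natDegree_descP_le (L : ℂ →ₗ[ℚ] ℚ) (P : Polynomial (Polynomial ℂ)) :
    (descP L P).natDegree ≤ P.natDegree := by
  refine Polynomial.natDegree_le_iff_coeff_eq_zero.mpr fun n hn => ?_
  rw [coeff_descP, Polynomial.coeff_eq_zero_of_natDegree_lt hn, desc1_zero]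

theorem descP_monic (L : ℂ →ₗ[ℚ] ℚ) (hL : L 1 = 1) {P : Polynomial (Polynomial ℂ)} (hP : P.Monic) :
    (descP L P).Monic ∧ (descP L P).natDegree = P.natDegree := by
  have h1 : (descP L P).coeff P.natDegree = 1 := by
    rw [coeff_descP, hP.coeff_natDegree, desc1_one L hL]
  have h2 : (descP L P).natDegree = P.natDegree :=
    le_antisymm (natDegree_descP_le L P)
      (Polynomial.le_natDegree_of_ne_zero (by rw [h1]; exact one_ne_zero))
  exact ⟨by rw [Polynomial.Monic, Polynomial.leadingCoeff, h2, h1], h2⟩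

/-- Apply a `ℚ`-linear functional to the coefficients of a complex Laurent series. -/
def Lam (L : ℂ →ₗ[ℚ] ℚ) (f : LaurentSeries ℂ) : LaurentSeries ℚ := f.map L

@[simp]
theorem Lam_coeff (L : ℂ →ₗ[ℚ] ℚ) (f : LaurentSeries ℂ) (n : ℤ) :
    (Lam L f).coeff n = L (f.coeff n) := rfl

theorem Lam_add (L : ℂ →ₗ[ℚ] ℚ) (f g : LaurentSeries ℂ) : Lam L (f + g) = Lam L f + Lam L g := by
  ext n
  simp

theorem Lam_zero (L : ℂ →ₗ[ℚ] ℚ) : Lam L 0 = 0 := by
  ext n
  simp

theorem Lam_coeffEmb (L : ℂ →ₗ[ℚ] ℚ) (hL : L 1 = 1) (m : LaurentSeries ℚ) :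
    Lam L (coeffEmb ℂ m) = m := by
  ext n
  rw [Lam_coeff, coeffEmb_coeff]
  have h : algebraMap ℚ ℂ (m.coeff n) = (m.coeff n) • (1 : ℂ) := by
    rw [Algebra.smul_def, mul_one]
  rw [h, map_smul, hL, smul_eq_mul, mul_one]

theorem Lam_algebraMap_mul (L : ℂ →ₗ[ℚ] ℚ) (c : ℂ) (m : LaurentSeries ℚ) :
    Lam L (algebraMap ℂ (LaurentSeries ℂ) c * coeffEmb ℂ m)
      = algebraMap ℚ (LaurentSeries ℚ) (L c) * m := by
  ext n
  rw [Lam_coeff, algebraMap_laurentSeries_eq_single, algebraMap_laurentSeries_eq_single,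
    HahnSeries.coeff_single_mul, HahnSeries.coeff_single_mul, sub_zero, coeffEmb_coeff]
  have h : c * algebraMap ℚ ℂ (m.coeff n) = (m.coeff n) • c := by
    rw [Algebra.smul_def, mul_comm]
  rw [h, map_smul, smul_eq_mul, mul_comm]

theorem Lam_aeval (L : ℂ →ₗ[ℚ] ℚ) (w x : LaurentSeries ℚ) (p : ℂ[X]) :
    Lam L (coeffEmb ℂ w * aeval (coeffEmb ℂ x) p) = w * aeval x (desc1 L p) := by
  induction p using Polynomial.induction_on' with
  | add p q hp hq =>
    rw [map_add, mul_add, Lam_add, hp, hq, desc1_add, map_add, mul_add]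
  | monomial a c =>
    rw [desc1_monomial, Polynomial.aeval_monomial, Polynomial.aeval_monomial]
    have h : coeffEmb ℂ w * (algebraMap ℂ (LaurentSeries ℂ) c * coeffEmb ℂ x ^ a)
        = algebraMap ℂ (LaurentSeries ℂ) c * coeffEmb ℂ (w * x ^ a) := by
      rw [map_mul, map_pow]; ring
    rw [h, Lam_algebraMap_mul]
    ring

theorem Lam_aevalAeval (L : ℂ →ₗ[ℚ] ℚ) (w x y : LaurentSeries ℚ) (P : Polynomial (Polynomial ℂ)) :
    Lam L (coeffEmb ℂ w * aevalAeval (coeffEmb ℂ x) (coeffEmb ℂ y) P)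
      = w * aevalAeval x y (descP L P) := by
  induction P using Polynomial.induction_on' with
  | add p q hp hq =>
    rw [map_add, mul_add, Lam_add, hp, hq, descP_add, map_add, mul_add]
  | monomial b p =>
    rw [descP_monomial]
    have e1 : ∀ (K : Type) [Field K] (A : Type) [CommRing A] [Algebra K A] (u v : A) (r : K[X]),
        aevalAeval u v (monomial b r : Polynomial (Polynomial K)) = aeval u r * v ^ b := by
      intro K _ A _ _ u v r
      rw [← Polynomial.C_mul_X_pow_eq_monomial, map_mul, map_pow, aevalAeval_C, aevalAeval_Y]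
    rw [e1, e1]
    have h : coeffEmb ℂ w * (aeval (coeffEmb ℂ x) p * coeffEmb ℂ y ^ b)
        = coeffEmb ℂ (w * y ^ b) * aeval (coeffEmb ℂ x) p := by
      rw [map_mul, map_pow]; ring
    rw [h, Lam_aeval]
    ring

/-- A `ℚ`-linear functional on `ℂ` taking the value `1` at a given nonzero number. -/
theorem exists_functional {c : ℂ} (hc : c ≠ 0) : ∃ L : ℂ →ₗ[ℚ] ℚ, L c = 1 := by
  obtain ⟨φ, hφ⟩ : ∃ φ : Module.Dual ℚ ℂ, φ c ≠ 0 := by
    by_contra hcon
    push Not at hcon
    exact hc ((Module.forall_dual_apply_eq_zero_iff ℚ c).mp hcon)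
  refine ⟨(φ c)⁻¹ • φ, ?_⟩
  rw [LinearMap.smul_apply, smul_eq_mul, inv_mul_cancel₀ hφ]

/-! ### Convergence of polynomial expressions -/

theorem lconv_congr {f f' : LaurentSeries ℂ} {F F' : ℍ → ℂ} (h : LConv f F) (hf : f = f')
    (hF : ∀ τ, F τ = F' τ) : LConv f' F' := by
  obtain ⟨m, p, G, hG, rfl, hτ⟩ := h
  exact ⟨m, p, G, hG, hf.symm, fun τ => by rw [hτ, hF]⟩

theorem lconv_pow {f : LaurentSeries ℂ} {F : ℍ → ℂ} (h : LConv f F) (n : ℕ) :
    LConv (f ^ n) (fun τ => F τ ^ n) := by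
  induction n with
  | zero =>
    have h1 := LConv.const 1
    exact lconv_congr h1 (by rw [map_one, pow_zero])
      (fun τ => (pow_zero _).symm)
  | succ n ih =>
    exact lconv_congr (ih.mul h) (pow_succ f n).symm
      (fun τ => (pow_succ (F τ) n).symm)

theorem lconv_aeval1 {f : LaurentSeries ℂ} {F : ℍ → ℂ} (h : LConv f F) (p : Polynomial ℂ) :
    LConv (aeval f p) (fun τ => p.eval (F τ)) := by
  induction p using Polynomial.induction_on' with
  | add p q hp hq =>
    exact lconv_congr (hp.add hq) (map_add _ _ _).symm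
      (fun τ => Polynomial.eval_add.symm)
  | monomial n a =>
    exact lconv_congr ((LConv.const a).mul (lconv_pow h n))
      (Polynomial.aeval_monomial _).symm (fun τ => Polynomial.eval_monomial.symm)

theorem aevalAeval_monomial {K : Type*} [Field K] {A : Type*} [CommRing A] [Algebra K A]
    (u v : A) (b : ℕ) (r : Polynomial K) :
    aevalAeval u v (monomial b r : Polynomial (Polynomial K)) = aeval u r * v ^ b := by
  rw [← Polynomial.C_mul_X_pow_eq_monomial, map_mul, map_pow, aevalAeval_C, aevalAeval_Y]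

theorem lconv_aevalAeval {f g : LaurentSeries ℂ} {F G : ℍ → ℂ} (hf : LConv f F) (hg : LConv g G)
    (P : Polynomial (Polynomial ℂ)) :
    LConv (aevalAeval f g P) (fun τ => P.evalEval (F τ) (G τ)) := by
  induction P using Polynomial.induction_on' with
  | add p q hp hq =>
    exact lconv_congr (hp.add hq) (map_add _ _ _).symm
      (fun τ => (evalEval_add _ _ _ _).symm)
  | monomial n a =>
    refine lconv_congr ((lconv_aeval1 hf a).mul (lconv_pow hg n))
      (aevalAeval_monomial f g n a).symm (fun τ => ?_)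
    rw [← Polynomial.C_mul_X_pow_eq_monomial, evalEval_mul, evalEval_pow, evalEval_C, evalEval_X]

/-- A relation between convergent series holds formally iff it holds for the functions. -/
theorem aevalAeval_eq_zero_iff {f g : LaurentSeries ℂ} {F G : ℍ → ℂ} (hf : LConv f F)
    (hg : LConv g G) (P : Polynomial (Polynomial ℂ)) :
    aevalAeval f g P = 0 ↔ ∀ τ, P.evalEval (F τ) (G τ) = 0 :=
  (lconv_aevalAeval hf hg P).eq_zero_iff

/-! ### The series `j(q)` and `j(q^p)` -/

theorem lconv_j : LConv (coeffEmb ℂ jq) jFun := by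
  have h := lconv_JdC 1
  have e1 : JdC 1 = coeffEmb ℂ jq := by
    simp [JdC, qExpand_one_apply]
  have e2 : jS 1 = jFun := funext Fermat.Agent.S24_DegreeOf.jS_one
  rwa [e1, e2] at h

theorem lconv_jp (p : ℕ) [NeZero p] : LConv (coeffEmb ℂ (qExpand ℚ p jq)) (jS p) := by
  have h := lconv_JdC p
  have e1 : JdC p = coeffEmb ℂ (qExpand ℚ p jq) := by
    simp [JdC, NeZero.ne p]
  rwa [e1] at h

theorem coeffEmb_algebraMap (c : ℚ) :
    coeffEmb ℂ (algebraMap ℚ (LaurentSeries ℚ) c) =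
      algebraMap ℂ (LaurentSeries ℂ) (algebraMap ℚ ℂ c) := by
  rw [algebraMap_laurentSeries_eq_single, algebraMap_laurentSeries_eq_single, coeffEmb,
    coeffMap_single]

theorem coeffEmb_aeval (x : LaurentSeries ℚ) (a : Polynomial ℚ) :
    coeffEmb ℂ (aeval x a) = aeval (coeffEmb ℂ x) (a.map (algebraMap ℚ ℂ)) := by
  induction a using Polynomial.induction_on' with
  | add p q hp hq => rw [map_add, map_add, hp, hq, Polynomial.map_add, map_add]
  | monomial m c =>
    rw [Polynomial.map_monomial, Polynomial.aeval_monomial, Polynomial.aeval_monomial, map_mul,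
      map_pow, coeffEmb_algebraMap]

/-- Base change of a rational bivariate polynomial to `ℂ`. -/
def toC (H : Polynomial (Polynomial ℚ)) : Polynomial (Polynomial ℂ) :=
  H.map (mapRingHom (algebraMap ℚ ℂ))

theorem coeffEmb_aevalAeval (x y : LaurentSeries ℚ) (H : Polynomial (Polynomial ℚ)) :
    coeffEmb ℂ (aevalAeval x y H) = aevalAeval (coeffEmb ℂ x) (coeffEmb ℂ y) (toC H) := by
  induction H using Polynomial.induction_on' with
  | add p q hp hq => rw [map_add, map_add, hp, hq, toC, toC, toC, Polynomial.map_add, map_add]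
  | monomial n a =>
    rw [toC, Polynomial.map_monomial, aevalAeval_monomial, aevalAeval_monomial, map_mul, map_pow,
      coeffEmb_aeval]
    rfl

theorem coeffEmb_injective : Function.Injective (coeffEmb ℂ) := (coeffEmb ℂ).injective

/-! ### The Fricke involution `τ ↦ -1/(pτ)` -/

/-- The point `-1/(pτ)` of the upper half plane. -/
def fricke (p : ℕ) (τ : ℍ) : ℍ := ModularGroup.S • dmul p τ

theorem jFun_fricke (p : ℕ) [NeZero p] (τ : ℍ) : jFun (fricke p τ) = jS p τ := by
  rw [fricke, Fermat.Agent.S24_JFun.jFun_smul, jS, if_neg (NeZero.ne p)]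

theorem coe_fricke (p : ℕ) [NeZero p] (τ : ℍ) :
    ((fricke p τ : ℍ) : ℂ) = -((p : ℂ) * (τ : ℂ))⁻¹ := by
  rw [fricke, UpperHalfPlane.modular_S_smul]
  show (-((dmul p τ : ℍ) : ℂ))⁻¹ = _
  rw [coe_dmul (NeZero.ne p), neg_inv]

theorem dmul_fricke (p : ℕ) [NeZero p] (τ : ℍ) : dmul p (fricke p τ) = ModularGroup.S • τ := by
  apply UpperHalfPlane.ext
  rw [coe_dmul (NeZero.ne p), coe_fricke, UpperHalfPlane.modular_S_smul]
  show _ = (-(τ : ℂ))⁻¹
  have hp : (p : ℂ) ≠ 0 := Nat.cast_ne_zero.mpr (NeZero.ne p)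
  have hτ : (τ : ℂ) ≠ 0 := UpperHalfPlane.ne_zero τ
  field_simp

theorem jS_fricke (p : ℕ) [NeZero p] (τ : ℍ) : jS p (fricke p τ) = jFun τ := by
  rw [jS, if_neg (NeZero.ne p), dmul_fricke, Fermat.Agent.S24_JFun.jFun_smul]

/-! ### The swap symmetry and the modular equation -/

/-- A complex relation between `j(τ)` and `j(pτ)` is swap-symmetric (Fricke involution). -/
theorem swap_fun (p : ℕ) [NeZero p] (P : Polynomial (Polynomial ℂ)) :
    (∀ τ, P.evalEval (jFun τ) (jS p τ) = 0) ↔ ∀ τ, P.evalEval (jS p τ) (jFun τ) = 0 := by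
  constructor
  · intro h τ
    have := h (fricke p τ)
    rwa [jFun_fricke, jS_fricke] at this
  · intro h τ
    have := h (fricke p τ)
    rwa [jFun_fricke, jS_fricke] at this

/-- A complex relation between the series `j(q)` and `j(q^p)` is swap-symmetric. -/
theorem swap_series (p : ℕ) [NeZero p] (P : Polynomial (Polynomial ℂ)) :
    aevalAeval (coeffEmb ℂ jq) (coeffEmb ℂ (qExpand ℚ p jq)) P = 0 ↔
      aevalAeval (coeffEmb ℂ (qExpand ℚ p jq)) (coeffEmb ℂ jq) P = 0 := by
  rw [aevalAeval_eq_zero_iff lconv_j (lconv_jp p), aevalAeval_eq_zero_iff (lconv_jp p) lconv_j]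
  exact swap_fun p P

/-- (M0') Every polynomial relation between `j` and `j_p` is swap-symmetric. -/
theorem swap_relation (p : ℕ) [NeZero p] (_hp : p.Prime) (H : Polynomial (Polynomial ℚ)) :
    H.aevalAeval (jq : LaurentSeries ℚ) (qExpand ℚ p jq) = 0 ↔
      H.aevalAeval (qExpand ℚ p jq) (jq : LaurentSeries ℚ) = 0 := by
  have e1 := map_eq_zero_iff (coeffEmb ℂ) coeffEmb_injective
    (x := aevalAeval (jq : LaurentSeries ℚ) (qExpand ℚ p jq) H)
  have e2 := map_eq_zero_iff (coeffEmb ℂ) coeffEmb_injective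
    (x := aevalAeval (qExpand ℚ p jq) (jq : LaurentSeries ℚ) H)
  rw [← e1, ← e2, coeffEmb_aevalAeval, coeffEmb_aevalAeval]
  exact swap_series p (toC H)

theorem card_coset_prime (p : ℕ) [NeZero p] (hp : p.Prime) : Nat.card (Coset p) = p + 1 := by
  rw [Fermat.Agent.S24_Comb.card_coset]
  have h := Fermat.Agent.S24_Comb.dedekindPsi_prime_mul_of_not_dvd p 1 hp one_ne_zero
    (fun h => hp.one_lt.ne' (Nat.dvd_one.mp h))
  rwa [mul_one, dedekindPsi_one, mul_one] at h

/-- The modular equation over `ℂ`, at the level of functions. -/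
theorem exists_modular_relation_fun (p : ℕ) [NeZero p] :
    ∃ Φ : Polynomial (Polynomial ℂ), Φ.Monic ∧ Φ.natDegree = Nat.card (Coset p) ∧
      ∀ τ, Φ.evalEval (jFun τ) (jS p τ) = 0 := by
  have inp := Fermat.Agent.S24_Degree.inputs p
  set J : AN p := ⟨jS p, inp.hmem p dvd_rfl⟩ with hJdef
  have hJ : ∀ g : SL(2, ℤ), g ∈ CongruenceSubgroup.Gamma0 p → tr p g J = J := fun g hg =>
    Subtype.ext (funext fun τ => inp.hinv p dvd_rfl g⁻¹ (inv_mem hg) τ)
  obtain ⟨c, hc, -⟩ := Fermat.Agent.S23_Interp.exists_monic_relation p J hJ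
  set n := Nat.card (Coset p) with hn
  set R : Polynomial (Polynomial ℂ) := ∑ i ∈ Finset.range n, C (c i) * X ^ i with hR
  have hRdeg : R.degree < (n : WithBot ℕ) := by
    refine (Polynomial.degree_sum_le _ _).trans_lt ?_
    refine (Finset.sup_lt_iff (WithBot.bot_lt_coe n)).mpr fun i hi => ?_
    exact (Polynomial.degree_C_mul_X_pow_le i _).trans_lt
      (WithBot.coe_lt_coe.mpr (Finset.mem_range.mp hi))
  have hdeg : (X ^ n + R : Polynomial (Polynomial ℂ)).degree = (n : WithBot ℕ) := by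
    rw [Polynomial.degree_add_eq_left_of_degree_lt (by rwa [Polynomial.degree_X_pow]),
      Polynomial.degree_X_pow]
  refine ⟨X ^ n + R, Polynomial.monic_X_pow_add hRdeg,
    Polynomial.natDegree_eq_of_degree_eq_some hdeg, fun τ => ?_⟩
  have h := hc τ
  rw [evalEval_add, evalEval_pow, evalEval_X, hR, evalEval_finsetSum]
  rw [← h]
  congr 1
  refine Finset.sum_congr rfl fun i _ => ?_
  rw [evalEval_mul, evalEval_C, evalEval_pow, evalEval_X]

/-- (M0) The modular equation: a monic `Φ ∈ ℚ[X][Y]` of `Y`-degree `p + 1` with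
`Φ(j, j_p) = 0` and `Φ(j_p, j) = 0`. -/
theorem exists_modular_relation (p : ℕ) [NeZero p] (hp : p.Prime) :
    ∃ Φ : Polynomial (Polynomial ℚ), Φ.Monic ∧ Φ.natDegree = p + 1 ∧
      Φ.aevalAeval (jq : LaurentSeries ℚ) (qExpand ℚ p jq) = 0 ∧
      Φ.aevalAeval (qExpand ℚ p jq) (jq : LaurentSeries ℚ) = 0 := by
  obtain ⟨Φ, hmonic, hdeg, hΦ⟩ := exists_modular_relation_fun p
  obtain ⟨L, hL⟩ := exists_functional (one_ne_zero : (1 : ℂ) ≠ 0)
  have h1 : aevalAeval (coeffEmb ℂ jq) (coeffEmb ℂ (qExpand ℚ p jq)) Φ = 0 :=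
    (aevalAeval_eq_zero_iff lconv_j (lconv_jp p) Φ).mpr hΦ
  have h2 : aevalAeval (coeffEmb ℂ (qExpand ℚ p jq)) (coeffEmb ℂ jq) Φ = 0 :=
    (swap_series p Φ).mp h1
  obtain ⟨hm, hd⟩ := descP_monic L hL hmonic
  refine ⟨descP L Φ, hm, by rw [hd, hdeg, card_coset_prime p hp], ?_, ?_⟩
  · have h := Lam_aevalAeval L 1 jq (qExpand ℚ p jq) Φ
    rw [h1, mul_zero, Lam_zero, one_mul] at h
    exact h.symm
  · have h := Lam_aevalAeval L 1 (qExpand ℚ p jq) jq Φ
    rw [h2, mul_zero, Lam_zero, one_mul] at h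
    exact h.symm

end Fermat.Agent.S28_Mod0

end
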