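-- Helper for S28 (block PRIME, helper3): the polynomial lemma behind Lemma P.
-- If `P` is monic of degree `p ≥ 2` over a field and `A_0, …, A_p` are polynomials with
-- `∑ A_i(X) P(X)^i = 0` and `∑ A_i(P(X)) X^i = 0`, then all `A_i` vanish.
import Mathlib

set_option autoImplicit false

open Polynomial

namespace Fermat.Agent.S28_PrimeAlg

variable {k : Type*} [Field k]

/-- `1, X, …, X^(p-1)` are linearly independent over `k[P(X)]` when `deg P = p`. -/
theorem comp_indep (P : k[X]) {p : ℕ} (hP : P.natDegree = p) (hp : 0 < p)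
    (B : ℕ → k[X]) (h : ∑ i ∈ Finset.range p, (B i).comp P * X ^ i = 0) :
    ∀ i < p, B i = 0 := by
  classical
  by_contra hcon
  push Not at hcon
  obtain ⟨i₁, hi₁, hB₁⟩ := hcon
  set s := (Finset.range p).filter (fun i => B i ≠ 0) with hs
  have hne : s.Nonempty := ⟨i₁, by simp [hs, hi₁, hB₁]⟩
  set t : ℕ → k[X] := fun i => (B i).comp P * X ^ i with ht
  have hcomp : ∀ i, B i ≠ 0 → (B i).comp P ≠ 0 := by
    intro i hi h0
    rw [comp_eq_zero_iff] at h0
    rcases h0 with h0 | ⟨-, h0⟩
    · exact hi h0
    · rw [h0, natDegree_C] at hP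
      omega
  have hdeg : ∀ i, B i ≠ 0 → (t i).natDegree = (B i).natDegree * p + i := by
    intro i hi
    simp only [ht]
    rw [natDegree_mul (hcomp i hi) (pow_ne_zero _ X_ne_zero), natDegree_comp, hP,
      natDegree_X_pow]
  have htne : ∀ i, B i ≠ 0 → t i ≠ 0 := fun i hi =>
    mul_ne_zero (hcomp i hi) (pow_ne_zero _ X_ne_zero)
  obtain ⟨i₀, hi₀, hmax⟩ := Finset.exists_max_image s (fun i => (t i).natDegree) hne
  have hi₀' : i₀ < p ∧ B i₀ ≠ 0 := by simpa [hs] using hi₀
  have hcoeff := congrArg (fun f : k[X] => f.coeff (t i₀).natDegree) h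
  simp only [finsetSum_coeff, coeff_zero] at hcoeff
  rw [Finset.sum_eq_single i₀] at hcoeff
  · exact (htne i₀ hi₀'.2) (leadingCoeff_eq_zero.1 hcoeff)
  · intro i hi hne'
    by_cases hBi : B i = 0
    · have h0 : t i = 0 := by simp only [ht, hBi, zero_comp, zero_mul]
      show (t i).coeff _ = 0
      rw [h0, coeff_zero]
    · have hi' : i < p := Finset.mem_range.1 hi
      have his : i ∈ s := by simp [hs, hi', hBi]
      have hle := hmax i his
      have hlt : (t i).natDegree < (t i₀).natDegree := by
        refine lt_of_le_of_ne hle ?_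
        intro heq
        rw [hdeg i hBi, hdeg i₀ hi₀'.2] at heq
        have h1 := congrArg (· % p) heq
        simp only [Nat.mul_add_mod_self_right] at h1
        rw [Nat.mod_eq_of_lt hi', Nat.mod_eq_of_lt hi₀'.1] at h1
        exact hne' h1
      exact coeff_eq_zero_of_natDegree_lt hlt
  · intro h0
    exact absurd (Finset.mem_range.2 hi₀'.1) h0

/-- **The bad-case algebra.** -/
theorem bad_case (P : k[X]) {p : ℕ} (hP : P.natDegree = p) (hmonic : P.Monic) (hp : 2 ≤ p)
    (A : ℕ → k[X]) (h1 : ∑ i ∈ Finset.range (p + 1), A i * P ^ i = 0)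
    (h2 : ∑ i ∈ Finset.range (p + 1), (A i).comp P * X ^ i = 0) :
    ∀ i ≤ p, A i = 0 := by
  classical
  have hp0 : 0 < p := by omega
  -- `X ^ p = P - ∑_{i<p} P_i X^i`
  have hXp : (X : k[X]) ^ p = P - ∑ i ∈ Finset.range p, C (P.coeff i) * X ^ i := by
    have := hmonic.as_sum
    rw [hP] at this
    rw [eq_sub_iff_add_eq]
    exact this.symm
  set B : ℕ → k[X] := fun i =>
    if i = 0 then A 0 + A p * X - C (P.coeff 0) * A p else A i - C (P.coeff i) * A p with hB
  have hBsum : ∑ i ∈ Finset.range p, (B i).comp P * X ^ i = 0 := by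
    have e1 : ∑ i ∈ Finset.range p, (B i).comp P * X ^ i
        = ∑ i ∈ Finset.range p, ((A i).comp P * X ^ i - (A p).comp P * (C (P.coeff i) * X ^ i))
          + (A p).comp P * P := by
      rw [← Finset.sum_erase_add _ _ (Finset.mem_range.2 hp0),
        ← Finset.sum_erase_add (Finset.range p) _ (Finset.mem_range.2 hp0)]
      have e2 : ∑ i ∈ (Finset.range p).erase 0, (B i).comp P * X ^ i
          = ∑ i ∈ (Finset.range p).erase 0,
            ((A i).comp P * X ^ i - (A p).comp P * (C (P.coeff i) * X ^ i)) := by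
        refine Finset.sum_congr rfl fun i hi => ?_
        have hi0 : i ≠ 0 := Finset.ne_of_mem_erase hi
        simp only [hB, if_neg hi0, sub_comp, mul_comp, C_comp]
        ring
      rw [e2]
      simp only [hB, if_true, sub_comp, add_comp, mul_comp, C_comp, X_comp, pow_zero, mul_one]
      ring
    rw [e1, Finset.sum_sub_distrib, ← Finset.mul_sum]
    have e3 : ∑ i ∈ Finset.range p, C (P.coeff i) * X ^ i = P - X ^ p := by
      rw [hXp]; ring
    rw [e3]
    rw [Finset.sum_range_succ] at h2
    linear_combination h2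
  have hB0 := comp_indep P hP hp0 B hBsum
  have hA : ∀ i, 0 < i → i < p → A i = C (P.coeff i) * A p := by
    intro i hi0 hip
    have := hB0 i hip
    simp only [hB, if_neg hi0.ne'] at this
    exact sub_eq_zero.1 this
  have hA0 : A 0 = C (P.coeff 0) * A p - A p * X := by
    have := hB0 0 hp0
    simp only [hB, if_true] at this
    linear_combination this
  -- plug into the first relation
  have hPP : P.comp P = P ^ p + ∑ i ∈ Finset.range p, C (P.coeff i) * P ^ i := by
    rw [comp, eval₂_eq_sum_range, hP, Finset.sum_range_succ]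
    have : P.coeff p = 1 := by rw [← hP]; exact hmonic.coeff_natDegree
    rw [this, map_one, one_mul, add_comm]
  have h3 : A p * (P.comp P - X) = 0 := by
    rw [hPP]
    rw [Finset.sum_range_succ, ← Finset.sum_erase_add _ _ (Finset.mem_range.2 hp0)] at h1
    have e4 : ∑ i ∈ (Finset.range p).erase 0, A i * P ^ i
        = ∑ i ∈ (Finset.range p).erase 0, A p * (C (P.coeff i) * P ^ i) := by
      refine Finset.sum_congr rfl fun i hi => ?_
      have hi0 : 0 < i := Nat.pos_of_ne_zero (Finset.ne_of_mem_erase hi)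
      have hip : i < p := Finset.mem_range.1 (Finset.mem_of_mem_erase hi)
      rw [hA i hi0 hip]; ring
    rw [e4, ← Finset.mul_sum, hA0] at h1
    rw [← Finset.sum_erase_add _ _ (Finset.mem_range.2 hp0)]
    linear_combination h1
  have hne : P.comp P - X ≠ 0 := by
    intro h0
    have h4 : (P.comp P).natDegree = (X : k[X]).natDegree := by
      rw [sub_eq_zero.1 h0]
    rw [natDegree_comp, hP, natDegree_X] at h4
    nlinarith
  have hAp : A p = 0 := (mul_eq_zero.1 h3).resolve_right hne
  intro i hi
  rcases Nat.eq_zero_or_pos i with rfl | hi0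
  · rw [hA0, hAp]; simp
  · rcases Nat.lt_or_ge i p with hip | hip
    · rw [hA i hi0 hip, hAp, mul_zero]
    · have : i = p := le_antisymm hi hip
      rw [this, hAp]

end Fermat.Agent.S28_PrimeAlg
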