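-- Helper for S28 (block QX): the residue homomorphism `ℤ_(ℓ) → 𝔽_ℓ`, Laurent series with
-- `ℓ`-integral coefficients inside `ℚ((q))`, reduction mod `ℓ`, and the local ring `O` of
-- fractions `P / Q` with `Q` nonzero mod `ℓ`, with its reduction map `O → 𝔽_ℓ((q))`.
import Mathlib
import Fermat.Prelude.Def_GaloisRep_Flat
import Fermat.Prelude.Def_ModularCurve_LaurentCoeff

set_option autoImplicit false
set_option linter.unusedSectionVars false

open Polynomial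

namespace Fermat.Agent.S28_QExp

variable (ℓ : ℕ) [hℓ : Fact ℓ.Prime]

/-! ### The residue homomorphism -/

theorem den_ne_zero (c : GaloisRep.ratLocalizedAt ℓ) : (((c : ℚ).den : ℕ) : ZMod ℓ) ≠ 0 := by
  rw [Ne, ZMod.natCast_eq_zero_iff]
  intro h
  have h1 : (c : ℚ).den.Coprime ℓ := c.2
  have h2 : ℓ ∣ Nat.gcd (c : ℚ).den ℓ := Nat.dvd_gcd h dvd_rfl
  rw [h1] at h2
  exact hℓ.out.one_lt.ne' (Nat.dvd_one.1 h2)

/-- the residue homomorphism `ℤ_(ℓ) → 𝔽_ℓ` -/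
def resHom : GaloisRep.ratLocalizedAt ℓ →+* ZMod ℓ where
  toFun c := ((c : ℚ) : ZMod ℓ)
  map_one' := by simp
  map_mul' a b := Rat.cast_mul_of_ne_zero (den_ne_zero ℓ a) (den_ne_zero ℓ b)
  map_zero' := by simp
  map_add' a b := Rat.cast_add_of_ne_zero (den_ne_zero ℓ a) (den_ne_zero ℓ b)

theorem resHom_apply (c : GaloisRep.ratLocalizedAt ℓ) : resHom ℓ c = ((c : ℚ) : ZMod ℓ) := rfl

theorem natCast_mem (n : ℕ) : (n : ℚ) ∈ GaloisRep.ratLocalizedAt ℓ := by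
  show (n : ℚ).den.Coprime ℓ
  simp

theorem resHom_natCast (n : ℕ) : resHom ℓ (n : GaloisRep.ratLocalizedAt ℓ) = (n : ZMod ℓ) :=
  map_natCast _ n

theorem resHom_ell : resHom ℓ (ℓ : GaloisRep.ratLocalizedAt ℓ) = 0 := by
  rw [resHom_natCast]; exact ZMod.natCast_self ℓ

theorem ell_ne_zero : (ℓ : GaloisRep.ratLocalizedAt ℓ) ≠ 0 := by
  intro h
  have h1 := congrArg (fun c : GaloisRep.ratLocalizedAt ℓ => (c : ℚ)) h
  simp only [SubringClass.coe_natCast, ZeroMemClass.coe_zero, Nat.cast_eq_zero] at h1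
  exact hℓ.out.ne_zero h1

/-- the kernel of the residue homomorphism is generated by `ℓ` -/
theorem exists_eq_mul_of_resHom_eq_zero {c : GaloisRep.ratLocalizedAt ℓ} (h : resHom ℓ c = 0) :
    ∃ c' : GaloisRep.ratLocalizedAt ℓ, c = (ℓ : GaloisRep.ratLocalizedAt ℓ) * c' := by
  rw [resHom_apply, Rat.cast_def, div_eq_zero_iff] at h
  have hnum : ((c : ℚ).num : ZMod ℓ) = 0 := h.resolve_right (den_ne_zero ℓ c)
  rw [ZMod.intCast_zmod_eq_zero_iff_dvd] at hnum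
  obtain ⟨m, hm⟩ := hnum
  have hden0 : (c : ℚ).den ≠ 0 := (c : ℚ).den_nz
  have hmem : Rat.divInt m ((c : ℚ).den : ℤ) ∈ GaloisRep.ratLocalizedAt ℓ := by
    show (Rat.divInt m ((c : ℚ).den : ℤ)).den.Coprime ℓ
    have h1 : ((Rat.divInt m ((c : ℚ).den : ℤ)).den : ℤ) ∣ ((c : ℚ).den : ℤ) := Rat.den_dvd _ _
    have h2 : (Rat.divInt m ((c : ℚ).den : ℤ)).den ∣ (c : ℚ).den := by exact_mod_cast h1
    exact Nat.Coprime.coprime_dvd_left h2 c.2
  refine ⟨⟨_, hmem⟩, Subtype.ext ?_⟩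
  show (c : ℚ) = (ℓ : ℚ) * Rat.divInt m ((c : ℚ).den : ℤ)
  have h3 : (c : ℚ) = ((c : ℚ).num : ℚ) / ((c : ℚ).den : ℚ) := (Rat.num_div_den _).symm
  have hm' : ((c : ℚ).num : ℚ) = (ℓ : ℚ) * (m : ℚ) := by
    have := congrArg (Int.cast : ℤ → ℚ) hm
    push_cast at this
    exact this
  rw [Rat.divInt_eq_div]
  calc (c : ℚ) = ((c : ℚ).num : ℚ) / ((c : ℚ).den : ℚ) := h3
    _ = (ℓ : ℚ) * ((m : ℚ) / (((c : ℚ).den : ℤ) : ℚ)) := by
      rw [hm']; push_cast; ring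

/-! ### Laurent series with `ℓ`-integral coefficients -/

/-- the embedding of `ℓ`-integral Laurent series in `ℚ((q))` -/
noncomputable def emb : LaurentSeries (GaloisRep.ratLocalizedAt ℓ) →+* LaurentSeries ℚ :=
  ModularCurve.coeffMap (GaloisRep.ratLocalizedAt ℓ).subtype

/-- reduction mod `ℓ` of `ℓ`-integral Laurent series -/
noncomputable def redT : LaurentSeries (GaloisRep.ratLocalizedAt ℓ) →+* LaurentSeries (ZMod ℓ) :=
  ModularCurve.coeffMap (resHom ℓ)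

theorem emb_coeff (P : LaurentSeries (GaloisRep.ratLocalizedAt ℓ)) (n : ℤ) :
    (emb ℓ P).coeff n = ((P.coeff n : GaloisRep.ratLocalizedAt ℓ) : ℚ) := rfl

theorem redT_coeff (P : LaurentSeries (GaloisRep.ratLocalizedAt ℓ)) (n : ℤ) :
    (redT ℓ P).coeff n = resHom ℓ (P.coeff n) := rfl

theorem emb_injective : Function.Injective (emb ℓ) := by
  intro P Q h
  apply HahnSeries.ext
  funext n
  have h1 := congrArg (fun x : LaurentSeries ℚ => x.coeff n) h
  exact Subtype.ext h1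

theorem emb_C (c : GaloisRep.ratLocalizedAt ℓ) :
    emb ℓ (HahnSeries.C c) = HahnSeries.C (c : ℚ) := by
  show ModularCurve.coeffMap _ (HahnSeries.single 0 c) = HahnSeries.single 0 (c : ℚ)
  rw [ModularCurve.coeffMap_single]
  rfl

theorem redT_C (c : GaloisRep.ratLocalizedAt ℓ) :
    redT ℓ (HahnSeries.C c) = HahnSeries.C (resHom ℓ c) := by
  show ModularCurve.coeffMap _ (HahnSeries.single 0 c) = HahnSeries.single 0 (resHom ℓ c)
  rw [ModularCurve.coeffMap_single]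

theorem redT_ell : redT ℓ (ℓ : LaurentSeries (GaloisRep.ratLocalizedAt ℓ)) = 0 := by
  rw [map_natCast]
  have h : ((ℓ : ℕ) : LaurentSeries (ZMod ℓ)) = HahnSeries.C ((ℓ : ℕ) : ZMod ℓ) :=
    (map_natCast (HahnSeries.C : ZMod ℓ →+* LaurentSeries (ZMod ℓ)) ℓ).symm
  rw [h, ZMod.natCast_self, map_zero]

/-- the kernel of `redT` is generated by `ℓ` -/
theorem exists_eq_mul_of_redT_eq_zero {P : LaurentSeries (GaloisRep.ratLocalizedAt ℓ)}
    (h : redT ℓ P = 0) :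
    ∃ P' : LaurentSeries (GaloisRep.ratLocalizedAt ℓ),
      P = (ℓ : LaurentSeries (GaloisRep.ratLocalizedAt ℓ)) * P' := by
  classical
  have hc : ∀ n, resHom ℓ (P.coeff n) = 0 := by
    intro n
    rw [← redT_coeff, h]; rfl
  -- division by `ℓ` on the kernel of the residue map
  let g : GaloisRep.ratLocalizedAt ℓ → GaloisRep.ratLocalizedAt ℓ := fun c =>
    if hc' : resHom ℓ c = 0 then (exists_eq_mul_of_resHom_eq_zero ℓ hc').choose else 0
  have hg : ∀ c, resHom ℓ c = 0 → c = (ℓ : GaloisRep.ratLocalizedAt ℓ) * g c := by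
    intro c hc'
    simp only [g, dif_pos hc']
    exact (exists_eq_mul_of_resHom_eq_zero ℓ hc').choose_spec
  have hg0 : g 0 = 0 := by
    have h1 := hg 0 (map_zero _)
    rcases mul_eq_zero.1 h1.symm with h2 | h2
    · exact absurd h2 (ell_ne_zero ℓ)
    · exact h2
  let gz : ZeroHom (GaloisRep.ratLocalizedAt ℓ) (GaloisRep.ratLocalizedAt ℓ) := ⟨g, hg0⟩
  refine ⟨P.map gz, ?_⟩
  apply HahnSeries.ext
  funext n
  have h1 : ((ℓ : ℕ) : LaurentSeries (GaloisRep.ratLocalizedAt ℓ)) =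
      HahnSeries.C ((ℓ : ℕ) : GaloisRep.ratLocalizedAt ℓ) :=
    (map_natCast (HahnSeries.C :
      GaloisRep.ratLocalizedAt ℓ →+* LaurentSeries (GaloisRep.ratLocalizedAt ℓ)) ℓ).symm
  rw [h1, HahnSeries.C_mul_eq_smul, HahnSeries.coeff_smul]
  show P.coeff n = (ℓ : GaloisRep.ratLocalizedAt ℓ) • g (P.coeff n)
  rw [smul_eq_mul]
  exact hg _ (hc n)

end Fermat.Agent.S28_QExp
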