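-- Helper for S28 (block PRIME, helper3): evaluation of polynomials at Laurent series,
-- transcendence of `j`, the shape of a polynomial `P` with `j(q^p) = P(j)`, and facts on `ℤ_(ℓ)`.
import Mathlib
import Fermat.Prelude.Def_ModularCurve_X0ModL
import Fermat.Agent.S28_QExpBase

set_option autoImplicit false

open Polynomial ModularCurve

namespace Fermat.Agent.S28_Prime

noncomputable section

/-! ### Evaluation at a Laurent series -/

section evL

variable (R : Type*) [CommRing R]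

/-- evaluation of a polynomial at a Laurent series (constants via `HahnSeries.C`) -/
def evL (x : LaurentSeries R) : R[X] →+* LaurentSeries R := eval₂RingHom HahnSeries.C x

variable {R}

theorem evL_apply (x : LaurentSeries R) (P : R[X]) : evL R x P = P.eval₂ HahnSeries.C x := rfl

@[simp] theorem evL_C (x : LaurentSeries R) (c : R) : evL R x (C c) = HahnSeries.C c := by
  simp [evL_apply]

@[simp] theorem evL_X (x : LaurentSeries R) : evL R x X = x := by simp [evL_apply]

theorem coeffMap_C {S : Type*} [CommRing S] (f : R →+* S) (c : R) :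
    coeffMap f (HahnSeries.C c) = HahnSeries.C (f c) := by
  show coeffMap f (HahnSeries.single 0 c) = HahnSeries.single 0 (f c)
  rw [coeffMap_single]

theorem coeffMap_evL {S : Type*} [CommRing S] (f : R →+* S) (x : LaurentSeries R) (P : R[X]) :
    coeffMap f (evL R x P) = evL S (coeffMap f x) (P.map f) := by
  rw [evL_apply, evL_apply, hom_eval₂, eval₂_map]
  congr 1
  ext c : 1
  simp

theorem qExpand_evL (n : ℕ) [NeZero n] (x : LaurentSeries R) (P : R[X]) :
    qExpand R n (evL R x P) = evL R (qExpand R n x) P := by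
  rw [evL_apply, evL_apply, hom_eval₂]
  congr 1
  ext c : 1
  simp

theorem evL_comp (x : LaurentSeries R) (A P : R[X]) :
    evL R x (A.comp P) = evL R (evL R x P) A := by
  rw [evL_apply, evL_apply, evL_apply, eval₂_comp]

variable (R)

/-- the coefficient of `q^(-deg P)` in `P(j)` is the leading coefficient of `P` -/
theorem coeff_evL_jq (P : R[X]) :
    (evL R (jqModC R) P).coeff (-(P.natDegree : ℤ)) = P.leadingCoeff := by
  rw [evL_apply, eval₂_eq_sum_range, HahnSeries.coeff_sum, Finset.sum_range_succ]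
  rw [Finset.sum_eq_zero, zero_add, HahnSeries.C_mul_eq_smul, HahnSeries.coeff_smul,
    coeff_jqModC_pow_self, smul_eq_mul, mul_one]
  · rfl
  · intro i hi
    have hi' : i < P.natDegree := Finset.mem_range.1 hi
    rw [HahnSeries.C_mul_eq_smul, HahnSeries.coeff_smul,
      coeff_jqModC_pow_of_lt R (by omega : -(P.natDegree : ℤ) < -(i : ℤ)), smul_zero]

/-- coefficients of `P(j)` below `q^(-deg P)` vanish -/
theorem coeff_evL_jq_of_lt (P : R[X]) {m : ℤ} (hm : m < -(P.natDegree : ℤ)) :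
    (evL R (jqModC R) P).coeff m = 0 := by
  rw [evL_apply, eval₂_eq_sum_range, HahnSeries.coeff_sum]
  refine Finset.sum_eq_zero fun i hi => ?_
  have hi' : i < P.natDegree + 1 := Finset.mem_range.1 hi
  rw [HahnSeries.C_mul_eq_smul, HahnSeries.coeff_smul,
    coeff_jqModC_pow_of_lt R (by omega : m < -(i : ℤ)), smul_zero]

/-- `j` is transcendental: evaluation at `j` is injective -/
theorem evL_jq_injective : Function.Injective (evL R (jqModC R)) := by
  rw [injective_iff_map_eq_zero]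
  intro P hP
  have h := coeff_evL_jq R P
  rw [hP, HahnSeries.coeff_zero] at h
  exact leadingCoeff_eq_zero.1 h.symm

/-- `j(q^n)` is transcendental -/
theorem evL_jqN_injective (n : ℕ) [NeZero n] :
    Function.Injective (evL R (qExpand R n (jqModC R))) := by
  intro P Q h
  apply evL_jq_injective R
  apply qExpand_injective (R := R) (N := n)
  rw [qExpand_evL, qExpand_evL, h]

/-- a polynomial `P` with `j(q^p) = P(j)` is monic of degree `p` -/
theorem natDegree_eq_and_monic_of_eq [Nontrivial R] (p : ℕ) [NeZero p] (P : R[X])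
    (h : qExpand R p (jqModC R) = evL R (jqModC R) P) : P.natDegree = p ∧ P.Monic := by
  have hp0 : p ≠ 0 := NeZero.ne p
  -- the coefficient of `q^(-p)` on the left is `1`
  have hcp : (qExpand R p (jqModC R)).coeff (-(p : ℤ)) = 1 := by
    have := qExpand_coeff_mul (R := R) (N := p) (jqModC R) (-1)
    rw [mul_neg, mul_one] at this
    rw [this, coeff_jqModC_neg_one]
  have hle : p ≤ P.natDegree := by
    by_contra hlt
    push Not at hlt
    have := coeff_evL_jq_of_lt R P (m := -(p : ℤ)) (by omega)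
    rw [← h, hcp] at this
    exact one_ne_zero this
  have hlc := coeff_evL_jq R P
  rw [← h] at hlc
  have hP0 : P ≠ 0 := by
    rintro rfl
    rw [map_zero] at h
    rw [h, HahnSeries.coeff_zero] at hcp
    exact zero_ne_one hcp
  have hlc0 : P.leadingCoeff ≠ 0 := leadingCoeff_ne_zero.2 hP0
  have hdeg : P.natDegree = p := by
    by_contra hne
    have hlt : p < P.natDegree := lt_of_le_of_ne hle (Ne.symm hne)
    apply hlc0
    rw [← hlc]
    by_cases hdvd : (p : ℤ) ∣ -(P.natDegree : ℤ)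
    · obtain ⟨c, hc⟩ := hdvd
      rw [hc, qExpand_coeff_mul]
      apply coeff_jqModC_of_lt
      have hp' : (0 : ℤ) < p := by exact_mod_cast Nat.pos_of_ne_zero hp0
      by_contra hc'
      push Not at hc'
      have : -(P.natDegree : ℤ) ≥ -(p : ℤ) := by
        rw [hc]; nlinarith
      omega
    · exact qExpand_coeff_of_not_dvd (R := R) (N := p) _ hdvd
  refine ⟨hdeg, ?_⟩
  rw [Monic, ← hlc, hdeg, hcp]

end evL

/-! ### Facts on `ℤ_(ℓ)` -/

section Zl

open Fermat.Agent.S28_QExp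

variable (ℓ : ℕ) [hℓ : Fact ℓ.Prime]

theorem padicValRat_nonneg (c : GaloisRep.ratLocalizedAt ℓ) : 0 ≤ padicValRat ℓ (c : ℚ) := by
  have h : (c : ℚ).den.Coprime ℓ := c.2
  have h2 : ¬ ℓ ∣ (c : ℚ).den := fun hd => by
    have h3 : ℓ ∣ Nat.gcd (c : ℚ).den ℓ := Nat.dvd_gcd hd dvd_rfl
    rw [Nat.Coprime] at h
    rw [h] at h3
    exact hℓ.out.one_lt.ne' (Nat.dvd_one.1 h3)
  unfold padicValRat
  rw [padicValNat.eq_zero_of_not_dvd h2]
  simp

/-- every rational number becomes `ℓ`-integral after multiplication by a power of `ℓ` -/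
theorem exists_pow_mul_mem (c : ℚ) : ∃ a : ℕ, (ℓ : ℚ) ^ a * c ∈ GaloisRep.ratLocalizedAt ℓ := by
  obtain ⟨a, d', hd', hden⟩ :=
    Nat.exists_eq_pow_mul_and_not_dvd c.den_nz ℓ hℓ.out.ne_one
  refine ⟨a, ?_⟩
  have hd0 : d' ≠ 0 := by
    rintro rfl
    exact hd' (dvd_zero ℓ)
  have hℓ0 : (ℓ : ℚ) ≠ 0 := by exact_mod_cast hℓ.out.ne_zero
  have heq : (ℓ : ℚ) ^ a * c = Rat.divInt c.num (d' : ℤ) := by
    rw [Rat.divInt_eq_div]
    have h1 : c = (c.num : ℚ) / (c.den : ℚ) := (Rat.num_div_den c).symm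
    have hd0' : (d' : ℚ) ≠ 0 := by exact_mod_cast hd0
    conv_lhs => rw [h1, hden]
    push_cast
    field_simp
  rw [heq]
  show (Rat.divInt c.num (d' : ℤ)).den.Coprime ℓ
  have h1 : ((Rat.divInt c.num (d' : ℤ)).den : ℤ) ∣ (d' : ℤ) := Rat.den_dvd _ _
  have h2 : (Rat.divInt c.num (d' : ℤ)).den ∣ d' := by exact_mod_cast h1
  have h3 : d'.Coprime ℓ := (Nat.Coprime.symm ((Nat.Prime.coprime_iff_not_dvd hℓ.out).2 hd'))
  exact Nat.Coprime.coprime_dvd_left h2 h3

theorem pow_mul_mem_of_le {c : ℚ} {a b : ℕ} (hab : a ≤ b)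
    (h : (ℓ : ℚ) ^ a * c ∈ GaloisRep.ratLocalizedAt ℓ) :
    (ℓ : ℚ) ^ b * c ∈ GaloisRep.ratLocalizedAt ℓ := by
  obtain ⟨d, rfl⟩ := Nat.exists_eq_add_of_le hab
  have h1 : (ℓ : ℚ) ^ d ∈ GaloisRep.ratLocalizedAt ℓ :=
    pow_mem (natCast_mem ℓ ℓ) d
  have h2 := mul_mem h1 h
  have e : (ℓ : ℚ) ^ (a + d) * c = (ℓ : ℚ) ^ d * ((ℓ : ℚ) ^ a * c) := by ring
  rw [e]; exact h2

/-- a rational polynomial becomes `ℓ`-integral after multiplication by a power of `ℓ` -/
theorem exists_pow_mul_mem_lifts (f : ℚ[X]) :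
    ∃ a : ℕ, ∀ b, a ≤ b →
      C ((ℓ : ℚ) ^ b) * f ∈ lifts (GaloisRep.ratLocalizedAt ℓ).subtype := by
  classical
  choose e he using exists_pow_mul_mem ℓ
  refine ⟨∑ n ∈ f.support, e (f.coeff n), fun b hb => ?_⟩
  rw [lifts_iff_coeff_lifts]
  intro n
  rw [coeff_C_mul]
  by_cases hn : n ∈ f.support
  · have hle : e (f.coeff n) ≤ b :=
      le_trans (Finset.single_le_sum (f := fun n => e (f.coeff n)) (fun _ _ => Nat.zero_le _) hn) hb
    exact ⟨⟨_, pow_mul_mem_of_le ℓ hle (he (f.coeff n))⟩, rfl⟩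
  · rw [notMem_support_iff.1 hn, mul_zero]
    exact ⟨0, rfl⟩

/-- a polynomial over `ℤ_(ℓ)` with zero reduction is divisible by `ℓ` -/
theorem C_ell_dvd_of_map_eq_zero {f : (GaloisRep.ratLocalizedAt ℓ)[X]}
    (h : f.map (resHom ℓ) = 0) : C (ℓ : GaloisRep.ratLocalizedAt ℓ) ∣ f := by
  rw [C_dvd_iff_dvd_coeff]
  intro i
  have hi : resHom ℓ (f.coeff i) = 0 := by
    rw [← coeff_map, h, coeff_zero]
  obtain ⟨c', hc'⟩ := exists_eq_mul_of_resHom_eq_zero ℓ hi
  exact ⟨c', hc'⟩

theorem map_resHom_C_ell_mul (g : (GaloisRep.ratLocalizedAt ℓ)[X]) :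
    (C (ℓ : GaloisRep.ratLocalizedAt ℓ) * g).map (resHom ℓ) = 0 := by
  rw [Polynomial.map_mul, map_C, resHom_ell, map_zero, zero_mul]

theorem prime_ell : Prime (ℓ : GaloisRep.ratLocalizedAt ℓ) := by
  refine ⟨ell_ne_zero ℓ, ?_, ?_⟩
  · intro hu
    have := hu.map (resHom ℓ)
    rw [resHom_ell] at this
    exact not_isUnit_zero this
  · intro a b hab
    have h1 : resHom ℓ (a * b) = 0 := by
      obtain ⟨c, hc⟩ := hab
      rw [hc, map_mul, resHom_ell, zero_mul]
    rw [map_mul, mul_eq_zero] at h1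
    rcases h1 with h1 | h1
    · left
      obtain ⟨c', hc'⟩ := exists_eq_mul_of_resHom_eq_zero ℓ h1
      exact ⟨c', hc'⟩
    · right
      obtain ⟨c', hc'⟩ := exists_eq_mul_of_resHom_eq_zero ℓ h1
      exact ⟨c', hc'⟩

end Zl

end

end Fermat.Agent.S28_Prime
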