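-- Helper for S28 (block PRIME, helper3): the descent step.  If `j̄(q^p) = P(j̄)` mod `ℓ`, a pair of
-- swap-compatible relations with `ℓ`-integral coefficients can be divided by `ℓ` until the
-- denominator is nonzero mod `ℓ`.
import Mathlib
import Fermat.Agent.S28_PrimeAlg
import Fermat.Agent.S28_PrimeBase

set_option autoImplicit false

open Polynomial ModularCurve

namespace Fermat.Agent.S28_Prime

noncomputable section

open Fermat.Agent.S28_QExp Fermat.Agent.S28_PrimeAlg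

variable (ℓ : ℕ) [hℓ : Fact ℓ.Prime] (p : ℕ) [NeZero p]

theorem redT_evL (x : LaurentSeries (GaloisRep.ratLocalizedAt ℓ))
    (A : (GaloisRep.ratLocalizedAt ℓ)[X]) :
    redT ℓ (evL _ x A) = evL (ZMod ℓ) (redT ℓ x) (A.map (resHom ℓ)) :=
  coeffMap_evL (resHom ℓ) x A

theorem emb_evL (x : LaurentSeries (GaloisRep.ratLocalizedAt ℓ))
    (A : (GaloisRep.ratLocalizedAt ℓ)[X]) :
    emb ℓ (evL _ x A) = evL ℚ (emb ℓ x) (A.map (GaloisRep.ratLocalizedAt ℓ).subtype) :=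
  coeffMap_evL (GaloisRep.ratLocalizedAt ℓ).subtype x A

theorem redT_jq : redT ℓ (jqModC (GaloisRep.ratLocalizedAt ℓ)) = jqModC (ZMod ℓ) :=
  coeffMap_jqModC (resHom ℓ)

theorem emb_jq : emb ℓ (jqModC (GaloisRep.ratLocalizedAt ℓ)) = jqModC ℚ :=
  coeffMap_jqModC (GaloisRep.ratLocalizedAt ℓ).subtype

theorem redT_jqN : redT ℓ (qExpand _ p (jqModC (GaloisRep.ratLocalizedAt ℓ)))
    = qExpand (ZMod ℓ) p (jqModC (ZMod ℓ)) := by
  rw [redT, coeffMap_qExpand, coeffMap_jqModC]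

theorem emb_jqN : emb ℓ (qExpand _ p (jqModC (GaloisRep.ratLocalizedAt ℓ)))
    = qExpand ℚ p (jqModC ℚ) := by
  rw [emb, coeffMap_qExpand, coeffMap_jqModC]

theorem natCast_ne_zero_of {n : ℕ} (hn : (n : ZMod ℓ) ≠ 0) :
    ((n : ℕ) : LaurentSeries (ZMod ℓ)) ≠ 0 := by
  intro h
  have h2 : ((n : ℕ) : LaurentSeries (ZMod ℓ)) = HahnSeries.C ((n : ℕ) : ZMod ℓ) :=
    (map_natCast (HahnSeries.C : ZMod ℓ →+* LaurentSeries (ZMod ℓ)) n).symm
  rw [h2] at h
  exact hn (HahnSeries.C_injective (by rw [h, map_zero]))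

theorem C_ell_ne_zero :
    (HahnSeries.C ((ℓ : ℕ) : GaloisRep.ratLocalizedAt ℓ) :
      LaurentSeries (GaloisRep.ratLocalizedAt ℓ)) ≠ 0 := by
  intro h
  exact ell_ne_zero ℓ (HahnSeries.C_injective (by rw [h, map_zero]))

/-- **Descent.** -/
theorem descent (hp2 : 2 ≤ p) (P : (ZMod ℓ)[X])
    (hP : qExpand (ZMod ℓ) p (jqModC (ZMod ℓ)) = evL (ZMod ℓ) (jqModC (ZMod ℓ)) P)
    (x y : LaurentSeries (GaloisRep.ratLocalizedAt ℓ)) (n₁ n₂ : ℕ) (hn₂ : (n₂ : ZMod ℓ) ≠ 0) :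
    ∀ (m : ℕ) (D : (GaloisRep.ratLocalizedAt ℓ)[X]) (A : ℕ → (GaloisRep.ratLocalizedAt ℓ)[X]),
      D ≠ 0 → padicValRat ℓ ((D.leadingCoeff : GaloisRep.ratLocalizedAt ℓ) : ℚ) ≤ m →
      evL _ (jqModC _) D * x = ∑ i ∈ Finset.range (p + 1),
        evL _ (jqModC _) (A i) * qExpand _ p (jqModC _) ^ i →
      (n₁ : LaurentSeries (GaloisRep.ratLocalizedAt ℓ)) * (evL _ (qExpand _ p (jqModC _)) D * y)
        = (n₂ : LaurentSeries (GaloisRep.ratLocalizedAt ℓ)) * ∑ i ∈ Finset.range (p + 1),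
          evL _ (qExpand _ p (jqModC _)) (A i) * jqModC _ ^ i →
      ∃ (D' : (GaloisRep.ratLocalizedAt ℓ)[X]) (A' : ℕ → (GaloisRep.ratLocalizedAt ℓ)[X]),
        D'.map (resHom ℓ) ≠ 0 ∧
        evL _ (jqModC _) D' * x = ∑ i ∈ Finset.range (p + 1),
          evL _ (jqModC _) (A' i) * qExpand _ p (jqModC _) ^ i := by
  obtain ⟨hPdeg, hPmonic⟩ := natDegree_eq_and_monic_of_eq (ZMod ℓ) p P hP
  -- the common step
  have step : ∀ (D : (GaloisRep.ratLocalizedAt ℓ)[X]) (A : ℕ → (GaloisRep.ratLocalizedAt ℓ)[X]),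
      D ≠ 0 → D.map (resHom ℓ) = 0 →
      evL _ (jqModC _) D * x = ∑ i ∈ Finset.range (p + 1),
        evL _ (jqModC _) (A i) * qExpand _ p (jqModC _) ^ i →
      (n₁ : LaurentSeries (GaloisRep.ratLocalizedAt ℓ)) * (evL _ (qExpand _ p (jqModC _)) D * y)
        = (n₂ : LaurentSeries (GaloisRep.ratLocalizedAt ℓ)) * ∑ i ∈ Finset.range (p + 1),
          evL _ (qExpand _ p (jqModC _)) (A i) * jqModC _ ^ i →
      ∃ (D₁ : (GaloisRep.ratLocalizedAt ℓ)[X]) (A₁ : ℕ → (GaloisRep.ratLocalizedAt ℓ)[X]),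
        D₁ ≠ 0 ∧ D = C (ℓ : GaloisRep.ratLocalizedAt ℓ) * D₁ ∧
        evL _ (jqModC _) D₁ * x = ∑ i ∈ Finset.range (p + 1),
          evL _ (jqModC _) (A₁ i) * qExpand _ p (jqModC _) ^ i ∧
        (n₁ : LaurentSeries (GaloisRep.ratLocalizedAt ℓ)) *
            (evL _ (qExpand _ p (jqModC _)) D₁ * y)
          = (n₂ : LaurentSeries (GaloisRep.ratLocalizedAt ℓ)) * ∑ i ∈ Finset.range (p + 1),
            evL _ (qExpand _ p (jqModC _)) (A₁ i) * jqModC _ ^ i := by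
    intro D A hD0 hDred h1 h2
    -- reduce the first relation
    have r1 : ∑ i ∈ Finset.range (p + 1), (A i).map (resHom ℓ) * P ^ i = 0 := by
      apply evL_jq_injective (ZMod ℓ)
      have h := congrArg (redT ℓ) h1
      rw [map_mul, redT_evL, hDred, map_zero, zero_mul, map_sum] at h
      rw [map_zero, map_sum, h]
      refine Finset.sum_congr rfl fun i _ => ?_
      rw [map_mul (redT ℓ), map_pow (redT ℓ), redT_evL, redT_jq, redT_jqN, hP,
        map_mul (evL (ZMod ℓ) _), map_pow (evL (ZMod ℓ) _)]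
    -- reduce the second relation
    have r2 : ∑ i ∈ Finset.range (p + 1), ((A i).map (resHom ℓ)).comp P * X ^ i = 0 := by
      apply evL_jq_injective (ZMod ℓ)
      have h := congrArg (redT ℓ) h2
      rw [map_mul, map_mul, redT_evL, hDred, map_zero, zero_mul, mul_zero, map_mul, map_natCast,
        map_sum] at h
      have h' := (mul_eq_zero.1 h.symm).resolve_left (natCast_ne_zero_of ℓ hn₂)
      rw [map_zero, map_sum, ← h']
      refine Finset.sum_congr rfl fun i _ => ?_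
      rw [map_mul (redT ℓ), map_pow (redT ℓ), redT_evL, redT_jq, redT_jqN, hP,
        map_mul (evL (ZMod ℓ) _), map_pow (evL (ZMod ℓ) _), evL_comp, evL_X]
    have hA := bad_case P hPdeg hPmonic hp2 (fun i => (A i).map (resHom ℓ)) r1 r2
    obtain ⟨D₁, hD₁⟩ := C_ell_dvd_of_map_eq_zero ℓ hDred
    have hA' : ∀ i, ∃ g : (GaloisRep.ratLocalizedAt ℓ)[X],
        i ≤ p → A i = C (ℓ : GaloisRep.ratLocalizedAt ℓ) * g := by
      intro i
      by_cases hi : i ≤ p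
      · obtain ⟨g, hg⟩ := C_ell_dvd_of_map_eq_zero ℓ (hA i hi)
        exact ⟨g, fun _ => hg⟩
      · exact ⟨0, fun h => absurd h hi⟩
    choose A₁ hA₁ using hA'
    have hL := C_ell_ne_zero ℓ
    refine ⟨D₁, A₁, ?_, hD₁, ?_, ?_⟩
    · rintro rfl
      exact hD0 (by rw [hD₁, mul_zero])
    · apply mul_left_cancel₀ hL
      rw [Finset.mul_sum, ← mul_assoc, ← evL_C (jqModC (GaloisRep.ratLocalizedAt ℓ)), ← map_mul,
        ← hD₁, h1]
      refine Finset.sum_congr rfl fun i hi => ?_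
      rw [hA₁ i (Nat.lt_succ_iff.1 (Finset.mem_range.1 hi)), map_mul, mul_assoc]
    · apply mul_left_cancel₀ hL
      have e1 : HahnSeries.C ((ℓ : ℕ) : GaloisRep.ratLocalizedAt ℓ) *
          ((n₁ : LaurentSeries (GaloisRep.ratLocalizedAt ℓ)) *
            (evL _ (qExpand _ p (jqModC _)) D₁ * y))
          = (n₁ : LaurentSeries (GaloisRep.ratLocalizedAt ℓ)) *
            (evL _ (qExpand _ p (jqModC _)) D * y) := by
        rw [hD₁, map_mul, evL_C]; ring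
      have e2 : ∑ i ∈ Finset.range (p + 1),
            evL _ (qExpand _ p (jqModC (GaloisRep.ratLocalizedAt ℓ))) (A i) * jqModC _ ^ i
          = HahnSeries.C ((ℓ : ℕ) : GaloisRep.ratLocalizedAt ℓ) * ∑ i ∈ Finset.range (p + 1),
            evL _ (qExpand _ p (jqModC (GaloisRep.ratLocalizedAt ℓ))) (A₁ i) * jqModC _ ^ i := by
        rw [Finset.mul_sum]
        refine Finset.sum_congr rfl fun i hi => ?_
        rw [hA₁ i (Nat.lt_succ_iff.1 (Finset.mem_range.1 hi)), map_mul, evL_C, mul_assoc]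
      rw [e1, h2, e2]
      ring
  have hval : ∀ (D D₁ : (GaloisRep.ratLocalizedAt ℓ)[X]), D₁ ≠ 0 →
      D = C (ℓ : GaloisRep.ratLocalizedAt ℓ) * D₁ →
      padicValRat ℓ ((D.leadingCoeff : GaloisRep.ratLocalizedAt ℓ) : ℚ)
        = 1 + padicValRat ℓ ((D₁.leadingCoeff : GaloisRep.ratLocalizedAt ℓ) : ℚ) := by
    intro D D₁ hD₁0 hD
    have hlc : D.leadingCoeff = (ℓ : GaloisRep.ratLocalizedAt ℓ) * D₁.leadingCoeff := by
      rw [hD, leadingCoeff_mul, leadingCoeff_C]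
    have hlc0 : ((D₁.leadingCoeff : GaloisRep.ratLocalizedAt ℓ) : ℚ) ≠ 0 := by
      intro h
      exact hD₁0 (leadingCoeff_eq_zero.1 (Subtype.ext h))
    have hℓ0 : ((ℓ : ℕ) : ℚ) ≠ 0 := by exact_mod_cast hℓ.out.ne_zero
    rw [hlc]
    push_cast
    rw [padicValRat.mul hℓ0 hlc0, padicValRat.self hℓ.out.one_lt]
  intro m
  induction m with
  | zero =>
    intro D A hD0 hv h1 h2
    by_cases hDred : D.map (resHom ℓ) = 0
    · obtain ⟨D₁, A₁, hD₁0, hD, -, -⟩ := step D A hD0 hDred h1 h2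
      have h3 := hval D D₁ hD₁0 hD
      have h4 := padicValRat_nonneg ℓ D₁.leadingCoeff
      rw [h3] at hv
      have : (1 : ℤ) + padicValRat ℓ ((D₁.leadingCoeff : GaloisRep.ratLocalizedAt ℓ) : ℚ) ≤ 0 := by
        exact_mod_cast hv
      omega
    · exact ⟨D, A, hDred, h1⟩
  | succ m ih =>
    intro D A hD0 hv h1 h2
    by_cases hDred : D.map (resHom ℓ) = 0
    · obtain ⟨D₁, A₁, hD₁0, hD, h1', h2'⟩ := step D A hD0 hDred h1 h2
      have h3 := hval D D₁ hD₁0 hD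
      rw [h3] at hv
      refine ih D₁ A₁ hD₁0 ?_ h1' h2'
      have : (1 : ℤ) + padicValRat ℓ ((D₁.leadingCoeff : GaloisRep.ratLocalizedAt ℓ) : ℚ)
          ≤ (m : ℤ) + 1 := by exact_mod_cast hv
      have : padicValRat ℓ ((D₁.leadingCoeff : GaloisRep.ratLocalizedAt ℓ) : ℚ) ≤ (m : ℤ) := by
        omega
      exact_mod_cast this
    · exact ⟨D, A, hDred, h1⟩

end

end Fermat.Agent.S28_Prime
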