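-- Helper for S28 (block QX): over an integrally closed domain `A` with a prime element `p`,
-- if `p • y` and `s • y` are integral over `A` and `p ∤ s`, then `y` is integral over `A`.
import Mathlib

set_option autoImplicit false

open Polynomial

namespace Fermat.Agent.S28_QExp

section scale

variable {K F : Type*} [Field K] [Field F] [Algebra K F]

/-- the minimal polynomial of `a • y` is the root-scaled minimal polynomial of `y` -/
theorem minpoly_mul_eq_scaleRoots {a : K} (ha : a ≠ 0) {y : F} (hy : IsIntegral K y) :
    minpoly K (algebraMap K F a * y) = (minpoly K y).scaleRoots a := by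
  have hay : IsIntegral K (algebraMap K F a * y) := isIntegral_algebraMap.mul hy
  have hmonic : ((minpoly K y).scaleRoots a).Monic :=
    (monic_scaleRoots_iff a).2 (minpoly.monic hy)
  have hroot : aeval (algebraMap K F a * y) ((minpoly K y).scaleRoots a) = 0 :=
    scaleRoots_aeval_eq_zero (minpoly.aeval K y)
  have hdvd : minpoly K (algebraMap K F a * y) ∣ (minpoly K y).scaleRoots a :=
    minpoly.dvd K _ hroot
  have hroot' : aeval y ((minpoly K (algebraMap K F a * y)).scaleRoots a⁻¹) = 0 := by
    have h := scaleRoots_aeval_eq_zero (r := a⁻¹) (minpoly.aeval K (algebraMap K F a * y))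
    have h2 : algebraMap K F a⁻¹ * (algebraMap K F a * y) = y := by
      rw [← mul_assoc, ← map_mul, inv_mul_cancel₀ ha, map_one, one_mul]
    rwa [h2] at h
  have hdvd' : minpoly K y ∣ (minpoly K (algebraMap K F a * y)).scaleRoots a⁻¹ :=
    minpoly.dvd K _ hroot'
  have hmonic' : ((minpoly K (algebraMap K F a * y)).scaleRoots a⁻¹).Monic :=
    (monic_scaleRoots_iff a⁻¹).2 (minpoly.monic hay)
  have hdeg : ((minpoly K y).scaleRoots a).natDegree ≤
      (minpoly K (algebraMap K F a * y)).natDegree := by
    rw [natDegree_scaleRoots]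
    have := natDegree_le_of_dvd hdvd' hmonic'.ne_zero
    rwa [natDegree_scaleRoots] at this
  exact (eq_of_monic_of_dvd_of_natDegree_le (minpoly.monic hay) hmonic hdvd hdeg).symm

end scale

/-- coefficients of the minimal polynomial of `y`, scaled by powers of `a`, lie in `A` as soon
as `a • y` is integral over `A` -/
theorem exists_coeff_mul_pow {A : Type*} (K : Type*) {F : Type*} [CommRing A] [IsDomain A]
    [IsIntegrallyClosed A] [Field K] [Algebra A K] [IsFractionRing A K] [Field F] [Algebra K F]
    [Algebra A F] [IsScalarTower A K F] {a : A} (ha : a ≠ 0) {y : F}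
    (h : IsIntegral A (algebraMap A F a * y)) (i : ℕ) :
    ∃ c : A, algebraMap A K c =
      (minpoly K y).coeff i * algebraMap A K a ^ ((minpoly K y).natDegree - i) := by
  have ha' : algebraMap A K a ≠ 0 := by
    rwa [Ne, map_eq_zero_iff _ (IsFractionRing.injective A K)]
  have hcomp : algebraMap A F a = algebraMap K F (algebraMap A K a) :=
    IsScalarTower.algebraMap_apply A K F a
  have hK : IsIntegral K (algebraMap K F (algebraMap A K a) * y) := by
    rw [← hcomp]; exact h.tower_top
  have hy : IsIntegral K y := by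
    have h1 : y = algebraMap K F (algebraMap A K a)⁻¹ *
        (algebraMap K F (algebraMap A K a) * y) := by
      rw [← mul_assoc, ← map_mul, inv_mul_cancel₀ ha', map_one, one_mul]
    rw [h1]
    exact isIntegral_algebraMap.mul hK
  have h1 := minpoly.isIntegrallyClosed_eq_field_fractions' K h
  rw [hcomp, minpoly_mul_eq_scaleRoots ha' hy] at h1
  refine ⟨(minpoly A (algebraMap K F (algebraMap A K a) * y)).coeff i, ?_⟩
  have h2 := congrArg (fun q => q.coeff i) h1
  simp only [coeff_scaleRoots, coeff_map] at h2
  rw [← hcomp]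
  rw [← hcomp] at h2
  exact h2.symm

/-- **Lemma (L).** -/
theorem isIntegral_of_isIntegral_mul {A : Type*} (K : Type*) {F : Type*} [CommRing A]
    [IsDomain A] [IsIntegrallyClosed A] [Field K] [Algebra A K] [IsFractionRing A K] [Field F]
    [Algebra K F] [Algebra A F] [IsScalarTower A K F]
    {p s : A} (hp : Prime p) (hs : ¬ p ∣ s) {y : F}
    (h1 : IsIntegral A (algebraMap A F p * y)) (h2 : IsIntegral A (algebraMap A F s * y)) :
    IsIntegral A y := by
  have hp0 : p ≠ 0 := hp.ne_zero
  have hs0 : s ≠ 0 := by
    rintro rfl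
    exact hs (dvd_zero p)
  have hp' : algebraMap A K p ≠ 0 := by
    rwa [Ne, map_eq_zero_iff _ (IsFractionRing.injective A K)]
  have hcoeff : ∀ i, ∃ c : A, algebraMap A K c = (minpoly K y).coeff i := by
    intro i
    obtain ⟨α, hα⟩ := exists_coeff_mul_pow K hp0 h1 i
    obtain ⟨β, hβ⟩ := exists_coeff_mul_pow K hs0 h2 i
    set e := (minpoly K y).natDegree - i with he
    have h3 : s ^ e * α = p ^ e * β := by
      apply IsFractionRing.injective A K
      rw [map_mul, map_mul, map_pow, map_pow, hα, hβ]
      ring
    have h4 : p ^ e ∣ α := by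
      apply hp.pow_dvd_of_dvd_mul_left e (fun h => hs (hp.dvd_of_dvd_pow h))
      exact ⟨β, h3⟩
    obtain ⟨γ, hγ⟩ := h4
    refine ⟨γ, ?_⟩
    have h5 : algebraMap A K p ^ e * algebraMap A K γ =
        algebraMap A K p ^ e * (minpoly K y).coeff i := by
      rw [← map_pow, ← map_mul, ← hγ, hα, map_pow]
      ring
    exact mul_left_cancel₀ (pow_ne_zero e hp') h5
  have hy : IsIntegral K y := by
    have hcomp : algebraMap A F p = algebraMap K F (algebraMap A K p) :=
      IsScalarTower.algebraMap_apply A K F p
    have hK : IsIntegral K (algebraMap K F (algebraMap A K p) * y) := by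
      rw [← hcomp]; exact h1.tower_top
    have h6 : y = algebraMap K F (algebraMap A K p)⁻¹ *
        (algebraMap K F (algebraMap A K p) * y) := by
      rw [← mul_assoc, ← map_mul, inv_mul_cancel₀ hp', map_one, one_mul]
    rw [h6]
    exact isIntegral_algebraMap.mul hK
  have hlifts : minpoly K y ∈ lifts (algebraMap A K) :=
    (lifts_iff_coeff_lifts _).2 fun i => hcoeff i
  obtain ⟨q, hq, -, hqm⟩ := lifts_and_natDegree_eq_and_monic hlifts (minpoly.monic hy)
  refine ⟨q, hqm, ?_⟩
  have h7 : eval₂ (algebraMap A F) y q = eval₂ (algebraMap K F) y (q.map (algebraMap A K)) := by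
    rw [eval₂_map, ← IsScalarTower.algebraMap_eq]
  rw [h7, hq]
  exact minpoly.aeval K y

end Fermat.Agent.S28_QExp
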