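-- Helper for S28 (block PRIME, helper3): `ℤ_(ℓ)` is integrally closed, and the instance of
-- helper8's Lemma (L) for `ℤ_(ℓ)[j] ⊂ ℚ((q))`.
import Mathlib
import Fermat.Agent.S28_PrimeBase
import Fermat.Agent.S28_QExpL

set_option autoImplicit false

open Polynomial ModularCurve

namespace Fermat.Agent.S28_Prime

noncomputable section

open Fermat.Agent.S28_QExp

variable (ℓ : ℕ) [hℓ : Fact ℓ.Prime]

/-- `ℤ_(ℓ)` as a valuation subring of `ℚ` -/
def zlVal : ValuationSubring ℚ :=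
  { GaloisRep.ratLocalizedAt ℓ with
    mem_or_inv_mem' := by
      intro x
      by_cases h : x.den.Coprime ℓ
      · exact Or.inl h
      · right
        show (x⁻¹).den.Coprime ℓ
        have hdvd : ℓ ∣ x.den := by
          by_contra hnd
          exact h ((Nat.Prime.coprime_iff_not_dvd hℓ.out).2 hnd).symm
        have hx : x⁻¹ = Rat.divInt (x.den : ℤ) x.num := by
          rw [Rat.divInt_eq_div]
          conv_lhs => rw [← Rat.num_div_den x]
          rw [inv_div]
          push_cast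
          rfl
        rw [hx]
        have h1 : ((Rat.divInt (x.den : ℤ) x.num).den : ℤ) ∣ x.num := Rat.den_dvd _ _
        rw [Nat.coprime_comm, Nat.Prime.coprime_iff_not_dvd hℓ.out]
        intro h2
        have h3 : (ℓ : ℤ) ∣ x.num := dvd_trans (by exact_mod_cast h2) h1
        have h4 : ℓ ∣ x.num.natAbs := Int.natCast_dvd.1 h3
        have h5 := Nat.dvd_gcd h4 hdvd
        rw [x.reduced] at h5
        exact hℓ.out.one_lt.ne' (Nat.dvd_one.1 h5) }

instance isIntegrallyClosed_zl : IsIntegrallyClosed (GaloisRep.ratLocalizedAt ℓ) :=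
  inferInstanceAs (IsIntegrallyClosed (zlVal ℓ).toSubring)

/-- evaluation `ℤ_(ℓ)[X] → ℚ((q))` at a Laurent series with rational coefficients -/
def evZ (j : LaurentSeries ℚ) : (GaloisRep.ratLocalizedAt ℓ)[X] →+* LaurentSeries ℚ :=
  (evL ℚ j).comp (mapRingHom (GaloisRep.ratLocalizedAt ℓ).subtype)

theorem evZ_apply (j : LaurentSeries ℚ) (s : (GaloisRep.ratLocalizedAt ℓ)[X]) :
    evZ ℓ j s = evL ℚ j (s.map (GaloisRep.ratLocalizedAt ℓ).subtype) := rfl

theorem evZ_injective {j : LaurentSeries ℚ} (hj : Function.Injective (evL ℚ j)) :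
    Function.Injective (evZ ℓ j) := by
  intro a b h
  exact Polynomial.map_injective _ (Subtype.val_injective) (hj h)

theorem evZ_C_ell (j : LaurentSeries ℚ) :
    evZ ℓ j (C (ℓ : GaloisRep.ratLocalizedAt ℓ)) = (ℓ : LaurentSeries ℚ) := by
  rw [evZ_apply, map_C, evL_C]
  show HahnSeries.C ((ℓ : ℕ) : ℚ) = _
  rw [map_natCast]

/-- **Lemma (L) for `ℤ_(ℓ)[j]`**: if `ℓ^a y` and `s(j) y` are integral over `ℤ_(ℓ)[j]` and `s` is
nonzero mod `ℓ`, then `y` is integral over `ℤ_(ℓ)[j]`. -/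
theorem isIntegralElem_of_mul {j : LaurentSeries ℚ} (hj : Function.Injective (evL ℚ j))
    (s : (GaloisRep.ratLocalizedAt ℓ)[X]) (hs : s.map (resHom ℓ) ≠ 0) (y : LaurentSeries ℚ)
    (a : ℕ) (h1 : (evZ ℓ j).IsIntegralElem ((ℓ : LaurentSeries ℚ) ^ a * y))
    (h2 : (evZ ℓ j).IsIntegralElem (evZ ℓ j s * y)) : (evZ ℓ j).IsIntegralElem y := by
  have hinj := evZ_injective ℓ hj
  letI : Algebra (GaloisRep.ratLocalizedAt ℓ)[X] (LaurentSeries ℚ) := (evZ ℓ j).toAlgebra
  letI : Algebra (FractionRing (GaloisRep.ratLocalizedAt ℓ)[X]) (LaurentSeries ℚ) :=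
    (IsFractionRing.lift (g := evZ ℓ j) hinj).toAlgebra
  haveI : IsScalarTower (GaloisRep.ratLocalizedAt ℓ)[X]
      (FractionRing (GaloisRep.ratLocalizedAt ℓ)[X]) (LaurentSeries ℚ) :=
    IsScalarTower.of_algebraMap_eq fun x => (IsFractionRing.lift_algebraMap hinj x).symm
  have hp : Prime (C (ℓ : GaloisRep.ratLocalizedAt ℓ)) := prime_C_iff.2 (prime_ell ℓ)
  have hnd : ¬ C (ℓ : GaloisRep.ratLocalizedAt ℓ) ∣ s := by
    rintro ⟨g, rfl⟩
    exact hs (map_resHom_C_ell_mul ℓ g)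
  have key : ∀ (a : ℕ) (y : LaurentSeries ℚ),
      IsIntegral (GaloisRep.ratLocalizedAt ℓ)[X] ((ℓ : LaurentSeries ℚ) ^ a * y) →
      IsIntegral (GaloisRep.ratLocalizedAt ℓ)[X] (evZ ℓ j s * y) →
      IsIntegral (GaloisRep.ratLocalizedAt ℓ)[X] y := by
    intro a
    induction a with
    | zero =>
      intro y h1 _
      simpa using h1
    | succ a ih =>
      intro y h1 h2
      apply ih y _ h2
      refine isIntegral_of_isIntegral_mul (FractionRing (GaloisRep.ratLocalizedAt ℓ)[X]) hp hnd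
        (y := (ℓ : LaurentSeries ℚ) ^ a * y) ?_ ?_
      · have e : algebraMap (GaloisRep.ratLocalizedAt ℓ)[X] (LaurentSeries ℚ)
            (C (ℓ : GaloisRep.ratLocalizedAt ℓ)) * ((ℓ : LaurentSeries ℚ) ^ a * y)
            = (ℓ : LaurentSeries ℚ) ^ (a + 1) * y := by
          show evZ ℓ j (C (ℓ : GaloisRep.ratLocalizedAt ℓ)) * _ = _
          rw [evZ_C_ell]; ring
        rw [e]; exact h1
      · have e : algebraMap (GaloisRep.ratLocalizedAt ℓ)[X] (LaurentSeries ℚ) s
            * ((ℓ : LaurentSeries ℚ) ^ a * y)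
            = algebraMap (GaloisRep.ratLocalizedAt ℓ)[X] (LaurentSeries ℚ)
                (C (ℓ : GaloisRep.ratLocalizedAt ℓ) ^ a) * (evZ ℓ j s * y) := by
          show evZ ℓ j s * _ = evZ ℓ j (C (ℓ : GaloisRep.ratLocalizedAt ℓ) ^ a) * _
          rw [map_pow, evZ_C_ell]; ring
        rw [e]
        exact isIntegral_algebraMap.mul h2
  exact key a y h1 h2

end

end Fermat.Agent.S28_Prime
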