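-- Helper for S28 (block PRIME, helper3): coordinates in `ℚ(j)[j_p]` compatible with the swap.
import Mathlib
import Fermat.Agent.S28_PrimeBase

set_option autoImplicit false

open Polynomial ModularCurve

namespace Fermat.Agent.S28_Prime

noncomputable section

theorem algebraMap_eq_C : algebraMap ℚ (LaurentSeries ℚ) = HahnSeries.C := by
  ext c : 1
  rw [algebraMap_laurentSeries_eq_single]
  rfl

theorem aeval_eq (x : LaurentSeries ℚ) (q : Polynomial ℚ) : aeval x q = evL ℚ x q := by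
  rw [evL_apply, aeval_def, algebraMap_eq_C]

/-- bridge: `aevalAeval` in terms of `eval₂` and `evL` -/
theorem aevalAeval_eq (x y : LaurentSeries ℚ) (H : Polynomial (Polynomial ℚ)) :
    H.aevalAeval x y = H.eval₂ (evL ℚ x) y := by
  have h : ((aevalAeval x y : Polynomial (Polynomial ℚ) →ₐ[ℚ] LaurentSeries ℚ) :
      Polynomial (Polynomial ℚ) →+* LaurentSeries ℚ) = eval₂RingHom (evL ℚ x) y := by
    apply Polynomial.ringHom_ext
    · intro q
      have h1 : (aevalAeval x y) (C q) = aeval x q := aevalAeval_C x y q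
      simp only [RingHom.coe_coe, coe_eval₂RingHom, eval₂_C]
      rw [h1, aeval_eq]
    · simp only [RingHom.coe_coe, coe_eval₂RingHom, eval₂_X]
      exact aevalAeval_Y x y
  exact RingHom.congr_fun h H

/-- a nonzero element of `ℚ[j][j_p]` divides a nonzero element of `ℚ[j]` -/
theorem exists_inv {x y : LaurentSeries ℚ} (Φ : Polynomial (Polynomial ℚ)) (hΦm : Φ.Monic)
    (hΦ : Φ.eval₂ (evL ℚ x) y = 0)
    (H₁ : Polynomial (Polynomial ℚ)) (h1 : H₁.eval₂ (evL ℚ x) y ≠ 0) :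
    ∃ (H' : Polynomial (Polynomial ℚ)) (D : Polynomial ℚ), D ≠ 0 ∧
      (H₁ * H').eval₂ (evL ℚ x) y = evL ℚ x D := by
  letI : Algebra (Polynomial ℚ) (LaurentSeries ℚ) := (evL ℚ x).toAlgebra
  have hint : IsIntegral (Polynomial ℚ) y := ⟨Φ, hΦm, hΦ⟩
  have hx₁ : IsIntegral (Polynomial ℚ) (aeval y H₁) :=
    adjoin_le_integralClosure hint (aeval_mem_adjoin_singleton _ _)
  have hx₁' : aeval y H₁ = H₁.eval₂ (evL ℚ x) y := rfl
  rw [hx₁'] at hx₁
  set x₁ := H₁.eval₂ (evL ℚ x) y with hx₁def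
  obtain ⟨f, hfm, hf⟩ := hx₁
  have hf0 : f ≠ 0 := hfm.ne_zero
  obtain ⟨q, hq, hndvd⟩ := exists_eq_pow_rootMultiplicity_mul_and_not_dvd f hf0 0
  rw [map_zero, sub_zero] at hq hndvd
  have hq0 : q.coeff 0 ≠ 0 := fun h => hndvd (X_dvd_iff.2 h)
  have hqx : q.eval₂ (evL ℚ x) x₁ = 0 := by
    have h2 : f.eval₂ (evL ℚ x) x₁ = 0 := hf
    rw [hq, eval₂_mul, eval₂_pow, eval₂_X] at h2
    exact (mul_eq_zero.1 h2).resolve_left (pow_ne_zero _ h1)
  have hq' : (divX q).eval₂ (evL ℚ x) x₁ * x₁ + evL ℚ x (q.coeff 0) = 0 := by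
    have h3 := congrArg (fun g : Polynomial (Polynomial ℚ) => g.eval₂ (evL ℚ x) x₁)
      (divX_mul_X_add q)
    simp only [eval₂_add, eval₂_mul, eval₂_X, eval₂_C] at h3
    rw [h3, hqx]
  refine ⟨-(divX q).eval₂ (C : Polynomial ℚ →+* Polynomial (Polynomial ℚ)) H₁, q.coeff 0, hq0, ?_⟩
  have h4 : ((divX q).eval₂ (C : Polynomial ℚ →+* Polynomial (Polynomial ℚ)) H₁).eval₂
      (evL ℚ x) y = (divX q).eval₂ (evL ℚ x) x₁ := by
    have h5 := hom_eval₂ (divX q) (C : Polynomial ℚ →+* Polynomial (Polynomial ℚ))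
      (eval₂RingHom (evL ℚ x) y) H₁
    simp only [coe_eval₂RingHom] at h5
    rw [h5]
    congr 1
    exact RingHom.ext fun c => by simp
  rw [eval₂_mul, eval₂_neg, h4, ← hx₁def]
  linear_combination -hq'

/-- **Coordinates.** If `x = H(j, j_p) / H₁(j, j_p)` and `y = H(j_p, j) / H₁(j_p, j)`, then there
are `D ≠ 0` in `ℚ[X]` and `R` of `Y`-degree `< deg Φ` with `D(j) x = R(j, j_p)` and
`D(j_p) y = R(j_p, j)`. -/
theorem exists_repr {j jp : LaurentSeries ℚ} (Φ : Polynomial (Polynomial ℚ)) (hΦm : Φ.Monic)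
    (hΦne : Φ ≠ 1)
    (hΦ1 : Φ.eval₂ (evL ℚ j) jp = 0) (hΦ2 : Φ.eval₂ (evL ℚ jp) j = 0)
    (hswap : ∀ H : Polynomial (Polynomial ℚ), H.eval₂ (evL ℚ j) jp = 0 →
      H.eval₂ (evL ℚ jp) j = 0)
    (x y : LaurentSeries ℚ) (H₁ H : Polynomial (Polynomial ℚ))
    (h1 : H₁.eval₂ (evL ℚ j) jp ≠ 0)
    (hx : x * H₁.eval₂ (evL ℚ j) jp = H.eval₂ (evL ℚ j) jp)
    (hy : y * H₁.eval₂ (evL ℚ jp) j = H.eval₂ (evL ℚ jp) j) :
    ∃ (D : Polynomial ℚ) (R : Polynomial (Polynomial ℚ)), D ≠ 0 ∧ R.natDegree < Φ.natDegree ∧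
      x * evL ℚ j D = R.eval₂ (evL ℚ j) jp ∧ y * evL ℚ jp D = R.eval₂ (evL ℚ jp) j := by
  obtain ⟨H', D, hD, hH'⟩ := exists_inv Φ hΦm hΦ1 H₁ h1
  have hK : (H₁ * H' - C D).eval₂ (evL ℚ j) jp = 0 := by
    rw [eval₂_sub, hH', eval₂_C, sub_self]
  have hK' := hswap _ hK
  rw [eval₂_sub, eval₂_C, sub_eq_zero] at hK'
  refine ⟨D, (H * H') %ₘ Φ, hD, natDegree_modByMonic_lt _ hΦm hΦne, ?_, ?_⟩
  · have e : (H * H').eval₂ (evL ℚ j) jp = ((H * H') %ₘ Φ).eval₂ (evL ℚ j) jp := by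
      conv_lhs => rw [← modByMonic_add_div (H * H') Φ]
      rw [eval₂_add, eval₂_mul, hΦ1, zero_mul, add_zero]
    rw [← e, ← hH', eval₂_mul, eval₂_mul, ← hx]
    ring
  · have e : (H * H').eval₂ (evL ℚ jp) j = ((H * H') %ₘ Φ).eval₂ (evL ℚ jp) j := by
      conv_lhs => rw [← modByMonic_add_div (H * H') Φ]
      rw [eval₂_add, eval₂_mul, hΦ2, zero_mul, add_zero]
    rw [← e, ← hK', eval₂_mul, eval₂_mul, ← hy]
    ring

end

end Fermat.Agent.S28_Prime
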