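-- Helper for S28 (block PRIME, helper3): Lemma P over `𝔽_ℓ`: `j(q^p)` is not a polynomial in `j`
-- mod `ℓ` (for primes `p ≠ ℓ`).  Combines the descent with the char-0 inputs.
import Mathlib
import Fermat.Agent.S28_PrimeInt
import Fermat.Agent.S28_PrimeRepr
import Fermat.Agent.S28_PrimeDescent
import Fermat.Agent.S28_Defs
import Fermat.Agent.S28_Mod0
import Fermat.Agent.S28_UnitQ

set_option autoImplicit false

open Polynomial ModularCurve

namespace Fermat.Agent.S28_Prime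

noncomputable section

open Fermat.Agent.S28_QExp Fermat.Agent.S28_Defs

/-! ### General lemmas -/

/-- `k[j]` is integrally closed in `k(j)` (in `evL` form) -/
theorem exists_evL_eq_of_integral (k : Type*) [Field k] {j : LaurentSeries k}
    (hj : Function.Injective (evL k j)) (u : LaurentSeries k) (D N : k[X]) (hD : D ≠ 0)
    (h : evL k j D * u = evL k j N) (hu : (evL k j).IsIntegralElem u) :
    ∃ Q : k[X], u = evL k j Q := by
  obtain ⟨F, hFm, hF⟩ := hu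
  let K := FractionRing k[X]
  let φ : K →+* LaurentSeries k := IsFractionRing.lift (g := evL k j) hj
  have hφ : ∀ a : k[X], φ (algebraMap k[X] K a) = evL k j a := IsFractionRing.lift_algebraMap hj
  have hDu : evL k j D ≠ 0 := fun h0 => hD (hj (by rw [h0, map_zero]))
  set r : K := algebraMap k[X] K N / algebraMap k[X] K D with hr
  have hφr : φ r = u := by
    rw [hr, map_div₀, hφ, hφ, ← h]
    field_simp
  have hint : IsIntegral k[X] r := by
    refine ⟨F, hFm, ?_⟩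
    apply φ.injective
    rw [map_zero, hom_eval₂]
    have : φ.comp (algebraMap k[X] K) = evL k j := RingHom.ext hφ
    rw [this, hφr]; exact hF
  obtain ⟨Q, hQ⟩ := IsIntegrallyClosed.isIntegral_iff.1 hint
  exact ⟨Q, by rw [← hφr, ← hQ, hφ]⟩

/-- the modular unit `q^(p-1) + …` is not a polynomial in `j` -/
theorem uSer_ne_evL (R : Type*) [CommRing R] [Nontrivial R] (p : ℕ) [NeZero p] (hp2 : 2 ≤ p)
    (Q : R[X]) : uSer R p ≠ evL R (jqModC R) Q := by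
  intro h
  by_cases hQ : Q = 0
  · rw [hQ, map_zero] at h
    exact uSer_ne_zero R p h
  · have h1 := coeff_evL_jq R Q
    rw [← h, coeff_uSer_of_lt R p (by omega)] at h1
    exact hQ (leadingCoeff_eq_zero.1 h1.symm)

theorem natCast_laurent_ne_zero {n : ℕ} (hn : n ≠ 0) : ((n : ℕ) : LaurentSeries ℚ) ≠ 0 := by
  intro h
  have h2 : ((n : ℕ) : LaurentSeries ℚ) = HahnSeries.C ((n : ℕ) : ℚ) :=
    (map_natCast (HahnSeries.C : ℚ →+* LaurentSeries ℚ) n).symm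
  rw [h2] at h
  have h3 : ((n : ℕ) : ℚ) = 0 := HahnSeries.C_injective (by rw [h, map_zero])
  exact hn (by exact_mod_cast h3)

/-! ### The relations over `ℚ` -/

/-- coordinates of `u j_p^m` in `ℚ(j)[j_p]`, compatible with the Fricke swap -/
theorem exists_rat_repr (p : ℕ) [NeZero p] (hp : p.Prime) (m : ℕ) :
    ∃ (D : ℚ[X]) (A : ℕ → ℚ[X]), D ≠ 0 ∧
      evL ℚ (jqModC ℚ) D * (uSer ℚ p * qExpand ℚ p (jqModC ℚ) ^ m)
        = ∑ i ∈ Finset.range (p + 1), evL ℚ (jqModC ℚ) (A i) * qExpand ℚ p (jqModC ℚ) ^ i ∧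
      evL ℚ (qExpand ℚ p (jqModC ℚ)) D * (uInv ℚ p * jqModC ℚ ^ m)
        = (p : LaurentSeries ℚ) ^ 12 * ∑ i ∈ Finset.range (p + 1),
            evL ℚ (qExpand ℚ p (jqModC ℚ)) (A i) * jqModC ℚ ^ i := by
  rw [jqModC_rat]
  obtain ⟨Φ, hΦm, hΦdeg, hΦ1, hΦ2⟩ := Fermat.Agent.S28_Mod0.exists_modular_relation p hp
  obtain ⟨G₁, G, hG1, hGx, hGy⟩ := Fermat.Agent.S28_UnitQ.exists_unit_repr p hp
  rw [aevalAeval_eq] at hΦ1 hΦ2 hG1
  rw [aevalAeval_eq, aevalAeval_eq] at hGx hGy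
  have hΦne : Φ ≠ 1 := by
    intro h
    rw [h, natDegree_one] at hΦdeg
    omega
  have hswap : ∀ H : Polynomial (Polynomial ℚ), H.eval₂ (evL ℚ jq) (qExpand ℚ p jq) = 0 →
      H.eval₂ (evL ℚ (qExpand ℚ p jq)) jq = 0 := by
    intro H hH
    rw [← aevalAeval_eq] at hH ⊢
    exact (Fermat.Agent.S28_Mod0.swap_relation p hp H).1 hH
  have hU : Fermat.Agent.S28_UnitQ.unitSer p = uSer ℚ p := (uSer_rat p).symm
  have hUinv : (uSer ℚ p)⁻¹ = uInv ℚ p := inv_eq_of_mul_eq_one_right (uSer_mul_uInv ℚ p)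
  rw [hU] at hGx hGy
  rw [hUinv] at hGy
  have hp0 : (p : LaurentSeries ℚ) ^ 12 ≠ 0 := pow_ne_zero _ (natCast_laurent_ne_zero (NeZero.ne p))
  obtain ⟨D, R, hD, hRdeg, hx, hy⟩ := exists_repr Φ hΦm hΦne hΦ1 hΦ2 hswap
    (uSer ℚ p * qExpand ℚ p jq ^ m) (((p : LaurentSeries ℚ) ^ 12)⁻¹ * uInv ℚ p * jq ^ m) G₁
    (G * X ^ m) hG1
    (by rw [eval₂_mul, eval₂_pow, eval₂_X, ← hGx]; ring)
    (by rw [eval₂_mul, eval₂_pow, eval₂_X, ← hGy]; ring)
  rw [hΦdeg] at hRdeg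
  refine ⟨D, fun i => R.coeff i, hD, ?_, ?_⟩
  · rw [← eval₂_eq_sum_range' _ hRdeg, ← hx]
    ring
  · rw [← eval₂_eq_sum_range' _ hRdeg, ← hy]
    have e : ((p : LaurentSeries ℚ) ^ 12)⁻¹ * uInv ℚ p * jq ^ m *
          (evL ℚ ((qExpand ℚ p) jq)) D
        = ((p : LaurentSeries ℚ) ^ 12)⁻¹ * (evL ℚ ((qExpand ℚ p) jq) D * (uInv ℚ p * jq ^ m)) := by
      ring
    rw [e, mul_inv_cancel_left₀ hp0]

/-! ### The relations over `ℤ_(ℓ)` -/

section Zl

variable (ℓ : ℕ) [hℓ : Fact ℓ.Prime] (p : ℕ) [NeZero p]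

theorem emb_uSer : emb ℓ (uSer (GaloisRep.ratLocalizedAt ℓ) p) = uSer ℚ p :=
  coeffMap_uSer p _

theorem emb_uInv : emb ℓ (uInv (GaloisRep.ratLocalizedAt ℓ) p) = uInv ℚ p :=
  coeffMap_uInv p _

theorem redT_uSer : redT ℓ (uSer (GaloisRep.ratLocalizedAt ℓ) p) = uSer (ZMod ℓ) p :=
  coeffMap_uSer p _

/-- (T3) the relations of `exists_rat_repr` with `ℓ`-integral coefficients -/
theorem exists_zl_repr (hp : p.Prime) (m : ℕ) :
    ∃ (D : (GaloisRep.ratLocalizedAt ℓ)[X]) (A : ℕ → (GaloisRep.ratLocalizedAt ℓ)[X]), D ≠ 0 ∧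
      evL _ (jqModC _) D * (uSer (GaloisRep.ratLocalizedAt ℓ) p * qExpand _ p (jqModC _) ^ m)
        = ∑ i ∈ Finset.range (p + 1), evL _ (jqModC _) (A i) * qExpand _ p (jqModC _) ^ i ∧
      ((1 : ℕ) : LaurentSeries (GaloisRep.ratLocalizedAt ℓ)) *
          (evL _ (qExpand _ p (jqModC _)) D *
            (uInv (GaloisRep.ratLocalizedAt ℓ) p * jqModC _ ^ m))
        = ((p ^ 12 : ℕ) : LaurentSeries (GaloisRep.ratLocalizedAt ℓ)) *
          ∑ i ∈ Finset.range (p + 1), evL _ (qExpand _ p (jqModC _)) (A i) * jqModC _ ^ i := by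
  obtain ⟨D, A, hD, h1, h2⟩ := exists_rat_repr p hp m
  choose e he using exists_pow_mul_mem_lifts ℓ
  set b := e D + ∑ i ∈ Finset.range (p + 1), e (A i) with hb
  have hbD : e D ≤ b := Nat.le_add_right _ _
  have hbA : ∀ i ∈ Finset.range (p + 1), e (A i) ≤ b := fun i hi =>
    le_trans (Finset.single_le_sum (f := fun i => e (A i)) (fun _ _ => Nat.zero_le _) hi)
      (Nat.le_add_left _ _)
  obtain ⟨D', hD'⟩ := (mem_lifts _).1 (he D b hbD)
  have hA' : ∀ i, ∃ g : (GaloisRep.ratLocalizedAt ℓ)[X], i ∈ Finset.range (p + 1) →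
      g.map (GaloisRep.ratLocalizedAt ℓ).subtype = C ((ℓ : ℚ) ^ b) * A i := by
    intro i
    by_cases hi : i ∈ Finset.range (p + 1)
    · obtain ⟨g, hg⟩ := (mem_lifts _).1 (he (A i) b (hbA i hi))
      exact ⟨g, fun _ => hg⟩
    · exact ⟨0, fun h => absurd h hi⟩
  choose A' hA' using hA'
  have hℓ0 : (ℓ : ℚ) ^ b ≠ 0 := pow_ne_zero _ (by exact_mod_cast hℓ.out.ne_zero)
  refine ⟨D', A', ?_, ?_, ?_⟩
  · rintro rfl
    rw [Polynomial.map_zero] at hD'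
    rcases mul_eq_zero.1 hD'.symm with h | h
    · exact hℓ0 (C_eq_zero.1 h)
    · exact hD h
  · apply emb_injective ℓ
    rw [map_mul (emb ℓ), map_mul (emb ℓ), map_pow (emb ℓ), emb_evL, emb_jq, emb_jqN, hD', map_sum,
      map_mul (evL ℚ _), evL_C, emb_uSer, mul_assoc, h1, Finset.mul_sum]
    refine Finset.sum_congr rfl fun i hi => ?_
    rw [map_mul (emb ℓ), map_pow (emb ℓ), emb_evL, emb_jq, emb_jqN, hA' i hi, map_mul (evL ℚ _),
      evL_C, mul_assoc]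
  · apply emb_injective ℓ
    have e2 : ∑ i ∈ Finset.range (p + 1), emb ℓ (evL _ (qExpand _ p (jqModC _)) (A' i)
          * jqModC (GaloisRep.ratLocalizedAt ℓ) ^ i)
        = HahnSeries.C ((ℓ : ℚ) ^ b) * ∑ i ∈ Finset.range (p + 1),
          evL ℚ (qExpand ℚ p (jqModC ℚ)) (A i) * jqModC ℚ ^ i := by
      rw [Finset.mul_sum]
      refine Finset.sum_congr rfl fun i hi => ?_
      rw [map_mul (emb ℓ), map_pow (emb ℓ), emb_evL, emb_jq, emb_jqN, hA' i hi,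
        map_mul (evL ℚ _), evL_C, mul_assoc]
    rw [Nat.cast_one, one_mul, map_mul (emb ℓ), map_mul (emb ℓ), map_mul (emb ℓ),
      map_pow (emb ℓ), emb_evL, emb_jq, emb_jqN, hD',
      map_sum, e2, map_mul (evL ℚ _), evL_C, emb_uInv, map_natCast, mul_assoc, h2, Nat.cast_pow]
    ring

/-- stability: if `j̄(q^p) = P(j̄)`, then `D(j) u j_p^m ∈ ⨁_{i ≤ p} ℤ_(ℓ)[j] j_p^i` with `D ≠ 0`
mod `ℓ` -/
theorem exists_stable (hp : p.Prime) (hpl : p ≠ ℓ) (P : (ZMod ℓ)[X])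
    (hP : qExpand (ZMod ℓ) p (jqModC (ZMod ℓ)) = evL (ZMod ℓ) (jqModC (ZMod ℓ)) P) (m : ℕ) :
    ∃ (D : (GaloisRep.ratLocalizedAt ℓ)[X]) (A : ℕ → (GaloisRep.ratLocalizedAt ℓ)[X]),
      D.map (resHom ℓ) ≠ 0 ∧
      evL _ (jqModC _) D * (uSer (GaloisRep.ratLocalizedAt ℓ) p * qExpand _ p (jqModC _) ^ m)
        = ∑ i ∈ Finset.range (p + 1), evL _ (jqModC _) (A i) * qExpand _ p (jqModC _) ^ i := by
  obtain ⟨D, A, hD, h1, h2⟩ := exists_zl_repr ℓ p hp m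
  have hn₂ : ((p ^ 12 : ℕ) : ZMod ℓ) ≠ 0 := by
    rw [Nat.cast_pow]
    apply pow_ne_zero
    rw [Ne, ZMod.natCast_eq_zero_iff]
    intro h
    exact hpl ((Nat.prime_dvd_prime_iff_eq hℓ.out hp).1 h).symm
  exact descent ℓ p hp.two_le P hP _ _ 1 (p ^ 12) hn₂
    (padicValRat ℓ ((D.leadingCoeff : GaloisRep.ratLocalizedAt ℓ) : ℚ)).toNat D A hD
    (Int.self_le_toNat _) h1 h2

/-- (T5) integrality of `s(j) u` over `ℤ_(ℓ)[j]` for some `s` nonzero mod `ℓ` -/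
theorem exists_isIntegralElem_mul (hp : p.Prime) (hpl : p ≠ ℓ) (P : (ZMod ℓ)[X])
    (hP : qExpand (ZMod ℓ) p (jqModC (ZMod ℓ)) = evL (ZMod ℓ) (jqModC (ZMod ℓ)) P) :
    ∃ s : (GaloisRep.ratLocalizedAt ℓ)[X], s.map (resHom ℓ) ≠ 0 ∧
      (evZ ℓ (jqModC ℚ)).IsIntegralElem (evZ ℓ (jqModC ℚ) s * uSer ℚ p) := by
  classical
  choose D A hD hrel using exists_stable ℓ p hp hpl P hP
  -- the relations in `ℚ((q))`
  have hrelQ : ∀ m, evZ ℓ (jqModC ℚ) (D m) * (uSer ℚ p * qExpand ℚ p (jqModC ℚ) ^ m)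
      = ∑ i ∈ Finset.range (p + 1), evZ ℓ (jqModC ℚ) (A m i) * qExpand ℚ p (jqModC ℚ) ^ i := by
    intro m
    have h := congrArg (emb ℓ) (hrel m)
    rw [map_mul (emb ℓ), map_mul (emb ℓ), map_pow (emb ℓ), emb_evL, emb_jq, emb_jqN, emb_uSer,
      map_sum] at h
    rw [evZ_apply, h]
    refine Finset.sum_congr rfl fun i _ => ?_
    rw [map_mul (emb ℓ), map_pow (emb ℓ), emb_evL, emb_jq, emb_jqN, evZ_apply]
  refine ⟨∏ m ∈ Finset.range (p + 1), D m, ?_, ?_⟩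
  · rw [Polynomial.map_prod, Finset.prod_ne_zero_iff]
    exact fun m _ => hD m
  · letI : Algebra (GaloisRep.ratLocalizedAt ℓ)[X] (LaurentSeries ℚ) :=
      (evZ ℓ (jqModC ℚ)).toAlgebra
    have hsmul : ∀ (a : (GaloisRep.ratLocalizedAt ℓ)[X]) (x : LaurentSeries ℚ),
        a • x = evZ ℓ (jqModC ℚ) a * x := fun a x => rfl
    set N : Submodule (GaloisRep.ratLocalizedAt ℓ)[X] (LaurentSeries ℚ) :=
      Submodule.span _ (Set.range fun i : Fin (p + 1) => qExpand ℚ p (jqModC ℚ) ^ (i : ℕ))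
      with hN
    have hmem : ∀ i, i < p + 1 → qExpand ℚ p (jqModC ℚ) ^ i ∈ N := fun i hi =>
      Submodule.subset_span ⟨⟨i, hi⟩, rfl⟩
    have hNbot : N ≠ ⊥ := by
      intro h
      have h1 : (qExpand ℚ p (jqModC ℚ)) ^ 0 ∈ N := hmem 0 (Nat.succ_pos _)
      rw [h, Submodule.mem_bot, pow_zero] at h1
      exact one_ne_zero h1
    have hFG : N.FG := Submodule.fg_span (Set.finite_range _)
    have key : N ≤ N.comap (LinearMap.mulLeft (GaloisRep.ratLocalizedAt ℓ)[X]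
        (evZ ℓ (jqModC ℚ) (∏ m ∈ Finset.range (p + 1), D m) * uSer ℚ p)) := by
      rw [hN, Submodule.span_le]
      rintro _ ⟨i, rfl⟩
      rw [← hN]
      show evZ ℓ (jqModC ℚ) (∏ m ∈ Finset.range (p + 1), D m) * uSer ℚ p *
        qExpand ℚ p (jqModC ℚ) ^ (i : ℕ) ∈ N
      have hi : (i : ℕ) ∈ Finset.range (p + 1) := Finset.mem_range.2 i.2
      rw [← Finset.mul_prod_erase _ _ hi, map_mul, mul_assoc, mul_assoc,
        mul_left_comm, ← mul_assoc (evZ ℓ (jqModC ℚ) (D i)), mul_assoc (evZ ℓ (jqModC ℚ) (D i)),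
        hrelQ, Finset.mul_sum]
      refine Submodule.sum_mem _ fun t ht => ?_
      rw [← mul_assoc, ← map_mul, ← hsmul]
      exact Submodule.smul_mem _ _ (hmem t (Finset.mem_range.1 ht))
    exact isIntegral_of_smul_mem_submodule N hNbot hFG _ (fun n hn => key hn)

/-- from integrality over `ℚ[j]` (as `Algebra.adjoin`) to the `evL` form -/
theorem isIntegralElem_evL_of_isIntegral_adjoin {x : LaurentSeries ℚ}
    (h : IsIntegral (Algebra.adjoin ℚ {(jq : LaurentSeries ℚ)}) x) :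
    (evL ℚ jq).IsIntegralElem x := by
  obtain ⟨g, hgm, hg⟩ := h
  let φ : ℚ[X] →+* ↥(Algebra.adjoin ℚ {(jq : LaurentSeries ℚ)}) :=
    ((aeval (jq : LaurentSeries ℚ)).codRestrict (Algebra.adjoin ℚ {(jq : LaurentSeries ℚ)})
      (fun q => aeval_mem_adjoin_singleton ℚ jq) : ℚ[X] →ₐ[ℚ] _).toRingHom
  have hφ : Function.Surjective φ := by
    rintro ⟨y, hy⟩
    rw [Algebra.adjoin_singleton_eq_range_aeval] at hy
    obtain ⟨q, hq⟩ := hy
    exact ⟨q, Subtype.ext hq⟩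
  obtain ⟨G, hGmap, -, hGm⟩ :=
    lifts_and_natDegree_eq_and_monic (mem_lifts_of_surjective hφ g) hgm
  refine ⟨G, hGm, ?_⟩
  have hcomp : (algebraMap ↥(Algebra.adjoin ℚ {(jq : LaurentSeries ℚ)}) (LaurentSeries ℚ)).comp φ
      = evL ℚ jq := RingHom.ext fun q => aeval_eq jq q
  rw [← hcomp, ← eval₂_map, hGmap]
  exact hg

/-- an element integral over `ℚ[j]` becomes integral over `ℤ_(ℓ)[j]` after multiplication by a
power of `ℓ` -/
theorem exists_isIntegralElem_pow_mul {x : LaurentSeries ℚ}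
    (h : (evL ℚ (jqModC ℚ)).IsIntegralElem x) :
    ∃ a : ℕ, (evZ ℓ (jqModC ℚ)).IsIntegralElem ((ℓ : LaurentSeries ℚ) ^ a * x) := by
  obtain ⟨G, hGm, hG⟩ := h
  choose e he using exists_pow_mul_mem_lifts ℓ
  set a := ∑ i ∈ Finset.range G.natDegree, e (G.coeff i) with ha
  refine ⟨a, ?_⟩
  have hG'm : (scaleRoots G (C ((ℓ : ℚ) ^ a))).Monic := (monic_scaleRoots_iff _).2 hGm
  have hCa : evL ℚ (jqModC ℚ) (C ((ℓ : ℚ) ^ a)) = (ℓ : LaurentSeries ℚ) ^ a := by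
    rw [evL_C, map_pow, map_natCast]
  have hG'root : (scaleRoots G (C ((ℓ : ℚ) ^ a))).eval₂ (evL ℚ (jqModC ℚ))
      ((ℓ : LaurentSeries ℚ) ^ a * x) = 0 := by
    rw [← hCa]
    exact scaleRoots_eval₂_eq_zero _ hG
  have hlift : scaleRoots G (C ((ℓ : ℚ) ^ a))
      ∈ lifts (mapRingHom (GaloisRep.ratLocalizedAt ℓ).subtype) := by
    rw [lifts_iff_coeff_lifts]
    intro i
    rw [coeff_scaleRoots]
    rcases lt_trichotomy i G.natDegree with hi | hi | hi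
    · have h1 : e (G.coeff i) ≤ a * (G.natDegree - i) := by
        have h2 : e (G.coeff i) ≤ a :=
          Finset.single_le_sum (f := fun i => e (G.coeff i)) (fun _ _ => Nat.zero_le _)
            (Finset.mem_range.2 hi)
        have h3 : 1 ≤ G.natDegree - i := by omega
        calc e (G.coeff i) ≤ a := h2
          _ = a * 1 := (mul_one a).symm
          _ ≤ a * (G.natDegree - i) := Nat.mul_le_mul_left a h3
      obtain ⟨g, hg⟩ := (mem_lifts _).1 (he (G.coeff i) _ h1)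
      refine ⟨g, ?_⟩
      rw [coe_mapRingHom, hg, ← C_pow, ← pow_mul, mul_comm]
    · rw [hi, Nat.sub_self, pow_zero, mul_one, hGm.coeff_natDegree]
      exact ⟨1, by simp⟩
    · rw [coeff_eq_zero_of_natDegree_lt hi, zero_mul]
      exact ⟨0, by simp⟩
  obtain ⟨G'', hG''map, -, hG''m⟩ := lifts_and_natDegree_eq_and_monic hlift hG'm
  refine ⟨G'', hG''m, ?_⟩
  show eval₂ ((evL ℚ (jqModC ℚ)).comp (mapRingHom (GaloisRep.ratLocalizedAt ℓ).subtype)) _ G'' = 0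
  rw [← eval₂_map, hG''map]
  exact hG'root

/-- **Lemma P over `𝔽_ℓ`** (in `evL` form): for primes `p ≠ ℓ`, `j(q^p)` is not a polynomial in
`j` mod `ℓ`. -/
theorem not_poly_evL (hp : p.Prime) (hpl : p ≠ ℓ) (P : (ZMod ℓ)[X]) :
    qExpand (ZMod ℓ) p (jqModC (ZMod ℓ)) ≠ evL (ZMod ℓ) (jqModC (ZMod ℓ)) P := by
  intro hP
  -- integrality of `s(j) u`
  obtain ⟨s, hs, h2⟩ := exists_isIntegralElem_mul ℓ p hp hpl P hP
  -- integrality of `ℓ^a u`
  have hu0 : (evL ℚ (jqModC ℚ)).IsIntegralElem (uSer ℚ p) := by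
    have := Fermat.Agent.S28_UnitQ.isIntegral_unitSer p hp
    rw [show Fermat.Agent.S28_UnitQ.unitSer p = uSer ℚ p from (uSer_rat p).symm] at this
    exact isIntegralElem_evL_of_isIntegral_adjoin this
  obtain ⟨a, h1⟩ := exists_isIntegralElem_pow_mul ℓ hu0
  -- integrality of `u` over `ℤ_(ℓ)[j]`
  obtain ⟨F, hFm, hF⟩ := isIntegralElem_of_mul ℓ (evL_jq_injective ℚ) s hs (uSer ℚ p) a h1 h2
  -- back to `ℤ_(ℓ)((q))`
  have hFW : F.eval₂ (evL _ (jqModC (GaloisRep.ratLocalizedAt ℓ)))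
      (uSer (GaloisRep.ratLocalizedAt ℓ) p) = 0 := by
    apply emb_injective ℓ
    rw [map_zero, hom_eval₂, emb_uSer]
    have : (emb ℓ).comp (evL _ (jqModC (GaloisRep.ratLocalizedAt ℓ))) = evZ ℓ (jqModC ℚ) :=
      RingHom.ext fun B => by
        rw [RingHom.comp_apply, emb_evL, emb_jq, evZ_apply]
    rw [this]
    exact hF
  -- reduce mod `ℓ`
  have hFbar : (F.map (mapRingHom (resHom ℓ))).eval₂ (evL (ZMod ℓ) (jqModC (ZMod ℓ)))
      (uSer (ZMod ℓ) p) = 0 := by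
    have h := congrArg (redT ℓ) hFW
    rw [map_zero, hom_eval₂, redT_uSer] at h
    rw [eval₂_map]
    have : (redT ℓ).comp (evL _ (jqModC (GaloisRep.ratLocalizedAt ℓ)))
        = (evL (ZMod ℓ) (jqModC (ZMod ℓ))).comp (mapRingHom (resHom ℓ)) :=
      RingHom.ext fun B => by
        rw [RingHom.comp_apply, RingHom.comp_apply, redT_evL, redT_jq, coe_mapRingHom]
    rw [← this]
    exact h
  have hint : (evL (ZMod ℓ) (jqModC (ZMod ℓ))).IsIntegralElem (uSer (ZMod ℓ) p) :=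
    ⟨F.map (mapRingHom (resHom ℓ)), hFm.map _, hFbar⟩
  -- `ū ∈ 𝔽_ℓ(j̄)`
  obtain ⟨D, A, hD, hrel⟩ := exists_stable ℓ p hp hpl P hP 0
  have hrel' : evL (ZMod ℓ) (jqModC (ZMod ℓ)) (D.map (resHom ℓ)) * uSer (ZMod ℓ) p
      = evL (ZMod ℓ) (jqModC (ZMod ℓ))
          (∑ i ∈ Finset.range (p + 1), (A i).map (resHom ℓ) * P ^ i) := by
    have h := congrArg (redT ℓ) hrel
    rw [pow_zero, mul_one, map_mul (redT ℓ), redT_evL, redT_jq, redT_uSer, map_sum] at h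
    rw [h, map_sum]
    refine Finset.sum_congr rfl fun i _ => ?_
    rw [map_mul (redT ℓ), map_pow (redT ℓ), redT_evL, redT_jq, redT_jqN, hP,
      map_mul (evL (ZMod ℓ) _), map_pow (evL (ZMod ℓ) _)]
  obtain ⟨Q, hQ⟩ := exists_evL_eq_of_integral (ZMod ℓ) (evL_jq_injective (ZMod ℓ)) _ _ _ hD hrel'
    hint
  exact uSer_ne_evL (ZMod ℓ) p hp.two_le Q hQ

end Zl

end

end Fermat.Agent.S28_Prime
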