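import Fermat.Prelude.Def_ModularCurve_X0ModL

/-!
# S28_Desc (helper4): descent of the independent monomials from a field `k ⊇ 𝔽_ℓ` to `𝔽_ℓ`

Monomials in the `j̄(q^d)`, `d ∣ N`, over a field `k` are coefficient extensions of monomials
over any subfield; a family of such monomials which is linearly independent over `k(J)` comes
from a family over the subfield which is independent over its polynomial ring in `J`.
Also: `jqModC k` is transcendental over `k` (injective evaluation form).
-/

set_option autoImplicit false

noncomputable section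

open ModularCurve HahnSeries

namespace Fermat.Agent.S28_Desc

/-- Coefficients of a scalar multiple in a Laurent series field. -/
theorem coeff_algebraMap_mul {L : Type*} [Field L] (c : L) (x : LaurentSeries L) (a : ℤ) :
    (algebraMap L (LaurentSeries L) c * x).coeff a = c * x.coeff a := by
  rw [algebraMap_laurentSeries_eq_single, HahnSeries.coeff_single_mul, sub_zero]

/-- `jqModC k` is transcendental over `k`: nonzero polynomials have nonzero values. -/
theorem aeval_jqModC_ne_zero (k : Type*) [Field k] {p : Polynomial k} (hp : p ≠ 0) :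
    Polynomial.aeval (jqModC k) p ≠ 0 := by
  intro h
  have h1 := congrArg (fun x : LaurentSeries k => x.coeff (-(p.natDegree : ℤ))) h
  simp only [coeff_zero] at h1
  rw [Polynomial.aeval_eq_sum_range, coeff_sum, Finset.sum_eq_single p.natDegree] at h1
  · rw [Algebra.smul_def, coeff_algebraMap_mul, coeff_jqModC_pow_self, mul_one] at h1
    exact hp (Polynomial.leadingCoeff_eq_zero.mp h1)
  · intro i hi hne
    have hlt : i < p.natDegree := lt_of_le_of_ne (Nat.lt_succ_iff.mp (Finset.mem_range.mp hi)) hne
    rw [Algebra.smul_def, coeff_algebraMap_mul, coeff_jqModC_pow_of_lt k (by omega), mul_zero]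
  · intro hn
    exact absurd (Finset.mem_range.mpr (Nat.lt_succ_self _)) hn

theorem aeval_jqModC_injective (k : Type*) [Field k] :
    Function.Injective (Polynomial.aeval (R := k) (jqModC k)) := by
  rw [injective_iff_map_eq_zero]
  intro p hp
  by_contra hne
  exact aeval_jqModC_ne_zero k hne hp

/-- Coefficient extension commutes with evaluation of polynomials at `J`. -/
theorem coeffMap_aeval_jqModC {R S : Type*} [Field R] [Field S] (f : R →+* S)
    (p : Polynomial R) :
    coeffMap f (Polynomial.aeval (jqModC R) p) = Polynomial.aeval (jqModC S) (p.map f) := by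
  rw [Polynomial.aeval_def, Polynomial.aeval_def, Polynomial.eval₂_map, Polynomial.hom_eval₂,
    coeffMap_jqModC]
  congr 1
  ext c
  simp only [RingHom.comp_apply]
  rw [algebraMap_laurentSeries_eq_single, algebraMap_laurentSeries_eq_single, coeffMap_single]

/-- Monomials in the `j̄(q^d)` over `S` are coefficient extensions of monomials over `R`. -/
theorem exists_preimage_of_mem_closure {R S : Type*} [Field R] [Field S] (f : R →+* S) (N : ℕ)
    [NeZero N] {x : LaurentSeries S} (hx : x ∈ Submonoid.closure (divisorExpansionsC S N)) :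
    ∃ y ∈ Submonoid.closure (divisorExpansionsC R N), coeffMap f y = x := by
  induction hx using Submonoid.closure_induction with
  | mem x hx =>
    obtain ⟨d, hd0, hd, rfl⟩ := hx
    refine ⟨qExpand R d (jqModC R), Submonoid.subset_closure ⟨d, hd0, hd, rfl⟩, ?_⟩
    rw [coeffMap_qExpand, coeffMap_jqModC]
  | one => exact ⟨1, one_mem _, map_one _⟩
  | mul x y _ _ hx hy =>
    obtain ⟨x', hx', rfl⟩ := hx
    obtain ⟨y', hy', rfl⟩ := hy
    exact ⟨x' * y', mul_mem hx' hy', map_mul _ _ _⟩

/-- **Descent**: from `m` monomials over `k` independent over `k(J)` to `m` monomials over the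
subfield `k₀`, independent over `k₀[J]` (polynomial form). -/
theorem exists_indep_of_field {k₀ k : Type*} [Field k₀] [Field k] (f : k₀ →+* k) (N : ℕ)
    [NeZero N] {m : ℕ}
    (h : ∃ θ : Fin m → LaurentSeries k,
      (∀ i, θ i ∈ Submonoid.closure (divisorExpansionsC k N)) ∧
      LinearIndependent (IntermediateField.adjoin k {jqModC k}) θ) :
    ∃ v : Fin m → LaurentSeries k₀,
      (∀ i, v i ∈ Submonoid.closure (divisorExpansionsC k₀ N)) ∧
      (∀ i, v i ∈ Algebra.adjoin k₀ (divisorExpansionsC k₀ N)) ∧
      ∀ g : Fin m → Polynomial k₀,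
        (∑ i, Polynomial.aeval (jqModC k₀) (g i) * v i) = 0 → ∀ i, g i = 0 := by
  obtain ⟨θ, hθ, hli⟩ := h
  choose v hv hvθ using fun i => exists_preimage_of_mem_closure f N (hθ i)
  refine ⟨v, hv, fun i => ?_, fun g hg i => ?_⟩
  · have hle : Submonoid.closure (divisorExpansionsC k₀ N)
        ≤ (Algebra.adjoin k₀ (divisorExpansionsC k₀ N)).toSubmonoid :=
      Submonoid.closure_le.mpr Algebra.subset_adjoin
    exact hle (hv i)
  · rw [Fintype.linearIndependent_iff] at hli
    have hmem : ∀ i, Polynomial.aeval (jqModC k) ((g i).map f)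
        ∈ IntermediateField.adjoin k {jqModC k} := fun i =>
      (IntermediateField.algebra_adjoin_le_adjoin k _)
        (by rw [Algebra.adjoin_singleton_eq_range_aeval]; exact ⟨(g i).map f, rfl⟩)
    have h0 : (∑ i, (⟨Polynomial.aeval (jqModC k) ((g i).map f), hmem i⟩ :
        ↥(IntermediateField.adjoin k {jqModC k})) • θ i) = 0 := by
      have h1 := congrArg (coeffMap f) hg
      rw [map_sum, map_zero] at h1
      rw [← h1]
      refine Finset.sum_congr rfl fun i _ => ?_
      rw [map_mul, coeffMap_aeval_jqModC, hvθ i]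
      rfl
    have h2 := hli (fun i => ⟨Polynomial.aeval (jqModC k) ((g i).map f), hmem i⟩) h0 i
    have h3 : Polynomial.aeval (jqModC k) ((g i).map f) = 0 := congrArg Subtype.val h2
    have h4 : (g i).map f = 0 := aeval_jqModC_injective k (by rw [h3, map_zero])
    exact Polynomial.map_injective f f.injective (by rw [h4, Polynomial.map_zero])

/-- **Descent to `ZMod ℓ`** in the family form consumed by `S28_QExp` (the `(H)` bridge). -/
theorem exists_indep_zmod_of (ℓ : ℕ) [Fact ℓ.Prime] (N : ℕ) [NeZero N] (k : Type*) [Field k]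
    [Algebra (ZMod ℓ) k]
    (h : ∃ θ : Fin (dedekindPsi N) → LaurentSeries k,
      (∀ i, θ i ∈ Submonoid.closure (divisorExpansionsC k N)) ∧
      LinearIndependent (IntermediateField.adjoin k {jqModC k}) θ) :
    ∃ v : Fin (dedekindPsi N) → LaurentSeries (ZMod ℓ),
      (∀ i, v i ∈ Algebra.adjoin (ZMod ℓ) (divisorExpansionsC (ZMod ℓ) N)) ∧
      ∀ g : Fin (dedekindPsi N) → Polynomial (ZMod ℓ),
        (∑ i, Polynomial.aeval (jqModC (ZMod ℓ)) (g i) * v i) = 0 → ∀ i, g i = 0 := by
  obtain ⟨v, -, hv, hind⟩ := exists_indep_of_field (algebraMap (ZMod ℓ) k) N h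
  exact ⟨v, hv, hind⟩

end Fermat.Agent.S28_Desc

end
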