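-- Project I (S28): monomial substitutions on Laurent series.
-- `twist c` is the ring automorphism `f(t) ↦ f(c t)` of `R((t))` for a unit `c`; together with the
-- Prelude's `qExpand R e` (`f(t) ↦ f(t ^ e)`) it gives all substitutions `t ↦ c t ^ e`.
import Mathlib
import Fermat.Prelude.Def_ModularCurve_X0
import Fermat.Prelude.Def_ModularCurve_LaurentCoeff

set_option autoImplicit false

noncomputable section

namespace Fermat.Agent.S28_Subst

open ModularCurve HahnSeries

variable {R : Type*} [CommRing R]

/-! ### The twist `f(t) ↦ f(c t)` -/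

/-- the underlying function of the twist -/
def twistFun (c : Rˣ) (f : LaurentSeries R) : LaurentSeries R where
  coeff n := ((c ^ n : Rˣ) : R) * f.coeff n
  isPWO_support' := f.isPWO_support.mono fun n hn => by
    simp only [Function.mem_support, ne_eq] at hn ⊢
    intro h
    exact hn (by rw [h, mul_zero])

@[simp]
theorem twistFun_coeff (c : Rˣ) (f : LaurentSeries R) (n : ℤ) :
    (twistFun c f).coeff n = ((c ^ n : Rˣ) : R) * f.coeff n := rfl

theorem support_twistFun (c : Rˣ) (f : LaurentSeries R) :
    (twistFun c f).support = f.support := by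
  ext n
  simp only [HahnSeries.mem_support, twistFun_coeff, ne_eq]
  exact not_congr (Units.mul_right_eq_zero _)

theorem twistFun_mul (c : Rˣ) (x y : LaurentSeries R) :
    twistFun c (x * y) = twistFun c x * twistFun c y := by
  ext a
  rw [twistFun_coeff, HahnSeries.coeff_mul, HahnSeries.coeff_mul, Finset.mul_sum]
  refine Finset.sum_congr ?_ ?_
  · ext ij
    simp only [Finset.mem_antidiagonal, support_twistFun]
  · intro ij hij
    have h := (Finset.mem_antidiagonal.1 hij).2.2
    rw [twistFun_coeff, twistFun_coeff, ← h, zpow_add, Units.val_mul]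
    ring

/-- The twist `f(t) ↦ f(c t)` as a ring homomorphism. -/
def twistHom (c : Rˣ) : LaurentSeries R →+* LaurentSeries R where
  toFun := twistFun c
  map_one' := by
    ext n
    rw [twistFun_coeff, HahnSeries.coeff_one]
    split_ifs with h
    · subst h; simp
    · simp
  map_mul' := twistFun_mul c
  map_zero' := by
    ext n
    simp
  map_add' x y := by
    ext n
    simp [mul_add]

@[simp]
theorem twistHom_coeff (c : Rˣ) (f : LaurentSeries R) (n : ℤ) :
    (twistHom c f).coeff n = ((c ^ n : Rˣ) : R) * f.coeff n := rfl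

theorem twistHom_one (f : LaurentSeries R) : twistHom (1 : Rˣ) f = f := by
  ext n
  simp

theorem twistHom_twistHom (c d : Rˣ) (f : LaurentSeries R) :
    twistHom c (twistHom d f) = twistHom (c * d) f := by
  ext n
  rw [twistHom_coeff, twistHom_coeff, twistHom_coeff, mul_zpow, Units.val_mul, mul_assoc]

/-- The twist `f(t) ↦ f(c t)` as a ring automorphism. -/
def twist (c : Rˣ) : LaurentSeries R ≃+* LaurentSeries R where
  toFun := twistHom c
  invFun := twistHom c⁻¹
  left_inv f := by rw [twistHom_twistHom, inv_mul_cancel, twistHom_one]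
  right_inv f := by rw [twistHom_twistHom, mul_inv_cancel, twistHom_one]
  map_mul' := map_mul (twistHom c)
  map_add' := map_add (twistHom c)

@[simp]
theorem twist_coeff (c : Rˣ) (f : LaurentSeries R) (n : ℤ) :
    (twist c f).coeff n = ((c ^ n : Rˣ) : R) * f.coeff n := rfl

@[simp]
theorem twist_one (f : LaurentSeries R) : twist (1 : Rˣ) f = f := twistHom_one f

theorem twist_twist (c d : Rˣ) (f : LaurentSeries R) :
    twist c (twist d f) = twist (c * d) f := twistHom_twistHom c d f

theorem twist_symm (c : Rˣ) : (twist c).symm = twist c⁻¹ := by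
  ext f n
  rfl

theorem support_twist (c : Rˣ) (f : LaurentSeries R) : (twist c f).support = f.support :=
  support_twistFun c f

@[simp]
theorem twist_eq_zero_iff (c : Rˣ) (f : LaurentSeries R) : twist c f = 0 ↔ f = 0 :=
  map_eq_zero_iff _ (twist c).injective

theorem order_twist (c : Rˣ) (f : LaurentSeries R) : (twist c f).order = f.order := by
  by_cases hf : f = 0
  · rw [hf, map_zero]
  · have hf' : twist c f ≠ 0 := fun h => hf ((twist_eq_zero_iff c f).1 h)
    rw [HahnSeries.order_of_ne hf, HahnSeries.order_of_ne hf']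
    simp only [support_twist]

theorem twist_single (c : Rˣ) (n : ℤ) (r : R) :
    twist c (HahnSeries.single n r) = HahnSeries.single n (((c ^ n : Rˣ) : R) * r) := by
  ext m
  rw [twist_coeff]
  rcases eq_or_ne m n with rfl | hm
  · simp [HahnSeries.coeff_single_same]
  · simp [HahnSeries.coeff_single_of_ne hm]

theorem twist_C (c : Rˣ) (r : R) : twist c (HahnSeries.C r) = HahnSeries.C r := by
  rw [HahnSeries.C_apply, twist_single]
  simp

theorem twist_qExpand (c : Rˣ) (e : ℕ) [NeZero e] (f : LaurentSeries R) :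
    twist c (qExpand R e f) = qExpand R e (twist (c ^ e) f) := by
  ext n
  rw [twist_coeff]
  by_cases hn : (e : ℤ) ∣ n
  · obtain ⟨k, rfl⟩ := hn
    rw [qExpand_coeff_mul, qExpand_coeff_mul, twist_coeff, ← zpow_natCast c e, ← zpow_mul]
  · rw [qExpand_coeff_of_not_dvd e f hn, qExpand_coeff_of_not_dvd e _ hn, mul_zero]

theorem coeffMap_twist {S : Type*} [CommRing S] (g : R →+* S) (c : Rˣ) (f : LaurentSeries R) :
    coeffMap g (twist c f) = twist (Units.map (g : R →* S) c) (coeffMap g f) := by
  ext n
  rw [coeffMap_coeff, twist_coeff, twist_coeff, coeffMap_coeff, map_mul, ← map_zpow]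
  rfl

/-! ### Facts on `qExpand` -/

theorem qExpand_eq_zero_iff (e : ℕ) [NeZero e] (f : LaurentSeries R) :
    qExpand R e f = 0 ↔ f = 0 :=
  map_eq_zero_iff _ (qExpand_injective e)

/-- a series is in the range of `qExpand R e` iff it is supported on multiples of `e` -/
theorem mem_range_qExpand_iff (e : ℕ) [NeZero e] (f : LaurentSeries R) :
    f ∈ Set.range (qExpand R e) ↔ ∀ n : ℤ, ¬ (e : ℤ) ∣ n → f.coeff n = 0 := by
  constructor
  · rintro ⟨g, rfl⟩ n hn
    exact qExpand_coeff_of_not_dvd e g hn
  · intro h
    have he : (0 : ℤ) < e := by exact_mod_cast Nat.pos_of_ne_zero (NeZero.ne e)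
    have hbdd : BddBelow (Function.support fun k : ℤ => f.coeff ((e : ℤ) * k)) := by
      by_cases hf : f = 0
      · refine ⟨0, fun k hk => ?_⟩
        simp [hf] at hk
      · refine ⟨min f.order 0, fun k hk => ?_⟩
        have h1 : f.order ≤ (e : ℤ) * k := HahnSeries.order_le_of_coeff_ne_zero hk
        rcases le_or_gt 0 k with hk0 | hk0
        · exact le_trans (min_le_right _ _) hk0
        · -- `k < 0`: `f.order ≤ e k ≤ k`
          have h2 : (e : ℤ) * k ≤ k := by nlinarith
          exact le_trans (min_le_left _ _) (le_trans h1 h2)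
    refine ⟨HahnSeries.ofSuppBddBelow _ hbdd, ?_⟩
    ext n
    by_cases hn : (e : ℤ) ∣ n
    · obtain ⟨k, rfl⟩ := hn
      rw [qExpand_coeff_mul, HahnSeries.coeff_ofSuppBddBelow]
    · rw [qExpand_coeff_of_not_dvd e _ hn, h n hn]

theorem order_qExpand (e : ℕ) [NeZero e] (f : LaurentSeries R) :
    (qExpand R e f).order = (e : ℤ) * f.order := by
  by_cases hf : f = 0
  · rw [hf, map_zero, HahnSeries.order_zero, mul_zero]
  have he : (0 : ℤ) < e := by exact_mod_cast Nat.pos_of_ne_zero (NeZero.ne e)
  have hf' : qExpand R e f ≠ 0 := fun h => hf ((qExpand_eq_zero_iff e f).1 h)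
  apply le_antisymm
  · apply HahnSeries.order_le_of_coeff_ne_zero
    rw [qExpand_coeff_mul]
    exact fun h => hf (HahnSeries.coeff_order_eq_zero.1 h)
  · have h1 : (qExpand R e f).coeff (qExpand R e f).order ≠ 0 :=
      fun h => hf' (HahnSeries.coeff_order_eq_zero.1 h)
    have h2 : (e : ℤ) ∣ (qExpand R e f).order := by
      by_contra hnd
      exact h1 (qExpand_coeff_of_not_dvd e f hnd)
    obtain ⟨k, hk⟩ := h2
    rw [hk, qExpand_coeff_mul] at h1
    have h3 : f.order ≤ k := HahnSeries.order_le_of_coeff_ne_zero h1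
    rw [hk]
    exact mul_le_mul_of_nonneg_left h3 he.le

/-- the order of a series in the range of `qExpand R e` is divisible by `e` -/
theorem dvd_order_of_mem_range_qExpand (e : ℕ) [NeZero e] {f : LaurentSeries R}
    (hf : f ∈ Set.range (qExpand R e)) : (e : ℤ) ∣ f.order := by
  obtain ⟨g, rfl⟩ := hf
  rw [order_qExpand]
  exact dvd_mul_right _ _

/-- the fixed ring of the twist by a primitive `e`-th root of unity -/
theorem twist_eq_self_iff [IsDomain R] (e : ℕ) [NeZero e] (ζ : Rˣ)
    (hζ : IsPrimitiveRoot ζ e) (f : LaurentSeries R) :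
    twist ζ f = f ↔ f ∈ Set.range (qExpand R e) := by
  rw [mem_range_qExpand_iff]
  constructor
  · intro h n hn
    have h1 := congrArg (fun g : LaurentSeries R => g.coeff n) h
    simp only [twist_coeff] at h1
    have h2 : ((ζ ^ n : Rˣ) : R) ≠ 1 := by
      intro h3
      have h4 : ζ ^ n = 1 := Units.ext h3
      exact hn ((hζ.zpow_eq_one_iff_dvd n).1 h4)
    have h5 : (((ζ ^ n : Rˣ) : R) - 1) * f.coeff n = 0 := by
      rw [sub_mul, h1, one_mul, sub_self]
    rcases mul_eq_zero.1 h5 with h6 | h6
    · exact absurd (sub_eq_zero.1 h6) h2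
    · exact h6
  · intro h
    ext n
    rw [twist_coeff]
    by_cases hn : (e : ℤ) ∣ n
    · rw [(hζ.zpow_eq_one_iff_dvd n).2 hn, Units.val_one, one_mul]
    · rw [h n hn, mul_zero]

end Fermat.Agent.S28_Subst

end
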