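-- Project I (S28): the general monomial substitution `f(q) ↦ f(c u ^ n)` on Laurent series and
-- its effect on the reduced `j`-expansion `jqModC`.
import Mathlib
import Fermat.Agent.S28_Subst
import Fermat.Prelude.Def_ModularCurve_X0ModL

set_option autoImplicit false

noncomputable section

namespace Fermat.Agent.S28_SubstJ

open ModularCurve HahnSeries
open Fermat.Agent.S28_Subst

variable {R : Type*} [CommRing R]

/-! ### The substitution `f(q) ↦ f(c u ^ n)` -/

/-- the substitution `f(q) ↦ f(c u ^ n)` -/
def subst (c : Rˣ) (n : ℕ) [NeZero n] : LaurentSeries R →+* LaurentSeries R :=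
  (qExpand R n).comp (twistHom c)

theorem subst_apply (c : Rˣ) (n : ℕ) [NeZero n] (f : LaurentSeries R) :
    subst c n f = qExpand R n (twist c f) := rfl

theorem subst_coeff_mul (c : Rˣ) (n : ℕ) [NeZero n] (f : LaurentSeries R) (k : ℤ) :
    (subst c n f).coeff ((n : ℤ) * k) = ((c ^ k : Rˣ) : R) * f.coeff k := by
  rw [subst_apply, qExpand_coeff_mul, twist_coeff]

theorem subst_coeff_of_not_dvd (c : Rˣ) (n : ℕ) [NeZero n] (f : LaurentSeries R) {k : ℤ}
    (hk : ¬ (n : ℤ) ∣ k) : (subst c n f).coeff k = 0 := by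
  rw [subst_apply, qExpand_coeff_of_not_dvd n _ hk]

theorem subst_injective (c : Rˣ) (n : ℕ) [NeZero n] : Function.Injective (subst (R := R) c n) := by
  intro f g h
  rw [subst_apply, subst_apply] at h
  exact (twist c).injective (qExpand_injective n h)

theorem subst_eq_zero_iff (c : Rˣ) (n : ℕ) [NeZero n] (f : LaurentSeries R) :
    subst c n f = 0 ↔ f = 0 := by
  rw [subst_apply, qExpand_eq_zero_iff, twist_eq_zero_iff]

theorem subst_mem_range (c : Rˣ) (n : ℕ) [NeZero n] (f : LaurentSeries R) :
    subst c n f ∈ Set.range (qExpand R n) := ⟨twist c f, rfl⟩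

theorem order_subst (c : Rˣ) (n : ℕ) [NeZero n] (f : LaurentSeries R) :
    (subst c n f).order = n * f.order := by
  rw [subst_apply, order_qExpand, order_twist]

theorem subst_C (c : Rˣ) (n : ℕ) [NeZero n] (r : R) :
    subst c n (HahnSeries.C r) = HahnSeries.C r := by
  rw [subst_apply, twist_C, qExpand_C]

theorem subst_one_left (n : ℕ) [NeZero n] (f : LaurentSeries R) :
    subst (1 : Rˣ) n f = qExpand R n f := by
  rw [subst_apply, twist_one]

theorem subst_one_right (c : Rˣ) (f : LaurentSeries R) : subst c 1 f = twist c f := by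
  rw [subst_apply, qExpand_one_apply]

/-- `twist` after `subst`: `f(d (c u) ^ n) = f(c ^ n d u ^ n)` -/
theorem twist_subst (c d : Rˣ) (n : ℕ) [NeZero n] (f : LaurentSeries R) :
    twist c (subst d n f) = subst (c ^ n * d) n f := by
  rw [subst_apply, subst_apply, twist_qExpand, twist_twist]

/-- `qExpand` after `subst`: `f(d (u ^ m) ^ n) = f(d u ^ (m n))` -/
theorem qExpand_subst (d : Rˣ) (m n : ℕ) [NeZero m] [NeZero n] (f : LaurentSeries R) :
    qExpand R m (subst d n f) = subst d (m * n) f := by
  rw [subst_apply, subst_apply, qExpand_qExpand]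

/-- composition law: `f(q) ↦ f(d u ^ n)`, then `u ↦ c v ^ m`: `f(d c ^ n v ^ (m n))` -/
theorem subst_subst (c d : Rˣ) (m n : ℕ) [NeZero m] [NeZero n] (f : LaurentSeries R) :
    subst c m (subst d n f) = subst (c ^ n * d) (m * n) f := by
  rw [subst_apply c m, twist_subst, qExpand_subst]

/-- `subst` of an expansion `f(q ^ e)`: `f((c u ^ n) ^ e) = f(c ^ e u ^ (n e))` -/
theorem subst_qExpand (c : Rˣ) (n e : ℕ) [NeZero n] [NeZero e] (f : LaurentSeries R) :
    subst c n (qExpand R e f) = subst (c ^ e) (n * e) f := by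
  rw [subst_apply, subst_apply, twist_qExpand, qExpand_qExpand]

theorem coeffMap_subst {S : Type*} [CommRing S] (g : R →+* S) (c : Rˣ) (n : ℕ) [NeZero n]
    (f : LaurentSeries R) :
    coeffMap g (subst c n f) = subst (Units.map (g : R →* S) c) n (coeffMap g f) := by
  rw [subst_apply, subst_apply, coeffMap_qExpand, coeffMap_twist]

/-- a series whose order is not divisible by `p` is not a series in `t ^ p` -/
theorem not_mem_range_qExpand_of_order (p : ℕ) [NeZero p] {f : LaurentSeries R}
    (hf : ¬ (p : ℤ) ∣ f.order) : f ∉ Set.range (qExpand R p) :=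
  fun h => hf (dvd_order_of_mem_range_qExpand p h)

/-! ### The `j`-expansion -/

variable (R)

theorem order_jqModC [Nontrivial R] : (jqModC R).order = -1 := by
  have h0 : jqModC R ≠ 0 := jqModC_ne_zero_of_nontrivial R
  apply le_antisymm
  · apply HahnSeries.order_le_of_coeff_ne_zero
    rw [coeff_jqModC_neg_one]
    exact one_ne_zero
  · rw [HahnSeries.le_order_iff_forall h0]
    intro k hk
    exact coeff_jqModC_of_lt R hk

theorem order_jqNModC [Nontrivial R] (e : ℕ) [NeZero e] : (jqNModC R e).order = -(e : ℤ) := by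
  rw [jqNModC, order_qExpand, order_jqModC]
  ring

variable {R}

theorem order_subst_jqModC [Nontrivial R] (c : Rˣ) (n : ℕ) [NeZero n] :
    (subst c n (jqModC R)).order = -(n : ℤ) := by
  rw [order_subst, order_jqModC]
  ring

theorem order_twist_jqModC [Nontrivial R] (c : Rˣ) : (twist c (jqModC R)).order = -1 := by
  rw [order_twist, order_jqModC]

theorem order_twist_jqNModC [Nontrivial R] (c : Rˣ) (e : ℕ) [NeZero e] :
    (twist c (jqNModC R e)).order = -(e : ℤ) := by
  rw [order_twist, order_jqNModC]

/-- the leading coefficient of `j(c u ^ n)` is `c⁻¹` -/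
theorem coeff_subst_jqModC (c : Rˣ) (n : ℕ) [NeZero n] :
    (subst c n (jqModC R)).coeff (-(n : ℤ)) = ((c⁻¹ : Rˣ) : R) := by
  have h := subst_coeff_mul c n (jqModC R) (-1)
  rw [show (n : ℤ) * (-1) = -(n : ℤ) by ring, coeff_jqModC_neg_one, mul_one] at h
  rw [h, zpow_neg_one]

theorem coeff_twist_jqModC (c : Rˣ) : (twist c (jqModC R)).coeff (-1) = ((c⁻¹ : Rˣ) : R) := by
  rw [twist_coeff, coeff_jqModC_neg_one, mul_one, zpow_neg_one]

/-- the series `j(c u)` for different `c` are different -/
theorem twist_jqModC_injective : Function.Injective fun c : Rˣ => twist c (jqModC R) := by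
  intro c d h
  have h1 : (twist c (jqModC R)).coeff (-1) = (twist d (jqModC R)).coeff (-1) := by
    simp only at h
    rw [h]
  rw [coeff_twist_jqModC, coeff_twist_jqModC] at h1
  exact inv_injective (Units.ext h1)

theorem subst_jqModC_injective (n : ℕ) [NeZero n] :
    Function.Injective fun c : Rˣ => subst c n (jqModC R) := by
  intro c d h
  simp only [subst_apply] at h
  exact twist_jqModC_injective (qExpand_injective n h)

/-- `j(c u ^ n)` is not a series in `u ^ p` when `p ∤ n` -/
theorem subst_jqModC_not_mem_range [Nontrivial R] (c : Rˣ) (n : ℕ) [NeZero n] (p : ℕ) [NeZero p]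
    (hpn : ¬ p ∣ n) : subst c n (jqModC R) ∉ Set.range (qExpand R p) := by
  apply not_mem_range_qExpand_of_order
  rw [order_subst_jqModC, Int.dvd_neg]
  exact fun h => hpn (Int.natCast_dvd_natCast.1 h)

end Fermat.Agent.S28_SubstJ

end
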