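-- Helper for S28 (block Split, helper6): the modular equation of prime level `r` reduced to an
-- arbitrary field `k` containing a primitive `r`-th root of unity, and its factorisation over
-- `k((u))`:  `Φ(T; J(u^r)) = (T - J(u^(r^2))) * ∏_b (T - J(ζ^b u))`.
import Mathlib
import Fermat.Prelude.Def_ModularCurve_X0ModL
import Fermat.Agent.S28_Subst
import Fermat.Agent.S28_SubstJ
import Fermat.Agent.S28_Desc
import Fermat.Agent.S28_Mod0

set_option autoImplicit false

open Polynomial ModularCurve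

noncomputable section

namespace Fermat.Agent.S28_Split

open Fermat.Agent.S28_Subst Fermat.Agent.S28_SubstJ

/-! ### Evaluation of (bivariate) polynomials at Laurent series, constants via `HahnSeries.C` -/

section Ev

variable {R : Type*} [CommRing R]

/-- evaluation of a polynomial at a Laurent series (constants via `HahnSeries.C`) -/
def ev (x : LaurentSeries R) : R[X] →+* LaurentSeries R := eval₂RingHom HahnSeries.C x

/-- evaluation of a bivariate polynomial: inner variable `↦ x`, outer variable `↦ y` -/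
def ev2 (x y : LaurentSeries R) : R[X][X] →+* LaurentSeries R := eval₂RingHom (ev x) y

@[simp] theorem ev_C (x : LaurentSeries R) (r : R) : ev x (C r) = HahnSeries.C r := by
  simp [ev]

@[simp] theorem ev_X (x : LaurentSeries R) : ev x X = x := by simp [ev]

@[simp] theorem ev2_C (x y : LaurentSeries R) (p : R[X]) : ev2 x y (C p) = ev x p := by
  simp [ev2]

@[simp] theorem ev2_X (x y : LaurentSeries R) : ev2 x y X = y := by simp [ev2]

theorem ev2_apply (x y : LaurentSeries R) (H : R[X][X]) : ev2 x y H = H.eval₂ (ev x) y := rfl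

/-- a ring endomorphism fixing the constants commutes with `ev` -/
theorem hom_comp_ev (σ : LaurentSeries R →+* LaurentSeries R)
    (hσ : ∀ r : R, σ (HahnSeries.C r) = HahnSeries.C r) (x : LaurentSeries R) :
    σ.comp (ev x) = ev (σ x) := by
  apply Polynomial.ringHom_ext
  · intro r
    rw [RingHom.comp_apply, ev_C, ev_C, hσ]
  · rw [RingHom.comp_apply, ev_X, ev_X]

theorem hom_ev2 (σ : LaurentSeries R →+* LaurentSeries R)
    (hσ : ∀ r : R, σ (HahnSeries.C r) = HahnSeries.C r) (x y : LaurentSeries R) (H : R[X][X]) :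
    σ (ev2 x y H) = ev2 (σ x) (σ y) H := by
  rw [ev2_apply, Polynomial.hom_eval₂, hom_comp_ev σ hσ, ev2_apply]

variable {S : Type*} [CommRing S]

theorem coeffMap_C (g : R →+* S) (r : R) :
    coeffMap g (HahnSeries.C r) = HahnSeries.C (g r) := by
  show coeffMap g (HahnSeries.single 0 r) = HahnSeries.single 0 (g r)
  rw [coeffMap_single]

theorem coeffMap_comp_ev (g : R →+* S) (x : LaurentSeries R) :
    (coeffMap g).comp (ev x) = (ev (coeffMap g x)).comp (mapRingHom g) := by
  apply Polynomial.ringHom_ext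
  · intro r
    rw [RingHom.comp_apply, RingHom.comp_apply, ev_C, coeffMap_C, coe_mapRingHom, map_C, ev_C]
  · rw [RingHom.comp_apply, RingHom.comp_apply, ev_X, coe_mapRingHom, map_X, ev_X]

theorem coeffMap_ev2 (g : R →+* S) (x y : LaurentSeries R) (H : R[X][X]) :
    coeffMap g (ev2 x y H) = ev2 (coeffMap g x) (coeffMap g y) (H.map (mapRingHom g)) := by
  rw [ev2_apply, Polynomial.hom_eval₂, coeffMap_comp_ev, ev2_apply, Polynomial.eval₂_map]

end Ev

section Field

variable {k : Type*} [Field k]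

theorem ev_eq_aeval (x : LaurentSeries k) : ev x = (aeval x : k[X] →ₐ[k] LaurentSeries k).toRingHom := by
  apply Polynomial.ringHom_ext
  · intro r
    simp only [ev_C, AlgHom.toRingHom_eq_coe, RingHom.coe_coe, aeval_C]
    rw [algebraMap_laurentSeries_eq_single]
    rfl
  · simp

theorem ev_apply_eq_aeval (x : LaurentSeries k) (p : k[X]) : ev x p = aeval x p := by
  rw [ev_eq_aeval]; rfl

theorem ev2_eq_aevalAeval (x y : LaurentSeries k) (H : k[X][X]) :
    ev2 x y H = H.aevalAeval x y := by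
  have h : ev2 x y = ((aevalAeval x y : k[X][X] →ₐ[k] LaurentSeries k) : k[X][X] →+* _) := by
    apply Polynomial.ringHom_ext
    · intro p
      simp only [ev2_C, RingHom.coe_coe, aevalAeval_C]
      exact ev_apply_eq_aeval x p
    · simp
  rw [h]; rfl

end Field

/-! ### Root counting -/

section RootCount

variable {k : Type*} [Field k] (r : ℕ) [NeZero r]

theorem ev_jqModC_injective : Function.Injective (ev (jqModC k)) := by
  intro p q h
  rw [ev_apply_eq_aeval, ev_apply_eq_aeval] at h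
  exact Fermat.Agent.S28_Desc.aeval_jqModC_injective k h

theorem qExpand_hahnC (c : k) : qExpand k r (HahnSeries.C c) = HahnSeries.C c :=
  qExpand_C r c

theorem ev_qExpand_jqModC_injective : Function.Injective (ev (qExpand k r (jqModC k))) := by
  rw [← hom_comp_ev (qExpand k r) (qExpand_hahnC r) (jqModC k)]
  exact (qExpand_injective r).comp ev_jqModC_injective

/-- the `r + 1` roots `J(ζ^b u)` (`b < r`) and `J(u^(r^2))` -/
def rootFam (ζ : kˣ) : Fin (r + 1) → LaurentSeries k := fun i =>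
  if (i : ℕ) < r then twist (ζ ^ (i : ℕ)) (jqModC k) else qExpand k (r ^ 2) (jqModC k)

theorem rootFam_injective (hr : r.Prime) (ζ : kˣ) (hζ : IsPrimitiveRoot ζ r) :
    Function.Injective (rootFam r ζ) := by
  have hne : ∀ c : kˣ, twist c (jqModC k) ≠ qExpand k (r ^ 2) (jqModC k) := by
    intro c h
    have h1 := congrArg (fun x : LaurentSeries k => x.coeff (-1)) h
    simp only [coeff_twist_jqModC] at h1
    rw [qExpand_coeff_of_not_dvd] at h1
    · exact Units.ne_zero _ h1
    · intro hdvd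
      have h2 : ((r ^ 2 : ℕ) : ℤ) ∣ 1 := (dvd_neg).1 hdvd
      have h3 : (r ^ 2 : ℕ) ∣ 1 := by exact_mod_cast h2
      have h4 : r ^ 2 = 1 := Nat.dvd_one.1 h3
      have h5 : 2 ≤ r := hr.two_le
      nlinarith
  intro i i' h
  simp only [rootFam] at h
  by_cases hi : (i : ℕ) < r <;> by_cases hi' : (i' : ℕ) < r
  · rw [if_pos hi, if_pos hi'] at h
    have h1 : ζ ^ (i : ℕ) = ζ ^ (i' : ℕ) := twist_jqModC_injective h
    exact Fin.ext (hζ.pow_inj hi hi' h1)
  · rw [if_pos hi, if_neg hi'] at h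
    exact absurd h (hne _)
  · rw [if_neg hi, if_pos hi'] at h
    exact absurd h.symm (hne _)
  · apply Fin.ext
    have h1 := i.2
    have h2 := i'.2
    omega

/-- both relations make every member of `rootFam` a root of `H(T; J(u^r))` -/
theorem eval_rootFam (ζ : kˣ) (hζ : IsPrimitiveRoot ζ r) (H : k[X][X])
    (h1 : ev2 (jqModC k) (qExpand k r (jqModC k)) H = 0)
    (h2 : ev2 (qExpand k r (jqModC k)) (jqModC k) H = 0) (i : Fin (r + 1)) :
    (H.map (ev (qExpand k r (jqModC k)))).eval (rootFam r ζ i) = 0 := by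
  rw [Polynomial.eval_map, ← ev2_apply]
  simp only [rootFam]
  by_cases hi : (i : ℕ) < r
  · rw [if_pos hi]
    have hc : ∀ c : k, (twist (ζ ^ (i : ℕ))).toRingHom (HahnSeries.C c) = HahnSeries.C c :=
      fun c => twist_C _ c
    have h3 := hom_ev2 (twist (ζ ^ (i : ℕ))).toRingHom hc (qExpand k r (jqModC k)) (jqModC k) H
    rw [h2, map_zero] at h3
    have h4 : (twist (ζ ^ (i : ℕ))).toRingHom (qExpand k r (jqModC k))
        = qExpand k r (jqModC k) := by
      show twist (ζ ^ (i : ℕ)) (qExpand k r (jqModC k)) = _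
      rw [twist_qExpand, ← pow_mul, mul_comm, pow_mul, hζ.pow_eq_one, one_pow, twist_one]
    rw [h4] at h3
    exact h3.symm
  · rw [if_neg hi]
    have h3 := hom_ev2 (qExpand k r) (qExpand_hahnC r) (jqModC k) (qExpand k r (jqModC k)) H
    rw [h1, map_zero, qExpand_qExpand] at h3
    rw [qExpand_congr (sq r) (jqModC k)]
    exact h3.symm

/-- **(RC) root counting.** A polynomial `H(T; X)` of `T`-degree `≤ r` with `H(J_r; J) = 0` and
`H(J; J_r) = 0` vanishes (`k` contains a primitive `r`-th root of unity, `r` prime). -/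
theorem eq_zero_of_relations (hr : r.Prime) (ζ : kˣ) (hζ : IsPrimitiveRoot ζ r) (H : k[X][X])
    (hdeg : H.natDegree ≤ r)
    (h1 : ev2 (jqModC k) (qExpand k r (jqModC k)) H = 0)
    (h2 : ev2 (qExpand k r (jqModC k)) (jqModC k) H = 0) : H = 0 := by
  have hP : H.map (ev (qExpand k r (jqModC k))) = 0 := by
    refine Polynomial.eq_zero_of_natDegree_lt_card_of_eval_eq_zero _
      (rootFam_injective r hr ζ hζ) (eval_rootFam r ζ hζ H h1 h2) ?_
    rw [Fintype.card_fin]
    exact lt_of_le_of_lt (Polynomial.natDegree_map_le) (Nat.lt_succ_of_le hdeg)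
  exact (Polynomial.map_eq_zero_iff (ev_qExpand_jqModC_injective r)).1 hP

end RootCount

/-! ### Integer models of rational bivariate polynomials -/

section IntModel

attribute [local instance] Polynomial.algebra Polynomial.isLocalization in
theorem exists_int_model (Φ : ℚ[X][X]) :
    ∃ (b : ℤ) (Ψ : ℤ[X][X]), b ≠ 0 ∧
      Ψ.map (mapRingHom (Int.castRingHom ℚ)) = C (C (b : ℚ)) * Φ := by
  haveI : IsLocalization (Submonoid.map (C : ℤ →+* ℤ[X]) (nonZeroDivisors ℤ)) ℚ[X] :=
    Polynomial.isLocalization (nonZeroDivisors ℤ) ℚ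
  obtain ⟨b', hb', hspec⟩ := IsLocalization.integerNormalization_spec
    (Submonoid.map (C : ℤ →+* ℤ[X]) (nonZeroDivisors ℤ)) Φ
  obtain ⟨b, hb, rfl⟩ := hb'
  refine ⟨b, IsLocalization.integerNormalization
    (Submonoid.map (C : ℤ →+* ℤ[X]) (nonZeroDivisors ℤ)) Φ, nonZeroDivisors.ne_zero hb, ?_⟩
  have h2 : algebraMap ℤ[X] ℚ[X] = mapRingHom (Int.castRingHom ℚ) := by
    ext <;> simp [Polynomial.algebraMap_def]
  rw [h2] at hspec
  rw [hspec]
  ext i j
  rw [Polynomial.coeff_smul, Algebra.smul_def, h2]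
  simp

theorem mapRingHom_injective {R S : Type*} [CommRing R] [CommRing S] (g : R →+* S)
    (hg : Function.Injective g) : Function.Injective (mapRingHom g) := by
  rw [coe_mapRingHom]
  exact Polynomial.map_injective g hg

/-- An integer model of `Φ` (up to a nonzero rational constant) whose reduction to the field `k`
is nonzero. -/
theorem exists_int_model_ne_zero (k : Type*) [Field k] (Φ : ℚ[X][X]) (hΦ : Φ ≠ 0) :
    ∃ (c : ℚ) (Ψ : ℤ[X][X]), c ≠ 0 ∧
      Ψ.map (mapRingHom (Int.castRingHom ℚ)) = C (C c) * Φ ∧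
      Ψ.map (mapRingHom (Int.castRingHom k)) ≠ 0 := by
  obtain ⟨b, Ψ₀, hb, hΨ₀⟩ := exists_int_model Φ
  have hbQ : (b : ℚ) ≠ 0 := by exact_mod_cast hb
  have hΨ₀ne : Ψ₀ ≠ 0 := by
    rintro rfl
    rw [Polynomial.map_zero] at hΨ₀
    have h1 : C (C (b : ℚ)) * Φ ≠ 0 :=
      mul_ne_zero (by simpa using hbQ) hΦ
    exact h1 hΨ₀.symm
  obtain ⟨ℓ, hℓ⟩ := CharP.exists k
  rcases CharP.char_is_prime_or_zero k ℓ with hprime | hzero
  · -- characteristic `ℓ`: divide out the `ℓ`-content
    have hx : ¬ IsUnit (C (C (ℓ : ℤ)) : ℤ[X][X]) := by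
      rw [Polynomial.isUnit_C, Polynomial.isUnit_C, Int.isUnit_iff]
      rintro (h | h)
      · have : ℓ = 1 := by exact_mod_cast h
        exact hprime.one_lt.ne' this
      · have h1 : (0 : ℤ) ≤ (ℓ : ℤ) := Int.natCast_nonneg ℓ
        omega
    obtain ⟨n, Ψ, hndvd, hΨ⟩ := WfDvdMonoid.max_power_factor' hΨ₀ne hx
    have hℓQ : ((ℓ : ℚ)) ≠ 0 := by exact_mod_cast hprime.ne_zero
    refine ⟨(b : ℚ) / (ℓ : ℚ) ^ n, Ψ, div_ne_zero hbQ (pow_ne_zero n hℓQ), ?_, ?_⟩
    · have h1 : (C (C ((ℓ : ℚ) ^ n)) : ℚ[X][X]) * Ψ.map (mapRingHom (Int.castRingHom ℚ))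
          = C (C (b : ℚ)) * Φ := by
        rw [← hΨ₀, hΨ, Polynomial.map_mul, Polynomial.map_pow, Polynomial.map_C, coe_mapRingHom,
          Polynomial.map_C]
        simp
      have h2 : (C (C ((b : ℚ) / (ℓ : ℚ) ^ n)) : ℚ[X][X]) * Φ
          = C (C (((ℓ : ℚ) ^ n)⁻¹)) * (C (C (b : ℚ)) * Φ) := by
        rw [← mul_assoc, ← C_mul, ← C_mul, div_eq_inv_mul]
      rw [h2, ← h1, ← mul_assoc, ← C_mul, ← C_mul, inv_mul_cancel₀ (pow_ne_zero n hℓQ)]
      simp
    · intro h0
      apply hndvd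
      rw [Polynomial.C_dvd_iff_dvd_coeff]
      intro i
      rw [Polynomial.C_dvd_iff_dvd_coeff]
      intro j
      have h1 := congrArg (fun P : k[X][X] => (P.coeff i).coeff j) h0
      simp only [Polynomial.coeff_map, coe_mapRingHom, Polynomial.coeff_zero, eq_intCast] at h1
      exact (CharP.intCast_eq_zero_iff k ℓ _).1 h1
  · -- characteristic zero
    subst hzero
    haveI : CharZero k := CharP.charP_to_charZero k
    refine ⟨b, Ψ₀, hbQ, hΨ₀, ?_⟩
    have hinj : Function.Injective (mapRingHom (Int.castRingHom k)) :=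
      mapRingHom_injective _ (RingHom.injective_int (Int.castRingHom k))
    exact fun h0 => hΨ₀ne ((Polynomial.map_eq_zero_iff hinj).1 h0)

end IntModel

/-! ### The main statements -/

section Main

theorem coeffMap_injective {R S : Type*} [CommRing R] [CommRing S] (g : R →+* S)
    (hg : Function.Injective g) : Function.Injective (coeffMap g) := by
  intro x y h
  ext n
  have h1 := congrArg (fun z : LaurentSeries S => z.coeff n) h
  exact hg h1

variable (r : ℕ) [NeZero r]

/-- a primitive `r`-th root of unity (as a unit) in an algebraically closed field in which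
`r ≠ 0` -/
theorem exists_primitiveRoot_unit (k : Type*) [Field k] [IsAlgClosed k] (hrk : (r : k) ≠ 0) :
    ∃ ζ : kˣ, IsPrimitiveRoot ζ r := by
  haveI : NeZero (r : k) := ⟨hrk⟩
  obtain ⟨ζ₀, hζ₀⟩ := HasEnoughRootsOfUnity.exists_primitiveRoot k r
  have hu : IsUnit ζ₀ := hζ₀.isUnit (NeZero.ne r)
  refine ⟨hu.unit, ?_⟩
  rw [← IsPrimitiveRoot.coe_units_iff, IsUnit.unit_spec]
  exact hζ₀

/-- **(RC), general form.** `k` any field with `(r : k) ≠ 0`, `r` prime: a polynomial `H(T; X)`
of `T`-degree `≤ r` with `H(J_r; J) = 0` and `H(J; J_r) = 0` vanishes. -/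
theorem eq_zero_of_relations' (hr : r.Prime) {k : Type*} [Field k] (hrk : (r : k) ≠ 0)
    (H : k[X][X]) (hdeg : H.natDegree ≤ r)
    (h1 : ev2 (jqModC k) (qExpand k r (jqModC k)) H = 0)
    (h2 : ev2 (qExpand k r (jqModC k)) (jqModC k) H = 0) : H = 0 := by
  have hrK : (r : AlgebraicClosure k) ≠ 0 := by
    have h := (algebraMap k (AlgebraicClosure k)).injective.ne hrk
    rwa [map_natCast, map_zero] at h
  obtain ⟨ζ, hζ⟩ := exists_primitiveRoot_unit r (AlgebraicClosure k) hrK
  have hinj : Function.Injective (mapRingHom (algebraMap k (AlgebraicClosure k))) :=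
    mapRingHom_injective _ (algebraMap k (AlgebraicClosure k)).injective
  have hH : H.map (mapRingHom (algebraMap k (AlgebraicClosure k))) = 0 := by
    refine eq_zero_of_relations r hr ζ hζ _ ((Polynomial.natDegree_map_le).trans hdeg) ?_ ?_
    · have h := coeffMap_ev2 (algebraMap k (AlgebraicClosure k)) (jqModC k)
        (qExpand k r (jqModC k)) H
      rw [h1, map_zero, coeffMap_qExpand, coeffMap_jqModC] at h
      exact h.symm
    · have h := coeffMap_ev2 (algebraMap k (AlgebraicClosure k)) (qExpand k r (jqModC k))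
        (jqModC k) H
      rw [h2, map_zero, coeffMap_qExpand, coeffMap_jqModC] at h
      exact h.symm
  exact (Polynomial.map_eq_zero_iff hinj).1 hH

/-- (RC) in `aevalAeval` form. -/
theorem eq_zero_of_aevalAeval (hr : r.Prime) {k : Type*} [Field k] (hrk : (r : k) ≠ 0)
    (H : k[X][X]) (hdeg : H.natDegree ≤ r)
    (h1 : H.aevalAeval (jqModC k) (qExpand k r (jqModC k)) = 0)
    (h2 : H.aevalAeval (qExpand k r (jqModC k)) (jqModC k) = 0) : H = 0 :=
  eq_zero_of_relations' r hr hrk H hdeg ((ev2_eq_aevalAeval _ _ H).trans h1)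
    ((ev2_eq_aevalAeval _ _ H).trans h2)

/-- **(S1)** The modular equation of prime level `r` over any field `k` with `(r : k) ≠ 0`:
a monic `Φ(T; X)` of `T`-degree `r + 1` with `Φ(J_r; J) = 0` and `Φ(J; J_r) = 0`
(`J_r = J(q^r)`; inner variable first). -/
theorem exists_relation (hr : r.Prime) (k : Type*) [Field k] (hrk : (r : k) ≠ 0) :
    ∃ Φ : k[X][X], Φ.Monic ∧ Φ.natDegree = r + 1 ∧
      ev2 (jqModC k) (qExpand k r (jqModC k)) Φ = 0 ∧
      ev2 (qExpand k r (jqModC k)) (jqModC k) Φ = 0 := by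
  obtain ⟨Φ₀, hmonic₀, hdeg₀, hrel1, hrel2⟩ := Fermat.Agent.S28_Mod0.exists_modular_relation r hr
  rw [← ev2_eq_aevalAeval] at hrel1 hrel2
  obtain ⟨c, Ψ, hc, hΨ, hΨk⟩ := exists_int_model_ne_zero k Φ₀ hmonic₀.ne_zero
  -- relations over ℤ
  have hcast : Function.Injective (coeffMap (Int.castRingHom ℚ)) :=
    coeffMap_injective _ (RingHom.injective_int _)
  have hJQ : coeffMap (Int.castRingHom ℚ) (jqModC ℤ) = jq := by
    rw [coeffMap_jqModC]; rfl
  have hZ1 : ev2 (jqModC ℤ) (qExpand ℤ r (jqModC ℤ)) Ψ = 0 := by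
    apply hcast
    rw [coeffMap_ev2, coeffMap_qExpand, hJQ, hΨ, map_mul, hrel1, mul_zero, map_zero]
  have hZ2 : ev2 (qExpand ℤ r (jqModC ℤ)) (jqModC ℤ) Ψ = 0 := by
    apply hcast
    rw [coeffMap_ev2, coeffMap_qExpand, hJQ, hΨ, map_mul, hrel2, mul_zero, map_zero]
  -- relations over k
  set ψ : k[X][X] := Ψ.map (mapRingHom (Int.castRingHom k)) with hψ
  have hk1 : ev2 (jqModC k) (qExpand k r (jqModC k)) ψ = 0 := by
    have h := coeffMap_ev2 (Int.castRingHom k) (jqModC ℤ) (qExpand ℤ r (jqModC ℤ)) Ψ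
    rw [hZ1, map_zero, coeffMap_qExpand, coeffMap_jqModC] at h
    exact h.symm
  have hk2 : ev2 (qExpand k r (jqModC k)) (jqModC k) ψ = 0 := by
    have h := coeffMap_ev2 (Int.castRingHom k) (qExpand ℤ r (jqModC ℤ)) (jqModC ℤ) Ψ
    rw [hZ2, map_zero, coeffMap_qExpand, coeffMap_jqModC] at h
    exact h.symm
  -- degree and leading coefficient of Ψ
  have hinjQ : Function.Injective (mapRingHom (Int.castRingHom ℚ)) :=
    mapRingHom_injective _ (RingHom.injective_int _)
  have hCc : (C c : ℚ[X]) ≠ 0 := by simpa using hc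
  have hdegΨ : Ψ.natDegree = r + 1 := by
    rw [← Polynomial.natDegree_map_eq_of_injective hinjQ Ψ, hΨ, Polynomial.natDegree_C_mul hCc,
      hdeg₀]
  have hlead : (Ψ.coeff (r + 1)).map (Int.castRingHom ℚ) = C c := by
    have h1 := congrArg (fun P : ℚ[X][X] => P.coeff (r + 1)) hΨ
    simp only [Polynomial.coeff_map, coe_mapRingHom, Polynomial.coeff_C_mul] at h1
    rw [h1, ← hdeg₀, hmonic₀.coeff_natDegree, mul_one]
  obtain ⟨a, ha⟩ : ∃ a : ℤ, Ψ.coeff (r + 1) = C a := by
    have h1 : (Ψ.coeff (r + 1)).natDegree = 0 := by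
      rw [← Polynomial.natDegree_map_eq_of_injective
        (RingHom.injective_int (Int.castRingHom ℚ)), hlead, Polynomial.natDegree_C]
    exact ⟨_, Polynomial.eq_C_of_natDegree_eq_zero h1⟩
  have hψcoeff : ψ.coeff (r + 1) = C (a : k) := by
    rw [hψ, Polynomial.coeff_map, coe_mapRingHom, ha, Polynomial.map_C]
    simp
  have hψdeg : ψ.natDegree ≤ r + 1 := (Polynomial.natDegree_map_le).trans hdegΨ.le
  have hak : (a : k) ≠ 0 := by
    intro h0
    apply hΨk
    refine eq_zero_of_relations' r hr hrk ψ ?_ hk1 hk2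
    rw [Polynomial.natDegree_le_iff_coeff_eq_zero]
    intro N hN
    rcases Nat.lt_or_ge (r + 1) N with h | h
    · exact Polynomial.coeff_eq_zero_of_natDegree_lt (lt_of_le_of_lt hψdeg h)
    · have hN' : N = r + 1 := by omega
      rw [hN', hψcoeff, h0, map_zero]
  have hCa : (C (a : k) : k[X]) ≠ 0 := Polynomial.C_ne_zero.2 hak
  have hψnat : ψ.natDegree = r + 1 := by
    refine le_antisymm hψdeg (Polynomial.le_natDegree_of_ne_zero ?_)
    rw [hψcoeff]
    exact hCa
  have hψlead : ψ.leadingCoeff = C (a : k) := by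
    rw [Polynomial.leadingCoeff, hψnat, hψcoeff]
  have hCinv : (C ((a : k)⁻¹) : k[X]) ≠ 0 := Polynomial.C_ne_zero.2 (inv_ne_zero hak)
  refine ⟨C (C (a : k)⁻¹) * ψ, ?_, ?_, ?_, ?_⟩
  · apply Polynomial.monic_C_mul_of_mul_leadingCoeff_eq_one
    rw [hψlead, ← C_mul, inv_mul_cancel₀ hak, C_1]
  · rw [Polynomial.natDegree_C_mul hCinv, hψnat]
  · rw [map_mul, hk1, mul_zero]
  · rw [map_mul, hk2, mul_zero]

/-- **(S2)** Any monic `Φ(T; X)` of `T`-degree `r + 1` satisfying the two relations factors over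
`k((u))` as `Φ(T; J(u^r)) = (T - J(u^(r^2))) * ∏_{b < r} (T - J(ζ^b u))`. -/
theorem map_eq_prod (hr : r.Prime) {k : Type*} [Field k] (ζ : kˣ) (hζ : IsPrimitiveRoot ζ r)
    (Φ : k[X][X]) (hmonic : Φ.Monic) (hdeg : Φ.natDegree = r + 1)
    (h1 : ev2 (jqModC k) (qExpand k r (jqModC k)) Φ = 0)
    (h2 : ev2 (qExpand k r (jqModC k)) (jqModC k) Φ = 0) :
    Φ.map (ev (qExpand k r (jqModC k))) =
      (X - C (qExpand k (r ^ 2) (jqModC k))) *
        ∏ b ∈ Finset.range r, (X - C (twist (ζ ^ b) (jqModC k))) := by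
  set P := Φ.map (ev (qExpand k r (jqModC k))) with hP
  set Q : (LaurentSeries k)[X] := (X - C (qExpand k (r ^ 2) (jqModC k))) *
    ∏ b ∈ Finset.range r, (X - C (twist (ζ ^ b) (jqModC k))) with hQ
  have hPmonic : P.Monic := hmonic.map _
  have hPdeg : P.natDegree = r + 1 := by rw [hP, hmonic.natDegree_map, hdeg]
  have hprodmonic : (∏ b ∈ Finset.range r,
      (X - C (twist (ζ ^ b) (jqModC k)) : (LaurentSeries k)[X])).Monic :=
    Polynomial.monic_prod_of_monic _ _ fun b _ => Polynomial.monic_X_sub_C _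
  have hQmonic : Q.Monic := (Polynomial.monic_X_sub_C _).mul hprodmonic
  have hQdeg : Q.natDegree = r + 1 := by
    rw [hQ, (Polynomial.monic_X_sub_C _).natDegree_mul hprodmonic, Polynomial.natDegree_X_sub_C,
      Polynomial.natDegree_prod_of_monic _ _ fun b _ => Polynomial.monic_X_sub_C _]
    simp only [Polynomial.natDegree_X_sub_C, Finset.sum_const, Finset.card_range, smul_eq_mul,
      mul_one]
    exact add_comm 1 r
  have hPeval : ∀ i, P.eval (rootFam r ζ i) = 0 := eval_rootFam r ζ hζ Φ h1 h2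
  have hQeval : ∀ i, Q.eval (rootFam r ζ i) = 0 := by
    intro i
    rw [hQ, Polynomial.eval_mul, Polynomial.eval_prod]
    simp only [rootFam]
    by_cases hi : (i : ℕ) < r
    · rw [if_pos hi]
      refine mul_eq_zero_of_right _ (Finset.prod_eq_zero (Finset.mem_range.2 hi) ?_)
      simp
    · rw [if_neg hi]
      refine mul_eq_zero_of_left ?_ _
      simp
  by_contra hne
  have hsub : P - Q ≠ 0 := sub_ne_zero.2 hne
  have hdeglt : (P - Q).degree < P.degree := by
    refine Polynomial.degree_sub_lt_left ?_ hPmonic.ne_zero ?_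
    · rw [Polynomial.degree_eq_natDegree hPmonic.ne_zero,
        Polynomial.degree_eq_natDegree hQmonic.ne_zero, hPdeg, hQdeg]
    · rw [hPmonic.leadingCoeff, hQmonic.leadingCoeff]
  have hnatlt : (P - Q).natDegree < P.natDegree := Polynomial.natDegree_lt_natDegree hsub hdeglt
  refine hsub (Polynomial.eq_zero_of_natDegree_lt_card_of_eval_eq_zero _
    (rootFam_injective r hr ζ hζ) (fun i => ?_) ?_)
  · rw [Polynomial.eval_sub, hPeval i, hQeval i, sub_zero]
  · rw [Fintype.card_fin, ← hPdeg]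
    exact hnatlt

theorem natCast_ne_zero_of_primitiveRoot {k : Type*} [Field k] (ζ : kˣ)
    (hζ : IsPrimitiveRoot ζ r) : (r : k) ≠ 0 := by
  have h : IsPrimitiveRoot (ζ : k) r := IsPrimitiveRoot.coe_units_iff.2 hζ
  haveI := h.neZero'
  exact NeZero.ne (r : k)

/-- **(I1) = the body of `S28_Tower.SplitAt k r` for a given primitive root `ζ`.** There is a
monic `Φ(T; X)` of `T`-degree `r + 1` over `k` with
`Φ(T; J(u^r)) = (T - J(u^(r^2))) * ∏_{b < r} (T - J(ζ^b u))` in `k((u))[T]`. -/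
theorem exists_split (hr : r.Prime) (k : Type*) [Field k] (ζ : kˣ) (hζ : IsPrimitiveRoot ζ r) :
    ∃ Φ : Polynomial (Polynomial k), Φ.Monic ∧ Φ.natDegree = r + 1 ∧
      Φ.map (aeval (qExpand k r (jqModC k))).toRingHom =
        (X - C (qExpand k (r ^ 2) (jqModC k))) *
          ∏ b ∈ Finset.range r, (X - C (twist (ζ ^ b) (jqModC k))) := by
  obtain ⟨Φ, hmonic, hdeg, h1, h2⟩ :=
    exists_relation r hr k (natCast_ne_zero_of_primitiveRoot r ζ hζ)
  refine ⟨Φ, hmonic, hdeg, ?_⟩
  rw [← ev_eq_aeval]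
  exact map_eq_prod r hr ζ hζ Φ hmonic hdeg h1 h2

/-- **(I1) for an algebraically closed field** in which `r ≠ 0`: literally the body of
`S28_Tower.SplitAt k r`. -/
theorem exists_splitAt (hr : r.Prime) (k : Type*) [Field k] [IsAlgClosed k] (hrk : (r : k) ≠ 0) :
    ∃ (ζ : kˣ) (Φ : Polynomial (Polynomial k)), IsPrimitiveRoot ζ r ∧ Φ.Monic ∧
      Φ.natDegree = r + 1 ∧
      Φ.map (aeval (qExpand k r (jqModC k))).toRingHom =
        (X - C (qExpand k (r ^ 2) (jqModC k))) *
          ∏ b ∈ Finset.range r, (X - C (twist (ζ ^ b) (jqModC k))) := by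
  obtain ⟨ζ, hζ⟩ := exists_primitiveRoot_unit r k hrk
  obtain ⟨Φ, hmonic, hdeg, h⟩ := exists_split r hr k ζ hζ
  exact ⟨ζ, Φ, hζ, hmonic, hdeg, h⟩

/-- (S1) in `aevalAeval` form: the modular equation over any field `k` with `(r : k) ≠ 0`
(inner variable first): `Φ(J, J_r) = 0` and `Φ(J_r, J) = 0`. -/
theorem exists_relation_aevalAeval (hr : r.Prime) (k : Type*) [Field k] (hrk : (r : k) ≠ 0) :
    ∃ Φ : Polynomial (Polynomial k), Φ.Monic ∧ Φ.natDegree = r + 1 ∧
      Φ.aevalAeval (jqModC k) (qExpand k r (jqModC k)) = 0 ∧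
      Φ.aevalAeval (qExpand k r (jqModC k)) (jqModC k) = 0 := by
  obtain ⟨Φ, hmonic, hdeg, h1, h2⟩ := exists_relation r hr k hrk
  exact ⟨Φ, hmonic, hdeg, (ev2_eq_aevalAeval _ _ Φ).symm.trans h1,
    (ev2_eq_aevalAeval _ _ Φ).symm.trans h2⟩

end Main

end Fermat.Agent.S28_Split

end
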