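-- Helper for S28 (block PRIME, helper3): Lemma P over any field of characteristic `ℓ`:
-- for primes `p ≠ ℓ`, `j(q^p) ∉ k(j)`.
import Mathlib
import Fermat.Agent.S28_PrimeCore
import Fermat.Agent.S28_Split

set_option autoImplicit false

open Polynomial ModularCurve

namespace Fermat.Agent.S28_Prime

noncomputable section

/-! ### Bridges `aeval` / `evL` over a field -/

theorem algebraMap_eq_C_field (k : Type*) [Field k] :
    algebraMap k (LaurentSeries k) = HahnSeries.C := by
  ext c : 1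
  rw [algebraMap_laurentSeries_eq_single]
  rfl

theorem aeval_eq_evL {k : Type*} [Field k] (x : LaurentSeries k) (q : Polynomial k) :
    aeval x q = evL k x q := by
  rw [evL_apply, aeval_def, algebraMap_eq_C_field]

theorem aevalAeval_eq_evL {k : Type*} [Field k] (x y : LaurentSeries k)
    (H : Polynomial (Polynomial k)) :
    H.aevalAeval x y = H.eval₂ (evL k x) y := by
  have h : ((aevalAeval x y : Polynomial (Polynomial k) →ₐ[k] LaurentSeries k) :
      Polynomial (Polynomial k) →+* LaurentSeries k) = eval₂RingHom (evL k x) y := by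
    apply Polynomial.ringHom_ext
    · intro q
      have h1 : (aevalAeval x y) (C q) = aeval x q := aevalAeval_C x y q
      simp only [RingHom.coe_coe, coe_eval₂RingHom, eval₂_C]
      rw [h1, aeval_eq_evL]
    · simp only [RingHom.coe_coe, coe_eval₂RingHom, eval₂_X]
      exact aevalAeval_Y x y
  exact RingHom.congr_fun h H

/-- **Lemma P over `𝔽_ℓ`** (in `aeval` form) -/
theorem not_poly (ℓ p : ℕ) [Fact ℓ.Prime] [NeZero p] (hp : p.Prime) (hpl : p ≠ ℓ)
    (P : (ZMod ℓ)[X]) :
    qExpand (ZMod ℓ) p (jqModC (ZMod ℓ)) ≠ aeval (jqModC (ZMod ℓ)) P := by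
  rw [aeval_eq_evL]
  exact not_poly_evL ℓ p hp hpl P

/-- **Lemma P over any field of characteristic `ℓ`** (in `evL` form): `j(q^p)` is not a polynomial
in `j`. -/
theorem not_poly_evL_field (ℓ p : ℕ) [Fact ℓ.Prime] [NeZero p] (hp : p.Prime) (hpl : p ≠ ℓ)
    (k : Type*) [Field k] [CharP k ℓ] (Q : k[X]) :
    qExpand k p (jqModC k) ≠ evL k (jqModC k) Q := by
  intro hQ
  letI : Algebra (ZMod ℓ) k := ZMod.algebra k ℓ
  set ι : ZMod ℓ →+* k := algebraMap (ZMod ℓ) k with hι
  have hιinj : Function.Injective ι := ι.injective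
  obtain ⟨g, hg⟩ := LinearMap.exists_leftInverse_of_injective (Algebra.linearMap (ZMod ℓ) k)
    (LinearMap.ker_eq_bot.2 hιinj)
  have hg1 : ∀ c : ZMod ℓ, g (ι c) = c := fun c => LinearMap.congr_fun hg c
  have hg2 : ∀ (x : k) (c : ZMod ℓ), g (x * ι c) = g x * c := by
    intro x c
    have : x * ι c = c • x := by rw [Algebra.smul_def, mul_comm]
    rw [this, map_smul, smul_eq_mul, mul_comm]
  apply not_poly_evL ℓ p hp hpl
    (∑ i ∈ Finset.range (Q.natDegree + 1), C (g (Q.coeff i)) * X ^ i)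
  ext n
  have hJ : jqModC k = coeffMap ι (jqModC (ZMod ℓ)) := (coeffMap_jqModC ι).symm
  have hc : g ((qExpand k p (jqModC k)).coeff n) = g ((evL k (jqModC k) Q).coeff n) := by
    rw [hQ]
  rw [hJ, ← coeffMap_qExpand, coeffMap_coeff, hg1] at hc
  rw [hc, evL_apply, eval₂_eq_sum_range, HahnSeries.coeff_sum, map_sum, map_sum,
    HahnSeries.coeff_sum]
  refine Finset.sum_congr rfl fun i _ => ?_
  rw [HahnSeries.C_mul_eq_smul, HahnSeries.coeff_smul, smul_eq_mul, ← map_pow, coeffMap_coeff,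
    hg2, map_mul, map_pow, evL_C, evL_X, HahnSeries.C_mul_eq_smul, HahnSeries.coeff_smul,
    smul_eq_mul]

/-- **Lemma P** over any field `k` of characteristic `ℓ`: for primes `p ≠ ℓ`,
`j(q^p) ∉ k(j)`. -/
theorem not_mem_adjoin (ℓ p : ℕ) [Fact ℓ.Prime] [NeZero p] (hp : p.Prime) (hpl : p ≠ ℓ)
    (k : Type*) [Field k] [CharP k ℓ] :
    qExpand k p (jqModC k) ∉ IntermediateField.adjoin k {jqModC k} := by
  intro hmem
  have hpk : (p : k) ≠ 0 := by
    rw [Ne, CharP.cast_eq_zero_iff k ℓ]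
    intro h
    exact hpl ((Nat.prime_dvd_prime_iff_eq Fact.out hp).1 h).symm
  obtain ⟨r, s, hrs⟩ := (IntermediateField.mem_adjoin_simple_iff k _).1 hmem
  have hJp0 : qExpand k p (jqModC k) ≠ 0 := by
    intro h
    exact jqModC_ne_zero_of_nontrivial k
      (qExpand_injective (R := k) (N := p) (by rw [h, map_zero]))
  have hs0 : aeval (jqModC k) s ≠ 0 := by
    intro h
    rw [h, div_zero] at hrs
    exact hJp0 hrs
  rw [aeval_eq_evL, aeval_eq_evL] at hrs
  rw [aeval_eq_evL] at hs0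
  have hs : s ≠ 0 := by
    rintro rfl
    exact hs0 (map_zero _)
  have hrel : evL k (jqModC k) s * qExpand k p (jqModC k) = evL k (jqModC k) r := by
    rw [hrs, mul_div_cancel₀ _ hs0]
  obtain ⟨Φ, hΦm, -, hΦ1, -⟩ := Fermat.Agent.S28_Split.exists_relation_aevalAeval p hp k hpk
  have hint : (evL k (jqModC k)).IsIntegralElem (qExpand k p (jqModC k)) :=
    ⟨Φ, hΦm, by rw [← aevalAeval_eq_evL]; exact hΦ1⟩
  obtain ⟨Q, hQ⟩ := exists_evL_eq_of_integral k (evL_jq_injective k) _ s r hs hrel hint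
  exact not_poly_evL_field ℓ p hp hpl k Q hQ

end

end Fermat.Agent.S28_Prime
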