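import Fermat.Agent.S24_Degree
import Fermat.Agent.S24_Comb

/-!
# S28_Deg0 (helper4): the characteristic-zero upper bound `[F_N : ℚ(j)] ≤ ψ(N)` over `ℚ`

`S24_Degree.finrank_eq` computes the degree of the function field of `X₀(N)` over `ℚ̄(j)`.
Here we descend the upper bound to `ℚ`: a family of elements of
`modularFunctionFieldFull N ⊆ ℚ((q))` which is independent over `ℚ[j]` stays independent over
`ℚ̄[j]` after coefficient extension (coefficientwise linear disjointness of `ℚ((q))` and `ℚ̄`
over `ℚ`), hence has at most `ψ(N)` elements.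
-/

set_option autoImplicit false

noncomputable section

open Fermat.Agent.S24_Defs ModularCurve IntermediateField HahnSeries

namespace Fermat.Agent.S28_Deg0

/-- Coefficients of a scalar multiple in a Laurent series field. -/
theorem coeff_algebraMap_mul' {L : Type*} [Field L] (c : L) (x : LaurentSeries L) (a : ℤ) :
    (algebraMap L (LaurentSeries L) c * x).coeff a = c * x.coeff a := by
  rw [algebraMap_laurentSeries_eq_single, HahnSeries.coeff_single_mul, sub_zero]

/-- Coefficient extension commutes with evaluation of polynomials at `j`. -/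
theorem coeffEmb_aeval_jq (s : Polynomial ℚ) :
    coeffEmb Kbar (Polynomial.aeval jq s)
      = Polynomial.aeval (Jd 1) (s.map (algebraMap ℚ Kbar)) := by
  rw [Polynomial.aeval_def, Polynomial.aeval_def, Polynomial.eval₂_map, Polynomial.hom_eval₂,
    S24_DegreeOf.Jd_one]
  congr 1
  exact Subsingleton.elim _ _

/-- `jq` is transcendental over `ℚ`, in the injective-evaluation form. -/
theorem aeval_jq_injective : Function.Injective (Polynomial.aeval (R := ℚ) jq) := by
  intro p r hpr
  have h2 : (p.map (algebraMap ℚ Kbar)) = (r.map (algebraMap ℚ Kbar)) := by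
    apply S24_DegreeOf.aeval_Jd_one_injective
    rw [← coeffEmb_aeval_jq, ← coeffEmb_aeval_jq, hpr]
  exact Polynomial.map_injective _ (algebraMap ℚ Kbar).injective h2

theorem aeval_jq_ne_zero {p : Polynomial ℚ} (hp : p ≠ 0) : Polynomial.aeval jq p ≠ 0 := by
  intro h
  exact hp (aeval_jq_injective (by rw [h, map_zero]))

/-- **Coefficientwise linear disjointness**: a family in `ℚ((q))` independent over `ℚ[j]` stays
independent over `ℚ̄[j]` after coefficient extension. -/
theorem eq_zero_of_rel_bar {m : ℕ} (v : Fin m → LaurentSeries ℚ)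
    (hind : ∀ g : Fin m → Polynomial ℚ,
      (∑ i, Polynomial.aeval jq (g i) * v i) = 0 → ∀ i, g i = 0)
    (u : Fin m → Polynomial Kbar)
    (h : (∑ i, Polynomial.aeval (Jd 1) (u i) * coeffEmb Kbar (v i)) = 0) :
    ∀ i, u i = 0 := by
  classical
  -- a `ℚ`-basis of `ℚ̄`
  let B := Module.Free.chooseBasis ℚ Kbar
  -- the `j`-th coordinate polynomial
  let g : (Module.Free.ChooseBasisIndex ℚ Kbar) → Fin m → Polynomial ℚ := fun j i =>
    ∑ a ∈ (u i).support, Polynomial.monomial a (B.repr ((u i).coeff a) j)
  have hgcoeff : ∀ j i a, (g j i).coeff a = B.repr ((u i).coeff a) j := by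
    intro j i a
    simp only [g, Polynomial.finsetSum_coeff, Polynomial.coeff_monomial]
    rw [Finset.sum_ite_eq']
    split_ifs with ha
    · rfl
    · rw [Polynomial.notMem_support_iff.mp ha]; simp
  -- expansions
  have hexpQ : ∀ j i, Polynomial.aeval jq (g j i)
      = ∑ a ∈ (u i).support, algebraMap ℚ (LaurentSeries ℚ) (B.repr ((u i).coeff a) j) * jq ^ a := by
    intro j i
    simp only [g, map_sum, Polynomial.aeval_monomial]
  have hexpK : ∀ i, Polynomial.aeval (Jd 1) (u i)
      = ∑ a ∈ (u i).support, algebraMap Kbar (LaurentSeries Kbar) ((u i).coeff a) * (Jd 1) ^ a := by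
    intro i
    rw [Polynomial.aeval_def, Polynomial.eval₂_eq_sum, Polynomial.sum_def]
  have hJ : ∀ a : ℕ, ∀ i, ∀ n : ℤ, ((Jd 1) ^ a * coeffEmb Kbar (v i)).coeff n
      = algebraMap ℚ Kbar ((jq ^ a * v i).coeff n) := by
    intro a i n
    rw [S24_DegreeOf.Jd_one, ← map_pow, ← map_mul, coeffEmb_coeff]
  -- the coefficientwise relation over `ℚ̄`
  have hcoeff : ∀ n : ℤ, ∑ i, ∑ a ∈ (u i).support,
      ((u i).coeff a) * algebraMap ℚ Kbar ((jq ^ a * v i).coeff n) = 0 := by
    intro n
    have h1 := congrArg (fun x : LaurentSeries Kbar => x.coeff n) h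
    simp only [coeff_zero] at h1
    rw [← h1, coeff_sum]
    refine Finset.sum_congr rfl fun i _ => ?_
    rw [hexpK i, Finset.sum_mul, coeff_sum]
    refine Finset.sum_congr rfl fun a _ => ?_
    rw [mul_assoc, coeff_algebraMap_mul', hJ]
  -- each coordinate gives a relation over `ℚ`
  have hrel : ∀ j, (∑ i, Polynomial.aeval jq (g j i) * v i) = 0 := by
    intro j
    ext n
    rw [coeff_zero, coeff_sum]
    have h2 := congrArg (fun x => B.repr x j) (hcoeff n)
    simp only [map_sum, map_zero, Finsupp.coe_finsetSum, Finset.sum_apply, Finsupp.coe_zero,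
      Pi.zero_apply] at h2
    rw [← h2]
    refine Finset.sum_congr rfl fun i _ => ?_
    rw [hexpQ j i, Finset.sum_mul, coeff_sum]
    refine Finset.sum_congr rfl fun a _ => ?_
    rw [mul_assoc, coeff_algebraMap_mul']
    have h3 : (u i).coeff a * algebraMap ℚ Kbar ((jq ^ a * v i).coeff n)
        = ((jq ^ a * v i).coeff n) • (u i).coeff a := by
      rw [Algebra.smul_def, mul_comm]
    rw [h3, map_smul, Finsupp.smul_apply, smul_eq_mul, mul_comm]
  intro i
  ext a
  rw [Polynomial.coeff_zero]
  have h4 : B.repr ((u i).coeff a) = 0 := by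
    ext j
    have := hind (g j) (hrel j) i
    rw [← hgcoeff j i a, this]
    simp
  exact (B.repr.map_eq_zero_iff).mp h4

open scoped IntermediateField.algebraAdjoinAdjoin in
/-- The coefficient extensions of a `ℚ[j]`-independent family in `F_N` are `ℚ̄(j)`-independent. -/
theorem linearIndependent_bar (N : ℕ) [NeZero N] {m : ℕ} (v : Fin m → LaurentSeries ℚ)
    (hv : ∀ i, v i ∈ modularFunctionFieldFull N)
    (hind : ∀ g : Fin m → Polynomial ℚ,
      (∑ i, Polynomial.aeval jq (g i) * v i) = 0 → ∀ i, g i = 0) :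
    LinearIndependent Kbar⟮jF N⟯ (fun i : Fin m =>
      (⟨coeffEmb Kbar (v i), coeffEmb_mem_laurentBaseChange Kbar (hv i)⟩ : FF N)) := by
  rw [← LinearIndependent.iff_fractionRing (Algebra.adjoin Kbar {jF N}) Kbar⟮jF N⟯,
    Fintype.linearIndependent_iff]
  intro g hg k
  have hex : ∀ k, ∃ u : Polynomial Kbar, Polynomial.aeval (jF N) u = (g k : FF N) := by
    intro k
    have h1 : (g k : FF N) ∈ (Polynomial.aeval (R := Kbar) (jF N)).range := by
      rw [← Algebra.adjoin_singleton_eq_range_aeval]
      exact (g k).2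
    exact h1
  choose u hu using hex
  have hrel : ∑ k, Polynomial.aeval (Jd 1) (u k) * coeffEmb Kbar (v k) = 0 := by
    have h1 := congrArg ((modularFunctionFieldBar N).val) hg
    rw [map_sum, map_zero] at h1
    rw [← h1]
    refine Finset.sum_congr rfl fun k _ => ?_
    rw [Subalgebra.smul_def, smul_eq_mul, map_mul, ← hu k, ← S24_DegreeOf.coe_aeval_jF N]
    rfl
  have hu0 := eq_zero_of_rel_bar v hind u hrel
  apply Subtype.ext
  rw [← hu k, hu0 k]
  simp

/-- **Family form of the upper bound**: a `ℚ[j]`-independent family in `F_N` has at most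
`ψ(N)` elements. -/
theorem le_dedekindPsi_of_indep (N : ℕ) [NeZero N] {m : ℕ} (v : Fin m → LaurentSeries ℚ)
    (hv : ∀ i, v i ∈ modularFunctionFieldFull N)
    (hind : ∀ g : Fin m → Polynomial ℚ,
      (∑ i, Polynomial.aeval jq (g i) * v i) = 0 → ∀ i, g i = 0) :
    m ≤ dedekindPsi N := by
  obtain ⟨hfin, hrank⟩ := Fermat.Agent.S24_Degree.finrank_eq N
  have h1 := (linearIndependent_bar N v hv hind).fintype_card_le_finrank
  rw [hrank, Fermat.Agent.S24_Comb.card_coset] at h1
  simpa using h1

/-- **Spanning form of the upper bound**: a `ℚ[j]`-independent family of `ψ(N)` elements of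
`F_N` spans `F_N` over `ℚ(j)` (denominator-free formulation). -/
theorem exists_span_of_indep (N : ℕ) [NeZero N] (v : Fin (dedekindPsi N) → LaurentSeries ℚ)
    (hv : ∀ i, v i ∈ modularFunctionFieldFull N)
    (hind : ∀ g : Fin (dedekindPsi N) → Polynomial ℚ,
      (∑ i, Polynomial.aeval jq (g i) * v i) = 0 → ∀ i, g i = 0)
    (x : LaurentSeries ℚ) (hx : x ∈ modularFunctionFieldFull N) :
    ∃ (g : Polynomial ℚ) (f : Fin (dedekindPsi N) → Polynomial ℚ), g ≠ 0 ∧
      Polynomial.aeval jq g * x = ∑ i, Polynomial.aeval jq (f i) * v i := by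
  classical
  by_contra hcon
  push Not at hcon
  -- the extended family is still independent
  have hext : ∀ G : Fin (dedekindPsi N + 1) → Polynomial ℚ,
      (∑ i, Polynomial.aeval jq (G i) * (Fin.snoc v x : Fin (dedekindPsi N + 1) → _) i) = 0 →
        ∀ i, G i = 0 := by
    intro G hG
    rw [Fin.sum_univ_castSucc] at hG
    simp only [Fin.snoc_castSucc, Fin.snoc_last] at hG
    have hlast : G (Fin.last _) = 0 := by
      by_contra hne
      refine hcon (G (Fin.last _)) (fun i => - G i.castSucc) hne ?_
      rw [eq_neg_of_add_eq_zero_right hG, ← Finset.sum_neg_distrib]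
      refine Finset.sum_congr rfl fun i _ => ?_
      rw [map_neg, neg_mul]
    rw [hlast, map_zero, zero_mul, add_zero] at hG
    have h1 := hind (fun i => G i.castSucc) hG
    intro i
    refine Fin.lastCases hlast (fun i => h1 i) i
  have hmem : ∀ i, (Fin.snoc v x : Fin (dedekindPsi N + 1) → LaurentSeries ℚ) i
      ∈ modularFunctionFieldFull N := by
    intro i
    refine Fin.lastCases ?_ (fun i => ?_) i
    · rw [Fin.snoc_last]; exact hx
    · rw [Fin.snoc_castSucc]; exact hv i
  have := le_dedekindPsi_of_indep N _ hmem hext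
  omega

/-- The field generated over `ℚ(j)` by the `j(q^d)`, `d ∣ N`, is (as a set) contained in
`F_N = modularFunctionFieldFull N`. -/
theorem mem_full_of_mem_adjoin (N : ℕ) [NeZero N] {x : LaurentSeries ℚ}
    (hx : x ∈ IntermediateField.adjoin
      ↥(IntermediateField.adjoin ℚ {(jq : LaurentSeries ℚ)}) (divisorExpansions N)) :
    x ∈ modularFunctionFieldFull N := by
  have h1 : x ∈ Subfield.closure
      (Set.range (algebraMap ↥(IntermediateField.adjoin ℚ {(jq : LaurentSeries ℚ)})
        (LaurentSeries ℚ)) ∪ divisorExpansions N) := hx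
  have hle : Subfield.closure
      (Set.range (algebraMap ↥(IntermediateField.adjoin ℚ {(jq : LaurentSeries ℚ)})
        (LaurentSeries ℚ)) ∪ divisorExpansions N) ≤ (modularFunctionFieldFull N).toSubfield := by
    rw [Subfield.closure_le]
    rintro y (⟨c, rfl⟩ | hy)
    · have hle' : IntermediateField.adjoin ℚ {(jq : LaurentSeries ℚ)}
          ≤ modularFunctionFieldFull N :=
        (adjoin_jq_le N).trans (modularFunctionField_le_full N)
      exact hle' c.2
    · exact IntermediateField.subset_adjoin ℚ _ hy
  exact hle h1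

/-- **Finrank form of the upper bound**: `[ℚ(j)(j(q^d) : d ∣ N) : ℚ(j)] ≤ ψ(N)`. -/
theorem finrank_le (N : ℕ) [NeZero N] :
    FiniteDimensional ↥(IntermediateField.adjoin ℚ {(jq : LaurentSeries ℚ)})
        ↥(IntermediateField.adjoin ↥(IntermediateField.adjoin ℚ {(jq : LaurentSeries ℚ)})
          (divisorExpansions N)) ∧
      Module.finrank ↥(IntermediateField.adjoin ℚ {(jq : LaurentSeries ℚ)})
        ↥(IntermediateField.adjoin ↥(IntermediateField.adjoin ℚ {(jq : LaurentSeries ℚ)})
          (divisorExpansions N)) ≤ dedekindPsi N := by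
  classical
  have hrank : Module.rank ↥(IntermediateField.adjoin ℚ {(jq : LaurentSeries ℚ)})
      ↥(IntermediateField.adjoin ↥(IntermediateField.adjoin ℚ {(jq : LaurentSeries ℚ)})
        (divisorExpansions N)) ≤ (dedekindPsi N : ℕ) := by
    refine rank_le fun s hs => ?_
    -- reindex by `Fin s.card`
    have hs' := (linearIndependent_equiv s.equivFin.symm).mpr hs
    rw [Fintype.linearIndependent_iff] at hs'
    have key := le_dedekindPsi_of_indep N
      (fun i : Fin s.card => (((s.equivFin.symm i : s) : ↥(IntermediateField.adjoin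
        ↥(IntermediateField.adjoin ℚ {(jq : LaurentSeries ℚ)}) (divisorExpansions N))) :
          LaurentSeries ℚ))
      (fun i => mem_full_of_mem_adjoin N (SetLike.coe_mem _)) ?_
    · exact key
    · intro g hg i
      have hmem : ∀ i, Polynomial.aeval jq (g i)
          ∈ IntermediateField.adjoin ℚ {(jq : LaurentSeries ℚ)} := fun i =>
        (IntermediateField.algebra_adjoin_le_adjoin ℚ _)
          (by rw [Algebra.adjoin_singleton_eq_range_aeval]; exact ⟨g i, rfl⟩)
      have h0 : (∑ i, (⟨Polynomial.aeval jq (g i), hmem i⟩ :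
          ↥(IntermediateField.adjoin ℚ {(jq : LaurentSeries ℚ)})) •
            ((fun i : s => (i : ↥(IntermediateField.adjoin
              ↥(IntermediateField.adjoin ℚ {(jq : LaurentSeries ℚ)}) (divisorExpansions N)))) ∘
                s.equivFin.symm) i) = 0 := by
        apply Subtype.val_injective
        rw [ZeroMemClass.coe_zero, ← hg, IntermediateField.coe_sum]
        exact Finset.sum_congr rfl fun i _ => rfl
      have h1 := hs' (fun i => ⟨Polynomial.aeval jq (g i), hmem i⟩) h0 i
      exact aeval_jq_injective (by rw [map_zero]; exact congrArg Subtype.val h1)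
  refine ⟨?_, Module.finrank_le_of_rank_le hrank⟩
  exact Module.rank_lt_aleph0_iff.mp (lt_of_le_of_lt hrank Cardinal.natCast_lt_aleph0)

end Fermat.Agent.S28_Deg0

end
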