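-- Helper for S28 (block QX): the integrality lemma `N` over a polynomial subalgebra `R[t]`
-- of a field (`t` transcendental, `R` an integrally closed domain).
import Mathlib
import Fermat.Agent.S28_QExpL

set_option autoImplicit false
set_option linter.unusedSectionVars false

open Polynomial

namespace Fermat.Agent.S28_QExp

/-- Let `R` be an integrally closed domain, `F` a field which is an `R`-algebra, `t : F`
transcendental over `R`, `p` a prime element of `R` and `s ∈ R[X]` not divisible by `p`. If
`p y` and `s(t) y` are integral over `R[t]`, then so is `y`. -/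
theorem isIntegral_adjoin_of_isIntegral_mul {R F : Type*} [CommRing R] [IsDomain R]
    [IsIntegrallyClosed R] [Field F] [Algebra R F] {t : F}
    (ht : Function.Injective (aeval t : R[X] →ₐ[R] F)) {p : R} (hp : Prime p) {s : R[X]}
    (hs : ¬ C p ∣ s) {y : F}
    (h1 : IsIntegral (Algebra.adjoin R {t}) (algebraMap R F p * y))
    (h2 : IsIntegral (Algebra.adjoin R {t}) (aeval t s * y)) :
    IsIntegral (Algebra.adjoin R {t}) y := by
  classical
  have hrange : Algebra.adjoin R {t} = (aeval t : R[X] →ₐ[R] F).range :=
    Algebra.adjoin_singleton_eq_range_aeval R t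
  let e : R[X] ≃ₐ[R] Algebra.adjoin R {t} :=
    (AlgEquiv.ofInjective (aeval t) ht).trans (Subalgebra.equivOfEq _ _ hrange.symm)
  have he : ∀ g : R[X], ((e g : Algebra.adjoin R {t}) : F) = aeval t g := fun g => rfl
  haveI : IsIntegrallyClosed (Algebra.adjoin R {t}) := IsIntegrallyClosed.of_equiv e.toRingEquiv
  haveI : FaithfulSMul (Algebra.adjoin R {t}) F :=
    (faithfulSMul_iff_algebraMap_injective _ F).2 Subtype.val_injective
  letI := FractionRing.liftAlgebra (Algebra.adjoin R {t}) F
  haveI := FractionRing.isScalarTower_liftAlgebra (Algebra.adjoin R {t}) F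
  have hpA : Prime (e (C p)) := (MulEquiv.prime_iff e.toMulEquiv).2 (Polynomial.prime_C_iff.2 hp)
  have hsA : ¬ e (C p) ∣ e s := by
    rw [map_dvd_iff e]
    exact hs
  refine isIntegral_of_isIntegral_mul (FractionRing (Algebra.adjoin R {t})) hpA hsA ?_ ?_
  · have h3 : algebraMap (Algebra.adjoin R {t}) F (e (C p)) = algebraMap R F p := by
      show ((e (C p) : Algebra.adjoin R {t}) : F) = _
      rw [he, aeval_C]
    rw [h3]; exact h1
  · have h3 : algebraMap (Algebra.adjoin R {t}) F (e s) = aeval t s := he s
    rw [h3]; exact h2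

end Fermat.Agent.S28_QExp
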