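-- Helper for S28 (block QX): the local ring `O ⊂ ℚ((q))` of fractions `P / Q` of `ℓ`-integral
-- Laurent series with `Q` nonzero mod `ℓ`, and its reduction map `O → 𝔽_ℓ((q))`.
import Mathlib
import Fermat.Agent.S28_QExpBase

set_option autoImplicit false
set_option linter.unusedSectionVars false

namespace Fermat.Agent.S28_QExp

variable (ℓ : ℕ) [hℓ : Fact ℓ.Prime]

/-- `x` is the fraction `P / Q`, with `Q` nonzero mod `ℓ` -/
def IsFrac (x : LaurentSeries ℚ) (P Q : LaurentSeries (GaloisRep.ratLocalizedAt ℓ)) : Prop :=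
  redT ℓ Q ≠ 0 ∧ x * emb ℓ Q = emb ℓ P

variable {ℓ}

theorem IsFrac.emb_ne_zero {x : LaurentSeries ℚ} {P Q : LaurentSeries (GaloisRep.ratLocalizedAt ℓ)}
    (h : IsFrac ℓ x P Q) : emb ℓ Q ≠ 0 := by
  intro h0
  have : Q = 0 := emb_injective ℓ (by rw [h0, map_zero])
  exact h.1 (by rw [this, map_zero])

theorem IsFrac.cross {x : LaurentSeries ℚ} {P Q P' Q' : LaurentSeries (GaloisRep.ratLocalizedAt ℓ)}
    (h : IsFrac ℓ x P Q) (h' : IsFrac ℓ x P' Q') : P * Q' = P' * Q := by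
  apply emb_injective ℓ
  rw [map_mul, map_mul, ← h.2, ← h'.2]
  ring

theorem IsFrac.red_eq {x : LaurentSeries ℚ} {P Q P' Q' : LaurentSeries (GaloisRep.ratLocalizedAt ℓ)}
    (h : IsFrac ℓ x P Q) (h' : IsFrac ℓ x P' Q') :
    redT ℓ P / redT ℓ Q = redT ℓ P' / redT ℓ Q' := by
  rw [div_eq_div_iff h.1 h'.1, ← map_mul, ← map_mul, h.cross h']

theorem IsFrac.add {x y : LaurentSeries ℚ} {P Q P' Q' : LaurentSeries (GaloisRep.ratLocalizedAt ℓ)}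
    (h : IsFrac ℓ x P Q) (h' : IsFrac ℓ y P' Q') : IsFrac ℓ (x + y) (P * Q' + P' * Q) (Q * Q') := by
  refine ⟨by rw [map_mul]; exact mul_ne_zero h.1 h'.1, ?_⟩
  rw [map_add, map_mul, map_mul, map_mul, ← h.2, ← h'.2]
  ring

theorem IsFrac.mul {x y : LaurentSeries ℚ} {P Q P' Q' : LaurentSeries (GaloisRep.ratLocalizedAt ℓ)}
    (h : IsFrac ℓ x P Q) (h' : IsFrac ℓ y P' Q') : IsFrac ℓ (x * y) (P * P') (Q * Q') := by
  refine ⟨by rw [map_mul]; exact mul_ne_zero h.1 h'.1, ?_⟩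
  rw [map_mul, map_mul, ← h.2, ← h'.2]
  ring

theorem IsFrac.neg {x : LaurentSeries ℚ} {P Q : LaurentSeries (GaloisRep.ratLocalizedAt ℓ)}
    (h : IsFrac ℓ x P Q) : IsFrac ℓ (-x) (-P) Q := by
  refine ⟨h.1, ?_⟩
  rw [map_neg, ← h.2]
  ring

theorem isFrac_emb (P : LaurentSeries (GaloisRep.ratLocalizedAt ℓ)) : IsFrac ℓ (emb ℓ P) P 1 := by
  refine ⟨by rw [map_one]; exact one_ne_zero, ?_⟩
  rw [map_one, mul_one]

variable (ℓ)

/-- the ring of fractions `P / Q` with `Q` nonzero mod `ℓ` -/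
def Oring : Subring (LaurentSeries ℚ) where
  carrier := {x | ∃ P Q, IsFrac ℓ x P Q}
  mul_mem' := by
    rintro x y ⟨P, Q, h⟩ ⟨P', Q', h'⟩
    exact ⟨_, _, h.mul h'⟩
  one_mem' := ⟨1, 1, by simpa using isFrac_emb (ℓ := ℓ) 1⟩
  add_mem' := by
    rintro x y ⟨P, Q, h⟩ ⟨P', Q', h'⟩
    exact ⟨_, _, h.add h'⟩
  zero_mem' := ⟨0, 1, by simpa using isFrac_emb (ℓ := ℓ) 0⟩
  neg_mem' := by
    rintro x ⟨P, Q, h⟩
    exact ⟨_, _, h.neg⟩

theorem mem_Oring {x : LaurentSeries ℚ} : x ∈ Oring ℓ ↔ ∃ P Q, IsFrac ℓ x P Q := Iff.rfl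

theorem emb_mem_Oring (P : LaurentSeries (GaloisRep.ratLocalizedAt ℓ)) : emb ℓ P ∈ Oring ℓ :=
  ⟨P, 1, isFrac_emb P⟩

/-- the reduction map, as a function -/
noncomputable def redFun (x : Oring ℓ) : LaurentSeries (ZMod ℓ) :=
  redT ℓ x.2.choose / redT ℓ x.2.choose_spec.choose

theorem redFun_eq (x : Oring ℓ) {P Q : LaurentSeries (GaloisRep.ratLocalizedAt ℓ)}
    (h : IsFrac ℓ (x : LaurentSeries ℚ) P Q) : redFun ℓ x = redT ℓ P / redT ℓ Q :=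
  IsFrac.red_eq x.2.choose_spec.choose_spec h

/-- the reduction map `O → 𝔽_ℓ((q))` -/
noncomputable def red : Oring ℓ →+* LaurentSeries (ZMod ℓ) where
  toFun := redFun ℓ
  map_one' := by
    have h : IsFrac ℓ ((1 : Oring ℓ) : LaurentSeries ℚ) 1 1 := by
      simpa using isFrac_emb (ℓ := ℓ) 1
    rw [redFun_eq ℓ 1 h, map_one, div_one]
  map_mul' x y := by
    obtain ⟨P, Q, h⟩ := x.2
    obtain ⟨P', Q', h'⟩ := y.2
    rw [redFun_eq ℓ x h, redFun_eq ℓ y h', redFun_eq ℓ (x * y) (h.mul h'), map_mul, map_mul]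
    field_simp [h.1, h'.1]
  map_zero' := by
    have h : IsFrac ℓ ((0 : Oring ℓ) : LaurentSeries ℚ) 0 1 := by
      simpa using isFrac_emb (ℓ := ℓ) 0
    rw [redFun_eq ℓ 0 h, map_zero, zero_div]
  map_add' x y := by
    obtain ⟨P, Q, h⟩ := x.2
    obtain ⟨P', Q', h'⟩ := y.2
    have hQ := h.1
    have hQ' := h'.1
    rw [redFun_eq ℓ x h, redFun_eq ℓ y h', redFun_eq ℓ (x + y) (h.add h'), map_add, map_mul,
      map_mul, map_mul]
    field_simp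

theorem red_eq {x : LaurentSeries ℚ} (hx : x ∈ Oring ℓ)
    {P Q : LaurentSeries (GaloisRep.ratLocalizedAt ℓ)} (h : IsFrac ℓ x P Q) :
    red ℓ ⟨x, hx⟩ = redT ℓ P / redT ℓ Q :=
  redFun_eq ℓ ⟨x, hx⟩ h

theorem red_emb (P : LaurentSeries (GaloisRep.ratLocalizedAt ℓ)) :
    red ℓ ⟨emb ℓ P, emb_mem_Oring ℓ P⟩ = redT ℓ P := by
  rw [red_eq ℓ _ (isFrac_emb P), map_one, div_one]

theorem emb_ell : emb ℓ (ℓ : LaurentSeries (GaloisRep.ratLocalizedAt ℓ)) = (ℓ : LaurentSeries ℚ) :=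
  map_natCast _ ℓ

theorem ell_ne_zero' : ((ℓ : ℕ) : LaurentSeries ℚ) ≠ 0 := by
  have h : ((ℓ : ℕ) : LaurentSeries ℚ) = algebraMap ℚ (LaurentSeries ℚ) (ℓ : ℚ) :=
    (map_natCast _ ℓ).symm
  rw [h, Ne, map_eq_zero_iff _ (algebraMap ℚ (LaurentSeries ℚ)).injective]
  exact_mod_cast hℓ.out.ne_zero

/-- the kernel of the reduction map is `ℓ O` -/
theorem exists_eq_mul_of_red_eq_zero {x : LaurentSeries ℚ} (hx : x ∈ Oring ℓ)
    (h : red ℓ ⟨x, hx⟩ = 0) : ∃ y ∈ Oring ℓ, x = (ℓ : LaurentSeries ℚ) * y := by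
  obtain ⟨P, Q, hPQ⟩ := (mem_Oring ℓ).1 hx
  rw [red_eq ℓ hx hPQ, div_eq_zero_iff] at h
  have hP : redT ℓ P = 0 := h.resolve_right hPQ.1
  obtain ⟨P', rfl⟩ := exists_eq_mul_of_redT_eq_zero ℓ hP
  have hℓ0 := ell_ne_zero' ℓ
  refine ⟨x / (ℓ : LaurentSeries ℚ), ⟨P', Q, hPQ.1, ?_⟩, ?_⟩
  · have h2 := hPQ.2
    rw [map_mul, emb_ell] at h2
    rw [div_mul_eq_mul_div, h2, mul_div_assoc]
    exact mul_div_cancel₀ _ hℓ0
  · rw [mul_div_cancel₀ _ hℓ0]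

end Fermat.Agent.S28_QExp
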