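-- Helper for S28 (block QX): scaling rational polynomials to `ℓ`-integral, `ℓ`-primitive ones, and
-- the compatibility of polynomial evaluation with `emb` and `redT`.
import Mathlib
import Fermat.Agent.S28_QExpO

set_option autoImplicit false
set_option linter.unusedSectionVars false

open Polynomial

namespace Fermat.Agent.S28_QExp

variable (ℓ : ℕ) [hℓ : Fact ℓ.Prime]

/-! ### Number lemmas -/

theorem ell_ne_zeroQ : (ℓ : ℚ) ≠ 0 := by
  exact_mod_cast hℓ.out.ne_zero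

/-- every rational number becomes `ℓ`-integral after multiplication by a power of `ℓ` -/
theorem exists_pow_mul_mem (c : ℚ) : ∃ m : ℕ, (ℓ : ℚ) ^ m * c ∈ GaloisRep.ratLocalizedAt ℓ := by
  obtain ⟨e, n', hn', hden⟩ :=
    Nat.exists_eq_pow_mul_and_not_dvd c.den_nz ℓ hℓ.out.ne_one
  refine ⟨e, ?_⟩
  have hn0 : n' ≠ 0 := by
    rintro rfl
    exact hn' (dvd_zero _)
  have h1 : (ℓ : ℚ) ^ e * c = Rat.divInt c.num (n' : ℤ) := by
    rw [Rat.divInt_eq_div]
    have h3 : c = (c.num : ℚ) / (c.den : ℚ) := (Rat.num_div_den c).symm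
    have h4 : (c.den : ℚ) = (ℓ : ℚ) ^ e * (n' : ℚ) := by
      rw [hden]; push_cast; ring
    have hn0' : (n' : ℚ) ≠ 0 := by exact_mod_cast hn0
    have hl0 : (ℓ : ℚ) ^ e ≠ 0 := pow_ne_zero _ (ell_ne_zeroQ ℓ)
    conv_lhs => rw [h3, h4]
    push_cast
    field_simp
  rw [h1]
  show (Rat.divInt c.num (n' : ℤ)).den.Coprime ℓ
  have h5 : ((Rat.divInt c.num (n' : ℤ)).den : ℤ) ∣ (n' : ℤ) := Rat.den_dvd _ _
  have h6 : (Rat.divInt c.num (n' : ℤ)).den ∣ n' := by exact_mod_cast h5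
  have h7 : n'.Coprime ℓ := ((Nat.Prime.coprime_iff_not_dvd hℓ.out).2 hn').symm
  exact Nat.Coprime.coprime_dvd_left h6 h7

theorem pow_mul_mem_of_le {c : ℚ} {m m' : ℕ} (h : m ≤ m')
    (hc : (ℓ : ℚ) ^ m * c ∈ GaloisRep.ratLocalizedAt ℓ) :
    (ℓ : ℚ) ^ m' * c ∈ GaloisRep.ratLocalizedAt ℓ := by
  obtain ⟨k, rfl⟩ := Nat.exists_eq_add_of_le h
  have h1 : (ℓ : ℚ) ^ (m + k) * c = (ℓ : ℚ) ^ k * ((ℓ : ℚ) ^ m * c) := by ring
  rw [h1]
  exact mul_mem (pow_mem (natCast_mem ℓ ℓ) k) hc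

/-- a nonzero `ℓ`-integral rational number has nonnegative valuation -/
theorem padicValRat_nonneg_of_mem {c : ℚ} (hc : c ∈ GaloisRep.ratLocalizedAt ℓ) :
    0 ≤ padicValRat ℓ c := by
  rw [padicValRat_def]
  have h1 : c.den.Coprime ℓ := hc
  have h2 : ¬ ℓ ∣ c.den := by
    intro h
    have h3 : ℓ ∣ Nat.gcd c.den ℓ := Nat.dvd_gcd h dvd_rfl
    rw [h1] at h3
    exact hℓ.out.one_lt.ne' (Nat.dvd_one.1 h3)
  rw [padicValNat.eq_zero_of_not_dvd h2]
  simp

/-- a nonzero rational number is not infinitely `ℓ`-divisible -/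
theorem exists_div_pow_not_mem {c : ℚ} (hc : c ≠ 0) :
    ∃ M : ℕ, c / (ℓ : ℚ) ^ M ∉ GaloisRep.ratLocalizedAt ℓ := by
  refine ⟨(padicValRat ℓ c).toNat + 1, fun h => ?_⟩
  have h1 := padicValRat_nonneg_of_mem ℓ h
  have hl0 : ((ℓ : ℚ) ^ ((padicValRat ℓ c).toNat + 1)) ≠ 0 := pow_ne_zero _ (ell_ne_zeroQ ℓ)
  rw [padicValRat.div hc hl0, padicValRat.pow, padicValRat.self hℓ.out.one_lt] at h1
  have h2 := Int.self_le_toNat (padicValRat ℓ c)
  push_cast at h1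
  omega

/-- the residue map is surjective -/
theorem resHom_surjective : Function.Surjective (resHom ℓ) := by
  intro a
  refine ⟨((ZMod.val a : ℕ) : GaloisRep.ratLocalizedAt ℓ), ?_⟩
  rw [resHom_natCast]
  exact ZMod.natCast_zmod_val a

/-! ### Scaling polynomials -/

theorem exists_pow_mul_coeff_mem (f : ℚ[X]) :
    ∃ m : ℕ, ∀ k, (ℓ : ℚ) ^ m * f.coeff k ∈ GaloisRep.ratLocalizedAt ℓ := by
  classical
  choose e he using fun k => exists_pow_mul_mem ℓ (f.coeff k)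
  refine ⟨f.support.sup e, fun k => ?_⟩
  by_cases hk : k ∈ f.support
  · exact pow_mul_mem_of_le ℓ (Finset.le_sup hk) (he k)
  · rw [Polynomial.notMem_support_iff.1 hk, mul_zero]
    exact zero_mem _

theorem exists_pow_mul_coeff_mem_fin {n : ℕ} (f : Fin n → ℚ[X]) :
    ∃ m : ℕ, ∀ i k, (ℓ : ℚ) ^ m * (f i).coeff k ∈ GaloisRep.ratLocalizedAt ℓ := by
  classical
  choose e he using fun i => exists_pow_mul_coeff_mem ℓ (f i)
  exact ⟨Finset.univ.sup e, fun i k =>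
    pow_mul_mem_of_le ℓ (Finset.le_sup (Finset.mem_univ i)) (he i k)⟩

/-- (P1) a finite family of rational polynomials can be scaled by a power `ℓ ^ m` to an
`ℓ`-integral family, which is nonzero mod `ℓ` as soon as `0 < m` -/
theorem exists_scale {n : ℕ} (f : Fin n → ℚ[X]) :
    ∃ (m : ℕ) (f' : Fin n → (GaloisRep.ratLocalizedAt ℓ)[X]),
      (∀ i, (f' i).map (GaloisRep.ratLocalizedAt ℓ).subtype = C ((ℓ : ℚ) ^ m) * f i) ∧
      (0 < m → ∃ i, (f' i).map (resHom ℓ) ≠ 0) := by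
  classical
  have hex := exists_pow_mul_coeff_mem_fin ℓ f
  have hm := Nat.find_spec hex
  have hmin := fun k (hk : k < Nat.find hex) => Nat.find_min hex hk
  set m := Nat.find hex with hm_def
  have hl : ∀ i, C ((ℓ : ℚ) ^ m) * f i ∈ Polynomial.lifts (GaloisRep.ratLocalizedAt ℓ).subtype := by
    intro i
    rw [Polynomial.lifts_iff_coeff_lifts]
    intro k
    rw [Polynomial.coeff_C_mul]
    exact ⟨⟨_, hm i k⟩, rfl⟩
  choose f' hf' using fun i => (Polynomial.mem_lifts _).1 (hl i)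
  refine ⟨m, f', hf', fun hpos => ?_⟩
  have h1 := hmin (m - 1) (by omega)
  push Not at h1
  obtain ⟨i, k, hik⟩ := h1
  refine ⟨i, fun h0 => hik ?_⟩
  have h2 : resHom ℓ ((f' i).coeff k) = 0 := by
    rw [← Polynomial.coeff_map, h0, Polynomial.coeff_zero]
  obtain ⟨u, hu⟩ := exists_eq_mul_of_resHom_eq_zero ℓ h2
  have h3 : (((f' i).coeff k : GaloisRep.ratLocalizedAt ℓ) : ℚ) = (ℓ : ℚ) ^ m * (f i).coeff k := by
    have h4 := congrArg (fun p : ℚ[X] => p.coeff k) (hf' i)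
    simp only [Polynomial.coeff_map, Polynomial.coeff_C_mul] at h4
    exact h4
  have h5 : (ℓ : ℚ) ^ (m - 1) * (f i).coeff k = (u : ℚ) := by
    have h6 : (((f' i).coeff k : GaloisRep.ratLocalizedAt ℓ) : ℚ) = (ℓ : ℚ) * (u : ℚ) := by
      rw [hu]; rfl
    rw [h3] at h6
    have h7 : (ℓ : ℚ) ^ m = (ℓ : ℚ) * (ℓ : ℚ) ^ (m - 1) := by
      rw [← pow_succ']
      congr 1
      omega
    rw [h7, mul_assoc] at h6
    exact mul_left_cancel₀ (ell_ne_zeroQ ℓ) h6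
  rw [h5]
  exact u.2

/-- (P1') a finite family of rational polynomials, not all zero, can be scaled by a nonzero
constant to an `ℓ`-integral family which is nonzero mod `ℓ` -/
theorem exists_scale_primitive {n : ℕ} (f : Fin n → ℚ[X]) (hf : ∃ i, f i ≠ 0) :
    ∃ (c : ℚ) (f' : Fin n → (GaloisRep.ratLocalizedAt ℓ)[X]), c ≠ 0 ∧
      (∀ i, (f' i).map (GaloisRep.ratLocalizedAt ℓ).subtype = C c * f i) ∧
      (∃ i, (f' i).map (resHom ℓ) ≠ 0) := by
  classical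
  obtain ⟨i₀, hi₀⟩ := hf
  obtain ⟨k₀, hk₀⟩ : ∃ k, (f i₀).coeff k ≠ 0 := by
    by_contra h
    push Not at h
    exact hi₀ (Polynomial.ext fun k => by rw [h k, Polynomial.coeff_zero])
  obtain ⟨M, hM⟩ := exists_div_pow_not_mem ℓ hk₀
  have hl0 : ((ℓ : ℚ) ^ M) ≠ 0 := pow_ne_zero _ (ell_ne_zeroQ ℓ)
  obtain ⟨m, f', hf', hprim⟩ := exists_scale ℓ (fun i => C (((ℓ : ℚ) ^ M)⁻¹) * f i)
  have hmpos : 0 < m := by
    by_contra h
    have hm0 : m = 0 := by omega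
    apply hM
    have h4 := congrArg (fun p : ℚ[X] => p.coeff k₀) (hf' i₀)
    simp only [Polynomial.coeff_map, Polynomial.coeff_C_mul, hm0, pow_zero, one_mul] at h4
    rw [div_eq_inv_mul, ← h4]
    exact ((f' i₀).coeff k₀).2
  refine ⟨(ℓ : ℚ) ^ m * ((ℓ : ℚ) ^ M)⁻¹, f', mul_ne_zero (pow_ne_zero _ (ell_ne_zeroQ ℓ))
    (inv_ne_zero hl0), fun i => ?_, hprim hmpos⟩
  rw [hf' i, ← mul_assoc, ← C_mul]

/-- (P2) a nonzero rational polynomial can be scaled by a nonzero constant to an `ℓ`-integral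
polynomial which is nonzero mod `ℓ` -/
theorem exists_scale_primitive_one {g : ℚ[X]} (hg : g ≠ 0) :
    ∃ (c : ℚ) (g' : (GaloisRep.ratLocalizedAt ℓ)[X]), c ≠ 0 ∧
      g'.map (GaloisRep.ratLocalizedAt ℓ).subtype = C c * g ∧ g'.map (resHom ℓ) ≠ 0 := by
  obtain ⟨c, f', hc, h1, ⟨i, h2⟩⟩ :=
    exists_scale_primitive ℓ (fun _ : Fin 1 => g) ⟨0, hg⟩
  exact ⟨c, f' i, hc, h1 i, h2⟩

/-! ### Evaluation of polynomials -/

theorem algebraMap_eq_C {R : Type*} [CommRing R] (c : R) :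
    algebraMap R (LaurentSeries R) c = HahnSeries.C c := by
  have h1 : algebraMap R (PowerSeries R) c = PowerSeries.C c := by
    simp
  rw [HahnSeries.algebraMap_apply', h1, HahnSeries.ofPowerSeries_C]

theorem emb_comp_algebraMap :
    (emb ℓ).comp (algebraMap (GaloisRep.ratLocalizedAt ℓ)
      (LaurentSeries (GaloisRep.ratLocalizedAt ℓ))) =
    (algebraMap ℚ (LaurentSeries ℚ)).comp (GaloisRep.ratLocalizedAt ℓ).subtype := by
  ext1 c
  rw [RingHom.comp_apply, RingHom.comp_apply, algebraMap_eq_C, algebraMap_eq_C, emb_C]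
  rfl

theorem redT_comp_algebraMap :
    (redT ℓ).comp (algebraMap (GaloisRep.ratLocalizedAt ℓ)
      (LaurentSeries (GaloisRep.ratLocalizedAt ℓ))) =
    (algebraMap (ZMod ℓ) (LaurentSeries (ZMod ℓ))).comp (resHom ℓ) := by
  ext1 c
  rw [RingHom.comp_apply, RingHom.comp_apply, algebraMap_eq_C, algebraMap_eq_C, redT_C]

theorem emb_aeval (P : LaurentSeries (GaloisRep.ratLocalizedAt ℓ))
    (g : (GaloisRep.ratLocalizedAt ℓ)[X]) :
    emb ℓ (aeval P g) = aeval (emb ℓ P) (g.map (GaloisRep.ratLocalizedAt ℓ).subtype) := by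
  rw [aeval_def, aeval_def, Polynomial.hom_eval₂, Polynomial.eval₂_map, emb_comp_algebraMap]

theorem redT_aeval (P : LaurentSeries (GaloisRep.ratLocalizedAt ℓ))
    (g : (GaloisRep.ratLocalizedAt ℓ)[X]) :
    redT ℓ (aeval P g) = aeval (redT ℓ P) (g.map (resHom ℓ)) := by
  rw [aeval_def, aeval_def, Polynomial.hom_eval₂, Polynomial.eval₂_map, redT_comp_algebraMap]

end Fermat.Agent.S28_QExp
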