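-- Helper for S28 (block QX): the abstract `q`-expansion principle.  Let `F ⊂ ℚ((q))` be a field,
-- `t ∈ F` with `ℓ`-integral expansion whose reduction is transcendental over `𝔽_ℓ`, and let
-- `θ_1, …, θ_n ∈ F` have `ℓ`-integral expansions, span `F` over `ℚ(t)` and have reductions which
-- are linearly independent over `𝔽_ℓ(t̄)`.  Then the integral closure of `ℤ_(ℓ)[t]` in `F` lies in
-- the local ring `O`, and the kernel of its reduction map is generated by `ℓ`.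
import Mathlib
import Fermat.Agent.S28_QExpPoly
import Fermat.Agent.S28_QExpL2

set_option autoImplicit false
set_option linter.unusedSectionVars false
set_option linter.style.haveILetI false

open Polynomial

namespace Fermat.Agent.S28_QExp

variable (ℓ : ℕ) [hℓ : Fact ℓ.Prime]

/-! ### The ring `ℤ_(ℓ)` -/

theorem prime_ell : Prime (ℓ : GaloisRep.ratLocalizedAt ℓ) := by
  refine ⟨ell_ne_zero ℓ, ?_, ?_⟩
  · intro hu
    have h1 : IsUnit (resHom ℓ (ℓ : GaloisRep.ratLocalizedAt ℓ)) := hu.map (resHom ℓ)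
    rw [resHom_ell] at h1
    exact not_isUnit_zero h1
  · intro a b hab
    obtain ⟨c, hc⟩ := hab
    have h1 : resHom ℓ a * resHom ℓ b = 0 := by
      rw [← map_mul, hc, map_mul, resHom_ell, zero_mul]
    rcases mul_eq_zero.1 h1 with h | h
    · left
      obtain ⟨a', ha'⟩ := exists_eq_mul_of_resHom_eq_zero ℓ h
      exact ⟨a', ha'⟩
    · right
      obtain ⟨b', hb'⟩ := exists_eq_mul_of_resHom_eq_zero ℓ h
      exact ⟨b', hb'⟩

theorem isFractionRing_ratLocalizedAt : IsFractionRing (GaloisRep.ratLocalizedAt ℓ) ℚ := by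
  refine IsFractionRing.of_field (GaloisRep.ratLocalizedAt ℓ) ℚ fun z => ?_
  have hmem : ∀ k : ℤ, (k : ℚ) ∈ GaloisRep.ratLocalizedAt ℓ := fun k => intCast_mem _ k
  refine ⟨⟨(z.num : ℚ), hmem _⟩, ⟨((z.den : ℤ) : ℚ), hmem _⟩, ?_⟩
  show z = (z.num : ℚ) / (((z.den : ℤ)) : ℚ)
  push_cast
  exact (Rat.num_div_den z).symm

theorem isIntegrallyClosed_ratLocalizedAt : IsIntegrallyClosed (GaloisRep.ratLocalizedAt ℓ) := by
  classical
  haveI := isFractionRing_ratLocalizedAt ℓ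
  rw [isIntegrallyClosed_iff ℚ]
  intro x hx
  obtain ⟨p, hp, hpx⟩ := hx
  have hex := exists_pow_mul_mem ℓ x
  have hm := Nat.find_spec hex
  have hmin := fun k (hk : k < Nat.find hex) => Nat.find_min hex hk
  set e := Nat.find hex with he_def
  by_cases he : e = 0
  · rw [he, pow_zero, one_mul] at hm
    exact ⟨⟨x, hm⟩, rfl⟩
  · exfalso
    have hdvd := Polynomial.dvd_pow_natDegree_of_eval₂_eq_zero
      (f := algebraMap (GaloisRep.ratLocalizedAt ℓ) ℚ) Subtype.val_injective hp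
      ((ℓ : GaloisRep.ratLocalizedAt ℓ) ^ e) ⟨_, hm⟩ x hpx (by
        show ((((ℓ : GaloisRep.ratLocalizedAt ℓ) ^ e : GaloisRep.ratLocalizedAt ℓ)) : ℚ) * x = _
        push_cast
        rfl)
    have h1 : (ℓ : GaloisRep.ratLocalizedAt ℓ) ∣ (⟨_, hm⟩ : GaloisRep.ratLocalizedAt ℓ) ^ p.natDegree :=
      dvd_trans (dvd_pow_self _ he) hdvd
    have h2 : (ℓ : GaloisRep.ratLocalizedAt ℓ) ∣ (⟨_, hm⟩ : GaloisRep.ratLocalizedAt ℓ) :=
      (prime_ell ℓ).dvd_of_dvd_pow h1
    obtain ⟨u, hu⟩ := h2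
    apply hmin (e - 1) (by omega)
    have h3 : (ℓ : ℚ) ^ e * x = (ℓ : ℚ) * (u : ℚ) := by
      have := congrArg (fun c : GaloisRep.ratLocalizedAt ℓ => (c : ℚ)) hu
      exact this
    have h4 : (ℓ : ℚ) ^ e = (ℓ : ℚ) * (ℓ : ℚ) ^ (e - 1) := by
      rw [← pow_succ']
      congr 1
      omega
    rw [h4, mul_assoc] at h3
    rw [mul_left_cancel₀ (ell_ne_zeroQ ℓ) h3]
    exact u.2

/-! ### Reflection of polynomials -/

theorem aeval_reflect_eq {K B : Type*} [CommRing K] [CommRing B] [Algebra K B] {u u' : B}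
    (h : u * u' = 1) (N : ℕ) (g : K[X]) (hg : g.natDegree ≤ N) :
    aeval u' (reflect N g) = aeval u g * u' ^ N := by
  letI : Invertible u := ⟨u', by rw [mul_comm, h], h⟩
  have h1 := Polynomial.eval₂_reflect_mul_pow (algebraMap K B) u N g hg
  have h2 : aeval u' (reflect N g) * u ^ N = aeval u g := h1
  calc aeval u' (reflect N g) = aeval u' (reflect N g) * (u ^ N * u' ^ N) := by
        rw [← mul_pow, h, one_pow, mul_one]
    _ = aeval u g * u' ^ N := by rw [← mul_assoc, h2]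

/-! ### The hypotheses -/

/-- the hypotheses of the `q`-expansion principle -/
structure Hyp (F : Type) [Field F] [Algebra (GaloisRep.ratLocalizedAt ℓ) F]
    (ι : F →+* LaurentSeries ℚ) (t : F) (tT : LaurentSeries (GaloisRep.ratLocalizedAt ℓ))
    {n : ℕ} (θF : Fin n → F) (θ : Fin n → LaurentSeries (GaloisRep.ratLocalizedAt ℓ)) : Prop where
  ι_alg : ∀ c : GaloisRep.ratLocalizedAt ℓ,
    ι (algebraMap (GaloisRep.ratLocalizedAt ℓ) F c) = HahnSeries.C (c : ℚ)
  ι_t : ι t = emb ℓ tT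
  ι_θ : ∀ i, ι (θF i) = emb ℓ (θ i)
  tr : ∀ g : (ZMod ℓ)[X], aeval (redT ℓ tT) g = 0 → g = 0
  span : ∀ x : F, ∃ (g : ℚ[X]) (f : Fin n → ℚ[X]), g ≠ 0 ∧
    aeval (emb ℓ tT) g * ι x = ∑ i, aeval (emb ℓ tT) (f i) * emb ℓ (θ i)
  ind : ∀ g : Fin n → (ZMod ℓ)[X],
    ∑ i, aeval (redT ℓ tT) (g i) * redT ℓ (θ i) = 0 → ∀ i, g i = 0

variable {ℓ}
variable {F : Type} [Field F] [Algebra (GaloisRep.ratLocalizedAt ℓ) F]
  {ι : F →+* LaurentSeries ℚ} {t : F} {tT : LaurentSeries (GaloisRep.ratLocalizedAt ℓ)}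
  {n : ℕ} {θF : Fin n → F} {θ : Fin n → LaurentSeries (GaloisRep.ratLocalizedAt ℓ)}

theorem ι_comp_algebraMap
    (hι : ∀ c : GaloisRep.ratLocalizedAt ℓ,
      ι (algebraMap (GaloisRep.ratLocalizedAt ℓ) F c) = HahnSeries.C (c : ℚ)) :
    ι.comp (algebraMap (GaloisRep.ratLocalizedAt ℓ) F) =
      (emb ℓ).comp (algebraMap (GaloisRep.ratLocalizedAt ℓ)
        (LaurentSeries (GaloisRep.ratLocalizedAt ℓ))) := by
  ext1 c
  rw [RingHom.comp_apply, RingHom.comp_apply, hι, algebraMap_eq_C, emb_C]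

/-- elements of `ℤ_(ℓ)[S]` have `ℓ`-integral expansions if the elements of `S` do -/
theorem ι_mem_range_of_mem_adjoin
    (hι : ∀ c : GaloisRep.ratLocalizedAt ℓ,
      ι (algebraMap (GaloisRep.ratLocalizedAt ℓ) F c) = HahnSeries.C (c : ℚ))
    (S : Set F) (hS : ∀ s ∈ S, ι s ∈ (emb ℓ).range) {a : F}
    (ha : a ∈ Algebra.adjoin (GaloisRep.ratLocalizedAt ℓ) S) : ι a ∈ (emb ℓ).range := by
  induction ha using Algebra.adjoin_induction with
  | mem y hy => exact hS y hy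
  | algebraMap c => exact ⟨HahnSeries.C c, by rw [hι, emb_C]⟩
  | add y z _ _ hy hz => rw [map_add]; exact add_mem hy hz
  | mul y z _ _ hy hz => rw [map_mul]; exact mul_mem hy hz

namespace Hyp

variable (H : Hyp ℓ F ι t tT θF θ)
include H

theorem ι_aeval (g : (GaloisRep.ratLocalizedAt ℓ)[X]) : ι (aeval t g) = emb ℓ (aeval tT g) := by
  rw [aeval_def, aeval_def, Polynomial.hom_eval₂, Polynomial.hom_eval₂,
    ι_comp_algebraMap H.ι_alg, H.ι_t]

theorem redT_aeval_ne_zero {g : (GaloisRep.ratLocalizedAt ℓ)[X]} (hg : g.map (resHom ℓ) ≠ 0) :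
    redT ℓ (aeval tT g) ≠ 0 := by
  rw [redT_aeval]
  exact fun h => hg (H.tr _ h)

theorem redT_sum (f : Fin n → (GaloisRep.ratLocalizedAt ℓ)[X]) :
    redT ℓ (∑ i, aeval tT (f i) * θ i) =
      ∑ i, aeval (redT ℓ tT) ((f i).map (resHom ℓ)) * redT ℓ (θ i) := by
  rw [map_sum]
  refine Finset.sum_congr rfl fun i _ => ?_
  rw [map_mul, redT_aeval]

theorem redT_sum_ne_zero {f : Fin n → (GaloisRep.ratLocalizedAt ℓ)[X]}
    (hf : ∃ i, (f i).map (resHom ℓ) ≠ 0) : redT ℓ (∑ i, aeval tT (f i) * θ i) ≠ 0 := by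
  rw [H.redT_sum]
  intro h
  obtain ⟨i, hi⟩ := hf
  exact hi (H.ind _ h i)

/-- the expansion of `t` is transcendental over `ℚ` -/
theorem aeval_emb_ne_zero {g : ℚ[X]} (hg : g ≠ 0) : aeval (emb ℓ tT) g ≠ 0 := by
  obtain ⟨c, g', hc, hg', hred⟩ := exists_scale_primitive_one ℓ hg
  intro h
  apply H.redT_aeval_ne_zero hred
  have h1 : emb ℓ (aeval tT g') = 0 := by
    rw [emb_aeval, hg', map_mul, h, mul_zero]
  rw [emb_injective ℓ (h1.trans (map_zero _).symm), map_zero]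

theorem aeval_injective :
    Function.Injective (aeval t : (GaloisRep.ratLocalizedAt ℓ)[X] →ₐ[GaloisRep.ratLocalizedAt ℓ] F) := by
  rw [injective_iff_map_eq_zero]
  intro g hg
  by_contra hg0
  have h1 : g.map (GaloisRep.ratLocalizedAt ℓ).subtype ≠ 0 := by
    rw [Ne, Polynomial.map_eq_zero_iff Subtype.val_injective]
    exact hg0
  apply H.aeval_emb_ne_zero h1
  rw [← emb_aeval, ← H.ι_aeval, hg, map_zero]

/-- (KL) the normal form of an element of `F` -/
theorem exists_normal_form (x : F) :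
    ∃ (m : ℕ) (g : (GaloisRep.ratLocalizedAt ℓ)[X]) (f : Fin n → (GaloisRep.ratLocalizedAt ℓ)[X]),
      g.map (resHom ℓ) ≠ 0 ∧
      (ℓ : LaurentSeries ℚ) ^ m * emb ℓ (aeval tT g) * ι x = emb ℓ (∑ i, aeval tT (f i) * θ i) ∧
      (0 < m → ∃ i, (f i).map (resHom ℓ) ≠ 0) := by
  obtain ⟨g₀, f₀, hg₀, h⟩ := H.span x
  obtain ⟨c, g', hc, hg', hred⟩ := exists_scale_primitive_one ℓ hg₀
  obtain ⟨m, f', hf', hprim⟩ := exists_scale ℓ (fun i => C c * f₀ i)
  refine ⟨m, g', f', hred, ?_, hprim⟩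
  have hpow : algebraMap ℚ (LaurentSeries ℚ) ((ℓ : ℚ) ^ m) = (ℓ : LaurentSeries ℚ) ^ m := by
    rw [map_pow, map_natCast]
  rw [emb_aeval, hg', map_mul, aeval_C, map_sum]
  have h2 : ∀ i, emb ℓ (aeval tT (f' i) * θ i) =
      (ℓ : LaurentSeries ℚ) ^ m * algebraMap ℚ (LaurentSeries ℚ) c *
        (aeval (emb ℓ tT) (f₀ i) * emb ℓ (θ i)) := by
    intro i
    rw [map_mul, emb_aeval, hf', map_mul, map_mul, aeval_C, aeval_C, hpow]
    ring
  rw [Finset.sum_congr rfl fun i _ => h2 i, ← Finset.mul_sum, ← h]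
  ring

/-- (G0) an element with a normal form with `m = 0` lies in `O` -/
theorem mem_Oring_of_normal_form (x : F) (g : (GaloisRep.ratLocalizedAt ℓ)[X])
    (f : Fin n → (GaloisRep.ratLocalizedAt ℓ)[X]) (hg : g.map (resHom ℓ) ≠ 0)
    (h : emb ℓ (aeval tT g) * ι x = emb ℓ (∑ i, aeval tT (f i) * θ i)) : ι x ∈ Oring ℓ :=
  ⟨_, _, H.redT_aeval_ne_zero hg, by rw [mul_comm]; exact h⟩

/-- (G1) an element of `O` has a normal form with `m = 0` -/
theorem exists_normal_form_of_mem (x : F) (hx : ι x ∈ Oring ℓ) :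
    ∃ (g : (GaloisRep.ratLocalizedAt ℓ)[X]) (f : Fin n → (GaloisRep.ratLocalizedAt ℓ)[X]),
      g.map (resHom ℓ) ≠ 0 ∧
      emb ℓ (aeval tT g) * ι x = emb ℓ (∑ i, aeval tT (f i) * θ i) := by
  obtain ⟨m, g, f, hg, h, hprim⟩ := H.exists_normal_form x
  rcases Nat.eq_zero_or_pos m with hm | hm
  · refine ⟨g, f, hg, ?_⟩
    rw [← h, hm, pow_zero, one_mul]
  · exfalso
    obtain ⟨P, Q, hQ, hPQ⟩ := hx
    have h1 : (ℓ : LaurentSeries (GaloisRep.ratLocalizedAt ℓ)) ^ m * aeval tT g * P =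
        (∑ i, aeval tT (f i) * θ i) * Q := by
      apply emb_injective ℓ
      rw [map_mul, map_mul, map_mul, map_pow, emb_ell, ← hPQ, ← h]
      ring
    have h2 := congrArg (redT ℓ) h1
    rw [map_mul, map_mul, map_pow, redT_ell, zero_pow hm.ne', zero_mul, zero_mul, map_mul] at h2
    rcases mul_eq_zero.1 h2.symm with h3 | h3
    · exact H.redT_sum_ne_zero (hprim hm) h3
    · exact hQ h3

/-- (G2) a root of a monic polynomial with `ℓ`-integral coefficients lies in `O` -/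
theorem mem_Oring_of_monic (x : F) (P : (LaurentSeries (GaloisRep.ratLocalizedAt ℓ))[X])
    (hP : P.Monic) (hx : P.eval₂ (emb ℓ) (ι x) = 0) : ι x ∈ Oring ℓ := by
  obtain ⟨m, g, f, hg, h, hprim⟩ := H.exists_normal_form x
  rcases Nat.eq_zero_or_pos m with hm | hm
  · refine H.mem_Oring_of_normal_form x g f hg ?_
    rw [← h, hm, pow_zero, one_mul]
  · exfalso
    have hz : emb ℓ ((ℓ : LaurentSeries (GaloisRep.ratLocalizedAt ℓ)) ^ m * aeval tT g) * ι x =
        emb ℓ (∑ i, aeval tT (f i) * θ i) := by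
      rw [map_mul, map_pow, emb_ell, h]
    have hdvd := Polynomial.dvd_pow_natDegree_of_eval₂_eq_zero (emb_injective ℓ) hP _ _ _ hx hz
    obtain ⟨w, hw⟩ := hdvd
    have h2 := congrArg (redT ℓ) hw
    rw [map_pow, map_mul, map_mul, map_pow, redT_ell, zero_pow hm.ne', zero_mul, zero_mul] at h2
    exact H.redT_sum_ne_zero (hprim hm) (eq_zero_of_pow_eq_zero h2)

/-- (G2') an element which is integral over a subalgebra with `ℓ`-integral expansions
lies in `O` -/
theorem mem_Oring_of_isIntegral (A : Subalgebra (GaloisRep.ratLocalizedAt ℓ) F)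
    (hA : ∀ a ∈ A, ι a ∈ (emb ℓ).range) (x : F) (hx : IsIntegral A x) : ι x ∈ Oring ℓ := by
  obtain ⟨p, hp, hpx⟩ := hx
  have hl : p.map (ι.comp (algebraMap A F)) ∈ Polynomial.lifts (emb ℓ) := by
    rw [Polynomial.lifts_iff_coeff_lifts]
    intro k
    rw [Polynomial.coeff_map]
    exact hA _ (p.coeff k).2
  obtain ⟨q, hq, -, hqm⟩ := Polynomial.lifts_and_natDegree_eq_and_monic hl (hp.map _)
  refine H.mem_Oring_of_monic x q hqm ?_
  rw [← Polynomial.eval_map, hq, Polynomial.eval_map, ← Polynomial.hom_eval₂, hpx, map_zero]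

theorem mem_Oring_of_isIntegral_adjoin (S : Set F) (hS : ∀ s ∈ S, ι s ∈ (emb ℓ).range) (x : F)
    (hx : IsIntegral (Algebra.adjoin (GaloisRep.ratLocalizedAt ℓ) S) x) : ι x ∈ Oring ℓ :=
  H.mem_Oring_of_isIntegral _ (fun _ ha => ι_mem_range_of_mem_adjoin H.ι_alg S hS ha) x hx

theorem mem_Oring_of_isIntegral_singleton (x : F)
    (hx : IsIntegral (Algebra.adjoin (GaloisRep.ratLocalizedAt ℓ) {t}) x) : ι x ∈ Oring ℓ :=
  H.mem_Oring_of_isIntegral_adjoin {t} (fun s hs => by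
    rw [Set.mem_singleton_iff.1 hs, H.ι_t]; exact ⟨tT, rfl⟩) x hx

/-- (c) an element of `F` with expansion in `O` becomes integral over `ℤ_(ℓ)[t]` after
multiplication by a polynomial in `t` which is nonzero mod `ℓ` -/
theorem exists_isIntegral_mul (y : F) (hy : ι y ∈ Oring ℓ) :
    ∃ s : (GaloisRep.ratLocalizedAt ℓ)[X], s.map (resHom ℓ) ≠ 0 ∧
      IsIntegral (Algebra.adjoin (GaloisRep.ratLocalizedAt ℓ) {t}) (aeval t s * y) := by
  classical
  have hyθ : ∀ i, ι (y * θF i) ∈ Oring ℓ := fun i => by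
    rw [map_mul, H.ι_θ]
    exact mul_mem hy (emb_mem_Oring ℓ _)
  choose g f hg hgf using fun i => H.exists_normal_form_of_mem (y * θF i) (hyθ i)
  have key : ∀ i, aeval t (g i) * (y * θF i) = ∑ j, aeval t (f i j) * θF j := by
    intro i
    apply ι.injective
    rw [map_mul, H.ι_aeval, hgf i, map_sum, map_sum]
    refine Finset.sum_congr rfl fun j _ => ?_
    rw [map_mul, map_mul, H.ι_aeval, H.ι_θ]
  set N : Submodule (Algebra.adjoin (GaloisRep.ratLocalizedAt ℓ) {t}) F :=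
    Submodule.span (Algebra.adjoin (GaloisRep.ratLocalizedAt ℓ) {t}) (Set.range θF) with hN
  have hmulN : ∀ a ∈ Algebra.adjoin (GaloisRep.ratLocalizedAt ℓ) {t}, ∀ z ∈ N, a * z ∈ N :=
    fun a ha z hz => N.smul_mem ⟨a, ha⟩ hz
  have haeval : ∀ p : (GaloisRep.ratLocalizedAt ℓ)[X],
      aeval t p ∈ Algebra.adjoin (GaloisRep.ratLocalizedAt ℓ) {t} :=
    fun p => Polynomial.aeval_mem_adjoin_singleton _ _
  have hθN : ∀ i, θF i ∈ N := fun i => Submodule.subset_span ⟨i, rfl⟩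
  refine ⟨∏ i, g i, ?_, ?_⟩
  · rw [Polynomial.map_prod]
    exact Finset.prod_ne_zero_iff.2 fun i _ => hg i
  · have hN0 : N ≠ ⊥ := by
      intro h0
      have hθ0 : ∀ i, θ i = 0 := by
        intro i
        have h1 : θF i = 0 := by
          have := hθN i
          rw [h0] at this
          exact (Submodule.mem_bot _).1 this
        apply emb_injective ℓ
        rw [← H.ι_θ, h1, map_zero, map_zero]
      obtain ⟨g1, f1, hg1, h1⟩ := H.exists_normal_form_of_mem 1 (by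
        rw [map_one]; exact one_mem _)
      apply H.redT_aeval_ne_zero hg1
      have h2 : emb ℓ (aeval tT g1) = 0 := by
        rw [map_one, mul_one] at h1
        rw [h1]
        have : ∑ i, aeval tT (f1 i) * θ i = 0 :=
          Finset.sum_eq_zero fun i _ => by rw [hθ0 i, mul_zero]
        rw [this, map_zero]
      rw [emb_injective ℓ (h2.trans (map_zero _).symm), map_zero]
    have hNfg : N.FG := Submodule.fg_span (Set.finite_range θF)
    refine isIntegral_of_smul_mem_submodule N hN0 hNfg _ ?_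
    intro z hz
    induction hz using Submodule.span_induction with
    | mem z hz =>
      obtain ⟨i, rfl⟩ := hz
      have h1 : (aeval t (∏ i, g i) * y) • θF i =
          aeval t (∏ j ∈ Finset.univ.erase i, g j) * (aeval t (g i) * (y * θF i)) := by
        rw [← Finset.mul_prod_erase Finset.univ g (Finset.mem_univ i), map_mul, smul_eq_mul]
        ring
      rw [h1, key i]
      refine hmulN _ (haeval _) _ (Submodule.sum_mem _ fun j _ => ?_)
      exact hmulN _ (haeval _) _ (hθN j)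
    | zero => rw [smul_zero]; exact zero_mem _
    | add z w _ _ hz hw => rw [smul_add]; exact add_mem hz hw
    | smul a z _ hz =>
      rw [smul_comm]
      exact N.smul_mem a hz

/-- (d) the kernel of reduction on the integral closure of `ℤ_(ℓ)[t]` is generated by `ℓ` -/
theorem exists_eq_mul (x : F)
    (hx : IsIntegral (Algebra.adjoin (GaloisRep.ratLocalizedAt ℓ) {t}) x)
    (hmem : ι x ∈ Oring ℓ) (hred : red ℓ ⟨ι x, hmem⟩ = 0) :
    ∃ y : F, IsIntegral (Algebra.adjoin (GaloisRep.ratLocalizedAt ℓ) {t}) y ∧ x = (ℓ : F) * y := by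
  obtain ⟨y', hy', hxy'⟩ := exists_eq_mul_of_red_eq_zero ℓ hmem hred
  have hℓF : ι (ℓ : F) = (ℓ : LaurentSeries ℚ) := map_natCast ι ℓ
  have hℓF0 : (ℓ : F) ≠ 0 := fun h => ell_ne_zero' ℓ (by rw [← hℓF, h, map_zero])
  have hxy : x = (ℓ : F) * (x / (ℓ : F)) := (mul_div_cancel₀ x hℓF0).symm
  have hιy : ι (x / (ℓ : F)) = y' := by
    have h1 : (ℓ : LaurentSeries ℚ) * ι (x / (ℓ : F)) = (ℓ : LaurentSeries ℚ) * y' := by
      rw [← hxy', ← hℓF, ← map_mul, ← hxy]
    exact mul_left_cancel₀ (ell_ne_zero' ℓ) h1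
  have hyO : ι (x / (ℓ : F)) ∈ Oring ℓ := hιy ▸ hy'
  obtain ⟨s, hs, hsy⟩ := H.exists_isIntegral_mul (x / (ℓ : F)) hyO
  refine ⟨x / (ℓ : F), ?_, hxy⟩
  haveI := isIntegrallyClosed_ratLocalizedAt ℓ
  refine isIntegral_adjoin_of_isIntegral_mul H.aeval_injective (prime_ell ℓ) (s := s) ?_ ?_ hsy
  · rintro ⟨s', rfl⟩
    apply hs
    rw [Polynomial.map_mul, Polynomial.map_C, resHom_ell, C_0, zero_mul]
  · have h3 : algebraMap (GaloisRep.ratLocalizedAt ℓ) F (ℓ : GaloisRep.ratLocalizedAt ℓ) = (ℓ : F) :=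
      map_natCast _ ℓ
    rw [h3, ← hxy]
    exact hx

/-- the reduction map on a subalgebra of elements integral over `ℤ_(ℓ)[S]`, where the elements
of `S` have `ℓ`-integral expansions -/
noncomputable def redOn (S : Set F) (hS : ∀ s ∈ S, ι s ∈ (emb ℓ).range)
    (B : Subalgebra (GaloisRep.ratLocalizedAt ℓ) F)
    (hB : ∀ x ∈ B, IsIntegral (Algebra.adjoin (GaloisRep.ratLocalizedAt ℓ) S) x) :
    B →+* LaurentSeries (ZMod ℓ) :=
  (red ℓ).comp ((ι.comp B.val.toRingHom).codRestrict (Oring ℓ)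
    (fun a => H.mem_Oring_of_isIntegral_adjoin S hS (a : F) (hB a a.2)))

theorem redOn_apply (S : Set F) (hS : ∀ s ∈ S, ι s ∈ (emb ℓ).range)
    (B : Subalgebra (GaloisRep.ratLocalizedAt ℓ) F)
    (hB : ∀ x ∈ B, IsIntegral (Algebra.adjoin (GaloisRep.ratLocalizedAt ℓ) S) x) (a : B) :
    H.redOn S hS B hB a =
      red ℓ ⟨ι (a : F), H.mem_Oring_of_isIntegral_adjoin S hS (a : F) (hB a a.2)⟩ := rfl

/-- the `q`-expansion principle: the integral closure `B` of `ℤ_(ℓ)[t]` in `F` has a ring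
homomorphism to `𝔽_ℓ((q))` whose kernel is generated by `ℓ` -/
theorem exists_reduction (B : Subalgebra (GaloisRep.ratLocalizedAt ℓ) F)
    (hB : ∀ x, x ∈ B ↔ IsIntegral (Algebra.adjoin (GaloisRep.ratLocalizedAt ℓ) {t}) x) :
    ∃ ρ : B →+* LaurentSeries (ZMod ℓ), ∀ a : B, ρ a = 0 → ∃ b : B, a = (ℓ : B) * b := by
  have hS : ∀ s ∈ ({t} : Set F), ι s ∈ (emb ℓ).range := fun s hs => by
    rw [Set.mem_singleton_iff.1 hs, H.ι_t]; exact ⟨tT, rfl⟩
  refine ⟨H.redOn {t} hS B (fun x hx => (hB x).1 hx), fun a ha => ?_⟩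
  rw [redOn_apply] at ha
  obtain ⟨y, hy, hxy⟩ := H.exists_eq_mul (a : F) ((hB _).1 a.2) _ ha
  refine ⟨⟨y, (hB y).2 hy⟩, Subtype.ext ?_⟩
  rw [hxy]
  push_cast
  rfl

/-- the hypotheses are stable under `t ↦ t⁻¹` -/
theorem inv (tT' : LaurentSeries (GaloisRep.ratLocalizedAt ℓ)) (h1 : tT * tT' = 1) :
    Hyp ℓ F ι t⁻¹ tT' θF θ := by
  have hU : emb ℓ tT * emb ℓ tT' = 1 := by rw [← map_mul, h1, map_one]
  have hU' : emb ℓ tT' * emb ℓ tT = 1 := by rw [mul_comm, hU]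
  have hu : redT ℓ tT * redT ℓ tT' = 1 := by rw [← map_mul, h1, map_one]
  have hu' : redT ℓ tT' * redT ℓ tT = 1 := by rw [mul_comm, hu]
  have hu0 : redT ℓ tT ≠ 0 := left_ne_zero_of_mul_eq_one hu
  have hU0 : emb ℓ tT' ≠ 0 := right_ne_zero_of_mul_eq_one hU
  refine ⟨H.ι_alg, ?_, H.ι_θ, ?_, ?_, ?_⟩
  · rw [map_inv₀, H.ι_t]
    exact inv_eq_of_mul_eq_one_right hU
  · intro g hg
    have h2 := aeval_reflect_eq hu' g.natDegree g le_rfl
    rw [hg, zero_mul] at h2
    have h3 := H.tr _ h2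
    rwa [Polynomial.reflect_eq_zero_iff] at h3
  · intro x
    obtain ⟨g₀, f₀, hg₀, h⟩ := H.span x
    set D : ℕ := g₀.natDegree + ∑ i, (f₀ i).natDegree with hD
    have hDg : g₀.natDegree ≤ D := Nat.le_add_right _ _
    have hDf : ∀ i, (f₀ i).natDegree ≤ D := fun i =>
      le_trans (Finset.single_le_sum (f := fun i => (f₀ i).natDegree)
        (fun _ _ => Nat.zero_le _) (Finset.mem_univ i)) (Nat.le_add_left _ _)
    refine ⟨reflect D g₀, fun i => reflect D (f₀ i), ?_, ?_⟩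
    · rw [Ne, Polynomial.reflect_eq_zero_iff]; exact hg₀
    · rw [aeval_reflect_eq hU D g₀ hDg]
      have h4 : ∀ i, aeval (emb ℓ tT') (reflect D (f₀ i)) * emb ℓ (θ i) =
          emb ℓ tT' ^ D * (aeval (emb ℓ tT) (f₀ i) * emb ℓ (θ i)) := by
        intro i
        rw [aeval_reflect_eq hU D (f₀ i) (hDf i)]
        ring
      rw [Finset.sum_congr rfl fun i _ => h4 i, ← Finset.mul_sum, ← h]
      ring
  · intro g hg
    set D : ℕ := ∑ i, (g i).natDegree with hD
    have hDg : ∀ i, (g i).natDegree ≤ D := fun i =>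
      Finset.single_le_sum (f := fun i => (g i).natDegree)
        (fun _ _ => Nat.zero_le _) (Finset.mem_univ i)
    have h4 : ∀ i, aeval (redT ℓ tT) (reflect D (g i)) * redT ℓ (θ i) =
        redT ℓ tT ^ D * (aeval (redT ℓ tT') (g i) * redT ℓ (θ i)) := by
      intro i
      rw [aeval_reflect_eq hu' D (g i) (hDg i)]
      ring
    have h5 : ∑ i, aeval (redT ℓ tT) (reflect D (g i)) * redT ℓ (θ i) = 0 := by
      rw [Finset.sum_congr rfl fun i _ => h4 i, ← Finset.mul_sum, hg, mul_zero]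
    intro i
    have h6 := H.ind _ h5 i
    rwa [Polynomial.reflect_eq_zero_iff] at h6

end Hyp

end Fermat.Agent.S28_QExp
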