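-- Helper for S28 (block Tensor, helper6): if a `ℤ_(ℓ)`-algebra `A` has a ring hom
-- `ρ : A → 𝔽_ℓ((q))` whose kernel is contained in `ℓ A`, then `A ⊗ K` embeds in `K((q))`
-- for every field `K` of characteristic `ℓ`; in particular it is a domain.
import Mathlib
import Fermat.Prelude.Def_GaloisRep_Flat
import Fermat.Prelude.Def_ModularCurve_LaurentCoeff

set_option autoImplicit false

open TensorProduct

noncomputable section

namespace Fermat.Agent.S28_Tensor

variable {ℓ : ℕ}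

/-- Ring homomorphisms out of `ℤ_(ℓ)` are unique. -/
theorem ratLoc_ringHom_ext {R : Type*} [Ring R]
    (f g : ↥(GaloisRep.ratLocalizedAt ℓ) →+* R) : f = g := by
  ext z
  have hden0 : (z : ℚ).den ≠ 0 := (z : ℚ).den_nz
  -- the denominator is a unit of `ℤ_(ℓ)`
  have hmem : ((z : ℚ).den : ℚ)⁻¹ ∈ GaloisRep.ratLocalizedAt ℓ := by
    show (((z : ℚ).den : ℚ)⁻¹).den.Coprime ℓ
    rw [Rat.inv_natCast_den, if_neg hden0]
    exact z.2
  have hunit : IsUnit (((z : ℚ).den : ℕ) : ↥(GaloisRep.ratLocalizedAt ℓ)) := by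
    refine IsUnit.of_mul_eq_one ⟨_, hmem⟩ (Subtype.ext ?_)
    show (((z : ℚ).den : ℕ) : ℚ) * (((z : ℚ).den : ℚ)⁻¹) = 1
    exact mul_inv_cancel₀ (by exact_mod_cast hden0)
  have hz : z * (((z : ℚ).den : ℕ) : ↥(GaloisRep.ratLocalizedAt ℓ))
      = (((z : ℚ).num : ℤ) : ↥(GaloisRep.ratLocalizedAt ℓ)) := by
    apply Subtype.ext
    show (z : ℚ) * (((z : ℚ).den : ℕ) : ℚ) = (((z : ℚ).num : ℤ) : ℚ)
    exact Rat.mul_den_eq_num _
  have h1 : f z * f (((z : ℚ).den : ℕ) : ↥(GaloisRep.ratLocalizedAt ℓ))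
      = g z * f (((z : ℚ).den : ℕ) : ↥(GaloisRep.ratLocalizedAt ℓ)) := by
    rw [← map_mul, hz, map_intCast, map_natCast, ← map_natCast g, ← map_mul, hz, map_intCast]
  exact (hunit.map f).mul_left_injective h1

section Lift

variable [hℓ : Fact ℓ.Prime] (A : Type) [CommRing A] [Algebra ↥(GaloisRep.ratLocalizedAt ℓ) A]
  (K : Type) [Field K] [CharP K ℓ] [Algebra ↥(GaloisRep.ratLocalizedAt ℓ) K]
  (ρ : A →+* LaurentSeries (ZMod ℓ))

/-- coefficient extension `𝔽_ℓ((q)) → K((q))` -/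
def castK : LaurentSeries (ZMod ℓ) →+* LaurentSeries K :=
  ModularCurve.coeffMap (ZMod.castHom (dvd_refl ℓ) K)

theorem castK_coeff (x : LaurentSeries (ZMod ℓ)) (n : ℤ) :
    (castK (ℓ := ℓ) K x).coeff n = ZMod.castHom (dvd_refl ℓ) K (x.coeff n) := rfl

/-- the comparison map `A ⊗ K → K((q))`, `a ⊗ c ↦ c · ρ(a)` -/
def psiHom : A ⊗[↥(GaloisRep.ratLocalizedAt ℓ)] K →+* LaurentSeries K :=
  haveI := IsScalarTower.of_algebraMap_eq (R := ↥(GaloisRep.ratLocalizedAt ℓ))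
    (S := ↥(GaloisRep.ratLocalizedAt ℓ)) (A := LaurentSeries K) (fun _ => rfl)
  (Algebra.TensorProduct.lift
    (AlgHom.mk ((castK (ℓ := ℓ) K).comp ρ) (fun z =>
      congrFun (congrArg DFunLike.coe (ratLoc_ringHom_ext
        (((castK (ℓ := ℓ) K).comp ρ).comp (algebraMap ↥(GaloisRep.ratLocalizedAt ℓ) A))
        (algebraMap ↥(GaloisRep.ratLocalizedAt ℓ) (LaurentSeries K)))) z) :
      A →ₐ[↥(GaloisRep.ratLocalizedAt ℓ)] LaurentSeries K)
    (AlgHom.mk (algebraMap K (LaurentSeries K)) (fun z =>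
      congrFun (congrArg DFunLike.coe (ratLoc_ringHom_ext
        ((algebraMap K (LaurentSeries K)).comp (algebraMap ↥(GaloisRep.ratLocalizedAt ℓ) K))
        (algebraMap ↥(GaloisRep.ratLocalizedAt ℓ) (LaurentSeries K)))) z) :
      K →ₐ[↥(GaloisRep.ratLocalizedAt ℓ)] LaurentSeries K)
    (fun _ _ => Commute.all _ _)).toRingHom

theorem psiHom_tmul (a : A) (c : K) :
    psiHom A K ρ (a ⊗ₜ[↥(GaloisRep.ratLocalizedAt ℓ)] c)
      = castK (ℓ := ℓ) K (ρ a) * algebraMap K (LaurentSeries K) c := by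
  haveI := IsScalarTower.of_algebraMap_eq (R := ↥(GaloisRep.ratLocalizedAt ℓ))
    (S := ↥(GaloisRep.ratLocalizedAt ℓ)) (A := LaurentSeries K) (fun _ => rfl)
  exact Algebra.TensorProduct.lift_tmul _ _ _ a c

theorem coeff_mul_algebraMap (x : LaurentSeries K) (c : K) (n : ℤ) :
    (x * algebraMap K (LaurentSeries K) c).coeff n = x.coeff n * c := by
  rw [ModularCurve.algebraMap_laurentSeries_eq_single, mul_comm]
  show (HahnSeries.C c * x).coeff n = x.coeff n * c
  rw [HahnSeries.C_mul_eq_smul, HahnSeries.coeff_smul, smul_eq_mul, mul_comm]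

end Lift

section Main

variable [hℓ : Fact ℓ.Prime] (A : Type) [CommRing A] [Algebra ↥(GaloisRep.ratLocalizedAt ℓ) A]
  (K : Type) [Field K] [CharP K ℓ] [Algebra ↥(GaloisRep.ratLocalizedAt ℓ) K]

theorem natCast_mul_tmul (n : ℕ) (a : A) (c : K) :
    ((n : A) * a) ⊗ₜ[↥(GaloisRep.ratLocalizedAt ℓ)] c
      = a ⊗ₜ[↥(GaloisRep.ratLocalizedAt ℓ)] ((n : K) * c) := by
  have h1 : (n : A) * a = (n : ↥(GaloisRep.ratLocalizedAt ℓ)) • a := by
    rw [Algebra.smul_def, map_natCast]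
  have h2 : (n : K) * c = (n : ↥(GaloisRep.ratLocalizedAt ℓ)) • c := by
    rw [Algebra.smul_def, map_natCast]
  rw [h1, h2, TensorProduct.smul_tmul]

/-- The comparison map is injective as soon as `ker ρ ⊆ ℓ A`. -/
theorem psiHom_injective (ρ : A →+* LaurentSeries (ZMod ℓ))
    (hρ : ∀ a : A, ρ a = 0 → ∃ b : A, a = (ℓ : A) * b) :
    Function.Injective (psiHom A K ρ) := by
  classical
  letI : Algebra (ZMod ℓ) K := ZMod.algebra K ℓ
  let b := Module.Basis.ofVectorSpace (ZMod ℓ) K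
  have hsmul : ∀ (t : ZMod ℓ) (c : K), t • c = ((t.val : ℕ) : K) * c := by
    intro t c
    show (ZMod.cast t : K) * c = _
    rw [ZMod.natCast_val]
  have hsmul' : ∀ (t : ZMod ℓ) (c : K), t • c = ZMod.castHom (dvd_refl ℓ) K t * c :=
    fun t c => rfl
  -- every element is a combination of `a ⊗ b i`
  have hrepr : ∀ x : A ⊗[↥(GaloisRep.ratLocalizedAt ℓ)] K, ∃ f : _ →₀ A,
      x = f.sum (fun i a => a ⊗ₜ[↥(GaloisRep.ratLocalizedAt ℓ)] (b i)) := by
    intro x
    induction x using TensorProduct.induction_on with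
    | zero => exact ⟨0, by simp⟩
    | tmul a c =>
      refine ⟨(b.repr c).mapRange (fun t => ((t.val : ℕ) : A) * a) (by simp), ?_⟩
      rw [Finsupp.sum_mapRange_index (by intro i; exact zero_tmul _ _)]
      conv_lhs => rw [← b.linearCombination_repr c, Finsupp.linearCombination_apply]
      rw [Finsupp.sum, tmul_sum, Finsupp.sum]
      refine Finset.sum_congr rfl fun i _ => ?_
      rw [hsmul, natCast_mul_tmul]
    | add x y hx hy =>
      obtain ⟨f, rfl⟩ := hx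
      obtain ⟨g, rfl⟩ := hy
      refine ⟨f + g, ?_⟩
      rw [Finsupp.sum_add_index' (by intro i; exact zero_tmul _ _)
        (by intro i a a'; exact add_tmul _ _ _)]
  rw [injective_iff_map_eq_zero]
  intro x hx
  obtain ⟨f, rfl⟩ := hrepr x
  rw [Finsupp.sum] at hx ⊢
  rw [map_sum] at hx
  have hcoef : ∀ n : ℤ, ∑ i ∈ f.support, ((ρ (f i)).coeff n) • b i = 0 := by
    intro n
    have h1 := congrArg (fun y : LaurentSeries K => y.coeff n) hx
    simp only [HahnSeries.coeff_sum, HahnSeries.coeff_zero] at h1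
    rw [← h1]
    refine Finset.sum_congr rfl fun i _ => ?_
    rw [psiHom_tmul, coeff_mul_algebraMap, castK_coeff, hsmul']
  have hzero : ∀ i ∈ f.support, ρ (f i) = 0 := by
    intro i hi
    apply HahnSeries.ext
    funext n
    exact linearIndependent_iff'.1 b.linearIndependent f.support
      (fun i => (ρ (f i)).coeff n) (hcoef n) i hi
  refine Finset.sum_eq_zero fun i hi => ?_
  obtain ⟨a', ha'⟩ := hρ (f i) (hzero i hi)
  have h2 : ((ℓ : ℕ) : A) * a' = f i := ha'.symm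
  rw [← h2, natCast_mul_tmul, CharP.cast_eq_zero K ℓ, zero_mul, tmul_zero]

/-- **Block Tensor.** If `ρ : A → 𝔽_ℓ((q))` has kernel contained in `ℓ A`, then `A ⊗ K` is a
domain for every field `K` of characteristic `ℓ`. -/
theorem isDomain_tensor_of_ker {ℓ : ℕ} [Fact ℓ.Prime] (A : Type) [CommRing A]
    [Algebra ↥(GaloisRep.ratLocalizedAt ℓ) A] (K : Type) [Field K] [CharP K ℓ]
    [Algebra ↥(GaloisRep.ratLocalizedAt ℓ) K] (ρ : A →+* LaurentSeries (ZMod ℓ))
    (hρ : ∀ a : A, ρ a = 0 → ∃ b : A, a = (ℓ : A) * b) :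
    IsDomain (TensorProduct ↥(GaloisRep.ratLocalizedAt ℓ) A K) :=
  Function.Injective.isDomain (psiHom A K ρ) (psiHom_injective A K ρ hρ)

/-- Any ring hom `A → 𝔽_ℓ((q))` makes `A ⊗ K` nontrivial. -/
theorem nontrivial_tensor_of_hom {ℓ : ℕ} [Fact ℓ.Prime] (A : Type) [CommRing A]
    [Algebra ↥(GaloisRep.ratLocalizedAt ℓ) A] (K : Type) [Field K] [CharP K ℓ]
    [Algebra ↥(GaloisRep.ratLocalizedAt ℓ) K] (ρ : A →+* LaurentSeries (ZMod ℓ)) :
    Nontrivial (TensorProduct ↥(GaloisRep.ratLocalizedAt ℓ) A K) :=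
  (psiHom A K ρ).domain_nontrivial

end Main

end Fermat.Agent.S28_Tensor

end
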