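-- Helper for S28 (block QX): the `q`-expansion principle for the Igusa charts.  Given the lower
-- bound `ψ(N)` for the degree mod `ℓ` (family form), the charts `chartAlgFin`, `chartAlgInf` have
-- ring homomorphisms to `𝔽_ℓ((q))` with kernel generated by `ℓ`, hence domain fibres.
import Mathlib
import Fermat.Agent.S28_QExpCore
import Fermat.Agent.S28_Deg0
import Fermat.Agent.S28_Desc
import Fermat.Agent.S28_Tensor
import Fermat.Prelude.Def_ModularCurve_IgusaScheme
import Fermat.Prelude.Def_ModularCurve_X0ModL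

set_option autoImplicit false
set_option linter.unusedSectionVars false
set_option linter.style.haveILetI false

open Polynomial ModularCurve ModularCurve.IgusaScheme

namespace Fermat.Agent.S28_QExp

variable (N : ℕ) [NeZero N] (ℓ : ℕ) [hℓ : Fact ℓ.Prime]

/-- the inclusion of the full modular function field in `ℚ((q))` -/
noncomputable def incl : ↥(modularFunctionFieldFull N) →+* LaurentSeries ℚ :=
  algebraMap ↥(modularFunctionFieldFull N) (LaurentSeries ℚ)

theorem incl_apply (x : ↥(modularFunctionFieldFull N)) : incl N x = (x : LaurentSeries ℚ) := rfl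

theorem incl_algebraMap (c : GaloisRep.ratLocalizedAt ℓ) :
    incl N (algebraMap (GaloisRep.ratLocalizedAt ℓ) ↥(modularFunctionFieldFull N) c) =
      HahnSeries.C (c : ℚ) := by
  rw [← algebraMap_eq_C]
  show ((algebraMap ℚ ↥(modularFunctionFieldFull N) (c : ℚ) : ↥(modularFunctionFieldFull N)) :
    LaurentSeries ℚ) = _
  simp

theorem emb_jqModC : emb ℓ (jqModC (GaloisRep.ratLocalizedAt ℓ)) = jq :=
  coeffMap_jqModC _

theorem redT_jqModC : redT ℓ (jqModC (GaloisRep.ratLocalizedAt ℓ)) = jqModC (ZMod ℓ) :=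
  coeffMap_jqModC _

/-- the inverse of the `j`-expansion over any commutative ring -/
noncomputable def jqInvC (R : Type*) [CommRing R] : LaurentSeries R :=
  HahnSeries.single (1 : ℤ) 1 *
    HahnSeries.ofPowerSeries ℤ R (PowerSeries.invOfUnit (jNum.map (Int.castRingHom R)) 1)

theorem jqModC_mul_jqInvC (R : Type*) [CommRing R] : jqModC R * jqInvC R = 1 := by
  have h1 : PowerSeries.constantCoeff (jNum.map (Int.castRingHom R)) = ((1 : Rˣ) : R) := by
    rw [← PowerSeries.coeff_zero_eq_constantCoeff_apply, PowerSeries.coeff_map,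
      PowerSeries.coeff_zero_eq_constantCoeff_apply, constantCoeff_jNum]
    simp
  have h2 := PowerSeries.mul_invOfUnit (jNum.map (Int.castRingHom R)) 1 h1
  have h3 : jqModC R * jqInvC R =
      (HahnSeries.single (-1 : ℤ) (1 : R) * HahnSeries.single (1 : ℤ) (1 : R)) *
        (HahnSeries.ofPowerSeries ℤ R (jNum.map (Int.castRingHom R)) *
          HahnSeries.ofPowerSeries ℤ R
            (PowerSeries.invOfUnit (jNum.map (Int.castRingHom R)) 1)) := by
    rw [jqModC, jqInvC]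
    ring
  rw [h3, ← map_mul, h2, RingHom.map_one, mul_one, HahnSeries.single_mul_single]
  simp

/-- lifting elements of `𝔽_ℓ[j(q^d) : d ∣ N]` to `ℓ`-integral series in the full function field -/
theorem exists_lift {w : LaurentSeries (ZMod ℓ)}
    (hw : w ∈ Algebra.adjoin (ZMod ℓ) (divisorExpansionsC (ZMod ℓ) N)) :
    ∃ θ : LaurentSeries (GaloisRep.ratLocalizedAt ℓ),
      redT ℓ θ = w ∧ emb ℓ θ ∈ modularFunctionFieldFull N := by
  induction hw using Algebra.adjoin_induction with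
  | mem y hy =>
    obtain ⟨d, hd0, hd, rfl⟩ := hy
    refine ⟨qExpand (GaloisRep.ratLocalizedAt ℓ) d (jqModC (GaloisRep.ratLocalizedAt ℓ)), ?_, ?_⟩
    · show coeffMap _ _ = _
      rw [coeffMap_qExpand, coeffMap_jqModC]
    · have h1 : emb ℓ (qExpand (GaloisRep.ratLocalizedAt ℓ) d
          (jqModC (GaloisRep.ratLocalizedAt ℓ))) = qExpand ℚ d jq := by
        show coeffMap _ _ = _
        rw [coeffMap_qExpand, coeffMap_jqModC]
        rfl
      rw [h1]
      exact jqd_mem_full N hd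
  | algebraMap a =>
    obtain ⟨c, rfl⟩ := resHom_surjective ℓ a
    refine ⟨HahnSeries.C c, ?_, ?_⟩
    · rw [redT_C, algebraMap_eq_C]
    · rw [emb_C, ← algebraMap_eq_C]
      exact IntermediateField.algebraMap_mem _ _
  | add y z _ _ hy hz =>
    obtain ⟨θ₁, h1, h1'⟩ := hy
    obtain ⟨θ₂, h2, h2'⟩ := hz
    exact ⟨θ₁ + θ₂, by rw [map_add, h1, h2], by rw [map_add]; exact add_mem h1' h2'⟩
  | mul y z _ _ hy hz =>
    obtain ⟨θ₁, h1, h1'⟩ := hy
    obtain ⟨θ₂, h2, h2'⟩ := hz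
    exact ⟨θ₁ * θ₂, by rw [map_mul, h1, h2], by rw [map_mul]; exact mul_mem h1' h2'⟩

/-- independence mod `ℓ` implies independence over `ℚ` -/
theorem indQ_of_ind (tT : LaurentSeries (GaloisRep.ratLocalizedAt ℓ)) {n : ℕ}
    (θ : Fin n → LaurentSeries (GaloisRep.ratLocalizedAt ℓ))
    (hind : ∀ g : Fin n → (ZMod ℓ)[X],
      ∑ i, aeval (redT ℓ tT) (g i) * redT ℓ (θ i) = 0 → ∀ i, g i = 0)
    (g : Fin n → ℚ[X]) (h : ∑ i, aeval (emb ℓ tT) (g i) * emb ℓ (θ i) = 0) : ∀ i, g i = 0 := by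
  by_contra hne
  push Not at hne
  obtain ⟨c, g', hc, hg', ⟨i, hi⟩⟩ := exists_scale_primitive ℓ g hne
  have h1 : emb ℓ (∑ i, aeval tT (g' i) * θ i) = 0 := by
    rw [map_sum]
    have h2 : ∀ i, emb ℓ (aeval tT (g' i) * θ i) =
        algebraMap ℚ (LaurentSeries ℚ) c * (aeval (emb ℓ tT) (g i) * emb ℓ (θ i)) := by
      intro i
      rw [map_mul, emb_aeval, hg', map_mul, aeval_C]
      ring
    rw [Finset.sum_congr rfl fun i _ => h2 i, ← Finset.mul_sum, h, mul_zero]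
  have h3 : ∑ i, aeval tT (g' i) * θ i = 0 := emb_injective ℓ (h1.trans (map_zero _).symm)
  have h4 := congrArg (redT ℓ) h3
  rw [map_sum, map_zero] at h4
  have h5 : ∑ i, aeval (redT ℓ tT) ((g' i).map (resHom ℓ)) * redT ℓ (θ i) = 0 := by
    rw [← h4]
    refine Finset.sum_congr rfl fun i _ => ?_
    rw [map_mul, redT_aeval]
  exact hi (hind _ h5 i)

/-- the hypotheses of the `q`-expansion principle hold for the full modular function field with
`t = j`, given the lower bound `ψ(N)` for the degree mod `ℓ` -/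
theorem exists_hyp
    (hv : ∃ v : Fin (dedekindPsi N) → LaurentSeries (ZMod ℓ),
      (∀ i, v i ∈ Algebra.adjoin (ZMod ℓ) (divisorExpansionsC (ZMod ℓ) N)) ∧
      ∀ g : Fin (dedekindPsi N) → (ZMod ℓ)[X],
        ∑ i, aeval (jqModC (ZMod ℓ)) (g i) * v i = 0 → ∀ i, g i = 0) :
    ∃ (θF : Fin (dedekindPsi N) → ↥(modularFunctionFieldFull N))
      (θ : Fin (dedekindPsi N) → LaurentSeries (GaloisRep.ratLocalizedAt ℓ)),
      Hyp ℓ ↥(modularFunctionFieldFull N) (incl N) (jFull N)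
        (jqModC (GaloisRep.ratLocalizedAt ℓ)) θF θ := by
  obtain ⟨v, hv1, hv2⟩ := hv
  choose θ hθ1 hθ2 using fun i => exists_lift N ℓ (hv1 i)
  have hind : ∀ g : Fin (dedekindPsi N) → (ZMod ℓ)[X],
      ∑ i, aeval (redT ℓ (jqModC (GaloisRep.ratLocalizedAt ℓ))) (g i) * redT ℓ (θ i) = 0 →
        ∀ i, g i = 0 := by
    intro g hg
    apply hv2 g
    rw [← hg]
    refine Finset.sum_congr rfl fun i _ => ?_
    rw [hθ1 i, redT_jqModC]
  refine ⟨fun i => ⟨emb ℓ (θ i), hθ2 i⟩, θ, ⟨incl_algebraMap N ℓ, ?_, fun i => rfl, ?_, ?_, hind⟩⟩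
  · rw [emb_jqModC]; rfl
  · intro g hg
    rw [redT_jqModC] at hg
    exact (injective_iff_map_eq_zero _).1 (S28_Desc.aeval_jqModC_injective (ZMod ℓ)) g hg
  · intro x
    have hindQ := indQ_of_ind ℓ (jqModC (GaloisRep.ratLocalizedAt ℓ)) θ hind
    rw [emb_jqModC] at hindQ ⊢
    exact S28_Deg0.exists_span_of_indep N (fun i => emb ℓ (θ i)) hθ2 hindQ (x : LaurentSeries ℚ) x.2

section Charts

variable (hv : ∃ v : Fin (dedekindPsi N) → LaurentSeries (ZMod ℓ),
      (∀ i, v i ∈ Algebra.adjoin (ZMod ℓ) (divisorExpansionsC (ZMod ℓ) N)) ∧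
      ∀ g : Fin (dedekindPsi N) → (ZMod ℓ)[X],
        ∑ i, aeval (jqModC (ZMod ℓ)) (g i) * v i = 0 → ∀ i, g i = 0)
include hv

/-- the finite chart has a ring homomorphism to `𝔽_ℓ((q))` with kernel generated by `ℓ` -/
theorem exists_reduction_fin :
    ∃ ρ : ↥(chartAlgFin N ℓ) →+* LaurentSeries (ZMod ℓ),
      ∀ a : ↥(chartAlgFin N ℓ), ρ a = 0 → ∃ b : ↥(chartAlgFin N ℓ), a = (ℓ : ↥(chartAlgFin N ℓ)) * b := by
  obtain ⟨θF, θ, H⟩ := exists_hyp N ℓ hv
  exact H.exists_reduction (chartAlgFin N ℓ) (fun x => Iff.rfl)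

/-- the chart at infinity has a ring homomorphism to `𝔽_ℓ((q))` with kernel generated by `ℓ` -/
theorem exists_reduction_inf :
    ∃ ρ : ↥(chartAlgInf N ℓ) →+* LaurentSeries (ZMod ℓ),
      ∀ a : ↥(chartAlgInf N ℓ), ρ a = 0 → ∃ b : ↥(chartAlgInf N ℓ), a = (ℓ : ↥(chartAlgInf N ℓ)) * b := by
  obtain ⟨θF, θ, H⟩ := exists_hyp N ℓ hv
  exact (H.inv _ (jqModC_mul_jqInvC _)).exists_reduction (chartAlgInf N ℓ) (fun x => Iff.rfl)

/-- the middle chart has a ring homomorphism to `𝔽_ℓ((q))` -/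
theorem nonempty_ringHom_mid : Nonempty (↥(chartAlgMid N ℓ) →+* LaurentSeries (ZMod ℓ)) := by
  obtain ⟨θF, θ, H⟩ := exists_hyp N ℓ hv
  have H' := H.inv _ (jqModC_mul_jqInvC _)
  refine ⟨H.redOn {jFull N, (jFull N)⁻¹} ?_ (chartAlgMid N ℓ) (fun x hx => hx)⟩
  intro s hs
  rcases hs with rfl | hs
  · rw [H.ι_t]; exact ⟨_, rfl⟩
  · rw [Set.mem_singleton_iff.1 hs, H'.ι_t]; exact ⟨_, rfl⟩

variable (K : Type) [Field K] [CharP K ℓ] [Algebra ↥(GaloisRep.ratLocalizedAt ℓ) K]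

theorem isDomain_fin :
    IsDomain (TensorProduct ↥(GaloisRep.ratLocalizedAt ℓ) ↥(chartAlgFin N ℓ) K) := by
  obtain ⟨ρ, hρ⟩ := exists_reduction_fin N ℓ hv
  exact S28_Tensor.isDomain_tensor_of_ker _ K ρ hρ

theorem isDomain_inf :
    IsDomain (TensorProduct ↥(GaloisRep.ratLocalizedAt ℓ) ↥(chartAlgInf N ℓ) K) := by
  obtain ⟨ρ, hρ⟩ := exists_reduction_inf N ℓ hv
  exact S28_Tensor.isDomain_tensor_of_ker _ K ρ hρ

theorem nontrivial_mid :
    Nontrivial (TensorProduct ↥(GaloisRep.ratLocalizedAt ℓ) ↥(chartAlgMid N ℓ) K) := by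
  obtain ⟨ρ⟩ := nonempty_ringHom_mid N ℓ hv
  exact S28_Tensor.nontrivial_tensor_of_hom _ K ρ

end Charts

end Fermat.Agent.S28_QExp
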