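-- Project I (S28): the irreducibility lemma for a "ramified orbit" of Laurent series:
-- a monic factor of `∏ (X - a b)` (`p` series of the same order `o`, `p ∤ o`) whose constant
-- coefficient lies in `K((t ^ p))` is trivial.
import Mathlib
import Fermat.Agent.S28_Subst

set_option autoImplicit false

noncomputable section

namespace Fermat.Agent.S28_Irr

open Polynomial ModularCurve
open Fermat.Agent.S28_Subst

variable {K : Type*} [Field K]

/-- the order of a product of nonzero Laurent series is the sum of the orders -/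
theorem order_multiset_prod (m : Multiset (LaurentSeries K)) (h0 : ∀ x ∈ m, x ≠ 0) :
    m.prod ≠ 0 ∧ m.prod.order = (m.map HahnSeries.order).sum := by
  induction m using Multiset.induction with
  | empty =>
    refine ⟨by simp, ?_⟩
    simp
  | cons x m ih =>
    have hx : x ≠ 0 := h0 x (Multiset.mem_cons_self x m)
    obtain ⟨h1, h2⟩ := ih fun y hy => h0 y (Multiset.mem_cons_of_mem hy)
    rw [Multiset.prod_cons, Multiset.map_cons, Multiset.sum_cons]
    refine ⟨mul_ne_zero hx h1, ?_⟩
    rw [HahnSeries.order_mul hx h1, h2]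

/-- the order of a product of series of the same order -/
theorem order_multiset_prod_of_forall (m : Multiset (LaurentSeries K)) (o : ℤ)
    (h : ∀ x ∈ m, x ≠ 0 ∧ x.order = o) :
    m.prod ≠ 0 ∧ m.prod.order = (Multiset.card m : ℤ) * o := by
  obtain ⟨h1, h2⟩ := order_multiset_prod m fun x hx => (h x hx).1
  refine ⟨h1, ?_⟩
  rw [h2, Multiset.map_congr rfl fun x hx => (h x hx).2, Multiset.map_const', Multiset.sum_replicate,
    nsmul_eq_mul]

theorem order_neg_one_pow_mul (n : ℕ) (x : LaurentSeries K) :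
    ((-1) ^ n * x).order = x.order := by
  rcases neg_one_pow_eq_or (LaurentSeries K) n with h | h
  · rw [h, one_mul]
  · rw [h, neg_one_mul, HahnSeries.order_neg]

/-- **Irreducibility lemma.** Let `a b` (`b` in a type with `p` elements, `p` prime) be Laurent
series of the same order `o`, with `p ∤ o`. A monic divisor `g` of `∏ b, (X - C (a b))` whose
constant coefficient lies in the range of `qExpand K p` (i.e. is a series in `t ^ p`) is `1` or
the whole product. -/
theorem eq_one_or_eq_prod (p : ℕ) [NeZero p] (hp : p.Prime) {ι : Type*} [Fintype ι]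
    (hι : Fintype.card ι = p) (a : ι → LaurentSeries K) (o : ℤ) (ho : ¬ (p : ℤ) ∣ o)
    (ha : ∀ b, (a b).order = o) (g : (LaurentSeries K)[X]) (hg : g.Monic)
    (hdvd : g ∣ ∏ b, (X - C (a b))) (hcoeff : g.coeff 0 ∈ Set.range (qExpand K p)) :
    g = 1 ∨ g = ∏ b, (X - C (a b)) := by
  classical
  have ha0 : ∀ b, a b ≠ 0 := by
    intro b h0
    have h1 := ha b
    rw [h0, HahnSeries.order_zero] at h1
    exact ho (h1 ▸ dvd_zero _)
  set Q : (LaurentSeries K)[X] := ∏ b, (X - C (a b)) with hQ
  have hQm : Q.Monic := monic_prod_of_monic _ _ fun b _ => monic_X_sub_C _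
  have hQ0 : Q ≠ 0 := hQm.ne_zero
  have hQs : Q.Splits := Splits.prod fun b _ => Splits.X_sub_C _
  have hgs : g.Splits := hQs.of_dvd hQ0 hdvd
  have hQroots : Q.roots = Finset.univ.val.map a := by
    have h1 : Q = ((Finset.univ.val.map a).map fun r => X - C r).prod := by
      rw [hQ, Multiset.map_map]
      rfl
    rw [h1, roots_multiset_prod_X_sub_C]
  have hle : g.roots ≤ Q.roots := roots.le_of_dvd hQ0 hdvd
  have hgeq : g = (g.roots.map (X - C ·)).prod := hgs.eq_prod_roots_of_monic hg
  have hQeq : Q = (Q.roots.map (X - C ·)).prod := hQs.eq_prod_roots_of_monic hQm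
  have hroot : ∀ r ∈ g.roots, r ≠ 0 ∧ r.order = o := by
    intro r hr
    have h1 := Multiset.mem_of_le hle hr
    rw [hQroots, Multiset.mem_map] at h1
    obtain ⟨b, -, rfl⟩ := h1
    exact ⟨ha0 b, ha b⟩
  obtain ⟨hprod0, hprod⟩ := order_multiset_prod_of_forall g.roots o hroot
  have hc0 : g.coeff 0 = (-1) ^ g.natDegree * g.roots.prod :=
    hgs.coeff_zero_eq_prod_roots_of_monic hg
  have hord : (g.coeff 0).order = (Multiset.card g.roots : ℤ) * o := by
    rw [hc0, order_neg_one_pow_mul, hprod]
  have hdiv : (p : ℤ) ∣ (Multiset.card g.roots : ℤ) * o := by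
    rw [← hord]
    exact dvd_order_of_mem_range_qExpand p hcoeff
  have hpc : p ∣ Multiset.card g.roots := by
    have h1 := (Nat.prime_iff_prime_int.1 hp).dvd_or_dvd hdiv
    rcases h1 with h1 | h1
    · exact_mod_cast h1
    · exact absurd h1 ho
  have hcardQ : Multiset.card Q.roots = p := by
    rw [hQroots, Multiset.card_map]
    simpa using hι
  have hcardle : Multiset.card g.roots ≤ p := hcardQ ▸ Multiset.card_le_card hle
  rcases Nat.eq_zero_or_pos (Multiset.card g.roots) with h0 | hpos
  · left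
    rw [Multiset.card_eq_zero] at h0
    rw [hgeq, h0]
    simp
  · right
    have h1 : Multiset.card g.roots = p := le_antisymm hcardle (Nat.le_of_dvd hpos hpc)
    have h2 : g.roots = Q.roots :=
      Multiset.eq_of_le_of_card_le hle (by rw [h1, hcardQ])
    rw [hgeq, h2, ← hQeq]

/-! ### Linear independence of `1, β, …, β ^ (p - 1)` over `K((t ^ p))` -/

/-- a finite sum of Laurent series, one of which has order strictly smaller than all the other
nonzero ones, is nonzero -/
theorem sum_ne_zero_of_order_lt {ι : Type*} (s : Finset ι) (f : ι → LaurentSeries K) (i₀ : ι)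
    (hi₀ : i₀ ∈ s) (h0 : f i₀ ≠ 0)
    (hlt : ∀ i ∈ s, i ≠ i₀ → f i ≠ 0 → (f i₀).order < (f i).order) :
    ∑ i ∈ s, f i ≠ 0 := by
  classical
  intro hsum
  have h1 := congrArg (fun x : LaurentSeries K => x.coeff (f i₀).order) hsum
  simp only [HahnSeries.coeff_sum, HahnSeries.coeff_zero] at h1
  rw [Finset.sum_eq_single i₀] at h1
  · exact h0 (HahnSeries.coeff_order_eq_zero.1 h1)
  · intro i hi hne
    by_cases hfi : f i = 0
    · rw [hfi, HahnSeries.coeff_zero]
    · exact HahnSeries.coeff_eq_zero_of_lt_order (hlt i hi hne hfi)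
  · intro h
    exact absurd hi₀ h

/-- **Leading-term lemma.** If the order of `β` is prime to `p`, then `1, β, …, β ^ (p - 1)` are
linearly independent over the series in `t ^ p`. -/
theorem eq_zero_of_sum_mul_pow_eq_zero (p : ℕ) [NeZero p] (β : LaurentSeries K)
    (hβ : IsCoprime β.order (p : ℤ)) (c : ℕ → LaurentSeries K)
    (hc : ∀ i < p, c i ∈ Set.range (qExpand K p))
    (h : ∑ i ∈ Finset.range p, c i * β ^ i = 0) : ∀ i < p, c i = 0 := by
  classical
  by_contra hne
  push Not at hne
  obtain ⟨i₁, hi₁, hci₁⟩ := hne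
  -- `β ≠ 0`
  have hp1 : 1 < p := by
    by_contra hle
    have hp : p = 1 := by
      have := Nat.pos_of_ne_zero (NeZero.ne p)
      omega
    subst hp
    have hi0 : i₁ = 0 := by omega
    subst hi0
    simp at h
    exact hci₁ h
  have hβ0 : β ≠ 0 := by
    intro h0
    rw [h0, HahnSeries.order_zero] at hβ
    have h1 : IsUnit (p : ℤ) := isCoprime_zero_left.1 hβ
    have h2 := Int.isUnit_iff.1 h1
    rcases h2 with h2 | h2
    · have : p = 1 := by exact_mod_cast h2
      omega
    · have : (0 : ℤ) ≤ p := Int.natCast_nonneg p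
      omega
  set f : ℕ → LaurentSeries K := fun i => c i * β ^ i with hf
  set S : Finset ℕ := (Finset.range p).filter fun i => c i ≠ 0 with hS
  have hSne : S.Nonempty := ⟨i₁, by rw [hS, Finset.mem_filter, Finset.mem_range]; exact ⟨hi₁, hci₁⟩⟩
  obtain ⟨i₀, hi₀S, hmin⟩ := Finset.exists_min_image S (fun i => (f i).order) hSne
  have hi₀ : i₀ < p ∧ c i₀ ≠ 0 := by
    rw [hS, Finset.mem_filter, Finset.mem_range] at hi₀S
    exact hi₀S
  have hford : ∀ i, c i ≠ 0 → (f i).order = (c i).order + (i : ℤ) * β.order := by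
    intro i hci
    rw [hf]
    simp only
    rw [HahnSeries.order_mul hci (pow_ne_zero i hβ0), HahnSeries.order_pow, nsmul_eq_mul]
  have hf0 : ∀ i, c i ≠ 0 → f i ≠ 0 := fun i hci => mul_ne_zero hci (pow_ne_zero i hβ0)
  refine sum_ne_zero_of_order_lt (Finset.range p) f i₀ (Finset.mem_range.2 hi₀.1) (hf0 i₀ hi₀.2)
    ?_ h
  intro i hi hne hfi
  have hip : i < p := Finset.mem_range.1 hi
  have hci : c i ≠ 0 := by
    intro h0
    apply hfi
    rw [hf]
    simp only
    rw [h0, zero_mul]
  have hiS : i ∈ S := by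
    rw [hS, Finset.mem_filter, Finset.mem_range]
    exact ⟨hip, hci⟩
  refine lt_of_le_of_ne (hmin i hiS) ?_
  intro heq
  rw [hford i hci, hford i₀ hi₀.2] at heq
  -- orders of the coefficients are divisible by `p`
  obtain ⟨k, hk⟩ := dvd_order_of_mem_range_qExpand p (hc i hip)
  obtain ⟨k₀, hk₀⟩ := dvd_order_of_mem_range_qExpand p (hc i₀ hi₀.1)
  have h1 : (p : ℤ) ∣ ((i : ℤ) - i₀) * β.order := by
    refine ⟨k₀ - k, ?_⟩
    rw [hk, hk₀] at heq
    linear_combination (-1 : ℤ) * heq
  have h2 : (p : ℤ) ∣ (i : ℤ) - i₀ := hβ.symm.dvd_of_dvd_mul_right h1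
  have h3 : ((i : ℤ) - i₀) = 0 := by
    apply Int.eq_zero_of_abs_lt_dvd h2
    rw [abs_lt]
    constructor <;> omega
  exact hne (by omega)

/-- A polynomial of degree `< p` with coefficients in `K((t ^ p))` vanishing at a series whose
order is prime to `p` is zero. -/
theorem eq_zero_of_eval_eq_zero (p : ℕ) [NeZero p] (β : LaurentSeries K)
    (hβ : IsCoprime β.order (p : ℤ)) (g : (LaurentSeries K)[X]) (hdeg : g.natDegree < p)
    (hcoeff : ∀ n, g.coeff n ∈ Set.range (qExpand K p)) (hg : g.eval β = 0) : g = 0 := by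
  have h1 : ∑ i ∈ Finset.range p, g.coeff i * β ^ i = 0 := by
    rw [← hg, eval_eq_sum_range' (show g.natDegree < p from hdeg)]
  have h2 := eq_zero_of_sum_mul_pow_eq_zero p β hβ (fun i => g.coeff i) (fun i _ => hcoeff i) h1
  refine Polynomial.ext fun n => ?_
  rw [coeff_zero]
  by_cases hn : n < p
  · exact h2 n hn
  · exact coeff_eq_zero_of_natDegree_lt (by omega)

/-- **Degree lower bound.** Over any subfield `E₀` of `K((t))` consisting of series in `t ^ p`,
a series whose order is prime to `p` has degree at least `p`: a nonzero polynomial over `E₀`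
vanishing at it has degree `≥ p`. -/
theorem le_natDegree_of_aeval_eq_zero (p : ℕ) [NeZero p] (E₀ : Subfield (LaurentSeries K))
    (hE₀ : ∀ x ∈ E₀, x ∈ Set.range (qExpand K p)) (β : LaurentSeries K)
    (hβ : IsCoprime β.order (p : ℤ)) (g : E₀[X]) (hg0 : g ≠ 0)
    (hg : (g.map E₀.subtype).eval β = 0) : p ≤ g.natDegree := by
  by_contra hlt
  push Not at hlt
  have h1 : g.map E₀.subtype = 0 :=
    eq_zero_of_eval_eq_zero p β hβ (g.map E₀.subtype)
      (lt_of_le_of_lt natDegree_map_le hlt)
      (fun n => by rw [coeff_map]; exact hE₀ _ (g.coeff n).2) hg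
  exact hg0 ((Polynomial.map_eq_zero_iff E₀.subtype.injective).1 h1)

end Fermat.Agent.S28_Irr

end
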