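-- Project I (S28): the tower induction.  Over an algebraically closed field `k`, from the
-- factorisation of the level-`p` modular equation and `J(q^p) ∉ k(J)` for every prime `p ∣ N`,
-- we get `ψ(N)` monomials in the `J(q^d)`, `d ∣ N`, linearly independent over `k(J)`.
import Mathlib
import Fermat.Prelude.Def_ModularCurve_X0ModL
import Fermat.Agent.S24_Comb
import Fermat.Agent.S28_Subst
import Fermat.Agent.S28_SubstJ
import Fermat.Agent.S28_Irr

set_option autoImplicit false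

noncomputable section

namespace Fermat.Agent.S28_Tower

open ModularCurve Polynomial
open Fermat.Agent.S28_Subst Fermat.Agent.S28_SubstJ

/-- (I1) the factorisation of the level-`p` modular equation over `k`. -/
def SplitAt (k : Type*) [Field k] (p : ℕ) [NeZero p] : Prop :=
  ∃ (ζ : kˣ) (Φ : Polynomial (Polynomial k)), IsPrimitiveRoot ζ p ∧ Φ.Monic ∧ Φ.natDegree = p + 1 ∧
    Φ.map (aeval (qExpand k p (jqModC k))).toRingHom =
      (X - C (qExpand k (p ^ 2) (jqModC k))) *
        ∏ b ∈ Finset.range p, (X - C (S28_Subst.twist (ζ ^ b) (jqModC k)))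

/-! ### Bivariate evaluation -/

section Ev

variable {k : Type*} [Field k]

/-- `Φ(y; s)`: the inner variable goes to `s`, the outer one to `y`. -/
def ev {S : Type*} [CommRing S] [Algebra k S] (Φ : Polynomial (Polynomial k)) (s y : S) : S :=
  Φ.eval₂ (aeval s).toRingHom y

theorem map_aeval_algHom {S S' : Type*} [CommRing S] [Algebra k S] [CommRing S'] [Algebra k S']
    (φ : S →ₐ[k] S') (Φ : Polynomial (Polynomial k)) (s : S) :
    (Φ.map (aeval s).toRingHom).map (φ : S →+* S') = Φ.map (aeval (φ s)).toRingHom := by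
  rw [Polynomial.map_map]
  congr 1
  apply Polynomial.ringHom_ext
  · intro c
    simp
  · simp

theorem ev_eq_eval_map {S : Type*} [CommRing S] [Algebra k S] (Φ : Polynomial (Polynomial k))
    (s y : S) : ev Φ s y = (Φ.map (aeval s).toRingHom).eval y := by
  rw [ev, Polynomial.eval_map]

theorem ev_algHom {S S' : Type*} [CommRing S] [Algebra k S] [CommRing S'] [Algebra k S']
    (φ : S →ₐ[k] S') (Φ : Polynomial (Polynomial k)) (s y : S) :
    ev Φ (φ s) (φ y) = φ (ev Φ s y) := by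
  rw [ev_eq_eval_map, ev_eq_eval_map, ← map_aeval_algHom, Polynomial.eval_map]
  exact Polynomial.eval₂_at_apply (φ : S →+* S') y

theorem ev_eq_aeval_map {S S' : Type*} [CommRing S] [Algebra k S] [CommRing S'] [Algebra k S']
    [Algebra S S'] (h : ∀ c : k, algebraMap S S' (algebraMap k S c) = algebraMap k S' c)
    (Φ : Polynomial (Polynomial k)) (s : S) (y : S') :
    aeval y (Φ.map (aeval s).toRingHom) = ev Φ (algebraMap S S' s) y := by
  rw [Polynomial.aeval_def, Polynomial.eval₂_map, ev]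
  congr 1
  apply Polynomial.ringHom_ext
  · intro c
    simp [h]
  · simp

end Ev

/-! ### The series `J(ξ u^e)` -/

section Series

variable {k : Type*} [Field k]

/-- `J(ξ u^e)` (zero for `e = 0`). -/
def sb (ξ : kˣ) (e : ℕ) : LaurentSeries k :=
  if h : e = 0 then 0 else @subst k _ ξ e ⟨h⟩ (jqModC k)

theorem sb_eq (ξ : kˣ) (e : ℕ) [NeZero e] : sb ξ e = subst ξ e (jqModC k) :=
  dif_neg (NeZero.ne e)

theorem sb_one (e : ℕ) [NeZero e] : sb (1 : kˣ) e = qExpand k e (jqModC k) := by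
  rw [sb_eq, subst_one_left]

theorem sb_one_one : sb (1 : kˣ) 1 = jqModC k := by rw [sb_one, qExpand_one_apply]

theorem order_sb (ξ : kˣ) {e : ℕ} (he : e ≠ 0) : (sb ξ e).order = -(e : ℤ) := by
  have : NeZero e := ⟨he⟩
  rw [sb_eq, order_subst_jqModC]

theorem sb_ne_zero (ξ : kˣ) {e : ℕ} (he : e ≠ 0) : sb ξ e ≠ 0 := by
  intro h
  have h1 := order_sb ξ he
  rw [h, HahnSeries.order_zero] at h1
  omega

theorem sb_exp_eq {ξ ξ' : kˣ} {e e' : ℕ} (he : e ≠ 0) (he' : e' ≠ 0) (h : sb ξ e = sb ξ' e') :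
    e = e' := by
  have h1 := congrArg HahnSeries.order h
  rw [order_sb ξ he, order_sb ξ' he'] at h1
  omega

theorem subst_sb (c : kˣ) (m : ℕ) [NeZero m] (d : kˣ) {n : ℕ} (hn : n ≠ 0) :
    subst c m (sb d n) = sb (c ^ n * d) (m * n) := by
  have : NeZero n := ⟨hn⟩
  have : NeZero (m * n) := ⟨Nat.mul_ne_zero (NeZero.ne m) hn⟩
  rw [sb_eq, sb_eq, subst_subst]

theorem qExpand_sb (m : ℕ) [NeZero m] (d : kˣ) {n : ℕ} (hn : n ≠ 0) :
    qExpand k m (sb d n) = sb d (m * n) := by
  rw [← subst_one_left, subst_sb _ _ _ hn, one_pow, one_mul]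

theorem twist_eq_sb (c : kˣ) : twist c (jqModC k) = sb c 1 := by
  rw [sb_eq, subst_one_right]

theorem sb_mem_range {p : ℕ} [NeZero p] (ξ : kˣ) {e : ℕ} (he : e ≠ 0) (hpe : p ∣ e) :
    sb ξ e ∈ Set.range (qExpand k p) := by
  obtain ⟨e', rfl⟩ := hpe
  have he' : e' ≠ 0 := fun h => he (by rw [h, mul_zero])
  exact ⟨sb ξ e', qExpand_sb p ξ he'⟩

theorem sb_not_mem_range {p : ℕ} [NeZero p] (ξ : kˣ) {e : ℕ} (he : e ≠ 0) (hpe : ¬ p ∣ e) :
    sb ξ e ∉ Set.range (qExpand k p) := by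
  have : NeZero e := ⟨he⟩
  rw [sb_eq]
  exact subst_jqModC_not_mem_range ξ e p hpe

theorem sb_mem_divisorExpansionsC {N d : ℕ} (hd : d ∣ N) (hd0 : d ≠ 0) :
    sb (1 : kˣ) d ∈ divisorExpansionsC k N := by
  have : NeZero d := ⟨hd0⟩
  exact ⟨d, ⟨hd0⟩, hd, sb_one d⟩

/-- `subst` as a `k`-algebra hom. -/
def substA (c : kˣ) (n : ℕ) [NeZero n] : LaurentSeries k →ₐ[k] LaurentSeries k :=
  { subst c n with
    commutes' := fun r => by
      show subst c n (algebraMap k (LaurentSeries k) r) = algebraMap k (LaurentSeries k) r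
      rw [algebraMap_laurentSeries_eq_single]
      exact subst_C c n r }

@[simp]
theorem substA_apply (c : kˣ) (n : ℕ) [NeZero n] (f : LaurentSeries k) :
    substA c n f = subst c n f := rfl

end Series

/-! ### Consequences of the factorisation -/

section Split

variable {k : Type*} [Field k] {p : ℕ} [NeZero p] {ζ : kˣ} {Φ : Polynomial (Polynomial k)}

theorem split_map
    (hΦ : Φ.map (aeval (qExpand k p (jqModC k))).toRingHom =
      (X - C (qExpand k (p ^ 2) (jqModC k))) *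
        ∏ b ∈ Finset.range p, (X - C (twist (ζ ^ b) (jqModC k))))
    {S : Type*} [CommRing S] [Algebra k S] (φ : LaurentSeries k →ₐ[k] S) :
    Φ.map (aeval (φ (qExpand k p (jqModC k)))).toRingHom =
      (X - C (φ (qExpand k (p ^ 2) (jqModC k)))) *
        ∏ b ∈ Finset.range p, (X - C (φ (twist (ζ ^ b) (jqModC k)))) := by
  rw [← map_aeval_algHom, hΦ]
  simp [Polynomial.map_mul, Polynomial.map_sub, Polynomial.map_prod]

theorem ev_split
    (hΦ : Φ.map (aeval (qExpand k p (jqModC k))).toRingHom =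
      (X - C (qExpand k (p ^ 2) (jqModC k))) *
        ∏ b ∈ Finset.range p, (X - C (twist (ζ ^ b) (jqModC k))))
    {S : Type*} [CommRing S] [IsDomain S] [Algebra k S] (φ : LaurentSeries k →ₐ[k] S) (y : S) :
    ev Φ (φ (qExpand k p (jqModC k))) y = 0 ↔
      y = φ (qExpand k (p ^ 2) (jqModC k)) ∨ ∃ b < p, y = φ (twist (ζ ^ b) (jqModC k)) := by
  rw [ev_eq_eval_map, split_map hΦ φ, Polynomial.eval_mul, Polynomial.eval_prod, mul_eq_zero,
    Finset.prod_eq_zero_iff]
  simp [sub_eq_zero]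

/-- the roots of `Φ(X; J(u^p))` in `k((u))`. -/
theorem ev_split_id
    (hΦ : Φ.map (aeval (qExpand k p (jqModC k))).toRingHom =
      (X - C (qExpand k (p ^ 2) (jqModC k))) *
        ∏ b ∈ Finset.range p, (X - C (twist (ζ ^ b) (jqModC k))))
    (y : LaurentSeries k) :
    ev Φ (qExpand k p (jqModC k)) y = 0 ↔
      y = qExpand k (p ^ 2) (jqModC k) ∨ ∃ b < p, y = twist (ζ ^ b) (jqModC k) :=
  ev_split hΦ (AlgHom.id k (LaurentSeries k)) y

theorem qExpand_sq_eq (f : LaurentSeries k) :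
    qExpand k (p ^ 2) f = qExpand k p (qExpand k p f) := by
  rw [qExpand_qExpand]
  have key : ∀ (m n : ℕ) [NeZero m] [NeZero n], m = n → qExpand k m f = qExpand k n f := by
    intro m n _ _ h
    subst h
    rfl
  exact key _ _ (sq p)

/-- `Φ(J(q^p); J(q)) = 0`. -/
theorem ev_J_Jp
    (hΦ : Φ.map (aeval (qExpand k p (jqModC k))).toRingHom =
      (X - C (qExpand k (p ^ 2) (jqModC k))) *
        ∏ b ∈ Finset.range p, (X - C (twist (ζ ^ b) (jqModC k)))) :
    ev Φ (jqModC k) (qExpand k p (jqModC k)) = 0 := by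
  have h := (ev_split_id hΦ (qExpand k (p ^ 2) (jqModC k))).2 (Or.inl rfl)
  rw [qExpand_sq_eq] at h
  have h2 := ev_algHom (qExpandAlgHomC k p) Φ (jqModC k) (qExpand k p (jqModC k))
  simp only [qExpandAlgHomC_apply] at h2
  rw [h2] at h
  exact qExpand_injective p (h.trans (map_zero _).symm)

/-- `Φ(J(q); J(q^p)) = 0`. -/
theorem ev_Jp_J
    (hΦ : Φ.map (aeval (qExpand k p (jqModC k))).toRingHom =
      (X - C (qExpand k (p ^ 2) (jqModC k))) *
        ∏ b ∈ Finset.range p, (X - C (twist (ζ ^ b) (jqModC k)))) :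
    ev Φ (qExpand k p (jqModC k)) (jqModC k) = 0 := by
  refine (ev_split_id hΦ (jqModC k)).2 (Or.inr ⟨0, Nat.pos_of_ne_zero (NeZero.ne p), ?_⟩)
  rw [pow_zero, twist_one]

/-- `J(q^p)` is the only root of `Φ(X; J(q))` in `k((q))`. -/
theorem root_unique (hp : p.Prime)
    (hΦ : Φ.map (aeval (qExpand k p (jqModC k))).toRingHom =
      (X - C (qExpand k (p ^ 2) (jqModC k))) *
        ∏ b ∈ Finset.range p, (X - C (twist (ζ ^ b) (jqModC k))))
    {c : LaurentSeries k} (hc : ev Φ (jqModC k) c = 0) : c = qExpand k p (jqModC k) := by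
  have h2 := ev_algHom (qExpandAlgHomC k p) Φ (jqModC k) c
  simp only [qExpandAlgHomC_apply] at h2
  rw [hc, map_zero] at h2
  rcases (ev_split_id hΦ _).1 h2 with h | ⟨b, -, h⟩
  · rw [qExpand_sq_eq] at h
    exact qExpand_injective p h
  · exfalso
    have h3 : twist (ζ ^ b) (jqModC k) ∈ Set.range (qExpand k p) := ⟨c, h⟩
    rw [twist_eq_sb] at h3
    exact sb_not_mem_range (ζ ^ b) one_ne_zero (by simpa using hp.one_lt.ne') h3

theorem ev_sb_mul
    (hΦ : Φ.map (aeval (qExpand k p (jqModC k))).toRingHom =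
      (X - C (qExpand k (p ^ 2) (jqModC k))) *
        ∏ b ∈ Finset.range p, (X - C (twist (ζ ^ b) (jqModC k))))
    {d : ℕ} (hd : d ≠ 0) : ev Φ (sb (1 : kˣ) d) (sb (1 : kˣ) (d * p)) = 0 := by
  have : NeZero d := ⟨hd⟩
  have h2 := ev_algHom (qExpandAlgHomC k d) Φ (jqModC k) (qExpand k p (jqModC k))
  simp only [qExpandAlgHomC_apply] at h2
  rw [ev_J_Jp hΦ, map_zero, ← sb_one p, qExpand_sb d _ (NeZero.ne p), ← sb_one d] at h2
  exact h2

theorem ev_sb_mul'
    (hΦ : Φ.map (aeval (qExpand k p (jqModC k))).toRingHom =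
      (X - C (qExpand k (p ^ 2) (jqModC k))) *
        ∏ b ∈ Finset.range p, (X - C (twist (ζ ^ b) (jqModC k))))
    {d : ℕ} (hd : d ≠ 0) : ev Φ (sb (1 : kˣ) (d * p)) (sb (1 : kˣ) d) = 0 := by
  have : NeZero d := ⟨hd⟩
  have h2 := ev_algHom (qExpandAlgHomC k d) Φ (qExpand k p (jqModC k)) (jqModC k)
  simp only [qExpandAlgHomC_apply] at h2
  rw [ev_Jp_J hΦ, map_zero, ← sb_one p, qExpand_sb d _ (NeZero.ne p), ← sb_one d] at h2
  exact h2

end Split

/-! ### The root list in a big field -/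

section Omega

variable {k : Type*} [Field k] {Ω : Type*} [Field Ω] [Algebra (LaurentSeries k) Ω] [Algebra k Ω]
  (hΩ : ∀ c : k, algebraMap (LaurentSeries k) Ω (algebraMap k (LaurentSeries k) c) =
    algebraMap k Ω c)

/-- the embedding `k((u)) → Ω` as a `k`-algebra hom. -/
def aHom : LaurentSeries k →ₐ[k] Ω :=
  { algebraMap (LaurentSeries k) Ω with commutes' := hΩ }

theorem aHom_apply (f : LaurentSeries k) : aHom hΩ f = algebraMap (LaurentSeries k) Ω f := rfl

/-- `f(q) ↦ f(c u^n)` followed by the embedding into `Ω`. -/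
def rho (c : kˣ) (n : ℕ) [NeZero n] : LaurentSeries k →ₐ[k] Ω :=
  (aHom hΩ).comp (substA c n)

theorem rho_apply (c : kˣ) (n : ℕ) [NeZero n] (f : LaurentSeries k) :
    rho hΩ c n f = algebraMap (LaurentSeries k) Ω (subst c n f) := rfl

include hΩ

variable {p : ℕ} [NeZero p] {ζ : kˣ} {Φ : Polynomial (Polynomial k)}

theorem root_list
    (hΦ : Φ.map (aeval (qExpand k p (jqModC k))).toRingHom =
      (X - C (qExpand k (p ^ 2) (jqModC k))) *
        ∏ b ∈ Finset.range p, (X - C (twist (ζ ^ b) (jqModC k))))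
    (ξ' : kˣ) {e' : ℕ} (he' : e' ≠ 0) (y : Ω) :
    ev Φ (algebraMap (LaurentSeries k) Ω (sb (ξ' ^ p) (e' * p))) y = 0 ↔
      y = algebraMap (LaurentSeries k) Ω (sb (ξ' ^ (p ^ 2)) (e' * p ^ 2)) ∨
        ∃ b < p, y = algebraMap (LaurentSeries k) Ω (sb (ξ' * ζ ^ b) e') := by
  have : NeZero e' := ⟨he'⟩
  have h := ev_split hΦ (rho hΩ ξ' e') y
  simp only [rho_apply] at h
  rw [← sb_one p, ← sb_one (p ^ 2), subst_sb _ _ _ (NeZero.ne p),
    subst_sb _ _ _ (NeZero.ne (p ^ 2)), mul_one, mul_one] at h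
  simp only [twist_eq_sb, subst_sb _ _ _ one_ne_zero, pow_one, mul_one] at h
  exact h

theorem chain_step [IsAlgClosed k]
    (hΦ : Φ.map (aeval (qExpand k p (jqModC k))).toRingHom =
      (X - C (qExpand k (p ^ 2) (jqModC k))) *
        ∏ b ∈ Finset.range p, (X - C (twist (ζ ^ b) (jqModC k))))
    (ξ : kˣ) {e : ℕ} (he : e ≠ 0) (hpe : p ∣ e) :
    ∃ ξA : kˣ, ∀ y : Ω, ev Φ (algebraMap (LaurentSeries k) Ω (sb ξ e)) y = 0 →
      y = algebraMap (LaurentSeries k) Ω (sb ξA (e * p)) ∨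
        ∃ ξ₂ : kˣ, y = algebraMap (LaurentSeries k) Ω (sb ξ₂ (e / p)) := by
  obtain ⟨e', rfl⟩ := hpe
  have he' : e' ≠ 0 := fun h => he (by rw [h, mul_zero])
  have hp0 : 0 < p := Nat.pos_of_ne_zero (NeZero.ne p)
  obtain ⟨z, hz⟩ := IsAlgClosed.exists_pow_nat_eq (ξ : k) hp0
  have hz0 : z ≠ 0 := by
    rintro rfl
    rw [zero_pow (NeZero.ne p)] at hz
    exact ξ.ne_zero hz.symm
  have hξ : (Units.mk0 z hz0) ^ p = ξ := Units.ext (by simpa using hz)
  refine ⟨(Units.mk0 z hz0) ^ (p ^ 2), fun y hy => ?_⟩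
  rw [← hξ, mul_comm p e'] at hy
  rcases (root_list hΩ hΦ (Units.mk0 z hz0) he' y).1 hy with h | ⟨b, -, h⟩
  · left
    rw [h]
    congr 2
    ring
  · right
    refine ⟨Units.mk0 z hz0 * ζ ^ b, ?_⟩
    rw [h, Nat.mul_div_cancel_left _ hp0]

end Omega

/-! ### The chain lemmas -/

section Chain

variable {k : Type*} [Field k] [IsAlgClosed k] {Ω : Type*} [Field Ω]
  [Algebra (LaurentSeries k) Ω] [Algebra k Ω]
  (hΩ : ∀ c : k, algebraMap (LaurentSeries k) Ω (algebraMap k (LaurentSeries k) c) =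
    algebraMap k Ω c)
  {K : Type*} [Field K] [Algebra k K] (ι : K →ₐ[k] LaurentSeries k) (τ : K →ₐ[k] Ω)
  {N₁ : ℕ} (j : ℕ → K) (hj : ∀ d, d ∣ N₁ → ι (j d) = sb (1 : kˣ) d)

include hΩ hj

/-- every conjugate of `J(q^d)`, `d ∣ N₁`, is of the form `J(ξ u^e)` with `N₁ ∣ e d`. -/
theorem chain (hN₁ : N₁ ≠ 0)
    (hsplit : ∀ (r : ℕ) [NeZero r], r.Prime → r ∣ N₁ → SplitAt k r)
    (h1 : τ (j 1) = algebraMap (LaurentSeries k) Ω (sb (1 : kˣ) N₁)) :
    ∀ d, d ∣ N₁ → ∃ (ξ : kˣ) (e : ℕ), e ≠ 0 ∧ N₁ ∣ e * d ∧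
      τ (j d) = algebraMap (LaurentSeries k) Ω (sb ξ e) := by
  intro d
  induction d using induction_on_primes with
  | zero => intro h; exact absurd (Nat.eq_zero_of_zero_dvd h) hN₁
  | one => intro _; exact ⟨1, N₁, hN₁, by simp, h1⟩
  | prime_mul r d' hr ih =>
    intro hd
    have hd' : d' ∣ N₁ := (Dvd.intro_left r rfl).trans hd
    obtain ⟨ξ, e, he, hNe, hτ⟩ := ih hd'
    have hd'0 : d' ≠ 0 := by
      rintro rfl
      exact hN₁ (Nat.eq_zero_of_zero_dvd hd')
    have hre : r ∣ e := Nat.dvd_of_mul_dvd_mul_right (Nat.pos_of_ne_zero hd'0) (hd.trans hNe)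
    have : NeZero r := ⟨hr.ne_zero⟩
    obtain ⟨ζ, Φ, -, -, -, hΦ⟩ := hsplit r hr ((Dvd.intro d' rfl).trans hd)
    obtain ⟨ξA, hA⟩ := chain_step hΩ hΦ ξ he hre
    have hrel : ev Φ (j d') (j (r * d')) = 0 := by
      apply (ι : K →+* LaurentSeries k).injective
      show ι (ev Φ (j d') (j (r * d'))) = ι 0
      rw [← ev_algHom, map_zero, hj _ hd', hj _ hd, mul_comm r d']
      exact ev_sb_mul hΦ hd'0
    have hrel' : ev Φ (τ (j d')) (τ (j (r * d'))) = 0 := by rw [ev_algHom, hrel, map_zero]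
    rw [hτ] at hrel'
    rcases hA _ hrel' with h | ⟨ξ₂, h⟩
    · exact ⟨ξA, e * r, mul_ne_zero he hr.ne_zero, hNe.trans ⟨r * r, by ring⟩, h⟩
    · refine ⟨ξ₂, e / r, ?_, ?_, h⟩
      · exact (Nat.div_pos (Nat.le_of_dvd (Nat.pos_of_ne_zero he) hre) hr.pos).ne'
      · rw [← mul_assoc, Nat.div_mul_cancel hre]
        exact hNe

/-- along the `p`-chain the exponent goes down: the conjugate of `J(q^(p^i))` is
`J(ξ u^(N₁/p^i))`. -/
theorem pchain (hN₁ : N₁ ≠ 0) {p : ℕ} [NeZero p] (hp : p.Prime) {ζ : kˣ}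
    {Φ : Polynomial (Polynomial k)}
    (hΦ : Φ.map (aeval (qExpand k p (jqModC k))).toRingHom =
      (X - C (qExpand k (p ^ 2) (jqModC k))) *
        ∏ b ∈ Finset.range p, (X - C (twist (ζ ^ b) (jqModC k))))
    (h1 : τ (j 1) = algebraMap (LaurentSeries k) Ω (sb (1 : kˣ) N₁))
    (hp1 : ∃ ξ : kˣ, τ (j p) = algebraMap (LaurentSeries k) Ω (sb ξ (N₁ / p))) :
    ∀ i, p ^ (i + 1) ∣ N₁ →
      (∃ ξ : kˣ, τ (j (p ^ i)) = algebraMap (LaurentSeries k) Ω (sb ξ (N₁ / p ^ i))) ∧
      (∃ ξ : kˣ, τ (j (p ^ (i + 1))) =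
        algebraMap (LaurentSeries k) Ω (sb ξ (N₁ / p ^ (i + 1)))) := by
  intro i
  induction i with
  | zero => intro _; exact ⟨⟨1, by simpa using h1⟩, by simpa using hp1⟩
  | succ i ih =>
    intro hdvd
    have hdvd1 : p ^ (i + 1) ∣ N₁ := (pow_dvd_pow p (Nat.le_succ _)).trans hdvd
    have hdvd0 : p ^ i ∣ N₁ := (pow_dvd_pow p (Nat.le_succ _)).trans hdvd1
    obtain ⟨⟨ξ₀, h0⟩, ⟨ξ, h1'⟩⟩ := ih hdvd1
    refine ⟨⟨ξ, h1'⟩, ?_⟩
    have hp0 : 0 < p := hp.pos
    obtain ⟨m, hm⟩ := id hdvd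
    have hm0 : m ≠ 0 := by
      rintro rfl
      exact hN₁ (by rw [hm, mul_zero])
    have he : N₁ / p ^ (i + 1) = p * m := by
      rw [hm, show p ^ (i + 1 + 1) * m = p ^ (i + 1) * (p * m) by ring,
        Nat.mul_div_cancel_left _ (pow_pos hp0 _)]
    have hNi : N₁ / p ^ i = p * m * p := by
      rw [hm, show p ^ (i + 1 + 1) * m = p ^ i * (p * m * p) by ring,
        Nat.mul_div_cancel_left _ (pow_pos hp0 _)]
    have hNi2 : N₁ / p ^ (i + 1 + 1) = p * m / p := by
      rw [hm, Nat.mul_div_cancel_left _ (pow_pos hp0 _), Nat.mul_div_cancel_left _ hp0]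
    have he0 : p * m ≠ 0 := mul_ne_zero hp.ne_zero hm0
    rw [he] at h1'
    rw [hNi] at h0
    rw [hNi2]
    obtain ⟨ξA, hA⟩ := chain_step hΩ hΦ ξ he0 (Dvd.intro m rfl)
    have hrel1 : ev Φ (j (p ^ (i + 1))) (j (p ^ (i + 1 + 1))) = 0 := by
      apply (ι : K →+* LaurentSeries k).injective
      show ι (ev Φ (j (p ^ (i + 1))) (j (p ^ (i + 1 + 1)))) = ι 0
      rw [← ev_algHom, map_zero, hj _ hdvd1, hj _ hdvd, pow_succ p (i + 1)]
      exact ev_sb_mul hΦ (pow_pos hp0 _).ne'
    have hrel2 : ev Φ (j (p ^ (i + 1))) (j (p ^ i)) = 0 := by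
      apply (ι : K →+* LaurentSeries k).injective
      show ι (ev Φ (j (p ^ (i + 1))) (j (p ^ i))) = ι 0
      rw [← ev_algHom, map_zero, hj _ hdvd1, hj _ hdvd0, pow_succ p i]
      exact ev_sb_mul' hΦ (pow_pos hp0 _).ne'
    have t1 : ev Φ (τ (j (p ^ (i + 1)))) (τ (j (p ^ (i + 1 + 1)))) = 0 := by
      rw [ev_algHom, hrel1, map_zero]
    have t2 : ev Φ (τ (j (p ^ (i + 1)))) (τ (j (p ^ i))) = 0 := by
      rw [ev_algHom, hrel2, map_zero]
    rw [h1'] at t1 t2
    have hinj := (algebraMap (LaurentSeries k) Ω).injective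
    have hA0 : τ (j (p ^ i)) = algebraMap (LaurentSeries k) Ω (sb ξA (p * m * p)) := by
      rcases hA _ t2 with h | ⟨ξ₂, h⟩
      · exact h
      · exfalso
        rw [h0] at h
        have h3 := sb_exp_eq (mul_ne_zero he0 hp.ne_zero) (by
          rw [Nat.mul_div_cancel_left _ hp0]; exact hm0) (hinj h)
        rw [Nat.mul_div_cancel_left _ hp0] at h3
        have h4 : m * (p * p) = m * 1 := by rw [mul_one]; nth_rw 2 [← h3]; ring
        have h5 := Nat.eq_of_mul_eq_mul_left (Nat.pos_of_ne_zero hm0) h4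
        have := hp.two_le
        nlinarith
    rcases hA _ t1 with h | ⟨ξ₂, h⟩
    · exfalso
      rw [← hA0] at h
      have h3 := (τ : K →+* Ω).injective h
      have h4 := congrArg ι h3
      rw [hj _ hdvd, hj _ hdvd0] at h4
      have h5 := sb_exp_eq (pow_pos hp0 _).ne' (pow_pos hp0 _).ne' h4
      have h6 := Nat.pow_right_injective hp.two_le h5
      omega
    · exact ⟨ξ₂, h⟩

end Chain

/-! ### The conjugate embedding -/

section Tau

variable (k : Type*) [Field k]

/-- `k(J)` -/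
abbrev FJ : IntermediateField k (LaurentSeries k) := IntermediateField.adjoin k {jqModC k}

/-- the algebraic closure of `k(J)` in `k((q))` -/
abbrev AJ : IntermediateField (FJ k) (LaurentSeries k) :=
  algebraicClosure (FJ k) (LaurentSeries k)

variable {k}

theorem J_mem_FJ : jqModC k ∈ FJ k := IntermediateField.mem_adjoin_simple_self k _

theorem J_mem_AJ : jqModC k ∈ AJ k := (AJ k).algebraMap_mem ⟨jqModC k, J_mem_FJ⟩

/-- a root of a monic polynomial `Φ(X; s)` with `s ∈ AJ` is in `AJ`. -/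
theorem mem_AJ_of_ev {Φ : Polynomial (Polynomial k)} (hm : Φ.Monic) {s y : LaurentSeries k}
    (hs : s ∈ AJ k) (h : ev Φ s y = 0) : y ∈ AJ k := by
  have hint : IsIntegral (AJ k) y := by
    refine ⟨Φ.map (aeval (⟨s, hs⟩ : AJ k)).toRingHom, hm.map _, ?_⟩
    rw [← Polynomial.aeval_def]
    exact (ev_eq_aeval_map (k := k) (S := ↥(AJ k)) (S' := LaurentSeries k) (fun c => rfl)
      Φ ⟨s, hs⟩ y).trans h
  have : Algebra.IsIntegral (FJ k) (AJ k) := Algebra.IsAlgebraic.isIntegral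
  have h2 : IsIntegral (FJ k) y := isIntegral_trans y hint
  exact mem_algebraicClosure_iff.2 h2.isAlgebraic

theorem sb_mem_AJ {N₁ : ℕ} (hN₁ : N₁ ≠ 0)
    (hsplit : ∀ (r : ℕ) [NeZero r], r.Prime → r ∣ N₁ → SplitAt k r) :
    ∀ d, d ∣ N₁ → sb (1 : kˣ) d ∈ AJ k := by
  intro d
  induction d using induction_on_primes with
  | zero => intro h; exact absurd (Nat.eq_zero_of_zero_dvd h) hN₁
  | one => intro _; rw [sb_one_one]; exact J_mem_AJ
  | prime_mul r d' hr ih =>
    intro hd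
    have hd' : d' ∣ N₁ := (Dvd.intro_left r rfl).trans hd
    have hd'0 : d' ≠ 0 := by
      rintro rfl
      exact hN₁ (Nat.eq_zero_of_zero_dvd hd')
    have : NeZero r := ⟨hr.ne_zero⟩
    obtain ⟨ζ, Φ, -, hm, -, hΦ⟩ := hsplit r hr ((Dvd.intro d' rfl).trans hd)
    rw [mul_comm r d']
    exact mem_AJ_of_ev hm (ih hd') (ev_sb_mul hΦ hd'0)

end Tau

section TauExists

variable {k : Type*} [Field k] {Ω : Type*} [Field Ω] [IsAlgClosed Ω]
  [Algebra (LaurentSeries k) Ω] [Algebra k Ω]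
  (hΩ : ∀ c : k, algebraMap (LaurentSeries k) Ω (algebraMap k (LaurentSeries k) c) =
    algebraMap k Ω c)

include hΩ

/-- an embedding of the algebraic closure of `k(J)` in `k((q))` into `Ω` which is `q ↦ u^N₁` on
`k(J)` and moves `J(q^p)` to some `J(ξ u^(N₁/p))`. -/
theorem exists_tau {N₁ p : ℕ} [NeZero p] (hN₁ : N₁ ≠ 0) (hpN : p ∣ N₁) {ζ : kˣ}
    {Φ : Polynomial (Polynomial k)} (hm : Φ.Monic)
    (hΦ : Φ.map (aeval (qExpand k p (jqModC k))).toRingHom =
      (X - C (qExpand k (p ^ 2) (jqModC k))) *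
        ∏ b ∈ Finset.range p, (X - C (twist (ζ ^ b) (jqModC k))))
    (hI2 : qExpand k p (jqModC k) ∉ FJ k) :
    ∃ (τ : ↥(AJ k) →ₐ[k] Ω) (ξ : kˣ),
      (∀ x : ↥(AJ k), (x : LaurentSeries k) = jqModC k →
        τ x = algebraMap (LaurentSeries k) Ω (sb (1 : kˣ) N₁)) ∧
      (∀ x : ↥(AJ k), (x : LaurentSeries k) = sb (1 : kˣ) p →
        τ x = algebraMap (LaurentSeries k) Ω (sb ξ (N₁ / p))) := by
  classical
  have : NeZero N₁ := ⟨hN₁⟩
  obtain ⟨e', he'⟩ := hpN
  have he'0 : e' ≠ 0 := fun h => hN₁ (by rw [he', h, mul_zero])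
  have : NeZero e' := ⟨he'0⟩
  have hdiv : N₁ / p = e' := by rw [he', Nat.mul_div_cancel_left _ (Nat.pos_of_ne_zero (NeZero.ne p))]
  let algFΩ : Algebra (FJ k) Ω :=
    (((algebraMap (LaurentSeries k) Ω).comp (qExpand k N₁)).comp
      (algebraMap (FJ k) (LaurentSeries k))).toAlgebra
  have halg : ∀ z : FJ k, algebraMap (FJ k) Ω z =
      algebraMap (LaurentSeries k) Ω (qExpand k N₁ (z : LaurentSeries k)) := fun z => rfl
  have hcomm : ∀ c : k, algebraMap (FJ k) Ω (algebraMap k (FJ k) c) = algebraMap k Ω c := by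
    intro c
    rw [halg]
    show algebraMap (LaurentSeries k) Ω (qExpand k N₁ (algebraMap k (LaurentSeries k) c)) = _
    rw [algebraMap_laurentSeries_eq_single, qExpand_single, mul_zero,
      ← algebraMap_laurentSeries_eq_single, hΩ]
  have hrel : ev Φ (jqModC k) (sb (1 : kˣ) p) = 0 := by
    rw [sb_one]
    exact ev_J_Jp hΦ
  have hJp : sb (1 : kˣ) p ∈ AJ k := mem_AJ_of_ev hm J_mem_AJ hrel
  set xp : AJ k := ⟨sb 1 p, hJp⟩ with hxp
  set JF : FJ k := ⟨jqModC k, J_mem_FJ⟩ with hJF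
  set ΦF : (FJ k)[X] := Φ.map (aeval JF).toRingHom with hΦF_def
  have hΦF : aeval xp ΦF = 0 := by
    apply Subtype.ext
    have h1 := Polynomial.aeval_algebraMap_apply (LaurentSeries k) xp ΦF
    have h2 : aeval (algebraMap (AJ k) (LaurentSeries k) xp) ΦF = 0 :=
      (ev_eq_aeval_map (k := k) (S := ↥(FJ k)) (S' := LaurentSeries k) (fun c => rfl)
        Φ JF (sb (1 : kˣ) p)).trans hrel
    rw [h2] at h1
    exact h1.symm
  have hdvd : minpoly (FJ k) xp ∣ ΦF := minpoly.dvd _ _ hΦF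
  have hψJ : algebraMap (FJ k) Ω JF = rho hΩ 1 e' (qExpand k p (jqModC k)) := by
    rw [halg, rho_apply, ← sb_one p, subst_sb _ _ _ (NeZero.ne p), ← sb_one N₁, one_pow, one_mul,
      he', mul_comm p e']
  have hmap : ΦF.map (algebraMap (FJ k) Ω) =
      Φ.map (aeval (algebraMap (FJ k) Ω JF)).toRingHom := by
    rw [hΦF_def, Polynomial.map_map]
    congr 1
    apply Polynomial.ringHom_ext
    · intro c
      simp [hcomm]
    · simp
  rw [hψJ, split_map hΦ (rho hΩ 1 e')] at hmap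
  set μ := minpoly (FJ k) xp with hμ
  have hint : IsIntegral (FJ k) xp := by
    have : Algebra.IsIntegral (FJ k) (AJ k) := Algebra.IsAlgebraic.isIntegral
    exact Algebra.IsIntegral.isIntegral xp
  have hdvd' := Polynomial.map_dvd (algebraMap (FJ k) Ω) hdvd
  rw [hmap] at hdvd'
  have hex : ∃ b < p, (μ.map (algebraMap (FJ k) Ω)).eval
      (rho hΩ 1 e' (twist (ζ ^ b) (jqModC k))) = 0 := by
    by_contra hcon
    push Not at hcon
    have hcop : IsCoprime (μ.map (algebraMap (FJ k) Ω))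
        (∏ b ∈ Finset.range p, (X - C (rho hΩ 1 e' (twist (ζ ^ b) (jqModC k))))) := by
      apply IsCoprime.prod_right
      intro b hb
      rw [isCoprime_comm, (Polynomial.irreducible_X_sub_C _).coprime_iff_not_dvd,
        Polynomial.dvd_iff_isRoot]
      exact hcon b (Finset.mem_range.1 hb)
    have h1 := hcop.dvd_of_dvd_mul_right hdvd'
    have h2 : (μ.map (algebraMap (FJ k) Ω)).natDegree ≤ 1 :=
      (Polynomial.natDegree_le_of_dvd h1 (Polynomial.X_sub_C_ne_zero _)).trans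
        (Polynomial.natDegree_X_sub_C _).le
    rw [Polynomial.natDegree_map] at h2
    have h3 : μ.natDegree = 1 := le_antisymm h2 (minpoly.natDegree_pos hint)
    obtain ⟨z, hz⟩ := minpoly.natDegree_eq_one_iff.1 h3
    apply hI2
    have h4 : (z : LaurentSeries k) = sb (1 : kˣ) p := congrArg Subtype.val hz
    rw [← sb_one p, ← h4]
    exact z.2
  obtain ⟨b, hb, hroot⟩ := hex
  have hy : aeval (rho hΩ 1 e' (twist (ζ ^ b) (jqModC k))) μ = 0 := by
    rw [Polynomial.aeval_def, ← Polynomial.eval_map]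
    exact hroot
  have hAI : Algebra.IsIntegral (FJ k) (AJ k) := Algebra.IsAlgebraic.isIntegral
  obtain ⟨φ, hφ⟩ := IntermediateField.exists_algHom_of_splits_of_aeval
    (fun s : AJ k => ⟨Algebra.IsIntegral.isIntegral s, IsAlgClosed.splits _⟩) hy
  refine ⟨{ toRingHom := φ.toRingHom, commutes' := ?_ }, 1 * ζ ^ b, ?_, ?_⟩
  · intro c
    show φ (algebraMap k (AJ k) c) = algebraMap k Ω c
    have h5 : algebraMap k (AJ k) c = algebraMap (FJ k) (AJ k) (algebraMap k (FJ k) c) := rfl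
    rw [h5, φ.commutes, hcomm]
  · intro x hx
    have h5 : x = algebraMap (FJ k) (AJ k) JF := Subtype.ext hx
    show φ x = _
    rw [h5, φ.commutes, halg, sb_one]
  · intro x hx
    have h5 : x = xp := Subtype.ext hx
    show φ x = _
    rw [h5, hφ, rho_apply, twist_eq_sb, subst_sb _ _ _ one_ne_zero, pow_one, mul_one, hdiv]

end TauExists

/-! ### The tower step -/

section Step

variable {k : Type*} [Field k]

/-- `1, x, …, x^(D-1)` are linearly independent over `L`. -/
def SumInd (L : IntermediateField k (LaurentSeries k)) (x : LaurentSeries k) (D : ℕ) : Prop :=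
  ∀ c : ℕ → LaurentSeries k, (∀ i, c i ∈ L) →
    ∑ i ∈ Finset.range D, c i * x ^ i = 0 → ∀ i < D, c i = 0

theorem step_p [IsAlgClosed k] (p M : ℕ) (hp : p.Prime) (hM : M ≠ 0)
    (hsplit : ∀ (r : ℕ) [NeZero r], r.Prime → r ∣ p * M → SplitAt k r)
    (hprime : ∀ (r : ℕ) [NeZero r], r.Prime → r ∣ p * M → qExpand k r (jqModC k) ∉ FJ k) :
    ∃ t : ℕ, t ≠ 0 ∧ p ^ t ∣ p * M ∧ (¬ p ∣ M → t = 1) ∧
      SumInd (modularFunctionFieldFullC k M) (sb (1 : kˣ) (p ^ t)) p ∧
      (¬ p ∣ M → sb (1 : kˣ) p ∉ modularFunctionFieldFullC k M) := by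
  classical
  have hN₁ : p * M ≠ 0 := mul_ne_zero hp.ne_zero hM
  have : NeZero p := ⟨hp.ne_zero⟩
  have hpN : p ∣ p * M := Dvd.intro M rfl
  obtain ⟨ζ, Φ, -, hm, -, hΦ⟩ := hsplit p hp hpN
  have hΩ : ∀ c : k, algebraMap (LaurentSeries k) (AlgebraicClosure (LaurentSeries k))
      (algebraMap k (LaurentSeries k) c) = algebraMap k (AlgebraicClosure (LaurentSeries k)) c :=
    fun c => rfl
  obtain ⟨τ, ξ₁, hτJ, hτp⟩ := exists_tau hΩ hN₁ hpN hm hΦ (hprime p hp hpN)
  let ι : ↥(AJ k) →ₐ[k] LaurentSeries k :=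
    { toRingHom := algebraMap (AJ k) (LaurentSeries k), commutes' := fun c => rfl }
  have hιinj : Function.Injective ι := Subtype.val_injective
  have hτinj : Function.Injective τ := (τ : ↥(AJ k) →+* AlgebraicClosure (LaurentSeries k)).injective
  have hainj := (algebraMap (LaurentSeries k) (AlgebraicClosure (LaurentSeries k))).injective
  have hmem := sb_mem_AJ hN₁ hsplit
  let j : ℕ → ↥(AJ k) := fun d => if h : d ∣ p * M then ⟨sb 1 d, hmem d h⟩ else 0
  have hj : ∀ d, d ∣ p * M → ι (j d) = sb (1 : kˣ) d := by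
    intro d hd
    simp only [j, dif_pos hd]
    rfl
  have h1 : τ (j 1) = algebraMap (LaurentSeries k) (AlgebraicClosure (LaurentSeries k))
      (sb (1 : kˣ) (p * M)) := hτJ _ ((hj 1 (one_dvd _)).trans sb_one_one)
  have hp1 : τ (j p) = algebraMap (LaurentSeries k) (AlgebraicClosure (LaurentSeries k))
      (sb ξ₁ (p * M / p)) := hτp _ (hj p hpN)
  have hchain := chain hΩ ι τ j hj hN₁ hsplit h1
  have hpchain := pchain hΩ ι τ j hj hN₁ hp hΦ h1 ⟨ξ₁, hp1⟩
  obtain ⟨t, n', hn', hN⟩ := Nat.exists_eq_pow_mul_and_not_dvd hN₁ p hp.ne_one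
  have ht : t ≠ 0 := by
    rintro rfl
    rw [pow_zero, one_mul] at hN
    exact hn' (hN ▸ hpN)
  obtain ⟨t', rfl⟩ : ∃ t', t = t' + 1 := Nat.exists_eq_succ_of_ne_zero ht
  have hpt : p ^ (t' + 1) ∣ p * M := ⟨n', hN⟩
  obtain ⟨-, ξ, hξ⟩ := hpchain t' hpt
  have hdiv : p * M / p ^ (t' + 1) = n' := by
    rw [hN, Nat.mul_div_cancel_left _ (pow_pos hp.pos _)]
  rw [hdiv] at hξ
  have hn'0 : n' ≠ 0 := by
    rintro rfl
    exact hN₁ (by rw [hN, mul_zero])
  -- the lifting property of `L_M`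
  have hlift : ∀ z ∈ modularFunctionFieldFullC k M, ∃ z' : ↥(AJ k), ι z' = z ∧
      ∃ w : LaurentSeries k, τ z' =
        algebraMap (LaurentSeries k) (AlgebraicClosure (LaurentSeries k)) (qExpand k p w) := by
    have hle : modularFunctionFieldFullC k M ≤
        (((aHom hΩ).comp (qExpandAlgHomC k p)).fieldRange.comap τ).map ι := by
      rw [modularFunctionFieldFullC, IntermediateField.adjoin_le_iff]
      rintro x ⟨d, hd0, hdM, rfl⟩
      have hdN : d ∣ p * M := hdM.trans (Dvd.intro_left p rfl)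
      obtain ⟨ξ, e, he, hNe, hτd⟩ := hchain d hdN
      have hpe : p ∣ e := by
        obtain ⟨s, rfl⟩ := hdM
        have h2 : d * (p * s) ∣ d * e := by
          rw [mul_comm d e]
          convert hNe using 1
          ring
        exact (Dvd.intro s rfl).trans
          (Nat.dvd_of_mul_dvd_mul_left (Nat.pos_of_ne_zero (NeZero.ne d)) h2)
      refine (IntermediateField.mem_map _).2 ⟨j d, ?_, ?_⟩
      · show τ (j d) ∈ ((aHom hΩ).comp (qExpandAlgHomC k p)).fieldRange
        rw [hτd]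
        obtain ⟨w, hw⟩ := sb_mem_range (p := p) ξ he hpe
        exact AlgHom.mem_fieldRange.2 ⟨w, by rw [← hw]; rfl⟩
      · rw [hj d hdN, sb_one]
    intro z hz
    obtain ⟨z', hz'mem, hz'⟩ := (IntermediateField.mem_map _).1 (hle hz)
    obtain ⟨w, hw⟩ := AlgHom.mem_fieldRange.1 hz'mem
    exact ⟨z', hz', w, hw.symm⟩
  refine ⟨t' + 1, ht, hpt, ?_, ?_, ?_⟩
  · intro hpM
    by_contra ht1
    obtain ⟨t'', rfl⟩ : ∃ t'', t' = t'' + 1 := Nat.exists_eq_succ_of_ne_zero (by omega)
    apply hpM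
    have h2 : p * M = p * (p ^ (t'' + 1) * n') := by rw [hN]; ring
    have h3 := Nat.eq_of_mul_eq_mul_left hp.pos h2
    rw [h3, pow_succ, mul_assoc]
    exact (Dvd.intro n' rfl : p ∣ p * n').mul_left _
  · intro c hc hsum i hi
    choose c' hc' w hw using fun i => hlift (c i) (hc i)
    have h0 : ∑ i ∈ Finset.range p, c' i * (j (p ^ (t' + 1))) ^ i = 0 := by
      apply hιinj
      rw [map_sum, map_zero]
      simp only [map_mul, map_pow, hc', hj _ hpt]
      exact hsum
    have h2 : ∑ i ∈ Finset.range p, qExpand k p (w i) * (sb ξ n') ^ i = 0 := by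
      apply hainj
      have h3 := congrArg τ h0
      rw [map_sum, map_zero] at h3
      simp only [map_mul, map_pow, hw, hξ] at h3
      rw [map_sum, map_zero]
      simpa only [map_mul, map_pow] using h3
    have hcop : IsCoprime (sb ξ n').order (p : ℤ) := by
      rw [order_sb ξ hn'0]
      exact (Nat.isCoprime_iff_coprime.2
        ((Nat.Prime.coprime_iff_not_dvd hp).2 hn').symm).neg_left
    have h4 := S28_Irr.eq_zero_of_sum_mul_pow_eq_zero p (sb ξ n') hcop
      (fun i => qExpand k p (w i)) (fun i _ => ⟨w i, rfl⟩) h2 i hi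
    have h5 : τ (c' i) = 0 := by rw [hw, h4, map_zero]
    have h6 : c' i = 0 := hτinj (h5.trans (map_zero τ).symm)
    rw [← hc' i, h6, map_zero]
  · intro hpM hmemL
    obtain ⟨z', hz', w, hw⟩ := hlift _ hmemL
    have h2 : z' = j p := hιinj (hz'.trans (hj p hpN).symm)
    rw [h2, hp1, Nat.mul_div_cancel_left _ hp.pos] at hw
    exact sb_not_mem_range ξ₁ hM hpM ⟨w, (hainj hw).symm⟩

end Step

/-! ### From `p` to `p + 1` -/

section Succ

variable {k : Type*} [Field k]

theorem sumInd_iff_poly (L : IntermediateField k (LaurentSeries k)) (x : LaurentSeries k)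
    (D : ℕ) :
    SumInd L x D ↔ ∀ g : Polynomial L, g.natDegree < D → aeval x g = 0 → g = 0 := by
  constructor
  · intro h g hg hx
    have key : aeval x g = ∑ i ∈ Finset.range D, (g.coeff i : LaurentSeries k) * x ^ i := by
      rw [Polynomial.aeval_eq_sum_range' hg]
      refine Finset.sum_congr rfl (fun i _ => ?_)
      rw [Algebra.smul_def]
      rfl
    have h1 := h (fun i => (g.coeff i : LaurentSeries k)) (fun i => (g.coeff i).2)
      (key.symm.trans hx)
    apply Polynomial.ext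
    intro n
    by_cases hn : n < D
    · have h2 := h1 n hn
      rw [Polynomial.coeff_zero]
      exact ZeroMemClass.coe_eq_zero.1 h2
    · rw [Polynomial.coeff_zero]
      exact Polynomial.coeff_eq_zero_of_natDegree_lt (by omega)
  · intro h c hc hsum i hi
    set g : Polynomial L := ∑ i ∈ Finset.range D, C (⟨c i, hc i⟩ : L) * X ^ i with hg
    have hcoeff : g.coeff i = ⟨c i, hc i⟩ := by
      rw [hg, Polynomial.finsetSum_coeff]
      simp only [Polynomial.coeff_C_mul_X_pow]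
      rw [Finset.sum_ite_eq (Finset.range D) i]
      simp [hi]
    have hdeg : g.natDegree < D := by
      have h1 : g.natDegree ≤ D - 1 := by
        apply Polynomial.natDegree_sum_le_of_forall_le
        intro n hn
        have := Finset.mem_range.1 hn
        exact (Polynomial.natDegree_C_mul_X_pow_le _ _).trans (by omega)
      omega
    have hx : aeval x g = 0 := by
      rw [hg, map_sum, ← hsum]
      refine Finset.sum_congr rfl (fun n _ => ?_)
      rw [map_mul, map_pow, Polynomial.aeval_C, Polynomial.aeval_X]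
      rfl
    have h2 := h g hdeg hx
    rw [h2, Polynomial.coeff_zero] at hcoeff
    exact (congrArg Subtype.val hcoeff).symm

theorem sumInd_succ {p : ℕ} [NeZero p] (hp : p.Prime) {ζ : kˣ} {Φ : Polynomial (Polynomial k)}
    (hm : Φ.Monic) (hdeg : Φ.natDegree = p + 1)
    (hΦ : Φ.map (aeval (qExpand k p (jqModC k))).toRingHom =
      (X - C (qExpand k (p ^ 2) (jqModC k))) *
        ∏ b ∈ Finset.range p, (X - C (twist (ζ ^ b) (jqModC k))))
    (L : IntermediateField k (LaurentSeries k)) (hJ : jqModC k ∈ L)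
    (hJp : sb (1 : kˣ) p ∉ L) (h : SumInd L (sb (1 : kˣ) p) p) :
    SumInd L (sb (1 : kˣ) p) (p + 1) := by
  rw [sumInd_iff_poly] at h ⊢
  set x : LaurentSeries k := sb (1 : kˣ) p with hx
  have hrel : ev Φ (jqModC k) x = 0 := by
    rw [hx, sb_one]
    exact ev_J_Jp hΦ
  set ΦL : Polynomial L := Φ.map (aeval (⟨jqModC k, hJ⟩ : L)).toRingHom with hΦL
  have hΦLm : ΦL.Monic := hm.map _
  have hΦLdeg : ΦL.natDegree = p + 1 := by rw [hΦL, hm.natDegree_map, hdeg]
  have hev : ∀ y : LaurentSeries k, aeval y ΦL = ev Φ (jqModC k) y := fun y =>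
    ev_eq_aeval_map (k := k) (S := ↥L) (S' := LaurentSeries k) (fun c => rfl) Φ ⟨jqModC k, hJ⟩ y
  have hint : IsIntegral L x := ⟨ΦL, hΦLm, by rw [← Polynomial.aeval_def, hev]; exact hrel⟩
  set μ := minpoly L x with hμ
  have hμdvd : μ ∣ ΦL := minpoly.dvd _ _ (by rw [hev]; exact hrel)
  have hμp : p ≤ μ.natDegree := by
    by_contra hlt
    exact minpoly.ne_zero hint (h μ (by omega) (minpoly.aeval L x))
  have hμp1 : p + 1 ≤ μ.natDegree := by
    by_contra hlt
    have hμeq : μ.natDegree = p := by omega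
    obtain ⟨q, hq⟩ := hμdvd
    have hqm : q.Monic := (minpoly.monic hint).of_mul_monic_left (hq ▸ hΦLm)
    have hqdeg : q.natDegree = 1 := by
      have h1 := congrArg Polynomial.natDegree hq
      rw [Polynomial.natDegree_mul (minpoly.ne_zero hint) hqm.ne_zero, hΦLdeg, hμeq] at h1
      omega
    obtain ⟨c₀, hc₀⟩ : ∃ c₀ : L, q = X + C c₀ := ⟨_, hqm.eq_X_add_C hqdeg⟩
    have hroot : aeval ((-c₀ : L) : LaurentSeries k) ΦL = 0 := by
      rw [hq, map_mul]
      have : aeval ((-c₀ : L) : LaurentSeries k) q = 0 := by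
        rw [hc₀, map_add, Polynomial.aeval_X, Polynomial.aeval_C]
        show ((-c₀ : L) : LaurentSeries k) + ((c₀ : L) : LaurentSeries k) = 0
        push_cast
        ring
      rw [this, mul_zero]
    rw [hev] at hroot
    have h3 := root_unique hp hΦ hroot
    apply hJp
    rw [hx, sb_one p, ← h3]
    exact (-c₀ : L).2
  intro g hg hgx
  by_contra hg0
  have h1 : μ.natDegree ≤ g.natDegree :=
    Polynomial.natDegree_le_of_dvd (minpoly.dvd L x hgx) hg0
  omega

end Succ

/-! ### The tower -/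

section Main

variable {k : Type*} [Field k]

theorem divisorExpansionsC_mono {M N : ℕ} (h : M ∣ N) :
    divisorExpansionsC k M ⊆ divisorExpansionsC k N := by
  rintro x ⟨d, hd0, hdM, rfl⟩
  exact ⟨d, hd0, hdM.trans h, rfl⟩

theorem closure_le_full (M : ℕ) {x : LaurentSeries k}
    (hx : x ∈ Submonoid.closure (divisorExpansionsC k M)) : x ∈ modularFunctionFieldFullC k M := by
  induction hx using Submonoid.closure_induction with
  | mem x hx => exact IntermediateField.subset_adjoin k _ hx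
  | one => exact one_mem _
  | mul x y _ _ hx hy => exact mul_mem hx hy

theorem FJ_le_full (M : ℕ) : FJ k ≤ modularFunctionFieldFullC k M := by
  rw [IntermediateField.adjoin_le_iff]
  rintro x rfl
  exact jqModC_mem_full k M

variable [IsAlgClosed k]

theorem claim (N : ℕ) : N ≠ 0 →
    (∀ (p : ℕ) [NeZero p], p.Prime → p ∣ N → SplitAt k p) →
    (∀ (p : ℕ) [NeZero p], p.Prime → p ∣ N → qExpand k p (jqModC k) ∉ FJ k) →
    ∃ (I : Type) (_ : Fintype I) (θ : I → LaurentSeries k), Fintype.card I = dedekindPsi N ∧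
      (∀ i, θ i ∈ Submonoid.closure (divisorExpansionsC k N)) ∧
      LinearIndependent (FJ k) θ := by
  induction N using induction_on_primes with
  | zero => intro h; exact absurd rfl h
  | one =>
    intro _ _ _
    refine ⟨Unit, inferInstance, fun _ => 1, by simp [dedekindPsi_one], fun _ => one_mem _, ?_⟩
    rw [linearIndependent_unique_iff]
    exact one_ne_zero
  | prime_mul p M hp ih =>
    intro hN hsplit hprime
    have hM : M ≠ 0 := fun h => hN (by rw [h, mul_zero])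
    obtain ⟨I, hI, θ, hcard, hθmem, hθind⟩ := ih hM
      (fun r _ hr hrM => hsplit r hr (hrM.mul_left p))
      (fun r _ hr hrM => hprime r hr (hrM.mul_left p))
    obtain ⟨t, ht, hpt, ht1, hsum, hnotmem⟩ := step_p p M hp hM hsplit hprime
    have : NeZero p := ⟨hp.ne_zero⟩
    obtain ⟨D, hD, hsumD⟩ : ∃ D, dedekindPsi (p * M) = dedekindPsi M * D ∧
        SumInd (modularFunctionFieldFullC k M) (sb (1 : kˣ) (p ^ t)) D := by
      by_cases hpM : p ∣ M
      · exact ⟨p, by rw [S24_Comb.dedekindPsi_prime_mul_of_dvd p M hp hM hpM, mul_comm], hsum⟩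
      · refine ⟨p + 1,
          by rw [S24_Comb.dedekindPsi_prime_mul_of_not_dvd p M hp hM hpM, mul_comm], ?_⟩
        have ht' := ht1 hpM
        subst ht'
        rw [pow_one] at hsum ⊢
        obtain ⟨ζ, Φ, -, hm, hdeg, hΦ⟩ := hsplit p hp (Dvd.intro M rfl)
        exact sumInd_succ hp hm hdeg hΦ _ (jqModC_mem_full k M) (hnotmem hpM) hsum
    refine ⟨I × Fin D, inferInstance, fun ij => θ ij.1 * sb (1 : kˣ) (p ^ t) ^ (ij.2 : ℕ),
      ?_, ?_, ?_⟩
    · rw [Fintype.card_prod, Fintype.card_fin, hcard, hD]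
    · intro ij
      refine mul_mem ?_ (pow_mem ?_ _)
      · exact Submonoid.closure_mono (divisorExpansionsC_mono (Dvd.intro_left p rfl)) (hθmem ij.1)
      · exact Submonoid.subset_closure (sb_mem_divisorExpansionsC hpt (pow_pos hp.pos t).ne')
    · rw [Fintype.linearIndependent_iff]
      intro c hc ij
      set c' : ℕ → LaurentSeries k :=
        fun n => if h : n < D then ∑ i, c (i, ⟨n, h⟩) • θ i else 0 with hc'
      have hc'mem : ∀ n, c' n ∈ modularFunctionFieldFullC k M := by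
        intro n
        simp only [hc']
        split_ifs with h
        · refine sum_mem (fun i _ => ?_)
          rw [Algebra.smul_def]
          exact mul_mem (FJ_le_full M (c (i, ⟨n, h⟩)).2) (closure_le_full M (hθmem i))
        · exact zero_mem _
      have hc'sum : ∑ n ∈ Finset.range D, c' n * sb (1 : kˣ) (p ^ t) ^ n = 0 := by
        rw [← hc, Fintype.sum_prod_type_right, Finset.sum_range]
        refine Finset.sum_congr rfl (fun n _ => ?_)
        simp only [hc', dif_pos n.2, Fin.eta]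
        rw [Finset.sum_mul]
        refine Finset.sum_congr rfl (fun i _ => ?_)
        rw [smul_mul_assoc]
      have h0 := hsumD c' hc'mem hc'sum ij.2 ij.2.2
      simp only [hc', dif_pos ij.2.2, Fin.eta] at h0
      exact Fintype.linearIndependent_iff.1 hθind (fun i => c (i, ij.2)) h0 ij.1

/-- TOWER over an algebraically closed field: `ψ(N)` monomials in the `J(q^d)`, `d ∣ N`,
linearly independent over `k(J)`. -/
theorem exists_indep (k : Type*) [Field k] [IsAlgClosed k] (N : ℕ) [NeZero N]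
    (hsplit : ∀ (p : ℕ) [NeZero p], p.Prime → p ∣ N → SplitAt k p)
    (hprime : ∀ (p : ℕ) [NeZero p], p.Prime → p ∣ N →
      qExpand k p (jqModC k) ∉ IntermediateField.adjoin k {jqModC k}) :
    ∃ θ : Fin (dedekindPsi N) → LaurentSeries k,
      (∀ i, θ i ∈ Submonoid.closure (divisorExpansionsC k N)) ∧
      LinearIndependent (IntermediateField.adjoin k {jqModC k}) θ := by
  obtain ⟨I, hI, θ, hcard, hθmem, hθind⟩ := claim N (NeZero.ne N) hsplit hprime
  let e : I ≃ Fin (dedekindPsi N) := Fintype.equivFinOfCardEq hcard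
  exact ⟨θ ∘ e.symm, fun i => hθmem _, hθind.comp _ e.symm.injective⟩

end Main

/-! ### Descent to a subfield -/

section Descent

variable {k₀ k : Type*} [Field k₀] [Field k] (f : k₀ →+* k)

theorem exists_lift_closure (N : ℕ) {x : LaurentSeries k}
    (hx : x ∈ Submonoid.closure (divisorExpansionsC k N)) :
    ∃ y ∈ Submonoid.closure (divisorExpansionsC k₀ N), coeffMap f y = x := by
  induction hx using Submonoid.closure_induction with
  | mem x hx =>
    obtain ⟨d, hd0, hdN, rfl⟩ := hx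
    exact ⟨qExpand k₀ d (jqModC k₀), Submonoid.subset_closure ⟨d, hd0, hdN, rfl⟩,
      by rw [coeffMap_qExpand, coeffMap_jqModC]⟩
  | one => exact ⟨1, one_mem _, map_one _⟩
  | mul x y _ _ hx hy =>
    obtain ⟨x', hx', rfl⟩ := hx
    obtain ⟨y', hy', rfl⟩ := hy
    exact ⟨x' * y', mul_mem hx' hy', map_mul _ _ _⟩

theorem coeffMap_aeval (P : Polynomial k₀) :
    coeffMap f (aeval (jqModC k₀) P) = aeval (jqModC k) (P.map f) := by
  rw [Polynomial.aeval_def, Polynomial.hom_eval₂, coeffMap_jqModC, Polynomial.aeval_def,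
    Polynomial.eval₂_map]
  congr 1
  apply RingHom.ext
  intro c
  simp only [RingHom.comp_apply]
  rw [algebraMap_laurentSeries_eq_single, algebraMap_laurentSeries_eq_single, coeffMap_single]

include f in
theorem descent (N : ℕ) {n : ℕ} (θ : Fin n → LaurentSeries k)
    (hθ : ∀ i, θ i ∈ Submonoid.closure (divisorExpansionsC k N))
    (hind : LinearIndependent (FJ k) θ) :
    ∃ v : Fin n → LaurentSeries k₀,
      (∀ i, v i ∈ Submonoid.closure (divisorExpansionsC k₀ N)) ∧
      ∀ g : Fin n → Polynomial k₀,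
        ∑ i, aeval (jqModC k₀) (g i) * v i = 0 → ∀ i, g i = 0 := by
  choose v hv hvθ using fun i => exists_lift_closure f N (hθ i)
  refine ⟨v, hv, fun g hg i => ?_⟩
  have h1 := congrArg (coeffMap f) hg
  rw [map_sum, map_zero] at h1
  simp only [map_mul, coeffMap_aeval, hvθ] at h1
  have hmem : ∀ i, aeval (jqModC k) ((g i).map f) ∈ FJ k := fun i =>
    IntermediateField.algebra_adjoin_le_adjoin k _ (Polynomial.aeval_mem_adjoin_singleton k _)
  have h2 := Fintype.linearIndependent_iff.1 hind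
    (fun i => ⟨aeval (jqModC k) ((g i).map f), hmem i⟩) (by
      rw [← h1]
      exact Finset.sum_congr rfl (fun i _ => Algebra.smul_def _ _))
  have h3 : aeval (jqModC k) ((g i).map f) = 0 := congrArg Subtype.val (h2 i)
  have h4 :=
    P2MW.S_ModularCurve_coeff_jqModC_neg_one.ModularCurve.CharLRows.aeval_jqModC_eq_zero k h3
  exact Polynomial.map_injective f f.injective (h4.trans (Polynomial.map_zero f).symm)

/-- DESCENT to `ZMod ℓ`. -/
theorem exists_indep_zmod (ℓ : ℕ) [Fact ℓ.Prime] (N : ℕ) [NeZero N]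
    (hsplit : ∀ (p : ℕ) [NeZero p], p.Prime → p ∣ N → SplitAt (AlgebraicClosure (ZMod ℓ)) p)
    (hprime : ∀ (p : ℕ) [NeZero p], p.Prime → p ∣ N →
      qExpand (AlgebraicClosure (ZMod ℓ)) p (jqModC (AlgebraicClosure (ZMod ℓ))) ∉
        IntermediateField.adjoin (AlgebraicClosure (ZMod ℓ))
          {jqModC (AlgebraicClosure (ZMod ℓ))}) :
    ∃ v : Fin (dedekindPsi N) → LaurentSeries (ZMod ℓ),
      (∀ i, v i ∈ Algebra.adjoin (ZMod ℓ) (divisorExpansionsC (ZMod ℓ) N)) ∧
      ∀ g : Fin (dedekindPsi N) → Polynomial (ZMod ℓ),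
        ∑ i, aeval (jqModC (ZMod ℓ)) (g i) * v i = 0 → ∀ i, g i = 0 := by
  obtain ⟨θ, hθ, hind⟩ := exists_indep (AlgebraicClosure (ZMod ℓ)) N hsplit hprime
  obtain ⟨v, hv, hg⟩ :=
    descent (algebraMap (ZMod ℓ) (AlgebraicClosure (ZMod ℓ))) N θ hθ hind
  refine ⟨v, fun i => ?_, hg⟩
  have key : ∀ x ∈ Submonoid.closure (divisorExpansionsC (ZMod ℓ) N),
      x ∈ Algebra.adjoin (ZMod ℓ) (divisorExpansionsC (ZMod ℓ) N) := by
    intro x hx
    induction hx using Submonoid.closure_induction with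
    | mem x hx => exact Algebra.subset_adjoin hx
    | one => exact one_mem _
    | mul x y _ _ hx hy => exact mul_mem hx hy
  exact key _ (hv i)

end Descent

end Fermat.Agent.S28_Tower
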