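-- Statement S28 (Igusa): the base change of the Igusa scheme to a field of characteristic
-- `ℓ ∤ N` is integral.  Assembly: scheme glue (S28_Glue) + `q`-expansion principle on the charts
-- (S28_QExp) + the degree lower bound mod `ℓ` (S28_Tower, from S28_Split and S28_Prime).
import Fermat.Statements.S28
import Fermat.Agent.S28_QExp
import Fermat.Agent.S28_Glue
import Fermat.Agent.S28_Split
import Fermat.Agent.S28_Tower
import Fermat.Agent.S28_Prime

set_option autoImplicit false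
open AlgebraicGeometry CategoryTheory CategoryTheory.Limits ModularCurve ModularCurve.IgusaScheme
noncomputable section
set_option autoImplicit false
open ModularCurve ModularCurve.IgusaScheme

namespace Fermat.Agent.S28

/-- the degree lower bound mod `ℓ`, in family form -/
theorem exists_indep_family (N : ℕ) [NeZero N] (ℓ : ℕ) [Fact ℓ.Prime] (hℓN : ¬ ℓ ∣ N) :
    ∃ v : Fin (dedekindPsi N) → LaurentSeries (ZMod ℓ),
      (∀ i, v i ∈ Algebra.adjoin (ZMod ℓ) (divisorExpansionsC (ZMod ℓ) N)) ∧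
      ∀ g : Fin (dedekindPsi N) → Polynomial (ZMod ℓ),
        ∑ i, Polynomial.aeval (jqModC (ZMod ℓ)) (g i) * v i = 0 → ∀ i, g i = 0 := by
  have hne : ∀ p : ℕ, p.Prime → p ∣ N → p ≠ ℓ := by
    rintro p _ hpN rfl
    exact hℓN hpN
  have hcast : ∀ p : ℕ, p.Prime → p ∣ N → ((p : ℕ) : AlgebraicClosure (ZMod ℓ)) ≠ 0 := by
    intro p hp hpN h0
    rw [CharP.cast_eq_zero_iff (AlgebraicClosure (ZMod ℓ)) ℓ] at h0
    exact hne p hp hpN (((Nat.prime_dvd_prime_iff_eq (Fact.out : ℓ.Prime) hp).1 h0).symm)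
  refine Fermat.Agent.S28_Tower.exists_indep_zmod ℓ N ?_ ?_
  · intro p _ hp hpN
    exact Fermat.Agent.S28_Split.exists_splitAt p hp (AlgebraicClosure (ZMod ℓ)) (hcast p hp hpN)
  · intro p _ hp hpN
    exact Fermat.Agent.S28_Prime.not_mem_adjoin ℓ p hp (hne p hp hpN) (AlgebraicClosure (ZMod ℓ))

set_option maxHeartbeats 4000000 in
set_option synthInstance.maxHeartbeats 400000 in
theorem result
    (N : ℕ) [NeZero N] (ℓ : ℕ) [Fact ℓ.Prime] (hℓN : ¬ ℓ ∣ N)
    (K : Type) [Field K] [CharP K ℓ] [Algebra ↥(GaloisRep.ratLocalizedAt ℓ) K] :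
    IsIntegral ↑(pullback (igusaTo N ℓ)
      (Spec.map (CommRingCat.ofHom (algebraMap ↥(GaloisRep.ratLocalizedAt ℓ) K)))) :=
  Fermat.Agent.S28_Glue.isIntegral_pullback_igusaTo N ℓ K
    (Fermat.Agent.S28_QExp.isDomain_fin N ℓ (exists_indep_family N ℓ hℓN) K)
    (Fermat.Agent.S28_QExp.isDomain_inf N ℓ (exists_indep_family N ℓ hℓN) K)
    (Fermat.Agent.S28_QExp.nontrivial_mid N ℓ (exists_indep_family N ℓ hℓN) K)

end Fermat.Agent.S28
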