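-- Project I (S28): the prime-level factorisation `Φ(T; J(u^p)) = (T - J(u^(p^2))) ∏_b (T - J(ζ^b u))`
-- transported by the substitutions `u ↦ c t ^ n`, and the resulting classification of the roots
-- of `Φ(T; J(c₁ t ^ n₁))` (`p ∣ n₁`) in any domain containing `k((t))`.
import Mathlib
import Fermat.Agent.S28_Subst
import Fermat.Agent.S28_SubstJ

set_option autoImplicit false

noncomputable section

namespace Fermat.Agent.S28_SplitT

open Polynomial ModularCurve
open Fermat.Agent.S28_Subst Fermat.Agent.S28_SubstJ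

variable {k : Type*} [Field k]

/-- the index of a substitution may be rewritten along an equality -/
theorem subst_congr (c : kˣ) {m n : ℕ} [NeZero m] [NeZero n] (h : m = n) (f : LaurentSeries k) :
    subst c m f = subst c n f := by
  subst h
  rfl

/-- a ring endomorphism of `k((q))` fixing the constants commutes with `aeval` -/
theorem comp_aeval (σ : LaurentSeries k →+* LaurentSeries k)
    (hσ : ∀ r : k, σ (HahnSeries.C r) = HahnSeries.C r) (x : LaurentSeries k) :
    σ.comp (aeval x : k[X] →ₐ[k] LaurentSeries k).toRingHom =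
      (aeval (σ x) : k[X] →ₐ[k] LaurentSeries k).toRingHom := by
  apply Polynomial.ringHom_ext
  · intro r
    simp only [RingHom.comp_apply, AlgHom.toRingHom_eq_coe, RingHom.coe_coe, aeval_C]
    rw [algebraMap_laurentSeries_eq_single]
    exact hσ r
  · simp only [RingHom.comp_apply, AlgHom.toRingHom_eq_coe, RingHom.coe_coe, aeval_X]

theorem subst_comp_aeval (c : kˣ) (n : ℕ) [NeZero n] (x : LaurentSeries k) :
    (subst c n).comp (aeval x : k[X] →ₐ[k] LaurentSeries k).toRingHom =
      (aeval (subst c n x) : k[X] →ₐ[k] LaurentSeries k).toRingHom :=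
  comp_aeval _ (subst_C c n) x

/-- `subst` after a `twist` -/
theorem subst_twist (c d : kˣ) (n : ℕ) [NeZero n] (f : LaurentSeries k) :
    subst c n (twist d f) = subst (d * c) n f := by
  rw [subst_apply, subst_apply, twist_twist, mul_comm]

variable (p : ℕ) [NeZero p] (ζ : kˣ) (Φ : Polynomial (Polynomial k))

/-- **Transported split.** Applying the substitution `u ↦ c t ^ n` to the prime-level
factorisation gives the factorisation of `Φ(T; J(c ^ p t ^ (n p)))`. -/
theorem split_subst
    (hΦ : Φ.map (aeval (qExpand k p (jqModC k))).toRingHom =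
      (X - C (qExpand k (p ^ 2) (jqModC k))) *
        ∏ b ∈ Finset.range p, (X - C (twist (ζ ^ b) (jqModC k))))
    (c : kˣ) (n : ℕ) [NeZero n] :
    Φ.map (aeval (subst (c ^ p) (n * p) (jqModC k))).toRingHom =
      (X - C (subst (c ^ (p ^ 2)) (n * p ^ 2) (jqModC k))) *
        ∏ b ∈ Finset.range p, (X - C (subst (ζ ^ b * c) n (jqModC k))) := by
  have h := congrArg (Polynomial.map (subst c n)) hΦ
  rw [Polynomial.map_map, subst_comp_aeval, ← subst_one_left p, subst_subst, mul_one] at h
  rw [h, Polynomial.map_mul, Polynomial.map_sub, Polynomial.map_X, Polynomial.map_C,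
    Polynomial.map_prod, ← subst_one_left (p ^ 2), subst_subst, mul_one]
  congr 1
  refine Finset.prod_congr rfl fun b _ => ?_
  rw [Polynomial.map_sub, Polynomial.map_X, Polynomial.map_C, subst_twist]

/-- **Root classification.** In a domain `L` containing `k((t))`, every root of
`Φ(T; J(c ^ p t ^ (n p)))` is `J(c ^ (p ^ 2) t ^ (n p ^ 2))` or one of the `J(ζ ^ b c t ^ n)`. -/
theorem root_cases
    (hΦ : Φ.map (aeval (qExpand k p (jqModC k))).toRingHom =
      (X - C (qExpand k (p ^ 2) (jqModC k))) *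
        ∏ b ∈ Finset.range p, (X - C (twist (ζ ^ b) (jqModC k))))
    (c : kˣ) (n : ℕ) [NeZero n] {L : Type*} [CommRing L] [IsDomain L]
    (ι : LaurentSeries k →+* L) (y : L)
    (hy : (Φ.map (ι.comp (aeval (subst (c ^ p) (n * p) (jqModC k))).toRingHom)).eval y = 0) :
    y = ι (subst (c ^ (p ^ 2)) (n * p ^ 2) (jqModC k)) ∨
      ∃ b ∈ Finset.range p, y = ι (subst (ζ ^ b * c) n (jqModC k)) := by
  rw [← Polynomial.map_map, split_subst p ζ Φ hΦ c n, Polynomial.map_mul, Polynomial.map_sub,
    Polynomial.map_X, Polynomial.map_C, Polynomial.map_prod, eval_mul, eval_sub, eval_X, eval_C,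
    eval_prod, mul_eq_zero, Finset.prod_eq_zero_iff] at hy
  rcases hy with hy | ⟨b, hb, hy⟩
  · exact Or.inl (sub_eq_zero.1 hy)
  · refine Or.inr ⟨b, hb, ?_⟩
    rw [Polynomial.map_sub, Polynomial.map_X, Polynomial.map_C, eval_sub, eval_X, eval_C] at hy
    exact sub_eq_zero.1 hy

/-- **Root classification over an algebraically closed field**, with the substitution index
written as a multiple `n * p` of `p` and an arbitrary constant `c₁`: a root of
`Φ(T; J(c₁ t ^ (n p)))` is `J(c₁ ^ p t ^ (n p p))` or `J(c' t ^ n)` for some `c'`. -/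
theorem root_cases_of_isAlgClosed [IsAlgClosed k]
    (hΦ : Φ.map (aeval (qExpand k p (jqModC k))).toRingHom =
      (X - C (qExpand k (p ^ 2) (jqModC k))) *
        ∏ b ∈ Finset.range p, (X - C (twist (ζ ^ b) (jqModC k))))
    (c₁ : kˣ) (n : ℕ) [NeZero n] {L : Type*} [CommRing L] [IsDomain L]
    (ι : LaurentSeries k →+* L) (y : L)
    (hy : (Φ.map (ι.comp (aeval (subst c₁ (n * p) (jqModC k))).toRingHom)).eval y = 0) :
    y = ι (subst (c₁ ^ p) (n * p * p) (jqModC k)) ∨
      ∃ c' : kˣ, y = ι (subst c' n (jqModC k)) := by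
  obtain ⟨c0, hc0⟩ := IsAlgClosed.exists_pow_nat_eq (c₁ : k) (Nat.pos_of_ne_zero (NeZero.ne p))
  have hc0ne : c0 ≠ 0 := by
    rintro rfl
    rw [zero_pow (NeZero.ne p)] at hc0
    exact c₁.ne_zero hc0.symm
  set c : kˣ := Units.mk0 c0 hc0ne with hc
  have hcp : c ^ p = c₁ := by
    apply Units.ext
    rw [Units.val_pow_eq_pow_val, hc, Units.val_mk0, hc0]
  rw [← hcp] at hy
  rcases root_cases p ζ Φ hΦ c n ι y hy with h | ⟨b, _, h⟩
  · left
    rw [h, ← hcp, ← pow_mul, ← pow_two]
    congr 1
    exact subst_congr _ (by ring) _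
  · exact Or.inr ⟨ζ ^ b * c, h⟩

end Fermat.Agent.S28_SplitT

end
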