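-- Project I (S28): the chain lemma of the tower step.  If a "`k`-compatible" assignment
-- `J_d ↦ y d` (`d ∣ M`) of values in a domain `L ⊇ k((t))` satisfies the prime-level modular
-- equations and `y 1 = J(c₀ t ^ (M t₀))`, then every `y d` is of the form `J(c t ^ n)`, `t₀ ∣ n`.
import Mathlib
import Fermat.Agent.S28_SplitT
import Fermat.Prelude.Def_ModularCurve_X0ModL

set_option autoImplicit false

noncomputable section

namespace Fermat.Agent.S28_Chain

open Polynomial ModularCurve
open Fermat.Agent.S28_Subst Fermat.Agent.S28_SubstJ Fermat.Agent.S28_SplitT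

variable {k : Type*} [Field k]

/-! ### The modular relation at every level, from the split identity -/

/-- (C0) the split identity implies the modular relation `Φ(J_p; J) = 0` -/
theorem rel_of_split (p : ℕ) [NeZero p] (ζ : kˣ) (Φ : Polynomial (Polynomial k))
    (hΦ : Φ.map (aeval (qExpand k p (jqModC k))).toRingHom =
      (X - C (qExpand k (p ^ 2) (jqModC k))) *
        ∏ b ∈ Finset.range p, (X - C (twist (ζ ^ b) (jqModC k)))) :
    (Φ.map (aeval (jqModC k)).toRingHom).eval (qExpand k p (jqModC k)) = 0 := by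
  apply qExpand_injective p
  rw [map_zero, eval_map, Polynomial.hom_eval₂, comp_aeval _ (qExpand_C p), ← eval_map, hΦ,
    qExpand_qExpand, qExpand_congr (show p * p = p ^ 2 by ring), eval_mul, eval_sub, eval_X,
    eval_C, sub_self, zero_mul]

/-- (C0) the modular relation between `J_d` and `J_{d p}` -/
theorem rel_of_split_qExpand (p : ℕ) [NeZero p] (ζ : kˣ) (Φ : Polynomial (Polynomial k))
    (hΦ : Φ.map (aeval (qExpand k p (jqModC k))).toRingHom =
      (X - C (qExpand k (p ^ 2) (jqModC k))) *
        ∏ b ∈ Finset.range p, (X - C (twist (ζ ^ b) (jqModC k))))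
    (d : ℕ) [NeZero d] :
    (Φ.map (aeval (qExpand k d (jqModC k))).toRingHom).eval (qExpand k (d * p) (jqModC k)) = 0 := by
  have h := congrArg (qExpand k d) (rel_of_split p ζ Φ hΦ)
  rw [map_zero, eval_map, Polynomial.hom_eval₂, comp_aeval _ (qExpand_C d), ← eval_map,
    qExpand_qExpand] at h
  exact h

/-! ### The chain lemma -/

/-- evaluation at a value `ι s` with constants through `ι ∘ C` is `ι ∘ aeval s` -/
theorem eval₂RingHom_eq {L : Type*} [CommRing L] (ι : LaurentSeries k →+* L)
    (s : LaurentSeries k) :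
    Polynomial.eval₂RingHom (ι.comp (HahnSeries.C : k →+* LaurentSeries k)) (ι s) =
      ι.comp (aeval s : k[X] →ₐ[k] LaurentSeries k).toRingHom := by
  apply Polynomial.ringHom_ext
  · intro r
    simp only [coe_eval₂RingHom, eval₂_C, RingHom.comp_apply, AlgHom.toRingHom_eq_coe,
      RingHom.coe_coe, aeval_C]
    rw [algebraMap_laurentSeries_eq_single]
    rfl
  · simp only [coe_eval₂RingHom, eval₂_X, RingHom.comp_apply, AlgHom.toRingHom_eq_coe,
      RingHom.coe_coe, aeval_X]

/-- the invariant carried along the chain -/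
def Inv (M t : ℕ) {L : Type*} [CommRing L] (ι : LaurentSeries k →+* L) (d : ℕ) (y : L) : Prop :=
  ∃ (c : kˣ) (n : ℕ) (_ : NeZero n) (a d' : ℕ),
    a * d' = d ∧ n * d' = M * t * a ∧ y = ι (subst c n (jqModC k))

/-- **Chain lemma** (C1). -/
theorem chain [IsAlgClosed k] (M t : ℕ) [NeZero M] [NeZero t]
    {L : Type*} [CommRing L] [IsDomain L] (ι : LaurentSeries k →+* L)
    (y : ℕ → L) (c₀ : kˣ)
    (h1 : y 1 = ι (subst c₀ (M * t) (jqModC k)))
    (hstep : ∀ (r d : ℕ) [NeZero r], r.Prime → r * d ∣ M →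
      ∃ (ζ : kˣ) (Φ : Polynomial (Polynomial k)),
        Φ.map (aeval (qExpand k r (jqModC k))).toRingHom =
          (X - C (qExpand k (r ^ 2) (jqModC k))) *
            ∏ b ∈ Finset.range r, (X - C (twist (ζ ^ b) (jqModC k))) ∧
        (Φ.map (Polynomial.eval₂RingHom (ι.comp (HahnSeries.C : k →+* LaurentSeries k))
          (y d))).eval (y (r * d)) = 0)
    (d : ℕ) (hd : d ∣ M) :
    ∃ (c : kˣ) (n : ℕ) (_ : NeZero n), y d = ι (subst c n (jqModC k)) ∧ t ∣ n := by
  have hM0 : 0 < M := Nat.pos_of_ne_zero (NeZero.ne M)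
  have ht0 : 0 < t := Nat.pos_of_ne_zero (NeZero.ne t)
  -- the invariant holds for all divisors of `M`
  have key : ∀ d : ℕ, d ∣ M → Inv M t ι d (y d) := by
    intro d
    induction d using Nat.strong_induction_on with
    | _ d ih =>
      intro hdM
      have hd0 : 0 < d := Nat.pos_of_dvd_of_pos hdM hM0
      rcases Nat.eq_or_lt_of_le (Nat.succ_le_of_lt hd0) with hd1 | hd1
      · -- `d = 1`
        have hd1' : d = 1 := hd1.symm
        subst hd1'
        exact ⟨c₀, M * t, inferInstance, 1, 1, by ring, by ring, h1⟩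
      · -- `d = r * d₁`
        have hdne : d ≠ 1 := by omega
        set r := d.minFac with hr
        have hrp : r.Prime := Nat.minFac_prime hdne
        have : NeZero r := ⟨hrp.ne_zero⟩
        obtain ⟨d₁, hd₁⟩ : r ∣ d := Nat.minFac_dvd d
        have hd₁0 : 0 < d₁ := by
          rcases Nat.eq_zero_or_pos d₁ with h | h
          · rw [h, mul_zero] at hd₁
            omega
          · exact h
        have hd₁lt : d₁ < d := by
          rw [hd₁]
          have := hrp.two_le
          nlinarith
        have hd₁M : d₁ ∣ M := (Dvd.intro_left r hd₁.symm).trans hdM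
        obtain ⟨c₁, n₁, hn₁, a₁, d₁', had, hnd, hy₁⟩ := ih d₁ hd₁lt hd₁M
        have hrdM : r * d₁ ∣ M := hd₁ ▸ hdM
        obtain ⟨ζ, Φ, hΦ, hrel⟩ := hstep r d₁ hrp hrdM
        -- `r ∣ n₁`
        obtain ⟨m, hm⟩ := hrdM
        have hd₁'0 : 0 < d₁' := by
          rcases Nat.eq_zero_or_pos d₁' with h | h
          · rw [h, mul_zero] at had
            omega
          · exact h
        have ha₁0 : 0 < a₁ := by
          rcases Nat.eq_zero_or_pos a₁ with h | h
          · rw [h, zero_mul] at had
            omega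
          · exact h
        have hm0 : 0 < m := by
          rcases Nat.eq_zero_or_pos m with h | h
          · rw [h, mul_zero] at hm
            omega
          · exact h
        have hn₁eq : n₁ = (a₁ * a₁ * m * t) * r := by
          have h1' : n₁ * d₁' = ((a₁ * a₁ * m * t) * r) * d₁' := by
            rw [hnd, hm, ← had]
            ring
          exact Nat.eq_of_mul_eq_mul_right hd₁'0 h1'
        set n := a₁ * a₁ * m * t with hn
        have hn0 : 0 < n := by positivity
        have : NeZero n := ⟨hn0.ne'⟩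
        have hy₁' : y d₁ = ι (subst c₁ (n * r) (jqModC k)) := by
          rw [hy₁]
          congr 1
          exact subst_congr c₁ hn₁eq _
        rw [hy₁', eval₂RingHom_eq] at hrel
        rw [hd₁]
        rcases root_cases_of_isAlgClosed r ζ Φ hΦ c₁ n ι (y (r * d₁)) hrel with h | ⟨c', h⟩
        · refine ⟨c₁ ^ r, n * r * r, inferInstance, a₁ * r, d₁', ?_, ?_, h⟩
          · rw [← had]
            ring
          · rw [← hn₁eq]
            calc n₁ * r * d₁' = (n₁ * d₁') * r := by ring
              _ = M * t * (a₁ * r) := by rw [hnd]; ring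
        · refine ⟨c', n, inferInstance, a₁, d₁' * r, ?_, ?_, h⟩
          · rw [← had]
            ring
          · calc n * (d₁' * r) = (n * r) * d₁' := by ring
              _ = M * t * a₁ := by rw [← hn₁eq, hnd]
  obtain ⟨c, n, hn, a, d', had, hnd, hy⟩ := key d hd
  refine ⟨c, n, hn, hy, ?_⟩
  -- `t ∣ n`
  have hd'M : d' ∣ M := (Dvd.intro_left a had).trans hd
  obtain ⟨M', hM'⟩ := hd'M
  have hd0 : 0 < d := Nat.pos_of_dvd_of_pos hd hM0
  have hd'0 : 0 < d' := by
    rcases Nat.eq_zero_or_pos d' with h | h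
    · rw [h, mul_zero] at had
      omega
    · exact h
  refine ⟨M' * a, ?_⟩
  have h2 : n * d' = (t * (M' * a)) * d' := by
    rw [hnd, hM']
    ring
  exact Nat.eq_of_mul_eq_mul_right hd'0 h2

/-! ### Consequence for ring homomorphisms out of the function field `κ(M)` -/

/-- (C2) Let `σ` be a ring homomorphism from `κ(M) = k(J_d : d ∣ M)` to a field `L ⊇ k((t))`
which is `k`-compatible and sends `J` to `J(c₀ t ^ (M p))`.  Then `σ` maps `κ(M)` into the
series in `t ^ p`. -/
theorem map_mem_range [IsAlgClosed k] (M p : ℕ) [NeZero M] [NeZero p]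
    (hsplit : ∀ (r : ℕ) [NeZero r], r.Prime → r ∣ M →
      ∃ (ζ : kˣ) (Φ : Polynomial (Polynomial k)),
        Φ.map (aeval (qExpand k r (jqModC k))).toRingHom =
          (X - C (qExpand k (r ^ 2) (jqModC k))) *
            ∏ b ∈ Finset.range r, (X - C (twist (ζ ^ b) (jqModC k))))
    {L : Type*} [Field L] (ι : LaurentSeries k →+* L)
    (σ : ↥(modularFunctionFieldFullC k M) →+* L)
    (hσk : ∀ a : k, σ (algebraMap k ↥(modularFunctionFieldFullC k M) a) = ι (HahnSeries.C a))
    (c₀ : kˣ)
    (hσJ : σ ⟨jqModC k, jqModC_mem_full k M⟩ = ι (subst c₀ (M * p) (jqModC k)))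
    (x : ↥(modularFunctionFieldFullC k M)) :
    ∃ z : LaurentSeries k, σ x = ι (qExpand k p z) := by
  classical
  have hM0 : M ≠ 0 := NeZero.ne M
  -- the values of `σ` on the generators
  set y : ℕ → L := fun d =>
    if h : d ∣ M then
      σ ⟨@qExpand k _ d ⟨ne_zero_of_dvd_ne_zero hM0 h⟩ (jqModC k),
        @jqModCd_mem_full k _ M d ⟨ne_zero_of_dvd_ne_zero hM0 h⟩ h⟩
    else 0 with hy
  have hyd : ∀ (d : ℕ) [NeZero d] (h : d ∣ M),
      y d = σ ⟨qExpand k d (jqModC k), jqModCd_mem_full k M h⟩ := by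
    intro d _ h
    rw [hy]
    simp only [dif_pos h]
  have h1 : y 1 = ι (subst c₀ (M * p) (jqModC k)) := by
    rw [hyd 1 (one_dvd M), ← hσJ]
    congr 1
    exact Subtype.ext (qExpand_one_apply _)
  have hstep : ∀ (r d : ℕ) [NeZero r], r.Prime → r * d ∣ M →
      ∃ (ζ : kˣ) (Φ : Polynomial (Polynomial k)),
        Φ.map (aeval (qExpand k r (jqModC k))).toRingHom =
          (X - C (qExpand k (r ^ 2) (jqModC k))) *
            ∏ b ∈ Finset.range r, (X - C (twist (ζ ^ b) (jqModC k))) ∧
        (Φ.map (Polynomial.eval₂RingHom (ι.comp (HahnSeries.C : k →+* LaurentSeries k))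
          (y d))).eval (y (r * d)) = 0 := by
    intro r d _ hr hrd
    obtain ⟨ζ, Φ, hΦ⟩ := hsplit r hr (Dvd.intro d rfl |>.trans hrd)
    refine ⟨ζ, Φ, hΦ, ?_⟩
    have hdM : d ∣ M := (Dvd.intro_left r rfl).trans hrd
    have : NeZero d := ⟨ne_zero_of_dvd_ne_zero hM0 hdM⟩
    rw [hyd d hdM, hyd (r * d) hrd]
    set jd : ↥(modularFunctionFieldFullC k M) :=
      ⟨qExpand k d (jqModC k), jqModCd_mem_full k M hdM⟩ with hjd
    set jrd : ↥(modularFunctionFieldFullC k M) :=
      ⟨qExpand k (r * d) (jqModC k), jqModCd_mem_full k M hrd⟩ with hjrd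
    -- the relation inside `κ(M)`
    have hcomp : ((modularFunctionFieldFullC k M).val :
          ↥(modularFunctionFieldFullC k M) →+* LaurentSeries k).comp
        (Polynomial.eval₂RingHom (algebraMap k ↥(modularFunctionFieldFullC k M)) jd) =
          (aeval (qExpand k d (jqModC k)) : k[X] →ₐ[k] LaurentSeries k).toRingHom := by
      apply Polynomial.ringHom_ext
      · intro a
        simp only [coe_eval₂RingHom, eval₂_C, RingHom.comp_apply, AlgHom.toRingHom_eq_coe,
          RingHom.coe_coe, aeval_C]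
        rfl
      · simp only [coe_eval₂RingHom, eval₂_X, RingHom.comp_apply, AlgHom.toRingHom_eq_coe,
          RingHom.coe_coe, aeval_X]
        rfl
    have hrelE : (Φ.map (Polynomial.eval₂RingHom
        (algebraMap k ↥(modularFunctionFieldFullC k M)) jd)).eval jrd = 0 := by
      apply Subtype.val_injective
      have h2 := rel_of_split_qExpand r ζ Φ hΦ d
      rw [qExpand_congr (show d * r = r * d by ring)] at h2
      show ((modularFunctionFieldFullC k M).val :
          ↥(modularFunctionFieldFullC k M) →+* LaurentSeries k)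
        ((Φ.map (Polynomial.eval₂RingHom
          (algebraMap k ↥(modularFunctionFieldFullC k M)) jd)).eval jrd) = 0
      rw [eval_map, Polynomial.hom_eval₂, hcomp, ← eval_map]
      exact h2
    have hcomp2 : σ.comp (Polynomial.eval₂RingHom
        (algebraMap k ↥(modularFunctionFieldFullC k M)) jd) =
        Polynomial.eval₂RingHom (ι.comp (HahnSeries.C : k →+* LaurentSeries k)) (σ jd) := by
      apply Polynomial.ringHom_ext
      · intro a
        simp only [coe_eval₂RingHom, eval₂_C, RingHom.comp_apply]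
        exact hσk a
      · simp only [coe_eval₂RingHom, eval₂_X, RingHom.comp_apply]
    have h4 := congrArg σ hrelE
    rw [map_zero, eval_map, Polynomial.hom_eval₂, hcomp2, ← eval_map] at h4
    exact h4
  have hgen : ∀ d : ℕ, d ∣ M → y d ∈ (ι.comp (qExpand k p)).fieldRange := by
    intro d hd
    obtain ⟨c, n, hn, hyn, n', hn'⟩ := chain M p ι y c₀ h1 hstep d hd
    have hn'0 : n' ≠ 0 := by
      rintro rfl
      rw [mul_zero] at hn'
      exact (NeZero.ne n) hn'
    have : NeZero n' := ⟨hn'0⟩
    refine ⟨subst c n' (jqModC k), ?_⟩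
    rw [hyn, RingHom.comp_apply, qExpand_subst]
    congr 1
    exact subst_congr c hn'.symm _
  -- induction over the generated field
  have hall : ∀ (z : LaurentSeries k) (hz : z ∈ modularFunctionFieldFullC k M),
      σ ⟨z, hz⟩ ∈ (ι.comp (qExpand k p)).fieldRange := by
    intro z hz
    refine IntermediateField.adjoin_induction (F := k) (s := divisorExpansionsC k M)
      (p := fun z hz => σ ⟨z, hz⟩ ∈ (ι.comp (qExpand k p)).fieldRange) ?_ ?_ ?_ ?_ ?_ hz
    · rintro z ⟨d, hd0, hdM, rfl⟩
      have := hgen d hdM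
      rw [hyd d hdM] at this
      exact this
    · intro a
      refine ⟨HahnSeries.C a, ?_⟩
      rw [RingHom.comp_apply, qExpand_C]
      exact (hσk a).symm
    · intro a b ha hb h1 h2
      have : (⟨a + b, add_mem ha hb⟩ : ↥(modularFunctionFieldFullC k M)) = ⟨a, ha⟩ + ⟨b, hb⟩ := rfl
      rw [this, map_add]
      exact add_mem h1 h2
    · intro a ha h1
      have : (⟨a⁻¹, inv_mem ha⟩ : ↥(modularFunctionFieldFullC k M)) = (⟨a, ha⟩)⁻¹ := rfl
      rw [this, map_inv₀]
      exact inv_mem h1
    · intro a b ha hb h1 h2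
      have : (⟨a * b, mul_mem ha hb⟩ : ↥(modularFunctionFieldFullC k M)) = ⟨a, ha⟩ * ⟨b, hb⟩ := rfl
      rw [this, map_mul]
      exact mul_mem h1 h2
  obtain ⟨z, hz⟩ := hall x.1 x.2
  exact ⟨z, hz.symm⟩

/-- (C2') the contradiction of the tower step: for `p ∤ M`, such a `σ` never takes the value
`J(c t ^ M)`. -/
theorem map_ne_subst [IsAlgClosed k] (M p : ℕ) [NeZero M] [NeZero p] (hpM : ¬ p ∣ M)
    (hsplit : ∀ (r : ℕ) [NeZero r], r.Prime → r ∣ M →
      ∃ (ζ : kˣ) (Φ : Polynomial (Polynomial k)),
        Φ.map (aeval (qExpand k r (jqModC k))).toRingHom =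
          (X - C (qExpand k (r ^ 2) (jqModC k))) *
            ∏ b ∈ Finset.range r, (X - C (twist (ζ ^ b) (jqModC k))))
    {L : Type*} [Field L] (ι : LaurentSeries k →+* L)
    (σ : ↥(modularFunctionFieldFullC k M) →+* L)
    (hσk : ∀ a : k, σ (algebraMap k ↥(modularFunctionFieldFullC k M) a) = ι (HahnSeries.C a))
    (c₀ : kˣ)
    (hσJ : σ ⟨jqModC k, jqModC_mem_full k M⟩ = ι (subst c₀ (M * p) (jqModC k)))
    (x : ↥(modularFunctionFieldFullC k M)) (c : kˣ) :
    σ x ≠ ι (subst c M (jqModC k)) := by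
  intro h
  obtain ⟨z, hz⟩ := map_mem_range M p hsplit ι σ hσk c₀ hσJ x
  rw [h] at hz
  exact subst_jqModC_not_mem_range c M p hpM ⟨z, (ι.injective hz).symm⟩

end Fermat.Agent.S28_Chain

end
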