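import Fermat.Agent.S28_Defs
import Fermat.Agent.S28_SubstJ
import Fermat.Agent.S28_Desc
import Fermat.Agent.S28_Split

/-!
# S28_LagMod (helper2): reduction of rational two-variable relations modulo a field `k`

Backup route to Lemma P (project I).  A polynomial `H ∈ ℚ[X][Y]` of `Y`-degree `≤ p` whose values
`H(j, j_p)` and `p^e · H(j_p, j)` are (images of) integral Laurent series has an integer model
`n • H ∈ ℤ[X][Y]` with `n` invertible in `k`, for every field `k` in which the root-counting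
property (RC) holds (i.e. a field containing a primitive `p`-th root of unity).
-/

set_option autoImplicit false

noncomputable section

open Polynomial ModularCurve

namespace Fermat.Agent.S28_LagMod

/-! ### Two-variable evaluation through the constant embedding -/

section Eval

variable {R S : Type*} [CommRing R] [CommRing S]

/-- Evaluation of `H ∈ R[X][Y]` at inner `X = x`, outer `Y = y` (ring hom in `H`). -/
def Ehom (x y : LaurentSeries R) : Polynomial (Polynomial R) →+* LaurentSeries R :=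
  Polynomial.eval₂RingHom (Polynomial.eval₂RingHom (HahnSeries.C : R →+* LaurentSeries R) x) y

theorem Ehom_apply (x y : LaurentSeries R) (H : Polynomial (Polynomial R)) :
    Ehom x y H = Polynomial.eval₂ (Polynomial.eval₂RingHom
      (HahnSeries.C : R →+* LaurentSeries R) x) y H := rfl

@[simp] theorem Ehom_X (x y : LaurentSeries R) : Ehom x y Polynomial.X = y := by
  rw [Ehom_apply, Polynomial.eval₂_X]

@[simp] theorem Ehom_C (x y : LaurentSeries R) (a : Polynomial R) :
    Ehom x y (Polynomial.C a) = Polynomial.eval₂ (HahnSeries.C : R →+* LaurentSeries R) x a := by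
  rw [Ehom_apply, Polynomial.eval₂_C]
  rfl

@[simp] theorem Ehom_CC (x y : LaurentSeries R) (r : R) :
    Ehom x y (Polynomial.C (Polynomial.C r)) = HahnSeries.C r := by
  rw [Ehom_C, Polynomial.eval₂_C]

theorem Ehom_monomial (x y : LaurentSeries R) (n : ℕ) (a : Polynomial R) :
    Ehom x y (Polynomial.monomial n a)
      = Polynomial.eval₂ (HahnSeries.C : R →+* LaurentSeries R) x a * y ^ n := by
  rw [Ehom_apply, Polynomial.eval₂_monomial]
  rfl

theorem coeffMap_C' (f : R →+* S) (r : R) :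
    coeffMap f (HahnSeries.C r) = HahnSeries.C (f r) := by
  show coeffMap f (HahnSeries.single 0 r) = HahnSeries.single 0 (f r)
  rw [coeffMap_single]

/-- Base change of coefficients commutes with two-variable evaluation. -/
theorem coeffMap_Ehom (f : R →+* S) (x y : LaurentSeries R) (H : Polynomial (Polynomial R)) :
    coeffMap f (Ehom x y H)
      = Ehom (coeffMap f x) (coeffMap f y) (H.map (Polynomial.mapRingHom f)) := by
  rw [Ehom_apply, Ehom_apply, Polynomial.hom_eval₂, Polynomial.eval₂_map]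
  congr 1
  refine Polynomial.ringHom_ext (fun a => ?_) ?_
  · simp only [RingHom.comp_apply, Polynomial.coe_eval₂RingHom, Polynomial.eval₂_C,
      Polynomial.coe_mapRingHom, Polynomial.map_C]
    exact coeffMap_C' f a
  · simp only [RingHom.comp_apply, Polynomial.coe_eval₂RingHom, Polynomial.eval₂_X,
      Polynomial.coe_mapRingHom, Polynomial.map_X]

end Eval

section Field

variable {K : Type*} [Field K]

theorem algebraMap_eq_C : (algebraMap K (LaurentSeries K)) = (HahnSeries.C : K →+* LaurentSeries K) := by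
  ext c : 1
  rw [ModularCurve.algebraMap_laurentSeries_eq_single]
  rfl

theorem aevalAeval_eq_Ehom (x y : LaurentSeries K) (H : Polynomial (Polynomial K)) :
    Polynomial.aevalAeval x y H = Ehom x y H := by
  induction H using Polynomial.induction_on' with
  | add p q hp hq => rw [map_add, map_add, hp, hq]
  | monomial n a =>
    rw [Ehom_monomial, ← Polynomial.C_mul_X_pow_eq_monomial, map_mul, map_pow,
      Polynomial.aevalAeval_C, Polynomial.aevalAeval_Y, Polynomial.aeval_def,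
      algebraMap_eq_C]

end Field

/-! ### Integer models of rational polynomials -/

section IntModel

theorem exists_int_multiple₁ (a : Polynomial ℚ) :
    ∃ n : ℕ, 0 < n ∧ ∃ a0 : Polynomial ℤ,
      a0.map (Int.castRingHom ℚ) = Polynomial.C (n : ℚ) * a := by
  induction a using Polynomial.induction_on' with
  | add a b ha hb =>
    obtain ⟨n1, h1, a0, ha0⟩ := ha
    obtain ⟨n2, h2, b0, hb0⟩ := hb
    refine ⟨n1 * n2, Nat.mul_pos h1 h2,
      Polynomial.C (n2 : ℤ) * a0 + Polynomial.C (n1 : ℤ) * b0, ?_⟩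
    rw [Polynomial.map_add, Polynomial.map_mul, Polynomial.map_mul, Polynomial.map_C,
      Polynomial.map_C, ha0, hb0]
    simp only [eq_intCast, Int.cast_natCast, Nat.cast_mul, Polynomial.C_mul]
    ring
  | monomial m r =>
    refine ⟨r.den, r.den_pos, Polynomial.monomial m r.num, ?_⟩
    rw [Polynomial.map_monomial, Polynomial.C_mul_monomial]
    congr 1
    rw [eq_intCast, Rat.den_mul_eq_num]

theorem exists_int_multiple (H : Polynomial (Polynomial ℚ)) :
    ∃ n : ℕ, 0 < n ∧ ∃ H0 : Polynomial (Polynomial ℤ),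
      H0.map (Polynomial.mapRingHom (Int.castRingHom ℚ))
        = Polynomial.C (Polynomial.C (n : ℚ)) * H := by
  induction H using Polynomial.induction_on' with
  | add a b ha hb =>
    obtain ⟨n1, h1, a0, ha0⟩ := ha
    obtain ⟨n2, h2, b0, hb0⟩ := hb
    refine ⟨n1 * n2, Nat.mul_pos h1 h2,
      Polynomial.C (Polynomial.C (n2 : ℤ)) * a0 + Polynomial.C (Polynomial.C (n1 : ℤ)) * b0, ?_⟩
    rw [Polynomial.map_add, Polynomial.map_mul, Polynomial.map_mul, Polynomial.map_C,
      Polynomial.map_C, ha0, hb0]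
    simp only [Polynomial.coe_mapRingHom, Polynomial.map_C, Nat.cast_mul, Polynomial.C_mul]
    simp only [eq_intCast, Int.cast_natCast]
    ring
  | monomial m a =>
    obtain ⟨n, hn, a0, ha0⟩ := exists_int_multiple₁ a
    refine ⟨n, hn, Polynomial.monomial m a0, ?_⟩
    rw [Polynomial.map_monomial, Polynomial.C_mul_monomial, Polynomial.coe_mapRingHom, ha0]

theorem intCast_coeffMap_injective :
    Function.Injective (coeffMap (Int.castRingHom ℚ)) := by
  intro x y h
  ext n
  have := congrArg (fun z : LaurentSeries ℚ => z.coeff n) h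
  simp only [coeffMap_coeff, eq_intCast] at this
  exact_mod_cast this

theorem natCast_eq_C {R : Type*} [CommRing R] (n : ℕ) :
    (n : LaurentSeries R) = HahnSeries.C (n : R) := by
  rw [map_natCast]

variable {k : Type*} [Field k]

/-- **Integer model with denominator prime to the characteristic** (by minimal denominator and
root counting). -/
theorem exists_int_model (p : ℕ) [NeZero p] (hpk : (p : k) ≠ 0)
    (hRC : ∀ H : Polynomial (Polynomial k), H.natDegree ≤ p →
      Ehom (jqModC k) (qExpand k p (jqModC k)) H = 0 →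
      Ehom (qExpand k p (jqModC k)) (jqModC k) H = 0 → H = 0)
    (H : Polynomial (Polynomial ℚ)) (hdeg : H.natDegree ≤ p) (W1 W2 : LaurentSeries ℤ) (e : ℕ)
    (h1 : Ehom (jqModC ℚ) (qExpand ℚ p (jqModC ℚ)) H = coeffMap (Int.castRingHom ℚ) W1)
    (h2 : HahnSeries.C ((p : ℚ) ^ e) * Ehom (qExpand ℚ p (jqModC ℚ)) (jqModC ℚ) H
      = coeffMap (Int.castRingHom ℚ) W2) :
    ∃ (n : ℕ) (H0 : Polynomial (Polynomial ℤ)), (n : k) ≠ 0 ∧
      H0.map (Polynomial.mapRingHom (Int.castRingHom ℚ))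
        = Polynomial.C (Polynomial.C (n : ℚ)) * H ∧
      H0.natDegree ≤ p ∧
      Ehom (jqModC ℤ) (qExpand ℤ p (jqModC ℤ)) H0 = (n : LaurentSeries ℤ) * W1 ∧
      HahnSeries.C ((p : ℤ) ^ e) * Ehom (qExpand ℤ p (jqModC ℤ)) (jqModC ℤ) H0
        = (n : LaurentSeries ℤ) * W2 := by
  classical
  have hex := exists_int_multiple H
  obtain ⟨hn0, H0, hH0⟩ := Nat.find_spec hex
  set n := Nat.find hex with hn
  have hinjQ : Function.Injective (Polynomial.mapRingHom (Int.castRingHom ℚ)) :=
    Polynomial.map_injective _ Int.cast_injective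
  have hdeg0 : H0.natDegree ≤ p := by
    have h := Polynomial.natDegree_map_eq_of_injective hinjQ H0
    rw [hH0] at h
    rw [← h]
    exact (Polynomial.natDegree_C_mul_le _ _).trans hdeg
  have hjQ : coeffMap (Int.castRingHom ℚ) (jqModC ℤ) = jqModC ℚ := coeffMap_jqModC _
  have hjpQ : coeffMap (Int.castRingHom ℚ) (qExpand ℤ p (jqModC ℤ)) = qExpand ℚ p (jqModC ℚ) := by
    rw [coeffMap_qExpand, hjQ]
  have e1 : Ehom (jqModC ℤ) (qExpand ℤ p (jqModC ℤ)) H0 = (n : LaurentSeries ℤ) * W1 := by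
    apply intCast_coeffMap_injective
    rw [coeffMap_Ehom, hH0, hjQ, hjpQ, map_mul, Ehom_CC, h1, map_mul,
      map_natCast (coeffMap (Int.castRingHom ℚ)), natCast_eq_C]
  have e2 : HahnSeries.C ((p : ℤ) ^ e) * Ehom (qExpand ℤ p (jqModC ℤ)) (jqModC ℤ) H0
      = (n : LaurentSeries ℤ) * W2 := by
    apply intCast_coeffMap_injective
    rw [map_mul, coeffMap_Ehom, hH0, hjQ, hjpQ, map_mul, Ehom_CC, map_mul,
      map_natCast (coeffMap (Int.castRingHom ℚ)), coeffMap_C', natCast_eq_C, ← h2]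
    simp only [eq_intCast, Int.cast_pow, Int.cast_natCast]
    ring
  refine ⟨n, H0, ?_, hH0, hdeg0, e1, e2⟩
  intro hnk
  -- the characteristic divides `n`
  have : CharP k (ringChar k) := ringChar.charP k
  set ℓ := ringChar k with hℓ
  have hℓn : ℓ ∣ n := (CharP.cast_eq_zero_iff k ℓ n).mp hnk
  have hℓ1 : ℓ ≠ 1 := CharP.ringChar_ne_one
  have hℓ0 : ℓ ≠ 0 := by
    intro h
    rw [h] at hℓn
    exact hn0.ne' (Nat.eq_zero_of_zero_dvd hℓn)
  obtain ⟨n', hn'⟩ := hℓn
  have hn'pos : 0 < n' := by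
    rcases Nat.eq_zero_or_pos n' with h | h
    · rw [h, mul_zero] at hn'; omega
    · exact h
  -- reduce modulo `k`
  have hjk : coeffMap (Int.castRingHom k) (jqModC ℤ) = jqModC k := coeffMap_jqModC _
  have hjpk : coeffMap (Int.castRingHom k) (qExpand ℤ p (jqModC ℤ)) = qExpand k p (jqModC k) := by
    rw [coeffMap_qExpand, hjk]
  have hnL : (n : LaurentSeries k) = 0 := by rw [natCast_eq_C, hnk, map_zero]
  set H0k := H0.map (Polynomial.mapRingHom (Int.castRingHom k)) with hH0k
  have r1 : Ehom (jqModC k) (qExpand k p (jqModC k)) H0k = 0 := by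
    have h := congrArg (coeffMap (Int.castRingHom k)) e1
    rw [coeffMap_Ehom, hjk, hjpk, map_mul, map_natCast, hnL, zero_mul] at h
    exact h
  have r2 : Ehom (qExpand k p (jqModC k)) (jqModC k) H0k = 0 := by
    have h := congrArg (coeffMap (Int.castRingHom k)) e2
    rw [map_mul, coeffMap_Ehom, hjk, hjpk, map_mul, map_natCast, hnL, zero_mul, coeffMap_C'] at h
    rcases mul_eq_zero.mp h with h' | h'
    · exfalso
      have h'' : ((Int.castRingHom k) ((p : ℤ) ^ e)) = 0 := by
        have := congrArg (fun z : LaurentSeries k => z.coeff 0) h'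
        simpa using this
      rw [map_pow, map_natCast] at h''
      exact pow_ne_zero e hpk h''
    · exact h'
  have hzero : H0k = 0 :=
    hRC H0k ((Polynomial.natDegree_map_le).trans hdeg0) r1 r2
  have hdiv : ∀ i j, (ℓ : ℤ) ∣ (H0.coeff i).coeff j := by
    intro i j
    have h := congrArg (fun q : Polynomial (Polynomial k) => (q.coeff i).coeff j) hzero
    simp only [hH0k, Polynomial.coeff_map, Polynomial.coe_mapRingHom, Polynomial.coeff_zero,
      eq_intCast] at h
    exact (CharP.intCast_eq_zero_iff k ℓ _).mp h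
  have hC : Polynomial.C (Polynomial.C (ℓ : ℤ)) ∣ H0 :=
    (Polynomial.C_dvd_iff_dvd_coeff _ _).mpr fun i =>
      (Polynomial.C_dvd_iff_dvd_coeff _ _).mpr fun j => hdiv i j
  obtain ⟨H0', hH0'⟩ := hC
  have hP : 0 < n' ∧ ∃ H1 : Polynomial (Polynomial ℤ),
      H1.map (Polynomial.mapRingHom (Int.castRingHom ℚ))
        = Polynomial.C (Polynomial.C (n' : ℚ)) * H := by
    refine ⟨hn'pos, H0', ?_⟩
    have hℓQ : (Polynomial.C (Polynomial.C (ℓ : ℚ)) : Polynomial (Polynomial ℚ)) ≠ 0 := by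
      rw [Ne, Polynomial.C_eq_zero, Polynomial.C_eq_zero]
      exact_mod_cast hℓ0
    apply mul_left_cancel₀ hℓQ
    have h3 : H0.map (Polynomial.mapRingHom (Int.castRingHom ℚ))
        = Polynomial.C (Polynomial.C (ℓ : ℚ)) * H0'.map (Polynomial.mapRingHom (Int.castRingHom ℚ)) := by
      rw [hH0', Polynomial.map_mul, Polynomial.map_C, Polynomial.coe_mapRingHom, Polynomial.map_C]
      simp
    rw [← h3, hH0, hn']
    simp only [Nat.cast_mul, Polynomial.C_mul]
    ring
  have hlt : n' < n := by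
    rw [hn']
    have : 2 ≤ ℓ := by omega
    nlinarith
  exact Nat.find_min hex hlt hP

end IntModel

/-! ### Reduction of the rational Lagrange relations modulo a field -/

section Assembly

open Fermat.Agent.S28_Defs

theorem Ehom_map_j {R S : Type*} [CommRing R] [CommRing S] (f : R →+* S) (p : ℕ) [NeZero p]
    (H : Polynomial (Polynomial R)) :
    Ehom (jqModC S) (qExpand S p (jqModC S)) (H.map (Polynomial.mapRingHom f))
      = coeffMap f (Ehom (jqModC R) (qExpand R p (jqModC R)) H) := by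
  rw [coeffMap_Ehom, coeffMap_qExpand, coeffMap_jqModC]

theorem Ehom_map_j' {R S : Type*} [CommRing R] [CommRing S] (f : R →+* S) (p : ℕ) [NeZero p]
    (H : Polynomial (Polynomial R)) :
    Ehom (qExpand S p (jqModC S)) (jqModC S) (H.map (Polynomial.mapRingHom f))
      = coeffMap f (Ehom (qExpand R p (jqModC R)) (jqModC R) H) := by
  rw [coeffMap_Ehom, coeffMap_qExpand, coeffMap_jqModC]

variable {k : Type*} [Field k]

theorem hahnC_ne_zero {c : k} (hc : c ≠ 0) : (HahnSeries.C c : LaurentSeries k) ≠ 0 := by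
  intro h
  have := congrArg (fun z : LaurentSeries k => z.coeff 0) h
  simp at this
  exact hc this

/-- **Reduction of the Lagrange relations** (`Ehom` form): from the rational modular equation `Φ`
and the rational Lagrange numerators `G_m` of the powers of the modular unit, a polynomial `D`
over `k` with `D(J, J_p) ≠ 0` and `u^m · D(J, J_p) ∈ ⊕_{i ≤ p} k[J] J_p^i` for all `m`. -/
theorem exists_lagrange_mod_of (p : ℕ) [NeZero p] (hpk : (p : k) ≠ 0)
    (hRC : ∀ H : Polynomial (Polynomial k), H.natDegree ≤ p →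
      Ehom (jqModC k) (qExpand k p (jqModC k)) H = 0 →
      Ehom (qExpand k p (jqModC k)) (jqModC k) H = 0 → H = 0)
    (hDer : ∀ Ψ : Polynomial (Polynomial k), Ψ.Monic → Ψ.natDegree = p + 1 →
      Ehom (jqModC k) (qExpand k p (jqModC k)) Ψ = 0 →
      Ehom (qExpand k p (jqModC k)) (jqModC k) Ψ = 0 →
      Ehom (jqModC k) (qExpand k p (jqModC k)) (Polynomial.derivative Ψ) ≠ 0)
    (Φ : Polynomial (Polynomial ℚ)) (hΦm : Φ.Monic) (hΦd : Φ.natDegree = p + 1)
    (h1 : Ehom (jqModC ℚ) (qExpand ℚ p (jqModC ℚ)) Φ = 0)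
    (h2 : Ehom (qExpand ℚ p (jqModC ℚ)) (jqModC ℚ) Φ = 0)
    (hG : ∀ m : ℕ, ∃ G : Polynomial (Polynomial ℚ), G.natDegree ≤ p ∧
      uSer ℚ p ^ m * Ehom (jqModC ℚ) (qExpand ℚ p (jqModC ℚ)) (Polynomial.derivative Φ)
        = Ehom (jqModC ℚ) (qExpand ℚ p (jqModC ℚ)) G ∧
      uInv ℚ p ^ m * Ehom (qExpand ℚ p (jqModC ℚ)) (jqModC ℚ) (Polynomial.derivative Φ)
        = HahnSeries.C ((p : ℚ) ^ (12 * m)) * Ehom (qExpand ℚ p (jqModC ℚ)) (jqModC ℚ) G) :
    ∃ D : Polynomial (Polynomial k),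
      Ehom (jqModC k) (qExpand k p (jqModC k)) D ≠ 0 ∧
      ∀ m : ℕ, ∃ G : Polynomial (Polynomial k), G.natDegree ≤ p ∧
        uSer k p ^ m * Ehom (jqModC k) (qExpand k p (jqModC k)) D
          = Ehom (jqModC k) (qExpand k p (jqModC k)) G := by
  classical
  -- Step A: an integer model of `Φ - Y^(p+1)`
  set HΦ := Φ.eraseLead with hHΦ
  have hΦeq : Φ = HΦ + Polynomial.X ^ (p + 1) := by
    have h := Polynomial.eraseLead_add_monomial_natDegree_leadingCoeff Φ
    rw [hΦm.leadingCoeff, hΦd, ← Polynomial.X_pow_eq_monomial] at h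
    exact h.symm
  have hHΦdeg : HΦ.natDegree ≤ p := by
    have h := Polynomial.eraseLead_natDegree_le Φ
    rw [hΦd] at h
    simpa using h
  have hA1 : Ehom (jqModC ℚ) (qExpand ℚ p (jqModC ℚ)) HΦ
      = coeffMap (Int.castRingHom ℚ) (-(qExpand ℤ p (jqModC ℤ)) ^ (p + 1)) := by
    have h := h1
    rw [hΦeq, map_add, map_pow, Ehom_X] at h
    rw [map_neg, map_pow, coeffMap_qExpand, coeffMap_jqModC]
    exact eq_neg_of_add_eq_zero_left h
  have hA2 : HahnSeries.C ((p : ℚ) ^ 0) * Ehom (qExpand ℚ p (jqModC ℚ)) (jqModC ℚ) HΦ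
      = coeffMap (Int.castRingHom ℚ) (-(jqModC ℤ) ^ (p + 1)) := by
    have h := h2
    rw [hΦeq, map_add, map_pow, Ehom_X] at h
    rw [pow_zero, map_one, one_mul, map_neg, map_pow, coeffMap_jqModC]
    exact eq_neg_of_add_eq_zero_left h
  obtain ⟨nΦ, HΦ0, hnΦ, hHΦ0map, hHΦ0deg, eA1, eA2⟩ :=
    exists_int_model p hpk hRC HΦ hHΦdeg _ _ 0 hA1 hA2
  rw [pow_zero, map_one, one_mul] at eA2
  -- Step B: the integral modular equation `Φ0 = nΦ • Φ`
  set Φ0 : Polynomial (Polynomial ℤ) :=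
    Polynomial.C (Polynomial.C (nΦ : ℤ)) * Polynomial.X ^ (p + 1) + HΦ0 with hΦ0
  have hΦ0Q : Φ0.map (Polynomial.mapRingHom (Int.castRingHom ℚ))
      = Polynomial.C (Polynomial.C (nΦ : ℚ)) * Φ := by
    rw [hΦ0, Polynomial.map_add, Polynomial.map_mul, Polynomial.map_pow, Polynomial.map_X,
      Polynomial.map_C, Polynomial.coe_mapRingHom, Polynomial.map_C, hHΦ0map, hΦeq]
    simp only [eq_intCast, Int.cast_natCast]
    ring
  have eB1 : Ehom (jqModC ℤ) (qExpand ℤ p (jqModC ℤ)) Φ0 = 0 := by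
    rw [hΦ0, map_add, map_mul, Ehom_CC, map_pow, Ehom_X, eA1, natCast_eq_C]
    ring
  have eB2 : Ehom (qExpand ℤ p (jqModC ℤ)) (jqModC ℤ) Φ0 = 0 := by
    rw [hΦ0, map_add, map_mul, Ehom_CC, map_pow, Ehom_X, eA2, natCast_eq_C]
    ring
  set Φ0k := Φ0.map (Polynomial.mapRingHom (Int.castRingHom k)) with hΦ0k
  set Φk : Polynomial (Polynomial k) := Polynomial.C (Polynomial.C ((nΦ : k)⁻¹)) * Φ0k with hΦk
  have hΦk_eq : Φk = Polynomial.X ^ (p + 1) + Polynomial.C (Polynomial.C ((nΦ : k)⁻¹)) *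
      HΦ0.map (Polynomial.mapRingHom (Int.castRingHom k)) := by
    rw [hΦk, hΦ0k, hΦ0, Polynomial.map_add, Polynomial.map_mul, Polynomial.map_pow,
      Polynomial.map_X, Polynomial.map_C, Polynomial.coe_mapRingHom, Polynomial.map_C, mul_add,
      ← mul_assoc, ← Polynomial.C_mul, ← Polynomial.C_mul, eq_intCast, Int.cast_natCast,
      inv_mul_cancel₀ hnΦ, Polynomial.C_1, Polynomial.C_1, one_mul]
  have hlt : (Polynomial.C (Polynomial.C ((nΦ : k)⁻¹)) *
      HΦ0.map (Polynomial.mapRingHom (Int.castRingHom k))).degree < ((p + 1 : ℕ) : WithBot ℕ) := by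
    refine lt_of_le_of_lt (Polynomial.degree_le_of_natDegree_le
      ((Polynomial.natDegree_C_mul_le _ _).trans
        ((Polynomial.natDegree_map_le).trans hHΦ0deg))) ?_
    exact_mod_cast Nat.lt_succ_self p
  have hΦkm : Φk.Monic := by
    rw [hΦk_eq]
    exact Polynomial.monic_X_pow_add hlt
  have hΦkd : Φk.natDegree = p + 1 := by
    rw [hΦk_eq]
    rw [Polynomial.natDegree_add_eq_left_of_degree_lt (by rw [Polynomial.degree_X_pow]; exact hlt),
      Polynomial.natDegree_X_pow]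
  have rk1 : Ehom (jqModC k) (qExpand k p (jqModC k)) Φk = 0 := by
    rw [hΦk, map_mul, hΦ0k, Ehom_map_j, eB1, map_zero, mul_zero]
  have rk2 : Ehom (qExpand k p (jqModC k)) (jqModC k) Φk = 0 := by
    rw [hΦk, map_mul, hΦ0k, Ehom_map_j', eB2, map_zero, mul_zero]
  have hDne := hDer Φk hΦkm hΦkd rk1 rk2
  -- the derivative
  set WD := Ehom (jqModC ℤ) (qExpand ℤ p (jqModC ℤ)) (Polynomial.derivative Φ0) with hWD
  set WD' := Ehom (qExpand ℤ p (jqModC ℤ)) (jqModC ℤ) (Polynomial.derivative Φ0) with hWD'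
  set D := (Polynomial.derivative Φ0).map (Polynomial.mapRingHom (Int.castRingHom k)) with hD
  have hDW : Ehom (jqModC k) (qExpand k p (jqModC k)) D = coeffMap (Int.castRingHom k) WD :=
    Ehom_map_j _ p _
  have hDk : Polynomial.derivative Φk = Polynomial.C (Polynomial.C ((nΦ : k)⁻¹)) * D := by
    rw [hΦk, Polynomial.derivative_C_mul, hΦ0k, Polynomial.derivative_map]
  have dQ : (Polynomial.derivative Φ0).map (Polynomial.mapRingHom (Int.castRingHom ℚ))
      = Polynomial.C (Polynomial.C (nΦ : ℚ)) * Polynomial.derivative Φ := by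
    rw [← Polynomial.derivative_map, hΦ0Q, Polynomial.derivative_C_mul]
  refine ⟨D, ?_, ?_⟩
  · intro h0
    apply hDne
    rw [hDk, map_mul, h0, mul_zero]
  · intro m
    obtain ⟨G, hGdeg, hG1, hG2⟩ := hG m
    have hHdeg : (Polynomial.C (Polynomial.C (nΦ : ℚ)) * G).natDegree ≤ p :=
      (Polynomial.natDegree_C_mul_le _ _).trans hGdeg
    have e1 : coeffMap (Int.castRingHom ℚ) (uSer ℤ p ^ m * WD)
        = uSer ℚ p ^ m * (HahnSeries.C (nΦ : ℚ) *
            Ehom (jqModC ℚ) (qExpand ℚ p (jqModC ℚ)) (Polynomial.derivative Φ)) := by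
      rw [map_mul (coeffMap (Int.castRingHom ℚ)), map_pow, coeffMap_uSer, hWD, ← Ehom_map_j, dQ,
        map_mul, Ehom_CC]
    have e2 : coeffMap (Int.castRingHom ℚ) (uInv ℤ p ^ m * WD')
        = uInv ℚ p ^ m * (HahnSeries.C (nΦ : ℚ) *
            Ehom (qExpand ℚ p (jqModC ℚ)) (jqModC ℚ) (Polynomial.derivative Φ)) := by
      rw [map_mul (coeffMap (Int.castRingHom ℚ)), map_pow, coeffMap_uInv, hWD', ← Ehom_map_j', dQ,
        map_mul, Ehom_CC]
    have c1 : Ehom (jqModC ℚ) (qExpand ℚ p (jqModC ℚ)) (Polynomial.C (Polynomial.C (nΦ : ℚ)) * G)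
        = coeffMap (Int.castRingHom ℚ) (uSer ℤ p ^ m * WD) := by
      rw [e1, map_mul, Ehom_CC, ← hG1]
      ring
    have c2 : HahnSeries.C ((p : ℚ) ^ (12 * m)) *
        Ehom (qExpand ℚ p (jqModC ℚ)) (jqModC ℚ) (Polynomial.C (Polynomial.C (nΦ : ℚ)) * G)
        = coeffMap (Int.castRingHom ℚ) (uInv ℤ p ^ m * WD') := by
      rw [e2, map_mul, Ehom_CC, mul_left_comm, ← hG2]
      ring
    obtain ⟨nG, G0, hnG, -, hG0deg, eC1, -⟩ :=
      exists_int_model p hpk hRC _ hHdeg _ _ (12 * m) c1 c2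
    refine ⟨Polynomial.C (Polynomial.C ((nG : k)⁻¹)) *
      G0.map (Polynomial.mapRingHom (Int.castRingHom k)),
      (Polynomial.natDegree_C_mul_le _ _).trans ((Polynomial.natDegree_map_le).trans hG0deg), ?_⟩
    have eG : Ehom (jqModC k) (qExpand k p (jqModC k))
        (G0.map (Polynomial.mapRingHom (Int.castRingHom k)))
        = HahnSeries.C (nG : k) * (uSer k p ^ m * Ehom (jqModC k) (qExpand k p (jqModC k)) D) := by
      rw [Ehom_map_j (Int.castRingHom k) p G0, eC1, map_mul,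
        map_natCast (coeffMap (Int.castRingHom k)), natCast_eq_C, map_mul, map_pow, coeffMap_uSer,
        hDW]
    rw [map_mul, Ehom_CC, eG, ← mul_assoc, ← map_mul, inv_mul_cancel₀ hnG, map_one, one_mul]

/-- **(B3-Red), conditional form.**  For a field `k` with `(p : k) ≠ 0`: from the non-vanishing of
`∂Φ/∂Y (J, J_p)` for the modular equations over `k` (`hDer`) and the rational Lagrange relations
(`hQ`, the statement of `S28_LagQ.exists_lagrange_rat`), the Lagrange relations over `k`. -/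
theorem exists_lagrange_mod_of_aeval (p : ℕ) [NeZero p] (hp : p.Prime) (k : Type*) [Field k]
    (hpk : (p : k) ≠ 0)
    (hDer : ∀ Ψ : Polynomial (Polynomial k), Ψ.Monic → Ψ.natDegree = p + 1 →
      Ψ.aevalAeval (jqModC k) (qExpand k p (jqModC k)) = 0 →
      Ψ.aevalAeval (qExpand k p (jqModC k)) (jqModC k) = 0 →
      (Polynomial.derivative Ψ).aevalAeval (jqModC k) (qExpand k p (jqModC k)) ≠ 0)
    (hQ : ∃ Φ : Polynomial (Polynomial ℚ), Φ.Monic ∧ Φ.natDegree = p + 1 ∧
      Φ.aevalAeval (jq : LaurentSeries ℚ) (qExpand ℚ p jq) = 0 ∧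
      Φ.aevalAeval (qExpand ℚ p jq) (jq : LaurentSeries ℚ) = 0 ∧
      ∀ m : ℕ, ∃ G : Polynomial (Polynomial ℚ), G.natDegree ≤ p ∧
        uSer ℚ p ^ m * (Polynomial.derivative Φ).aevalAeval (jq : LaurentSeries ℚ) (qExpand ℚ p jq)
          = G.aevalAeval (jq : LaurentSeries ℚ) (qExpand ℚ p jq) ∧
        uInv ℚ p ^ m * (Polynomial.derivative Φ).aevalAeval (qExpand ℚ p jq) (jq : LaurentSeries ℚ)
          = algebraMap ℚ (LaurentSeries ℚ) ((p : ℚ) ^ (12 * m)) *
              G.aevalAeval (qExpand ℚ p jq) (jq : LaurentSeries ℚ)) :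
    ∃ D : Polynomial (Polynomial k),
      D.aevalAeval (jqModC k) (qExpand k p (jqModC k)) ≠ 0 ∧
      ∀ m : ℕ, ∃ G : Polynomial (Polynomial k), G.natDegree ≤ p ∧
        uSer k p ^ m * D.aevalAeval (jqModC k) (qExpand k p (jqModC k))
          = G.aevalAeval (jqModC k) (qExpand k p (jqModC k)) := by
  obtain ⟨Φ, hΦm, hΦd, h1, h2, hG⟩ := hQ
  rw [← jqModC_rat] at h1 h2 hG
  obtain ⟨D, hD, hDG⟩ := exists_lagrange_mod_of (k := k) p hpk
    (fun H hdeg r1 r2 => Fermat.Agent.S28_Split.eq_zero_of_aevalAeval p hp hpk H hdeg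
      ((aevalAeval_eq_Ehom _ _ H).trans r1) ((aevalAeval_eq_Ehom _ _ H).trans r2))
    (fun Ψ hm hd r1 r2 => by
      rw [← aevalAeval_eq_Ehom]
      exact hDer Ψ hm hd ((aevalAeval_eq_Ehom _ _ Ψ).trans r1)
        ((aevalAeval_eq_Ehom _ _ Ψ).trans r2))
    Φ hΦm hΦd ((aevalAeval_eq_Ehom _ _ Φ).symm.trans h1) ((aevalAeval_eq_Ehom _ _ Φ).symm.trans h2)
    (fun m => by
      obtain ⟨G, hGdeg, hG1, hG2⟩ := hG m
      refine ⟨G, hGdeg, ?_, ?_⟩
      · rw [← aevalAeval_eq_Ehom, ← aevalAeval_eq_Ehom]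
        exact hG1
      · rw [← aevalAeval_eq_Ehom, ← aevalAeval_eq_Ehom, ← algebraMap_eq_C]
        exact hG2)
  refine ⟨D, ?_, fun m => ?_⟩
  · rw [aevalAeval_eq_Ehom]
    exact hD
  · obtain ⟨G, hGdeg, hG1⟩ := hDG m
    refine ⟨G, hGdeg, ?_⟩
    rw [aevalAeval_eq_Ehom, aevalAeval_eq_Ehom]
    exact hG1

end Assembly

end Fermat.Agent.S28_LagMod

end
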