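-- Helper for S28 (project I, block B3-P, helper6): if the modular unit `u = Δ(q^p)/Δ(q)` has
-- all its powers (times a fixed non-zero denominator) given by bivariate polynomials of bounded
-- degree in `(J, J(q^p))`, then `J(q^p)` is not a rational function of `J`.
import Mathlib
import Fermat.Prelude.Def_ModularCurve_X0ModL
import Fermat.Agent.S28_Defs
import Fermat.Agent.S28_Desc
import Fermat.Agent.S28_Split

set_option autoImplicit false

noncomputable section

open ModularCurve Polynomial
open Fermat.Agent.S28_Defs (uSer)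

namespace Fermat.Agent.S28_LagP

/-- The `q`-order of a non-zero polynomial in `J` is minus its degree. -/
theorem order_aeval_jqModC (k : Type*) [Field k] {P : Polynomial k} (hP : P ≠ 0) :
    (Polynomial.aeval (jqModC k) P).order = -(P.natDegree : ℤ) := by
  have hne := S28_Desc.aeval_jqModC_ne_zero k hP
  apply le_antisymm
  · apply HahnSeries.order_le_of_coeff_ne_zero
    rw [Polynomial.aeval_eq_sum_range, HahnSeries.coeff_sum, Finset.sum_eq_single P.natDegree]
    · rw [Algebra.smul_def, S28_Desc.coeff_algebraMap_mul, coeff_jqModC_pow_self, mul_one]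
      exact Polynomial.leadingCoeff_ne_zero.mpr hP
    · intro i hi hne'
      have hlt : i < P.natDegree :=
        lt_of_le_of_ne (Nat.lt_succ_iff.mp (Finset.mem_range.mp hi)) hne'
      rw [Algebra.smul_def, S28_Desc.coeff_algebraMap_mul,
        coeff_jqModC_pow_of_lt k (by omega), mul_zero]
    · intro hn
      exact absurd (Finset.mem_range.mpr (Nat.lt_succ_self _)) hn
  · rw [HahnSeries.le_order_iff_forall hne]
    intro j hj
    rw [Polynomial.aeval_eq_sum_range, HahnSeries.coeff_sum]
    apply Finset.sum_eq_zero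
    intro i hi
    have hle : i ≤ P.natDegree := Nat.lt_succ_iff.mp (Finset.mem_range.mp hi)
    rw [Algebra.smul_def, S28_Desc.coeff_algebraMap_mul,
      coeff_jqModC_pow_of_lt k (by omega), mul_zero]

/-- The modular unit `Δ(q^p)/Δ(q)` has `q`-order `p - 1`. -/
theorem order_uSer (k : Type*) [Field k] (p : ℕ) [NeZero p] :
    (uSer k p).order = (p : ℤ) - 1 := by
  apply le_antisymm
  · apply HahnSeries.order_le_of_coeff_ne_zero
    rw [S28_Defs.coeff_uSer_self]
    exact one_ne_zero
  · rw [HahnSeries.le_order_iff_forall (S28_Defs.uSer_ne_zero k p)]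
    intro j hj
    exact S28_Defs.coeff_uSer_of_lt k p hj

/-- The homogenisation of a bivariate polynomial along `y = r / s`. -/
def homog {k : Type*} [Field k] (r s : Polynomial k) (e : ℕ) (H : Polynomial (Polynomial k)) :
    Polynomial k :=
  ∑ i ∈ Finset.range (e + 1), H.coeff i * s ^ (e - i) * r ^ i

/-- Clearing denominators: if `y * s(x) = r(x)` then `s(x)^e * H(x, y)` is a polynomial in `x`
as soon as `deg_Y H ≤ e`. -/
theorem pow_mul_aevalAeval {k : Type*} [Field k] (x y : LaurentSeries k) (r s : Polynomial k)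
    (hy : y * Polynomial.aeval x s = Polynomial.aeval x r) (e : ℕ)
    (H : Polynomial (Polynomial k)) (hH : H.natDegree ≤ e) :
    Polynomial.aeval x s ^ e * H.aevalAeval x y = Polynomial.aeval x (homog r s e H) := by
  rw [← S28_Split.ev2_eq_aevalAeval, S28_Split.ev2_apply,
    Polynomial.eval₂_eq_sum_range' _ (Nat.lt_succ_of_le hH), Finset.mul_sum, homog, map_sum]
  apply Finset.sum_congr rfl
  intro i hi
  have hle : i ≤ e := Nat.lt_succ_iff.mp (Finset.mem_range.mp hi)
  rw [S28_Split.ev_apply_eq_aeval, map_mul, map_mul, map_pow, map_pow, ← hy]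
  have he : e = (e - i) + i := (Nat.sub_add_cancel hle).symm
  conv_lhs => rw [he, pow_add]
  ring

/-- **B3-P.**  If `u^m * D(J, J_p)` is, for every `m`, a bivariate polynomial of degree `≤ p` in
`J_p = J(q^p)` evaluated at `(J, J_p)` (with `D(J, J_p) ≠ 0` fixed), then `J_p ∉ k(J)`:
otherwise, clearing denominators, `u^m * D₀(J) = N_m(J)` with `D₀ ≠ 0` fixed, which is impossible
for `m > deg D₀` since the left side has positive `q`-order `m (p - 1) - deg D₀`, while non-zero
polynomials in `J` have non-positive order. -/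
theorem not_mem_adjoin_of_lagrange (k : Type*) [Field k] (p : ℕ) [NeZero p] (hp2 : 2 ≤ p)
    (D : Polynomial (Polynomial k))
    (hD : D.aevalAeval (jqModC k) (qExpand k p (jqModC k)) ≠ 0)
    (hG : ∀ m : ℕ, ∃ G : Polynomial (Polynomial k), G.natDegree ≤ p ∧
      uSer k p ^ m * D.aevalAeval (jqModC k) (qExpand k p (jqModC k))
        = G.aevalAeval (jqModC k) (qExpand k p (jqModC k))) :
    qExpand k p (jqModC k) ∉ IntermediateField.adjoin k {jqModC k} := by
  intro hmem
  obtain ⟨r, s, hrs⟩ := (IntermediateField.mem_adjoin_simple_iff k _).mp hmem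
  set x : LaurentSeries k := jqModC k with hx
  set y : LaurentSeries k := qExpand k p (jqModC k) with hy
  have hy0 : y ≠ 0 := by
    intro h0
    have h1 : qExpand k p (jqModC k) = qExpand k p 0 := by rw [map_zero]; exact h0
    have h2 := qExpand_injective (R := k) (N := p) h1
    have h3 := S28_Desc.aeval_jqModC_ne_zero k (p := (Polynomial.X : Polynomial k))
      Polynomial.X_ne_zero
    rw [Polynomial.aeval_X] at h3
    exact h3 h2
  have hb0 : Polynomial.aeval x s ≠ 0 := by
    intro h0
    rw [h0, div_zero] at hrs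
    exact hy0 hrs
  have hyb : y * Polynomial.aeval x s = Polynomial.aeval x r := by
    rw [hrs, div_mul_cancel₀ _ hb0]
  set e : ℕ := max p D.natDegree with he
  -- the fixed denominator
  have hD0 := pow_mul_aevalAeval x y r s hyb e D (le_max_right _ _)
  set D0 : Polynomial k := homog r s e D with hD0def
  have hD0ne : D0 ≠ 0 := by
    intro h0
    rw [h0, map_zero] at hD0
    exact mul_ne_zero (pow_ne_zero e hb0) hD hD0
  -- the numerator for a large power
  obtain ⟨G, hGdeg, hGeq⟩ := hG (D0.natDegree + 1)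
  have hN := pow_mul_aevalAeval x y r s hyb e G (hGdeg.trans (le_max_left _ _))
  set N : Polynomial k := homog r s e G with hNdef
  have hu0 : uSer k p ≠ 0 := S28_Defs.uSer_ne_zero k p
  have hkey : uSer k p ^ (D0.natDegree + 1) * Polynomial.aeval x D0 = Polynomial.aeval x N := by
    rw [← hN, ← hGeq, ← hD0]
    ring
  have hlhs0 : uSer k p ^ (D0.natDegree + 1) * Polynomial.aeval x D0 ≠ 0 :=
    mul_ne_zero (pow_ne_zero _ hu0) (S28_Desc.aeval_jqModC_ne_zero k hD0ne)
  have hNne : N ≠ 0 := by
    intro h0
    rw [h0, map_zero] at hkey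
    exact hlhs0 hkey
  have hord := congrArg HahnSeries.order hkey
  rw [HahnSeries.order_mul (pow_ne_zero _ hu0) (S28_Desc.aeval_jqModC_ne_zero k hD0ne),
    HahnSeries.order_pow, order_uSer, order_aeval_jqModC k hD0ne, order_aeval_jqModC k hNne,
    nsmul_eq_mul] at hord
  have hp' : (1 : ℤ) ≤ (p : ℤ) - 1 := by
    have : (2 : ℤ) ≤ (p : ℤ) := by exact_mod_cast hp2
    linarith
  have h1 : ((D0.natDegree + 1 : ℕ) : ℤ) * 1 ≤ ((D0.natDegree + 1 : ℕ) : ℤ) * ((p : ℤ) - 1) :=
    mul_le_mul_of_nonneg_left hp' (by positivity)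
  have h2 : (0 : ℤ) ≤ (N.natDegree : ℤ) := by positivity
  push_cast at h1 hord
  linarith

end Fermat.Agent.S28_LagP
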