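import Fermat.Agent.S23_Interp

/-!
# S28_Lagrange (helper2): Lagrange interpolation over the cosets of `Γ₀(N)`, explicit form

There is a monic `Φ ∈ ℂ[j][Y]` of degree `n = [SL₂(ℤ) : Γ₀(N)]` with `Φ(j, j_N) = 0` such that for
every `Γ₀(N)`-invariant nice function `Ψ` there is `G ∈ ℂ[j][Y]` of `Y`-degree `< n` with
`Ψ · (∂Φ/∂Y)(j, j_N) = G(j, j_N)`.

(Inner variable `X ↦ j`, outer variable `Y ↦ j_N`, as in `Polynomial.evalEval`.)
-/

set_option autoImplicit false

noncomputable section

open Fermat.Agent.S24_Defs Fermat.Agent.S24_Embed ModularCurve UpperHalfPlane Filter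
open scoped MatrixGroups ModularForm Manifold Topology

namespace Fermat.Agent.S28_Lagrange

open Fermat.Agent.S24_DegreeOf (evalAt evalAt_apply exists_poly_of_tr_invariant)
open Fermat.Agent.S23_Interp (orb orb_mk orb_one orb_smul orb_out)

theorem degree_lt_of_natDegree_lt' {R : Type*} [Semiring R] {p : Polynomial R} {n : ℕ}
    (h : p.natDegree < n) : p.degree < (n : WithBot ℕ) :=
  lt_of_le_of_lt Polynomial.degree_le_natDegree (by exact_mod_cast h)

theorem natDegree_lt_of_degree_lt' {R : Type*} [Semiring R] {p : Polynomial R} {n : ℕ}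
    (hn : 0 < n) (h : p.degree < (n : WithBot ℕ)) : p.natDegree < n := by
  by_cases hp : p = 0
  · rw [hp, Polynomial.natDegree_zero]; exact hn
  · exact (Polynomial.natDegree_lt_iff_degree_lt hp).mpr h

/-- A polynomial over `AN N` all of whose coefficients are polynomials in `j`, of degree `< n`,
comes from a bivariate polynomial. -/
theorem exists_bivariate {N : ℕ} (Q : Polynomial (AN N)) (n : ℕ) (hdeg : Q.natDegree < n)
    (hcoeff : ∀ k : ℕ, ∃ p : Polynomial ℂ, ∀ τ : ℍ, (Q.coeff k : ℍ → ℂ) τ = p.eval (jFun τ)) :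
    ∃ G : Polynomial (Polynomial ℂ), G.natDegree < n ∧
      ∀ τ : ℍ, G.map (Polynomial.evalRingHom (jFun τ)) = Q.map (evalAt N τ) := by
  classical
  choose p hp using hcoeff
  refine ⟨∑ k ∈ Finset.range n, Polynomial.C (p k) * Polynomial.X ^ k, ?_, fun τ => ?_⟩
  · have hn : 0 < n := by omega
    refine natDegree_lt_of_degree_lt' hn ?_
    refine lt_of_le_of_lt (Polynomial.degree_sum_le _ _) ?_
    refine (Finset.sup_lt_iff (WithBot.bot_lt_coe n)).mpr ?_
    intro k hk
    refine lt_of_le_of_lt (Polynomial.degree_C_mul_X_pow_le k (p k)) ?_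
    exact WithBot.coe_lt_coe.mpr (Finset.mem_range.mp hk)
  · ext k
    rw [Polynomial.coeff_map, Polynomial.coeff_map, Polynomial.finsetSum_coeff]
    simp only [Polynomial.coeff_C_mul, Polynomial.coeff_X_pow]
    by_cases hk : k < n
    · rw [Finset.sum_eq_single k]
      · simp [hp]
      · intro b _ hb
        rw [if_neg (fun h => hb h.symm), mul_zero]
      · intro h
        exact absurd (Finset.mem_range.mpr hk) h
    · rw [Finset.sum_eq_zero]
      · rw [Polynomial.coeff_eq_zero_of_natDegree_lt (by omega)]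
        simp
      · intro b hb
        have : b < n := Finset.mem_range.mp hb
        rw [if_neg (by omega), mul_zero]

/-- **Explicit Lagrange interpolation over the cosets.** -/
theorem exists_lagrange (N : ℕ) [NeZero N] :
    ∃ Φ : Polynomial (Polynomial ℂ), Φ.Monic ∧ Φ.natDegree = Nat.card (Coset N) ∧
      (∀ τ : ℍ, Φ.evalEval (jFun τ) (jS N τ) = 0) ∧
      ∀ Ψ : AN N, (∀ g : SL(2, ℤ), g ∈ CongruenceSubgroup.Gamma0 N → tr N g Ψ = Ψ) →
        ∃ G : Polynomial (Polynomial ℂ), G.natDegree < Nat.card (Coset N) ∧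
          ∀ τ : ℍ, (Ψ : ℍ → ℂ) τ * (Polynomial.derivative Φ).evalEval (jFun τ) (jS N τ)
            = G.evalEval (jFun τ) (jS N τ) := by
  classical
  let _ : Fintype (Coset N) := Fintype.ofFinite _
  have hcard : Fintype.card (Coset N) = Nat.card (Coset N) := (Nat.card_eq_fintype_card).symm
  have inp := Fermat.Agent.S24_Degree.inputs N
  set n : ℕ := Nat.card (Coset N) with hn
  set J : AN N := ⟨jS N, inp.hmem N dvd_rfl⟩ with hJdef
  have hJ : ∀ g : SL(2, ℤ), g ∈ CongruenceSubgroup.Gamma0 N → tr N g J = J := fun g hg =>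
    Subtype.ext (funext fun τ => inp.hinv N dvd_rfl g⁻¹ (inv_mem hg) τ)
  set c0 : Coset N := QuotientGroup.mk 1 with hc0
  -- the modular polynomial over `AN N`
  set Q0 : Polynomial (AN N) := ∏ c : Coset N, (Polynomial.X - Polynomial.C (orb J hJ c)) with hQ0
  have hQ0monic : Q0.Monic := Polynomial.monic_prod_of_monic _ _ fun c _ =>
    Polynomial.monic_X_sub_C _
  have hQ0deg : Q0.natDegree = n := by
    rw [hQ0, Polynomial.natDegree_prod_of_monic _ _ fun c _ => Polynomial.monic_X_sub_C _]
    simp only [Polynomial.natDegree_X_sub_C, Finset.sum_const, Finset.card_univ, smul_eq_mul,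
      mul_one, hcard]
  have hQ0map : ∀ g : SL(2, ℤ), Q0.map (tr N g : AN N →+* AN N) = Q0 := by
    intro g
    rw [hQ0, Polynomial.map_prod]
    have h1 : ∀ c : Coset N, (Polynomial.X - Polynomial.C (orb J hJ c)).map
        (tr N g : AN N →+* AN N) = Polynomial.X - Polynomial.C (orb J hJ (g • c)) := by
      intro c
      rw [Polynomial.map_sub, Polynomial.map_X, Polynomial.map_C, orb_smul]
      rfl
    simp_rw [h1]
    exact Equiv.prod_comp (MulAction.toPerm g : Equiv.Perm (Coset N))
      (fun c => Polynomial.X - Polynomial.C (orb J hJ c))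
  have hinvcoeff : ∀ (Q : Polynomial (AN N)), (∀ g : SL(2, ℤ), Q.map (tr N g : AN N →+* AN N) = Q) →
      ∀ k : ℕ, ∃ p : Polynomial ℂ, ∀ τ : ℍ, (Q.coeff k : ℍ → ℂ) τ = p.eval (jFun τ) := by
    intro Q hQ k
    refine exists_poly_of_tr_invariant (Q.coeff k) fun g => ?_
    have := congrArg (fun q : Polynomial (AN N) => q.coeff k) (hQ g)
    simpa [Polynomial.coeff_map] using this
  -- the lower part of `Q0`
  set Q1 : Polynomial (AN N) := Q0 - Polynomial.X ^ n with hQ1
  have hQ1deg : Q1.natDegree < n ∨ n = 0 := by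
    by_cases hn0 : n = 0
    · exact Or.inr hn0
    · left
      have hd : Q1.degree < (n : WithBot ℕ) := by
        rw [hQ1]
        have h1 : Q0.degree = (Polynomial.X ^ n : Polynomial (AN N)).degree := by
          rw [Polynomial.degree_X_pow, Polynomial.degree_eq_natDegree hQ0monic.ne_zero, hQ0deg]
        have h2 : Q0.leadingCoeff = (Polynomial.X ^ n : Polynomial (AN N)).leadingCoeff := by
          rw [hQ0monic.leadingCoeff, (Polynomial.monic_X_pow n).leadingCoeff]
        have h3 := Polynomial.degree_sub_lt_left h1 hQ0monic.ne_zero h2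
        rwa [Polynomial.degree_eq_natDegree hQ0monic.ne_zero, hQ0deg] at h3
      exact natDegree_lt_of_degree_lt' (Nat.pos_of_ne_zero hn0) hd
  have hnpos : 0 < n := by
    rw [← hcard]
    exact Fintype.card_pos_iff.mpr ⟨c0⟩
  have hQ1deg' : Q1.natDegree < n := hQ1deg.resolve_right hnpos.ne'
  have hQ1map : ∀ g : SL(2, ℤ), Q1.map (tr N g : AN N →+* AN N) = Q1 := by
    intro g
    rw [hQ1, Polynomial.map_sub, hQ0map g, Polynomial.map_pow, Polynomial.map_X]
  obtain ⟨Φ1, hΦ1deg, hΦ1⟩ := exists_bivariate Q1 n hQ1deg' (hinvcoeff Q1 hQ1map)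
  set Φ : Polynomial (Polynomial ℂ) := Polynomial.X ^ n + Φ1 with hΦ
  have hΦmonic : Φ.Monic := by
    rw [hΦ]
    exact Polynomial.monic_X_pow_add (degree_lt_of_natDegree_lt' hΦ1deg)
  have hΦdeg : Φ.natDegree = n := by
    rw [hΦ, Polynomial.natDegree_add_eq_left_of_natDegree_lt (by
      rw [Polynomial.natDegree_X_pow]; exact hΦ1deg), Polynomial.natDegree_X_pow]
  -- `Φ` specialises to the product over the cosets
  have hΦmap : ∀ τ : ℍ, Φ.map (Polynomial.evalRingHom (jFun τ)) = Q0.map (evalAt N τ) := by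
    intro τ
    rw [hΦ, Polynomial.map_add, hΦ1 τ, hQ1, Polynomial.map_sub, Polynomial.map_pow,
      Polynomial.map_pow, Polynomial.map_X, Polynomial.map_X]
    ring
  have hQ0τ : ∀ τ : ℍ, Q0.map (evalAt N τ)
      = ∏ c : Coset N, (Polynomial.X - Polynomial.C ((orb J hJ c : ℍ → ℂ) τ)) := by
    intro τ
    rw [hQ0, Polynomial.map_prod]
    refine Finset.prod_congr rfl fun c _ => ?_
    rw [Polynomial.map_sub, Polynomial.map_X, Polynomial.map_C, evalAt_apply]
  have hJτ : ∀ τ : ℍ, (orb J hJ c0 : ℍ → ℂ) τ = jS N τ := by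
    intro τ
    rw [hc0, orb_one]
  -- injectivity of the conjugates of `j_N`
  -- derivative at the root
  have hder : ∀ τ : ℍ, (Polynomial.derivative Φ).evalEval (jFun τ) (jS N τ)
      = ∏ c ∈ (Finset.univ : Finset (Coset N)).erase c0, (jS N τ - (orb J hJ c : ℍ → ℂ) τ) := by
    intro τ
    rw [← Polynomial.map_evalRingHom_eval, ← Polynomial.derivative_map, hΦmap τ, hQ0τ τ,
      Polynomial.derivative_prod_finset, Polynomial.eval_finsetSum,
      Finset.sum_eq_single c0]
    · rw [Polynomial.eval_mul, Polynomial.eval_prod, Polynomial.derivative_sub,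
        Polynomial.derivative_X, Polynomial.derivative_C, sub_zero, Polynomial.eval_one, mul_one]
      refine Finset.prod_congr rfl fun c _ => ?_
      rw [Polynomial.eval_sub, Polynomial.eval_X, Polynomial.eval_C]
    · intro c _ hc
      have hmem : c0 ∈ (Finset.univ : Finset (Coset N)).erase c :=
        Finset.mem_erase.mpr ⟨fun h => hc h.symm, Finset.mem_univ _⟩
      rw [Polynomial.eval_mul, Polynomial.eval_prod, Finset.prod_eq_zero hmem, zero_mul]
      rw [Polynomial.eval_sub, Polynomial.eval_X, Polynomial.eval_C, hJτ τ, sub_self]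
    · intro h; exact absurd (Finset.mem_univ _) h
  refine ⟨Φ, hΦmonic, hΦdeg, fun τ => ?_, fun Ψ hΨ => ?_⟩
  · rw [← Polynomial.map_evalRingHom_eval, hΦmap τ, hQ0τ τ, Polynomial.eval_prod]
    refine Finset.prod_eq_zero (Finset.mem_univ c0) ?_
    rw [Polynomial.eval_sub, Polynomial.eval_X, Polynomial.eval_C, hJτ τ, sub_self]
  · -- the interpolation polynomial
    set F : Coset N → Polynomial (AN N) := fun c => Polynomial.C (orb Ψ hΨ c)
      * ∏ c' ∈ (Finset.univ : Finset (Coset N)).erase c,
        (Polynomial.X - Polynomial.C (orb J hJ c')) with hF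
    set Q : Polynomial (AN N) := ∑ c : Coset N, F c with hQ
    have hQmap : ∀ g : SL(2, ℤ), Q.map (tr N g : AN N →+* AN N) = Q := by
      intro g
      have h1 : ∀ c : Coset N, (F c).map (tr N g : AN N →+* AN N) = F (g • c) := by
        intro c
        simp only [hF]
        rw [Polynomial.map_mul, Polynomial.map_C, Polynomial.map_prod]
        have e1 : (tr N g : AN N →+* AN N) (orb Ψ hΨ c) = orb Ψ hΨ (g • c) :=
          (orb_smul Ψ hΨ g c).symm
        rw [e1]
        congr 1
        refine Finset.prod_equiv (MulAction.toPerm g : Equiv.Perm (Coset N)) ?_ ?_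
        · intro c'
          simp only [Finset.mem_erase, Finset.mem_univ, and_true, MulAction.toPerm_apply, ne_eq]
          rw [smul_left_cancel_iff]
        · intro c' _
          rw [Polynomial.map_sub, Polynomial.map_X, Polynomial.map_C]
          have e2 : (tr N g : AN N →+* AN N) (orb J hJ c') = orb J hJ (g • c') :=
            (orb_smul J hJ g c').symm
          rw [e2]
          rfl
      rw [hQ, Polynomial.map_sum]
      simp_rw [h1]
      exact Equiv.sum_comp (MulAction.toPerm g : Equiv.Perm (Coset N)) F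
    have hFdeg : ∀ c : Coset N, (F c).natDegree < n := by
      intro c
      simp only [hF]
      refine lt_of_le_of_lt (Polynomial.natDegree_C_mul_le _ _) ?_
      rw [Polynomial.natDegree_prod_of_monic _ _ fun c _ => Polynomial.monic_X_sub_C _]
      simp only [Polynomial.natDegree_X_sub_C, Finset.sum_const, smul_eq_mul, mul_one]
      rw [Finset.card_erase_of_mem (Finset.mem_univ c), Finset.card_univ, hcard]
      omega
    have hQdeg : Q.natDegree < n := by
      rw [hQ]
      have h := Polynomial.natDegree_sum_le_of_forall_le (Finset.univ : Finset (Coset N)) F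
        (n := n - 1) (fun c _ => by have := hFdeg c; omega)
      omega
    obtain ⟨G, hGdeg, hG⟩ := exists_bivariate Q n hQdeg (hinvcoeff Q hQmap)
    refine ⟨G, hGdeg, fun τ => ?_⟩
    rw [← Polynomial.map_evalRingHom_eval (jFun τ) (jS N τ) G, hG τ, hder τ, hQ, Polynomial.map_sum,
      Polynomial.eval_finsetSum, Finset.sum_eq_single c0]
    · simp only [hF]
      rw [Polynomial.map_mul, Polynomial.map_C, Polynomial.eval_mul, Polynomial.eval_C,
        Polynomial.map_prod, Polynomial.eval_prod, evalAt_apply, orb_one]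
      congr 1
      refine Finset.prod_congr rfl fun c _ => ?_
      rw [Polynomial.map_sub, Polynomial.map_X, Polynomial.map_C, Polynomial.eval_sub,
        Polynomial.eval_X, Polynomial.eval_C, evalAt_apply]
    · intro c _ hc
      simp only [hF]
      rw [Polynomial.map_mul, Polynomial.eval_mul, Polynomial.map_prod, Polynomial.eval_prod]
      have hmem : c0 ∈ (Finset.univ : Finset (Coset N)).erase c :=
        Finset.mem_erase.mpr ⟨fun h => hc h.symm, Finset.mem_univ _⟩
      rw [Finset.prod_eq_zero hmem, mul_zero]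
      rw [Polynomial.map_sub, Polynomial.map_X, Polynomial.map_C, Polynomial.eval_sub,
        Polynomial.eval_X, Polynomial.eval_C, evalAt_apply, hJτ τ, sub_self]
    · intro h; exact absurd (Finset.mem_univ _) h

end Fermat.Agent.S28_Lagrange

end
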