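import Fermat.Agent.S28_Unit
import Fermat.Agent.S28_Defs

/-!
# S28_UnitDefs (helper1): the `q`-expansion of `u = Δ(p·)/Δ` against the shared formal unit

(U4) of block (UNIT), restated against `Fermat.Agent.S28_Defs.uSer` / `uInv` (architect's
request): `LConv (uSer ℂ p) (uFun p)` and `LConv (uInv ℂ p) (fun τ => (uFun p τ)⁻¹)`.
-/

set_option autoImplicit false
noncomputable section
open Fermat.Agent.S24_Defs Fermat.Agent.S24_QExp ModularCurve UpperHalfPlane

namespace Fermat.Agent.S28_UnitDefs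

open Fermat.Agent.S28_Unit Fermat.Agent.S28_Defs

variable (p : ℕ) [NeZero p]

theorem uSer_complex : uSer ℂ p = coeffEmb ℂ (deltaSeriesN p * deltaSeries⁻¹) := by
  rw [← uSer_rat, ← coeffMap_uSer p (algebraMap ℚ ℂ)]
  rfl

theorem uInv_rat : uInv ℚ p = modularUnitSeries p := by
  have h1 : uSer ℚ p * uInv ℚ p = 1 := uSer_mul_uInv ℚ p
  have h2 : uSer ℚ p = (modularUnitSeries p)⁻¹ := uSer_rat_eq_inv p
  rw [h2] at h1
  have h3 := modularUnitSeries_ne_zero p
  calc uInv ℚ p = modularUnitSeries p * ((modularUnitSeries p)⁻¹ * uInv ℚ p) := by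
        rw [← mul_assoc, mul_inv_cancel₀ h3, one_mul]
    _ = modularUnitSeries p := by rw [h1, mul_one]

theorem uInv_complex : uInv ℂ p = coeffEmb ℂ (modularUnitSeries p) := by
  rw [← uInv_rat, ← coeffMap_uInv p (algebraMap ℚ ℂ)]
  rfl

/-- (U4) the `q`-expansion of `u = Δ(p·)/Δ` is the shared formal unit `uSer ℂ p`. -/
theorem lconv_uSer : LConv (uSer ℂ p) (uFun p) := by
  rw [uSer_complex]
  exact lconv_uFun p

/-- (U4) the `q`-expansion of `1/u` is `uInv ℂ p`. -/
theorem lconv_uInv : LConv (uInv ℂ p) (fun τ => (uFun p τ)⁻¹) := by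
  rw [uInv_complex]
  exact lconv_uFun_inv p

end Fermat.Agent.S28_UnitDefs
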