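import Fermat.Agent.S28_UnitQ
import Fermat.Agent.S28_Lagrange
import Fermat.Agent.S28_UnitDefs

/-!
# S28_LagQ (helper9): the Lagrange form of the modular unit over `ℚ`, with all powers

Block (B2) of the backup route `PrimeB` to Lemma P (S28): a monic `Φ ∈ ℚ[X][Y]` of `Y`-degree
`p + 1` with `Φ(j, j_p) = 0 = Φ(j_p, j)` such that for every `m` there is `G` of `Y`-degree `≤ p`
with `u^m · (∂Φ/∂Y)(j, j_p) = G(j, j_p)` and `u^(-m) · (∂Φ/∂Y)(j_p, j) = p^(12m) · G(j_p, j)`,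
where `u = Δ(q^p)/Δ(q)`.
-/

set_option autoImplicit false

noncomputable section

namespace Fermat.Agent.S28_LagQ

open Fermat.Agent.S24_Defs Fermat.Agent.S24_Embed Fermat.Agent.S24_QExp ModularCurve
  UpperHalfPlane Polynomial
open scoped MatrixGroups
open Fermat.Agent.S28_Mod0 Fermat.Agent.S28_Unit Fermat.Agent.S28_UnitQ Fermat.Agent.S28_UnitDefs
open Fermat.Agent.S28_Defs (uSer uInv coeffMap_uSer coeffMap_uInv)

theorem desc1_mul_natCast (L : ℂ →ₗ[ℚ] ℚ) (q : Polynomial ℂ) (n : ℕ) :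
    desc1 L (q * ((n : Polynomial ℂ) + 1)) = desc1 L q * ((n : Polynomial ℚ) + 1) := by
  ext a
  have e1 : ((n : Polynomial ℂ) + 1) = C ((n : ℂ) + 1) := by simp
  have e2 : ((n : Polynomial ℚ) + 1) = C ((n : ℚ) + 1) := by simp
  rw [coeff_desc1, e1, e2, Polynomial.coeff_mul_C, Polynomial.coeff_mul_C, coeff_desc1]
  have h : q.coeff a * ((n : ℂ) + 1) = ((n : ℚ) + 1) • q.coeff a := by
    rw [Algebra.smul_def, mul_comm]
    simp
  rw [h, map_smul, smul_eq_mul, mul_comm]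

theorem descP_derivative (L : ℂ →ₗ[ℚ] ℚ) (P : Polynomial (Polynomial ℂ)) :
    descP L (derivative P) = derivative (descP L P) := by
  ext n : 1
  rw [coeff_descP, Polynomial.coeff_derivative, Polynomial.coeff_derivative, coeff_descP,
    desc1_mul_natCast]

theorem coeffEmb_uSer (p : ℕ) [NeZero p] : coeffEmb ℂ (uSer ℚ p) = uSer ℂ p :=
  coeffMap_uSer p (algebraMap ℚ ℂ)

theorem coeffEmb_uInv (p : ℕ) [NeZero p] : coeffEmb ℂ (uInv ℚ p) = uInv ℂ p :=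
  coeffMap_uInv p (algebraMap ℚ ℂ)

/-- (B2) The Lagrange form of the modular unit over `ℚ`, with all powers. -/
theorem exists_lagrange_rat (p : ℕ) [NeZero p] (hp : p.Prime) :
    ∃ Φ : Polynomial (Polynomial ℚ), Φ.Monic ∧ Φ.natDegree = p + 1 ∧
      Φ.aevalAeval (jq : LaurentSeries ℚ) (qExpand ℚ p jq) = 0 ∧
      Φ.aevalAeval (qExpand ℚ p jq) (jq : LaurentSeries ℚ) = 0 ∧
      ∀ m : ℕ, ∃ G : Polynomial (Polynomial ℚ), G.natDegree ≤ p ∧
        uSer ℚ p ^ m * (derivative Φ).aevalAeval (jq : LaurentSeries ℚ) (qExpand ℚ p jq)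
          = G.aevalAeval (jq : LaurentSeries ℚ) (qExpand ℚ p jq) ∧
        uInv ℚ p ^ m * (derivative Φ).aevalAeval (qExpand ℚ p jq) (jq : LaurentSeries ℚ)
          = algebraMap ℚ (LaurentSeries ℚ) ((p : ℚ) ^ (12 * m))
            * G.aevalAeval (qExpand ℚ p jq) (jq : LaurentSeries ℚ) := by
  have hp0 : p ≠ 0 := NeZero.ne p
  have hpC : (p : ℂ) ≠ 0 := Nat.cast_ne_zero.mpr hp0
  obtain ⟨Φc, hmonic, hdeg, hΦ, hΨ⟩ := Fermat.Agent.S28_Lagrange.exists_lagrange p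
  obtain ⟨L, hL⟩ := exists_functional (one_ne_zero : (1 : ℂ) ≠ 0)
  have h1 : aevalAeval (coeffEmb ℂ jq) (coeffEmb ℂ (qExpand ℚ p jq)) Φc = 0 :=
    (aevalAeval_eq_zero_iff lconv_j (lconv_jp p) Φc).mpr hΦ
  have h2 : aevalAeval (coeffEmb ℂ (qExpand ℚ p jq)) (coeffEmb ℂ jq) Φc = 0 :=
    (swap_series p Φc).mp h1
  obtain ⟨hm, hd⟩ := descP_monic L hL hmonic
  refine ⟨descP L Φc, hm, by rw [hd, hdeg, card_coset_prime p hp], ?_, ?_, fun m => ?_⟩
  · have h := Lam_aevalAeval L 1 jq (qExpand ℚ p jq) Φc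
    rw [h1, mul_zero, Lam_zero, one_mul] at h
    exact h.symm
  · have h := Lam_aevalAeval L 1 (qExpand ℚ p jq) jq Φc
    rw [h2, mul_zero, Lam_zero, one_mul] at h
    exact h.symm
  · -- the invariant function `u^m`
    set Ψ₀ : AN p := ⟨uFun p, uFun_mem hp0⟩ with hΨ₀
    have hinv : ∀ g : SL(2, ℤ), g ∈ CongruenceSubgroup.Gamma0 p → tr p g (Ψ₀ ^ m) = Ψ₀ ^ m := by
      intro g hg
      rw [map_pow, tr_uFun hp0 g hg]
    obtain ⟨Gc, hGdeg, hG⟩ := hΨ (Ψ₀ ^ m) hinv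
    have hcoe : ∀ τ, ((Ψ₀ ^ m : AN p) : ℍ → ℂ) τ = uFun p τ ^ m := fun τ => rfl
    have hG1 : ∀ τ, uFun p τ ^ m * (derivative Φc).evalEval (jFun τ) (jS p τ)
        = Gc.evalEval (jFun τ) (jS p τ) := fun τ => by rw [← hcoe, hG τ]
    have hG2 : ∀ τ, ((uFun p τ)⁻¹) ^ m * (derivative Φc).evalEval (jS p τ) (jFun τ)
        = (p : ℂ) ^ (12 * m) * Gc.evalEval (jS p τ) (jFun τ) := by
      intro τ
      have h := hG1 (Fermat.Agent.S28_Mod0.fricke p τ)
      rw [Fermat.Agent.S28_Mod0.jFun_fricke, Fermat.Agent.S28_Mod0.jS_fricke] at h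
      have hu : uFun p (Fermat.Agent.S28_Mod0.fricke p τ)
          = ((p : ℂ) ^ 12)⁻¹ * (uFun p τ)⁻¹ := uFun_fricke hp0 τ
      rw [hu] at h
      have hpm : (p : ℂ) ^ (12 * m) ≠ 0 := pow_ne_zero _ hpC
      have e : (p : ℂ) ^ (12 * m) * (((p : ℂ) ^ 12)⁻¹) ^ m = 1 := by
        rw [inv_pow, ← pow_mul, mul_inv_cancel₀ hpm]
      rw [← h, mul_pow]
      linear_combination (-(((uFun p τ)⁻¹) ^ m
        * (derivative Φc).evalEval (jS p τ) (jFun τ))) * e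
    -- series identities over `ℂ`
    have hu : LConv (coeffEmb ℂ (uSer ℚ p ^ m)) (fun τ => uFun p τ ^ m) := by
      rw [map_pow, coeffEmb_uSer]
      exact lconv_pow (lconv_uSer p) m
    have hui : LConv (coeffEmb ℂ (uInv ℚ p ^ m)) (fun τ => ((uFun p τ)⁻¹) ^ m) := by
      rw [map_pow, coeffEmb_uInv]
      exact lconv_pow (lconv_uInv p) m
    have hc : LConv (coeffEmb ℂ (algebraMap ℚ (LaurentSeries ℚ) ((p : ℚ) ^ (12 * m))))
        (fun _ => (p : ℂ) ^ (12 * m)) := by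
      rw [Fermat.Agent.S28_Mod0.coeffEmb_algebraMap, map_pow, map_natCast]
      exact LConv.const _
    have e1 : coeffEmb ℂ (uSer ℚ p ^ m)
          * aevalAeval (coeffEmb ℂ jq) (coeffEmb ℂ (qExpand ℚ p jq)) (derivative Φc)
        = aevalAeval (coeffEmb ℂ jq) (coeffEmb ℂ (qExpand ℚ p jq)) Gc :=
      lconv_unique (hu.mul (lconv_aevalAeval lconv_j (lconv_jp p) (derivative Φc)))
        (lconv_aevalAeval lconv_j (lconv_jp p) Gc) hG1
    have e2 : coeffEmb ℂ (uInv ℚ p ^ m)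
          * aevalAeval (coeffEmb ℂ (qExpand ℚ p jq)) (coeffEmb ℂ jq) (derivative Φc)
        = coeffEmb ℂ (algebraMap ℚ (LaurentSeries ℚ) ((p : ℚ) ^ (12 * m)))
          * aevalAeval (coeffEmb ℂ (qExpand ℚ p jq)) (coeffEmb ℂ jq) Gc :=
      lconv_unique (hui.mul (lconv_aevalAeval (lconv_jp p) lconv_j (derivative Φc)))
        (hc.mul (lconv_aevalAeval (lconv_jp p) lconv_j Gc)) hG2
    have d1 := Lam_aevalAeval L (uSer ℚ p ^ m) jq (qExpand ℚ p jq) (derivative Φc)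
    have d2 := Lam_aevalAeval L 1 jq (qExpand ℚ p jq) Gc
    have d3 := Lam_aevalAeval L (uInv ℚ p ^ m) (qExpand ℚ p jq) jq (derivative Φc)
    have d4 := Lam_aevalAeval L (algebraMap ℚ (LaurentSeries ℚ) ((p : ℚ) ^ (12 * m)))
      (qExpand ℚ p jq) jq Gc
    rw [map_one, one_mul, one_mul] at d2
    rw [descP_derivative] at d1 d3
    refine ⟨descP L Gc, ?_, ?_, ?_⟩
    · have := natDegree_descP_le L Gc
      rw [card_coset_prime p hp] at hGdeg
      omega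
    · rw [← d1, ← d2, e1]
    · rw [← d3, ← d4, e2]

end Fermat.Agent.S28_LagQ

end
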