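/-
Project I (S28, Igusa), backup route PrimeB, leaf (B3-RC) (helper1).
Root counting at prime level `p` over a field `k` containing a primitive `p`-th root of unity:
* `eq_zero_of_two_relations`: a bivariate polynomial `H` of outer degree `≤ p` with
  `H(J, J_p) = 0` and `H(J_p, J) = 0` vanishes (one-liner over `S28_Split.eq_zero_of_aevalAeval`);
* `derivative_ne_zero_of_two_relations`: for a monic `Φ` of outer degree `p + 1` with the two
  relations, the root `J_p` of `Φ(J; ·)` is simple: `(∂Φ/∂Y)(J, J_p) ≠ 0`.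
Convention: `aevalAeval x y` = (inner variable `↦ x`, outer variable `↦ y`), `J = jqModC k`,
`J_p = qExpand k p J`.
-/
import Mathlib
import Fermat.Prelude.Def_ModularCurve_X0ModL
import Fermat.Agent.S28_Subst
import Fermat.Agent.S28_SubstJ
import Fermat.Agent.S28_Desc
import Fermat.Agent.S28_Split

set_option autoImplicit false

open Polynomial ModularCurve

namespace Fermat.Agent.S28_RootCount

open Fermat.Agent.S28_Subst Fermat.Agent.S28_SubstJ Fermat.Agent.S28_Split

/-- **(RC)** A bivariate polynomial `H` of outer degree `≤ p` with `H(J, J_p) = 0` and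
`H(J_p, J) = 0` vanishes. -/
theorem eq_zero_of_two_relations (p : ℕ) [NeZero p] (hp : p.Prime) (k : Type*) [Field k]
    (ζ : kˣ) (hζ : IsPrimitiveRoot ζ p) (H : Polynomial (Polynomial k))
    (hdeg : H.natDegree ≤ p)
    (h1 : H.aevalAeval (jqModC k) (qExpand k p (jqModC k)) = 0)
    (h2 : H.aevalAeval (qExpand k p (jqModC k)) (jqModC k) = 0) : H = 0 :=
  Fermat.Agent.S28_Split.eq_zero_of_aevalAeval p hp
    (Fermat.Agent.S28_Split.natCast_ne_zero_of_primitiveRoot p ζ hζ) H hdeg h1 h2

/-- the value of the derivative of `(X - C a) * Q` at `a` is `Q(a)` -/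
theorem eval_derivative_X_sub_C_mul {A : Type*} [CommRing A] (a : A) (Q : A[X]) :
    (derivative ((X - C a) * Q)).eval a = Q.eval a := by
  rw [derivative_mul, derivative_sub, derivative_X, derivative_C, sub_zero, one_mul,
    eval_add, eval_mul, eval_sub, eval_X, eval_C, sub_self, zero_mul, add_zero]

/-- the root `J(u^(p^2))` differs from the roots `J(ζ^b u)` -/
theorem qExpand_sq_ne_twist (p : ℕ) [NeZero p] (hp : p.Prime) (k : Type*) [Field k]
    (ζ : kˣ) (hζ : IsPrimitiveRoot ζ p) (b : ℕ) (hb : b < p) :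
    qExpand k (p ^ 2) (jqModC k) ≠ twist (ζ ^ b) (jqModC k) := by
  intro h
  have hinj := rootFam_injective p hp ζ hζ
  have h1 : rootFam p ζ ⟨p, Nat.lt_succ_self p⟩ = qExpand k (p ^ 2) (jqModC k) := by
    simp only [rootFam]
    rw [if_neg (lt_irrefl p)]
  have h2 : rootFam p ζ ⟨b, hb.trans (Nat.lt_succ_self p)⟩ = twist (ζ ^ b) (jqModC k) := by
    simp only [rootFam]
    rw [if_pos hb]
  have h3 := hinj (h1.trans (h.trans h2.symm))
  have h4 : p = b := congrArg Fin.val h3
  omega

/-- **Simple root.** For a monic `Φ` of outer degree `p + 1` with `Φ(J, J_p) = 0` and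
`Φ(J_p, J) = 0`, the outer derivative does not vanish at `(J, J_p)`. -/
theorem derivative_ne_zero_of_two_relations (p : ℕ) [NeZero p] (hp : p.Prime) (k : Type*)
    [Field k] (ζ : kˣ) (hζ : IsPrimitiveRoot ζ p) (Φ : Polynomial (Polynomial k))
    (hΦ : Φ.Monic) (hdeg : Φ.natDegree = p + 1)
    (h1 : Φ.aevalAeval (jqModC k) (qExpand k p (jqModC k)) = 0)
    (h2 : Φ.aevalAeval (qExpand k p (jqModC k)) (jqModC k) = 0) :
    (derivative Φ).aevalAeval (jqModC k) (qExpand k p (jqModC k)) ≠ 0 := by
  intro h0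
  -- the factorisation over `k((u))`
  have hfac := map_eq_prod p hp ζ hζ Φ hΦ hdeg ((ev2_eq_aevalAeval _ _ Φ).trans h1)
    ((ev2_eq_aevalAeval _ _ Φ).trans h2)
  -- transport the vanishing of the derivative by `q ↦ u^p`
  have h3 := hom_ev2 (qExpand k p) (qExpand_hahnC p) (jqModC k) (qExpand k p (jqModC k))
    (derivative Φ)
  rw [(ev2_eq_aevalAeval _ _ (derivative Φ)).trans h0, map_zero, qExpand_qExpand,
    ← qExpand_congr (sq p) (jqModC k)] at h3
  -- so the derivative of the product vanishes at the root `J(u^(p^2))`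
  have h4 : (derivative (Φ.map (ev (qExpand k p (jqModC k))))).eval
      (qExpand k (p ^ 2) (jqModC k)) = 0 := by
    rw [derivative_map, Polynomial.eval_map, ← ev2_apply]
    exact h3.symm
  rw [hfac, eval_derivative_X_sub_C_mul, Polynomial.eval_prod] at h4
  rw [Finset.prod_eq_zero_iff] at h4
  obtain ⟨b, hb, hb0⟩ := h4
  rw [Polynomial.eval_sub, Polynomial.eval_X, Polynomial.eval_C, sub_eq_zero] at hb0
  exact qExpand_sq_ne_twist p hp k ζ hζ b (Finset.mem_range.1 hb) hb0

end Fermat.Agent.S28_RootCount
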