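-- Helper for S28 (project I, backup route PrimeB, block B3-Red, helper6): reduction of the
-- Lagrange form of the modular unit from `ℚ` to an arbitrary field `k` with `(p : k) ≠ 0`
-- (integer models with denominators prime to the characteristic, by minimal denominators and
-- root counting), and the resulting Lemma P: `J(q^p) ∉ k(J)`.
import Mathlib
import Fermat.Prelude.Def_ModularCurve_X0ModL
import Fermat.Agent.S28_Defs
import Fermat.Agent.S28_Split
import Fermat.Agent.S28_LagQ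
import Fermat.Agent.S28_RootCount
import Fermat.Agent.S28_LagP

set_option autoImplicit false

noncomputable section

open ModularCurve Polynomial
open Fermat.Agent.S28_Defs (uSer uInv)
open Fermat.Agent.S28_Split

namespace Fermat.Agent.S28_LagRed

variable (p : ℕ) [NeZero p]

/-- An integer model `Ψ = a Φ₀` of the rational modular equation `Φ₀` whose leading coefficient
`a` is a unit in `k`; its reduction to `k` is `a` times a monic polynomial of degree `p + 1`
satisfying the two relations. -/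
theorem exists_int_model_monic (hp : p.Prime) (k : Type*) [Field k] (hpk : (p : k) ≠ 0)
    (Φ₀ : ℚ[X][X]) (hmonic₀ : Φ₀.Monic) (hdeg₀ : Φ₀.natDegree = p + 1)
    (hrel1 : ev2 (jq : LaurentSeries ℚ) (qExpand ℚ p jq) Φ₀ = 0)
    (hrel2 : ev2 (qExpand ℚ p jq) (jq : LaurentSeries ℚ) Φ₀ = 0) :
    ∃ (a : ℤ) (Ψ : ℤ[X][X]), (a : k) ≠ 0 ∧
      Ψ.map (mapRingHom (Int.castRingHom ℚ)) = C (C (a : ℚ)) * Φ₀ ∧
      (C (C (a : k)⁻¹) * Ψ.map (mapRingHom (Int.castRingHom k))).Monic ∧
      (C (C (a : k)⁻¹) * Ψ.map (mapRingHom (Int.castRingHom k))).natDegree = p + 1 ∧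
      ev2 (jqModC k) (qExpand k p (jqModC k)) (Ψ.map (mapRingHom (Int.castRingHom k))) = 0 ∧
      ev2 (qExpand k p (jqModC k)) (jqModC k) (Ψ.map (mapRingHom (Int.castRingHom k))) = 0 := by
  obtain ⟨c, Ψ, hc, hΨ, hΨk⟩ := exists_int_model_ne_zero k Φ₀ hmonic₀.ne_zero
  -- relations over ℤ
  have hcast : Function.Injective (coeffMap (Int.castRingHom ℚ)) :=
    coeffMap_injective _ (RingHom.injective_int _)
  have hJQ : coeffMap (Int.castRingHom ℚ) (jqModC ℤ) = jq := by
    rw [coeffMap_jqModC]; rfl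
  have hZ1 : ev2 (jqModC ℤ) (qExpand ℤ p (jqModC ℤ)) Ψ = 0 := by
    apply hcast
    rw [coeffMap_ev2, coeffMap_qExpand, hJQ, hΨ, map_mul, hrel1, mul_zero, map_zero]
  have hZ2 : ev2 (qExpand ℤ p (jqModC ℤ)) (jqModC ℤ) Ψ = 0 := by
    apply hcast
    rw [coeffMap_ev2, coeffMap_qExpand, hJQ, hΨ, map_mul, hrel2, mul_zero, map_zero]
  -- relations over k
  set ψ : k[X][X] := Ψ.map (mapRingHom (Int.castRingHom k)) with hψ
  have hk1 : ev2 (jqModC k) (qExpand k p (jqModC k)) ψ = 0 := by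
    have h := coeffMap_ev2 (Int.castRingHom k) (jqModC ℤ) (qExpand ℤ p (jqModC ℤ)) Ψ
    rw [hZ1, map_zero, coeffMap_qExpand, coeffMap_jqModC] at h
    exact h.symm
  have hk2 : ev2 (qExpand k p (jqModC k)) (jqModC k) ψ = 0 := by
    have h := coeffMap_ev2 (Int.castRingHom k) (qExpand ℤ p (jqModC ℤ)) (jqModC ℤ) Ψ
    rw [hZ2, map_zero, coeffMap_qExpand, coeffMap_jqModC] at h
    exact h.symm
  -- degree and leading coefficient of Ψ
  have hinjQ : Function.Injective (mapRingHom (Int.castRingHom ℚ)) :=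
    mapRingHom_injective _ (RingHom.injective_int _)
  have hCc : (C c : ℚ[X]) ≠ 0 := by simpa using hc
  have hdegΨ : Ψ.natDegree = p + 1 := by
    rw [← Polynomial.natDegree_map_eq_of_injective hinjQ Ψ, hΨ, Polynomial.natDegree_C_mul hCc,
      hdeg₀]
  have hlead : (Ψ.coeff (p + 1)).map (Int.castRingHom ℚ) = C c := by
    have h1 := congrArg (fun P : ℚ[X][X] => P.coeff (p + 1)) hΨ
    simp only [Polynomial.coeff_map, coe_mapRingHom, Polynomial.coeff_C_mul] at h1
    rw [h1, ← hdeg₀, hmonic₀.coeff_natDegree, mul_one]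
  obtain ⟨a, ha⟩ : ∃ a : ℤ, Ψ.coeff (p + 1) = C a := by
    have h1 : (Ψ.coeff (p + 1)).natDegree = 0 := by
      rw [← Polynomial.natDegree_map_eq_of_injective
        (RingHom.injective_int (Int.castRingHom ℚ)), hlead, Polynomial.natDegree_C]
    exact ⟨_, Polynomial.eq_C_of_natDegree_eq_zero h1⟩
  have hac : (a : ℚ) = c := by
    rw [ha, Polynomial.map_C] at hlead
    have := Polynomial.C_injective hlead
    simpa using this
  have hψcoeff : ψ.coeff (p + 1) = C (a : k) := by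
    rw [hψ, Polynomial.coeff_map, coe_mapRingHom, ha, Polynomial.map_C]
    simp
  have hψdeg : ψ.natDegree ≤ p + 1 := (Polynomial.natDegree_map_le).trans hdegΨ.le
  have hak : (a : k) ≠ 0 := by
    intro h0
    apply hΨk
    refine eq_zero_of_relations' p hp hpk ψ ?_ hk1 hk2
    rw [Polynomial.natDegree_le_iff_coeff_eq_zero]
    intro N hN
    rcases Nat.lt_or_ge (p + 1) N with h | h
    · exact Polynomial.coeff_eq_zero_of_natDegree_lt (lt_of_le_of_lt hψdeg h)
    · have hN' : N = p + 1 := by omega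
      rw [hN', hψcoeff, h0, map_zero]
  have hCa : (C (a : k) : k[X]) ≠ 0 := Polynomial.C_ne_zero.2 hak
  have hψnat : ψ.natDegree = p + 1 := by
    refine le_antisymm hψdeg (Polynomial.le_natDegree_of_ne_zero ?_)
    rw [hψcoeff]
    exact hCa
  have hψlead : ψ.leadingCoeff = C (a : k) := by
    rw [Polynomial.leadingCoeff, hψnat, hψcoeff]
  have hCinv : (C ((a : k)⁻¹) : k[X]) ≠ 0 := Polynomial.C_ne_zero.2 (inv_ne_zero hak)
  refine ⟨a, Ψ, hak, ?_, ?_, ?_, hk1, hk2⟩
  · rw [hΨ, hac]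
  · apply Polynomial.monic_C_mul_of_mul_leadingCoeff_eq_one
    rw [hψlead, ← C_mul, inv_mul_cancel₀ hak, C_1]
  · rw [Polynomial.natDegree_C_mul hCinv, hψnat]

/-- **Minimal denominators.**  If `c u^m Ψ'(J, J_p) = Γ(J, J_p)` and
`c u^(-m) Ψ'(J_p, J) = p^(12m) Γ(J_p, J)` over `ℤ((q))` with `c ≠ 0` and `deg_Y Γ ≤ p`, then
there is such a pair `(c', Γ')` whose denominator `c'` is a unit in `k`: if `c = 0` in `k` then
`Γ` vanishes in `k[X][Y]` by root counting, so the characteristic divides both `c` and `Γ`. -/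
theorem exists_unit_den (hp : p.Prime) (k : Type*) [Field k] (hpk : (p : k) ≠ 0) (m : ℕ)
    (Ψ' : ℤ[X][X]) :
    ∀ (n : ℕ) (c : ℤ) (Γ : ℤ[X][X]), c.natAbs = n → c ≠ 0 → Γ.natDegree ≤ p →
      HahnSeries.C c * uSer ℤ p ^ m * ev2 (jqModC ℤ) (qExpand ℤ p (jqModC ℤ)) Ψ'
        = ev2 (jqModC ℤ) (qExpand ℤ p (jqModC ℤ)) Γ →
      HahnSeries.C c * uInv ℤ p ^ m * ev2 (qExpand ℤ p (jqModC ℤ)) (jqModC ℤ) Ψ'
        = HahnSeries.C ((p : ℤ) ^ (12 * m)) * ev2 (qExpand ℤ p (jqModC ℤ)) (jqModC ℤ) Γ →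
      ∃ (c' : ℤ) (Γ' : ℤ[X][X]), (c' : k) ≠ 0 ∧ Γ'.natDegree ≤ p ∧
        HahnSeries.C c' * uSer ℤ p ^ m * ev2 (jqModC ℤ) (qExpand ℤ p (jqModC ℤ)) Ψ'
          = ev2 (jqModC ℤ) (qExpand ℤ p (jqModC ℤ)) Γ' := by
  intro n
  induction n using Nat.strong_induction_on with
  | _ n ih =>
    intro c Γ hn hc hdeg h1 h2
    by_cases hck : (c : k) = 0
    swap
    · exact ⟨c, Γ, hck, hdeg, h1⟩
    -- the reduction of `Γ` to `k` vanishes
    have hΓk : Γ.map (mapRingHom (Int.castRingHom k)) = 0 := by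
      refine eq_zero_of_relations' p hp hpk _ ((Polynomial.natDegree_map_le).trans hdeg) ?_ ?_
      · have h := congrArg (coeffMap (Int.castRingHom k)) h1
        rw [map_mul, map_mul, coeffMap_C, eq_intCast, hck, map_zero, zero_mul, zero_mul,
          coeffMap_ev2, coeffMap_qExpand, coeffMap_jqModC] at h
        exact h.symm
      · have h := congrArg (coeffMap (Int.castRingHom k)) h2
        rw [map_mul, map_mul, coeffMap_C, eq_intCast, hck, map_zero, zero_mul, zero_mul,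
          map_mul, coeffMap_C, coeffMap_ev2, coeffMap_qExpand, coeffMap_jqModC] at h
        have hne : (HahnSeries.C ((Int.castRingHom k) ((p : ℤ) ^ (12 * m))) : LaurentSeries k)
            ≠ 0 := by
          intro h0
          have h3 : (Int.castRingHom k) ((p : ℤ) ^ (12 * m)) = 0 := by
            have h4 := congrArg (fun x : LaurentSeries k => x.coeff 0) h0
            simpa using h4
          rw [map_pow, map_natCast] at h3
          exact pow_ne_zero _ hpk h3
        exact (mul_eq_zero.mp h.symm).resolve_left hne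
    -- the characteristic divides `c` and `Γ`
    obtain ⟨ℓ, hℓ⟩ := CharP.exists k
    have hℓc : (ℓ : ℤ) ∣ c := (CharP.intCast_eq_zero_iff k ℓ c).1 hck
    have hℓ0 : ℓ ≠ 0 := by
      rintro rfl
      rw [Nat.cast_zero, zero_dvd_iff] at hℓc
      exact hc hℓc
    have hℓ1 : ℓ ≠ 1 := CharP.char_ne_one k ℓ
    have hℓΓ : C (C (ℓ : ℤ)) ∣ Γ := by
      rw [Polynomial.C_dvd_iff_dvd_coeff]
      intro i
      rw [Polynomial.C_dvd_iff_dvd_coeff]
      intro j
      have h3 := congrArg (fun P : k[X][X] => (P.coeff i).coeff j) hΓk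
      simp only [Polynomial.coeff_map, coe_mapRingHom, Polynomial.coeff_zero, eq_intCast] at h3
      exact (CharP.intCast_eq_zero_iff k ℓ _).1 h3
    obtain ⟨c', rfl⟩ := hℓc
    obtain ⟨Γ', rfl⟩ := hℓΓ
    have hc' : c' ≠ 0 := by
      rintro rfl
      exact hc (mul_zero _)
    have hℓZ : (ℓ : ℤ) ≠ 0 := by exact_mod_cast hℓ0
    have hCℓ : (HahnSeries.C (ℓ : ℤ) : LaurentSeries ℤ) ≠ 0 := fun h0 =>
      hℓZ (HahnSeries.C_injective (h0.trans (map_zero _).symm))
    have hlt : c'.natAbs < n := by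
      rw [← hn, Int.natAbs_mul, Int.natAbs_natCast]
      have h5 : 0 < c'.natAbs := Int.natAbs_pos.mpr hc'
      have h6 : 2 ≤ ℓ := by omega
      nlinarith
    have hdeg' : Γ'.natDegree ≤ p := by
      have hCC : (C (ℓ : ℤ) : ℤ[X]) ≠ 0 := Polynomial.C_ne_zero.2 hℓZ
      rwa [Polynomial.natDegree_C_mul hCC] at hdeg
    refine ih c'.natAbs hlt c' Γ' rfl hc' hdeg' ?_ ?_
    · apply mul_left_cancel₀ hCℓ
      rw [map_mul (ev2 _ _), ev2_C, ev_C] at h1
      rw [← h1, map_mul]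
      ring
    · apply mul_left_cancel₀ hCℓ
      rw [map_mul (ev2 _ _), ev2_C, ev_C] at h2
      calc HahnSeries.C (ℓ : ℤ) * (HahnSeries.C c' * uInv ℤ p ^ m
            * ev2 (qExpand ℤ p (jqModC ℤ)) (jqModC ℤ) Ψ')
          = HahnSeries.C ((ℓ : ℤ) * c') * uInv ℤ p ^ m
            * ev2 (qExpand ℤ p (jqModC ℤ)) (jqModC ℤ) Ψ' := by rw [map_mul]; ring
        _ = HahnSeries.C ((p : ℤ) ^ (12 * m)) * (HahnSeries.C (ℓ : ℤ)
            * ev2 (qExpand ℤ p (jqModC ℤ)) (jqModC ℤ) Γ') := h2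
        _ = HahnSeries.C (ℓ : ℤ) * (HahnSeries.C ((p : ℤ) ^ (12 * m))
            * ev2 (qExpand ℤ p (jqModC ℤ)) (jqModC ℤ) Γ') := by ring

/-- **(B3-Red).**  The Lagrange form of the modular unit over any field `k` containing a
primitive `p`-th root of unity: a fixed `D` with `D(J, J_p) ≠ 0` such that every power
`u^m D(J, J_p)` is a polynomial of degree `≤ p` in `J_p` over `k[J]`. -/
theorem exists_lagrange_mod (hp : p.Prime) (k : Type*) [Field k] (ζ : kˣ)
    (hζ : IsPrimitiveRoot ζ p) :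
    ∃ D : Polynomial (Polynomial k),
      D.aevalAeval (jqModC k) (qExpand k p (jqModC k)) ≠ 0 ∧
      ∀ m : ℕ, ∃ G : Polynomial (Polynomial k), G.natDegree ≤ p ∧
        uSer k p ^ m * D.aevalAeval (jqModC k) (qExpand k p (jqModC k))
          = G.aevalAeval (jqModC k) (qExpand k p (jqModC k)) := by
  have hpk : (p : k) ≠ 0 := natCast_ne_zero_of_primitiveRoot p ζ hζ
  obtain ⟨Φ₀, hmonic₀, hdeg₀, hrel1, hrel2, hG⟩ := Fermat.Agent.S28_LagQ.exists_lagrange_rat p hp
  rw [← ev2_eq_aevalAeval] at hrel1 hrel2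
  obtain ⟨a, Ψ, hak, hΨ, hmonic, hnat, hk1, hk2⟩ :=
    exists_int_model_monic p hp k hpk Φ₀ hmonic₀ hdeg₀ hrel1 hrel2
  set ψ : k[X][X] := Ψ.map (mapRingHom (Int.castRingHom k)) with hψ
  have hψΦ : ψ = C (C (a : k)) * (C (C (a : k)⁻¹) * ψ) := by
    rw [← mul_assoc, ← C_mul, ← C_mul, mul_inv_cancel₀ hak, C_1, C_1, one_mul]
  have hcast : Function.Injective (coeffMap (Int.castRingHom ℚ)) :=
    coeffMap_injective _ (RingHom.injective_int _)
  have hJQ : coeffMap (Int.castRingHom ℚ) (jqModC ℤ) = jq := by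
    rw [coeffMap_jqModC]; rfl
  have hinjQ : Function.Injective (mapRingHom (Int.castRingHom ℚ)) :=
    mapRingHom_injective _ (RingHom.injective_int _)
  have hdΨ : (derivative Ψ).map (mapRingHom (Int.castRingHom ℚ))
      = C (C (a : ℚ)) * derivative Φ₀ := by
    rw [← Polynomial.derivative_map, hΨ, Polynomial.derivative_C_mul]
  refine ⟨derivative ψ, ?_, fun m => ?_⟩
  · -- non-vanishing of the derivative
    have h := Fermat.Agent.S28_RootCount.derivative_ne_zero_of_two_relations p hp k ζ hζ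
      (C (C (a : k)⁻¹) * ψ) hmonic hnat
      (by rw [← ev2_eq_aevalAeval, map_mul, hk1, mul_zero])
      (by rw [← ev2_eq_aevalAeval, map_mul, hk2, mul_zero])
    rw [hψΦ, Polynomial.derivative_C_mul, ← ev2_eq_aevalAeval, map_mul, ev2_C, ev_C,
      ev2_eq_aevalAeval]
    refine mul_ne_zero (fun h0 => hak ?_) h
    exact HahnSeries.C_injective (h0.trans (map_zero _).symm)
  · obtain ⟨G, hGdeg, hG1, hG2⟩ := hG m
    rw [← ev2_eq_aevalAeval, ← ev2_eq_aevalAeval] at hG1 hG2
    obtain ⟨b, Γ₀, hb, hΓ₀⟩ := exists_int_model G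
    have hbQ : (b : ℚ) ≠ 0 := by exact_mod_cast hb
    have hΓmap : (C (C a) * Γ₀).map (mapRingHom (Int.castRingHom ℚ))
        = C (C (a : ℚ)) * (C (C (b : ℚ)) * G) := by
      rw [Polynomial.map_mul, hΓ₀, Polynomial.map_C, coe_mapRingHom, Polynomial.map_C, eq_intCast]
    have hdegΓ : (C (C a) * Γ₀).natDegree ≤ p := by
      refine (Polynomial.natDegree_C_mul_le _ _).trans ?_
      rw [← Polynomial.natDegree_map_eq_of_injective hinjQ Γ₀, hΓ₀]
      exact (Polynomial.natDegree_C_mul_le _ _).trans hGdeg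
    have hQ1 : HahnSeries.C b * uSer ℤ p ^ m
          * ev2 (jqModC ℤ) (qExpand ℤ p (jqModC ℤ)) (derivative Ψ)
        = ev2 (jqModC ℤ) (qExpand ℤ p (jqModC ℤ)) (C (C a) * Γ₀) := by
      apply hcast
      rw [map_mul, map_mul, map_pow, coeffMap_C, Fermat.Agent.S28_Defs.coeffMap_uSer,
        coeffMap_ev2, coeffMap_ev2, coeffMap_qExpand, hJQ, hdΨ, hΓmap, eq_intCast,
        map_mul (ev2 _ _), ev2_C, ev_C, map_mul (ev2 _ _), ev2_C, ev_C,
        map_mul (ev2 _ _), ev2_C, ev_C, ← hG1]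
      ring
    have hQ2 : HahnSeries.C b * uInv ℤ p ^ m
          * ev2 (qExpand ℤ p (jqModC ℤ)) (jqModC ℤ) (derivative Ψ)
        = HahnSeries.C ((p : ℤ) ^ (12 * m))
          * ev2 (qExpand ℤ p (jqModC ℤ)) (jqModC ℤ) (C (C a) * Γ₀) := by
      apply hcast
      have halg : algebraMap ℚ (LaurentSeries ℚ) ((p : ℚ) ^ (12 * m))
          = HahnSeries.C ((p : ℚ) ^ (12 * m)) := by
        rw [algebraMap_laurentSeries_eq_single]; rfl
      rw [halg] at hG2
      rw [map_mul, map_mul, map_pow, coeffMap_C, Fermat.Agent.S28_Defs.coeffMap_uInv,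
        map_mul, coeffMap_C,
        coeffMap_ev2, coeffMap_ev2, coeffMap_qExpand, hJQ, hdΨ, hΓmap, eq_intCast, eq_intCast,
        map_mul (ev2 _ _), ev2_C, ev_C, map_mul (ev2 _ _), ev2_C, ev_C,
        map_mul (ev2 _ _), ev2_C, ev_C]
      have hcastp : (((p : ℤ) ^ (12 * m) : ℤ) : ℚ) = (p : ℚ) ^ (12 * m) := by push_cast; rfl
      rw [hcastp]
      calc HahnSeries.C (b : ℚ) * uInv ℚ p ^ m
            * (HahnSeries.C (a : ℚ) * ev2 (qExpand ℚ p jq) jq (derivative Φ₀))
          = HahnSeries.C (b : ℚ) * HahnSeries.C (a : ℚ)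
            * (uInv ℚ p ^ m * ev2 (qExpand ℚ p jq) jq (derivative Φ₀)) := by ring
        _ = HahnSeries.C (b : ℚ) * HahnSeries.C (a : ℚ)
            * (HahnSeries.C ((p : ℚ) ^ (12 * m)) * ev2 (qExpand ℚ p jq) jq G) := by rw [hG2]
        _ = _ := by ring
    obtain ⟨c', Γ', hc'k, hdeg', hQ'⟩ :=
      exists_unit_den p hp k hpk m (derivative Ψ) b.natAbs b (C (C a) * Γ₀) rfl hb hdegΓ hQ1 hQ2
    have hk := congrArg (coeffMap (Int.castRingHom k)) hQ'
    rw [map_mul, map_mul, map_pow, coeffMap_C, Fermat.Agent.S28_Defs.coeffMap_uSer,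
      coeffMap_ev2, coeffMap_ev2, coeffMap_qExpand, coeffMap_jqModC, eq_intCast,
      ← Polynomial.derivative_map] at hk
    refine ⟨C (C (c' : k)⁻¹) * Γ'.map (mapRingHom (Int.castRingHom k)), ?_, ?_⟩
    · exact (Polynomial.natDegree_C_mul_le _ _).trans ((Polynomial.natDegree_map_le).trans hdeg')
    · rw [← ev2_eq_aevalAeval, ← ev2_eq_aevalAeval, map_mul (ev2 _ _), ev2_C, ev_C, ← hk]
      have h1 : (HahnSeries.C (c' : k)⁻¹ : LaurentSeries k) * HahnSeries.C (c' : k) = 1 := by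
        rw [← map_mul, inv_mul_cancel₀ hc'k, map_one]
      calc uSer k p ^ m * ev2 (jqModC k) (qExpand k p (jqModC k)) (derivative ψ)
          = (HahnSeries.C (c' : k)⁻¹ * HahnSeries.C (c' : k))
            * (uSer k p ^ m * ev2 (jqModC k) (qExpand k p (jqModC k)) (derivative ψ)) := by
            rw [h1, one_mul]
        _ = _ := by ring

/-- **Lemma P (route PrimeB)**, for a field containing a primitive `p`-th root of unity. -/
theorem not_mem_adjoin (hp : p.Prime) (k : Type*) [Field k] (ζ : kˣ)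
    (hζ : IsPrimitiveRoot ζ p) :
    qExpand k p (jqModC k) ∉ IntermediateField.adjoin k {jqModC k} := by
  obtain ⟨D, hD, hG⟩ := exists_lagrange_mod p hp k ζ hζ
  exact Fermat.Agent.S28_LagP.not_mem_adjoin_of_lagrange k p hp.two_le D hD hG

/-- **Lemma P (route PrimeB)** over an arbitrary field `k` in which `p ≠ 0` (descent from the
algebraic closure, which contains a primitive `p`-th root of unity). -/
theorem not_mem_adjoin_of_natCast_ne_zero (hp : p.Prime) (k : Type*) [Field k]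
    (hpk : (p : k) ≠ 0) :
    qExpand k p (jqModC k) ∉ IntermediateField.adjoin k {jqModC k} := by
  intro hmem
  obtain ⟨r, s, hrs⟩ := (IntermediateField.mem_adjoin_simple_iff k _).mp hmem
  have hpK : (p : AlgebraicClosure k) ≠ 0 := by
    have h := (algebraMap k (AlgebraicClosure k)).injective.ne hpk
    rwa [map_natCast, map_zero] at h
  obtain ⟨ζ, hζ⟩ := exists_primitiveRoot_unit p (AlgebraicClosure k) hpK
  apply not_mem_adjoin p hp (AlgebraicClosure k) ζ hζ
  rw [IntermediateField.mem_adjoin_simple_iff]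
  refine ⟨r.map (algebraMap k (AlgebraicClosure k)), s.map (algebraMap k (AlgebraicClosure k)), ?_⟩
  have h := congrArg (coeffMap (algebraMap k (AlgebraicClosure k))) hrs
  rw [coeffMap_qExpand, coeffMap_jqModC, map_div₀,
    Fermat.Agent.S28_Desc.coeffMap_aeval_jqModC, Fermat.Agent.S28_Desc.coeffMap_aeval_jqModC] at h
  exact h

/-- **Lemma P** in the shape consumed by the assembly of S28: `k` of characteristic `ℓ ≠ p`. -/
theorem not_mem_adjoin_charP (ℓ : ℕ) [Fact ℓ.Prime] (hp : p.Prime) (hpl : p ≠ ℓ)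
    (k : Type*) [Field k] [CharP k ℓ] :
    qExpand k p (jqModC k) ∉ IntermediateField.adjoin k {jqModC k} := by
  refine not_mem_adjoin_of_natCast_ne_zero p hp k ?_
  intro h0
  have h1 : ℓ ∣ p := (CharP.cast_eq_zero_iff k ℓ p).1 h0
  have h2 := (Nat.prime_dvd_prime_iff_eq (Fact.out : ℓ.Prime) hp).1 h1
  exact hpl h2.symm

end Fermat.Agent.S28_LagRed
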