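import Fermat.Agent.S28_LagMod
import Fermat.Agent.S28_LagQ
import Fermat.Agent.S28_RootCount
import Fermat.Agent.S28_LagP

/-!
# S28_PrimeB (helper2): Lemma P by the Lagrange route

For a prime `p` and a field `k` containing a primitive `p`-th root of unity (in particular
`(p : k) ≠ 0`): `J(q^p) ∉ k(J)`.

Assembly of
* `S28_LagQ.exists_lagrange_rat` (helper9): rational Lagrange relations for all powers of the
  modular unit `u = Δ(q^p)/Δ(q)`, with Fricke twins;
* `S28_LagMod.exists_lagrange_mod_of_aeval` (helper2): reduction modulo `k` (integer models with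
  denominators prime to the characteristic);
* `S28_RootCount.derivative_ne_zero_of_two_relations` (helper1): `∂Φ/∂Y(J, J_p) ≠ 0`;
* `S28_LagP.not_mem_adjoin_of_lagrange` (helper6): the order argument.
-/

set_option autoImplicit false

noncomputable section

open Polynomial ModularCurve Fermat.Agent.S28_Defs

namespace Fermat.Agent.S28_PrimeB

/-- Lagrange relations for the powers of the modular unit over a field `k` containing a primitive
`p`-th root of unity. -/
theorem exists_lagrange_mod (p : ℕ) [NeZero p] (hp : p.Prime) (k : Type*) [Field k] (ζ : kˣ)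
    (hζ : IsPrimitiveRoot ζ p) :
    ∃ D : Polynomial (Polynomial k),
      D.aevalAeval (jqModC k) (qExpand k p (jqModC k)) ≠ 0 ∧
      ∀ m : ℕ, ∃ G : Polynomial (Polynomial k), G.natDegree ≤ p ∧
        uSer k p ^ m * D.aevalAeval (jqModC k) (qExpand k p (jqModC k))
          = G.aevalAeval (jqModC k) (qExpand k p (jqModC k)) :=
  Fermat.Agent.S28_LagMod.exists_lagrange_mod_of_aeval p hp k
    (Fermat.Agent.S28_Split.natCast_ne_zero_of_primitiveRoot p ζ hζ)
    (fun Ψ hm hd r1 r2 =>
      Fermat.Agent.S28_RootCount.derivative_ne_zero_of_two_relations p hp k ζ hζ Ψ hm hd r1 r2)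
    (Fermat.Agent.S28_LagQ.exists_lagrange_rat p hp)

/-- **Lemma P (Lagrange route).** For a prime `p` and a field `k` containing a primitive `p`-th
root of unity, `J(q^p)` is not a rational function of `J`. -/
theorem not_mem_adjoin (p : ℕ) [NeZero p] (hp : p.Prime) (k : Type*) [Field k] (ζ : kˣ)
    (hζ : IsPrimitiveRoot ζ p) :
    qExpand k p (jqModC k) ∉ IntermediateField.adjoin k {jqModC k} := by
  obtain ⟨D, hD, hG⟩ := exists_lagrange_mod p hp k ζ hζ
  exact Fermat.Agent.S28_LagP.not_mem_adjoin_of_lagrange k p hp.two_le D hD hG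

/-- Lemma P for an algebraically closed field in which `p ≠ 0`. -/
theorem not_mem_adjoin_of_ne_zero (p : ℕ) [NeZero p] (hp : p.Prime) (k : Type*) [Field k]
    [IsAlgClosed k] (hpk : (p : k) ≠ 0) :
    qExpand k p (jqModC k) ∉ IntermediateField.adjoin k {jqModC k} := by
  obtain ⟨ζ, hζ⟩ := Fermat.Agent.S28_Split.exists_primitiveRoot_unit p k hpk
  exact not_mem_adjoin p hp k ζ hζ

/-- Lemma P in the shape of the `S28_Prime` row: `k` algebraically closed of characteristic `ℓ`,
`p ≠ ℓ` prime. -/
theorem not_mem_adjoin_of_charP (ℓ p : ℕ) [Fact ℓ.Prime] [NeZero p] (hp : p.Prime) (hpl : p ≠ ℓ)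
    (k : Type*) [Field k] [IsAlgClosed k] [CharP k ℓ] :
    qExpand k p (jqModC k) ∉ IntermediateField.adjoin k {jqModC k} := by
  refine not_mem_adjoin_of_ne_zero p hp k ?_
  intro h
  have h1 : ℓ ∣ p := (CharP.cast_eq_zero_iff k ℓ p).1 h
  exact hpl ((Nat.prime_dvd_prime_iff_eq Fact.out hp).1 h1).symm

end Fermat.Agent.S28_PrimeB

end
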