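import Fermat.Agent.S28_Irr
import Fermat.Agent.S28_SubstJ
import Fermat.Agent.S28_Desc

/-!
# S28_T2 (helper4): the prime-level degrees `[k(J, J_p) : k(J)] = [k(J, J_p) : k(J_p)] = p + 1`

From the mod-`ℓ` factorisation of the level-`p` modular equation
`Φ(X; J(t^p)) = (X - J(t^(p^2))) ∏_b (X - J(ζ^b t))` over `k((t))` and Lemma P
(`J(t^p) ∉ k(J)`) we get that `Φ(X; J_p)` is irreducible over `k(J_p)` and `Φ(X; J)` is
irreducible over `k(J)`, in the form of degree lower bounds for annihilating polynomials.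
-/

set_option autoImplicit false

noncomputable section

open Polynomial ModularCurve
open Fermat.Agent.S28_Subst Fermat.Agent.S28_Irr Fermat.Agent.S28_SubstJ

namespace Fermat.Agent.S28_T2

variable {K : Type*} [Field K]

/-- **Abstract irreducibility.** Let `K₁` be a subfield of `K((t))` consisting of series in
`t^p`, and `f ∈ K₁[X]` with `f = (X - α) ∏_b (X - a b)` over `K((t))`, where `α` is a series in
`t^p` not in `K₁` and the `a b` (`p` of them) have the same order prime to `p`. Then the only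
monic divisors of `f` in `K₁[X]` are `1` and `f`. -/
theorem monic_dvd_eq_one_or_eq (p : ℕ) [NeZero p] (hp : p.Prime)
    (K₁ : IntermediateField K (LaurentSeries K))
    (hK₁ : ∀ x ∈ K₁, x ∈ Set.range (qExpand K p))
    {ι : Type*} [Fintype ι] (hι : Fintype.card ι = p) (a : ι → LaurentSeries K) (o : ℤ)
    (ho : ¬ (p : ℤ) ∣ o) (ha : ∀ b, (a b).order = o)
    (α : LaurentSeries K) (hα : α ∈ Set.range (qExpand K p)) (hαK : α ∉ K₁)
    (f : Polynomial ↥K₁)
    (hf : f.map (algebraMap ↥K₁ (LaurentSeries K)) = (X - C α) * ∏ b, (X - C (a b)))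
    (m : Polynomial ↥K₁) (hm : m.Monic) (hdvd : m ∣ f) : m = 1 ∨ m = f := by
  classical
  have hinj : Function.Injective (Polynomial.map (algebraMap ↥K₁ (LaurentSeries K))) :=
    Polynomial.map_injective _ (algebraMap ↥K₁ (LaurentSeries K)).injective
  set Q : (LaurentSeries K)[X] := ∏ b, (X - C (a b)) with hQ
  have hQm : Q.Monic := monic_prod_of_monic _ _ fun b _ => monic_X_sub_C _
  set M : (LaurentSeries K)[X] := m.map (algebraMap ↥K₁ (LaurentSeries K)) with hM
  have hMm : M.Monic := hm.map _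
  have hMdvd : M ∣ (X - C α) * Q := by
    rw [← hf]
    exact Polynomial.map_dvd _ hdvd
  have hα0 : α ≠ 0 := fun h => hαK (h ▸ K₁.zero_mem)
  have hcoeffM : ∀ n, M.coeff n ∈ K₁ := fun n => by
    rw [hM, coeff_map]
    exact (m.coeff n).2
  -- a polynomial over `K₁` whose image is `X - C α` would put `α` in `K₁`
  have key : ∀ h : Polynomial ↥K₁, h.map (algebraMap ↥K₁ (LaurentSeries K)) = X - C α → False := by
    intro h hh
    have h1 := congrArg (fun P : (LaurentSeries K)[X] => P.coeff 0) hh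
    simp only [coeff_map, coeff_sub, coeff_X_zero, coeff_C_zero, zero_sub] at h1
    apply hαK
    have h2 : α = -(algebraMap ↥K₁ (LaurentSeries K) (h.coeff 0)) := by rw [h1, neg_neg]
    rw [h2]
    exact K₁.neg_mem (h.coeff 0).2
  by_cases hd : (X - C α) ∣ M
  · obtain ⟨G, hG⟩ := hd
    have hGm : G.Monic := (monic_X_sub_C α).of_mul_monic_left (hG ▸ hMm)
    have hGdvd : G ∣ Q := by
      rw [hG] at hMdvd
      exact (mul_dvd_mul_iff_left (X_sub_C_ne_zero α)).mp hMdvd
    have hGc : G.coeff 0 ∈ Set.range (qExpand K p) := by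
      have h1 : M.coeff 0 = -α * G.coeff 0 := by
        rw [hG, mul_coeff_zero, coeff_sub, coeff_X_zero, coeff_C_zero, zero_sub]
      obtain ⟨u, hu⟩ := hK₁ _ (hcoeffM 0)
      obtain ⟨v, hv⟩ := hα
      refine ⟨-u / v, ?_⟩
      rw [map_div₀, map_neg, hu, hv, h1]
      field_simp
    rcases eq_one_or_eq_prod p hp hι a o ho ha G hGm hGdvd hGc with h1 | h1
    · exfalso
      rw [h1, mul_one] at hG
      exact key m hG
    · right
      apply hinj
      rw [hf, ← hM, hG, h1]
  · have hcop : IsCoprime (X - C α) M :=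
      (irreducible_X_sub_C α).coprime_iff_not_dvd.mpr hd
    have hMQ : M ∣ Q := hcop.symm.dvd_of_dvd_mul_left hMdvd
    have hMc : M.coeff 0 ∈ Set.range (qExpand K p) := hK₁ _ (hcoeffM 0)
    rcases eq_one_or_eq_prod p hp hι a o ho ha M hMm hMQ hMc with h1 | h1
    · left
      apply hinj
      rw [← hM, h1, Polynomial.map_one]
    · exfalso
      obtain ⟨h, hh⟩ := hdvd
      have h2 := congrArg (Polynomial.map (algebraMap ↥K₁ (LaurentSeries K))) hh
      rw [hf, Polynomial.map_mul, ← hM, h1, mul_comm] at h2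
      exact key h (mul_left_cancel₀ hQm.ne_zero h2).symm

/-- **Degree lower bound** from the abstract irreducibility: a nonzero polynomial over `K₁`
vanishing at a root of `f` has degree at least `deg f`. -/
theorem natDegree_le_of_root (p : ℕ) [NeZero p] (hp : p.Prime)
    (K₁ : IntermediateField K (LaurentSeries K))
    (hK₁ : ∀ x ∈ K₁, x ∈ Set.range (qExpand K p))
    {ι : Type*} [Fintype ι] (hι : Fintype.card ι = p) (a : ι → LaurentSeries K) (o : ℤ)
    (ho : ¬ (p : ℤ) ∣ o) (ha : ∀ b, (a b).order = o)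
    (α : LaurentSeries K) (hα : α ∈ Set.range (qExpand K p)) (hαK : α ∉ K₁)
    (f : Polynomial ↥K₁) (hfm : f.Monic)
    (hf : f.map (algebraMap ↥K₁ (LaurentSeries K)) = (X - C α) * ∏ b, (X - C (a b)))
    (x : LaurentSeries K) (hx : aeval x f = 0)
    (g : Polynomial ↥K₁) (hg0 : g ≠ 0) (hg : aeval x g = 0) : f.natDegree ≤ g.natDegree := by
  have hint : IsIntegral ↥K₁ x := ⟨f, hfm, hx⟩
  have h1 : minpoly ↥K₁ x ∣ f := minpoly.dvd ↥K₁ x hx
  rcases monic_dvd_eq_one_or_eq p hp K₁ hK₁ hι a o ho ha α hα hαK f hf (minpoly ↥K₁ x)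
    (minpoly.monic hint) h1 with h2 | h2
  · exact absurd h2 (minpoly.ne_one ↥K₁ x)
  · rw [← h2]
    exact natDegree_le_natDegree (minpoly.degree_le_of_ne_zero ↥K₁ x hg0 hg)

/-! ### The prime-level statements -/

section Prime

variable (k : Type*) [Field k] (p : ℕ) [NeZero p]

/-- `k(J_p)` is the image of `k(J)` under `q ↦ q^p`. -/
theorem adjoin_Jp_eq_map :
    IntermediateField.adjoin k {qExpand k p (jqModC k)}
      = (IntermediateField.adjoin k {jqModC k}).map (qExpandAlgHomC k p) := by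
  rw [IntermediateField.adjoin_map, Set.image_singleton]
  rfl

theorem mem_range_of_mem_adjoin_Jp {x : LaurentSeries k}
    (hx : x ∈ IntermediateField.adjoin k {qExpand k p (jqModC k)}) :
    x ∈ Set.range (qExpand k p) := by
  rw [adjoin_Jp_eq_map] at hx
  obtain ⟨y, -, rfl⟩ := hx
  exact ⟨y, rfl⟩

/-- Lemma P transported by `q ↦ q^p`: `J(q^(p^2)) ∉ k(J(q^p))`. -/
theorem Jpp_not_mem
    (hprime : qExpand k p (jqModC k) ∉ IntermediateField.adjoin k {jqModC k}) :
    qExpand k (p ^ 2) (jqModC k) ∉ IntermediateField.adjoin k {qExpand k p (jqModC k)} := by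
  intro h
  rw [adjoin_Jp_eq_map] at h
  obtain ⟨y, hy, hyx⟩ := h
  have h1 : qExpand k (p ^ 2) (jqModC k) = qExpand k p (qExpand k p (jqModC k)) := by
    rw [qExpand_qExpand]
    exact qExpand_congr (by ring) _
  have h2 : qExpand k p y = qExpand k p (qExpand k p (jqModC k)) := by
    rw [← h1, ← hyx]
    rfl
  exact hprime ((qExpand_injective p h2) ▸ hy)

/-- The transport `k(J) → k(J_p)`, `x ↦ x(q^p)`. -/
def tau : ↥(IntermediateField.adjoin k {jqModC k}) →+*
    ↥(IntermediateField.adjoin k {qExpand k p (jqModC k)}) where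
  toFun x := ⟨qExpand k p x, by
    rw [adjoin_Jp_eq_map]
    exact ⟨x, x.2, rfl⟩⟩
  map_one' := Subtype.ext (map_one _)
  map_mul' x y := Subtype.ext (map_mul _ _ _)
  map_zero' := Subtype.ext (map_zero _)
  map_add' x y := Subtype.ext (map_add _ _ _)

theorem coe_tau (x : ↥(IntermediateField.adjoin k {jqModC k})) :
    ((tau k p x : ↥(IntermediateField.adjoin k {qExpand k p (jqModC k)})) : LaurentSeries k)
      = qExpand k p x := rfl

theorem tau_injective : Function.Injective (tau k p) := by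
  intro x y h
  apply Subtype.ext
  apply qExpand_injective p
  exact congrArg Subtype.val h

variable {k p}

/-- `Φ(X; J_p)` as a polynomial over `k(J_p)`. -/
def polyJp (Φ : Polynomial (Polynomial k)) :
    Polynomial ↥(IntermediateField.adjoin k {qExpand k p (jqModC k)}) :=
  Φ.map (aeval (⟨qExpand k p (jqModC k), IntermediateField.mem_adjoin_simple_self k _⟩ :
    ↥(IntermediateField.adjoin k {qExpand k p (jqModC k)}))).toRingHom

theorem polyJp_map (Φ : Polynomial (Polynomial k)) :
    (polyJp (p := p) Φ).map (algebraMap ↥(IntermediateField.adjoin k {qExpand k p (jqModC k)})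
      (LaurentSeries k)) = Φ.map (aeval (qExpand k p (jqModC k))).toRingHom := by
  rw [polyJp, Polynomial.map_map]
  congr 1
  apply Polynomial.ringHom_ext
  · intro a
    simp only [RingHom.comp_apply, AlgHom.toRingHom_eq_coe, RingHom.coe_coe, aeval_C]
    rfl
  · simp only [RingHom.comp_apply, AlgHom.toRingHom_eq_coe, RingHom.coe_coe, aeval_X]
    rfl

theorem natDegree_polyJp (Φ : Polynomial (Polynomial k)) (hΦm : Φ.Monic) :
    (polyJp (p := p) Φ).natDegree = Φ.natDegree :=
  hΦm.natDegree_map _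

omit [NeZero p] in
theorem not_dvd_neg_one (hp : p.Prime) : ¬ (p : ℤ) ∣ (-1 : ℤ) := by
  intro h
  have h1 : (p : ℤ) ∣ 1 := (dvd_neg).mp h
  have h2 : p ∣ 1 := by exact_mod_cast h1
  exact hp.one_lt.ne' (Nat.dvd_one.mp h2)

theorem Jpp_eq : qExpand k (p ^ 2) (jqModC k) = qExpand k p (qExpand k p (jqModC k)) := by
  rw [qExpand_qExpand]
  exact qExpand_congr (by ring) _

/-- The common core of (D1) and (D2): a nonzero polynomial over `k(J_p)` vanishing at a root
`x` of `Φ(X; J_p)` has degree at least `p + 1`. -/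
theorem le_natDegree_of_root (hp : p.Prime) (ζ : kˣ) (Φ : Polynomial (Polynomial k))
    (hΦm : Φ.Monic) (hΦd : Φ.natDegree = p + 1)
    (hΦ : Φ.map (aeval (qExpand k p (jqModC k))).toRingHom
      = (X - C (qExpand k (p ^ 2) (jqModC k)))
        * ∏ b ∈ Finset.range p, (X - C (twist (ζ ^ b) (jqModC k))))
    (hprime : qExpand k p (jqModC k) ∉ IntermediateField.adjoin k {jqModC k})
    (x : LaurentSeries k)
    (hx : (Φ.map (aeval (qExpand k p (jqModC k))).toRingHom).eval x = 0)
    (g : Polynomial ↥(IntermediateField.adjoin k {qExpand k p (jqModC k)})) (hg : g ≠ 0)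
    (h : aeval x g = 0) : p + 1 ≤ g.natDegree := by
  have hf : (polyJp (p := p) Φ).map
      (algebraMap ↥(IntermediateField.adjoin k {qExpand k p (jqModC k)}) (LaurentSeries k))
      = (X - C (qExpand k (p ^ 2) (jqModC k)))
        * ∏ b : Fin p, (X - C (twist (ζ ^ (b : ℕ)) (jqModC k))) := by
    rw [polyJp_map, hΦ, Fin.prod_univ_eq_prod_range
      (fun b : ℕ => (X - C (twist (ζ ^ b) (jqModC k)) : (LaurentSeries k)[X]))]
  have hx' : aeval x (polyJp (p := p) Φ) = 0 := by
    rw [aeval_def, ← eval_map, polyJp_map]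
    exact hx
  have key := natDegree_le_of_root p hp (IntermediateField.adjoin k {qExpand k p (jqModC k)})
    (fun y hy => mem_range_of_mem_adjoin_Jp k p hy) (Fintype.card_fin p)
    (fun b : Fin p => twist (ζ ^ (b : ℕ)) (jqModC k)) (-1) (not_dvd_neg_one hp)
    (fun b => order_twist_jqModC _) (qExpand k (p ^ 2) (jqModC k))
    ⟨_, Jpp_eq.symm⟩ (Jpp_not_mem k p hprime) (polyJp Φ) (hΦm.map _) hf x hx' g hg h
  rwa [natDegree_polyJp Φ hΦm, hΦd] at key

/-- **(D2)** `[k(J, J_p) : k(J_p)] ≥ p + 1`: a nonzero polynomial over `k(J_p)` vanishing at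
`J` has degree at least `p + 1`. -/
theorem le_natDegree_of_aeval_J (hp : p.Prime) (ζ : kˣ) (Φ : Polynomial (Polynomial k))
    (hΦm : Φ.Monic) (hΦd : Φ.natDegree = p + 1)
    (hΦ : Φ.map (aeval (qExpand k p (jqModC k))).toRingHom
      = (X - C (qExpand k (p ^ 2) (jqModC k)))
        * ∏ b ∈ Finset.range p, (X - C (twist (ζ ^ b) (jqModC k))))
    (hprime : qExpand k p (jqModC k) ∉ IntermediateField.adjoin k {jqModC k})
    (g : Polynomial ↥(IntermediateField.adjoin k {qExpand k p (jqModC k)})) (hg : g ≠ 0)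
    (h : aeval (jqModC k) g = 0) : p + 1 ≤ g.natDegree := by
  refine le_natDegree_of_root hp ζ Φ hΦm hΦd hΦ hprime (jqModC k) ?_ g hg h
  rw [hΦ, eval_mul, eval_prod]
  have h0 : (0 : ℕ) ∈ Finset.range p := Finset.mem_range.mpr hp.pos
  rw [Finset.prod_eq_zero h0, mul_zero]
  rw [eval_sub, eval_X, eval_C, pow_zero, twist_one, sub_self]

/-- **(D1)** `[k(J, J_p) : k(J)] ≥ p + 1`: a nonzero polynomial over `k(J)` vanishing at
`J_p` has degree at least `p + 1`. -/
theorem le_natDegree_of_aeval_Jp (hp : p.Prime) (ζ : kˣ) (Φ : Polynomial (Polynomial k))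
    (hΦm : Φ.Monic) (hΦd : Φ.natDegree = p + 1)
    (hΦ : Φ.map (aeval (qExpand k p (jqModC k))).toRingHom
      = (X - C (qExpand k (p ^ 2) (jqModC k)))
        * ∏ b ∈ Finset.range p, (X - C (twist (ζ ^ b) (jqModC k))))
    (hprime : qExpand k p (jqModC k) ∉ IntermediateField.adjoin k {jqModC k})
    (g : Polynomial ↥(IntermediateField.adjoin k {jqModC k})) (hg : g ≠ 0)
    (h : aeval (qExpand k p (jqModC k)) g = 0) : p + 1 ≤ g.natDegree := by
  have hg' : g.map (tau k p) ≠ 0 := (Polynomial.map_ne_zero_iff (tau_injective k p)).mpr hg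
  have hdeg : (g.map (tau k p)).natDegree = g.natDegree :=
    natDegree_map_eq_of_injective (tau_injective k p) g
  have hroot : aeval (qExpand k (p ^ 2) (jqModC k)) (g.map (tau k p)) = 0 := by
    have h1 : qExpand k p (aeval (qExpand k p (jqModC k)) g) = 0 := by rw [h, map_zero]
    rw [aeval_def, hom_eval₂] at h1
    rw [aeval_def, eval₂_map, Jpp_eq]
    exact h1
  rw [← hdeg]
  refine le_natDegree_of_root hp ζ Φ hΦm hΦd hΦ hprime (qExpand k (p ^ 2) (jqModC k)) ?_
    _ hg' hroot
  rw [hΦ, eval_mul, eval_sub, eval_X, eval_C, sub_self, zero_mul]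

end Prime

/-! ### Linear-independence forms -/

/-- If every nonzero annihilating polynomial of `x` over `F` has degree at least `n`, then
`1, x, …, x^(n-1)` are linearly independent over `F`. -/
theorem linearIndependent_pow_of_le_natDegree {F A : Type*} [Field F] [CommRing A] [Algebra F A]
    (x : A) (n : ℕ) (h : ∀ g : Polynomial F, g ≠ 0 → aeval x g = 0 → n ≤ g.natDegree) :
    LinearIndependent F (fun i : Fin n => x ^ (i : ℕ)) := by
  rw [Fintype.linearIndependent_iff]
  intro c hc
  set g : Polynomial F := ∑ i : Fin n, C (c i) * X ^ (i : ℕ) with hgdef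
  have hgx : aeval x g = 0 := by
    rw [hgdef, map_sum, ← hc]
    refine Finset.sum_congr rfl fun i _ => ?_
    rw [map_mul, aeval_C, map_pow, aeval_X, Algebra.smul_def]
  have hdeg : g.degree < n := degree_sum_fin_lt c
  have hg0 : g = 0 := by
    by_contra hne
    have h1 := h g hne hgx
    have h2 : g.natDegree < n := (natDegree_lt_iff_degree_lt hne).mpr hdeg
    omega
  intro i
  have h3 : g.coeff (i : ℕ) = c i := by
    rw [hgdef, finsetSum_coeff, Finset.sum_eq_single i]
    · rw [coeff_C_mul, coeff_X_pow, if_pos rfl, mul_one]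
    · intro j _ hji
      rw [coeff_C_mul, coeff_X_pow, if_neg (fun hh => hji (Fin.ext hh).symm), mul_zero]
    · intro hi
      exact absurd (Finset.mem_univ i) hi
  rw [← h3, hg0, coeff_zero]

section PrimeLI

variable {k : Type*} [Field k] {p : ℕ} [NeZero p]

/-- **(D2), linear-independence form**: `1, J, …, J^p` are linearly independent over `k(J_p)`. -/
theorem linearIndependent_pow_J (hp : p.Prime) (ζ : kˣ) (Φ : Polynomial (Polynomial k))
    (hΦm : Φ.Monic) (hΦd : Φ.natDegree = p + 1)
    (hΦ : Φ.map (aeval (qExpand k p (jqModC k))).toRingHom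
      = (X - C (qExpand k (p ^ 2) (jqModC k)))
        * ∏ b ∈ Finset.range p, (X - C (twist (ζ ^ b) (jqModC k))))
    (hprime : qExpand k p (jqModC k) ∉ IntermediateField.adjoin k {jqModC k}) :
    LinearIndependent ↥(IntermediateField.adjoin k {qExpand k p (jqModC k)})
      (fun i : Fin (p + 1) => jqModC k ^ (i : ℕ)) :=
  linearIndependent_pow_of_le_natDegree _ _
    (le_natDegree_of_aeval_J hp ζ Φ hΦm hΦd hΦ hprime)

/-- **(D1), linear-independence form**: `1, J_p, …, J_p^p` are linearly independent over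
`k(J)`. -/
theorem linearIndependent_pow_Jp (hp : p.Prime) (ζ : kˣ) (Φ : Polynomial (Polynomial k))
    (hΦm : Φ.Monic) (hΦd : Φ.natDegree = p + 1)
    (hΦ : Φ.map (aeval (qExpand k p (jqModC k))).toRingHom
      = (X - C (qExpand k (p ^ 2) (jqModC k)))
        * ∏ b ∈ Finset.range p, (X - C (twist (ζ ^ b) (jqModC k))))
    (hprime : qExpand k p (jqModC k) ∉ IntermediateField.adjoin k {jqModC k}) :
    LinearIndependent ↥(IntermediateField.adjoin k {jqModC k})
      (fun i : Fin (p + 1) => qExpand k p (jqModC k) ^ (i : ℕ)) :=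
  linearIndependent_pow_of_le_natDegree _ _
    (le_natDegree_of_aeval_Jp hp ζ Φ hΦm hΦd hΦ hprime)

/-- The relation `Φ(J; J_p) = 0` (outer variable `J`, inner `J_p`). -/
theorem eval₂_J_eq_zero (hp : p.Prime) (ζ : kˣ) (Φ : Polynomial (Polynomial k))
    (hΦ : Φ.map (aeval (qExpand k p (jqModC k))).toRingHom
      = (X - C (qExpand k (p ^ 2) (jqModC k)))
        * ∏ b ∈ Finset.range p, (X - C (twist (ζ ^ b) (jqModC k)))) :
    Φ.eval₂ (aeval (qExpand k p (jqModC k))).toRingHom (jqModC k) = 0 := by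
  rw [← eval_map, hΦ, eval_mul, eval_prod]
  have h0 : (0 : ℕ) ∈ Finset.range p := Finset.mem_range.mpr hp.pos
  rw [Finset.prod_eq_zero h0, mul_zero]
  rw [eval_sub, eval_X, eval_C, pow_zero, twist_one, sub_self]

/-- The relation `Φ(J_p; J) = 0` (outer variable `J_p`, inner `J`). -/
theorem eval₂_Jp_eq_zero (ζ : kˣ) (Φ : Polynomial (Polynomial k))
    (hΦ : Φ.map (aeval (qExpand k p (jqModC k))).toRingHom
      = (X - C (qExpand k (p ^ 2) (jqModC k)))
        * ∏ b ∈ Finset.range p, (X - C (twist (ζ ^ b) (jqModC k)))) :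
    Φ.eval₂ (aeval (jqModC k)).toRingHom (qExpand k p (jqModC k)) = 0 := by
  apply qExpand_injective p
  rw [map_zero, hom_eval₂]
  have h1 : (qExpand k p).comp (aeval (R := k) (jqModC k)).toRingHom
      = (aeval (R := k) (qExpand k p (jqModC k))).toRingHom := by
    apply Polynomial.ringHom_ext
    · intro a
      simp only [RingHom.comp_apply, AlgHom.toRingHom_eq_coe, RingHom.coe_coe, aeval_C]
      exact (qExpandAlgHomC k p).commutes a
    · simp only [RingHom.comp_apply, AlgHom.toRingHom_eq_coe, RingHom.coe_coe, aeval_X]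
  rw [h1, ← Jpp_eq, ← eval_map, hΦ, eval_mul, eval_sub, eval_X, eval_C, sub_self, zero_mul]

end PrimeLI

end Fermat.Agent.S28_T2

end
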