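import Fermat.Agent.S28_T2

/-!
# S28_T3 (helper9): the tower step `M ↦ p * M` for monomial families

If `θ_1, …, θ_m` are monomials in the `J_d` (`d ∣ M`) that are linearly independent over `k(J)`,
then there are `p * m` monomials in the `J_d` (`d ∣ p * M`) that are linearly independent over
`k(J)` (`step_mul`).  The hypotheses on `p` are the body of the level-`p` splitting of the modular
equation and Lemma P, exactly as in `S28_T2`.

Proof.  The `p * m` monomials `J^j * θ_i(q^p)` (`j < p`) are independent over `k(J_p)`, the image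
of `k(J)` under `q ↦ q^p` (leading-term lemma of `S28_Irr`).  The `k(J)`-span `W` of all
level-`p * M` monomials is a ring containing `J_p`, hence a vector space over
`E = k(J)(J_p) = k(J_p)(J)`, and `[E : k(J_p)] ≤ p + 1 ≤ [E : k(J)]` by `S28_T2`; so
`dim_{k(J)} W ≥ dim_{k(J_p)} W ≥ p * m` by the tower law, and a spanning set of monomials
contains a basis.
-/

set_option autoImplicit false

noncomputable section

open Polynomial ModularCurve
open Fermat.Agent.S28_Subst Fermat.Agent.S28_Irr Fermat.Agent.S28_SubstJ Fermat.Agent.S28_T2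

namespace Fermat.Agent.S28_T3

universe u

/-- **Abstract rank transfer.** `F, F' ⊆ E ⊆ L` fields with `[E : F'] ≤ d ≤ [E : F]`, and
`S ⊆ L` a set whose `F`-span is stable under multiplication by `E`. If the `F`-span of `S`
contains `n` elements independent over `F'`, then `S` contains `n` elements independent over
`F`. -/
theorem exists_linearIndependent_of_rank_le {F F' E L : Type u} [Field F] [Field F'] [Field E]
    [Field L] [Algebra F E] [Algebra E L] [Algebra F L] [Algebra F' L] [IsScalarTower F E L]
    (φ : F' →+* E) (hφ : ∀ x, algebraMap E L (φ x) = algebraMap F' L x)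
    (d : ℕ) (hd : (d : Cardinal.{u}) ≤ Module.rank F E)
    (E' : IntermediateField F' L) (hE' : ∀ e : E, algebraMap E L e ∈ E')
    (hE'd : Module.rank F' ↥E' ≤ (d : Cardinal.{u}))
    (S : Set L) (hS : ∀ (e : E) (s : L), s ∈ S → e • s ∈ Submodule.span F S)
    {n : ℕ} (v : Fin n → L) (hv : ∀ i, v i ∈ Submodule.span F S)
    (hli : LinearIndependent F' v) :
    ∃ w : Fin n → L, (∀ i, w i ∈ S) ∧ LinearIndependent F w := by
  classical
  let _ : Algebra F' E := φ.toAlgebra
  have : IsScalarTower F' E L := IsScalarTower.of_algebraMap_eq (fun x => (hφ x).symm)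
  -- `[E : F'] ≤ [E : F]`
  have hrank : Module.rank F' E ≤ Module.rank F E := by
    let ι : E →ₗ[F'] ↥E' :=
      { toFun := fun x => ⟨algebraMap E L x, hE' x⟩
        map_add' := fun x y => Subtype.ext (map_add _ _ _)
        map_smul' := fun c x => by
          apply Subtype.ext
          show algebraMap E L (c • x) = c • algebraMap E L x
          rw [Algebra.smul_def, Algebra.smul_def, map_mul]
          congr 1
          exact hφ c }
    have hιinj : Function.Injective ι := by
      intro x y hxy
      exact (algebraMap E L).injective (congrArg Subtype.val hxy)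
    exact ((LinearMap.rank_le_of_injective ι hιinj).trans hE'd).trans hd
  -- the `E`-submodule with the same carrier as the `F`-span of `S`
  let W : Submodule E L :=
    { carrier := Submodule.span F S
      add_mem' := fun ha hb => Submodule.add_mem _ ha hb
      zero_mem' := Submodule.zero_mem _
      smul_mem' := by
        intro e x hx
        change x ∈ Submodule.span F S at hx
        change e • x ∈ Submodule.span F S
        induction hx using Submodule.span_induction with
        | mem s hs => exact hS e s hs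
        | zero => rw [smul_zero]; exact Submodule.zero_mem _
        | add x y _ _ hx hy => rw [smul_add]; exact Submodule.add_mem _ hx hy
        | smul a x _ hx => rw [smul_comm]; exact Submodule.smul_mem _ a hx }
  obtain ⟨b, hbS, hbspan, hbli⟩ := exists_linearIndependent F S
  -- ranks
  have h1 : Module.rank F E * Module.rank E W = Module.rank F W := rank_mul_rank F E W
  have h2 : Module.rank F' E * Module.rank E W = Module.rank F' W := rank_mul_rank F' E W
  let e : ↥W ≃ₗ[F] ↥(Submodule.span F b) :=
    { toFun := fun x => ⟨x.1, hbspan ▸ (x.2 : x.1 ∈ Submodule.span F S)⟩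
      invFun := fun x => ⟨x.1, (hbspan ▸ x.2 : x.1 ∈ Submodule.span F S)⟩
      map_add' := fun _ _ => rfl
      map_smul' := fun _ _ => rfl
      left_inv := fun _ => rfl
      right_inv := fun _ => rfl }
  have h3 : Module.rank F W = Cardinal.mk b := by
    rw [e.rank_eq]
    exact rank_span_set hbli
  have hli' : LinearIndependent F' (fun i => (⟨v i, hv i⟩ : W)) := by
    apply LinearIndependent.of_comp (W.subtype.restrictScalars F')
    exact hli
  have h4 := hli'.cardinal_lift_le_rank
  rw [Cardinal.mk_fin] at h4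
  have h5 : Module.rank F' W ≤ Cardinal.mk b := by
    rw [← h3, ← h1, ← h2]
    exact mul_le_mul_left hrank _
  have h6 : Cardinal.lift.{u, 0} (Cardinal.mk (Fin n)) ≤ Cardinal.lift.{0, u} (Cardinal.mk b) := by
    rw [Cardinal.mk_fin]
    exact h4.trans (Cardinal.lift_le.mpr h5)
  obtain ⟨f⟩ := Cardinal.lift_mk_le'.mp h6
  refine ⟨fun i => ((f i : b) : L), fun i => hbS (f i).2, ?_⟩
  exact hbli.comp f f.injective


section Concrete

variable {k : Type u} [Field k] {p : ℕ} [NeZero p]

/-- `Φ(X; J)` as a polynomial over `k(J)`. -/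
def polyJ (Φ : Polynomial (Polynomial k)) :
    Polynomial ↥(IntermediateField.adjoin k {jqModC k}) :=
  Φ.map (aeval (⟨jqModC k, IntermediateField.mem_adjoin_simple_self k _⟩ :
    ↥(IntermediateField.adjoin k {jqModC k}))).toRingHom

theorem polyJ_map (Φ : Polynomial (Polynomial k)) :
    (polyJ Φ).map (algebraMap ↥(IntermediateField.adjoin k {jqModC k})
      (LaurentSeries k)) = Φ.map (aeval (jqModC k)).toRingHom := by
  rw [polyJ, Polynomial.map_map]
  congr 1
  apply Polynomial.ringHom_ext
  · intro a
    simp only [RingHom.comp_apply, AlgHom.toRingHom_eq_coe, RingHom.coe_coe, aeval_C]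
    rfl
  · simp only [RingHom.comp_apply, AlgHom.toRingHom_eq_coe, RingHom.coe_coe, aeval_X]
    rfl

/-- `J_p` is integral over `k(J)`. -/
theorem isIntegral_Jp (ζ : kˣ) (Φ : Polynomial (Polynomial k)) (hΦm : Φ.Monic)
    (hΦ : Φ.map (aeval (qExpand k p (jqModC k))).toRingHom
      = (X - C (qExpand k (p ^ 2) (jqModC k)))
        * ∏ b ∈ Finset.range p, (X - C (twist (ζ ^ b) (jqModC k)))) :
    IsIntegral ↥(IntermediateField.adjoin k {jqModC k}) (qExpand k p (jqModC k)) := by
  refine ⟨polyJ Φ, hΦm.map _, ?_⟩
  rw [← eval_map, polyJ_map, eval_map]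
  exact eval₂_Jp_eq_zero ζ Φ hΦ

/-- `J` is a root of `Φ(X; J_p)` over `k(J_p)`. -/
theorem aeval_J_polyJp (hp : p.Prime) (ζ : kˣ) (Φ : Polynomial (Polynomial k))
    (hΦ : Φ.map (aeval (qExpand k p (jqModC k))).toRingHom
      = (X - C (qExpand k (p ^ 2) (jqModC k)))
        * ∏ b ∈ Finset.range p, (X - C (twist (ζ ^ b) (jqModC k)))) :
    aeval (jqModC k) (polyJp (p := p) Φ) = 0 := by
  rw [aeval_def, ← eval_map, polyJp_map, eval_map]
  exact eval₂_J_eq_zero hp ζ Φ hΦ

/-- **Rank transfer at a prime.** If a multiplicative set `S` of series contains `J_p`, then from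
`n` elements of `S` independent over `k(J_p)` we get `n` elements of `S` independent over
`k(J)`. -/
theorem exists_linearIndependent_of_Jp (hp : p.Prime) (ζ : kˣ) (Φ : Polynomial (Polynomial k))
    (hΦm : Φ.Monic) (hΦd : Φ.natDegree = p + 1)
    (hΦ : Φ.map (aeval (qExpand k p (jqModC k))).toRingHom
      = (X - C (qExpand k (p ^ 2) (jqModC k)))
        * ∏ b ∈ Finset.range p, (X - C (twist (ζ ^ b) (jqModC k))))
    (hprime : qExpand k p (jqModC k) ∉ IntermediateField.adjoin k {jqModC k})
    (S : Submonoid (LaurentSeries k)) (hJp : qExpand k p (jqModC k) ∈ S)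
    {n : ℕ} (v : Fin n → LaurentSeries k) (hv : ∀ i, v i ∈ S)
    (hli : LinearIndependent ↥(IntermediateField.adjoin k {qExpand k p (jqModC k)}) v) :
    ∃ w : Fin n → LaurentSeries k, (∀ i, w i ∈ S) ∧
      LinearIndependent ↥(IntermediateField.adjoin k {jqModC k}) w := by
  classical
  set J : LaurentSeries k := jqModC k with hJ
  set Jp : LaurentSeries k := qExpand k p (jqModC k) with hJpdef
  set F : IntermediateField k (LaurentSeries k) := IntermediateField.adjoin k {J} with hF
  set Fp : IntermediateField k (LaurentSeries k) := IntermediateField.adjoin k {Jp} with hFp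
  set E : IntermediateField ↥F (LaurentSeries k) := IntermediateField.adjoin ↥F {Jp} with hE
  set E' : IntermediateField ↥Fp (LaurentSeries k) := IntermediateField.adjoin ↥Fp {J} with hE'
  have hJpE : Jp ∈ E := IntermediateField.mem_adjoin_simple_self ↥F Jp
  have hJE' : J ∈ E' := IntermediateField.mem_adjoin_simple_self ↥Fp J
  -- `k(J_p) ⊆ E`
  have hFpE : ∀ x : ↥Fp, (x : LaurentSeries k) ∈ E := by
    intro x
    have h1 : Fp ≤ E.restrictScalars k := IntermediateField.adjoin_simple_le_iff.mpr hJpE
    exact h1 x.2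
  -- `k(J) ⊆ E'`
  have hFE' : ∀ x : ↥F, (x : LaurentSeries k) ∈ E' := by
    intro x
    have h1 : F ≤ E'.restrictScalars k := IntermediateField.adjoin_simple_le_iff.mpr hJE'
    exact h1 x.2
  -- `E ⊆ E'`
  have hEE' : ∀ x : ↥E, (x : LaurentSeries k) ∈ E' := by
    intro x
    have h1 : E ≤ E'.toSubfield.toIntermediateField (fun y => hFE' y) :=
      IntermediateField.adjoin_simple_le_iff.mpr
        (show Jp ∈ E' from E'.algebraMap_mem ⟨Jp, IntermediateField.mem_adjoin_simple_self k Jp⟩)
    exact h1 x.2
  let φ : ↥Fp →+* ↥E :=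
    { toFun := fun x => ⟨x.1, hFpE x⟩
      map_one' := rfl
      map_mul' := fun _ _ => rfl
      map_zero' := rfl
      map_add' := fun _ _ => rfl }
  -- `p + 1 ≤ [E : k(J)]`
  have hr1 : ((p + 1 : ℕ) : Cardinal.{u}) ≤ Module.rank ↥F ↥E := by
    have hli1 : LinearIndependent ↥F (fun i : Fin (p + 1) => (⟨Jp, hJpE⟩ : ↥E) ^ (i : ℕ)) := by
      apply LinearIndependent.of_comp E.val.toLinearMap
      exact linearIndependent_pow_Jp hp ζ Φ hΦm hΦd hΦ hprime
    have h := hli1.cardinal_lift_le_rank
    rw [Cardinal.mk_fin] at h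
    simpa using h
  -- `[E' : k(J_p)] ≤ p + 1`
  have hr2 : Module.rank ↥Fp ↥E' ≤ ((p + 1 : ℕ) : Cardinal.{u}) := by
    have hmon : (polyJp (p := p) Φ).Monic := hΦm.map _
    have hdeg : (polyJp (p := p) Φ).natDegree = p + 1 := by rw [natDegree_polyJp Φ hΦm, hΦd]
    have hroot : aeval J (polyJp (p := p) Φ) = 0 := aeval_J_polyJp hp ζ Φ hΦ
    have hint : IsIntegral ↥Fp J := ⟨polyJp Φ, hmon, hroot⟩
    have : FiniteDimensional ↥Fp ↥E' := IntermediateField.adjoin.finiteDimensional hint
    have h2 : Module.finrank ↥Fp ↥E' ≤ p + 1 := by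
      rw [IntermediateField.adjoin.finrank hint]
      have h3 := natDegree_le_natDegree (minpoly.min ↥Fp J hmon hroot)
      rwa [hdeg] at h3
    rw [← Module.finrank_eq_rank]
    exact_mod_cast h2
  -- stability of the span
  have halg : IsAlgebraic ↥F Jp := (isIntegral_Jp ζ Φ hΦm hΦ).isAlgebraic
  have hS : ∀ (e : ↥E) (s : LaurentSeries k), s ∈ (S : Set (LaurentSeries k)) →
      e • s ∈ Submodule.span ↥F (S : Set (LaurentSeries k)) := by
    intro e s hs
    have h1 : Subalgebra.toSubmodule (Algebra.adjoin ↥F (S : Set (LaurentSeries k)))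
        = Submodule.span ↥F (S : Set (LaurentSeries k)) := by
      rw [Algebra.adjoin_eq_span, Submonoid.closure_eq]
    rw [← h1]
    have h2 : (e : LaurentSeries k) ∈ Algebra.adjoin ↥F ({Jp} : Set (LaurentSeries k)) := by
      rw [← IntermediateField.adjoin_simple_toSubalgebra_of_isAlgebraic halg]
      exact e.2
    have h3 : (e : LaurentSeries k) ∈ Algebra.adjoin ↥F (S : Set (LaurentSeries k)) :=
      Algebra.adjoin_mono (Set.singleton_subset_iff.mpr hJp) h2
    exact Subalgebra.mul_mem _ h3 (Algebra.subset_adjoin hs)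
  exact exists_linearIndependent_of_rank_le φ (fun x => rfl) (p + 1) hr1 E' hEE' hr2
    (S : Set (LaurentSeries k)) hS v (fun i => Submodule.subset_span (hv i)) hli

end Concrete

section Monomials

variable (k : Type*) [Field k] (M p : ℕ) [NeZero p]

/-- `q ↦ q^p` maps level-`M` monomials to level-`p * M` monomials. -/
theorem qExpand_mem_closure {x : LaurentSeries k}
    (hx : x ∈ Submonoid.closure (divisorExpansionsC k M)) :
    qExpand k p x ∈ Submonoid.closure (divisorExpansionsC k (p * M)) := by
  induction hx using Submonoid.closure_induction with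
  | mem y hy =>
    obtain ⟨d, hd, hdM, rfl⟩ := hy
    have := hd
    have : NeZero (p * d) := ⟨Nat.mul_ne_zero (NeZero.ne p) (NeZero.ne d)⟩
    rw [qExpand_qExpand]
    exact Submonoid.subset_closure (mem_divisorExpansionsC k (p * M) (mul_dvd_mul_left p hdM))
  | one => rw [map_one]; exact Submonoid.one_mem _
  | mul y z _ _ hy hz => rw [map_mul]; exact Submonoid.mul_mem _ hy hz

omit [NeZero p] in
theorem jqModC_mem_closure : jqModC k ∈ Submonoid.closure (divisorExpansionsC k M) := by
  have h := mem_divisorExpansionsC k M (one_dvd M)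
  rw [qExpand_one_apply] at h
  exact Submonoid.subset_closure h

/-- The monomials `J^j * θ_i(q^p)` (`j < p`) are independent over `k(J_p)` when the `θ_i` are
independent over `k(J)`. -/
theorem linearIndependent_pow_mul_qExpand {m : ℕ} (θ : Fin m → LaurentSeries k)
    (hind : LinearIndependent ↥(IntermediateField.adjoin k {jqModC k}) θ) :
    LinearIndependent ↥(IntermediateField.adjoin k {qExpand k p (jqModC k)})
      (fun x : Fin p × Fin m => jqModC k ^ (x.1 : ℕ) * qExpand k p (θ x.2)) := by
  classical
  rw [Fintype.linearIndependent_iff]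
  intro g hg
  -- lift the coefficients to `k(J)`
  have hlift : ∀ x : Fin p × Fin m, ∃ d : ↥(IntermediateField.adjoin k {jqModC k}),
      qExpand k p (d : LaurentSeries k) = (g x : LaurentSeries k) := by
    intro x
    have h : (g x : LaurentSeries k) ∈
        (IntermediateField.adjoin k {jqModC k}).map (qExpandAlgHomC k p) :=
      adjoin_Jp_eq_map k p ▸ (g x).2
    obtain ⟨y, hy, hyx⟩ := h
    exact ⟨⟨y, hy⟩, hyx⟩
  choose d hd using hlift
  set c : ℕ → LaurentSeries k := fun j =>
    if h : j < p then qExpand k p (∑ i, d (⟨j, h⟩, i) • θ i) else 0 with hc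
  have hsum : ∑ j ∈ Finset.range p, c j * jqModC k ^ j = 0 := by
    rw [Finset.sum_range, ← hg, Fintype.sum_prod_type]
    refine Finset.sum_congr rfl fun j _ => ?_
    rw [hc]
    simp only [Fin.is_lt, dif_pos, Fin.eta]
    rw [map_sum, Finset.sum_mul]
    refine Finset.sum_congr rfl fun i _ => ?_
    rw [IntermediateField.smul_def, IntermediateField.smul_def, smul_eq_mul, smul_eq_mul, map_mul, hd]
    ring
  have hcoprime : IsCoprime (jqModC k).order (p : ℤ) := by
    rw [order_jqModC]
    exact isCoprime_one_left.neg_left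
  have hzero := eq_zero_of_sum_mul_pow_eq_zero p (jqModC k) hcoprime c (fun j hj => by
    rw [hc]
    simp only [hj, dif_pos]
    exact ⟨_, rfl⟩) hsum
  rw [Fintype.linearIndependent_iff] at hind
  intro x
  obtain ⟨j, i⟩ := x
  have h1 := hzero j j.2
  rw [hc] at h1
  simp only [Fin.is_lt, dif_pos, Fin.eta] at h1
  have h2 : ∑ i, d (j, i) • θ i = 0 := by
    apply qExpand_injective p
    rw [h1, map_zero]
  have h3 := hind (fun i => d (j, i)) h2 i
  have h4 := hd (j, i)
  rw [h3] at h4
  apply Subtype.ext
  rw [← h4]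
  simp

end Monomials

/-- **Tower step `M ↦ p * M`.** From `m` level-`M` monomials independent over `k(J)` we get
`p * m` level-`p * M` monomials independent over `k(J)`. -/
theorem step_mul (k : Type*) [Field k] (M p : ℕ) [NeZero M] [NeZero p] (hp : p.Prime) (ζ : kˣ)
    (Φ : Polynomial (Polynomial k)) (hΦm : Φ.Monic) (hΦd : Φ.natDegree = p + 1)
    (hΦ : Φ.map (aeval (qExpand k p (jqModC k))).toRingHom
      = (X - C (qExpand k (p ^ 2) (jqModC k)))
        * ∏ b ∈ Finset.range p, (X - C (S28_Subst.twist (ζ ^ b) (jqModC k))))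
    (hprime : qExpand k p (jqModC k) ∉ IntermediateField.adjoin k {jqModC k})
    {m : ℕ} (θ : Fin m → LaurentSeries k)
    (hθ : ∀ i, θ i ∈ Submonoid.closure (divisorExpansionsC k M))
    (hind : LinearIndependent ↥(IntermediateField.adjoin k {jqModC k}) θ) :
    ∃ θ' : Fin (p * m) → LaurentSeries k,
      (∀ i, θ' i ∈ Submonoid.closure (divisorExpansionsC k (p * M))) ∧
      LinearIndependent ↥(IntermediateField.adjoin k {jqModC k}) θ' := by
  classical
  have hJpS : qExpand k p (jqModC k) ∈ Submonoid.closure (divisorExpansionsC k (p * M)) :=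
    Submonoid.subset_closure (mem_divisorExpansionsC k (p * M) (dvd_mul_right p M))
  let v : Fin (p * m) → LaurentSeries k := fun x =>
    jqModC k ^ ((finProdFinEquiv.symm x).1 : ℕ) * qExpand k p (θ (finProdFinEquiv.symm x).2)
  have hv : ∀ x, v x ∈ Submonoid.closure (divisorExpansionsC k (p * M)) := fun x =>
    Submonoid.mul_mem _ (Submonoid.pow_mem _ (jqModC_mem_closure k (p * M)) _)
      (qExpand_mem_closure k M p (hθ _))
  have hli : LinearIndependent ↥(IntermediateField.adjoin k {qExpand k p (jqModC k)}) v :=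
    (linearIndependent_pow_mul_qExpand k p θ hind).comp finProdFinEquiv.symm
      finProdFinEquiv.symm.injective
  exact exists_linearIndependent_of_Jp hp ζ Φ hΦm hΦd hΦ hprime _ hJpS v hv hli

end Fermat.Agent.S28_T3

end
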