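import Fermat.Agent.S28_T2

/-!
# S28_T4deg (helper4): the `p ∤ M` tower step, given `J_p ∉ κ(M)`

`κ(M) = k(J(q^d) : d ∣ M) ⊂ k((q))`. If `J_p = J(q^p) ∉ κ(M)` then `J_p` has degree `≥ p + 1`
over `κ(M)` (the level-`p` modular equation stays irreducible over `κ(M)`), hence from `m`
monomials of level `M` independent over `k(J)` we get `(p + 1) * m` monomials of level `p * M`
independent over `k(J)`.
-/

set_option autoImplicit false

noncomputable section

open Polynomial ModularCurve
open Fermat.Agent.S28_Subst Fermat.Agent.S28_Irr Fermat.Agent.S28_SubstJ Fermat.Agent.S28_T2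

namespace Fermat.Agent.S28_T4deg

variable {k : Type*} [Field k]

/-- The transport `L → V_p L`, `x ↦ x(q^p)`, for an intermediate field `L` of `k((q))/k`. -/
def tauOf (p : ℕ) [NeZero p] (L : IntermediateField k (LaurentSeries k)) :
    ↥L →+* ↥(L.map (qExpandAlgHomC k p)) where
  toFun x := ⟨qExpand k p x, ⟨x, x.2, rfl⟩⟩
  map_one' := Subtype.ext (map_one _)
  map_mul' _ _ := Subtype.ext (map_mul _ _ _)
  map_zero' := Subtype.ext (map_zero _)
  map_add' _ _ := Subtype.ext (map_add _ _ _)

theorem tauOf_injective (p : ℕ) [NeZero p] (L : IntermediateField k (LaurentSeries k)) :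
    Function.Injective (tauOf p L) := by
  intro x y h
  apply Subtype.ext
  apply qExpand_injective p
  exact congrArg Subtype.val h

/-- Evaluating the inner variable of `Φ` at an element `y` of an intermediate field `K₁` and
then including into `k((q))` is the same as evaluating at `y` directly. -/
theorem map_aeval_subtype (K₁ : IntermediateField k (LaurentSeries k)) (y : LaurentSeries k)
    (hy : y ∈ K₁) (Φ : Polynomial (Polynomial k)) :
    (Φ.map (aeval (⟨y, hy⟩ : ↥K₁)).toRingHom).map (algebraMap ↥K₁ (LaurentSeries k))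
      = Φ.map (aeval y).toRingHom := by
  rw [Polynomial.map_map]
  congr 1
  apply Polynomial.ringHom_ext
  · intro a
    simp only [RingHom.comp_apply, AlgHom.toRingHom_eq_coe, RingHom.coe_coe, aeval_C]
    rfl
  · simp only [RingHom.comp_apply, AlgHom.toRingHom_eq_coe, RingHom.coe_coe, aeval_X]
    rfl

section Step

variable (k) (M p : ℕ) [NeZero p]

/-- **Degree form.** If `J_p ∉ κ(M)`, every nonzero polynomial over `κ(M)` vanishing at `J_p`
has degree at least `p + 1`. -/
theorem le_natDegree_of_aeval_Jp_full (hp : p.Prime) (ζ : kˣ) (Φ : Polynomial (Polynomial k))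
    (hΦm : Φ.Monic) (hΦd : Φ.natDegree = p + 1)
    (hΦ : Φ.map (aeval (qExpand k p (jqModC k))).toRingHom
      = (X - C (qExpand k (p ^ 2) (jqModC k)))
        * ∏ b ∈ Finset.range p, (X - C (twist (ζ ^ b) (jqModC k))))
    (hnot : qExpand k p (jqModC k) ∉ modularFunctionFieldFullC k M)
    (g : Polynomial ↥(modularFunctionFieldFullC k M)) (hg : g ≠ 0)
    (h : aeval (qExpand k p (jqModC k)) g = 0) : p + 1 ≤ g.natDegree := by
  set K₁ : IntermediateField k (LaurentSeries k) :=
    (modularFunctionFieldFullC k M).map (qExpandAlgHomC k p) with hK₁def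
  have hJp : qExpand k p (jqModC k) ∈ K₁ := ⟨jqModC k, jqModC_mem_full k M, rfl⟩
  have hK₁ : ∀ x ∈ K₁, x ∈ Set.range (qExpand k p) := by
    rintro x ⟨y, -, rfl⟩
    exact ⟨y, rfl⟩
  have hαK : qExpand k (p ^ 2) (jqModC k) ∉ K₁ := by
    rintro ⟨y, hy, hyx⟩
    have h2 : qExpand k p y = qExpand k p (qExpand k p (jqModC k)) := by
      rw [← Jpp_eq, ← hyx]
      rfl
    exact hnot ((qExpand_injective p h2) ▸ hy)
  set f : Polynomial ↥K₁ :=
    Φ.map (aeval (⟨qExpand k p (jqModC k), hJp⟩ : ↥K₁)).toRingHom with hf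
  have hfmap : f.map (algebraMap ↥K₁ (LaurentSeries k))
      = (X - C (qExpand k (p ^ 2) (jqModC k)))
        * ∏ b : Fin p, (X - C (twist (ζ ^ (b : ℕ)) (jqModC k))) := by
    rw [hf, map_aeval_subtype, hΦ, Fin.prod_univ_eq_prod_range
      (fun b : ℕ => (X - C (twist (ζ ^ b) (jqModC k)) : (LaurentSeries k)[X]))]
  have hfm : f.Monic := hΦm.map _
  have hfd : f.natDegree = p + 1 := by rw [hf, hΦm.natDegree_map, hΦd]
  have hx : aeval (qExpand k (p ^ 2) (jqModC k)) f = 0 := by
    rw [aeval_def, ← eval_map, hfmap, eval_mul, eval_sub, eval_X, eval_C, sub_self, zero_mul]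
  have hg' : g.map (tauOf p (modularFunctionFieldFullC k M)) ≠ 0 :=
    (Polynomial.map_ne_zero_iff (tauOf_injective p (modularFunctionFieldFullC k M))).mpr hg
  have hdeg : (g.map (tauOf p (modularFunctionFieldFullC k M))).natDegree = g.natDegree :=
    natDegree_map_eq_of_injective (tauOf_injective p (modularFunctionFieldFullC k M)) g
  have hroot : aeval (qExpand k (p ^ 2) (jqModC k)) (g.map (tauOf p (modularFunctionFieldFullC k M))) = 0 := by
    have h1 : qExpand k p (aeval (qExpand k p (jqModC k)) g) = 0 := by rw [h, map_zero]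
    rw [aeval_def, hom_eval₂] at h1
    rw [aeval_def, eval₂_map, Jpp_eq]
    exact h1
  have key := natDegree_le_of_root p hp K₁ hK₁ (Fintype.card_fin p)
    (fun b : Fin p => twist (ζ ^ (b : ℕ)) (jqModC k)) (-1) (not_dvd_neg_one hp)
    (fun b => order_twist_jqModC _) (qExpand k (p ^ 2) (jqModC k))
    ⟨_, Jpp_eq.symm⟩ hαK f hfm hfmap (qExpand k (p ^ 2) (jqModC k)) hx
    (g.map (tauOf p (modularFunctionFieldFullC k M))) hg' hroot
  rwa [hfd, hdeg] at key

/-- **Linear-independence form.** If `J_p ∉ κ(M)`, then `1, J_p, …, J_p^p` are linearly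
independent over `κ(M)`. -/
theorem linearIndependent_pow_Jp_full (hp : p.Prime) (ζ : kˣ) (Φ : Polynomial (Polynomial k))
    (hΦm : Φ.Monic) (hΦd : Φ.natDegree = p + 1)
    (hΦ : Φ.map (aeval (qExpand k p (jqModC k))).toRingHom
      = (X - C (qExpand k (p ^ 2) (jqModC k)))
        * ∏ b ∈ Finset.range p, (X - C (twist (ζ ^ b) (jqModC k))))
    (hnot : qExpand k p (jqModC k) ∉ modularFunctionFieldFullC k M) :
    LinearIndependent ↥(modularFunctionFieldFullC k M)
      (fun i : Fin (p + 1) => qExpand k p (jqModC k) ^ (i : ℕ)) :=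
  linearIndependent_pow_of_le_natDegree _ _
    (le_natDegree_of_aeval_Jp_full k M p hp ζ Φ hΦm hΦd hΦ hnot)

/-- Monomials of level `M` lie in `κ(M)`. -/
theorem mem_full_of_mem_closure {x : LaurentSeries k}
    (hx : x ∈ Submonoid.closure (divisorExpansionsC k M)) :
    x ∈ modularFunctionFieldFullC k M := by
  induction hx using Submonoid.closure_induction with
  | mem x hx => exact IntermediateField.subset_adjoin k _ hx
  | one => exact one_mem _
  | mul x y _ _ hx hy => exact mul_mem hx hy

omit [NeZero p] in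
/-- Monomials of level `M` are monomials of level `p * M`. -/
theorem closure_mono_mul :
    Submonoid.closure (divisorExpansionsC k M) ≤ Submonoid.closure (divisorExpansionsC k (p * M)) := by
  apply Submonoid.closure_mono
  rintro x ⟨d, hd0, hd, rfl⟩
  exact ⟨d, hd0, hd.trans (dvd_mul_left M p), rfl⟩

/-- **The `p ∤ M` tower step** (given `J_p ∉ κ(M)`): from `m` monomials of level `M`
independent over `k(J)` to `(p + 1) * m` monomials of level `p * M` independent over `k(J)`. -/
theorem step_mul_of_not_mem (hp : p.Prime) (ζ : kˣ) (Φ : Polynomial (Polynomial k))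
    (hΦm : Φ.Monic) (hΦd : Φ.natDegree = p + 1)
    (hΦ : Φ.map (aeval (qExpand k p (jqModC k))).toRingHom
      = (X - C (qExpand k (p ^ 2) (jqModC k)))
        * ∏ b ∈ Finset.range p, (X - C (twist (ζ ^ b) (jqModC k))))
    (hnot : qExpand k p (jqModC k) ∉ modularFunctionFieldFullC k M)
    {m : ℕ} (θ : Fin m → LaurentSeries k)
    (hθ : ∀ i, θ i ∈ Submonoid.closure (divisorExpansionsC k M))
    (hind : LinearIndependent ↥(IntermediateField.adjoin k {jqModC k}) θ) :
    ∃ θ' : Fin ((p + 1) * m) → LaurentSeries k,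
      (∀ i, θ' i ∈ Submonoid.closure (divisorExpansionsC k (p * M))) ∧
      LinearIndependent ↥(IntermediateField.adjoin k {jqModC k}) θ' := by
  classical
  have hLI := linearIndependent_pow_Jp_full k M p hp ζ Φ hΦm hΦd hΦ hnot
  have hAL : IntermediateField.adjoin k {jqModC k} ≤ modularFunctionFieldFullC k M :=
    IntermediateField.adjoin_simple_le_iff.mpr (jqModC_mem_full k M)
  have hJpS : qExpand k p (jqModC k) ∈ Submonoid.closure (divisorExpansionsC k (p * M)) :=
    Submonoid.subset_closure ⟨p, inferInstance, dvd_mul_right p M, rfl⟩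
  let Θ : Fin (p + 1) × Fin m → LaurentSeries k :=
    fun x => θ x.2 * qExpand k p (jqModC k) ^ (x.1 : ℕ)
  refine ⟨Θ ∘ finProdFinEquiv.symm, fun e => ?_, ?_⟩
  · exact mul_mem (closure_mono_mul k M p (hθ _)) (pow_mem hJpS _)
  · rw [linearIndependent_equiv]
    rw [Fintype.linearIndependent_iff]
    intro c hc x
    rw [Fintype.sum_prod_type] at hc
    -- the inner sums lie in `κ(M)`
    have hd : ∀ j : Fin (p + 1), (∑ i : Fin m, c (j, i) • θ i) ∈ modularFunctionFieldFullC k M := by
      intro j
      refine sum_mem fun i _ => ?_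
      rw [Algebra.smul_def]
      exact mul_mem (hAL (c (j, i)).2) (mem_full_of_mem_closure k M (hθ i))
    have hc' : ∑ j : Fin (p + 1),
        (⟨∑ i : Fin m, c (j, i) • θ i, hd j⟩ : ↥(modularFunctionFieldFullC k M))
          • qExpand k p (jqModC k) ^ (j : ℕ) = 0 := by
      rw [← hc]
      refine Finset.sum_congr rfl fun j _ => ?_
      rw [Algebra.smul_def]
      show (∑ i : Fin m, c (j, i) • θ i) * qExpand k p (jqModC k) ^ (j : ℕ) = _
      rw [Finset.sum_mul]
      refine Finset.sum_congr rfl fun i _ => ?_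
      rw [smul_mul_assoc]
    have h1 := Fintype.linearIndependent_iff.mp hLI _ hc' x.1
    have h2 : ∑ i : Fin m, c (x.1, i) • θ i = 0 := congrArg Subtype.val h1
    exact Fintype.linearIndependent_iff.mp hind (fun i => c (x.1, i)) h2 x.2

end Step

end Fermat.Agent.S28_T4deg

end
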