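-- Helper for S28 (project I, Tower, route (c), helper6): the top-level induction over the prime
-- factors of the level: from the two step lemmas (`p ∣ M`: factor `p`; `p ∤ M`: factor `p + 1`)
-- to `ψ(N)` monomials in the `J(q^d)`, `d ∣ N`, linearly independent over `k(J)`.
import Mathlib
import Fermat.Prelude.Def_ModularCurve_X0ModL
import Fermat.Agent.S24_Comb

set_option autoImplicit false

noncomputable section

open ModularCurve

namespace Fermat.Agent.S28_TowerC

/-- There are `m` monomials in the `J(q^d)`, `d ∣ M`, linearly independent over `k(J)`. -/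
def HasIndep (k : Type*) [Field k] (M m : ℕ) : Prop :=
  ∃ θ : Fin m → LaurentSeries k, (∀ i, θ i ∈ Submonoid.closure (divisorExpansionsC k M)) ∧
    LinearIndependent ↥(IntermediateField.adjoin k {jqModC k}) θ

theorem hasIndep_one (k : Type*) [Field k] (M : ℕ) : HasIndep k M 1 := by
  refine ⟨fun _ => 1, fun _ => one_mem _, ?_⟩
  rw [linearIndependent_unique_iff]
  exact one_ne_zero

theorem HasIndep.congr {k : Type*} [Field k] {M m m' : ℕ} (h : HasIndep k M m) (hm : m = m') :
    HasIndep k M m' := hm ▸ h

/-- **BOOK**: induction over the prime factors of the level. -/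
theorem exists_indep_of_steps (k : Type*) [Field k] (N : ℕ) [NeZero N]
    (hmul : ∀ (M p : ℕ) [NeZero M] [NeZero p], p.Prime → p ∣ M → p * M ∣ N →
      ∀ m, HasIndep k M m → HasIndep k (p * M) (p * m))
    (hsucc : ∀ (M p : ℕ) [NeZero M] [NeZero p], p.Prime → ¬ p ∣ M → p * M ∣ N →
      ∀ m, HasIndep k M m → HasIndep k (p * M) ((p + 1) * m)) :
    HasIndep k N (dedekindPsi N) := by
  have key : ∀ N' : ℕ, N' ∣ N → HasIndep k N' (dedekindPsi N') := by
    intro N'
    induction N' using induction_on_primes with
    | zero =>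
      intro h0
      exact absurd (zero_dvd_iff.mp h0) (NeZero.ne N)
    | one =>
      intro _
      rw [dedekindPsi_one]
      exact hasIndep_one k 1
    | prime_mul p a hp ih =>
      intro hdvd
      have ha : a ∣ N := (Dvd.intro_left p rfl).trans hdvd
      have ha0 : a ≠ 0 := by
        rintro rfl
        rw [mul_zero, zero_dvd_iff] at hdvd
        exact NeZero.ne N hdvd
      haveI : NeZero a := ⟨ha0⟩
      haveI : NeZero p := ⟨hp.ne_zero⟩
      by_cases hpa : p ∣ a
      · rw [Fermat.Agent.S24_Comb.dedekindPsi_prime_mul_of_dvd p a hp ha0 hpa]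
        exact hmul a p hp hpa hdvd _ (ih ha)
      · rw [Fermat.Agent.S24_Comb.dedekindPsi_prime_mul_of_not_dvd p a hp ha0 hpa]
        exact hsucc a p hp hpa hdvd _ (ih ha)
  exact key N dvd_rfl

end Fermat.Agent.S28_TowerC
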