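import Fermat.Agent.S28_Desc

/-!
# S28_UnitConst (helper4): `k[J]` is integrally closed in `k(J)`; its units are constants

For any field `k` and `J = jqModC k ∈ k((q))` (transcendental over `k`): an element of `k(J)`
which is integral over `k[J]` lies in `k[J]`; if moreover its inverse is integral over `k[J]`,
it is a nonzero constant, hence has `q`-order `0`.  This is the end game of Lemma P.
-/

set_option autoImplicit false

noncomputable section

open ModularCurve HahnSeries Polynomial

namespace Fermat.Agent.S28_UnitConst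

variable (k : Type*) [Field k]

/-- The `k`-algebra isomorphism `k[X] ≃ k[J]`. -/
def polyEquiv : Polynomial k ≃ₐ[k] ↥(Algebra.adjoin k {jqModC k}) :=
  (AlgEquiv.ofInjective (aeval (R := k) (jqModC k)) (S28_Desc.aeval_jqModC_injective k)).trans
    (Subalgebra.equivOfEq _ _ (Algebra.adjoin_singleton_eq_range_aeval k (jqModC k)).symm)

theorem coe_polyEquiv (P : Polynomial k) :
    ((polyEquiv k P : ↥(Algebra.adjoin k {jqModC k})) : LaurentSeries k) = aeval (jqModC k) P :=
  rfl

theorem isIntegrallyClosed_adjoin : IsIntegrallyClosed ↥(Algebra.adjoin k {jqModC k}) :=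
  IsIntegrallyClosed.of_equiv (polyEquiv k).toRingEquiv

open scoped IntermediateField.algebraAdjoinAdjoin in
/-- `k[J]` is integrally closed in `k(J)`. -/
theorem mem_adjoin_of_isIntegral {u : LaurentSeries k}
    (hu : u ∈ IntermediateField.adjoin k {jqModC k})
    (h : IsIntegral (Algebra.adjoin k {jqModC k}) u) : u ∈ Algebra.adjoin k {jqModC k} := by
  have := isIntegrallyClosed_adjoin k
  have h1 : IsIntegral (Algebra.adjoin k {jqModC k})
      (⟨u, hu⟩ : ↥(IntermediateField.adjoin k {jqModC k})) := by
    have h2 : IsIntegral (Algebra.adjoin k {jqModC k})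
        (algebraMap ↥(IntermediateField.adjoin k {jqModC k}) (LaurentSeries k) ⟨u, hu⟩) := h
    exact (isIntegral_algebraMap_iff
      (algebraMap ↥(IntermediateField.adjoin k {jqModC k}) (LaurentSeries k)).injective).mp h2
  obtain ⟨y, hy⟩ := (IsIntegrallyClosed.isIntegral_iff
    (R := ↥(Algebra.adjoin k {jqModC k}))
    (K := ↥(IntermediateField.adjoin k {jqModC k}))).mp h1
  have h3 : (y : LaurentSeries k) = u := congrArg Subtype.val hy
  rw [← h3]
  exact y.2

/-- Polynomial form: an element of `k(J)` integral over `k[J]` is a polynomial in `J`. -/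
theorem exists_aeval_of_isIntegral {u : LaurentSeries k}
    (hu : u ∈ IntermediateField.adjoin k {jqModC k})
    (h : IsIntegral (Algebra.adjoin k {jqModC k}) u) :
    ∃ P : Polynomial k, u = aeval (jqModC k) P := by
  have h1 := mem_adjoin_of_isIntegral k hu h
  rw [Algebra.adjoin_singleton_eq_range_aeval] at h1
  obtain ⟨P, hP⟩ := h1
  exact ⟨P, hP.symm⟩

/-- If `P(J) * Q(J) = 1` then `P` is a nonzero constant. -/
theorem exists_const_of_aeval_mul_eq_one {P Q : Polynomial k}
    (h : aeval (jqModC k) P * aeval (jqModC k) Q = 1) :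
    ∃ c : k, c ≠ 0 ∧ P = C c := by
  have h1 : P * Q = 1 := by
    apply S28_Desc.aeval_jqModC_injective k
    rw [map_mul, h, map_one]
  have hu : IsUnit P := IsUnit.of_mul_eq_one Q h1
  obtain ⟨c, hc, rfl⟩ := Polynomial.isUnit_iff.mp hu
  exact ⟨c, hc.ne_zero, rfl⟩

/-- **Units of `k[J]` are constants**: an element of `k(J)` which is integral over `k[J]`
together with its inverse is a nonzero constant. -/
theorem exists_const_of_isIntegral_inv {u : LaurentSeries k}
    (hu : u ∈ IntermediateField.adjoin k {jqModC k})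
    (h1 : IsIntegral (Algebra.adjoin k {jqModC k}) u)
    (h2 : IsIntegral (Algebra.adjoin k {jqModC k}) u⁻¹) (hu0 : u ≠ 0) :
    ∃ c : k, c ≠ 0 ∧ u = algebraMap k (LaurentSeries k) c := by
  obtain ⟨P, hP⟩ := exists_aeval_of_isIntegral k hu h1
  obtain ⟨Q, hQ⟩ := exists_aeval_of_isIntegral k
    ((IntermediateField.adjoin k {jqModC k}).inv_mem hu) h2
  have h : aeval (jqModC k) P * aeval (jqModC k) Q = 1 := by
    rw [← hP, ← hQ, mul_inv_cancel₀ hu0]
  obtain ⟨c, hc, rfl⟩ := exists_const_of_aeval_mul_eq_one k h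
  exact ⟨c, hc, by rw [hP, aeval_C]⟩

/-- Variant with an explicit inverse `v` (`u * v = 1`). -/
theorem exists_const_of_isIntegral_of_mul_eq_one {u v : LaurentSeries k}
    (hu : u ∈ IntermediateField.adjoin k {jqModC k})
    (h1 : IsIntegral (Algebra.adjoin k {jqModC k}) u)
    (h2 : IsIntegral (Algebra.adjoin k {jqModC k}) v) (huv : u * v = 1) :
    ∃ c : k, c ≠ 0 ∧ u = algebraMap k (LaurentSeries k) c := by
  have hu0 : u ≠ 0 := by
    rintro rfl
    rw [zero_mul] at huv
    exact zero_ne_one huv
  have hv : v = u⁻¹ := eq_inv_of_mul_eq_one_right huv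
  exact exists_const_of_isIntegral_inv k hu h1 (hv ▸ h2) hu0

/-- A nonzero constant has order `0`. -/
theorem order_algebraMap {c : k} (hc : c ≠ 0) :
    (algebraMap k (LaurentSeries k) c).order = 0 := by
  rw [algebraMap_laurentSeries_eq_single]
  exact HahnSeries.order_single hc

/-- **End game of Lemma P**: a unit of `k[J]` inside `k(J)` has `q`-order `0`. -/
theorem order_eq_zero_of_isIntegral_inv {u : LaurentSeries k}
    (hu : u ∈ IntermediateField.adjoin k {jqModC k})
    (h1 : IsIntegral (Algebra.adjoin k {jqModC k}) u)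
    (h2 : IsIntegral (Algebra.adjoin k {jqModC k}) u⁻¹) (hu0 : u ≠ 0) :
    u.order = 0 := by
  obtain ⟨c, hc, rfl⟩ := exists_const_of_isIntegral_inv k hu h1 h2 hu0
  exact order_algebraMap k hc

end Fermat.Agent.S28_UnitConst

end
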