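import Mathlib

/-!
# S41, END block (lead): three auxiliary lemmas

* `retr` : an integral homomorphism lying in the complex span of a set of integral homomorphisms
  has a nonzero multiple in the subgroup they generate (rational retraction of `ℂ`);
* `finite_quot` : `L / pL` is finite for a finite `ℤ`-module `L`;
* `exists_orth` : for a pairing that is non-degenerate modulo `p`, a proper subgroup containing
  `pL` has a nonzero orthogonal vector modulo `p`.
-/

set_option autoImplicit false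

namespace Fermat.Agent.S41_EndAux

theorem retr {A : Type*} [AddGroup A] (S : Set (A →+ ℤ)) (x : A →+ ℤ)
    (h : (Int.castAddHom ℂ).comp x ∈
      Submodule.span ℂ ((fun y : A →+ ℤ => (Int.castAddHom ℂ).comp y) '' S)) :
    ∃ m : ℤ, m ≠ 0 ∧ m • x ∈ AddSubgroup.closure S := by
  classical
  obtain ⟨φ, hφ⟩ := LinearMap.exists_leftInverse_of_injective (Algebra.linearMap ℚ ℂ)
    (LinearMap.ker_eq_bot.mpr (algebraMap ℚ ℂ).injective)
  have hφ1 : ∀ r : ℚ, φ (r : ℂ) = r := fun r => by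
    have := LinearMap.congr_fun hφ r
    simpa using this
  obtain ⟨l, hl, hlx⟩ := (Finsupp.mem_span_image_iff_linearCombination ℂ).mp h
  have hpt : ∀ a : A, ∑ y ∈ l.support, l y * ((y a : ℤ) : ℂ) = ((x a : ℤ) : ℂ) := by
    intro a
    have h1 := congrArg (fun F : A →+ ℂ => F a) hlx
    simp only [Finsupp.linearCombination_apply, Finsupp.sum] at h1
    rw [AddMonoidHom.finsetSum_apply] at h1
    simpa using h1
  have hq : ∀ a : A, ∑ y ∈ l.support, φ (l y) * ((y a : ℤ) : ℚ) = ((x a : ℤ) : ℚ) := by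
    intro a
    have h1 := congrArg φ (hpt a)
    rw [map_sum] at h1
    have e : ∀ y : A →+ ℤ, φ (l y * ((y a : ℤ) : ℂ)) = φ (l y) * ((y a : ℤ) : ℚ) := by
      intro y
      have e1 : l y * ((y a : ℤ) : ℂ) = ((y a : ℤ) : ℚ) • l y := by
        rw [Rat.smul_def]; push_cast; ring
      rw [e1, map_smul, smul_eq_mul, mul_comm]
    simp only [e] at h1
    rw [h1]
    have e2 : ((x a : ℤ) : ℂ) = (((x a : ℤ) : ℚ) : ℂ) := by push_cast; rfl
    rw [e2, hφ1]
  set d : ℕ := ∏ y ∈ l.support, (φ (l y)).den with hd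
  have hd0 : d ≠ 0 := Finset.prod_ne_zero_iff.mpr (fun y _ => (φ (l y)).den_nz)
  have hk : ∀ y ∈ l.support, ∃ k : ℤ, (k : ℚ) = d * φ (l y) := by
    intro y hy
    obtain ⟨c, hc⟩ := Finset.dvd_prod_of_mem (fun y => (φ (l y)).den) hy
    refine ⟨c * (φ (l y)).num, ?_⟩
    rw [← hd] at hc
    rw [hc]
    push_cast
    have h2 := Rat.mul_den_eq_num (φ (l y))
    linear_combination (-(c : ℚ)) * h2
  choose! k hk using hk
  refine ⟨d, by exact_mod_cast hd0, ?_⟩
  have hsum : (d : ℤ) • x = ∑ y ∈ l.support, k y • y := by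
    refine AddMonoidHom.ext fun a => ?_
    apply Int.cast_injective (α := ℚ)
    rw [AddMonoidHom.finsetSum_apply]
    simp only [AddMonoidHom.smul_apply, smul_eq_mul, Int.cast_mul, Int.cast_sum, Int.cast_natCast]
    rw [← hq a, Finset.mul_sum]
    refine Finset.sum_congr rfl fun y hy => ?_
    rw [hk y hy]; ring
  rw [hsum]
  refine AddSubgroup.sum_mem _ (fun y hy => AddSubgroup.zsmul_mem _ ?_ _)
  exact AddSubgroup.subset_closure ((Finsupp.mem_supported ℂ l).mp hl hy)

theorem finite_quot (L : Type*) [AddCommGroup L] [Module.Finite ℤ L] (p : ℕ) (hp : p ≠ 0) :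
    Finite (L ⧸ (zsmulAddGroupHom (p : ℤ) : L →+ L).range) := by
  set P : AddSubgroup L := (zsmulAddGroupHom (p : ℤ) : L →+ L).range with hP
  have hfin : Module.Finite ℤ (L ⧸ P) :=
    Module.Finite.of_surjective (QuotientAddGroup.mk' P).toIntLinearMap
      (QuotientAddGroup.mk'_surjective P)
  refine Module.finite_of_fg_torsion (L ⧸ P) ?_
  intro v
  refine ⟨⟨(p : ℤ), mem_nonZeroDivisors_of_ne_zero (by exact_mod_cast hp)⟩, ?_⟩
  obtain ⟨x, rfl⟩ := QuotientAddGroup.mk_surjective v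
  show (p : ℤ) • (QuotientAddGroup.mk x : L ⧸ P) = 0
  rw [← QuotientAddGroup.mk_zsmul]
  exact (QuotientAddGroup.eq_zero_iff _).mpr ⟨x, rfl⟩

theorem exists_orth {L : Type*} [AddCommGroup L] [Module.Finite ℤ L] (p : ℕ) (hp : p.Prime)
    (b : L →+ L →+ ℤ)
    (hnd : ∀ x, (∀ h, (p : ℤ) ∣ b x h) → ∃ y, x = (p : ℤ) • y)
    (H : AddSubgroup L) (hH : ∀ x, (p : ℤ) • x ∈ H) (hne : ∃ x, x ∉ H) :
    ∃ x, (¬ ∃ y, x = (p : ℤ) • y) ∧ ∀ h ∈ H, (p : ℤ) ∣ b x h := by
  classical
  haveI : Fact p.Prime := ⟨hp⟩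
  set P : AddSubgroup L := (zsmulAddGroupHom (p : ℤ) : L →+ L).range with hP
  have hmemP : ∀ x : L, x ∈ P ↔ ∃ y, x = (p : ℤ) • y := by
    intro x
    rw [hP, AddMonoidHom.mem_range]
    constructor
    · rintro ⟨y, hy⟩; exact ⟨y, hy.symm⟩
    · rintro ⟨y, hy⟩; exact ⟨y, hy.symm⟩
  have hPn : ∀ x : L, p • x ∈ P := fun x => (hmemP _).mpr ⟨x, (natCast_zsmul x p).symm⟩
  obtain ⟨inst⟩ : Nonempty (Module (ZMod p) (L ⧸ P)) := ⟨QuotientAddGroup.zmodModule hPn⟩
  haveI : Finite (L ⧸ P) := finite_quot L p hp.ne_zero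
  -- the functional attached to `x`
  have hφker : ∀ x : L, P ≤ ((Int.castAddHom (ZMod p)).comp (b x)).ker := by
    intro x z hz
    obtain ⟨y, rfl⟩ := (hmemP z).mp hz
    rw [AddMonoidHom.mem_ker, AddMonoidHom.comp_apply, map_zsmul, map_zsmul]
    simp
  let F : L → ((L ⧸ P) →ₗ[ZMod p] ZMod p) := fun x =>
    (QuotientAddGroup.lift P ((Int.castAddHom (ZMod p)).comp (b x)) (hφker x)).toZModLinearMap p
  have hF : ∀ x h : L, (F x) (QuotientAddGroup.mk h : L ⧸ P) = ((b x h : ℤ) : ZMod p) :=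
    fun x h => rfl
  have hFsub : ∀ x x', F (x - x') = F x - F x' := by
    intro x x'
    refine LinearMap.ext fun v => ?_
    obtain ⟨h, rfl⟩ := QuotientAddGroup.mk_surjective v
    rw [LinearMap.sub_apply, hF, hF, hF, map_sub, AddMonoidHom.sub_apply, Int.cast_sub]
  have hF0 : ∀ x, F x = 0 → x ∈ P := by
    intro x hx
    apply (hmemP x).mpr
    apply hnd
    intro h
    have h1 : F x (QuotientAddGroup.mk h) = 0 := by rw [hx, LinearMap.zero_apply]
    rw [hF] at h1
    exact (ZMod.intCast_zmod_eq_zero_iff_dvd _ _).mp h1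
  have hF0' : ∀ x, x ∈ P → F x = 0 := by
    intro x hx
    obtain ⟨y, rfl⟩ := (hmemP x).mp hx
    refine LinearMap.ext fun v => ?_
    obtain ⟨h, rfl⟩ := QuotientAddGroup.mk_surjective v
    rw [hF, LinearMap.zero_apply, map_zsmul, AddMonoidHom.smul_apply]
    simp
  -- surjectivity of `F` by counting
  let j : L ⧸ P → ((L ⧸ P) →ₗ[ZMod p] ZMod p) := fun v => F (Quotient.out v)
  have hjinj : Function.Injective j := by
    intro v v' hvv
    have h1 : F (Quotient.out v - Quotient.out v') = 0 := by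
      rw [hFsub]; exact sub_eq_zero.mpr hvv
    have h2 := hF0 _ h1
    have h3 : (QuotientAddGroup.mk (Quotient.out v) : L ⧸ P) = QuotientAddGroup.mk (Quotient.out v') := by
      rw [QuotientAddGroup.eq]
      have : -Quotient.out v + Quotient.out v' = -(Quotient.out v - Quotient.out v') := by abel
      rw [this]
      exact P.neg_mem h2
    have e1 : (QuotientAddGroup.mk (Quotient.out v) : L ⧸ P) = v := Quotient.out_eq v
    have e2 : (QuotientAddGroup.mk (Quotient.out v') : L ⧸ P) = v' := Quotient.out_eq v'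
    rw [e1, e2] at h3
    exact h3
  have hcard : Nat.card ((L ⧸ P) →ₗ[ZMod p] ZMod p) ≤ Nat.card (L ⧸ P) := by
    haveI : Module.Finite (ZMod p) (L ⧸ P) := Module.Finite.of_finite
    exact (Nat.card_congr (Module.finBasis (ZMod p) (L ⧸ P)).toDualEquiv.toEquiv).symm.le
  haveI : Finite ((L ⧸ P) →ₗ[ZMod p] ZMod p) := by
    haveI : Module.Finite (ZMod p) (L ⧸ P) := Module.Finite.of_finite
    exact Finite.of_equiv _ (Module.finBasis (ZMod p) (L ⧸ P)).toDualEquiv.toEquiv
  have hjsurj : Function.Surjective j := (hjinj.bijective_of_nat_card_le hcard).2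
  -- a functional vanishing on `H`
  set Wsub : Submodule (ZMod p) (L ⧸ P) :=
    AddSubgroup.toZModSubmodule p (H.map (QuotientAddGroup.mk' P)) with hW
  have hPH : P ≤ H := by
    intro z hz
    obtain ⟨y, rfl⟩ := (hmemP z).mp hz
    exact hH y
  have hWtop : Wsub < ⊤ := by
    rw [lt_top_iff_ne_top]
    intro htop
    obtain ⟨x, hx⟩ := hne
    have h1 : (QuotientAddGroup.mk x : L ⧸ P) ∈ Wsub := by rw [htop]; exact Submodule.mem_top
    rw [hW, AddSubgroup.mem_toZModSubmodule, AddSubgroup.mem_map] at h1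
    obtain ⟨h, hh, hhx⟩ := h1
    have h2 : -h + x ∈ P := QuotientAddGroup.eq.mp hhx
    have h3 : x = h + (-h + x) := by abel
    rw [h3] at hx
    exact hx (H.add_mem hh (hPH h2))
  obtain ⟨f, hf0, hfker⟩ := Submodule.exists_le_ker_of_lt_top Wsub hWtop
  obtain ⟨v, hv⟩ := hjsurj f
  refine ⟨Quotient.out v, ?_, ?_⟩
  · intro hy
    apply hf0
    rw [← hv]
    exact hF0' _ ((hmemP _).mpr hy)
  · intro h hh
    have h1 : (QuotientAddGroup.mk h : L ⧸ P) ∈ Wsub := by
      rw [hW, AddSubgroup.mem_toZModSubmodule]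
      exact AddSubgroup.mem_map_of_mem _ hh
    have h2 := hfker h1
    rw [LinearMap.mem_ker, ← hv] at h2
    have h3 : F (Quotient.out v) (QuotientAddGroup.mk h) = 0 := h2
    rw [hF] at h3
    exact (ZMod.intCast_zmod_eq_zero_iff_dvd _ _).mp h3

end Fermat.Agent.S41_EndAux
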