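import Mathlib

/-!
# S41, END block (lead): the abstract level-raising functional

`LN`, `LM` are the lattices of integral parabolic classes of levels `N` and `N q`.  With the two
degeneracy maps `r1 r2 : LN → LM`, the two transfers `c1 c2 : LM → LN`, the Atkin–Lehner
involution `W` and a proper subgroup `H ⊆ LN` (the kernel of reduction modulo the maximal ideal
of the Hecke algebra attached to the given eigenform) we show that
`z ↦ (c1 z + e c2 z) mod H` kills the saturation of the old lattice `r1 LN + r2 LN` and is not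
identically zero.
-/

set_option autoImplicit false

namespace Fermat.Agent.S41_EndLam

/-- the common data. -/
structure Core (LN LM : Type*) [AddCommGroup LN] [AddCommGroup LM] where
  p : ℕ
  q : ℤ
  r1 : LN →+ LM
  r2 : LN →+ LM
  c1 : LM →+ LN
  c2 : LM →+ LN
  Tq : LN →+ LN
  W : LM →+ LM
  H : AddSubgroup LN
  bN : LN →+ LN →+ ℤ
  bM : LM →+ LM →+ ℤ
  hp : p.Prime
  c1r1 : ∀ x, c1 (r1 x) = (q + 1) • x
  c2r2 : ∀ x, c2 (r2 x) = (q + 1) • x
  c1r2 : ∀ x, c1 (r2 x) = Tq x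
  c2r1 : ∀ x, c2 (r1 x) = Tq x
  Wr1 : ∀ x, W (r1 x) = r2 x
  Wr2 : ∀ x, W (r2 x) = r1 x
  Hp : ∀ x, (p : ℤ) • x ∈ H
  tfN : ∀ x : LN, (p : ℤ) • x = 0 → x = 0
  tfM : ∀ z : LM, (p : ℤ) • z = 0 → z = 0
  adj1 : ∀ x z, bM (r1 x) z = bN x (c1 z)
  adj2 : ∀ x z, bM (r2 x) z = bN x (c2 z)
  ndM : ∀ y, (∀ z, (p : ℤ) ∣ bM y z) → ∃ y', y = (p : ℤ) • y'
  dual : ∃ x, (¬ ∃ y, x = (p : ℤ) • y) ∧ ∀ h ∈ H, (p : ℤ) ∣ bN x h

variable {LN LM : Type*} [AddCommGroup LN] [AddCommGroup LM]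

/-- the extra data for the sign `e = 1` (`a_q ≡ -(q+1)`). -/
structure Plus (C : Core LN LM) : Prop where
  Hq : ∀ x, C.Tq x + (C.q + 1) • x ∈ C.H
  inj : ∀ (j : ℕ) (u : LN), (∃ z, C.r1 u + C.r2 u = ((C.p : ℤ) ^ j) • z) →
    ∃ u', u = ((C.p : ℤ) ^ j) • u'

/-- the extra data for the sign `e = -1` (`a_q ≡ q+1`). -/
structure Minus (C : Core LN LM) where
  τ : LN →+ LN
  τM : LM →+ LM
  Hq : ∀ x, C.Tq x - (C.q + 1) • x ∈ C.H
  r1τ : ∀ x, C.r1 (τ x) = τM (C.r1 x)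
  r2τ : ∀ x, C.r2 (τ x) = τM (C.r2 x)
  τTq : ∀ x, τ (C.Tq x) = C.Tq (τ x)
  Hτ : ∀ x, τ x ∈ C.H
  inj : ∀ u, (∃ z, C.r1 u - C.r2 u = (C.p : ℤ) • z) → (∃ y, τ u = (C.p : ℤ) • y) →
    ∃ u', u = (C.p : ℤ) • u'
  fin : Finite (LN ⧸ (zsmulAddGroupHom (C.p : ℤ) : LN →+ LN).range)
  sa : ∀ x h, C.bN (τ x) h = C.bN x (τ h)
  ndN : ∀ x, (∀ h, (C.p : ℤ) ∣ C.bN x h) → ∃ x', x = (C.p : ℤ) • x'

namespace Core

variable (C : Core LN LM)

theorem p_ne_zero : (C.p : ℤ) ≠ 0 := by exact_mod_cast C.hp.ne_zero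

theorem tfN_pow (j : ℕ) (x : LN) (h : ((C.p : ℤ) ^ j) • x = 0) : x = 0 := by
  induction j with
  | zero => simpa using h
  | succ j ih =>
    apply ih
    apply C.tfN
    rw [smul_smul, ← pow_succ']
    exact h

theorem tfM_pow (j : ℕ) (x : LM) (h : ((C.p : ℤ) ^ j) • x = 0) : x = 0 := by
  induction j with
  | zero => simpa using h
  | succ j ih =>
    apply ih
    apply C.tfM
    rw [smul_smul, ← pow_succ']
    exact h

/-! ### the sign `+` -/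

theorem key_plus (P : Plus C) (j : ℕ) (u w : LN)
    (hα : ∃ z, C.r1 u + C.r2 u = ((C.p : ℤ) ^ j) • z)
    (hw : ((C.p : ℤ) ^ j) • w = (C.q + 1) • u + C.Tq u) : w ∈ C.H := by
  obtain ⟨u', rfl⟩ := P.inj j u hα
  have h1 : w = (C.q + 1) • u' + C.Tq u' := by
    have h2 : ((C.p : ℤ) ^ j) • (w - ((C.q + 1) • u' + C.Tq u')) = 0 := by
      rw [smul_sub, hw, map_zsmul, smul_add, smul_comm]
      exact sub_self _
    exact sub_eq_zero.mp (C.tfN_pow j _ h2)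
  rw [h1, add_comm]
  exact P.Hq u'

theorem sat_pow_plus (P : Plus C) (j : ℕ) (z : LM) (x y : LN)
    (h : ((C.p : ℤ) ^ j) • z = C.r1 x + C.r2 y) : C.c1 z + C.c2 z ∈ C.H := by
  refine C.key_plus P j (x + y) (C.c1 z + C.c2 z) ⟨z + C.W z, ?_⟩ ?_
  · have hW : ((C.p : ℤ) ^ j) • C.W z = C.r2 x + C.r1 y := by
      rw [← map_zsmul, h, map_add, C.Wr1, C.Wr2]
    rw [smul_add, h, hW, map_add, map_add]
    abel
  · rw [smul_add, ← map_zsmul, ← map_zsmul, h, map_add, map_add, C.c1r1, C.c1r2, C.c2r1, C.c2r2,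
      map_add, smul_add]
    abel

/-! ### the sign `-` -/

section minus

variable (Mi : Minus C)
include Mi

theorem iter_r1 (n : ℕ) (x : LN) : C.r1 (Mi.τ^[n] x) = Mi.τM^[n] (C.r1 x) := by
  induction n generalizing x with
  | zero => rfl
  | succ n ih => rw [Function.iterate_succ_apply, Function.iterate_succ_apply, ih, Mi.r1τ]

theorem iter_r2 (n : ℕ) (x : LN) : C.r2 (Mi.τ^[n] x) = Mi.τM^[n] (C.r2 x) := by
  induction n generalizing x with
  | zero => rfl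
  | succ n ih => rw [Function.iterate_succ_apply, Function.iterate_succ_apply, ih, Mi.r2τ]

theorem iter_Tq (n : ℕ) (x : LN) : Mi.τ^[n] (C.Tq x) = C.Tq (Mi.τ^[n] x) := by
  induction n generalizing x with
  | zero => rfl
  | succ n ih => rw [Function.iterate_succ_apply, Function.iterate_succ_apply, Mi.τTq, ih]

theorem iter_mem (n : ℕ) (hn : 0 < n) (x : LN) : Mi.τ^[n] x ∈ C.H := by
  obtain ⟨m, rfl⟩ := Nat.exists_eq_succ_of_ne_zero hn.ne'
  rw [Function.iterate_succ_apply']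
  exact Mi.Hτ _

/-- the subgroup `K` is stable under `τ`. -/
theorem K_stable (u : LN) (h : ∃ z, C.r1 u - C.r2 u = (C.p : ℤ) • z) :
    ∃ z, C.r1 (Mi.τ u) - C.r2 (Mi.τ u) = (C.p : ℤ) • z := by
  obtain ⟨z, hz⟩ := h
  exact ⟨Mi.τM z, by rw [Mi.r1τ, Mi.r2τ, ← map_sub, hz, map_zsmul]⟩

theorem K_iter (n : ℕ) (u : LN) (h : ∃ z, C.r1 u - C.r2 u = (C.p : ℤ) • z) :
    ∃ z, C.r1 (Mi.τ^[n] u) - C.r2 (Mi.τ^[n] u) = (C.p : ℤ) • z := by
  induction n generalizing u with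
  | zero => exact h
  | succ n ih =>
    rw [Function.iterate_succ_apply]
    exact ih _ (C.K_stable Mi u h)

theorem descend (a : ℕ) (y : LN) (hK : ∃ z, C.r1 y - C.r2 y = (C.p : ℤ) • z)
    (h : ∃ y', Mi.τ^[a] y = (C.p : ℤ) • y') : ∃ y', y = (C.p : ℤ) • y' := by
  induction a generalizing y with
  | zero => exact h
  | succ a ih =>
    rw [Function.iterate_succ_apply] at h
    exact Mi.inj y hK (ih (Mi.τ y) (C.K_stable Mi y hK) h)

/-- a power of `τ` is the identity on `K` modulo `p`. -/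
theorem eta : ∃ n : ℕ, 0 < n ∧ ∀ u : LN, (∃ z, C.r1 u - C.r2 u = (C.p : ℤ) • z) →
    ∃ u', Mi.τ^[n] u - u = (C.p : ℤ) • u' := by
  classical
  set P : AddSubgroup LN := (zsmulAddGroupHom (C.p : ℤ) : LN →+ LN).range with hP
  have hmemP : ∀ x : LN, x ∈ P ↔ ∃ y, x = (C.p : ℤ) • y := by
    intro x
    rw [hP, AddMonoidHom.mem_range]
    constructor
    · rintro ⟨y, hy⟩; exact ⟨y, hy.symm⟩
    · rintro ⟨y, hy⟩; exact ⟨y, hy.symm⟩
  have : Finite (LN ⧸ P) := Mi.fin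
  have hle : P ≤ P.comap Mi.τ := by
    intro x hx
    obtain ⟨y, rfl⟩ := (hmemP x).mp hx
    exact (hmemP _).mpr ⟨Mi.τ y, map_zsmul _ _ _⟩
  let τb : LN ⧸ P →+ LN ⧸ P := QuotientAddGroup.map P P Mi.τ hle
  have hτb : ∀ (k : ℕ) (x : LN), (⇑τb)^[k] (QuotientAddGroup.mk x) = QuotientAddGroup.mk (Mi.τ^[k] x) := by
    intro k
    induction k with
    | zero => intro x; rfl
    | succ k ih =>
      intro x
      rw [Function.iterate_succ_apply, Function.iterate_succ_apply]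
      have : τb (QuotientAddGroup.mk x) = QuotientAddGroup.mk (Mi.τ x) := rfl
      rw [this, ih]
  obtain ⟨a, b, hab, hfab⟩ :=
    Finite.exists_ne_map_eq_of_infinite (fun k : ℕ => ((⇑τb)^[k] : LN ⧸ P → LN ⧸ P))
  -- WLOG a < b
  have main : ∀ a b : ℕ, a < b → ((⇑τb)^[a] : LN ⧸ P → LN ⧸ P) = (⇑τb)^[b] →
      ∃ n : ℕ, 0 < n ∧ ∀ u : LN, (∃ z, C.r1 u - C.r2 u = (C.p : ℤ) • z) →
        ∃ u', Mi.τ^[n] u - u = (C.p : ℤ) • u' := by
    intro a b hlt heq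
    refine ⟨b - a, Nat.sub_pos_of_lt hlt, fun u hu => ?_⟩
    have h1 := congrFun heq (QuotientAddGroup.mk u)
    rw [hτb, hτb] at h1
    have h2 : -(Mi.τ^[a] u) + Mi.τ^[b] u ∈ P := QuotientAddGroup.eq.mp h1
    have hb : b = a + (b - a) := by omega
    have h3 : Mi.τ^[b] u = Mi.τ^[a] (Mi.τ^[b - a] u) := by
      conv_lhs => rw [hb]
      rw [Function.iterate_add_apply]
    have h4 : Mi.τ^[a] (Mi.τ^[b - a] u - u) ∈ P := by
      rw [iterate_map_sub, ← h3]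
      have : Mi.τ^[b] u - Mi.τ^[a] u = -(Mi.τ^[a] u) + Mi.τ^[b] u := by abel
      rw [this]; exact h2
    refine C.descend Mi a _ ?_ ((hmemP _).mp h4)
    obtain ⟨z1, hz1⟩ := C.K_iter Mi (b - a) u hu
    obtain ⟨z2, hz2⟩ := hu
    exact ⟨z1 - z2, by rw [map_sub, map_sub, smul_sub, ← hz1, ← hz2]; abel⟩
  rcases Nat.lt_or_gt_of_ne hab with h | h
  · exact main a b h hfab
  · exact main b a h hfab.symm

theorem key_minus : ∀ (j : ℕ) (u w : LN), (∃ z, C.r1 u - C.r2 u = ((C.p : ℤ) ^ j) • z) →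
    ((C.p : ℤ) ^ j) • w = (C.q + 1) • u - C.Tq u → w ∈ C.H := by
  obtain ⟨n, hn, hη⟩ := C.eta Mi
  intro j
  induction j with
  | zero =>
    intro u w _ hw
    rw [pow_zero, one_smul] at hw
    rw [hw]
    have := C.H.neg_mem (Mi.Hq u)
    rwa [neg_sub] at this
  | succ j ih =>
    intro u w hα hw
    obtain ⟨z0, hz0⟩ := hα
    obtain ⟨u', hu'⟩ := hη u ⟨((C.p : ℤ) ^ j) • z0, by rw [hz0, smul_smul, ← pow_succ']⟩
    -- (i)
    have hi : C.r1 u' - C.r2 u' = ((C.p : ℤ) ^ j) • (Mi.τM^[n] z0 - z0) := by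
      have h1 : (C.p : ℤ) • (C.r1 u' - C.r2 u' - ((C.p : ℤ) ^ j) • (Mi.τM^[n] z0 - z0)) = 0 := by
        rw [smul_sub, smul_sub, ← map_zsmul, ← map_zsmul, ← hu', map_sub, map_sub,
          C.iter_r1 Mi, C.iter_r2 Mi, smul_smul, ← pow_succ', smul_sub,
          ← iterate_map_zsmul, ← hz0, iterate_map_sub]
        abel
      exact sub_eq_zero.mp (C.tfM _ h1)
    -- (ii)
    have hii : ((C.p : ℤ) ^ j) • (Mi.τ^[n] w - w) = (C.q + 1) • u' - C.Tq u' := by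
      have h1 : (C.p : ℤ) • (((C.p : ℤ) ^ j) • (Mi.τ^[n] w - w) - ((C.q + 1) • u' - C.Tq u')) = 0 := by
        rw [smul_sub, smul_smul, ← pow_succ', smul_sub (C.p : ℤ), ← map_zsmul C.Tq, smul_comm,
          ← hu', smul_sub, ← iterate_map_zsmul, hw, iterate_map_sub,
          iterate_map_zsmul, C.iter_Tq Mi, map_sub, smul_sub]
        abel
      exact sub_eq_zero.mp (C.tfN _ h1)
    have h3 := ih u' (Mi.τ^[n] w - w) ⟨_, hi⟩ hii
    have h4 := C.H.sub_mem (C.iter_mem Mi n hn w) h3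
    rwa [sub_sub_cancel] at h4

theorem sat_pow_minus (j : ℕ) (z : LM) (x y : LN)
    (h : ((C.p : ℤ) ^ j) • z = C.r1 x + C.r2 y) : C.c1 z - C.c2 z ∈ C.H := by
  refine C.key_minus Mi j (x - y) (C.c1 z - C.c2 z) ⟨z - C.W z, ?_⟩ ?_
  · have hW : ((C.p : ℤ) ^ j) • C.W z = C.r2 x + C.r1 y := by
      rw [← map_zsmul, h, map_add, C.Wr1, C.Wr2]
    rw [smul_sub, h, hW, map_sub, map_sub]
    abel
  · rw [smul_sub, ← map_zsmul, ← map_zsmul, h, map_add, map_add, C.c1r1, C.c1r2, C.c2r1, C.c2r2,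
      map_sub, smul_sub]
    abel

end minus

/-! ### saturation -/

theorem sat_general (β : LM →+ LN) (hβ : ∀ (j : ℕ) (z : LM) (x y : LN),
      ((C.p : ℤ) ^ j) • z = C.r1 x + C.r2 y → β z ∈ C.H)
    (z : LM) (m : ℤ) (hm : m ≠ 0) (x y : LN) (h : m • z = C.r1 x + C.r2 y) : β z ∈ C.H := by
  have hpp : Prime (C.p : ℤ) := Nat.prime_iff_prime_int.mp C.hp
  have hfin : FiniteMultiplicity (C.p : ℤ) m :=
    Int.finiteMultiplicity_iff.mpr ⟨by
      rw [Int.natAbs_natCast]; exact C.hp.one_lt.ne', hm⟩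
  obtain ⟨m', hm', hnd⟩ := hfin.exists_eq_pow_mul_and_not_dvd
  set j := multiplicity (C.p : ℤ) m
  have h1 : β (m' • z) ∈ C.H := by
    apply hβ j (m' • z) x y
    rw [smul_smul, ← hm']
    exact h
  rw [map_zsmul] at h1
  have hcop : IsCoprime (C.p : ℤ) m' := (Irreducible.coprime_iff_not_dvd hpp.irreducible).mpr hnd
  obtain ⟨a, b, hab⟩ := hcop
  have h2 : β z = a • ((C.p : ℤ) • β z) + b • (m' • β z) := by
    rw [smul_smul, smul_smul, ← add_smul, hab, one_smul]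
  rw [h2]
  exact C.H.add_mem (C.H.zsmul_mem (C.Hp _) a) (C.H.zsmul_mem h1 b)

/-- the functional for the sign `+` kills the saturation of the old lattice. -/
theorem beta_plus_mem (P : Plus C) (z : LM) (m : ℤ) (hm : m ≠ 0) (x y : LN)
    (h : m • z = C.r1 x + C.r2 y) : C.c1 z + C.c2 z ∈ C.H :=
  C.sat_general (C.c1 + C.c2) (fun j z x y h => C.sat_pow_plus P j z x y h) z m hm x y h

/-- the functional for the sign `-` kills the saturation of the old lattice. -/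
theorem beta_minus_mem (Mi : Minus C) (z : LM) (m : ℤ) (hm : m ≠ 0) (x y : LN)
    (h : m • z = C.r1 x + C.r2 y) : C.c1 z - C.c2 z ∈ C.H :=
  C.sat_general (C.c1 - C.c2) (fun j z x y h => C.sat_pow_minus Mi j z x y h) z m hm x y h

/-! ### non-vanishing -/

theorem exists_plus_not_mem (P : Plus C) : ∃ z, C.c1 z + C.c2 z ∉ C.H := by
  by_contra hall
  push Not at hall
  obtain ⟨x, hx, hxH⟩ := C.dual
  have h1 : ∀ z, (C.p : ℤ) ∣ C.bM (C.r1 x + C.r2 x) z := by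
    intro z
    rw [map_add, AddMonoidHom.add_apply, C.adj1, C.adj2, ← map_add]
    exact hxH _ (hall z)
  obtain ⟨y', hy'⟩ := C.ndM _ h1
  obtain ⟨u', hu'⟩ := P.inj 1 x ⟨y', by rw [pow_one]; exact hy'⟩
  exact hx ⟨u', by rw [hu', pow_one]⟩

theorem exists_minus_not_mem (Mi : Minus C) : ∃ z, C.c1 z - C.c2 z ∉ C.H := by
  by_contra hall
  push Not at hall
  obtain ⟨x, hx, hxH⟩ := C.dual
  have h1 : ∀ z, (C.p : ℤ) ∣ C.bM (C.r1 x - C.r2 x) z := by
    intro z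
    rw [map_sub, AddMonoidHom.sub_apply, C.adj1, C.adj2, ← map_sub]
    exact hxH _ (hall z)
  obtain ⟨y', hy'⟩ := C.ndM _ h1
  have h2 : ∃ y, Mi.τ x = (C.p : ℤ) • y := by
    apply Mi.ndN
    intro h
    rw [Mi.sa]
    exact hxH _ (Mi.Hτ h)
  exact hx (Mi.inj x ⟨y', hy'⟩ h2)

end Core

end Fermat.Agent.S41_EndLam
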