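import Fermat.Agent.S41_ChebG
import Fermat.Agent.S54_Frob

/-!
# S41_Cheb (helper6): Chebotarev-lite in the absolute Galois group

`cheb`: for a finite normal `M ⊆ ℚ̄` and `σ ∈ Gal(ℚ̄/ℚ)` whose restriction to `M` has order
dividing `r ^ a * l ^ b` (`r ≠ l` primes), there are a prime `D` outside any finite set, a
valuation subring `A` of `ℚ̄` over `D` and a Frobenius `φ` at `A` with `φ = σ ^ k` on `M`,
`k` prime to `r * l`.
-/

set_option autoImplicit false

noncomputable section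

open NumberField IsDedekindDomain Fermat.Agent.S14_Defs
open scoped Pointwise

namespace Fermat.Agent.S41_Cheb

open Fermat.Agent.S54_Frob

attribute [local instance] Fermat.Agent.S54_Frob.galActInt

/-- A Frobenius element at a GIVEN valuation subring over `ℓ` (the proof of
`S54_Frob.exists_frobenius_gen`), together with its congruence property on algebraic
integers. -/
theorem exists_frobenius_of (L : Type) [Field L] [Algebra ℚ L] [IsAlgClosed L]
    [Algebra.IsAlgebraic ℚ L] [IsGalois ℚ L] (ℓ : ℕ) (hℓ : ℓ.Prime)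
    (A : ValuationSubring L) (hA : A.LiesOverPrime ℓ) :
    ∃ σ : L ≃ₐ[ℚ] L, A.IsFrobeniusAt σ ℓ ∧
      ∀ b : L, IsIntegral ℤ b → σ b - b ^ ℓ ∈ A.nonunits := by
  haveI : CharZero L := algebraRat.charZero L
  haveI hprime : (centre A).IsPrime := centre_isPrime A
  haveI hover : (centre A).LiesOver (Ideal.span {(ℓ : ℤ)}) := centre_liesOver A hℓ hA
  obtain ⟨e, he⟩ := exists_frobenius_algEquiv (centre A) hℓ
  letI : TopologicalSpace (integralClosure ℤ L) := ⊥
  haveI : DiscreteTopology (integralClosure ℤ L) := ⟨rfl⟩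
  haveI := galActInt_smulComm L
  haveI := galActInt_isInvariant L
  haveI : ContinuousSMul (L ≃ₐ[ℚ] L) (integralClosure ℤ L) := galActInt_continuousSMul L
  obtain ⟨⟨σ, hσQ⟩, hσ⟩ := Ideal.Quotient.stabilizerHom_surjective_of_profinite
    (G := L ≃ₐ[ℚ] L) (Ideal.span {(ℓ : ℤ)}) (centre A) e
  have key : ∀ b : L, IsIntegral ℤ b → σ b - b ^ ℓ ∈ A.nonunits := by
    intro b hb
    have h1 := congrArg (fun f => f (Ideal.Quotient.mk (centre A) ⟨b, hb⟩)) hσ
    simp only [Ideal.Quotient.stabilizerHom_apply] at h1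
    rw [he, Ideal.Quotient.eq] at h1
    exact (mem_centre A _).mp h1
  have hstab : ∀ b : L, IsIntegral ℤ b → (σ b ∈ A.nonunits ↔ b ∈ A.nonunits) := by
    intro b hb
    have h1 : σ • centre A = centre A := hσQ
    constructor
    · intro h
      have h2 : (σ • (⟨b, hb⟩ : integralClosure ℤ L)) ∈ σ • centre A := by
        rw [h1]; exact (mem_centre A _).mpr h
      rw [Ideal.smul_mem_pointwise_smul_iff] at h2
      exact (mem_centre A _).mp h2
    · intro h
      have h2 : (σ • (⟨b, hb⟩ : integralClosure ℤ L)) ∈ σ • centre A :=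
        Ideal.smul_mem_pointwise_smul _ _ _ ((mem_centre A _).mpr h)
      rw [h1] at h2
      exact (mem_centre A _).mp h2
  have halg : ∀ x : L, IsAlgebraic ℤ x := fun x =>
    (IsFractionRing.isAlgebraic_iff ℤ ℚ L).mpr (Algebra.IsAlgebraic.isAlgebraic x)
  have hσA : ∀ x ∈ A, σ x ∈ A := by
    intro x hx
    obtain ⟨s, hs, hsn, hxs⟩ := exists_denominator A hℓ hA hx (halg x)
    have h1 : σ s ∉ A.nonunits := fun h => hsn ((hstab s hs).mp h)
    obtain ⟨h2, h3⟩ := inv_mem_of_notMem_nonunits A h1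
    have h4 : σ x = σ (x * s) * (σ s)⁻¹ := by rw [map_mul]; field_simp
    rw [h4]
    exact A.mul_mem _ _ (mem_of_isIntegral_int A (hxs.map σ)) h3
  have hσA' : ∀ x ∈ A, σ.symm x ∈ A := by
    intro x hx
    obtain ⟨s, hs, hsn, hxs⟩ := exists_denominator A hℓ hA hx (halg x)
    have hs' : IsIntegral ℤ (σ.symm s) := hs.map σ.symm
    have h1 : σ.symm s ∉ A.nonunits := fun h => hsn (by
      have := (hstab _ hs').mpr h
      simpa using this)
    obtain ⟨h2, h3⟩ := inv_mem_of_notMem_nonunits A h1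
    have h4 : σ.symm x = σ.symm (x * s) * (σ.symm s)⁻¹ := by rw [map_mul]; field_simp
    rw [h4]
    exact A.mul_mem _ _ (mem_of_isIntegral_int A (hxs.map σ.symm)) h3
  have hdec : σ ∈ A.decompositionSubgroup ℚ := by
    rw [MulAction.mem_stabilizer_iff]
    ext x
    rw [ValuationSubring.mem_pointwise_smul_iff_inv_smul_mem]
    constructor
    · intro h
      have := hσA _ h
      simpa using this
    · intro h
      exact hσA' x h
  refine ⟨σ, ⟨hdec, ?_⟩, key⟩
  intro y
  obtain ⟨a, rfl⟩ := IsLocalRing.residue_surjective y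
  rw [← IsLocalRing.ResidueField.residue_smul, ← map_pow]
  rw [← sub_eq_zero, ← map_sub, IsLocalRing.residue_eq_zero_iff,
    ← ValuationSubring.coe_mem_nonunits_iff]
  show σ (a : L) - (a : L) ^ ℓ ∈ A.nonunits
  obtain ⟨s, hs, hsn, hxs⟩ := exists_denominator A hℓ hA a.2 (halg a)
  have h1 : σ s ∉ A.nonunits := fun h => hsn ((hstab s hs).mp h)
  obtain ⟨h2, h3⟩ := inv_mem_of_notMem_nonunits A h1
  have h4 : σ (a : L) - (a : L) ^ ℓ =
      (σ s)⁻¹ * ((σ ((a : L) * s) - ((a : L) * s) ^ ℓ) - (a : L) ^ ℓ * (σ s - s ^ ℓ)) := by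
    rw [map_mul]; field_simp; ring
  rw [h4]
  exact mul_mem_nonunits A h3
    (sub_mem (key _ hxs) (mul_mem_nonunits A (A.pow_mem a.2 ℓ) (key s hs)))

/-- **Chebotarev-lite** (cyclic subgroups whose order has at most two prime factors). -/
theorem cheb (M : IntermediateField ℚ (AlgebraicClosure ℚ)) [FiniteDimensional ℚ M]
    [Normal ℚ M] (σ : AlgebraicClosure ℚ ≃ₐ[ℚ] AlgebraicClosure ℚ) {r l : ℕ} (hr : r.Prime)
    (hl : l.Prime) (hrl : r ≠ l) (a b : ℕ)
    (hord : ∀ x ∈ M, (σ ^ (r ^ a * l ^ b)) x = x) (S : Finset ℕ) :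
    ∃ (D : ℕ) (A : ValuationSubring (AlgebraicClosure ℚ))
      (φ : AlgebraicClosure ℚ ≃ₐ[ℚ] AlgebraicClosure ℚ) (k : ℕ),
      D.Prime ∧ D ∉ S ∧ A.LiesOverPrime D ∧ A.IsFrobeniusAt φ D ∧ k.Coprime (r * l) ∧
        ∀ x ∈ M, φ x = (σ ^ k) x := by
  haveI : NumberField ↥M := ⟨⟩
  haveI : IsGalois ℚ ↥M := ⟨⟩
  classical
  haveI := Fermat.Agent.S54_Frob.isAlgebraicQbar
  haveI := Fermat.Agent.S54_Frob.isAlgClosureQbar
  set res := AlgEquiv.restrictNormalHom (F := ℚ) (K₁ := AlgebraicClosure ℚ) ↥M with hres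
  have hres_apply : ∀ (τ : AlgebraicClosure ℚ ≃ₐ[ℚ] AlgebraicClosure ℚ) (x : ↥M),
      ((res τ x : ↥M) : AlgebraicClosure ℚ) = τ (x : AlgebraicClosure ℚ) :=
    fun τ x => AlgEquiv.restrictNormal_commutes τ ↥M x
  have hord' : res σ ^ (r ^ a * l ^ b) = 1 := by
    rw [← map_pow]
    ext x
    rw [hres_apply, AlgEquiv.one_apply]
    exact hord x x.2
  obtain ⟨D, Q, k, hD, hDS, hQp, hDQ, hk, hfrob, hunr⟩ :=
    S41_ChebG.exists_frob_gen ↥M (res σ) hr hl hrl a b hord' S
  -- the embedding of the integers of `M`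
  let f : 𝓞 ↥M →+* AlgebraicClosure ℚ :=
    (algebraMap ↥M (AlgebraicClosure ℚ)).comp (algebraMap (𝓞 ↥M) ↥M)
  have hf_inj : Function.Injective f :=
    (algebraMap ↥M (AlgebraicClosure ℚ)).injective.comp RingOfIntegers.coe_injective
  have hf_int : ∀ x, IsIntegral ℤ (f x) := fun x =>
    (RingOfIntegers.isIntegral_coe x).algebraMap
  -- a valuation subring centred on `Q`
  have hI : Ideal.map f.rangeRestrict Q ≠ ⊤ := by
    intro h
    have h1 : (1 : f.range) ∈ Ideal.map f.rangeRestrict Q := by rw [h]; trivial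
    rw [Ideal.mem_map_iff_of_surjective f.rangeRestrict f.rangeRestrict_surjective] at h1
    obtain ⟨x, hx, hx1⟩ := h1
    have h2 : f x = 1 := congrArg Subtype.val hx1
    have h3 : x = 1 := hf_inj (by rw [h2, map_one])
    rw [h3] at hx
    exact hQp.ne_top ((Ideal.eq_top_iff_one Q).mpr hx)
  obtain ⟨A, -, hA⟩ := Ideal.image_subset_nonunits_valuationSubring _ hI
  have hQA : ∀ x ∈ Q, f x ∈ A.nonunits := fun x hx =>
    hA ⟨f.rangeRestrict x, Ideal.mem_map_of_mem _ hx, rfl⟩
  have hAD : A.LiesOverPrime D := by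
    have := hQA _ hDQ
    rwa [map_natCast] at this
  obtain ⟨φ, hφ, hkey⟩ := exists_frobenius_of (AlgebraicClosure ℚ) D hD A hAD
  -- the centre of `A` on `𝓞 M` is `Q`
  let g : 𝓞 ↥M →+* integralClosure ℤ (AlgebraicClosure ℚ) :=
    f.codRestrict (integralClosure ℤ (AlgebraicClosure ℚ)) hf_int
  have hQ0 : Q ≠ ⊥ := by
    intro h
    rw [h, Ideal.mem_bot] at hDQ
    exact hD.ne_zero (by exact_mod_cast hDQ)
  have hQmax : Q.IsMaximal := Ring.DimensionLEOne.maximalOfPrime hQ0 hQp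
  haveI hcp : (centre A).IsPrime := centre_isPrime A
  have hJ : Q = Ideal.comap g (centre A) := by
    refine hQmax.eq_of_le ?_ ?_
    · exact (Ideal.comap_isPrime g (centre A)).ne_top
    · intro x hx
      rw [Ideal.mem_comap, mem_centre]
      exact hQA x hx
  have hmemQ : ∀ y : 𝓞 ↥M, f y ∈ A.nonunits → y ∈ Q := by
    intro y hy
    rw [hJ, Ideal.mem_comap, mem_centre]
    exact hy
  -- compare the restriction of `φ` with `σ ^ k`
  have heq : res φ = res σ ^ k := by
    refine S14_Frob.eq_of_forall_sub_mem hunr (fun x => ?_)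
    have h1 : res φ • x - x ^ D ∈ Q := by
      apply hmemQ
      have h2 : f (res φ • x - x ^ D) = φ (f x) - (f x) ^ D := by
        rw [map_sub, map_pow]
        congr 1
        exact hres_apply φ (x : ↥M)
      rw [h2]
      exact hkey _ (hf_int x)
    have h3 := Q.sub_mem h1 (hfrob x)
    rwa [sub_sub_sub_cancel_right] at h3
  refine ⟨D, A, φ, k, hD, hDS, hAD, hφ, hk, fun x hx => ?_⟩
  have h1 := hres_apply φ ⟨x, hx⟩
  rw [heq, ← map_pow, hres_apply] at h1
  exact h1.symm

end Fermat.Agent.S41_Cheb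

end
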