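import Mathlib

/-!
# Block GT for S41: an irreducible subgroup of `GL₂(𝔽_p)` contains an element of prime power
order without nonzero fixed vector.
-/

set_option autoImplicit false

open Matrix

namespace Fermat.Agent.S41_GT

section Mat

variable {K : Type*} [Field K]

/-- Two vectors of `K²`, the second not a multiple of the first (which is nonzero), have nonzero
determinant. -/
theorem indep_det {v w : Fin 2 → K} (hv : v ≠ 0) (hw : ∀ c : K, w ≠ c • v) :
    v 0 * w 1 - v 1 * w 0 ≠ 0 := by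
  intro h
  by_cases h0 : v 0 = 0
  · have h1 : v 1 ≠ 0 := by
      intro h1
      apply hv
      funext i
      fin_cases i
      · exact h0
      · exact h1
    apply hw (w 1 / v 1)
    funext i
    fin_cases i
    · simp only [Fin.zero_eta, Pi.smul_apply, smul_eq_mul, h0, mul_zero]
      rw [h0, zero_mul, zero_sub, neg_eq_zero] at h
      exact (mul_eq_zero.mp h).resolve_left h1
    · simp only [Fin.mk_one, Pi.smul_apply, smul_eq_mul]
      field_simp
  · apply hw (w 0 / v 0)
    funext i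
    fin_cases i
    · simp only [Fin.zero_eta, Pi.smul_apply, smul_eq_mul]
      field_simp
    · simp only [Fin.mk_one, Pi.smul_apply, smul_eq_mul]
      field_simp
      linear_combination h

/-- A `2 × 2` matrix killing two independent vectors is zero. -/
theorem eq_zero_of_mulVec {M : Matrix (Fin 2) (Fin 2) K} {v w : Fin 2 → K}
    (hv : M *ᵥ v = 0) (hw : M *ᵥ w = 0) (hd : v 0 * w 1 - v 1 * w 0 ≠ 0) : M = 0 := by
  have hv' : ∀ i, M i 0 * v 0 + M i 1 * v 1 = 0 := fun i => by
    have := congrFun hv i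
    simpa [Matrix.mulVec, dotProduct, Fin.sum_univ_two] using this
  have hw' : ∀ i, M i 0 * w 0 + M i 1 * w 1 = 0 := fun i => by
    have := congrFun hw i
    simpa [Matrix.mulVec, dotProduct, Fin.sum_univ_two] using this
  ext i j
  have h0 : M i 0 * (v 0 * w 1 - v 1 * w 0) = 0 := by
    linear_combination w 1 * hv' i - v 1 * hw' i
  have h1 : M i 1 * (v 0 * w 1 - v 1 * w 0) = 0 := by
    linear_combination v 0 * hw' i - w 0 * hv' i
  fin_cases j
  · exact (mul_eq_zero.mp h0).resolve_right hd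
  · exact (mul_eq_zero.mp h1).resolve_right hd

/-- A `2 × 2` matrix of determinant one with a nonzero fixed vector is unipotent. -/
theorem sq_zero_of_fixed {g : Matrix (Fin 2) (Fin 2) K} (hdet : g.det = 1) {v : Fin 2 → K}
    (hv : v ≠ 0) (hg : g *ᵥ v = v) : (g - 1) * (g - 1) = 0 := by
  have hker : (g - 1).det = 0 := by
    rw [← Matrix.exists_mulVec_eq_zero_iff]
    refine ⟨v, hv, ?_⟩
    rw [Matrix.sub_mulVec, hg, Matrix.one_mulVec, sub_self]
  rw [Matrix.det_fin_two] at hdet hker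
  simp only [Matrix.sub_apply, Matrix.one_apply_eq, Matrix.one_apply_ne, ne_eq, zero_ne_one,
    one_ne_zero, not_false_eq_true, sub_zero, Fin.isValue] at hker
  have htr : g 0 0 + g 1 1 = 2 := by linear_combination hdet - hker
  ext i j
  fin_cases i <;> fin_cases j
  · simp [Matrix.mul_apply, Fin.sum_univ_two]
    linear_combination g 0 0 * htr - hdet
  · simp [Matrix.mul_apply, Fin.sum_univ_two]
    linear_combination g 0 1 * htr
  · simp [Matrix.mul_apply, Fin.sum_univ_two]
    linear_combination g 1 0 * htr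
  · simp [Matrix.mul_apply, Fin.sum_univ_two]
    linear_combination g 1 1 * htr - hdet

/-- Powers of a unipotent matrix. -/
theorem one_add_pow_of_sq_zero {N : Matrix (Fin 2) (Fin 2) K} (h : N * N = 0) (n : ℕ) :
    (1 + N) ^ n = 1 + (n : K) • N := by
  induction n with
  | zero => simp
  | succ n ih =>
    rw [pow_succ, ih, add_mul, mul_add, mul_add, one_mul, mul_one, one_mul, Matrix.smul_mul, h,
      smul_zero, add_zero, Nat.cast_succ, add_smul, one_smul]
    abel

theorem pow_of_sq_zero {g : Matrix (Fin 2) (Fin 2) K} (h : (g - 1) * (g - 1) = 0) (n : ℕ) :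
    g ^ n = 1 + (n : K) • (g - 1) := by
  have hg : g = 1 + (g - 1) := by abel
  conv_lhs => rw [hg]
  exact one_add_pow_of_sq_zero h n

/-- A unipotent matrix of order prime to the characteristic is trivial. -/
theorem eq_one_of_sq_zero_of_pow {g : Matrix (Fin 2) (Fin 2) K} (h : (g - 1) * (g - 1) = 0)
    {n : ℕ} (hn : (n : K) ≠ 0) (hpow : g ^ n = 1) : g = 1 := by
  rw [pow_of_sq_zero h n] at hpow
  have h1 : (n : K) • (g - 1) = 0 := by
    have := hpow
    rw [add_eq_left] at this
    exact this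
  rcases smul_eq_zero.mp h1 with h2 | h2
  · exact absurd h2 hn
  · exact sub_eq_zero.mp h2

end Mat

section Grp

variable {p : ℕ} [Fact p.Prime]

local notation "M2" => Matrix (Fin 2) (Fin 2) (ZMod p)

/-- `∏ (X - a) = X ^ p - X` over `𝔽_p`. -/
theorem prod_X_sub_C_zmod :
    ∏ a : ZMod p, (Polynomial.X - Polynomial.C a) =
      (Polynomial.X ^ p - Polynomial.X : Polynomial (ZMod p)) := by
  have hp1 : 1 < p := (Fact.out : p.Prime).one_lt
  have hroots := FiniteField.roots_X_pow_card_sub_X (ZMod p)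
  rw [ZMod.card] at hroots
  have hmonic : (Polynomial.X ^ p - Polynomial.X : Polynomial (ZMod p)).Monic :=
    Polynomial.monic_X_pow_sub (by rw [Polynomial.degree_X]; exact_mod_cast hp1)
  have hdeg : (Polynomial.X ^ p - Polynomial.X : Polynomial (ZMod p)).natDegree = p :=
    FiniteField.X_pow_card_sub_X_natDegree_eq (ZMod p) hp1
  have h := Polynomial.prod_multiset_X_sub_C_of_monic_of_roots_card_eq hmonic
    (by rw [hroots, hdeg]; simp [ZMod.card])
  rw [hroots] at h
  exact h

/-- `∏ (g - a) = g ^ p - g` for a matrix over `𝔽_p` (as a list product). -/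
theorem list_prod_sub_smul_eq (g : M2) :
    ((Finset.univ : Finset (ZMod p)).toList.map fun a => g - a • (1 : M2)).prod = g ^ p - g := by
  have h := congrArg (Polynomial.aeval g) (prod_X_sub_C_zmod (p := p))
  rw [← Finset.prod_map_toList Finset.univ (fun a : ZMod p => Polynomial.X - Polynomial.C a),
    map_list_prod, List.map_map] at h
  have h2 : (⇑(Polynomial.aeval g) ∘ fun a : ZMod p => (Polynomial.X - Polynomial.C a)) =
      fun a : ZMod p => g - a • (1 : M2) := by
    funext a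
    simp [Algebra.algebraMap_eq_smul_one]
  rw [h2] at h
  rw [h]
  simp

/-- A matrix over `𝔽_p` with `g ^ p = g` has an eigenvector with eigenvalue in `𝔽_p`. -/
theorem exists_eigenvector (g : M2) (hg : g ^ p = g) :
    ∃ (a : ZMod p) (v : Fin 2 → ZMod p), v ≠ 0 ∧ (g - a • (1 : M2)) *ᵥ v = 0 := by
  have h := list_prod_sub_smul_eq g
  rw [hg, sub_self] at h
  have hdet := congrArg Matrix.det h
  have hz : (0 : M2).det = 0 := by simp
  rw [hz, ← Matrix.coe_detMonoidHom, map_list_prod, List.prod_eq_zero_iff,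
    List.map_map, List.mem_map] at hdet
  obtain ⟨a, -, ha⟩ := hdet
  have ha' : (g - a • (1 : M2)).det = 0 := ha
  obtain ⟨v, hv, hv0⟩ := Matrix.exists_mulVec_eq_zero_iff.mpr ha'
  exact ⟨a, v, hv, hv0⟩

/-- The action of `GL₂(𝔽_p)` on vectors. -/
@[reducible] def vecAction : MulAction (M2)ˣ (Fin 2 → ZMod p) where
  smul g v := (g : M2) *ᵥ v
  one_smul v := by
    show ((1 : (M2)ˣ) : M2) *ᵥ v = v
    simp
  mul_smul g h v := by
    show ((g * h : (M2)ˣ) : M2) *ᵥ v = (g : M2) *ᵥ ((h : M2) *ᵥ v)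
    rw [Units.val_mul, Matrix.mulVec_mulVec]

theorem det_ne_zero_of_unit (g : (M2)ˣ) : (g : M2).det ≠ 0 := by
  have h : (g : M2) * ((g⁻¹ : (M2)ˣ) : M2) = 1 := by rw [← Units.val_mul, mul_inv_cancel, Units.val_one]
  have h2 := congrArg Matrix.det h
  rw [Matrix.det_mul, Matrix.det_one] at h2
  exact left_ne_zero_of_mul_eq_one h2

theorem det_inv_of_unit (g : (M2)ˣ) : ((g⁻¹ : (M2)ˣ) : M2).det = ((g : M2).det)⁻¹ := by
  have h : (g : M2) * ((g⁻¹ : (M2)ˣ) : M2) = 1 := by rw [← Units.val_mul, mul_inv_cancel, Units.val_one]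
  have h2 := congrArg Matrix.det h
  rw [Matrix.det_mul, Matrix.det_one] at h2
  exact eq_inv_of_mul_eq_one_right h2

/-- The determinant one part of a subgroup. -/
def detOne (G : Subgroup (M2)ˣ) : Subgroup (M2)ˣ where
  carrier := {g | g ∈ G ∧ (g : M2).det = 1}
  mul_mem' := by
    rintro a b ⟨ha, ha'⟩ ⟨hb, hb'⟩
    exact ⟨G.mul_mem ha hb, by rw [Units.val_mul, Matrix.det_mul, ha', hb', one_mul]⟩
  one_mem' := ⟨G.one_mem, by rw [Units.val_one, Matrix.det_one]⟩
  inv_mem' := by
    rintro a ⟨ha, ha'⟩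
    exact ⟨G.inv_mem ha, by rw [det_inv_of_unit, ha', inv_one]⟩

theorem mem_detOne (G : Subgroup (M2)ˣ) (g : (M2)ˣ) :
    g ∈ detOne G ↔ g ∈ G ∧ (g : M2).det = 1 := Iff.rfl

/-- **Block GT (matrix form).** An irreducible subgroup of `GL₂(𝔽_p)` contains an element of
prime power order without nonzero fixed vector. -/
theorem exists_fpf_matrix (G : Subgroup (M2)ˣ)
    (hirr : ∀ v : Fin 2 → ZMod p, v ≠ 0 → ∃ g ∈ G, ∀ c : ZMod p, (g : M2) *ᵥ v ≠ c • v) :
    ∃ g ∈ G, ∃ r a : ℕ, r.Prime ∧ g ^ (r ^ a) = 1 ∧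
      ∀ v : Fin 2 → ZMod p, (g : M2) *ᵥ v = v → v = 0 := by
  classical
  have hp : p.Prime := Fact.out
  by_contra hcon
  push Not at hcon
  -- Step 1: elements of determinant one and prime order `≠ p` are trivial
  have hSp : ∀ g ∈ G, (g : M2).det = 1 → ∀ r : ℕ, r.Prime → r ≠ p → g ^ r = 1 → g = 1 := by
    intro g hg hdet r hr hrp hgr
    obtain ⟨v, hv, hv0⟩ := hcon g hg r 1 hr (by rw [pow_one]; exact hgr)
    have hsq := sq_zero_of_fixed hdet hv0 hv
    have hr0 : ((r : ℕ) : ZMod p) ≠ 0 := by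
      rw [Ne, ZMod.natCast_eq_zero_iff]
      intro hdvd
      exact hrp ((Nat.prime_dvd_prime_iff_eq hp hr).mp hdvd).symm
    have hpow : (g : M2) ^ r = 1 := by
      rw [← Units.val_pow_eq_pow_val, hgr, Units.val_one]
    exact Units.ext (eq_one_of_sq_zero_of_pow hsq hr0 hpow)
  -- Step 2: the determinant one part is a `p`-group
  set T : Subgroup (M2)ˣ := detOne G with hT
  have hTmem : ∀ g : (M2)ˣ, g ∈ T ↔ g ∈ G ∧ (g : M2).det = 1 := fun g => mem_detOne G g
  have hTp : IsPGroup p T := by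
    rw [IsPGroup.iff_orderOf]
    rintro ⟨g, hg⟩
    obtain ⟨hgG, hgdet⟩ := (hTmem g).mp hg
    rw [Subgroup.orderOf_mk g hg]
    have hpos : orderOf g ≠ 0 := (orderOf_pos g).ne'
    refine ⟨_, Nat.eq_prime_pow_of_unique_prime_dvd hpos ?_⟩
    intro d hd hdvd
    by_contra hdp
    have hh : orderOf (g ^ (orderOf g / d)) = d := orderOf_pow_orderOf_div hpos hdvd
    have h1 : g ^ (orderOf g / d) = 1 := by
      refine hSp _ (G.pow_mem hgG _) ?_ d hd hdp ?_
      · rw [Units.val_pow_eq_pow_val, Matrix.det_pow, hgdet, one_pow]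
      · have hpo := pow_orderOf_eq_one (g ^ (orderOf g / d))
        rw [hh] at hpo
        exact hpo
    rw [h1, orderOf_one] at hh
    exact hd.one_lt.ne hh
  -- Step 3: a nonzero vector fixed by `T`
  let _ := vecAction (p := p)
  have hcard : p ∣ Nat.card (Fin 2 → ZMod p) := by
    rw [Nat.card_eq_fintype_card, Fintype.card_fun, ZMod.card, Fintype.card_fin]
    exact dvd_pow_self p two_ne_zero
  have h0 : (0 : Fin 2 → ZMod p) ∈ MulAction.fixedPoints T (Fin 2 → ZMod p) := by
    intro s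
    show ((s : (M2)ˣ) : M2) *ᵥ 0 = 0
    exact Matrix.mulVec_zero _
  obtain ⟨w, hwfix, hw0⟩ :=
    hTp.exists_fixed_point_of_prime_dvd_card_of_fixed_point (Fin 2 → ZMod p) hcard h0
  have hwfix' : ∀ s ∈ T, (s : M2) *ᵥ w = w := fun s hs => hwfix ⟨s, hs⟩
  -- Step 4: `T` is trivial
  obtain ⟨g₁, hg₁, hg₁w⟩ := hirr w (Ne.symm hw0)
  have hT1 : ∀ s ∈ T, s = 1 := by
    intro s hs
    obtain ⟨hsG, hsdet⟩ := (hTmem s).mp hs
    have hs' : g₁⁻¹ * s * g₁ ∈ T := by
      refine (hTmem _).mpr ⟨G.mul_mem (G.mul_mem (G.inv_mem hg₁) hsG) hg₁, ?_⟩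
      rw [Units.val_mul, Units.val_mul, Matrix.det_mul, Matrix.det_mul, det_inv_of_unit, hsdet,
        mul_one, inv_mul_cancel₀ (det_ne_zero_of_unit g₁)]
    have h1 := hwfix' _ hs'
    have h2 : (s : M2) *ᵥ ((g₁ : M2) *ᵥ w) = (g₁ : M2) *ᵥ w := by
      have h3 : s * g₁ = g₁ * (g₁⁻¹ * s * g₁) := by group
      have h4 : ((s * g₁ : (M2)ˣ) : M2) *ᵥ w = ((g₁ * (g₁⁻¹ * s * g₁) : (M2)ˣ) : M2) *ᵥ w := by
        rw [h3]
      rw [Units.val_mul, Units.val_mul (a := g₁), ← Matrix.mulVec_mulVec, ← Matrix.mulVec_mulVec,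
        h1] at h4
      exact h4
    have hker1 : ((s : M2) - 1) *ᵥ w = 0 := by
      rw [Matrix.sub_mulVec, hwfix' s hs, Matrix.one_mulVec, sub_self]
    have hker2 : ((s : M2) - 1) *ᵥ ((g₁ : M2) *ᵥ w) = 0 := by
      rw [Matrix.sub_mulVec, h2, Matrix.one_mulVec, sub_self]
    have := eq_zero_of_mulVec hker1 hker2 (indep_det (Ne.symm hw0) hg₁w)
    exact Units.ext (by rw [Units.val_one]; exact sub_eq_zero.mp this)
  -- Step 5: `G` is commutative and of exponent dividing `p - 1`
  have hcomm : ∀ g ∈ G, ∀ h ∈ G, g * h = h * g := by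
    intro g hg h hh
    have hc : g * h * g⁻¹ * h⁻¹ ∈ T := by
      refine (hTmem _).mpr ⟨G.mul_mem (G.mul_mem (G.mul_mem hg hh) (G.inv_mem hg)) (G.inv_mem hh), ?_⟩
      rw [Units.val_mul, Units.val_mul, Units.val_mul, Matrix.det_mul, Matrix.det_mul,
        Matrix.det_mul, det_inv_of_unit, det_inv_of_unit]
      have h1 := det_ne_zero_of_unit g
      have h2 := det_ne_zero_of_unit h
      field_simp
    have := hT1 _ hc
    calc g * h = (g * h * g⁻¹ * h⁻¹) * (h * g) := by group
      _ = h * g := by rw [this, one_mul]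
  have hpow : ∀ g ∈ G, (g : M2) ^ p = g := by
    intro g hg
    have hc : g ^ (p - 1) ∈ T := by
      refine (hTmem _).mpr ⟨G.pow_mem hg _, ?_⟩
      rw [Units.val_pow_eq_pow_val, Matrix.det_pow]
      exact ZMod.pow_card_sub_one_eq_one (det_ne_zero_of_unit g)
    have h1 := hT1 _ hc
    have h2 : (g : M2) ^ (p - 1) = 1 := by
      rw [← Units.val_pow_eq_pow_val, h1, Units.val_one]
    rw [← pow_sub_one_mul hp.ne_zero, h2, one_mul]
  -- Step 6: a common eigenvector
  have he : (![1, 0] : Fin 2 → ZMod p) ≠ 0 := by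
    intro h
    have := congrFun h 0
    simp at this
  obtain ⟨g, hg, hge⟩ := hirr _ he
  obtain ⟨a, v, hv, hv0⟩ := exists_eigenvector (g : M2) (hpow g hg)
  obtain ⟨h, hh, hhv⟩ := hirr v hv
  have hker2 : ((g : M2) - a • (1 : M2)) *ᵥ ((h : M2) *ᵥ v) = 0 := by
    have h1 : (g : M2) * (h : M2) = (h : M2) * (g : M2) := by
      rw [← Units.val_mul, ← Units.val_mul, hcomm g hg h hh]
    have h2 : ((g : M2) - a • (1 : M2)) * (h : M2) = (h : M2) * ((g : M2) - a • (1 : M2)) := by
      rw [sub_mul, mul_sub, h1, Matrix.smul_mul, Matrix.mul_smul, one_mul, mul_one]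
    rw [Matrix.mulVec_mulVec, h2, ← Matrix.mulVec_mulVec, hv0, Matrix.mulVec_zero]
  have hz := eq_zero_of_mulVec hv0 hker2 (indep_det hv hhv)
  have hga : (g : M2) = a • (1 : M2) := sub_eq_zero.mp hz
  apply hge a
  rw [hga, Matrix.smul_mulVec, Matrix.one_mulVec]

end Grp

section Action

variable {p : ℕ} [Fact p.Prime]

local notation "M2" => Matrix (Fin 2) (Fin 2) (ZMod p)

/-- The linear map of an element acting on a `ZMod p`-module by additive maps. -/
noncomputable def actLin {Γ V : Type*} [Group Γ] [AddCommGroup V] [Module (ZMod p) V]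
    [DistribMulAction Γ V] (σ : Γ) : V →ₗ[ZMod p] V :=
  (DistribSMul.toAddMonoidHom V σ).toZModLinearMap p

theorem actLin_apply {Γ V : Type*} [Group Γ] [AddCommGroup V] [Module (ZMod p) V]
    [DistribMulAction Γ V] (σ : Γ) (v : V) : actLin (p := p) σ v = σ • v := rfl

/-- **Block GT (action form).** A group acting irreducibly on a two-dimensional `𝔽_p`-vector
space contains an element without nonzero fixed vector, acting with prime power order. -/
theorem exists_fpf {Γ V : Type*} [Group Γ] [AddCommGroup V] [Module (ZMod p) V]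
    [DistribMulAction Γ V] (hcard : Nat.card V = p ^ 2)
    (hirr : ∀ v : V, v ≠ 0 → ∃ σ : Γ, ∀ c : ZMod p, σ • v ≠ c • v) :
    ∃ (σ : Γ) (r a : ℕ), r.Prime ∧ (∀ v : V, σ ^ (r ^ a) • v = v) ∧
      ∀ v : V, σ • v = v → v = 0 := by
  classical
  have hp : p.Prime := Fact.out
  haveI : Finite V := Nat.finite_of_card_ne_zero (by rw [hcard]; exact pow_ne_zero _ hp.ne_zero)
  letI : Fintype V := Fintype.ofFinite V
  have hfr : Module.finrank (ZMod p) V = 2 := by
    have h := Module.card_eq_pow_finrank (K := ZMod p) (V := V)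
    rw [ZMod.card, ← Nat.card_eq_fintype_card, hcard] at h
    exact (Nat.pow_right_injective hp.two_le h).symm
  let b : Module.Basis (Fin 2) (ZMod p) V := Module.finBasisOfFinrankEq (ZMod p) V hfr
  let e : V ≃ₗ[ZMod p] (Fin 2 → ZMod p) := b.equivFun
  let m₀ : Γ →* M2 :=
    { toFun := fun σ => LinearMap.toMatrix b b (actLin (p := p) σ)
      map_one' := by
        have h1 : actLin (p := p) (1 : Γ) = (LinearMap.id : V →ₗ[ZMod p] V) := by
          ext v
          rw [actLin_apply, one_smul, LinearMap.id_apply]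
        rw [h1, LinearMap.toMatrix_id]
      map_mul' := by
        intro σ τ
        have h1 : actLin (p := p) (σ * τ) =
            (actLin (p := p) σ) ∘ₗ (actLin (p := p) τ : V →ₗ[ZMod p] V) := by
          ext v
          rw [actLin_apply, LinearMap.comp_apply, actLin_apply, actLin_apply, mul_smul]
        rw [h1, LinearMap.toMatrix_comp b b b] }
  let m : Γ →* (M2)ˣ := m₀.toHomUnits
  have hm : ∀ (σ : Γ) (v : V), ((m σ : (M2)ˣ) : M2) *ᵥ (e v) = e (σ • v) := by
    intro σ v
    exact LinearMap.toMatrix_mulVec_repr b b (actLin (p := p) σ) v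
  have hirr' : ∀ x : Fin 2 → ZMod p, x ≠ 0 →
      ∃ g ∈ m.range, ∀ c : ZMod p, (g : M2) *ᵥ x ≠ c • x := by
    intro x hx
    have hv : e.symm x ≠ 0 := by
      intro h
      apply hx
      rw [← e.apply_symm_apply x, h, map_zero]
    obtain ⟨σ, hσ⟩ := hirr _ hv
    refine ⟨m σ, ⟨σ, rfl⟩, fun c hc => hσ c ?_⟩
    have h1 := hm σ (e.symm x)
    rw [e.apply_symm_apply] at h1
    rw [h1] at hc
    apply e.injective
    rw [hc, map_smul, e.apply_symm_apply]
  obtain ⟨g, ⟨σ, rfl⟩, r, a, hr, hpow, hfix⟩ := exists_fpf_matrix m.range hirr'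
  refine ⟨σ, r, a, hr, fun v => ?_, fun v hv => ?_⟩
  · have h1 := hm (σ ^ (r ^ a)) v
    rw [map_pow, hpow, Units.val_one, Matrix.one_mulVec] at h1
    exact (e.injective h1).symm
  · have h1 := hm σ v
    rw [hv] at h1
    have h2 := hfix _ h1
    exact e.map_eq_zero_iff.mp h2

end Action

end Fermat.Agent.S41_GT
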