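-- Helper for S41 (block GT for E[p]): an irreducible mod `p` Galois representation of an
-- elliptic curve has an element of prime power order (on `E[p]`) without nonzero fixed point.
import Fermat.Agent.S41_GT
import Fermat.Agent.S13_Torsion
import Fermat.Prelude.Def_FLTPrelim_GaloisRep

set_option autoImplicit false

namespace Fermat.Agent.S41_GTE

open WeierstrassCurve WeierstrassCurve.Affine

local notation "Qb" => AlgebraicClosure ℚ

/-- The `p`-torsion of an elliptic curve over `ℚ` has `p ^ 2` points over `Qb` (`p` odd). -/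
theorem card_torsion (E : WeierstrassCurve ℚ) [E.IsElliptic] {p : ℕ} (hodd : Odd p) :
    Nat.card (Submodule.torsionBy ℤ (E⁄Qb).Point p) = p ^ 2 := by
  have hΔ : (E⁄Qb).Δ ≠ 0 := by
    have h : (E.map (algebraMap ℚ Qb)).IsElliptic := inferInstance
    exact h.isUnit.ne_zero
  exact Fermat.Agent.S13_Torsion.card_torsion (E⁄Qb) hΔ hodd

/-- **Block GT for `E[p]`.** -/
theorem exists_fpf (E : WeierstrassCurve ℚ) [E.IsElliptic] {p : ℕ} (hp : p.Prime) (hp2 : p ≠ 2)
    (hirr : Affine.Point.GaloisRepIsIrreducible (K := Qb) ℚ E p) :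
    ∃ (σ : Qb ≃ₐ[ℚ] Qb) (r a : ℕ), r.Prime ∧
      (∀ P : (E⁄Qb).Point, p • P = 0 → σ ^ (r ^ a) • P = P) ∧
      (∀ P : (E⁄Qb).Point, p • P = 0 → σ • P = P → P = 0) := by
  classical
  have : Fact p.Prime := ⟨hp⟩
  have hodd : Odd p := hp.odd_of_ne_two hp2
  have hcard := card_torsion E hodd
  have hirr' : ∀ v : Submodule.torsionBy ℤ (E⁄Qb).Point p, v ≠ 0 →
      ∃ σ : Qb ≃ₐ[ℚ] Qb, ∀ c : ZMod p, σ • v ≠ c • v := by
    intro v hv
    by_contra hcon
    push Not at hcon
    have hstab : Affine.Point.IsGaloisStable ℚ (Submodule.span (ZMod p) {v}) := by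
      intro σ x hx
      obtain ⟨a, rfl⟩ := Submodule.mem_span_singleton.mp hx
      obtain ⟨c, hc⟩ := hcon σ
      rw [Submodule.mem_span_singleton]
      refine ⟨a * c, ?_⟩
      have h1 : σ • (a • v) = a • (σ • v) := by
        rw [← ZMod.natCast_zmod_val a, Nat.cast_smul_eq_nsmul, Nat.cast_smul_eq_nsmul]
        exact map_nsmul (DistribSMul.toAddMonoidHom _ σ) _ v
      rw [h1, hc, mul_smul]
    rcases hirr.2 _ hstab with h | h
    · apply hv
      have : v ∈ Submodule.span (ZMod p) {v} := Submodule.mem_span_singleton_self v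
      rw [h] at this
      exact (Submodule.mem_bot _).mp this
    · have hsurj : Function.Surjective (fun a : ZMod p => a • v) := by
        intro x
        have : x ∈ Submodule.span (ZMod p) {v} := by rw [h]; exact Submodule.mem_top
        obtain ⟨a, ha⟩ := Submodule.mem_span_singleton.mp this
        exact ⟨a, ha⟩
      have hle := Nat.card_le_card_of_surjective _ hsurj
      rw [hcard, Nat.card_eq_fintype_card, ZMod.card] at hle
      have : p < p ^ 2 := by
        have := hp.one_lt
        nlinarith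
      omega
  obtain ⟨σ, r, a, hr, hpow, hfix⟩ := Fermat.Agent.S41_GT.exists_fpf (p := p) hcard hirr'
  refine ⟨σ, r, a, hr, fun P hP => ?_, fun P hP hσ => ?_⟩
  · have hmem : P ∈ Submodule.torsionBy ℤ (E⁄Qb).Point p := by
      rw [Submodule.mem_torsionBy_iff, natCast_zsmul]
      exact hP
    exact congrArg Subtype.val (hpow ⟨P, hmem⟩)
  · have hmem : P ∈ Submodule.torsionBy ℤ (E⁄Qb).Point p := by
      rw [Submodule.mem_torsionBy_iff, natCast_zsmul]
      exact hP
    have := hfix ⟨P, hmem⟩ (Subtype.ext hσ)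
    exact congrArg Subtype.val this

end Fermat.Agent.S41_GTE
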