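import Fermat.Agent.S41_Cyc

/-!
# Block DISJ (Kummer part) for S41

Given a finite index normal subgroup `R` of the absolute Galois group of `ℚ`, an element `σ₀` and
a prime `q`, there are a large prime `ℓ`, a primitive `ℓ`-th root of unity `ζ`, an `ℓ`-th root `α`
of `q` and `σ ∈ σ₀ R` with `σ ζ = ζ` and `σ α = ζ ^ c * α`, `ℓ ∤ c`.
-/

set_option autoImplicit false

namespace Fermat.Agent.S41_Kum

open Polynomial IntermediateField Fermat.Agent.S41_Cyc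

local notation "Qb" => AlgebraicClosure ℚ

attribute [local instance] qbIsAlgebraic qbIsAlgClosure

/-- A prime is not a perfect `ℓ`-th power in `ℚ`. -/
theorem not_pow_eq_prime {ℓ q : ℕ} (hℓ : ℓ.Prime) (hq : q.Prime) (b : ℚ) : b ^ ℓ ≠ (q : ℚ) := by
  intro h
  have : Fact q.Prime := ⟨hq⟩
  have h1 := congrArg (padicValRat q) h
  rw [padicValRat.pow, padicValRat.self hq.one_lt] at h1
  have h2 : (ℓ : ℤ) ∣ 1 := ⟨_, h1.symm⟩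
  have h3 := Int.natAbs_dvd_natAbs.mpr h2
  simp only [Int.natAbs_natCast, Int.natAbs_one, Nat.dvd_one] at h3
  exact hℓ.one_lt.ne' h3

/-- An `ℓ`-th root of a prime does not lie in the `ℓ`-th cyclotomic field. -/
theorem root_notMem_cyclotomic {ℓ q : ℕ} (hℓ : ℓ.Prime) (hq : q.Prime) {ζ α : Qb}
    (hζ : IsPrimitiveRoot ζ ℓ) (hα : α ^ ℓ = (q : Qb)) : α ∉ ℚ⟮ζ⟯ := by
  intro hmem
  have hirr : Irreducible (X ^ ℓ - C (q : ℚ) : ℚ[X]) :=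
    X_pow_sub_C_irreducible_of_prime hℓ (not_pow_eq_prime hℓ hq)
  have hmonic : (X ^ ℓ - C (q : ℚ) : ℚ[X]).Monic := monic_X_pow_sub_C _ hℓ.ne_zero
  have hroot : aeval α (X ^ ℓ - C (q : ℚ) : ℚ[X]) = 0 := by
    simp [hα]
  have hmin : (X ^ ℓ - C (q : ℚ) : ℚ[X]) = minpoly ℚ α :=
    minpoly.eq_of_irreducible_of_monic hirr hroot hmonic
  have hintα : IsIntegral ℚ α := Algebra.IsIntegral.isIntegral α
  have hintζ : IsIntegral ℚ ζ := Algebra.IsIntegral.isIntegral ζ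
  have h1 : Module.finrank ℚ ℚ⟮α⟯ = ℓ := by
    rw [IntermediateField.adjoin.finrank hintα, ← hmin, natDegree_X_pow_sub_C]
  have h2 : Module.finrank ℚ ℚ⟮ζ⟯ = ℓ - 1 := by
    rw [IntermediateField.adjoin.finrank hintζ, ← cyclotomic_eq_minpoly_rat hζ hℓ.pos,
      natDegree_cyclotomic, Nat.totient_prime hℓ]
  have hle : ℚ⟮α⟯ ≤ ℚ⟮ζ⟯ := by
    rw [IntermediateField.adjoin_simple_le_iff]
    exact hmem
  have hdvd := IntermediateField.finrank_dvd_of_le_right hle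
  rw [h1, h2] at hdvd
  have := Nat.le_of_dvd (by have := hℓ.two_le; omega) hdvd
  have := hℓ.two_le
  omega

/-- An automorphism fixing `ζ` and moving `α`. -/
theorem exists_kummer {ℓ q : ℕ} (hℓ : ℓ.Prime) (hq : q.Prime) {ζ α : Qb}
    (hζ : IsPrimitiveRoot ζ ℓ) (hα : α ^ ℓ = (q : Qb)) :
    ∃ τ : Qb ≃ₐ[ℚ] Qb, τ ζ = ζ ∧ τ α ≠ α := by
  have : IsGalois ℚ Qb := qbIsGalois
  have hnot := root_notMem_cyclotomic hℓ hq hζ hα
  rw [← InfiniteGalois.fixedField_fixingSubgroup ℚ⟮ζ⟯, IntermediateField.mem_fixedField_iff] at hnot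
  push Not at hnot
  obtain ⟨τ, hτ, hτα⟩ := hnot
  refine ⟨τ, ?_, hτα⟩
  exact (IntermediateField.mem_fixingSubgroup_iff _ τ).mp hτ ζ (mem_adjoin_simple_self ℚ ζ)

/-- An automorphism fixing `ζ` multiplies `α` by a power of `ζ`. -/
theorem exists_exp {ℓ q : ℕ} (hℓ : ℓ.Prime) (hq : q.Prime) {ζ α : Qb}
    (hζ : IsPrimitiveRoot ζ ℓ) (hα : α ^ ℓ = (q : Qb)) (τ : Qb ≃ₐ[ℚ] Qb) :
    ∃ c : ℕ, τ α = ζ ^ c * α := by
  have : NeZero ℓ := ⟨hℓ.ne_zero⟩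
  have hα0 : α ≠ 0 := by
    intro h
    rw [h, zero_pow hℓ.ne_zero] at hα
    exact (Nat.cast_ne_zero.mpr hq.ne_zero) hα.symm
  have h1 : (τ α / α) ^ ℓ = 1 := by
    rw [div_pow, ← map_pow, hα, map_natCast, div_self (Nat.cast_ne_zero.mpr hq.ne_zero)]
  obtain ⟨c, -, hc⟩ := hζ.eq_pow_of_pow_eq_one h1
  exact ⟨c, by rw [hc, div_mul_cancel₀ _ hα0]⟩

/-- **DISJ.** -/
theorem exists_sigma (R : Subgroup (Qb ≃ₐ[ℚ] Qb)) [R.Normal] [R.FiniteIndex]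
    (σ₀ : Qb ≃ₐ[ℚ] Qb) {q : ℕ} (hq : q.Prime) (B : ℕ) :
    ∃ (ℓ : ℕ) (ζ α : Qb) (σ : Qb ≃ₐ[ℚ] Qb) (c : ℕ), ℓ.Prime ∧ B < ℓ ∧ IsPrimitiveRoot ζ ℓ ∧
      α ^ ℓ = (q : Qb) ∧ σ₀⁻¹ * σ ∈ R ∧ σ ζ = ζ ∧ σ α = ζ ^ c * α ∧ ¬ ℓ ∣ c := by
  obtain ⟨ℓ, hℓ, hBℓ, τ, hτR, hτ⟩ := exists_prime_fix R σ₀ (max B R.index)
  have hB : B < ℓ := lt_of_le_of_lt (le_max_left _ _) hBℓ
  have hidx : R.index < ℓ := lt_of_le_of_lt (le_max_right _ _) hBℓ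
  have hidx0 : R.index ≠ 0 := Subgroup.FiniteIndex.index_ne_zero
  have : NeZero ℓ := ⟨hℓ.ne_zero⟩
  obtain ⟨ζ, hζ⟩ := HasEnoughRootsOfUnity.exists_primitiveRoot Qb ℓ
  obtain ⟨α, hα⟩ := IsAlgClosed.exists_pow_nat_eq (q : Qb) hℓ.pos
  have hα0 : α ≠ 0 := by
    intro h
    rw [h, zero_pow hℓ.ne_zero] at hα
    exact (Nat.cast_ne_zero.mpr hq.ne_zero) hα.symm
  -- the Kummer element
  obtain ⟨τ', hτ'ζ, hτ'α⟩ := exists_kummer hℓ hq hζ hα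
  obtain ⟨c', hc'⟩ := exists_exp hℓ hq hζ hα τ'
  have hc'ℓ : ¬ ℓ ∣ c' := by
    intro hdvd
    apply hτ'α
    obtain ⟨d, rfl⟩ := hdvd
    rw [hc', pow_mul, hζ.pow_eq_one, one_pow, one_mul]
  have hpowζ : ∀ k : ℕ, (τ' ^ k) ζ = ζ := by
    intro k
    induction k with
    | zero => rfl
    | succ k ih => rw [pow_succ, AlgEquiv.mul_apply, hτ'ζ, ih]
  have hpowα : ∀ k : ℕ, (τ' ^ k) α = ζ ^ (c' * k) * α := by
    intro k
    induction k with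
    | zero => simp
    | succ k ih =>
      rw [pow_succ, AlgEquiv.mul_apply, hc', map_mul, map_pow, hpowζ, ih, ← mul_assoc, ← pow_add]
      congr 2
      ring
  have hτ₂R : τ' ^ R.index ∈ R := Subgroup.pow_index_mem R τ'
  have hc'n : ¬ ℓ ∣ c' * R.index := by
    intro hdvd
    rcases (Nat.Prime.dvd_mul hℓ).mp hdvd with h | h
    · exact hc'ℓ h
    · exact absurd (Nat.le_of_dvd (Nat.pos_of_ne_zero hidx0) h) (by omega)
  -- the element `σ₀ * τ`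
  have hτ₁ζ : (σ₀ * τ) ζ = ζ := hτ ζ hζ.pow_eq_one
  obtain ⟨c₁, hc₁⟩ := exists_exp hℓ hq hζ hα (σ₀ * τ)
  by_cases hdvd : ℓ ∣ c₁
  · refine ⟨ℓ, ζ, α, σ₀ * τ * τ' ^ R.index, c' * R.index + c₁, hℓ, hB, hζ, hα, ?_, ?_, ?_, ?_⟩
    · have : σ₀⁻¹ * (σ₀ * τ * τ' ^ R.index) = τ * τ' ^ R.index := by group
      rw [this]
      exact R.mul_mem hτR hτ₂R
    · rw [AlgEquiv.mul_apply, hpowζ, hτ₁ζ]
    · rw [AlgEquiv.mul_apply, hpowα, map_mul, map_pow, hτ₁ζ, hc₁, ← mul_assoc, ← pow_add]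
    · intro h
      exact hc'n ((Nat.dvd_add_left hdvd).mp h)
  · refine ⟨ℓ, ζ, α, σ₀ * τ, c₁, hℓ, hB, hζ, hα, ?_, hτ₁ζ, hc₁, hdvd⟩
    have : σ₀⁻¹ * (σ₀ * τ) = τ := by group
    rw [this]
    exact hτR

end Fermat.Agent.S41_Kum
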