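-- Helper for S41 (block FD1, field-theoretic glue): the finite Galois extension generated by the
-- coordinates of `E[p]`, the `ℓ`-th roots of unity and the `ℓ`-th roots of `q`; the subgroup of
-- the absolute Galois group acting trivially on `E[p]`.
import Fermat.Agent.S41_GTE
import Fermat.Agent.S41_Kum

set_option autoImplicit false

namespace Fermat.Agent.S41_FDa

open WeierstrassCurve WeierstrassCurve.Affine Fermat.Agent.S41_Cyc

local notation "Qb" => AlgebraicClosure ℚ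

attribute [local instance] qbIsAlgebraic qbIsAlgClosure

variable (E : WeierstrassCurve ℚ)

theorem smul_some (τ : Qb ≃ₐ[ℚ] Qb) {x y : Qb} (h : (E⁄Qb).Nonsingular x y) :
    ∃ h' : (E⁄Qb).Nonsingular (τ x) (τ y),
      τ • (Point.some x y h : (E⁄Qb).Point) = Point.some (τ x) (τ y) h' :=
  ⟨_, rfl⟩

theorem smul_nsmul_point (τ : Qb ≃ₐ[ℚ] Qb) (n : ℕ) (P : (E⁄Qb).Point) :
    τ • (n • P) = n • (τ • P) := by
  rw [Affine.Point.algEquiv_smul_def, Affine.Point.algEquiv_smul_def, map_nsmul]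

theorem torsion_smul (τ : Qb ≃ₐ[ℚ] Qb) {p : ℕ} {P : (E⁄Qb).Point} (hP : p • P = 0) :
    p • (τ • P) = 0 := by
  rw [← smul_nsmul_point, hP]
  rfl

/-- The subgroup acting trivially on the `p`-torsion. -/
def torsKer (p : ℕ) : Subgroup (Qb ≃ₐ[ℚ] Qb) where
  carrier := {τ | ∀ P : (E⁄Qb).Point, p • P = 0 → τ • P = P}
  mul_mem' := by
    intro a b ha hb P hP
    rw [mul_smul, hb P hP, ha P hP]
  one_mem' := fun P _ => one_smul _ P
  inv_mem' := by
    intro a ha P hP
    rw [inv_smul_eq_iff]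
    exact (ha P hP).symm

theorem mem_torsKer {p : ℕ} {τ : Qb ≃ₐ[ℚ] Qb} :
    τ ∈ torsKer E p ↔ ∀ P : (E⁄Qb).Point, p • P = 0 → τ • P = P := Iff.rfl

instance torsKer_normal (p : ℕ) : (torsKer E p).Normal := ⟨by
  intro τ hτ g P hP
  rw [mul_smul, mul_smul, hτ _ (torsion_smul E g⁻¹ hP), smul_inv_smul]⟩

theorem torsion_finite [E.IsElliptic] {p : ℕ} (hp : p.Prime) (hp2 : p ≠ 2) :
    Finite (Submodule.torsionBy ℤ (E⁄Qb).Point p) :=
  Nat.finite_of_card_ne_zero (by
    rw [Fermat.Agent.S41_GTE.card_torsion E (hp.odd_of_ne_two hp2)]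
    exact pow_ne_zero _ hp.ne_zero)

theorem torsKer_finiteIndex [E.IsElliptic] {p : ℕ} (hp : p.Prime) (hp2 : p ≠ 2) :
    (torsKer E p).FiniteIndex := by
  have := torsion_finite E hp hp2
  let f := MulAction.toPermHom (Qb ≃ₐ[ℚ] Qb) (Submodule.torsionBy ℤ (E⁄Qb).Point p)
  have hfin : f.ker.FiniteIndex := Subgroup.finiteIndex_ker f
  have hle : f.ker ≤ torsKer E p := by
    intro τ hτ P hP
    have hmem : P ∈ Submodule.torsionBy ℤ (E⁄Qb).Point p := by
      rw [Submodule.mem_torsionBy_iff, natCast_zsmul]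
      exact hP
    have h1 : f τ ⟨P, hmem⟩ = ⟨P, hmem⟩ := by
      rw [MonoidHom.mem_ker.mp hτ]
      rfl
    exact congrArg Subtype.val h1
  exact Subgroup.finiteIndex_of_le hle

/-- Elements of a coset of the torsion kernel act in the same way on the torsion. -/
theorem pow_smul_eq {p : ℕ} {σ₀ σ : Qb ≃ₐ[ℚ] Qb} (h : σ₀⁻¹ * σ ∈ torsKer E p) (n : ℕ) :
    ∀ P : (E⁄Qb).Point, p • P = 0 → σ ^ n • P = σ₀ ^ n • P := by
  have h1 : ∀ P : (E⁄Qb).Point, p • P = 0 → σ • P = σ₀ • P := by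
    intro P hP
    have h2 := h P hP
    rw [mul_smul, inv_smul_eq_iff] at h2
    exact h2
  induction n with
  | zero => intro P _; simp
  | succ n ih =>
    intro P hP
    rw [pow_succ, pow_succ, mul_smul, mul_smul, h1 P hP, ih _ (torsion_smul E σ₀ hP)]

/-- The `x`-coordinate of a point (`0` for the point at infinity). -/
noncomputable def xc : (E⁄Qb).Point → Qb
  | .zero => 0
  | .some x _ _ => x

/-- The `y`-coordinate of a point (`0` for the point at infinity). -/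
noncomputable def yc : (E⁄Qb).Point → Qb
  | .zero => 0
  | .some _ y _ => y

/-- The coordinates of the `p`-torsion points. -/
def coordSet (p : ℕ) : Set Qb :=
  {t | ∃ (x y : Qb) (h : (E⁄Qb).Nonsingular x y),
    p • (Point.some x y h : (E⁄Qb).Point) = 0 ∧ (t = x ∨ t = y)}

/-- Generators of the field `ℚ(E[p], μ_ℓ, q^{1/ℓ})`. -/
def genSet (p ℓ q : ℕ) : Set Qb :=
  coordSet E p ∪ {t | t ^ ℓ = 1} ∪ {t | t ^ ℓ = (q : Qb)}

theorem coordSet_finite [E.IsElliptic] {p : ℕ} (hp : p.Prime) (hp2 : p ≠ 2) :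
    (coordSet E p).Finite := by
  have := torsion_finite E hp hp2
  have hV : ((Submodule.torsionBy ℤ (E⁄Qb).Point p : Submodule ℤ (E⁄Qb).Point) :
      Set (E⁄Qb).Point).Finite := Set.toFinite _
  refine ((hV.image (xc E)).union (hV.image (yc E))).subset ?_
  rintro t ⟨x, y, h, hP, ht⟩
  have hmem : (Point.some x y h : (E⁄Qb).Point) ∈
      (Submodule.torsionBy ℤ (E⁄Qb).Point p : Submodule ℤ (E⁄Qb).Point) := by
    rw [Submodule.mem_torsionBy_iff, natCast_zsmul]
    exact hP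
  rcases ht with rfl | rfl
  · exact Or.inl ⟨_, hmem, rfl⟩
  · exact Or.inr ⟨_, hmem, rfl⟩

theorem pow_eq_finite {n : ℕ} (hn : 0 < n) (c : Qb) : {t : Qb | t ^ n = c}.Finite := by
  refine (Polynomial.nthRoots n c).toFinset.finite_toSet.subset ?_
  intro t ht
  rw [Finset.mem_coe, Multiset.mem_toFinset, Polynomial.mem_nthRoots hn]
  exact ht

theorem genSet_finite [E.IsElliptic] {p ℓ : ℕ} (hp : p.Prime) (hp2 : p ≠ 2) (hℓ : 0 < ℓ)
    (q : ℕ) : (genSet E p ℓ q).Finite :=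
  ((coordSet_finite E hp hp2).union (pow_eq_finite hℓ 1)).union (pow_eq_finite hℓ _)

theorem genSet_map {p ℓ q : ℕ} (τ : Qb ≃ₐ[ℚ] Qb) {t : Qb} (ht : t ∈ genSet E p ℓ q) :
    τ t ∈ genSet E p ℓ q := by
  rcases ht with (⟨x, y, h, hP, ht⟩ | ht) | ht
  · obtain ⟨h', hh'⟩ := smul_some E τ h
    have hP' : p • (Point.some (τ x) (τ y) h' : (E⁄Qb).Point) = 0 := by
      rw [← hh']
      exact torsion_smul E τ hP
    refine Or.inl (Or.inl ⟨τ x, τ y, h', hP', ?_⟩)
    rcases ht with rfl | rfl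
    · exact Or.inl rfl
    · exact Or.inr rfl
  · refine Or.inl (Or.inr ?_)
    show (τ t) ^ ℓ = 1
    rw [← map_pow, show t ^ ℓ = 1 from ht, map_one]
  · refine Or.inr ?_
    show (τ t) ^ ℓ = (q : Qb)
    rw [← map_pow, show t ^ ℓ = (q : Qb) from ht, map_natCast]

/-- The field `ℚ(E[p], μ_ℓ, q^{1/ℓ})`. -/
noncomputable def genField (p ℓ q : ℕ) : IntermediateField ℚ Qb :=
  IntermediateField.adjoin ℚ (genSet E p ℓ q)

theorem genField_finiteDimensional [E.IsElliptic] {p ℓ : ℕ} (hp : p.Prime) (hp2 : p ≠ 2)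
    (hℓ : 0 < ℓ) (q : ℕ) : FiniteDimensional ℚ (genField E p ℓ q) := by
  have : Finite (genSet E p ℓ q) := (genSet_finite E hp hp2 hℓ q).to_subtype
  exact IntermediateField.finiteDimensional_adjoin fun x _ => Algebra.IsIntegral.isIntegral x

theorem genField_map_le (p ℓ q : ℕ) (f : Qb →ₐ[ℚ] Qb) :
    (genField E p ℓ q).map f ≤ genField E p ℓ q := by
  rw [genField, IntermediateField.adjoin_map]
  apply IntermediateField.adjoin.mono
  rintro _ ⟨t, ht, rfl⟩
  have hbij := Algebra.IsAlgebraic.algHom_bijective f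
  exact genSet_map E (AlgEquiv.ofBijective f hbij) ht

theorem genField_normal (p ℓ q : ℕ) : Normal ℚ (genField E p ℓ q) :=
  IntermediateField.normal_iff_forall_map_le.mpr (genField_map_le E p ℓ q)

/-- An automorphism fixing the generators fixes the field. -/
theorem fixes_genField {p ℓ q : ℕ} (τ : Qb ≃ₐ[ℚ] Qb)
    (h : ∀ t ∈ genSet E p ℓ q, τ t = t) : ∀ x ∈ genField E p ℓ q, τ x = x := by
  intro x hx
  induction hx using IntermediateField.adjoin_induction with
  | mem t ht => exact h t ht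
  | algebraMap r => exact τ.commutes r
  | add a b _ _ ha hb => rw [map_add, ha, hb]
  | inv a _ ha => rw [map_inv₀, ha]
  | mul a b _ _ ha hb => rw [map_mul, ha, hb]

/-- An automorphism agreeing with another one on the field acts in the same way on `E[p]`. -/
theorem smul_eq_of_eq_on {p ℓ q : ℕ} {φ σ : Qb ≃ₐ[ℚ] Qb}
    (h : ∀ x ∈ genField E p ℓ q, φ x = σ x) (P : (E⁄Qb).Point) (hP : p • P = 0) :
    φ • P = σ • P := by
  rcases P with _ | ⟨x, y, hxy⟩
  · rfl
  · obtain ⟨h1, hh1⟩ := smul_some E φ hxy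
    obtain ⟨h2, hh2⟩ := smul_some E σ hxy
    have hx : x ∈ genField E p ℓ q :=
      IntermediateField.subset_adjoin ℚ _ (Or.inl (Or.inl ⟨x, y, hxy, hP, Or.inl rfl⟩))
    have hy : y ∈ genField E p ℓ q :=
      IntermediateField.subset_adjoin ℚ _ (Or.inl (Or.inl ⟨x, y, hxy, hP, Or.inr rfl⟩))
    rw [hh1, hh2, Point.some.injEq]
    exact ⟨h x hx, h y hy⟩

/-- An automorphism fixing a torsion point fixes its coordinates. -/
theorem fixes_coord {p : ℕ} {τ : Qb ≃ₐ[ℚ] Qb}
    (h : ∀ P : (E⁄Qb).Point, p • P = 0 → τ • P = P) {t : Qb} (ht : t ∈ coordSet E p) :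
    τ t = t := by
  obtain ⟨x, y, hxy, hP, ht⟩ := ht
  obtain ⟨h1, hh1⟩ := smul_some E τ hxy
  have h2 := h _ hP
  rw [hh1, Point.some.injEq] at h2
  rcases ht with rfl | rfl
  · exact h2.1
  · exact h2.2

end Fermat.Agent.S41_FDa
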