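-- Helper for S41 (block RED): if `p` divides the number of points of the reduction of an
-- integral Weierstrass model at a good odd prime `ℓ ≠ p`, every Frobenius element at `ℓ` fixes a
-- nonzero point of `p`-torsion.
import Fermat.Agent.S05_Abstract
import Fermat.Agent.S05_Val
import Fermat.Agent.S13_Torsion
import Fermat.Agent.S13_Mul
import Fermat.Agent.S54_Frob
import Fermat.Prelude.Def_EllipticCurve_FrobeniusTrace
import Fermat.Prelude.Def_FLTPrelim_Modularity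
import Fermat.Prelude.Def_FLTPrelim_GaloisRep

set_option autoImplicit false

namespace Fermat.Agent.S41_Red

open WeierstrassCurve Polynomial
open Fermat.Agent.S05_RatVal Fermat.Agent.S05_Basic Fermat.Agent.S54_Frob

/-! ### Valuation-ring helpers -/

section Helpers

variable {L : Type*} [Field L]

/-- A product of elements of `A` lying in the maximal ideal has a factor in the maximal ideal. -/
theorem exists_mem_nonunits_of_prod {ι : Type*} (A : ValuationSubring L) (s : Finset ι)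
    (f : ι → L) (hf : ∀ i ∈ s, f i ∈ A) (h : ∏ i ∈ s, f i ∈ A.nonunits) :
    ∃ i ∈ s, f i ∈ A.nonunits := by
  by_contra hcon
  push Not at hcon
  have h1 : ∀ i ∈ s, A.valuation (f i) = 1 := fun i hi => by
    have h2 := (A.valuation_le_one_iff _).2 (hf i hi)
    have h3 := hcon i hi
    rw [A.mem_nonunits_iff, not_lt] at h3
    exact le_antisymm h2 h3
  rw [A.mem_nonunits_iff, map_prod, Finset.prod_eq_one h1] at h
  exact lt_irrefl _ h

theorem mem_or_mem_nonunits_of_mul (A : ValuationSubring L) {a b : L} (ha : a ∈ A) (hb : b ∈ A)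
    (h : a * b ∈ A.nonunits) : a ∈ A.nonunits ∨ b ∈ A.nonunits := by
  by_contra hcon
  push Not at hcon
  have h1 : A.valuation a = 1 := by
    have h2 := (A.valuation_le_one_iff _).2 ha
    have h3 := hcon.1
    rw [A.mem_nonunits_iff, not_lt] at h3
    exact le_antisymm h2 h3
  have h1' : A.valuation b = 1 := by
    have h2 := (A.valuation_le_one_iff _).2 hb
    have h3 := hcon.2
    rw [A.mem_nonunits_iff, not_lt] at h3
    exact le_antisymm h2 h3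
  rw [A.mem_nonunits_iff, map_mul, h1, h1', one_mul] at h
  exact lt_irrefl _ h

theorem intCast_mem' (A : ValuationSubring L) (n : ℤ) : (n : L) ∈ A := intCast_mem A n

/-- Multiples of `ℓ` lie in the maximal ideal. -/
theorem intCast_mem_nonunits (A : ValuationSubring L) {ℓ : ℕ} (hA : A.LiesOverPrime ℓ) {m : ℤ}
    (hm : (ℓ : ℤ) ∣ m) : (m : L) ∈ A.nonunits := by
  obtain ⟨k, rfl⟩ := hm
  have : (((ℓ : ℤ) * k : ℤ) : L) = (k : L) * (ℓ : L) := by push_cast; ring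
  rw [this]
  exact mul_mem_nonunits A (intCast_mem A k) hA

/-- The Frobenius congruence `σ a ≡ a ^ ℓ`. -/
theorem frob_sub_pow_mem {A : ValuationSubring L} [Algebra ℚ L] {σ : L ≃ₐ[ℚ] L} {ℓ : ℕ}
    (hσ : A.IsFrobeniusAt σ ℓ) {a : L} (ha : a ∈ A) : σ a - a ^ ℓ ∈ A.nonunits := by
  obtain ⟨hdec, hfr⟩ := hσ
  have h1 := hfr (IsLocalRing.residue A ⟨a, ha⟩)
  rw [← IsLocalRing.ResidueField.residue_smul, ← map_pow] at h1
  rw [← sub_eq_zero, ← map_sub, IsLocalRing.residue_eq_zero_iff,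
    ← ValuationSubring.coe_mem_nonunits_iff] at h1
  exact h1

/-- An element congruent to a rational integer is fixed by Frobenius modulo the maximal ideal. -/
theorem frob_sub_mem {A : ValuationSubring L} [Algebra ℚ L] {σ : L ≃ₐ[ℚ] L} {ℓ : ℕ}
    (hℓ : ℓ.Prime) (hA : A.LiesOverPrime ℓ) (hσ : A.IsFrobeniusAt σ ℓ) {a : L} (ha : a ∈ A)
    (c : ℤ) (hc : a - (c : L) ∈ A.nonunits) : σ a - a ∈ A.nonunits := by
  have : Fact ℓ.Prime := ⟨hℓ⟩
  have h1 := frob_sub_pow_mem hσ ha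
  -- `a ^ ℓ - c ^ ℓ`
  have h2 : a ^ ℓ - (c : L) ^ ℓ ∈ A.nonunits := by
    obtain ⟨k, hk⟩ := sub_dvd_pow_sub_pow (⟨a, ha⟩ : A) (⟨(c : L), intCast_mem A c⟩ : A) ℓ
    have hk' : a ^ ℓ - (c : L) ^ ℓ = (k : L) * (a - (c : L)) := by
      have := congrArg (fun z : A => (z : L)) hk
      simp only [AddSubgroupClass.coe_sub, SubmonoidClass.coe_pow, MulMemClass.coe_mul] at this
      rw [this]; ring
    rw [hk']
    exact mul_mem_nonunits A k.2 hc
  -- `c ^ ℓ - c`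
  have h3 : (c : L) ^ ℓ - (c : L) ∈ A.nonunits := by
    have hdvd : (ℓ : ℤ) ∣ c ^ ℓ - c := by
      rw [← ZMod.intCast_zmod_eq_zero_iff_dvd]
      push_cast
      rw [ZMod.pow_card, sub_self]
    have := intCast_mem_nonunits A hA hdvd
    push_cast at this
    exact this
  have h4 : (c : L) - a ∈ A.nonunits := by
    have := neg_mem hc
    rwa [neg_sub] at this
  have : σ a - a = (σ a - a ^ ℓ) + (a ^ ℓ - (c : L) ^ ℓ) + ((c : L) ^ ℓ - (c : L)) + ((c : L) - a) := by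
    ring
  rw [this]
  exact add_mem (add_mem (add_mem h1 h2) h3) h4

end Helpers

/-! ### The 2-division cubic over an algebraically closed field -/

section Cubic

variable {K : Type*} [Field K] [IsAlgClosed K]

theorem exists_split (W : Affine K) (h2 : (2 : K) ≠ 0) : ∃ e D E : K, Split W e D E := by
  have h4 : (4 : K) ≠ 0 := by
    have : (4 : K) = 2 * 2 := by norm_num
    rw [this]; exact mul_ne_zero h2 h2
  obtain ⟨r₁, hr₁⟩ : ∃ r : K, 4 * r ^ 3 + W.b₂ * r ^ 2 + 2 * W.b₄ * r + W.b₆ = 0 := by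
    have hdeg : (C (4 : K) * X ^ 3 + C W.b₂ * X ^ 2 + C (2 * W.b₄) * X + C W.b₆).degree = 3 := by
      compute_degree!
    obtain ⟨r, hr⟩ := IsAlgClosed.exists_root
      (C (4 : K) * X ^ 3 + C W.b₂ * X ^ 2 + C (2 * W.b₄) * X + C W.b₆) (by rw [hdeg]; norm_num)
    refine ⟨r, ?_⟩
    simpa [IsRoot] using hr
  obtain ⟨r₂, hr₂⟩ : ∃ r : K, 4 * r ^ 2 + (W.b₂ + 4 * r₁) * r +
      (2 * W.b₄ + W.b₂ * r₁ + 4 * r₁ ^ 2) = 0 := by
    have hdeg : (C (4 : K) * X ^ 2 + C (W.b₂ + 4 * r₁) * X +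
        C (2 * W.b₄ + W.b₂ * r₁ + 4 * r₁ ^ 2)).degree = 2 := by
      compute_degree!
    obtain ⟨r, hr⟩ := IsAlgClosed.exists_root
      (C (4 : K) * X ^ 2 + C (W.b₂ + 4 * r₁) * X + C (2 * W.b₄ + W.b₂ * r₁ + 4 * r₁ ^ 2))
      (by rw [hdeg]; norm_num)
    refine ⟨r, ?_⟩
    simpa [IsRoot] using hr
  obtain ⟨r₃, hr₃⟩ : ∃ r : K, 4 * r = -W.b₂ - 4 * r₁ - 4 * r₂ :=
    ⟨(-W.b₂ - 4 * r₁ - 4 * r₂) / 4, by field_simp⟩
  refine ⟨r₁, r₂ - r₁, r₃ - r₁, ⟨h2, ?_, ?_, ?_⟩⟩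
  · linear_combination hr₃
  · apply mul_left_cancel₀ h2
    linear_combination hr₂ - (r₁ + r₂) * hr₃
  · linear_combination hr₁ - r₁ * hr₂ + r₁ * r₂ * hr₃

omit [IsAlgClosed K] in
/-- The discriminant in terms of the roots of the 2-division cubic. -/
theorem Δ_eq_of_split {W : Affine K} {e D E : K} (hS : Split W e D E) :
    W.Δ = 16 * D ^ 2 * E ^ 2 * (D - E) ^ 2 := by
  have h4 : (4 : K) ≠ 0 := by
    have : (4 : K) = 2 * 2 := by norm_num
    rw [this]; exact mul_ne_zero hS.two_ne hS.two_ne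
  have hb8 := W.b_relation
  have h2 := hS.hb₂
  have h4' := hS.hb₄
  have h6 := hS.hb₆
  apply mul_left_cancel₀ h4
  rw [WeierstrassCurve.Δ]
  rw [h2, h4', h6] at hb8 ⊢
  linear_combination (-(-4 * (3 * e + D + E)) ^ 2) * hb8

omit [IsAlgClosed K] in
/-- Each root of the cubic satisfies the cubic equation. -/
theorem cubic_root_of_split {W : Affine K} {e D E : K} (hS : Split W e D E) :
    (4 * e ^ 3 + W.b₂ * e ^ 2 + 2 * W.b₄ * e + W.b₆ = 0) ∧
    (4 * (e + D) ^ 3 + W.b₂ * (e + D) ^ 2 + 2 * W.b₄ * (e + D) + W.b₆ = 0) ∧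
    (4 * (e + E) ^ 3 + W.b₂ * (e + E) ^ 2 + 2 * W.b₄ * (e + E) + W.b₆ = 0) := by
  rw [hS.hb₂, hS.hb₄, hS.hb₆]
  refine ⟨by ring, by ring, by ring⟩

end Cubic

/-! ### The valuation attached to a valuation subring of `ℚ̄` -/

section Val

open Fermat.Agent.S05_Val

variable {L : Type*} [Field L] [CharZero L] [Algebra ℚ L] [Algebra.IsAlgebraic ℚ L]
variable {A : ValuationSubring L} {ℓ : ℕ} (hA : A.LiesOverPrime ℓ) (hℓ : ℓ.Prime)

theorem ge_iff_mem (x : L) : (ratVal hA hℓ).Ge x 0 ↔ x ∈ A := by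
  by_cases hx : x = 0
  · rw [hx]
    exact ⟨fun _ => A.zero_mem, fun _ => Or.inl rfl⟩
  · constructor
    · intro h
      exact (ratVal_nonneg_iff hA hℓ hx).1 (h.le_v hx)
    · intro h
      exact Or.inr ((ratVal_nonneg_iff hA hℓ hx).2 h)

theorem gt_iff_mem (x : L) : (ratVal hA hℓ).Gt x 0 ↔ x ∈ A.nonunits := by
  by_cases hx : x = 0
  · rw [hx]
    exact ⟨fun _ => zero_mem _, fun _ => Or.inl rfl⟩
  · constructor
    · intro h
      exact (ratVal_pos_iff hA hℓ hx).1 (h.lt_v hx)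
    · intro h
      exact Or.inr ((ratVal_pos_iff hA hℓ hx).2 h)

omit [CharZero L] [Algebra ℚ L] [Algebra.IsAlgebraic ℚ L] in
/-- A root of an integral cubic with leading coefficient `4` is integral at an odd prime. -/
theorem cubic_root_mem (hA : A.LiesOverPrime ℓ) (hℓ : ℓ.Prime) (hℓ2 : ℓ ≠ 2) {b₂ b₄ b₆ : ℤ}
    {r : L} (hr : 4 * r ^ 3 + (b₂ : L) * r ^ 2 + 2 * (b₄ : L) * r + (b₆ : L) = 0) : r ∈ A := by
  have hint : _root_.IsIntegral ℤ (4 * r) := by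
    refine ⟨X ^ 3 + C b₂ * X ^ 2 + C (8 * b₄) * X + C (16 * b₆), ?_, ?_⟩
    · monicity!
    · simp only [eval₂_add, eval₂_mul, eval₂_pow, eval₂_X, eval₂_C]
      simp only [eq_intCast]
      push_cast
      linear_combination 16 * hr
  have h4r : 4 * r ∈ A := mem_of_isIntegral_int A hint
  have hnd : ¬ ℓ ∣ 4 := by
    intro h
    have h2 : ℓ ∣ 2 ^ 2 := by norm_num; exact h
    have := (Nat.prime_dvd_prime_iff_eq hℓ Nat.prime_two).1 (hℓ.dvd_of_dvd_pow h2)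
    exact hℓ2 this
  have hv4 : A.valuation ((4 : ℕ) : L) = 1 := val_natCast_eq_one A hA hℓ hnd
  have hv : A.valuation (4 * r) ≤ 1 := (A.valuation_le_one_iff _).2 h4r
  rw [map_mul] at hv
  have h4 : A.valuation (4 : L) = 1 := by
    have : ((4 : ℕ) : L) = 4 := by norm_num
    rw [← this]; exact hv4
  rw [h4, one_mul] at hv
  exact (A.valuation_le_one_iff _).1 hv

end Val

/-! ### The main statement -/

section Main

open Fermat.Agent.S05_Val WeierstrassCurve.Affine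

attribute [local instance] isAlgebraicQbar

local notation "Qb" => AlgebraicClosure ℚ

theorem baseChange_eq (W : WeierstrassCurve ℤ) :
    ((W.map (Int.castRingHom ℚ))⁄Qb) = W.map (Int.castRingHom Qb) := by
  show (W.map (Int.castRingHom ℚ)).map (algebraMap ℚ Qb) = _
  rw [WeierstrassCurve.map_map]
  congr 1

/-- The `S05` set-up over `ℚ̄` at a good odd prime. -/
theorem exists_setup (W : WeierstrassCurve ℤ) {ℓ : ℕ} (hℓ : ℓ.Prime) (hℓ2 : ℓ ≠ 2)
    (hgood : ¬ (ℓ : ℤ) ∣ W.Δ) {A : ValuationSubring Qb} (hA : A.LiesOverPrime ℓ) :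
    ∃ e D E : Qb, Setup (W.map (Int.castRingHom Qb)).toAffine e D E (ratVal hA hℓ) ∧
      (ratVal hA hℓ).v D = 0 ∧ e ∈ A := by
  set WK : Affine Qb := (W.map (Int.castRingHom Qb)).toAffine with hWK
  set v := ratVal hA hℓ with hv
  have h2 : (2 : Qb) ≠ 0 := two_ne_zero
  obtain ⟨e, D, E, hS⟩ := exists_split WK h2
  have hb₂ : WK.b₂ = ((W.b₂ : ℤ) : Qb) := by rw [hWK]; simp
  have hb₄ : WK.b₄ = ((W.b₄ : ℤ) : Qb) := by rw [hWK]; simp
  have hb₆ : WK.b₆ = ((W.b₆ : ℤ) : Qb) := by rw [hWK]; simp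
  have hΔ : WK.Δ = ((W.Δ : ℤ) : Qb) := by rw [hWK]; simp
  obtain ⟨c1, c2, c3⟩ := cubic_root_of_split hS
  rw [hb₂, hb₄, hb₆] at c1 c2 c3
  have he : e ∈ A := cubic_root_mem hA hℓ hℓ2 c1
  have heD : e + D ∈ A := cubic_root_mem hA hℓ hℓ2 c2
  have heE : e + E ∈ A := cubic_root_mem hA hℓ hℓ2 c3
  have hDA : D ∈ A := by
    have := A.sub_mem heD he
    rwa [add_sub_cancel_left] at this
  have hEA : E ∈ A := by
    have := A.sub_mem heE he
    rwa [add_sub_cancel_left] at this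
  have hDEA : D - E ∈ A := A.sub_mem hDA hEA
  have hΔ0 : W.Δ ≠ 0 := by
    rintro h0
    exact hgood (h0 ▸ dvd_zero _)
  have hΔ' := Δ_eq_of_split hS
  rw [hΔ] at hΔ'
  have hΔne : ((W.Δ : ℤ) : Qb) ≠ 0 := by exact_mod_cast hΔ0
  have hD0 : D ≠ 0 := by
    rintro rfl
    apply hΔne
    rw [hΔ']; ring
  have hE0 : E ≠ 0 := by
    rintro rfl
    apply hΔne
    rw [hΔ']; ring
  have hDE0 : D - E ≠ 0 := by
    intro h0
    apply hΔne
    rw [hΔ', h0]; ring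
  have hℓ2' : ¬ (ℓ : ℤ) ∣ 2 := by
    intro h
    have h' : ℓ ∣ 2 := by exact_mod_cast h
    exact hℓ2 ((Nat.prime_dvd_prime_iff_eq hℓ Nat.prime_two).1 h')
  have hℓ16 : ¬ (ℓ : ℤ) ∣ 16 := by
    intro h
    have h' : ℓ ∣ 2 ^ 4 := by
      have : (ℓ : ℤ) ∣ ((2 ^ 4 : ℕ) : ℤ) := by norm_num; exact h
      exact_mod_cast this
    exact hℓ2 ((Nat.prime_dvd_prime_iff_eq hℓ Nat.prime_two).1 (hℓ.dvd_of_dvd_pow h'))
  have hv2 : v.v (2 : Qb) = 0 := by
    have := ratVal_intCast_eq_zero hA hℓ 2 hℓ2'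
    simpa using this
  have hv16 : v.v (16 : Qb) = 0 := by
    have := ratVal_intCast_eq_zero hA hℓ 16 hℓ16
    simpa using this
  have hvΔ : v.v ((W.Δ : ℤ) : Qb) = 0 := ratVal_intCast_eq_zero hA hℓ W.Δ hgood
  have hvD : 0 ≤ v.v D := (ratVal_nonneg_iff hA hℓ hD0).2 hDA
  have hvE : 0 ≤ v.v E := (ratVal_nonneg_iff hA hℓ hE0).2 hEA
  have hvDE : 0 ≤ v.v (D - E) := (ratVal_nonneg_iff hA hℓ hDE0).2 hDEA
  have h16 : (16 : Qb) ≠ 0 := by norm_num
  have hsum : v.v ((W.Δ : ℤ) : Qb) = v.v (16 : Qb) + 2 * v.v D + 2 * v.v E + 2 * v.v (D - E) := by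
    rw [hΔ', v.v_mul _ _ (mul_ne_zero (mul_ne_zero h16 (pow_ne_zero 2 hD0)) (pow_ne_zero 2 hE0))
      (pow_ne_zero 2 hDE0), v.v_mul _ _ (mul_ne_zero h16 (pow_ne_zero 2 hD0)) (pow_ne_zero 2 hE0),
      v.v_mul _ _ h16 (pow_ne_zero 2 hD0), v.v_pow hD0, v.v_pow hE0, v.v_pow hDE0]
    push_cast
    ring
  rw [hvΔ, hv16] at hsum
  have hvD0 : v.v D = 0 := by linarith
  have hvE0 : v.v E = 0 := by linarith
  have hvDE0 : v.v (D - E) = 0 := by linarith
  exact ⟨e, D, E, ⟨hS, hv2, hD0, hE0, hDE0, hvD, hvE0, hvDE0⟩, hvD0, he⟩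

/-- **Block RED.** If `p` divides the number of points of the reduction of `W` at a good odd
prime `ℓ ≠ p`, then every Frobenius element at `ℓ` fixes a nonzero point of `p`-torsion. -/
theorem exists_fixed_torsion (W : WeierstrassCurve ℤ) {p ℓ : ℕ} (hp : p.Prime) (hp2 : p ≠ 2)
    (hℓ : ℓ.Prime) (hℓ2 : ℓ ≠ 2) (hpℓ : p ≠ ℓ) (hgood : ¬ (ℓ : ℤ) ∣ W.Δ)
    (hdvd : p ∣ (W.reductionMod ℓ).card)
    {A : ValuationSubring Qb} (hA : A.LiesOverPrime ℓ)
    {σ : Qb ≃ₐ[ℚ] Qb} (hσ : A.IsFrobeniusAt σ ℓ) :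
    ∃ P : ((W.map (Int.castRingHom ℚ))⁄Qb).Point, P ≠ 0 ∧ p • P = 0 ∧ σ • P = P := by
  classical
  have : Fact ℓ.Prime := ⟨hℓ⟩
  have : Fact p.Prime := ⟨hp⟩
  have hodd : Odd p := hp.odd_of_ne_two hp2
  -- Step 1: a point of order `p` on the reduction and the division polynomial
  obtain ⟨Pt, hPt⟩ := exists_prime_addOrderOf_dvd_card'
    (G := (W.reductionMod ℓ).toAffine.Point) p hdvd
  rcases Pt with _ | ⟨x, yl, hl⟩
  · exfalso
    have h1 : addOrderOf (0 : (W.reductionMod ℓ).toAffine.Point) = 1 := addOrderOf_zero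
    have h2 : addOrderOf (0 : (W.reductionMod ℓ).toAffine.Point) = p := hPt
    rw [h1] at h2
    exact hp.one_lt.ne h2
  have hM : ∀ j : ℕ, 1 ≤ j → j ≤ p - 1 →
      j • (Point.some x yl hl : (W.reductionMod ℓ).toAffine.Point) ≠ 0 := by
    intro j h1 h2 h0
    have h3 := addOrderOf_dvd_of_nsmul_eq_zero h0
    rw [hPt] at h3
    have h4 := Nat.le_of_dvd (by omega) h3
    have := hp.one_lt
    omega
  have hpp : p - 1 + 1 = p := Nat.sub_add_cancel hp.one_lt.le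
  have hM1 : (p - 1 + 1) • (Point.some x yl hl : (W.reductionMod ℓ).toAffine.Point) = 0 := by
    rw [hpp, ← hPt]
    exact addOrderOf_nsmul_eq_zero _
  have hΨ := Fermat.Agent.S13_Mul.ΨSq_eval_eq_zero (W.reductionMod ℓ).toAffine hl (p - 1) hM hM1
  rw [hpp] at hΨ
  have hnev : ¬ Even ((p : ℕ) : ℤ) := by
    rw [Int.not_even_iff_odd]
    exact_mod_cast hodd
  have hpre : ((W.reductionMod ℓ).preΨ (p : ℤ)).eval x = 0 := by
    have h1 : (W.reductionMod ℓ).ΨSq (p : ℤ) = (W.reductionMod ℓ).preΨ (p : ℤ) ^ 2 := by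
      simp [WeierstrassCurve.ΨSq, hnev]
    have h2 : ((W.reductionMod ℓ).ΨSq ((p : ℕ) : ℤ)).eval x = 0 := hΨ
    rw [h1, eval_pow] at h2
    exact pow_eq_zero_iff (two_ne_zero) |>.mp h2
  obtain ⟨n, hn⟩ := ZMod.intCast_surjective x
  obtain ⟨t, ht⟩ := ZMod.intCast_surjective yl
  set f : ℤ[X] := W.preΨ (p : ℤ) with hf
  have hfdvd : (ℓ : ℤ) ∣ f.eval n := by
    rw [← ZMod.intCast_zmod_eq_zero_iff_dvd]
    have h1 : (W.reductionMod ℓ).preΨ (p : ℤ) = f.map (Int.castRingHom (ZMod ℓ)) := by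
      rw [hf, WeierstrassCurve.reductionMod, WeierstrassCurve.map_preΨ]
    rw [h1, ← hn, eval_intCast_map] at hpre
    simpa using hpre
  -- the equation of the reduced point, lifted to `ℤ`
  have hcdvd : (ℓ : ℤ) ∣ (2 * t + W.a₁ * n + W.a₃) ^ 2 -
      (4 * n ^ 3 + W.b₂ * n ^ 2 + 2 * W.b₄ * n + W.b₆) := by
    rw [← ZMod.intCast_zmod_eq_zero_iff_dvd]
    have heq := hl.1
    rw [Affine.equation_iff] at heq
    simp only [WeierstrassCurve.reductionMod, WeierstrassCurve.map_a₁, WeierstrassCurve.map_a₂,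
      WeierstrassCurve.map_a₃, WeierstrassCurve.map_a₄, WeierstrassCurve.map_a₆,
      eq_intCast] at heq
    rw [← hn, ← ht] at heq
    simp only [WeierstrassCurve.b₂, WeierstrassCurve.b₄, WeierstrassCurve.b₆]
    push_cast
    linear_combination 4 * heq
  -- Step 2: the set-up over `ℚ̄`
  set WK : Affine Qb := ((W.map (Int.castRingHom ℚ))⁄Qb) with hWK
  have hWKeq : WK = W.map (Int.castRingHom Qb) := baseChange_eq W
  obtain ⟨e, D, E, hSet, hvD, heA⟩ := exists_setup W hℓ hℓ2 hgood hA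
  rw [← hWKeq] at hSet
  set v := ratVal hA hℓ with hv
  have hS := hSet.toSplit
  have ha₁ : WK.a₁ = ((W.a₁ : ℤ) : Qb) := by rw [hWKeq]; simp
  have ha₃ : WK.a₃ = ((W.a₃ : ℤ) : Qb) := by rw [hWKeq]; simp
  have hb₂ : WK.b₂ = ((W.b₂ : ℤ) : Qb) := by rw [hWKeq]; simp
  have hb₄ : WK.b₄ = ((W.b₄ : ℤ) : Qb) := by rw [hWKeq]; simp
  have hb₆ : WK.b₆ = ((W.b₆ : ℤ) : Qb) := by rw [hWKeq]; simp
  have hΔ : WK.Δ = ((W.Δ : ℤ) : Qb) := by rw [hWKeq]; simp
  have hΔ0 : W.Δ ≠ 0 := by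
    rintro h0
    exact hgood (h0 ▸ dvd_zero _)
  have hΔne : WK.Δ ≠ 0 := by rw [hΔ]; exact_mod_cast hΔ0
  have hℓp : ¬ ℓ ∣ p := by
    intro h
    exact hpℓ ((Nat.prime_dvd_prime_iff_eq hℓ hp).1 h).symm
  have hℓp' : ¬ (ℓ : ℤ) ∣ (p : ℤ) := by
    intro h
    exact hℓp (by exact_mod_cast h)
  have hpne : ((p : ℕ) : Qb) ≠ 0 := by exact_mod_cast hp.ne_zero
  have hvp : v.v ((p : ℕ) : Qb) = 0 := by
    have := ratVal_intCast_eq_zero hA hℓ (p : ℤ) hℓp'
    simpa using this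
  -- torsion points are integral
  have hint : ∀ R : WK.Point, R ≠ 0 → p • R = 0 → v.Ge (Xc WK e R) 0 := by
    intro R hR hpR
    by_contra hcon
    have hX0 : Xc WK e R ≠ 0 := fun h0 => hcon (Or.inl h0)
    have hneg : v.v (Xc WK e R) < 0 := by
      by_contra hge
      exact hcon (Or.inr (not_lt.1 hge))
    exact Fermat.Agent.S05_Ker.nsmul_ne_zero_of_ker hSet hR hX0 hneg hpne hvp hpR
  obtain ⟨S, -, hSmem, hfac⟩ := Fermat.Agent.S13_Torsion.exists_finset WK hΔne hodd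
  have hSA : ∀ r ∈ S, r ∈ A := by
    intro r hr
    obtain ⟨y, hns, hpP⟩ := (hSmem r).1 hr
    have h1 := hint (Point.some r y hns) (Point.some_ne_zero _) hpP
    rw [Xc_some, ge_iff_mem] at h1
    have := add_mem h1 heA
    rwa [sub_add_cancel] at this
  have hfK : WK.preΨ ((p : ℕ) : ℤ) = f.map (Int.castRingHom Qb) := by
    rw [hf, hWKeq, WeierstrassCurve.map_preΨ]
  have heval : ((f.eval n : ℤ) : Qb) = (p : Qb) * ∏ r ∈ S, ((n : Qb) - r) := by
    have h1 := congrArg (Polynomial.eval (n : Qb)) hfac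
    rw [hfK, eval_intCast_map, eval_mul, eval_C, eval_prod] at h1
    simp only [eval_sub, eval_X, eval_C, eq_intCast] at h1
    exact h1
  have hprod : ∏ r ∈ S, ((n : Qb) - r) ∈ A.nonunits := by
    have h1 : ((f.eval n : ℤ) : Qb) ∈ A.nonunits := intCast_mem_nonunits A hA hfdvd
    rw [heval] at h1
    have hvp1 : A.valuation ((p : ℕ) : Qb) = 1 := val_natCast_eq_one A hA hℓ hℓp
    have hpinv : ((p : ℕ) : Qb)⁻¹ ∈ A := by
      rw [← A.valuation_le_one_iff, map_inv₀, hvp1, inv_one]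
    have h2 := mul_mem_nonunits A hpinv h1
    rwa [← mul_assoc, inv_mul_cancel₀ hpne, one_mul] at h2
  obtain ⟨r, hrS, hr⟩ := exists_mem_nonunits_of_prod A S (fun r => (n : Qb) - r)
    (fun r hr => sub_mem (intCast_mem A n) (hSA r hr)) hprod
  obtain ⟨y, hns, hpP⟩ := (hSmem r).1 hrS
  have hrA : r ∈ A := hSA r hrS
  have hrn : r - (n : Qb) ∈ A.nonunits := by
    have := neg_mem hr
    rwa [neg_sub] at this
  set P : WK.Point := Point.some r y hns with hP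
  have hP0 : P ≠ 0 := Point.some_ne_zero _
  have hσr : σ r - r ∈ A.nonunits := frob_sub_mem hℓ hA hσ hrA n hrn
  -- the quantity `η`
  have hXP : v.Ge (Xc WK e P) 0 := hint P hP0 hpP
  have hηA : Eta WK P ∈ A := (ge_iff_mem hA hℓ _).1 (Fermat.Agent.S05_Cong.eta_ge hSet hP0 hXP)
  have hηsq : Eta WK P ^ 2 = 4 * r ^ 3 + ((W.b₂ : ℤ) : Qb) * r ^ 2 + 2 * ((W.b₄ : ℤ) : Qb) * r +
      ((W.b₆ : ℤ) : Qb) := by
    have h1 := Eta_sq hS P hP0
    rw [h1, hP, Xc_some, ← hb₂, ← hb₄, ← hb₆, hS.hb₂, hS.hb₄, hS.hb₆]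
    ring
  set c : ℤ := 2 * t + W.a₁ * n + W.a₃ with hc
  have hηc : Eta WK P ^ 2 - (c : Qb) ^ 2 ∈ A.nonunits := by
    have h1 : ((((2 * t + W.a₁ * n + W.a₃) ^ 2 -
        (4 * n ^ 3 + W.b₂ * n ^ 2 + 2 * W.b₄ * n + W.b₆) : ℤ)) : Qb) ∈ A.nonunits :=
      intCast_mem_nonunits A hA hcdvd
    have h2 : (4 * (r ^ 2 + r * n + n ^ 2) + ((W.b₂ : ℤ) : Qb) * (r + n) + 2 * ((W.b₄ : ℤ) : Qb)) *
        (r - (n : Qb)) ∈ A.nonunits := by
      refine mul_mem_nonunits A ?_ hrn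
      have hnA : (n : Qb) ∈ A := intCast_mem A n
      have h4A : (4 : Qb) ∈ A := by
        have := intCast_mem A 4
        simp
      have h2A : (2 : Qb) ∈ A := by
        have := intCast_mem A 2
        simp
      exact add_mem (add_mem (mul_mem h4A (add_mem (add_mem (pow_mem hrA 2)
        (mul_mem hrA hnA)) (pow_mem hnA 2))) (mul_mem (intCast_mem A _)
        (add_mem hrA hnA))) (mul_mem h2A (intCast_mem A _))
    have h3 : Eta WK P ^ 2 - (c : Qb) ^ 2 =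
        (4 * (r ^ 2 + r * n + n ^ 2) + ((W.b₂ : ℤ) : Qb) * (r + n) + 2 * ((W.b₄ : ℤ) : Qb)) *
          (r - (n : Qb)) -
        ((((2 * t + W.a₁ * n + W.a₃) ^ 2 -
          (4 * n ^ 3 + W.b₂ * n ^ 2 + 2 * W.b₄ * n + W.b₆) : ℤ)) : Qb) := by
      rw [hηsq, hc]
      push_cast
      ring
    rw [h3]
    exact sub_mem h2 h1
  have hση : σ (Eta WK P) - Eta WK P ∈ A.nonunits := by
    have hcA : (c : Qb) ∈ A := intCast_mem A c
    have h1 : (Eta WK P - (c : Qb)) * (Eta WK P + (c : Qb)) ∈ A.nonunits := by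
      have : (Eta WK P - (c : Qb)) * (Eta WK P + (c : Qb)) = Eta WK P ^ 2 - (c : Qb) ^ 2 := by ring
      rw [this]; exact hηc
    rcases mem_or_mem_nonunits_of_mul A (sub_mem hηA hcA) (add_mem hηA hcA) h1 with h2 | h2
    · exact frob_sub_mem hℓ hA hσ hηA c h2
    · refine frob_sub_mem hℓ hA hσ hηA (-c) ?_
      have : Eta WK P - ((-c : ℤ) : Qb) = Eta WK P + (c : Qb) := by push_cast; ring
      rw [this]; exact h2
  -- Step 3: the congruence `σ P ≡ P` and the kernel of reduction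
  have hσP : σ • P = Point.map (W' := W.map (Int.castRingHom ℚ)) σ.toAlgHom P := rfl
  have hσP0 : σ • P ≠ 0 := by
    rw [hσP]
    exact Fermat.Agent.S05_Abstract.map_ne_zero (W.map (Int.castRingHom ℚ)) σ hP0
  have hXσ : Xc WK e (σ • P) = σ r - e := by
    rw [hσP, hP, Point.map_some]
    rfl
  have hEσ : Eta WK (σ • P) = σ (Eta WK P) := by
    rw [hσP]
    exact Fermat.Agent.S05_Abstract.Eta_map (W.map (Int.castRingHom ℚ)) σ P
  have hXc : v.Gt (Xc WK e (σ • P) - Xc WK e P) 0 := by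
    rw [gt_iff_mem, hXσ, hP, Xc_some]
    have : σ r - e - (r - e) = σ r - r := by ring
    rw [this]; exact hσr
  have hEta : v.Gt (Eta WK (σ • P) - Eta WK P) 0 := by
    rw [gt_iff_mem, hEσ]
    exact hση
  rcases Fermat.Agent.S05_Cong.sub_mem_ker_of_nonsing hSet hP0 hσP0 hXP (Or.inl hvD) hXc hEta
    with h1 | ⟨h1, h2, h3⟩
  · exact ⟨P, hP0, hpP, h1⟩
  · exfalso
    have hpσ : p • (σ • P) = 0 := by
      rw [hσP, ← map_nsmul, hpP, map_zero]
    have hpT : p • (σ • P - P) = 0 := by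
      rw [nsmul_sub, hpσ, hpP, sub_zero]
    exact Fermat.Agent.S05_Ker.nsmul_ne_zero_of_ker hSet h1 h2 h3 hpne hvp hpT

/-- The point count of the reduction in terms of `apOfModel`. -/
theorem card_reduction_eq (W : WeierstrassCurve ℤ) (ℓ : ℕ) :
    ((W.reductionMod ℓ).card : ℤ) = (ℓ : ℤ) + 1 - W.apOfModel ℓ := by
  rw [WeierstrassCurve.apOfModel, WeierstrassCurve.traceOfFrobenius, Nat.card_zmod]
  ring

/-- **Block RED, trace form.** If a Frobenius element at a good odd prime `ℓ ≠ p` fixes no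
nonzero point of `p`-torsion, then `a_ℓ ≢ ℓ + 1 (mod p)`. -/
theorem not_dvd_of_no_fixed_torsion (W : WeierstrassCurve ℤ) {p ℓ : ℕ} (hp : p.Prime)
    (hp2 : p ≠ 2) (hℓ : ℓ.Prime) (hℓ2 : ℓ ≠ 2) (hpℓ : p ≠ ℓ) (hgood : ¬ (ℓ : ℤ) ∣ W.Δ)
    {A : ValuationSubring Qb} (hA : A.LiesOverPrime ℓ)
    {σ : Qb ≃ₐ[ℚ] Qb} (hσ : A.IsFrobeniusAt σ ℓ)
    (hfix : ∀ P : ((W.map (Int.castRingHom ℚ))⁄Qb).Point, p • P = 0 → σ • P = P → P = 0) :
    ¬ (p : ℤ) ∣ (ℓ : ℤ) + 1 - W.apOfModel ℓ := by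
  intro hdvd
  rw [← card_reduction_eq, Int.natCast_dvd_natCast] at hdvd
  obtain ⟨P, hP0, hpP, hσP⟩ := exists_fixed_torsion W hp hp2 hℓ hℓ2 hpℓ hgood hdvd hA hσ
  exact hP0 (hfix P hpP hσP)

end Main

end Fermat.Agent.S41_Red
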