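-- Helper for S41 (block KUM): a Frobenius element at `D` fixing a primitive `ℓ`-th root of unity
-- and moving an `ℓ`-th root of the prime `q` forces `ℓ ∣ D - 1` and `q ^ ((D - 1) / ℓ) ≠ 1` mod `D`.
import Fermat.Agent.S41_Red

set_option autoImplicit false

namespace Fermat.Agent.S41_KumF

open Fermat.Agent.S54_Frob Fermat.Agent.S41_Red

variable {L : Type*} [Field L] [Algebra ℚ L]

omit [Algebra ℚ L] in
/-- Two distinct primes cannot both lie in the maximal ideal. -/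
theorem not_two_primes (A : ValuationSubring L) {D ℓ : ℕ} (hD : D.Prime) (hℓ : ℓ.Prime)
    (hDℓ : D ≠ ℓ) (hA : A.LiesOverPrime D) (h : (ℓ : L) ∈ A.nonunits) : False := by
  have hcop : IsCoprime (ℓ : ℤ) (D : ℤ) := by
    rw [Nat.isCoprime_iff_coprime, Nat.coprime_primes hℓ hD]
    exact fun h => hDℓ h.symm
  obtain ⟨a, b, hab⟩ := hcop
  have h1 : (a : L) * (ℓ : L) ∈ A.nonunits := mul_mem_nonunits A (intCast_mem A a) h
  have h2 : (b : L) * (D : L) ∈ A.nonunits := mul_mem_nonunits A (intCast_mem A b) hA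
  have h3 : (a : L) * (ℓ : L) + (b : L) * (D : L) = 1 := by
    have := congrArg (fun z : ℤ => (z : L)) hab
    push_cast at this
    exact this
  have h4 := add_mem h1 h2
  rw [h3] at h4
  exact one_notMem_nonunits A h4

omit [Algebra ℚ L] in
/-- A primitive `ℓ`-th root of unity is not congruent to one modulo a prime `D ≠ ℓ`. -/
theorem primitiveRoot_sub_one (A : ValuationSubring L) {D ℓ : ℕ} (hD : D.Prime) (hℓ : ℓ.Prime)
    (hDℓ : D ≠ ℓ) (hA : A.LiesOverPrime D) {η : L} (hη : IsPrimitiveRoot η ℓ)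
    (h : 1 - η ∈ A.nonunits) : False := by
  have hηA : η ∈ A := mem_of_isIntegral_int A (hη.isIntegral hℓ.pos)
  have hℓ' : ℓ = (ℓ - 1) + 1 := by have := hℓ.one_lt; omega
  have hη' : IsPrimitiveRoot η ((ℓ - 1) + 1) := by rw [← hℓ']; exact hη
  have hprod := hη'.prod_one_sub_pow_eq_order
  have h0 : 0 ∈ Finset.range (ℓ - 1) := by
    rw [Finset.mem_range]
    have := hℓ.two_le
    omega
  rw [← Finset.mul_prod_erase _ _ h0, zero_add, pow_one] at hprod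
  have hrest : ∏ k ∈ (Finset.range (ℓ - 1)).erase 0, (1 - η ^ (k + 1)) ∈ A :=
    Subring.prod_mem A.toSubring fun k _ => A.sub_mem A.one_mem (A.pow_mem hηA _)
  have hmem : (1 - η) * ∏ k ∈ (Finset.range (ℓ - 1)).erase 0, (1 - η ^ (k + 1)) ∈ A.nonunits := by
    rw [mul_comm]
    exact mul_mem_nonunits A hrest h
  rw [hprod] at hmem
  have hcast : ((ℓ - 1 : ℕ) : L) + 1 = (ℓ : L) := by
    have : ((ℓ - 1 : ℕ) : L) + 1 = (((ℓ - 1) + 1 : ℕ) : L) := by push_cast; ring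
    rw [this, ← hℓ']
  rw [hcast] at hmem
  exact not_two_primes A hD hℓ hDℓ hA hmem

/-- **Block KUM.** -/
theorem kummer_frob {D ℓ q c : ℕ} (hD : D.Prime) (hℓ : ℓ.Prime) (hDℓ : D ≠ ℓ)
    (hDq : D ≠ q) (hq : q.Prime) {A : ValuationSubring L} (hA : A.LiesOverPrime D) {φ : L ≃ₐ[ℚ] L}
    (hφ : A.IsFrobeniusAt φ D) {ζ α : L} (hζ : IsPrimitiveRoot ζ ℓ) (hα : α ^ ℓ = (q : L))
    (hφζ : φ ζ = ζ) (hφα : φ α = ζ ^ c * α) (hc : ¬ ℓ ∣ c) :
    ℓ ∣ D - 1 ∧ (q : ZMod D) ^ ((D - 1) / ℓ) ≠ 1 := by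
  have hζA : ζ ∈ A := mem_of_isIntegral_int A (hζ.isIntegral hℓ.pos)
  have hαint : IsIntegral ℤ α := by
    refine ⟨Polynomial.X ^ ℓ - Polynomial.C (q : ℤ), Polynomial.monic_X_pow_sub_C _ hℓ.ne_zero, ?_⟩
    simp [hα]
  have hαA : α ∈ A := mem_of_isIntegral_int A hαint
  have hD1 : 1 ≤ D := hD.one_lt.le
  -- Step 1: `ℓ ∣ D - 1`
  have hdvd : ℓ ∣ D - 1 := by
    by_contra hnd
    have h1 := frob_sub_pow_mem hφ hζA
    rw [hφζ] at h1
    have h2 : ζ ^ (ℓ - 1) * (ζ - ζ ^ D) ∈ A.nonunits :=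
      mul_mem_nonunits A (A.pow_mem hζA _) h1
    have h3 : ζ ^ (ℓ - 1) * (ζ - ζ ^ D) = 1 - ζ ^ (D - 1) := by
      have e1 : ζ ^ (ℓ - 1) * ζ = 1 := by
        rw [← pow_succ, Nat.sub_add_cancel hℓ.one_lt.le, hζ.pow_eq_one]
      have e2 : ζ ^ D = ζ * ζ ^ (D - 1) := by
        rw [← pow_succ', Nat.sub_add_cancel hD1]
      rw [mul_sub, e1, e2, ← mul_assoc, e1, one_mul]
    rw [h3] at h2
    have hcop : (D - 1).Coprime ℓ := ((Nat.Prime.coprime_iff_not_dvd hℓ).mpr hnd).symm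
    exact primitiveRoot_sub_one A hD hℓ hDℓ hA (hζ.pow_of_coprime _ hcop) h2
  refine ⟨hdvd, fun hpow => ?_⟩
  -- Step 2
  obtain ⟨m, hm⟩ := hdvd
  have hm' : (D - 1) / ℓ = m := by rw [hm, Nat.mul_div_cancel_left _ hℓ.pos]
  rw [hm'] at hpow
  have hdvdZ : (D : ℤ) ∣ (q : ℤ) ^ m - 1 := by
    rw [← ZMod.intCast_zmod_eq_zero_iff_dvd]
    push_cast
    rw [hpow, sub_self]
  have h1 : ((((q : ℤ) ^ m - 1 : ℤ)) : L) ∈ A.nonunits := intCast_mem_nonunits A hA hdvdZ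
  have h1' : (q : L) ^ m - 1 ∈ A.nonunits := by
    have e : ((((q : ℤ) ^ m - 1 : ℤ)) : L) = (q : L) ^ m - 1 := by push_cast; ring
    rw [← e]
    exact h1
  have h2 := frob_sub_pow_mem hφ hαA
  rw [hφα] at h2
  have hαD : α ^ D = α * (q : L) ^ m := by
    have : D = 1 + ℓ * m := by omega
    rw [this, pow_add, pow_one, pow_mul, hα]
  have h3 : α * (ζ ^ c - (q : L) ^ m) ∈ A.nonunits := by
    have e : α * (ζ ^ c - (q : L) ^ m) = ζ ^ c * α - α ^ D := by rw [hαD]; ring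
    rw [e]
    exact h2
  have hqA : (q : L) ∈ A := natCast_mem A q
  rcases mem_or_mem_nonunits_of_mul A hαA (A.sub_mem (A.pow_mem hζA _) (A.pow_mem hqA _)) h3
    with h4 | h4
  · -- `α` in the maximal ideal: then `q` is
    have h5 : α ^ (ℓ - 1) * α ∈ A.nonunits := mul_mem_nonunits A (A.pow_mem hαA _) h4
    rw [← pow_succ, Nat.sub_add_cancel hℓ.one_lt.le, hα] at h5
    exact not_two_primes A hD hq hDq hA h5
  · have h5 : ζ ^ c - 1 ∈ A.nonunits := by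
      have e : ζ ^ c - 1 = (ζ ^ c - (q : L) ^ m) + ((q : L) ^ m - 1) := by ring
      rw [e]
      exact add_mem h4 h1'
    have h6 : 1 - ζ ^ c ∈ A.nonunits := by
      have := neg_mem h5
      rwa [neg_sub] at this
    have hcop : c.Coprime ℓ := ((Nat.Prime.coprime_iff_not_dvd hℓ).mpr hc).symm
    exact primitiveRoot_sub_one A hD hℓ hDℓ hA (hζ.pow_of_coprime _ hcop) h6

end Fermat.Agent.S41_KumF
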