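import Mathlib
import Fermat.Prelude.Def_FLTPrelim_GaloisRep
import Fermat.Prelude.Def_FLTPrelim_Modularity

/-!
# Block VC for S41: a variable change induces a Galois-equivariant group isomorphism on points

For a Weierstrass curve `W` over a field and a change of variables `C`, the map
`(x, y) ↦ (u⁻²(x - r), u⁻³(y - s(x - r) - t))` is an additive bijection from the points of `W`
to the points of `C • W`.  Over `AlgebraicClosure ℚ` and for `C` defined over `ℚ` it commutes
with the Galois action.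
-/

set_option autoImplicit false

open WeierstrassCurve

namespace Fermat.Agent.S41_VC

section Field

variable {F : Type*} [Field F]

/-- The `x`-coordinate of the image of a point under a change of variables. -/
def vcX (C : VariableChange F) (x : F) : F := (↑C.u⁻¹ : F) ^ 2 * (x - C.r)

/-- The `y`-coordinate of the image of a point under a change of variables. -/
def vcY (C : VariableChange F) (x y : F) : F := (↑C.u⁻¹ : F) ^ 3 * (y - C.s * (x - C.r) - C.t)

lemma uinv_ne_zero (C : VariableChange F) : (↑C.u⁻¹ : F) ≠ 0 := C.u⁻¹.ne_zero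

lemma u_mul_uinv (C : VariableChange F) : (↑C.u : F) * (↑C.u⁻¹ : F) = 1 := C.u.mul_inv

lemma vcX_injective (C : VariableChange F) : Function.Injective (vcX C) := by
  intro x₁ x₂ h
  have hv := uinv_ne_zero C
  have h2 : (↑C.u⁻¹ : F) ^ 2 ≠ 0 := pow_ne_zero _ hv
  unfold vcX at h
  have := mul_left_cancel₀ h2 h
  linear_combination this

lemma vcY_injective (C : VariableChange F) (x : F) : Function.Injective (vcY C x) := by
  intro y₁ y₂ h
  have hv := uinv_ne_zero C
  have h3 : (↑C.u⁻¹ : F) ^ 3 ≠ 0 := pow_ne_zero _ hv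
  unfold vcY at h
  have := mul_left_cancel₀ h3 h
  linear_combination this

variable (W : WeierstrassCurve F) (C : VariableChange F)

lemma equation_vc (x y : F) :
    (C • W).toAffine.Equation (vcX C x) (vcY C x y) ↔ W.toAffine.Equation x y := by
  rw [Affine.equation_iff', Affine.equation_iff']
  simp only [variableChange_a₁, variableChange_a₂, variableChange_a₃, variableChange_a₄,
    variableChange_a₆, vcX, vcY]
  have hv := uinv_ne_zero C
  have h6 : (↑C.u⁻¹ : F) ^ 6 ≠ 0 := pow_ne_zero _ hv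
  have key : ((↑C.u⁻¹ : F) ^ 3 * (y - C.s * (x - C.r) - C.t)) ^ 2 +
      ↑C.u⁻¹ * (W.a₁ + 2 * C.s) * ((↑C.u⁻¹ : F) ^ 2 * (x - C.r)) *
        ((↑C.u⁻¹ : F) ^ 3 * (y - C.s * (x - C.r) - C.t)) +
      (↑C.u⁻¹ : F) ^ 3 * (W.a₃ + C.r * W.a₁ + 2 * C.t) *
        ((↑C.u⁻¹ : F) ^ 3 * (y - C.s * (x - C.r) - C.t)) -
      (((↑C.u⁻¹ : F) ^ 2 * (x - C.r)) ^ 3 +
        (↑C.u⁻¹ : F) ^ 2 * (W.a₂ - C.s * W.a₁ + 3 * C.r - C.s ^ 2) *
          ((↑C.u⁻¹ : F) ^ 2 * (x - C.r)) ^ 2 +
        (↑C.u⁻¹ : F) ^ 4 * (W.a₄ - C.s * W.a₃ + 2 * C.r * W.a₂ - (C.t + C.r * C.s) * W.a₁ +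
          3 * C.r ^ 2 - 2 * C.s * C.t) * ((↑C.u⁻¹ : F) ^ 2 * (x - C.r)) +
        (↑C.u⁻¹ : F) ^ 6 * (W.a₆ + C.r * W.a₄ + C.r ^ 2 * W.a₂ + C.r ^ 3 - C.t * W.a₃ -
          C.t ^ 2 - C.r * C.t * W.a₁)) =
      (↑C.u⁻¹ : F) ^ 6 * (y ^ 2 + W.a₁ * x * y + W.a₃ * y -
        (x ^ 3 + W.a₂ * x ^ 2 + W.a₄ * x + W.a₆)) := by ring
  rw [key, mul_eq_zero]
  exact ⟨fun h => h.resolve_left h6, fun h => Or.inr h⟩

lemma negY_vc (x y : F) :
    (C • W).toAffine.negY (vcX C x) (vcY C x y) = vcY C x (W.toAffine.negY x y) := by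
  simp only [Affine.negY, variableChange_a₁, variableChange_a₃, vcX, vcY]
  ring

lemma nonsingular_vc (x y : F) :
    (C • W).toAffine.Nonsingular (vcX C x) (vcY C x y) ↔ W.toAffine.Nonsingular x y := by
  rw [Affine.nonsingular_iff', Affine.nonsingular_iff', equation_vc]
  have hv := uinv_ne_zero C
  have h3 : (↑C.u⁻¹ : F) ^ 3 ≠ 0 := pow_ne_zero _ hv
  have h4 : (↑C.u⁻¹ : F) ^ 4 ≠ 0 := pow_ne_zero _ hv
  have keyY : 2 * vcY C x y + (C • W).a₁ * vcX C x + (C • W).a₃ =
      (↑C.u⁻¹ : F) ^ 3 * (2 * y + W.a₁ * x + W.a₃) := by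
    simp only [variableChange_a₁, variableChange_a₃, vcX, vcY]
    ring
  have keyX : (C • W).a₁ * vcY C x y - (3 * vcX C x ^ 2 + 2 * (C • W).a₂ * vcX C x + (C • W).a₄) =
      (↑C.u⁻¹ : F) ^ 4 * ((W.a₁ * y - (3 * x ^ 2 + 2 * W.a₂ * x + W.a₄)) +
        C.s * (2 * y + W.a₁ * x + W.a₃)) := by
    simp only [variableChange_a₁, variableChange_a₂, variableChange_a₄, vcX, vcY]
    ring
  refine and_congr_right fun _ => ?_
  rw [keyX, keyY]
  constructor
  · intro h
    by_contra hcon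
    rw [not_or, not_not, not_not] at hcon
    obtain ⟨h1, h2⟩ := hcon
    rcases h with h | h
    · exact h (by rw [h1, h2]; ring)
    · exact h (by rw [h2]; ring)
  · intro h
    by_contra hcon
    rw [not_or, not_not, not_not] at hcon
    obtain ⟨h1, h2⟩ := hcon
    have h2' : 2 * y + W.a₁ * x + W.a₃ = 0 := (mul_eq_zero.mp h2).resolve_left h3
    have h1' := (mul_eq_zero.mp h1).resolve_left h4
    rw [h2', mul_zero, add_zero] at h1'
    rcases h with h | h
    · exact h h1'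
    · exact h h2'

lemma addX_vc (x₁ x₂ ℓ : F) :
    (C • W).toAffine.addX (vcX C x₁) (vcX C x₂) (↑C.u⁻¹ * (ℓ - C.s)) =
      vcX C (W.toAffine.addX x₁ x₂ ℓ) := by
  simp only [Affine.addX, variableChange_a₁, variableChange_a₂, vcX]
  ring

lemma addY_vc (x₁ x₂ y₁ ℓ : F) :
    (C • W).toAffine.addY (vcX C x₁) (vcX C x₂) (vcY C x₁ y₁) (↑C.u⁻¹ * (ℓ - C.s)) =
      vcY C (W.toAffine.addX x₁ x₂ ℓ) (W.toAffine.addY x₁ x₂ y₁ ℓ) := by
  simp only [Affine.addY, Affine.negAddY, Affine.negY, Affine.addX, variableChange_a₁,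
    variableChange_a₂, variableChange_a₃, vcX, vcY]
  ring

variable [DecidableEq F]

lemma slope_vc {x₁ x₂ y₁ y₂ : F} (h₁ : W.toAffine.Equation x₁ y₁)
    (h₂ : W.toAffine.Equation x₂ y₂) (hxy : ¬(x₁ = x₂ ∧ y₁ = W.toAffine.negY x₂ y₂)) :
    (C • W).toAffine.slope (vcX C x₁) (vcX C x₂) (vcY C x₁ y₁) (vcY C x₂ y₂) =
      ↑C.u⁻¹ * (W.toAffine.slope x₁ x₂ y₁ y₂ - C.s) := by
  have hv := uinv_ne_zero C
  by_cases hx : x₁ = x₂
  · have hy : y₁ ≠ W.toAffine.negY x₂ y₂ := fun h => hxy ⟨hx, h⟩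
    have hyy : y₁ = y₂ := Affine.Y_eq_of_Y_ne h₁ h₂ hx hy
    subst hx
    subst hyy
    have hy' : vcY C x₁ y₁ ≠ (C • W).toAffine.negY (vcX C x₁) (vcY C x₁ y₁) := by
      rw [negY_vc]
      exact fun h => hy (vcY_injective C x₁ h)
    rw [Affine.slope_of_Y_ne rfl hy, Affine.slope_of_Y_ne rfl hy', negY_vc]
    have hd : y₁ - W.toAffine.negY x₁ y₁ ≠ 0 := sub_ne_zero.mpr hy
    have h3 : (↑C.u⁻¹ : F) ^ 3 ≠ 0 := pow_ne_zero _ hv
    have hden : vcY C x₁ y₁ - vcY C x₁ (W.toAffine.negY x₁ y₁) =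
        (↑C.u⁻¹ : F) ^ 3 * (y₁ - W.toAffine.negY x₁ y₁) := by
      simp only [vcY]
      ring
    have hnum : 3 * vcX C x₁ ^ 2 + 2 * (C • W).toAffine.a₂ * vcX C x₁ + (C • W).toAffine.a₄ -
        (C • W).toAffine.a₁ * vcY C x₁ y₁ =
        (↑C.u⁻¹ : F) ^ 4 * ((3 * x₁ ^ 2 + 2 * W.a₂ * x₁ + W.a₄ - W.a₁ * y₁) -
          C.s * (y₁ - W.toAffine.negY x₁ y₁)) := by
      simp only [variableChange_a₁, variableChange_a₂, variableChange_a₄, vcX, vcY, Affine.negY]
      ring
    rw [hden, hnum, div_eq_iff (mul_ne_zero h3 hd)]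
    have hc : (3 * x₁ ^ 2 + 2 * W.toAffine.a₂ * x₁ + W.toAffine.a₄ - W.toAffine.a₁ * y₁) /
        (y₁ - W.toAffine.negY x₁ y₁) * (y₁ - W.toAffine.negY x₁ y₁) =
        3 * x₁ ^ 2 + 2 * W.toAffine.a₂ * x₁ + W.toAffine.a₄ - W.toAffine.a₁ * y₁ :=
      div_mul_cancel₀ _ hd
    linear_combination (-(↑C.u⁻¹ : F) ^ 4) * hc
  · have hx' : vcX C x₁ ≠ vcX C x₂ := fun h => hx (vcX_injective C h)
    rw [Affine.slope_of_X_ne hx, Affine.slope_of_X_ne hx']
    have hd : x₁ - x₂ ≠ 0 := sub_ne_zero.mpr hx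
    have h2 : (↑C.u⁻¹ : F) ^ 2 ≠ 0 := pow_ne_zero _ hv
    have hden : vcX C x₁ - vcX C x₂ = (↑C.u⁻¹ : F) ^ 2 * (x₁ - x₂) := by
      simp only [vcX]
      ring
    have hnum : vcY C x₁ y₁ - vcY C x₂ y₂ =
        (↑C.u⁻¹ : F) ^ 3 * ((y₁ - y₂) - C.s * (x₁ - x₂)) := by
      simp only [vcY]
      ring
    rw [hden, hnum, div_eq_iff (mul_ne_zero h2 hd)]
    have hc : (y₁ - y₂) / (x₁ - x₂) * (x₁ - x₂) = y₁ - y₂ := div_mul_cancel₀ _ hd
    linear_combination (-(↑C.u⁻¹ : F) ^ 3) * hc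

/-- The map on points induced by a change of variables, with target any curve equal to `C • W`. -/
def vcPt {W W' : WeierstrassCurve F} (C : VariableChange F) (h : C • W = W') :
    W.toAffine.Point → W'.toAffine.Point
  | .zero => 0
  | .some x y hxy => .some (vcX C x) (vcY C x y) (h ▸ (nonsingular_vc W C x y).mpr hxy)

omit [DecidableEq F] in
lemma vcPt_zero {W W' : WeierstrassCurve F} (C : VariableChange F) (h : C • W = W') :
    vcPt C h (0 : W.toAffine.Point) = 0 := rfl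

omit [DecidableEq F] in
lemma vcPt_some {W W' : WeierstrassCurve F} (C : VariableChange F) (h : C • W = W') {x y : F}
    (hxy : W.toAffine.Nonsingular x y) :
    vcPt C h (Affine.Point.some x y hxy) =
      Affine.Point.some (vcX C x) (vcY C x y) (h ▸ (nonsingular_vc W C x y).mpr hxy) := rfl

lemma vcPt_add {W W' : WeierstrassCurve F} (C : VariableChange F) (h : C • W = W')
    (P Q : W.toAffine.Point) : vcPt C h (P + Q) = vcPt C h P + vcPt C h Q := by
  subst h
  rcases P with _ | ⟨x₁, y₁, h₁⟩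
  · change vcPt C rfl (0 + Q) = 0 + vcPt C rfl Q
    rw [zero_add, zero_add]
  rcases Q with _ | ⟨x₂, y₂, h₂⟩
  · change vcPt C rfl (Affine.Point.some x₁ y₁ h₁ + 0) = vcPt C rfl (Affine.Point.some x₁ y₁ h₁) + 0
    rw [add_zero, add_zero]
  by_cases hxy : x₁ = x₂ ∧ y₁ = W.toAffine.negY x₂ y₂
  · rw [Affine.Point.add_of_Y_eq hxy.1 hxy.2, vcPt_zero, vcPt_some, vcPt_some,
      Affine.Point.add_of_Y_eq (congrArg _ hxy.1) (by rw [negY_vc, hxy.2, hxy.1])]
  · have hxy' : ¬(vcX C x₁ = vcX C x₂ ∧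
        vcY C x₁ y₁ = (C • W).toAffine.negY (vcX C x₂) (vcY C x₂ y₂)) := by
      rintro ⟨hx, hy⟩
      have hx' := vcX_injective C hx
      subst hx'
      rw [negY_vc] at hy
      exact hxy ⟨rfl, vcY_injective C x₁ hy⟩
    rw [Affine.Point.add_some hxy, vcPt_some, vcPt_some, vcPt_some, Affine.Point.add_some hxy']
    have hs := slope_vc W C h₁.1 h₂.1 hxy
    congr 1
    · rw [hs, addX_vc]
    · rw [hs, addY_vc]

omit [DecidableEq F] in
lemma vcPt_injective {W W' : WeierstrassCurve F} (C : VariableChange F) (h : C • W = W') :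
    Function.Injective (vcPt C h) := by
  subst h
  rintro (_ | ⟨x₁, y₁, h₁⟩) (_ | ⟨x₂, y₂, h₂⟩) hPQ
  · rfl
  · exact absurd hPQ (by rw [vcPt_some]; exact (Affine.Point.some_ne_zero _).symm)
  · exact absurd hPQ (by rw [vcPt_some]; exact Affine.Point.some_ne_zero _)
  · rw [vcPt_some, vcPt_some, Affine.Point.some.injEq] at hPQ
    obtain ⟨hx, hy⟩ := hPQ
    have hx' := vcX_injective C hx
    subst hx'
    have hy' := vcY_injective C x₁ hy
    subst hy'
    rfl

omit [DecidableEq F] in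
lemma vcPt_surjective {W W' : WeierstrassCurve F} (C : VariableChange F) (h : C • W = W') :
    Function.Surjective (vcPt C h) := by
  subst h
  rintro (_ | ⟨x', y', h'⟩)
  · exact ⟨0, rfl⟩
  · have huv := u_mul_uinv C
    have hX : vcX C ((↑C.u : F) ^ 2 * x' + C.r) = x' := by
      simp only [vcX]
      linear_combination (x' * ((↑C.u : F) * (↑C.u⁻¹ : F) + 1)) * huv
    have hY : vcY C ((↑C.u : F) ^ 2 * x' + C.r)
        ((↑C.u : F) ^ 3 * y' + C.s * (↑C.u : F) ^ 2 * x' + C.t) = y' := by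
      simp only [vcY]
      linear_combination (y' * (((↑C.u : F) * (↑C.u⁻¹ : F)) ^ 2 + (↑C.u : F) * (↑C.u⁻¹ : F) + 1))
        * huv
    have hns : W.toAffine.Nonsingular ((↑C.u : F) ^ 2 * x' + C.r)
        ((↑C.u : F) ^ 3 * y' + C.s * (↑C.u : F) ^ 2 * x' + C.t) := by
      rw [← nonsingular_vc W C, hX, hY]
      exact h'
    refine ⟨Affine.Point.some _ _ hns, ?_⟩
    rw [vcPt_some, Affine.Point.some.injEq]
    exact ⟨hX, hY⟩

/-- The additive equivalence on points induced by a change of variables. -/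
noncomputable def vcEquiv {W W' : WeierstrassCurve F} (C : VariableChange F) (h : C • W = W') :
    W.toAffine.Point ≃+ W'.toAffine.Point :=
  AddEquiv.ofBijective
    ({ toFun := vcPt C h
       map_zero' := vcPt_zero C h
       map_add' := vcPt_add C h } : W.toAffine.Point →+ W'.toAffine.Point)
    ⟨vcPt_injective C h, vcPt_surjective C h⟩

lemma vcEquiv_apply {W W' : WeierstrassCurve F} (C : VariableChange F) (h : C • W = W')
    (P : W.toAffine.Point) : vcEquiv C h P = vcPt C h P := rfl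

end Field

section Galois

open WeierstrassCurve.Affine

variable {F K : Type*} [Field F] [Field K] [DecidableEq K] [Algebra F K]

omit [DecidableEq K] in
lemma baseChange_smul_eq {E E' : WeierstrassCurve F} (C : VariableChange F) (h : C • E = E') :
    (C.baseChange K) • (E.baseChange K) = E'.baseChange K := by
  rw [← h]
  exact map_variableChange E C (algebraMap F K)

omit [DecidableEq K] in
lemma algEquiv_vcX (C : VariableChange F) (σ : K ≃ₐ[F] K) (x : K) :
    σ (vcX (C.baseChange K) x) = vcX (C.baseChange K) (σ x) := by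
  simp only [vcX, VariableChange.baseChange, VariableChange.map, Units.coe_map_inv,
    MonoidHom.coe_coe, map_mul, map_pow, map_sub, AlgEquiv.commutes]

omit [DecidableEq K] in
lemma algEquiv_vcY (C : VariableChange F) (σ : K ≃ₐ[F] K) (x y : K) :
    σ (vcY (C.baseChange K) x y) = vcY (C.baseChange K) (σ x) (σ y) := by
  simp only [vcY, VariableChange.baseChange, VariableChange.map, Units.coe_map_inv,
    MonoidHom.coe_coe, map_mul, map_pow, map_sub, AlgEquiv.commutes]

/-- The point map of a change of variables defined over `F` commutes with `Gal(K/F)`. -/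
lemma vcPt_smul {E E' : WeierstrassCurve F} (C : VariableChange F) (h : C • E = E')
    (σ : K ≃ₐ[F] K) (P : (E⁄K).Point) :
    vcPt (W := E.baseChange K) (W' := E'.baseChange K) (C.baseChange K)
        (baseChange_smul_eq C h) (σ • P) =
      σ • vcPt (W := E.baseChange K) (W' := E'.baseChange K) (C.baseChange K)
        (baseChange_smul_eq C h) P := by
  rcases P with _ | ⟨x, y, hxy⟩
  · rfl
  · rw [Affine.Point.algEquiv_smul_def, Affine.Point.algEquiv_smul_def, vcPt_some]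
    erw [Affine.Point.map_some, Affine.Point.map_some]
    rw [vcPt_some, Affine.Point.some.injEq]
    exact ⟨(algEquiv_vcX C σ x).symm, (algEquiv_vcY C σ x y).symm⟩

/-- **Block VC.** A change of variables over `F` induces a `Gal(K/F)`-equivariant additive
equivalence between the groups of `K`-points. -/
theorem exists_equiv {E E' : WeierstrassCurve F} (C : VariableChange F) (h : C • E = E') :
    ∃ φ : (E⁄K).Point ≃+ (E'⁄K).Point,
      ∀ (σ : K ≃ₐ[F] K) (P : (E⁄K).Point), φ (σ • P) = σ • φ P :=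
  ⟨vcEquiv (W := E.baseChange K) (W' := E'.baseChange K) (C.baseChange K)
    (baseChange_smul_eq C h), fun σ P => vcPt_smul C h σ P⟩

/-- Transfer of "no nonzero fixed `p`-torsion point" along a change of variables. -/
theorem no_fixed_torsion_of_variableChange {E E' : WeierstrassCurve F} (C : VariableChange F)
    (h : C • E = E') (p : ℕ) (σ : K ≃ₐ[F] K)
    (hfix : ∀ P : (E⁄K).Point, p • P = 0 → σ • P = P → P = 0) :
    ∀ P : (E'⁄K).Point, p • P = 0 → σ • P = P → P = 0 := by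
  obtain ⟨φ, hφ⟩ := exists_equiv (K := K) C h
  intro P hpP hσP
  have h1 : p • φ.symm P = 0 := by
    apply φ.injective
    rw [map_nsmul, AddEquiv.apply_symm_apply, hpP, map_zero]
  have h2 : σ • φ.symm P = φ.symm P := by
    apply φ.injective
    rw [hφ, AddEquiv.apply_symm_apply, hσP]
  have h3 := hfix _ h1 h2
  have h4 : P = φ (φ.symm P) := (AddEquiv.apply_symm_apply φ P).symm
  rw [h4, h3, map_zero]

end Galois

end Fermat.Agent.S41_VC
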