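-- Helper for S41 (blocks RED + VC combined): for an elliptic curve `E` over `ℚ` with integral
-- model `W`, a Frobenius element at a good odd prime `ℓ ≠ p` without nonzero fixed point on
-- `E[p]` forces `a_ℓ(W) ≢ ℓ + 1 (mod p)`.
import Fermat.Agent.S41_Red
import Fermat.Agent.S41_VC

set_option autoImplicit false

namespace Fermat.Agent.S41_RedE

open WeierstrassCurve WeierstrassCurve.Affine

local notation "Qb" => AlgebraicClosure ℚ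

/-- **Blocks RED + VC.** If a Frobenius element at a good odd prime `ℓ ≠ p` of the integral model
`W` of `E` fixes no nonzero `p`-torsion point of `E`, then `p ∤ ℓ + 1 - a_ℓ(W)`. -/
theorem not_dvd_of_no_fixed_torsion (E : WeierstrassCurve ℚ) {W : WeierstrassCurve ℤ}
    (hW : W.IsIntegralModelOf E) {p ℓ : ℕ} (hp : p.Prime)
    (hp2 : p ≠ 2) (hℓ : ℓ.Prime) (hℓ2 : ℓ ≠ 2) (hpℓ : p ≠ ℓ) (hgood : ¬ (ℓ : ℤ) ∣ W.Δ)
    {A : ValuationSubring Qb} (hA : A.LiesOverPrime ℓ)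
    {σ : Qb ≃ₐ[ℚ] Qb} (hσ : A.IsFrobeniusAt σ ℓ)
    (hfix : ∀ P : (E⁄Qb).Point, p • P = 0 → σ • P = P → P = 0) :
    ¬ (p : ℤ) ∣ (ℓ : ℤ) + 1 - W.apOfModel ℓ := by
  obtain ⟨C, hC⟩ := hW
  exact Fermat.Agent.S41_Red.not_dvd_of_no_fixed_torsion W hp hp2 hℓ hℓ2 hpℓ hgood hA hσ
    (Fermat.Agent.S41_VC.no_fixed_torsion_of_variableChange (K := Qb) C hC p σ hfix)

/-- The same statement in the vocabulary of `IsGoodPrimeFor`. -/
theorem not_dvd_of_no_fixed_torsion' (E : WeierstrassCurve ℚ) {W : WeierstrassCurve ℤ}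
    (hW : W.IsIntegralModelOf E) {p ℓ : ℕ} (hp : p.Prime)
    (hp2 : p ≠ 2) (hℓ : ℓ.Prime) (hℓ2 : ℓ ≠ 2) (hpℓ : p ≠ ℓ) (hgood : W.IsGoodPrimeFor ℓ)
    {A : ValuationSubring Qb} (hA : A.LiesOverPrime ℓ)
    {σ : Qb ≃ₐ[ℚ] Qb} (hσ : A.IsFrobeniusAt σ ℓ)
    (hfix : ∀ P : (E⁄Qb).Point, p • P = 0 → σ • P = P → P = 0) :
    ¬ (p : ℤ) ∣ (ℓ : ℤ) + 1 - W.apOfModel ℓ :=
  not_dvd_of_no_fixed_torsion E hW hp hp2 hℓ hℓ2 hpℓ hgood hA hσ hfix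

end Fermat.Agent.S41_RedE
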