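-- Helper for S41 (block FD1): for an elliptic curve `E` over `ℚ` with irreducible mod `p`
-- representation and integral model `W`, and a prime `q`, there are primes `r`, `D` outside any
-- finite set with `r ∣ D - 1`, `q ^ ((D - 1) / r) ≠ 1` mod `D`, `W` good at `D` and
-- `p ∤ D + 1 - a_D(W)`.  (Relative to the Chebotarev-lite statement `ChebStatement`.)
import Fermat.Agent.S41_FDa
import Fermat.Agent.S41_KumF
import Fermat.Agent.S41_RedE

set_option autoImplicit false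

namespace Fermat.Agent.S41_FD

open WeierstrassCurve WeierstrassCurve.Affine Fermat.Agent.S41_Cyc Fermat.Agent.S41_FDa

local notation "Qb" => AlgebraicClosure ℚ

attribute [local instance] qbIsAlgebraic qbIsAlgClosure

/-- The Chebotarev-lite statement (block CHEB) on which FD1 depends: in a finite Galois
extension `M` of `ℚ` inside `Qb`, if `σ` has order dividing `r ^ a * l ^ b` on `M` (`r ≠ l`
primes), then some Frobenius element at a prime `D` outside any finite set acts on `M` as a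
power `σ ^ k` with `k` prime to `r * l`. -/
def ChebStatement : Prop :=
  ∀ (M : IntermediateField ℚ Qb) [FiniteDimensional ℚ M] [Normal ℚ M] (σ : Qb ≃ₐ[ℚ] Qb)
    {r l : ℕ}, r.Prime → l.Prime → r ≠ l → ∀ (a b : ℕ),
    (∀ x ∈ M, (σ ^ (r ^ a * l ^ b)) x = x) → ∀ (S : Finset ℕ),
    ∃ (D : ℕ) (A : ValuationSubring Qb) (φ : Qb ≃ₐ[ℚ] Qb) (k : ℕ), D.Prime ∧ D ∉ S ∧
      A.LiesOverPrime D ∧ A.IsFrobeniusAt φ D ∧ k.Coprime (r * l) ∧ ∀ x ∈ M, φ x = (σ ^ k) x

/-- The discriminant of an integral model of an elliptic curve is nonzero. -/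
theorem model_Δ_ne_zero (E : WeierstrassCurve ℚ) [E.IsElliptic] {W : WeierstrassCurve ℤ}
    (hW : W.IsIntegralModelOf E) : W.Δ ≠ 0 := by
  obtain ⟨C, hC⟩ := hW
  intro h
  have h1 : (W.map (Int.castRingHom ℚ)).Δ = 0 := by rw [WeierstrassCurve.map_Δ, h, map_zero]
  rw [← hC, variableChange_Δ] at h1
  have h2 : E.Δ ≠ 0 := E.isUnit_Δ.ne_zero
  have h3 : ((C.u⁻¹ : ℚˣ) : ℚ) ≠ 0 := Units.ne_zero _
  exact absurd h1 (mul_ne_zero (pow_ne_zero _ h3) h2)

/-- **Block FD1** (relative to CHEB). -/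
theorem fd1_of_cheb (hcheb : ChebStatement) (E : WeierstrassCurve ℚ) [E.IsElliptic]
    {W : WeierstrassCurve ℤ} (hW : W.IsIntegralModelOf E) {p : ℕ} (hp : p.Prime) (hp2 : p ≠ 2)
    (hirr : Affine.Point.GaloisRepIsIrreducible (K := Qb) ℚ E p) {q : ℕ} (hq : q.Prime)
    (S : Finset ℕ) :
    ∃ r D : ℕ, r.Prime ∧ D.Prime ∧ r ∉ S ∧ D ∉ S ∧ r ≠ 2 ∧ D ≠ 2 ∧ r ≠ D ∧ r ∣ D - 1 ∧
      (q : ZMod D) ^ ((D - 1) / r) ≠ 1 ∧ W.IsGoodPrimeFor D ∧
      ¬ (p : ℤ) ∣ (D : ℤ) + 1 - W.apOfModel D := by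
  classical
  -- GT
  obtain ⟨σ₀, r₀, a, hr₀, hpow, hfix⟩ := Fermat.Agent.S41_GTE.exists_fpf E hp hp2 hirr
  -- DISJ
  have hfi : (torsKer E p).FiniteIndex := torsKer_finiteIndex E hp hp2
  obtain ⟨ℓ, ζ, α, σ, c, hℓ, hBℓ, hζ, hα, hσR, hσζ, hσα, hcℓ⟩ :=
    Fermat.Agent.S41_Kum.exists_sigma (torsKer E p) σ₀ hq (max (max r₀ 2) (S.sup id))
  have hℓr₀ : r₀ < ℓ := lt_of_le_of_lt (le_trans (le_max_left _ _) (le_max_left _ _)) hBℓ
  have hℓ2 : 2 < ℓ := lt_of_le_of_lt (le_trans (le_max_right _ _) (le_max_left _ _)) hBℓ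
  have hℓS : ℓ ∉ S := by
    intro hmem
    have h1 : ℓ ≤ S.sup id := Finset.le_sup (f := id) hmem
    have h2 : S.sup id < ℓ := lt_of_le_of_lt (le_max_right _ _) hBℓ
    omega
  have hσpow : ∀ (n : ℕ) (P : (E⁄Qb).Point), p • P = 0 → σ ^ n • P = σ₀ ^ n • P :=
    fun n => pow_smul_eq E hσR n
  -- powers of `σ` on `ζ` and `α`
  have hσζn : ∀ n : ℕ, (σ ^ n) ζ = ζ := by
    intro n
    induction n with
    | zero => rfl
    | succ n ih => rw [pow_succ, AlgEquiv.mul_apply, hσζ, ih]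
  have hσαn : ∀ n : ℕ, (σ ^ n) α = ζ ^ (c * n) * α := by
    intro n
    induction n with
    | zero => simp
    | succ n ih =>
      rw [pow_succ, AlgEquiv.mul_apply, hσα, map_mul, map_pow, hσζn, ih, ← mul_assoc, ← pow_add]
      congr 2
      ring
  have hα0 : α ≠ 0 := by
    intro h
    rw [h, zero_pow hℓ.ne_zero] at hα
    exact (Nat.cast_ne_zero.mpr hq.ne_zero) hα.symm
  have : NeZero ℓ := ⟨hℓ.ne_zero⟩
  -- the field
  have hfd : FiniteDimensional ℚ (genField E p ℓ q) :=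
    genField_finiteDimensional E hp hp2 hℓ.pos q
  have hnorm : Normal ℚ (genField E p ℓ q) := genField_normal E p ℓ q
  -- the order of `σ` on the field
  have hσ₀pow : ∀ (n : ℕ) (P : (E⁄Qb).Point), p • P = 0 → (σ₀ ^ (r₀ ^ a * n)) • P = P := by
    intro n
    induction n with
    | zero => intro P _; simp
    | succ n ih =>
      intro P hP
      rw [Nat.mul_succ, pow_add, mul_smul, hpow P hP, ih P hP]
  have hord : ∀ x ∈ genField E p ℓ q, (σ ^ (r₀ ^ a * ℓ ^ 1)) x = x := by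
    apply fixes_genField E
    rintro t ((ht | ht) | ht)
    · refine fixes_coord E (fun P hP => ?_) ht
      rw [hσpow _ P hP, pow_one]
      exact hσ₀pow ℓ P hP
    · have ht' : t ^ ℓ = 1 := ht
      obtain ⟨i, -, rfl⟩ := hζ.eq_pow_of_pow_eq_one ht'
      rw [map_pow, hσζn]
    · have ht' : t ^ ℓ = (q : Qb) := ht
      have h1 : (t / α) ^ ℓ = 1 := by
        rw [div_pow, ht', hα, div_self (Nat.cast_ne_zero.mpr hq.ne_zero)]
      obtain ⟨i, -, hi⟩ := hζ.eq_pow_of_pow_eq_one h1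
      have ht2 : t = ζ ^ i * α := by rw [hi, div_mul_cancel₀ _ hα0]
      rw [ht2, map_mul, map_pow, hσζn, hσαn, pow_one]
      have : ζ ^ (c * (r₀ ^ a * ℓ)) = 1 := by
        rw [show c * (r₀ ^ a * ℓ) = ℓ * (c * r₀ ^ a) by ring, pow_mul, hζ.pow_eq_one, one_pow]
      rw [this, one_mul]
  -- CHEB
  have hΔ : W.Δ ≠ 0 := model_Δ_ne_zero E hW
  obtain ⟨D, A, φ, k, hD, hDS, hA, hφ, hk, hφσ⟩ :=
    hcheb (genField E p ℓ q) σ hr₀ hℓ (by omega) a 1 hord
      (S ∪ {2, p, q, ℓ} ∪ W.Δ.natAbs.primeFactors)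
  rw [Finset.mem_union, Finset.mem_union, not_or, not_or] at hDS
  obtain ⟨⟨hDS1, hDS2⟩, hDS3⟩ := hDS
  simp only [Finset.mem_insert, Finset.mem_singleton, not_or] at hDS2
  obtain ⟨hD2, hDp, hDq, hDℓ⟩ := hDS2
  have hgood : W.IsGoodPrimeFor D := by
    intro hdvd
    apply hDS3
    rw [Nat.mem_primeFactors]
    refine ⟨hD, ?_, Int.natAbs_ne_zero.mpr hΔ⟩
    exact Int.natCast_dvd_natCast.mp (by rw [Int.natCast_natAbs]; exact (dvd_abs _ _).mpr hdvd)
  have hkr₀ : k.Coprime r₀ := Nat.Coprime.coprime_mul_right_right hk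
  have hkℓ : k.Coprime ℓ := Nat.Coprime.coprime_mul_left_right hk
  -- the Frobenius element has no fixed point on `E[p]`
  have hφP : ∀ P : (E⁄Qb).Point, p • P = 0 → φ • P = σ₀ ^ k • P := by
    intro P hP
    rw [smul_eq_of_eq_on E hφσ P hP, hσpow k P hP]
  have hσ₀k : ∀ (n : ℕ) (P : (E⁄Qb).Point), p • P = 0 → σ₀ ^ k • P = P →
      (σ₀ ^ (k * n)) • P = P := by
    intro n
    induction n with
    | zero => intro P _ _; simp
    | succ n ih =>
      intro P hP hkP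
      rw [Nat.mul_succ, pow_add, mul_smul, hkP, ih P hP hkP]
  have hfixφ : ∀ P : (E⁄Qb).Point, p • P = 0 → φ • P = P → P = 0 := by
    intro P hP hφPeq
    rw [hφP P hP] at hφPeq
    apply hfix P hP
    by_cases ha1 : r₀ ^ a = 1
    · have := hpow P hP
      rw [ha1, pow_one] at this
      exact this
    · have h1lt : 1 < r₀ ^ a := by
        have := Nat.pos_of_ne_zero (pow_ne_zero a hr₀.ne_zero)
        omega
      have hcop : k.Coprime (r₀ ^ a) := Nat.Coprime.pow_right a hkr₀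
      obtain ⟨k', -, hk'⟩ := Nat.exists_mul_mod_eq_one_of_coprime hcop h1lt
      have hdiv : k * k' = r₀ ^ a * (k * k' / r₀ ^ a) + 1 := by
        have := Nat.div_add_mod (k * k') (r₀ ^ a)
        omega
      have h2 := hσ₀k k' P hP hφPeq
      rw [hdiv, pow_succ, mul_smul] at h2
      have h3 := hσ₀pow (k * k' / r₀ ^ a) (σ₀ • P) (torsion_smul E σ₀ hP)
      rw [h3] at h2
      exact h2
  have hnd := Fermat.Agent.S41_RedE.not_dvd_of_no_fixed_torsion' E hW hp hp2 hD hD2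
    (fun h => hDp h.symm) hgood hA hφ hfixφ
  -- KUM
  have hζM : ζ ∈ genField E p ℓ q :=
    IntermediateField.subset_adjoin ℚ _ (Or.inl (Or.inr hζ.pow_eq_one))
  have hαM : α ∈ genField E p ℓ q := IntermediateField.subset_adjoin ℚ _ (Or.inr hα)
  have hφζ : φ ζ = ζ := by rw [hφσ ζ hζM, hσζn]
  have hφα : φ α = ζ ^ (c * k) * α := by rw [hφσ α hαM, hσαn]
  have hckℓ : ¬ ℓ ∣ c * k := by
    intro h
    rcases (Nat.Prime.dvd_mul hℓ).mp h with h | h
    · exact hcℓ h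
    · have := Nat.Coprime.eq_one_of_dvd hkℓ.symm h
      exact hℓ.one_lt.ne' this
  obtain ⟨hdvd, hpowne⟩ := Fermat.Agent.S41_KumF.kummer_frob hD hℓ hDℓ hDq hq hA hφ hζ hα hφζ
    hφα hckℓ
  exact ⟨ℓ, D, hℓ, hD, hℓS, hDS1, by omega, hD2, fun h => hDℓ h.symm, hdvd, hpowne, hgood, hnd⟩

end Fermat.Agent.S41_FD
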