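-- Helper for S41 (block FD1, final form): for an elliptic curve `E` over `ℚ` with irreducible
-- mod `p` representation and integral model `W`, and a prime `q`, there are primes `r`, `D`
-- outside any finite set with `r ∣ D - 1`, `q` not an `r`-th power mod `D`, `W` good at `D` and
-- `p ∤ D + 1 - a_D(W)`.
import Fermat.Agent.S41_FD
import Fermat.Agent.S41_Cheb

set_option autoImplicit false

namespace Fermat.Agent.S41_FD1

open WeierstrassCurve WeierstrassCurve.Affine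

local notation "Qb" => AlgebraicClosure ℚ

/-- The Chebotarev-lite statement holds (helper6's `S41_Cheb.cheb`). -/
theorem chebStatement : Fermat.Agent.S41_FD.ChebStatement := by
  intro M _ _ σ r l hr hl hrl a b hord S
  exact Fermat.Agent.S41_Cheb.cheb M σ hr hl hrl a b hord S

/-- **Block FD1**, rich form. -/
theorem fd1 (E : WeierstrassCurve ℚ) [E.IsElliptic]
    {W : WeierstrassCurve ℤ} (hW : W.IsIntegralModelOf E) {p : ℕ} (hp : p.Prime) (hp2 : p ≠ 2)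
    (hirr : Affine.Point.GaloisRepIsIrreducible (K := Qb) ℚ E p) {q : ℕ} (hq : q.Prime)
    (S : Finset ℕ) :
    ∃ r D : ℕ, r.Prime ∧ D.Prime ∧ r ∉ S ∧ D ∉ S ∧ r ≠ 2 ∧ D ≠ 2 ∧ r ≠ D ∧ r ≠ p ∧ r ≠ q ∧
      D ≠ p ∧ D ≠ q ∧ r ∣ D - 1 ∧ (q : ZMod D) ^ ((D - 1) / r) ≠ 1 ∧
      (∀ b : ZMod D, b ^ r ≠ (q : ZMod D)) ∧ W.IsGoodPrimeFor D ∧
      ¬ (p : ℤ) ∣ (D : ℤ) + 1 - W.apOfModel D := by
  obtain ⟨r, D, hr, hD, hrS, hDS, hr2, hD2, hrD, hdvd, hpow, hgood, hnd⟩ :=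
    Fermat.Agent.S41_FD.fd1_of_cheb chebStatement E hW hp hp2 hirr hq (S ∪ {p, q})
  rw [Finset.mem_union, not_or] at hrS hDS
  simp only [Finset.mem_insert, Finset.mem_singleton, not_or] at hrS hDS
  have : Fact D.Prime := ⟨hD⟩
  refine ⟨r, D, hr, hD, hrS.1, hDS.1, hr2, hD2, hrD, hrS.2.1, hrS.2.2, hDS.2.1, hDS.2.2, hdvd,
    hpow, fun b hb => hpow ?_, hgood, hnd⟩
  obtain ⟨m, hm⟩ := hdvd
  have hm' : (D - 1) / r = m := by rw [hm, Nat.mul_div_cancel_left _ hr.pos]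
  have hb0 : b ≠ 0 := by
    intro h0
    rw [h0, zero_pow hr.ne_zero] at hb
    have h1 : (D : ℕ) ∣ q := (ZMod.natCast_eq_zero_iff q D).mp hb.symm
    exact hDS.2.2 ((Nat.prime_dvd_prime_iff_eq hD hq).mp h1)
  rw [hm', ← hb, ← pow_mul, ← hm]
  exact ZMod.pow_card_sub_one_eq_one hb0

/-- **Block FD1**, in the shape consumed by the END block. -/
theorem fd1' (E : WeierstrassCurve ℚ) [E.IsElliptic]
    {W : WeierstrassCurve ℤ} (hW : W.IsIntegralModelOf E) {p : ℕ} (hp : p.Prime) (hp2 : p ≠ 2)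
    (hirr : Affine.Point.GaloisRepIsIrreducible (K := Qb) ℚ E p) {q' : ℕ} (hq' : q'.Prime)
    (S : Finset ℕ) :
    ∃ l' D : ℕ, l'.Prime ∧ D.Prime ∧ l' ∉ S ∧ D ∉ S ∧ l' ∣ D - 1 ∧
      (∀ b : ZMod D, b ^ l' ≠ (q' : ZMod D)) ∧ W.IsGoodPrimeFor D ∧
      ¬ (p : ℤ) ∣ (D : ℤ) + 1 - W.apOfModel D := by
  obtain ⟨r, D, hr, hD, hrS, hDS, -, -, -, -, -, -, -, hdvd, -, hpow, hgood, hnd⟩ :=
    fd1 E hW hp hp2 hirr hq' S
  exact ⟨r, D, hr, hD, hrS, hDS, hdvd, hpow, hgood, hnd⟩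

end Fermat.Agent.S41_FD1
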