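import Mathlib

set_option autoImplicit false

/-!
Abstract algebra behind the Deligne–Serre lifting lemma: a commuting family of
operators on a finite dimensional complex vector space, a prime ideal of the ring
they generate, and a common eigenvector whose eigenvalue system has kernel inside
the prime.
-/

namespace Fermat.Agent.S49_DS

open Module

section subspace

variable {V : Type*} [AddCommGroup V] [Module ℂ V] [FiniteDimensional ℂ V]
variable {R : Type*} [CommRing R]

/-- A nonzero invariant subspace on which every operator of a commuting ring acts by a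
scalar, with annihilator inside a given prime ideal. -/
theorem exists_scalar_subspace (ι : R →+* Module.End ℂ V) (𝔫 : Ideal R) [h𝔫 : 𝔫.IsPrime] :
    ∀ W : Submodule ℂ V, W ≠ ⊥ → (∀ T : R, ∀ w ∈ W, ι T w ∈ W) →
      (∀ T : R, (∀ w ∈ W, ι T w = 0) → T ∈ 𝔫) →
      ∃ W' : Submodule ℂ V, W' ≠ ⊥ ∧ (∀ T : R, (∀ w ∈ W', ι T w = 0) → T ∈ 𝔫) ∧
        ∀ T : R, ∃ c : ℂ, ∀ w ∈ W', ι T w = c • w := by
  intro W
  induction W using WellFoundedLT.induction with
  | ind W ih =>
    intro hW hstab hann
    by_cases hsc : ∀ T : R, ∃ c : ℂ, ∀ w ∈ W, ι T w = c • w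
    · exact ⟨W, hW, hann, hsc⟩
    · push Not at hsc
      obtain ⟨T, hTns⟩ := hsc
      have hcomm : ∀ S T : R, ∀ x : V, ι S (ι T x) = ι T (ι S x) := by
        intro S T x
        have h1 : ι (S * T) x = ι (T * S) x := by rw [mul_comm]
        simpa [map_mul] using h1
      -- restrict T to W and pick an eigenvalue
      let T' : Module.End ℂ W := (ι T).restrict (hstab T)
      have : Nontrivial W := Submodule.nontrivial_iff_ne_bot.mpr hW
      obtain ⟨μ, hμ⟩ := Module.End.exists_eigenvalue T'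
      obtain ⟨v, hv⟩ := hμ.exists_hasEigenvector
      have hv1 : T' v = μ • v := Module.End.mem_eigenspace_iff.mp hv.1
      have hv2 : v ≠ 0 := hv.2
      have hv3 : ι T (v : V) = μ • (v : V) := by
        have := congrArg Subtype.val hv1
        simpa [T'] using this
      obtain ⟨D, hD⟩ : ∃ D : Module.End ℂ V, ∀ x, D x = ι T x - μ • x :=
        ⟨ι T - μ • LinearMap.id, fun x => by simp⟩
      have hDstab : ∀ w ∈ W, D w ∈ W := fun w hw => by
        rw [hD]; exact W.sub_mem (hstab T w hw) (W.smul_mem μ hw)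
      have hDcomm : ∀ S : R, ∀ x, D (ι S x) = ι S (D x) := fun S x => by
        rw [hD, hD, map_sub, map_smul, hcomm T S]
      obtain ⟨W₁, hW₁⟩ : ∃ W₁ : Submodule ℂ V, ∀ x, x ∈ W₁ ↔ x ∈ W ∧ D x = 0 :=
        ⟨W ⊓ LinearMap.ker D, fun x => by simp⟩
      obtain ⟨W₂, hW₂⟩ : ∃ W₂ : Submodule ℂ V, ∀ x, x ∈ W₂ ↔ ∃ w ∈ W, D w = x :=
        ⟨W.map D, fun x => by simp⟩
      -- some vector of W is not killed by D
      obtain ⟨w₀, hw₀W, hw₀⟩ : ∃ w ∈ W, D w ≠ 0 := by
        obtain ⟨w, hw, hne⟩ := hTns μ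
        exact ⟨w, hw, fun h0 => hne (by rw [hD] at h0; exact sub_eq_zero.mp h0)⟩
      have hW₁le : W₁ ≤ W := fun x hx => ((hW₁ x).mp hx).1
      have hW₁lt : W₁ < W := by
        refine lt_of_le_of_ne hW₁le fun heq => hw₀ ?_
        have : w₀ ∈ W₁ := by rw [heq]; exact hw₀W
        exact ((hW₁ w₀).mp this).2
      have hW₁ne : W₁ ≠ ⊥ := by
        intro hbot
        have hmem : (v : V) ∈ W₁ := (hW₁ _).mpr ⟨v.2, by rw [hD, hv3, sub_self]⟩
        rw [hbot, Submodule.mem_bot] at hmem
        exact hv2 (Subtype.ext hmem)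
      have hW₂le : W₂ ≤ W := by
        intro x hx
        obtain ⟨w, hw, rfl⟩ := (hW₂ x).mp hx
        exact hDstab w hw
      have hW₂ne : W₂ ≠ ⊥ := by
        intro hbot
        have hmem : D w₀ ∈ W₂ := (hW₂ _).mpr ⟨w₀, hw₀W, rfl⟩
        rw [hbot, Submodule.mem_bot] at hmem
        exact hw₀ hmem
      have hW₂lt : W₂ < W := by
        refine lt_of_le_of_ne hW₂le fun heq => ?_
        -- D restricted to W is surjective, hence injective, but it kills v
        obtain ⟨D', hD'⟩ : ∃ D' : Module.End ℂ W, ∀ x : W, ((D' x : W) : V) = D (x : V) :=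
          ⟨D.restrict hDstab, fun x => rfl⟩
        have hsurj : Function.Surjective D' := by
          intro y
          have hy : (y : V) ∈ W₂ := by rw [heq]; exact y.2
          obtain ⟨x, hx, hxy⟩ := (hW₂ _).mp hy
          exact ⟨⟨x, hx⟩, Subtype.ext (by rw [hD']; exact hxy)⟩
        have hinj : Function.Injective D' := LinearMap.injective_iff_surjective.mpr hsurj
        have h0 : D' v = 0 := by
          apply Subtype.ext
          rw [hD', hD, hv3, sub_self]; rfl
        exact hv2 (hinj (by rw [h0, map_zero]))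
      have hstab₁ : ∀ S : R, ∀ w ∈ W₁, ι S w ∈ W₁ := fun S w hw =>
        (hW₁ _).mpr ⟨hstab S w ((hW₁ w).mp hw).1, by
          rw [hDcomm, ((hW₁ w).mp hw).2, map_zero]⟩
      have hstab₂ : ∀ S : R, ∀ w ∈ W₂, ι S w ∈ W₂ := by
        intro S x hx
        obtain ⟨w, hw, rfl⟩ := (hW₂ x).mp hx
        exact (hW₂ _).mpr ⟨ι S w, hstab S w hw, hDcomm S w⟩
      by_cases hann₁ : ∀ S : R, (∀ w ∈ W₁, ι S w = 0) → S ∈ 𝔫
      · exact ih W₁ hW₁lt hW₁ne hstab₁ hann₁
      · by_cases hann₂ : ∀ S : R, (∀ w ∈ W₂, ι S w = 0) → S ∈ 𝔫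
        · exact ih W₂ hW₂lt hW₂ne hstab₂ hann₂
        · exfalso
          push Not at hann₁ hann₂
          obtain ⟨S₁, hS₁, hS₁n⟩ := hann₁
          obtain ⟨S₂, hS₂, hS₂n⟩ := hann₂
          have hprod : S₁ * S₂ ∈ 𝔫 := by
            apply hann
            intro w hw
            rw [map_mul, Module.End.mul_apply]
            apply hS₁
            refine (hW₁ _).mpr ⟨hstab S₂ w hw, ?_⟩
            rw [hDcomm]
            exact hS₂ _ ((hW₂ _).mpr ⟨w, hw, rfl⟩)
          rcases h𝔫.mem_or_mem hprod with h | h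
          · exact hS₁n h
          · exact hS₂n h

end subspace

section main

variable {V : Type*} [AddCommGroup V] [Module ℂ V] [FiniteDimensional ℂ V]
variable {R : Type*} [CommRing R]

/-- Deligne–Serre lifting, abstract form: an eigenvalue system with values in the ring of
algebraic integers, an eigenvector, and a maximal ideal of the algebraic integers
pulling back to (a superset of) the given prime. -/
theorem exists_eigen_system (ι : R →+* Module.End ℂ V)
    (hint : ∀ T : R, ∃ P : Polynomial ℤ, P.Monic ∧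
      Polynomial.eval₂ (Int.castRingHom (Module.End ℂ V)) (ι T) P = 0)
    (𝔫 : Ideal R) [h𝔫 : 𝔫.IsPrime] (hker : ∀ T : R, ι T = 0 → T ∈ 𝔫) :
    ∃ (lam : R →+* integralClosure ℤ ℂ) (v : V) (Q : Ideal (integralClosure ℤ ℂ)),
      v ≠ 0 ∧ (∀ T : R, ι T v = ((lam T : integralClosure ℤ ℂ) : ℂ) • v) ∧ Q.IsMaximal ∧
        ∀ T ∈ 𝔫, lam T ∈ Q := by
  classical
  -- the whole space is a legitimate starting point
  have htop : (⊤ : Submodule ℂ V) ≠ ⊥ := by
    intro h
    have h1 : (1 : R) ∈ 𝔫 := by
      apply hker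
      ext x
      have hx : x ∈ (⊤ : Submodule ℂ V) := Submodule.mem_top
      rw [h, Submodule.mem_bot] at hx
      simp [hx]
    exact h𝔫.ne_top ((Ideal.eq_top_iff_one _).mpr h1)
  obtain ⟨W, hW, hannW, hsc⟩ := exists_scalar_subspace ι 𝔫 ⊤ htop (fun _ _ _ => Submodule.mem_top)
    (fun T hT => hker T (LinearMap.ext fun x => by simpa using hT x Submodule.mem_top))
  obtain ⟨v, hvW, hv0⟩ := Submodule.exists_mem_ne_zero_of_ne_bot hW
  choose c hc using hsc
  have hinj : Function.Injective (fun a : ℂ => a • v) := smul_left_injective ℂ hv0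
  -- the eigenvalue system as a ring hom to ℂ
  let lam0 : R →+* ℂ :=
    { toFun := c
      map_one' := by
        apply hinj
        show c 1 • v = (1 : ℂ) • v
        rw [← hc 1 v hvW, map_one, one_smul, Module.End.one_apply]
      map_mul' := fun S T => by
        apply hinj
        show c (S * T) • v = (c S * c T) • v
        rw [← hc (S * T) v hvW, map_mul, Module.End.mul_apply, hc T v hvW, map_smul, hc S v hvW,
          smul_smul, mul_comm]
      map_zero' := by
        apply hinj
        show c 0 • v = (0 : ℂ) • v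
        rw [← hc 0 v hvW, map_zero, zero_smul, LinearMap.zero_apply]
      map_add' := fun S T => by
        apply hinj
        show c (S + T) • v = (c S + c T) • v
        rw [← hc (S + T) v hvW, map_add, LinearMap.add_apply, hc S v hvW, hc T v hvW, add_smul] }
  have hlam0 : ∀ T : R, lam0 T = c T := fun _ => rfl
  -- integrality of the eigenvalues
  have hintegral : ∀ T : R, lam0 T ∈ integralClosure ℤ ℂ := by
    intro T
    obtain ⟨P, hPm, hP⟩ := hint T
    refine ⟨P, hPm, ?_⟩
    -- evaluate P at T inside R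
    have h1 : ι (Polynomial.eval₂ (Int.castRingHom R) T P) =
        Polynomial.eval₂ (Int.castRingHom (Module.End ℂ V)) (ι T) P := by
      rw [Polynomial.hom_eval₂]
      congr 1
      exact RingHom.ext_int _ _
    have h2 : lam0 (Polynomial.eval₂ (Int.castRingHom R) T P) =
        Polynomial.eval₂ (Int.castRingHom ℂ) (lam0 T) P := by
      rw [Polynomial.hom_eval₂]
      congr 1
      exact RingHom.ext_int _ _
    have h3 : lam0 (Polynomial.eval₂ (Int.castRingHom R) T P) = 0 := by
      apply hinj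
      show c _ • v = (0 : ℂ) • v
      rw [← hc _ v hvW, h1, hP, zero_smul, LinearMap.zero_apply]
    have h4 : algebraMap ℤ ℂ = Int.castRingHom ℂ := RingHom.ext_int _ _
    rw [h4, ← h2, h3]
  let lam : R →+* integralClosure ℤ ℂ :=
    lam0.codRestrict (integralClosure ℤ ℂ) hintegral
  have hlam : ∀ T : R, ((lam T : integralClosure ℤ ℂ) : ℂ) = c T := fun _ => rfl
  -- lying over
  let _ : Algebra R (integralClosure ℤ ℂ) := lam.toAlgebra
  have : Algebra.IsIntegral R (integralClosure ℤ ℂ) :=
    ⟨fun x => (Algebra.IsIntegral.isIntegral (R := ℤ) x).tower_top⟩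
  have hbot : Ideal.comap (algebraMap R (integralClosure ℤ ℂ)) ⊥ ≤ 𝔫 := by
    intro T hT
    rw [Ideal.mem_comap, Ideal.mem_bot] at hT
    have hT' : c T = 0 :=
      congrArg (fun z : integralClosure ℤ ℂ => (z : ℂ)) (show lam T = 0 from hT)
    apply hannW
    intro w hw
    rw [hc T w hw, hT', zero_smul]
  obtain ⟨Q₀, -, hQ₀prime, hQ₀⟩ := Ideal.exists_ideal_over_prime_of_isIntegral 𝔫 ⊥ hbot
  obtain ⟨Q, hQmax, hQ₀Q⟩ := Ideal.exists_le_maximal Q₀ hQ₀prime.ne_top
  refine ⟨lam, v, Q, hv0, fun T => ?_, hQmax, fun T hT => ?_⟩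
  · rw [hlam]; exact hc T v hvW
  · apply hQ₀Q
    have : T ∈ Ideal.comap (algebraMap R (integralClosure ℤ ℂ)) Q₀ := by rw [hQ₀]; exact hT
    exact this

end main

section prime

variable {V : Type*} [AddCommGroup V] [Module ℂ V]
variable {R : Type*} [CommRing R]

/-- The ideal of operators sending a mod-`p` eigenvector `f₀` into the sublattice `M`
is prime. -/
theorem exists_prime_ideal (ι : R →+* Module.End ℂ V)
    (M : AddSubgroup V) (hM : ∀ T : R, ∀ x ∈ M, ι T x ∈ M)
    (f₀ : V) (hf₀ : f₀ ∉ M) (p : ℕ) (hp : p.Prime) (hpf : (p : ℤ) • f₀ ∈ M)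
    (hθ : ∀ T : R, ∃ t : ℤ, ι T f₀ - t • f₀ ∈ M) :
    ∃ 𝔫 : Ideal R, 𝔫.IsPrime ∧ ∀ T : R, T ∈ 𝔫 ↔ ι T f₀ ∈ M := by
  let 𝔫 : Ideal R :=
    { carrier := {T | ι T f₀ ∈ M}
      add_mem' := fun {a b} ha hb => by
        show ι (a + b) f₀ ∈ M
        rw [map_add, LinearMap.add_apply]
        exact M.add_mem ha hb
      zero_mem' := by
        show ι 0 f₀ ∈ M
        rw [map_zero, LinearMap.zero_apply]
        exact M.zero_mem
      smul_mem' := fun c x hx => by
        show ι (c * x) f₀ ∈ M
        rw [map_mul, Module.End.mul_apply]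
        exact hM c _ hx }
  have hmem : ∀ T : R, T ∈ 𝔫 ↔ ι T f₀ ∈ M := fun T => Iff.rfl
  refine ⟨𝔫, ?_, hmem⟩
  rw [Ideal.isPrime_iff]
  constructor
  · intro htop
    have h1 : (1 : R) ∈ 𝔫 := htop ▸ Submodule.mem_top
    rw [hmem, map_one, Module.End.one_apply] at h1
    exact hf₀ h1
  · intro x y hxy
    rw [hmem, map_mul, Module.End.mul_apply] at hxy
    obtain ⟨s, hs⟩ := hθ x
    obtain ⟨t, ht⟩ := hθ y
    -- (s * t) • f₀ ∈ M
    have hst : (s * t) • f₀ ∈ M := by
      have e : (s * t) • f₀ = ι x (ι y f₀) - ι x (ι y f₀ - t • f₀) - t • (ι x f₀ - s • f₀) := by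
        rw [map_sub, map_zsmul, smul_sub, smul_smul, mul_comm t s]
        abel
      rw [e]
      exact M.sub_mem (M.sub_mem hxy (hM x _ ht)) (M.zsmul_mem hs t)
    have hpst : (p : ℤ) ∣ s * t := by
      by_contra hnd
      have hcop : IsCoprime (p : ℤ) (s * t) :=
        ((Nat.prime_iff_prime_int.mp hp).coprime_iff_not_dvd).mpr hnd
      obtain ⟨u, w, huw⟩ := hcop
      apply hf₀
      have e : f₀ = u • ((p : ℤ) • f₀) + w • ((s * t) • f₀) := by
        rw [smul_smul, smul_smul, ← add_smul, huw, one_smul]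
      rw [e]
      exact M.add_mem (M.zsmul_mem hpf u) (M.zsmul_mem hst w)
    have key : ∀ (z : R) (r : ℤ), ι z f₀ - r • f₀ ∈ M → (p : ℤ) ∣ r → z ∈ 𝔫 := by
      intro z r hz hr
      obtain ⟨r', rfl⟩ := hr
      rw [hmem]
      have e : ι z f₀ = (ι z f₀ - ((p : ℤ) * r') • f₀) + r' • ((p : ℤ) • f₀) := by
        rw [smul_smul, mul_comm r' (p : ℤ)]
        abel
      rw [e]
      exact M.add_mem hz (M.zsmul_mem hpf r')
    rcases (Nat.prime_iff_prime_int.mp hp).dvd_or_dvd hpst with h | h
    · exact Or.inl (key x s hs h)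
    · exact Or.inr (key y t ht h)

end prime

section integral

variable {V : Type*} [AddCommGroup V] [Module ℂ V]

/-- The ring of complex endomorphisms preserving a lattice. -/
def stabilizer (L : Submodule ℤ V) : Subalgebra ℤ (Module.End ℂ V) where
  carrier := {S | ∀ x ∈ L, S x ∈ L}
  mul_mem' := fun {a b} ha hb x hx => by
    rw [Module.End.mul_apply]; exact ha _ (hb x hx)
  add_mem' := fun {a b} ha hb x hx => by
    rw [LinearMap.add_apply]; exact L.add_mem (ha x hx) (hb x hx)
  algebraMap_mem' := fun r x hx => by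
    rw [Algebra.algebraMap_eq_smul_one, LinearMap.smul_apply, Module.End.one_apply]
    exact L.smul_mem r hx

theorem mem_stabilizer (L : Submodule ℤ V) (S : Module.End ℂ V) :
    S ∈ stabilizer L ↔ ∀ x ∈ L, S x ∈ L := Iff.rfl

/-- Restriction of a lattice-preserving endomorphism to the lattice. -/
def restrictLattice (L : Submodule ℤ V) : stabilizer L →ₐ[ℤ] Module.End ℤ L where
  toFun S := (S.1.restrictScalars ℤ).restrict S.2
  map_one' := by ext x; rfl
  map_mul' := fun S T => by ext x; rfl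
  map_zero' := by ext x; rfl
  map_add' := fun S T => by ext x; rfl
  commutes' := fun r => by
    ext x
    simp

theorem restrictLattice_injective (L : Submodule ℤ V)
    (hspan : Submodule.span ℂ (L : Set V) = ⊤) :
    Function.Injective (restrictLattice L) := by
  intro S T hST
  apply Subtype.ext
  apply LinearMap.ext_on_range (v := fun x : L => (x : V))
  · have hr : Set.range (fun x : L => (x : V)) = (L : Set V) := by
      ext y; simp
    rw [hr]; exact hspan
  · intro x
    have := congrArg (fun F : Module.End ℤ L => (F x : V)) hST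
    exact this

/-- An endomorphism preserving a finitely generated spanning lattice is integral. -/
theorem isIntegral_of_lattice (L : Submodule ℤ V) (hfg : L.FG)
    (hspan : Submodule.span ℂ (L : Set V) = ⊤)
    (T : Module.End ℂ V) (hT : ∀ x ∈ L, T x ∈ L) :
    ∃ P : Polynomial ℤ, P.Monic ∧
      Polynomial.eval₂ (Int.castRingHom (Module.End ℂ V)) T P = 0 := by
  have : Module.Finite ℤ L := Module.Finite.iff_fg.mpr hfg
  have h1 : IsIntegral ℤ (restrictLattice L ⟨T, hT⟩) := Algebra.IsIntegral.isIntegral _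
  have h2 : IsIntegral ℤ (⟨T, hT⟩ : stabilizer L) :=
    (isIntegral_algHom_iff (restrictLattice L) (restrictLattice_injective L hspan)).mp h1
  have h3 : IsIntegral ℤ ((stabilizer L).val ⟨T, hT⟩) := h2.map (stabilizer L).val
  obtain ⟨P, hPm, hP⟩ := h3
  refine ⟨P, hPm, ?_⟩
  have h4 : algebraMap ℤ (Module.End ℂ V) = Int.castRingHom (Module.End ℂ V) :=
    RingHom.ext_int _ _
  rw [← h4]
  exact hP

end integral

end Fermat.Agent.S49_DS
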