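import Mathlib
import Fermat.Agent.S49_DS

/-!
# S41, END block (lead): the Deligne–Serre step on the new quotient

`P` is a finite dimensional complex space with a commutative ring `R` of operators, `L` a lattice
spanning it, `OLD ⊆ L` a stable subgroup.  Given a proper ideal `𝔫0` of `R` containing every
operator that kills `L` modulo the saturation of `OLD`, there is an eigenvector in `P` whose
eigencharacter is integral, reduces into a maximal ideal containing the image of `𝔫0`, and kills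
every operator mapping `L` into `OLD`.
-/

set_option autoImplicit false

namespace Fermat.Agent.S41_EndDS

open Module

theorem exists_system {P : Type*} [AddCommGroup P] [Module ℂ P] [FiniteDimensional ℂ P]
    {R : Type*} [CommRing R] {L : Type*} [AddCommGroup L] [Module.Finite ℤ L]
    (ι : R →+* Module.End ℂ P) (ιL : R →+* Module.End ℤ L) (cast : L →+ P)
    (hcast : ∀ t x, ι t (cast x) = cast (ιL t x))
    (hspan : Submodule.span ℂ (Set.range cast) = ⊤)
    (OLD : AddSubgroup L) (hOLD : ∀ t, ∀ z ∈ OLD, ιL t z ∈ OLD)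
    (hretr : ∀ x : L, cast x ∈ Submodule.span ℂ (cast '' (OLD : Set L)) →
      ∃ m : ℤ, m ≠ 0 ∧ m • x ∈ OLD)
    (𝔫0 : Ideal R) (h1 : (1 : R) ∉ 𝔫0)
    (hK : ∀ t : R, (∀ z : L, ∃ m : ℤ, m ≠ 0 ∧ m • ιL t z ∈ OLD) → t ∈ 𝔫0)
    (hlift : ∀ (O : Submodule ℂ P), (∀ t : R, ∀ x ∈ O, ι t x ∈ O) → ∀ (χ : R → ℂ) (v : P),
      v ∉ O → (∀ t, ι t v - χ t • v ∈ O) → ∃ w : P, w ≠ 0 ∧ ∀ t, ι t w = χ t • w) :
    ∃ (lam : R →+* integralClosure ℤ ℂ) (w : P) (Q : Ideal (integralClosure ℤ ℂ)),
      w ≠ 0 ∧ (∀ t, ι t w = ((lam t : integralClosure ℤ ℂ) : ℂ) • w) ∧ Q.IsMaximal ∧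
      (∀ t ∈ 𝔫0, lam t ∈ Q) ∧ (∀ t, (∀ z : L, ιL t z ∈ OLD) → lam t = 0) := by
  classical
  set O : Submodule ℂ P := Submodule.span ℂ (cast '' (OLD : Set L)) with hOdef
  have hO : ∀ t : R, ∀ x ∈ O, ι t x ∈ O := by
    intro t x hx
    have hle : O.map (ι t) ≤ O := by
      rw [hOdef, Submodule.map_span]
      apply Submodule.span_le.mpr
      rintro _ ⟨_, ⟨z, hz, rfl⟩, rfl⟩
      rw [hcast]
      exact Submodule.subset_span ⟨_, hOLD t z hz, rfl⟩
    exact hle (Submodule.mem_map_of_mem hx)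
  -- the induced action on the quotient
  let ιV : R →+* Module.End ℂ (P ⧸ O) :=
    { toFun := fun t => O.mapQ O (ι t) (fun x hx => hO t x hx)
      map_one' := by
        refine LinearMap.ext fun y => ?_
        obtain ⟨x, rfl⟩ := Submodule.Quotient.mk_surjective O y
        simp [Submodule.mapQ_apply]
      map_mul' := fun s t => by
        refine LinearMap.ext fun y => ?_
        obtain ⟨x, rfl⟩ := Submodule.Quotient.mk_surjective O y
        simp [Submodule.mapQ_apply, map_mul, Module.End.mul_apply]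
      map_zero' := by
        refine LinearMap.ext fun y => ?_
        obtain ⟨x, rfl⟩ := Submodule.Quotient.mk_surjective O y
        simp [Submodule.mapQ_apply]
      map_add' := fun s t => by
        refine LinearMap.ext fun y => ?_
        obtain ⟨x, rfl⟩ := Submodule.Quotient.mk_surjective O y
        simp [Submodule.mapQ_apply, map_add] }
  have hιV : ∀ t x, ιV t (Submodule.Quotient.mk x) = Submodule.Quotient.mk (ι t x) :=
    fun t x => rfl
  have hzero : ∀ t, (∀ v, ι t v ∈ O) → ιV t = 0 := by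
    intro t h
    refine LinearMap.ext fun y => ?_
    obtain ⟨x, rfl⟩ := Submodule.Quotient.mk_surjective O y
    rw [hιV, LinearMap.zero_apply]
    exact (Submodule.Quotient.mk_eq_zero O).mpr (h x)
  -- integrality
  set Λ : Submodule ℤ P := LinearMap.range (cast.toIntLinearMap : L →ₗ[ℤ] P) with hΛ
  have hΛfg : Λ.FG := by
    rw [hΛ, LinearMap.range_eq_map]
    exact (Module.Finite.fg_top).map _
  have hΛset : (Λ : Set P) = Set.range cast := by
    rw [hΛ, LinearMap.coe_range]
    rfl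
  have hΛspan : Submodule.span ℂ (Λ : Set P) = ⊤ := by rw [hΛset]; exact hspan
  have hΛstab : ∀ T : R, ∀ x ∈ Λ, ι T x ∈ Λ := by
    rintro T _ ⟨z, rfl⟩
    exact ⟨ιL T z, (hcast T z).symm⟩
  have hint : ∀ T : R, ∃ Pl : Polynomial ℤ, Pl.Monic ∧
      Polynomial.eval₂ (Int.castRingHom (Module.End ℂ (P ⧸ O))) (ιV T) Pl = 0 := by
    intro T
    obtain ⟨Pl, hm, h0⟩ := S49_DS.isIntegral_of_lattice Λ hΛfg hΛspan (ι T) (hΛstab T)
    refine ⟨Pl, hm, ?_⟩
    have e1 : ι (Pl.eval₂ (Int.castRingHom R) T) = 0 := by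
      rw [Polynomial.hom_eval₂, RingHom.ext_int (ι.comp (Int.castRingHom R)) (Int.castRingHom _)]
      exact h0
    have e2 : ιV (Pl.eval₂ (Int.castRingHom R) T) = 0 :=
      hzero _ (fun v => by rw [e1, LinearMap.zero_apply]; exact O.zero_mem)
    rw [Polynomial.hom_eval₂, RingHom.ext_int (ιV.comp (Int.castRingHom R)) (Int.castRingHom _)]
      at e2
    exact e2
  -- the maximal ideal
  obtain ⟨𝔫, hmax, hle⟩ := Ideal.exists_le_maximal 𝔫0
    (by rw [Ne, Ideal.eq_top_iff_one]; exact h1)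
  haveI : 𝔫.IsPrime := hmax.isPrime
  have hker : ∀ T : R, ιV T = 0 → T ∈ 𝔫 := by
    intro T hT
    apply hle
    apply hK
    intro z
    apply hretr
    rw [← hcast]
    have h2 : ιV T (Submodule.Quotient.mk (cast z)) = 0 := by rw [hT, LinearMap.zero_apply]
    rw [hιV] at h2
    exact (Submodule.Quotient.mk_eq_zero O).mp h2
  obtain ⟨lam, vb, Q, hvb, heig, hQ, hlamQ⟩ := S49_DS.exists_eigen_system ιV hint 𝔫 hker
  obtain ⟨v, rfl⟩ := Submodule.Quotient.mk_surjective O vb
  have hvO : v ∉ O := fun h => hvb ((Submodule.Quotient.mk_eq_zero O).mpr h)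
  have hv' : ∀ t, ι t v - ((lam t : integralClosure ℤ ℂ) : ℂ) • v ∈ O := by
    intro t
    rw [← Submodule.Quotient.mk_eq_zero O, Submodule.Quotient.mk_sub, Submodule.Quotient.mk_smul,
      ← hιV, heig t, sub_self]
  obtain ⟨w, hw0, hw⟩ := hlift O hO (fun t => ((lam t : integralClosure ℤ ℂ) : ℂ)) v hvO hv'
  refine ⟨lam, w, Q, hw0, hw, hQ, fun t ht => hlamQ t (hle ht), ?_⟩
  intro t ht
  have hall : ∀ v : P, ι t v ∈ O := by
    intro v
    have hv : v ∈ Submodule.span ℂ (Set.range cast) := by rw [hspan]; exact Submodule.mem_top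
    have hle2 : Submodule.span ℂ (Set.range cast) ≤ O.comap (ι t) := by
      apply Submodule.span_le.mpr
      rintro _ ⟨z, rfl⟩
      show ι t (cast z) ∈ O
      rw [hcast]
      exact Submodule.subset_span ⟨_, ht z, rfl⟩
    exact hle2 hv
  have h3 := heig t
  rw [hzero t hall, LinearMap.zero_apply] at h3
  rcases smul_eq_zero.mp h3.symm with h4 | h4
  · exact Subtype.ext h4
  · exact absurd h4 hvb

end Fermat.Agent.S41_EndDS
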