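import Mathlib

/-!
# S41, block B1 (helper8): abstract coset systems between two groups

`Γ₁`, `Γ₂` are groups mapping to an ambient group `G` (`ι₁` injective).  A *coset system* from
`Γ₂` to `Γ₁` is a finite family `A : I → G` such that right multiplication by every `γ : Γ₂`
permutes the family up to left multiplication by `Γ₁`:
`A i * ι₂ γ = ι₁ c * A (σ i)`.  Multiplicities are allowed (no uniqueness axiom).  It defines
`op : Hom(Γ₁, B) → Hom(Γ₂, B)`, `(op φ) γ = ∑ i, φ (c i)`, which does not depend on the choice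
of `σ` and `c`, is natural in `B`, is compatible with composition of systems, and only depends on
the multiset of cosets `ι₁ Γ₁ * A i`.
-/

set_option autoImplicit false

namespace Fermat.Agent.S41_Sys

variable {G Γ₁ Γ₂ Γ₃ : Type*} [Group G] [Group Γ₁] [Group Γ₂] [Group Γ₃]

/-- key cancellation: a permutation of the family which preserves `Γ₁`-cosets contributes `0`. -/
theorem sum_eq_zero_of_perm {ι₁ : Γ₁ →* G} (hinj : Function.Injective ι₁) {I : Type} [Fintype I]
    (A : I → G) {B : Type*} [AddCommGroup B] (φ : Additive Γ₁ →+ B)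
    (τ : Equiv.Perm I) (h : I → Γ₁) (hh : ∀ j, A (τ j) = ι₁ (h j) * A j) :
    ∑ j, φ (Additive.ofMul (h j)) = 0 := by
  classical
  let r : Setoid I :=
    { r := fun i j => ∃ g : Γ₁, A i = ι₁ g * A j
      iseqv :=
        { refl := fun i => ⟨1, by simp⟩
          symm := by
            rintro i j ⟨g, hg⟩
            exact ⟨g⁻¹, by rw [hg, map_inv, inv_mul_cancel_left]⟩
          trans := by
            rintro i j k ⟨g, hg⟩ ⟨g', hg'⟩
            exact ⟨g * g', by rw [hg, hg', map_mul, mul_assoc]⟩ } }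
  let ρ : I → I := fun j => (Quotient.mk r j).out
  have hρ : ∀ j, ∃ u : Γ₁, A j = ι₁ u * A (ρ j) := by
    intro j
    have h1 : r (ρ j) j := Quotient.mk_out (s := r) j
    exact r.iseqv.symm h1
  choose u hu using hρ
  have hρτ : ∀ j, ρ (τ j) = ρ j := by
    intro j
    have h1 : Quotient.mk r (τ j) = Quotient.mk r j := Quotient.sound ⟨h j, hh j⟩
    show (Quotient.mk r (τ j)).out = (Quotient.mk r j).out
    rw [h1]
  have key : ∀ j, u (τ j) = h j * u j := by
    intro j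
    have h1 : A (τ j) = ι₁ (u (τ j)) * A (ρ j) := by rw [← hρτ j]; exact hu (τ j)
    have h2 : A (τ j) = ι₁ (h j * u j) * A (ρ j) := by
      rw [hh j, map_mul, mul_assoc, ← hu j]
    exact hinj (mul_right_cancel (h1.symm.trans h2))
  have key2 : ∀ j, φ (Additive.ofMul (h j))
      = φ (Additive.ofMul (u (τ j))) - φ (Additive.ofMul (u j)) := by
    intro j
    rw [key j, ofMul_mul, map_add, add_sub_cancel_right]
  rw [Finset.sum_congr rfl fun j _ => key2 j, Finset.sum_sub_distrib, sub_eq_zero]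
  exact Equiv.sum_comp τ (fun j => φ (Additive.ofMul (u j)))

/-- A coset system from `Γ₂` to `Γ₁` inside `G`. -/
structure Sys (ι₁ : Γ₁ →* G) (ι₂ : Γ₂ →* G) (I : Type) where
  A : I → G
  inj : Function.Injective ι₁
  ex : ∀ γ : Γ₂, ∃ σ : Equiv.Perm I, ∀ i, ∃ c : Γ₁, A i * ι₂ γ = ι₁ c * A (σ i)

namespace Sys

variable {ι₁ : Γ₁ →* G} {ι₂ : Γ₂ →* G} {ι₃ : Γ₃ →* G} {I J : Type}

section basic

variable (S : Sys ι₁ ι₂ I)

/-- the chosen permutation. -/
noncomputable def σ (γ : Γ₂) : Equiv.Perm I := (S.ex γ).choose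

/-- the chosen cocycle. -/
noncomputable def c (γ : Γ₂) (i : I) : Γ₁ := ((S.ex γ).choose_spec i).choose

theorem rel (γ : Γ₂) (i : I) : S.A i * ι₂ γ = ι₁ (S.c γ i) * S.A (S.σ γ i) :=
  ((S.ex γ).choose_spec i).choose_spec

variable [Fintype I] {B : Type*} [AddCommGroup B]

/-- any valid choice of permutation and cocycle computes the same sum. -/
theorem sum_eq (φ : Additive Γ₁ →+ B) (γ : Γ₂) (σ' : Equiv.Perm I) (c' : I → Γ₁)
    (h : ∀ i, S.A i * ι₂ γ = ι₁ (c' i) * S.A (σ' i)) :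
    ∑ i, φ (Additive.ofMul (c' i)) = ∑ i, φ (Additive.ofMul (S.c γ i)) := by
  have h1 : ∀ j, S.A ((σ'.symm.trans (S.σ γ)) j)
      = ι₁ ((S.c γ (σ'.symm j))⁻¹ * c' (σ'.symm j)) * S.A j := by
    intro j
    have e1 := S.rel γ (σ'.symm j)
    have e2 := h (σ'.symm j)
    rw [Equiv.apply_symm_apply] at e2
    rw [Equiv.trans_apply, map_mul, map_inv, mul_assoc, ← e2, e1, inv_mul_cancel_left]
  have h2 := sum_eq_zero_of_perm S.inj S.A φ (σ'.symm.trans (S.σ γ))
    (fun j => (S.c γ (σ'.symm j))⁻¹ * c' (σ'.symm j)) h1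
  have h3 : ∑ i, φ (Additive.ofMul ((S.c γ i)⁻¹ * c' i)) = 0 := by
    rw [← h2]
    exact (Equiv.sum_comp σ'.symm (fun i => φ (Additive.ofMul ((S.c γ i)⁻¹ * c' i)))).symm
  have h4 : ∀ i, φ (Additive.ofMul ((S.c γ i)⁻¹ * c' i))
      = φ (Additive.ofMul (c' i)) - φ (Additive.ofMul (S.c γ i)) := by
    intro i
    rw [ofMul_mul, map_add, ofMul_inv, map_neg]
    abel
  rw [Finset.sum_congr rfl fun i _ => h4 i, Finset.sum_sub_distrib, sub_eq_zero] at h3
  exact h3

/-- the operator on a single homomorphism. -/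
noncomputable def opFun (φ : Additive Γ₁ →+ B) : Additive Γ₂ →+ B where
  toFun γ := ∑ i, φ (Additive.ofMul (S.c (Additive.toMul γ) i))
  map_zero' := by
    have h := S.sum_eq φ 1 1 (fun _ => 1) (fun i => by simp)
    rw [toMul_zero, ← h]
    simp
  map_add' γ δ := by
    have h := S.sum_eq φ (Additive.toMul γ * Additive.toMul δ)
      ((S.σ (Additive.toMul γ)).trans (S.σ (Additive.toMul δ)))
      (fun i => S.c (Additive.toMul γ) i * S.c (Additive.toMul δ) (S.σ (Additive.toMul γ) i))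
      (fun i => by
        rw [map_mul, ← mul_assoc, S.rel, mul_assoc, S.rel, map_mul, mul_assoc, Equiv.trans_apply])
    rw [toMul_add, ← h]
    simp only [ofMul_mul, map_add, Finset.sum_add_distrib]
    congr 1
    exact Equiv.sum_comp (S.σ (Additive.toMul γ))
      (fun i => φ (Additive.ofMul (S.c (Additive.toMul δ) i)))

theorem opFun_apply (φ : Additive Γ₁ →+ B) (γ : Γ₂) :
    S.opFun φ (Additive.ofMul γ) = ∑ i, φ (Additive.ofMul (S.c γ i)) := rfl

/-- the operator `Hom(Γ₁, B) → Hom(Γ₂, B)` of a coset system. -/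
noncomputable def op (B : Type*) [AddCommGroup B] :
    (Additive Γ₁ →+ B) →+ (Additive Γ₂ →+ B) where
  toFun := S.opFun
  map_zero' := by
    refine AddMonoidHom.ext fun γ => ?_
    show ∑ i, (0 : Additive Γ₁ →+ B) _ = 0
    simp
  map_add' φ ψ := by
    refine AddMonoidHom.ext fun γ => ?_
    show ∑ i, (φ + ψ) _ = (∑ i, φ _) + ∑ i, ψ _
    simp [Finset.sum_add_distrib]

theorem op_apply (φ : Additive Γ₁ →+ B) (γ : Γ₂) :
    S.op B φ (Additive.ofMul γ) = ∑ i, φ (Additive.ofMul (S.c γ i)) := rfl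

/-- evaluation of `op` with an arbitrary valid permutation and cocycle. -/
theorem op_apply_of (φ : Additive Γ₁ →+ B) (γ : Γ₂) (σ' : Equiv.Perm I) (c' : I → Γ₁)
    (h : ∀ i, S.A i * ι₂ γ = ι₁ (c' i) * S.A (σ' i)) :
    S.op B φ (Additive.ofMul γ) = ∑ i, φ (Additive.ofMul (c' i)) := by
  rw [op_apply, S.sum_eq φ γ σ' c' h]

/-- naturality in the coefficient group. -/
theorem op_comp_hom {C : Type*} [AddCommGroup C] (g : B →+ C) (φ : Additive Γ₁ →+ B) :
    S.op C (g.comp φ) = g.comp (S.op B φ) := by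
  refine AddMonoidHom.ext fun γ => ?_
  have e : γ = Additive.ofMul (Additive.toMul γ) := rfl
  rw [e, op_apply, AddMonoidHom.comp_apply, op_apply, map_sum]
  rfl

/-- `op` commutes with integer scalars. -/
theorem op_zsmul (n : ℤ) (φ : Additive Γ₁ →+ B) : S.op B (n • φ) = n • S.op B φ :=
  map_zsmul (S.op B) n φ

/-- scalar case: all matrices lie in `ι₁ Γ₁` and `Γ₂` maps to `Γ₁`. -/
theorem op_eq_card_smul (f : Γ₂ →* Γ₁) (hf : ∀ γ, ι₁ (f γ) = ι₂ γ) (g : I → Γ₁)
    (hg : ∀ i, S.A i = ι₁ (g i)) (φ : Additive Γ₁ →+ B) (γ : Γ₂) :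
    S.op B φ (Additive.ofMul γ) = Fintype.card I • φ (Additive.ofMul (f γ)) := by
  rw [S.op_apply_of φ γ 1 (fun i => g i * f γ * (g i)⁻¹) (fun i => by
    rw [Equiv.Perm.one_apply, hg i, ← hf γ, map_mul, map_mul, map_inv, inv_mul_cancel_right])]
  have h : ∀ i, φ (Additive.ofMul (g i * f γ * (g i)⁻¹)) = φ (Additive.ofMul (f γ)) := by
    intro i
    rw [ofMul_mul, ofMul_mul, map_add, map_add, ofMul_inv, map_neg]
    abel
  rw [Finset.sum_congr rfl fun i _ => h i, Finset.sum_const, Finset.card_univ]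

/-- one-element systems are pull-backs. -/
theorem op_apply_unique [Unique I] (φ : Additive Γ₁ →+ B) (γ : Γ₂) (c' : Γ₁)
    (h : S.A default * ι₂ γ = ι₁ c' * S.A default) :
    S.op B φ (Additive.ofMul γ) = φ (Additive.ofMul c') := by
  rw [S.op_apply_of φ γ 1 (fun _ => c') (fun i => by
    rw [Unique.eq_default i, Equiv.Perm.one_apply]; exact h)]
  simp

end basic

section congr

variable [Fintype I] [Fintype J] {B : Type*} [AddCommGroup B]

/-- two systems with the same multiset of `Γ₁`-cosets define the same operator. -/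
theorem op_congr (S : Sys ι₁ ι₂ I) (T : Sys ι₁ ι₂ J) (e : J ≃ I) (g : J → Γ₁)
    (hg : ∀ j, T.A j = ι₁ (g j) * S.A (e j)) (φ : Additive Γ₁ →+ B) :
    T.op B φ = S.op B φ := by
  refine AddMonoidHom.ext fun γ' => ?_
  have e' : γ' = Additive.ofMul (Additive.toMul γ') := rfl
  set γ := Additive.toMul γ'
  rw [e']
  set σT : Equiv.Perm J := e.trans ((S.σ γ).trans e.symm) with hσT
  have hσ : ∀ j, e (σT j) = S.σ γ (e j) := by
    intro j
    simp [hσT]
  rw [T.op_apply_of φ γ σT (fun j => g j * S.c γ (e j) * (g (σT j))⁻¹) (fun j => by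
    rw [hg j, hg (σT j), hσ j, mul_assoc, S.rel, map_mul, map_mul, map_inv]
    simp [mul_assoc])]
  rw [S.op_apply]
  have h : ∀ j, φ (Additive.ofMul (g j * S.c γ (e j) * (g (σT j))⁻¹))
      = φ (Additive.ofMul (S.c γ (e j)))
        + (φ (Additive.ofMul (g j)) - φ (Additive.ofMul (g (σT j)))) := by
    intro j
    rw [ofMul_mul, ofMul_mul, map_add, map_add, ofMul_inv, map_neg]
    abel
  rw [Finset.sum_congr rfl fun j _ => h j, Finset.sum_add_distrib, Finset.sum_sub_distrib,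
    Equiv.sum_comp σT (fun j => φ (Additive.ofMul (g j))), sub_self, add_zero]
  exact Equiv.sum_comp e (fun i => φ (Additive.ofMul (S.c γ i)))

end congr

section comp

/-- composition of coset systems (`Γ₃ → Γ₂ → Γ₁`). -/
noncomputable def comp (S : Sys ι₁ ι₂ I) (S' : Sys ι₂ ι₃ J) : Sys ι₁ ι₃ (J × I) where
  A := fun x => S.A x.2 * S'.A x.1
  inj := S.inj
  ex := fun γ => ⟨Equiv.prodShear (S'.σ γ) (fun j => S.σ (S'.c γ j)), fun x =>
    ⟨S.c (S'.c γ x.1) x.2, by
      rw [mul_assoc, S'.rel, ← mul_assoc, S.rel, mul_assoc]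
      rfl⟩⟩

theorem comp_A (S : Sys ι₁ ι₂ I) (S' : Sys ι₂ ι₃ J) (x : J × I) :
    (S.comp S').A x = S.A x.2 * S'.A x.1 := rfl

variable [Fintype I] [Fintype J] {B : Type*} [AddCommGroup B]

theorem op_comp (S : Sys ι₁ ι₂ I) (S' : Sys ι₂ ι₃ J) (φ : Additive Γ₁ →+ B) :
    (S.comp S').op B φ = S'.op B (S.op B φ) := by
  refine AddMonoidHom.ext fun γ' => ?_
  have e' : γ' = Additive.ofMul (Additive.toMul γ') := rfl
  set γ := Additive.toMul γ'
  rw [e']
  rw [(S.comp S').op_apply_of φ γ (Equiv.prodShear (S'.σ γ) (fun j => S.σ (S'.c γ j)))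
    (fun x => S.c (S'.c γ x.1) x.2) (fun x => by
      rw [comp_A, comp_A, mul_assoc, S'.rel, ← mul_assoc, S.rel, mul_assoc]
      rfl)]
  rw [Fintype.sum_prod_type, S'.op_apply]
  exact Finset.sum_congr rfl fun j _ => (S.op_apply φ (S'.c γ j)).symm

end comp

section preserve

variable [Fintype I] {B : Type*} [AddCommGroup B]

omit [Fintype I] in
/-- iterating the relation. -/
theorem exists_pow_rel (S : Sys ι₁ ι₂ I) (γ : Γ₂) (m : ℕ) :
    ∃ c' : I → Γ₁, ∀ i, S.A i * ι₂ (γ ^ m) = ι₁ (c' i) * S.A ((S.σ γ ^ m) i) := by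
  induction m with
  | zero => exact ⟨fun _ => 1, fun i => by simp⟩
  | succ m ih =>
    obtain ⟨c', hc'⟩ := ih
    refine ⟨fun i => c' i * S.c γ ((S.σ γ ^ m) i), fun i => ?_⟩
    rw [pow_succ, map_mul, ← mul_assoc, hc' i, mul_assoc, S.rel, map_mul, mul_assoc,
      pow_succ', Equiv.Perm.mul_apply]

/-- If `B` is torsion free and `φ` kills a class `P₁` of elements of `Γ₁` which contains every
`c` with `A i * ι₂ (γ ^ n) = ι₁ c * A i` (`γ` in the class `P₂`, `n > 0`), then `op φ` kills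
`P₂`. -/
theorem op_kills (S : Sys ι₁ ι₂ I) (P₁ : Γ₁ → Prop) (P₂ : Γ₂ → Prop)
    (hP : ∀ γ, P₂ γ → ∀ n : ℕ, 0 < n → ∀ (i : I) (c' : Γ₁),
      S.A i * ι₂ (γ ^ n) = ι₁ c' * S.A i → P₁ c')
    (hB : ∀ (n : ℕ) (b : B), 0 < n → n • b = 0 → b = 0)
    (φ : Additive Γ₁ →+ B) (hφ : ∀ c', P₁ c' → φ (Additive.ofMul c') = 0)
    (γ : Γ₂) (hγ : P₂ γ) : S.op B φ (Additive.ofMul γ) = 0 := by
  classical
  set n := orderOf (S.σ γ) with hn
  have hn0 : 0 < n := orderOf_pos (S.σ γ)
  obtain ⟨c', hc'⟩ := S.exists_pow_rel γ n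
  have h1 : ∀ i, S.A i * ι₂ (γ ^ n) = ι₁ (c' i) * S.A ((1 : Equiv.Perm I) i) := by
    intro i
    rw [hc' i, hn, pow_orderOf_eq_one]
  have h2 := S.op_apply_of φ (γ ^ n) 1 c' h1
  have h3 : ∑ i, φ (Additive.ofMul (c' i)) = 0 :=
    Finset.sum_eq_zero fun i _ => hφ _ (hP γ hγ n hn0 i (c' i) (by
      have := h1 i
      rwa [Equiv.Perm.one_apply] at this))
  rw [h3, ofMul_pow, map_nsmul] at h2
  exact hB n _ hn0 h2

end preserve

end Sys

end Fermat.Agent.S41_Sys
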