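import Mathlib
import Fermat.Agent.S16_Hecke
import Fermat.Agent.S41_Sys

/-!
# S41, block B1/B4 (helper8): coset systems for the groups `Γ₀(N)` inside `GL₂(ℝ)`

* `iota N : Γ₀(N) →* GL₂(ℝ)`;
* `ofHecke` : the landed Hecke systems (`S16_Hecke.HeckeSys`) are coset systems with the same
  operator;
* `pullSys` : one-element systems (pull-backs along conjugations);
* `op_isParabolic` : over a torsion-free coefficient group every coset-system operator preserves
  parabolic homomorphisms.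
-/

set_option autoImplicit false

open CongruenceSubgroup ModularCurve.Period
open scoped MatrixGroups

namespace Fermat.Agent.S41_Ops

open Matrix.SpecialLinearGroup (mapGL)
open Fermat.Agent.S41_Sys Fermat.Agent.S16_Hecke

/-- the embedding of `Γ₀(N)` in `GL₂(ℝ)`. -/
noncomputable def iota (N : ℕ) : Gamma0 N →* GL (Fin 2) ℝ :=
  (mapGL ℝ).comp (Gamma0 N).subtype

theorem iota_apply (N : ℕ) (γ : Gamma0 N) : iota N γ = mapGL ℝ (γ : SL(2, ℤ)) := rfl

theorem iota_injective (N : ℕ) : Function.Injective (iota N) :=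
  fun _ _ h => Subtype.ext (Matrix.SpecialLinearGroup.mapGL_injective h)

/-- a Hecke system is a coset system. -/
noncomputable def ofHecke {N : ℕ} {I : Type} (H : HeckeSys N I) : Sys (iota N) (iota N) I where
  A := H.A
  inj := iota_injective N
  ex := fun γ => ⟨H.sPerm γ, fun i => ⟨H.c γ i, H.rel γ i⟩⟩

theorem ofHecke_A {N : ℕ} {I : Type} (H : HeckeSys N I) (i : I) : (ofHecke H).A i = H.A i := rfl

theorem ofHecke_op {N : ℕ} {I : Type} [Fintype I] (H : HeckeSys N I) {B : Type*}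
    [AddCommGroup B] (φ : Additive (Gamma0 N) →+ B) : (ofHecke H).op B φ = H.op B φ := by
  refine AddMonoidHom.ext fun γ => ?_
  have e : γ = Additive.ofMul (Additive.toMul γ) := rfl
  rw [e, (ofHecke H).op_apply_of φ _ (H.sPerm _) (H.c _) (fun i => H.rel _ i),
    HeckeSys.op_apply]

/-- the one-element system of a conjugation `a * ι₂ γ = ι₁ (f γ) * a`. -/
noncomputable def pullSys {N₁ N₂ : ℕ} (a : GL (Fin 2) ℝ) (f : Gamma0 N₂ →* Gamma0 N₁)
    (h : ∀ γ, a * iota N₂ γ = iota N₁ (f γ) * a) : Sys (iota N₁) (iota N₂) Unit where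
  A := fun _ => a
  inj := iota_injective N₁
  ex := fun γ => ⟨1, fun _ => ⟨f γ, h γ⟩⟩

theorem pullSys_A {N₁ N₂ : ℕ} (a : GL (Fin 2) ℝ) (f : Gamma0 N₂ →* Gamma0 N₁)
    (h : ∀ γ, a * iota N₂ γ = iota N₁ (f γ) * a) (u : Unit) : (pullSys a f h).A u = a := rfl

theorem pullSys_op {N₁ N₂ : ℕ} (a : GL (Fin 2) ℝ) (f : Gamma0 N₂ →* Gamma0 N₁)
    (h : ∀ γ, a * iota N₂ γ = iota N₁ (f γ) * a) {B : Type*} [AddCommGroup B]
    (φ : Additive (Gamma0 N₁) →+ B) :
    (pullSys a f h).op B φ = φ.comp (MonoidHom.toAdditive f) := by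
  refine AddMonoidHom.ext fun γ => ?_
  have e : γ = Additive.ofMul (Additive.toMul γ) := rfl
  rw [e, (pullSys a f h).op_apply_unique φ _ (f (Additive.toMul γ)) (h _)]
  rfl

/-! ### trace `±2` is stable under powers and conjugation -/

theorem cayley_hamilton (g : SL(2, ℤ)) :
    (g : Matrix (Fin 2) (Fin 2) ℤ) * (g : Matrix (Fin 2) (Fin 2) ℤ)
      = (g : Matrix (Fin 2) (Fin 2) ℤ).trace • (g : Matrix (Fin 2) (Fin 2) ℤ) - 1 := by
  set M : Matrix (Fin 2) (Fin 2) ℤ := (g : Matrix (Fin 2) (Fin 2) ℤ) with hM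
  have hdet : M 0 0 * M 1 1 - M 0 1 * M 1 0 = 1 := by
    have := g.det_coe
    rwa [Matrix.det_fin_two] at this
  have key : ∀ i j, (M * M) i j = M.trace * M i j - (1 : Matrix (Fin 2) (Fin 2) ℤ) i j := by
    intro i j
    fin_cases i <;> fin_cases j
    · show (M * M) 0 0 = M.trace * M 0 0 - (1 : Matrix (Fin 2) (Fin 2) ℤ) 0 0
      rw [Matrix.mul_apply, Fin.sum_univ_two, Matrix.one_apply_eq, Matrix.trace_fin_two]
      linear_combination (-1 : ℤ) * hdet
    · show (M * M) 0 1 = M.trace * M 0 1 - (1 : Matrix (Fin 2) (Fin 2) ℤ) 0 1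
      rw [Matrix.mul_apply, Fin.sum_univ_two, Matrix.one_apply_ne (by decide),
        Matrix.trace_fin_two]
      ring
    · show (M * M) 1 0 = M.trace * M 1 0 - (1 : Matrix (Fin 2) (Fin 2) ℤ) 1 0
      rw [Matrix.mul_apply, Fin.sum_univ_two, Matrix.one_apply_ne (by decide),
        Matrix.trace_fin_two]
      ring
    · show (M * M) 1 1 = M.trace * M 1 1 - (1 : Matrix (Fin 2) (Fin 2) ℤ) 1 1
      rw [Matrix.mul_apply, Fin.sum_univ_two, Matrix.one_apply_eq, Matrix.trace_fin_two]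
      linear_combination (-1 : ℤ) * hdet
  ext i j
  rw [key i j, Matrix.sub_apply, Matrix.smul_apply, smul_eq_mul]

theorem trace_pow_sq (g : SL(2, ℤ)) (h : (g : Matrix (Fin 2) (Fin 2) ℤ).trace ^ 2 = 4) (n : ℕ) :
    ((g ^ n : SL(2, ℤ)) : Matrix (Fin 2) (Fin 2) ℤ).trace ^ 2 = 4 := by
  set M : Matrix (Fin 2) (Fin 2) ℤ := (g : Matrix (Fin 2) (Fin 2) ℤ) with hM
  set t : ℤ := M.trace with ht
  have hCH : M * M = t • M - 1 := cayley_hamilton g
  obtain ⟨ε, hε, hε2⟩ : ∃ ε : ℤ, t = 2 * ε ∧ ε * ε = 1 := by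
    have h1 : (t - 2) * (t + 2) = 0 := by linear_combination h
    rcases mul_eq_zero.mp h1 with h2 | h2
    · exact ⟨1, by linarith, by norm_num⟩
    · exact ⟨-1, by linarith, by norm_num⟩
  have key : ∀ m : ℕ, (M ^ m).trace = 2 * ε ^ m ∧ (M ^ (m + 1)).trace = 2 * ε ^ (m + 1) := by
    intro m
    induction m with
    | zero =>
      refine ⟨by simp [Matrix.trace_one], ?_⟩
      rw [zero_add, pow_one, pow_one, ← ht, hε]
    | succ m ih =>
      refine ⟨ih.2, ?_⟩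
      have e1 : M ^ (m + 1 + 1) = t • M ^ (m + 1) - M ^ m := by
        rw [pow_succ, pow_succ, mul_assoc, hCH, mul_sub, mul_one, Matrix.mul_smul, ← pow_succ]
      rw [e1, Matrix.trace_sub, Matrix.trace_smul, ih.1, ih.2, hε, smul_eq_mul]
      have e2 : ε ^ (m + 1 + 1) = ε ^ m * (ε * ε) := by ring
      rw [e2, hε2]
      have e3 : ε ^ (m + 1) = ε ^ m * ε := by ring
      rw [e3]
      linear_combination (4 * ε ^ m) * hε2
  have h2 : ((g ^ n : SL(2, ℤ)) : Matrix (Fin 2) (Fin 2) ℤ) = M ^ n :=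
    Matrix.SpecialLinearGroup.coe_pow g n
  rw [h2, (key n).1]
  have h3 : (ε ^ n) ^ 2 = 1 := by
    rw [← pow_mul, mul_comm, pow_mul, sq, hε2, one_pow]
  linear_combination 4 * h3

theorem trace_eq_of_conj (a : GL (Fin 2) ℝ) (x y : SL(2, ℤ))
    (h : a * mapGL ℝ x = mapGL ℝ y * a) :
    (x : Matrix (Fin 2) (Fin 2) ℤ).trace = (y : Matrix (Fin 2) (Fin 2) ℤ).trace := by
  have h1 : mapGL ℝ y = a * mapGL ℝ x * a⁻¹ := by rw [h, mul_inv_cancel_right]
  have h2 := congrArg (fun M : GL (Fin 2) ℝ => (M : Matrix (Fin 2) (Fin 2) ℝ).trace) h1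
  simp only [Matrix.GeneralLinearGroup.coe_mul] at h2
  rw [Matrix.trace_mul_comm, ← mul_assoc, ← Matrix.GeneralLinearGroup.coe_mul, inv_mul_cancel,
    Matrix.GeneralLinearGroup.coe_one, one_mul] at h2
  rw [Matrix.SpecialLinearGroup.mapGL_coe_matrix, Matrix.SpecialLinearGroup.mapGL_coe_matrix]
    at h2
  have h3 : ∀ z : SL(2, ℤ),
      ((Matrix.SpecialLinearGroup.map (algebraMap ℤ ℝ) z : SL(2, ℝ)) :
        Matrix (Fin 2) (Fin 2) ℝ).trace
      = (((z : Matrix (Fin 2) (Fin 2) ℤ).trace : ℤ) : ℝ) := by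
    intro z
    simp [Matrix.trace_fin_two]
  rw [h3, h3] at h2
  exact_mod_cast h2.symm

/-- over a torsion-free coefficient group every coset-system operator preserves parabolic
homomorphisms. -/
theorem op_isParabolic {N₁ N₂ : ℕ} {I : Type} [Fintype I] (S : Sys (iota N₁) (iota N₂) I)
    {B : Type*} [AddCommGroup B] (hB : ∀ (n : ℕ) (b : B), 0 < n → n • b = 0 → b = 0)
    (φ : Additive (Gamma0 N₁) →+ B) (hφ : IsParabolicHom (Gamma0 N₁) φ) :
    IsParabolicHom (Gamma0 N₂) (S.op B φ) := by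
  intro γ hγ
  refine S.op_kills
    (fun c => ((c : SL(2, ℤ)) : Matrix (Fin 2) (Fin 2) ℤ).trace ^ 2 = 4)
    (fun c => ((c : SL(2, ℤ)) : Matrix (Fin 2) (Fin 2) ℤ).trace ^ 2 = 4)
    ?_ hB φ (fun c hc => hφ c hc) γ hγ
  intro γ' hγ' n _ i c' hc'
  have h1 := trace_eq_of_conj (S.A i) ((γ' ^ n : Gamma0 N₂) : SL(2, ℤ)) (c' : SL(2, ℤ)) hc'
  show ((c' : SL(2, ℤ)) : Matrix (Fin 2) (Fin 2) ℤ).trace ^ 2 = 4
  rw [← h1]
  exact trace_pow_sq (γ' : SL(2, ℤ)) hγ' n

end Fermat.Agent.S41_Ops
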