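import Mathlib
import Fermat.Prelude.Def_ModularCurve_PeriodMap
import Fermat.Agent.S22_Period

/-!
# S41, block SPAN (helper9)

Complex-valued parabolic homomorphisms of `Γ₀(n)` are complex combinations of integer-valued
parabolic homomorphisms: the image of a homomorphism `Γ → ℂ` of a finitely generated group is a
finitely generated torsion-free abelian group, hence free, and the coordinates are integer-valued
homomorphisms vanishing wherever the original one does.
-/

set_option autoImplicit false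

open CongruenceSubgroup ModularCurve.Period
open scoped MatrixGroups

namespace Fermat.Agent.S41_Span

/-- coordinates of a complex-valued homomorphism of a finitely generated group. -/
theorem exists_coords {G : Type*} [AddGroup G] [AddGroup.FG G] (φ : G →+ ℂ) :
    ∃ (m : ℕ) (z : Fin m → ℂ) (χ : Fin m → (G →+ ℤ)),
      (∀ g, φ g = ∑ k, (χ k g : ℂ) * z k) ∧ (∀ g, φ g = 0 → ∀ k, χ k g = 0) := by
  classical
  set M : Submodule ℤ ℂ := AddSubgroup.toIntSubmodule φ.range with hM
  have hfg : M.FG := by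
    rw [Submodule.fg_iff_addSubgroup_fg, hM, AddSubgroup.toIntSubmodule_toAddSubgroup,
      ← AddGroup.fg_iff_addSubgroup_fg]
    exact AddGroup.fg_range φ
  haveI : Module.Finite ℤ M := Module.Finite.of_fg hfg
  haveI : Module.Free ℤ M := Module.free_of_finite_type_torsion_free'
  set b := Module.finBasis ℤ M with hb
  have hmem : ∀ g, φ g ∈ M := fun g => ⟨g, rfl⟩
  let v : G →+ M :=
    { toFun := fun g => ⟨φ g, hmem g⟩
      map_zero' := by apply Subtype.ext; simp
      map_add' := fun g h => by apply Subtype.ext; simp }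
  refine ⟨Module.finrank ℤ M, fun k => ((b k : M) : ℂ),
    fun k => ((Finsupp.applyAddHom k).comp b.repr.toAddMonoidHom).comp v, ?_, ?_⟩
  · intro g
    have h1 := b.sum_repr (v g)
    have h2 := congrArg (fun x : M => (x : ℂ)) h1
    simp only [Submodule.coe_sum, Submodule.coe_smul] at h2
    show φ g = _
    have h3 : ((v g : M) : ℂ) = φ g := rfl
    rw [← h3, ← h2]
    refine Finset.sum_congr rfl fun k _ => ?_
    simp
  · intro g hg k
    have h0 : v g = 0 := Subtype.ext hg
    show b.repr (v g) k = 0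
    rw [h0, map_zero]
    rfl

instance fg_Gamma0 (n : ℕ) [NeZero n] : AddGroup.FG (Additive (Gamma0 n)) := by
  haveI := S22_Period.fg_SL2Z
  haveI : Group.FG (Gamma0 n) := inferInstance
  infer_instance

/-- **SPAN**, explicit form: a parabolic `φ : Γ₀(n) → ℂ` is `∑ z_k χ_k` with parabolic
`χ_k : Γ₀(n) → ℤ`. -/
theorem exists_parabolic_coords (n : ℕ) [NeZero n] (φ : Additive (Gamma0 n) →+ ℂ)
    (hφ : IsParabolicHom (Gamma0 n) φ) :
    ∃ (m : ℕ) (z : Fin m → ℂ) (χ : Fin m → (Additive (Gamma0 n) →+ ℤ)),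
      (∀ k, IsParabolicHom (Gamma0 n) (χ k)) ∧
      (∀ γ, φ γ = ∑ k, (χ k γ : ℂ) * z k) ∧
      φ = ∑ k, z k • (Int.castAddHom ℂ).comp (χ k) := by
  obtain ⟨m, z, χ, h1, h2⟩ := exists_coords φ
  refine ⟨m, z, χ, fun k γ hγ => h2 _ (hφ γ hγ) k, h1, ?_⟩
  refine AddMonoidHom.ext fun γ => ?_
  rw [h1 γ, AddMonoidHom.finsetSum_apply]
  refine Finset.sum_congr rfl fun k _ => ?_
  rw [AddMonoidHom.smul_apply, AddMonoidHom.comp_apply, Int.coe_castAddHom, smul_eq_mul, mul_comm]

/-- **SPAN**: `parabolicHoms ℂ (Γ₀(n)) ℂ` is spanned over `ℂ` by the integer-valued parabolic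
homomorphisms. -/
theorem parabolicHoms_le_span (n : ℕ) [NeZero n] :
    parabolicHoms ℂ (Gamma0 n) ℂ ≤ Submodule.span ℂ
      (Set.range fun χ : parabolicHoms ℤ (Gamma0 n) ℤ =>
        (Int.castAddHom ℂ).comp (χ : Additive (Gamma0 n) →+ ℤ)) := by
  intro φ hφ
  obtain ⟨m, z, χ, hχ, -, h3⟩ := exists_parabolic_coords n φ hφ
  rw [h3]
  refine Submodule.sum_mem _ fun k _ => Submodule.smul_mem _ _ (Submodule.subset_span ?_)
  exact ⟨⟨χ k, hχ k⟩, rfl⟩

/-- the integer-valued parabolic homomorphisms are parabolic as complex-valued ones. -/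
theorem cast_mem_parabolicHoms (n : ℕ) (χ : Additive (Gamma0 n) →+ ℤ)
    (hχ : IsParabolicHom (Gamma0 n) χ) :
    (Int.castAddHom ℂ).comp χ ∈ parabolicHoms ℂ (Gamma0 n) ℂ := by
  intro γ hγ
  show ((χ (Additive.ofMul γ) : ℤ) : ℂ) = 0
  rw [hχ γ hγ, Int.cast_zero]

/-- **SPAN**, equality form. -/
theorem span_eq_parabolicHoms (n : ℕ) [NeZero n] :
    Submodule.span ℂ
      (Set.range fun χ : parabolicHoms ℤ (Gamma0 n) ℤ =>
        (Int.castAddHom ℂ).comp (χ : Additive (Gamma0 n) →+ ℤ))
      = parabolicHoms ℂ (Gamma0 n) ℂ := by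
  refine le_antisymm (Submodule.span_le.mpr ?_) (parabolicHoms_le_span n)
  rintro _ ⟨χ, rfl⟩
  exact cast_mem_parabolicHoms n χ χ.2

end Fermat.Agent.S41_Span
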