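import Mathlib
import Fermat.Agent.S16_LB
import Fermat.Agent.S41_Ops
import Fermat.Agent.S41_Span

/-!
# S41, block ACT (helper9)

The commutative Hecke algebra `ℤ[X_ℓ]` acts on the lattice `L n` of integer-valued parabolic
homomorphisms of `Γ₀(n)` and on the space `PC n` of complex-valued ones, compatibly with the
coefficient map `castC`.  `L n` is a finite `ℤ`-module, `PC n` is finite dimensional and spanned
by `L n`.
-/

set_option autoImplicit false

open CongruenceSubgroup ModularCurve ModularCurve.Period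
open scoped MatrixGroups

namespace Fermat.Agent.S41_Act

open Fermat.Agent.S16_Hecke Fermat.Agent.S16_LB

/-- the lattice of integer-valued parabolic homomorphisms of `Γ₀(n)`. -/
abbrev L (n : ℕ) : Type := ↥(parabolicHoms ℤ (Gamma0 n) ℤ)

/-- the space of complex-valued parabolic homomorphisms of `Γ₀(n)`. -/
abbrev PC (n : ℕ) : Type := ↥(parabolicHoms ℂ (Gamma0 n) ℂ)

/-! ### finiteness -/

/-- homomorphisms from a finitely generated group into a finite module over a noetherian ring
form a noetherian module. -/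
theorem finite_submodule_hom (R : Type*) [CommRing R] [IsNoetherianRing R] (G : Type*)
    [AddGroup G] [AddGroup.FG G] (A : Type*) [AddCommGroup A] [Module R A] [Module.Finite R A]
    (P : Submodule R (G →+ A)) : Module.Finite R P := by
  classical
  obtain ⟨S, hS⟩ := AddGroup.fg_def.mp (inferInstance : AddGroup.FG G)
  let ev : (G →+ A) →ₗ[R] ({x // x ∈ S} → A) :=
    { toFun := fun φ s => φ s.1
      map_add' := fun φ ψ => rfl
      map_smul' := fun c φ => rfl }
  have hev : Function.Injective ev := by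
    intro φ ψ h
    refine AddMonoidHom.eq_of_eqOn_dense hS ?_
    intro s hs
    exact congrFun h ⟨s, hs⟩
  exact Module.Finite.of_injective (ev.comp P.subtype)
    (hev.comp (Submodule.injective_subtype P))

instance finite_L (n : ℕ) [NeZero n] : Module.Finite ℤ (L n) :=
  finite_submodule_hom ℤ (Additive (Gamma0 n)) ℤ _

instance finite_PC (n : ℕ) [NeZero n] : FiniteDimensional ℂ (PC n) :=
  finite_submodule_hom ℂ (Additive (Gamma0 n)) ℂ _

/-! ### the coefficient map -/

/-- integer-valued parabolic homomorphisms as complex-valued ones. -/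
noncomputable def castC (n : ℕ) : L n →+ PC n where
  toFun x := ⟨(Int.castAddHom ℂ).comp (x : Additive (Gamma0 n) →+ ℤ),
    S41_Span.cast_mem_parabolicHoms n x x.2⟩
  map_zero' := by
    apply Subtype.ext
    refine AddMonoidHom.ext fun γ => ?_
    simp
  map_add' x y := by
    apply Subtype.ext
    refine AddMonoidHom.ext fun γ => ?_
    simp

theorem castC_coe (n : ℕ) (x : L n) :
    ((castC n x : PC n) : Additive (Gamma0 n) →+ ℂ)
      = (Int.castAddHom ℂ).comp (x : Additive (Gamma0 n) →+ ℤ) := rfl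

theorem castC_apply (n : ℕ) (x : L n) (γ : Additive (Gamma0 n)) :
    ((castC n x : PC n) : Additive (Gamma0 n) →+ ℂ) γ
      = (((x : Additive (Gamma0 n) →+ ℤ) γ : ℤ) : ℂ) := rfl

theorem castC_injective (n : ℕ) : Function.Injective (castC n) := by
  intro x y h
  apply Subtype.ext
  refine AddMonoidHom.ext fun γ => ?_
  have h1 := DFunLike.congr_fun (congrArg Subtype.val h) γ
  rw [castC_apply, castC_apply] at h1
  exact_mod_cast h1

/-- **SPAN**: `PC n` is spanned over `ℂ` by the image of `L n`. -/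
theorem span_castC (n : ℕ) [NeZero n] : Submodule.span ℂ (Set.range (castC n)) = ⊤ := by
  rw [eq_top_iff]
  rintro ⟨φ, hφ⟩ -
  obtain ⟨m, z, χ, hχ, -, h3⟩ := S41_Span.exists_parabolic_coords n φ hφ
  have e : (⟨φ, hφ⟩ : PC n) = ∑ k, z k • castC n ⟨χ k, hχ k⟩ := by
    apply Subtype.ext
    rw [Submodule.coe_sum]
    simp only [Submodule.coe_smul, castC_coe]
    exact h3
  rw [e]
  exact Submodule.sum_mem _ fun k _ => Submodule.smul_mem _ _ (Submodule.subset_span ⟨_, rfl⟩)

/-! ### the free algebra preserves parabolic homomorphisms -/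

theorem int_tf (m : ℕ) (b : ℤ) (hm : 0 < m) (h : m • b = 0) : b = 0 := by
  rcases smul_eq_zero.mp h with h | h
  · omega
  · exact h

theorem complex_tf (m : ℕ) (b : ℂ) (hm : 0 < m) (h : m • b = 0) : b = 0 := by
  rw [nsmul_eq_mul] at h
  rcases mul_eq_zero.mp h with h | h
  · exfalso
    have : (m : ℂ) ≠ 0 := Nat.cast_ne_zero.mpr (by omega)
    exact this h
  · exact h

section

variable (n : ℕ) [NeZero n]

theorem homOp_isParabolic {B : Type*} [AddCommGroup B]
    (hB : ∀ (m : ℕ) (b : B), 0 < m → m • b = 0 → b = 0) (l : Nat.Primes)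
    (φ : Additive (Gamma0 n) →+ B) (hφ : IsParabolicHom (Gamma0 n) φ) :
    IsParabolicHom (Gamma0 n) (homOp n B l φ) := by
  unfold homOp
  split_ifs with h
  · rw [← S41_Ops.ofHecke_op]
    exact S41_Ops.op_isParabolic _ hB φ hφ
  · rw [← S41_Ops.ofHecke_op]
    exact S41_Ops.op_isParabolic _ hB φ hφ

theorem rhoHom_isParabolic {B : Type*} [AddCommGroup B]
    (hB : ∀ (m : ℕ) (b : B), 0 < m → m • b = 0 → b = 0) (w : FreeAlgebra ℤ Nat.Primes)
    (φ : Additive (Gamma0 n) →+ B) (hφ : IsParabolicHom (Gamma0 n) φ) :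
    IsParabolicHom (Gamma0 n) (rhoHom n B w φ) := by
  induction w using FreeAlgebra.induction generalizing φ with
  | grade0 r =>
    rw [rhoHom_algebraMap]
    intro γ hγ
    rw [AddMonoidHom.smul_apply, hφ γ hγ, smul_zero]
  | grade1 l =>
    rw [rhoHom_ι]
    exact homOp_isParabolic n hB l φ hφ
  | mul a b ha hb =>
    rw [map_mul, Module.End.mul_apply]
    exact ha _ (hb _ hφ)
  | add a b ha hb =>
    rw [map_add, LinearMap.add_apply]
    intro γ hγ
    rw [AddMonoidHom.add_apply, ha _ hφ γ hγ, hb _ hφ γ hγ, add_zero]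

/-- the operators are `ℂ`-linear. -/
theorem rhoHom_smul (w : FreeAlgebra ℤ Nat.Primes) (c : ℂ) (φ : Additive (Gamma0 n) →+ ℂ) :
    rhoHom n ℂ w (c • φ) = c • rhoHom n ℂ w φ := by
  have e : ∀ ψ : Additive (Gamma0 n) →+ ℂ, c • ψ = (AddMonoidHom.mulLeft c).comp ψ := by
    intro ψ
    refine AddMonoidHom.ext fun γ => ?_
    simp
  rw [e, e, rhoHom_comp]

/-- the operator of a word on `L n`. -/
noncomputable def rhoZfun (w : FreeAlgebra ℤ Nat.Primes) : Module.End ℤ (L n) where
  toFun v := ⟨rhoHom n ℤ w v, rhoHom_isParabolic n int_tf w v v.2⟩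
  map_add' u v := by
    apply Subtype.ext
    show rhoHom n ℤ w ((u : Additive (Gamma0 n) →+ ℤ) + v) = _
    rw [map_add]
    rfl
  map_smul' c v := by
    apply Subtype.ext
    show rhoHom n ℤ w (c • (v : Additive (Gamma0 n) →+ ℤ)) = _
    rw [map_zsmul]
    rfl

theorem rhoZfun_coe (w : FreeAlgebra ℤ Nat.Primes) (v : L n) :
    ((rhoZfun n w v : L n) : Additive (Gamma0 n) →+ ℤ) = rhoHom n ℤ w v := rfl

/-- the action of the free algebra on `L n`. -/
noncomputable def rhoZ : FreeAlgebra ℤ Nat.Primes →+* Module.End ℤ (L n) where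
  toFun w := rhoZfun n w
  map_one' := by
    apply LinearMap.ext
    intro x
    apply Subtype.ext
    rw [rhoZfun_coe, map_one]
    rfl
  map_mul' a b := by
    apply LinearMap.ext
    intro x
    apply Subtype.ext
    rw [rhoZfun_coe, map_mul]
    rfl
  map_zero' := by
    apply LinearMap.ext
    intro x
    apply Subtype.ext
    rw [rhoZfun_coe, map_zero]
    rfl
  map_add' a b := by
    apply LinearMap.ext
    intro x
    apply Subtype.ext
    rw [rhoZfun_coe, map_add]
    rfl

theorem rhoZ_coe (w : FreeAlgebra ℤ Nat.Primes) (x : L n) :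
    ((rhoZ n w x : L n) : Additive (Gamma0 n) →+ ℤ) = rhoHom n ℤ w x := rfl

/-- the operator of a word on `PC n`. -/
noncomputable def rhoCfun (w : FreeAlgebra ℤ Nat.Primes) : Module.End ℂ (PC n) where
  toFun v := ⟨rhoHom n ℂ w v, rhoHom_isParabolic n complex_tf w v v.2⟩
  map_add' u v := by
    apply Subtype.ext
    show rhoHom n ℂ w ((u : Additive (Gamma0 n) →+ ℂ) + v) = _
    rw [map_add]
    rfl
  map_smul' c v := by
    apply Subtype.ext
    show rhoHom n ℂ w (c • (v : Additive (Gamma0 n) →+ ℂ)) = _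
    rw [rhoHom_smul]
    rfl

theorem rhoCfun_coe (w : FreeAlgebra ℤ Nat.Primes) (v : PC n) :
    ((rhoCfun n w v : PC n) : Additive (Gamma0 n) →+ ℂ) = rhoHom n ℂ w v := rfl

/-- the action of the free algebra on `PC n`. -/
noncomputable def rhoC : FreeAlgebra ℤ Nat.Primes →+* Module.End ℂ (PC n) where
  toFun w := rhoCfun n w
  map_one' := by
    apply LinearMap.ext
    intro x
    apply Subtype.ext
    rw [rhoCfun_coe, map_one]
    rfl
  map_mul' a b := by
    apply LinearMap.ext
    intro x
    apply Subtype.ext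
    rw [rhoCfun_coe, map_mul]
    rfl
  map_zero' := by
    apply LinearMap.ext
    intro x
    apply Subtype.ext
    rw [rhoCfun_coe, map_zero]
    rfl
  map_add' a b := by
    apply LinearMap.ext
    intro x
    apply Subtype.ext
    rw [rhoCfun_coe, map_add]
    rfl

theorem rhoC_coe (w : FreeAlgebra ℤ Nat.Primes) (v : PC n) :
    ((rhoC n w v : PC n) : Additive (Gamma0 n) →+ ℂ) = rhoHom n ℂ w v := rfl

theorem rhoForms_eq_zero_of_toPoly (w : FreeAlgebra ℤ Nat.Primes) (hw : toPoly w = 0) :
    rhoForms n w = 0 := by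
  rw [rhoForms_eq, hw, map_zero]
  rfl

theorem ker_le_rhoZ :
    RingHom.ker (toPoly : FreeAlgebra ℤ Nat.Primes →+* HeckeAlg) ≤ RingHom.ker (rhoZ n) := by
  intro w hw
  rw [RingHom.mem_ker] at hw ⊢
  apply LinearMap.ext
  intro x
  apply Subtype.ext
  rw [rhoZ_coe]
  exact rhoHom_int_parabolic_eq_zero n w (rhoForms_eq_zero_of_toPoly n w hw) x x.2

theorem ker_le_rhoC :
    RingHom.ker (toPoly : FreeAlgebra ℤ Nat.Primes →+* HeckeAlg) ≤ RingHom.ker (rhoC n) := by
  intro w hw
  rw [RingHom.mem_ker] at hw ⊢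
  apply LinearMap.ext
  intro x
  apply Subtype.ext
  rw [rhoC_coe]
  exact rhoHom_parabolic_eq_zero n w (rhoForms_eq_zero_of_toPoly n w hw) x x.2

theorem rhoZ_congr {w w' : FreeAlgebra ℤ Nat.Primes} (h : toPoly w = toPoly w') :
    rhoZ n w = rhoZ n w' := by
  have h1 : w - w' ∈ RingHom.ker (toPoly : FreeAlgebra ℤ Nat.Primes →+* HeckeAlg) := by
    rw [RingHom.mem_ker]
    show toPoly (w - w') = 0
    rw [map_sub, h, sub_self]
  have h2 := ker_le_rhoZ n h1
  rw [RingHom.mem_ker, map_sub, sub_eq_zero] at h2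
  exact h2

theorem rhoC_congr {w w' : FreeAlgebra ℤ Nat.Primes} (h : toPoly w = toPoly w') :
    rhoC n w = rhoC n w' := by
  have h1 : w - w' ∈ RingHom.ker (toPoly : FreeAlgebra ℤ Nat.Primes →+* HeckeAlg) := by
    rw [RingHom.mem_ker]
    show toPoly (w - w') = 0
    rw [map_sub, h, sub_self]
  have h2 := ker_le_rhoC n h1
  rw [RingHom.mem_ker, map_sub, sub_eq_zero] at h2
  exact h2

/-- a word representing a Hecke polynomial. -/
noncomputable def word (t : HeckeAlg) : FreeAlgebra ℤ Nat.Primes :=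
  Function.surjInv toPoly_surjective t

theorem toPoly_word (t : HeckeAlg) : toPoly (word t) = t :=
  Function.surjInv_eq toPoly_surjective t

/-- **ACT**: the Hecke algebra acts on `L n`. -/
noncomputable def actZ : HeckeAlg →+* Module.End ℤ (L n) where
  toFun t := rhoZ n (word t)
  map_one' := by
    rw [← map_one (rhoZ n)]
    exact rhoZ_congr n (by rw [toPoly_word, map_one])
  map_mul' a b := by
    rw [← map_mul (rhoZ n)]
    exact rhoZ_congr n (by rw [toPoly_word, map_mul, toPoly_word, toPoly_word])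
  map_zero' := by
    rw [← map_zero (rhoZ n)]
    exact rhoZ_congr n (by rw [toPoly_word, map_zero])
  map_add' a b := by
    rw [← map_add (rhoZ n)]
    exact rhoZ_congr n (by rw [toPoly_word, map_add, toPoly_word, toPoly_word])

/-- **ACT**: the Hecke algebra acts on `PC n`. -/
noncomputable def actC : HeckeAlg →+* Module.End ℂ (PC n) where
  toFun t := rhoC n (word t)
  map_one' := by
    rw [← map_one (rhoC n)]
    exact rhoC_congr n (by rw [toPoly_word, map_one])
  map_mul' a b := by
    rw [← map_mul (rhoC n)]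
    exact rhoC_congr n (by rw [toPoly_word, map_mul, toPoly_word, toPoly_word])
  map_zero' := by
    rw [← map_zero (rhoC n)]
    exact rhoC_congr n (by rw [toPoly_word, map_zero])
  map_add' a b := by
    rw [← map_add (rhoC n)]
    exact rhoC_congr n (by rw [toPoly_word, map_add, toPoly_word, toPoly_word])

theorem actZ_toPoly (w : FreeAlgebra ℤ Nat.Primes) : actZ n (toPoly w) = rhoZ n w :=
  rhoZ_congr n (toPoly_word _)

theorem actC_toPoly (w : FreeAlgebra ℤ Nat.Primes) : actC n (toPoly w) = rhoC n w :=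
  rhoC_congr n (toPoly_word _)

theorem actZ_toPoly_coe (w : FreeAlgebra ℤ Nat.Primes) (x : L n) :
    ((actZ n (toPoly w) x : L n) : Additive (Gamma0 n) →+ ℤ) = rhoHom n ℤ w x := by
  rw [actZ_toPoly]; rfl

theorem actC_toPoly_coe (w : FreeAlgebra ℤ Nat.Primes) (v : PC n) :
    ((actC n (toPoly w) v : PC n) : Additive (Gamma0 n) →+ ℂ) = rhoHom n ℂ w v := by
  rw [actC_toPoly]; rfl

theorem toPoly_ι (l : Nat.Primes) :
    toPoly (FreeAlgebra.ι ℤ l) = (MvPolynomial.X l : HeckeAlg) := by
  rw [toPoly, FreeAlgebra.lift_ι_apply]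

/-- the generator `X_ℓ` acts on `L n` as the Hecke operator `homOp n ℤ ℓ`. -/
theorem actZ_X (l : Nat.Primes) (x : L n) :
    ((actZ n (MvPolynomial.X l) x : L n) : Additive (Gamma0 n) →+ ℤ) = homOp n ℤ l x := by
  rw [← toPoly_ι, actZ_toPoly_coe, rhoHom_ι]

/-- the generator `X_ℓ` acts on `PC n` as the Hecke operator `homOp n ℂ ℓ`. -/
theorem actC_X (l : Nat.Primes) (v : PC n) :
    ((actC n (MvPolynomial.X l) v : PC n) : Additive (Gamma0 n) →+ ℂ) = homOp n ℂ l v := by
  rw [← toPoly_ι, actC_toPoly_coe, rhoHom_ι]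

/-- the two actions are compatible with the coefficient map. -/
theorem actC_castC (t : HeckeAlg) (x : L n) : actC n t (castC n x) = castC n (actZ n t x) := by
  obtain ⟨w, rfl⟩ := toPoly_surjective t
  apply Subtype.ext
  rw [actC_toPoly_coe, castC_coe, castC_coe, actZ_toPoly_coe, rhoHom_comp]

/-- scalars act as scalars. -/
theorem actZ_C (r : ℤ) (x : L n) : actZ n (MvPolynomial.C r) x = r • x := by
  have e : (MvPolynomial.C r : HeckeAlg) = toPoly (algebraMap ℤ _ r) := by
    rw [AlgHom.commutes]; rfl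
  apply Subtype.ext
  rw [e, actZ_toPoly_coe, rhoHom_algebraMap]
  rfl

theorem actC_C (r : ℤ) (v : PC n) : actC n (MvPolynomial.C r) v = (r : ℂ) • v := by
  have e : (MvPolynomial.C r : HeckeAlg) = toPoly (algebraMap ℤ _ r) := by
    rw [AlgHom.commutes]; rfl
  apply Subtype.ext
  rw [e, actC_toPoly_coe, rhoHom_algebraMap]
  refine AddMonoidHom.ext fun γ => ?_
  simp

/-- the action on period homomorphisms of cusp forms is the Hecke action on forms. -/
theorem actC_periodMap (t : HeckeAlg) (f : CuspForm (Gamma0 n) 2) :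
    ((actC n t ⟨periodMap n f, S21_ParVanish.periodMap_mem_parabolicHoms f⟩ : PC n) :
        Additive (Gamma0 n) →+ ℂ)
      = periodMap n (((CuspForm.heckeEvalForms n 2 t : CuspForm.heckeAlgebra n 2 ∅) :
          Module.End ℂ (CuspForm (Gamma0 n) 2)) f) := by
  obtain ⟨w, rfl⟩ := toPoly_surjective t
  rw [actC_toPoly_coe, ← rhoForms_eq, periodMap_rhoForms]

end

end Fermat.Agent.S41_Act
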