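import Fermat.Statements.S49
import Fermat.Prelude.Def_CuspForm_HeckeAlgebra
import Fermat.Prelude.Thm_CuspForm_intLattice_fg
import Fermat.Prelude.Thm_CuspForm_mem_intLattice_of_mem_heckeAlgebra
import Fermat.Prelude.Thm_ModularFormClass_qCoeff_heckeT
import Fermat.Prelude.Thm_ModularFormClass_qCoeff_heckeU
import Fermat.Agent.S49_DS

set_option autoImplicit false
open CuspForm EisensteinWeightOne CongruenceSubgroup ModularFormClass
open FLT FLT.AbstractIntegralStructure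

namespace Fermat.Agent.S49

/-! ### q-coefficients of cusp forms of level `Γ₀(N)` -/

section qcoeff

variable {N : ℕ}

theorem hΓ (N : ℕ) :
    (1 : ℝ) ∈ (Subgroup.map (Matrix.SpecialLinearGroup.mapGL ℝ) (Gamma0 N)).strictPeriods :=
  CongruenceSubgroup.one_mem_strictPeriods_Gamma0 N

theorem qCoeff_add (f g : CuspForm (Gamma0 N) 2) (n : ℕ) :
    qCoeff ⇑(f + g) n = qCoeff ⇑f n + qCoeff ⇑g n :=
  P2MW.S_CuspForm_intLattice_fg.W3WsD.qCoeff_add f g n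

theorem qCoeff_zsmul (c : ℤ) (f : CuspForm (Gamma0 N) 2) (n : ℕ) :
    qCoeff ⇑(c • f) n = c * qCoeff ⇑f n :=
  P2MW.S_CuspForm_intLattice_fg.W3WsD.qCoeff_zsmul c f n

theorem qCoeff_smul (c : ℂ) (f : CuspForm (Gamma0 N) 2) (n : ℕ) :
    qCoeff ⇑(c • f) n = c * qCoeff ⇑f n := by
  have h1 : ⇑(c • f) = c • ⇑f := rfl
  simp only [qCoeff, h1]
  rw [ModularForm.qExpansion_smul one_pos (hΓ N) c f]
  simp

theorem qCoeff_sub (f g : CuspForm (Gamma0 N) 2) (n : ℕ) :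
    qCoeff ⇑(f - g) n = qCoeff ⇑f n - qCoeff ⇑g n := by
  have h1 : f - g = f + (-1 : ℤ) • g := by rw [neg_one_zsmul, sub_eq_add_neg]
  rw [h1, qCoeff_add, qCoeff_zsmul]
  push_cast
  ring

theorem qCoeff_zero_index (f : CuspForm (Gamma0 N) 2) : qCoeff ⇑f 0 = 0 :=
  CuspFormClass.qExpansion_coeff_zero f one_pos (hΓ N)

theorem eq_zero_of_qCoeff (f : CuspForm (Gamma0 N) 2) (h : ∀ n : ℕ, qCoeff ⇑f n = 0) :
    f = 0 := by
  have : Fact (IsCusp OnePoint.infty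
      (Subgroup.map (Matrix.SpecialLinearGroup.mapGL ℝ) (Gamma0 N))) :=
    ⟨Subgroup.isCusp_of_mem_strictPeriods one_pos (hΓ N)⟩
  have h0 : UpperHalfPlane.qExpansion 1 ⇑f = 0 := by
    ext n
    simpa [qCoeff] using h n
  have h1 : (⇑f : UpperHalfPlane → ℂ) = 0 :=
    (UpperHalfPlane.qExpansion_eq_zero_iff one_pos
      (SlashInvariantFormClass.periodic_comp_ofComplex f (hΓ N))
      (ModularFormClass.holo f) (ModularFormClass.bdd_at_infty f)).mp h0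
  exact DFunLike.coe_injective h1

theorem qCoeff_T {ℓ : ℕ} (hℓ : ℓ.Prime) (hℓN : ¬ ℓ ∣ N) (f : CuspForm (Gamma0 N) 2) (n : ℕ) :
    qCoeff ⇑(CuspForm.heckeTLin 2 hℓ hℓN f) n =
      qCoeff ⇑f (n * ℓ) + if ℓ ∣ n then (ℓ : ℂ) * qCoeff ⇑f (n / ℓ) else 0 := by
  rw [CuspForm.coe_heckeTLin_apply, ModularFormClass.qCoeff_heckeT f (hΓ N) hℓ.ne_zero n,
    ModularForm.coeffHeckeT_apply]
  norm_num

theorem qCoeff_U [NeZero N] {ℓ : ℕ} (hℓ : ℓ.Prime) (hℓN : ℓ ∣ N) (f : CuspForm (Gamma0 N) 2)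
    (n : ℕ) :
    qCoeff ⇑(CuspForm.heckeULin 2 hℓN f) n = qCoeff ⇑f (n * ℓ) := by
  rw [CuspForm.coe_heckeULin_apply, ModularFormClass.qCoeff_heckeU f (hΓ N) hℓ.ne_zero n,
    ModularForm.coeffHeckeU_apply]

theorem mem_intLattice_iff (f : CuspForm (Gamma0 N) 2) :
    f ∈ CuspForm.intLattice N 2 ↔ ∀ n : ℕ, ∃ m : ℤ, qCoeff ⇑f n = (m : ℂ) :=
  P2MW.S_CuspForm_intLattice_fg.W3WsD.mem_intLattice_iff f

/-- A form all of whose coefficients are multiples of three is three times an integral form. -/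
theorem exists_three_smul (g : CuspForm (Gamma0 N) 2)
    (hg : ∀ n : ℕ, ∃ m : ℤ, qCoeff ⇑g n = 3 * (m : ℂ)) :
    ∃ y ∈ CuspForm.intLattice N 2, (3 : ℤ) • y = g := by
  refine ⟨(3⁻¹ : ℂ) • g, ?_, ?_⟩
  · rw [mem_intLattice_iff]
    intro n
    obtain ⟨m, hm⟩ := hg n
    exact ⟨m, by rw [qCoeff_smul, hm]; field_simp⟩
  · rw [← Int.cast_smul_eq_zsmul ℂ, smul_smul]
    norm_num

end qcoeff

/-! ### Congruence bookkeeping -/

theorem bridge_coeff (a : ℕ → ℤ) (n : ℕ) : (3 : ℤ) ∣ (bridgeProduct a).coeff n - a n := by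
  obtain ⟨E, hE⟩ : ∃ E : PowerSeries ℤ, e1Chi3In ℤ = 1 + PowerSeries.C (3 : ℤ) * E := by
    refine ⟨PowerSeries.mk (fun n => if n = 0 then 0 else 2 * sigmaChi n), ?_⟩
    ext m
    simp only [e1Chi3In, e1Chi3, PowerSeries.coeff_map, PowerSeries.coeff_mk, map_add,
      PowerSeries.coeff_one, PowerSeries.coeff_C_mul]
    split_ifs <;> simp
    ring
  unfold bridgeProduct
  rw [hE, mul_add, mul_one, map_add, PowerSeries.coeff_mk, mul_left_comm, PowerSeries.coeff_C_mul]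
  exact ⟨PowerSeries.coeff n (PowerSeries.mk a * E), by ring⟩

theorem chi_congr (ℓ : ℕ) : (3 : ℤ) ∣ (ℓ : ℤ) - chiNegThree ℓ := by
  unfold chiNegThree
  have h := Nat.mod_lt ℓ (show 0 < 3 by norm_num)
  split_ifs with h1 h2 <;> omega

/-! ### From the Hecke relations to a normalised eigenform -/

theorem mul_of_coprime (c : ℕ → ℂ) (N : ℕ) (h1 : c 1 = 1)
    (hR1 : ∀ ℓ : ℕ, ℓ.Prime → ¬ ℓ ∣ N → ∀ n : ℕ,
      c (n * ℓ) = c ℓ * c n - if ℓ ∣ n then (ℓ : ℂ) * c (n / ℓ) else 0)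
    (hR2 : ∀ ℓ : ℕ, ℓ.Prime → ℓ ∣ N → ∀ n : ℕ, c (n * ℓ) = c ℓ * c n) :
    ∀ m n : ℕ, m.Coprime n → c (m * n) = c m * c n := by
  intro m
  induction m using Nat.strong_induction_on with
  | _ m ih =>
    intro n hmn
    rcases Nat.lt_or_ge m 2 with hm | hm
    · interval_cases m
      · have hn : n = 1 := by simpa using hmn
        subst hn
        simp [h1]
      · simp [h1]
    · set ℓ := m.minFac with hℓdef
      have hℓ : ℓ.Prime := Nat.minFac_prime (by omega)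
      have hℓm : ℓ ∣ m := Nat.minFac_dvd m
      obtain ⟨m', hm'⟩ := hℓm
      have hm'pos : 0 < m' := by
        rcases Nat.eq_zero_or_pos m' with h | h
        · subst h; omega
        · exact h
      have hm'lt : m' < m := by
        rw [hm']
        nlinarith [hℓ.two_le]
      have hcop' : m'.Coprime n := Nat.Coprime.coprime_dvd_left ⟨ℓ, by rw [hm', mul_comm]⟩ hmn
      have hℓn : ¬ ℓ ∣ n := by
        intro hdvd
        have : ℓ ∣ Nat.gcd m n := Nat.dvd_gcd ⟨m', hm'⟩ hdvd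
        rw [hmn] at this
        exact hℓ.one_lt.ne' (Nat.dvd_one.mp this)
      have e1 : m * n = (m' * n) * ℓ := by rw [hm']; ring
      have e2 : m = m' * ℓ := by rw [hm']; ring
      by_cases hℓN : ℓ ∣ N
      · rw [e1, hR2 ℓ hℓ hℓN, ih m' hm'lt n hcop', e2, hR2 ℓ hℓ hℓN]
        ring
      · rw [e1, hR1 ℓ hℓ hℓN, ih m' hm'lt n hcop', e2, hR1 ℓ hℓ hℓN]
        by_cases hℓm' : ℓ ∣ m'
        · obtain ⟨m'', hm''⟩ := hℓm'
          have hm''lt : m'' < m := by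
            have : m'' ≤ m' := by rw [hm'']; nlinarith [hℓ.two_le]
            omega
          have hcop'' : m''.Coprime n :=
            Nat.Coprime.coprime_dvd_left ⟨ℓ, by rw [hm'', mul_comm]⟩ hcop'
          have hd1 : ℓ ∣ m' * n := Dvd.dvd.mul_right ⟨m'', hm''⟩ n
          have hd2 : ℓ ∣ m' := ⟨m'', hm''⟩
          have e3 : m' * n / ℓ = m'' * n := by
            rw [hm'', mul_assoc]; exact Nat.mul_div_cancel_left _ hℓ.pos
          have e4 : m' / ℓ = m'' := by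
            rw [hm'']; exact Nat.mul_div_cancel_left _ hℓ.pos
          rw [if_pos hd1, if_pos hd2, e3, e4, ih m'' hm''lt n hcop'']
          ring
        · have hd1 : ¬ ℓ ∣ m' * n := by
            intro hd
            rcases (Nat.Prime.dvd_mul hℓ).mp hd with h | h
            · exact hℓm' h
            · exact hℓn h
          rw [if_neg hd1, if_neg hℓm']
          ring

theorem isNormalizedEigenform_of_rel {N : ℕ} (f : CuspForm (Gamma0 N) 2)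
    (h1 : qCoeff ⇑f 1 = 1)
    (hR1 : ∀ ℓ : ℕ, ℓ.Prime → ¬ ℓ ∣ N → ∀ n : ℕ,
      qCoeff ⇑f (n * ℓ) = qCoeff ⇑f ℓ * qCoeff ⇑f n -
        if ℓ ∣ n then (ℓ : ℂ) * qCoeff ⇑f (n / ℓ) else 0)
    (hR2 : ∀ ℓ : ℕ, ℓ.Prime → ℓ ∣ N → ∀ n : ℕ,
      qCoeff ⇑f (n * ℓ) = qCoeff ⇑f ℓ * qCoeff ⇑f n) :
    f.IsNormalizedEigenform where
  qCoeff_one := h1
  qCoeff_mul_of_coprime := mul_of_coprime (fun n => qCoeff ⇑f n) N h1 hR1 hR2
  qCoeff_prime_pow_of_not_dvd := fun p r hp hpN => by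
    have h := hR1 p hp hpN (p ^ (r + 1))
    have hd : p ∣ p ^ (r + 1) := dvd_pow_self p (Nat.succ_ne_zero r)
    have e : p ^ (r + 1) / p = p ^ r := by
      rw [pow_succ]; exact Nat.mul_div_cancel _ hp.pos
    rw [if_pos hd, e] at h
    rw [show p ^ (r + 2) = p ^ (r + 1) * p from by ring, h]
  qCoeff_prime_pow_of_dvd := fun p r hp hpN => by
    have h := hR2 p hp hpN (p ^ (r + 1))
    rw [show p ^ (r + 2) = p ^ (r + 1) * p from by ring, h]

/-! ### The main statement -/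

theorem result
    {N : ℕ} [NeZero N] (h : CuspForm.HasIntegralBasis N) {a : ℕ → ℤ}
    (heig : FormalHecke.IsEigensystem
      (fun ℓ => if ℓ ∣ N then 0 else ((chiNegThree ℓ : ℤ) : ℤ)) a)
    (hreal : CuspForm.IsLatticeRealized N a) :
    ∃ (f : CuspForm (Gamma0 N) 2) (_ : f.IsNormalizedEigenform)
      (𝔪' : Ideal (integralClosure ℤ ℂ)), 𝔪'.IsMaximal ∧
      ((3 : ℕ) : integralClosure ℤ ℂ) ∈ 𝔪' ∧
      ∀ (ℓ : ℕ) (_ : ℓ.Prime) (_ : ¬ ℓ ∣ N),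
        ∃ c : integralClosure ℤ ℂ, (c : ℂ) = ModularFormClass.qCoeff f ℓ ∧
          c - (a ℓ : integralClosure ℤ ℂ) ∈ 𝔪' := by
  classical
  obtain ⟨f₀, hf₀int, af, haf, hcong⟩ := hreal
  obtain ⟨ha1, hrec⟩ := heig
  -- the coefficients of `f₀` agree with `a` modulo three
  have hafa : ∀ n, (3 : ℤ) ∣ af n - a n := fun n => by
    have := dvd_add (hcong n) (bridge_coeff a n)
    simpa using this
  choose d hd using hafa
  -- the lattice of integral forms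
  have hfg : (CuspForm.intLattice N 2).FG := CuspForm.intLattice_fg N 2
  have hsub : qIntegralSet N ⊆ (CuspForm.intLattice N 2 : Set (CuspForm (Gamma0 N) 2)) := by
    intro g hg
    rw [SetLike.mem_coe, mem_intLattice_iff]
    intro n
    obtain ⟨m, hm⟩ := Subring.mem_bot.mp (hg n)
    exact ⟨m, hm.symm⟩
  have hspan : Submodule.span ℂ (CuspForm.intLattice N 2 : Set (CuspForm (Gamma0 N) 2)) = ⊤ := by
    rw [eq_top_iff, ← h]
    exact Submodule.span_mono hsub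
  have hfin : FiniteDimensional ℂ (CuspForm (Gamma0 N) 2) := by
    obtain ⟨s, hs⟩ := hfg
    refine ⟨⟨s, ?_⟩⟩
    rw [eq_top_iff, ← hspan]
    apply Submodule.span_le.mpr
    rw [← hs]
    exact Submodule.span_subset_span ℤ ℂ _
  have hf₀L : f₀ ∈ CuspForm.intLattice N 2 := hsub hf₀int
  -- the sublattice `3L`
  obtain ⟨M, hMmem⟩ : ∃ M : AddSubgroup (CuspForm (Gamma0 N) 2),
      ∀ x, x ∈ M ↔ ∃ y ∈ CuspForm.intLattice N 2, (3 : ℤ) • y = x :=
    ⟨((CuspForm.intLattice N 2).map ((3 : ℤ) • LinearMap.id)).toAddSubgroup,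
      fun x => Submodule.mem_map⟩
  have hMq : ∀ g : CuspForm (Gamma0 N) 2,
      (∀ n : ℕ, ∃ m : ℤ, qCoeff ⇑g n = 3 * (m : ℂ)) → g ∈ M :=
    fun g hg => (hMmem g).mpr (exists_three_smul g hg)
  -- the Hecke ring
  let ι : CuspForm.heckeAlgebra N 2 (∅ : Set ℕ) →+* Module.End ℂ (CuspForm (Gamma0 N) 2) :=
    (CuspForm.heckeAlgebra N 2 (∅ : Set ℕ)).val.toRingHom
  have hstabL : ∀ T : CuspForm.heckeAlgebra N 2 (∅ : Set ℕ),
      ∀ x ∈ CuspForm.intLattice N 2, ι T x ∈ CuspForm.intLattice N 2 :=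
    fun T x hx => CuspForm.mem_intLattice_of_mem_heckeAlgebra (by norm_num) T.2 hx
  have hM : ∀ T : CuspForm.heckeAlgebra N 2 (∅ : Set ℕ), ∀ x ∈ M, ι T x ∈ M := by
    intro T x hx
    obtain ⟨y, hy, rfl⟩ := (hMmem x).mp hx
    exact (hMmem _).mpr ⟨ι T y, hstabL T y hy, (map_zsmul (ι T) 3 y).symm⟩
  have hf₀M : f₀ ∉ M := by
    intro hmem
    obtain ⟨y, hy, hy3⟩ := (hMmem f₀).mp hmem
    obtain ⟨m, hm⟩ := (mem_intLattice_iff y).mp hy 1
    have h1 : qCoeff ⇑f₀ 1 = 3 * (m : ℂ) := by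
      rw [← hy3, qCoeff_zsmul, hm]; push_cast; ring
    rw [← haf 1] at h1
    have h2 : af 1 = 3 * m := by exact_mod_cast h1
    have h3 := hd 1
    rw [ha1] at h3
    omega
  have h3f₀ : ((3 : ℕ) : ℤ) • f₀ ∈ M := (hMmem _).mpr ⟨f₀, hf₀L, by norm_num⟩
  -- the generators act on `f₀` through `a`, modulo `3L`
  have hgenT : ∀ (ℓ : ℕ) (hℓ : ℓ.Prime) (hℓN : ¬ ℓ ∣ N),
      CuspForm.heckeTLin 2 hℓ hℓN f₀ - a ℓ • f₀ ∈ M := by
    intro ℓ hℓ hℓN
    apply hMq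
    intro n
    rw [qCoeff_sub, qCoeff_zsmul, qCoeff_T, ← haf, ← haf]
    have hr := hrec ℓ hℓ n
    simp only [if_neg hℓN] at hr
    obtain ⟨e, he⟩ := chi_congr ℓ
    rw [mul_comm ℓ n] at hr
    have h1 := hd (n * ℓ)
    have h3 := hd n
    by_cases hdvd : ℓ ∣ n
    · rw [if_pos hdvd, ← haf]
      rw [if_pos hdvd] at hr
      have h2 := hd (n / ℓ)
      refine ⟨d (n * ℓ) + ℓ * d (n / ℓ) - a ℓ * d n + a (n / ℓ) * e, ?_⟩
      have key : af (n * ℓ) + (ℓ : ℤ) * af (n / ℓ) - a ℓ * af n =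
          3 * (d (n * ℓ) + ℓ * d (n / ℓ) - a ℓ * d n + a (n / ℓ) * e) := by
        linear_combination h1 + (ℓ : ℤ) * h2 - a ℓ * h3 + a (n / ℓ) * he + hr
      exact_mod_cast key
    · rw [if_neg hdvd, ← haf]
      rw [if_neg hdvd] at hr
      refine ⟨d (n * ℓ) - a ℓ * d n, ?_⟩
      have key : af (n * ℓ) - a ℓ * af n = 3 * (d (n * ℓ) - a ℓ * d n) := by
        linear_combination h1 - a ℓ * h3 + hr
      rw [add_zero]
      exact_mod_cast key
  have hgenU : ∀ (ℓ : ℕ) (hℓ : ℓ.Prime) (hℓN : ℓ ∣ N),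
      CuspForm.heckeULin 2 hℓN f₀ - a ℓ • f₀ ∈ M := by
    intro ℓ hℓ hℓN
    apply hMq
    intro n
    rw [qCoeff_sub, qCoeff_zsmul, qCoeff_U hℓ, ← haf, ← haf]
    have hr := hrec ℓ hℓ n
    simp only [if_pos hℓN, zero_mul, add_zero] at hr
    rw [mul_comm ℓ n] at hr
    have h1 := hd (n * ℓ)
    have h3 := hd n
    refine ⟨d (n * ℓ) - a ℓ * d n, ?_⟩
    have key : af (n * ℓ) - a ℓ * af n = 3 * (d (n * ℓ) - a ℓ * d n) := by
      linear_combination h1 - a ℓ * h3 + hr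
    exact_mod_cast key
  have hθ : ∀ T : CuspForm.heckeAlgebra N 2 (∅ : Set ℕ), ∃ t : ℤ, ι T f₀ - t • f₀ ∈ M := by
    rintro ⟨T, hT⟩
    show ∃ t : ℤ, T f₀ - t • f₀ ∈ M
    have hT' : T ∈ Algebra.adjoin ℤ (CuspForm.heckeGenerators N 2 (∅ : Set ℕ)) := hT
    induction hT' using Algebra.adjoin_induction with
    | mem x hx =>
      rcases hx with ⟨ℓ, hℓ, hℓN, -, rfl⟩ | ⟨q, hqN, hq, -, rfl⟩
      · exact ⟨a ℓ, hgenT ℓ hℓ hℓN⟩
      · exact ⟨a q, hgenU q hq hqN⟩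
    | algebraMap r =>
      refine ⟨r, ?_⟩
      rw [Algebra.algebraMap_eq_smul_one, LinearMap.smul_apply, Module.End.one_apply, sub_self]
      exact M.zero_mem
    | add x y hx hy ihx ihy =>
      obtain ⟨s, hs⟩ := ihx hx
      obtain ⟨t, ht⟩ := ihy hy
      refine ⟨s + t, ?_⟩
      have e : (x + y) f₀ - (s + t) • f₀ = (x f₀ - s • f₀) + (y f₀ - t • f₀) := by
        rw [LinearMap.add_apply, add_smul]; abel
      rw [e]; exact M.add_mem hs ht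
    | mul x y hx hy ihx ihy =>
      obtain ⟨s, hs⟩ := ihx hx
      obtain ⟨t, ht⟩ := ihy hy
      refine ⟨s * t, ?_⟩
      have e : (x * y) f₀ - (s * t) • f₀ = x (y f₀ - t • f₀) + t • (x f₀ - s • f₀) := by
        rw [Module.End.mul_apply, map_sub, map_zsmul, smul_sub, smul_smul, mul_comm t s]; abel
      rw [e]
      exact M.add_mem (hM ⟨x, hx⟩ _ ht) (M.zsmul_mem hs t)
  -- the prime ideal and the eigenvalue system
  obtain ⟨𝔫, h𝔫prime, h𝔫mem⟩ :=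
    S49_DS.exists_prime_ideal ι M hM f₀ hf₀M 3 Nat.prime_three h3f₀ hθ
  have hint : ∀ T : CuspForm.heckeAlgebra N 2 (∅ : Set ℕ), ∃ P : Polynomial ℤ, P.Monic ∧
      Polynomial.eval₂ (Int.castRingHom (Module.End ℂ (CuspForm (Gamma0 N) 2))) (ι T) P = 0 :=
    fun T => S49_DS.isIntegral_of_lattice _ hfg hspan (ι T) (hstabL T)
  have hker : ∀ T : CuspForm.heckeAlgebra N 2 (∅ : Set ℕ), ι T = 0 → T ∈ 𝔫 := fun T hT => by
    rw [h𝔫mem, hT, LinearMap.zero_apply]; exact M.zero_mem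
  obtain ⟨lam, v, Q, hv0, heigv, hQmax, hQ⟩ := S49_DS.exists_eigen_system ι hint 𝔫 hker
  -- Hecke relations for the eigenvector
  have hE1 : ∀ (ℓ : ℕ) (hℓ : ℓ.Prime) (hℓN : ¬ ℓ ∣ N) (n : ℕ),
      ((lam (CuspForm.heckeAlgebra.T hℓ hℓN (Set.notMem_empty ℓ)) : integralClosure ℤ ℂ) : ℂ) *
          qCoeff ⇑v n =
        qCoeff ⇑v (n * ℓ) + if ℓ ∣ n then (ℓ : ℂ) * qCoeff ⇑v (n / ℓ) else 0 := by
    intro ℓ hℓ hℓN n
    rw [← qCoeff_smul, ← heigv, ← qCoeff_T hℓ hℓN]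
    rfl
  have hE2 : ∀ (ℓ : ℕ) (hℓ : ℓ.Prime) (hℓN : ℓ ∣ N) (n : ℕ),
      ((lam (CuspForm.heckeAlgebra.U hℓ hℓN (Set.notMem_empty ℓ)) : integralClosure ℤ ℂ) : ℂ) *
          qCoeff ⇑v n = qCoeff ⇑v (n * ℓ) := by
    intro ℓ hℓ hℓN n
    rw [← qCoeff_smul, ← heigv, ← qCoeff_U hℓ hℓN]
    rfl
  -- the first coefficient of the eigenvector does not vanish
  have hv1 : qCoeff ⇑v 1 ≠ 0 := by
    intro h0
    apply hv0
    apply eq_zero_of_qCoeff
    intro n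
    induction n using Nat.strong_induction_on with
    | _ n ih =>
      rcases Nat.lt_or_ge n 2 with hn | hn
      · interval_cases n
        · exact qCoeff_zero_index v
        · exact h0
      · have hℓ : n.minFac.Prime := Nat.minFac_prime (by omega)
        obtain ⟨m, hm⟩ := Nat.minFac_dvd n
        have hmlt : m < n := by
          have hmpos : 0 < m := by
            rcases Nat.eq_zero_or_pos m with h | h
            · subst h; omega
            · exact h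
          have := hℓ.two_le
          nlinarith
        have e : n = m * n.minFac := by rw [mul_comm]; exact hm
        by_cases hℓN : n.minFac ∣ N
        · have h2 := hE2 n.minFac hℓ hℓN m
          rw [ih m hmlt, mul_zero] at h2
          rw [e]; exact h2.symm
        · have h2 := hE1 n.minFac hℓ hℓN m
          rw [ih m hmlt, mul_zero] at h2
          have h3 : (if n.minFac ∣ m then (n.minFac : ℂ) * qCoeff ⇑v (m / n.minFac) else 0) = 0 := by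
            split_ifs with hd
            · rw [ih (m / n.minFac) (lt_of_le_of_lt (Nat.div_le_self m _) hmlt), mul_zero]
            · rfl
          rw [h3, add_zero] at h2
          rw [e]; exact h2.symm
  -- normalise
  obtain ⟨f, hfq⟩ : ∃ f : CuspForm (Gamma0 N) 2,
      ∀ n : ℕ, qCoeff ⇑f n = (qCoeff ⇑v 1)⁻¹ * qCoeff ⇑v n :=
    ⟨(qCoeff ⇑v 1)⁻¹ • v, fun n => qCoeff_smul _ _ _⟩
  have hf1 : qCoeff ⇑f 1 = 1 := by rw [hfq]; exact inv_mul_cancel₀ hv1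
  have hE1' : ∀ (ℓ : ℕ) (hℓ : ℓ.Prime) (hℓN : ¬ ℓ ∣ N) (n : ℕ),
      ((lam (CuspForm.heckeAlgebra.T hℓ hℓN (Set.notMem_empty ℓ)) : integralClosure ℤ ℂ) : ℂ) *
          qCoeff ⇑f n =
        qCoeff ⇑f (n * ℓ) + if ℓ ∣ n then (ℓ : ℂ) * qCoeff ⇑f (n / ℓ) else 0 := by
    intro ℓ hℓ hℓN n
    have h2 := hE1 ℓ hℓ hℓN n
    rw [hfq, hfq, hfq]
    by_cases hdvd : ℓ ∣ n
    · rw [if_pos hdvd] at h2 ⊢
      linear_combination (qCoeff ⇑v 1)⁻¹ * h2
    · rw [if_neg hdvd] at h2 ⊢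
      linear_combination (qCoeff ⇑v 1)⁻¹ * h2
  have hE2' : ∀ (ℓ : ℕ) (hℓ : ℓ.Prime) (hℓN : ℓ ∣ N) (n : ℕ),
      ((lam (CuspForm.heckeAlgebra.U hℓ hℓN (Set.notMem_empty ℓ)) : integralClosure ℤ ℂ) : ℂ) *
          qCoeff ⇑f n = qCoeff ⇑f (n * ℓ) := by
    intro ℓ hℓ hℓN n
    have h2 := hE2 ℓ hℓ hℓN n
    rw [hfq, hfq]
    linear_combination (qCoeff ⇑v 1)⁻¹ * h2
  have hlamT : ∀ (ℓ : ℕ) (hℓ : ℓ.Prime) (hℓN : ¬ ℓ ∣ N),
      ((lam (CuspForm.heckeAlgebra.T hℓ hℓN (Set.notMem_empty ℓ)) : integralClosure ℤ ℂ) : ℂ) =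
        qCoeff ⇑f ℓ := by
    intro ℓ hℓ hℓN
    have h2 := hE1' ℓ hℓ hℓN 1
    rw [hf1, mul_one, one_mul, if_neg (Nat.Prime.not_dvd_one hℓ), add_zero] at h2
    exact h2
  have hlamU : ∀ (ℓ : ℕ) (hℓ : ℓ.Prime) (hℓN : ℓ ∣ N),
      ((lam (CuspForm.heckeAlgebra.U hℓ hℓN (Set.notMem_empty ℓ)) : integralClosure ℤ ℂ) : ℂ) =
        qCoeff ⇑f ℓ := by
    intro ℓ hℓ hℓN
    have h2 := hE2' ℓ hℓ hℓN 1
    rw [hf1, mul_one, one_mul] at h2
    exact h2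
  refine ⟨f, isNormalizedEigenform_of_rel f hf1 ?_ ?_, Q, hQmax, ?_, ?_⟩
  · intro ℓ hℓ hℓN n
    have h2 := hE1' ℓ hℓ hℓN n
    rw [hlamT ℓ hℓ hℓN] at h2
    rw [h2]; ring
  · intro ℓ hℓ hℓN n
    have h2 := hE2' ℓ hℓ hℓN n
    rw [hlamU ℓ hℓ hℓN] at h2
    exact h2.symm
  · have h3 : ((3 : ℕ) : CuspForm.heckeAlgebra N 2 (∅ : Set ℕ)) ∈ 𝔫 := by
      rw [h𝔫mem, map_natCast]
      have e : ((3 : ℕ) : Module.End ℂ (CuspForm (Gamma0 N) 2)) f₀ = ((3 : ℕ) : ℤ) • f₀ := by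
        ext z
        simp
      rw [e]; exact h3f₀
    have h4 := hQ _ h3
    rwa [map_natCast] at h4
  · intro ℓ hℓ hℓN
    refine ⟨lam (CuspForm.heckeAlgebra.T hℓ hℓN (Set.notMem_empty ℓ)), hlamT ℓ hℓ hℓN, ?_⟩
    have hmem : CuspForm.heckeAlgebra.T hℓ hℓN (Set.notMem_empty ℓ) -
        ((a ℓ : ℤ) : CuspForm.heckeAlgebra N 2 (∅ : Set ℕ)) ∈ 𝔫 := by
      rw [h𝔫mem, map_sub, map_intCast, LinearMap.sub_apply]
      have e : ((a ℓ : ℤ) : Module.End ℂ (CuspForm (Gamma0 N) 2)) f₀ = a ℓ • f₀ := by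
        ext z
        simp
      rw [e]
      exact hgenT ℓ hℓ hℓN
    have h4 := hQ _ hmem
    rwa [map_sub, map_intCast] at h4

end Fermat.Agent.S49
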