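import Mathlib
import Fermat.Agent.S49
import Fermat.Agent.S16_LB
import Fermat.Agent.S21_Inj
import Fermat.Agent.S21

/-!
# S41, block END / EXT (helper4): from a Hecke eigenclass in `Hom_par(Γ₀(M), ℂ)` to an eigenform

A nonzero parabolic homomorphism `v : Γ₀(M) → ℂ` which is an eigenvector of all the operators
`S16_LB.homOp M ℂ ℓ` (eigenvalues `lam ℓ`) gives a normalised eigenform of level `Γ₀(M)` whose
coefficients at the primes are the `lam ℓ`, or their complex conjugates.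

Every parabolic `v` is `P(h₁) + (-conj) ∘ P(h₂)` for unique cusp forms `h₁, h₂` (`S21`), the
Hecke operators respect this decomposition (`S16_Hecke`), and `lam • ((-conj) ∘ φ) =
(-conj) ∘ (conj lam • φ)`.
-/

set_option autoImplicit false
set_option linter.unusedSectionVars false

open Complex CongruenceSubgroup ModularCurve ModularCurve.Period ModularFormClass
open scoped MatrixGroups ModularForm

namespace Fermat.Agent.S41_Ext

open Fermat.Agent.S16_Hecke Fermat.Agent.S16_LB Fermat.Agent.S49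

section FormOp

variable (M : ℕ) [NeZero M]

/-- the Hecke operator at the prime `ℓ` on cusp forms (`U_ℓ` if `ℓ ∣ M`, `T_ℓ` otherwise). -/
noncomputable def formOp (ℓ : Nat.Primes) : Module.End ℂ (CuspForm (Gamma0 M) 2) :=
  if h : (ℓ : ℕ) ∣ M then CuspForm.heckeULin 2 h else CuspForm.heckeTLin 2 ℓ.2 h

theorem formOp_of_dvd {ℓ : Nat.Primes} (h : (ℓ : ℕ) ∣ M) :
    formOp M ℓ = CuspForm.heckeULin 2 h := by
  unfold formOp
  rw [dif_pos h]

theorem formOp_of_not_dvd {ℓ : Nat.Primes} (h : ¬ (ℓ : ℕ) ∣ M) :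
    formOp M ℓ = CuspForm.heckeTLin 2 ℓ.2 h := by
  unfold formOp
  rw [dif_neg h]

/-- Eichler–Shimura equivariance. -/
theorem periodMap_formOp (ℓ : Nat.Primes) (f : CuspForm (Gamma0 M) 2) :
    periodMap M (formOp M ℓ f) = homOp M ℂ ℓ (periodMap M f) := by
  unfold formOp homOp
  split_ifs with h
  · exact periodMap_heckeULin M h f
  · exact periodMap_heckeTLin M ℓ.2 h f

/-- the comparison map `(h₁, h₂) ↦ P(h₁) + (-conj) ∘ P(h₂)`. -/
noncomputable def cmp (h₁ h₂ : CuspForm (Gamma0 M) 2) : Additive (Gamma0 M) →+ ℂ :=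
  periodMap M h₁ + negConj.comp (periodMap M h₂)

theorem cmp_apply (h₁ h₂ : CuspForm (Gamma0 M) 2) (γ : Additive (Gamma0 M)) :
    cmp M h₁ h₂ γ = periodMap M h₁ γ - (starRingEnd ℂ) (periodMap M h₂ γ) := by
  unfold cmp
  rw [AddMonoidHom.add_apply, AddMonoidHom.comp_apply, negConj_apply, sub_eq_add_neg]

/-- injectivity of the comparison map. -/
theorem cmp_eq_zero {h₁ h₂ : CuspForm (Gamma0 M) 2} (h : cmp M h₁ h₂ = 0) :
    h₁ = 0 ∧ h₂ = 0 := by
  have hab : ∀ γ : Gamma0 M, periodMap M h₁ (Additive.ofMul γ)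
      = (starRingEnd ℂ) (periodMap M h₂ (Additive.ofMul γ)) := by
    intro γ
    have h1 := DFunLike.congr_fun h (Additive.ofMul γ)
    rw [cmp_apply, AddMonoidHom.zero_apply] at h1
    exact sub_eq_zero.mp h1
  have h1 : h₁ - h₂ = 0 := by
    apply S21_Inj.eq_zero_of_re_periodMap_eq_zero
    intro γ
    rw [S21_Inj.periodMap_sub, AddMonoidHom.sub_apply, hab γ]
    simp
  have h2 : Complex.I • (h₁ + h₂) = 0 := by
    apply S21_Inj.eq_zero_of_re_periodMap_eq_zero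
    intro γ
    rw [S21_Prim.periodMap_smul, AddMonoidHom.smul_apply, S21_Prim.periodMap_add,
      AddMonoidHom.add_apply, hab γ]
    simp
  have h3 : h₁ + h₂ = 0 := by
    rcases smul_eq_zero.mp h2 with h | h
    · exact absurd h Complex.I_ne_zero
    · exact h
  have h12 : h₁ = h₂ := sub_eq_zero.mp h1
  have two_ne : (2 : ℂ) ≠ 0 := two_ne_zero
  have ha : h₁ = 0 := by
    have : (2 : ℂ) • h₁ = 0 := by
      rw [two_smul]
      nth_rewrite 2 [h12]
      exact h3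
    exact (smul_eq_zero.mp this).resolve_left two_ne
  exact ⟨ha, by rw [← h12, ha]⟩

/-- surjectivity of the comparison map onto the parabolic homomorphisms. -/
theorem exists_cmp (v : Additive (Gamma0 M) →+ ℂ) (hv : IsParabolicHom (Gamma0 M) v) :
    ∃ h₁ h₂ : CuspForm (Gamma0 M) 2, cmp M h₁ h₂ = v := by
  have hS21 := (Fermat.Agent.S21.result M).2
  have hmem : v ∈ LinearMap.range (periodHomPair M) := by rw [hS21]; exact hv
  obtain ⟨⟨f, g⟩, hfg⟩ := hmem
  obtain ⟨pml, hpml, hdef⟩ := periodHomPair_def M (S21_Prim.existsPeriodMapLinear M)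
  rw [hdef] at hfg
  have e : (LinearMap.coprod ((LinearMap.id + charInvolution M ℂ ℂ) ∘ₗ pml)
      ((LinearMap.id - charInvolution M ℂ ℂ) ∘ₗ pml)) (f, g)
      = (pml f + charInvolution M ℂ ℂ (pml f)) + (pml g - charInvolution M ℂ ℂ (pml g)) := by
    simp [LinearMap.coprod_apply]
  rw [e, hpml, hpml] at hfg
  refine ⟨f + g, S21_Conj.conjForm f - S21_Conj.conjForm g, ?_⟩
  refine AddMonoidHom.ext fun γ' => ?_
  have eγ : γ' = Additive.ofMul (Additive.toMul γ') := rfl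
  set γ := Additive.toMul γ'
  rw [eγ]
  have h1 := DFunLike.congr_fun hfg (Additive.ofMul γ)
  simp only [AddMonoidHom.add_apply, AddMonoidHom.sub_apply,
    S21_Conj.charInvolution_periodMap] at h1
  rw [cmp_apply, S21_Prim.periodMap_add, S21_Inj.periodMap_sub, AddMonoidHom.add_apply,
    AddMonoidHom.sub_apply, map_sub, ← h1]
  ring

/-- the Hecke operators in terms of the comparison map. -/
theorem homOp_cmp (ℓ : Nat.Primes) (h₁ h₂ : CuspForm (Gamma0 M) 2) :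
    homOp M ℂ ℓ (cmp M h₁ h₂) = cmp M (formOp M ℓ h₁) (formOp M ℓ h₂) := by
  unfold cmp
  rw [map_add, homOp_comp, periodMap_formOp, periodMap_formOp]

/-- scalars in terms of the comparison map. -/
theorem smul_cmp (c : ℂ) (h₁ h₂ : CuspForm (Gamma0 M) 2) :
    c • cmp M h₁ h₂ = cmp M (c • h₁) ((starRingEnd ℂ) c • h₂) := by
  refine AddMonoidHom.ext fun γ => ?_
  rw [AddMonoidHom.smul_apply, cmp_apply, cmp_apply, S21_Prim.periodMap_smul,
    S21_Prim.periodMap_smul, AddMonoidHom.smul_apply, AddMonoidHom.smul_apply, smul_eq_mul,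
    smul_eq_mul, smul_eq_mul, map_mul, Complex.conj_conj]
  ring

theorem cmp_sub (h₁ h₂ k₁ k₂ : CuspForm (Gamma0 M) 2) :
    cmp M h₁ h₂ - cmp M k₁ k₂ = cmp M (h₁ - k₁) (h₂ - k₂) := by
  refine AddMonoidHom.ext fun γ => ?_
  rw [AddMonoidHom.sub_apply, cmp_apply, cmp_apply, cmp_apply, S21_Inj.periodMap_sub,
    S21_Inj.periodMap_sub, AddMonoidHom.sub_apply, AddMonoidHom.sub_apply, map_sub]
  ring

end FormOp

/-! ### Normalising a common eigenvector of all Hecke operators -/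

section Normalise

variable {N : ℕ} [NeZero N]

/-- a common eigenvector of all the operators `formOp N ℓ` is a multiple of a normalised
eigenform whose coefficients at the primes are the eigenvalues. -/
theorem exists_normalized_of_formOp (c : Nat.Primes → ℂ)
    (v : CuspForm (Gamma0 N) 2) (hv0 : v ≠ 0)
    (heigv : ∀ ℓ : Nat.Primes, formOp N ℓ v = c ℓ • v) :
    ∃ f : CuspForm (Gamma0 N) 2, f.IsNormalizedEigenform ∧
      ∀ ℓ : Nat.Primes, qCoeff ⇑f ℓ = c ℓ := by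
  -- Hecke relations for the eigenvector
  have hE1 : ∀ (ℓ : ℕ) (hℓ : ℓ.Prime) (_ : ¬ ℓ ∣ N) (n : ℕ),
      c ⟨ℓ, hℓ⟩ * qCoeff ⇑v n =
        qCoeff ⇑v (n * ℓ) + if ℓ ∣ n then (ℓ : ℂ) * qCoeff ⇑v (n / ℓ) else 0 := by
    intro ℓ hℓ hℓN n
    have h1 := heigv ⟨ℓ, hℓ⟩
    rw [formOp_of_not_dvd N (ℓ := ⟨ℓ, hℓ⟩) hℓN] at h1
    rw [← qCoeff_smul, ← h1, ← qCoeff_T hℓ hℓN]
  have hE2 : ∀ (ℓ : ℕ) (hℓ : ℓ.Prime) (_ : ℓ ∣ N) (n : ℕ),
      c ⟨ℓ, hℓ⟩ * qCoeff ⇑v n = qCoeff ⇑v (n * ℓ) := by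
    intro ℓ hℓ hℓN n
    have h1 := heigv ⟨ℓ, hℓ⟩
    rw [formOp_of_dvd N (ℓ := ⟨ℓ, hℓ⟩) hℓN] at h1
    rw [← qCoeff_smul, ← h1, ← qCoeff_U hℓ hℓN]
  -- the first coefficient of the eigenvector does not vanish
  have hv1 : qCoeff ⇑v 1 ≠ 0 := by
    intro h0
    apply hv0
    apply eq_zero_of_qCoeff
    intro n
    induction n using Nat.strong_induction_on with
    | _ n ih =>
      rcases Nat.lt_or_ge n 2 with hn | hn
      · interval_cases n
        · exact qCoeff_zero_index v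
        · exact h0
      · have hℓ : n.minFac.Prime := Nat.minFac_prime (by omega)
        obtain ⟨m, hm⟩ := Nat.minFac_dvd n
        have hmlt : m < n := by
          have hmpos : 0 < m := by
            rcases Nat.eq_zero_or_pos m with h | h
            · subst h; omega
            · exact h
          have := hℓ.two_le
          nlinarith
        have e : n = m * n.minFac := by rw [mul_comm]; exact hm
        by_cases hℓN : n.minFac ∣ N
        · have h2 := hE2 n.minFac hℓ hℓN m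
          rw [ih m hmlt, mul_zero] at h2
          rw [e]; exact h2.symm
        · have h2 := hE1 n.minFac hℓ hℓN m
          rw [ih m hmlt, mul_zero] at h2
          have h3 : (if n.minFac ∣ m then (n.minFac : ℂ) * qCoeff ⇑v (m / n.minFac) else 0) = 0 := by
            split_ifs with hd
            · rw [ih (m / n.minFac) (lt_of_le_of_lt (Nat.div_le_self m _) hmlt), mul_zero]
            · rfl
          rw [h3, add_zero] at h2
          rw [e]; exact h2.symm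
  -- normalise
  obtain ⟨f, hfq⟩ : ∃ f : CuspForm (Gamma0 N) 2,
      ∀ n : ℕ, qCoeff ⇑f n = (qCoeff ⇑v 1)⁻¹ * qCoeff ⇑v n :=
    ⟨(qCoeff ⇑v 1)⁻¹ • v, fun n => qCoeff_smul _ _ _⟩
  have hf1 : qCoeff ⇑f 1 = 1 := by rw [hfq]; exact inv_mul_cancel₀ hv1
  have hE1' : ∀ (ℓ : ℕ) (hℓ : ℓ.Prime) (_ : ¬ ℓ ∣ N) (n : ℕ),
      c ⟨ℓ, hℓ⟩ * qCoeff ⇑f n =
        qCoeff ⇑f (n * ℓ) + if ℓ ∣ n then (ℓ : ℂ) * qCoeff ⇑f (n / ℓ) else 0 := by
    intro ℓ hℓ hℓN n
    have h2 := hE1 ℓ hℓ hℓN n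
    rw [hfq, hfq, hfq]
    by_cases hdvd : ℓ ∣ n
    · rw [if_pos hdvd] at h2 ⊢
      linear_combination (qCoeff ⇑v 1)⁻¹ * h2
    · rw [if_neg hdvd] at h2 ⊢
      linear_combination (qCoeff ⇑v 1)⁻¹ * h2
  have hE2' : ∀ (ℓ : ℕ) (hℓ : ℓ.Prime) (_ : ℓ ∣ N) (n : ℕ),
      c ⟨ℓ, hℓ⟩ * qCoeff ⇑f n = qCoeff ⇑f (n * ℓ) := by
    intro ℓ hℓ hℓN n
    have h2 := hE2 ℓ hℓ hℓN n
    rw [hfq, hfq]
    linear_combination (qCoeff ⇑v 1)⁻¹ * h2
  have hlamT : ∀ (ℓ : ℕ) (hℓ : ℓ.Prime) (_ : ¬ ℓ ∣ N), c ⟨ℓ, hℓ⟩ = qCoeff ⇑f ℓ := by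
    intro ℓ hℓ hℓN
    have h2 := hE1' ℓ hℓ hℓN 1
    rw [hf1, mul_one, one_mul, if_neg (Nat.Prime.not_dvd_one hℓ), add_zero] at h2
    exact h2
  have hlamU : ∀ (ℓ : ℕ) (hℓ : ℓ.Prime) (_ : ℓ ∣ N), c ⟨ℓ, hℓ⟩ = qCoeff ⇑f ℓ := by
    intro ℓ hℓ hℓN
    have h2 := hE2' ℓ hℓ hℓN 1
    rw [hf1, mul_one, one_mul] at h2
    exact h2
  refine ⟨f, isNormalizedEigenform_of_rel f hf1 ?_ ?_, ?_⟩
  · intro ℓ hℓ hℓN n
    have h2 := hE1' ℓ hℓ hℓN n
    rw [hlamT ℓ hℓ hℓN] at h2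
    rw [h2]; ring
  · intro ℓ hℓ hℓN n
    have h2 := hE2' ℓ hℓ hℓN n
    rw [hlamU ℓ hℓ hℓN] at h2
    exact h2.symm
  · intro ℓ
    by_cases h : (ℓ : ℕ) ∣ N
    · exact (hlamU ℓ ℓ.2 h).symm
    · exact (hlamT ℓ ℓ.2 h).symm

end Normalise

/-! ### The extraction theorem -/

/-- **EXT.**  A nonzero parabolic complex class which is an eigenvector of all Hecke operators
gives a normalised eigenform with the same eigenvalues at primes, or the conjugate ones. -/
theorem exists_eigenform (M : ℕ) [NeZero M] (v : Additive (Gamma0 M) →+ ℂ)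
    (hv : IsParabolicHom (Gamma0 M) v) (hv0 : v ≠ 0) (lam : Nat.Primes → ℂ)
    (heig : ∀ l, S16_LB.homOp M ℂ l v = lam l • v) :
    ∃ g : CuspForm (Gamma0 M) 2, g.IsNormalizedEigenform ∧
      ((∀ l : Nat.Primes, ModularFormClass.qCoeff g l = lam l) ∨
        (∀ l : Nat.Primes, ModularFormClass.qCoeff g l = starRingEnd ℂ (lam l))) := by
  obtain ⟨h₁, h₂, rfl⟩ := exists_cmp M v hv
  have key : ∀ l : Nat.Primes, formOp M l h₁ = lam l • h₁ ∧
      formOp M l h₂ = (starRingEnd ℂ) (lam l) • h₂ := by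
    intro l
    have h1 := heig l
    rw [homOp_cmp, smul_cmp, ← sub_eq_zero, cmp_sub] at h1
    obtain ⟨ha, hb⟩ := cmp_eq_zero M h1
    exact ⟨sub_eq_zero.mp ha, sub_eq_zero.mp hb⟩
  by_cases h10 : h₁ = 0
  · have h20 : h₂ ≠ 0 := by
      intro h20
      apply hv0
      rw [h10, h20]
      refine AddMonoidHom.ext fun γ => ?_
      rw [cmp_apply, S16_LB.periodMap_zero]
      simp
    obtain ⟨g, hg, hgc⟩ := exists_normalized_of_formOp
      (fun l => (starRingEnd ℂ) (lam l)) h₂ h20 (fun l => (key l).2)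
    exact ⟨g, hg, Or.inr hgc⟩
  · obtain ⟨g, hg, hgc⟩ := exists_normalized_of_formOp lam h₁ h10 (fun l => (key l).1)
    exact ⟨g, hg, Or.inl hgc⟩

end Fermat.Agent.S41_Ext
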