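import Mathlib
import Fermat.Agent.S49_DS

/-!
# S41, block END / LIFT (helper4): lifting an eigenvector from a quotient

A commuting family of operators on a finite dimensional complex vector space `P`, an invariant
subspace `O`, and a vector `v ∉ O` which is an eigenvector modulo `O` with eigenvalues `χ i`:
then `P` contains a genuine nonzero eigenvector with the same eigenvalues.
-/

set_option autoImplicit false

namespace Fermat.Agent.S41_Lift

open scoped IsMulCommutative

section aux

variable {P : Type*} [AddCommGroup P] [Module ℂ P] [FiniteDimensional ℂ P]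
variable {R : Type*} [CommRing R]

/-- the ring version: a commutative ring of operators containing the scalars. -/
theorem exists_scalar_of_quotient (ι : R →+* Module.End ℂ P)
    (hsm : ∀ c : ℂ, ∃ r : R, ∀ x, ι r x = c • x)
    (O : Submodule ℂ P) (hO : ∀ r : R, ∀ x ∈ O, ι r x ∈ O) (v : P) (hv : v ∉ O)
    (hθ : ∀ r : R, ∃ c : ℂ, ι r v - c • v ∈ O) :
    ∃ w : P, w ≠ 0 ∧ ∀ (r : R) (c : ℂ), ι r v - c • v ∈ O → ι r w = c • w := by
  classical
  -- the ideal of operators sending `v` into `O`
  let 𝔫 : Ideal R :=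
    { carrier := {r | ι r v ∈ O}
      add_mem' := fun {a b} ha hb => by
        show ι (a + b) v ∈ O
        rw [map_add, LinearMap.add_apply]
        exact O.add_mem ha hb
      zero_mem' := by
        show ι 0 v ∈ O
        rw [map_zero, LinearMap.zero_apply]
        exact O.zero_mem
      smul_mem' := fun c x hx => by
        show ι (c * x) v ∈ O
        rw [map_mul, Module.End.mul_apply]
        exact hO c _ hx }
  have hmem : ∀ r : R, r ∈ 𝔫 ↔ ι r v ∈ O := fun r => Iff.rfl
  have hprime : 𝔫.IsPrime := by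
    rw [Ideal.isPrime_iff]
    constructor
    · intro htop
      have h1 : (1 : R) ∈ 𝔫 := htop ▸ Submodule.mem_top
      rw [hmem, map_one, Module.End.one_apply] at h1
      exact hv h1
    · intro x y hxy
      rw [hmem, map_mul, Module.End.mul_apply] at hxy
      obtain ⟨s, hs⟩ := hθ x
      obtain ⟨t, ht⟩ := hθ y
      have hst : (t * s) • v ∈ O := by
        have e : (t * s) • v = ι x (ι y v) - ι x (ι y v - t • v) - t • (ι x v - s • v) := by
          rw [map_sub, map_smul, smul_sub, smul_smul]
          abel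
        rw [e]
        exact O.sub_mem (O.sub_mem hxy (hO x _ ht)) (O.smul_mem t hs)
      have hts : t * s = 0 := by
        by_contra hne
        apply hv
        have := O.smul_mem (t * s)⁻¹ hst
        rwa [smul_smul, inv_mul_cancel₀ hne, one_smul] at this
      rcases mul_eq_zero.mp hts with h | h
      · right
        rw [hmem]
        rw [h, zero_smul, sub_zero] at ht
        exact ht
      · left
        rw [hmem]
        rw [h, zero_smul, sub_zero] at hs
        exact hs
  have htop : (⊤ : Submodule ℂ P) ≠ ⊥ := by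
    intro h
    apply hv
    have hvt : v ∈ (⊤ : Submodule ℂ P) := Submodule.mem_top
    rw [h, Submodule.mem_bot] at hvt
    rw [hvt]
    exact O.zero_mem
  obtain ⟨W', hW', hann, hsc⟩ := S49_DS.exists_scalar_subspace ι 𝔫 ⊤ htop
    (fun _ _ _ => Submodule.mem_top)
    (fun r hr => by rw [hmem, hr v Submodule.mem_top]; exact O.zero_mem)
  obtain ⟨w, hwW, hw0⟩ := Submodule.exists_mem_ne_zero_of_ne_bot hW'
  refine ⟨w, hw0, fun r c hrc => ?_⟩
  obtain ⟨c', hc'⟩ := hsc r
  obtain ⟨r₀, hr₀⟩ := hsm c'
  have h1 : r - r₀ ∈ 𝔫 := by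
    apply hann
    intro w' hw'
    rw [map_sub, LinearMap.sub_apply, hc' w' hw', hr₀, sub_self]
  rw [hmem, map_sub, LinearMap.sub_apply, hr₀] at h1
  have h2 : (c' - c) • v ∈ O := by
    have e : (c' - c) • v = (ι r v - c • v) - (ι r v - c' • v) := by
      rw [sub_smul]
      abel
    rw [e]
    exact O.sub_mem hrc h1
  have h3 : c' = c := by
    by_contra hne
    apply hv
    have := O.smul_mem (c' - c)⁻¹ h2
    rwa [smul_smul, inv_mul_cancel₀ (sub_ne_zero.mpr hne), one_smul] at this
  rw [hc' w hwW, h3]

end aux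

/-- **LIFT.**  A common eigenvector modulo an invariant subspace gives a common eigenvector. -/
theorem exists_eigenvector_of_quotient {P : Type*} [AddCommGroup P] [Module ℂ P]
    [FiniteDimensional ℂ P] {I : Type*} (T : I → Module.End ℂ P)
    (hc : ∀ i j, Commute (T i) (T j)) (O : Submodule ℂ P) (hO : ∀ i, ∀ x ∈ O, T i x ∈ O)
    (χ : I → ℂ) (v : P) (hv : v ∉ O) (hv' : ∀ i, T i v - χ i • v ∈ O) :
    ∃ w : P, w ≠ 0 ∧ ∀ i, T i w = χ i • w := by
  have hcomm : ∀ a ∈ Set.range T, ∀ b ∈ Set.range T, a * b = b * a := by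
    rintro _ ⟨i, rfl⟩ _ ⟨j, rfl⟩
    exact hc i j
  have hcommI : IsMulCommutative (Algebra.adjoin ℂ (Set.range T)) :=
    Algebra.isMulCommutative_adjoin ℂ hcomm
  have hOA : ∀ a ∈ Algebra.adjoin ℂ (Set.range T), ∀ x ∈ O, a x ∈ O := by
    intro a ha
    induction ha using Algebra.adjoin_induction with
    | mem x hx =>
      obtain ⟨i, rfl⟩ := hx
      exact hO i
    | algebraMap r =>
      intro x hx
      rw [Algebra.algebraMap_eq_smul_one, LinearMap.smul_apply, Module.End.one_apply]
      exact O.smul_mem r hx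
    | add x y hx hy ihx ihy =>
      intro z hz
      rw [LinearMap.add_apply]
      exact O.add_mem (ihx z hz) (ihy z hz)
    | mul x y hx hy ihx ihy =>
      intro z hz
      rw [Module.End.mul_apply]
      exact ihx _ (ihy z hz)
  have hθA : ∀ a ∈ Algebra.adjoin ℂ (Set.range T), ∃ c : ℂ, a v - c • v ∈ O := by
    intro a ha
    induction ha using Algebra.adjoin_induction with
    | mem x hx =>
      obtain ⟨i, rfl⟩ := hx
      exact ⟨χ i, hv' i⟩
    | algebraMap r =>
      refine ⟨r, ?_⟩
      rw [Algebra.algebraMap_eq_smul_one, LinearMap.smul_apply, Module.End.one_apply, sub_self]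
      exact O.zero_mem
    | add x y hx hy ihx ihy =>
      obtain ⟨s, hs⟩ := ihx
      obtain ⟨t, ht⟩ := ihy
      refine ⟨s + t, ?_⟩
      have e : (x + y) v - (s + t) • v = (x v - s • v) + (y v - t • v) := by
        rw [LinearMap.add_apply, add_smul]
        abel
      rw [e]
      exact O.add_mem hs ht
    | mul x y hx hy ihx ihy =>
      obtain ⟨s, hs⟩ := ihx
      obtain ⟨t, ht⟩ := ihy
      refine ⟨s * t, ?_⟩
      have e : (x * y) v - (s * t) • v = x (y v - t • v) + t • (x v - s • v) := by
        rw [Module.End.mul_apply, map_sub, map_smul, smul_sub, smul_smul, mul_comm t s]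
        abel
      rw [e]
      exact O.add_mem (hOA x hx _ ht) (O.smul_mem t hs)
  obtain ⟨w, hw0, hw⟩ := exists_scalar_of_quotient
    (R := Algebra.adjoin ℂ (Set.range T)) (Algebra.adjoin ℂ (Set.range T)).val.toRingHom
    (fun c => ⟨algebraMap ℂ _ c, fun x => by
      show (algebraMap ℂ (Module.End ℂ P) c) x = c • x
      rw [Algebra.algebraMap_eq_smul_one, LinearMap.smul_apply, Module.End.one_apply]⟩)
    O (fun r x hx => hOA r.1 r.2 x hx) v hv (fun r => hθA r.1 r.2)
  exact ⟨w, hw0, fun i => hw ⟨T i, Algebra.subset_adjoin ⟨i, rfl⟩⟩ (χ i) (hv' i)⟩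

end Fermat.Agent.S41_Lift
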