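import Mathlib
import Fermat.Agent.S41_Act
import Fermat.Agent.S41_Ext
import Fermat.Agent.S41_Lift
import Fermat.Prelude.Def_FreyPackage_LevelRaising

/-!
# S41, END block, last step (helper4)

From an eigenvector of the Hecke algebra in the complex parabolic classes of level `M`, with an
integral eigencharacter reducing to the right system modulo a maximal ideal, to the conclusion of
the level raising statement: a normalised eigenform `g` of level `M`, a maximal ideal `𝔪'` over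
`p`, the congruences and `a_q(g)² = 1`.
-/

set_option autoImplicit false

open Complex CongruenceSubgroup ModularCurve ModularCurve.Period ModularFormClass

namespace Fermat.Agent.S41_WFin

open Fermat.Agent.S41_Act

/-- complex conjugation on the ring of algebraic integers. -/
noncomputable def conjInt : integralClosure ℤ ℂ →+* integralClosure ℤ ℂ where
  toFun a := ⟨starRingEnd ℂ (a : ℂ), map_isIntegral_int (starRingEnd ℂ) a.2⟩
  map_one' := Subtype.ext (by simp)
  map_mul' a b := Subtype.ext (by simp)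
  map_zero' := Subtype.ext (by simp)
  map_add' a b := Subtype.ext (by simp)

theorem conjInt_coe (a : integralClosure ℤ ℂ) :
    ((conjInt a : integralClosure ℤ ℂ) : ℂ) = starRingEnd ℂ (a : ℂ) := rfl

theorem conjInt_conjInt (a : integralClosure ℤ ℂ) : conjInt (conjInt a) = a :=
  Subtype.ext (by rw [conjInt_coe, conjInt_coe, Complex.conj_conj])

theorem conjInt_surjective : Function.Surjective conjInt :=
  fun a => ⟨conjInt a, conjInt_conjInt a⟩

theorem conjInt_intCast (n : ℤ) : conjInt (n : integralClosure ℤ ℂ) = n := map_intCast conjInt n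

theorem conjInt_natCast (n : ℕ) : conjInt (n : integralClosure ℤ ℂ) = n := map_natCast conjInt n

theorem comap_conjInt_isMaximal (Q : Ideal (integralClosure ℤ ℂ)) (hQ : Q.IsMaximal) :
    (Q.comap conjInt).IsMaximal :=
  Ideal.comap_isMaximal_of_surjective conjInt conjInt_surjective

/-- the lifting hypothesis of `S41_EndDS.exists_system` for the Hecke action on `PC M`. -/
theorem lift_hyp (M : ℕ) [NeZero M] (O : Submodule ℂ (PC M))
    (hO : ∀ t : HeckeAlg, ∀ x ∈ O, actC M t x ∈ O) (χ : HeckeAlg → ℂ) (v : PC M)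
    (hv : v ∉ O) (hv' : ∀ t, actC M t v - χ t • v ∈ O) :
    ∃ w : PC M, w ≠ 0 ∧ ∀ t, actC M t w = χ t • w :=
  S41_Lift.exists_eigenvector_of_quotient (fun t : HeckeAlg => actC M t)
    (fun s t => by
      show actC M s * actC M t = actC M t * actC M s
      rw [← map_mul, ← map_mul, mul_comm]) O hO χ v hv hv'

/-- the final step. -/
theorem finish (M : ℕ) [NeZero M] (p : ℕ) (q : Nat.Primes) (W : WeierstrassCurve ℤ)
    (lam : HeckeAlg →+* integralClosure ℤ ℂ) (w : PC M) (Q : Ideal (integralClosure ℤ ℂ))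
    (hw : w ≠ 0)
    (heig : ∀ t, actC M t w = ((lam t : integralClosure ℤ ℂ) : ℂ) • w) (hQ : Q.IsMaximal)
    (hpQ : lam (MvPolynomial.C (p : ℤ)) ∈ Q)
    (hgood : ∀ l : Nat.Primes, W.IsGoodPrimeFor l → ¬ (l : ℕ) ∣ M → (l : ℕ) ≠ p →
      lam (MvPolynomial.X l - MvPolynomial.C (W.apOfModel l)) ∈ Q)
    (hq : lam (MvPolynomial.X q ^ 2 - 1) = 0) :
    ∃ (g : CuspForm (Gamma0 M) 2) (𝔪' : Ideal (integralClosure ℤ ℂ)),
      g.IsNormalizedEigenform ∧ 𝔪'.IsMaximal ∧ (p : integralClosure ℤ ℂ) ∈ 𝔪' ∧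
      (∀ ℓ : ℕ, ℓ.Prime → W.IsGoodPrimeFor ℓ → ¬ ℓ ∣ M → ℓ ≠ p →
        ∃ a : integralClosure ℤ ℂ, (a : ℂ) = ModularFormClass.qCoeff g ℓ ∧
          a - ((W.apOfModel ℓ : ℤ) : integralClosure ℤ ℂ) ∈ 𝔪') ∧
      g.IsNewAt q := by
  have hC : ∀ n : ℤ, lam (MvPolynomial.C n) = (n : integralClosure ℤ ℂ) := by
    intro n
    rw [show (MvPolynomial.C n : HeckeAlg) = ((n : ℤ) : HeckeAlg) from eq_intCast _ n,
      map_intCast]
  have hp' : (p : integralClosure ℤ ℂ) ∈ Q := by
    have := hpQ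
    rw [hC] at this
    exact_mod_cast this
  have hq1 : lam (MvPolynomial.X q) ^ 2 = 1 := by
    have := hq
    rw [map_sub, map_pow, map_one, sub_eq_zero] at this
    exact this
  have hv0 : (w : Additive (Gamma0 M) →+ ℂ) ≠ 0 := fun h => hw (Subtype.ext h)
  have heig' : ∀ l : Nat.Primes, S16_LB.homOp M ℂ l (w : Additive (Gamma0 M) →+ ℂ)
      = ((lam (MvPolynomial.X l) : integralClosure ℤ ℂ) : ℂ) • (w : Additive (Gamma0 M) →+ ℂ) := by
    intro l
    rw [← actC_X, heig]
    rfl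
  obtain ⟨g, hg, hcase⟩ := S41_Ext.exists_eigenform M (w : Additive (Gamma0 M) →+ ℂ)
    (mem_parabolicHoms_iff.mp w.2) hv0
    (fun l => ((lam (MvPolynomial.X l) : integralClosure ℤ ℂ) : ℂ)) heig'
  rcases hcase with hcase | hcase
  · refine ⟨g, Q, hg, hQ, hp', ?_, ?_⟩
    · intro ℓ hℓ hgoodℓ hℓM hℓp
      refine ⟨lam (MvPolynomial.X (⟨ℓ, hℓ⟩ : Nat.Primes)), (hcase ⟨ℓ, hℓ⟩).symm, ?_⟩
      have := hgood ⟨ℓ, hℓ⟩ hgoodℓ hℓM hℓp
      rw [map_sub, hC] at this
      exact this
    · show qCoeff ⇑g (q : ℕ) ^ 2 = 1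
      rw [hcase q]
      have := congrArg (fun a : integralClosure ℤ ℂ => (a : ℂ)) hq1
      simpa using this
  · refine ⟨g, Q.comap conjInt, hg, comap_conjInt_isMaximal Q hQ, ?_, ?_, ?_⟩
    · rw [Ideal.mem_comap, conjInt_natCast]
      exact hp'
    · intro ℓ hℓ hgoodℓ hℓM hℓp
      refine ⟨conjInt (lam (MvPolynomial.X (⟨ℓ, hℓ⟩ : Nat.Primes))), (hcase ⟨ℓ, hℓ⟩).symm, ?_⟩
      rw [Ideal.mem_comap, map_sub, conjInt_conjInt, conjInt_intCast]
      have := hgood ⟨ℓ, hℓ⟩ hgoodℓ hℓM hℓp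
      rw [map_sub, hC] at this
      exact this
    · show qCoeff ⇑g (q : ℕ) ^ 2 = 1
      rw [hcase q]
      have := congrArg (fun a : integralClosure ℤ ℂ => starRingEnd ℂ (a : ℂ)) hq1
      simpa using this

end Fermat.Agent.S41_WFin
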