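import Mathlib
import Fermat.Agent.S41_WFin
import Fermat.Agent.S41_EndDS
import Fermat.Agent.S41_EndAux

/-!
# S41, END block: from the level-raising functional to the eigenform (helper4)

`OLD ⊆ L M` is a Hecke-stable subgroup with `U_q² ≡ 1` modulo `OLD`, and `β : L M → LN` is an
additive map with `β ∉ H` somewhere, killing the saturation of `OLD` modulo `H`, with
`β ∘ p ⊆ H` and `β ∘ (T_ℓ - a_ℓ(W)) ⊆ H` for the good primes.  Then the conclusion of the level
raising statement holds at level `M`.  This is lead's `S41_EndDS.exists_system` instantiated at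
the Hecke algebra acting on `L M` and `PC M`, followed by `S41_WFin.finish`.
-/

set_option autoImplicit false

open Complex CongruenceSubgroup ModularCurve ModularCurve.Period ModularFormClass

namespace Fermat.Agent.S41_WFun

open Fermat.Agent.S41_Act

/-- an integral parabolic class in the complex span of a subgroup of the lattice has a nonzero
multiple in the subgroup. -/
theorem retrL (M : ℕ) (OLD : AddSubgroup (L M)) (x : L M)
    (h : castC M x ∈ Submodule.span ℂ (castC M '' (OLD : Set (L M)))) :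
    ∃ m : ℤ, m ≠ 0 ∧ m • x ∈ OLD := by
  -- pass to ambient homomorphisms
  have h1 : ((castC M x : PC M) : Additive (Gamma0 M) →+ ℂ) ∈
      Submodule.span ℂ ((fun y : Additive (Gamma0 M) →+ ℤ => (Int.castAddHom ℂ).comp y) ''
        ((fun z : L M => (z : Additive (Gamma0 M) →+ ℤ)) '' (OLD : Set (L M)))) := by
    have h2 := Submodule.mem_map_of_mem (f := (parabolicHoms ℂ (Gamma0 M) ℂ).subtype) h
    rw [Submodule.map_span] at h2
    have e : (⇑(parabolicHoms ℂ (Gamma0 M) ℂ).subtype '' (castC M '' (OLD : Set (L M))))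
        = ((fun y : Additive (Gamma0 M) →+ ℤ => (Int.castAddHom ℂ).comp y) ''
          ((fun z : L M => (z : Additive (Gamma0 M) →+ ℤ)) '' (OLD : Set (L M)))) := by
      ext φ
      constructor
      · rintro ⟨_, ⟨z, hz, rfl⟩, rfl⟩
        exact ⟨_, ⟨z, hz, rfl⟩, rfl⟩
      · rintro ⟨_, ⟨z, hz, rfl⟩, rfl⟩
        exact ⟨_, ⟨z, hz, rfl⟩, rfl⟩
    rw [e] at h2
    exact h2
  obtain ⟨m, hm, hmem⟩ := S41_EndAux.retr _ (x : Additive (Gamma0 M) →+ ℤ) h1
  refine ⟨m, hm, ?_⟩
  have e2 : AddSubgroup.closure ((fun z : L M => (z : Additive (Gamma0 M) →+ ℤ)) ''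
      (OLD : Set (L M))) = OLD.map ((parabolicHoms ℤ (Gamma0 M) ℤ).subtype : L M →ₗ[ℤ] _).toAddMonoidHom := by
    apply le_antisymm
    · rw [AddSubgroup.closure_le]
      rintro _ ⟨z, hz, rfl⟩
      exact ⟨z, hz, rfl⟩
    · rintro _ ⟨z, hz, rfl⟩
      exact AddSubgroup.subset_closure ⟨z, hz, rfl⟩
  rw [e2] at hmem
  obtain ⟨y, hy, hyx⟩ := hmem
  have : y = m • x := Subtype.ext hyx
  rw [← this]
  exact hy

/-- the Deligne–Serre step and the final step, from a level raising functional. -/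
theorem finish_of_functional (M : ℕ) [NeZero M] (p : ℕ) (q : Nat.Primes) (W : WeierstrassCurve ℤ)
    (OLD : AddSubgroup (L M)) (hOLD : ∀ t : HeckeAlg, ∀ z ∈ OLD, actZ M t z ∈ OLD)
    (hUq : ∀ z : L M, actZ M (MvPolynomial.X q ^ 2 - 1) z ∈ OLD)
    {LN : Type*} [AddCommGroup LN] (H : AddSubgroup LN) (β : L M →+ LN)
    (hβ1 : ∃ z, β z ∉ H)
    (hβsat : ∀ (z : L M) (m : ℤ), m ≠ 0 → m • z ∈ OLD → β z ∈ H)
    (hβp : ∀ z : L M, β ((p : ℤ) • z) ∈ H)
    (hgood : ∀ l : Nat.Primes, W.IsGoodPrimeFor l → ¬ (l : ℕ) ∣ M → (l : ℕ) ≠ p →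
      ∀ z : L M, β (actZ M (MvPolynomial.X l - MvPolynomial.C (W.apOfModel l)) z) ∈ H) :
    ∃ (g : CuspForm (Gamma0 M) 2) (𝔪' : Ideal (integralClosure ℤ ℂ)),
      g.IsNormalizedEigenform ∧ 𝔪'.IsMaximal ∧ (p : integralClosure ℤ ℂ) ∈ 𝔪' ∧
      (∀ ℓ : ℕ, ℓ.Prime → W.IsGoodPrimeFor ℓ → ¬ ℓ ∣ M → ℓ ≠ p →
        ∃ a : integralClosure ℤ ℂ, (a : ℂ) = ModularFormClass.qCoeff g ℓ ∧
          a - ((W.apOfModel ℓ : ℤ) : integralClosure ℤ ℂ) ∈ 𝔪') ∧
      g.IsNewAt q := by
  classical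
  -- the ideal of operators killed by the functional
  let 𝔫0 : Ideal HeckeAlg :=
    { carrier := {t | ∀ z : L M, β (actZ M t z) ∈ H}
      add_mem' := by
        intro s t hs ht z
        rw [map_add, LinearMap.add_apply, map_add]
        exact H.add_mem (hs z) (ht z)
      zero_mem' := by
        intro z
        rw [map_zero, LinearMap.zero_apply, map_zero]
        exact H.zero_mem
      smul_mem' := by
        intro c t ht z
        rw [smul_eq_mul, mul_comm, map_mul, Module.End.mul_apply]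
        exact ht _ }
  have hmem : ∀ t : HeckeAlg, t ∈ 𝔫0 ↔ ∀ z : L M, β (actZ M t z) ∈ H := fun t => Iff.rfl
  have h1 : (1 : HeckeAlg) ∉ 𝔫0 := by
    intro h
    obtain ⟨z, hz⟩ := hβ1
    apply hz
    have := (hmem 1).mp h z
    rw [map_one, Module.End.one_apply] at this
    exact this
  have hK : ∀ t : HeckeAlg, (∀ z : L M, ∃ m : ℤ, m ≠ 0 ∧ m • actZ M t z ∈ OLD) → t ∈ 𝔫0 := by
    intro t ht
    rw [hmem]
    intro z
    obtain ⟨m, hm, hmz⟩ := ht z
    exact hβsat _ m hm hmz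
  obtain ⟨lam, w, Q, hw, heig, hQ, hlamQ, hlam0⟩ :=
    S41_EndDS.exists_system (actC M) (actZ M) (castC M) (fun t x => actC_castC M t x)
      (span_castC M) OLD hOLD (fun x hx => retrL M OLD x hx) 𝔫0 h1 hK
      (fun O hO χ v hv hv' => S41_WFin.lift_hyp M O hO χ v hv hv')
  refine S41_WFin.finish M p q W lam w Q hw heig hQ ?_ ?_ ?_
  · apply hlamQ
    rw [hmem]
    intro z
    rw [actZ_C]
    exact hβp z
  · intro l hl hlM hlp
    apply hlamQ
    rw [hmem]
    exact hgood l hl hlM hlp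
  · exact hlam0 _ hUq

end Fermat.Agent.S41_WFun
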