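import Mathlib
import Fermat.Agent.S41_Ext
import Fermat.Agent.S22

/-!
# S41, block END / MU, part 1 (helper4): the Hecke eigen-character of a normalised eigenform

A normalised eigenform `f` of level `Γ₀(N)` is an eigenvector of every `T_ℓ` (`ℓ ∤ N`) and
`U_ℓ` (`ℓ ∣ N`) with eigenvalue its `ℓ`-th coefficient; the coefficients at primes are algebraic
integers; the period homomorphism of `f` is a nonzero eigenvector of the operators
`S16_LB.homOp N ℂ ℓ` with the same eigenvalues.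
-/

set_option autoImplicit false
set_option linter.unusedSectionVars false

open Complex CongruenceSubgroup ModularCurve ModularCurve.Period ModularFormClass

namespace Fermat.Agent.S41_Eig

open Fermat.Agent.S16_Hecke Fermat.Agent.S16_LB Fermat.Agent.S49 Fermat.Agent.S41_Ext

variable {N : ℕ} [NeZero N]

/-- the Hecke relation at a prime not dividing the level. -/
theorem coeff_rel_T {f : CuspForm (Gamma0 N) 2} (hf : f.IsNormalizedEigenform) {ℓ : ℕ}
    (hℓ : ℓ.Prime) (hℓN : ¬ ℓ ∣ N) (n : ℕ) :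
    qCoeff ⇑f (n * ℓ) + (if ℓ ∣ n then (ℓ : ℂ) * qCoeff ⇑f (n / ℓ) else 0)
      = qCoeff ⇑f ℓ * qCoeff ⇑f n := by
  rcases Nat.eq_zero_or_pos n with rfl | hn
  · simp [qCoeff_zero_index]
  · obtain ⟨r, m, hm, rfl⟩ := Nat.exists_eq_pow_mul_and_not_dvd hn.ne' ℓ hℓ.ne_one
    have hcop : ∀ k : ℕ, (ℓ ^ k).Coprime m := fun k =>
      Nat.Coprime.pow_left k ((Nat.Prime.coprime_iff_not_dvd hℓ).mpr hm)
    rcases Nat.eq_zero_or_pos r with rfl | hr
    · have hnd : ¬ ℓ ∣ ℓ ^ 0 * m := by simpa using hm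
      rw [if_neg hnd, add_zero, pow_zero, one_mul, mul_comm m ℓ,
        hf.qCoeff_mul_of_coprime ℓ m (by simpa using hcop 1)]
    · obtain ⟨r', rfl⟩ : ∃ r', r = r' + 1 := ⟨r - 1, by omega⟩
      have hd : ℓ ∣ ℓ ^ (r' + 1) * m := Dvd.dvd.mul_right (dvd_pow_self ℓ (Nat.succ_ne_zero r')) m
      have e1 : ℓ ^ (r' + 1) * m * ℓ = ℓ ^ (r' + 2) * m := by ring
      have e2 : ℓ ^ (r' + 1) * m / ℓ = ℓ ^ r' * m := by
        rw [pow_succ, mul_comm (ℓ ^ r') ℓ, mul_assoc]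
        exact Nat.mul_div_cancel_left _ hℓ.pos
      rw [if_pos hd, e1, e2, hf.qCoeff_mul_of_coprime _ _ (hcop (r' + 2)),
        hf.qCoeff_mul_of_coprime _ _ (hcop r'), hf.qCoeff_mul_of_coprime _ _ (hcop (r' + 1)),
        hf.qCoeff_prime_pow_of_not_dvd ℓ r' hℓ hℓN]
      ring

/-- the Hecke relation at a prime dividing the level. -/
theorem coeff_rel_U {f : CuspForm (Gamma0 N) 2} (hf : f.IsNormalizedEigenform) {ℓ : ℕ}
    (hℓ : ℓ.Prime) (hℓN : ℓ ∣ N) (n : ℕ) :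
    qCoeff ⇑f (n * ℓ) = qCoeff ⇑f ℓ * qCoeff ⇑f n := by
  rcases Nat.eq_zero_or_pos n with rfl | hn
  · simp [qCoeff_zero_index]
  · obtain ⟨r, m, hm, rfl⟩ := Nat.exists_eq_pow_mul_and_not_dvd hn.ne' ℓ hℓ.ne_one
    have hcop : ∀ k : ℕ, (ℓ ^ k).Coprime m := fun k =>
      Nat.Coprime.pow_left k ((Nat.Prime.coprime_iff_not_dvd hℓ).mpr hm)
    rcases Nat.eq_zero_or_pos r with rfl | hr
    · rw [pow_zero, one_mul, mul_comm m ℓ,
        hf.qCoeff_mul_of_coprime ℓ m (by simpa using hcop 1)]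
    · obtain ⟨r', rfl⟩ : ∃ r', r = r' + 1 := ⟨r - 1, by omega⟩
      have e1 : ℓ ^ (r' + 1) * m * ℓ = ℓ ^ (r' + 2) * m := by ring
      rw [e1, hf.qCoeff_mul_of_coprime _ _ (hcop (r' + 2)),
        hf.qCoeff_mul_of_coprime _ _ (hcop (r' + 1)),
        hf.qCoeff_prime_pow_of_dvd ℓ r' hℓ hℓN]
      ring

theorem ne_zero {f : CuspForm (Gamma0 N) 2} (hf : f.IsNormalizedEigenform) : f ≠ 0 := by
  intro h
  have h1 := hf.qCoeff_one
  rw [h] at h1
  have h2 : qCoeff ⇑(0 : CuspForm (Gamma0 N) 2) 1 = 0 := by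
    have := qCoeff_zsmul (0 : ℤ) (0 : CuspForm (Gamma0 N) 2) 1
    simpa using this
  rw [h2] at h1
  exact zero_ne_one h1

/-- a normalised eigenform is an eigenvector of all Hecke operators. -/
theorem formOp_eigen {f : CuspForm (Gamma0 N) 2} (hf : f.IsNormalizedEigenform)
    (ℓ : Nat.Primes) : formOp N ℓ f = qCoeff ⇑f ℓ • f := by
  rw [← sub_eq_zero]
  apply eq_zero_of_qCoeff
  intro n
  rw [qCoeff_sub, qCoeff_smul]
  by_cases h : (ℓ : ℕ) ∣ N
  · rw [formOp_of_dvd N h, qCoeff_U ℓ.2 h, coeff_rel_U hf ℓ.2 h, sub_self]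
  · rw [formOp_of_not_dvd N h, qCoeff_T ℓ.2 h, coeff_rel_T hf ℓ.2 h, sub_self]

/-- the period homomorphism of a normalised eigenform is an eigenvector. -/
theorem homOp_periodMap {f : CuspForm (Gamma0 N) 2} (hf : f.IsNormalizedEigenform)
    (ℓ : Nat.Primes) :
    homOp N ℂ ℓ (periodMap N f) = qCoeff ⇑f ℓ • periodMap N f := by
  rw [← periodMap_formOp, formOp_eigen hf, S21_Prim.periodMap_smul]

theorem periodMap_ne_zero {f : CuspForm (Gamma0 N) 2} (hf : f.IsNormalizedEigenform) :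
    periodMap N f ≠ 0 := by
  intro h
  have h1 : cmp N f 0 = 0 := by
    refine AddMonoidHom.ext fun γ => ?_
    rw [cmp_apply, h, S16_LB.periodMap_zero]
    simp
  exact ne_zero hf (cmp_eq_zero N h1).1

theorem periodMap_parabolic (f : CuspForm (Gamma0 N) 2) :
    IsParabolicHom (Gamma0 N) (periodMap N f) :=
  S21_ParVanish.periodMap_mem_parabolicHoms f

/-- the coefficients of a normalised eigenform at primes are algebraic integers. -/
theorem isIntegral_qCoeff {f : CuspForm (Gamma0 N) 2} (hf : f.IsNormalizedEigenform)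
    (ℓ : Nat.Primes) : qCoeff ⇑f ℓ ∈ integralClosure ℤ ℂ := by
  have hfin : Module.Finite ℤ (CuspForm.heckeAlgebra N 2 (∅ : Set ℕ)) :=
    Fermat.Agent.S22.result N 2 ∅
  -- the operator as an element of the Hecke algebra
  obtain ⟨T, hT⟩ : ∃ T : CuspForm.heckeAlgebra N 2 (∅ : Set ℕ),
      (T : Module.End ℂ (CuspForm (Gamma0 N) 2)) = formOp N ℓ := by
    by_cases h : (ℓ : ℕ) ∣ N
    · exact ⟨CuspForm.heckeAlgebra.U ℓ.2 h (Set.notMem_empty _), by
        rw [formOp_of_dvd N h]; rfl⟩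
    · exact ⟨CuspForm.heckeAlgebra.T ℓ.2 h (Set.notMem_empty _), by
        rw [formOp_of_not_dvd N h]; rfl⟩
  have h1 : IsIntegral ℤ T := IsIntegral.of_finite ℤ T
  have h2 : IsIntegral ℤ (formOp N ℓ) := by
    rw [← hT]
    exact h1.map (CuspForm.heckeAlgebra N 2 (∅ : Set ℕ)).val
  obtain ⟨P, hPm, hP⟩ := h2
  refine ⟨P, hPm, ?_⟩
  -- evaluate on the eigenvector
  have h3 : Polynomial.aeval (formOp N ℓ) (P.map (algebraMap ℤ ℂ)) f
      = (P.map (algebraMap ℤ ℂ)).eval (qCoeff ⇑f ℓ) • f :=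
    Module.End.aeval_apply_of_mem_apply_eq_smul (formOp_eigen hf ℓ)
  have h4 : Polynomial.aeval (formOp N ℓ) (P.map (algebraMap ℤ ℂ))
      = Polynomial.eval₂ (algebraMap ℤ (Module.End ℂ (CuspForm (Gamma0 N) 2))) (formOp N ℓ) P := by
    rw [Polynomial.aeval_def, Polynomial.eval₂_map]
    congr 1
    exact RingHom.ext_int _ _
  rw [h4, hP, LinearMap.zero_apply] at h3
  have h5 : (P.map (algebraMap ℤ ℂ)).eval (qCoeff ⇑f ℓ) = 0 :=
    (smul_eq_zero.mp h3.symm).resolve_right (ne_zero hf)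
  rw [Polynomial.eval_map] at h5
  exact h5

end Fermat.Agent.S41_Eig
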