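import Mathlib

/-!
# S41, block END / MU, part 2 (helper4): the abstract Nakayama step

A commutative ring `R` acts on a finitely generated abelian group `Lm` and on a complex vector
space `V`, compatibly with an additive map `castC : Lm → V` whose image spans `V`.  If `V`
contains a nonzero eigenvector with character `θ : R → ℤ̄` and `S ⊆ R` is mapped by `θ` into a
proper ideal `𝔪` of `ℤ̄`, then the subgroup of `Lm` generated by the `t • x` (`t ∈ S`) is proper.
-/

set_option autoImplicit false

namespace Fermat.Agent.S41_MuCore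

theorem exists_proper_of_eigen {R : Type*} [CommRing R] {Lm : Type*} [AddCommGroup Lm]
    [Module.Finite ℤ Lm] (actZ : R →+* Module.End ℤ Lm)
    {V : Type*} [AddCommGroup V] [Module ℂ V] (actC : R →+* Module.End ℂ V)
    (castC : Lm →+ V) (hcompat : ∀ t x, actC t (castC x) = castC (actZ t x))
    (hspan : Submodule.span ℂ (Set.range castC) = ⊤)
    (u : V) (hu : u ≠ 0) (θ : R →+* integralClosure ℤ ℂ)
    (heig : ∀ t, actC t u = ((θ t : integralClosure ℤ ℂ) : ℂ) • u)
    (𝔪 : Ideal (integralClosure ℤ ℂ)) (h𝔪 : 𝔪 ≠ ⊤) (S : Set R) (hS : ∀ t ∈ S, θ t ∈ 𝔪) :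
    ∃ H : AddSubgroup Lm, (∃ x, x ∉ H) ∧ ∀ t ∈ S, ∀ x, actZ t x ∈ H := by
  classical
  refine ⟨AddSubgroup.closure {y | ∃ t ∈ S, ∃ x, y = actZ t x}, ?_,
    fun t ht x => AddSubgroup.subset_closure ⟨t, ht, x, rfl⟩⟩
  by_contra hcon
  push Not at hcon
  -- the `R`-module structure on `Lm`
  letI : Module R Lm := Module.compHom Lm actZ
  have hsmul : ∀ (r : R) (x : Lm), r • x = actZ r x := fun _ _ => rfl
  haveI : IsScalarTower ℤ R Lm := ⟨fun n r x => by
    rw [hsmul, hsmul, map_zsmul]
    rfl⟩
  have hfin : Module.Finite R Lm := Module.Finite.of_restrictScalars_finite ℤ R Lm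
  have hle : (⊤ : Submodule R Lm) ≤ Ideal.span S • (⊤ : Submodule R Lm) := by
    intro x _
    have hx := hcon x
    clear * - hx hsmul
    induction hx using AddSubgroup.closure_induction with
    | mem y hy =>
      obtain ⟨t, ht, x', rfl⟩ := hy
      rw [← hsmul]
      exact Submodule.smul_mem_smul (Ideal.subset_span ht) Submodule.mem_top
    | zero => exact Submodule.zero_mem _
    | add a b _ _ iha ihb => exact Submodule.add_mem _ iha ihb
    | neg a _ iha => exact Submodule.neg_mem _ iha
  obtain ⟨r, hr1, hr0⟩ := Submodule.exists_sub_one_mem_and_smul_eq_zero_of_fg_of_le_smul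
    (Ideal.span S) (⊤ : Submodule R Lm) hfin.fg_top hle
  -- `r` acts as zero on `V`
  have hV : ∀ y : V, actC r y = 0 := by
    intro y
    have hy : y ∈ Submodule.span ℂ (Set.range castC) := by rw [hspan]; exact Submodule.mem_top
    induction hy using Submodule.span_induction with
    | mem z hz =>
      obtain ⟨x, rfl⟩ := hz
      rw [hcompat, ← hsmul, hr0 x Submodule.mem_top, map_zero]
    | zero => exact map_zero _
    | add a b _ _ iha ihb => rw [map_add, iha, ihb, add_zero]
    | smul c a _ iha => rw [map_smul, iha, smul_zero]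
  have hθr : θ r = 0 := by
    have h1 := heig r
    rw [hV u] at h1
    have h2 : ((θ r : integralClosure ℤ ℂ) : ℂ) = 0 :=
      (smul_eq_zero.mp h1.symm).resolve_right hu
    exact Subtype.ext h2
  have hmem : θ (r - 1) ∈ 𝔪 := by
    have hsub : Ideal.span S ≤ 𝔪.comap θ := Ideal.span_le.mpr fun t ht => hS t ht
    exact hsub hr1
  rw [map_sub, hθr, map_one, zero_sub] at hmem
  apply h𝔪
  rw [Ideal.eq_top_iff_one]
  have := 𝔪.neg_mem hmem
  rwa [neg_neg] at this

end Fermat.Agent.S41_MuCore
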