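import Mathlib
import Fermat.Agent.S41_Act
import Fermat.Agent.S41_Eig
import Fermat.Agent.S41_MuCore

/-!
# S41, block END / MU (helper4)

For a normalised eigenform `f` of level `N` and a maximal ideal `𝔪` of `ℤ̄`, every set `S` of
Hecke polynomials whose value at the eigenvalue system of `f` lies in `𝔪` generates a proper
subgroup of the lattice `L N` of integral parabolic classes.
-/

set_option autoImplicit false

open Complex CongruenceSubgroup ModularCurve ModularCurve.Period ModularFormClass

namespace Fermat.Agent.S41_Mu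

open Fermat.Agent.S16_Hecke Fermat.Agent.S16_LB Fermat.Agent.S41_Act

variable (N : ℕ) [NeZero N]

/-- the eigen-character of a normalised eigenform, with values in `ℤ̄`. -/
noncomputable def theta {f : CuspForm (Gamma0 N) 2} (hf : f.IsNormalizedEigenform) :
    HeckeAlg →+* integralClosure ℤ ℂ :=
  (MvPolynomial.aeval (R := ℤ) (fun ℓ : Nat.Primes =>
    (⟨qCoeff ⇑f ℓ, S41_Eig.isIntegral_qCoeff hf ℓ⟩ : integralClosure ℤ ℂ))).toRingHom

theorem theta_coe {f : CuspForm (Gamma0 N) 2} (hf : f.IsNormalizedEigenform) (t : HeckeAlg) :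
    ((theta N hf t : integralClosure ℤ ℂ) : ℂ)
      = MvPolynomial.aeval (fun ℓ : Nat.Primes => qCoeff ⇑f ℓ) t := by
  have h := MvPolynomial.comp_aeval_apply (R := ℤ)
    (f := fun ℓ : Nat.Primes =>
      (⟨qCoeff ⇑f ℓ, S41_Eig.isIntegral_qCoeff hf ℓ⟩ : integralClosure ℤ ℂ))
    (integralClosure ℤ ℂ).val t
  exact h

/-- the period class of a normalised eigenform is an eigenvector of the whole Hecke algebra. -/
theorem actC_eigen {f : CuspForm (Gamma0 N) 2} (hf : f.IsNormalizedEigenform) (t : HeckeAlg) :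
    actC N t (⟨periodMap N f, S21_ParVanish.periodMap_mem_parabolicHoms f⟩ : PC N)
      = ((theta N hf t : integralClosure ℤ ℂ) : ℂ)
        • (⟨periodMap N f, S21_ParVanish.periodMap_mem_parabolicHoms f⟩ : PC N) := by
  induction t using MvPolynomial.induction_on with
  | C r =>
    rw [actC_C, theta_coe]
    simp
  | add p q hp hq =>
    rw [map_add, LinearMap.add_apply, hp, hq, map_add, Subalgebra.coe_add, add_smul]
  | mul_X p ℓ hp =>
    rw [mul_comm, map_mul, Module.End.mul_apply, hp, map_smul, map_mul, Subalgebra.coe_mul,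
      mul_comm, mul_smul]
    congr 1
    apply Subtype.ext
    rw [actC_X]
    rw [Submodule.coe_smul]
    change homOp N ℂ ℓ (periodMap N f) = _ • periodMap N f
    rw [S41_Eig.homOp_periodMap hf, theta_coe]
    simp

/-- (MU) -/
theorem exists_proper (f : CuspForm (Gamma0 N) 2) (hf : f.IsNormalizedEigenform)
    (𝔪 : Ideal (integralClosure ℤ ℂ)) (hm : 𝔪.IsMaximal) (S : Set HeckeAlg)
    (hS : ∀ t ∈ S, ∃ a ∈ 𝔪, (a : ℂ)
      = MvPolynomial.aeval (fun l : Nat.Primes => ModularFormClass.qCoeff f l) t) :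
    ∃ H : AddSubgroup (L N), (∃ x, x ∉ H) ∧ ∀ t ∈ S, ∀ x, actZ N t x ∈ H := by
  have hu : (⟨periodMap N f, S21_ParVanish.periodMap_mem_parabolicHoms f⟩ : PC N) ≠ 0 := by
    intro h
    exact S41_Eig.periodMap_ne_zero hf (congrArg Subtype.val h)
  refine S41_MuCore.exists_proper_of_eigen (actZ N) (actC N) (castC N)
    (fun t x => actC_castC N t x) (span_castC N) _ hu (theta N hf)
    (fun t => actC_eigen N hf t) 𝔪 hm.ne_top S ?_
  intro t ht
  obtain ⟨a, ha, hat⟩ := hS t ht
  have : theta N hf t = a := by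
    apply Subtype.ext
    rw [theta_coe, hat]
  rw [this]
  exact ha

end Fermat.Agent.S41_Mu
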