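import Mathlib
import Fermat.Agent.S41_Sys

/-!
# S41, block B3 (helper8): abstract commutation of a Hecke system with a corestriction

`Γ' → Γ` groups inside `G`, `t : J → Γ` representatives of `Γ' \ Γ` (the corestriction system
`C`), and a Hecke system with the same matrices `A i` for `Γ` and for `Γ'`.  If
`A i * γ ∈ Γ' * A i'` forces `γ ∈ Γ'`, then `(i, j) ↦ (i', j')` with
`A i * t j = h * t j' * A i'` (`h ∈ Γ'`) is a bijection and the Hecke operators commute with the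
corestriction.
-/

set_option autoImplicit false

namespace Fermat.Agent.S41_Comm

open Fermat.Agent.S41_Sys

variable {G Γ Γ' : Type*} [Group G] [Group Γ] [Group Γ']

theorem comm_cores {ι' : Γ' →* G} {ι : Γ →* G} (incl : Γ' →* Γ)
    (hincl : ∀ h, ι (incl h) = ι' h)
    {I J : Type} [Fintype I] [Fintype J]
    (C : Sys ι' ι J) (t : J → Γ) (hCt : ∀ j, C.A j = ι (t j))
    (hCuniq : ∀ (j j' : J) (h : Γ'), t j = incl h * t j' → j = j')
    (hCsurj : ∀ c : Γ, ∃ j, ∃ h : Γ', c = incl h * t j)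
    (T : Sys ι ι I) (T' : Sys ι' ι' I) (hTT' : ∀ i, T'.A i = T.A i)
    (hTuniq : ∀ (i i' : I) (g : Γ), T.A i = ι g * T.A i' → i = i')
    (hstar : ∀ (i i' : I) (γ : Γ) (h : Γ'), T.A i * ι γ = ι' h * T.A i' → ∃ γ' : Γ', γ = incl γ')
    {B : Type*} [AddCommGroup B] (φ : Additive Γ' →+ B) :
    T.op B (C.op B φ) = C.op B (T'.op B φ) := by
  classical
  have hιinj : Function.Injective ι := T.inj
  rw [← Sys.op_comp C T φ, ← Sys.op_comp T' C φ]
  -- the pair map
  choose jc hc hjc using fun x : J × I => hCsurj (T.c (t x.1) x.2)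
  let f : J × I → I × J := fun x => (T.σ (t x.1) x.2, jc x)
  have key : ∀ x : J × I, T.A x.2 * ι (t x.1)
      = ι' (hc x) * (ι (t (jc x)) * T.A (T.σ (t x.1) x.2)) := by
    intro x
    rw [T.rel (t x.1) x.2, hjc x, map_mul, hincl, mul_assoc]
  have hf : Function.Injective f := by
    intro x₁ x₂ h
    have h1 : T.σ (t x₁.1) x₁.2 = T.σ (t x₂.1) x₂.2 := congrArg Prod.fst h
    have h2 : jc x₁ = jc x₂ := congrArg Prod.snd h
    have k1 := key x₁
    have k2 := key x₂
    rw [h1, h2] at k1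
    -- `A i₁ * ι (t j₁ * (t j₂)⁻¹) = ι' (h₁ * h₂⁻¹) * A i₂`
    have k3 : T.A x₁.2 * ι (t x₁.1 * (t x₂.1)⁻¹) = ι' (hc x₁ * (hc x₂)⁻¹) * T.A x₂.2 := by
      have e2 : ι (t (jc x₂)) * T.A (T.σ (t x₂.1) x₂.2)
          = (ι' (hc x₂))⁻¹ * (T.A x₂.2 * ι (t x₂.1)) := by
        rw [k2, inv_mul_cancel_left]
      rw [e2] at k1
      rw [map_mul, map_inv, ← mul_assoc, k1, map_mul, map_inv]
      simp [mul_assoc]
    obtain ⟨γ', hγ'⟩ := hstar _ _ _ _ k3
    have hj : x₁.1 = x₂.1 := hCuniq _ _ γ' (by rw [← hγ', inv_mul_cancel_right])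
    have k4 : T.A x₁.2 = ι (incl (hc x₁ * (hc x₂)⁻¹)) * T.A x₂.2 := by
      rw [hj, mul_inv_cancel, map_one, mul_one] at k3
      rw [hincl]
      exact k3
    have hi : x₁.2 = x₂.2 := hTuniq _ _ _ k4
    exact Prod.ext hj hi
  have hfb : Function.Bijective f :=
    (Fintype.bijective_iff_injective_and_card f).mpr
      ⟨hf, by rw [Fintype.card_prod, Fintype.card_prod, mul_comm]⟩
  refine (Sys.op_congr (C.comp T) (T'.comp C) (Equiv.ofBijective f hfb) hc (fun x => ?_) φ).symm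
  rw [Sys.comp_A, Sys.comp_A, hTT', hCt, hCt]
  exact key x

end Fermat.Agent.S41_Comm
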