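import Mathlib
import Fermat.Agent.S16_Hecke
import Fermat.Agent.S41_Sys
import Fermat.Agent.S41_Ops
import Fermat.Agent.S41_Comm

/-!
# S41, blocks B2/B3 (helper8): degeneracy operators between levels `N` and `N q`

Everything is proved for an abstract package `LRData` of matrix data (coset representatives `t`
of `Γ₀(Nq) \ Γ₀(N)`, the conjugations by `d = diag(q,1)` and by the Atkin–Lehner matrix `w`),
which is provided by `S41_Mat` (helper9).

Operators on `Hom(Γ, B)` (any abelian group `B`): `res1`, `res2`, `Wop`, `cores1`, and the landed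
Hecke operators `(sysT _ _ _).op`, `(sysU _ _).op`.  Identities:
`cores1 ∘ res1 = q + 1`, `cores1 ∘ res2 = T_q`, `W ∘ res1 = res2`, `W ∘ W = 1`,
`res1 ∘ cores1 = 1 + U_q ∘ W`, and the commutation of `T_ℓ` with `res1`, `res2`, `cores1`, `W`.
-/

set_option autoImplicit false

open CongruenceSubgroup ModularCurve.Period
open scoped MatrixGroups

namespace Fermat.Agent.S41_LR

open Matrix.SpecialLinearGroup (mapGL)
open Fermat.Agent.S41_Sys Fermat.Agent.S16_Hecke Fermat.Agent.S41_Ops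

theorem gamma0_mul_le (N q : ℕ) : Gamma0 (N * q) ≤ Gamma0 N := by
  intro A hA
  rw [Gamma0_mem] at hA ⊢
  rw [ZMod.intCast_zmod_eq_zero_iff_dvd] at hA ⊢
  have h1 : (N : ℤ) ∣ ((N * q : ℕ) : ℤ) := ⟨q, by push_cast; ring⟩
  exact h1.trans hA

/-- the inclusion `Γ₀(Nq) → Γ₀(N)`. -/
def incl (N q : ℕ) : Gamma0 (N * q) →* Gamma0 N := Subgroup.inclusion (gamma0_mul_le N q)

theorem iota_incl (N q : ℕ) (h : Gamma0 (N * q)) : iota N (incl N q h) = iota (N * q) h := rfl

/-- pull-back of homomorphisms along a group homomorphism. -/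
def pull {Γ₁ Γ₂ : Type*} [Group Γ₁] [Group Γ₂] (f : Γ₂ →* Γ₁) (B : Type*) [AddCommGroup B] :
    (Additive Γ₁ →+ B) →+ (Additive Γ₂ →+ B) where
  toFun φ := φ.comp (MonoidHom.toAdditive f)
  map_zero' := rfl
  map_add' _ _ := rfl

theorem pull_apply {Γ₁ Γ₂ : Type*} [Group Γ₁] [Group Γ₂] (f : Γ₂ →* Γ₁) {B : Type*}
    [AddCommGroup B] (φ : Additive Γ₁ →+ B) (γ : Γ₂) :
    pull f B φ (Additive.ofMul γ) = φ (Additive.ofMul (f γ)) := rfl

theorem pull_comp_hom {Γ₁ Γ₂ : Type*} [Group Γ₁] [Group Γ₂] (f : Γ₂ →* Γ₁) {B C : Type*}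
    [AddCommGroup B] [AddCommGroup C] (g : B →+ C) (φ : Additive Γ₁ →+ B) :
    pull f C (g.comp φ) = g.comp (pull f B φ) := rfl

instance neZero_mul (N q : ℕ) [NeZero N] [NeZero q] : NeZero (N * q) :=
  ⟨Nat.mul_ne_zero (NeZero.ne N) (NeZero.ne q)⟩

/-- the matrix data for level raising at `q`. -/
structure LRData (N q : ℕ) [NeZero N] [NeZero q] (hq : q.Prime) (hqN : ¬ q ∣ N) where
  x : ℤ
  y : ℤ
  hxy : (q : ℤ) * x - N * y = 1
  g0 : Gamma0 N
  t : OnePoint (ZMod q) → Gamma0 N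
  conjD : Gamma0 (N * q) →* Gamma0 N
  conjW : Gamma0 (N * q) →* Gamma0 (N * q)
  d : GL (Fin 2) ℝ
  w : GL (Fin 2) ℝ
  hd : (d : Matrix (Fin 2) (Fin 2) ℝ) = !![(q : ℝ), 0; 0, 1]
  hw : (w : Matrix (Fin 2) (Fin 2) ℝ) = !![(q : ℝ) * x, y; (N : ℝ) * q, q]
  hwd : w = iota N g0 * d
  hconjD : ∀ g, d * iota (N * q) g = iota N (conjD g) * d
  hconjW : ∀ g, w * iota (N * q) g = iota (N * q) (conjW g) * w
  hconjW2 : ∃ gam0 : Gamma0 (N * q), ∀ g, conjW (conjW g) = gam0 * g * gam0⁻¹
  t_surj : ∀ c : Gamma0 N, ∃ j, ∃ h : Gamma0 (N * q), c = incl N q h * t j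
  t_uniq : ∀ (j j' : OnePoint (ZMod q)) (h : Gamma0 (N * q)), t j = incl N q h * t j' → j = j'
  t_rep : ∀ i, ∃ gi : Gamma0 N, d * iota N (t i) = iota N gi * (sysT N hq hqN).A i
  t_inf : t (OnePoint.infty) = 1
  t_coe : ∃ z : GL (Fin 2) ℝ, (∀ u, z * u = u * z) ∧ ∀ j : ZMod q,
    iota N (t (j : OnePoint (ZMod q))) * z = w * (sysU (N * q) (Dvd.intro_left N rfl)).A j

namespace LRData

variable {N q : ℕ} [NeZero N] [NeZero q] {hq : q.Prime} {hqN : ¬ q ∣ N}
  (D : LRData N q hq hqN)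

/-! ### the operators -/

/-- restriction `Hom(Γ₀(N), B) → Hom(Γ₀(Nq), B)`. -/
def res1 (N q : ℕ) (B : Type*) [AddCommGroup B] :
    (Additive (Gamma0 N) →+ B) →+ (Additive (Gamma0 (N * q)) →+ B) :=
  pull (incl N q) B

/-- the second degeneracy map: restriction along conjugation by `diag(q,1)`. -/
def res2 (B : Type*) [AddCommGroup B] :
    (Additive (Gamma0 N) →+ B) →+ (Additive (Gamma0 (N * q)) →+ B) :=
  pull D.conjD B

/-- the Atkin–Lehner involution on `Hom(Γ₀(Nq), B)`. -/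
def Wop (B : Type*) [AddCommGroup B] :
    (Additive (Gamma0 (N * q)) →+ B) →+ (Additive (Gamma0 (N * q)) →+ B) :=
  pull D.conjW B

/-- the systems of the three pull-backs. -/
noncomputable def res1Sys (N q : ℕ) : Sys (iota N) (iota (N * q)) Unit :=
  pullSys 1 (incl N q) (fun γ => by rw [one_mul, mul_one, iota_incl])

noncomputable def res2Sys : Sys (iota N) (iota (N * q)) Unit := pullSys D.d D.conjD D.hconjD

noncomputable def WSys : Sys (iota (N * q)) (iota (N * q)) Unit := pullSys D.w D.conjW D.hconjW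

omit [NeZero N] [NeZero q] in
theorem res1Sys_op {B : Type*} [AddCommGroup B] (φ : Additive (Gamma0 N) →+ B) :
    (res1Sys N q).op B φ = res1 N q B φ := pullSys_op _ _ _ φ

theorem res2Sys_op {B : Type*} [AddCommGroup B] (φ : Additive (Gamma0 N) →+ B) :
    D.res2Sys.op B φ = D.res2 B φ := pullSys_op _ _ _ φ

theorem WSys_op {B : Type*} [AddCommGroup B] (φ : Additive (Gamma0 (N * q)) →+ B) :
    D.WSys.op B φ = D.Wop B φ := pullSys_op _ _ _ φ

/-- the corestriction system: representatives of `Γ₀(Nq) \ Γ₀(N)`. -/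
noncomputable def coresSys : Sys (iota (N * q)) (iota N) (OnePoint (ZMod q)) where
  A := fun i => iota N (D.t i)
  inj := iota_injective (N * q)
  ex := by
    intro γ
    choose j h hjh using fun i => D.t_surj (D.t i * γ)
    have hinj : Function.Injective j := by
      intro i i' hii
      have e1 := hjh i
      have e2 := hjh i'
      rw [hii] at e1
      refine D.t_uniq i i' (h i * (h i')⁻¹) ?_
      have e3 : D.t (j i') = (incl N q (h i'))⁻¹ * (D.t i' * γ) := by
        rw [e2, inv_mul_cancel_left]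
      rw [e3] at e1
      have e4 : D.t i = incl N q (h i) * ((incl N q (h i'))⁻¹ * (D.t i' * γ)) * γ⁻¹ := by
        rw [← e1, mul_inv_cancel_right]
      rw [e4, map_mul, map_inv]
      simp [mul_assoc]
    refine ⟨Equiv.ofBijective j (Finite.injective_iff_bijective.mp hinj), fun i => ⟨h i, ?_⟩⟩
    rw [Equiv.ofBijective_apply, ← iota_incl, ← map_mul, ← map_mul, hjh i]

theorem coresSys_A (i : OnePoint (ZMod q)) : D.coresSys.A i = iota N (D.t i) := rfl

/-- corestriction `Hom(Γ₀(Nq), B) → Hom(Γ₀(N), B)`. -/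
noncomputable def cores1 (B : Type*) [AddCommGroup B] :
    (Additive (Gamma0 (N * q)) →+ B) →+ (Additive (Gamma0 N) →+ B) :=
  D.coresSys.op B

/-! ### the basic identities -/

theorem card_onePoint (q : ℕ) [NeZero q] : Fintype.card (OnePoint (ZMod q)) = q + 1 := by
  show Fintype.card (Option (ZMod q)) = q + 1
  rw [Fintype.card_option, ZMod.card]

/-- `cores1 ∘ res1 = q + 1`. -/
theorem cores1_res1 {B : Type*} [AddCommGroup B] (φ : Additive (Gamma0 N) →+ B) :
    D.cores1 B (res1 N q B φ) = (q + 1) • φ := by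
  rw [← res1Sys_op, cores1, ← Sys.op_comp]
  refine AddMonoidHom.ext fun γ => ?_
  have e : γ = Additive.ofMul (Additive.toMul γ) := rfl
  rw [e, ((res1Sys N q).comp D.coresSys).op_eq_card_smul (MonoidHom.id _) (fun _ => rfl)
    (fun x => D.t x.1) (fun x => by
      rw [Sys.comp_A, coresSys_A]
      show (1 : GL (Fin 2) ℝ) * _ = _
      rw [one_mul]) φ]
  rw [Fintype.card_prod, card_onePoint, Fintype.card_unit, mul_one, AddMonoidHom.nsmul_apply]
  rfl

/-- `cores1 ∘ res2 = T_q` (level `N`). -/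
theorem cores1_res2 {B : Type*} [AddCommGroup B] (φ : Additive (Gamma0 N) →+ B) :
    D.cores1 B (D.res2 B φ) = (sysT N hq hqN).op B φ := by
  rw [← D.res2Sys_op, cores1, ← Sys.op_comp, ← ofHecke_op]
  choose gi hgi using D.t_rep
  exact Sys.op_congr (ofHecke (sysT N hq hqN)) (D.res2Sys.comp D.coresSys) (Equiv.prodPUnit _)
    (fun x => gi x.1) (fun x => hgi x.1) φ

theorem incl_conjW (g : Gamma0 (N * q)) : incl N q (D.conjW g) = D.g0 * D.conjD g * D.g0⁻¹ := by
  have h1 := D.hconjW g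
  rw [D.hwd, mul_assoc, D.hconjD g, ← mul_assoc, ← mul_assoc] at h1
  have h2 := mul_right_cancel h1
  rw [← iota_incl, ← map_mul, ← map_mul] at h2
  have h3 := iota_injective N h2
  rw [h3, mul_inv_cancel_right]

/-- `W ∘ res1 = res2`. -/
theorem Wop_res1 {B : Type*} [AddCommGroup B] (φ : Additive (Gamma0 N) →+ B) :
    D.Wop B (res1 N q B φ) = D.res2 B φ := by
  refine AddMonoidHom.ext fun γ => ?_
  have e : γ = Additive.ofMul (Additive.toMul γ) := rfl
  rw [e, Wop, res1, res2, pull_apply, pull_apply, pull_apply, D.incl_conjW]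
  rw [ofMul_mul, ofMul_mul, map_add, map_add, ofMul_inv, map_neg]
  abel

/-- `W ∘ W = 1` on homomorphisms. -/
theorem Wop_Wop {B : Type*} [AddCommGroup B] (φ : Additive (Gamma0 (N * q)) →+ B) :
    D.Wop B (D.Wop B φ) = φ := by
  obtain ⟨gam0, hgam0⟩ := D.hconjW2
  refine AddMonoidHom.ext fun γ => ?_
  have e : γ = Additive.ofMul (Additive.toMul γ) := rfl
  rw [e, Wop, pull_apply, pull_apply, hgam0]
  rw [ofMul_mul, ofMul_mul, map_add, map_add, ofMul_inv, map_neg]
  abel

/-- `W ∘ res2 = res1`. -/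
theorem Wop_res2 {B : Type*} [AddCommGroup B] (φ : Additive (Gamma0 N) →+ B) :
    D.Wop B (D.res2 B φ) = res1 N q B φ := by
  rw [← D.Wop_res1, D.Wop_Wop]

/-- `cores1 ∘ W ∘ res1 = T_q`. -/
theorem cores1_Wop_res1 {B : Type*} [AddCommGroup B] (φ : Additive (Gamma0 N) →+ B) :
    D.cores1 B (D.Wop B (res1 N q B φ)) = (sysT N hq hqN).op B φ := by
  rw [D.Wop_res1, D.cores1_res2]

/-- `cores1 ∘ W ∘ res2 = q + 1`. -/
theorem cores1_Wop_res2 {B : Type*} [AddCommGroup B] (φ : Additive (Gamma0 N) →+ B) :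
    D.cores1 B (D.Wop B (D.res2 B φ)) = (q + 1) • φ := by
  rw [D.Wop_res2, D.cores1_res1]

/-- `res1 ∘ cores1 = 1 + U_q ∘ W`. -/
theorem res1_cores1 {B : Type*} [AddCommGroup B] (φ : Additive (Gamma0 (N * q)) →+ B) :
    res1 N q B (D.cores1 B φ)
      = φ + (sysU (N * q) (Dvd.intro_left N rfl)).op B (D.Wop B φ) := by
  obtain ⟨z, hz, hzt⟩ := D.t_coe
  refine AddMonoidHom.ext fun γ' => ?_
  have e : γ' = Additive.ofMul (Additive.toMul γ') := rfl
  set γ := Additive.toMul γ'
  set H := sysU (N * q) (Dvd.intro_left N rfl : q ∣ N * q) with hH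
  rw [e, res1, pull_apply, cores1]
  rw [D.coresSys.op_apply_of φ (incl N q γ) (Equiv.optionCongr (H.sPerm γ))
    (fun i => i.elim γ (fun j => D.conjW (H.c γ j))) (fun i => by
      induction i using OnePoint.rec with
      | infty =>
        show iota N (D.t OnePoint.infty) * iota N (incl N q γ)
          = iota (N * q) γ * iota N (D.t OnePoint.infty)
        rw [D.t_inf, map_one, one_mul, mul_one, iota_incl]
      | coe j =>
        show iota N (D.t (j : OnePoint (ZMod q))) * iota N (incl N q γ)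
          = iota (N * q) (D.conjW (H.c γ j)) * iota N (D.t ((H.s γ j : ZMod q) : OnePoint (ZMod q)))
        have h1 : iota N (D.t (j : OnePoint (ZMod q))) * iota N (incl N q γ) * z
            = iota (N * q) (D.conjW (H.c γ j))
              * iota N (D.t ((H.s γ j : ZMod q) : OnePoint (ZMod q))) * z := by
          rw [mul_assoc, ← hz, ← mul_assoc, hzt j, iota_incl, mul_assoc]
          have h2 : H.A j * iota (N * q) γ = iota (N * q) (H.c γ j) * H.A (H.s γ j) := H.rel γ j
          rw [h2, ← mul_assoc, D.hconjW, mul_assoc, ← hzt (H.s γ j), mul_assoc]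
        exact mul_right_cancel h1)]
  rw [AddMonoidHom.add_apply, HeckeSys.op_apply]
  have h3 : ∑ i : OnePoint (ZMod q),
      φ (Additive.ofMul (i.elim γ (fun j => D.conjW (H.c γ j))))
      = φ (Additive.ofMul γ) + ∑ j : ZMod q, φ (Additive.ofMul (D.conjW (H.c γ j))) :=
    Fintype.sum_option _
  rw [h3]
  rfl

end LRData

end Fermat.Agent.S41_LR
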