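import Mathlib
import Fermat.Agent.S16_Hecke

/-!
# S41, concrete matrix layer (helper9)

Concrete matrix families for the two degeneracy maps between `Γ₀(N)` and `Γ₀(N q)` (`q ∤ N`
prime), the Atkin–Lehner element at `q`, and the coset identities relating them to the landed
Hecke systems `S16_Hecke.sysT` / `sysU`.  Everything is stated as equalities in `SL(2, ℤ)` or
`GL (Fin 2) ℝ`, independent of any abstract coset-system interface.
-/

set_option autoImplicit false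

open CongruenceSubgroup
open scoped MatrixGroups

namespace Fermat.Agent.S41_Mat

open Matrix.SpecialLinearGroup (mapGL)
open P2MW.S_ModularForm_heckeT_slash_eq_self_of_mem_Gamma0.ModularForm.HeckeSlashInvariance
open Fermat.Agent.S16_Hecke

/-! ### Basic tools -/

/-- an element of `SL(2, ℤ)` from its entries. -/
def mk2 (a b c d : ℤ) (h : a * d - b * c = 1) : SL(2, ℤ) :=
  ⟨!![a, b; c, d], by rw [Matrix.det_fin_two_of]; exact h⟩

@[simp] theorem mk2_00 (a b c d : ℤ) (h : a * d - b * c = 1) : mk2 a b c d h 0 0 = a := rfl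
@[simp] theorem mk2_01 (a b c d : ℤ) (h : a * d - b * c = 1) : mk2 a b c d h 0 1 = b := rfl
@[simp] theorem mk2_10 (a b c d : ℤ) (h : a * d - b * c = 1) : mk2 a b c d h 1 0 = c := rfl
@[simp] theorem mk2_11 (a b c d : ℤ) (h : a * d - b * c = 1) : mk2 a b c d h 1 1 = d := rfl

theorem sl_ext {g h : SL(2, ℤ)} (h00 : g 0 0 = h 0 0) (h01 : g 0 1 = h 0 1)
    (h10 : g 1 0 = h 1 0) (h11 : g 1 1 = h 1 1) : g = h := by
  ext i j
  fin_cases i <;> fin_cases j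
  · exact h00
  · exact h01
  · exact h10
  · exact h11

theorem sl_det (g : SL(2, ℤ)) : g 0 0 * g 1 1 - g 0 1 * g 1 0 = 1 := det_eq g

theorem mul_00 (g h : SL(2, ℤ)) : (g * h) 0 0 = g 0 0 * h 0 0 + g 0 1 * h 1 0 := by
  simp [Matrix.SpecialLinearGroup.coe_mul, Matrix.mul_apply, Fin.sum_univ_two]
theorem mul_01 (g h : SL(2, ℤ)) : (g * h) 0 1 = g 0 0 * h 0 1 + g 0 1 * h 1 1 := by
  simp [Matrix.SpecialLinearGroup.coe_mul, Matrix.mul_apply, Fin.sum_univ_two]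
theorem mul_10 (g h : SL(2, ℤ)) : (g * h) 1 0 = g 1 0 * h 0 0 + g 1 1 * h 1 0 := by
  simp [Matrix.SpecialLinearGroup.coe_mul, Matrix.mul_apply, Fin.sum_univ_two]
theorem mul_11 (g h : SL(2, ℤ)) : (g * h) 1 1 = g 1 0 * h 0 1 + g 1 1 * h 1 1 := by
  simp [Matrix.SpecialLinearGroup.coe_mul, Matrix.mul_apply, Fin.sum_univ_two]

theorem inv_00 (g : SL(2, ℤ)) : (g⁻¹) 0 0 = g 1 1 := by
  simp [Matrix.SpecialLinearGroup.coe_inv, Matrix.adjugate_fin_two]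
theorem inv_01 (g : SL(2, ℤ)) : (g⁻¹) 0 1 = - g 0 1 := by
  simp [Matrix.SpecialLinearGroup.coe_inv, Matrix.adjugate_fin_two]
theorem inv_10 (g : SL(2, ℤ)) : (g⁻¹) 1 0 = - g 1 0 := by
  simp [Matrix.SpecialLinearGroup.coe_inv, Matrix.adjugate_fin_two]
theorem inv_11 (g : SL(2, ℤ)) : (g⁻¹) 1 1 = g 0 0 := by
  simp [Matrix.SpecialLinearGroup.coe_inv, Matrix.adjugate_fin_two]

theorem mem_Gamma0_iff (M : ℕ) (g : SL(2, ℤ)) : g ∈ Gamma0 M ↔ (M : ℤ) ∣ g 1 0 := by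
  rw [Gamma0_mem, ZMod.intCast_zmod_eq_zero_iff_dvd]

theorem mapGL_inj {g h : SL(2, ℤ)} (e : mapGL ℝ g = mapGL ℝ h) : g = h :=
  Matrix.SpecialLinearGroup.mapGL_injective e

/-- entries of a relation `α * γ = g' * α'` between arbitrary real matrices with integer
entries. -/
theorem gl_ext {A B : GL (Fin 2) ℝ} (h00 : A 0 0 = B 0 0) (h01 : A 0 1 = B 0 1)
    (h10 : A 1 0 = B 1 0) (h11 : A 1 1 = B 1 1) : A = B := by
  ext i j
  fin_cases i <;> fin_cases j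
  · exact h00
  · exact h01
  · exact h10
  · exact h11


/-! ### The data -/

section Data

variable (N q : ℕ) (x y : ℤ) (hxy : (q : ℤ) * x - N * y = 1)

/-- `g₀ = [[x, y], [N, q]] ∈ Γ₀(N)`. -/
def g0 : SL(2, ℤ) := mk2 x y N q (by linear_combination hxy)

/-- the coset representatives `t_j = g₀ T^j = [[x, x j + y], [N, N j + q]]`. -/
def tj (j : ℤ) : SL(2, ℤ) := mk2 x (x * j + y) N (N * j + q) (by linear_combination hxy)

/-- `g₁ = [[q x, y], [N, 1]] ∈ Γ₀(N)`. -/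
def g1 : SL(2, ℤ) := mk2 (q * x) y N 1 (by linear_combination hxy)

/-- `γ₀ = w² / q ∈ Γ₀(N q)`. -/
def gam0 : SL(2, ℤ) :=
  mk2 (q * x ^ 2 + N * y) (y * (x + 1)) (N * q * (x + 1)) (N * y + q)
    (by linear_combination ((q : ℤ) * x - N * y + 1) * hxy)

theorem g0_mem : g0 N q x y hxy ∈ Gamma0 N := by
  rw [mem_Gamma0_iff]; exact dvd_refl _

theorem tj_mem (j : ℤ) : tj N q x y hxy j ∈ Gamma0 N := by
  rw [mem_Gamma0_iff]; exact dvd_refl _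

theorem g1_mem : g1 N q x y hxy ∈ Gamma0 N := by
  rw [mem_Gamma0_iff]; exact dvd_refl _

theorem gam0_mem : gam0 N q x y hxy ∈ Gamma0 (N * q) := by
  rw [mem_Gamma0_iff]
  show ((N * q : ℕ) : ℤ) ∣ (N : ℤ) * q * (x + 1)
  push_cast
  exact dvd_mul_right _ _

theorem tj_zero : tj N q x y hxy 0 = g0 N q x y hxy := by
  apply sl_ext <;> simp [tj, g0]

/-- the coset representatives of `Γ₀(N q) \ Γ₀(N)`, indexed by `ℙ¹(𝔽_q)`. -/
def t : OnePoint (ZMod q) → Gamma0 N :=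
  fun i => i.elim 1 (fun j => ⟨tj N q x y hxy (j.val : ℤ), tj_mem N q x y hxy _⟩)

/-- the left factors in `d t_i = g_i u_i`. -/
def gfun : OnePoint (ZMod q) → Gamma0 N :=
  fun i => i.elim 1 (fun _ => ⟨g1 N q x y hxy, g1_mem N q x y hxy⟩)

@[simp] theorem t_infty : t N q x y hxy (OnePoint.infty) = 1 := rfl
@[simp] theorem t_coe (j : ZMod q) :
    t N q x y hxy (j : OnePoint (ZMod q)) = ⟨tj N q x y hxy (j.val : ℤ), tj_mem N q x y hxy _⟩ := rfl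
@[simp] theorem gfun_infty : gfun N q x y hxy (OnePoint.infty) = 1 := rfl
@[simp] theorem gfun_coe (j : ZMod q) :
    gfun N q x y hxy (j : OnePoint (ZMod q)) = ⟨g1 N q x y hxy, g1_mem N q x y hxy⟩ := rfl

end Data

/-! ### Relations in `GL₂(ℝ)` -/

section Rel

variable (N q : ℕ) (hq0 : q ≠ 0) (x y : ℤ) (hxy : (q : ℤ) * x - N * y = 1)

include hq0 in
/-- `d t_j = g₁ u_j`. -/
theorem diag_mul_tj (j : ℕ) :
    ModularForm.heckeDiagMatrix q * mapGL ℝ (tj N q x y hxy (j : ℤ))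
      = mapGL ℝ (g1 N q x y hxy) * ModularForm.heckeMatrix q j := by
  apply gl_ext <;>
    simp [hq0, Matrix.mul_apply, Fin.sum_univ_two, tj, g1] <;> ring

include hq0 in
/-- `d t_i = g_i u_i` for all `i ∈ ℙ¹(𝔽_q)`. -/
theorem diag_mul_t (i : OnePoint (ZMod q)) :
    ModularForm.heckeDiagMatrix q * mapGL ℝ (t N q x y hxy i : SL(2, ℤ))
      = mapGL ℝ (gfun N q x y hxy i : SL(2, ℤ)) * heckeRep q i := by
  induction i using OnePoint.rec with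
  | infty => simp
  | coe j =>
    rw [heckeRep_coe]
    exact diag_mul_tj N q hq0 x y hxy j.val

end Rel

/-! ### Conjugation by `d = diag(q, 1)` -/

theorem eq_of_mul_right {D : GL (Fin 2) ℝ} {g h : SL(2, ℤ)}
    (e : mapGL ℝ g * D = mapGL ℝ h * D) : g = h :=
  mapGL_inj (mul_right_cancel e)

section ConjD

variable (N q : ℕ)

theorem dvd_of_mem_mul {γ : SL(2, ℤ)} (hγ : γ ∈ Gamma0 (N * q)) : (q : ℤ) ∣ γ 1 0 := by
  rw [mem_Gamma0_iff] at hγ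
  exact (Dvd.intro_left (N : ℤ) (by push_cast; ring)).trans hγ

theorem dvd_ediv_of_mem_mul (hq0 : q ≠ 0) {γ : SL(2, ℤ)} (hγ : γ ∈ Gamma0 (N * q)) :
    (N : ℤ) ∣ γ 1 0 / q := by
  rw [mem_Gamma0_iff] at hγ
  obtain ⟨k, hk⟩ := hγ
  have hq : (q : ℤ) ≠ 0 := by exact_mod_cast hq0
  refine ⟨k, ?_⟩
  rw [hk]
  push_cast
  rw [show (N : ℤ) * q * k = q * (N * k) by ring, Int.mul_ediv_cancel_left _ hq]

/-- `γ ↦ d γ d⁻¹` as a function `Γ₀(N q) → Γ₀(N)`. -/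
def conjDfun (γ : Gamma0 (N * q)) : Gamma0 N :=
  ⟨mk2 ((γ : SL(2, ℤ)) 0 0) (q * (γ : SL(2, ℤ)) 0 1) ((γ : SL(2, ℤ)) 1 0 / q)
      ((γ : SL(2, ℤ)) 1 1) (by
        have h1 := sl_det (γ : SL(2, ℤ))
        have h2 : (q : ℤ) * ((γ : SL(2, ℤ)) 1 0 / q) = (γ : SL(2, ℤ)) 1 0 :=
          Int.mul_ediv_cancel' (dvd_of_mem_mul N q γ.2)
        linear_combination h1 - (γ : SL(2, ℤ)) 0 1 * h2), by
    by_cases hq' : q = 0
    · subst hq'
      rw [mem_Gamma0_iff]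
      simp only [mk2_10, Nat.cast_zero, Int.ediv_zero]
      have := γ.2
      rw [mem_Gamma0_iff] at this
      simp at this
      simp
    · rw [mem_Gamma0_iff]
      exact dvd_ediv_of_mem_mul N q hq' γ.2⟩

variable (hq0 : q ≠ 0)

include hq0 in
/-- `d γ = (d γ d⁻¹) d`. -/
theorem diag_mul (γ : Gamma0 (N * q)) :
    ModularForm.heckeDiagMatrix q * mapGL ℝ (γ : SL(2, ℤ))
      = mapGL ℝ (conjDfun N q γ : SL(2, ℤ)) * ModularForm.heckeDiagMatrix q := by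
  have h2 : (q : ℤ) * ((γ : SL(2, ℤ)) 1 0 / q) = (γ : SL(2, ℤ)) 1 0 :=
    Int.mul_ediv_cancel' (dvd_of_mem_mul N q γ.2)
  have h3 := congrArg (Int.cast : ℤ → ℝ) h2
  push_cast at h3
  apply gl_ext <;>
    simp [hq0, Matrix.mul_apply, Fin.sum_univ_two, conjDfun]
  · ring
  · linear_combination -h3

include hq0 in
/-- the second degeneracy homomorphism `Γ₀(N q) → Γ₀(N)`, `γ ↦ d γ d⁻¹`. -/
def conjD : Gamma0 (N * q) →* Gamma0 N where
  toFun := conjDfun N q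
  map_one' := by
    apply Subtype.ext
    apply eq_of_mul_right (D := ModularForm.heckeDiagMatrix q)
    rw [← diag_mul N q hq0]
    simp
  map_mul' a b := by
    apply Subtype.ext
    apply eq_of_mul_right (D := ModularForm.heckeDiagMatrix q)
    rw [← diag_mul N q hq0]
    simp only [Subgroup.coe_mul, map_mul]
    rw [← mul_assoc, diag_mul N q hq0, mul_assoc, diag_mul N q hq0, mul_assoc]

theorem conjD_apply (γ : Gamma0 (N * q)) : conjD N q hq0 γ = conjDfun N q γ := rfl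

theorem diag_mul' (γ : Gamma0 (N * q)) :
    ModularForm.heckeDiagMatrix q * mapGL ℝ (γ : SL(2, ℤ))
      = mapGL ℝ (conjD N q hq0 γ : SL(2, ℤ)) * ModularForm.heckeDiagMatrix q :=
  diag_mul N q hq0 γ

include hq0 in
/-- an element of `SL(2, ℤ)` whose `d`-conjugate is in `Γ₀(N)` lies in `Γ₀(N q)`. -/
theorem mem_of_diag_mul {c X : SL(2, ℤ)} (hX : X ∈ Gamma0 N)
    (h : ModularForm.heckeDiagMatrix q * mapGL ℝ c = mapGL ℝ X * ModularForm.heckeDiagMatrix q) :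
    c ∈ Gamma0 (N * q) := by
  have h10 := congrArg (fun M : GL (Fin 2) ℝ => M 1 0) h
  simp [hq0, Matrix.mul_apply, Fin.sum_univ_two] at h10
  have h10' : c 1 0 = X 1 0 * q := by exact_mod_cast h10
  rw [mem_Gamma0_iff] at hX ⊢
  rw [h10']
  push_cast
  exact mul_dvd_mul_right hX _

end ConjD

/-! ### The coset system of `Γ₀(N q) \ Γ₀(N)` (first corestriction) -/

section Cores

variable (N q : ℕ) (hq : q.Prime) (hqN : ¬ q ∣ N) (x y : ℤ) (hxy : (q : ℤ) * x - N * y = 1)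

/-- **(E1)** For `γ ∈ Γ₀(N)`: `t_i γ = c t_{s i}` with `c ∈ Γ₀(N q)`, where `s` is the
permutation of the `T_q`-system, and `d c d⁻¹ = g_i c_T(γ, i) g_{s i}⁻¹`. -/
theorem t_mul (γ : Gamma0 N) (i : OnePoint (ZMod q)) :
    ∃ c : Gamma0 (N * q),
      (t N q x y hxy i : SL(2, ℤ)) * γ
        = (c : SL(2, ℤ)) * (t N q x y hxy ((sysT N hq hqN).s γ i) : SL(2, ℤ)) ∧
      conjD N q hq.ne_zero c
        = gfun N q x y hxy i * (sysT N hq hqN).c γ i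
            * (gfun N q x y hxy ((sysT N hq hqN).s γ i))⁻¹ := by
  set H := sysT N hq hqN with hH
  set s := H.s γ i with hs
  set cT := H.c γ i with hcT
  have h1 := diag_mul_t N q hq.ne_zero x y hxy i
  have h2 := diag_mul_t N q hq.ne_zero x y hxy s
  have h3 : heckeRep q i * mapGL ℝ (γ : SL(2, ℤ)) = mapGL ℝ (cT : SL(2, ℤ)) * heckeRep q s :=
    H.rel γ i
  set c0 : SL(2, ℤ) := (t N q x y hxy i : SL(2, ℤ)) * γ * (t N q x y hxy s : SL(2, ℤ))⁻¹ with hc0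
  set X : Gamma0 N := gfun N q x y hxy i * cT * (gfun N q x y hxy s)⁻¹ with hX
  have h4 : heckeRep q s
      = (mapGL ℝ (gfun N q x y hxy s : SL(2, ℤ)))⁻¹ * (ModularForm.heckeDiagMatrix q
          * mapGL ℝ (t N q x y hxy s : SL(2, ℤ))) := by
    rw [h2, inv_mul_cancel_left]
  have key : ModularForm.heckeDiagMatrix q * mapGL ℝ c0
      = mapGL ℝ (X : SL(2, ℤ)) * ModularForm.heckeDiagMatrix q := by
    rw [hc0, hX]
    simp only [map_mul, map_inv, Subgroup.coe_mul, Subgroup.coe_inv]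
    rw [← mul_assoc, ← mul_assoc, h1, mul_assoc (mapGL ℝ _) (heckeRep q i), h3, h4]
    group
  have hc0mem : c0 ∈ Gamma0 (N * q) := mem_of_diag_mul N q hq.ne_zero X.2 key
  refine ⟨⟨c0, hc0mem⟩, ?_, ?_⟩
  · show _ = c0 * _
    rw [hc0, inv_mul_cancel_right]
  · apply Subtype.ext
    apply eq_of_mul_right (D := ModularForm.heckeDiagMatrix q)
    rw [← diag_mul' N q hq.ne_zero ⟨c0, hc0mem⟩]
    exact key

include hq hqN in
/-- uniqueness of the cosets `Γ₀(N q) t_i`. -/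
theorem t_inj (a b : OnePoint (ZMod q)) (g : Gamma0 (N * q))
    (h : (t N q x y hxy a : SL(2, ℤ)) = (g : SL(2, ℤ)) * (t N q x y hxy b : SL(2, ℤ))) :
    a = b := by
  have h1 := diag_mul_t N q hq.ne_zero x y hxy a
  have h2 := diag_mul_t N q hq.ne_zero x y hxy b
  have h3 := diag_mul' N q hq.ne_zero g
  refine (sysT N hq hqN).uniq a b
    (((gfun N q x y hxy a)⁻¹ * conjD N q hq.ne_zero g * gfun N q x y hxy b : Gamma0 N) :
      SL(2, ℤ)) ?_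
  show heckeRep q a = _ * heckeRep q b
  simp only [map_mul, map_inv, Subgroup.coe_mul, Subgroup.coe_inv]
  rw [mul_assoc, mul_assoc, ← h2, ← mul_assoc (mapGL ℝ _) (ModularForm.heckeDiagMatrix q), ← h3,
    mul_assoc, ← map_mul, ← h, h1, inv_mul_cancel_left]

end Cores

/-! ### The Atkin–Lehner element at `q` -/

section AL

variable (N q : ℕ) (hq0 : q ≠ 0) (x y : ℤ) (hxy : (q : ℤ) * x - N * y = 1)

/-- the Atkin–Lehner matrix `w = g₀ d = [[q x, y], [N q, q]]` (determinant `q`). -/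
noncomputable def wGL : GL (Fin 2) ℝ :=
  mapGL ℝ (g0 N q x y hxy) * ModularForm.heckeDiagMatrix q

/-- `w / q = g₀ u₀⁻¹`, `u₀ = diag(1, q)`. -/
noncomputable def wq : GL (Fin 2) ℝ :=
  mapGL ℝ (g0 N q x y hxy) * (ModularForm.heckeMatrix q 0)⁻¹

/-- `[[1, j], [0, 1]]`. -/
def Tj (j : ℤ) : SL(2, ℤ) := mk2 1 j 0 1 (by ring)

theorem g0_mul_Tj (j : ℤ) : g0 N q x y hxy * Tj j = tj N q x y hxy j := by
  apply sl_ext <;> simp [mul_00, mul_01, mul_10, mul_11, g0, Tj, tj]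

theorem g0_mul_g1 : g0 N q x y hxy * g1 N q x y hxy = gam0 N q x y hxy := by
  apply sl_ext <;> simp [mul_00, mul_01, mul_10, mul_11, g0, g1, gam0] <;> ring

include hq0 in
theorem heckeMatrix_eq (j : ℕ) :
    ModularForm.heckeMatrix q j = ModularForm.heckeMatrix q 0 * mapGL ℝ (Tj (j : ℤ)) := by
  apply gl_ext <;> simp [hq0, Matrix.mul_apply, Fin.sum_univ_two, Tj]

include hq0 in
/-- `w = u₀ g₁`. -/
theorem wGL_eq : wGL N q x y hxy = ModularForm.heckeMatrix q 0 * mapGL ℝ (g1 N q x y hxy) := by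
  apply gl_ext <;> simp [wGL, hq0, Matrix.mul_apply, Fin.sum_univ_two, g0, g1] <;> ring

theorem wq_mul_heckeMatrix_zero :
    wq N q x y hxy * ModularForm.heckeMatrix q 0 = mapGL ℝ (g0 N q x y hxy) := by
  rw [wq, inv_mul_cancel_right]

include hq0 in
/-- **(E5)** `(w / q) u_j = t_j`. -/
theorem wq_mul_heckeMatrix (j : ℕ) :
    wq N q x y hxy * ModularForm.heckeMatrix q j = mapGL ℝ (tj N q x y hxy (j : ℤ)) := by
  rw [heckeMatrix_eq q hq0 j, ← mul_assoc, wq_mul_heckeMatrix_zero, ← map_mul, g0_mul_Tj]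

include hq0 in
/-- `(w / q) w = γ₀`. -/
theorem wq_mul_wGL : wq N q x y hxy * wGL N q x y hxy = mapGL ℝ (gam0 N q x y hxy) := by
  rw [wGL_eq N q hq0, ← mul_assoc, wq_mul_heckeMatrix_zero, ← map_mul, g0_mul_g1]

include hq0 in
/-- **(E6)** `w t_j = γ₀ u_j`. -/
theorem wGL_mul_tj (j : ℕ) :
    wGL N q x y hxy * mapGL ℝ (tj N q x y hxy (j : ℤ))
      = mapGL ℝ (gam0 N q x y hxy) * ModularForm.heckeMatrix q j := by
  apply gl_ext <;>
    simp [wGL, hq0, Matrix.mul_apply, Fin.sum_univ_two, g0, tj, gam0] <;> ring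

include hq0 in
/-- `w γ w⁻¹ ∈ Γ₀(N q)` for `γ ∈ Γ₀(N q)`. -/
theorem conjW_mem (γ : Gamma0 (N * q)) :
    g0 N q x y hxy * (conjDfun N q γ : SL(2, ℤ)) * (g0 N q x y hxy)⁻¹ ∈ Gamma0 (N * q) := by
  rw [mem_Gamma0_iff, mul_10, mul_10, mul_11, inv_00, inv_10]
  obtain ⟨k, hk⟩ := dvd_ediv_of_mem_mul N q hq0 γ.2
  simp only [g0, mk2_00, mk2_01, mk2_10, mk2_11, conjDfun, hk]
  push_cast
  exact ⟨(γ : SL(2, ℤ)) 0 0 + q * k - N * (γ : SL(2, ℤ)) 0 1 - (γ : SL(2, ℤ)) 1 1, by ring⟩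

/-- conjugation by the Atkin–Lehner element, `γ ↦ w γ w⁻¹`, on `Γ₀(N q)`. -/
def conjW : Gamma0 (N * q) →* Gamma0 (N * q) where
  toFun γ := ⟨g0 N q x y hxy * (conjD N q hq0 γ : SL(2, ℤ)) * (g0 N q x y hxy)⁻¹,
    conjW_mem N q hq0 x y hxy γ⟩
  map_one' := by
    apply Subtype.ext
    simp
  map_mul' a b := by
    apply Subtype.ext
    simp only [map_mul, Subgroup.coe_mul]
    group

theorem conjW_coe (γ : Gamma0 (N * q)) :
    (conjW N q hq0 x y hxy γ : SL(2, ℤ))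
      = g0 N q x y hxy * (conjD N q hq0 γ : SL(2, ℤ)) * (g0 N q x y hxy)⁻¹ := rfl

/-- `w γ = (w γ w⁻¹) w`. -/
theorem wGL_mul (γ : Gamma0 (N * q)) :
    wGL N q x y hxy * mapGL ℝ (γ : SL(2, ℤ))
      = mapGL ℝ (conjW N q hq0 x y hxy γ : SL(2, ℤ)) * wGL N q x y hxy := by
  rw [wGL, mul_assoc, diag_mul' N q hq0 γ, conjW_coe]
  simp only [map_mul, map_inv]
  group

include hq0 in
theorem heckeMatrix_zero_mul (γ : Gamma0 (N * q)) :
    mapGL ℝ (γ : SL(2, ℤ)) * ModularForm.heckeMatrix q 0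
      = ModularForm.heckeMatrix q 0 * mapGL ℝ (conjDfun N q γ : SL(2, ℤ)) := by
  have h2 : (q : ℤ) * ((γ : SL(2, ℤ)) 1 0 / q) = (γ : SL(2, ℤ)) 1 0 :=
    Int.mul_ediv_cancel' (dvd_of_mem_mul N q γ.2)
  have h3 := congrArg (Int.cast : ℤ → ℝ) h2
  push_cast at h3
  apply gl_ext <;>
    simp [hq0, Matrix.mul_apply, Fin.sum_univ_two, conjDfun]
  · ring
  · linear_combination -h3
  · ring

/-- `(w / q) γ = (w γ w⁻¹) (w / q)`. -/
theorem wq_mul (γ : Gamma0 (N * q)) :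
    wq N q x y hxy * mapGL ℝ (γ : SL(2, ℤ))
      = mapGL ℝ (conjW N q hq0 x y hxy γ : SL(2, ℤ)) * wq N q x y hxy := by
  have h := heckeMatrix_zero_mul N q hq0 γ
  have h' : (ModularForm.heckeMatrix q 0)⁻¹ * mapGL ℝ (γ : SL(2, ℤ))
      = mapGL ℝ (conjD N q hq0 γ : SL(2, ℤ)) * (ModularForm.heckeMatrix q 0)⁻¹ := by
    rw [inv_mul_eq_iff_eq_mul, ← mul_assoc, eq_mul_inv_iff_mul_eq, conjD_apply]
    exact h
  rw [wq, mul_assoc, h', conjW_coe]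
  simp only [map_mul, map_inv]
  group

/-- **(E4)** `w² = q γ₀`: conjugating twice by `w` is conjugation by `γ₀ ∈ Γ₀(N q)`. -/
theorem conjW_conjW (γ : Gamma0 (N * q)) :
    (conjW N q hq0 x y hxy (conjW N q hq0 x y hxy γ) : SL(2, ℤ)) * gam0 N q x y hxy
      = gam0 N q x y hxy * γ := by
  apply mapGL_inj
  rw [map_mul, map_mul, ← wq_mul_wGL N q hq0 x y hxy, ← mul_assoc, ← wq_mul N q hq0 x y hxy,
    mul_assoc, ← wGL_mul N q hq0 x y hxy, mul_assoc]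

theorem gam0_mem' : gam0 N q x y hxy ∈ Gamma0 N := by
  rw [mem_Gamma0_iff]
  show (N : ℤ) ∣ (N : ℤ) * q * (x + 1)
  exact ⟨q * (x + 1), by ring⟩

/-- the left factors in `w t_i = h_i u_i`. -/
def hfun : OnePoint (ZMod q) → Gamma0 N :=
  fun i => i.elim ⟨g0 N q x y hxy, g0_mem N q x y hxy⟩
    (fun _ => ⟨gam0 N q x y hxy, gam0_mem' N q x y hxy⟩)

include hq0 in
/-- **(E6)** `w t_i = h_i u_i` for all `i ∈ ℙ¹(𝔽_q)`, `h_i ∈ Γ₀(N)`. -/
theorem wGL_mul_t (i : OnePoint (ZMod q)) :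
    wGL N q x y hxy * mapGL ℝ (t N q x y hxy i : SL(2, ℤ))
      = mapGL ℝ (hfun N q x y hxy i : SL(2, ℤ)) * heckeRep q i := by
  induction i using OnePoint.rec with
  | infty =>
    show wGL N q x y hxy * mapGL ℝ ((1 : Gamma0 N) : SL(2, ℤ)) = mapGL ℝ (g0 N q x y hxy) * _
    simp [wGL]
  | coe j =>
    rw [heckeRep_coe]
    exact wGL_mul_tj N q hq0 x y hxy j.val

include hq0 in
/-- **(E5)** `(w / q) u_j = t_j` for `j ∈ 𝔽_q`. -/
theorem wq_mul_heckeMatrix' (j : ZMod q) :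
    wq N q x y hxy * ModularForm.heckeMatrix q j.val
      = mapGL ℝ (t N q x y hxy (j : OnePoint (ZMod q)) : SL(2, ℤ)) :=
  wq_mul_heckeMatrix N q hq0 x y hxy j.val

end AL

/-! ### Commutation data with `T_ℓ`, `ℓ ∤ N q` -/

section Comm

variable (N q : ℕ) (hq : q.Prime) (hqN : ¬ q ∣ N) (x y : ℤ) (hxy : (q : ℤ) * x - N * y = 1)
variable (ℓ : ℕ) (hℓ : ℓ.Prime) (hℓN : ¬ ℓ ∣ N) (hℓq : ℓ ≠ q)

theorem Tj_mem (M : ℕ) (m : ℤ) : Tj m ∈ Gamma0 M := by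
  rw [mem_Gamma0_iff]
  exact dvd_zero _

/-- `d u_j = T^m u_{j'} d` when `q j = j' + m ℓ`. -/
theorem diag_mul_heckeMatrix (hq0 : q ≠ 0) (hℓ0 : ℓ ≠ 0) (j j' : ℕ) (m : ℤ)
    (h : (q : ℤ) * j = j' + m * ℓ) :
    ModularForm.heckeDiagMatrix q * ModularForm.heckeMatrix ℓ j
      = mapGL ℝ (Tj m) * ModularForm.heckeMatrix ℓ j' * ModularForm.heckeDiagMatrix q := by
  have h' := congrArg (Int.cast : ℤ → ℝ) h
  push_cast at h'
  apply gl_ext <;>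
    simp [hq0, hℓ0, Matrix.mul_apply, Fin.sum_univ_two, Tj]
  linear_combination h'

theorem diag_mul_diag (hq0 : q ≠ 0) (hℓ0 : ℓ ≠ 0) :
    ModularForm.heckeDiagMatrix q * ModularForm.heckeDiagMatrix ℓ
      = ModularForm.heckeDiagMatrix ℓ * ModularForm.heckeDiagMatrix q := by
  apply gl_ext <;>
    simp [hq0, hℓ0, Matrix.mul_apply, Fin.sum_univ_two]
  ring

/-- multiplication by `q` on `ℙ¹(𝔽_ℓ)` (fixing `∞`). -/
def sigD : OnePoint (ZMod ℓ) → OnePoint (ZMod ℓ) :=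
  fun i => i.elim OnePoint.infty (fun j => (((q : ZMod ℓ) * j : ZMod ℓ) : OnePoint (ZMod ℓ)))

/-- the unipotent left factors in `d A_i = T^m A_{q i} d`. -/
def hD : OnePoint (ZMod ℓ) → Gamma0 N :=
  fun i => i.elim 1 (fun j => ⟨Tj (((q * j.val) / ℓ : ℕ) : ℤ), Tj_mem N _⟩)

include hq hℓ in
/-- **(E7a)** `d A_i = h_i A_{q i} d` with `h_i ∈ Γ₀(N)` unipotent. -/
theorem diag_mul_heckeRep (i : OnePoint (ZMod ℓ)) :
    ModularForm.heckeDiagMatrix q * heckeRep ℓ i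
      = mapGL ℝ (hD N q ℓ i : SL(2, ℤ)) * heckeRep ℓ (sigD q ℓ i)
          * ModularForm.heckeDiagMatrix q := by
  haveI : NeZero ℓ := ⟨hℓ.ne_zero⟩
  induction i using OnePoint.rec with
  | infty =>
    show ModularForm.heckeDiagMatrix q * ModularForm.heckeDiagMatrix ℓ
      = mapGL ℝ ((1 : Gamma0 N) : SL(2, ℤ)) * ModularForm.heckeDiagMatrix ℓ * _
    rw [diag_mul_diag q ℓ hq.ne_zero hℓ.ne_zero]
    simp
  | coe j =>
    show ModularForm.heckeDiagMatrix q * ModularForm.heckeMatrix ℓ j.val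
      = mapGL ℝ (Tj (((q * j.val) / ℓ : ℕ) : ℤ))
          * ModularForm.heckeMatrix ℓ ((q : ZMod ℓ) * j).val * _
    apply diag_mul_heckeMatrix q ℓ hq.ne_zero hℓ.ne_zero
    have h1 : ((q : ZMod ℓ) * j).val = (q * j.val) % ℓ := by
      rw [ZMod.val_mul, ZMod.val_natCast, Nat.mod_mul_mod]
    rw [h1]
    have h2 := Nat.div_add_mod (q * j.val) ℓ
    have h3 := congrArg (Nat.cast : ℕ → ℤ) h2
    push_cast at h3 ⊢
    linear_combination -h3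

include hq hℓ hℓq in
theorem sigD_bijective : Function.Bijective (sigD q ℓ) := by
  haveI : Fact ℓ.Prime := ⟨hℓ⟩
  haveI : NeZero ℓ := ⟨hℓ.ne_zero⟩
  have hq' : (q : ZMod ℓ) ≠ 0 := by
    intro h0
    rw [ZMod.natCast_eq_zero_iff] at h0
    exact hℓq ((Nat.prime_dvd_prime_iff_eq hℓ hq).mp h0)
  apply Function.Injective.bijective_of_finite
  intro a b hab
  induction a using OnePoint.rec with
  | infty =>
    induction b using OnePoint.rec with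
    | infty => rfl
    | coe j => exact absurd hab (OnePoint.infty_ne_coe _)
  | coe i =>
    induction b using OnePoint.rec with
    | infty => exact absurd hab (OnePoint.coe_ne_infty _)
    | coe j =>
      have h1 : (q : ZMod ℓ) * i = (q : ZMod ℓ) * j := OnePoint.coe_injective hab
      rw [mul_right_inj' hq' |>.mp h1]

include hq hqN in
theorem isCoprime_N_q : IsCoprime (N : ℤ) (q : ℤ) :=
  Nat.isCoprime_iff_coprime.mpr ((Nat.Prime.coprime_iff_not_dvd hq).mpr hqN).symm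

include hq hqN in
theorem mem_mul_of_dvd {g : SL(2, ℤ)} (h1 : g ∈ Gamma0 N) (h2 : (q : ℤ) ∣ g 1 0) :
    g ∈ Gamma0 (N * q) := by
  rw [mem_Gamma0_iff] at h1 ⊢
  push_cast
  exact (isCoprime_N_q N q hq hqN).mul_dvd h1 h2

include hq hℓ hℓq in
theorem isCoprime_q_a (i : OnePoint (ZMod ℓ)) :
    IsCoprime (q : ℤ) (((sysT N hℓ hℓN).a i : ℕ) : ℤ) := by
  have hc : Nat.Coprime q ℓ := (Nat.coprime_primes hq hℓ).mpr (Ne.symm hℓq)
  induction i using OnePoint.rec with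
  | infty => exact Nat.isCoprime_iff_coprime.mpr hc
  | coe j =>
    show IsCoprime (q : ℤ) ((1 : ℕ) : ℤ)
    rw [Nat.cast_one]
    exact isCoprime_one_right

include hq hℓ hℓq in
theorem isCoprime_q_d (i : OnePoint (ZMod ℓ)) :
    IsCoprime (q : ℤ) (((sysT N hℓ hℓN).d i : ℕ) : ℤ) := by
  have hc : Nat.Coprime q ℓ := (Nat.coprime_primes hq hℓ).mpr (Ne.symm hℓq)
  induction i using OnePoint.rec with
  | infty =>
    show IsCoprime (q : ℤ) ((1 : ℕ) : ℤ)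
    rw [Nat.cast_one]
    exact isCoprime_one_right
  | coe j => exact Nat.isCoprime_iff_coprime.mpr hc

/-- the bijection of pairs in `A_i t_j = h t_{j'} A_{i'}`. -/
noncomputable def pairMap (p : OnePoint (ZMod ℓ) × OnePoint (ZMod q)) :
    OnePoint (ZMod ℓ) × OnePoint (ZMod q) :=
  ((sysT N hℓ hℓN).s (t N q x y hxy p.2) p.1,
    (sysT N hq hqN).s ((sysT N hℓ hℓN).c (t N q x y hxy p.2) p.1) OnePoint.infty)

/-- **(E7b)** `A_i t_j = h t_{j'} A_{i'}` with `h ∈ Γ₀(N q)` and `(i', j') = pairMap (i, j)`. -/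
theorem heckeRep_mul_t (p : OnePoint (ZMod ℓ) × OnePoint (ZMod q)) :
    ∃ h : Gamma0 (N * q),
      heckeRep ℓ p.1 * mapGL ℝ (t N q x y hxy p.2 : SL(2, ℤ))
        = mapGL ℝ (h : SL(2, ℤ))
            * mapGL ℝ (t N q x y hxy (pairMap N q hq hqN x y hxy ℓ hℓ hℓN p).2 : SL(2, ℤ))
            * heckeRep ℓ (pairMap N q hq hqN x y hxy ℓ hℓ hℓN p).1 := by
  have h1 : heckeRep ℓ p.1 * mapGL ℝ (t N q x y hxy p.2 : SL(2, ℤ))
      = mapGL ℝ ((sysT N hℓ hℓN).c (t N q x y hxy p.2) p.1 : SL(2, ℤ))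
          * heckeRep ℓ ((sysT N hℓ hℓN).s (t N q x y hxy p.2) p.1) :=
    (sysT N hℓ hℓN).rel (t N q x y hxy p.2) p.1
  obtain ⟨c, hc, -⟩ := t_mul N q hq hqN x y hxy
    ((sysT N hℓ hℓN).c (t N q x y hxy p.2) p.1) OnePoint.infty
  rw [t_infty] at hc
  simp only [OneMemClass.coe_one, one_mul] at hc
  refine ⟨c, ?_⟩
  rw [h1, hc, map_mul]
  rfl

include hℓq in
theorem pairMap_injective : Function.Injective (pairMap N q hq hqN x y hxy ℓ hℓ hℓN) := by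
  intro p₁ p₂ hp
  obtain ⟨h₁, e₁⟩ := heckeRep_mul_t N q hq hqN x y hxy ℓ hℓ hℓN p₁
  obtain ⟨h₂, e₂⟩ := heckeRep_mul_t N q hq hqN x y hxy ℓ hℓ hℓN p₂
  rw [hp] at e₁
  set T' := mapGL ℝ (t N q x y hxy (pairMap N q hq hqN x y hxy ℓ hℓ hℓN p₂).2 : SL(2, ℤ))
  set A' := heckeRep ℓ (pairMap N q hq hqN x y hxy ℓ hℓ hℓN p₂).1
  -- A₁ (t₁ t₂⁻¹) = (h₁ h₂⁻¹) A₂
  have e3 : T' * A' = (mapGL ℝ (h₂ : SL(2, ℤ)))⁻¹
      * (heckeRep ℓ p₂.1 * mapGL ℝ (t N q x y hxy p₂.2 : SL(2, ℤ))) := by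
    rw [e₂]; group
  have key : heckeRep ℓ p₁.1
        * mapGL ℝ ((t N q x y hxy p₁.2 : SL(2, ℤ)) * (t N q x y hxy p₂.2 : SL(2, ℤ))⁻¹)
      = mapGL ℝ ((h₁ : SL(2, ℤ)) * (h₂ : SL(2, ℤ))⁻¹) * heckeRep ℓ p₂.1 := by
    rw [map_mul, ← mul_assoc, e₁, mul_assoc (mapGL ℝ (h₁ : SL(2, ℤ))), e3]
    simp only [map_mul, map_inv]
    group
  obtain ⟨-, -, r3, -⟩ := S22_Hecke.entries_of_rel ((sysT N hℓ hℓN).hA p₁.1)
    ((sysT N hℓ hℓN).hA p₂.1) key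
  -- `q ∣ (t₁ t₂⁻¹) 1 0`
  set γ : SL(2, ℤ) := (t N q x y hxy p₁.2 : SL(2, ℤ)) * (t N q x y hxy p₂.2 : SL(2, ℤ))⁻¹
    with hγ
  have hg' : ((h₁ : SL(2, ℤ)) * (h₂ : SL(2, ℤ))⁻¹) ∈ Gamma0 (N * q) :=
    mul_mem h₁.2 (inv_mem h₂.2)
  have hq1 : (q : ℤ) ∣ (((sysT N hℓ hℓN).d p₁.1 : ℕ) : ℤ) * γ 1 0 := by
    rw [r3]
    exact Dvd.dvd.mul_right (dvd_of_mem_mul N q hg') _
  have hq2 : (q : ℤ) ∣ γ 1 0 :=
    (isCoprime_q_d N q hq ℓ hℓ hℓN hℓq p₁.1).dvd_of_dvd_mul_left hq1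
  have hγN : γ ∈ Gamma0 N := mul_mem (t N q x y hxy p₁.2).2 (inv_mem (t N q x y hxy p₂.2).2)
  have hγM : γ ∈ Gamma0 (N * q) := mem_mul_of_dvd N q hq hqN hγN hq2
  have hj : p₁.2 = p₂.2 := by
    refine t_inj N q hq hqN x y hxy p₁.2 p₂.2 ⟨γ, hγM⟩ ?_
    show _ = γ * _
    rw [hγ, inv_mul_cancel_right]
  have hi : p₁.1 = p₂.1 := by
    refine (sysT N hℓ hℓN).uniq p₁.1 p₂.1 ((h₁ : SL(2, ℤ)) * (h₂ : SL(2, ℤ))⁻¹) ?_
    have : γ = 1 := by rw [hγ, hj, mul_inv_cancel]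
    rw [this, map_one, mul_one] at key
    exact key
  exact Prod.ext hi hj

include hℓq in
theorem pairMap_bijective : Function.Bijective (pairMap N q hq hqN x y hxy ℓ hℓ hℓN) := by
  haveI : NeZero ℓ := ⟨hℓ.ne_zero⟩
  haveI : NeZero q := ⟨hq.ne_zero⟩
  exact (pairMap_injective N q hq hqN x y hxy ℓ hℓ hℓN hℓq).bijective_of_finite

theorem wGL_coe (hq0 : q ≠ 0) :
    ((wGL N q x y hxy : GL (Fin 2) ℝ) : Matrix (Fin 2) (Fin 2) ℝ)
      = !![(q : ℝ) * x, (y : ℝ); (N : ℝ) * q, (q : ℝ)] := by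
  ext i j
  fin_cases i <;> fin_cases j <;>
    simp [wGL, hq0, Matrix.mul_apply, Fin.sum_univ_two, g0] <;> ring

include hxy in
theorem isCoprime_q_y : IsCoprime (q : ℤ) y := ⟨x, -N, by linear_combination hxy⟩

/-- `g₀⁻¹` as an element of `Γ₀(N)`. -/
def g0inv : Gamma0 N := ⟨(g0 N q x y hxy)⁻¹, inv_mem (g0_mem N q x y hxy)⟩

/-- the permutation of `ℙ¹(𝔽_ℓ)` in `w A_i = h_i A_{τ i} w`. -/
noncomputable def tauW (i : OnePoint (ZMod ℓ)) : OnePoint (ZMod ℓ) :=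
  (sysT N hℓ hℓN).s (g0inv N q x y hxy) (sigD q ℓ i)

include hq hℓq in
theorem tauW_bijective : Function.Bijective (tauW N q x y hxy ℓ hℓ hℓN) :=
  ((sysT N hℓ hℓN).sPerm (g0inv N q x y hxy)).bijective.comp (sigD_bijective q hq ℓ hℓ hℓq)

include hq hqN hℓq in
/-- **(E7c)** `w A_i = h_i A_{τ i} w` with `h_i ∈ Γ₀(N q)`. -/
theorem wGL_mul_heckeRep (i : OnePoint (ZMod ℓ)) :
    ∃ h : Gamma0 (N * q),
      wGL N q x y hxy * heckeRep ℓ i
        = mapGL ℝ (h : SL(2, ℤ)) * heckeRep ℓ (tauW N q x y hxy ℓ hℓ hℓN i)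
            * wGL N q x y hxy := by
  set HN := sysT N hℓ hℓN with hHN
  set i' := tauW N q x y hxy ℓ hℓ hℓN i with hi'
  have r1 := diag_mul_heckeRep N q hq ℓ hℓ i
  have r2 : heckeRep ℓ (sigD q ℓ i) * mapGL ℝ ((g0inv N q x y hxy : Gamma0 N) : SL(2, ℤ))
      = mapGL ℝ (HN.c (g0inv N q x y hxy) (sigD q ℓ i) : SL(2, ℤ)) * heckeRep ℓ i' :=
    HN.rel (g0inv N q x y hxy) (sigD q ℓ i)
  set cN := HN.c (g0inv N q x y hxy) (sigD q ℓ i) with hcN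
  set h0 : Gamma0 N := ⟨g0 N q x y hxy, g0_mem N q x y hxy⟩ * hD N q ℓ i * cN with hh0
  have r2' : heckeRep ℓ (sigD q ℓ i)
      = mapGL ℝ (cN : SL(2, ℤ)) * heckeRep ℓ i' * mapGL ℝ (g0 N q x y hxy) := by
    have : mapGL ℝ ((g0inv N q x y hxy : Gamma0 N) : SL(2, ℤ))
        = (mapGL ℝ (g0 N q x y hxy))⁻¹ := by
      rw [← map_inv]; rfl
    rw [this] at r2
    rw [← r2]; group
  have key : wGL N q x y hxy * heckeRep ℓ i
      = mapGL ℝ (h0 : SL(2, ℤ)) * heckeRep ℓ i' * wGL N q x y hxy := by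
    rw [hh0]
    simp only [Subgroup.coe_mul, map_mul]
    rw [wGL, mul_assoc, r1, r2']
    group
  -- the lower right entry
  have e11 := congrArg (fun M : GL (Fin 2) ℝ => (M : Matrix (Fin 2) (Fin 2) ℝ) 1 1) key
  have hAi : ((heckeRep ℓ i : GL (Fin 2) ℝ) : Matrix (Fin 2) (Fin 2) ℝ)
      = !![(HN.a i : ℝ), (HN.b i : ℝ); 0, (HN.d i : ℝ)] := HN.hA i
  have hAi' : ((heckeRep ℓ i' : GL (Fin 2) ℝ) : Matrix (Fin 2) (Fin 2) ℝ)
      = !![(HN.a i' : ℝ), (HN.b i' : ℝ); 0, (HN.d i' : ℝ)] := HN.hA i'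
  simp only [Matrix.GeneralLinearGroup.coe_mul, wGL_coe N q x y hxy hq.ne_zero, hAi, hAi',
    Matrix.mul_apply, Fin.sum_univ_two] at e11
  simp at e11
  have e11' : (N : ℤ) * q * (HN.b i : ℤ) + q * (HN.d i : ℤ)
      = (h0 : SL(2, ℤ)) 1 0 * (HN.a i' : ℤ) * y
        + ((h0 : SL(2, ℤ)) 1 0 * (HN.b i' : ℤ) + (h0 : SL(2, ℤ)) 1 1 * (HN.d i' : ℤ)) * q := by
    exact_mod_cast e11
  have hq1 : (q : ℤ) ∣ (h0 : SL(2, ℤ)) 1 0 * ((HN.a i' : ℤ) * y) := by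
    refine ⟨N * (HN.b i : ℤ) + (HN.d i : ℤ)
      - ((h0 : SL(2, ℤ)) 1 0 * (HN.b i' : ℤ) + (h0 : SL(2, ℤ)) 1 1 * (HN.d i' : ℤ)), ?_⟩
    linear_combination -e11'
  have hq2 : (q : ℤ) ∣ (h0 : SL(2, ℤ)) 1 0 :=
    (IsCoprime.mul_right (isCoprime_q_a N q hq ℓ hℓ hℓN hℓq i')
      (isCoprime_q_y N q x y hxy)).dvd_of_dvd_mul_right hq1
  exact ⟨⟨h0, mem_mul_of_dvd N q hq hqN h0.2 hq2⟩, key⟩

end Comm

/-- `Γ₀(N q) ≤ Γ₀(N)`. -/
theorem Gamma0_mul_le (N q : ℕ) : Gamma0 (N * q) ≤ Gamma0 N := by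
  intro g hg
  rw [mem_Gamma0_iff] at hg ⊢
  exact (Dvd.intro (q : ℤ) (by push_cast; ring)).trans hg

end Fermat.Agent.S41_Mat
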