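import Mathlib
import Fermat.Agent.S16_Hecke
import Fermat.Agent.S41_LR
import Fermat.Agent.S41_Mat

/-!
# S41_Defs (helper8): the degeneracy operators between levels `N` and `N q`, concretely

`q` a prime not dividing `N`.  For every abelian group `B`:

* `iotaH N q : Γ₀(Nq) →* Γ₀(N)` (inclusion), `delta N q hq : Γ₀(Nq) →* Γ₀(N)`
  (`(a b; c d) ↦ (a, q b; c / q, d)`), `conjW : Γ₀(Nq) →* Γ₀(Nq)` (conjugation by the
  Atkin–Lehner matrix `w = g₀ diag(q,1)`, `conjW γ = g₀ (delta γ) g₀⁻¹`, `g₀ ∈ Γ₀(N)`);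
* `r1 x = x ∘ iotaH`, `r2 x = x ∘ delta`, `Wop z = z ∘ conjW`;
* `c1` = transfer along the inclusion (explicit coset system, representatives `t i`),
  `c2 = c1 ∘ Wop`.
-/

set_option autoImplicit false

open CongruenceSubgroup ModularCurve.Period
open scoped MatrixGroups

namespace Fermat.Agent.S41_Defs

open Matrix.SpecialLinearGroup (mapGL)
open Fermat.Agent.S41_Sys Fermat.Agent.S16_Hecke Fermat.Agent.S41_Ops Fermat.Agent.S41_LR

theorem exists_bezout {N q : ℕ} (hq : q.Prime) (hqN : ¬ q ∣ N) :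
    ∃ p : ℤ × ℤ, (q : ℤ) * p.1 - N * p.2 = 1 := by
  have h : IsCoprime (q : ℤ) (N : ℤ) := by
    rw [Int.isCoprime_iff_gcd_eq_one, Int.gcd_natCast_natCast]
    exact (Nat.Prime.coprime_iff_not_dvd hq).mpr hqN
  obtain ⟨a, b, hab⟩ := h
  exact ⟨(a, -b), by simp only; linear_combination hab⟩

/-- Bézout coefficients `q x - N y = 1`. -/
noncomputable def bx {N q : ℕ} (hq : q.Prime) (hqN : ¬ q ∣ N) : ℤ := (exists_bezout hq hqN).choose.1

noncomputable def bY {N q : ℕ} (hq : q.Prime) (hqN : ¬ q ∣ N) : ℤ := (exists_bezout hq hqN).choose.2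

theorem bxy {N q : ℕ} (hq : q.Prime) (hqN : ¬ q ∣ N) :
    (q : ℤ) * bx hq hqN - N * bY hq hqN = 1 := (exists_bezout hq hqN).choose_spec

section data

variable (N q : ℕ) [NeZero N] [NeZero q] (hq : q.Prime) (hqN : ¬ q ∣ N)

theorem scalar_central (u : GL (Fin 2) ℝ) :
    (ModularForm.heckeMatrix q 0 * ModularForm.heckeDiagMatrix q) * u
      = u * (ModularForm.heckeMatrix q 0 * ModularForm.heckeDiagMatrix q) := by
  have hq0 : q ≠ 0 := NeZero.ne q
  apply S41_Mat.gl_ext <;>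
    simp [hq0, Matrix.mul_apply, Fin.sum_univ_two] <;> ring

/-- the matrix package for `(N, q)`. -/
noncomputable def data : LRData N q hq hqN where
  x := bx hq hqN
  y := bY hq hqN
  hxy := bxy hq hqN
  g0 := ⟨S41_Mat.g0 N q _ _ (bxy hq hqN), S41_Mat.g0_mem N q _ _ (bxy hq hqN)⟩
  t := S41_Mat.t N q _ _ (bxy hq hqN)
  conjD := S41_Mat.conjD N q hq.ne_zero
  conjW := S41_Mat.conjW N q hq.ne_zero _ _ (bxy hq hqN)
  d := ModularForm.heckeDiagMatrix q
  w := S41_Mat.wGL N q _ _ (bxy hq hqN)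
  hd := ModularForm.val_heckeDiagMatrix hq.ne_zero
  hw := by
    have hq0 : q ≠ 0 := hq.ne_zero
    ext i j
    fin_cases i <;> fin_cases j <;>
      simp [S41_Mat.wGL, S41_Mat.g0, hq0, Matrix.mul_apply, Fin.sum_univ_two] <;> ring
  hwd := rfl
  hconjD := fun g => S41_Mat.diag_mul' N q hq.ne_zero g
  hconjW := fun g => S41_Mat.wGL_mul N q hq.ne_zero _ _ (bxy hq hqN) g
  hconjW2 := by
    refine ⟨⟨S41_Mat.gam0 N q _ _ (bxy hq hqN), S41_Mat.gam0_mem N q _ _ (bxy hq hqN)⟩,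
      fun g => ?_⟩
    apply Subtype.ext
    have h := S41_Mat.conjW_conjW N q hq.ne_zero _ _ (bxy hq hqN) g
    simp only [Subgroup.coe_mul, Subgroup.coe_inv]
    rw [← h, mul_inv_cancel_right]
  t_surj := by
    intro c
    obtain ⟨c', h1, -⟩ := S41_Mat.t_mul N q hq hqN _ _ (bxy hq hqN) c OnePoint.infty
    refine ⟨(sysT N hq hqN).s c OnePoint.infty, c', Subtype.ext ?_⟩
    rw [S41_Mat.t_infty] at h1
    show (c : SL(2, ℤ)) = (c' : SL(2, ℤ))
      * (S41_Mat.t N q _ _ (bxy hq hqN) ((sysT N hq hqN).s c OnePoint.infty) : SL(2, ℤ))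
    simpa using h1
  t_uniq := fun j j' h e =>
    S41_Mat.t_inj N q hq hqN _ _ (bxy hq hqN) j j' h (congrArg Subtype.val e)
  t_rep := fun i =>
    ⟨S41_Mat.gfun N q _ _ (bxy hq hqN) i, S41_Mat.diag_mul_t N q hq.ne_zero _ _ (bxy hq hqN) i⟩
  t_inf := rfl
  t_coe := by
    refine ⟨ModularForm.heckeMatrix q 0 * ModularForm.heckeDiagMatrix q, scalar_central q, ?_⟩
    intro j
    have h1 := S41_Mat.wq_mul_heckeMatrix' N q hq.ne_zero _ _ (bxy hq hqN) j
    show mapGL ℝ (S41_Mat.t N q _ _ (bxy hq hqN) (j : OnePoint (ZMod q)) : SL(2, ℤ))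
        * (ModularForm.heckeMatrix q 0 * ModularForm.heckeDiagMatrix q)
      = S41_Mat.wGL N q _ _ (bxy hq hqN) * ModularForm.heckeMatrix q j.val
    rw [← h1, mul_assoc, ← scalar_central q, S41_Mat.wq, S41_Mat.wGL]
    simp only [mul_assoc, inv_mul_cancel_left]

end data

/-! ### The concrete operators -/

section ops

variable (N q : ℕ) [NeZero N] [NeZero q] (hq : q.Prime) (hqN : ¬ q ∣ N)

/-- the inclusion `Γ₀(Nq) →* Γ₀(N)`. -/
def iotaH : Gamma0 (N * q) →* Gamma0 N := incl N q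

/-- `delta (a b; c d) = (a, q b; c / q, d)`: conjugation by `diag(q, 1)`. -/
noncomputable def delta : Gamma0 (N * q) →* Gamma0 N := S41_Mat.conjD N q hq.ne_zero

/-- conjugation by the Atkin–Lehner matrix `w = g₀ diag(q,1)` on `Γ₀(Nq)`. -/
noncomputable def conjW : Gamma0 (N * q) →* Gamma0 (N * q) := (data N q hq hqN).conjW

/-- the element `g₀ = [[x, y], [N, q]] ∈ Γ₀(N)` with `conjW γ = g₀ (delta γ) g₀⁻¹`. -/
noncomputable def g0 : Gamma0 N := (data N q hq hqN).g0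

variable (B : Type*) [AddCommGroup B]

/-- `r1 x = x ∘ iotaH`. -/
def r1 : (Additive (Gamma0 N) →+ B) →+ (Additive (Gamma0 (N * q)) →+ B) := LRData.res1 N q B

/-- `r2 x = x ∘ delta`. -/
noncomputable def r2 : (Additive (Gamma0 N) →+ B) →+ (Additive (Gamma0 (N * q)) →+ B) :=
  (data N q hq hqN).res2 B

/-- `Wop z = z ∘ conjW`. -/
noncomputable def Wop : (Additive (Gamma0 (N * q)) →+ B) →+ (Additive (Gamma0 (N * q)) →+ B) :=
  (data N q hq hqN).Wop B

/-- the transfer along the inclusion. -/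
noncomputable def c1 : (Additive (Gamma0 (N * q)) →+ B) →+ (Additive (Gamma0 N) →+ B) :=
  (data N q hq hqN).cores1 B

/-- the transfer along `delta`, defined as `c1 ∘ Wop`. -/
noncomputable def c2 : (Additive (Gamma0 (N * q)) →+ B) →+ (Additive (Gamma0 N) →+ B) :=
  (c1 N q hq hqN B).comp (Wop N q hq hqN B)

variable {B}

omit [NeZero N] [NeZero q] in
theorem iotaH_coe (γ : Gamma0 (N * q)) : (iotaH N q γ : SL(2, ℤ)) = γ := rfl

omit [NeZero N] [NeZero q] in
theorem delta_00 (γ : Gamma0 (N * q)) :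
    (delta N q hq γ : SL(2, ℤ)) 0 0 = (γ : SL(2, ℤ)) 0 0 := rfl

omit [NeZero N] [NeZero q] in
theorem delta_01 (γ : Gamma0 (N * q)) :
    (delta N q hq γ : SL(2, ℤ)) 0 1 = q * (γ : SL(2, ℤ)) 0 1 := rfl

omit [NeZero N] [NeZero q] in
theorem delta_10 (γ : Gamma0 (N * q)) :
    (q : ℤ) * (delta N q hq γ : SL(2, ℤ)) 1 0 = (γ : SL(2, ℤ)) 1 0 :=
  Int.mul_ediv_cancel' (S41_Mat.dvd_of_mem_mul N q γ.2)

omit [NeZero N] [NeZero q] in
theorem delta_11 (γ : Gamma0 (N * q)) :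
    (delta N q hq γ : SL(2, ℤ)) 1 1 = (γ : SL(2, ℤ)) 1 1 := rfl

theorem conjW_eq (γ : Gamma0 (N * q)) :
    iotaH N q (conjW N q hq hqN γ) = g0 N q hq hqN * delta N q hq γ * (g0 N q hq hqN)⁻¹ :=
  (data N q hq hqN).incl_conjW γ

omit [NeZero N] [NeZero q] in
theorem r1_apply (x : Additive (Gamma0 N) →+ B) (γ : Gamma0 (N * q)) :
    r1 N q B x (Additive.ofMul γ) = x (Additive.ofMul (iotaH N q γ)) := rfl

theorem r2_apply (x : Additive (Gamma0 N) →+ B) (γ : Gamma0 (N * q)) :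
    r2 N q hq hqN B x (Additive.ofMul γ) = x (Additive.ofMul (delta N q hq γ)) := rfl

theorem Wop_apply (z : Additive (Gamma0 (N * q)) →+ B) (γ : Gamma0 (N * q)) :
    Wop N q hq hqN B z (Additive.ofMul γ) = z (Additive.ofMul (conjW N q hq hqN γ)) := rfl

theorem c2_apply (z : Additive (Gamma0 (N * q)) →+ B) :
    c2 N q hq hqN B z = c1 N q hq hqN B (Wop N q hq hqN B z) := rfl

/-! ### naturality in the coefficient group -/

omit [NeZero N] [NeZero q] in
theorem r1_comp {C : Type*} [AddCommGroup C] (g : B →+ C) (x : Additive (Gamma0 N) →+ B) :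
    r1 N q C (g.comp x) = g.comp (r1 N q B x) := rfl

theorem r2_comp {C : Type*} [AddCommGroup C] (g : B →+ C) (x : Additive (Gamma0 N) →+ B) :
    r2 N q hq hqN C (g.comp x) = g.comp (r2 N q hq hqN B x) := rfl

theorem Wop_comp {C : Type*} [AddCommGroup C] (g : B →+ C)
    (z : Additive (Gamma0 (N * q)) →+ B) :
    Wop N q hq hqN C (g.comp z) = g.comp (Wop N q hq hqN B z) := rfl

theorem c1_comp {C : Type*} [AddCommGroup C] (g : B →+ C)
    (z : Additive (Gamma0 (N * q)) →+ B) :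
    c1 N q hq hqN C (g.comp z) = g.comp (c1 N q hq hqN B z) :=
  (data N q hq hqN).coresSys.op_comp_hom g z

theorem c2_comp {C : Type*} [AddCommGroup C] (g : B →+ C)
    (z : Additive (Gamma0 (N * q)) →+ B) :
    c2 N q hq hqN C (g.comp z) = g.comp (c2 N q hq hqN B z) := by
  rw [c2_apply, c2_apply, Wop_comp, c1_comp]

/-! ### TR1, TR2, TR3, TR5 -/

/-- **TR1a** -/
theorem c1_r1 (x : Additive (Gamma0 N) →+ B) :
    c1 N q hq hqN B (r1 N q B x) = (q + 1) • x := (data N q hq hqN).cores1_res1 x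

/-- **TR2a** `c1 ∘ r2 = T_q`. -/
theorem c1_r2 (x : Additive (Gamma0 N) →+ B) :
    c1 N q hq hqN B (r2 N q hq hqN B x) = (sysT N hq hqN).op B x :=
  (data N q hq hqN).cores1_res2 x

/-- **TR3** -/
theorem Wop_r1 (x : Additive (Gamma0 N) →+ B) :
    Wop N q hq hqN B (r1 N q B x) = r2 N q hq hqN B x := (data N q hq hqN).Wop_res1 x

theorem Wop_r2 (x : Additive (Gamma0 N) →+ B) :
    Wop N q hq hqN B (r2 N q hq hqN B x) = r1 N q B x := (data N q hq hqN).Wop_res2 x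

theorem Wop_Wop (z : Additive (Gamma0 (N * q)) →+ B) :
    Wop N q hq hqN B (Wop N q hq hqN B z) = z := (data N q hq hqN).Wop_Wop z

theorem c1_Wop (z : Additive (Gamma0 (N * q)) →+ B) :
    c1 N q hq hqN B (Wop N q hq hqN B z) = c2 N q hq hqN B z := rfl

theorem c2_Wop (z : Additive (Gamma0 (N * q)) →+ B) :
    c2 N q hq hqN B (Wop N q hq hqN B z) = c1 N q hq hqN B z := by
  rw [c2_apply, Wop_Wop]

/-- **TR1b** -/
theorem c2_r2 (x : Additive (Gamma0 N) →+ B) :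
    c2 N q hq hqN B (r2 N q hq hqN B x) = (q + 1) • x := by
  rw [c2_apply, Wop_r2, c1_r1]

/-- **TR2b** `c2 ∘ r1 = T_q`. -/
theorem c2_r1 (x : Additive (Gamma0 N) →+ B) :
    c2 N q hq hqN B (r1 N q B x) = (sysT N hq hqN).op B x := by
  rw [c2_apply, Wop_r1, c1_r2]

/-- **TR5** `r1 ∘ c1 = 1 + U_q ∘ Wop`. -/
theorem r1_c1 (z : Additive (Gamma0 (N * q)) →+ B) :
    r1 N q B (c1 N q hq hqN B z)
      = z + (sysU (N * q) (Dvd.intro_left N rfl)).op B (Wop N q hq hqN B z) :=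
  (data N q hq hqN).res1_cores1 z

end ops

end Fermat.Agent.S41_Defs
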