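import Mathlib
import Fermat.Agent.S16_Hecke
import Fermat.Agent.S41_Defs

/-!
# S41_TR (helper8): TR4, `U_q = -W` on the new part, parabolicity

* `U_r2`  : `U_q (r2 x) = q • r1 x`;
* `r1_T`  : `r1 (T_q x) = r2 x + U_q (r1 x)`  (TR4);
* `U_eq_neg_Wop`, `U_U_eq` : on `ker c1 ∩ ker c2`, `U_q = - Wop` and `U_q ∘ U_q = 1`;
* `r1`, `r2`, `Wop` preserve parabolic homomorphisms (any `B`), `c1`, `c2` and all Hecke-system
  operators preserve them for torsion-free `B`.
-/

set_option autoImplicit false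

open CongruenceSubgroup ModularCurve.Period
open scoped MatrixGroups

namespace Fermat.Agent.S41_TR

open Matrix.SpecialLinearGroup (mapGL)
open Fermat.Agent.S41_Sys Fermat.Agent.S16_Hecke Fermat.Agent.S41_Ops Fermat.Agent.S41_LR
open Fermat.Agent.S41_Defs

/-- `[[1, m], [0, 1]]` as an element of `Γ₀(n)`. -/
def TjN (n : ℕ) (m : ℤ) : Gamma0 n :=
  ⟨S41_Mat.Tj m, by rw [S41_Mat.mem_Gamma0_iff]; exact dvd_zero _⟩

/-- the scalar matrix `q`. -/
noncomputable def zq (q : ℕ) : GL (Fin 2) ℝ :=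
  ModularForm.heckeMatrix q 0 * ModularForm.heckeDiagMatrix q

theorem zq_central (q : ℕ) [NeZero q] (u : GL (Fin 2) ℝ) : zq q * u = u * zq q :=
  scalar_central q u

theorem diag_mul_heckeMatrix (q : ℕ) (hq0 : q ≠ 0) (j : ℕ) :
    ModularForm.heckeDiagMatrix q * ModularForm.heckeMatrix q j
      = zq q * mapGL ℝ (S41_Mat.Tj (j : ℤ)) := by
  apply S41_Mat.gl_ext <;>
    simp [zq, hq0, Matrix.mul_apply, Fin.sum_univ_two, S41_Mat.Tj]

section

variable (N q : ℕ) [NeZero N] [NeZero q] (hq : q.Prime) (hqN : ¬ q ∣ N)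
variable {B : Type*} [AddCommGroup B]

/-- **TR4a** `U_q (r2 x) = q • r1 x`. -/
theorem U_r2 (x : Additive (Gamma0 N) →+ B) :
    (sysU (N * q) (Dvd.intro_left N rfl)).op B (r2 N q hq hqN B x) = q • r1 N q B x := by
  set H := sysU (N * q) (Dvd.intro_left N rfl : q ∣ N * q) with hH
  refine AddMonoidHom.ext fun γ' => ?_
  have e : γ' = Additive.ofMul (Additive.toMul γ') := rfl
  set γ := Additive.toMul γ'
  rw [e, HeckeSys.op_apply, AddMonoidHom.nsmul_apply, r1_apply]
  have key : ∀ j : ZMod q, TjN N (j.val : ℤ) * iotaH N q γ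
      = delta N q hq (H.c γ j) * TjN N ((H.s γ j).val : ℤ) := by
    intro j
    apply iota_injective N
    apply mul_left_cancel (a := zq q)
    have h1 : H.A j * mapGL ℝ (γ : SL(2, ℤ))
        = mapGL ℝ (H.c γ j : SL(2, ℤ)) * H.A (H.s γ j) := H.rel γ j
    have h2 : ModularForm.heckeDiagMatrix q * mapGL ℝ (H.c γ j : SL(2, ℤ))
        = mapGL ℝ (delta N q hq (H.c γ j) : SL(2, ℤ)) * ModularForm.heckeDiagMatrix q :=
      S41_Mat.diag_mul' N q hq.ne_zero (H.c γ j)
    calc zq q * iota N (TjN N (j.val : ℤ) * iotaH N q γ)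
        = (zq q * mapGL ℝ (S41_Mat.Tj (j.val : ℤ))) * mapGL ℝ (γ : SL(2, ℤ)) := by
          rw [map_mul, ← mul_assoc]; rfl
      _ = ModularForm.heckeDiagMatrix q * (H.A j * mapGL ℝ (γ : SL(2, ℤ))) := by
          rw [← diag_mul_heckeMatrix q hq.ne_zero, mul_assoc]; rfl
      _ = mapGL ℝ (delta N q hq (H.c γ j) : SL(2, ℤ))
            * (ModularForm.heckeDiagMatrix q * ModularForm.heckeMatrix q (H.s γ j).val) := by
          rw [h1, ← mul_assoc, h2, mul_assoc]; rfl
      _ = zq q * iota N (delta N q hq (H.c γ j) * TjN N ((H.s γ j).val : ℤ)) := by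
          rw [diag_mul_heckeMatrix q hq.ne_zero, ← mul_assoc, ← zq_central, mul_assoc, map_mul]
          rfl
  have key2 : ∀ j : ZMod q, r2 N q hq hqN B x (Additive.ofMul (H.c γ j))
      = x (Additive.ofMul (iotaH N q γ))
        + (x (Additive.ofMul (TjN N (j.val : ℤ)))
          - x (Additive.ofMul (TjN N ((H.s γ j).val : ℤ)))) := by
    intro j
    have h3 : delta N q hq (H.c γ j)
        = TjN N (j.val : ℤ) * iotaH N q γ * (TjN N ((H.s γ j).val : ℤ))⁻¹ := by
      rw [key j, mul_inv_cancel_right]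
    rw [r2_apply, h3, ofMul_mul, ofMul_mul, map_add, map_add, ofMul_inv, map_neg]
    abel
  have hsum : ∑ j : ZMod q, x (Additive.ofMul (TjN N ((H.s γ j).val : ℤ)))
      = ∑ j : ZMod q, x (Additive.ofMul (TjN N (j.val : ℤ))) :=
    Equiv.sum_comp (H.sPerm γ) (fun j : ZMod q => x (Additive.ofMul (TjN N (j.val : ℤ))))
  rw [Finset.sum_congr rfl fun j _ => key2 j, Finset.sum_add_distrib, Finset.sum_sub_distrib,
    hsum, sub_self, add_zero, Finset.sum_const, Finset.card_univ, ZMod.card]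

/-- **TR4b** `r1 (T_q x) = r2 x + U_q (r1 x)`. -/
theorem r1_T (x : Additive (Gamma0 N) →+ B) :
    r1 N q B ((sysT N hq hqN).op B x)
      = r2 N q hq hqN B x + (sysU (N * q) (Dvd.intro_left N rfl)).op B (r1 N q B x) := by
  set H := sysU (N * q) (Dvd.intro_left N rfl : q ∣ N * q) with hH
  refine AddMonoidHom.ext fun γ' => ?_
  have e : γ' = Additive.ofMul (Additive.toMul γ') := rfl
  set γ := Additive.toMul γ'
  rw [e, r1_apply, ← ofHecke_op]
  rw [(ofHecke (sysT N hq hqN)).op_apply_of x (iotaH N q γ) (Equiv.optionCongr (H.sPerm γ))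
    (fun i => i.elim (delta N q hq γ) (fun j => iotaH N q (H.c γ j))) (fun i => by
      induction i using OnePoint.rec with
      | infty => exact S41_Mat.diag_mul' N q hq.ne_zero γ
      | coe j => exact H.rel γ j)]
  rw [AddMonoidHom.add_apply, HeckeSys.op_apply, r2_apply]
  exact Fintype.sum_option _

/-- **TR4** in the lead's form. -/
theorem U_r1 (x : Additive (Gamma0 N) →+ B) :
    (sysU (N * q) (Dvd.intro_left N rfl)).op B (r1 N q B x)
      = r1 N q B ((sysT N hq hqN).op B x) - r2 N q hq hqN B x := by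
  rw [r1_T N q hq hqN x, add_sub_cancel_left]

/-- on `ker c1 ∩ ker c2`: `U_q = - Wop`. -/
theorem U_eq_neg_Wop (z : Additive (Gamma0 (N * q)) →+ B)
    (_h1 : c1 N q hq hqN B z = 0) (h2 : c2 N q hq hqN B z = 0) :
    (sysU (N * q) (Dvd.intro_left N rfl)).op B z = - Wop N q hq hqN B z := by
  have h := r1_c1 N q hq hqN (Wop N q hq hqN B z)
  rw [c1_Wop, h2, map_zero, Wop_Wop] at h
  exact (neg_eq_of_add_eq_zero_right h.symm).symm

/-- on `ker c1 ∩ ker c2`: `U_q ∘ Wop = -1`. -/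
theorem U_Wop_eq_neg (z : Additive (Gamma0 (N * q)) →+ B)
    (h1 : c1 N q hq hqN B z = 0) :
    (sysU (N * q) (Dvd.intro_left N rfl)).op B (Wop N q hq hqN B z) = - z := by
  have h := r1_c1 N q hq hqN z
  rw [h1, map_zero] at h
  exact (neg_eq_of_add_eq_zero_right h.symm).symm

/-- on `ker c1 ∩ ker c2`: `U_q ∘ U_q = 1`. -/
theorem U_U_eq (z : Additive (Gamma0 (N * q)) →+ B)
    (h1 : c1 N q hq hqN B z = 0) (h2 : c2 N q hq hqN B z = 0) :
    (sysU (N * q) (Dvd.intro_left N rfl)).op B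
      ((sysU (N * q) (Dvd.intro_left N rfl)).op B z) = z := by
  rw [U_eq_neg_Wop N q hq hqN z h1 h2, map_neg, U_Wop_eq_neg N q hq hqN z h1, neg_neg]

end

/-! ### parabolicity -/

/-- pull-backs along conjugations preserve parabolic homomorphisms (any coefficients). -/
theorem pull_isParabolic {N₁ N₂ : ℕ} (a : GL (Fin 2) ℝ) (f : Gamma0 N₂ →* Gamma0 N₁)
    (h : ∀ γ, a * iota N₂ γ = iota N₁ (f γ) * a) {B : Type*} [AddCommGroup B]
    (φ : Additive (Gamma0 N₁) →+ B) (hφ : IsParabolicHom (Gamma0 N₁) φ) :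
    IsParabolicHom (Gamma0 N₂) (pull f B φ) := by
  intro γ hγ
  rw [pull_apply]
  apply hφ
  rw [← trace_eq_of_conj a (γ : SL(2, ℤ)) (f γ : SL(2, ℤ)) (h γ)]
  exact hγ

/-- `ℤ` (and every torsion-free group) satisfies the hypothesis of `op_isParabolic`. -/
theorem int_torsionFree (n : ℕ) (b : ℤ) (hn : 0 < n) (h : n • b = 0) : b = 0 := by
  rcases smul_eq_zero.mp h with h | h
  · omega
  · exact h

/-- every Hecke-system operator preserves parabolic homomorphisms (torsion-free `B`). -/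
theorem heckeSys_isParabolic {N : ℕ} {I : Type} [Fintype I] (H : HeckeSys N I)
    {B : Type*} [AddCommGroup B] (hB : ∀ (n : ℕ) (b : B), 0 < n → n • b = 0 → b = 0)
    (φ : Additive (Gamma0 N) →+ B) (hφ : IsParabolicHom (Gamma0 N) φ) :
    IsParabolicHom (Gamma0 N) (H.op B φ) := by
  rw [← ofHecke_op]
  exact op_isParabolic (ofHecke H) hB φ hφ

section

variable (N q : ℕ) [NeZero N] [NeZero q] (hq : q.Prime) (hqN : ¬ q ∣ N)
variable {B : Type*} [AddCommGroup B]

omit [NeZero N] [NeZero q] in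
theorem r1_isParabolic (x : Additive (Gamma0 N) →+ B) (hx : IsParabolicHom (Gamma0 N) x) :
    IsParabolicHom (Gamma0 (N * q)) (r1 N q B x) :=
  pull_isParabolic 1 (incl N q) (fun γ => by rw [one_mul, mul_one, iota_incl]) x hx

theorem r2_isParabolic (x : Additive (Gamma0 N) →+ B) (hx : IsParabolicHom (Gamma0 N) x) :
    IsParabolicHom (Gamma0 (N * q)) (r2 N q hq hqN B x) :=
  pull_isParabolic _ _ (data N q hq hqN).hconjD x hx

theorem Wop_isParabolic (z : Additive (Gamma0 (N * q)) →+ B)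
    (hz : IsParabolicHom (Gamma0 (N * q)) z) :
    IsParabolicHom (Gamma0 (N * q)) (Wop N q hq hqN B z) :=
  pull_isParabolic _ _ (data N q hq hqN).hconjW z hz

theorem c1_isParabolic (hB : ∀ (n : ℕ) (b : B), 0 < n → n • b = 0 → b = 0)
    (z : Additive (Gamma0 (N * q)) →+ B) (hz : IsParabolicHom (Gamma0 (N * q)) z) :
    IsParabolicHom (Gamma0 N) (c1 N q hq hqN B z) :=
  op_isParabolic (data N q hq hqN).coresSys hB z hz

theorem c2_isParabolic (hB : ∀ (n : ℕ) (b : B), 0 < n → n • b = 0 → b = 0)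
    (z : Additive (Gamma0 (N * q)) →+ B) (hz : IsParabolicHom (Gamma0 (N * q)) z) :
    IsParabolicHom (Gamma0 N) (c2 N q hq hqN B z) :=
  c1_isParabolic N q hq hqN hB _ (Wop_isParabolic N q hq hqN z hz)

end

end Fermat.Agent.S41_TR
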