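import Mathlib
import Fermat.Agent.S16_Hecke
import Fermat.Agent.S41_Defs
import Fermat.Agent.S41_TR

/-!
# S41_TR6 (helper8): `T_ℓ` (`ℓ ∤ N q`) commutes with `r1`, `r2`, `c1`, `Wop`, `c2`

Matrix input: helper9's `S41_Mat` (E7a `diag_mul_heckeRep`, E7c `wGL_mul_heckeRep`).
-/

set_option autoImplicit false

open CongruenceSubgroup ModularCurve.Period
open scoped MatrixGroups

namespace Fermat.Agent.S41_TR6

open Matrix.SpecialLinearGroup (mapGL)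
open P2MW.S_ModularForm_heckeT_slash_eq_self_of_mem_Gamma0.ModularForm.HeckeSlashInvariance
open Fermat.Agent.S41_Sys Fermat.Agent.S16_Hecke Fermat.Agent.S41_Ops Fermat.Agent.S41_LR
open Fermat.Agent.S41_Defs Fermat.Agent.S41_TR

section

variable (N q : ℕ) [NeZero N] [NeZero q] (hq : q.Prime) (hqN : ¬ q ∣ N)
variable (ℓ : ℕ) [NeZero ℓ] (hℓ : ℓ.Prime) (hℓN : ¬ ℓ ∣ N) (hℓM : ¬ ℓ ∣ N * q)
variable {B : Type*} [AddCommGroup B]

omit [NeZero N] [NeZero q] in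
/-- **TR6** `T_ℓ ∘ r1 = r1 ∘ T_ℓ`. -/
theorem T_r1 (x : Additive (Gamma0 N) →+ B) :
    (sysT (N * q) hℓ hℓM).op B (r1 N q B x) = r1 N q B ((sysT N hℓ hℓN).op B x) := by
  set H' := sysT (N * q) hℓ hℓM with hH'
  refine AddMonoidHom.ext fun γ' => ?_
  have e : γ' = Additive.ofMul (Additive.toMul γ') := rfl
  set γ := Additive.toMul γ'
  rw [e, HeckeSys.op_apply, r1_apply, ← ofHecke_op]
  rw [(ofHecke (sysT N hℓ hℓN)).op_apply_of x (iotaH N q γ) (H'.sPerm γ)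
    (fun i => iotaH N q (H'.c γ i)) (fun i => H'.rel γ i)]
  rfl

omit [NeZero N] [NeZero q] [NeZero ℓ] in
include hℓM in
theorem ne_of_not_dvd_mul : ℓ ≠ q := by
  rintro rfl
  exact hℓM (Dvd.intro_left N rfl)

/-- **TR6** `T_ℓ ∘ r2 = r2 ∘ T_ℓ`. -/
theorem T_r2 (x : Additive (Gamma0 N) →+ B) :
    (sysT (N * q) hℓ hℓM).op B (r2 N q hq hqN B x) = r2 N q hq hqN B ((sysT N hℓ hℓN).op B x) := by
  have hℓq : ℓ ≠ q := ne_of_not_dvd_mul N q ℓ hℓM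
  set D := data N q hq hqN with hD
  have h1 := Sys.op_congr ((ofHecke (sysT N hℓ hℓN)).comp D.res2Sys)
    (D.res2Sys.comp (ofHecke (sysT (N * q) hℓ hℓM)))
    ((Equiv.prodComm _ _).trans (Equiv.prodCongr (Equiv.refl Unit)
      (Equiv.ofBijective _ (S41_Mat.sigD_bijective q hq ℓ hℓ hℓq))))
    (fun x => S41_Mat.hD N q ℓ x.1)
    (fun x => (S41_Mat.diag_mul_heckeRep N q hq ℓ hℓ x.1).trans (mul_assoc _ _ _)) x
  rw [Sys.op_comp, Sys.op_comp, ofHecke_op, ofHecke_op, D.res2Sys_op, D.res2Sys_op] at h1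
  exact h1

/-- **TR6** `T_ℓ ∘ c1 = c1 ∘ T_ℓ`. -/
theorem T_c1 (z : Additive (Gamma0 (N * q)) →+ B) :
    (sysT N hℓ hℓN).op B (c1 N q hq hqN B z) = c1 N q hq hqN B ((sysT (N * q) hℓ hℓM).op B z) := by
  have hℓq : ℓ ≠ q := ne_of_not_dvd_mul N q ℓ hℓM
  set D := data N q hq hqN with hD
  set H := sysT N hℓ hℓN with hH
  have key := S41_Comm.comm_cores (incl N q) (fun _ => rfl) D.coresSys D.t (fun _ => rfl)
    D.t_uniq D.t_surj (ofHecke H) (ofHecke (sysT (N * q) hℓ hℓM)) (fun _ => rfl)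
    (fun i i' g h => H.uniq i i' (g : SL(2, ℤ)) h)
    (fun i i' γ h hrel => by
      obtain ⟨-, -, e3, -⟩ := S22_Hecke.entries_of_rel (γ := (γ : SL(2, ℤ)))
        (g' := (h : SL(2, ℤ))) (H.hA i) (H.hA i') hrel
      have e3' : (H.d i : ℤ) * (γ : SL(2, ℤ)) 1 0 = (h : SL(2, ℤ)) 1 0 * (H.a i' : ℤ) := e3
      have hq1 : (q : ℤ) ∣ (H.d i : ℤ) * (γ : SL(2, ℤ)) 1 0 := by
        rw [e3']
        exact Dvd.dvd.mul_right (S41_Mat.dvd_of_mem_mul N q h.2) _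
      have hq2 : (q : ℤ) ∣ (γ : SL(2, ℤ)) 1 0 :=
        (S41_Mat.isCoprime_q_d N q hq ℓ hℓ hℓN hℓq i).dvd_of_dvd_mul_left hq1
      exact ⟨⟨(γ : SL(2, ℤ)), S41_Mat.mem_mul_of_dvd N q hq hqN γ.2 hq2⟩, rfl⟩) z
  rw [ofHecke_op, ofHecke_op] at key
  exact key

include hℓN in
/-- **TR6** `T_ℓ ∘ W = W ∘ T_ℓ`. -/
theorem T_Wop (z : Additive (Gamma0 (N * q)) →+ B) :
    (sysT (N * q) hℓ hℓM).op B (Wop N q hq hqN B z)
      = Wop N q hq hqN B ((sysT (N * q) hℓ hℓM).op B z) := by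
  have hℓq : ℓ ≠ q := ne_of_not_dvd_mul N q ℓ hℓM
  set D := data N q hq hqN with hD
  set H' := sysT (N * q) hℓ hℓM with hH'
  choose h hh using S41_Mat.wGL_mul_heckeRep N q hq hqN (bx hq hqN) (bY hq hqN) (bxy hq hqN)
    ℓ hℓ hℓN hℓq
  have h1 := Sys.op_congr ((ofHecke H').comp D.WSys) (D.WSys.comp (ofHecke H'))
    ((Equiv.prodComm _ _).trans (Equiv.prodCongr (Equiv.refl Unit)
      (Equiv.ofBijective _ (S41_Mat.tauW_bijective N q hq (bx hq hqN) (bY hq hqN) (bxy hq hqN)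
        ℓ hℓ hℓN hℓq))))
    (fun x => h x.1)
    (fun x => (hh x.1).trans (mul_assoc _ _ _)) z
  rw [Sys.op_comp, Sys.op_comp, ofHecke_op, ofHecke_op, D.WSys_op, D.WSys_op] at h1
  exact h1

/-- **TR6** `T_ℓ ∘ c2 = c2 ∘ T_ℓ`. -/
theorem T_c2 (z : Additive (Gamma0 (N * q)) →+ B) :
    (sysT N hℓ hℓN).op B (c2 N q hq hqN B z) = c2 N q hq hqN B ((sysT (N * q) hℓ hℓM).op B z) := by
  rw [c2_apply, c2_apply, T_c1 N q hq hqN ℓ hℓ hℓN hℓM, T_Wop N q hq hqN ℓ hℓ hℓN hℓM]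

end

end Fermat.Agent.S41_TR6
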