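import Mathlib
import Fermat.Agent.S16_Hecke
import Fermat.Agent.S41_Defs

/-!
# S41, blocks TR4 and TR6 (`U`-part) (helper9)

Relations between the operators `U_q`, `U_ℓ` (`ℓ ∣ N`) at level `N q` and the two degeneracy maps
`r1`, `r2 : Hom(Γ₀(N), B) → Hom(Γ₀(N q), B)`:

* `TR4a`: `U_q^{Nq} (r2 x) = q • r1 x`;
* `TR4b`: `U_q^{Nq} (r1 x) = r1 (T_q^N x) - r2 x`;
* `U_r1`, `U_r2`: `U_ℓ^{Nq} (r_i x) = r_i (U_ℓ^N x)` for primes `ℓ ∣ N`.
-/

set_option autoImplicit false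

open CongruenceSubgroup ModularCurve.Period
open scoped MatrixGroups

namespace Fermat.Agent.S41_TRU

open Matrix.SpecialLinearGroup (mapGL)
open P2MW.S_ModularForm_heckeT_slash_eq_self_of_mem_Gamma0.ModularForm.HeckeSlashInvariance
open Fermat.Agent.S16_Hecke Fermat.Agent.S41_Defs Fermat.Agent.S41_LR

variable (N q : ℕ) [NeZero N] [NeZero q] (hq : q.Prime) (hqN : ¬ q ∣ N)
variable {B : Type*} [AddCommGroup B]

/-- the unipotent `[[1, j], [0, 1]] ∈ Γ₀(N)`. -/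
def tau (m : ℤ) : Gamma0 N := ⟨S41_Mat.Tj m, S41_Mat.Tj_mem N m⟩

omit [NeZero N] [NeZero q] in
theorem mapGL_iotaH (γ : Gamma0 (N * q)) :
    mapGL ℝ ((iotaH N q γ : Gamma0 N) : SL(2, ℤ)) = mapGL ℝ (γ : SL(2, ℤ)) := rfl

/-- in the `U_q`-system of level `N q`: `δ(c(γ, j)) = T^j γ T^{-s j}`. -/
theorem delta_c (γ : Gamma0 (N * q)) (j : ZMod q) :
    delta N q hq ((sysU (N * q) (Dvd.intro_left N rfl)).c γ j)
      = tau N (j.val : ℤ) * iotaH N q γ
          * (tau N (((sysU (N * q) (Dvd.intro_left N rfl)).s γ j).val : ℤ))⁻¹ := by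
  set HM := sysU (N * q) (Dvd.intro_left N rfl) with hHM
  obtain ⟨e1, e2, e3, e4⟩ := HM.entries γ j
  have ha : ∀ i, HM.a i = 1 := fun _ => rfl
  have hb : ∀ i, HM.b i = i.val := fun _ => rfl
  have hd : ∀ i, HM.d i = q := fun _ => rfl
  simp only [ha, hb, hd, Nat.cast_one, one_mul, mul_one] at e1 e2 e3 e4
  have hq0 : (q : ℤ) ≠ 0 := by exact_mod_cast hq.ne_zero
  set c := HM.c γ j with hc
  set j' := HM.s γ j with hj'
  have d10 := delta_10 N q hq c
  apply Subtype.ext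
  apply S41_Mat.sl_ext
  · rw [delta_00]
    simp only [Subgroup.coe_mul, Subgroup.coe_inv, S41_Mat.mul_00, S41_Mat.mul_01,
      S41_Mat.mul_10, S41_Mat.mul_11, S41_Mat.inv_00, S41_Mat.inv_10, tau, S41_Mat.Tj,
      S41_Mat.mk2_00, S41_Mat.mk2_01, S41_Mat.mk2_10, S41_Mat.mk2_11, iotaH_coe]
    linear_combination -e1
  · rw [delta_01]
    simp only [Subgroup.coe_mul, Subgroup.coe_inv, S41_Mat.mul_00, S41_Mat.mul_01,
      S41_Mat.mul_10, S41_Mat.mul_11, S41_Mat.inv_01, S41_Mat.inv_11, tau, S41_Mat.Tj,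
      S41_Mat.mk2_00, S41_Mat.mk2_01, S41_Mat.mk2_10, S41_Mat.mk2_11, iotaH_coe]
    linear_combination -e2 + (j'.val : ℤ) * e1
  · apply mul_left_cancel₀ hq0
    rw [d10]
    simp only [Subgroup.coe_mul, Subgroup.coe_inv, S41_Mat.mul_00, S41_Mat.mul_01,
      S41_Mat.mul_10, S41_Mat.mul_11, S41_Mat.inv_00, S41_Mat.inv_10, tau, S41_Mat.Tj,
      S41_Mat.mk2_00, S41_Mat.mk2_01, S41_Mat.mk2_10, S41_Mat.mk2_11, iotaH_coe]
    linear_combination -e3
  · rw [delta_11]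
    apply mul_left_cancel₀ hq0
    simp only [Subgroup.coe_mul, Subgroup.coe_inv, S41_Mat.mul_00, S41_Mat.mul_01,
      S41_Mat.mul_10, S41_Mat.mul_11, S41_Mat.inv_01, S41_Mat.inv_11, tau, S41_Mat.Tj,
      S41_Mat.mk2_00, S41_Mat.mk2_01, S41_Mat.mk2_10, S41_Mat.mk2_11, iotaH_coe]
    linear_combination -e4 + (j'.val : ℤ) * e3

/-- **TR4a** `U_q^{Nq} (r2 x) = q • r1 x`. -/
theorem U_r2 (x : Additive (Gamma0 N) →+ B) :
    (sysU (N * q) (Dvd.intro_left N rfl)).op B (r2 N q hq hqN B x) = q • r1 N q B x := by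
  refine AddMonoidHom.ext fun γ' => ?_
  have e : γ' = Additive.ofMul (Additive.toMul γ') := rfl
  set γ := Additive.toMul γ' with hγ
  rw [e, HeckeSys.op_apply, AddMonoidHom.nsmul_apply, r1_apply]
  set HM := sysU (N * q) (Dvd.intro_left N rfl) with hHM
  have h1 : ∀ j : ZMod q, r2 N q hq hqN B x (Additive.ofMul (HM.c γ j))
      = x (Additive.ofMul (tau N (j.val : ℤ))) + x (Additive.ofMul (iotaH N q γ))
        - x (Additive.ofMul (tau N ((HM.s γ j).val : ℤ))) := by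
    intro j
    rw [r2_apply, delta_c N q hq γ j]
    simp only [ofMul_mul, ofMul_inv, map_add, map_neg]
    abel
  rw [Finset.sum_congr rfl fun j _ => h1 j, Finset.sum_sub_distrib, Finset.sum_add_distrib]
  have h2 : ∑ j : ZMod q, x (Additive.ofMul (tau N ((HM.s γ j).val : ℤ)))
      = ∑ j : ZMod q, x (Additive.ofMul (tau N (j.val : ℤ))) :=
    Equiv.sum_comp (HM.sPerm γ) (fun j => x (Additive.ofMul (tau N (j.val : ℤ))))
  rw [h2, add_sub_cancel_left, Finset.sum_const, Finset.card_univ, ZMod.card]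

omit [NeZero N] [NeZero q] in
theorem sysT_A_infty : (sysT N hq hqN).A OnePoint.infty = ModularForm.heckeDiagMatrix q := rfl

omit [NeZero N] [NeZero q] in
theorem sysT_A_coe (j : ZMod q) :
    (sysT N hq hqN).A (j : OnePoint (ZMod q)) = ModularForm.heckeMatrix q j.val := rfl

theorem sysU_A {M : ℕ} [NeZero M] {ℓ : ℕ} (h : ℓ ∣ M) (j : ZMod ℓ) :
    (sysU M h).A j = ModularForm.heckeMatrix ℓ j.val := rfl

omit [NeZero N] [NeZero q] in
theorem sysT_c_infty (γ : Gamma0 (N * q)) :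
    (sysT N hq hqN).c (iotaH N q γ) OnePoint.infty = delta N q hq γ := by
  refine ((sysT N hq hqN).eq_of_rel (i := OnePoint.infty) (j := OnePoint.infty) ?_).2
  rw [sysT_A_infty, mapGL_iotaH]
  exact S41_Mat.diag_mul' N q hq.ne_zero γ

theorem sysT_c_coe (γ : Gamma0 (N * q)) (j : ZMod q) :
    (sysT N hq hqN).c (iotaH N q γ) (j : OnePoint (ZMod q))
      = iotaH N q ((sysU (N * q) (Dvd.intro_left N rfl)).c γ j) := by
  refine ((sysT N hq hqN).eq_of_rel (i := (j : OnePoint (ZMod q)))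
    (j := (((sysU (N * q) (Dvd.intro_left N rfl)).s γ j : ZMod q) : OnePoint (ZMod q))) ?_).2
  rw [sysT_A_coe, sysT_A_coe, mapGL_iotaH, mapGL_iotaH]
  have h := (sysU (N * q) (Dvd.intro_left N rfl)).rel γ j
  rw [sysU_A, sysU_A] at h
  exact h

/-- **TR4b** `U_q^{Nq} (r1 x) = r1 (T_q^N x) - r2 x`. -/
theorem U_r1 (x : Additive (Gamma0 N) →+ B) :
    (sysU (N * q) (Dvd.intro_left N rfl)).op B (r1 N q B x)
      = r1 N q B ((sysT N hq hqN).op B x) - r2 N q hq hqN B x := by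
  refine AddMonoidHom.ext fun γ' => ?_
  have e : γ' = Additive.ofMul (Additive.toMul γ') := rfl
  set γ := Additive.toMul γ' with hγ
  rw [e, HeckeSys.op_apply, AddMonoidHom.sub_apply, r1_apply, r2_apply, HeckeSys.op_apply]
  have hsum : ∑ i : OnePoint (ZMod q),
        x (Additive.ofMul ((sysT N hq hqN).c (iotaH N q γ) i))
      = x (Additive.ofMul ((sysT N hq hqN).c (iotaH N q γ) OnePoint.infty))
        + ∑ j : ZMod q,
            x (Additive.ofMul ((sysT N hq hqN).c (iotaH N q γ) (j : OnePoint (ZMod q)))) :=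
    Fintype.sum_option
      (fun i : OnePoint (ZMod q) => x (Additive.ofMul ((sysT N hq hqN).c (iotaH N q γ) i)))
  rw [hsum, sysT_c_infty, add_sub_cancel_left]
  refine Finset.sum_congr rfl fun j _ => ?_
  rw [sysT_c_coe, r1_apply]

/-! ### `U_ℓ` for `ℓ ∣ N` commutes with the degeneracy maps -/

section UL

variable (ℓ : ℕ) [NeZero ℓ] (hℓN : ℓ ∣ N)

/-- **TR6 (`U`-part, `r1`)** `U_ℓ^{Nq} (r1 x) = r1 (U_ℓ^N x)`. -/
theorem UL_r1 (x : Additive (Gamma0 N) →+ B) :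
    (sysU (N * q) (Dvd.dvd.mul_right hℓN q)).op B (r1 N q B x)
      = r1 N q B ((sysU N hℓN).op B x) := by
  refine AddMonoidHom.ext fun γ' => ?_
  have e : γ' = Additive.ofMul (Additive.toMul γ') := rfl
  set γ := Additive.toMul γ' with hγ
  rw [e, HeckeSys.op_apply, r1_apply, HeckeSys.op_apply]
  refine Finset.sum_congr rfl fun j _ => ?_
  rw [r1_apply]
  congr 2
  refine ((sysU N hℓN).eq_of_rel (i := j)
    (j := (sysU (N * q) (Dvd.dvd.mul_right hℓN q)).s γ j) ?_).2.symm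
  rw [sysU_A, sysU_A, mapGL_iotaH, mapGL_iotaH]
  have h := (sysU (N * q) (Dvd.dvd.mul_right hℓN q)).rel γ j
  rw [sysU_A, sysU_A] at h
  exact h

variable (hℓ : ℓ.Prime)

include hq hℓ hℓN hqN in
theorem q_ne_zero_mod : (q : ZMod ℓ) ≠ 0 := by
  intro h0
  rw [ZMod.natCast_eq_zero_iff] at h0
  have : ℓ = q := (Nat.prime_dvd_prime_iff_eq hℓ hq).mp h0
  exact hqN (this ▸ hℓN)

/-- the exponents in `d u_j = T^{m_j} u_{q j} d`. -/
def mexp (j : ZMod ℓ) : ℤ := (((q * j.val) / ℓ : ℕ) : ℤ)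

include hq in
omit [NeZero N] [NeZero q] in
theorem diag_mul_U (j : ZMod ℓ) :
    ModularForm.heckeDiagMatrix q * ModularForm.heckeMatrix ℓ j.val
      = mapGL ℝ ((tau N (mexp q ℓ j) : Gamma0 N) : SL(2, ℤ))
          * ModularForm.heckeMatrix ℓ ((q : ZMod ℓ) * j).val * ModularForm.heckeDiagMatrix q := by
  apply S41_Mat.diag_mul_heckeMatrix q ℓ hq.ne_zero (NeZero.ne ℓ)
  have h1 : ((q : ZMod ℓ) * j).val = (q * j.val) % ℓ := by
    rw [ZMod.val_mul, ZMod.val_natCast, Nat.mod_mul_mod]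
  rw [h1, mexp]
  have h2 := Nat.div_add_mod (q * j.val) ℓ
  have h3 := congrArg (Nat.cast : ℕ → ℤ) h2
  push_cast at h3 ⊢
  linear_combination -h3

/-- in the `U_ℓ`-systems: `c^N(δ γ, q j) = T^{-m_j} δ(c^{Nq}(γ, j)) T^{m_{s j}}`. -/
theorem UL_c (γ : Gamma0 (N * q)) (j : ZMod ℓ) :
    (sysU N hℓN).c (delta N q hq γ) ((q : ZMod ℓ) * j)
      = (tau N (mexp q ℓ j))⁻¹
          * delta N q hq ((sysU (N * q) (Dvd.dvd.mul_right hℓN q)).c γ j)
          * tau N (mexp q ℓ ((sysU (N * q) (Dvd.dvd.mul_right hℓN q)).s γ j)) := by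
  set HM := sysU (N * q) (Dvd.dvd.mul_right hℓN q) with hHM
  set sj := HM.s γ j with hsj
  refine ((sysU N hℓN).eq_of_rel (i := (q : ZMod ℓ) * j) (j := (q : ZMod ℓ) * sj) ?_).2
  rw [sysU_A, sysU_A]
  have h1 := diag_mul_U N q hq ℓ j
  have h1' := diag_mul_U N q hq ℓ sj
  have h2 : ModularForm.heckeMatrix ℓ j.val * mapGL ℝ (γ : SL(2, ℤ))
      = mapGL ℝ (HM.c γ j : SL(2, ℤ)) * ModularForm.heckeMatrix ℓ sj.val := HM.rel γ j
  have h3 := S41_Mat.diag_mul' N q hq.ne_zero γ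
  have h3' := S41_Mat.diag_mul' N q hq.ne_zero (HM.c γ j)
  set D := ModularForm.heckeDiagMatrix q
  set Δ := mapGL ℝ ((delta N q hq γ : Gamma0 N) : SL(2, ℤ)) with hΔ
  set ΔC := mapGL ℝ ((delta N q hq (HM.c γ j) : Gamma0 N) : SL(2, ℤ)) with hΔC
  set Tm := mapGL ℝ ((tau N (mexp q ℓ j) : Gamma0 N) : SL(2, ℤ)) with hTm
  set Tm' := mapGL ℝ ((tau N (mexp q ℓ sj) : Gamma0 N) : SL(2, ℤ)) with hTm'
  have key : Tm * ModularForm.heckeMatrix ℓ ((q : ZMod ℓ) * j).val * Δ * D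
      = ΔC * Tm' * ModularForm.heckeMatrix ℓ ((q : ZMod ℓ) * sj).val * D := by
    calc Tm * ModularForm.heckeMatrix ℓ ((q : ZMod ℓ) * j).val * Δ * D
        = Tm * ModularForm.heckeMatrix ℓ ((q : ZMod ℓ) * j).val * (Δ * D) := by
          rw [mul_assoc]
      _ = Tm * ModularForm.heckeMatrix ℓ ((q : ZMod ℓ) * j).val
            * (D * mapGL ℝ (γ : SL(2, ℤ))) := by rw [h3]; rfl
      _ = (Tm * ModularForm.heckeMatrix ℓ ((q : ZMod ℓ) * j).val * D)
            * mapGL ℝ (γ : SL(2, ℤ)) := by rw [mul_assoc, mul_assoc, mul_assoc]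
      _ = (D * ModularForm.heckeMatrix ℓ j.val) * mapGL ℝ (γ : SL(2, ℤ)) := by rw [h1]
      _ = D * (mapGL ℝ (HM.c γ j : SL(2, ℤ)) * ModularForm.heckeMatrix ℓ sj.val) := by
          rw [mul_assoc, h2]
      _ = (D * mapGL ℝ (HM.c γ j : SL(2, ℤ))) * ModularForm.heckeMatrix ℓ sj.val := by
          rw [mul_assoc]
      _ = (ΔC * D) * ModularForm.heckeMatrix ℓ sj.val := by rw [h3']; rfl
      _ = ΔC * (D * ModularForm.heckeMatrix ℓ sj.val) := by rw [mul_assoc]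
      _ = ΔC * (Tm' * ModularForm.heckeMatrix ℓ ((q : ZMod ℓ) * sj).val * D) := by rw [h1']
      _ = ΔC * Tm' * ModularForm.heckeMatrix ℓ ((q : ZMod ℓ) * sj).val * D := by
          rw [mul_assoc, mul_assoc, mul_assoc]
  have key2 := mul_right_cancel key
  simp only [Subgroup.coe_mul, Subgroup.coe_inv, map_mul, map_inv]
  rw [← hTm, ← hΔC, ← hTm', mul_assoc, mul_assoc, ← mul_assoc ΔC, ← key2]
  group

include hℓ hqN in
/-- **TR6 (`U`-part, `r2`)** `U_ℓ^{Nq} (r2 x) = r2 (U_ℓ^N x)` for a prime `ℓ ∣ N`. -/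
theorem UL_r2 (x : Additive (Gamma0 N) →+ B) :
    (sysU (N * q) (Dvd.dvd.mul_right hℓN q)).op B (r2 N q hq hqN B x)
      = r2 N q hq hqN B ((sysU N hℓN).op B x) := by
  haveI : Fact ℓ.Prime := ⟨hℓ⟩
  refine AddMonoidHom.ext fun γ' => ?_
  have e : γ' = Additive.ofMul (Additive.toMul γ') := rfl
  set γ := Additive.toMul γ' with hγ
  rw [e, HeckeSys.op_apply, r2_apply, HeckeSys.op_apply]
  set HM := sysU (N * q) (Dvd.dvd.mul_right hℓN q) with hHM
  have hq' : (q : ZMod ℓ) ≠ 0 := q_ne_zero_mod N q hq hqN ℓ hℓN hℓ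
  -- reindex the right-hand side by `j ↦ q j`
  have hre : ∑ i : ZMod ℓ, x (Additive.ofMul ((sysU N hℓN).c (delta N q hq γ) i))
      = ∑ j : ZMod ℓ,
          x (Additive.ofMul ((sysU N hℓN).c (delta N q hq γ) ((q : ZMod ℓ) * j))) :=
    (Equiv.sum_comp (Equiv.mulLeft₀ (q : ZMod ℓ) hq')
      (fun i => x (Additive.ofMul ((sysU N hℓN).c (delta N q hq γ) i)))).symm
  rw [hre]
  have h1 : ∀ j : ZMod ℓ,
      x (Additive.ofMul ((sysU N hℓN).c (delta N q hq γ) ((q : ZMod ℓ) * j)))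
        = r2 N q hq hqN B x (Additive.ofMul (HM.c γ j))
          + (x (Additive.ofMul (tau N (mexp q ℓ (HM.s γ j))))
            - x (Additive.ofMul (tau N (mexp q ℓ j)))) := by
    intro j
    rw [UL_c N q hq ℓ hℓN γ j, r2_apply]
    simp only [ofMul_mul, ofMul_inv, map_add, map_neg]
    abel
  rw [Finset.sum_congr rfl fun j _ => h1 j, Finset.sum_add_distrib, Finset.sum_sub_distrib]
  have h2 : ∑ j : ZMod ℓ, x (Additive.ofMul (tau N (mexp q ℓ (HM.s γ j))))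
      = ∑ j : ZMod ℓ, x (Additive.ofMul (tau N (mexp q ℓ j))) :=
    Equiv.sum_comp (HM.sPerm γ) (fun j => x (Additive.ofMul (tau N (mexp q ℓ j))))
  rw [h2, sub_self, add_zero]

end UL

end Fermat.Agent.S41_TRU
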