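import Mathlib
import Fermat.Agent.S16_LB
import Fermat.Agent.S41_TR
import Fermat.Agent.S41_TR6
import Fermat.Agent.S41_TRU

/-!
# S41_TRH (helper8): the degeneracy calculus `N ↔ N q` in terms of `S16_LB.homOp`

Consumer interface for the END block of S41.  `q` prime, `q ∤ N`, `B` any abelian group,
`r1 r2 : Hom(Γ₀(N), B) → Hom(Γ₀(Nq), B)`, `c1 c2 : Hom(Γ₀(Nq), B) → Hom(Γ₀(N), B)`,
`Wop` on `Hom(Γ₀(Nq), B)` (all from `S41_Defs`), `homOp n B ℓ` the Hecke operator at the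
prime `ℓ` (`T_ℓ` if `ℓ ∤ n`, `U_ℓ` if `ℓ ∣ n`).
-/

set_option autoImplicit false

open CongruenceSubgroup ModularCurve.Period
open scoped MatrixGroups

namespace Fermat.Agent.S41_TRH

open Fermat.Agent.S16_Hecke Fermat.Agent.S16_LB Fermat.Agent.S41_LR Fermat.Agent.S41_Defs

section general

variable {B : Type*} [AddCommGroup B]

theorem homOp_of_dvd (n : ℕ) [NeZero n] (ℓ : Nat.Primes) (h : (ℓ : ℕ) ∣ n) :
    homOp n B ℓ = (sysU n h).op B := dif_pos h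

theorem homOp_of_not_dvd (n : ℕ) [NeZero n] (ℓ : Nat.Primes) (h : ¬ (ℓ : ℕ) ∣ n) :
    homOp n B ℓ = (sysT n ℓ.2 h).op B := dif_neg h

/-- **TR8** Hecke operators preserve parabolic homomorphisms (torsion-free `B`). -/
theorem homOp_isParabolic (n : ℕ) [NeZero n]
    (hB : ∀ (m : ℕ) (b : B), 0 < m → m • b = 0 → b = 0) (ℓ : Nat.Primes)
    (φ : Additive (Gamma0 n) →+ B) (hφ : IsParabolicHom (Gamma0 n) φ) :
    IsParabolicHom (Gamma0 n) (homOp n B ℓ φ) := by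
  by_cases h : (ℓ : ℕ) ∣ n
  · rw [homOp_of_dvd n ℓ h]
    exact S41_TR.heckeSys_isParabolic _ hB φ hφ
  · rw [homOp_of_not_dvd n ℓ h]
    exact S41_TR.heckeSys_isParabolic _ hB φ hφ

theorem complex_torsionFree (n : ℕ) (b : ℂ) (hn : 0 < n) (h : n • b = 0) : b = 0 := by
  rcases smul_eq_zero.mp h with h | h
  · exact absurd (Nat.cast_eq_zero.mp h) (by omega)
  · exact h

end general

section

variable (N q : ℕ) [NeZero N] [NeZero q] (hq : q.Prime) (hqN : ¬ q ∣ N)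
variable {B : Type*} [AddCommGroup B]

omit [NeZero N] [NeZero q] in
include hq in
theorem not_dvd_mul (ℓ : Nat.Primes) (hℓq : (ℓ : ℕ) ≠ q) (h : ¬ (ℓ : ℕ) ∣ N) :
    ¬ (ℓ : ℕ) ∣ N * q := fun hd =>
  (ℓ.2.dvd_mul.mp hd).elim h fun h2 => hℓq ((Nat.prime_dvd_prime_iff_eq ℓ.2 hq).mp h2)

include hq in
/-- **TR6/TR7** every Hecke operator at a prime `ℓ ≠ q` commutes with `r1`. -/
theorem homOp_r1 (ℓ : Nat.Primes) (hℓq : (ℓ : ℕ) ≠ q) (x : Additive (Gamma0 N) →+ B) :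
    homOp (N * q) B ℓ (r1 N q B x) = r1 N q B (homOp N B ℓ x) := by
  have : NeZero (ℓ : ℕ) := ⟨ℓ.2.ne_zero⟩
  by_cases h : (ℓ : ℕ) ∣ N
  · rw [homOp_of_dvd (N * q) ℓ (Dvd.dvd.mul_right h q), homOp_of_dvd N ℓ h]
    exact S41_TRU.UL_r1 N q (ℓ : ℕ) h x
  · rw [homOp_of_not_dvd (N * q) ℓ (not_dvd_mul N q hq ℓ hℓq h), homOp_of_not_dvd N ℓ h]
    exact S41_TR6.T_r1 N q (ℓ : ℕ) ℓ.2 h (not_dvd_mul N q hq ℓ hℓq h) x

/-- **TR6/TR7** every Hecke operator at a prime `ℓ ≠ q` commutes with `r2`. -/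
theorem homOp_r2 (ℓ : Nat.Primes) (hℓq : (ℓ : ℕ) ≠ q) (x : Additive (Gamma0 N) →+ B) :
    homOp (N * q) B ℓ (r2 N q hq hqN B x) = r2 N q hq hqN B (homOp N B ℓ x) := by
  have : NeZero (ℓ : ℕ) := ⟨ℓ.2.ne_zero⟩
  by_cases h : (ℓ : ℕ) ∣ N
  · rw [homOp_of_dvd (N * q) ℓ (Dvd.dvd.mul_right h q), homOp_of_dvd N ℓ h]
    exact S41_TRU.UL_r2 N q hq hqN (ℓ : ℕ) h ℓ.2 x
  · rw [homOp_of_not_dvd (N * q) ℓ (not_dvd_mul N q hq ℓ hℓq h), homOp_of_not_dvd N ℓ h]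
    exact S41_TR6.T_r2 N q hq hqN (ℓ : ℕ) ℓ.2 h (not_dvd_mul N q hq ℓ hℓq h) x

omit [NeZero N] [NeZero q] in
theorem not_dvd_left (ℓ : Nat.Primes) (hℓ : ¬ (ℓ : ℕ) ∣ N * q) : ¬ (ℓ : ℕ) ∣ N :=
  fun h => hℓ (Dvd.dvd.mul_right h q)

/-- **TR6** `T_ℓ` (`ℓ ∤ N q`) commutes with `c1`. -/
theorem homOp_c1 (ℓ : Nat.Primes) (hℓ : ¬ (ℓ : ℕ) ∣ N * q)
    (z : Additive (Gamma0 (N * q)) →+ B) :
    homOp N B ℓ (c1 N q hq hqN B z) = c1 N q hq hqN B (homOp (N * q) B ℓ z) := by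
  have : NeZero (ℓ : ℕ) := ⟨ℓ.2.ne_zero⟩
  rw [homOp_of_not_dvd (N * q) ℓ hℓ, homOp_of_not_dvd N ℓ (not_dvd_left N q ℓ hℓ)]
  exact S41_TR6.T_c1 N q hq hqN (ℓ : ℕ) ℓ.2 (not_dvd_left N q ℓ hℓ) hℓ z

/-- **TR6** `T_ℓ` (`ℓ ∤ N q`) commutes with `Wop`. -/
theorem homOp_Wop (ℓ : Nat.Primes) (hℓ : ¬ (ℓ : ℕ) ∣ N * q)
    (z : Additive (Gamma0 (N * q)) →+ B) :
    homOp (N * q) B ℓ (Wop N q hq hqN B z) = Wop N q hq hqN B (homOp (N * q) B ℓ z) := by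
  have : NeZero (ℓ : ℕ) := ⟨ℓ.2.ne_zero⟩
  rw [homOp_of_not_dvd (N * q) ℓ hℓ]
  exact S41_TR6.T_Wop N q hq hqN (ℓ : ℕ) ℓ.2 (not_dvd_left N q ℓ hℓ) hℓ z

/-- **TR6** `T_ℓ` (`ℓ ∤ N q`) commutes with `c2`. -/
theorem homOp_c2 (ℓ : Nat.Primes) (hℓ : ¬ (ℓ : ℕ) ∣ N * q)
    (z : Additive (Gamma0 (N * q)) →+ B) :
    homOp N B ℓ (c2 N q hq hqN B z) = c2 N q hq hqN B (homOp (N * q) B ℓ z) := by
  rw [c2_apply, c2_apply, homOp_c1 N q hq hqN ℓ hℓ, homOp_Wop N q hq hqN ℓ hℓ]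

/-- **TR2a** `c1 ∘ r2 = T_q`. -/
theorem c1_r2 (x : Additive (Gamma0 N) →+ B) :
    c1 N q hq hqN B (r2 N q hq hqN B x) = homOp N B ⟨q, hq⟩ x := by
  rw [homOp_of_not_dvd N ⟨q, hq⟩ hqN]
  exact S41_Defs.c1_r2 N q hq hqN x

/-- **TR2b** `c2 ∘ r1 = T_q`. -/
theorem c2_r1 (x : Additive (Gamma0 N) →+ B) :
    c2 N q hq hqN B (r1 N q B x) = homOp N B ⟨q, hq⟩ x := by
  rw [homOp_of_not_dvd N ⟨q, hq⟩ hqN]
  exact S41_Defs.c2_r1 N q hq hqN x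

/-- **TR4a** `U_q ∘ r2 = q • r1`. -/
theorem homOp_q_r2 (x : Additive (Gamma0 N) →+ B) :
    homOp (N * q) B ⟨q, hq⟩ (r2 N q hq hqN B x) = q • r1 N q B x := by
  rw [homOp_of_dvd (N * q) ⟨q, hq⟩ (Dvd.intro_left N rfl)]
  exact S41_TR.U_r2 N q hq hqN x

/-- **TR4b** `U_q ∘ r1 = r1 ∘ T_q - r2`. -/
theorem homOp_q_r1 (x : Additive (Gamma0 N) →+ B) :
    homOp (N * q) B ⟨q, hq⟩ (r1 N q B x)
      = r1 N q B (homOp N B ⟨q, hq⟩ x) - r2 N q hq hqN B x := by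
  rw [homOp_of_dvd (N * q) ⟨q, hq⟩ (Dvd.intro_left N rfl), homOp_of_not_dvd N ⟨q, hq⟩ hqN]
  exact S41_TR.U_r1 N q hq hqN x

/-- **TR5a** `r1 ∘ c1 = 1 + U_q ∘ Wop`. -/
theorem r1_c1 (z : Additive (Gamma0 (N * q)) →+ B) :
    r1 N q B (c1 N q hq hqN B z) = z + homOp (N * q) B ⟨q, hq⟩ (Wop N q hq hqN B z) := by
  rw [homOp_of_dvd (N * q) ⟨q, hq⟩ (Dvd.intro_left N rfl)]
  exact S41_Defs.r1_c1 N q hq hqN z

/-- **TR5b** `r2 ∘ c2 = 1 + Wop ∘ U_q`. -/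
theorem r2_c2 (z : Additive (Gamma0 (N * q)) →+ B) :
    r2 N q hq hqN B (c2 N q hq hqN B z) = z + Wop N q hq hqN B (homOp (N * q) B ⟨q, hq⟩ z) := by
  have h := r1_c1 N q hq hqN (Wop N q hq hqN B z)
  rw [Wop_Wop, c1_Wop] at h
  have h2 := congrArg (Wop N q hq hqN B) h
  rw [Wop_r1, map_add, Wop_Wop] at h2
  exact h2

/-- on `ker c1 ∩ ker c2`: `U_q = - Wop`. -/
theorem homOp_q_eq_neg_Wop (z : Additive (Gamma0 (N * q)) →+ B)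
    (h1 : c1 N q hq hqN B z = 0) (h2 : c2 N q hq hqN B z = 0) :
    homOp (N * q) B ⟨q, hq⟩ z = - Wop N q hq hqN B z := by
  rw [homOp_of_dvd (N * q) ⟨q, hq⟩ (Dvd.intro_left N rfl)]
  exact S41_TR.U_eq_neg_Wop N q hq hqN z h1 h2

/-- on `ker c1 ∩ ker c2`: `U_q² = 1`. -/
theorem homOp_q_sq (z : Additive (Gamma0 (N * q)) →+ B)
    (h1 : c1 N q hq hqN B z = 0) (h2 : c2 N q hq hqN B z = 0) :
    homOp (N * q) B ⟨q, hq⟩ (homOp (N * q) B ⟨q, hq⟩ z) = z := by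
  rw [homOp_of_dvd (N * q) ⟨q, hq⟩ (Dvd.intro_left N rfl)]
  exact S41_TR.U_U_eq N q hq hqN z h1 h2

/-- explicit formula: `U_q = r1 ∘ c2 - Wop` on all of `Hom(Γ₀(Nq), B)`. -/
theorem homOp_q_eq (z : Additive (Gamma0 (N * q)) →+ B) :
    homOp (N * q) B ⟨q, hq⟩ z = r1 N q B (c2 N q hq hqN B z) - Wop N q hq hqN B z := by
  have h := r2_c2 N q hq hqN z
  have h2 := congrArg (Wop N q hq hqN B) h
  rw [Wop_r2, map_add, Wop_Wop] at h2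
  rw [h2]
  abel

/-- explicit formula: `U_q² = 1` modulo the old part,
`U_q (U_q z) = z + r1 (T_q (c2 z) - c1 z) - r2 (c2 z)`. -/
theorem homOp_q_sq_eq (z : Additive (Gamma0 (N * q)) →+ B) :
    homOp (N * q) B ⟨q, hq⟩ (homOp (N * q) B ⟨q, hq⟩ z)
      = z + r1 N q B (homOp N B ⟨q, hq⟩ (c2 N q hq hqN B z) - c1 N q hq hqN B z)
          - r2 N q hq hqN B (c2 N q hq hqN B z) := by
  have h1 := r1_c1 N q hq hqN z
  have h3 : homOp (N * q) B ⟨q, hq⟩ (Wop N q hq hqN B z)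
      = r1 N q B (c1 N q hq hqN B z) - z := by
    rw [h1]; abel
  rw [homOp_q_eq N q hq hqN z, map_sub, homOp_q_r1 N q hq hqN, h3, map_sub]
  abel

end

end Fermat.Agent.S41_TRH
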