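import Mathlib
import Fermat.Agent.S41_TRH
import Fermat.Agent.S41_Act

/-!
# S41, END block (lead): the operators on the lattices `L n` of integral parabolic classes

Restrictions of helper8's `r1 r2 c1 c2 Wop` and of the Hecke action to the lattices
`S41_Act.L n`, and the old sublattice.
-/

set_option autoImplicit false

open CongruenceSubgroup ModularCurve ModularCurve.Period
open scoped MatrixGroups

namespace Fermat.Agent.S41_W

open Fermat.Agent.S41_Act Fermat.Agent.S41_Defs

/-- restriction to the parabolic lattices of an additive map preserving parabolic classes. -/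
def resOp {n m : ℕ} (F : (Additive (Gamma0 n) →+ ℤ) →+ (Additive (Gamma0 m) →+ ℤ))
    (hF : ∀ x, IsParabolicHom (Gamma0 n) x → IsParabolicHom (Gamma0 m) (F x)) : L n →+ L m where
  toFun x := ⟨F x.1, hF x.1 x.2⟩
  map_zero' := Subtype.ext (map_zero F)
  map_add' x y := Subtype.ext (map_add F x.1 y.1)

theorem resOp_coe {n m : ℕ} (F : (Additive (Gamma0 n) →+ ℤ) →+ (Additive (Gamma0 m) →+ ℤ))
    (hF : ∀ x, IsParabolicHom (Gamma0 n) x → IsParabolicHom (Gamma0 m) (F x)) (x : L n) :
    ((resOp F hF x : L m) : Additive (Gamma0 m) →+ ℤ) = F x := rfl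

variable (N q : ℕ) [NeZero N] [NeZero q] (hq : q.Prime) (hqN : ¬ q ∣ N)

/-- the first degeneracy map. -/
noncomputable def R1 : L N →+ L (N * q) :=
  resOp (r1 N q ℤ) (fun x hx => S41_TR.r1_isParabolic N q x hx)

/-- the second degeneracy map. -/
noncomputable def R2 : L N →+ L (N * q) :=
  resOp (r2 N q hq hqN ℤ) (fun x hx => S41_TR.r2_isParabolic N q hq hqN x hx)

/-- the first transfer. -/
noncomputable def C1 : L (N * q) →+ L N :=
  resOp (c1 N q hq hqN ℤ) (fun z hz => S41_TR.c1_isParabolic N q hq hqN S41_TR.int_torsionFree z hz)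

/-- the second transfer. -/
noncomputable def C2 : L (N * q) →+ L N :=
  resOp (c2 N q hq hqN ℤ) (fun z hz => S41_TR.c2_isParabolic N q hq hqN S41_TR.int_torsionFree z hz)

/-- the Atkin–Lehner involution. -/
noncomputable def WW : L (N * q) →+ L (N * q) :=
  resOp (Wop N q hq hqN ℤ) (fun z hz => S41_TR.Wop_isParabolic N q hq hqN z hz)

theorem R1_coe (x : L N) : ((R1 N q x : L (N * q)) : Additive (Gamma0 (N * q)) →+ ℤ)
    = r1 N q ℤ x := rfl

theorem R2_coe (x : L N) : ((R2 N q hq hqN x : L (N * q)) : Additive (Gamma0 (N * q)) →+ ℤ)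
    = r2 N q hq hqN ℤ x := rfl

theorem C1_coe (z : L (N * q)) : ((C1 N q hq hqN z : L N) : Additive (Gamma0 N) →+ ℤ)
    = c1 N q hq hqN ℤ z := rfl

theorem C2_coe (z : L (N * q)) : ((C2 N q hq hqN z : L N) : Additive (Gamma0 N) →+ ℤ)
    = c2 N q hq hqN ℤ z := rfl

theorem WW_coe (z : L (N * q)) :
    ((WW N q hq hqN z : L (N * q)) : Additive (Gamma0 (N * q)) →+ ℤ) = Wop N q hq hqN ℤ z := rfl

/-- the Hecke action of `t` on `L n`, as an additive map. -/
noncomputable def TT (n : ℕ) [NeZero n] (t : HeckeAlg) : L n →+ L n :=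
  (actZ n t).toAddMonoidHom

theorem TT_apply (n : ℕ) [NeZero n] (t : HeckeAlg) (x : L n) : TT n t x = actZ n t x := rfl

/-- the old sublattice `r1 L_N + r2 L_N`. -/
noncomputable def OLD : AddSubgroup (L (N * q)) :=
  (AddMonoidHom.coprod (R1 N q) (R2 N q hq hqN)).range

theorem mem_OLD (z : L (N * q)) :
    z ∈ OLD N q hq hqN ↔ ∃ x y : L N, z = R1 N q x + R2 N q hq hqN y := by
  unfold OLD
  rw [AddMonoidHom.mem_range]
  constructor
  · rintro ⟨⟨x, y⟩, h⟩
    exact ⟨x, y, by rw [← h, AddMonoidHom.coprod_apply]⟩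
  · rintro ⟨x, y, h⟩
    exact ⟨(x, y), by rw [h, AddMonoidHom.coprod_apply]⟩

end Fermat.Agent.S41_W
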