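import Mathlib
import Fermat.Agent.S41_WDefs
import Fermat.Agent.S41_Mu

/-!
# S41, END block, piece (G4) (helper3): the proper Hecke-stable subgroup `H` of `L N`

From the hypotheses of S41 (an eigenform `f` of level `N` congruent to the curve modulo `𝔪`, with
`a_q(f)² ≡ (q+1)²`) we produce, via `S41_Mu.exists_proper`, a sign `e` and a proper subgroup
`H ⊆ L N` containing `p L N`, `(T_q + e (q+1)) L N` and `(T_l - a_l(W)) L N` for all good primes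
`l ∤ N`, `l ≠ p`.  Also: complex conjugation on `ℤ̄` and maximal ideals.
-/

set_option autoImplicit false

open CongruenceSubgroup ModularCurve ModularCurve.Period

namespace Fermat.Agent.S41_WH

open Fermat.Agent.S16_Hecke Fermat.Agent.S16_LB Fermat.Agent.S41_Act Fermat.Agent.S41_W

/-- the set of Hecke polynomials whose values at the eigenvalue system of `f` lie in `𝔪`. -/
def heckeSet (W : WeierstrassCurve ℤ) (p N : ℕ) (q : Nat.Primes) (e : ℤ) : Set HeckeAlg :=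
  {t | t = MvPolynomial.C (p : ℤ) ∨
    t = MvPolynomial.X q + MvPolynomial.C (e * (((q : ℕ) : ℤ) + 1)) ∨
    ∃ l : Nat.Primes, W.IsGoodPrimeFor l ∧ ¬ (l : ℕ) ∣ N ∧ (l : ℕ) ≠ p ∧
      t = MvPolynomial.X l - MvPolynomial.C (W.apOfModel l)}

/-- the sign: `a_q(f) + e (q+1) ∈ 𝔪` for `e = 1` or `e = -1`; and `e = -1` is only chosen when
`a_q(f) + (q+1) ∉ 𝔪`. -/
theorem exists_sign {N q : ℕ} (f : CuspForm (Gamma0 N) 2) (𝔪 : Ideal (integralClosure ℤ ℂ))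
    (hmax : 𝔪.IsMaximal)
    (hLR : ∃ a : integralClosure ℤ ℂ, (a : ℂ) = ModularFormClass.qCoeff f q ∧
      a ^ 2 - ((q : integralClosure ℤ ℂ) + 1) ^ 2 ∈ 𝔪) :
    ∃ (e : ℤ) (a : integralClosure ℤ ℂ), (e = 1 ∨ e = -1) ∧
      (a : ℂ) = ModularFormClass.qCoeff f q ∧
      a + ((e * ((q : ℤ) + 1) : ℤ) : integralClosure ℤ ℂ) ∈ 𝔪 ∧
      (e = -1 → a + ((q : integralClosure ℤ ℂ) + 1) ∉ 𝔪) := by
  obtain ⟨a, ha, h⟩ := hLR
  by_cases h1 : a + ((q : integralClosure ℤ ℂ) + 1) ∈ 𝔪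
  · refine ⟨1, a, Or.inl rfl, ha, ?_, ?_⟩
    · have : ((((1 : ℤ) * ((q : ℤ) + 1) : ℤ)) : integralClosure ℤ ℂ)
          = (q : integralClosure ℤ ℂ) + 1 := by
        push_cast; ring
      rw [this]
      exact h1
    · intro h2
      exact absurd h2 (by norm_num)
  · refine ⟨-1, a, Or.inr rfl, ha, ?_, fun _ => h1⟩
    have h2 : (a - ((q : integralClosure ℤ ℂ) + 1)) * (a + ((q : integralClosure ℤ ℂ) + 1)) ∈ 𝔪 := by
      have : (a - ((q : integralClosure ℤ ℂ) + 1)) * (a + ((q : integralClosure ℤ ℂ) + 1))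
          = a ^ 2 - ((q : integralClosure ℤ ℂ) + 1) ^ 2 := by ring
      rw [this]
      exact h
    have h3 := (hmax.isPrime.mem_or_mem h2).resolve_right h1
    have : ((((-1 : ℤ) * ((q : ℤ) + 1) : ℤ)) : integralClosure ℤ ℂ)
        = -((q : integralClosure ℤ ℂ) + 1) := by
      push_cast; ring
    rw [this, ← sub_eq_add_neg]
    exact h3

/-- the rich form of (G4): the sign, the subgroup, and `e = -1 → p ∤ q + 1`. -/
theorem exists_H' {W : WeierstrassCurve ℤ} {p N q : ℕ} [NeZero N] (hq : q.Prime)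
    (f : CuspForm (Gamma0 N) 2) (𝔪 : Ideal (integralClosure ℤ ℂ))
    (hf : f.IsNormalizedEigenform) (hmax : 𝔪.IsMaximal) (hpm : (p : integralClosure ℤ ℂ) ∈ 𝔪)
    (hcong : ∀ ℓ : ℕ, ℓ.Prime → W.IsGoodPrimeFor ℓ → ¬ ℓ ∣ N → ℓ ≠ p →
      ∃ a : integralClosure ℤ ℂ, (a : ℂ) = ModularFormClass.qCoeff f ℓ ∧
        a - ((W.apOfModel ℓ : ℤ) : integralClosure ℤ ℂ) ∈ 𝔪)
    (hLR : ∃ a : integralClosure ℤ ℂ, (a : ℂ) = ModularFormClass.qCoeff f q ∧
      a ^ 2 - ((q : integralClosure ℤ ℂ) + 1) ^ 2 ∈ 𝔪) :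
    ∃ (e : ℤ) (H : AddSubgroup (L N)), (e = 1 ∨ e = -1) ∧ (∃ x, x ∉ H) ∧
      (∀ x : L N, (p : ℤ) • x ∈ H) ∧
      (∀ x : L N, TT N (MvPolynomial.X ⟨q, hq⟩) x + (e * ((q : ℤ) + 1)) • x ∈ H) ∧
      (∀ l : Nat.Primes, W.IsGoodPrimeFor l → ¬ (l : ℕ) ∣ N → (l : ℕ) ≠ p →
        ∀ x : L N, TT N (MvPolynomial.X l - MvPolynomial.C (W.apOfModel l)) x ∈ H) ∧
      (∀ t ∈ heckeSet W p N ⟨q, hq⟩ e, ∀ x : L N, actZ N t x ∈ H) ∧
      (e = -1 → ¬ (p : ℤ) ∣ (q : ℤ) + 1) := by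
  obtain ⟨e, a, he, ha, hae, hneg⟩ := exists_sign f 𝔪 hmax hLR
  have hS : ∀ t ∈ heckeSet W p N ⟨q, hq⟩ e, ∃ b ∈ 𝔪, (b : ℂ)
      = MvPolynomial.aeval (fun l : Nat.Primes => ModularFormClass.qCoeff f l) t := by
    rintro t (rfl | rfl | ⟨l, hl1, hl2, hl3, rfl⟩)
    · refine ⟨(p : integralClosure ℤ ℂ), hpm, ?_⟩
      rw [MvPolynomial.aeval_C]
      simp
    · refine ⟨_, hae, ?_⟩
      rw [map_add, MvPolynomial.aeval_X, MvPolynomial.aeval_C]
      push_cast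
      rw [ha]
      simp
    · obtain ⟨b, hb, hb'⟩ := hcong l l.2 hl1 hl2 hl3
      refine ⟨_, hb', ?_⟩
      rw [map_sub, MvPolynomial.aeval_X, MvPolynomial.aeval_C]
      push_cast
      rw [hb]
      simp
  obtain ⟨H, hH, hHS⟩ := S41_Mu.exists_proper N f hf 𝔪 hmax _ hS
  refine ⟨e, H, he, hH, ?_, ?_, ?_, hHS, ?_⟩
  · intro x
    have := hHS _ (Or.inl rfl) x
    rwa [actZ_C] at this
  · intro x
    have := hHS _ (Or.inr (Or.inl rfl)) x
    rwa [map_add, LinearMap.add_apply, actZ_C] at this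
  · intro l hl1 hl2 hl3 x
    exact hHS _ (Or.inr (Or.inr ⟨l, hl1, hl2, hl3, rfl⟩)) x
  · intro he' hdvd
    apply hneg he'
    obtain ⟨c, hc⟩ := hdvd
    have h1 : ((q : integralClosure ℤ ℂ) + 1) ∈ 𝔪 := by
      have : ((q : integralClosure ℤ ℂ) + 1) = (p : integralClosure ℤ ℂ) * (c : integralClosure ℤ ℂ) := by
        have := congrArg (fun z : ℤ => (z : integralClosure ℤ ℂ)) hc
        simpa using this
      rw [this]
      exact Ideal.mul_mem_right _ _ hpm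
    have h2 : a - ((q : integralClosure ℤ ℂ) + 1) ∈ 𝔪 := by
      have : ((e * ((q : ℤ) + 1) : ℤ) : integralClosure ℤ ℂ)
          = -((q : integralClosure ℤ ℂ) + 1) := by
        rw [he']; push_cast; ring
      rw [this, ← sub_eq_add_neg] at hae
      exact hae
    have : a + ((q : integralClosure ℤ ℂ) + 1)
        = (a - ((q : integralClosure ℤ ℂ) + 1)) + 2 * ((q : integralClosure ℤ ℂ) + 1) := by ring
    rw [this]
    exact Ideal.add_mem _ h2 (Ideal.mul_mem_left _ _ h1)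

/-- (G4), lead's shape. -/
theorem exists_H {W : WeierstrassCurve ℤ} {p N q : ℕ} [NeZero N] (hq : q.Prime)
    (f : CuspForm (Gamma0 N) 2) (𝔪 : Ideal (integralClosure ℤ ℂ))
    (hf : f.IsNormalizedEigenform) (hmax : 𝔪.IsMaximal) (hpm : (p : integralClosure ℤ ℂ) ∈ 𝔪)
    (hcong : ∀ ℓ : ℕ, ℓ.Prime → W.IsGoodPrimeFor ℓ → ¬ ℓ ∣ N → ℓ ≠ p →
      ∃ a : integralClosure ℤ ℂ, (a : ℂ) = ModularFormClass.qCoeff f ℓ ∧
        a - ((W.apOfModel ℓ : ℤ) : integralClosure ℤ ℂ) ∈ 𝔪)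
    (hLR : ∃ a : integralClosure ℤ ℂ, (a : ℂ) = ModularFormClass.qCoeff f q ∧
      a ^ 2 - ((q : integralClosure ℤ ℂ) + 1) ^ 2 ∈ 𝔪) :
    ∃ (e : ℤ) (H : AddSubgroup (L N)), (e = 1 ∨ e = -1) ∧ (∃ x, x ∉ H) ∧
      (∀ x : L N, (p : ℤ) • x ∈ H) ∧
      (∀ x : L N, TT N (MvPolynomial.X ⟨q, hq⟩) x + (e * ((q : ℤ) + 1)) • x ∈ H) ∧
      (∀ l : Nat.Primes, W.IsGoodPrimeFor l → ¬ (l : ℕ) ∣ N → (l : ℕ) ≠ p →
        ∀ x : L N, TT N (MvPolynomial.X l - MvPolynomial.C (W.apOfModel l)) x ∈ H) := by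
  obtain ⟨e, H, h1, h2, h3, h4, h5, -, -⟩ := exists_H' (W := W) hq f 𝔪 hf hmax hpm hcong hLR
  exact ⟨e, H, h1, h2, h3, h4, h5⟩

/-! ### complex conjugation on `ℤ̄` -/

/-- complex conjugation on the ring of algebraic integers. -/
noncomputable def conjInt : integralClosure ℤ ℂ →+* integralClosure ℤ ℂ where
  toFun a := ⟨starRingEnd ℂ (a : ℂ), map_isIntegral_int (starRingEnd ℂ) a.2⟩
  map_one' := Subtype.ext (by simp)
  map_mul' a b := Subtype.ext (by simp)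
  map_zero' := Subtype.ext (by simp)
  map_add' a b := Subtype.ext (by simp)

theorem conjInt_coe (a : integralClosure ℤ ℂ) :
    ((conjInt a : integralClosure ℤ ℂ) : ℂ) = starRingEnd ℂ (a : ℂ) := rfl

theorem conjInt_conjInt (a : integralClosure ℤ ℂ) : conjInt (conjInt a) = a :=
  Subtype.ext (by rw [conjInt_coe, conjInt_coe]; exact Complex.conj_conj _)

theorem conjInt_surjective : Function.Surjective conjInt :=
  fun a => ⟨conjInt a, conjInt_conjInt a⟩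

/-- (G4), second part. -/
theorem conj_ideal : ∃ φ : integralClosure ℤ ℂ →+* integralClosure ℤ ℂ,
    (∀ a, ((φ a : integralClosure ℤ ℂ) : ℂ) = starRingEnd ℂ (a : ℂ)) ∧
    ∀ Q : Ideal (integralClosure ℤ ℂ), Q.IsMaximal → (Q.comap φ).IsMaximal :=
  ⟨conjInt, conjInt_coe, fun _ hQ =>
    haveI := hQ
    Ideal.comap_isMaximal_of_surjective conjInt conjInt_surjective⟩

/-- explicit form: the ideal `conj⁻¹ Q`, its maximality, membership. -/
theorem conjInt_comap_isMaximal (Q : Ideal (integralClosure ℤ ℂ)) (hQ : Q.IsMaximal) :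
    (Q.comap conjInt).IsMaximal :=
  haveI := hQ
  Ideal.comap_isMaximal_of_surjective conjInt conjInt_surjective

theorem natCast_mem_comap_conjInt (Q : Ideal (integralClosure ℤ ℂ)) (p : ℕ)
    (hp : (p : integralClosure ℤ ℂ) ∈ Q) : (p : integralClosure ℤ ℂ) ∈ Q.comap conjInt := by
  rw [Ideal.mem_comap, map_natCast]
  exact hp

end Fermat.Agent.S41_WH
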