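import Mathlib

/-!
# Abstract row-symbol vanishing lemma (helper6's Lemma A for S41)

A "row symbol" `s a b` (value of a homomorphism on a matrix with first row `(a, b)`) satisfying
the rules (R1)-(R3) of a level-`M` group and the sign rule (R4) `s a (q b) = - s a b`
vanishes identically.  Only Dirichlet's theorem and quadratic reciprocity are used.
-/

set_option autoImplicit false

namespace Fermat.Agent.S41_RowSym

section abstract

variable {A : Type*} [AddCommGroup A]

set_option linter.unusedSectionVars false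

/-- (R1) iterated: `s a (b + k a) = s a b`. -/
theorem r1_iter (P : ℤ → Prop) (s : ℤ → ℤ → A)
    (R1 : ∀ a b : ℤ, P a → IsCoprime a b → s a (b + a) = s a b)
    (a b : ℤ) (ha : P a) (hab : IsCoprime a b) (k : ℤ) : s a (b + k * a) = s a b := by
  induction k using Int.induction_on with
  | zero => simp
  | succ n ih =>
    have hc : IsCoprime a (b + (n : ℤ) * a) := hab.add_mul_right_right _
    have := R1 a (b + (n : ℤ) * a) ha hc
    rw [← ih, ← this]; congr 1; ring
  | pred n ih =>
    have hc : IsCoprime a (b + (-(n : ℤ) - 1) * a) := hab.add_mul_right_right _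
    have := R1 a (b + (-(n : ℤ) - 1) * a) ha hc
    rw [← ih, ← this]; congr 1; ring

/-- (R2) iterated: `s (a + M (k b)) b = s a b`. -/
theorem r2_iter (M : ℤ) (P : ℤ → Prop) (hPadd : ∀ a b : ℤ, P a → P (a + M * b))
    (s : ℤ → ℤ → A)
    (R2 : ∀ a b : ℤ, P a → IsCoprime a b → s (a + M * b) b = s a b)
    (a b : ℤ) (ha : P a) (hab : IsCoprime a b) (k : ℤ) : s (a + M * (k * b)) b = s a b := by
  induction k using Int.induction_on with
  | zero => simp
  | succ n ih =>
    have hP : P (a + M * ((n : ℤ) * b)) := hPadd _ _ ha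
    have hc : IsCoprime (a + M * ((n : ℤ) * b)) b := by
      have : a + M * ((n : ℤ) * b) = a + (M * n) * b := by ring
      rw [this]; exact hab.add_mul_right_left _
    have := R2 _ b hP hc
    rw [← ih, ← this]; congr 1; ring
  | pred n ih =>
    have hP : P (a + M * ((-(n : ℤ) - 1) * b)) := hPadd _ _ ha
    have hc : IsCoprime (a + M * ((-(n : ℤ) - 1) * b)) b := by
      have : a + M * ((-(n : ℤ) - 1) * b) = a + (M * (-(n : ℤ) - 1)) * b := by ring
      rw [this]; exact hab.add_mul_right_left _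
    have := R2 _ b hP hc
    rw [← ih, ← this]; congr 1; ring

/-- (R4) iterated: `s l (q^i c) = (-1)^i s l c`. -/
theorem r4_iter (q : ℕ) (P : ℤ → Prop) (s : ℤ → ℤ → A)
    (R4 : ∀ a b : ℤ, P a → IsCoprime a b → ¬ (q : ℤ) ∣ a → s a (q * b) = - s a b)
    (l c : ℤ) (hl : P l) (hlc : IsCoprime l c) (hlq : IsCoprime l (q : ℤ)) (hql : ¬ (q : ℤ) ∣ l)
    (i : ℕ) : s l ((q : ℤ) ^ i * c) = (-1 : ℤ) ^ i • s l c := by
  induction i with
  | zero => simp
  | succ n ih =>
    have hc : IsCoprime l ((q : ℤ) ^ n * c) := (hlq.pow_right).mul_right hlc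
    have := R4 l ((q : ℤ) ^ n * c) hl hc hql
    rw [pow_succ, mul_comm ((q : ℤ) ^ n) (q : ℤ), mul_assoc, this, ih, pow_succ, mul_comm, mul_smul]
    simp

/-- The core step: for a prime `l ≡ 3 mod 4` modulo which `q` is a square, the symbol vanishes. -/
theorem core (h2 : ∀ x : A, x + x = 0 → x = 0) (q : ℕ) (P : ℤ → Prop) (s : ℤ → ℤ → A)
    (R1 : ∀ a b : ℤ, P a → IsCoprime a b → s a (b + a) = s a b)
    (R4 : ∀ a b : ℤ, P a → IsCoprime a b → ¬ (q : ℤ) ∣ a → s a (q * b) = - s a b)
    (l : ℕ) (hlp : l.Prime) (hl4 : l % 4 = 3) (hsq : IsSquare ((q : ℕ) : ZMod l))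
    (hql : ¬ l ∣ q) (hq1 : 1 < q)
    (c : ℤ) (hP : P (l : ℤ)) (hlc : IsCoprime (l : ℤ) c) : s (l : ℤ) c = 0 := by
  have : Fact l.Prime := ⟨hlp⟩
  have hq0 : ((q : ℕ) : ZMod l) ≠ 0 := by
    rw [Ne, ZMod.natCast_eq_zero_iff]; exact hql
  have hE : ((q : ℕ) : ZMod l) ^ (l / 2) = 1 := (ZMod.euler_criterion l hq0).mp hsq
  have hodd : Odd (l / 2) := by
    rw [Nat.odd_iff]; omega
  -- `l ∣ q^(l/2) - 1`
  have hdvd : (l : ℤ) ∣ (q : ℤ) ^ (l / 2) - 1 := by
    have : (((q : ℤ) ^ (l / 2) - 1 : ℤ) : ZMod l) = 0 := by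
      push_cast; rw [hE]; ring
    exact (ZMod.intCast_zmod_eq_zero_iff_dvd _ _).mp this
  obtain ⟨k, hk⟩ := hdvd
  have hlq : IsCoprime (l : ℤ) (q : ℤ) := by
    rw [Int.isCoprime_iff_gcd_eq_one, Int.gcd_natCast_natCast]
    exact (Nat.Prime.coprime_iff_not_dvd hlp).mpr hql
  have hql' : ¬ (q : ℤ) ∣ (l : ℤ) := by
    rw [Int.natCast_dvd_natCast]
    intro h
    rcases (Nat.dvd_prime hlp).mp h with h1 | h1
    · omega
    · exact hql (h1 ▸ dvd_rfl)
  have h4 := r4_iter q P s R4 (l : ℤ) c hP hlc hlq hql' (l / 2)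
  have h1 := r1_iter P s R1 (l : ℤ) c hP hlc (k * c)
  have e : (q : ℤ) ^ (l / 2) * c = c + k * c * (l : ℤ) := by
    have : (q : ℤ) ^ (l / 2) = 1 + (l : ℤ) * k := by linarith
    rw [this]; ring
  rw [e, h1, hodd.neg_one_pow] at h4
  apply h2
  have : s (l : ℤ) c = - s (l : ℤ) c := by simpa using h4
  calc s (l : ℤ) c + s (l : ℤ) c = - s (l : ℤ) c + s (l : ℤ) c := by rw [← this]
    _ = 0 := by simp

/-- Integer Chinese remainder theorem for coprime natural moduli. -/
theorem exists_crt (m₁ m₂ : ℕ) (h : Nat.Coprime m₁ m₂) (u v : ℤ) :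
    ∃ x : ℤ, x ≡ u [ZMOD (m₁ : ℤ)] ∧ x ≡ v [ZMOD (m₂ : ℤ)] := by
  obtain ⟨α, β, hαβ⟩ : IsCoprime (m₁ : ℤ) (m₂ : ℤ) := Nat.isCoprime_iff_coprime.mpr h
  refine ⟨u * (β * m₂) + v * (α * m₁), ?_, ?_⟩
  · have e : u * (β * m₂) + v * (α * m₁) = u + (m₁ : ℤ) * (v * α - u * α) := by
      have : β * m₂ = 1 - α * m₁ := by linarith
      rw [this]; ring
    rw [e]; exact Int.modEq_add_fac_self
  · have e : u * (β * m₂) + v * (α * m₁) = v + (m₂ : ℤ) * (u * β - v * β) := by
      have : α * m₁ = 1 - β * m₂ := by linarith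
      rw [this]; ring
    rw [e]; exact Int.modEq_add_fac_self

/-- **Row-symbol vanishing lemma.**  A row symbol of level `M` with the sign rule at a prime
`q ∤ M` vanishes (values in an abelian group without 2-torsion). -/
theorem rowSymbol_eq_zero (h2 : ∀ x : A, x + x = 0 → x = 0)
    (M q : ℕ) (hM : 0 < M) (hq : q.Prime) (hqM : ¬ q ∣ M)
    (P : ℤ → Prop)
    (hPadd : ∀ a b : ℤ, P a → P (a + M * b)) (hPneg : ∀ a, P a → P (-a))
    (hPcop : ∀ a, P a → IsCoprime a (M : ℤ))
    (s : ℤ → ℤ → A)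
    (R1 : ∀ a b : ℤ, P a → IsCoprime a b → s a (b + a) = s a b)
    (R2 : ∀ a b : ℤ, P a → IsCoprime a b → s (a + M * b) b = s a b)
    (R3 : ∀ a b : ℤ, P a → IsCoprime a b → s (-a) (-b) = s a b)
    (R4 : ∀ a b : ℤ, P a → IsCoprime a b → ¬ (q : ℤ) ∣ a → s a (q * b) = - s a b) :
    ∀ a b : ℤ, P a → IsCoprime a b → s a b = 0 := by
  have hq1 : 1 < q := hq.one_lt
  have main : ∀ a b : ℤ, a ≠ 0 → P a → IsCoprime a b → s a b = 0 := by
    intro a b ha0 ha hab
    -- Step 1: replace `b` by a large prime `b'`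
    have hna : a.natAbs ≠ 0 := Int.natAbs_ne_zero.mpr ha0
    have hcop : IsCoprime b (a.natAbs : ℤ) := by
      rw [Int.isCoprime_iff_gcd_eq_one]
      have := Int.isCoprime_iff_gcd_eq_one.mp hab
      rw [Int.gcd_comm] at this
      simpa [Int.gcd, Int.natAbs_abs] using this
    obtain ⟨b', hb'gt, hb'p, hb'mod⟩ := Nat.forall_exists_prime_gt_and_zmodEq (2 * q + 2) hna hcop
    have hdv : a ∣ b - (b' : ℤ) := by
      have := hb'mod.dvd
      exact Int.natAbs_dvd.mp this
    obtain ⟨k, hk⟩ := hdv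
    have hbe : b = (b' : ℤ) + k * a := by linarith
    have hab' : IsCoprime a (b' : ℤ) := by
      rw [hbe] at hab; exact IsCoprime.of_add_mul_right_right hab
    have hs1 : s a b = s a (b' : ℤ) := by
      rw [hbe]; exact r1_iter P s R1 a b' ha hab' k
    rw [hs1]
    have hb'odd : Odd b' := hb'p.eq_two_or_odd'.resolve_left (by omega)
    have hb'q : b' ≠ q := by omega
    rcases eq_or_ne q 2 with hq2 | hq2
    · -- the case `q = 2`
      subst hq2
      have hModd : Odd M := by
        rcases Nat.even_or_odd M with h | h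
        · exact absurd (even_iff_two_dvd.mp h) hqM
        · exact h
      have hc8 : Nat.Coprime (M * b') 8 := by
        have : Odd (M * b') := hModd.mul hb'odd
        have h2c : Nat.Coprime (M * b') 2 := Nat.Coprime.symm (Nat.coprime_two_left.mpr this)
        exact Nat.Coprime.pow_right 3 h2c
      obtain ⟨x, hx1, hx2⟩ := exists_crt (M * b') 8 hc8 a 7
      have hxcop : IsCoprime x ((M * b' * 8 : ℕ) : ℤ) := by
        have h1 : IsCoprime x ((M * b' : ℕ) : ℤ) := by
          have ha1 : IsCoprime a ((M * b' : ℕ) : ℤ) := by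
            push_cast; exact (hPcop a ha).mul_right hab'
          obtain ⟨j, hj⟩ := hx1.symm.dvd
          have : x = a + j * ((M * b' : ℕ) : ℤ) := by linarith
          rw [this]; exact ha1.add_mul_right_left j
        have h2 : IsCoprime x ((8 : ℕ) : ℤ) := by
          obtain ⟨j, hj⟩ := hx2.symm.dvd
          have : x = 7 + j * ((8 : ℕ) : ℤ) := by linarith
          rw [this]
          have h7 : IsCoprime (7 : ℤ) ((8 : ℕ) : ℤ) := ⟨-1, 1, by norm_num⟩
          exact h7.add_mul_right_left j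
        push_cast at h1 h2 ⊢
        exact h1.mul_right h2
      have hmne : M * b' * 8 ≠ 0 := by
        have := hb'p.pos; positivity
      obtain ⟨l, hlgt, hlp, hlmod⟩ := Nat.forall_exists_prime_gt_and_zmodEq 2 hmne hxcop
      have hl1 : (l : ℤ) ≡ a [ZMOD ((M * b' : ℕ) : ℤ)] := by
        refine Int.ModEq.trans (Int.ModEq.of_dvd ?_ hlmod) hx1
        push_cast; exact Dvd.intro _ rfl
      have hl2 : (l : ℤ) ≡ 7 [ZMOD ((8 : ℕ) : ℤ)] := by
        refine Int.ModEq.trans (Int.ModEq.of_dvd ?_ hlmod) hx2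
        push_cast; exact Dvd.intro_left _ rfl
      obtain ⟨j, hj⟩ := hl1.symm.dvd
      have hle : (l : ℤ) = a + (M : ℤ) * (j * (b' : ℤ)) := by
        push_cast at hj; linarith
      have hPl : P (l : ℤ) := by rw [hle]; exact hPadd _ _ ha
      have hlc : IsCoprime (l : ℤ) (b' : ℤ) := by
        rw [hle]
        have : a + (M : ℤ) * (j * (b' : ℤ)) = a + (M * j) * (b' : ℤ) := by ring
        rw [this]; exact hab'.add_mul_right_left _
      have hsl : s (l : ℤ) (b' : ℤ) = s a (b' : ℤ) := by
        rw [hle]; exact r2_iter (M : ℤ) P hPadd s R2 a b' ha hab' j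
      rw [← hsl]
      have hl8 : l % 8 = 7 := by
        have := hl2
        have h' : (l : ℤ) % 8 = 7 := by
          have := Int.ModEq.eq this
          norm_num at this ⊢; exact this
        omega
      have : Fact l.Prime := ⟨hlp⟩
      have hsq : IsSquare (((2 : ℕ) : ℕ) : ZMod l) := by
        have := (ZMod.exists_sq_eq_two_iff (p := l) (by omega)).mpr (Or.inr hl8)
        simpa using this
      have hql : ¬ l ∣ 2 := by
        intro h; have := Nat.le_of_dvd (by norm_num) h; omega
      exact core h2 2 P s R1 R4 l hlp (by omega) hsq hql (by norm_num) b' hPl hlc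
    · -- the case `q` odd
      have hqodd : Odd q := hq.eq_two_or_odd'.resolve_left hq2
      -- Step 2: make `a` odd
      obtain ⟨a₁, hP₁, hc₁, hodd₁, hs₁⟩ :
          ∃ a₁ : ℤ, P a₁ ∧ IsCoprime a₁ (b' : ℤ) ∧ Odd a₁ ∧ s a₁ (b' : ℤ) = s a (b' : ℤ) := by
        rcases Int.even_or_odd a with hev | hod
        · refine ⟨a + M * b', hPadd _ _ ha, hab'.add_mul_right_left _, ?_, R2 a b' ha hab'⟩
          have hModd : Odd (M : ℤ) := by
            rcases Int.even_or_odd (M : ℤ) with h | h
            · exfalso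
              have hcm := hPcop a ha
              have h2a : (2 : ℤ) ∣ a := even_iff_two_dvd.mp hev
              have h2M : (2 : ℤ) ∣ (M : ℤ) := even_iff_two_dvd.mp h
              have := hcm.isUnit_of_dvd' h2a h2M
              exact absurd this (by decide)
            · exact h
          have hb : Odd (b' : ℤ) := by exact_mod_cast hb'odd
          exact hev.add_odd (hModd.mul hb)
        · exact ⟨a, ha, hab', hod, rfl⟩
      rw [← hs₁]
      -- Step 3: fix the sign so that `t ≡ 3 mod 4`
      obtain ⟨t, c, hPt, hct, ht4, hst, hcb⟩ :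
          ∃ t c : ℤ, P t ∧ IsCoprime t c ∧ t % 4 = 3 ∧ s t c = s a₁ (b' : ℤ) ∧
            (c = (b' : ℤ) ∨ c = -(b' : ℤ)) := by
        have h13 : a₁ % 4 = 1 ∨ a₁ % 4 = 3 := by
          have := Int.odd_iff.mp hodd₁; omega
        rcases h13 with h | h
        · refine ⟨-a₁, -(b' : ℤ), hPneg _ hP₁, ?_, by omega, R3 a₁ b' hP₁ hc₁, Or.inr rfl⟩
          exact hc₁.neg_neg
        · exact ⟨a₁, b', hP₁, hc₁, h, rfl, Or.inl rfl⟩
      rw [← hst]
      have hctb : IsCoprime t (b' : ℤ) := by
        rcases hcb with h | h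
        · rwa [h] at hct
        · rw [h] at hct; exact (IsCoprime.neg_right_iff t (b' : ℤ)).mp hct
      -- Step 4: the prime `l`
      have hcq : Nat.Coprime (4 * M * b') q := by
        have h1 : Nat.Coprime 4 q := by
          have : Nat.Coprime 2 q := Nat.coprime_two_left.mpr hqodd
          exact Nat.Coprime.pow_left 2 this
        have h2 : Nat.Coprime M q := ((Nat.Prime.coprime_iff_not_dvd hq).mpr hqM).symm
        have h3 : Nat.Coprime b' q := (Nat.coprime_primes hb'p hq).mpr hb'q
        exact (h1.mul_left h2).mul_left h3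
      obtain ⟨x, hx1, hx2⟩ := exists_crt (4 * M * b') q hcq t (-1)
      have htodd : Odd t := by
        rw [Int.odd_iff]; omega
      have hxcop : IsCoprime x ((4 * M * b' * q : ℕ) : ℤ) := by
        have h1 : IsCoprime x ((4 * M * b' : ℕ) : ℤ) := by
          have ht1 : IsCoprime t ((4 * M * b' : ℕ) : ℤ) := by
            push_cast
            have h4 : IsCoprime t (4 : ℤ) := by
              have h2' : IsCoprime t (2 : ℤ) := by
                obtain ⟨m, hm⟩ := htodd
                exact ⟨1, -m, by rw [hm]; ring⟩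
              have : (4 : ℤ) = 2 ^ 2 := by norm_num
              rw [this]; exact h2'.pow_right
            exact (h4.mul_right (hPcop t hPt)).mul_right hctb
          obtain ⟨j, hj⟩ := hx1.symm.dvd
          have : x = t + j * ((4 * M * b' : ℕ) : ℤ) := by linarith
          rw [this]; exact ht1.add_mul_right_left j
        have h2' : IsCoprime x ((q : ℕ) : ℤ) := by
          obtain ⟨j, hj⟩ := hx2.symm.dvd
          have : x = -1 + j * ((q : ℕ) : ℤ) := by linarith
          rw [this]
          have h7 : IsCoprime (-1 : ℤ) ((q : ℕ) : ℤ) := ⟨-1, 0, by ring⟩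
          exact h7.add_mul_right_left j
        push_cast at h1 h2' ⊢
        exact h1.mul_right h2'
      have hmne : 4 * M * b' * q ≠ 0 := by
        have := hb'p.pos; have := hq.pos; positivity
      obtain ⟨l, hlgt, hlp, hlmod⟩ := Nat.forall_exists_prime_gt_and_zmodEq (q + 2) hmne hxcop
      have hl1 : (l : ℤ) ≡ t [ZMOD ((4 * M * b' : ℕ) : ℤ)] := by
        refine Int.ModEq.trans (Int.ModEq.of_dvd ?_ hlmod) hx1
        push_cast; exact Dvd.intro _ rfl
      have hl2 : (l : ℤ) ≡ -1 [ZMOD ((q : ℕ) : ℤ)] := by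
        refine Int.ModEq.trans (Int.ModEq.of_dvd ?_ hlmod) hx2
        push_cast; exact Dvd.intro_left _ rfl
      obtain ⟨j, hj⟩ := hl1.symm.dvd
      -- `l = t + M * (j' * c)`
      obtain ⟨j', hle⟩ : ∃ j' : ℤ, (l : ℤ) = t + (M : ℤ) * (j' * c) := by
        push_cast at hj
        rcases hcb with h | h
        · exact ⟨4 * j, by rw [h]; linarith⟩
        · exact ⟨-(4 * j), by rw [h]; linarith⟩
      have hPl : P (l : ℤ) := by rw [hle]; exact hPadd _ _ hPt
      have hlc : IsCoprime (l : ℤ) c := by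
        rw [hle]
        have : t + (M : ℤ) * (j' * c) = t + (M * j') * c := by ring
        rw [this]; exact hct.add_mul_right_left _
      have hsl : s (l : ℤ) c = s t c := by
        rw [hle]; exact r2_iter (M : ℤ) P hPadd s R2 t c hPt hct j'
      rw [← hsl]
      have hl4 : l % 4 = 3 := by
        have h4 : (l : ℤ) % 4 = 3 := by
          push_cast at hj
          obtain ⟨j₀, hj₀⟩ : ∃ j₀ : ℤ, (l : ℤ) = t + 4 * j₀ := ⟨(M : ℤ) * b' * j, by linarith⟩
          rw [hj₀]; omega
        omega
      have : Fact l.Prime := ⟨hlp⟩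
      have : Fact q.Prime := ⟨hq⟩
      have hlq_ne : l ≠ q := by omega
      have hlm1 : ((l : ℕ) : ZMod q) = -1 := by
        have := (ZMod.intCast_eq_intCast_iff (a := (l : ℤ)) (b := -1) (c := q)).mpr hl2
        simpa using this
      have hsq : IsSquare ((q : ℕ) : ZMod l) := by
        have hq13 : q % 4 = 1 ∨ q % 4 = 3 := by
          have := Nat.odd_iff.mp hqodd; omega
        rcases hq13 with h | h
        · have key := ZMod.exists_sq_eq_prime_iff_of_mod_four_eq_one (p := q) (q := l) h (by omega)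
          rw [← key, hlm1]
          exact (ZMod.exists_sq_eq_neg_one_iff (p := q)).mpr (by omega)
        · have key := ZMod.exists_sq_eq_prime_iff_of_mod_four_eq_three (p := l) (q := q) hl4 h hlq_ne
          rw [key, hlm1]
          exact fun hh => ((ZMod.exists_sq_eq_neg_one_iff (p := q)).mp hh) h
      have hql : ¬ l ∣ q := by
        intro h; have := Nat.le_of_dvd hq.pos h; omega
      exact core h2 q P s R1 R4 l hlp hl4 hsq hql hq1 c hPl hlc
  intro a b ha hab
  by_cases h0 : a = 0
  · subst h0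
    have hb : IsUnit b := isCoprime_zero_left.mp hab
    have := R2 0 b ha hab
    rw [← this]
    apply main
    · have : b ≠ 0 := hb.ne_zero
      have hM' : (M : ℤ) ≠ 0 := by exact_mod_cast hM.ne'
      simpa using mul_ne_zero hM' this
    · exact hPadd 0 b ha
    · exact hab.add_mul_right_left _
  · exact main a b h0 ha hab

end abstract

end Fermat.Agent.S41_RowSym
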