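import Fermat.Prelude.Def_ModularCurve_PeriodMap
import Fermat.Agent.S41_RowSym
import Mathlib

/-!
# helper6's Lemma A for S41 (the sign `a_q = -(q+1)` of Ihara's lemma), in Prelude vocabulary

A parabolic homomorphism `X : Γ₀(N) → A` (no 2-torsion in `A`) with
`X (d g d⁻¹) = - X g` for all `g ∈ Γ₀(N q)`, `d = diag(q, 1)`, vanishes.
-/

set_option autoImplicit false

open Matrix MatrixGroups CongruenceSubgroup ModularCurve.Period

namespace Fermat.Agent.S41_LemA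

variable {A : Type*} [AddCommGroup A]

/-- The integer matrix `[a, b; c, d]` of determinant one. -/
def mk (a b c d : ℤ) (h : a * d - b * c = 1) : SL(2, ℤ) :=
  ⟨!![a, b; c, d], by rw [Matrix.det_fin_two_of]; exact h⟩

@[simp] lemma mk_00 (a b c d : ℤ) (h : a * d - b * c = 1) : (mk a b c d h) 0 0 = a := rfl
@[simp] lemma mk_01 (a b c d : ℤ) (h : a * d - b * c = 1) : (mk a b c d h) 0 1 = b := rfl
@[simp] lemma mk_10 (a b c d : ℤ) (h : a * d - b * c = 1) : (mk a b c d h) 1 0 = c := rfl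
@[simp] lemma mk_11 (a b c d : ℤ) (h : a * d - b * c = 1) : (mk a b c d h) 1 1 = d := rfl

lemma mem_Gamma0_iff_dvd (N : ℕ) (g : SL(2, ℤ)) : g ∈ Gamma0 N ↔ (N : ℤ) ∣ g 1 0 := by
  rw [Gamma0_mem]; exact ZMod.intCast_zmod_eq_zero_iff_dvd _ _

lemma det_eq (g : SL(2, ℤ)) : g 0 0 * g 1 1 - g 0 1 * g 1 0 = 1 := by
  have := g.det_coe; rw [Matrix.det_fin_two] at this; exact this

lemma ext_entries (g g' : SL(2, ℤ)) (h00 : g 0 0 = g' 0 0) (h01 : g 0 1 = g' 0 1)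
    (h10 : g 1 0 = g' 1 0) (h11 : g 1 1 = g' 1 1) : g = g' := by
  ext i j; fin_cases i <;> fin_cases j <;> assumption

lemma mul_00 (g h : SL(2, ℤ)) : (g * h) 0 0 = g 0 0 * h 0 0 + g 0 1 * h 1 0 := by
  simp [Matrix.SpecialLinearGroup.coe_mul, Matrix.mul_apply, Fin.sum_univ_two]
lemma mul_01 (g h : SL(2, ℤ)) : (g * h) 0 1 = g 0 0 * h 0 1 + g 0 1 * h 1 1 := by
  simp [Matrix.SpecialLinearGroup.coe_mul, Matrix.mul_apply, Fin.sum_univ_two]
lemma mul_10 (g h : SL(2, ℤ)) : (g * h) 1 0 = g 1 0 * h 0 0 + g 1 1 * h 1 0 := by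
  simp [Matrix.SpecialLinearGroup.coe_mul, Matrix.mul_apply, Fin.sum_univ_two]
lemma mul_11 (g h : SL(2, ℤ)) : (g * h) 1 1 = g 1 0 * h 0 1 + g 1 1 * h 1 1 := by
  simp [Matrix.SpecialLinearGroup.coe_mul, Matrix.mul_apply, Fin.sum_univ_two]

lemma trace_eq (g : SL(2, ℤ)) : (g : Matrix (Fin 2) (Fin 2) ℤ).trace = g 0 0 + g 1 1 :=
  Matrix.trace_fin_two _

variable (N : ℕ)

/-- A parabolic hom kills every element of trace `±2`. -/
lemma par_zero (X : Additive (Gamma0 N) →+ A) (hpar : IsParabolicHom (Gamma0 N) X)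
    (g : SL(2, ℤ)) (hg : g ∈ Gamma0 N) (ht : g 0 0 + g 1 1 = 2 ∨ g 0 0 + g 1 1 = -2) :
    X (Additive.ofMul ⟨g, hg⟩) = 0 := by
  apply hpar
  show (g : Matrix (Fin 2) (Fin 2) ℤ).trace ^ 2 = 4
  rw [trace_eq]
  rcases ht with h | h <;> rw [h] <;> norm_num

lemma map_mul' (X : Additive (Gamma0 N) →+ A) (g h : Gamma0 N) :
    X (Additive.ofMul (g * h)) = X (Additive.ofMul g) + X (Additive.ofMul h) := by
  rw [ofMul_mul, map_add]

/-- The value of a parabolic hom depends only on the first row. -/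
theorem eq_of_row (X : Additive (Gamma0 N) →+ A) (hpar : IsParabolicHom (Gamma0 N) X)
    (g g' : Gamma0 N) (h0 : (g : SL(2, ℤ)) 0 0 = (g' : SL(2, ℤ)) 0 0)
    (h1 : (g : SL(2, ℤ)) 0 1 = (g' : SL(2, ℤ)) 0 1) :
    X (Additive.ofMul g') = X (Additive.ofMul g) := by
  obtain ⟨g, hg⟩ := g
  obtain ⟨g', hg'⟩ := g'
  simp only at h0 h1
  have hd := det_eq g
  have hd' := det_eq g'
  obtain ⟨c₁, hc₁⟩ := (mem_Gamma0_iff_dvd N g).mp hg
  obtain ⟨c₂, hc₂⟩ := (mem_Gamma0_iff_dvd N g').mp hg'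
  set t : ℤ := g' 1 0 * g 1 1 - g' 1 1 * g 1 0 with ht
  have hl : mk 1 0 t 1 (by ring) ∈ Gamma0 N := by
    rw [mem_Gamma0_iff_dvd]
    show (N : ℤ) ∣ t
    rw [ht, hc₁, hc₂]
    exact ⟨c₂ * g 1 1 - g' 1 1 * c₁, by ring⟩
  have hprod : g' = mk 1 0 t 1 (by ring) * g := by
    apply ext_entries
    · rw [mul_00]; simp [h0]
    · rw [mul_01]; simp [h1]
    · rw [mul_10]; simp only [mk_10, mk_11, ht]
      rw [← h0, ← h1] at hd'; linear_combination (g 1 0) * hd' - (g' 1 0) * hd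
    · rw [mul_11]; simp only [mk_10, mk_11, ht]
      rw [← h0, ← h1] at hd'; linear_combination (g 1 1) * hd' - (g' 1 1) * hd
  have e : (⟨g', hg'⟩ : Gamma0 N) = ⟨mk 1 0 t 1 (by ring), hl⟩ * ⟨g, hg⟩ := Subtype.ext hprod
  rw [e, map_mul', par_zero N X hpar _ hl (Or.inl (by simp)), zero_add]

/-- Every admissible row occurs. -/
theorem exists_row (a b : ℤ) (hab : IsCoprime a b) (haN : IsCoprime a (N : ℤ)) :
    ∃ g : Gamma0 N, (g : SL(2, ℤ)) 0 0 = a ∧ (g : SL(2, ℤ)) 0 1 = b := by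
  obtain ⟨u, v, huv⟩ := haN.mul_right hab
  refine ⟨⟨mk a b (-(v * N)) u (by linear_combination huv), ?_⟩, rfl, rfl⟩
  rw [mem_Gamma0_iff_dvd]
  exact ⟨-v, by simp; ring⟩

/-- The row symbol of a hom on `Γ₀(N)`. -/
noncomputable def rowSym (X : Additive (Gamma0 N) →+ A) (a b : ℤ) : A :=
  open Classical in
  if h : ∃ g : Gamma0 N, (g : SL(2, ℤ)) 0 0 = a ∧ (g : SL(2, ℤ)) 0 1 = b then
    X (Additive.ofMul h.choose) else 0

theorem rowSym_eq (X : Additive (Gamma0 N) →+ A) (hpar : IsParabolicHom (Gamma0 N) X)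
    (g : Gamma0 N) :
    rowSym N X ((g : SL(2, ℤ)) 0 0) ((g : SL(2, ℤ)) 0 1) = X (Additive.ofMul g) := by
  have h : ∃ g' : Gamma0 N, (g' : SL(2, ℤ)) 0 0 = (g : SL(2, ℤ)) 0 0 ∧
      (g' : SL(2, ℤ)) 0 1 = (g : SL(2, ℤ)) 0 1 := ⟨g, rfl, rfl⟩
  unfold rowSym
  rw [dif_pos h]
  exact eq_of_row N X hpar g h.choose h.choose_spec.1.symm h.choose_spec.2.symm

theorem rowSym_eq' (X : Additive (Gamma0 N) →+ A) (hpar : IsParabolicHom (Gamma0 N) X)
    (g : Gamma0 N) (a b : ℤ) (ha : (g : SL(2, ℤ)) 0 0 = a) (hb : (g : SL(2, ℤ)) 0 1 = b) :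
    rowSym N X a b = X (Additive.ofMul g) := by
  subst ha hb; exact rowSym_eq N X hpar g

/-- **Lemma A.**  A parabolic hom on `Γ₀(N)` that is anti-invariant under `g ↦ d g d⁻¹`
(`d = diag(q,1)`) on `Γ₀(N q)` is zero. -/
theorem lemmaA [NeZero N] (h2 : ∀ x : A, x + x = 0 → x = 0) (q : ℕ) (hq : q.Prime)
    (hqN : ¬ q ∣ N) (X : Additive (Gamma0 N) →+ A) (hpar : IsParabolicHom (Gamma0 N) X)
    (hK : ∀ g g' : Gamma0 N, ((N * q : ℕ) : ℤ) ∣ (g : SL(2, ℤ)) 1 0 →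
      (g' : SL(2, ℤ)) 0 0 = (g : SL(2, ℤ)) 0 0 → (g' : SL(2, ℤ)) 0 1 = q * (g : SL(2, ℤ)) 0 1 →
      q * (g' : SL(2, ℤ)) 1 0 = (g : SL(2, ℤ)) 1 0 → (g' : SL(2, ℤ)) 1 1 = (g : SL(2, ℤ)) 1 1 →
      X (Additive.ofMul g') = - X (Additive.ofMul g)) :
    X = 0 := by
  have hN : 0 < N := Nat.pos_of_ne_zero (NeZero.ne N)
  have key := S41_RowSym.rowSymbol_eq_zero h2 N q hN hq hqN (fun a => IsCoprime a (N : ℤ))
    (fun a b ha => ha.add_mul_left_left b) (fun a ha => ha.neg_left) (fun a ha => ha)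
    (rowSym N X) ?_ ?_ ?_ ?_
  · -- conclusion
    ext g
    obtain ⟨g, hg⟩ := g
    have hd := det_eq g
    obtain ⟨c₁, hc₁⟩ := (mem_Gamma0_iff_dvd N g).mp hg
    have hP : IsCoprime (g 0 0) (N : ℤ) := ⟨g 1 1, -(g 0 1 * c₁), by rw [hc₁] at hd; linear_combination hd⟩
    have hab : IsCoprime (g 0 0) (g 0 1) := ⟨g 1 1, -(g 1 0), by linear_combination hd⟩
    have := key (g 0 0) (g 0 1) hP hab
    rw [rowSym_eq' N X hpar ⟨g, hg⟩ _ _ rfl rfl] at this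
    simpa using this
  · -- R1
    intro a b ha hab
    obtain ⟨g, hg0, hg1⟩ := exists_row N a b hab ha
    have hU : mk 1 1 0 1 (by ring) ∈ Gamma0 N := by
      rw [mem_Gamma0_iff_dvd]; exact dvd_zero _
    rw [rowSym_eq' N X hpar (g * ⟨_, hU⟩) a (b + a) (by
        show ((g : SL(2, ℤ)) * mk 1 1 0 1 (by ring)) 0 0 = a
        rw [mul_00]; simp [hg0]) (by
        show ((g : SL(2, ℤ)) * mk 1 1 0 1 (by ring)) 0 1 = b + a
        rw [mul_01]; simp [hg0, hg1]; ring),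
      rowSym_eq' N X hpar g a b hg0 hg1, map_mul',
      par_zero N X hpar _ hU (Or.inl (by simp)), add_zero]
  · -- R2
    intro a b ha hab
    obtain ⟨g, hg0, hg1⟩ := exists_row N a b hab ha
    have hL : mk 1 0 N 1 (by ring) ∈ Gamma0 N := by
      rw [mem_Gamma0_iff_dvd]; exact dvd_rfl
    rw [rowSym_eq' N X hpar (g * ⟨_, hL⟩) (a + N * b) b (by
        show ((g : SL(2, ℤ)) * mk 1 0 N 1 (by ring)) 0 0 = a + N * b
        rw [mul_00]; simp [hg0, hg1]; ring) (by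
        show ((g : SL(2, ℤ)) * mk 1 0 N 1 (by ring)) 0 1 = b
        rw [mul_01]; simp [hg1]),
      rowSym_eq' N X hpar g a b hg0 hg1, map_mul',
      par_zero N X hpar _ hL (Or.inl (by simp)), add_zero]
  · -- R3
    intro a b ha hab
    obtain ⟨g, hg0, hg1⟩ := exists_row N a b hab ha
    have hm : mk (-1) 0 0 (-1) (by ring) ∈ Gamma0 N := by
      rw [mem_Gamma0_iff_dvd]; exact dvd_zero _
    rw [rowSym_eq' N X hpar (⟨_, hm⟩ * g) (-a) (-b) (by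
        show (mk (-1) 0 0 (-1) (by ring) * (g : SL(2, ℤ))) 0 0 = -a
        rw [mul_00]; simp [hg0]) (by
        show (mk (-1) 0 0 (-1) (by ring) * (g : SL(2, ℤ))) 0 1 = -b
        rw [mul_01]; simp [hg1]),
      rowSym_eq' N X hpar g a b hg0 hg1, map_mul',
      par_zero N X hpar _ hm (Or.inr (by simp)), zero_add]
  · -- R4
    intro a b ha hab hqa
    have hqa' : IsCoprime a (q : ℤ) := by
      rw [isCoprime_comm]
      exact (Int.prime_iff_natAbs_prime.mpr (by simpa using hq)).coprime_iff_not_dvd.mpr hqa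
    have haNq : IsCoprime a (((N * q : ℕ) : ℕ) : ℤ) := by
      push_cast; exact ha.mul_right hqa'
    obtain ⟨u, v, huv⟩ := haNq.mul_right hab
    -- g = [a, b; -(v N q), u], g' = [a, q b; -(v N), u]
    have hg : mk a b (-(v * (N * q : ℕ))) u (by linear_combination huv) ∈ Gamma0 N := by
      rw [mem_Gamma0_iff_dvd]; exact ⟨-(v * q), by simp; ring⟩
    have hg' : mk a (q * b) (-(v * N)) u (by push_cast at huv; linear_combination huv) ∈
        Gamma0 N := by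
      rw [mem_Gamma0_iff_dvd]; exact ⟨-v, by simp; ring⟩
    have := hK ⟨_, hg⟩ ⟨_, hg'⟩ ⟨-v, by simp; ring⟩ rfl rfl (by simp; ring) rfl
    rw [rowSym_eq' N X hpar ⟨_, hg'⟩ a (q * b) rfl rfl, rowSym_eq' N X hpar ⟨_, hg⟩ a b rfl rfl]
    exact this

end Fermat.Agent.S41_LemA
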