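import Fermat.Prelude.Def_ModularCurve_PeriodMap
import Fermat.Agent.S41_LemA
import Mathlib

/-!
# Theorem B for S41, part 1: the twist step

Parameters of the group `G' = {[a, b; D²c, a + De]} ∩ Γ₀(N)`, conjugation by `[1, s/D; 0, 1]`,
the quadratic twist of a hom `X` and its vanishing (Lemma A' of helper6), Jacobi-sum inversion:
the sum of the `D` twists of `X` is `D • X` on `G'`.
-/

set_option autoImplicit false

open Matrix MatrixGroups CongruenceSubgroup ModularCurve.Period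

namespace Fermat.Agent.S41_ThmB

open Fermat.Agent.S41_LemA

variable {A : Type*} [AddCommGroup A]

/-! ### Parameters of the group `G' = {[a, b; D²c, a + De]} ∩ Γ₀(N)` -/

/-- Parameters `(a, b, c, e)` of the matrix `[a, b; D²c, a + De]`, `N ∣ c`. -/
structure Par (N D : ℕ) where
  a : ℤ
  b : ℤ
  c : ℤ
  e : ℤ
  det : a * (a + D * e) - b * (D ^ 2 * c) = 1
  hN : (N : ℤ) ∣ c

namespace Par

variable {N D : ℕ}

lemma ext' {P Q : Par N D} (ha : P.a = Q.a) (hb : P.b = Q.b) (hc : P.c = Q.c)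
    (he : P.e = Q.e) : P = Q := by
  cases P; cases Q; simp only [Par.mk.injEq]; exact ⟨ha, hb, hc, he⟩

/-- the matrix of a parameter. -/
def toSL (P : Par N D) : SL(2, ℤ) := S41_LemA.mk P.a P.b (D ^ 2 * P.c) (P.a + D * P.e) P.det

lemma toSL_mem (P : Par N D) : P.toSL ∈ Gamma0 N := by
  rw [mem_Gamma0_iff_dvd]; exact Dvd.dvd.mul_left P.hN _

/-- the matrix of a parameter, in `Γ₀(N)`. -/
def toG (P : Par N D) : Gamma0 N := ⟨P.toSL, P.toSL_mem⟩

/-- conjugation by `[1, s/D; 0, 1]`. -/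
def tw (s : ℤ) (P : Par N D) : Par N D where
  a := P.a + s * D * P.c
  b := P.b + s * P.e - s ^ 2 * P.c
  c := P.c
  e := P.e - 2 * s * P.c
  det := by linear_combination P.det
  hN := P.hN

/-- the product. -/
def mul (P Q : Par N D) : Par N D where
  a := P.a * Q.a + P.b * (D ^ 2 * Q.c)
  b := P.a * Q.b + P.b * (Q.a + D * Q.e)
  c := P.c * Q.a + (P.a + D * P.e) * Q.c
  e := D * P.c * Q.b + P.a * Q.e + P.e * Q.a + D * P.e * Q.e - P.b * D * Q.c
  det := by
    linear_combination (Q.a * (Q.a + D * Q.e) - Q.b * (D ^ 2 * Q.c)) * P.det + Q.det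
  hN := by
    obtain ⟨u, hu⟩ := P.hN
    obtain ⟨v, hv⟩ := Q.hN
    exact ⟨u * Q.a + (P.a + D * P.e) * v, by rw [hu, hv]; ring⟩

lemma toSL_mul (P Q : Par N D) : (P.mul Q).toSL = P.toSL * Q.toSL := by
  apply ext_entries
  · rw [mul_00]; simp [toSL, mul]
  · rw [mul_01]; simp [toSL, mul]
  · rw [mul_10]; simp [toSL, mul]; ring
  · rw [mul_11]; simp [toSL, mul]; ring

lemma toG_mul (P Q : Par N D) : (P.mul Q).toG = P.toG * Q.toG := Subtype.ext (toSL_mul P Q)

lemma tw_mul (s : ℤ) (P Q : Par N D) : (P.mul Q).tw s = (P.tw s).mul (Q.tw s) := by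
  apply ext' <;> simp only [tw, mul] <;> ring

lemma tw_tw (s j : ℤ) (P : Par N D) : (P.tw j).tw s = P.tw (s + j) := by
  apply ext' <;> simp only [tw] <;> ring

lemma tw_zero (P : Par N D) : P.tw 0 = P := by
  apply ext' <;> simp [tw]

end Par

/-! ### The twisted values -/

section twist

variable {N D : ℕ} (X : Additive (Gamma0 N) →+ A)

/-- `X (U^{s/D} g U^{-s/D})`. -/
def xs (s : ℤ) (P : Par N D) : A := X (Additive.ofMul (P.tw s).toG)

lemma xs_zero (P : Par N D) : xs X 0 P = X (Additive.ofMul P.toG) := by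
  unfold xs; rw [Par.tw_zero]

lemma xs_mul (s : ℤ) (P Q : Par N D) : xs X s (P.mul Q) = xs X s P + xs X s Q := by
  unfold xs; rw [Par.tw_mul, Par.toG_mul, ofMul_mul, map_add]

lemma xs_tw (s j : ℤ) (P : Par N D) : xs X s (P.tw j) = xs X (s + j) P := by
  unfold xs; rw [Par.tw_tw]

lemma xs_add_D (s : ℤ) (P : Par N D) : xs X (s + D) P = xs X s P := by
  have hU : mk 1 1 0 1 (by ring) ∈ Gamma0 N := by
    rw [mem_Gamma0_iff_dvd]; exact dvd_zero _
  have e : (P.tw (s + D)).toG * ⟨_, hU⟩ = ⟨_, hU⟩ * (P.tw s).toG := by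
    apply Subtype.ext
    show (P.tw (s + D)).toSL * mk 1 1 0 1 (by ring) = mk 1 1 0 1 (by ring) * (P.tw s).toSL
    apply ext_entries
    · rw [mul_00, mul_00]; simp [Par.toSL, Par.tw]; ring
    · rw [mul_01, mul_01]; simp [Par.toSL, Par.tw]; ring
    · rw [mul_10, mul_10]; simp [Par.toSL, Par.tw]
    · rw [mul_11, mul_11]; simp [Par.toSL, Par.tw]; ring
  have h := congrArg (fun g => X (Additive.ofMul g)) e
  simp only [ofMul_mul, map_add] at h
  unfold xs
  rw [add_comm] at h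
  exact add_left_cancel h

lemma xs_periodic (P : Par N D) : Function.Periodic (fun s : ℤ => xs X s P) (D : ℤ) :=
  fun s => xs_add_D X s P

lemma xs_congr (P : Par N D) (s s' : ℤ) (h : (D : ℤ) ∣ s - s') : xs X s P = xs X s' P := by
  obtain ⟨k, hk⟩ := h
  have := (xs_periodic X P).int_mul k s'
  have e : s = s' + k * (D : ℤ) := by linarith
  rw [e]; exact this

/-- a parabolic hom kills the twists of the elements of trace `±2`. -/
lemma xs_eq_zero (hpar : IsParabolicHom (Gamma0 N) X) (s : ℤ) (P : Par N D)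
    (h : 2 * P.a + D * P.e = 2 ∨ 2 * P.a + D * P.e = -2) : xs X s P = 0 := by
  unfold xs
  apply par_zero N X hpar (P.tw s).toSL (P.tw s).toSL_mem
  have e : (P.tw s).toSL 0 0 + (P.tw s).toSL 1 1 = 2 * P.a + D * P.e := by
    simp [Par.toSL, Par.tw]; ring
  rw [e]; exact h

end twist

section jacobi

variable {D : ℕ} [Fact D.Prime]

lemma qc_neg (t : ZMod D) : quadraticChar (ZMod D) (-t)
    = quadraticChar (ZMod D) (-1) * quadraticChar (ZMod D) t := by
  rw [← map_mul, neg_one_mul]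

lemma qc_neg_one_sq : quadraticChar (ZMod D) (-1) * quadraticChar (ZMod D) (-1) = 1 := by
  rw [← map_mul]; simp

lemma qc_corr (hD2 : D ≠ 2) (w : ZMod D) :
    ∑ i : ZMod D, quadraticChar (ZMod D) i * quadraticChar (ZMod D) (w - i)
      = quadraticChar (ZMod D) (-1) * (if w = 0 then (D : ℤ) - 1 else -1) := by
  by_cases hw : w = 0
  · subst hw
    simp only [zero_sub, if_true]
    have : ∀ i : ZMod D, quadraticChar (ZMod D) i * quadraticChar (ZMod D) (-i)
        = quadraticChar (ZMod D) (-1) * (1 - if i = 0 then 1 else 0) := by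
      intro i
      rw [qc_neg]
      by_cases hi : i = 0
      · subst hi; simp
      · have := quadraticChar_sq_one hi
        rw [if_neg hi, sub_zero, mul_one]
        linear_combination (quadraticChar (ZMod D) (-1)) * this
    rw [Finset.sum_congr rfl (fun i _ => this i), ← Finset.mul_sum, Finset.sum_sub_distrib]
    simp [ZMod.card]
  · rw [if_neg hw]
    have hχ : quadraticChar (ZMod D) ≠ 1 :=
      quadraticChar_ne_one (by rw [ZMod.ringChar_zmod_n]; exact hD2)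
    have hJ := jacobiSum_nontrivial_inv hχ
    rw [(quadraticChar_isQuadratic (ZMod D)).inv] at hJ
    have e := Equiv.sum_comp (Equiv.mulLeft₀ w hw)
      (fun i => quadraticChar (ZMod D) i * quadraticChar (ZMod D) (w - i))
    rw [← e]
    have : ∀ x : ZMod D, quadraticChar (ZMod D) (w * x) * quadraticChar (ZMod D) (w - w * x)
        = quadraticChar (ZMod D) x * quadraticChar (ZMod D) (1 - x) := by
      intro x
      have hw2 := quadraticChar_sq_one hw
      have : w - w * x = w * (1 - x) := by ring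
      rw [this, map_mul, map_mul]
      linear_combination
        (quadraticChar (ZMod D) x * quadraticChar (ZMod D) (1 - x)) * hw2
    simp only [Equiv.mulLeft₀_apply]
    rw [Finset.sum_congr rfl (fun x _ => this x)]
    rw [jacobiSum] at hJ
    rw [hJ]; ring

/-- inversion of the quadratic twist: a function all of whose twisted translates sum to zero
has all its values equal to the mean. -/
theorem sum_eq_of_twist (hD2 : D ≠ 2) (F : ZMod D → A)
    (h : ∀ j : ZMod D, ∑ t : ZMod D, quadraticChar (ZMod D) t • F (t + j) = 0) (u : ZMod D) :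
    ∑ v : ZMod D, F v = (D : ℤ) • F u := by
  have h1 : ∀ j : ZMod D, ∑ v : ZMod D, quadraticChar (ZMod D) (v - j) • F v = 0 := by
    intro j
    have e := Equiv.sum_comp (Equiv.subRight j) (fun t => quadraticChar (ZMod D) t • F (t + j))
    simp only [Equiv.subRight_apply, sub_add_cancel] at e
    rw [e]; exact h j
  have h2 : ∑ j : ZMod D, quadraticChar (ZMod D) (j - u) •
      ∑ v : ZMod D, quadraticChar (ZMod D) (v - j) • F v = 0 := by
    refine Finset.sum_eq_zero fun j _ => ?_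
    rw [h1 j, smul_zero]
  simp_rw [Finset.smul_sum, smul_smul] at h2
  rw [Finset.sum_comm] at h2
  simp_rw [← Finset.sum_smul] at h2
  have h3 : ∀ v : ZMod D, ∑ j : ZMod D, quadraticChar (ZMod D) (j - u) *
      quadraticChar (ZMod D) (v - j)
      = quadraticChar (ZMod D) (-1) * (if v = u then (D : ℤ) - 1 else -1) := by
    intro v
    have e := Equiv.sum_comp (Equiv.subRight u)
      (fun i => quadraticChar (ZMod D) i * quadraticChar (ZMod D) (v - u - i))
    simp only [Equiv.subRight_apply, sub_sub_sub_cancel_right] at e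
    rw [e, qc_corr hD2 (v - u)]
    simp only [sub_eq_zero]
  simp_rw [h3, mul_smul] at h2
  rw [← Finset.smul_sum] at h2
  have h4 := congrArg (fun x => quadraticChar (ZMod D) (-1) • x) h2
  simp only [smul_smul, qc_neg_one_sq, one_smul, smul_zero] at h4
  have h5 : ∀ v : ZMod D, (if v = u then (D : ℤ) - 1 else -1) • F v
      = (if v = u then (D : ℤ) • F v else 0) - F v := by
    intro v; split_ifs <;> simp [sub_smul]
  rw [Finset.sum_congr rfl (fun v _ => h5 v), Finset.sum_sub_distrib, Finset.sum_ite_eq'] at h4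
  simp only [Finset.mem_univ, if_true] at h4
  exact (sub_eq_zero.mp h4).symm

end jacobi


/-! ### The quadratic twist and its row symbol -/

/-- admissible first entries for the group `G'`. -/
def Adm (N D : ℕ) (a : ℤ) : Prop := IsCoprime a (N : ℤ) ∧ ((D : ℤ) ∣ a - 1 ∨ (D : ℤ) ∣ a + 1)

namespace Par

variable {N D : ℕ}

lemma coprime_ab (P : Par N D) : IsCoprime P.a P.b :=
  ⟨P.a + D * P.e, -(D ^ 2 * P.c), by linear_combination P.det⟩

lemma coprime_aN (P : Par N D) : IsCoprime P.a (N : ℤ) := by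
  obtain ⟨u, hu⟩ := P.hN
  exact ⟨P.a + D * P.e, -(P.b * D ^ 2 * u), by
    have := P.det; rw [hu] at this; linear_combination this⟩

lemma adm (hD : D.Prime) (P : Par N D) : Adm N D P.a := by
  refine ⟨P.coprime_aN, ?_⟩
  have hp : Prime (D : ℤ) := Nat.prime_iff_prime_int.mp hD
  have : (D : ℤ) ∣ (P.a - 1) * (P.a + 1) :=
    ⟨P.b * D * P.c - P.a * P.e, by linear_combination P.det⟩
  exact hp.dvd_or_dvd this

/-- two parameters with the same first row differ by a lower unipotent element. -/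
lemma exists_mul_of_row (hD : D ≠ 0) (P Q : Par N D) (ha : Q.a = P.a) (hb : Q.b = P.b) :
    ∃ R : Par N D, R.a = 1 ∧ R.e = 0 ∧ Q = R.mul P := by
  obtain ⟨u, hu⟩ := P.hN
  obtain ⟨v, hv⟩ := Q.hN
  refine ⟨⟨1, 0, Q.c * (P.a + D * P.e) - P.c * (P.a + D * Q.e), 0, by ring,
    ⟨v * (P.a + D * P.e) - u * (P.a + D * Q.e), by rw [hu, hv]; ring⟩⟩, rfl, rfl, ?_⟩
  have hP := P.det
  have hQ := Q.det
  rw [ha, hb] at hQ
  apply Par.ext'
  · simp [Par.mul, ha]
  · simp [Par.mul, hb]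
  · simp only [Par.mul]; linear_combination -(Q.c) * hP + P.c * hQ
  · simp only [Par.mul]
    have hD' : (D : ℤ) ≠ 0 := by exact_mod_cast hD
    apply mul_left_cancel₀ hD'
    linear_combination -(D * Q.e + P.a) * hP + (D * P.e + P.a) * hQ

end Par

lemma exists_par {N D : ℕ} (a b : ℤ) (hab : IsCoprime a b) (ha : Adm N D a) (m : ℤ)
    (hm : IsCoprime a m) :
    ∃ (P : Par N D) (c₁ : ℤ), P.a = a ∧ P.b = b ∧ P.c = m * c₁ ∧ (N : ℤ) ∣ c₁ := by
  obtain ⟨haN, haD⟩ := ha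
  obtain ⟨k, hk⟩ : ∃ k : ℤ, a ^ 2 - 1 = D * k := by
    rcases haD with ⟨j, hj⟩ | ⟨j, hj⟩
    · exact ⟨j * (a + 1), by linear_combination (a + 1) * hj⟩
    · exact ⟨j * (a - 1), by linear_combination (a - 1) * hj⟩
  have haD' : IsCoprime a (D : ℤ) := by
    rcases haD with ⟨j, hj⟩ | ⟨j, hj⟩
    · exact ⟨1, -j, by linear_combination hj⟩
    · exact ⟨-1, j, by linear_combination -hj⟩
  obtain ⟨u, v, huv⟩ := ((hab.mul_right haD').mul_right haN).mul_right hm
  refine ⟨⟨a, b, m * (N * (k * v)), -(k * u), ?_, ⟨m * (k * v), by ring⟩⟩, N * (k * v),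
    rfl, rfl, rfl, ⟨k * v, rfl⟩⟩
  linear_combination hk - (D * k) * huv

section symbol

variable {N D : ℕ} [Fact D.Prime] (X : Additive (Gamma0 N) →+ A)

/-- the twisted values as a function on `ZMod D`. -/
def xz (P : Par N D) (t : ZMod D) : A := xs X (t.val : ℤ) P

lemma xz_intCast (P : Par N D) (s : ℤ) : xz X P (s : ZMod D) = xs X s P := by
  unfold xz
  apply xs_congr
  rw [← ZMod.intCast_eq_intCast_iff_dvd_sub]
  simp

lemma xz_zero (P : Par N D) : xz X P 0 = X (Additive.ofMul P.toG) := by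
  have := xz_intCast X P 0
  rw [Int.cast_zero] at this
  rw [this, xs_zero]

lemma xz_tw (P : Par N D) (j : ℤ) (t : ZMod D) : xz X (P.tw j) t = xz X P (t + j) := by
  have : t + (j : ZMod D) = (((t.val : ℤ) + j : ℤ) : ZMod D) := by push_cast; simp
  rw [this, xz_intCast]; unfold xz; rw [xs_tw]

/-- the quadratic twist of `X`. -/
def Y (P : Par N D) : A := ∑ t : ZMod D, quadraticChar (ZMod D) t • xz X P t

lemma Y_mul (P Q : Par N D) : Y X (P.mul Q) = Y X P + Y X Q := by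
  unfold Y xz; simp only [xs_mul, smul_add, Finset.sum_add_distrib]

lemma Y_eq_zero_of_trace (hpar : IsParabolicHom (Gamma0 N) X) (P : Par N D)
    (h : 2 * P.a + D * P.e = 2 ∨ 2 * P.a + D * P.e = -2) : Y X P = 0 := by
  unfold Y xz; simp only [xs_eq_zero X hpar _ P h, smul_zero, Finset.sum_const_zero]

/-- the sign rule for the twist. -/
lemma Y_q (q : ℕ) (hqs : ¬ IsSquare ((q : ℕ) : ZMod D))
    (hK : ∀ g g' : Gamma0 N, ((N * q : ℕ) : ℤ) ∣ (g : SL(2, ℤ)) 1 0 →
      (g' : SL(2, ℤ)) 0 0 = (g : SL(2, ℤ)) 0 0 → (g' : SL(2, ℤ)) 0 1 = q * (g : SL(2, ℤ)) 0 1 →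
      q * (g' : SL(2, ℤ)) 1 0 = (g : SL(2, ℤ)) 1 0 → (g' : SL(2, ℤ)) 1 1 = (g : SL(2, ℤ)) 1 1 →
      X (Additive.ofMul g') = X (Additive.ofMul g))
    (P P' : Par N D) (ha : P'.a = P.a) (hb : P'.b = q * P.b) (hc : q * P'.c = P.c)
    (he : P'.e = P.e) : Y X P' = - Y X P := by
  have hq0 : ((q : ℕ) : ZMod D) ≠ 0 := fun h => hqs (h ▸ IsSquare.zero)
  have hχ : quadraticChar (ZMod D) ((q : ℕ) : ZMod D) = -1 :=
    quadraticChar_neg_one_iff_not_isSquare.mpr hqs
  unfold Y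
  rw [← Equiv.sum_comp (Equiv.mulLeft₀ ((q : ℕ) : ZMod D) hq0), ← Finset.sum_neg_distrib]
  refine Finset.sum_congr rfl fun s _ => ?_
  have e1 : xz X P' (((q : ℕ) : ZMod D) * s) = xz X P s := by
    have : ((q : ℕ) : ZMod D) * s = (((q : ℤ) * (s.val : ℤ) : ℤ) : ZMod D) := by
      push_cast; simp
    rw [this, xz_intCast]
    unfold xz xs
    obtain ⟨k, hk⟩ := P'.hN
    apply hK
    · show ((N * q : ℕ) : ℤ) ∣ (D : ℤ) ^ 2 * P.c
      exact ⟨D ^ 2 * k, by rw [← hc, hk]; push_cast; ring⟩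
    · show P'.a + (q : ℤ) * (s.val : ℤ) * D * P'.c = P.a + (s.val : ℤ) * D * P.c
      rw [ha, ← hc]; ring
    · show P'.b + (q : ℤ) * (s.val : ℤ) * P'.e - ((q : ℤ) * (s.val : ℤ)) ^ 2 * P'.c
        = q * (P.b + (s.val : ℤ) * P.e - (s.val : ℤ) ^ 2 * P.c)
      rw [hb, he, ← hc]; ring
    · show (q : ℤ) * ((D : ℤ) ^ 2 * P'.c) = (D : ℤ) ^ 2 * P.c
      rw [← hc]; ring
    · show P'.a + (q : ℤ) * (s.val : ℤ) * D * P'.c
          + D * (P'.e - 2 * ((q : ℤ) * (s.val : ℤ)) * P'.c)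
        = P.a + (s.val : ℤ) * D * P.c + D * (P.e - 2 * (s.val : ℤ) * P.c)
      rw [ha, he, ← hc]; ring
  rw [Equiv.mulLeft₀_apply, map_mul, hχ, e1]
  simp

/-- the row symbol of the quadratic twist. -/
noncomputable def S (a b : ℤ) : A :=
  open Classical in
  if h : ∃ P : Par N D, P.a = a ∧ P.b = b then Y X h.choose else 0

lemma S_eq (hpar : IsParabolicHom (Gamma0 N) X) (P : Par N D) :
    S (D := D) X P.a P.b = Y X P := by
  have hD0 : D ≠ 0 := (Fact.out : D.Prime).ne_zero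
  have h : ∃ Q : Par N D, Q.a = P.a ∧ Q.b = P.b := ⟨P, rfl, rfl⟩
  unfold S
  rw [dif_pos h]
  obtain ⟨R, hRa, hRe, hR⟩ :=
    Par.exists_mul_of_row hD0 P h.choose h.choose_spec.1 h.choose_spec.2
  rw [hR, Y_mul, Y_eq_zero_of_trace X hpar R (Or.inl (by rw [hRa, hRe]; ring)), zero_add]

lemma S_eq' (hpar : IsParabolicHom (Gamma0 N) X) (P : Par N D) (a b : ℤ) (ha : P.a = a)
    (hb : P.b = b) : S (D := D) X a b = Y X P := by
  subst ha hb; exact S_eq X hpar P

/-- **The quadratic twist vanishes** (Lemma A' of helper6). -/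
theorem Y_eq_zero [NeZero N] (h2 : ∀ x : A, x + x = 0 → x = 0) (q : ℕ) (hq : q.Prime)
    (hqN : ¬ q ∣ N) (hqD : q ≠ D) (hqs : ¬ IsSquare ((q : ℕ) : ZMod D))
    (hpar : IsParabolicHom (Gamma0 N) X)
    (hK : ∀ g g' : Gamma0 N, ((N * q : ℕ) : ℤ) ∣ (g : SL(2, ℤ)) 1 0 →
      (g' : SL(2, ℤ)) 0 0 = (g : SL(2, ℤ)) 0 0 → (g' : SL(2, ℤ)) 0 1 = q * (g : SL(2, ℤ)) 0 1 →
      q * (g' : SL(2, ℤ)) 1 0 = (g : SL(2, ℤ)) 1 0 → (g' : SL(2, ℤ)) 1 1 = (g : SL(2, ℤ)) 1 1 →
      X (Additive.ofMul g') = X (Additive.ofMul g))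
    (P : Par N D) : Y X P = 0 := by
  have hD : D.Prime := Fact.out
  have hN : 0 < N := Nat.pos_of_ne_zero (NeZero.ne N)
  have hM : 0 < N * D ^ 2 := Nat.mul_pos hN (pow_pos hD.pos 2)
  have hqM : ¬ q ∣ N * D ^ 2 := by
    intro h
    rcases (Nat.Prime.dvd_mul hq).mp h with h | h
    · exact hqN h
    · exact hqD ((Nat.prime_dvd_prime_iff_eq hq hD).mp (hq.dvd_of_dvd_pow h))
  have admD : ∀ a : ℤ, Adm N D a → IsCoprime a (D : ℤ) := by
    rintro a ⟨-, ⟨j, hj⟩ | ⟨j, hj⟩⟩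
    · exact ⟨1, -j, by linear_combination hj⟩
    · exact ⟨-1, j, by linear_combination -hj⟩
  have key := S41_RowSym.rowSymbol_eq_zero h2 (N * D ^ 2) q hM hq hqM (Adm N D)
    ?_ ?_ ?_ (S (D := D) X) ?_ ?_ ?_ ?_
  · rw [← S_eq X hpar P]
    exact key P.a P.b (P.adm hD) P.coprime_ab
  · -- hPadd
    rintro a b ⟨haN, haD⟩
    refine ⟨?_, ?_⟩
    · have e : a + ((N * D ^ 2 : ℕ) : ℤ) * b = a + (N : ℤ) * ((D : ℤ) ^ 2 * b) := by
        push_cast; ring
      rw [e]; exact haN.add_mul_left_left _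
    · rcases haD with ⟨j, hj⟩ | ⟨j, hj⟩
      · exact Or.inl ⟨j + N * D * b, by push_cast; linear_combination hj⟩
      · exact Or.inr ⟨j + N * D * b, by push_cast; linear_combination hj⟩
  · -- hPneg
    rintro a ⟨haN, haD⟩
    refine ⟨haN.neg_left, ?_⟩
    rcases haD with ⟨j, hj⟩ | ⟨j, hj⟩
    · exact Or.inr ⟨-j, by linear_combination -hj⟩
    · exact Or.inl ⟨-j, by linear_combination -hj⟩
  · -- hPcop
    intro a ha
    have := admD a ha
    push_cast
    exact ha.1.mul_right this.pow_right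
  · -- R1
    intro a b ha hab
    obtain ⟨P, c₁, hPa, hPb, -, -⟩ := exists_par (N := N) (D := D) a b hab ha 1 isCoprime_one_right
    have hU : Y X (⟨1, 1, 0, 0, by ring, dvd_zero _⟩ : Par N D) = 0 :=
      Y_eq_zero_of_trace X hpar _ (Or.inl (by simp))
    rw [S_eq' X hpar (P.mul ⟨1, 1, 0, 0, by ring, dvd_zero _⟩) a (b + a)
        (by simp [Par.mul, hPa]) (by simp [Par.mul, hPa, hPb]; ring),
      S_eq' X hpar P a b hPa hPb, Y_mul, hU, add_zero]
  · -- R2
    intro a b ha hab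
    obtain ⟨P, c₁, hPa, hPb, -, -⟩ := exists_par (N := N) (D := D) a b hab ha 1 isCoprime_one_right
    have hL : Y X (⟨1, 0, N, 0, by ring, dvd_rfl⟩ : Par N D) = 0 :=
      Y_eq_zero_of_trace X hpar _ (Or.inl (by simp))
    rw [S_eq' X hpar (P.mul ⟨1, 0, N, 0, by ring, dvd_rfl⟩) (a + ((N * D ^ 2 : ℕ) : ℤ) * b) b
        (by simp [Par.mul, hPa, hPb]; ring) (by simp [Par.mul, hPb]),
      S_eq' X hpar P a b hPa hPb, Y_mul, hL, add_zero]
  · -- R3
    intro a b ha hab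
    obtain ⟨P, c₁, hPa, hPb, -, -⟩ := exists_par (N := N) (D := D) a b hab ha 1 isCoprime_one_right
    have hm : Y X (⟨-1, 0, 0, 0, by ring, dvd_zero _⟩ : Par N D) = 0 :=
      Y_eq_zero_of_trace X hpar _ (Or.inr (by simp))
    rw [S_eq' X hpar ((⟨-1, 0, 0, 0, by ring, dvd_zero _⟩ : Par N D).mul P) (-a) (-b)
        (by simp [Par.mul, hPa]) (by simp [Par.mul, hPb]),
      S_eq' X hpar P a b hPa hPb, Y_mul, hm, zero_add]
  · -- R4
    intro a b ha hab hqa
    have hqa' : IsCoprime a (q : ℤ) := by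
      rw [isCoprime_comm]
      exact (Int.prime_iff_natAbs_prime.mpr (by simpa using hq)).coprime_iff_not_dvd.mpr hqa
    obtain ⟨P, c₁, hPa, hPb, hPc, hc₁⟩ := exists_par (N := N) (D := D) a b hab ha q hqa'
    have hdet : P.a * (P.a + D * P.e) - (q * P.b) * (D ^ 2 * c₁) = 1 := by
      have := P.det; rw [hPc] at this; linear_combination this
    rw [S_eq' X hpar (⟨P.a, q * P.b, c₁, P.e, hdet, hc₁⟩ : Par N D) a (q * b) hPa (by rw [← hPb]),
      S_eq' X hpar P a b hPa hPb]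
    exact Y_q X q hqs hK P _ rfl rfl hPc.symm rfl

/-- **Untwisting**: the sum of the `D` twists of `X` is `D • X` on `G'`. -/
theorem sum_xz [NeZero N] (h2 : ∀ x : A, x + x = 0 → x = 0) (hD2 : D ≠ 2) (q : ℕ)
    (hq : q.Prime) (hqN : ¬ q ∣ N) (hqD : q ≠ D) (hqs : ¬ IsSquare ((q : ℕ) : ZMod D))
    (hpar : IsParabolicHom (Gamma0 N) X)
    (hK : ∀ g g' : Gamma0 N, ((N * q : ℕ) : ℤ) ∣ (g : SL(2, ℤ)) 1 0 →
      (g' : SL(2, ℤ)) 0 0 = (g : SL(2, ℤ)) 0 0 → (g' : SL(2, ℤ)) 0 1 = q * (g : SL(2, ℤ)) 0 1 →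
      q * (g' : SL(2, ℤ)) 1 0 = (g : SL(2, ℤ)) 1 0 → (g' : SL(2, ℤ)) 1 1 = (g : SL(2, ℤ)) 1 1 →
      X (Additive.ofMul g') = X (Additive.ofMul g))
    (P : Par N D) : ∑ t : ZMod D, xz X P t = (D : ℤ) • X (Additive.ofMul P.toG) := by
  rw [← xz_zero]
  refine sum_eq_of_twist hD2 (xz X P) (fun j => ?_) 0
  have h := Y_eq_zero X h2 q hq hqN hqD hqs hpar hK (P.tw (j.val : ℤ))
  unfold Y at h
  rw [← h]
  refine Finset.sum_congr rfl fun t _ => ?_
  rw [xz_tw]; simp

end symbol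

end Fermat.Agent.S41_ThmB
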