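import Fermat.Prelude.Def_ModularCurve_PeriodMap
import Fermat.Agent.S16_Hecke
import Fermat.Agent.S41_Twist
import Mathlib

/-!
# Theorem B for S41, part 2: recurrence, the `T_D` coset identity, the prime rows

Linear recurrences in a `p`-torsion group are periodic; the coset identity
`T_D X (d g d⁻¹) = X (d² g d⁻²) + ∑ twists`; the row symbol of an eigenvector vanishes on rows
`(l, c)` with `l` a prime `≡ -1 mod 4 D e` (helper5's recurrence argument).
-/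

set_option autoImplicit false

open Matrix MatrixGroups CongruenceSubgroup ModularCurve.Period

namespace Fermat.Agent.S41_ThmB

open Fermat.Agent.S41_LemA

variable {A : Type*} [AddCommGroup A]

/-! ### Linear recurrences in a `p`-torsion group are periodic -/

section recurrence

theorem rec_period (p : ℕ) [Fact p.Prime] (t d : ℤ) (hd : ¬ (p : ℤ) ∣ d)
    (hp : ∀ x : A, (p : ℤ) • x = 0) (u : ℕ → A)
    (hu : ∀ j, u (j + 2) = t • u (j + 1) - d • u j) (i : ℕ) :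
    u (i + Nat.card (Matrix (Fin 2) (Fin 2) (ZMod p))ˣ) = u i := by
  set C : Matrix (Fin 2) (Fin 2) ℤ := !![0, 1; -d, t] with hC
  have key : ∀ j : ℕ, u (i + j) = (C ^ j) 0 0 • u i + (C ^ j) 0 1 • u (i + 1) ∧
      u (i + j + 1) = (C ^ j) 1 0 • u i + (C ^ j) 1 1 • u (i + 1) := by
    intro j
    induction j with
    | zero => simp
    | succ n ih =>
      obtain ⟨ih1, ih2⟩ := ih
      have e00 : (C ^ (n + 1)) 0 0 = (C ^ n) 1 0 := by
        rw [pow_succ', hC]; simp [Matrix.mul_apply, Fin.sum_univ_two]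
      have e01 : (C ^ (n + 1)) 0 1 = (C ^ n) 1 1 := by
        rw [pow_succ', hC]; simp [Matrix.mul_apply, Fin.sum_univ_two]
      have e10 : (C ^ (n + 1)) 1 0 = -d * (C ^ n) 0 0 + t * (C ^ n) 1 0 := by
        rw [pow_succ', hC]; simp [Matrix.mul_apply, Fin.sum_univ_two]
      have e11 : (C ^ (n + 1)) 1 1 = -d * (C ^ n) 0 1 + t * (C ^ n) 1 1 := by
        rw [pow_succ', hC]; simp [Matrix.mul_apply, Fin.sum_univ_two]
      refine ⟨?_, ?_⟩
      · rw [e00, e01, ← add_assoc]; exact ih2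
      · have := hu (i + n)
        have e : i + (n + 1) + 1 = i + n + 2 := by ring
        rw [e, this, ih2, ih1, e10, e11]
        module
  set e := Nat.card (Matrix (Fin 2) (Fin 2) (ZMod p))ˣ with he
  set f := (Int.castRingHom (ZMod p)).mapMatrix (m := Fin 2) with hf
  have hdet : (f C).det = ((d : ℤ) : ZMod p) := by
    rw [hf, ← RingHom.map_det, hC, Matrix.det_fin_two_of]; simp
  have hd0 : ((d : ℤ) : ZMod p) ≠ 0 := by
    rw [Ne, ZMod.intCast_zmod_eq_zero_iff_dvd]; exact hd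
  have hunit : IsUnit (f C) := by
    rw [Matrix.isUnit_iff_isUnit_det, hdet]; exact hd0.isUnit
  obtain ⟨g, hg⟩ := hunit
  have hge : g ^ e = 1 := pow_card_eq_one'
  have hCe : f (C ^ e) = 1 := by
    rw [map_pow, ← hg, ← Units.val_pow_eq_pow_val, hge, Units.val_one]
  have h00 : (((C ^ e) 0 0 : ℤ) : ZMod p) = 1 := by
    have := congrFun (congrFun hCe 0) 0
    simpa [hf] using this
  have h01 : (((C ^ e) 0 1 : ℤ) : ZMod p) = 0 := by
    have := congrFun (congrFun hCe 0) 1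
    simpa [hf] using this
  obtain ⟨k₀, hk₀⟩ : (p : ℤ) ∣ (C ^ e) 0 0 - 1 := by
    rw [← ZMod.intCast_zmod_eq_zero_iff_dvd]; push_cast; rw [h00]; ring
  obtain ⟨k₁, hk₁⟩ : (p : ℤ) ∣ (C ^ e) 0 1 := by
    rw [← ZMod.intCast_zmod_eq_zero_iff_dvd]; exact h01
  have h1 := (key e).1
  have e0 : (C ^ e) 0 0 = 1 + p * k₀ := by linarith
  rw [h1, e0, hk₁, add_smul, one_smul, mul_comm (p : ℤ) k₀, mul_comm (p : ℤ) k₁, mul_smul,
    mul_smul, hp, hp, smul_zero, smul_zero, add_zero, add_zero]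

end recurrence


/-! ### The coset identity for `T_D` -/

section coset

open Fermat.Agent.S16_Hecke
open Matrix.SpecialLinearGroup (mapGL)

/-- converse of `S22_Hecke.entries_of_rel`. -/
theorem rel_of_entries {α α' : GL (Fin 2) ℝ} {γ g' : SL(2, ℤ)} {a b d a' b' d' : ℕ}
    (hα : (α : Matrix (Fin 2) (Fin 2) ℝ) = !![(a : ℝ), (b : ℝ); 0, (d : ℝ)])
    (hα' : (α' : Matrix (Fin 2) (Fin 2) ℝ) = !![(a' : ℝ), (b' : ℝ); 0, (d' : ℝ)])
    (e1 : (a : ℤ) * γ 0 0 + b * γ 1 0 = g' 0 0 * a')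
    (e2 : (a : ℤ) * γ 0 1 + b * γ 1 1 = g' 0 0 * b' + g' 0 1 * d')
    (e3 : (d : ℤ) * γ 1 0 = g' 1 0 * a')
    (e4 : (d : ℤ) * γ 1 1 = g' 1 0 * b' + g' 1 1 * d') :
    α * mapGL ℝ γ = mapGL ℝ g' * α' := by
  apply Units.ext
  simp only [Matrix.GeneralLinearGroup.coe_mul, hα, hα']
  ext i j
  fin_cases i <;> fin_cases j
  · simp [Matrix.mul_apply, Fin.sum_univ_two]; exact_mod_cast e1
  · simp [Matrix.mul_apply, Fin.sum_univ_two]; exact_mod_cast e2
  · simp [Matrix.mul_apply, Fin.sum_univ_two]; exact_mod_cast e3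
  · simp [Matrix.mul_apply, Fin.sum_univ_two]; exact_mod_cast e4

variable {N D : ℕ}

/-- `diag(D,1) g diag(D,1)⁻¹`. -/
def Par.gam (P : Par N D) : Gamma0 N :=
  ⟨S41_LemA.mk P.a (D * P.b) (D * P.c) (P.a + D * P.e) (by linear_combination P.det), by
    rw [mem_Gamma0_iff_dvd]; exact Dvd.dvd.mul_left P.hN _⟩

/-- `diag(D²,1) g diag(D²,1)⁻¹`. -/
def Par.del (P : Par N D) : Gamma0 N :=
  ⟨S41_LemA.mk P.a (D ^ 2 * P.b) P.c (P.a + D * P.e) (by linear_combination P.det), by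
    rw [mem_Gamma0_iff_dvd]; exact P.hN⟩

theorem op_gam [Fact D.Prime] (hD : D.Prime) (hDN : ¬ D ∣ N) (X : Additive (Gamma0 N) →+ A)
    (P : Par N D) :
    (sysT N hD hDN).op A X (Additive.ofMul P.gam)
      = X (Additive.ofMul P.del) + ∑ t : ZMod D, xz X P t := by
  rw [HeckeSys.op_apply]
  have h1 : (sysT N hD hDN).c P.gam (OnePoint.infty) = P.del := by
    refine ((sysT N hD hDN).eq_of_rel (γ := P.gam) (i := OnePoint.infty) (j := OnePoint.infty)
      (g' := P.del) ?_).2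
    refine rel_of_entries ((sysT N hD hDN).hA _) ((sysT N hD hDN).hA _) ?_ ?_ ?_ ?_
    · show ((D : ℕ) : ℤ) * P.a + ((0 : ℕ) : ℤ) * ((D : ℤ) * P.c) = P.a * ((D : ℕ) : ℤ)
      push_cast; ring
    · show ((D : ℕ) : ℤ) * ((D : ℤ) * P.b) + ((0 : ℕ) : ℤ) * (P.a + D * P.e)
        = P.a * ((0 : ℕ) : ℤ) + ((D : ℤ) ^ 2 * P.b) * ((1 : ℕ) : ℤ)
      push_cast; ring
    · show ((1 : ℕ) : ℤ) * ((D : ℤ) * P.c) = P.c * ((D : ℕ) : ℤ)
      push_cast; ring
    · show ((1 : ℕ) : ℤ) * (P.a + D * P.e) = P.c * ((0 : ℕ) : ℤ) + (P.a + D * P.e) * ((1 : ℕ) : ℤ)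
      push_cast; ring
  have h2 : ∀ t : ZMod D, (sysT N hD hDN).c P.gam (t : OnePoint (ZMod D))
      = (P.tw (t.val : ℤ)).toG := by
    intro t
    refine ((sysT N hD hDN).eq_of_rel (γ := P.gam) (i := (t : OnePoint (ZMod D)))
      (j := (t : OnePoint (ZMod D))) (g' := (P.tw (t.val : ℤ)).toG) ?_).2
    refine rel_of_entries ((sysT N hD hDN).hA _) ((sysT N hD hDN).hA _) ?_ ?_ ?_ ?_
    · show ((1 : ℕ) : ℤ) * P.a + ((t.val : ℕ) : ℤ) * ((D : ℤ) * P.c)
        = (P.a + (t.val : ℤ) * D * P.c) * ((1 : ℕ) : ℤ)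
      push_cast; ring
    · show ((1 : ℕ) : ℤ) * ((D : ℤ) * P.b) + ((t.val : ℕ) : ℤ) * (P.a + D * P.e)
        = (P.a + (t.val : ℤ) * D * P.c) * ((t.val : ℕ) : ℤ)
          + (P.b + (t.val : ℤ) * P.e - (t.val : ℤ) ^ 2 * P.c) * ((D : ℕ) : ℤ)
      push_cast; ring
    · show ((D : ℕ) : ℤ) * ((D : ℤ) * P.c) = ((D : ℤ) ^ 2 * P.c) * ((1 : ℕ) : ℤ)
      push_cast; ring
    · show ((D : ℕ) : ℤ) * (P.a + D * P.e)
        = ((D : ℤ) ^ 2 * P.c) * ((t.val : ℕ) : ℤ)
          + (P.a + (t.val : ℤ) * D * P.c + D * (P.e - 2 * (t.val : ℤ) * P.c)) * ((D : ℕ) : ℤ)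
      ring
  have h3 : ∑ i : OnePoint (ZMod D), X (Additive.ofMul ((sysT N hD hDN).c P.gam i))
      = X (Additive.ofMul ((sysT N hD hDN).c P.gam OnePoint.infty))
        + ∑ t : ZMod D, X (Additive.ofMul ((sysT N hD hDN).c P.gam (t : OnePoint (ZMod D)))) :=
    Fintype.sum_option _
  rw [h3, h1]
  congr 1
  refine Finset.sum_congr rfl fun t _ => ?_
  rw [h2]; rfl

end coset


/-! ### Row symbols of level `N` -/

section rows

variable (N : ℕ) (X : Additive (Gamma0 N) →+ A)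

lemma rowSym_R1 (hpar : IsParabolicHom (Gamma0 N) X) (a b : ℤ) (ha : IsCoprime a (N : ℤ))
    (hab : IsCoprime a b) : rowSym N X a (b + a) = rowSym N X a b := by
  obtain ⟨g, hg0, hg1⟩ := exists_row N a b hab ha
  have hU : mk 1 1 0 1 (by ring) ∈ Gamma0 N := by
    rw [mem_Gamma0_iff_dvd]; exact dvd_zero _
  rw [rowSym_eq' N X hpar (g * ⟨_, hU⟩) a (b + a) (by
      show ((g : SL(2, ℤ)) * mk 1 1 0 1 (by ring)) 0 0 = a
      rw [mul_00]; simp [hg0]) (by
      show ((g : SL(2, ℤ)) * mk 1 1 0 1 (by ring)) 0 1 = b + a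
      rw [mul_01]; simp [hg0, hg1]; ring),
    rowSym_eq' N X hpar g a b hg0 hg1, map_mul',
    par_zero N X hpar _ hU (Or.inl (by simp)), add_zero]

lemma rowSym_R2 (hpar : IsParabolicHom (Gamma0 N) X) (a b : ℤ) (ha : IsCoprime a (N : ℤ))
    (hab : IsCoprime a b) : rowSym N X (a + N * b) b = rowSym N X a b := by
  obtain ⟨g, hg0, hg1⟩ := exists_row N a b hab ha
  have hL : mk 1 0 N 1 (by ring) ∈ Gamma0 N := by
    rw [mem_Gamma0_iff_dvd]; exact dvd_rfl
  rw [rowSym_eq' N X hpar (g * ⟨_, hL⟩) (a + N * b) b (by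
      show ((g : SL(2, ℤ)) * mk 1 0 N 1 (by ring)) 0 0 = a + N * b
      rw [mul_00]; simp [hg0, hg1]; ring) (by
      show ((g : SL(2, ℤ)) * mk 1 0 N 1 (by ring)) 0 1 = b
      rw [mul_01]; simp [hg1]),
    rowSym_eq' N X hpar g a b hg0 hg1, map_mul',
    par_zero N X hpar _ hL (Or.inl (by simp)), add_zero]

lemma rowSym_R3 (hpar : IsParabolicHom (Gamma0 N) X) (a b : ℤ) (ha : IsCoprime a (N : ℤ))
    (hab : IsCoprime a b) : rowSym N X (-a) (-b) = rowSym N X a b := by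
  obtain ⟨g, hg0, hg1⟩ := exists_row N a b hab ha
  have hm : mk (-1) 0 0 (-1) (by ring) ∈ Gamma0 N := by
    rw [mem_Gamma0_iff_dvd]; exact dvd_zero _
  rw [rowSym_eq' N X hpar (⟨_, hm⟩ * g) (-a) (-b) (by
      show (mk (-1) 0 0 (-1) (by ring) * (g : SL(2, ℤ))) 0 0 = -a
      rw [mul_00]; simp [hg0]) (by
      show (mk (-1) 0 0 (-1) (by ring) * (g : SL(2, ℤ))) 0 1 = -b
      rw [mul_01]; simp [hg1]),
    rowSym_eq' N X hpar g a b hg0 hg1, map_mul',
    par_zero N X hpar _ hm (Or.inr (by simp)), zero_add]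

end rows

/-- quadratic reciprocity: an odd prime `D` is a square modulo a prime `l ≡ 3 mod 4`,
`l ≡ -1 mod D`. -/
lemma isSquare_of_neg_one (D l : ℕ) [Fact D.Prime] [Fact l.Prime] (hD2 : D ≠ 2)
    (hl4 : l % 4 = 3) (hlD : ((l : ℕ) : ZMod D) = -1) (hne : l ≠ D) :
    IsSquare ((D : ℕ) : ZMod l) := by
  have hDodd : Odd D := (Fact.out : D.Prime).eq_two_or_odd'.resolve_left hD2
  have hq13 : D % 4 = 1 ∨ D % 4 = 3 := by
    have := Nat.odd_iff.mp hDodd; omega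
  rcases hq13 with h | h
  · have key := ZMod.exists_sq_eq_prime_iff_of_mod_four_eq_one (p := D) (q := l) h (by omega)
    rw [← key, hlD]
    exact (ZMod.exists_sq_eq_neg_one_iff (p := D)).mpr (by omega)
  · have key := ZMod.exists_sq_eq_prime_iff_of_mod_four_eq_three (p := l) (q := D) hl4 h hne
    rw [key, hlD]
    exact fun hh => ((ZMod.exists_sq_eq_neg_one_iff (p := D)).mp hh) h

section prime

variable {N D : ℕ}

/-- the row symbol vanishes on the rows `(l, c)`, `l` a prime `≡ -1 mod 4 D e`. -/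
theorem row_prime_zero (p : ℕ) [Fact p.Prime] (hp : ∀ x : A, (p : ℤ) • x = 0)
    [Fact D.Prime] (hD2 : D ≠ 2) (hDp : ¬ (p : ℤ) ∣ (D : ℤ)) (aD : ℤ)
    (hinv : ∀ x : A, (aD - D - 1) • x = 0 → x = 0)
    (X : Additive (Gamma0 N) →+ A) (hpar : IsParabolicHom (Gamma0 N) X)
    (hid : ∀ a b : ℤ, IsCoprime a b → Adm N D a →
      aD • rowSym N X a (D * b) = rowSym N X a (D ^ 2 * b) + (D : ℤ) • rowSym N X a b)
    (l : ℕ) (hl : l.Prime) (hlN : IsCoprime (l : ℤ) (N : ℤ))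
    (hlm : 4 * D * Nat.card (Matrix (Fin 2) (Fin 2) (ZMod p))ˣ ∣ l + 1)
    (c : ℤ) (hlc : IsCoprime (l : ℤ) c) : rowSym N X l c = 0 := by
  have hD : D.Prime := Fact.out
  have : Fact l.Prime := ⟨hl⟩
  set e := Nat.card (Matrix (Fin 2) (Fin 2) (ZMod p))ˣ with he
  obtain ⟨k, hk⟩ := hlm
  have hl4 : l % 4 = 3 := by
    have : l + 1 = 4 * (D * e * k) := by rw [hk]; ring
    omega
  have hDl : (D : ℤ) ∣ (l : ℤ) + 1 := ⟨4 * e * k, by
    have := congrArg (Nat.cast : ℕ → ℤ) hk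
    push_cast at this; rw [this]; ring⟩
  have hlD : ((l : ℕ) : ZMod D) = -1 := by
    have h1 : (((l : ℤ) + 1 : ℤ) : ZMod D) = 0 := (ZMod.intCast_zmod_eq_zero_iff_dvd _ _).mpr hDl
    push_cast at h1
    exact eq_neg_of_add_eq_zero_left h1
  have hne : l ≠ D := by
    intro h
    rw [h] at hDl
    have h1 : (D : ℤ) ∣ 1 := (dvd_add_right dvd_rfl).mp hDl
    have h2 : D ∣ 1 := by exact_mod_cast h1
    exact hD.one_lt.ne' (Nat.dvd_one.mp h2)
  have hsq := isSquare_of_neg_one D l hD2 hl4 hlD hne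
  have hD0 : ((D : ℕ) : ZMod l) ≠ 0 := by
    rw [Ne, ZMod.natCast_eq_zero_iff]
    intro h
    exact hne ((Nat.prime_dvd_prime_iff_eq hl hD).mp h)
  have hE : ((D : ℕ) : ZMod l) ^ (l / 2) = 1 := (ZMod.euler_criterion l hD0).mp hsq
  obtain ⟨k', hk'⟩ : (l : ℤ) ∣ (D : ℤ) ^ (l / 2) - 1 := by
    have : (((D : ℤ) ^ (l / 2) - 1 : ℤ) : ZMod l) = 0 := by
      push_cast; rw [hE]; ring
    exact (ZMod.intCast_zmod_eq_zero_iff_dvd _ _).mp this
  have hlDc : IsCoprime (l : ℤ) (D : ℤ) := by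
    rw [Int.isCoprime_iff_gcd_eq_one, Int.gcd_natCast_natCast]
    exact (Nat.coprime_primes hl hD).mpr hne
  have hAdm : Adm N D (l : ℤ) := ⟨hlN, Or.inr hDl⟩
  have hcop : ∀ j : ℕ, IsCoprime (l : ℤ) ((D : ℤ) ^ j * c) := fun j =>
    (hlDc.pow_right).mul_right hlc
  set u : ℕ → A := fun j => rowSym N X l ((D : ℤ) ^ j * c) with hu_def
  have hu : ∀ j, u (j + 2) = aD • u (j + 1) - (D : ℤ) • u j := by
    intro j
    have h := hid l ((D : ℤ) ^ j * c) (hcop j) hAdm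
    have e1 : (D : ℤ) * ((D : ℤ) ^ j * c) = (D : ℤ) ^ (j + 1) * c := by ring
    have e2 : (D : ℤ) ^ 2 * ((D : ℤ) ^ j * c) = (D : ℤ) ^ (j + 2) * c := by ring
    rw [e1, e2] at h
    exact eq_sub_of_add_eq h.symm
  have hper_e : ∀ i, u (i + e) = u i := rec_period p aD D hDp hp u hu
  have hper_em : ∀ m i : ℕ, u (i + e * m) = u i := by
    intro m
    induction m with
    | zero => intro i; simp
    | succ n ih =>
      intro i
      have : i + e * (n + 1) = (i + e * n) + e := by ring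
      rw [this, hper_e, ih]
  have hper_r : ∀ j, u (j + l / 2) = u j := by
    intro j
    show rowSym N X l ((D : ℤ) ^ (j + l / 2) * c) = rowSym N X l ((D : ℤ) ^ j * c)
    have e1 : (D : ℤ) ^ (j + l / 2) * c = (D : ℤ) ^ j * c + (k' * ((D : ℤ) ^ j * c)) * (l : ℤ) := by
      have : (D : ℤ) ^ (l / 2) = 1 + (l : ℤ) * k' := by linarith
      rw [pow_add, this]; ring
    rw [e1]
    exact S41_RowSym.r1_iter (fun a => IsCoprime a (N : ℤ)) (rowSym N X)
      (fun a b ha hab => rowSym_R1 N X hpar a b ha hab) l _ hlN (hcop j) _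
  have hr : l / 2 + 1 = e * (2 * D * k) := by
    have : l + 1 = 4 * (D * e * k) := by rw [hk]; ring
    have h2 : l / 2 + 1 = 2 * (D * e * k) := by omega
    rw [h2]; ring
  have hconst : ∀ j, u (j + 1) = u j := by
    intro j
    rw [← hper_r (j + 1)]
    have : j + 1 + l / 2 = j + e * (2 * D * k) := by rw [← hr]; ring
    rw [this, hper_em]
  have h0 := hu 0
  rw [show (0 : ℕ) + 2 = 1 + 1 from rfl, hconst 1, show (0 : ℕ) + 1 = 1 from rfl, hconst 0] at h0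
  have h1 : (aD - D - 1) • u 0 = 0 := by
    rw [sub_smul, sub_smul, one_smul, ← h0, sub_self]
  have h2 := hinv _ h1
  simpa [hu_def] using h2

end prime

end Fermat.Agent.S41_ThmB
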