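import Fermat.Prelude.Def_ModularCurve_PeriodMap
import Fermat.Agent.S16_Hecke
import Fermat.Agent.S41_Rec
import Mathlib

/-!
# helper6's Theorem B for S41 (the sign `a_q = +(q+1)`), one-prime form of helper5

A parabolic homomorphism `X : Γ₀(N) → A` (`A` killed by an odd prime `p`) with
`X (d g d⁻¹) = X g` for all `g ∈ Γ₀(N q)`, `d = diag(q, 1)`, which is an eigenvector of `T_D`
with eigenvalue `aD`, `p ∤ aD - D - 1`, for one odd prime `D ∤ N q p` modulo which `q` is not a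
square, vanishes.  (`thmB_of_sum`: the same after the twist step, for any twist.)
-/

set_option autoImplicit false

open Matrix MatrixGroups CongruenceSubgroup ModularCurve.Period

namespace Fermat.Agent.S41_ThmB

open Fermat.Agent.S41_LemA

variable {A : Type*} [AddCommGroup A]

section final

variable {N D : ℕ}

lemma exists_coprime_shift (a b : ℤ) (hab : IsCoprime a b) (m : ℕ) (hm : 0 < m) :
    ∃ k : ℤ, IsCoprime (b + k * a) (m : ℤ) := by
  by_cases ha : a = 0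
  · subst ha
    have hb : IsUnit b := isCoprime_zero_left.mp hab
    obtain ⟨w, hw⟩ := hb.exists_left_inv
    exact ⟨0, ⟨w, 0, by rw [zero_mul, add_zero, zero_mul, add_zero]; exact hw⟩⟩
  · have hna : a.natAbs ≠ 0 := Int.natAbs_ne_zero.mpr ha
    have hcop : IsCoprime b (a.natAbs : ℤ) := by
      rw [Int.isCoprime_iff_gcd_eq_one]
      have := Int.isCoprime_iff_gcd_eq_one.mp hab
      rw [Int.gcd_comm] at this
      simpa [Int.gcd, Int.natAbs_abs] using this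
    obtain ⟨b', hb'gt, hb'p, hb'mod⟩ := Nat.forall_exists_prime_gt_and_zmodEq m hna hcop
    have hdv : a ∣ b - (b' : ℤ) := Int.natAbs_dvd.mp hb'mod.dvd
    obtain ⟨k, hk⟩ := hdv
    refine ⟨-k, ?_⟩
    have : b + -k * a = (b' : ℤ) := by linarith
    rw [this, Int.isCoprime_iff_gcd_eq_one, Int.gcd_natCast_natCast]
    exact (Nat.Prime.coprime_iff_not_dvd hb'p).mpr
      (fun h => by have := Nat.le_of_dvd hm h; omega)

lemma coprime_natAbs (x y : ℤ) (h : IsCoprime x y) : IsCoprime x (y.natAbs : ℤ) := by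
  rcases Int.natAbs_eq y with h' | h'
  · rw [← h']; exact h
  · have e : (y.natAbs : ℤ) = -y := by linarith
    rw [e]; exact h.neg_right

/-- `X` kills the elements with upper left entry `≡ 1 mod N`. -/
theorem X_one_zero [NeZero N] (p : ℕ) [Fact p.Prime] (hp : ∀ x : A, (p : ℤ) • x = 0)
    [Fact D.Prime] (hD2 : D ≠ 2) (hDp : ¬ (p : ℤ) ∣ (D : ℤ)) (aD : ℤ)
    (hinv : ∀ x : A, (aD - D - 1) • x = 0 → x = 0)
    (X : Additive (Gamma0 N) →+ A) (hpar : IsParabolicHom (Gamma0 N) X)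
    (hid : ∀ a b : ℤ, IsCoprime a b → Adm N D a →
      aD • rowSym N X a (D * b) = rowSym N X a (D ^ 2 * b) + (D : ℤ) • rowSym N X a b)
    (g : Gamma0 N) (hg : (N : ℤ) ∣ (g : SL(2, ℤ)) 0 0 - 1) : X (Additive.ofMul g) = 0 := by
  obtain ⟨g, hgm⟩ := g
  simp only at hg
  have hN : 0 < N := Nat.pos_of_ne_zero (NeZero.ne N)
  have hd := det_eq g
  obtain ⟨c₁, hc₁⟩ := (mem_Gamma0_iff_dvd N g).mp hgm
  have haN : IsCoprime (g 0 0) (N : ℤ) :=
    ⟨g 1 1, -(g 0 1 * c₁), by rw [hc₁] at hd; linear_combination hd⟩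
  have hab : IsCoprime (g 0 0) (g 0 1) := ⟨g 1 1, -(g 1 0), by linear_combination hd⟩
  rw [← rowSym_eq' N X hpar ⟨g, hgm⟩ _ _ rfl rfl]
  generalize g 0 0 = a₀ at hg haN hab ⊢
  generalize g 0 1 = b₀ at hab ⊢
  set e := Nat.card (Matrix (Fin 2) (Fin 2) (ZMod p))ˣ with he
  have he0 : 0 < e := Nat.card_pos
  have hD : D.Prime := Fact.out
  have hm4 : 4 ≤ 4 * D * e := by
    have := Nat.mul_le_mul (Nat.mul_le_mul (le_refl 4) hD.pos) he0
    simpa using this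
  have hm0 : 0 < 4 * D * e := by omega
  have R1 := fun a b ha hab => rowSym_R1 N X hpar a b ha hab
  have R2 := fun a b ha hab => rowSym_R2 N X hpar a b ha hab
  have hPadd : ∀ a b : ℤ, IsCoprime a (N : ℤ) → IsCoprime (a + (N : ℤ) * b) (N : ℤ) :=
    fun a b h => h.add_mul_left_left b
  -- Step 1: make `b` coprime to `m`
  obtain ⟨k, hk⟩ := exists_coprime_shift a₀ b₀ hab (4 * D * e) hm0
  have hab₁ : IsCoprime a₀ (b₀ + k * a₀) := hab.add_mul_right_right k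
  have h1 : rowSym N X a₀ (b₀ + k * a₀) = rowSym N X a₀ b₀ :=
    S41_RowSym.r1_iter (fun a => IsCoprime a (N : ℤ)) (rowSym N X) R1 a₀ b₀ haN hab k
  rw [← h1]
  generalize b₀ + k * a₀ = b₁ at hk hab₁ ⊢
  -- Step 2: make `a ≡ 1 mod m`
  obtain ⟨a₁, ha₁⟩ := hg
  obtain ⟨u, v, huv⟩ := hk
  have h2 : rowSym N X (a₀ + (N : ℤ) * (-(a₁ * u) * b₁)) b₁ = rowSym N X a₀ b₁ :=
    S41_RowSym.r2_iter (N : ℤ) (fun a => IsCoprime a (N : ℤ)) hPadd (rowSym N X) R2 a₀ b₁ haN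
      hab₁ (-(a₁ * u))
  rw [← h2]
  have hx₀m : a₀ + (N : ℤ) * (-(a₁ * u) * b₁) = 1 + (N * a₁ * v) * ((4 * D * e : ℕ) : ℤ) := by
    linear_combination ha₁ - N * a₁ * huv
  have hx₀N : IsCoprime (a₀ + (N : ℤ) * (-(a₁ * u) * b₁)) (N : ℤ) := haN.add_mul_left_left _
  have hx₀b : IsCoprime (a₀ + (N : ℤ) * (-(a₁ * u) * b₁)) b₁ := by
    have e' : a₀ + (N : ℤ) * (-(a₁ * u) * b₁) = a₀ + ((N : ℤ) * -(a₁ * u)) * b₁ := by ring
    rw [e']; exact hab₁.add_mul_right_left _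
  have hx₀c : IsCoprime (a₀ + (N : ℤ) * (-(a₁ * u) * b₁)) ((4 * D * e : ℕ) : ℤ) := by
    rw [hx₀m]; exact isCoprime_one_left.add_mul_right_left _
  generalize a₀ + (N : ℤ) * (-(a₁ * u) * b₁) = x₀ at hx₀m hx₀N hx₀b hx₀c ⊢
  -- Step 3: the prime `l`
  have hb₁0 : b₁ ≠ 0 := by
    intro h
    rw [h, mul_zero, zero_add] at huv
    have h' : ((4 * D * e : ℕ) : ℤ) ∣ 1 := ⟨v, by linarith⟩
    have h'' : 4 * D * e ∣ 1 := by exact_mod_cast h'
    have := Nat.le_of_dvd one_pos h''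
    omega
  have hM'0 : N * b₁.natAbs * (4 * D * e) ≠ 0 := by
    have : 0 < b₁.natAbs := Int.natAbs_pos.mpr hb₁0
    positivity
  have hxcop : IsCoprime (-x₀) ((N * b₁.natAbs * (4 * D * e) : ℕ) : ℤ) := by
    rw [IsCoprime.neg_left_iff]
    have h3 := (hx₀N.mul_right (coprime_natAbs _ _ hx₀b)).mul_right hx₀c
    have e' : ((N * b₁.natAbs * (4 * D * e) : ℕ) : ℤ)
        = (N : ℤ) * (b₁.natAbs : ℤ) * ((4 * D * e : ℕ) : ℤ) := by push_cast; ring
    rw [e']; exact h3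
  obtain ⟨l, -, hlp, hlmod⟩ := Nat.forall_exists_prime_gt_and_zmodEq 2 hM'0 hxcop
  obtain ⟨j, hj⟩ := hlmod.symm.dvd
  have hj2 : (l : ℤ) + x₀ = (N : ℤ) * (b₁.natAbs : ℤ) * ((4 * D * e : ℕ) : ℤ) * j := by
    have e' : ((N * b₁.natAbs * (4 * D * e) : ℕ) : ℤ)
        = (N : ℤ) * (b₁.natAbs : ℤ) * ((4 * D * e : ℕ) : ℤ) := by push_cast; ring
    rw [e'] at hj; linarith
  obtain ⟨j', hj'⟩ : ∃ j' : ℤ, -(l : ℤ) = x₀ + (N : ℤ) * (j' * b₁) := by
    rcases Int.natAbs_eq b₁ with h | h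
    · have h' : (b₁.natAbs : ℤ) = b₁ := h.symm
      rw [h'] at hj2
      exact ⟨-(((4 * D * e : ℕ) : ℤ) * j), by linear_combination -hj2⟩
    · have h' : (b₁.natAbs : ℤ) = -b₁ := by linarith
      rw [h'] at hj2
      exact ⟨((4 * D * e : ℕ) : ℤ) * j, by linear_combination -hj2⟩
  have h3 : rowSym N X (-(l : ℤ)) b₁ = rowSym N X x₀ b₁ := by
    rw [hj']
    exact S41_RowSym.r2_iter (N : ℤ) (fun a => IsCoprime a (N : ℤ)) hPadd (rowSym N X) R2 x₀ b₁
      hx₀N hx₀b j'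
  rw [← h3]
  have hlN : IsCoprime (l : ℤ) (N : ℤ) := by
    rw [← IsCoprime.neg_left_iff, hj']; exact hx₀N.add_mul_left_left _
  have hlb : IsCoprime (l : ℤ) (-b₁) := by
    apply IsCoprime.neg_right
    rw [← IsCoprime.neg_left_iff, hj']
    have e' : x₀ + (N : ℤ) * (j' * b₁) = x₀ + ((N : ℤ) * j') * b₁ := by ring
    rw [e']; exact hx₀b.add_mul_right_left _
  have h4 : rowSym N X (-(l : ℤ)) b₁ = rowSym N X l (-b₁) := by
    have := rowSym_R3 N X hpar l (-b₁) hlN hlb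
    rwa [neg_neg] at this
  rw [h4]
  have hlm : 4 * D * e ∣ l + 1 := by
    have h' : ((4 * D * e : ℕ) : ℤ) ∣ ((l + 1 : ℕ) : ℤ) := by
      refine ⟨(N : ℤ) * (b₁.natAbs : ℤ) * j - N * a₁ * v, ?_⟩
      push_cast at hj2 hx₀m ⊢
      linear_combination hj2 - hx₀m
    exact_mod_cast h'
  exact row_prime_zero p hp hD2 hDp aD hinv X hpar hid l hlp hlN hlm (-b₁) hlb

end final


section main

lemma inv_00 (g : SL(2, ℤ)) : (g⁻¹) 0 0 = g 1 1 := by
  rw [Matrix.SpecialLinearGroup.coe_inv, Matrix.adjugate_fin_two]; rfl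

lemma inv_10 (g : SL(2, ℤ)) : (g⁻¹) 1 0 = -g 1 0 := by
  rw [Matrix.SpecialLinearGroup.coe_inv, Matrix.adjugate_fin_two]; rfl

/-- a hom killing the elements with upper left entry `≡ 1 mod N` depends only on the upper
left entry mod `N`. -/
lemma X_congr (N : ℕ) (X : Additive (Gamma0 N) →+ A)
    (h1 : ∀ g : Gamma0 N, (N : ℤ) ∣ (g : SL(2, ℤ)) 0 0 - 1 → X (Additive.ofMul g) = 0)
    (g g' : Gamma0 N) (h : (N : ℤ) ∣ (g' : SL(2, ℤ)) 0 0 - (g : SL(2, ℤ)) 0 0) :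
    X (Additive.ofMul g') = X (Additive.ofMul g) := by
  have e : g' = (g' * g⁻¹) * g := by group
  have hz : X (Additive.ofMul (g' * g⁻¹)) = 0 := by
    apply h1
    show (N : ℤ) ∣ ((g' : SL(2, ℤ)) * (g : SL(2, ℤ))⁻¹) 0 0 - 1
    rw [mul_00, inv_00, inv_10]
    obtain ⟨w, hw⟩ := h
    obtain ⟨c₁, hc₁⟩ := (mem_Gamma0_iff_dvd N (g : SL(2, ℤ))).mp g.2
    have hd := det_eq (g : SL(2, ℤ))
    exact ⟨w * (g : SL(2, ℤ)) 1 1 + ((g : SL(2, ℤ)) 0 1 - (g' : SL(2, ℤ)) 0 1) * c₁, by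
      rw [hc₁] at hd ⊢; linear_combination (g : SL(2, ℤ)) 1 1 * hw + hd⟩
  calc X (Additive.ofMul g') = X (Additive.ofMul ((g' * g⁻¹) * g)) := by rw [← e]
    _ = X (Additive.ofMul g) := by rw [map_mul', hz, zero_add]

/-- **Theorem B, after the twist step.**  A parabolic hom on `Γ₀(N)` with values in a group
killed by the prime `p`, invariant under conjugation by `[1, 1/D; 0, 1]` on `G'` in the summed
form `hsum`, and an eigenvector of `T_D` with eigenvalue `aD`, `p ∤ aD - D - 1`, is zero. -/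
theorem thmB_of_sum (N : ℕ) [NeZero N] (p : ℕ) (hpp : p.Prime) (hp : ∀ x : A, p • x = 0)
    (D : ℕ) [NeZero D] (hD : D.Prime) (hD2 : D ≠ 2) (hDN : ¬ D ∣ N) (hDp : D ≠ p)
    (X : Additive (Gamma0 N) →+ A) (hpar : IsParabolicHom (Gamma0 N) X)
    (hsum : ∀ P : Par N D, ∑ t : ZMod D, xz X P t = (D : ℤ) • X (Additive.ofMul P.toG))
    (aD : ℤ) (hT : (S16_Hecke.sysT N hD hDN).op A X = aD • X)
    (hinv : ¬ (p : ℤ) ∣ aD - D - 1) : X = 0 := by
  have : Fact p.Prime := ⟨hpp⟩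
  have : Fact D.Prime := ⟨hD⟩
  have hpz : ∀ x : A, (p : ℤ) • x = 0 := fun x => by rw [natCast_zsmul]; exact hp x
  have tors : ∀ m : ℤ, ¬ (p : ℤ) ∣ m → ∀ x : A, m • x = 0 → x = 0 := by
    intro m hm x hx
    have hpi : Prime (p : ℤ) := Nat.prime_iff_prime_int.mp hpp
    obtain ⟨u, v, huv⟩ := hpi.coprime_iff_not_dvd.mpr hm
    have : x = (u * p + v * m) • x := by rw [huv, one_smul]
    rw [this, add_smul, mul_smul, mul_smul, hpz, hx, smul_zero, smul_zero, add_zero]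
  have hDp' : ¬ (p : ℤ) ∣ (D : ℤ) := by
    intro h
    have h' : p ∣ D := by exact_mod_cast h
    exact hDp ((Nat.prime_dvd_prime_iff_eq hpp hD).mp h').symm
  have hinv' : ∀ x : A, (aD - D - 1) • x = 0 → x = 0 := tors _ hinv
  -- the coset identity in row-symbol form
  have hid : ∀ a b : ℤ, IsCoprime a b → Adm N D a →
      aD • rowSym N X a (D * b) = rowSym N X a (D ^ 2 * b) + (D : ℤ) • rowSym N X a b := by
    intro a b hab ha
    obtain ⟨P, c₁, hPa, hPb, -, -⟩ :=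
      exists_par (N := N) (D := D) a b hab ha 1 isCoprime_one_right
    have h := op_gam hD hDN X P
    rw [hT, hsum P] at h
    rw [rowSym_eq' N X hpar P.gam a (D * b) hPa (by show (D : ℤ) * P.b = D * b; rw [hPb]),
      rowSym_eq' N X hpar P.del a (D ^ 2 * b) hPa (by show (D : ℤ) ^ 2 * P.b = D ^ 2 * b; rw [hPb]),
      rowSym_eq' N X hpar P.toG a b hPa hPb]
    exact h
  have hone : ∀ g : Gamma0 N, (N : ℤ) ∣ (g : SL(2, ℤ)) 0 0 - 1 → X (Additive.ofMul g) = 0 :=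
    fun g hg => X_one_zero p hpz hD2 hDp' aD hinv' X hpar hid g hg
  -- the Borel computation
  have hDNc : IsCoprime (D : ℤ) (N : ℤ) := by
    rw [Int.isCoprime_iff_gcd_eq_one, Int.gcd_natCast_natCast]
    exact (Nat.Prime.coprime_iff_not_dvd hD).mpr hDN
  obtain ⟨ηD, hη0, -⟩ := exists_row N (D : ℤ) (N : ℤ) hDNc hDNc
  let η : OnePoint (ZMod D) → Gamma0 N := fun i => i.elim ηD (fun _ => 1)
  have hη : ∀ i, ((η i : Gamma0 N) : SL(2, ℤ)) 0 0
      = (((S16_Hecke.sysT N hD hDN).a i : ℕ) : ℤ) := by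
    intro i
    induction i using OnePoint.rec with
    | infty => exact hη0
    | coe j =>
      show ((1 : Gamma0 N) : SL(2, ℤ)) 0 0 = ((1 : ℕ) : ℤ)
      simp
  have hop := (S16_Hecke.sysT N hD hDN).op_eq_card_smul X
    (fun i => X (Additive.ofMul (η i))) ?_
  · rw [hT] at hop
    have hcard : Fintype.card (OnePoint (ZMod D)) = D + 1 := by
      have h : Fintype.card (OnePoint (ZMod D)) = Fintype.card (Option (ZMod D)) := rfl
      rw [h, Fintype.card_option, ZMod.card]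
    rw [hcard] at hop
    refine AddMonoidHom.ext fun g => ?_
    show X g = 0
    apply hinv'
    have h3 : aD • X g = (D + 1) • X g :=
      congrArg (fun φ : Additive (Gamma0 N) →+ A => φ g) hop
    rw [sub_smul, sub_smul, one_smul, h3, natCast_zsmul, add_smul, one_smul]
    abel
  · intro γ i
    rw [← map_mul', ← map_mul']
    apply X_congr N X hone
    obtain ⟨e1, -, -, -⟩ := (S16_Hecke.sysT N hD hDN).entries γ i
    show (N : ℤ) ∣ (((S16_Hecke.sysT N hD hDN).c γ i : SL(2, ℤ))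
        * (η ((S16_Hecke.sysT N hD hDN).s γ i) : SL(2, ℤ))) 0 0
        - ((γ : SL(2, ℤ)) * (η i : SL(2, ℤ))) 0 0
    rw [mul_00, mul_00, hη, hη]
    obtain ⟨w₁, hw₁⟩ := (mem_Gamma0_iff_dvd N _).mp (η ((S16_Hecke.sysT N hD hDN).s γ i)).2
    obtain ⟨w₂, hw₂⟩ := (mem_Gamma0_iff_dvd N _).mp (η i).2
    obtain ⟨w₃, hw₃⟩ := (mem_Gamma0_iff_dvd N _).mp γ.2
    rw [hw₁, hw₂]
    rw [hw₃] at e1
    exact ⟨((S16_Hecke.sysT N hD hDN).b i : ℤ) * w₃
      + ((S16_Hecke.sysT N hD hDN).c γ i : SL(2, ℤ)) 0 1 * w₁ - (γ : SL(2, ℤ)) 0 1 * w₂, by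
      linear_combination -e1⟩

/-- the groups killed by an odd prime have no 2-torsion. -/
lemma no_two_torsion (p : ℕ) (hpp : p.Prime) (hp2 : p ≠ 2) (hp : ∀ x : A, p • x = 0)
    (x : A) (hx : x + x = 0) : x = 0 := by
  have hodd : Odd p := hpp.eq_two_or_odd'.resolve_left hp2
  obtain ⟨k, hk⟩ := hodd
  have h1 := hp x
  rw [hk, add_smul, one_smul, mul_comm, mul_smul, two_smul, hx, smul_zero, zero_add] at h1
  exact h1

/-- **Theorem B** (one-prime form, quadratic twist).  A parabolic hom on `Γ₀(N)` with values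
in a group killed by the odd prime `p`, invariant under `g ↦ d g d⁻¹` (`d = diag(q,1)`) on
`Γ₀(N q)`, and an eigenvector of `T_D` with eigenvalue `aD`, `p ∤ aD - D - 1`, for one odd prime
`D ∤ N q p` with `q` a non-square mod `D`, is zero. -/
theorem thmB (N : ℕ) [NeZero N] (p : ℕ) (hpp : p.Prime) (hp2 : p ≠ 2) (hp : ∀ x : A, p • x = 0)
    (q : ℕ) (hq : q.Prime) (hqN : ¬ q ∣ N) (D : ℕ) [NeZero D] (hD : D.Prime) (hD2 : D ≠ 2)
    (hDN : ¬ D ∣ N) (hqD : q ≠ D) (hDp : D ≠ p) (hqs : ¬ IsSquare ((q : ℕ) : ZMod D))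
    (X : Additive (Gamma0 N) →+ A) (hpar : IsParabolicHom (Gamma0 N) X)
    (hK : ∀ g g' : Gamma0 N, ((N * q : ℕ) : ℤ) ∣ (g : SL(2, ℤ)) 1 0 →
      (g' : SL(2, ℤ)) 0 0 = (g : SL(2, ℤ)) 0 0 → (g' : SL(2, ℤ)) 0 1 = q * (g : SL(2, ℤ)) 0 1 →
      q * (g' : SL(2, ℤ)) 1 0 = (g : SL(2, ℤ)) 1 0 → (g' : SL(2, ℤ)) 1 1 = (g : SL(2, ℤ)) 1 1 →
      X (Additive.ofMul g') = X (Additive.ofMul g))
    (aD : ℤ) (hT : (S16_Hecke.sysT N hD hDN).op A X = aD • X)
    (hinv : ¬ (p : ℤ) ∣ aD - D - 1) : X = 0 := by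
  have : Fact D.Prime := ⟨hD⟩
  exact thmB_of_sum N p hpp hp D hD hD2 hDN hDp X hpar
    (fun P => sum_xz X (no_two_torsion p hpp hp2 hp) hD2 q hq hqN hqD hqs hpar hK P) aD hT hinv

end main

end Fermat.Agent.S41_ThmB
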