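import Fermat.Agent.S41_RowSym
import Mathlib

/-!
# Character-twist tools for Theorem B1 (S41)

* `rowSymbol_eq_zero_char`: a row symbol of level `M` with `s a (q b) = ε • s a b`, `ε ≠ 1` an
  `r`-th root of unity (`r` an odd prime, `r ∤ M`), vanishes (Lemma A'' of helper6; Dirichlet
  and Fermat's little theorem only);
* `sum_eq_of_twist_char`: Jacobi-sum inversion of a twist by a nontrivial character of `ℤ/D`;
* `exists_char`: a character of `(ℤ/D)ˣ` of order `r` in an algebraic closure of `𝔽_p`,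
  nontrivial at `q` when `q` is not an `r`-th power mod `D`.
-/

set_option autoImplicit false

namespace Fermat.Agent.S41_ThmB1

variable {A : Type*} [AddCommGroup A]

/-! ### The row-symbol lemma, character form -/

section abstract

variable {R : Type*} [Field R] [Module R A]

/-- (R4') iterated: `s l (q^i c) = ε^i • s l c`. -/
theorem r4c_iter (ε : R) (q : ℕ) (P : ℤ → Prop) (s : ℤ → ℤ → A)
    (R4 : ∀ a b : ℤ, P a → IsCoprime a b → ¬ (q : ℤ) ∣ a → s a (q * b) = ε • s a b)
    (l c : ℤ) (hl : P l) (hlc : IsCoprime l c) (hlq : IsCoprime l (q : ℤ)) (hql : ¬ (q : ℤ) ∣ l)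
    (i : ℕ) : s l ((q : ℤ) ^ i * c) = ε ^ i • s l c := by
  induction i with
  | zero => simp
  | succ n ih =>
    have hc : IsCoprime l ((q : ℤ) ^ n * c) := (hlq.pow_right).mul_right hlc
    have := R4 l ((q : ℤ) ^ n * c) hl hc hql
    rw [pow_succ, mul_comm ((q : ℤ) ^ n) (q : ℤ), mul_assoc, this, ih, pow_succ, mul_comm,
      mul_smul]

/-- **Row-symbol vanishing lemma, character form.**  A row symbol of level `M` with
`s a (q b) = ε • s a b`, `ε ≠ 1` an `r`-th root of unity (`r` an odd prime not dividing `M`),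
vanishes. -/
theorem rowSymbol_eq_zero_char (ε : R) (r : ℕ) (hr : r.Prime) (hr2 : r ≠ 2)
    (hε : ε ^ r = 1) (hε1 : ε ≠ 1) (M q : ℕ) (hM : 0 < M) (hq : q.Prime) (hrM : ¬ r ∣ M)
    (P : ℤ → Prop) (hPadd : ∀ a b : ℤ, P a → P (a + M * b))
    (hPcop : ∀ a, P a → IsCoprime a (M : ℤ)) (s : ℤ → ℤ → A)
    (R1 : ∀ a b : ℤ, P a → IsCoprime a b → s a (b + a) = s a b)
    (R2 : ∀ a b : ℤ, P a → IsCoprime a b → s (a + M * b) b = s a b)
    (R4 : ∀ a b : ℤ, P a → IsCoprime a b → ¬ (q : ℤ) ∣ a → s a (q * b) = ε • s a b) :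
    ∀ a b : ℤ, P a → IsCoprime a b → s a b = 0 := by
  have : Fact r.Prime := ⟨hr⟩
  have main : ∀ a b : ℤ, a ≠ 0 → P a → IsCoprime a b → s a b = 0 := by
    intro a b ha0 ha hab
    -- Step 1: replace `b` by a large prime `b'`
    have hna : a.natAbs ≠ 0 := Int.natAbs_ne_zero.mpr ha0
    have hcop : IsCoprime b (a.natAbs : ℤ) := by
      rw [Int.isCoprime_iff_gcd_eq_one]
      have := Int.isCoprime_iff_gcd_eq_one.mp hab
      rw [Int.gcd_comm] at this
      simpa [Int.gcd, Int.natAbs_abs] using this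
    obtain ⟨b', hb'gt, hb'p, hb'mod⟩ := Nat.forall_exists_prime_gt_and_zmodEq r hna hcop
    obtain ⟨k, hk⟩ : a ∣ b - (b' : ℤ) := Int.natAbs_dvd.mp hb'mod.dvd
    have hbe : b = (b' : ℤ) + k * a := by linarith
    have hab' : IsCoprime a (b' : ℤ) := by
      rw [hbe] at hab; exact IsCoprime.of_add_mul_right_right hab
    have hs1 : s a b = s a (b' : ℤ) := by
      rw [hbe]; exact S41_RowSym.r1_iter P s R1 a b' ha hab' k
    rw [hs1]
    -- Step 2: the prime `l ≡ a mod M b'`, `l ≡ -1 mod r`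
    have hcr : Nat.Coprime (M * b') r := by
      have h1 : Nat.Coprime M r := ((Nat.Prime.coprime_iff_not_dvd hr).mpr hrM).symm
      have h2 : Nat.Coprime b' r := (Nat.coprime_primes hb'p hr).mpr (by omega)
      exact h1.mul_left h2
    obtain ⟨x, hx1, hx2⟩ := S41_RowSym.exists_crt (M * b') r hcr a (-1)
    have hxcop : IsCoprime x ((M * b' * r : ℕ) : ℤ) := by
      have h1 : IsCoprime x ((M * b' : ℕ) : ℤ) := by
        have ha1 : IsCoprime a ((M * b' : ℕ) : ℤ) := by
          push_cast; exact (hPcop a ha).mul_right hab'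
        obtain ⟨j, hj⟩ := hx1.symm.dvd
        have : x = a + j * ((M * b' : ℕ) : ℤ) := by linarith
        rw [this]; exact ha1.add_mul_right_left j
      have h2 : IsCoprime x ((r : ℕ) : ℤ) := by
        obtain ⟨j, hj⟩ := hx2.symm.dvd
        have : x = -1 + j * ((r : ℕ) : ℤ) := by linarith
        rw [this]
        have h7 : IsCoprime (-1 : ℤ) ((r : ℕ) : ℤ) := ⟨-1, 0, by ring⟩
        exact h7.add_mul_right_left j
      push_cast at h1 h2 ⊢
      exact h1.mul_right h2
    have hmne : M * b' * r ≠ 0 := by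
      have := hb'p.pos; have := hr.pos; positivity
    obtain ⟨l, hlgt, hlp, hlmod⟩ := Nat.forall_exists_prime_gt_and_zmodEq (q + 2) hmne hxcop
    have hl1 : (l : ℤ) ≡ a [ZMOD ((M * b' : ℕ) : ℤ)] := by
      refine Int.ModEq.trans (Int.ModEq.of_dvd ?_ hlmod) hx1
      push_cast; exact Dvd.intro _ rfl
    have hl2 : (l : ℤ) ≡ -1 [ZMOD ((r : ℕ) : ℤ)] := by
      refine Int.ModEq.trans (Int.ModEq.of_dvd ?_ hlmod) hx2
      push_cast; exact Dvd.intro_left _ rfl
    obtain ⟨j, hj⟩ := hl1.symm.dvd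
    have hle : (l : ℤ) = a + (M : ℤ) * (j * (b' : ℤ)) := by
      push_cast at hj; linarith
    have hPl : P (l : ℤ) := by rw [hle]; exact hPadd _ _ ha
    have hlc : IsCoprime (l : ℤ) (b' : ℤ) := by
      rw [hle]
      have : a + (M : ℤ) * (j * (b' : ℤ)) = a + (M * j) * (b' : ℤ) := by ring
      rw [this]; exact hab'.add_mul_right_left _
    have hsl : s (l : ℤ) (b' : ℤ) = s a (b' : ℤ) := by
      rw [hle]; exact S41_RowSym.r2_iter (M : ℤ) P hPadd s R2 a b' ha hab' j
    rw [← hsl]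
    -- Step 3: Fermat
    have : Fact l.Prime := ⟨hlp⟩
    have hql : ¬ l ∣ q := by
      intro h; have := Nat.le_of_dvd hq.pos h; omega
    have hq0 : ((q : ℕ) : ZMod l) ≠ 0 := by
      rw [Ne, ZMod.natCast_eq_zero_iff]; exact hql
    have hF : ((q : ℕ) : ZMod l) ^ (l - 1) = 1 := ZMod.pow_card_sub_one_eq_one hq0
    obtain ⟨k', hk'⟩ : (l : ℤ) ∣ (q : ℤ) ^ (l - 1) - 1 := by
      have : (((q : ℤ) ^ (l - 1) - 1 : ℤ) : ZMod l) = 0 := by
        push_cast; rw [hF]; ring
      exact (ZMod.intCast_zmod_eq_zero_iff_dvd _ _).mp this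
    have hlq : IsCoprime (l : ℤ) (q : ℤ) := by
      rw [Int.isCoprime_iff_gcd_eq_one, Int.gcd_natCast_natCast]
      exact (Nat.Prime.coprime_iff_not_dvd hlp).mpr hql
    have hql' : ¬ (q : ℤ) ∣ (l : ℤ) := by
      rw [Int.natCast_dvd_natCast]
      intro h
      rcases (Nat.dvd_prime hlp).mp h with h1 | h1
      · exact hq.one_lt.ne' h1
      · omega
    have h4 := r4c_iter ε q P s R4 (l : ℤ) b' hPl hlc hlq hql' (l - 1)
    have h1 := S41_RowSym.r1_iter P s R1 (l : ℤ) b' hPl hlc (k' * b')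
    have e : (q : ℤ) ^ (l - 1) * (b' : ℤ) = (b' : ℤ) + k' * b' * (l : ℤ) := by
      have : (q : ℤ) ^ (l - 1) = 1 + (l : ℤ) * k' := by linarith
      rw [this]; ring
    rw [e, h1] at h4
    -- Step 4: `ε^(l-1) ≠ 1`
    have hne : ε ^ (l - 1) ≠ 1 := by
      intro h
      have ho : orderOf ε = r := orderOf_eq_prime hε hε1
      have hd : r ∣ l - 1 := by rw [← ho]; exact orderOf_dvd_of_pow_eq_one h
      obtain ⟨m, hm⟩ := hl2.symm.dvd
      have hd2 : (r : ℤ) ∣ (l : ℤ) - 1 := by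
        have h1l : 1 ≤ l := hlp.pos
        have : ((l - 1 : ℕ) : ℤ) = (l : ℤ) - 1 := by omega
        rw [← this]; exact Int.natCast_dvd_natCast.mpr hd
      have hd3 : (r : ℤ) ∣ 2 := by
        obtain ⟨m', hm'⟩ := hd2
        exact ⟨m - m', by linarith⟩
      have hd4 : r ∣ 2 := by exact_mod_cast hd3
      exact hr2 ((Nat.prime_dvd_prime_iff_eq hr Nat.prime_two).mp hd4)
    have h5 : (1 - ε ^ (l - 1)) • s (l : ℤ) (b' : ℤ) = 0 := by
      rw [sub_smul, one_smul, ← h4, sub_self]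
    rcases smul_eq_zero.mp h5 with h | h
    · exact absurd (sub_eq_zero.mp h).symm hne
    · exact h
  intro a b ha hab
  by_cases h0 : a = 0
  · subst h0
    have hb : IsUnit b := isCoprime_zero_left.mp hab
    have := R2 0 b ha hab
    rw [← this]
    apply main
    · have : b ≠ 0 := hb.ne_zero
      have hM' : (M : ℤ) ≠ 0 := by exact_mod_cast hM.ne'
      simpa using mul_ne_zero hM' this
    · exact hPadd 0 b ha
    · exact hab.add_mul_right_left _
  · exact main a b h0 ha hab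

end abstract

/-! ### Inversion of a character twist -/

section inversion

variable {D : ℕ} [Fact D.Prime] {R : Type*} [Field R] [Module R A]

lemma mc_neg (w : MulChar (ZMod D) R) (t : ZMod D) : w (-t) = w (-1) * w t := by
  rw [← map_mul, neg_one_mul]

lemma mc_neg_one_sq (w : MulChar (ZMod D) R) : w (-1) * w (-1) = 1 := by
  rw [← map_mul]; simp

lemma mc_inv_mul (w : MulChar (ZMod D) R) {c : ZMod D} (hc : c ≠ 0) : w⁻¹ c * w c = 1 := by
  rw [MulChar.inv_apply_eq_inv']
  have : w c ≠ 0 := by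
    intro h
    have h1 : w (c * c⁻¹) = 1 := by rw [mul_inv_cancel₀ hc, map_one]
    rw [map_mul, h, zero_mul] at h1
    exact zero_ne_one h1
  exact inv_mul_cancel₀ this

lemma mc_corr (w : MulChar (ZMod D) R) (hw : w ≠ 1) (c : ZMod D) :
    ∑ i : ZMod D, w⁻¹ i * w (c - i) = w (-1) * (if c = 0 then (D : R) - 1 else -1) := by
  by_cases hc : c = 0
  · subst hc
    simp only [zero_sub, if_true]
    have : ∀ i : ZMod D, w⁻¹ i * w (-i) = w (-1) * (1 - if i = 0 then 1 else 0) := by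
      intro i
      rw [mc_neg]
      by_cases hi : i = 0
      · subst hi; simp [MulChar.map_zero]
      · have := mc_inv_mul w hi
        rw [if_neg hi, sub_zero, mul_one]
        linear_combination (w (-1)) * this
    rw [Finset.sum_congr rfl (fun i _ => this i), ← Finset.mul_sum, Finset.sum_sub_distrib]
    simp [ZMod.card]
  · rw [if_neg hc]
    have hw' : w⁻¹ ≠ 1 := fun h => hw (inv_eq_one.mp h)
    have hJ := jacobiSum_nontrivial_inv hw'
    rw [inv_inv] at hJ
    have e := Equiv.sum_comp (Equiv.mulLeft₀ c hc) (fun i => w⁻¹ i * w (c - i))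
    rw [← e]
    have : ∀ x : ZMod D, w⁻¹ (c * x) * w (c - c * x) = w⁻¹ x * w (1 - x) := by
      intro x
      have hc2 := mc_inv_mul w hc
      have : c - c * x = c * (1 - x) := by ring
      rw [this, map_mul, map_mul]
      linear_combination (w⁻¹ x * w (1 - x)) * hc2
    simp only [Equiv.mulLeft₀_apply]
    rw [Finset.sum_congr rfl (fun x _ => this x)]
    rw [jacobiSum] at hJ
    rw [hJ, MulChar.inv_apply_eq_inv']
    have h1 := mc_neg_one_sq w
    have h2 : w (-1) ≠ 0 := by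
      intro h; rw [h, zero_mul] at h1; exact zero_ne_one h1
    field_simp
    linear_combination h1

/-- inversion of a character twist. -/
theorem sum_eq_of_twist_char (w : MulChar (ZMod D) R) (hw : w ≠ 1) (F : ZMod D → A)
    (h : ∀ j : ZMod D, ∑ t : ZMod D, w t • F (t + j) = 0) (u : ZMod D) :
    ∑ v : ZMod D, F v = (D : ℤ) • F u := by
  have h1 : ∀ j : ZMod D, ∑ v : ZMod D, w (v - j) • F v = 0 := by
    intro j
    have e := Equiv.sum_comp (Equiv.subRight j) (fun t => w t • F (t + j))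
    simp only [Equiv.subRight_apply, sub_add_cancel] at e
    rw [e]; exact h j
  have h2 : ∑ j : ZMod D, w⁻¹ (j - u) • ∑ v : ZMod D, w (v - j) • F v = 0 := by
    refine Finset.sum_eq_zero fun j _ => ?_
    rw [h1 j, smul_zero]
  simp_rw [Finset.smul_sum, smul_smul] at h2
  rw [Finset.sum_comm] at h2
  simp_rw [← Finset.sum_smul] at h2
  have h3 : ∀ v : ZMod D, ∑ j : ZMod D, w⁻¹ (j - u) * w (v - j)
      = w (-1) * (if v = u then (D : R) - 1 else -1) := by
    intro v
    have e := Equiv.sum_comp (Equiv.subRight u) (fun i => w⁻¹ i * w (v - u - i))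
    simp only [Equiv.subRight_apply, sub_sub_sub_cancel_right] at e
    rw [e, mc_corr w hw (v - u)]
    simp only [sub_eq_zero]
  simp_rw [h3, mul_smul] at h2
  rw [← Finset.smul_sum] at h2
  have h4 := congrArg (fun x => w (-1) • x) h2
  simp only [smul_smul, mc_neg_one_sq, one_smul, smul_zero] at h4
  have h5 : ∀ v : ZMod D, (if v = u then (D : R) - 1 else -1) • F v
      = (if v = u then (D : R) • F v else 0) - F v := by
    intro v; split_ifs <;> simp [sub_smul]
  rw [Finset.sum_congr rfl (fun v _ => h5 v), Finset.sum_sub_distrib, Finset.sum_ite_eq'] at h4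
  simp only [Finset.mem_univ, if_true] at h4
  rw [Nat.cast_smul_eq_nsmul] at h4
  rw [natCast_zsmul]
  exact (sub_eq_zero.mp h4).symm

end inversion

/-! ### A character of order `r` in characteristic `p` -/

section character

/-- a character of `(ℤ/D)ˣ` with values in an algebraic closure of `𝔽_p`, of order dividing
`r` and nontrivial at `q`. -/
theorem exists_char (p : ℕ) [Fact p.Prime] (D : ℕ) [Fact D.Prime] (r : ℕ) (hr : r.Prime)
    (hrp : r ≠ p) (hrD : r ∣ D - 1) (q : ℕ) (hq0 : ((q : ℕ) : ZMod D) ≠ 0)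
    (hq : ((q : ℕ) : ZMod D) ^ ((D - 1) / r) ≠ 1) :
    ∃ w : MulChar (ZMod D) (AlgebraicClosure (ZMod p)),
      w ((q : ℕ) : ZMod D) ^ r = 1 ∧ w ((q : ℕ) : ZMod D) ≠ 1 := by
  have hpp : p.Prime := Fact.out
  have : NeZero ((r : ℕ) : AlgebraicClosure (ZMod p)) := ⟨by
    rw [Ne, CharP.cast_eq_zero_iff (AlgebraicClosure (ZMod p)) p r]
    intro h
    exact hrp ((Nat.prime_dvd_prime_iff_eq hpp hr).mp h).symm⟩
  obtain ⟨ζ, hζ⟩ := HasEnoughRootsOfUnity.exists_primitiveRoot (AlgebraicClosure (ZMod p)) r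
  have hζ0 : ζ ≠ 0 := hζ.ne_zero hr.ne_zero
  set ζu : (AlgebraicClosure (ZMod p))ˣ := Units.mk0 ζ hζ0 with hζu
  have hζu' : IsPrimitiveRoot ζu r := by
    have : ζ = ((ζu : (AlgebraicClosure (ZMod p))ˣ) : AlgebraicClosure (ZMod p)) := rfl
    rw [this] at hζ
    exact IsPrimitiveRoot.coe_units_iff.mp hζ
  obtain ⟨g, hg⟩ := IsCyclic.exists_generator (α := (ZMod D)ˣ)
  have hog : orderOf g = D - 1 := by
    rw [orderOf_eq_card_of_forall_mem_zpowers hg, Nat.card_eq_fintype_card, ZMod.card_units]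
  have hdvd : orderOf ζu ∣ orderOf g := by
    rw [← hζu'.eq_orderOf, hog]; exact hrD
  set ψ : (ZMod D)ˣ →* (AlgebraicClosure (ZMod p))ˣ := monoidHomOfForallMemZpowers hg hdvd
    with hψ
  have hψg : ψ g = ζu := monoidHomOfForallMemZpowers_apply_gen hg hdvd
  set qu : (ZMod D)ˣ := Units.mk0 ((q : ℕ) : ZMod D) hq0 with hqu
  obtain ⟨k, hk⟩ := Subgroup.mem_zpowers_iff.mp (hg qu)
  have hψq : ψ qu = ζu ^ k := by rw [← hk, map_zpow, hψg]
  refine ⟨MulChar.ofUnitHom ψ, ?_, ?_⟩
  · have e : (MulChar.ofUnitHom ψ) ((q : ℕ) : ZMod D) = ((ψ qu : (AlgebraicClosure (ZMod p))ˣ) :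
        AlgebraicClosure (ZMod p)) := MulChar.ofUnitHom_coe ψ qu
    rw [e, hψq, ← Units.val_pow_eq_pow_val, ← zpow_natCast, ← _root_.zpow_mul, mul_comm, _root_.zpow_mul,
      zpow_natCast, hζu'.pow_eq_one, _root_.one_zpow, Units.val_one]
  · intro h
    have e : (MulChar.ofUnitHom ψ) ((q : ℕ) : ZMod D) = ((ψ qu : (AlgebraicClosure (ZMod p))ˣ) :
        AlgebraicClosure (ZMod p)) := MulChar.ofUnitHom_coe ψ qu
    rw [e, hψq] at h
    have h1 : ζu ^ k = 1 := Units.ext (by rw [h, Units.val_one])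
    obtain ⟨m, hm⟩ := (hζu'.zpow_eq_one_iff_dvd k).mp h1
    apply hq
    have h2 : qu ^ ((D - 1) / r) = 1 := by
      rw [← hk, hm, ← zpow_natCast, ← _root_.zpow_mul]
      have e2 : (r : ℤ) * m * (((D - 1) / r : ℕ) : ℤ) = ((D - 1 : ℕ) : ℤ) * m := by
        have := Nat.mul_div_cancel' hrD
        have h3 : (r : ℤ) * (((D - 1) / r : ℕ) : ℤ) = ((D - 1 : ℕ) : ℤ) := by exact_mod_cast this
        rw [← h3]; ring
      rw [e2, _root_.zpow_mul, zpow_natCast, ← hog, pow_orderOf_eq_one, _root_.one_zpow]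
    have h3 := congrArg (fun u : (ZMod D)ˣ => (u : ZMod D)) h2
    simpa [hqu] using h3

end character

end Fermat.Agent.S41_ThmB1
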