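import Fermat.Prelude.Def_ModularCurve_PeriodMap
import Fermat.Agent.S16_Hecke
import Fermat.Agent.S41_ThmB
import Fermat.Agent.S41_ChTw
import Mathlib

/-!
# Theorem B for S41 with a character of odd prime order (the form fed by FD1)

Same statement as `S41_ThmB.thmB`, with the hypothesis "`q` is not a square mod `D`" replaced by
"`r ∣ D - 1` and `q ^ ((D - 1) / r) ≠ 1` mod `D`" for an odd prime `r ≠ p`, `r ∤ N`.  Only the
twist step changes: the Legendre symbol is replaced by a character of order `r` with values in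
an algebraic closure of `𝔽_p`, and the row-symbol lemma becomes easier (no reciprocity).
Also: the two consumer forms `injPlus` (from Lemma A) and `inj` (from Theorem B1).
-/

set_option autoImplicit false

open Matrix MatrixGroups CongruenceSubgroup ModularCurve.Period

namespace Fermat.Agent.S41_ThmB1

open Fermat.Agent.S41_LemA Fermat.Agent.S41_ThmB

variable {A : Type*} [AddCommGroup A]

/-! ### The character twist and its row symbol -/

section symbol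

variable {N D : ℕ} [Fact D.Prime] {R : Type*} [Field R] [Module R A]
  (w : MulChar (ZMod D) R) (X : Additive (Gamma0 N) →+ A)

/-- the twist of `X` by the character `w`. -/
def Yc (P : Par N D) : A := ∑ t : ZMod D, w t • xz X P t

lemma Yc_mul (P Q : Par N D) : Yc w X (P.mul Q) = Yc w X P + Yc w X Q := by
  unfold Yc xz; simp only [xs_mul, smul_add, Finset.sum_add_distrib]

lemma Yc_eq_zero_of_trace (hpar : IsParabolicHom (Gamma0 N) X) (P : Par N D)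
    (h : 2 * P.a + D * P.e = 2 ∨ 2 * P.a + D * P.e = -2) : Yc w X P = 0 := by
  unfold Yc xz; simp only [xs_eq_zero X hpar _ P h, smul_zero, Finset.sum_const_zero]

/-- the character rule for the twist. -/
lemma Yc_q (q : ℕ) (hq0 : ((q : ℕ) : ZMod D) ≠ 0)
    (hK : ∀ g g' : Gamma0 N, ((N * q : ℕ) : ℤ) ∣ (g : SL(2, ℤ)) 1 0 →
      (g' : SL(2, ℤ)) 0 0 = (g : SL(2, ℤ)) 0 0 → (g' : SL(2, ℤ)) 0 1 = q * (g : SL(2, ℤ)) 0 1 →
      q * (g' : SL(2, ℤ)) 1 0 = (g : SL(2, ℤ)) 1 0 → (g' : SL(2, ℤ)) 1 1 = (g : SL(2, ℤ)) 1 1 →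
      X (Additive.ofMul g') = X (Additive.ofMul g))
    (P P' : Par N D) (ha : P'.a = P.a) (hb : P'.b = q * P.b) (hc : q * P'.c = P.c)
    (he : P'.e = P.e) : Yc w X P' = w ((q : ℕ) : ZMod D) • Yc w X P := by
  unfold Yc
  rw [← Equiv.sum_comp (Equiv.mulLeft₀ ((q : ℕ) : ZMod D) hq0), Finset.smul_sum]
  refine Finset.sum_congr rfl fun s _ => ?_
  have e1 : xz X P' (((q : ℕ) : ZMod D) * s) = xz X P s := by
    have : ((q : ℕ) : ZMod D) * s = (((q : ℤ) * (s.val : ℤ) : ℤ) : ZMod D) := by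
      push_cast; simp
    rw [this, xz_intCast]
    unfold xz xs
    obtain ⟨k, hk⟩ := P'.hN
    apply hK
    · show ((N * q : ℕ) : ℤ) ∣ (D : ℤ) ^ 2 * P.c
      exact ⟨D ^ 2 * k, by rw [← hc, hk]; push_cast; ring⟩
    · show P'.a + (q : ℤ) * (s.val : ℤ) * D * P'.c = P.a + (s.val : ℤ) * D * P.c
      rw [ha, ← hc]; ring
    · show P'.b + (q : ℤ) * (s.val : ℤ) * P'.e - ((q : ℤ) * (s.val : ℤ)) ^ 2 * P'.c
        = q * (P.b + (s.val : ℤ) * P.e - (s.val : ℤ) ^ 2 * P.c)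
      rw [hb, he, ← hc]; ring
    · show (q : ℤ) * ((D : ℤ) ^ 2 * P'.c) = (D : ℤ) ^ 2 * P.c
      rw [← hc]; ring
    · show P'.a + (q : ℤ) * (s.val : ℤ) * D * P'.c
          + D * (P'.e - 2 * ((q : ℤ) * (s.val : ℤ)) * P'.c)
        = P.a + (s.val : ℤ) * D * P.c + D * (P.e - 2 * (s.val : ℤ) * P.c)
      rw [ha, he, ← hc]; ring
  rw [Equiv.mulLeft₀_apply, map_mul, e1, mul_smul]

/-- the row symbol of the character twist. -/
noncomputable def Sc (a b : ℤ) : A :=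
  open Classical in
  if h : ∃ P : Par N D, P.a = a ∧ P.b = b then Yc w X h.choose else 0

lemma Sc_eq (hpar : IsParabolicHom (Gamma0 N) X) (P : Par N D) :
    Sc w X P.a P.b = Yc w X P := by
  have hD0 : D ≠ 0 := (Fact.out : D.Prime).ne_zero
  have h : ∃ Q : Par N D, Q.a = P.a ∧ Q.b = P.b := ⟨P, rfl, rfl⟩
  unfold Sc
  rw [dif_pos h]
  obtain ⟨T, hTa, hTe, hT⟩ :=
    Par.exists_mul_of_row hD0 P h.choose h.choose_spec.1 h.choose_spec.2
  rw [hT, Yc_mul, Yc_eq_zero_of_trace w X hpar T (Or.inl (by rw [hTa, hTe]; ring)), zero_add]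

lemma Sc_eq' (hpar : IsParabolicHom (Gamma0 N) X) (P : Par N D) (a b : ℤ) (ha : P.a = a)
    (hb : P.b = b) : Sc w X a b = Yc w X P := by
  subst ha hb; exact Sc_eq w X hpar P

/-- **The character twist vanishes** (Lemma A'' of helper6). -/
theorem Yc_eq_zero [NeZero N] (q : ℕ) (hq : q.Prime) (hq0 : ((q : ℕ) : ZMod D) ≠ 0)
    (r : ℕ) (hr : r.Prime) (hr2 : r ≠ 2) (hrN : ¬ r ∣ N) (hrD : r ≠ D)
    (hwr : w ((q : ℕ) : ZMod D) ^ r = 1) (hw1 : w ((q : ℕ) : ZMod D) ≠ 1)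
    (hpar : IsParabolicHom (Gamma0 N) X)
    (hK : ∀ g g' : Gamma0 N, ((N * q : ℕ) : ℤ) ∣ (g : SL(2, ℤ)) 1 0 →
      (g' : SL(2, ℤ)) 0 0 = (g : SL(2, ℤ)) 0 0 → (g' : SL(2, ℤ)) 0 1 = q * (g : SL(2, ℤ)) 0 1 →
      q * (g' : SL(2, ℤ)) 1 0 = (g : SL(2, ℤ)) 1 0 → (g' : SL(2, ℤ)) 1 1 = (g : SL(2, ℤ)) 1 1 →
      X (Additive.ofMul g') = X (Additive.ofMul g))
    (P : Par N D) : Yc w X P = 0 := by
  have hD : D.Prime := Fact.out
  have hN : 0 < N := Nat.pos_of_ne_zero (NeZero.ne N)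
  have hM : 0 < N * D ^ 2 := Nat.mul_pos hN (pow_pos hD.pos 2)
  have hrM : ¬ r ∣ N * D ^ 2 := by
    intro h
    rcases (Nat.Prime.dvd_mul hr).mp h with h | h
    · exact hrN h
    · exact hrD ((Nat.prime_dvd_prime_iff_eq hr hD).mp (hr.dvd_of_dvd_pow h))
  have admD : ∀ a : ℤ, Adm N D a → IsCoprime a (D : ℤ) := by
    rintro a ⟨-, ⟨j, hj⟩ | ⟨j, hj⟩⟩
    · exact ⟨1, -j, by linear_combination hj⟩
    · exact ⟨-1, j, by linear_combination -hj⟩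
  have key := rowSymbol_eq_zero_char (w ((q : ℕ) : ZMod D)) r hr hr2 hwr hw1 (N * D ^ 2) q hM hq
    hrM (Adm N D) ?_ ?_ (Sc w X) ?_ ?_ ?_
  · rw [← Sc_eq w X hpar P]
    exact key P.a P.b (P.adm hD) P.coprime_ab
  · -- hPadd
    rintro a b ⟨haN, haD⟩
    refine ⟨?_, ?_⟩
    · have e : a + ((N * D ^ 2 : ℕ) : ℤ) * b = a + (N : ℤ) * ((D : ℤ) ^ 2 * b) := by
        push_cast; ring
      rw [e]; exact haN.add_mul_left_left _
    · rcases haD with ⟨j, hj⟩ | ⟨j, hj⟩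
      · exact Or.inl ⟨j + N * D * b, by push_cast; linear_combination hj⟩
      · exact Or.inr ⟨j + N * D * b, by push_cast; linear_combination hj⟩
  · -- hPcop
    intro a ha
    have := admD a ha
    push_cast
    exact ha.1.mul_right this.pow_right
  · -- R1
    intro a b ha hab
    obtain ⟨P, c₁, hPa, hPb, -, -⟩ := exists_par (N := N) (D := D) a b hab ha 1 isCoprime_one_right
    have hU : Yc w X (⟨1, 1, 0, 0, by ring, dvd_zero _⟩ : Par N D) = 0 :=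
      Yc_eq_zero_of_trace w X hpar _ (Or.inl (by simp))
    rw [Sc_eq' w X hpar (P.mul ⟨1, 1, 0, 0, by ring, dvd_zero _⟩) a (b + a)
        (by simp [Par.mul, hPa]) (by simp [Par.mul, hPa, hPb]; ring),
      Sc_eq' w X hpar P a b hPa hPb, Yc_mul, hU, add_zero]
  · -- R2
    intro a b ha hab
    obtain ⟨P, c₁, hPa, hPb, -, -⟩ := exists_par (N := N) (D := D) a b hab ha 1 isCoprime_one_right
    have hL : Yc w X (⟨1, 0, N, 0, by ring, dvd_rfl⟩ : Par N D) = 0 :=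
      Yc_eq_zero_of_trace w X hpar _ (Or.inl (by simp))
    rw [Sc_eq' w X hpar (P.mul ⟨1, 0, N, 0, by ring, dvd_rfl⟩) (a + ((N * D ^ 2 : ℕ) : ℤ) * b) b
        (by simp [Par.mul, hPa, hPb]; ring) (by simp [Par.mul, hPb]),
      Sc_eq' w X hpar P a b hPa hPb, Yc_mul, hL, add_zero]
  · -- R4
    intro a b ha hab hqa
    have hqa' : IsCoprime a (q : ℤ) := by
      rw [isCoprime_comm]
      exact (Int.prime_iff_natAbs_prime.mpr (by simpa using hq)).coprime_iff_not_dvd.mpr hqa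
    obtain ⟨P, c₁, hPa, hPb, hPc, hc₁⟩ := exists_par (N := N) (D := D) a b hab ha q hqa'
    have hdet : P.a * (P.a + D * P.e) - (q * P.b) * (D ^ 2 * c₁) = 1 := by
      have := P.det; rw [hPc] at this; linear_combination this
    rw [Sc_eq' w X hpar (⟨P.a, q * P.b, c₁, P.e, hdet, hc₁⟩ : Par N D) a (q * b) hPa
        (by rw [← hPb]),
      Sc_eq' w X hpar P a b hPa hPb]
    exact Yc_q w X q hq0 hK P _ rfl rfl hPc.symm rfl

/-- **Untwisting** (character form): the sum of the `D` twists of `X` is `D • X` on `G'`. -/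
theorem sum_xz_char [NeZero N] (q : ℕ) (hq : q.Prime) (hq0 : ((q : ℕ) : ZMod D) ≠ 0)
    (r : ℕ) (hr : r.Prime) (hr2 : r ≠ 2) (hrN : ¬ r ∣ N) (hrD : r ≠ D)
    (hwr : w ((q : ℕ) : ZMod D) ^ r = 1) (hw1 : w ((q : ℕ) : ZMod D) ≠ 1)
    (hpar : IsParabolicHom (Gamma0 N) X)
    (hK : ∀ g g' : Gamma0 N, ((N * q : ℕ) : ℤ) ∣ (g : SL(2, ℤ)) 1 0 →
      (g' : SL(2, ℤ)) 0 0 = (g : SL(2, ℤ)) 0 0 → (g' : SL(2, ℤ)) 0 1 = q * (g : SL(2, ℤ)) 0 1 →
      q * (g' : SL(2, ℤ)) 1 0 = (g : SL(2, ℤ)) 1 0 → (g' : SL(2, ℤ)) 1 1 = (g : SL(2, ℤ)) 1 1 →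
      X (Additive.ofMul g') = X (Additive.ofMul g))
    (P : Par N D) : ∑ t : ZMod D, xz X P t = (D : ℤ) • X (Additive.ofMul P.toG) := by
  have hw : w ≠ 1 := by
    intro h
    apply hw1
    rw [h, MulChar.one_apply (isUnit_iff_ne_zero.mpr hq0)]
  rw [← xz_zero]
  refine sum_eq_of_twist_char w hw (xz X P) (fun j => ?_) 0
  have h := Yc_eq_zero w X q hq hq0 r hr hr2 hrN hrD hwr hw1 hpar hK (P.tw (j.val : ℤ))
  unfold Yc at h
  rw [← h]
  refine Finset.sum_congr rfl fun t _ => ?_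
  rw [xz_tw]; simp

end symbol

/-! ### Theorem B1 and the consumer forms -/

section main

open Fermat.Agent.S16_Hecke

/-- **Theorem B1** (one prime `D`, character of odd prime order `r`).  A parabolic hom
`X : Γ₀(N) → 𝔽_p`, invariant under `g ↦ d g d⁻¹` (`d = diag(q,1)`) on `Γ₀(N q)`, and an
eigenvector of `T_D` with eigenvalue `aD`, `p ∤ aD - D - 1`, vanishes, provided `q` is not an
`r`-th power modulo `D` for an odd prime `r ∣ D - 1`, `r ≠ p`, `r ∤ N`. -/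
theorem thmB1 (N : ℕ) [NeZero N] (p : ℕ) [Fact p.Prime]
    (q : ℕ) (hq : q.Prime) (D : ℕ) [NeZero D] (hD : D.Prime) (hD2 : D ≠ 2)
    (hDN : ¬ D ∣ N) (hqD : q ≠ D) (hDp : D ≠ p)
    (r : ℕ) (hr : r.Prime) (hr2 : r ≠ 2) (hrp : r ≠ p) (hrN : ¬ r ∣ N) (hrD : r ∣ D - 1)
    (hqr : ((q : ℕ) : ZMod D) ^ ((D - 1) / r) ≠ 1)
    (X : Additive (Gamma0 N) →+ ZMod p) (hpar : IsParabolicHom (Gamma0 N) X)
    (hK : ∀ g g' : Gamma0 N, ((N * q : ℕ) : ℤ) ∣ (g : SL(2, ℤ)) 1 0 →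
      (g' : SL(2, ℤ)) 0 0 = (g : SL(2, ℤ)) 0 0 → (g' : SL(2, ℤ)) 0 1 = q * (g : SL(2, ℤ)) 0 1 →
      q * (g' : SL(2, ℤ)) 1 0 = (g : SL(2, ℤ)) 1 0 → (g' : SL(2, ℤ)) 1 1 = (g : SL(2, ℤ)) 1 1 →
      X (Additive.ofMul g') = X (Additive.ofMul g))
    (aD : ℤ) (hT : (sysT N hD hDN).op (ZMod p) X = aD • X)
    (hinv : ¬ (p : ℤ) ∣ aD - D - 1) : X = 0 := by
  have hpp : p.Prime := Fact.out
  have : Fact D.Prime := ⟨hD⟩
  have hq0 : ((q : ℕ) : ZMod D) ≠ 0 := by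
    rw [Ne, ZMod.natCast_eq_zero_iff]
    intro h; exact hqD ((Nat.prime_dvd_prime_iff_eq hD hq).mp h).symm
  have hrD' : r ≠ D := by
    intro h; rw [h] at hrD
    have h2 := hD.two_le
    have := Nat.le_of_dvd (by omega) hrD
    omega
  obtain ⟨w, hwr, hw1⟩ := exists_char p D r hr hrp hrD q hq0 hqr
  set ι : ZMod p →+ AlgebraicClosure (ZMod p) :=
    (algebraMap (ZMod p) (AlgebraicClosure (ZMod p))).toAddMonoidHom with hι
  have hιinj : Function.Injective ι :=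
    (algebraMap (ZMod p) (AlgebraicClosure (ZMod p))).injective
  have hpar' : IsParabolicHom (Gamma0 N) (ι.comp X) := by
    intro γ hγ
    show ι (X _) = 0
    rw [hpar γ hγ, map_zero]
  have hK' : ∀ g g' : Gamma0 N, ((N * q : ℕ) : ℤ) ∣ (g : SL(2, ℤ)) 1 0 →
      (g' : SL(2, ℤ)) 0 0 = (g : SL(2, ℤ)) 0 0 → (g' : SL(2, ℤ)) 0 1 = q * (g : SL(2, ℤ)) 0 1 →
      q * (g' : SL(2, ℤ)) 1 0 = (g : SL(2, ℤ)) 1 0 → (g' : SL(2, ℤ)) 1 1 = (g : SL(2, ℤ)) 1 1 →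
      (ι.comp X) (Additive.ofMul g') = (ι.comp X) (Additive.ofMul g) := by
    intro g g' h1 h2 h3 h4 h5
    show ι (X _) = ι (X _)
    rw [hK g g' h1 h2 h3 h4 h5]
  refine thmB_of_sum N p hpp (fun x => ?_) D hD hD2 hDN hDp X hpar (fun P => ?_) aD hT hinv
  · rw [nsmul_eq_mul, ZMod.natCast_self, zero_mul]
  · have h := sum_xz_char w (ι.comp X) q hq hq0 r hr hr2 hrN hrD' hwr hw1 hpar' hK' P
    apply hιinj
    rw [map_sum, map_zsmul]
    exact h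

/-- **INJ+** (consumer form of Lemma A): an integral parabolic hom `x` on `Γ₀(N)` with
`x (d g d⁻¹) + x g ∈ p^j ℤ` for all `g ∈ Γ₀(N q)` takes values in `p^j ℤ` (`p` odd). -/
theorem injPlus (N : ℕ) [NeZero N] (p : ℕ) (hpp : p.Prime) (hp2 : p ≠ 2) (j : ℕ)
    (q : ℕ) (hq : q.Prime) (hqN : ¬ q ∣ N)
    (x : Additive (Gamma0 N) →+ ℤ) (hpar : IsParabolicHom (Gamma0 N) x)
    (h : ∀ g g' : Gamma0 N, ((N * q : ℕ) : ℤ) ∣ (g : SL(2, ℤ)) 1 0 →
      (g' : SL(2, ℤ)) 0 0 = (g : SL(2, ℤ)) 0 0 → (g' : SL(2, ℤ)) 0 1 = q * (g : SL(2, ℤ)) 0 1 →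
      q * (g' : SL(2, ℤ)) 1 0 = (g : SL(2, ℤ)) 1 0 → (g' : SL(2, ℤ)) 1 1 = (g : SL(2, ℤ)) 1 1 →
      ((p ^ j : ℕ) : ℤ) ∣ x (Additive.ofMul g') + x (Additive.ofMul g)) :
    ∀ g : Gamma0 N, ((p ^ j : ℕ) : ℤ) ∣ x (Additive.ofMul g) := by
  have hodd : Odd p := hpp.eq_two_or_odd'.resolve_left hp2
  set c : ℤ →+ ZMod (p ^ j) := Int.castAddHom (ZMod (p ^ j)) with hc
  have h2 : ∀ y : ZMod (p ^ j), y + y = 0 → y = 0 := by
    intro y hy
    have hu : IsUnit ((2 : ℕ) : ZMod (p ^ j)) :=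
      (ZMod.isUnit_iff_coprime 2 (p ^ j)).mpr
        (Nat.Coprime.pow_right j (Nat.coprime_two_left.mpr hodd))
    have h3 : ((2 : ℕ) : ZMod (p ^ j)) * y = 0 := by
      rw [← hy]; push_cast; ring
    exact (hu.mul_right_eq_zero).mp h3
  have hpar' : IsParabolicHom (Gamma0 N) (c.comp x) := by
    intro γ hγ
    show c (x _) = 0
    rw [hpar γ hγ, map_zero]
  have hX : c.comp x = 0 := by
    refine lemmaA N h2 q hq hqN (c.comp x) hpar' ?_
    intro g g' h1 h2' h3 h4 h5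
    show c (x _) = - c (x _)
    have := h g g' h1 h2' h3 h4 h5
    rw [eq_neg_iff_add_eq_zero, ← map_add]
    exact (ZMod.intCast_zmod_eq_zero_iff_dvd _ _).mpr this
  intro g
  have h3 : c (x (Additive.ofMul g)) = 0 := by
    have := congrArg (fun φ : Additive (Gamma0 N) →+ ZMod (p ^ j) => φ (Additive.ofMul g)) hX
    exact this
  exact (ZMod.intCast_zmod_eq_zero_iff_dvd _ _).mp h3

/-- **INJ** (consumer form of Theorem B1): an integral parabolic hom `x` on `Γ₀(N)` with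
`x (d g d⁻¹) - x g ∈ p ℤ` for all `g ∈ Γ₀(N q)` and `(T_D - aD) x ∈ p Hom`, `p ∤ aD - D - 1`,
takes values in `p ℤ`. -/
theorem inj (N : ℕ) [NeZero N] (p : ℕ) [Fact p.Prime]
    (q : ℕ) (hq : q.Prime) (D : ℕ) [NeZero D] (hD : D.Prime) (hD2 : D ≠ 2)
    (hDN : ¬ D ∣ N) (hqD : q ≠ D) (hDp : D ≠ p)
    (r : ℕ) (hr : r.Prime) (hr2 : r ≠ 2) (hrp : r ≠ p) (hrN : ¬ r ∣ N) (hrD : r ∣ D - 1)
    (hqr : ((q : ℕ) : ZMod D) ^ ((D - 1) / r) ≠ 1)
    (x : Additive (Gamma0 N) →+ ℤ) (hpar : IsParabolicHom (Gamma0 N) x)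
    (h : ∀ g g' : Gamma0 N, ((N * q : ℕ) : ℤ) ∣ (g : SL(2, ℤ)) 1 0 →
      (g' : SL(2, ℤ)) 0 0 = (g : SL(2, ℤ)) 0 0 → (g' : SL(2, ℤ)) 0 1 = q * (g : SL(2, ℤ)) 0 1 →
      q * (g' : SL(2, ℤ)) 1 0 = (g : SL(2, ℤ)) 1 0 → (g' : SL(2, ℤ)) 1 1 = (g : SL(2, ℤ)) 1 1 →
      (p : ℤ) ∣ x (Additive.ofMul g') - x (Additive.ofMul g))
    (aD : ℤ)
    (hT : ∀ g : Gamma0 N, (p : ℤ) ∣ (sysT N hD hDN).op ℤ x (Additive.ofMul g)
      - aD * x (Additive.ofMul g))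
    (hinv : ¬ (p : ℤ) ∣ aD - D - 1) :
    ∀ g : Gamma0 N, (p : ℤ) ∣ x (Additive.ofMul g) := by
  set c : ℤ →+ ZMod p := Int.castAddHom (ZMod p) with hc
  have hpar' : IsParabolicHom (Gamma0 N) (c.comp x) := by
    intro γ hγ
    show c (x _) = 0
    rw [hpar γ hγ, map_zero]
  have hX : c.comp x = 0 := by
    refine thmB1 N p q hq D hD hD2 hDN hqD hDp r hr hr2 hrp hrN hrD hqr (c.comp x) hpar' ?_ aD
      ?_ hinv
    · intro g g' h1 h2' h3 h4 h5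
      show c (x _) = c (x _)
      have := h g g' h1 h2' h3 h4 h5
      rw [← sub_eq_zero, ← map_sub]
      exact (ZMod.intCast_zmod_eq_zero_iff_dvd _ _).mpr this
    · rw [HeckeSys.op_comp]
      refine AddMonoidHom.ext fun γ => ?_
      show c ((sysT N hD hDN).op ℤ x γ) = aD • c (x γ)
      have h1 := hT (Additive.toMul γ)
      have h2 : c ((sysT N hD hDN).op ℤ x γ - aD * x γ) = 0 :=
        (ZMod.intCast_zmod_eq_zero_iff_dvd _ _).mpr h1
      rw [map_sub, sub_eq_zero] at h2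
      rw [h2, zsmul_eq_mul]
      show ((aD * x γ : ℤ) : ZMod p) = (aD : ZMod p) * ((x γ : ℤ) : ZMod p)
      push_cast; ring
  intro g
  have h3 : c (x (Additive.ofMul g)) = 0 := by
    have := congrArg (fun φ : Additive (Gamma0 N) →+ ZMod p => φ (Additive.ofMul g)) hX
    exact this
  exact (ZMod.intCast_zmod_eq_zero_iff_dvd _ _).mp h3

end main

end Fermat.Agent.S41_ThmB1
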