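import Fermat.Agent.S41_Defs
import Fermat.Agent.S41_LemA
import Fermat.Agent.S41_ThmB
import Fermat.Agent.S41_ThmB1
import Fermat.Agent.S16_LB

/-!
# S41_Inj (helper6): the consumer forms of Ihara's lemma (INJ+ / INJ)

Lattice forms of Lemma A and Theorem B against helper8's `S41_Defs.r1`, `S41_Defs.r2`
(`r1 x = x ∘ ι`, `r2 x = x ∘ δ`):

* `inj_plus`  : `(r1 + r2) u ∈ p ^ j • Hom` implies `u ∈ p ^ j • Hom` (`u` parabolic, `p` odd);
* `inj_minus_quad` : `(r1 - r2) u ∈ p • Hom` and `(T_D - a) u ∈ p • Hom`, `p ∤ D + 1 - a`,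
  `q` a non-square mod `D`, imply `u ∈ p • Hom`;
* `inj_minus` : the same with `q` not an `r`-th power mod `D` (`r` an odd prime dividing `D - 1`),
  via `S41_ThmB1.thmB1`.
-/

set_option autoImplicit false

open CongruenceSubgroup ModularCurve.Period
open scoped MatrixGroups

namespace Fermat.Agent.S41_Inj

open Fermat.Agent.S41_Defs

variable (N q : ℕ) [NeZero N] [NeZero q] (hq : q.Prime) (hqN : ¬ q ∣ N)

omit [NeZero N] [NeZero q] in
/-- an entrywise described pair `(g, g')` is `(ι γ, δ γ)` for some `γ ∈ Γ₀(N q)`. -/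
theorem exists_gamma (g g' : Gamma0 N)
    (h : ((N * q : ℕ) : ℤ) ∣ (g : SL(2, ℤ)) 1 0)
    (h00 : (g' : SL(2, ℤ)) 0 0 = (g : SL(2, ℤ)) 0 0)
    (h01 : (g' : SL(2, ℤ)) 0 1 = q * (g : SL(2, ℤ)) 0 1)
    (h10 : q * (g' : SL(2, ℤ)) 1 0 = (g : SL(2, ℤ)) 1 0)
    (h11 : (g' : SL(2, ℤ)) 1 1 = (g : SL(2, ℤ)) 1 1) :
    ∃ γ : Gamma0 (N * q), iotaH N q γ = g ∧ delta N q hq γ = g' := by
  refine ⟨⟨(g : SL(2, ℤ)), (S41_Mat.mem_Gamma0_iff _ _).mpr h⟩, Subtype.ext rfl, ?_⟩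
  apply Subtype.ext
  apply S41_Mat.sl_ext
  · rw [delta_00]; exact h00.symm
  · rw [delta_01]; exact h01.symm
  · have h1 := delta_10 N q hq ⟨(g : SL(2, ℤ)), (S41_Mat.mem_Gamma0_iff _ _).mpr h⟩
    have hq0 : (q : ℤ) ≠ 0 := by exact_mod_cast hq.ne_zero
    exact mul_left_cancel₀ hq0 (h1.trans h10.symm)
  · rw [delta_11]; exact h11.symm

omit [NeZero N] in
theorem isParabolic_comp {A B : Type*} [AddCommGroup A] [AddCommGroup B] (f : A →+ B)
    {X : Additive (Gamma0 N) →+ A} (hX : IsParabolicHom (Gamma0 N) X) :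
    IsParabolicHom (Gamma0 N) (f.comp X) := fun γ hγ => by
  rw [AddMonoidHom.comp_apply, hX γ hγ, map_zero]

/-- **INJ+**: `(r1 + r2) u ≡ 0 mod p ^ j` implies `u ≡ 0 mod p ^ j`. -/
theorem inj_plus {p : ℕ} (hp : p.Prime) (hp2 : p ≠ 2) (j : ℕ)
    (u : Additive (Gamma0 N) →+ ℤ) (hu : IsParabolicHom (Gamma0 N) u)
    (h : ∀ g : Gamma0 (N * q),
      (p : ℤ) ^ j ∣ (r1 N q ℤ u + r2 N q hq hqN ℤ u) (Additive.ofMul g)) :
    ∀ g : Gamma0 N, (p : ℤ) ^ j ∣ u (Additive.ofMul g) := by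
  have hcast : ((p ^ j : ℕ) : ℤ) = (p : ℤ) ^ j := by push_cast; rfl
  rw [← hcast]
  rw [← hcast] at h
  set X : Additive (Gamma0 N) →+ ZMod (p ^ j) := (Int.castAddHom (ZMod (p ^ j))).comp u with hX
  have h2 : ∀ x : ZMod (p ^ j), x + x = 0 → x = 0 := by
    intro x hx
    have hcop : Nat.Coprime 2 (p ^ j) :=
      Nat.Coprime.pow_right j ((Nat.coprime_primes Nat.prime_two hp).mpr (Ne.symm hp2))
    have hu2 : IsUnit ((2 : ℕ) : ZMod (p ^ j)) := (ZMod.isUnit_iff_coprime 2 (p ^ j)).mpr hcop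
    have h3 : ((2 : ℕ) : ZMod (p ^ j)) * x = 0 := by
      rw [Nat.cast_ofNat, two_mul]; exact hx
    exact (hu2.mul_right_eq_zero).mp h3
  have hX0 : X = 0 := by
    refine S41_LemA.lemmaA N h2 q hq hqN X (isParabolic_comp N _ hu) ?_
    intro g g' hg h00 h01 h10 h11
    obtain ⟨γ, rfl, rfl⟩ := exists_gamma N q hq g g' hg h00 h01 h10 h11
    have h1 := h γ
    rw [AddMonoidHom.add_apply, r1_apply, r2_apply] at h1
    have h0 : ((u (Additive.ofMul (iotaH N q γ)) + u (Additive.ofMul (delta N q hq γ)) : ℤ) :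
        ZMod (p ^ j)) = 0 := (ZMod.intCast_zmod_eq_zero_iff_dvd _ _).mpr h1
    rw [Int.cast_add] at h0
    show ((u (Additive.ofMul (delta N q hq γ)) : ℤ) : ZMod (p ^ j))
      = - ((u (Additive.ofMul (iotaH N q γ)) : ℤ) : ZMod (p ^ j))
    exact eq_neg_of_add_eq_zero_right h0
  intro g
  have h1 := congrArg (fun Y : Additive (Gamma0 N) →+ ZMod (p ^ j) => Y (Additive.ofMul g)) hX0
  exact (ZMod.intCast_zmod_eq_zero_iff_dvd _ _).mp h1

/-- **INJ** (quadratic fallback form, via `S41_ThmB.thmB`). -/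
theorem inj_minus_quad {p : ℕ} (hp : p.Prime) (hp2 : p ≠ 2) (D : ℕ) [NeZero D] (hD : D.Prime)
    (hD2 : D ≠ 2) (hDN : ¬ D ∣ N) (hqD : q ≠ D) (hDp : D ≠ p)
    (hqs : ¬ IsSquare ((q : ℕ) : ZMod D)) (a : ℤ) (ha : ¬ (p : ℤ) ∣ (D : ℤ) + 1 - a)
    (u : Additive (Gamma0 N) →+ ℤ) (hu : IsParabolicHom (Gamma0 N) u)
    (h : ∀ g : Gamma0 (N * q),
      (p : ℤ) ∣ (r1 N q ℤ u - r2 N q hq hqN ℤ u) (Additive.ofMul g))
    (hT : ∀ g : Gamma0 N,
      (p : ℤ) ∣ ((S16_Hecke.sysT N hD hDN).op ℤ u - a • u) (Additive.ofMul g)) :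
    ∀ g : Gamma0 N, (p : ℤ) ∣ u (Additive.ofMul g) := by
  haveI : Fact p.Prime := ⟨hp⟩
  set X : Additive (Gamma0 N) →+ ZMod p := (Int.castAddHom (ZMod p)).comp u with hX
  have hX0 : X = 0 := by
    refine S41_ThmB.thmB N p hp hp2 (fun x => ?_) q hq hqN D hD hD2 hDN hqD hDp hqs X
      (isParabolic_comp N _ hu) ?_ a ?_ ?_
    · rw [nsmul_eq_mul, ZMod.natCast_self, zero_mul]
    · intro g g' hg h00 h01 h10 h11
      obtain ⟨γ, rfl, rfl⟩ := exists_gamma N q hq g g' hg h00 h01 h10 h11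
      have h1 := h γ
      rw [AddMonoidHom.sub_apply, r1_apply, r2_apply] at h1
      have h0 : ((u (Additive.ofMul (iotaH N q γ)) - u (Additive.ofMul (delta N q hq γ)) : ℤ) :
          ZMod p) = 0 := (ZMod.intCast_zmod_eq_zero_iff_dvd _ _).mpr h1
      rw [Int.cast_sub] at h0
      show ((u (Additive.ofMul (delta N q hq γ)) : ℤ) : ZMod p)
        = ((u (Additive.ofMul (iotaH N q γ)) : ℤ) : ZMod p)
      exact (sub_eq_zero.mp h0).symm
    · rw [hX, S16_Hecke.HeckeSys.op_comp]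
      refine AddMonoidHom.ext fun g' => ?_
      have e : g' = Additive.ofMul (Additive.toMul g') := rfl
      rw [e]
      have h1 := hT (Additive.toMul g')
      rw [AddMonoidHom.sub_apply, AddMonoidHom.zsmul_apply] at h1
      have h0 := (ZMod.intCast_zmod_eq_zero_iff_dvd _ p).mpr h1
      rw [Int.cast_sub, sub_eq_zero, smul_eq_mul, Int.cast_mul] at h0
      rw [AddMonoidHom.comp_apply, AddMonoidHom.zsmul_apply, AddMonoidHom.comp_apply,
        zsmul_eq_mul]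
      exact h0
    · intro hdvd
      apply ha
      have : (D : ℤ) + 1 - a = -(a - D - 1) := by ring
      rw [this]
      exact (dvd_neg).mpr hdvd
  intro g
  have h1 := congrArg (fun Y : Additive (Gamma0 N) →+ ZMod p => Y (Additive.ofMul g)) hX0
  exact (ZMod.intCast_zmod_eq_zero_iff_dvd _ _).mp h1

omit [NeZero q] in
/-- `homOp` at a prime not dividing the level is the `T`-system operator. -/
theorem homOp_eq_sysT (B : Type*) [AddCommGroup B] {D : ℕ} [NeZero D] (hD : D.Prime)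
    (hDN : ¬ D ∣ N) :
    S16_LB.homOp N B ⟨D, hD⟩ = (S16_Hecke.sysT N hD hDN).op B := by
  unfold S16_LB.homOp
  exact dif_neg hDN

/-- **INJ** (quadratic fallback form), stated with `S16_LB.homOp`. -/
theorem inj_minus_quad' {p : ℕ} (hp : p.Prime) (hp2 : p ≠ 2) (D : ℕ) (hD : D.Prime)
    (hD2 : D ≠ 2) (hDN : ¬ D ∣ N) (hqD : q ≠ D) (hDp : D ≠ p)
    (hqs : ¬ IsSquare ((q : ℕ) : ZMod D)) (a : ℤ) (ha : ¬ (p : ℤ) ∣ (D : ℤ) + 1 - a)
    (u : Additive (Gamma0 N) →+ ℤ) (hu : IsParabolicHom (Gamma0 N) u)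
    (h : ∀ g : Gamma0 (N * q),
      (p : ℤ) ∣ (r1 N q ℤ u - r2 N q hq hqN ℤ u) (Additive.ofMul g))
    (hT : ∀ g : Gamma0 N,
      (p : ℤ) ∣ (S16_LB.homOp N ℤ ⟨D, hD⟩ u - a • u) (Additive.ofMul g)) :
    ∀ g : Gamma0 N, (p : ℤ) ∣ u (Additive.ofMul g) := by
  haveI : NeZero D := ⟨hD.ne_zero⟩
  refine inj_minus_quad N q hq hqN hp hp2 D hD hD2 hDN hqD hDp hqs a ha u hu h ?_
  intro g
  have h1 := hT g
  rwa [homOp_eq_sysT N ℤ hD hDN] at h1

/-- **INJ** (odd prime order `r` form, via `S41_ThmB1.thmB1`), `T`-system form. -/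
theorem inj_minus_sys {p : ℕ} (hp : p.Prime) (r D : ℕ) [NeZero D] (hr : r.Prime) (hD : D.Prime)
    (hr2 : r ≠ 2) (hD2 : D ≠ 2) (hrp : r ≠ p) (hDp : D ≠ p) (hDq : D ≠ q)
    (hrN : ¬ r ∣ N) (hDN : ¬ D ∣ N) (hrD : r ∣ D - 1)
    (hqr : ((q : ℕ) : ZMod D) ^ ((D - 1) / r) ≠ 1)
    (a : ℤ) (ha : ¬ (p : ℤ) ∣ (D : ℤ) + 1 - a)
    (u : Additive (Gamma0 N) →+ ℤ) (hu : IsParabolicHom (Gamma0 N) u)
    (h : ∀ g : Gamma0 (N * q),
      (p : ℤ) ∣ (r1 N q ℤ u - r2 N q hq hqN ℤ u) (Additive.ofMul g))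
    (hT : ∀ g : Gamma0 N,
      (p : ℤ) ∣ ((S16_Hecke.sysT N hD hDN).op ℤ u - a • u) (Additive.ofMul g)) :
    ∀ g : Gamma0 N, (p : ℤ) ∣ u (Additive.ofMul g) := by
  haveI : Fact p.Prime := ⟨hp⟩
  set X : Additive (Gamma0 N) →+ ZMod p := (Int.castAddHom (ZMod p)).comp u with hX
  have hX0 : X = 0 := by
    refine S41_ThmB1.thmB1 N p q hq D hD hD2 hDN (Ne.symm hDq) hDp r hr hr2 hrp hrN hrD hqr X
      (isParabolic_comp N _ hu) ?_ a ?_ ?_
    · intro g g' hg h00 h01 h10 h11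
      obtain ⟨γ, rfl, rfl⟩ := exists_gamma N q hq g g' hg h00 h01 h10 h11
      have h1 := h γ
      rw [AddMonoidHom.sub_apply, r1_apply, r2_apply] at h1
      have h0 : ((u (Additive.ofMul (iotaH N q γ)) - u (Additive.ofMul (delta N q hq γ)) : ℤ) :
          ZMod p) = 0 := (ZMod.intCast_zmod_eq_zero_iff_dvd _ _).mpr h1
      rw [Int.cast_sub] at h0
      show ((u (Additive.ofMul (delta N q hq γ)) : ℤ) : ZMod p)
        = ((u (Additive.ofMul (iotaH N q γ)) : ℤ) : ZMod p)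
      exact (sub_eq_zero.mp h0).symm
    · rw [hX, S16_Hecke.HeckeSys.op_comp]
      refine AddMonoidHom.ext fun g' => ?_
      have e : g' = Additive.ofMul (Additive.toMul g') := rfl
      rw [e]
      have h1 := hT (Additive.toMul g')
      rw [AddMonoidHom.sub_apply, AddMonoidHom.zsmul_apply] at h1
      have h0 := (ZMod.intCast_zmod_eq_zero_iff_dvd _ p).mpr h1
      rw [Int.cast_sub, sub_eq_zero, smul_eq_mul, Int.cast_mul] at h0
      rw [AddMonoidHom.comp_apply, AddMonoidHom.zsmul_apply, AddMonoidHom.comp_apply,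
        zsmul_eq_mul]
      exact h0
    · intro hdvd
      apply ha
      have : (D : ℤ) + 1 - a = -(a - D - 1) := by ring
      rw [this]
      exact (dvd_neg).mpr hdvd
  intro g
  have h1 := congrArg (fun Y : Additive (Gamma0 N) →+ ZMod p => Y (Additive.ofMul g)) hX0
  exact (ZMod.intCast_zmod_eq_zero_iff_dvd _ _).mp h1

/-- **INJ** (odd prime order `r` form), stated with `S16_LB.homOp`: the hypotheses on `(r, D)`
are conclusions of `S41_FD1.fd1` (plus `r ∤ N`, `D ∤ N`). -/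
theorem inj_minus {p : ℕ} (hp : p.Prime) (r D : ℕ) (hr : r.Prime) (hD : D.Prime)
    (hr2 : r ≠ 2) (hD2 : D ≠ 2) (hrp : r ≠ p) (hDp : D ≠ p) (hDq : D ≠ q)
    (hrN : ¬ r ∣ N) (hDN : ¬ D ∣ N) (hrD : r ∣ D - 1)
    (hqr : ((q : ℕ) : ZMod D) ^ ((D - 1) / r) ≠ 1)
    (a : ℤ) (ha : ¬ (p : ℤ) ∣ (D : ℤ) + 1 - a)
    (u : Additive (Gamma0 N) →+ ℤ) (hu : IsParabolicHom (Gamma0 N) u)
    (h : ∀ g : Gamma0 (N * q),
      (p : ℤ) ∣ (r1 N q ℤ u - r2 N q hq hqN ℤ u) (Additive.ofMul g))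
    (hT : ∀ g : Gamma0 N,
      (p : ℤ) ∣ (S16_LB.homOp N ℤ ⟨D, hD⟩ u - a • u) (Additive.ofMul g)) :
    ∀ g : Gamma0 N, (p : ℤ) ∣ u (Additive.ofMul g) := by
  haveI : NeZero D := ⟨hD.ne_zero⟩
  refine inj_minus_sys N q hq hqN hp r D hr hD hr2 hD2 hrp hDp hDq hrN hDN hrD hqr a ha u hu h ?_
  intro g
  have h1 := hT g
  rwa [homOp_eq_sysT N ℤ hD hDN] at h1

end Fermat.Agent.S41_Inj
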