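import Mathlib
import Fermat.Agent.S41_Inj
import Fermat.Agent.S41_WDefs

/-!
# S41_WInj (helper6): Ihara's lemma on the lattices `L n` (block G3)

The consumer forms of `S41_Inj.inj_plus` / `S41_Inj.inj_minus` on the lattices
`L n = S41_Act.L n` of integral parabolic classes, for the restricted operators of `S41_WDefs`:

* `exists_div`  : a class all of whose values are divisible by `m ≠ 0` is `m • u'`;
* `inj_plus`    : `R1 u + R2 u ∈ p ^ j • L (N q)` implies `u ∈ p ^ j • L N`   (`p` odd);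
* `inj_minus`   : `R1 u - R2 u ∈ p • L (N q)` and `(T_D - a) u ∈ p • L N`, `p ∤ D + 1 - a`,
  `q` not an `r`-th power mod `D` (`r` an odd prime dividing `D - 1`), imply `u ∈ p • L N`.
-/

set_option autoImplicit false

open CongruenceSubgroup ModularCurve ModularCurve.Period
open scoped MatrixGroups

namespace Fermat.Agent.S41_WInj

open Fermat.Agent.S41_Act Fermat.Agent.S41_Defs Fermat.Agent.S41_W

/-- a parabolic class all of whose values are divisible by `m` is `m` times a parabolic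
class. -/
theorem exists_div (n : ℕ) (m : ℤ) (hm : m ≠ 0) (u : L n)
    (h : ∀ g : Gamma0 n, m ∣ (u : Additive (Gamma0 n) →+ ℤ) (Additive.ofMul g)) :
    ∃ u' : L n, u = m • u' := by
  have h' : ∀ γ : Additive (Gamma0 n), m ∣ (u : Additive (Gamma0 n) →+ ℤ) γ :=
    fun γ => h (Additive.toMul γ)
  let v : Additive (Gamma0 n) →+ ℤ :=
    { toFun := fun γ => (u : Additive (Gamma0 n) →+ ℤ) γ / m
      map_zero' := by rw [map_zero, Int.zero_ediv]
      map_add' := fun γ γ' => by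
        rw [map_add, Int.add_ediv_of_dvd_left (h' γ)] }
  have hv : IsParabolicHom (Gamma0 n) v := by
    intro γ hγ
    show (u : Additive (Gamma0 n) →+ ℤ) (Additive.ofMul γ) / m = 0
    rw [u.2 γ hγ, Int.zero_ediv]
  refine ⟨⟨v, hv⟩, ?_⟩
  apply Subtype.ext
  refine AddMonoidHom.ext fun γ => ?_
  show (u : Additive (Gamma0 n) →+ ℤ) γ = m • ((u : Additive (Gamma0 n) →+ ℤ) γ / m)
  rw [smul_eq_mul, Int.mul_ediv_cancel' (h' γ)]

/-- the values of `m • z` are divisible by `m`. -/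
theorem dvd_of_eq_smul (n : ℕ) (m : ℤ) (w z : L n) (h : w = m • z) (g : Gamma0 n) :
    m ∣ (w : Additive (Gamma0 n) →+ ℤ) (Additive.ofMul g) := by
  rw [h]
  exact ⟨(z : Additive (Gamma0 n) →+ ℤ) (Additive.ofMul g), rfl⟩

variable (N q : ℕ) [NeZero N] [NeZero q] (hq : q.Prime) (hqN : ¬ q ∣ N)

/-- **INJ+** on the lattices: `R1 u + R2 u ∈ p ^ j • L (N q)` implies `u ∈ p ^ j • L N`. -/
theorem inj_plus (p : ℕ) (hp : p.Prime) (hp2 : p ≠ 2) (j : ℕ) (u : L N)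
    (h : ∃ z : L (N * q), R1 N q u + R2 N q hq hqN u = ((p : ℤ) ^ j) • z) :
    ∃ u' : L N, u = ((p : ℤ) ^ j) • u' := by
  obtain ⟨z, hz⟩ := h
  have hp0 : ((p : ℤ) ^ j) ≠ 0 := pow_ne_zero _ (by exact_mod_cast hp.ne_zero)
  refine exists_div N _ hp0 u ?_
  refine S41_Inj.inj_plus N q hq hqN hp hp2 j (u : Additive (Gamma0 N) →+ ℤ) u.2 ?_
  intro g
  exact dvd_of_eq_smul (N * q) _ _ z hz g

/-- **INJ** on the lattices: `R1 u - R2 u ∈ p • L (N q)` and `(T_D - a) u ∈ p • L N` imply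
`u ∈ p • L N`, for `(r, D)` as produced by `S41_FD1.fd1` (with `r ∤ N`, `D ∤ N`) and
`p ∤ D + 1 - a`. -/
theorem inj_minus (p : ℕ) (hp : p.Prime) (r D : ℕ) (hr : r.Prime) (hD : D.Prime)
    (hr2 : r ≠ 2) (hD2 : D ≠ 2) (hrp : r ≠ p) (hDp : D ≠ p) (hDq : D ≠ q)
    (hrN : ¬ r ∣ N) (hDN : ¬ D ∣ N) (hrD : r ∣ D - 1)
    (hqr : ((q : ℕ) : ZMod D) ^ ((D - 1) / r) ≠ 1)
    (a : ℤ) (ha : ¬ (p : ℤ) ∣ (D : ℤ) + 1 - a) (u : L N)
    (h1 : ∃ z : L (N * q), R1 N q u - R2 N q hq hqN u = (p : ℤ) • z)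
    (h2 : ∃ y : L N, TT N (MvPolynomial.X ⟨D, hD⟩ - MvPolynomial.C a : HeckeAlg) u
      = (p : ℤ) • y) :
    ∃ u' : L N, u = (p : ℤ) • u' := by
  obtain ⟨z, hz⟩ := h1
  obtain ⟨y, hy⟩ := h2
  have hp0 : (p : ℤ) ≠ 0 := by exact_mod_cast hp.ne_zero
  refine exists_div N _ hp0 u ?_
  refine S41_Inj.inj_minus N q hq hqN hp r D hr hD hr2 hD2 hrp hDp hDq hrN hDN hrD hqr a ha
    (u : Additive (Gamma0 N) →+ ℤ) u.2 ?_ ?_
  · intro g
    exact dvd_of_eq_smul (N * q) _ _ z hz g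
  · intro g
    have h3 := dvd_of_eq_smul N _ _ y hy g
    have h4 : ((TT N (MvPolynomial.X ⟨D, hD⟩ - MvPolynomial.C a : HeckeAlg) u : L N) :
        Additive (Gamma0 N) →+ ℤ)
        = S16_LB.homOp N ℤ ⟨D, hD⟩ (u : Additive (Gamma0 N) →+ ℤ)
          - a • (u : Additive (Gamma0 N) →+ ℤ) := by
      rw [TT_apply, map_sub, LinearMap.sub_apply, actZ_C]
      show ((actZ N (MvPolynomial.X ⟨D, hD⟩ : HeckeAlg) u : L N) :
        Additive (Gamma0 N) →+ ℤ) - a • (u : Additive (Gamma0 N) →+ ℤ) = _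
      rw [actZ_X]
    rw [h4] at h3
    exact h3

end Fermat.Agent.S41_WInj
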