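import Fermat.Agent.S41_DU
import Fermat.Agent.S41_WDefs

/-!
# S41, END block (G2): the cusp pairing on the lattices `L n`

`bL n : L n →+ L n →+ ℤ` is the integral cusp pairing `S41_DU.b n` restricted to the lattices
of integral parabolic classes, with

* `bL_antisymm`,
* `adj1`, `adj2` : the degeneracy maps `R1`, `R2` are adjoint to the transfers `C1`, `C2`,
* `nd`   : nondegeneracy modulo every odd prime,
* `sa`   : `T_D - a` is self-adjoint for every prime `D ∤ N`.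
-/

set_option autoImplicit false

open CongruenceSubgroup ModularCurve ModularCurve.Period
open scoped MatrixGroups

namespace Fermat.Agent.S41_WPair

open Fermat.Agent.S41_Act Fermat.Agent.S41_Defs Fermat.Agent.S41_W Fermat.Agent.S41_DU
  Fermat.Agent.S16_LB

/-- elements of `L n` are parabolic. -/
theorem par (n : ℕ) (x : L n) : IsParabolicHom (Gamma0 n) (x : Additive (Gamma0 n) →+ ℤ) :=
  mem_parabolicHoms_iff.1 x.2

/-- the integral cusp pairing on the lattice `L n`. -/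
noncomputable def bL (n : ℕ) [NeZero n] : L n →+ L n →+ ℤ :=
  AddMonoidHom.mk'
    (fun x => AddMonoidHom.mk' (fun y => b n (x : Additive (Gamma0 n) →+ ℤ) y)
      (fun y y' => b_add_right n (par n x) (par n y) (par n y')))
    (fun x x' => by
      ext y
      exact b_add_left n (par n x) (par n x') (par n y))

theorem bL_apply (n : ℕ) [NeZero n] (x y : L n) :
    bL n x y = b n (x : Additive (Gamma0 n) →+ ℤ) y := rfl

theorem bL_antisymm (n : ℕ) [NeZero n] (x y : L n) : bL n x y = - bL n y x :=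
  b_antisymm n (par n x) (par n y)

section adj

variable (N q : ℕ) [NeZero N] [NeZero q] (hq : q.Prime) (hqN : ¬ q ∣ N)

/-- `R1` is adjoint to `C1`. -/
theorem adj1 (x : L N) (z : L (N * q)) :
    bL (N * q) (R1 N q x) z = bL N x (C1 N q hq hqN z) :=
  b_res1_cor1 N q hq hqN (par N x) (par (N * q) z)

/-- `R2` is adjoint to `C2`. -/
theorem adj2 (x : L N) (z : L (N * q)) :
    bL (N * q) (R2 N q hq hqN x) z = bL N x (C2 N q hq hqN z) :=
  b_res2_cor2 N q hq hqN (par N x) (par (N * q) z)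

end adj

/-- nondegeneracy modulo an odd prime. -/
theorem nd (n : ℕ) [NeZero n] (p : ℕ) (hp : p.Prime) (hp2 : p ≠ 2) (y : L n)
    (h : ∀ z : L n, (p : ℤ) ∣ bL n y z) : ∃ y' : L n, y = (p : ℤ) • y' := by
  obtain ⟨x', hx', he⟩ := b_radical n p hp hp2 (par n y)
    (fun z hz => h ⟨z, mem_parabolicHoms_iff.2 hz⟩)
  exact ⟨⟨x', mem_parabolicHoms_iff.2 hx'⟩, Subtype.ext he⟩

/-- the Hecke operator `T_D` (`D ∤ N`) is self-adjoint. -/
theorem sa_X (N : ℕ) [NeZero N] (D : Nat.Primes) (hDN : ¬ (D : ℕ) ∣ N) (x h : L N) :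
    bL N (actZ N (MvPolynomial.X D) x) h = bL N x (actZ N (MvPolynomial.X D) h) := by
  have : NeZero (D : ℕ) := ⟨D.2.ne_zero⟩
  have hx := par N x
  have hh := par N h
  have hr1x := S41_TR.r1_isParabolic N (D : ℕ) (x : Additive (Gamma0 N) →+ ℤ) hx
  have hr2h := S41_TR.r2_isParabolic N (D : ℕ) D.2 hDN (h : Additive (Gamma0 N) →+ ℤ) hh
  have e1 : ((actZ N (MvPolynomial.X D) x : L N) : Additive (Gamma0 N) →+ ℤ)
      = c2 N (D : ℕ) D.2 hDN ℤ (r1 N (D : ℕ) ℤ x) := by
    rw [actZ_X, S41_TRH.c2_r1 N (D : ℕ) D.2 hDN]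
    rfl
  have e2 : ((actZ N (MvPolynomial.X D) h : L N) : Additive (Gamma0 N) →+ ℤ)
      = c1 N (D : ℕ) D.2 hDN ℤ (r2 N (D : ℕ) D.2 hDN ℤ h) := by
    rw [actZ_X, S41_TRH.c1_r2 N (D : ℕ) D.2 hDN]
    rfl
  have hc2 := S41_TR.c2_isParabolic N (D : ℕ) D.2 hDN S41_TR.int_torsionFree _ hr1x
  rw [bL_apply, bL_apply, e1, e2, b_antisymm N hc2 hh,
    ← b_res2_cor2 N (D : ℕ) D.2 hDN hh hr1x, b_antisymm (N * (D : ℕ)) hr2h hr1x, neg_neg,
    b_res1_cor1 N (D : ℕ) D.2 hDN hx hr2h]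

/-- `T_D - a` is self-adjoint for every prime `D ∤ N`. -/
theorem sa (N : ℕ) [NeZero N] (D : Nat.Primes) (hDN : ¬ (D : ℕ) ∣ N) (a : ℤ) (x h : L N) :
    bL N (TT N (MvPolynomial.X D - MvPolynomial.C a) x) h
      = bL N x (TT N (MvPolynomial.X D - MvPolynomial.C a) h) := by
  have e : ∀ x : L N, actZ N (MvPolynomial.X D - MvPolynomial.C a) x
      = actZ N (MvPolynomial.X D) x - a • x := fun x => by
    rw [map_sub, LinearMap.sub_apply, actZ_C]
  rw [TT_apply, TT_apply, e, e, map_sub, map_sub, AddMonoidHom.sub_apply, map_zsmul, map_zsmul,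
    AddMonoidHom.smul_apply, sa_X N D hDN]

end Fermat.Agent.S41_WPair
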