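import Mathlib
import Fermat.Agent.S41_WDefs

/-!
# S41_WTR (helper8), block G1: the degeneracy calculus on the lattices `L n`

On top of lead's `S41_WDefs` (`R1 R2 C1 C2 WW TT OLD`): the relations TR1–TR7 in `L`-form,
torsion-freeness of `L n`, stability of the old sublattice under the whole Hecke algebra and
`U_q² ≡ 1` modulo the old sublattice.
-/

set_option autoImplicit false

open CongruenceSubgroup ModularCurve ModularCurve.Period
open scoped MatrixGroups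

namespace Fermat.Agent.S41_WTR

open Fermat.Agent.S16_LB Fermat.Agent.S41_Act Fermat.Agent.S41_Defs Fermat.Agent.S41_TRH
open Fermat.Agent.S41_W

/-- `L n` is torsion-free. -/
theorem tf (n : ℕ) (m : ℤ) (hm : m ≠ 0) (x : L n) (h : m • x = 0) : x = 0 := by
  apply Subtype.ext
  refine AddMonoidHom.ext fun γ => ?_
  have h1 : ((m • x : L n) : Additive (Gamma0 n) →+ ℤ) γ = 0 := by rw [h]; rfl
  have h2 : m * (x : Additive (Gamma0 n) →+ ℤ) γ = 0 := h1
  rcases mul_eq_zero.mp h2 with h3 | h3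
  · exact absurd h3 hm
  · exact h3

/-- the action of `X_ℓ - a`. -/
theorem TT_sub (n : ℕ) [NeZero n] (l : Nat.Primes) (a : ℤ) (x : L n) :
    TT n ((MvPolynomial.X l : HeckeAlg) - MvPolynomial.C a) x
      = actZ n (MvPolynomial.X l) x - a • x := by
  rw [TT_apply, map_sub (actZ n), LinearMap.sub_apply, actZ_C]

variable (N q : ℕ) [NeZero N] [NeZero q] (hq : q.Prime) (hqN : ¬ q ∣ N)

/-! ### TR1, TR2, TR3 -/

theorem c1r1 (x : L N) : C1 N q hq hqN (R1 N q x) = ((q : ℤ) + 1) • x := by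
  have h : C1 N q hq hqN (R1 N q x) = (q + 1) • x :=
    Subtype.ext (S41_Defs.c1_r1 N q hq hqN (x : Additive (Gamma0 N) →+ ℤ))
  rw [h, ← natCast_zsmul]
  push_cast
  rfl

theorem c2r2 (x : L N) : C2 N q hq hqN (R2 N q hq hqN x) = ((q : ℤ) + 1) • x := by
  have h : C2 N q hq hqN (R2 N q hq hqN x) = (q + 1) • x :=
    Subtype.ext (S41_Defs.c2_r2 N q hq hqN (x : Additive (Gamma0 N) →+ ℤ))
  rw [h, ← natCast_zsmul]
  push_cast
  rfl

theorem c1r2 (x : L N) :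
    C1 N q hq hqN (R2 N q hq hqN x) = TT N (MvPolynomial.X (⟨q, hq⟩ : Nat.Primes)) x := by
  apply Subtype.ext
  rw [TT_apply, actZ_X N ⟨q, hq⟩ x]
  exact S41_TRH.c1_r2 N q hq hqN (x : Additive (Gamma0 N) →+ ℤ)

theorem c2r1 (x : L N) :
    C2 N q hq hqN (R1 N q x) = TT N (MvPolynomial.X (⟨q, hq⟩ : Nat.Primes)) x := by
  apply Subtype.ext
  rw [TT_apply, actZ_X N ⟨q, hq⟩ x]
  exact S41_TRH.c2_r1 N q hq hqN (x : Additive (Gamma0 N) →+ ℤ)

theorem Wr1 (x : L N) : WW N q hq hqN (R1 N q x) = R2 N q hq hqN x :=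
  Subtype.ext (S41_Defs.Wop_r1 N q hq hqN (x : Additive (Gamma0 N) →+ ℤ))

theorem Wr2 (x : L N) : WW N q hq hqN (R2 N q hq hqN x) = R1 N q x :=
  Subtype.ext (S41_Defs.Wop_r2 N q hq hqN (x : Additive (Gamma0 N) →+ ℤ))

theorem WW_WW (z : L (N * q)) : WW N q hq hqN (WW N q hq hqN z) = z :=
  Subtype.ext (S41_Defs.Wop_Wop N q hq hqN (z : Additive (Gamma0 (N * q)) →+ ℤ))

theorem C2_eq (z : L (N * q)) : C2 N q hq hqN z = C1 N q hq hqN (WW N q hq hqN z) := rfl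

theorem C1_eq (z : L (N * q)) : C1 N q hq hqN z = C2 N q hq hqN (WW N q hq hqN z) := by
  rw [C2_eq, WW_WW]

/-! ### commutation with the Hecke generators -/

include hq in
theorem actZ_R1 (l : Nat.Primes) (hl : (l : ℕ) ≠ q) (x : L N) :
    actZ (N * q) (MvPolynomial.X l) (R1 N q x) = R1 N q (actZ N (MvPolynomial.X l) x) := by
  apply Subtype.ext
  rw [actZ_X, R1_coe, R1_coe, actZ_X]
  exact homOp_r1 N q hq l hl _

theorem actZ_R2 (l : Nat.Primes) (hl : (l : ℕ) ≠ q) (x : L N) :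
    actZ (N * q) (MvPolynomial.X l) (R2 N q hq hqN x)
      = R2 N q hq hqN (actZ N (MvPolynomial.X l) x) := by
  apply Subtype.ext
  rw [actZ_X, R2_coe, R2_coe, actZ_X]
  exact homOp_r2 N q hq hqN l hl _

theorem actZ_q_R2 (x : L N) :
    actZ (N * q) (MvPolynomial.X (⟨q, hq⟩ : Nat.Primes)) (R2 N q hq hqN x) = q • R1 N q x := by
  apply Subtype.ext
  rw [actZ_X (N * q) ⟨q, hq⟩ (R2 N q hq hqN x), R2_coe]
  exact homOp_q_r2 N q hq hqN _

theorem actZ_q_R1 (x : L N) :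
    actZ (N * q) (MvPolynomial.X (⟨q, hq⟩ : Nat.Primes)) (R1 N q x)
      = R1 N q (actZ N (MvPolynomial.X (⟨q, hq⟩ : Nat.Primes)) x) - R2 N q hq hqN x := by
  apply Subtype.ext
  rw [actZ_X (N * q) ⟨q, hq⟩ (R1 N q x), R1_coe]
  show _ = r1 N q ℤ ((actZ N (MvPolynomial.X (⟨q, hq⟩ : Nat.Primes)) x : L N) :
    Additive (Gamma0 N) →+ ℤ) - r2 N q hq hqN ℤ x
  rw [actZ_X N ⟨q, hq⟩ x]
  exact homOp_q_r1 N q hq hqN _

theorem actZ_C1 (l : Nat.Primes) (hl : ¬ (l : ℕ) ∣ N * q) (z : L (N * q)) :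
    actZ N (MvPolynomial.X l) (C1 N q hq hqN z)
      = C1 N q hq hqN (actZ (N * q) (MvPolynomial.X l) z) := by
  apply Subtype.ext
  rw [actZ_X, C1_coe, C1_coe, actZ_X]
  exact homOp_c1 N q hq hqN l hl _

theorem actZ_C2 (l : Nat.Primes) (hl : ¬ (l : ℕ) ∣ N * q) (z : L (N * q)) :
    actZ N (MvPolynomial.X l) (C2 N q hq hqN z)
      = C2 N q hq hqN (actZ (N * q) (MvPolynomial.X l) z) := by
  apply Subtype.ext
  rw [actZ_X, C2_coe, C2_coe, actZ_X]
  exact homOp_c2 N q hq hqN l hl _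

theorem actZ_WW (l : Nat.Primes) (hl : ¬ (l : ℕ) ∣ N * q) (z : L (N * q)) :
    actZ (N * q) (MvPolynomial.X l) (WW N q hq hqN z)
      = WW N q hq hqN (actZ (N * q) (MvPolynomial.X l) z) := by
  apply Subtype.ext
  rw [actZ_X, WW_coe, WW_coe, actZ_X]
  exact homOp_Wop N q hq hqN l hl _

include hq in
theorem R1_sub (l : Nat.Primes) (hl : (l : ℕ) ≠ q) (a : ℤ) (x : L N) :
    R1 N q (TT N ((MvPolynomial.X l : HeckeAlg) - MvPolynomial.C a) x)
      = TT (N * q) ((MvPolynomial.X l : HeckeAlg) - MvPolynomial.C a) (R1 N q x) := by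
  rw [TT_sub, TT_sub, map_sub, map_zsmul, actZ_R1 N q hq l hl]

theorem R2_sub (l : Nat.Primes) (hl : (l : ℕ) ≠ q) (a : ℤ) (x : L N) :
    R2 N q hq hqN (TT N ((MvPolynomial.X l : HeckeAlg) - MvPolynomial.C a) x)
      = TT (N * q) ((MvPolynomial.X l : HeckeAlg) - MvPolynomial.C a) (R2 N q hq hqN x) := by
  rw [TT_sub, TT_sub, map_sub, map_zsmul, actZ_R2 N q hq hqN l hl]

theorem C1_sub (l : Nat.Primes) (hl : ¬ (l : ℕ) ∣ N * q) (a : ℤ) (z : L (N * q)) :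
    C1 N q hq hqN (TT (N * q) ((MvPolynomial.X l : HeckeAlg) - MvPolynomial.C a) z)
      = TT N ((MvPolynomial.X l : HeckeAlg) - MvPolynomial.C a) (C1 N q hq hqN z) := by
  rw [TT_sub, TT_sub, map_sub, map_zsmul, actZ_C1 N q hq hqN l hl]

theorem C2_sub (l : Nat.Primes) (hl : ¬ (l : ℕ) ∣ N * q) (a : ℤ) (z : L (N * q)) :
    C2 N q hq hqN (TT (N * q) ((MvPolynomial.X l : HeckeAlg) - MvPolynomial.C a) z)
      = TT N ((MvPolynomial.X l : HeckeAlg) - MvPolynomial.C a) (C2 N q hq hqN z) := by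
  rw [TT_sub, TT_sub, map_sub, map_zsmul, actZ_C2 N q hq hqN l hl]

theorem WW_sub (l : Nat.Primes) (hl : ¬ (l : ℕ) ∣ N * q) (a : ℤ) (z : L (N * q)) :
    WW N q hq hqN (TT (N * q) ((MvPolynomial.X l : HeckeAlg) - MvPolynomial.C a) z)
      = TT (N * q) ((MvPolynomial.X l : HeckeAlg) - MvPolynomial.C a) (WW N q hq hqN z) := by
  rw [TT_sub, TT_sub, map_sub, map_zsmul, actZ_WW N q hq hqN l hl]

/-! ### the old sublattice -/

theorem R1_mem_OLD (x : L N) : R1 N q x ∈ OLD N q hq hqN :=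
  (mem_OLD N q hq hqN _).mpr ⟨x, 0, by rw [map_zero, add_zero]⟩

theorem R2_mem_OLD (x : L N) : R2 N q hq hqN x ∈ OLD N q hq hqN :=
  (mem_OLD N q hq hqN _).mpr ⟨0, x, by rw [map_zero, zero_add]⟩

/-- the old sublattice is stable under every Hecke generator. -/
theorem OLD_stable_X (l : Nat.Primes) (z : L (N * q)) (hz : z ∈ OLD N q hq hqN) :
    actZ (N * q) (MvPolynomial.X l) z ∈ OLD N q hq hqN := by
  obtain ⟨x, y, rfl⟩ := (mem_OLD N q hq hqN z).mp hz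
  rw [map_add]
  by_cases hl : (l : ℕ) = q
  · have hl' : l = ⟨q, hq⟩ := Subtype.ext hl
    rw [hl', actZ_q_R1 N q hq hqN, actZ_q_R2 N q hq hqN]
    refine add_mem (sub_mem (R1_mem_OLD N q hq hqN _) (R2_mem_OLD N q hq hqN _)) ?_
    exact nsmul_mem (R1_mem_OLD N q hq hqN _) q
  · rw [actZ_R1 N q hq l hl, actZ_R2 N q hq hqN l hl]
    exact add_mem (R1_mem_OLD N q hq hqN _) (R2_mem_OLD N q hq hqN _)

/-- the old sublattice is stable under the whole Hecke algebra. -/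
theorem OLD_stable (t : HeckeAlg) (z : L (N * q)) (hz : z ∈ OLD N q hq hqN) :
    actZ (N * q) t z ∈ OLD N q hq hqN := by
  induction t using MvPolynomial.induction_on generalizing z with
  | C a =>
    rw [actZ_C]
    exact zsmul_mem hz a
  | add s t hs ht =>
    rw [map_add (actZ (N * q)), LinearMap.add_apply]
    exact add_mem (hs z hz) (ht z hz)
  | mul_X s l hs =>
    rw [map_mul (actZ (N * q)), Module.End.mul_apply]
    exact hs _ (OLD_stable_X N q hq hqN l z hz)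

/-- `U_q² ≡ 1` modulo the old sublattice, explicit form. -/
theorem Uq_sq' (z : L (N * q)) :
    actZ (N * q) (MvPolynomial.X (⟨q, hq⟩ : Nat.Primes))
        (actZ (N * q) (MvPolynomial.X (⟨q, hq⟩ : Nat.Primes)) z) - z
      = R1 N q (actZ N (MvPolynomial.X (⟨q, hq⟩ : Nat.Primes)) (C2 N q hq hqN z)
          - C1 N q hq hqN z) - R2 N q hq hqN (C2 N q hq hqN z) := by
  apply Subtype.ext
  have h := homOp_q_sq_eq N q hq hqN (B := ℤ) (z : Additive (Gamma0 (N * q)) →+ ℤ)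
  show ((actZ (N * q) (MvPolynomial.X (⟨q, hq⟩ : Nat.Primes))
      (actZ (N * q) (MvPolynomial.X (⟨q, hq⟩ : Nat.Primes)) z) : L (N * q)) :
        Additive (Gamma0 (N * q)) →+ ℤ) - (z : Additive (Gamma0 (N * q)) →+ ℤ)
    = r1 N q ℤ (((actZ N (MvPolynomial.X (⟨q, hq⟩ : Nat.Primes)) (C2 N q hq hqN z) : L N) :
          Additive (Gamma0 N) →+ ℤ) - c1 N q hq hqN ℤ z)
      - r2 N q hq hqN ℤ (c2 N q hq hqN ℤ z)
  rw [actZ_X (N * q) ⟨q, hq⟩ (actZ (N * q) (MvPolynomial.X (⟨q, hq⟩ : Nat.Primes)) z),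
    actZ_X (N * q) ⟨q, hq⟩ z, actZ_X N ⟨q, hq⟩ (C2 N q hq hqN z), h]
  show _ = r1 N q ℤ (homOp N ℤ ⟨q, hq⟩ (c2 N q hq hqN ℤ z) - c1 N q hq hqN ℤ z) - _
  abel

/-- `U_q² ≡ 1` modulo the old sublattice. -/
theorem Uq_sq (z : L (N * q)) :
    actZ (N * q) ((MvPolynomial.X (⟨q, hq⟩ : Nat.Primes) : HeckeAlg) ^ 2 - 1) z
      ∈ OLD N q hq hqN := by
  have e : actZ (N * q) ((MvPolynomial.X (⟨q, hq⟩ : Nat.Primes) : HeckeAlg) ^ 2 - 1) z
      = actZ (N * q) (MvPolynomial.X (⟨q, hq⟩ : Nat.Primes))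
          (actZ (N * q) (MvPolynomial.X (⟨q, hq⟩ : Nat.Primes)) z) - z := by
    rw [map_sub (actZ (N * q)), map_pow (actZ (N * q)), map_one (actZ (N * q)), pow_two,
      LinearMap.sub_apply, Module.End.mul_apply, Module.End.one_apply]
  rw [e, Uq_sq' N q hq hqN z]
  exact sub_mem (R1_mem_OLD N q hq hqN _) (R2_mem_OLD N q hq hqN _)

end Fermat.Agent.S41_WTR
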