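import Mathlib
import Fermat.Agent.S41_WH
import Fermat.Agent.S41_WTR
import Fermat.Agent.S41_WPair
import Fermat.Agent.S41_WInj
import Fermat.Agent.S41_FD1
import Fermat.Agent.S41_EndLam
import Fermat.Agent.S41_EndAux
import Fermat.Agent.S41_WFun

/-!
# S41: assembly of the level raising theorem (helper4, backup of lead's `S41_WMain`)

All blocks are put together: the proper subgroup `H` of `L N` (G4), the abstract functional
argument `S41_EndLam` instantiated with the degeneracy calculus (G1), the pairing (G2), the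
injectivity statements (G3) and the auxiliary primes (FD1), and the Deligne–Serre step
`S41_WFun.finish_of_functional`.
-/

set_option autoImplicit false

open CongruenceSubgroup ModularCurve ModularCurve.Period
open WeierstrassCurve WeierstrassCurve.Affine WeierstrassCurve.Affine.Point

namespace Fermat.Agent.S41_WAsm

open Fermat.Agent.S41_Act Fermat.Agent.S41_W

section core

variable (N q : ℕ) [NeZero N] [NeZero q] (hq : q.Prime) (hqN : ¬ q ∣ N)

/-- the common data of the abstract functional argument. -/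
noncomputable def core (p : ℕ) (hp : p.Prime) (hp2 : p ≠ 2) (H : AddSubgroup (L N))
    (hH : ∃ x, x ∉ H) (hHp : ∀ x : L N, (p : ℤ) • x ∈ H) :
    S41_EndLam.Core (L N) (L (N * q)) where
  p := p
  q := (q : ℤ)
  r1 := R1 N q
  r2 := R2 N q hq hqN
  c1 := C1 N q hq hqN
  c2 := C2 N q hq hqN
  Tq := TT N (MvPolynomial.X (⟨q, hq⟩ : Nat.Primes))
  W := WW N q hq hqN
  H := H
  bN := S41_WPair.bL N
  bM := S41_WPair.bL (N * q)
  hp := hp
  c1r1 := S41_WTR.c1r1 N q hq hqN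
  c2r2 := S41_WTR.c2r2 N q hq hqN
  c1r2 := S41_WTR.c1r2 N q hq hqN
  c2r1 := S41_WTR.c2r1 N q hq hqN
  Wr1 := S41_WTR.Wr1 N q hq hqN
  Wr2 := S41_WTR.Wr2 N q hq hqN
  Hp := hHp
  tfN := fun x h => S41_WTR.tf N (p : ℤ) (by exact_mod_cast hp.ne_zero) x h
  tfM := fun z h => S41_WTR.tf (N * q) (p : ℤ) (by exact_mod_cast hp.ne_zero) z h
  adj1 := S41_WPair.adj1 N q hq hqN
  adj2 := S41_WPair.adj2 N q hq hqN
  ndM := S41_WPair.nd (N * q) p hp hp2
  dual := S41_EndAux.exists_orth p hp (S41_WPair.bL N) (S41_WPair.nd N p hp hp2) H hHp hH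

/-- the Hecke operators on `L n` commute. -/
theorem TT_comm (n : ℕ) [NeZero n] (s t : HeckeAlg) (x : L n) :
    TT n s (TT n t x) = TT n t (TT n s x) := by
  rw [TT_apply, TT_apply, TT_apply, TT_apply, ← Module.End.mul_apply, ← Module.End.mul_apply,
    ← map_mul, ← map_mul, mul_comm]

end core

/-- **Level raising.** -/
theorem main
    (E : WeierstrassCurve ℚ) [E.IsElliptic] {W : WeierstrassCurve ℤ} (hW : W.IsIntegralModelOf E)
    {p N q' : ℕ} (hp : p.Prime) (hp2 : p ≠ 2) (hN : 0 < N) (hq' : q'.Prime) (hq'N : ¬ q' ∣ N)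
    (hirr : GaloisRepIsIrreducible (K := AlgebraicClosure ℚ) ℚ E p)
    (f : CuspForm (CongruenceSubgroup.Gamma0 N) 2) (𝔪 : Ideal (integralClosure ℤ ℂ))
    (hf : f.IsNormalizedEigenform) (hmax : 𝔪.IsMaximal) (hpm : (p : integralClosure ℤ ℂ) ∈ 𝔪)
    (hcong : ∀ ℓ : ℕ, ℓ.Prime → W.IsGoodPrimeFor ℓ → ¬ ℓ ∣ N → ℓ ≠ p →
      ∃ a : integralClosure ℤ ℂ, (a : ℂ) = ModularFormClass.qCoeff f ℓ ∧
        a - ((W.apOfModel ℓ : ℤ) : integralClosure ℤ ℂ) ∈ 𝔪)
    (hLR : ∃ a : integralClosure ℤ ℂ, (a : ℂ) = ModularFormClass.qCoeff f q' ∧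
      a ^ 2 - ((q' : integralClosure ℤ ℂ) + 1) ^ 2 ∈ 𝔪) :
    ∃ (g : CuspForm (CongruenceSubgroup.Gamma0 (N * q')) 2) (𝔪' : Ideal (integralClosure ℤ ℂ)),
      g.IsNormalizedEigenform ∧ 𝔪'.IsMaximal ∧ (p : integralClosure ℤ ℂ) ∈ 𝔪' ∧
      (∀ ℓ : ℕ, ℓ.Prime → W.IsGoodPrimeFor ℓ → ¬ ℓ ∣ N * q' → ℓ ≠ p →
        ∃ a : integralClosure ℤ ℂ, (a : ℂ) = ModularFormClass.qCoeff g ℓ ∧
          a - ((W.apOfModel ℓ : ℤ) : integralClosure ℤ ℂ) ∈ 𝔪') ∧
      g.IsNewAt q' := by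
  haveI : NeZero N := ⟨hN.ne'⟩
  haveI : NeZero q' := ⟨hq'.ne_zero⟩
  obtain ⟨e, H, he, hH, hHp, hHq, hHgood⟩ :=
    S41_WH.exists_H (W := W) hq' f 𝔪 hf hmax hpm hcong hLR
  rcases he with rfl | rfl
  · -- the sign `+`
    have P : S41_EndLam.Plus (core N q' hq' hq'N p hp hp2 H hH hHp) :=
      ⟨fun x => by
        have h := hHq x
        rw [one_mul] at h
        exact h,
       fun j u h => S41_WInj.inj_plus N q' hq' hq'N p hp hp2 j u h⟩
    refine S41_WFun.finish_of_functional (N * q') p ⟨q', hq'⟩ W (OLD N q' hq' hq'N)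
      (fun t z hz => S41_WTR.OLD_stable N q' hq' hq'N t z hz) (S41_WTR.Uq_sq N q' hq' hq'N) H
      (C1 N q' hq' hq'N + C2 N q' hq' hq'N) ?_ ?_ ?_ ?_
    · exact (core N q' hq' hq'N p hp hp2 H hH hHp).exists_plus_not_mem P
    · intro z m hm hz
      obtain ⟨x, y, hxy⟩ := (mem_OLD N q' hq' hq'N _).mp hz
      exact (core N q' hq' hq'N p hp hp2 H hH hHp).beta_plus_mem P z m hm x y hxy
    · intro z
      rw [map_zsmul]
      exact hHp _
    · intro l hl hlM hlp z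
      have hlN : ¬ (l : ℕ) ∣ N := fun h => hlM (Dvd.dvd.mul_right h q')
      rw [AddMonoidHom.add_apply, ← TT_apply, S41_WTR.C1_sub N q' hq' hq'N l hlM,
        S41_WTR.C2_sub N q' hq' hq'N l hlM, ← map_add]
      exact hHgood l hl hlN hlp _
  · -- the sign `-`
    obtain ⟨r, D, hr, hD, hrS, hDS, hr2, hD2, -, hrp, -, hDp, hDq, hrD, hqr, -, hDgood, hDa⟩ :=
      S41_FD1.fd1 E hW hp hp2 hirr hq' N.primeFactors
    have hrN : ¬ r ∣ N := fun h => hrS (Nat.mem_primeFactors.mpr ⟨hr, h, hN.ne'⟩)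
    have hDN : ¬ D ∣ N := fun h => hDS (Nat.mem_primeFactors.mpr ⟨hD, h, hN.ne'⟩)
    have Mi : S41_EndLam.Minus (core N q' hq' hq'N p hp hp2 H hH hHp) :=
      { τ := TT N ((MvPolynomial.X (⟨D, hD⟩ : Nat.Primes) : HeckeAlg)
          - MvPolynomial.C (W.apOfModel D))
        τM := TT (N * q') ((MvPolynomial.X (⟨D, hD⟩ : Nat.Primes) : HeckeAlg)
          - MvPolynomial.C (W.apOfModel D))
        Hq := fun x => by
          have h := hHq x
          rw [neg_one_mul, neg_smul, ← sub_eq_add_neg] at h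
          exact h
        r1τ := fun x => S41_WTR.R1_sub N q' hq' ⟨D, hD⟩ hDq (W.apOfModel D) x
        r2τ := fun x => S41_WTR.R2_sub N q' hq' hq'N ⟨D, hD⟩ hDq (W.apOfModel D) x
        τTq := fun x => TT_comm N _ _ x
        Hτ := fun x => hHgood ⟨D, hD⟩ hDgood hDN hDp x
        inj := fun u h1 h2 => S41_WInj.inj_minus N q' hq' hq'N p hp r D hr hD hr2 hD2 hrp hDp
          hDq hrN hDN hrD hqr (W.apOfModel D) hDa u h1 h2
        fin := S41_EndAux.finite_quot (L N) p hp.ne_zero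
        sa := fun x h => S41_WPair.sa N ⟨D, hD⟩ hDN (W.apOfModel D) x h
        ndN := S41_WPair.nd N p hp hp2 }
    refine S41_WFun.finish_of_functional (N * q') p ⟨q', hq'⟩ W (OLD N q' hq' hq'N)
      (fun t z hz => S41_WTR.OLD_stable N q' hq' hq'N t z hz) (S41_WTR.Uq_sq N q' hq' hq'N) H
      (C1 N q' hq' hq'N - C2 N q' hq' hq'N) ?_ ?_ ?_ ?_
    · exact (core N q' hq' hq'N p hp hp2 H hH hHp).exists_minus_not_mem Mi
    · intro z m hm hz
      obtain ⟨x, y, hxy⟩ := (mem_OLD N q' hq' hq'N _).mp hz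
      exact (core N q' hq' hq'N p hp hp2 H hH hHp).beta_minus_mem Mi z m hm x y hxy
    · intro z
      rw [map_zsmul]
      exact hHp _
    · intro l hl hlM hlp z
      have hlN : ¬ (l : ℕ) ∣ N := fun h => hlM (Dvd.dvd.mul_right h q')
      rw [AddMonoidHom.sub_apply, ← TT_apply, S41_WTR.C1_sub N q' hq' hq'N l hlM,
        S41_WTR.C2_sub N q' hq' hq'N l hlM, ← map_sub]
      exact hHgood l hl hlN hlp _

end Fermat.Agent.S41_WAsm
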