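import Fermat.Agent.S41_ChebN

/-!
# S41_ChebG (helper6): Frobenius elements generating a given cyclic subgroup

For a finite Galois extension `M/ℚ` and `σ ∈ Gal(M/ℚ)` whose order divides `r ^ a * l ^ b`
(`r ≠ l` primes), there is a prime `D` outside any given finite set and a prime `Q` of `𝓞 M`
above `D`, unramified, whose Frobenius is `σ ^ k` with `k` prime to `r * l`.
-/

set_option autoImplicit false

noncomputable section

open NumberField IsDedekindDomain Fermat.Agent.S14_Defs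

namespace Fermat.Agent.S41_ChebG

/-- index of the subgroup of `t`-th powers in a cyclic group. -/
theorem le_index_of_ne_top {G : Type*} [Group G] [Finite G] (s : G)
    (hgen : ∀ g : G, ∃ k : ℕ, g = s ^ k) (hab : ∀ g h : G, g * h = h * g) {t : ℕ}
    (ht : t.Prime) (hne : Subgroup.zpowers (s ^ t) ≠ ⊤) :
    t ≤ (Subgroup.zpowers (s ^ t)).index := by
  haveI : (Subgroup.zpowers (s ^ t)).Normal :=
    ⟨fun n hn g => by rw [hab g n, mul_inv_cancel_right]; exact hn⟩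
  haveI : Fact t.Prime := ⟨ht⟩
  have h1 : (QuotientGroup.mk s : G ⧸ Subgroup.zpowers (s ^ t)) ^ t = 1 := by
    rw [← QuotientGroup.mk_pow, QuotientGroup.eq_one_iff]
    exact Subgroup.mem_zpowers _
  have h2 : (QuotientGroup.mk s : G ⧸ Subgroup.zpowers (s ^ t)) ≠ 1 := by
    intro h
    rw [QuotientGroup.eq_one_iff] at h
    apply hne
    rw [eq_top_iff]
    intro g _
    obtain ⟨k, rfl⟩ := hgen g
    exact Subgroup.pow_mem _ h k
  have h3 := orderOf_eq_prime h1 h2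
  have h4 : orderOf (QuotientGroup.mk s : G ⧸ Subgroup.zpowers (s ^ t)) ∣
      Nat.card (G ⧸ Subgroup.zpowers (s ^ t)) := orderOf_dvd_natCard _
  rw [h3, ← Subgroup.index_eq_card] at h4
  exact Nat.le_of_dvd (Nat.pos_of_ne_zero Subgroup.index_ne_zero_of_finite) h4

/-- adjusting an exponent modulo the order -/
theorem exists_coprime_modEq {r l n k₀ a b : ℕ} (hr : r.Prime) (hl : l.Prime)
    (hn : n ∣ r ^ a * l ^ b) (h_r : r ∣ n → ¬ r ∣ k₀) (h_l : l ∣ n → ¬ l ∣ k₀) :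
    ∃ k, k ≡ k₀ [MOD n] ∧ k.Coprime (r * l) := by
  have hcop : ∀ k, ¬ r ∣ k → ¬ l ∣ k → k.Coprime (r * l) := fun k h1 h2 =>
    Nat.Coprime.mul_right ((Nat.Prime.coprime_iff_not_dvd hr).mpr h1).symm
      ((Nat.Prime.coprime_iff_not_dvd hl).mpr h2).symm
  have hadd : k₀ + n ≡ k₀ [MOD n] := by
    show (k₀ + n) % n = k₀ % n
    exact Nat.add_mod_right k₀ n
  by_cases h1 : r ∣ n
  · by_cases h2 : l ∣ n
    · exact ⟨k₀, Nat.ModEq.refl _, hcop _ (h_r h1) (h_l h2)⟩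
    · by_cases h3 : l ∣ k₀
      · refine ⟨k₀ + n, hadd, hcop _ ?_ ?_⟩
        · intro h; exact h_r h1 ((Nat.dvd_add_left h1).mp h)
        · intro h; exact h2 ((Nat.dvd_add_right h3).mp h)
      · exact ⟨k₀, Nat.ModEq.refl _, hcop _ (h_r h1) h3⟩
  · by_cases h2 : l ∣ n
    · by_cases h3 : r ∣ k₀
      · refine ⟨k₀ + n, hadd, hcop _ ?_ ?_⟩
        · intro h; exact h1 ((Nat.dvd_add_right h3).mp h)
        · intro h; exact h_l h2 ((Nat.dvd_add_left h2).mp h)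
      · exact ⟨k₀, Nat.ModEq.refl _, hcop _ h3 (h_l h2)⟩
    · have hn1 : n = 1 := by
        have c1 : Nat.Coprime n (r ^ a) :=
          Nat.Coprime.pow_right a ((Nat.Prime.coprime_iff_not_dvd hr).mpr h1).symm
        have c2 : Nat.Coprime n (l ^ b) :=
          Nat.Coprime.pow_right b ((Nat.Prime.coprime_iff_not_dvd hl).mpr h2).symm
        exact Nat.Coprime.eq_one_of_dvd (Nat.Coprime.mul_right c1 c2) hn
      subst hn1
      exact ⟨1, Nat.modEq_one, by simp⟩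

theorem unramAway_of_dvd {F M : Type*} [Field F] [NumberField F] [Field M] [NumberField M]
    [Algebra F M] {n m : ℕ} (h : S14_Frob.UnramAway F M n) (hd : n ∣ m) :
    S14_Frob.UnramAway F M m := by
  intro Q hQ hQ0 hm σ hσ
  refine h Q hQ hQ0 (fun hn => hm ?_) σ hσ
  obtain ⟨k, rfl⟩ := hd
  rw [Nat.cast_mul]
  exact Q.mul_mem_right _ hn

/-- an element of a subgroup `C` of the Galois group, as an automorphism over the fixed field -/
def overFixed {M : Type*} [Field M] [NumberField M] (C : Subgroup (M ≃ₐ[ℚ] M))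
    (τ : M ≃ₐ[ℚ] M) (hτ : τ ∈ C) : M ≃ₐ[↥(IntermediateField.fixedField C)] M :=
  { τ.toRingEquiv with
    commutes' := fun x => ((IntermediateField.mem_fixedField_iff C x.1).mp x.2) τ hτ }

theorem add_lt_mul_of_primes {r l : ℕ} (hr : r.Prime) (hl : l.Prime) (hrl : r ≠ l) :
    r + l < r * l := by
  have h2r := hr.two_le
  have h2l := hl.two_le
  rcases Nat.lt_or_gt_of_ne hrl with h | h
  · obtain ⟨r', rfl⟩ : ∃ r', r = r' + 2 := ⟨r - 2, by omega⟩
    obtain ⟨l', rfl⟩ : ∃ l', l = l' + 3 := ⟨l - 3, by omega⟩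
    have := Nat.zero_le (r' * l')
    nlinarith
  · obtain ⟨l', rfl⟩ : ∃ l', l = l' + 2 := ⟨l - 2, by omega⟩
    obtain ⟨r', rfl⟩ : ∃ r', r = r' + 3 := ⟨r - 3, by omega⟩
    have := Nat.zero_le (r' * l')
    nlinarith

/-- Chebotarev-lite at the level of a number field. -/
theorem exists_frob_gen (M : Type*) [Field M] [NumberField M] [IsGalois ℚ M] (σ : M ≃ₐ[ℚ] M)
    {r l : ℕ} (hr : r.Prime) (hl : l.Prime) (hrl : r ≠ l) (a b : ℕ)
    (hord : σ ^ (r ^ a * l ^ b) = 1) (S : Finset ℕ) :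
    ∃ (D : ℕ) (Q : Ideal (𝓞 M)) (k : ℕ), D.Prime ∧ D ∉ S ∧ Q.IsPrime ∧ (D : 𝓞 M) ∈ Q ∧
      k.Coprime (r * l) ∧ (∀ x : 𝓞 M, (σ ^ k) • x - x ^ D ∈ Q) ∧
      (∀ ρ : M ≃ₐ[ℚ] M, (∀ x : 𝓞 M, ρ • x - x ∈ Q) → ρ = 1) := by
  classical
  set C : Subgroup (M ≃ₐ[ℚ] M) := Subgroup.zpowers σ with hC
  set F : IntermediateField ℚ M := IntermediateField.fixedField C with hF
  let σF : M ≃ₐ[↥F] M := overFixed C σ (Subgroup.mem_zpowers σ)
  have hσF : ∀ x, σF x = σ x := fun x => rfl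
  have hpow : ∀ (k : ℕ) (x : M), (σF ^ k) x = (σ ^ k) x := by
    intro k
    induction k with
    | zero => intro x; simp
    | succ k ih =>
      intro x
      rw [pow_succ, pow_succ, AlgEquiv.mul_apply, AlgEquiv.mul_apply, ih, hσF]
  have hgen : ∀ g : M ≃ₐ[↥F] M, ∃ k : ℕ, g = σF ^ k := by
    intro g
    have h1 : g.restrictScalars ℚ ∈ F.fixingSubgroup :=
      (IntermediateField.mem_fixingSubgroup_iff F _).mpr (fun x hx => g.commutes ⟨x, hx⟩)
    have hfs : F.fixingSubgroup = C := IntermediateField.fixingSubgroup_fixedField C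
    rw [hfs] at h1
    obtain ⟨k, hk⟩ := (Submonoid.mem_powers_iff _ _).mp (mem_powers_iff_mem_zpowers.mpr h1)
    refine ⟨k, AlgEquiv.ext fun x => ?_⟩
    rw [hpow, hk]
    rfl
  have hab : ∀ g h : M ≃ₐ[↥F] M, g * h = h * g := by
    intro g h
    obtain ⟨i, rfl⟩ := hgen g
    obtain ⟨j, rfl⟩ := hgen h
    rw [← pow_add, ← pow_add, add_comm]
  have hordF : σF ^ (r ^ a * l ^ b) = 1 := by
    ext x
    rw [hpow, hord]
    rfl
  set Hr : Subgroup (M ≃ₐ[↥F] M) := Subgroup.zpowers (σF ^ r) with hHr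
  set Hl : Subgroup (M ≃ₐ[↥F] M) := Subgroup.zpowers (σF ^ l) with hHl
  haveI : Hr.Normal := ⟨fun n hn g => by rw [hab g n, mul_inv_cancel_right]; exact hn⟩
  haveI : Hl.Normal := ⟨fun n hn g => by rw [hab g n, mul_inv_cancel_right]; exact hn⟩
  set Er : IntermediateField ↥F M := IntermediateField.fixedField Hr with hEr
  set El : IntermediateField ↥F M := IntermediateField.fixedField Hl with hEl
  haveI : IsGalois ↥F ↥Er := IsGalois.of_fixedField_normal_subgroup Hr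
  haveI : IsGalois ↥F ↥El := IsGalois.of_fixedField_normal_subgroup Hl
  have hdr : Hr ≠ ⊤ → r ≤ Module.finrank ↥F ↥Er := by
    intro h
    rw [IntermediateField.finrank_eq_fixingSubgroup_index M Er, hEr,
      IntermediateField.fixingSubgroup_fixedField Hr]
    exact le_index_of_ne_top σF hgen hab hr h
  have hdl : Hl ≠ ⊤ → l ≤ Module.finrank ↥F ↥El := by
    intro h
    rw [IntermediateField.finrank_eq_fixingSubgroup_index M El, hEl,
      IntermediateField.fixingSubgroup_fixedField Hl]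
    exact le_index_of_ne_top σF hgen hab hl h
  obtain ⟨m₂, hm₂, hu₂⟩ := S41_ChebN.exists_unramAway ↥F ↥Er
  obtain ⟨m₃, hm₃, hu₃⟩ := S41_ChebN.exists_unramAway ↥F ↥El
  obtain ⟨m₄, hm₄, hu₄⟩ := S41_ChebN.exists_unramAway ℚ M
  set mS : ℕ := ∏ x ∈ S.filter (· ≠ 0), x with hmS
  have hmS0 : mS ≠ 0 := Finset.prod_ne_zero_iff.mpr (fun x hx => (Finset.mem_filter.mp hx).2)
  set m : ℕ := m₂ * m₃ * m₄ * mS with hm
  have hm0 : m ≠ 0 := mul_ne_zero (mul_ne_zero (mul_ne_zero hm₂ hm₃) hm₄) hmS0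
  obtain ⟨q, hqp, hq0, hmq, hqN, hnr, hnl⟩ := S41_ChebN.exists_prime_not_split ↥F ↥Er ↥El r l
    (add_lt_mul_of_primes hr hl hrl) (Hr ≠ ⊤) (Hl ≠ ⊤) hdr hdl m hm0
    (unramAway_of_dvd hu₂ ⟨m₃ * m₄ * mS, by rw [hm]; ring⟩)
    (unramAway_of_dvd hu₃ ⟨m₂ * m₄ * mS, by rw [hm]; ring⟩)
  obtain ⟨Q, hQp, hQq⟩ := S14_Frob.exists_prime_over (M := M) q
  have hQ0 : Q ≠ ⊥ := S14_Frob.ne_bot_of_under_ne_bot (hQq ▸ hq0)
  obtain ⟨g, hg⟩ := S14_Frob.exists_isFrobAt ↥F M Q hQ0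
  have hfrob : IsFrob g q := by
    have := S14_Frob.IsFrobAt.isFrob hab hg
    rwa [hQq] at this
  obtain ⟨k₀, hk₀⟩ := hgen g
  have hcr : Hr ≠ ⊤ → ¬ r ∣ k₀ := by
    intro hne hdvd
    apply hnr hne
    obtain ⟨j, rfl⟩ := hdvd
    have hgH : g ∈ Hr := by
      rw [hk₀, pow_mul]
      exact Subgroup.pow_mem _ (Subgroup.mem_zpowers _) j
    exact S14_Frob.IsFrob.isSplit_of_fixes hq0 hfrob
      (fun e => (IntermediateField.mem_fixedField_iff Hr e.1).mp e.2 g hgH)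
  have hcl : Hl ≠ ⊤ → ¬ l ∣ k₀ := by
    intro hne hdvd
    apply hnl hne
    obtain ⟨j, rfl⟩ := hdvd
    have hgH : g ∈ Hl := by
      rw [hk₀, pow_mul]
      exact Subgroup.pow_mem _ (Subgroup.mem_zpowers _) j
    exact S14_Frob.IsFrob.isSplit_of_fixes hq0 hfrob
      (fun e => (IntermediateField.mem_fixedField_iff Hl e.1).mp e.2 g hgH)
  have hn_dvd : orderOf σF ∣ r ^ a * l ^ b := orderOf_dvd_of_pow_eq_one hordF
  have htop : ∀ t : ℕ, t.Prime → t ∣ orderOf σF → Subgroup.zpowers (σF ^ t) ≠ ⊤ := by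
    intro t ht hdvd htop
    have h1 : σF ∈ Subgroup.zpowers (σF ^ t) := by rw [htop]; exact Subgroup.mem_top _
    obtain ⟨j, hj⟩ := (Submonoid.mem_powers_iff _ _).mp (mem_powers_iff_mem_zpowers.mpr h1)
    rw [← pow_mul] at hj
    have h2 : σF ^ (t * j) = σF ^ 1 := by rw [hj, pow_one]
    have h3 := pow_eq_pow_iff_modEq.mp h2
    have h4 : t * j ≡ 1 [MOD t] := h3.of_dvd hdvd
    have h5 : (t * j) % t = 0 := Nat.mul_mod_right t j
    rw [Nat.ModEq, h5, Nat.mod_eq_of_lt ht.one_lt] at h4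
    exact absurd h4 (by norm_num)
  obtain ⟨k, hk, hkcop⟩ := exists_coprime_modEq hr hl hn_dvd
    (fun h => hcr (htop r hr h)) (fun h => hcl (htop l hl h))
  have hgk : g = σF ^ k := by
    rw [hk₀]
    exact pow_eq_pow_iff_modEq.mpr hk.symm
  refine ⟨Ideal.absNorm q, Q, k, hqN, ?_, hQp, ?_, hkcop, ?_, ?_⟩
  · intro hDS
    apply hmq
    have hD0 : Ideal.absNorm q ≠ 0 := hqN.ne_zero
    have h1 : Ideal.absNorm q ∣ mS :=
      Finset.dvd_prod_of_mem _ (Finset.mem_filter.mpr ⟨hDS, hD0⟩)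
    have h2 : Ideal.absNorm q ∣ m := Dvd.dvd.mul_left h1 _
    obtain ⟨c, hc⟩ := h2
    rw [hc, Nat.cast_mul]
    exact q.mul_mem_right _ (Ideal.absNorm_mem q)
  · have h1 : (Ideal.absNorm q : 𝓞 ↥F) ∈ Q.under (𝓞 ↥F) := by
      rw [hQq]
      exact Ideal.absNorm_mem q
    rw [Ideal.under, Ideal.mem_comap, map_natCast] at h1
    exact h1
  · intro x
    have h1 := hg x
    rw [hQq] at h1
    have h2 : (σ ^ k) • x = g • x := by
      apply RingOfIntegers.ext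
      show (σ ^ k) (x : M) = g (x : M)
      rw [hgk, hpow]
    rw [h2]
    exact h1
  · intro ρ hρ
    refine hu₄ Q hQp hQ0 ?_ ρ hρ
    intro hmem
    apply hmq
    have h1 : (m : 𝓞 ↥F) ∈ Q.under (𝓞 ↥F) := by
      rw [Ideal.under, Ideal.mem_comap, map_natCast, hm]
      have h2 : ((m₂ * m₃ * m₄ * mS : ℕ) : 𝓞 M) = (m₄ : 𝓞 M) * ((m₂ * m₃ * mS : ℕ) : 𝓞 M) := by
        push_cast; ring
      rw [h2]
      exact Q.mul_mem_right _ hmem
    rwa [hQq] at h1

end Fermat.Agent.S41_ChebG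

end
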