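import Fermat.Agent.S41_ChebZ
import Fermat.Agent.S14_Wrap
import Fermat.Agent.S14_Frob
import Fermat.Agent.S14_Efg

set_option autoImplicit false
noncomputable section
open NumberField IsDedekindDomain Fermat.Agent.S14_Defs Fermat.Agent.S14_Zeta

namespace Fermat.Agent.S41_ChebN

/-- the absolute norm of a nonzero prime of `𝓞 ℚ` is a prime number -/
theorem prime_absNorm_rat (q : Ideal (𝓞 ℚ)) [hq : q.IsPrime] (hq0 : q ≠ ⊥) :
    (Ideal.absNorm q).Prime := by
  have hmax : q.IsMaximal := Ring.DimensionLEOne.maximalOfPrime hq0 hq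
  obtain ⟨p, n, hn, hpq, hp, hpn⟩ := Ideal.exists_prime_and_absNorm_eq_pow q
  have h1 : Ideal.span {(p : 𝓞 ℚ)} ≤ q := by
    rw [Ideal.span_le, Set.singleton_subset_iff]; exact hpq
  have h2 := Ideal.absNorm_dvd_absNorm_of_le h1
  have h3 : Ideal.absNorm (Ideal.span {(p : 𝓞 ℚ)}) = p := by
    rw [Ideal.absNorm_span_singleton]
    have : (p : 𝓞 ℚ) = algebraMap ℤ (𝓞 ℚ) (p : ℤ) := by simp
    rw [this, Algebra.norm_algebraMap, RingOfIntegers.rank]
    simp
  rw [h3, hpn] at h2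
  have h4 : n = 1 := by
    have := (Nat.pow_dvd_pow_iff_le_right hp.one_lt).mp (by simpa using h2 : p ^ n ∣ p ^ 1)
    omega
  rw [hpn, h4, pow_one]; exact hp

/-- fibres of the map "prime below" (no Galois assumption) -/
theorem fibre' (F : Type*) [Field F] [NumberField F] (q : HeightOneSpectrum (𝓞 ℚ)) :
    (S14_Wrap.piMap ℚ F ⁻¹' {q}).Finite ∧
      (S14_Wrap.piMap ℚ F ⁻¹' {q}).ncard ≤ Module.finrank ℚ F := by
  classical
  have hqmax : q.asIdeal.IsMaximal := q.isMaximal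
  have hfin : (q.asIdeal.primesOver (𝓞 F)).Finite := by
    rw [← IsDedekindDomain.coe_primesOverFinset q.ne_bot]
    exact Finset.finite_toSet _
  refine ⟨Set.Finite.of_injOn (S14_Wrap.mapsTo_asIdeal ℚ F q) (S14_Wrap.injOn_asIdeal F _) hfin, ?_⟩
  refine (Set.ncard_le_ncard_of_injOn _ (S14_Wrap.mapsTo_asIdeal ℚ F q)
    (S14_Wrap.injOn_asIdeal F _) hfin).trans ?_
  rw [← IsDedekindDomain.coe_primesOverFinset q.ne_bot, Set.ncard_coe_finset]
  haveI : NoZeroSMulDivisors (𝓞 ℚ) (𝓞 F) := ⟨fun {c x} h => by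
    rw [Algebra.smul_def, mul_eq_zero] at h
    rcases h with h | h
    · left
      exact (FaithfulSMul.algebraMap_injective (𝓞 ℚ) (𝓞 F)) (by rw [h, map_zero])
    · right; exact h⟩
  exact Ideal.card_primesOverFinset_le_finrank (𝓞 F) ℚ F q.ne_bot


/-- Euler products over the primes of degree at least two are bounded. -/
theorem deg2_bound (F : Type*) [Field F] [NumberField F] {s : ℝ} (hs : 1 < s)
    (T : Finset (HeightOneSpectrum (𝓞 F)))
    (hT : ∀ Q ∈ T, ¬ (Ideal.absNorm Q.asIdeal).Prime) :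
    ∏ Q ∈ T, eulerFactor F s Q ≤ zetaR ℚ 2 ^ Module.finrank ℚ F := by
  classical
  set π := S14_Wrap.piMap ℚ F with hπ
  have hs0 : 0 < s := by linarith
  have hsq : ∀ Q ∈ T, Ideal.absNorm (π Q).asIdeal ^ 2 ≤ Ideal.absNorm Q.asIdeal := by
    intro Q hQ
    have hqp : (π Q).asIdeal.IsPrime := (π Q).isPrime
    have hQp : Q.asIdeal.IsPrime := Q.isPrime
    have hlo : Q.asIdeal.LiesOver (π Q).asIdeal := ⟨rfl⟩
    have h1 := S14_Efg.absNorm_eq_pow_inertiaDeg (π Q).asIdeal (π Q).ne_bot Q.asIdeal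
    have h2 : 2 ≤ Ideal.absNorm (π Q).asIdeal := S14_Efg.two_le_absNorm _ (π Q).ne_bot
    rcases Nat.lt_or_ge (Q.asIdeal.inertiaDeg (𝓞 ℚ)) 2 with h | h
    · exfalso
      apply hT Q hQ
      have hf : Q.asIdeal.inertiaDeg (𝓞 ℚ) ≠ 0 := by
        intro h0
        rw [h0, pow_zero] at h1
        have := S14_Efg.two_le_absNorm Q.asIdeal Q.ne_bot
        omega
      rw [h1, show Q.asIdeal.inertiaDeg (𝓞 ℚ) = 1 by omega, pow_one]
      exact prime_absNorm_rat _ (π Q).ne_bot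
    · rw [h1]
      exact Nat.pow_le_pow_right (by omega) h
  have h3 : ∏ Q ∈ T, eulerFactor F s Q ≤ ∏ Q ∈ T, eulerFactor ℚ 2 (π Q) := by
    refine Finset.prod_le_prod (fun Q _ => (eulerFactor_pos F hs0 Q).le) (fun Q hQ => ?_)
    have h4 := hsq Q hQ
    refine eulerFactor_le_of_le ℚ (by norm_num) ?_
    have h5 : (0 : ℝ) < (Ideal.absNorm (π Q).asIdeal : ℝ) ^ 2 := by
      have := one_lt_absNorm (π Q)
      positivity
    have h6 : ((Ideal.absNorm (π Q).asIdeal : ℝ)) ^ 2 ≤ (Ideal.absNorm Q.asIdeal : ℝ) := by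
      exact_mod_cast h4
    have h7 : (1 : ℝ) ≤ (Ideal.absNorm Q.asIdeal : ℝ) := by
      exact_mod_cast (one_lt_absNorm Q).le
    calc (Ideal.absNorm Q.asIdeal : ℝ) ^ (-s)
        ≤ (Ideal.absNorm Q.asIdeal : ℝ) ^ (-1 : ℝ) :=
          Real.rpow_le_rpow_of_exponent_le h7 (by linarith)
      _ ≤ ((Ideal.absNorm (π Q).asIdeal : ℝ) ^ 2) ^ (-1 : ℝ) :=
          Real.rpow_le_rpow_of_nonpos h5 h6 (by norm_num)
      _ = (Ideal.absNorm (π Q).asIdeal : ℝ) ^ (-2 : ℝ) := by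
          rw [← Real.rpow_natCast, ← Real.rpow_mul (Nat.cast_nonneg _)]
          norm_num
  refine h3.trans ((prod_comp_le_pow π _ (fibre' F) (eulerFactor ℚ 2)
    (one_le_eulerFactor ℚ (by norm_num)) T).trans ?_)
  exact pow_le_pow_left₀ (Finset.prod_nonneg fun q _ => (eulerFactor_pos ℚ (by norm_num) q).le)
    (prod_eulerFactor_le_zetaR ℚ (by norm_num) _) _

/-- Every extension of number fields is unramified away from some nonzero integer. -/
theorem exists_unramAway (F E : Type*) [Field F] [NumberField F] [Field E] [NumberField E]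
    [Algebra F E] : ∃ m : ℕ, m ≠ 0 ∧ S14_Frob.UnramAway F E m := by
  classical
  haveI : FiniteDimensional F E := FiniteDimensional.right ℚ F E
  haveI : Fintype (E ≃ₐ[F] E) := Fintype.ofFinite _
  have h1 : ∀ σ : E ≃ₐ[F] E, σ ≠ 1 → ∃ x : 𝓞 E, σ • x - x ≠ 0 := by
    intro σ hσ
    by_contra hcon
    push Not at hcon
    apply hσ
    ext y
    obtain ⟨a, b, hb, rfl⟩ := IsFractionRing.div_surjective (A := 𝓞 E) y
    have ha' : σ (algebraMap (𝓞 E) E a) = algebraMap (𝓞 E) E a := by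
      have := congrArg (fun z : 𝓞 E => (z : E)) (sub_eq_zero.mp (hcon a))
      exact this
    have hb' : σ (algebraMap (𝓞 E) E b) = algebraMap (𝓞 E) E b := by
      have := congrArg (fun z : 𝓞 E => (z : E)) (sub_eq_zero.mp (hcon b))
      exact this
    rw [AlgEquiv.one_apply, map_div₀, ha', hb']
  choose x hx using h1
  let n : (E ≃ₐ[F] E) → ℕ := fun σ =>
    if h : σ = 1 then 1 else Ideal.absNorm (Ideal.span {σ • x σ h - x σ h})
  refine ⟨∏ σ : E ≃ₐ[F] E, n σ, ?_, ?_⟩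
  · rw [Finset.prod_ne_zero_iff]
    intro σ _
    by_cases h : σ = 1
    · simp [n, h]
    · simp only [n, h, dif_neg, not_false_eq_true]
      rw [Ne, Ideal.absNorm_eq_zero_iff, Ideal.span_singleton_eq_bot]
      exact hx σ h
  · intro Q hQ hQ0 hm σ hσ
    by_contra h
    apply hm
    have h2 : (n σ : 𝓞 E) ∈ Q := by
      have h3 : Ideal.span {σ • x σ h - x σ h} ≤ Q := by
        rw [Ideal.span_le, Set.singleton_subset_iff]
        exact hσ (x σ h)
      have h4 : n σ = Ideal.absNorm (Ideal.span {σ • x σ h - x σ h}) := by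
        simp only [n, h, dif_neg, not_false_eq_true]
      rw [h4]
      exact h3 (Ideal.absNorm_mem _)
    obtain ⟨k, hk⟩ := Finset.dvd_prod_of_mem n (Finset.mem_univ σ)
    rw [hk, Nat.cast_mul]
    exact Q.mul_mem_right _ h2

/-- local `e f g`: a completely split prime away from the ramification has `[E : F]` primes
above it. -/
theorem ncard_primesOver_of_isSplit (F E : Type*) [Field F] [NumberField F] [Field E]
    [NumberField E] [Algebra F E] [IsGalois F E] {m : ℕ} (hun : S14_Frob.UnramAway F E m)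
    (q : Ideal (𝓞 F)) [q.IsPrime] (hq : q ≠ ⊥) (hm : (m : 𝓞 F) ∉ q) (hs : IsSplit E q) :
    (q.primesOver (𝓞 E)).ncard = Module.finrank F E := by
  have h := S14_Efg.ncard_mul_ramificationIdxIn_mul_inertiaDegIn F E q
  have he : q.ramificationIdxIn (𝓞 E) = 1 := by
    obtain ⟨⟨Q, hQp, hQo⟩⟩ := (inferInstance : Nonempty (q.primesOver (𝓞 E)))
    have hqmax : q.IsMaximal := Ideal.IsPrime.isMaximal inferInstance hq
    have : Finite (𝓞 F ⧸ q) := Ideal.finiteQuotientOfFreeOfNeBot q hq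
    have : Finite q.ResidueField := inferInstance
    rw [← Ideal.card_inertia_eq_ramificationIdxIn (G := E ≃ₐ[F] E) q Q]
    have hQ0 : Q ≠ ⊥ := S14_Efg.ne_bot_of_liesOver q hq Q
    have hmQ : (m : 𝓞 E) ∉ Q := by
      intro hmem
      apply hm
      have h5 : (m : 𝓞 F) ∈ Q.under (𝓞 F) := by
        rw [Ideal.under, Ideal.mem_comap, map_natCast]
        exact hmem
      rwa [← Ideal.over_def Q q] at h5
    have h6 : Q.inertia (E ≃ₐ[F] E) = ⊥ := by
      rw [eq_bot_iff]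
      intro σ hσ
      rw [Subgroup.mem_bot]
      exact hun Q inferInstance hQ0 hmQ σ hσ
    rw [h6]
    exact Subgroup.card_bot
  rwa [he, S14_Efg.inertiaDegIn_eq_one_of_isSplit F E q hq hs, mul_one, mul_one] at h


/-- `d` distinct primes of the same norm above every completely split prime of a family. -/
theorem exists_iota (F E : Type*) [Field F] [NumberField F] [Field E] [NumberField E]
    [Algebra F E] [IsGalois F E] (d m : ℕ) (hu : S14_Frob.UnramAway F E m)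
    (A : Set (HeightOneSpectrum (𝓞 F)))
    (hA : ∀ v ∈ A, d ≤ Module.finrank F E ∧ (m : 𝓞 F) ∉ v.asIdeal ∧ IsSplit E v.asIdeal) :
    ∃ ι : A × Fin d → HeightOneSpectrum (𝓞 E), Function.Injective ι ∧
      ∀ x, Ideal.absNorm (ι x).asIdeal = Ideal.absNorm x.1.1.asIdeal := by
  classical
  have key : ∀ v : A, ∃ f : Fin d → HeightOneSpectrum (𝓞 E), Function.Injective f ∧
      ∀ i, (f i).asIdeal.under (𝓞 F) = v.1.asIdeal ∧
        Ideal.absNorm (f i).asIdeal = Ideal.absNorm v.1.asIdeal := by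
    rintro ⟨v, hv⟩
    obtain ⟨hd, hm, hs⟩ := hA v hv
    have hvp : v.asIdeal.IsPrime := v.isPrime
    have hcard := ncard_primesOver_of_isSplit F E hu v.asIdeal v.ne_bot hm hs
    have hfinP := S14_Efg.finite_primesOver F E v.asIdeal v.ne_bot
    haveI : Finite ↥(v.asIdeal.primesOver (𝓞 E)) := hfinP.to_subtype
    letI : Fintype ↥(v.asIdeal.primesOver (𝓞 E)) := Fintype.ofFinite _
    have hc : Fintype.card (Fin d) ≤ Fintype.card ↥(v.asIdeal.primesOver (𝓞 E)) := by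
      rw [Fintype.card_fin, ← Nat.card_eq_fintype_card, Nat.card_coe_set_eq, hcard]
      exact hd
    obtain ⟨g⟩ := Function.Embedding.nonempty_of_card_le hc
    have hgp : ∀ i, (g i).1.IsPrime := fun i => (g i).2.1
    have hgo : ∀ i, (g i).1.LiesOver v.asIdeal := fun i => (g i).2.2
    have hgu : ∀ i, (g i).1.under (𝓞 F) = v.asIdeal := fun i =>
      (Ideal.over_def (g i).1 v.asIdeal).symm
    refine ⟨fun i => ⟨(g i).1, hgp i, S14_Efg.ne_bot_of_liesOver v.asIdeal v.ne_bot (g i).1⟩,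
      ?_, ?_⟩
    · intro i j hij
      apply g.injective
      apply Subtype.ext
      exact congrArg HeightOneSpectrum.asIdeal hij
    · intro i
      exact ⟨hgu i, hs _ (hgp i) (hgu i)⟩
  choose f hf using key
  refine ⟨fun x => f x.1 x.2, ?_, fun x => ((hf x.1).2 x.2).2⟩
  rintro ⟨v, i⟩ ⟨w, j⟩ h
  have h1 : v.1.asIdeal = w.1.asIdeal := by
    rw [← ((hf v).2 i).1, ← ((hf w).2 j).1]
    exact congrArg (fun Q : HeightOneSpectrum (𝓞 E) => Q.asIdeal.under (𝓞 F)) h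
  have hvw : v = w := Subtype.ext (HeightOneSpectrum.ext h1)
  subst hvw
  have h2 : i = j := (hf v).1 h
  rw [h2]

/-- The concrete two-field statement: a degree one prime of `F`, away from `m`, which is split
in neither of two Galois extensions (each condition being optional). -/
theorem exists_prime_not_split (F : Type*) [Field F] [NumberField F]
    (E₁ E₂ : Type*) [Field E₁] [NumberField E₁] [Algebra F E₁] [IsGalois F E₁]
    [Field E₂] [NumberField E₂] [Algebra F E₂] [IsGalois F E₂]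
    (d₁ d₂ : ℕ) (hd : d₁ + d₂ < d₁ * d₂) (c₁ c₂ : Prop)
    (h₁ : c₁ → d₁ ≤ Module.finrank F E₁) (h₂ : c₂ → d₂ ≤ Module.finrank F E₂)
    (m : ℕ) (hm : m ≠ 0) (hu₁ : S14_Frob.UnramAway F E₁ m) (hu₂ : S14_Frob.UnramAway F E₂ m) :
    ∃ q : Ideal (𝓞 F), q.IsPrime ∧ q ≠ ⊥ ∧ (m : 𝓞 F) ∉ q ∧ (Ideal.absNorm q).Prime ∧
      (c₁ → ¬ IsSplit E₁ q) ∧ (c₂ → ¬ IsSplit E₂ q) := by
  classical
  by_contra hcon
  have hm0 : Ideal.span {(m : 𝓞 F)} ≠ 0 := by
    rw [Ne, Ideal.zero_eq_bot, Ideal.span_singleton_eq_bot]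
    exact_mod_cast hm
  have hfinS : {v : HeightOneSpectrum (𝓞 F) | (m : 𝓞 F) ∈ v.asIdeal}.Finite := by
    refine (Ideal.finite_factors hm0).subset ?_
    intro v hv
    show v.asIdeal ∣ Ideal.span {(m : 𝓞 F)}
    rw [Ideal.dvd_iff_le, Ideal.span_le, Set.singleton_subset_iff]
    exact hv
  set A₁ : Set (HeightOneSpectrum (𝓞 F)) :=
    {v | c₁ ∧ (m : 𝓞 F) ∉ v.asIdeal ∧ IsSplit E₁ v.asIdeal} with hA₁
  set A₂ : Set (HeightOneSpectrum (𝓞 F)) :=
    {v | c₂ ∧ (m : 𝓞 F) ∉ v.asIdeal ∧ IsSplit E₂ v.asIdeal} with hA₂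
  obtain ⟨ι₁, hι₁, hN₁⟩ := exists_iota F E₁ d₁ m hu₁ A₁ (fun v hv => ⟨h₁ hv.1, hv.2.1, hv.2.2⟩)
  obtain ⟨ι₂, hι₂, hN₂⟩ := exists_iota F E₂ d₂ m hu₂ A₂ (fun v hv => ⟨h₂ hv.1, hv.2.1, hv.2.2⟩)
  refine S41_ChebZ.false_of_cover F E₁ E₂ d₁ d₂ hd hfinS.toFinset
    {v | (Ideal.absNorm v.asIdeal).Prime} (zetaR ℚ 2 ^ Module.finrank ℚ F)
    (fun s hs T hT => deg2_bound F hs T hT) A₁ A₂ ι₁ hι₁ hN₁ ι₂ hι₂ hN₂ (fun v hvS hvP => ?_)
  have hmv : (m : 𝓞 F) ∉ v.asIdeal := fun h => hvS (hfinS.mem_toFinset.mpr h)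
  by_contra hno
  rw [not_or] at hno
  exact hcon ⟨v.asIdeal, v.isPrime, v.ne_bot, hmv, hvP, fun hc hs => hno.1 ⟨hc, hmv, hs⟩,
    fun hc hs => hno.2 ⟨hc, hmv, hs⟩⟩

end Fermat.Agent.S41_ChebN
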