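import Fermat.Agent.S14_ZetaSplit

/-!
# S41_ChebZ (helper6): two-field covering form of the zeta argument

Abstract form (no relation between the number fields is assumed, only maps between sets of
primes with control on the absolute norms): it is impossible that every prime of `F` outside a
finite set `S` and inside a set `P₁` (whose complement has bounded Euler products) lies in
`A₁ ∪ A₂`, where every prime of `A_i` has `d_i` primes of the same norm in a number field `M_i`
and `d₁ + d₂ < d₁ * d₂`.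
-/

set_option autoImplicit false

noncomputable section

open Filter Topology NumberField IsDedekindDomain
open scoped nonZeroDivisors

namespace Fermat.Agent.S41_ChebZ

open Fermat.Agent.S14_Zeta

variable (F : Type*) [Field F] [NumberField F]

/-- Euler products over a family of primes having `d` primes of the same norm in `M`. -/
theorem prod_pow_le_zetaR (M : Type*) [Field M] [NumberField M] (d : ℕ)
    (A : Set (HeightOneSpectrum (𝓞 F)))
    (ι : A × Fin d → HeightOneSpectrum (𝓞 M)) (hι : Function.Injective ι)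
    (hN : ∀ x, Ideal.absNorm (ι x).asIdeal = Ideal.absNorm x.1.1.asIdeal)
    {s : ℝ} (hs : 1 < s) (T : Finset (HeightOneSpectrum (𝓞 F))) (hT : ∀ q ∈ T, q ∈ A) :
    (∏ q ∈ T, eulerFactor F s q) ^ d ≤ zetaR M s := by
  classical
  have h4 : ∏ q ∈ T, eulerFactor F s q
      = ∏ x ∈ T.subtype (fun q => q ∈ A), eulerFactor F s x.1 := by
    rw [Finset.prod_subtype_eq_prod_filter (s := T) (eulerFactor F s),
      Finset.filter_true_of_mem hT]
  rw [h4, ← Finset.prod_pow]
  have h5 : ∏ x ∈ T.subtype (fun q => q ∈ A), eulerFactor F s x.1 ^ d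
      = ∏ y ∈ ((T.subtype (fun q => q ∈ A)) ×ˢ (Finset.univ : Finset (Fin d))).image ι,
          eulerFactor M s y := by
    rw [Finset.prod_image (fun a _ b _ h => hι h), Finset.prod_product]
    refine Finset.prod_congr rfl fun x _ => ?_
    have h6 : ∀ i : Fin d, eulerFactor M s (ι (x, i)) = eulerFactor F s x.1 := by
      intro i
      unfold eulerFactor
      rw [hN (x, i)]
    rw [Finset.prod_congr rfl (fun i _ => h6 i), Finset.prod_const, Finset.card_univ,
      Fintype.card_fin]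
  rw [h5]
  exact prod_eulerFactor_le_zetaR M hs _

/-- The two-field covering lemma. -/
theorem false_of_cover (M₁ M₂ : Type*) [Field M₁] [NumberField M₁] [Field M₂] [NumberField M₂]
    (d₁ d₂ : ℕ) (hd : d₁ + d₂ < d₁ * d₂)
    (S : Finset (HeightOneSpectrum (𝓞 F)))
    (P₁ : Set (HeightOneSpectrum (𝓞 F))) (K : ℝ)
    (hK : ∀ s : ℝ, 1 < s → ∀ T : Finset (HeightOneSpectrum (𝓞 F)), (∀ q ∈ T, q ∉ P₁) →
      ∏ q ∈ T, eulerFactor F s q ≤ K)
    (A₁ A₂ : Set (HeightOneSpectrum (𝓞 F)))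
    (ι₁ : A₁ × Fin d₁ → HeightOneSpectrum (𝓞 M₁)) (hι₁ : Function.Injective ι₁)
    (hN₁ : ∀ x, Ideal.absNorm (ι₁ x).asIdeal = Ideal.absNorm x.1.1.asIdeal)
    (ι₂ : A₂ × Fin d₂ → HeightOneSpectrum (𝓞 M₂)) (hι₂ : Function.Injective ι₂)
    (hN₂ : ∀ x, Ideal.absNorm (ι₂ x).asIdeal = Ideal.absNorm x.1.1.asIdeal)
    (hcov : ∀ q, q ∉ S → q ∈ P₁ → q ∈ A₁ ∨ q ∈ A₂) : False := by
  classical
  have hpos1 : ∀ q : HeightOneSpectrum (𝓞 F), 0 ≤ eulerFactor F 1 q :=
    fun q => (eulerFactor_pos F zero_lt_one q).le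
  set B := ∏ q ∈ S, eulerFactor F 1 q with hB
  have hB0 : 0 ≤ B := Finset.prod_nonneg fun q _ => hpos1 q
  have hK0 : 0 ≤ K := by
    have := hK 2 (by norm_num) ∅ (by simp)
    simpa using le_trans zero_le_one this
  set n := d₁ * d₂ with hn
  have key : ∀ s : ℝ, 1 < s → s ≤ 2 →
      zetaR F s ^ n ≤ (B * K) ^ n * (zetaR M₁ s ^ d₂ * zetaR M₂ s ^ d₁) := by
    intro s hs hs2
    have hs0 : 0 < s := by linarith
    have hpos : ∀ q : HeightOneSpectrum (𝓞 F), 0 ≤ eulerFactor F s q :=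
      fun q => (eulerFactor_pos F hs0 q).le
    have hprodpos : ∀ T : Finset (HeightOneSpectrum (𝓞 F)), 0 ≤ ∏ q ∈ T, eulerFactor F s q :=
      fun T => Finset.prod_nonneg fun q _ => hpos q
    have hT : ∀ T : Finset (HeightOneSpectrum (𝓞 F)),
        (∏ q ∈ T, eulerFactor F s q) ^ n ≤
          (B * K) ^ n * (zetaR M₁ s ^ d₂ * zetaR M₂ s ^ d₁) := by
      intro T
      set TS := T.filter (· ∈ S) with hTS
      set TN := T.filter (· ∉ S) with hTN
      set T0 := TN.filter (· ∉ P₁) with hT0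
      set TP := TN.filter (fun q => ¬ (q ∉ P₁)) with hTP
      set T1 := TP.filter (· ∈ A₁) with hT1
      set T2 := TP.filter (· ∉ A₁) with hT2
      have e1 : ∏ q ∈ T, eulerFactor F s q = (∏ q ∈ TS, eulerFactor F s q) *
          ∏ q ∈ TN, eulerFactor F s q :=
        (Finset.prod_filter_mul_prod_filter_not T _ _).symm
      have e2 : ∏ q ∈ TN, eulerFactor F s q = (∏ q ∈ T0, eulerFactor F s q) *
          ∏ q ∈ TP, eulerFactor F s q :=
        (Finset.prod_filter_mul_prod_filter_not TN _ _).symm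
      have e3 : ∏ q ∈ TP, eulerFactor F s q = (∏ q ∈ T1, eulerFactor F s q) *
          ∏ q ∈ T2, eulerFactor F s q :=
        (Finset.prod_filter_mul_prod_filter_not TP _ _).symm
      have b1 : ∏ q ∈ TS, eulerFactor F s q ≤ B := by
        calc ∏ q ∈ TS, eulerFactor F s q ≤ ∏ q ∈ S, eulerFactor F s q :=
              Finset.prod_le_prod_of_subset_of_one_le (fun q hq => (Finset.mem_filter.mp hq).2)
                (fun q _ => hpos q) (fun q _ _ => one_le_eulerFactor F hs0 q)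
          _ ≤ ∏ q ∈ S, eulerFactor F 1 q :=
              Finset.prod_le_prod (fun q _ => hpos q)
                (fun q _ => eulerFactor_anti F zero_lt_one hs.le q)
      have b0 : ∏ q ∈ T0, eulerFactor F s q ≤ K :=
        hK s hs T0 (fun q hq => (Finset.mem_filter.mp hq).2)
      have b2 : (∏ q ∈ T1, eulerFactor F s q) ^ d₁ ≤ zetaR M₁ s :=
        prod_pow_le_zetaR F M₁ d₁ A₁ ι₁ hι₁ hN₁ hs T1 (fun q hq => (Finset.mem_filter.mp hq).2)
      have b3 : (∏ q ∈ T2, eulerFactor F s q) ^ d₂ ≤ zetaR M₂ s := by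
        refine prod_pow_le_zetaR F M₂ d₂ A₂ ι₂ hι₂ hN₂ hs T2 (fun q hq => ?_)
        have h1 := Finset.mem_filter.mp hq
        have h2 := Finset.mem_filter.mp h1.1
        have h3 := Finset.mem_filter.mp h2.1
        exact (hcov q h3.2 (not_not.mp h2.2)).resolve_left h1.2
      rw [e1, e2, e3]
      have c1 : ((∏ q ∈ TS, eulerFactor F s q) *
          ((∏ q ∈ T0, eulerFactor F s q) *
            ((∏ q ∈ T1, eulerFactor F s q) * ∏ q ∈ T2, eulerFactor F s q))) ^ n
          = ((∏ q ∈ TS, eulerFactor F s q) * (∏ q ∈ T0, eulerFactor F s q)) ^ n *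
            ((((∏ q ∈ T1, eulerFactor F s q) ^ d₁) ^ d₂) *
              (((∏ q ∈ T2, eulerFactor F s q) ^ d₂) ^ d₁)) := by
        rw [← pow_mul, ← pow_mul, mul_comm d₂ d₁, ← hn]
        ring
      rw [c1]
      refine mul_le_mul ?_ ?_ ?_ ?_
      · exact pow_le_pow_left₀ (mul_nonneg (hprodpos _) (hprodpos _))
          (mul_le_mul b1 b0 (hprodpos _) hB0) n
      · exact mul_le_mul (pow_le_pow_left₀ (pow_nonneg (hprodpos _) _) b2 d₂)
          (pow_le_pow_left₀ (pow_nonneg (hprodpos _) _) b3 d₁)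
          (pow_nonneg (pow_nonneg (hprodpos _) _) _)
          (pow_nonneg (zetaR_pos M₁ hs).le _)
      · exact mul_nonneg (pow_nonneg (pow_nonneg (hprodpos _) _) _)
          (pow_nonneg (pow_nonneg (hprodpos _) _) _)
      · exact pow_nonneg (mul_nonneg hB0 hK0) n
    exact le_of_tendsto' ((tendsto_prod_eulerFactor F hs).pow n) hT
  obtain ⟨c, hc, hlow⟩ := exists_le_zetaR F
  obtain ⟨C₁, hC₁, hup₁⟩ := exists_zetaR_le M₁
  obtain ⟨C₂, hC₂, hup₂⟩ := exists_zetaR_le M₂
  obtain ⟨k, hk⟩ : ∃ k, n = d₂ + d₁ + (k + 1) := ⟨n - (d₁ + d₂) - 1, by omega⟩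
  set W := (B * K) ^ n * (C₁ ^ d₂ * C₂ ^ d₁) with hW
  have hW0 : 0 ≤ W := by positivity
  have main : ∀ t : ℝ, 0 < t → t ≤ 1 → c ^ n ≤ W * t := by
    intro t ht ht1
    have h1 := key (1 + t) (by linarith) (by linarith)
    have h2 := hlow (1 + t) (by linarith) (by linarith)
    have h3 := hup₁ (1 + t) (by linarith) (by linarith)
    have h3' := hup₂ (1 + t) (by linarith) (by linarith)
    rw [add_sub_cancel_left] at h2 h3 h3'
    have z1 : 0 ≤ zetaR M₁ (1 + t) := (zetaR_pos M₁ (by linarith)).le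
    have z2 : 0 ≤ zetaR M₂ (1 + t) := (zetaR_pos M₂ (by linarith)).le
    have h4 : (c / t) ^ n ≤ (B * K) ^ n * ((C₁ / t) ^ d₂ * (C₂ / t) ^ d₁) :=
      (pow_le_pow_left₀ (by positivity) h2 n).trans
        (h1.trans (mul_le_mul_of_nonneg_left
          (mul_le_mul (pow_le_pow_left₀ z1 h3 d₂) (pow_le_pow_left₀ z2 h3' d₁)
            (pow_nonneg z2 _) (by positivity)) (by positivity)))
    rw [div_pow, div_le_iff₀ (pow_pos ht n)] at h4
    have e : (C₁ / t) ^ d₂ * (C₂ / t) ^ d₁ * t ^ n = C₁ ^ d₂ * C₂ ^ d₁ * t ^ (k + 1) := by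
      calc (C₁ / t) ^ d₂ * (C₂ / t) ^ d₁ * t ^ n
          = (C₁ / t * t) ^ d₂ * (C₂ / t * t) ^ d₁ * t ^ (k + 1) := by
            rw [hk, pow_add, pow_add, mul_pow, mul_pow]; ring
        _ = C₁ ^ d₂ * C₂ ^ d₁ * t ^ (k + 1) := by
            rw [div_mul_cancel₀ _ ht.ne', div_mul_cancel₀ _ ht.ne']
    have h6 : t ^ (k + 1) ≤ t := by
      calc t ^ (k + 1) = t ^ k * t := pow_succ t k
        _ ≤ 1 * t := mul_le_mul_of_nonneg_right (pow_le_one₀ ht.le ht1) ht.le
        _ = t := one_mul t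
    calc c ^ n ≤ (B * K) ^ n * ((C₁ / t) ^ d₂ * (C₂ / t) ^ d₁) * t ^ n := h4
      _ = (B * K) ^ n * ((C₁ / t) ^ d₂ * (C₂ / t) ^ d₁ * t ^ n) := by ring
      _ = W * t ^ (k + 1) := by rw [e, hW]; ring
      _ ≤ W * t := mul_le_mul_of_nonneg_left h6 hW0
  have hcd : 0 < c ^ n := pow_pos hc n
  by_cases hBC : W ≤ c ^ n / 2
  · have := main 1 one_pos le_rfl
    linarith
  · rw [not_le] at hBC
    have hWpos : 0 < W := lt_trans (by positivity) hBC
    have h9 := main (c ^ n / (2 * W)) (by positivity)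
      (by rw [div_le_one (by positivity)]; linarith)
    have h10 : W * (c ^ n / (2 * W)) = c ^ n / 2 := by
      field_simp
    rw [h10] at h9
    linarith

end Fermat.Agent.S41_ChebZ

end
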