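import Mathlib

/-!
# Block DISJ (cyclotomic part) for S41

For a finite index subgroup `R` of the absolute Galois group of `ℚ` and any `σ₀`, there are
arbitrarily large primes `ℓ` and `τ ∈ R` such that `σ₀ * τ` fixes all `ℓ`-th roots of unity.
-/

set_option autoImplicit false

namespace Fermat.Agent.S41_Cyc

open Polynomial

local notation "Qb" => AlgebraicClosure ℚ

theorem qbIsAlgebraic : Algebra.IsAlgebraic ℚ Qb := AlgebraicClosure.isAlgebraic ℚ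

attribute [local instance] qbIsAlgebraic

theorem qbIsAlgClosure : IsAlgClosure ℚ Qb := ⟨inferInstance, inferInstance⟩

attribute [local instance] qbIsAlgClosure

theorem qbNormal : Normal ℚ Qb := inferInstance

theorem qbIsGalois : IsGalois ℚ Qb := IsAlgClosure.isGalois ℚ Qb

/-- An automorphism raising a primitive root of unity to a coprime power. -/
theorem exists_aut_pow {m : ℕ} (hm : 0 < m) {ζ : Qb} (hζ : IsPrimitiveRoot ζ m) {e : ℕ}
    (he : e.Coprime m) : ∃ τ : Qb ≃ₐ[ℚ] Qb, τ ζ = ζ ^ e := by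
  have hζe : IsPrimitiveRoot (ζ ^ e) m := hζ.pow_of_coprime e he
  have h1 : minpoly ℚ (ζ ^ e) = minpoly ℚ ζ := by
    rw [← cyclotomic_eq_minpoly_rat hζ hm, ← cyclotomic_eq_minpoly_rat hζe hm]
  have halg : IsAlgebraic ℚ (ζ ^ e) := Algebra.IsAlgebraic.isAlgebraic _
  have h2 : aeval ζ (minpoly ℚ (ζ ^ e)) = 0 := by rw [h1]; exact minpoly.aeval ℚ ζ
  exact minpoly.exists_algEquiv_of_root halg h2

/-- An automorphism acting by `x ↦ x ^ u` on `ℓ`-th roots of unity and trivially on `m'`-th roots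
of unity (`ℓ` and `m'` coprime, `u` prime to `ℓ`). -/
theorem exists_aut_single {ℓ m' u : ℕ} (hℓ : 0 < ℓ) (hm' : 0 < m') (hcop : ℓ.Coprime m')
    (hu : u.Coprime ℓ) :
    ∃ θ : Qb ≃ₐ[ℚ] Qb, (∀ x : Qb, x ^ ℓ = 1 → θ x = x ^ u) ∧ (∀ x : Qb, x ^ m' = 1 → θ x = x) := by
  have hm : 0 < ℓ * m' := Nat.mul_pos hℓ hm'
  have : NeZero (ℓ * m') := ⟨hm.ne'⟩
  obtain ⟨ζ, hζ⟩ := HasEnoughRootsOfUnity.exists_primitiveRoot Qb (ℓ * m')
  obtain ⟨e, he1, he2⟩ := Nat.chineseRemainder hcop u 1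
  have hecop : e.Coprime (ℓ * m') := by
    apply Nat.Coprime.mul_right
    · have := he1.gcd_eq
      rw [Nat.Coprime, this]
      exact hu
    · have := he2.gcd_eq
      rw [Nat.Coprime, this]
      exact Nat.gcd_one_left m'
  obtain ⟨θ, hθ⟩ := exists_aut_pow hm hζ hecop
  have key : ∀ x : Qb, x ^ (ℓ * m') = 1 → θ x = x ^ e := by
    intro x hx
    obtain ⟨i, -, rfl⟩ := hζ.eq_pow_of_pow_eq_one hx
    rw [map_pow, hθ, ← pow_mul, ← pow_mul, mul_comm]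
  refine ⟨θ, fun x hx => ?_, fun x hx => ?_⟩
  · rw [key x (by rw [pow_mul, hx, one_pow])]
    exact pow_eq_pow_of_modEq he1 hx
  · rw [key x (by rw [mul_comm, pow_mul, hx, one_pow])]
    have := pow_eq_pow_of_modEq he2 hx
    rw [this, pow_one]

/-- Every automorphism acts on the `ℓ`-th roots of unity by a power prime to `ℓ`. -/
theorem exists_exponent {ℓ : ℕ} (hℓ : ℓ.Prime) (σ : Qb ≃ₐ[ℚ] Qb) :
    ∃ s : ℕ, s.Coprime ℓ ∧ ∀ x : Qb, x ^ ℓ = 1 → σ x = x ^ s := by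
  have : NeZero ℓ := ⟨hℓ.ne_zero⟩
  obtain ⟨ζ, hζ⟩ := HasEnoughRootsOfUnity.exists_primitiveRoot Qb ℓ
  have h1 : (σ ζ) ^ ℓ = 1 := by rw [← map_pow, hζ.pow_eq_one, map_one]
  obtain ⟨s, -, hs⟩ := hζ.eq_pow_of_pow_eq_one h1
  have hσζ : IsPrimitiveRoot (σ ζ) ℓ := hζ.map_of_injective σ.injective
  rw [← hs] at hσζ
  refine ⟨s, (hζ.pow_iff_coprime hℓ.pos s).mp hσζ, fun x hx => ?_⟩
  obtain ⟨i, -, rfl⟩ := hζ.eq_pow_of_pow_eq_one hx
  rw [map_pow, ← hs, ← pow_mul, ← pow_mul, mul_comm]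

/-- The sequence of primes above a bound. -/
noncomputable def pr (B i : ℕ) : ℕ := Nat.nth Nat.Prime (B + i)

theorem pr_prime (B i : ℕ) : (pr B i).Prime := Nat.prime_nth_prime _

theorem pr_gt (B i : ℕ) : B < pr B i := by
  have := Nat.add_two_le_nth_prime (B + i)
  unfold pr
  omega

theorem pr_injective (B : ℕ) : Function.Injective (pr B) :=
  (Nat.nth_strictMono Nat.infinite_setOfPred_prime).injective.comp (add_right_injective B)

/-- **DISJ, cyclotomic part.** For a finite index subgroup `R` and any `σ₀`, there is a prime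
`ℓ > B` and `τ ∈ R` such that `σ₀ * τ` fixes the `ℓ`-th roots of unity. -/
theorem exists_prime_fix (R : Subgroup (Qb ≃ₐ[ℚ] Qb)) [R.FiniteIndex] (σ₀ : Qb ≃ₐ[ℚ] Qb)
    (B : ℕ) :
    ∃ ℓ : ℕ, ℓ.Prime ∧ B < ℓ ∧ ∃ τ ∈ R, ∀ x : Qb, x ^ ℓ = 1 → (σ₀ * τ) x = x := by
  classical
  have hℓp : ∀ i, (pr B i).Prime := pr_prime B
  have hs : ∀ i, ∃ s : ℕ, s.Coprime (pr B i) ∧ ∀ x : Qb, x ^ pr B i = 1 → σ₀ x = x ^ s :=
    fun i => exists_exponent (hℓp i) σ₀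
  choose s hs1 hs2 using hs
  have hu : ∀ i, ∃ u : ℕ, u.Coprime (pr B i) ∧ s i * u ≡ 1 [MOD pr B i] := by
    intro i
    obtain ⟨u, -, hu⟩ := Nat.exists_mul_mod_eq_one_of_coprime (hs1 i) (hℓp i).one_lt
    have h1 : s i * u ≡ 1 [MOD pr B i] := by
      rw [Nat.ModEq, hu, Nat.mod_eq_of_lt (hℓp i).one_lt]
    refine ⟨u, ?_, h1⟩
    have h2 := h1.gcd_eq
    rw [Nat.gcd_one_left] at h2
    exact Nat.Coprime.coprime_mul_left (k := s i) h2
  choose u hu1 hu2 using hu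
  have hm'pos : ∀ i, 0 < ∏ j ∈ Finset.range i, pr B j := fun i =>
    Finset.prod_pos fun j _ => (hℓp j).pos
  have hcop : ∀ i, (pr B i).Coprime (∏ j ∈ Finset.range i, pr B j) := by
    intro i
    apply Nat.Coprime.prod_right
    intro j hj
    rw [Nat.coprime_primes (hℓp i) (hℓp j)]
    intro h
    have := pr_injective B h
    rw [Finset.mem_range] at hj
    omega
  have hθ : ∀ i, ∃ θ : Qb ≃ₐ[ℚ] Qb, (∀ x : Qb, x ^ pr B i = 1 → θ x = x ^ u i) ∧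
      (∀ x : Qb, x ^ (∏ j ∈ Finset.range i, pr B j) = 1 → θ x = x) :=
    fun i => exists_aut_single (hℓp i).pos (hm'pos i) (hcop i) (hu1 i)
  choose θ hθ1 hθ2 using hθ
  let Θ : ℕ → (Qb ≃ₐ[ℚ] Qb) := fun j => Nat.rec 1 (fun i acc => acc * θ i) j
  have hΘs : ∀ j, Θ (j + 1) = Θ j * θ j := fun j => rfl
  obtain ⟨a, b, hab, heq⟩ := Finite.exists_ne_map_eq_of_infinite
    (fun j : ℕ => (QuotientGroup.mk (Θ j) : (Qb ≃ₐ[ℚ] Qb) ⧸ R))
  have key : ∀ a c : ℕ, a < c → ∀ x : Qb, x ^ pr B a = 1 → ((Θ a)⁻¹ * Θ c) x = x ^ u a := by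
    intro a c hc
    induction c, hc using Nat.le_induction with
    | base =>
      intro x hx
      rw [hΘs, ← mul_assoc, inv_mul_cancel, one_mul]
      exact hθ1 a x hx
    | succ c hc ih =>
      intro x hx
      rw [hΘs, ← mul_assoc, AlgEquiv.mul_apply]
      have h1 : θ c x = x := by
        apply hθ2 c x
        obtain ⟨d, hd⟩ : pr B a ∣ ∏ j ∈ Finset.range c, pr B j :=
          Finset.dvd_prod_of_mem _ (Finset.mem_range.mpr hc)
        rw [hd, pow_mul, hx, one_pow]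
      rw [h1]
      exact ih x hx
  have main : ∀ a b : ℕ, a < b →
      (QuotientGroup.mk (Θ a) : (Qb ≃ₐ[ℚ] Qb) ⧸ R) = QuotientGroup.mk (Θ b) →
      ∃ ℓ : ℕ, ℓ.Prime ∧ B < ℓ ∧ ∃ τ ∈ R, ∀ x : Qb, x ^ ℓ = 1 → (σ₀ * τ) x = x := by
    intro a b hlt heq
    have hτR : (Θ a)⁻¹ * Θ b ∈ R := QuotientGroup.eq.mp heq
    refine ⟨pr B a, hℓp a, pr_gt B a, (Θ a)⁻¹ * Θ b, hτR, fun x hx => ?_⟩
    rw [AlgEquiv.mul_apply, key a b hlt x hx, map_pow, hs2 a x hx, ← pow_mul]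
    have := pow_eq_pow_of_modEq (hu2 a) hx
    rw [this, pow_one]
  rcases lt_or_gt_of_ne hab with h | h
  · exact main a b h heq
  · exact main b a h heq.symm

end Fermat.Agent.S41_Cyc
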