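import Fermat.Agent.S41_DUForm
import Fermat.Agent.S41_Defs

/-!
# (B1), first half, for `Γ₀(N)` and `Γ₀(Nq)`: `bval (r1 x) z = bval x (c1 z)`

Instance of `S41_DUForm.bval_adj` for the concrete operators `r1`, `c1` of `S41_Defs`.
-/

set_option autoImplicit false

open CongruenceSubgroup ModularCurve.Period
open scoped MatrixGroups

namespace Fermat.Agent.S41_DUB1

open Fermat.Agent.S41_DU Fermat.Agent.S41_Defs Fermat.Agent.S41_LR Fermat.Agent.S41_Sys
  Fermat.Agent.S41_Ops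

variable (N q : ℕ) [NeZero N] [NeZero q] (hq : q.Prime) (hqN : ¬ q ∣ N)
  [Fintype (SL(2, ℤ) ⧸ Gamma0 N)] [Fintype (SL(2, ℤ) ⧸ Gamma0 (N * q))]

/-- **(B1), first half.**  Restriction `r1` and transfer `c1` are adjoint for the cusp
pairing. -/
theorem bval_r1_c1 (x : Additive (Gamma0 N) →+ ℤ) (hx : IsParabolicHom (Gamma0 N) x)
    (z : Additive (Gamma0 (N * q)) →+ ℤ) (hz : IsParabolicHom (Gamma0 (N * q)) z) :
    bval (r1 N q ℤ x) z = bval x (c1 N q hq hqN ℤ z) := by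
  refine S41_DUForm.bval_adj (S16_Lift.neg_one_mem_Gamma0 N)
    (S16_Lift.neg_one_mem_Gamma0 (N * q)) (gamma0_mul_le N q) hx (fun γ => rfl) hz
    (fun i => (((data N q hq hqN).t i : Gamma0 N) : SL(2, ℤ)))
    (fun i => ((data N q hq hqN).t i).2) ?_ ?_ ?_
  · intro g hg
    obtain ⟨j, h, hjh⟩ := (data N q hq hqN).t_surj ⟨g, hg⟩
    exact ⟨j, h, h.2, congrArg Subtype.val hjh⟩
  · intro j j' hmem
    refine (data N q hq hqN).t_uniq j j' ⟨_, hmem⟩ (Subtype.ext ?_)
    show (((data N q hq hqN).t j : Gamma0 N) : SL(2, ℤ))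
      = ((data N q hq hqN).t j : SL(2, ℤ)) * ((data N q hq hqN).t j' : SL(2, ℤ))⁻¹
        * ((data N q hq hqN).t j' : SL(2, ℤ))
    group
  · intro γ
    refine ⟨(data N q hq hqN).coresSys.σ γ, (data N q hq hqN).coresSys.c γ, fun i => ?_, rfl⟩
    have h := (data N q hq hqN).coresSys.rel γ i
    rw [LRData.coresSys_A, LRData.coresSys_A, ← iota_incl, ← map_mul, ← map_mul] at h
    exact congrArg Subtype.val (iota_injective N h)

end Fermat.Agent.S41_DUB1
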