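import Fermat.Agent.S41_ParSum
import Fermat.Agent.S16_Lift

/-!
# S41, block DU-E (continued): `parSum` in the coset model of `S16_Lift`

* `sum_kk_T_pow`: `∑ w, F (kk (T ^ E) w) = E • parSum Γ F` for every uniform exponent `E`;
* `Prim.conjInv`, `Prim.pow`: primitives `F (g h) = F g + F h + X g * Y h` of two parabolic
  homomorphisms satisfy the hypotheses of `sum_kk_T_pow` and `parSum_iso`.
-/

set_option autoImplicit false

open scoped MatrixGroups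
open ModularGroup Matrix

namespace Fermat.Agent.S41_ParSum

open Fermat.Agent.S16_Lift

section KK

variable (Γ : Subgroup SL(2, ℤ))

theorem per_sec (w : SL(2, ℤ) ⧸ Γ) : per Γ (sec w) = MulAction.period (T : SL(2, ℤ)) w := by
  rw [per, sec_spec]

theorem cuspMk_sec (h : SL(2, ℤ)) :
    cuspMk Γ (sec ((h : SL(2, ℤ)) : SL(2, ℤ) ⧸ Γ)) = cuspMk Γ h := by
  have h1 : cuspOf Γ ((sec ((h : SL(2, ℤ)) : SL(2, ℤ) ⧸ Γ) : SL(2, ℤ)) : SL(2, ℤ) ⧸ Γ)
      = cuspOf Γ ((h : SL(2, ℤ)) : SL(2, ℤ) ⧸ Γ) := by rw [sec_spec]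
  exact h1

/-- The Schreier cocycle of a power of `T` fixing `w` is a power of the positive primitive
parabolic element at `w`. -/
theorem kk_T_pow (E : ℕ) (w : SL(2, ℤ) ⧸ Γ) (hE : (T : SL(2, ℤ)) ^ E • w = w) :
    (kk (T ^ E) w : Γ) = parΓ Γ (sec w) ^ (E / per Γ (sec w)) := by
  have hdvd : per Γ (sec w) ∣ E := by
    rw [per_sec]; exact MulAction.pow_smul_eq_iff_period_dvd.1 hE
  apply Subtype.ext
  rw [SubgroupClass.coe_pow, coe_parΓ, par]
  show (sec ((T : SL(2, ℤ)) ^ E • w))⁻¹ * T ^ E * sec w = _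
  have hc : ∀ (a b : SL(2, ℤ)) (k : ℕ), (a⁻¹ * b * a) ^ k = a⁻¹ * b ^ k * a := by
    intro a b k
    have := conj_pow (a := a⁻¹) (b := b) (i := k)
    simpa using this
  rw [hE, hc, ← pow_mul, Nat.mul_div_cancel' hdvd]

/-- **Uniform exponent form.**  If `T ^ E` acts trivially on `SL(2,ℤ) ⧸ Γ`, then
`∑ w, F (kk (T ^ E) w) = E • parSum Γ F` for every `F` which is conjugation invariant and
additive on the powers of the positive primitive parabolic elements. -/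
theorem sum_kk_T_pow [Γ.FiniteIndex] [Fintype (SL(2, ℤ) ⧸ Γ)] {A : Type*} [AddCommMonoid A]
    (F : Γ → A) (hF : ConjInv Γ F)
    (hpow : ∀ (h : SL(2, ℤ)) (k : ℕ), F (parΓ Γ h ^ k) = k • F (parΓ Γ h))
    (E : ℕ) (hE : ∀ w : SL(2, ℤ) ⧸ Γ, (T : SL(2, ℤ)) ^ E • w = w) :
    ∑ w, F (kk (T ^ E) w) = E • parSum Γ F := by
  have h1 : parSum Γ (fun γ => E • F γ) = E • parSum Γ F :=
    parSum_map Γ (nsmulAddMonoidHom E) F
  rw [← h1]
  symm
  refine parSum_eq_sum Γ _ _ fun h => ?_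
  have hdvd : per Γ h ∣ E := by
    rw [per]; exact MulAction.pow_smul_eq_iff_period_dvd.1 (hE _)
  have key : ∀ i : ℕ, F (kk (T ^ E) ((T : SL(2, ℤ)) ^ i • ((h : SL(2, ℤ)) : SL(2, ℤ) ⧸ Γ)))
      = (E / per Γ h) • F (parΓ Γ h) := by
    intro i
    have hc : cuspMk Γ (sec ((T : SL(2, ℤ)) ^ i • ((h : SL(2, ℤ)) : SL(2, ℤ) ⧸ Γ)))
        = cuspMk Γ h := by
      rw [pow_smul_coe, cuspMk_sec, ← zpow_natCast, cuspMk_zpow_mul]
    have hp : per Γ (sec ((T : SL(2, ℤ)) ^ i • ((h : SL(2, ℤ)) : SL(2, ℤ) ⧸ Γ))) = per Γ h := by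
      obtain ⟨j, γ, hγ, e⟩ := (cuspMk_eq_iff Γ _ _).1 hc.symm
      rw [e, per_mul_mem Γ _ hγ, per_zpow_mul]
    rw [kk_T_pow Γ E _ (hE _), hpow, hp, hF.eq_of_cuspMk_eq Γ hc]
  rw [Finset.sum_congr rfl fun i _ => key i, Finset.sum_const, Finset.card_range, ← mul_nsmul,
    Nat.div_mul_cancel hdvd]

/-- The same over `ℚ`. -/
theorem parSum_eq_inv_mul_sum_kk [Γ.FiniteIndex] [Fintype (SL(2, ℤ) ⧸ Γ)]
    (F : Γ → ℚ) (hF : ConjInv Γ F)
    (hpow : ∀ (h : SL(2, ℤ)) (k : ℕ), F (parΓ Γ h ^ k) = k • F (parΓ Γ h))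
    (E : ℕ) (hE0 : 0 < E) (hE : ∀ w : SL(2, ℤ) ⧸ Γ, (T : SL(2, ℤ)) ^ E • w = w) :
    parSum Γ F = (E : ℚ)⁻¹ * ∑ w, F (kk (T ^ E) w) := by
  rw [sum_kk_T_pow Γ F hF hpow E hE, nsmul_eq_mul, ← mul_assoc, inv_mul_cancel₀, one_mul]
  exact_mod_cast hE0.ne'

end KK

section Prim

variable {Γ : Subgroup SL(2, ℤ)} {R : Type*} [CommRing R]

/-- `F` is a primitive of the product of the homomorphisms `X` and `Y`. -/
def Prim (X Y : Additive Γ →+ R) (F : Γ → R) : Prop :=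
  ∀ g h : Γ, F (g * h) = F g + F h + X (Additive.ofMul g) * Y (Additive.ofMul h)

variable {X Y : Additive Γ →+ R} {F : Γ → R}

theorem Prim.one (hF : Prim X Y F) : F 1 = 0 := by
  have h := hF 1 1
  have hX : X (Additive.ofMul (1 : Γ)) = 0 := map_zero X
  rw [mul_one, hX, zero_mul, add_zero] at h
  exact left_eq_add.1 h

theorem Prim.inv (hF : Prim X Y F) (γ : Γ) :
    F γ⁻¹ + F γ = X (Additive.ofMul γ) * Y (Additive.ofMul γ) := by
  have h := hF γ⁻¹ γ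
  have hX : X (Additive.ofMul γ⁻¹) = - X (Additive.ofMul γ) := map_neg X (Additive.ofMul γ)
  rw [inv_mul_cancel, hF.one, hX] at h
  linear_combination -h

/-- A primitive is conjugation invariant on the elements killed by `X` and `Y`. -/
theorem Prim.conj (hF : Prim X Y F) (π γ : Γ) (hX : X (Additive.ofMul π) = 0)
    (hY : Y (Additive.ofMul π) = 0) : F (γ⁻¹ * π * γ) = F π := by
  have h1 := hF (γ⁻¹ * π) γ
  have h2 := hF γ⁻¹ π
  have h3 := hF.inv γ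
  have hX1 : X (Additive.ofMul (γ⁻¹ * π)) = - X (Additive.ofMul γ) + X (Additive.ofMul π) := by
    rw [ofMul_mul, map_add, ofMul_inv, map_neg]
  rw [hX1, hX] at h1
  rw [hY] at h2
  linear_combination h1 + h2 + h3

theorem Prim.pow (hF : Prim X Y F) (π : Γ) (hX : X (Additive.ofMul π) = 0) (k : ℕ) :
    F (π ^ k) = k • F π := by
  induction k with
  | zero => rw [pow_zero, hF.one, zero_smul]
  | succ k ih =>
    have hXk : X (Additive.ofMul (π ^ k)) = 0 := by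
      rw [ofMul_pow, map_nsmul, hX, smul_zero]
    rw [pow_succ, hF, ih, hXk, zero_mul, add_zero, succ_nsmul]

theorem Prim.conjInv (hF : Prim X Y F)
    (hX : ∀ π : Γ, ((π : SL(2, ℤ)) : Matrix (Fin 2) (Fin 2) ℤ).trace = 2 →
      X (Additive.ofMul π) = 0)
    (hY : ∀ π : Γ, ((π : SL(2, ℤ)) : Matrix (Fin 2) (Fin 2) ℤ).trace = 2 →
      Y (Additive.ofMul π) = 0) : ConjInv Γ F :=
  conjInv_of_trace Γ F fun π γ hπ => hF.conj π γ (hX π hπ) (hY π hπ)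

theorem Prim.pow_par (hF : Prim X Y F)
    (hX : ∀ π : Γ, ((π : SL(2, ℤ)) : Matrix (Fin 2) (Fin 2) ℤ).trace = 2 →
      X (Additive.ofMul π) = 0) (h : SL(2, ℤ)) (k : ℕ) :
    F (parΓ Γ h ^ k) = k • F (parΓ Γ h) :=
  hF.pow _ (hX _ (trace_par Γ h)) k

/-- A primitive composed with a homomorphism is a primitive. -/
theorem Prim.comp {Γ₀ : Subgroup SL(2, ℤ)} (hF : Prim X Y F) (φ : Γ₀ →* Γ) :
    Prim (X.comp (MonoidHom.toAdditive φ)) (Y.comp (MonoidHom.toAdditive φ)) (fun γ => F (φ γ)) := by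
  intro g h
  show F (φ (g * h)) = F (φ g) + F (φ h) + X (Additive.ofMul (φ g)) * Y (Additive.ofMul (φ h))
  rw [map_mul, hF]

/-- **Conjugation invariance of the cusp sum of a primitive.** -/
theorem Prim.parSum_comp {Γ₀ : Subgroup SL(2, ℤ)} [Γ₀.FiniteIndex] [Γ.FiniteIndex]
    (hF : Prim X Y F)
    (hX : ∀ π : Γ, ((π : SL(2, ℤ)) : Matrix (Fin 2) (Fin 2) ℤ).trace = 2 →
      X (Additive.ofMul π) = 0)
    (hY : ∀ π : Γ, ((π : SL(2, ℤ)) : Matrix (Fin 2) (Fin 2) ℤ).trace = 2 →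
      Y (Additive.ofMul π) = 0)
    {g : Matrix (Fin 2) (Fin 2) ℤ} (hg : 0 < g.det) (φ : Γ₀ →* Γ)
    (hφ : ∀ γ : Γ₀, (((φ γ : Γ) : SL(2, ℤ)) : Matrix (Fin 2) (Fin 2) ℤ) * g
      = g * ((γ : SL(2, ℤ)) : Matrix (Fin 2) (Fin 2) ℤ))
    (hsurj : Function.Surjective φ) :
    parSum Γ₀ (fun γ => F (φ γ)) = parSum Γ F :=
  parSum_iso hg φ hφ hsurj F (hF.conjInv hX hY)

end Prim

section OrbitSystem

variable (Γ : Subgroup SL(2, ℤ))

theorem cuspOf_zpow_smul (k : ℤ) (w : SL(2, ℤ) ⧸ Γ) :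
    cuspOf Γ ((T : SL(2, ℤ)) ^ k • w) = cuspOf Γ w := by
  obtain ⟨h, rfl⟩ := QuotientGroup.mk_surjective w
  rw [zpow_smul_coe, cuspOf_coe, cuspOf_coe, cuspMk_zpow_mul]

theorem exists_zpow_smul_of_cuspOf_eq {w w' : SL(2, ℤ) ⧸ Γ} (h : cuspOf Γ w = cuspOf Γ w') :
    ∃ k : ℤ, w' = (T : SL(2, ℤ)) ^ k • w := by
  obtain ⟨a, rfl⟩ := QuotientGroup.mk_surjective w
  obtain ⟨b, rfl⟩ := QuotientGroup.mk_surjective w'
  rw [cuspOf_coe, cuspOf_coe] at h
  obtain ⟨j, γ, hγ, rfl⟩ := (cuspMk_eq_iff Γ _ _).1 h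
  refine ⟨j, ?_⟩
  rw [zpow_smul_coe, QuotientGroup.eq]
  have : (T ^ j * a * γ)⁻¹ * (T ^ j * a) = γ⁻¹ := by group
  rw [this]; exact Γ.inv_mem hγ

/-- **Orbit-system form.**  For any system of representatives `rep i` of the `T`-orbits on
`SL(2,ℤ) ⧸ Γ` with orbit lengths `e i`, the sum of `F (kk (T ^ e i) (rep i))` is `parSum Γ F`. -/
theorem sum_orbit_system [Γ.FiniteIndex] {A : Type*} [AddCommMonoid A] {ι : Type*} [Fintype ι]
    (rep : ι → SL(2, ℤ) ⧸ Γ) (e : ι → ℕ)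
    (he : ∀ (i : ι) (k : ℕ), (T : SL(2, ℤ)) ^ k • rep i = rep i ↔ e i ∣ k)
    (hbij : Function.Bijective
      (fun p : (i : ι) × Fin (e i) => (T : SL(2, ℤ)) ^ (p.2 : ℕ) • rep p.1))
    (F : Γ → A) (hF : ConjInv Γ F) :
    ∑ i, F (kk (T ^ e i) (rep i)) = parSum Γ F := by
  classical
  have hper : ∀ i, e i = per Γ (sec (rep i)) := by
    intro i
    rw [per_sec]
    apply Nat.dvd_antisymm
    · rw [← he]; exact MulAction.pow_period_smul _ _
    · rw [← MulAction.pow_smul_eq_iff_period_dvd, he]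
  have hpos : ∀ i, 0 < e i := fun i => by rw [hper]; exact per_pos Γ _
  have hterm : ∀ i, F (kk (T ^ e i) (rep i)) = F (parΓ Γ (cuspRep Γ (cuspOf Γ (rep i)))) := by
    intro i
    have h1 : cuspOf Γ (rep i) = cuspMk Γ (sec (rep i)) := by rw [← cuspOf_coe, sec_spec]
    rw [kk_T_pow Γ (e i) (rep i) ((he i (e i)).2 dvd_rfl), ← hper i, Nat.div_self (hpos i),
      pow_one, h1, hF.apply_rep]
  have hb : Function.Bijective (fun i => cuspOf Γ (rep i)) := by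
    constructor
    · intro i j hij
      obtain ⟨k, hk⟩ := exists_zpow_smul_of_cuspOf_eq Γ hij
      have hm : (0 : ℤ) < e i := by exact_mod_cast hpos i
      have hk2 : rep j = (T : SL(2, ℤ)) ^ (k % (e i : ℤ)).toNat • rep i := by
        rw [hk, ← zpow_natCast, Int.toNat_of_nonneg (Int.emod_nonneg _ hm.ne'), hper i, per_sec]
        exact (MulAction.zpow_mod_period_smul k).symm
      have hlt : (k % (e i : ℤ)).toNat < e i := by
        have := Int.emod_lt_of_pos k hm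
        omega
      have h2 := @hbij.1 ⟨i, ⟨(k % (e i : ℤ)).toNat, hlt⟩⟩ ⟨j, ⟨0, hpos j⟩⟩ (by
        show (T : SL(2, ℤ)) ^ (k % (e i : ℤ)).toNat • rep i = (T : SL(2, ℤ)) ^ 0 • rep j
        rw [pow_zero, one_smul, hk2])
      exact congrArg Sigma.fst h2
    · intro c
      obtain ⟨⟨i, k⟩, hik⟩ := hbij.2 ((cuspRep Γ c : SL(2, ℤ)) : SL(2, ℤ) ⧸ Γ)
      refine ⟨i, ?_⟩
      have h3 : (T : SL(2, ℤ)) ^ (k : ℕ) • rep i = ((cuspRep Γ c : SL(2, ℤ)) : SL(2, ℤ) ⧸ Γ) := hik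
      have h4 := cuspOf_zpow_smul Γ ((k : ℕ) : ℤ) (rep i)
      rw [zpow_natCast, h3, cuspOf_coe, cuspMk_rep] at h4
      exact h4.symm
  rw [Finset.sum_congr rfl fun i _ => hterm i, parSum, ← finsum_eq_sum_of_fintype]
  exact finsum_eq_of_bijective _ hb (fun i => rfl)

/-- The trace is invariant under conjugation by an integral matrix of nonzero determinant. -/
theorem trace_eq_of_mul_eq {g : Matrix (Fin 2) (Fin 2) ℤ} (hg : g.det ≠ 0)
    {a b : Matrix (Fin 2) (Fin 2) ℤ} (h : b * g = g * a) : b.trace = a.trace := by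
  have h1 : g.det * b.trace = g.det * a.trace := by
    have h2 : (b * g * g.adjugate).trace = (g * a * g.adjugate).trace := by rw [h]
    rw [Matrix.mul_assoc, Matrix.mul_adjugate, Matrix.mul_smul, Matrix.mul_one, Matrix.trace_smul,
      Matrix.trace_mul_comm, ← Matrix.mul_assoc, Matrix.adjugate_mul, Matrix.smul_mul,
      Matrix.one_mul, Matrix.trace_smul] at h2
    exact h2
  exact mul_left_cancel₀ hg h1

/-- **ISO in the orbit-system form** (helper7's request): conjugation by an integral matrix of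
positive determinant carries the cusp sum of `F' ∘ t` on `Γ` to the cusp sum of `F'` on `Γ'`,
for arbitrary systems of representatives of the `T`-orbits on both sides. -/
theorem sum_orbit_system_iso {Γ Γ' : Subgroup SL(2, ℤ)} [Γ.FiniteIndex] [Γ'.FiniteIndex]
    {A : Type*} [AddCommMonoid A] (t : Γ →* Γ') (ht : Function.Surjective t)
    (g : Matrix (Fin 2) (Fin 2) ℤ) (hg : 0 < g.det)
    (hc : ∀ γ : Γ, g * ((γ : SL(2, ℤ)) : Matrix (Fin 2) (Fin 2) ℤ)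
      = (((t γ : Γ') : SL(2, ℤ)) : Matrix (Fin 2) (Fin 2) ℤ) * g)
    (F' : Γ' → A)
    (hF' : ∀ γ π : Γ', ((π : SL(2, ℤ)) : Matrix (Fin 2) (Fin 2) ℤ).trace = 2 →
      F' (γ⁻¹ * π * γ) = F' π)
    {ι : Type*} [Fintype ι] (rep : ι → SL(2, ℤ) ⧸ Γ) (e : ι → ℕ)
    (he : ∀ (i : ι) (k : ℕ), (T : SL(2, ℤ)) ^ k • rep i = rep i ↔ e i ∣ k)
    (hbij : Function.Bijective
      (fun p : (i : ι) × Fin (e i) => (T : SL(2, ℤ)) ^ (p.2 : ℕ) • rep p.1))
    {ι' : Type*} [Fintype ι'] (rep' : ι' → SL(2, ℤ) ⧸ Γ') (e' : ι' → ℕ)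
    (he' : ∀ (i : ι') (k : ℕ), (T : SL(2, ℤ)) ^ k • rep' i = rep' i ↔ e' i ∣ k)
    (hbij' : Function.Bijective
      (fun p : (i : ι') × Fin (e' i) => (T : SL(2, ℤ)) ^ (p.2 : ℕ) • rep' p.1)) :
    ∑ i, F' (t (kk (T ^ e i) (rep i))) = ∑ i', F' (kk (T ^ e' i') (rep' i')) := by
  have hF1 : ConjInv Γ' F' := conjInv_of_trace Γ' F' (fun π γ hπ => hF' γ π hπ)
  have hF2 : ConjInv Γ (fun γ => F' (t γ)) := by
    intro h γ
    show F' (t (γ⁻¹ * parΓ Γ h * γ)) = F' (t (parΓ Γ h))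
    rw [map_mul, map_mul, map_inv]
    refine hF' _ _ ?_
    rw [trace_eq_of_mul_eq hg.ne' (hc (parΓ Γ h)).symm]
    exact trace_par Γ h
  rw [sum_orbit_system Γ rep e he hbij (fun γ => F' (t γ)) hF2,
    sum_orbit_system Γ' rep' e' he' hbij' F' hF1]
  exact parSum_iso hg t (fun γ => (hc γ).symm) ht F' hF1

end OrbitSystem

end Fermat.Agent.S41_ParSum
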