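import Fermat.Agent.S41_DUPair
import Fermat.Agent.S41_ParSumKK

/-!
# S41, block DU: the cusp pairing as a cusp sum of primitives; conjugation invariance

* `two_parSum_eq_bval`: for parabolic `X Y : Γ → ℤ` and ANY primitive `F` of `X ∪ Y`
  (`F (g h) = F g + F h + X g * Y h`), `2 * parSum Γ F = bval X Y`;
* `bval_comp`: `bval (X ∘ t) (Y ∘ t) = bval X Y` for `t : Γ → Γ'` onto, `t γ = g γ g⁻¹` with `g`
  an integral matrix of positive determinant (Atkin–Lehner elements, `diag(D,1)`).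
-/

set_option autoImplicit false

open scoped MatrixGroups
open ModularGroup

namespace Fermat.Agent.S41_DUIso

open Fermat.Agent.S16_Lift Fermat.Agent.S41_DUCoc Fermat.Agent.S41_DUDict Fermat.Agent.S41_DU
  Fermat.Agent.S41_ParSum ModularCurve.Period

variable {Γ : Subgroup SL(2, ℤ)}

theorem parabolic_trace_two {X : Additive Γ →+ ℤ} (hX : IsParabolicHom Γ X) (π : Γ)
    (hπ : ((π : SL(2, ℤ)) : Matrix (Fin 2) (Fin 2) ℤ).trace = 2) : X (Additive.ofMul π) = 0 :=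
  hX π (by rw [hπ]; norm_num)

/-- There is a uniform exponent for `T` on `SL(2,ℤ) ⧸ Γ`. -/
theorem exists_uniform_exponent [Γ.FiniteIndex] :
    ∃ E : ℕ, 0 < E ∧ ∀ w : SL(2, ℤ) ⧸ Γ, (T : SL(2, ℤ)) ^ E • w = w := by
  obtain ⟨n, hn, hn'⟩ := (isOfFinOrder_of_finite
    (MulAction.toPermHom SL(2, ℤ) (SL(2, ℤ) ⧸ Γ) T)).exists_pow_eq_one
  refine ⟨n, hn, fun w => ?_⟩
  rw [← map_pow] at hn'
  exact congrArg (fun σ : Equiv.Perm (SL(2, ℤ) ⧸ Γ) => σ w) hn'

/-- **Independence of the primitive**: the cusp sum of a homomorphism vanishes. -/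
theorem parSum_hom [Γ.FiniteIndex] (h : Additive Γ →+ ℤ) :
    parSum Γ (fun γ => h (Additive.ofMul γ)) = 0 := by
  classical
  have : Fintype (SL(2, ℤ) ⧸ Γ) := Fintype.ofFinite _
  obtain ⟨E, hE0, hE⟩ := exists_uniform_exponent (Γ := Γ)
  have hF : ConjInv Γ (fun γ => h (Additive.ofMul γ)) := by
    intro a γ
    show h (Additive.ofMul (γ⁻¹ * parΓ Γ a * γ)) = h (Additive.ofMul (parΓ Γ a))
    rw [ofMul_mul, ofMul_mul, map_add, map_add, ofMul_inv, map_neg]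
    abel
  have hpow : ∀ (a : SL(2, ℤ)) (k : ℕ),
      (fun γ => h (Additive.ofMul γ)) (parΓ Γ a ^ k)
        = k • (fun γ => h (Additive.ofMul γ)) (parΓ Γ a) := by
    intro a k
    show h (Additive.ofMul (parΓ Γ a ^ k)) = k • h (Additive.ofMul (parΓ Γ a))
    rw [ofMul_pow, map_nsmul]
  have h1 := sum_kk_T_pow Γ _ hF hpow E hE
  have h2 := sum_kk_eq_zero h (fun r hr => by omega) ((T : SL(2, ℤ)) ^ E)
  rw [h2, nsmul_eq_mul] at h1
  have hE' : ((E : ℕ) : ℤ) ≠ 0 := by exact_mod_cast hE0.ne'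
  exact (mul_eq_zero.1 h1.symm).resolve_left hE'

/-- Existence of a primitive (from `exists_prim`). -/
theorem exists_primFun (hneg : (-1 : SL(2, ℤ)) ∈ Γ) (X Y : Additive Γ →+ ℤ) :
    ∃ F : Γ → ℤ, Prim X Y F := by
  obtain ⟨x, y, f, -, -, -, -, -, hfprim, -⟩ :=
    exists_prim hneg X Y (hom_kills_torsion X) (hom_kills_torsion Y)
  exact ⟨fun γ => f (γ : SL(2, ℤ)) (x₀ Γ), fun a b => hfprim a b⟩

/-- **Theorem I'.**  For parabolic `X`, `Y` and any primitive `F` of `X ∪ Y`, twice the cusp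
sum of `F` is the pairing `bval X Y`. -/
theorem two_parSum_eq_bval (hneg : (-1 : SL(2, ℤ)) ∈ Γ) [Γ.FiniteIndex]
    [Fintype (SL(2, ℤ) ⧸ Γ)] {X Y : Additive Γ →+ ℤ} (hX : IsParabolicHom Γ X)
    (hY : IsParabolicHom Γ Y) (F : Γ → ℤ) (hF : Prim X Y F) :
    2 * parSum Γ F = bval X Y := by
  classical
  obtain ⟨x, y, f, hN, hxfix, hyfix, hxres, hyres, hfprim, hfkk⟩ :=
    exists_prim hneg X Y (hom_kills_torsion X) (hom_kills_torsion Y)
  obtain ⟨n, hn⟩ := exists_primitive (α := SL(2, ℤ) ⧸ Γ) T (x S) (fun w k hw => by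
    rw [← x_T_pow hN, hxfix _ _ hw]
    exact parabolic_kk_T_pow hX k w hw)
  obtain ⟨m, hm⟩ := exists_primitive (α := SL(2, ℤ) ⧸ Γ) T (y S) (fun w k hw => by
    rw [← y_T_pow hN, hyfix _ _ hw]
    exact parabolic_kk_T_pow hY k w hw)
  have hdX : IsDat X x n := ⟨hN.hx, hN.xR, hxres, hn⟩
  have hdY : IsDat Y y m := ⟨hN.hy, hN.yR, hyres, hm⟩
  have hb := bval_eq hneg hdX hdY
  -- the primitive coming from the cocycle
  have hF0 : Prim X Y (fun γ : Γ => f (γ : SL(2, ℤ)) (x₀ Γ)) := fun a b => hfprim a b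
  obtain ⟨ι, _, rep, e, hpos, he, hbij⟩ :=
    exists_orbit_system (α := SL(2, ℤ) ⧸ Γ) (T : SL(2, ℤ))
  have hfixi : ∀ i, (T : SL(2, ℤ)) ^ e i • rep i = rep i := fun i => (he i (e i)).2 dvd_rfl
  have hxi : ∀ i, x (T ^ e i) (rep i) = 0 := fun i => by
    rw [hxfix _ _ (hfixi i)]; exact parabolic_kk_T_pow hX (e i) (rep i) (hfixi i)
  have hyi : ∀ i, y (T ^ e i) (rep i) = 0 := fun i => by
    rw [hyfix _ _ (hfixi i)]; exact parabolic_kk_T_pow hY (e i) (rep i) (hfixi i)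
  have hTI := two_mul_sum_orbits hN n hn rep e hbij hyi
  have hsum := sum_orbit_system Γ rep e he hbij (fun γ : Γ => f (γ : SL(2, ℤ)) (x₀ Γ))
    (hF0.conjInv (parabolic_trace_two hX) (parabolic_trace_two hY))
  have hterm : ∀ i, f ((kk (T ^ e i) (rep i) : Γ) : SL(2, ℤ)) (x₀ Γ) = f (T ^ e i) (rep i) :=
    fun i => hfkk _ _ (hfixi i) (hxi i) (hyi i)
  rw [Finset.sum_congr rfl fun i _ => hterm i] at hsum
  -- the formula is `Phi`
  have hPhi : ∑ w, x S w * y S w - 2 * ∑ w, n (T • w) * y S w = Phi n (y S) := by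
    unfold Phi
    rw [Finset.mul_sum, ← Finset.sum_sub_distrib, ← Finset.sum_neg_distrib]
    refine Finset.sum_congr rfl fun w _ => ?_
    rw [← hn w]; ring
  -- the difference of two primitives is a homomorphism
  let h : Additive Γ →+ ℤ := AddMonoidHom.mk'
    (fun a => F (Additive.toMul a) - f ((Additive.toMul a : Γ) : SL(2, ℤ)) (x₀ Γ)) (by
      intro a b
      show F (Additive.toMul a * Additive.toMul b)
          - f ((Additive.toMul a * Additive.toMul b : Γ) : SL(2, ℤ)) (x₀ Γ) = _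
      rw [hF, hfprim (Additive.toMul a) (Additive.toMul b)]
      ring)
  have hh := parSum_hom h
  have hadd : parSum Γ F = parSum Γ (fun γ : Γ => f (γ : SL(2, ℤ)) (x₀ Γ))
      + parSum Γ (fun γ => h (Additive.ofMul γ)) := by
    rw [← parSum_add]
    congr 1
    funext γ
    show F γ = f (γ : SL(2, ℤ)) (x₀ Γ) + (F γ - f (γ : SL(2, ℤ)) (x₀ Γ))
    ring
  rw [hadd, hh, add_zero, ← hsum, hTI, hPhi, hb]

/-- **Conjugation invariance of the pairing**: if `t : Γ → Γ'` is onto and `t γ = g γ g⁻¹` for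
an integral matrix `g` of positive determinant, then `bval (X ∘ t) (Y ∘ t) = bval X Y`. -/
theorem bval_comp {Γ Γ' : Subgroup SL(2, ℤ)} [Γ.FiniteIndex] [Γ'.FiniteIndex]
    [Fintype (SL(2, ℤ) ⧸ Γ)] [Fintype (SL(2, ℤ) ⧸ Γ')] (hneg : (-1 : SL(2, ℤ)) ∈ Γ)
    (hneg' : (-1 : SL(2, ℤ)) ∈ Γ') (t : Γ →* Γ') (ht : Function.Surjective t)
    (g : Matrix (Fin 2) (Fin 2) ℤ) (hg : 0 < g.det)
    (hc : ∀ γ : Γ, g * ((γ : SL(2, ℤ)) : Matrix (Fin 2) (Fin 2) ℤ)
      = (((t γ : Γ') : SL(2, ℤ)) : Matrix (Fin 2) (Fin 2) ℤ) * g)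
    {X Y : Additive Γ' →+ ℤ} (hX : IsParabolicHom Γ' X) (hY : IsParabolicHom Γ' Y) :
    bval (X.comp (MonoidHom.toAdditive t)) (Y.comp (MonoidHom.toAdditive t)) = bval X Y := by
  obtain ⟨F', hF'⟩ := exists_primFun hneg' X Y
  have hpar : ∀ {Z : Additive Γ' →+ ℤ}, IsParabolicHom Γ' Z →
      IsParabolicHom Γ (Z.comp (MonoidHom.toAdditive t)) := by
    intro Z hZ γ hγ
    show Z (Additive.ofMul (t γ)) = 0
    apply hZ
    rw [trace_eq_of_mul_eq hg.ne' (hc γ).symm]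
    exact hγ
  have h1 := two_parSum_eq_bval hneg' hX hY F' hF'
  have h2 := two_parSum_eq_bval hneg (hpar hX) (hpar hY) _ (hF'.comp t)
  have h3 := hF'.parSum_comp (parabolic_trace_two hX) (parabolic_trace_two hY) hg t
    (fun γ => (hc γ).symm) ht
  rw [← h2, ← h1, h3]

end Fermat.Agent.S41_DUIso
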