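import Mathlib
import Fermat.Agent.S41_Defs

/-!
# S41_Glue (helper8): `SL(2, ℤ)`-level descriptions of `r1`, `c1`, `Wop` for the duality block

* `c1` = transfer for the right coset representatives `tS i ∈ Γ₀(N)` of `Γ₀(Nq) \ Γ₀(N)`
  (`tS_mem`, `tS_surj`, `tS_inj`, `c1_eq_of` for ANY coset data, `c1_eq` existence form);
* `r1` = restriction (`r1_eq`);
* `Wop z = z ∘ conjW`, `conjW` surjective, intertwined by the INTEGER matrix
  `wInt = [[q x, y], [N q, q]]` of determinant `q > 0` (`wInt_mul`).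
-/

set_option autoImplicit false

open CongruenceSubgroup ModularCurve.Period
open scoped MatrixGroups

namespace Fermat.Agent.S41_Glue

open Matrix.SpecialLinearGroup (mapGL)
open Fermat.Agent.S41_Sys Fermat.Agent.S16_Hecke Fermat.Agent.S41_Ops Fermat.Agent.S41_LR
open Fermat.Agent.S41_Defs

theorem neg_one_mem (n : ℕ) : (-1 : SL(2, ℤ)) ∈ Gamma0 n := by
  rw [S41_Mat.mem_Gamma0_iff]
  simp

section

variable (N q : ℕ) [NeZero N] [NeZero q] (hq : q.Prime) (hqN : ¬ q ∣ N)
variable {B : Type*} [AddCommGroup B]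

/-- the right coset representatives of `Γ₀(Nq) \ Γ₀(N)` used by `c1`, in `SL(2, ℤ)`. -/
noncomputable def tS (i : OnePoint (ZMod q)) : SL(2, ℤ) := ((data N q hq hqN).t i : SL(2, ℤ))

theorem tS_mem (i : OnePoint (ZMod q)) : tS N q hq hqN i ∈ Gamma0 N :=
  ((data N q hq hqN).t i).2

theorem tS_surj (g : SL(2, ℤ)) (hg : g ∈ Gamma0 N) :
    ∃ j, ∃ h ∈ Gamma0 (N * q), g = h * tS N q hq hqN j := by
  obtain ⟨j, h, e⟩ := (data N q hq hqN).t_surj ⟨g, hg⟩
  exact ⟨j, h, h.2, congrArg Subtype.val e⟩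

theorem tS_inj (j j' : OnePoint (ZMod q))
    (h : tS N q hq hqN j * (tS N q hq hqN j')⁻¹ ∈ Gamma0 (N * q)) : j = j' := by
  refine (data N q hq hqN).t_uniq j j' ⟨_, h⟩ (Subtype.ext ?_)
  show tS N q hq hqN j = (tS N q hq hqN j * (tS N q hq hqN j')⁻¹) * tS N q hq hqN j'
  rw [inv_mul_cancel_right]

omit [NeZero N] [NeZero q] in
/-- `r1` is the restriction along `Γ₀(Nq) ≤ Γ₀(N)`. -/
theorem r1_eq (x : Additive (Gamma0 N) →+ B) (γ : Gamma0 (N * q)) :
    r1 N q B x (Additive.ofMul γ)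
      = x (Additive.ofMul ⟨(γ : SL(2, ℤ)), S41_Mat.Gamma0_mul_le N q γ.2⟩) := rfl

/-- `c1` is the transfer: it may be computed with ANY coset data for the representatives
`tS`. -/
theorem c1_eq_of (z : Additive (Gamma0 (N * q)) →+ B) (γ : Gamma0 N)
    (σ : Equiv.Perm (OnePoint (ZMod q))) (c : OnePoint (ZMod q) → Gamma0 (N * q))
    (h : ∀ i, tS N q hq hqN i * (γ : SL(2, ℤ)) = (c i : SL(2, ℤ)) * tS N q hq hqN (σ i)) :
    c1 N q hq hqN B z (Additive.ofMul γ) = ∑ i, z (Additive.ofMul (c i)) := by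
  refine (data N q hq hqN).coresSys.op_apply_of z γ σ c (fun i => ?_)
  show iota N ((data N q hq hqN).t i) * iota N γ
    = iota N (incl N q (c i)) * iota N ((data N q hq hqN).t (σ i))
  rw [← map_mul, ← map_mul]
  exact congrArg (iota N) (Subtype.ext (h i))

/-- existence form of `c1_eq_of`. -/
theorem c1_eq (z : Additive (Gamma0 (N * q)) →+ B) (γ : Gamma0 N) :
    ∃ (σ : Equiv.Perm (OnePoint (ZMod q))) (c : OnePoint (ZMod q) → Gamma0 (N * q)),
      (∀ i, tS N q hq hqN i * (γ : SL(2, ℤ)) = (c i : SL(2, ℤ)) * tS N q hq hqN (σ i)) ∧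
      c1 N q hq hqN B z (Additive.ofMul γ) = ∑ i, z (Additive.ofMul (c i)) := by
  have hrel : ∀ i, tS N q hq hqN i * (γ : SL(2, ℤ))
      = ((data N q hq hqN).coresSys.c γ i : SL(2, ℤ))
        * tS N q hq hqN ((data N q hq hqN).coresSys.σ γ i) := by
    intro i
    have h := (data N q hq hqN).coresSys.rel γ i
    have h2 : iota N ((data N q hq hqN).t i * γ)
        = iota N (incl N q ((data N q hq hqN).coresSys.c γ i)
            * (data N q hq hqN).t ((data N q hq hqN).coresSys.σ γ i)) := by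
      rw [map_mul, map_mul]
      exact h
    exact congrArg Subtype.val (iota_injective N h2)
  exact ⟨_, _, hrel, c1_eq_of N q hq hqN z γ _ _ hrel⟩

/-! ### The Atkin–Lehner side -/

/-- `Wop` is the pull-back along `conjW`. -/
theorem Wop_eq (z : Additive (Gamma0 (N * q)) →+ B) :
    Wop N q hq hqN B z = z.comp (MonoidHom.toAdditive (conjW N q hq hqN)) := rfl

theorem conjW_surjective : Function.Surjective (conjW N q hq hqN) := by
  obtain ⟨gam0, h⟩ := (data N q hq hqN).hconjW2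
  intro g
  refine ⟨(data N q hq hqN).conjW (gam0⁻¹ * g * gam0), ?_⟩
  show (data N q hq hqN).conjW ((data N q hq hqN).conjW (gam0⁻¹ * g * gam0)) = g
  rw [h]
  group

/-- the integral Atkin–Lehner matrix `[[q x, y], [N q, q]]`. -/
noncomputable def wInt : Matrix (Fin 2) (Fin 2) ℤ :=
  !![(q : ℤ) * (data N q hq hqN).x, (data N q hq hqN).y; (N : ℤ) * q, q]

theorem wInt_det : (wInt N q hq hqN).det = q := by
  rw [wInt, Matrix.det_fin_two_of]
  linear_combination (q : ℤ) * (data N q hq hqN).hxy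

theorem wInt_det_pos : 0 < (wInt N q hq hqN).det := by
  rw [wInt_det]
  exact_mod_cast hq.pos

/-- `w γ = (conjW γ) w` over `ℤ`. -/
theorem wInt_mul (γ : Gamma0 (N * q)) :
    wInt N q hq hqN * ((γ : SL(2, ℤ)) : Matrix (Fin 2) (Fin 2) ℤ)
      = ((conjW N q hq hqN γ : SL(2, ℤ)) : Matrix (Fin 2) (Fin 2) ℤ) * wInt N q hq hqN := by
  have h := congrArg (fun M : GL (Fin 2) ℝ => (M : Matrix (Fin 2) (Fin 2) ℝ))
    ((data N q hq hqN).hconjW γ)
  simp only [Matrix.GeneralLinearGroup.coe_mul, (data N q hq hqN).hw] at h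
  have h00 := congrFun (congrFun h 0) 0
  have h01 := congrFun (congrFun h 0) 1
  have h10 := congrFun (congrFun h 1) 0
  have h11 := congrFun (congrFun h 1) 1
  simp [Matrix.mul_apply, Fin.sum_univ_two, iota_apply] at h00 h01 h10 h11
  ext i j
  fin_cases i <;> fin_cases j <;>
    simp [wInt, conjW, Matrix.mul_apply, Fin.sum_univ_two]
  · exact_mod_cast h00
  · exact_mod_cast h01
  · exact_mod_cast h10
  · exact_mod_cast h11

end

end Fermat.Agent.S41_Glue
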