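import Fermat.Agent.S41_DURad
import Fermat.Agent.S41_DUB1
import Fermat.Agent.S41_DUIso
import Fermat.Agent.S41_Glue

/-!
# S41, block DU: the integral cusp pairing on `Hom(Γ₀(n), ℤ)` — consumer interface

`b n x y` is twice the cup-product (cusp) pairing of two homs `Γ₀(n) → ℤ`; it is meaningful on
parabolic homs (junk otherwise).

* (B0) `b_add_left`, `b_add_right`, `b_antisymm`;
* (B1) `b_res1_cor1` : `b (N*q) (r1 x) z = b N x (c1 z)`, and `b_res2_cor2`;
* (B2) `b_radical`   : `p` odd, `p ∣ b n x y` for all parabolic `y` implies `x = p • x'`;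
* (BW) `b_Wop`       : `b (N*q) (Wop z) (Wop z') = b (N*q) z z'`.

Built from `S41_DUPair` / `S41_DURad` (helper7), `S41_DUForm` / `S41_DUB1` (helper2),
`S41_DUIso` (helper5) and `S41_Glue` / `S41_Defs` (helper8).
-/

set_option autoImplicit false

open CongruenceSubgroup ModularCurve.Period
open scoped MatrixGroups

namespace Fermat.Agent.S41_DU

open Fermat.Agent.S41_Defs

/-- `b n = 2 B_n`: the integral cusp pairing on `Hom(Γ₀(n), ℤ)`. -/
noncomputable def b (n : ℕ) [NeZero n] (x y : Additive (Gamma0 n) →+ ℤ) : ℤ :=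
  @bval (Gamma0 n) (Fintype.ofFinite _) x y

section B0

variable (n : ℕ) [NeZero n] {x x' y y' : Additive (Gamma0 n) →+ ℤ}

/-- **(B0)** additivity on the left. -/
theorem b_add_left (hx : IsParabolicHom (Gamma0 n) x) (hx' : IsParabolicHom (Gamma0 n) x')
    (hy : IsParabolicHom (Gamma0 n) y) : b n (x + x') y = b n x y + b n x' y :=
  @S41_DUForm.bval_add_left (Gamma0 n) (Fintype.ofFinite _) (S16_Lift.neg_one_mem_Gamma0 n)
    _ _ _ hx hx' hy

/-- **(B0)** additivity on the right. -/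
theorem b_add_right (hx : IsParabolicHom (Gamma0 n) x) (hy : IsParabolicHom (Gamma0 n) y)
    (hy' : IsParabolicHom (Gamma0 n) y') : b n x (y + y') = b n x y + b n x y' :=
  @S41_DUForm.bval_add_right (Gamma0 n) (Fintype.ofFinite _) (S16_Lift.neg_one_mem_Gamma0 n)
    _ _ _ hx hy hy'

/-- **(B0)** antisymmetry. -/
theorem b_antisymm (hx : IsParabolicHom (Gamma0 n) x) (hy : IsParabolicHom (Gamma0 n) y) :
    b n x y = - b n y x :=
  @S41_DUForm.bval_antisymm (Gamma0 n) (Fintype.ofFinite _) (S16_Lift.neg_one_mem_Gamma0 n)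
    _ _ hy hx

/-- **(B2)** the pairing is perfect modulo every odd prime. -/
theorem b_radical (p : ℕ) (hp : p.Prime) (hp2 : p ≠ 2) (hx : IsParabolicHom (Gamma0 n) x)
    (h : ∀ y : Additive (Gamma0 n) →+ ℤ, IsParabolicHom (Gamma0 n) y → (p : ℤ) ∣ b n x y) :
    ∃ x' : Additive (Gamma0 n) →+ ℤ, IsParabolicHom (Gamma0 n) x' ∧ x = (p : ℤ) • x' :=
  @bval_radical (Gamma0 n) (Fintype.ofFinite _) (S16_Lift.neg_one_mem_Gamma0 n) p hp hp2 x hx h

end B0

section B1

variable (N q : ℕ) [NeZero N] [NeZero q] (hq : q.Prime) (hqN : ¬ q ∣ N)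

/-- **(B1)** restriction and transfer are adjoint. -/
theorem b_res1_cor1 {x : Additive (Gamma0 N) →+ ℤ} (hx : IsParabolicHom (Gamma0 N) x)
    {z : Additive (Gamma0 (N * q)) →+ ℤ} (hz : IsParabolicHom (Gamma0 (N * q)) z) :
    b (N * q) (r1 N q ℤ x) z = b N x (c1 N q hq hqN ℤ z) :=
  @S41_DUB1.bval_r1_c1 N q _ _ hq hqN (Fintype.ofFinite _) (Fintype.ofFinite _) x hx z hz

omit [NeZero N] [NeZero q] in
theorem r1_parabolic {x : Additive (Gamma0 N) →+ ℤ} (hx : IsParabolicHom (Gamma0 N) x) :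
    IsParabolicHom (Gamma0 (N * q)) (r1 N q ℤ x) :=
  fun γ hγ => hx (iotaH N q γ) hγ

theorem Wop_parabolic {z : Additive (Gamma0 (N * q)) →+ ℤ}
    (hz : IsParabolicHom (Gamma0 (N * q)) z) :
    IsParabolicHom (Gamma0 (N * q)) (Wop N q hq hqN ℤ z) := by
  intro γ hγ
  refine hz (conjW N q hq hqN γ) ?_
  rw [← trace_eq_of_intertwine (S41_Glue.wInt N q hq hqN)
    (S41_Glue.wInt_det_pos N q hq hqN).ne' _ _ (S41_Glue.wInt_mul N q hq hqN γ)]
  exact hγ

/-- **(BW)** the Atkin–Lehner involution is an isometry. -/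
theorem b_Wop {z z' : Additive (Gamma0 (N * q)) →+ ℤ}
    (hz : IsParabolicHom (Gamma0 (N * q)) z) (hz' : IsParabolicHom (Gamma0 (N * q)) z') :
    b (N * q) (Wop N q hq hqN ℤ z) (Wop N q hq hqN ℤ z') = b (N * q) z z' :=
  @S41_DUIso.bval_comp (Gamma0 (N * q)) (Gamma0 (N * q)) _ _ (Fintype.ofFinite _)
    (Fintype.ofFinite _) (S16_Lift.neg_one_mem_Gamma0 (N * q))
    (S16_Lift.neg_one_mem_Gamma0 (N * q)) (conjW N q hq hqN)
    (S41_Glue.conjW_surjective N q hq hqN) (S41_Glue.wInt N q hq hqN)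
    (S41_Glue.wInt_det_pos N q hq hqN) (S41_Glue.wInt_mul N q hq hqN) z z' hz hz'

/-- **(B1), second half**. -/
theorem b_res2_cor2 {x : Additive (Gamma0 N) →+ ℤ} (hx : IsParabolicHom (Gamma0 N) x)
    {z : Additive (Gamma0 (N * q)) →+ ℤ} (hz : IsParabolicHom (Gamma0 (N * q)) z) :
    b (N * q) (r2 N q hq hqN ℤ x) z = b N x (c2 N q hq hqN ℤ z) := by
  calc b (N * q) (r2 N q hq hqN ℤ x) z
      = b (N * q) (Wop N q hq hqN ℤ (r1 N q ℤ x))
          (Wop N q hq hqN ℤ (Wop N q hq hqN ℤ z)) := by rw [Wop_r1, Wop_Wop]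
    _ = b (N * q) (r1 N q ℤ x) (Wop N q hq hqN ℤ z) :=
        b_Wop N q hq hqN (r1_parabolic N q hx) (Wop_parabolic N q hq hqN hz)
    _ = b N x (c1 N q hq hqN ℤ (Wop N q hq hqN ℤ z)) :=
        b_res1_cor1 N q hq hqN hx (Wop_parabolic N q hq hqN hz)
    _ = b N x (c2 N q hq hqN ℤ z) := rfl

end B1

end Fermat.Agent.S41_DU
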