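/-
S41, block DU-A (helper7): the abstract coset-model pairing and its radical.

`Ω` is a finite set with two permutations `σS` (an involution) and `σR`; `σT := σR ∘ σS`.
For functions `n a' : Ω → k` put `pair σS σR n a' = -(1/2) ∑ (n + n ∘ σT) a'`.
If `a = n ∘ σT - n` is `σS`-antisymmetric and is orthogonal (for `pair`) to every
`σS`-antisymmetric `a' = n' ∘ σT - n'`, then `a = m ∘ σS - m` with `m ∘ σR = m`.
-/
import Mathlib

set_option autoImplicit false

namespace Fermat.Agent.S41_DUA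

open Finset

variable {Ω : Type*} [Fintype Ω] {k : Type*} [Field k]

/-- the coset pairing on primitives: `-(1/2) ⟨n + n ∘ σT, a'⟩`, `σT = σR ∘ σS`. -/
def pair (σS σR : Equiv.Perm Ω) (n a' : Ω → k) : k :=
  -(1 / 2 : k) * ∑ ω, (n ω + n (σR (σS ω))) * a' ω

theorem pair_add_left (σS σR : Equiv.Perm Ω) (n₁ n₂ a' : Ω → k) :
    pair σS σR (n₁ + n₂) a' = pair σS σR n₁ a' + pair σS σR n₂ a' := by
  unfold pair
  rw [← mul_add, ← Finset.sum_add_distrib]
  congr 1
  apply Finset.sum_congr rfl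
  intro ω _
  simp only [Pi.add_apply]
  ring

theorem pair_add_right (σS σR : Equiv.Perm Ω) (n a₁ a₂ : Ω → k) :
    pair σS σR n (a₁ + a₂) = pair σS σR n a₁ + pair σS σR n a₂ := by
  unfold pair
  rw [← mul_add, ← Finset.sum_add_distrib]
  congr 1
  apply Finset.sum_congr rfl
  intro ω _
  simp only [Pi.add_apply]
  ring

theorem pair_smul_left (σS σR : Equiv.Perm Ω) (c : k) (n a' : Ω → k) :
    pair σS σR (c • n) a' = c * pair σS σR n a' := by
  unfold pair
  have : ∑ ω, ((c • n) ω + (c • n) (σR (σS ω))) * a' ω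
      = c * ∑ ω, (n ω + n (σR (σS ω))) * a' ω := by
    rw [Finset.mul_sum]
    apply Finset.sum_congr rfl
    intro ω _
    simp only [Pi.smul_apply, smul_eq_mul]
    ring
  rw [this]; ring

theorem pair_smul_right (σS σR : Equiv.Perm Ω) (c : k) (n a' : Ω → k) :
    pair σS σR n (c • a') = c * pair σS σR n a' := by
  unfold pair
  have : ∑ ω, (n ω + n (σR (σS ω))) * (c • a') ω
      = c * ∑ ω, (n ω + n (σR (σS ω))) * a' ω := by
    rw [Finset.mul_sum]
    apply Finset.sum_congr rfl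
    intro ω _
    simp only [Pi.smul_apply, smul_eq_mul]
    ring
  rw [this]; ring

/-- reindexing a sum along a permutation -/
theorem sum_comp_perm (σ : Equiv.Perm Ω) (f : Ω → k) : ∑ ω, f (σ ω) = ∑ ω, f ω :=
  Equiv.sum_comp σ f

/-- antisymmetry on primitives. -/
theorem pair_antisymm (σS σR : Equiv.Perm Ω) (n n' : Ω → k) :
    pair σS σR n (fun ω => n' (σR (σS ω)) - n' ω)
      = - pair σS σR n' (fun ω => n (σR (σS ω)) - n ω) := by
  unfold pair
  have h := sum_comp_perm (σS.trans σR) (fun ω => n ω * n' ω)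
  simp only [Equiv.trans_apply] at h
  have e1 : ∑ ω, (n ω + n (σR (σS ω))) * (n' (σR (σS ω)) - n' ω)
      = ∑ ω, n ω * n' (σR (σS ω)) - ∑ ω, n (σR (σS ω)) * n' ω := by
    have : ∀ ω, (n ω + n (σR (σS ω))) * (n' (σR (σS ω)) - n' ω)
        = n ω * n' (σR (σS ω)) - n (σR (σS ω)) * n' ω
          + (n (σR (σS ω)) * n' (σR (σS ω)) - n ω * n' ω) := fun ω => by ring
    rw [Finset.sum_congr rfl (fun ω _ => this ω), Finset.sum_add_distrib,
      Finset.sum_sub_distrib, Finset.sum_sub_distrib, h]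
    ring
  have e2 : ∑ ω, (n' ω + n' (σR (σS ω))) * (n (σR (σS ω)) - n ω)
      = ∑ ω, n (σR (σS ω)) * n' ω - ∑ ω, n ω * n' (σR (σS ω)) := by
    have : ∀ ω, (n' ω + n' (σR (σS ω))) * (n (σR (σS ω)) - n ω)
        = n (σR (σS ω)) * n' ω - n ω * n' (σR (σS ω))
          + (n (σR (σS ω)) * n' (σR (σS ω)) - n ω * n' ω) := fun ω => by ring
    rw [Finset.sum_congr rfl (fun ω _ => this ω), Finset.sum_add_distrib,
      Finset.sum_sub_distrib, Finset.sum_sub_distrib, h]
    ring
  rw [e1, e2]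
  ring

/-- a `σT`-invariant primitive pairs to zero with every `(T-1)`-image. -/
theorem pair_invariant_left (σS σR : Equiv.Perm Ω) (t n' : Ω → k)
    (ht : ∀ ω, t (σR (σS ω)) = t ω) :
    pair σS σR t (fun ω => n' (σR (σS ω)) - n' ω) = 0 := by
  rw [pair_antisymm]
  unfold pair
  have : ∀ ω, (n' ω + n' (σR (σS ω))) * (t (σR (σS ω)) - t ω) = 0 := fun ω => by
    rw [ht ω, sub_self, mul_zero]
  rw [Finset.sum_congr rfl (fun ω _ => this ω)]
  simp

/-- `pair` depends on `n` only through `n ∘ σT - n` (on `(T-1)`-images on the right). -/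
theorem pair_congr_left (σS σR : Equiv.Perm Ω) (n₁ n₂ n' : Ω → k)
    (h : ∀ ω, n₁ (σR (σS ω)) - n₁ ω = n₂ (σR (σS ω)) - n₂ ω) :
    pair σS σR n₁ (fun ω => n' (σR (σS ω)) - n' ω)
      = pair σS σR n₂ (fun ω => n' (σR (σS ω)) - n' ω) := by
  have h1 : n₁ = n₂ + (n₁ - n₂) := by abel
  rw [h1, pair_add_left, pair_invariant_left σS σR (n₁ - n₂) n', add_zero]
  intro ω
  simp only [Pi.sub_apply]
  linear_combination h ω

/-- symmetric against antisymmetric sums to zero. -/
theorem sum_symm_mul_antisymm (h2 : (2 : k) ≠ 0) (σS : Equiv.Perm Ω) (s a : Ω → k)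
    (hs : ∀ ω, s (σS ω) = s ω) (ha : ∀ ω, a (σS ω) = - a ω) :
    ∑ ω, s ω * a ω = 0 := by
  have h := sum_comp_perm σS (fun ω => s ω * a ω)
  simp only [hs, ha] at h
  have h' : (2 : k) * ∑ ω, s ω * a ω = 0 := by
    have : ∑ ω, s ω * -a ω = - ∑ ω, s ω * a ω := by
      rw [← Finset.sum_neg_distrib]
      exact Finset.sum_congr rfl (fun ω _ => by ring)
    rw [this] at h
    linear_combination -h
  exact (mul_eq_zero.mp h').resolve_left h2

/-- coboundaries `m ∘ σS - m`, `m ∘ σR = m`, are in the radical. -/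
theorem pair_coboundary_right (h2 : (2 : k) ≠ 0) (σS σR : Equiv.Perm Ω)
    (hS : ∀ ω, σS (σS ω) = ω) (n m : Ω → k)
    (ha : ∀ ω, n (σR ω) - n (σS ω) = - (n (σR (σS ω)) - n ω))
    (hm : ∀ ω, m (σR ω) = m ω) :
    pair σS σR n (fun ω => m (σS ω) - m ω) = 0 := by
  have e : (fun ω => m (σS ω) - m ω) = (fun ω => m (σR (σS ω)) - m ω) := by
    funext ω; rw [hm]
  rw [e, pair_antisymm]
  unfold pair
  have hsum : ∑ ω, (m ω + m (σR (σS ω))) * (n (σR (σS ω)) - n ω) = 0 := by
    apply sum_symm_mul_antisymm h2 σS (fun ω => m ω + m (σR (σS ω)))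
      (fun ω => n (σR (σS ω)) - n ω)
    · intro ω
      show m (σS ω) + m (σR (σS (σS ω))) = m ω + m (σR (σS ω))
      rw [hS, hm, hm]; ring
    · intro ω
      show n (σR (σS (σS ω))) - n (σS ω) = - (n (σR (σS ω)) - n ω)
      rw [hS]; exact ha ω
  rw [hsum]; simp

/-- every linear functional on `Ω → k` is a dot product. -/
theorem dual_eq_dot [DecidableEq Ω] (μ : Module.Dual k (Ω → k)) (m : Ω → k) :
    μ m = ∑ ω, μ (Pi.single ω 1) * m ω := by
  have := LinearMap.pi_apply_eq_sum_univ μ m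
  rw [this]
  apply Finset.sum_congr rfl
  intro ω _
  rw [smul_eq_mul, mul_comm]
  congr 2
  funext j
  simp [Pi.single_apply, eq_comm]

/-- **The radical of the coset pairing.** -/
theorem radical (h2 : (2 : k) ≠ 0) (σS σR : Equiv.Perm Ω)
    (hS : ∀ ω, σS (σS ω) = ω) (n : Ω → k)
    (ha : ∀ ω, n (σR ω) - n (σS ω) = - (n (σR (σS ω)) - n ω))
    (horth : ∀ n' : Ω → k,
      (∀ ω, n' (σR ω) - n' (σS ω) = - (n' (σR (σS ω)) - n' ω)) →
      pair σS σR n (fun ω => n' (σR (σS ω)) - n' ω) = 0) :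
    ∃ m : Ω → k, (∀ ω, m (σR ω) = m ω) ∧
      ∀ ω, n (σR (σS ω)) - n ω = m (σS ω) - m ω := by
  classical
  -- the linear maps
  let φ : (Ω → k) →ₗ[k] (Ω → k) :=
    { toFun := fun m ω => m (σR (σS ω)) - m ω
      map_add' := fun m₁ m₂ => by funext ω; simp only [Pi.add_apply]; ring
      map_smul' := fun c m => by funext ω; simp only [Pi.smul_apply, smul_eq_mul, RingHom.id_apply]; ring }
  let ψ : (Ω → k) →ₗ[k] (Ω → k) :=
    { toFun := fun m ω => m ω + m (σS ω)
      map_add' := fun m₁ m₂ => by funext ω; simp only [Pi.add_apply]; ring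
      map_smul' := fun c m => by funext ω; simp only [Pi.smul_apply, smul_eq_mul, RingHom.id_apply]; ring }
  let u : Ω → k := fun ω => n ω + n (σR (σS ω))
  let lu : Module.Dual k (Ω → k) :=
    { toFun := fun m => ∑ ω, u ω * m ω
      map_add' := fun m₁ m₂ => by
        rw [← Finset.sum_add_distrib]
        exact Finset.sum_congr rfl (fun ω _ => by simp only [Pi.add_apply]; ring)
      map_smul' := fun c m => by
        rw [RingHom.id_apply, smul_eq_mul, Finset.mul_sum]
        exact Finset.sum_congr rfl (fun ω _ => by simp only [Pi.smul_apply, smul_eq_mul]; ring) }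
  have hmem : lu.comp φ ∈ (LinearMap.ker (ψ.comp φ)).dualAnnihilator := by
    rw [Submodule.mem_dualAnnihilator]
    intro m hm
    rw [LinearMap.mem_ker] at hm
    have hm' : ∀ ω, (m (σR (σS ω)) - m ω) + (m (σR (σS (σS ω))) - m (σS ω)) = 0 := by
      intro ω
      have := congrFun hm ω
      exact this
    have h0 := horth m (fun ω => by
      have := hm' ω
      rw [hS] at this
      linear_combination this)
    show ∑ ω, u ω * (m (σR (σS ω)) - m ω) = 0
    unfold pair at h0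
    have h3 : (-(1 / 2 : k)) ≠ 0 := by
      rw [neg_ne_zero]; exact one_div_ne_zero h2
    exact (mul_eq_zero.mp h0).resolve_left h3
  rw [← LinearMap.range_dualMap_eq_dualAnnihilator_ker] at hmem
  obtain ⟨μ, hμ⟩ := hmem
  -- hμ : (ψ.comp φ).dualMap μ = lu.comp φ
  let z : Ω → k := fun ω => μ (Pi.single ω 1)
  let s : Ω → k := fun ω => z ω + z (σS ω)
  let t : Ω → k := fun ω => u ω - s ω
  have hs : ∀ ω, s (σS ω) = s ω := by
    intro ω
    show z (σS ω) + z (σS (σS ω)) = z ω + z (σS ω)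
    rw [hS]; ring
  -- key identity: ∑ t * φ m = 0 for all m
  have hkey : ∀ m : Ω → k, ∑ ω, t ω * (m (σR (σS ω)) - m ω) = 0 := by
    intro m
    have h1 : μ (ψ (φ m)) = lu (φ m) := by
      have := congrArg (fun f : Module.Dual k (Ω → k) => f m) hμ
      simpa using this
    rw [dual_eq_dot μ (ψ (φ m))] at h1
    have h4 : ∑ ω, z ω * (ψ (φ m)) ω = ∑ ω, s ω * (φ m) ω := by
      have e1 : ∀ ω, z ω * (ψ (φ m)) ω = z ω * (φ m) ω + z ω * (φ m) (σS ω) := fun ω => by
        show z ω * ((φ m) ω + (φ m) (σS ω)) = _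
        ring
      rw [Finset.sum_congr rfl (fun ω _ => e1 ω), Finset.sum_add_distrib]
      have e2 : ∑ ω, z ω * (φ m) (σS ω) = ∑ ω, z (σS ω) * (φ m) ω := by
        have := sum_comp_perm σS (fun ω => z (σS ω) * (φ m) ω)
        simp only [hS] at this
        rw [← this]
      rw [e2, ← Finset.sum_add_distrib]
      exact Finset.sum_congr rfl (fun ω _ => by show _ = (z ω + z (σS ω)) * _; ring)
    have h5 : ∑ ω, s ω * (φ m) ω = ∑ ω, u ω * (φ m) ω := by
      rw [← h4]; exact h1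
    have h6 : ∑ ω, t ω * (φ m) ω = 0 := by
      have : ∀ ω, t ω * (φ m) ω = u ω * (φ m) ω - s ω * (φ m) ω := fun ω => by
        show (u ω - s ω) * _ = _; ring
      rw [Finset.sum_congr rfl (fun ω _ => this ω), Finset.sum_sub_distrib, h5, sub_self]
    exact h6
  -- t is σT-invariant
  have ht : ∀ ω, t (σR (σS ω)) = t ω := by
    intro ω₀
    have h := hkey (Pi.single (σR (σS ω₀)) 1)
    have e1 : ∀ ω, t ω * ((Pi.single (σR (σS ω₀)) (1 : k) : Ω → k) (σR (σS ω))
          - (Pi.single (σR (σS ω₀)) (1 : k) : Ω → k) ω)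
        = (if ω = ω₀ then t ω else 0) - (if ω = σR (σS ω₀) then t ω else 0) := by
      intro ω
      rw [Pi.single_apply, Pi.single_apply]
      have hinj : σR (σS ω) = σR (σS ω₀) ↔ ω = ω₀ := by
        rw [σR.apply_eq_iff_eq, σS.apply_eq_iff_eq]
      simp only [hinj]
      split_ifs <;> ring
    rw [Finset.sum_congr rfl (fun ω _ => e1 ω), Finset.sum_sub_distrib,
      Finset.sum_ite_eq' Finset.univ ω₀, Finset.sum_ite_eq' Finset.univ (σR (σS ω₀))] at h
    simp only [Finset.mem_univ, if_true] at h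
    linear_combination -h
  -- now build m
  have hhalf : (2 : k) * (1 / 2) = 1 := by field_simp
  let v : Ω → k := fun ω => 2 * n ω - t ω
  have hvT : ∀ ω, v (σR (σS ω)) = 2 * n (σR (σS ω)) - t ω := by
    intro ω; show 2 * n (σR (σS ω)) - t (σR (σS ω)) = _; rw [ht]
  -- v = s - a, v∘T = s + a
  have hv1 : ∀ ω, v ω = s ω - (n (σR (σS ω)) - n ω) := by
    intro ω
    show 2 * n ω - (u ω - s ω) = _
    show 2 * n ω - ((n ω + n (σR (σS ω))) - s ω) = _
    ring
  have hv2 : ∀ ω, v (σR (σS ω)) = s ω + (n (σR (σS ω)) - n ω) := by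
    intro ω
    rw [hvT]
    show 2 * n (σR (σS ω)) - ((n ω + n (σR (σS ω))) - s ω) = _
    ring
  have hv3 : ∀ ω, v (σS ω) = s ω + (n (σR (σS ω)) - n ω) := by
    intro ω
    rw [hv1 (σS ω), hs, hS]
    have := ha ω
    linear_combination -this
  have hvR : ∀ ω, v (σR ω) = v ω := by
    intro ω
    have h1 := hv2 (σS ω)
    have h2' := hv3 (σS ω)
    rw [hS] at h1 h2'
    rw [h1, h2']
  refine ⟨fun ω => (1 / 2 : k) * v ω, fun ω => by show (1 / 2 : k) * v (σR ω) = (1 / 2 : k) * v ω; rw [hvR], ?_⟩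
  intro ω
  show n (σR (σS ω)) - n ω = (1 / 2 : k) * v (σS ω) - (1 / 2 : k) * v ω
  rw [hv3, hv1]
  linear_combination (-(n (σR (σS ω)) - n ω)) * hhalf

end Fermat.Agent.S41_DUA
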