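import Fermat.Agent.S41_DUDict

/-!
# Adjointness of restriction and corestriction for the cocycle pairing (block DU-F / N1)

For an equivariant map `pr : Om' → Om` of finite `SL(2,ℤ)`-sets:

* `pull pr x`  : the pulled back cocycle (`= ` cocycle of the restricted hom),
* `push pr y'` : the fibre-summed cocycle (`=` cocycle of the corestricted hom,
  `push_eq_cores`),
* `adj_formula`: the explicit pairing expression of `(a, n)` against the push-forward of `a'`
  equals the one of the pull-backs `(a ∘ pr, n ∘ pr)` against `a'`.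
-/

set_option autoImplicit false

open scoped MatrixGroups
open ModularGroup

namespace Fermat.Agent.S41_DUAdj

open Fermat.Agent.S16_Lift Fermat.Agent.S41_DUCoc Fermat.Agent.S41_DUDict

section Abstract

variable {Om Om' : Type*} [MulAction SL(2, ℤ) Om] [MulAction SL(2, ℤ) Om']
  {R : Type*} [CommRing R]

/-- Pull-back of a function of `(g, w)` along `pr`. -/
def pull (pr : Om' → Om) (x : SL(2, ℤ) → Om → R) : SL(2, ℤ) → Om' → R :=
  fun g w' => x g (pr w')

/-- Fibre sum of a function of `(g, w')` along `pr`. -/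
def push [Fintype Om'] [DecidableEq Om] (pr : Om' → Om) (y' : SL(2, ℤ) → Om' → R) :
    SL(2, ℤ) → Om → R :=
  fun g w => ∑ w', if pr w' = w then y' g w' else 0

theorem isCoc_pull (pr : Om' → Om) (hpr : ∀ (g : SL(2, ℤ)) w', pr (g • w') = g • pr w')
    {x : SL(2, ℤ) → Om → R} (hx : IsCoc x) : IsCoc (pull pr x) := by
  intro g h w'
  show x (g * h) (pr w') = x g (pr (h • w')) + x h (pr w')
  rw [hpr, hx]

omit [MulAction SL(2, ℤ) Om] [MulAction SL(2, ℤ) Om'] in
theorem pull_eq_zero (pr : Om' → Om) {x : SL(2, ℤ) → Om → R} (g : SL(2, ℤ))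
    (h0 : ∀ w, x g w = 0) (w' : Om') : pull pr x g w' = 0 := h0 _

theorem isCoc_push [Fintype Om'] [DecidableEq Om] (pr : Om' → Om)
    (hpr : ∀ (g : SL(2, ℤ)) w', pr (g • w') = g • pr w')
    {y' : SL(2, ℤ) → Om' → R} (hy : IsCoc y') : IsCoc (push pr y') := by
  intro g h w
  show (∑ w', if pr w' = w then y' (g * h) w' else 0)
    = (∑ w', if pr w' = h • w then y' g w' else 0) + ∑ w', if pr w' = w then y' h w' else 0
  have h1 : (∑ w', if pr w' = h • w then y' g w' else 0)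
      = ∑ w', if pr w' = w then y' g (h • w') else 0 := by
    rw [← Fintype.sum_equiv (MulAction.toPerm h) (fun w' => if pr w' = w then y' g (h • w') else 0)
      (fun w' => if pr w' = h • w then y' g w' else 0)]
    intro w'
    show (if pr w' = w then y' g (h • w') else 0) = if pr (h • w') = h • w then y' g (h • w') else 0
    rw [hpr]
    by_cases hw : pr w' = w
    · rw [if_pos hw, if_pos (by rw [hw])]
    · rw [if_neg hw, if_neg (fun hh => hw (smul_left_cancel h hh))]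
  rw [h1, ← Finset.sum_add_distrib]
  refine Finset.sum_congr rfl fun w' _ => ?_
  by_cases hw : pr w' = w
  · rw [if_pos hw, if_pos hw, if_pos hw, hy]
  · rw [if_neg hw, if_neg hw, if_neg hw, add_zero]

omit [MulAction SL(2, ℤ) Om] [MulAction SL(2, ℤ) Om'] in
theorem push_eq_zero [Fintype Om'] [DecidableEq Om] (pr : Om' → Om)
    {y' : SL(2, ℤ) → Om' → R} (g : SL(2, ℤ)) (h0 : ∀ w', y' g w' = 0) (w : Om) :
    push pr y' g w = 0 := by
  show (∑ w', if pr w' = w then y' g w' else 0) = 0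
  refine Finset.sum_eq_zero fun w' _ => ?_
  rw [h0]; simp

omit [MulAction SL(2, ℤ) Om] [MulAction SL(2, ℤ) Om'] in
/-- Fibre-sum identity. -/
theorem sum_mul_push [Fintype Om] [Fintype Om'] [DecidableEq Om] (pr : Om' → Om)
    (φ : Om → R) (ψ : Om' → R) :
    ∑ w, φ w * (∑ w', if pr w' = w then ψ w' else 0) = ∑ w', φ (pr w') * ψ w' := by
  simp_rw [Finset.mul_sum]
  rw [Finset.sum_comm]
  refine Finset.sum_congr rfl fun w' _ => ?_
  simp_rw [mul_ite, mul_zero]
  rw [Finset.sum_ite_eq]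
  simp

/-- **Adjointness on the level of the explicit formula.** -/
theorem adj_formula [Fintype Om] [Fintype Om'] [DecidableEq Om] (pr : Om' → Om)
    (hpr : ∀ (g : SL(2, ℤ)) w', pr (g • w') = g • pr w') (a n : Om → R) (a' : Om' → R) :
    ∑ w, a w * (∑ w', if pr w' = w then a' w' else 0)
        - 2 * ∑ w, n (T • w) * (∑ w', if pr w' = w then a' w' else 0)
      = ∑ w', a (pr w') * a' w' - 2 * ∑ w', n (pr (T • w')) * a' w' := by
  rw [sum_mul_push pr a a', sum_mul_push pr (fun w => n (T • w)) a']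
  simp_rw [hpr]

/-- Adjointness for cocycles: the pairing expression of `x` against `push pr y'` equals that of
`pull pr x` against `y'` (with the pulled back `T`-primitive `n ∘ pr`). -/
theorem adj_coc [Fintype Om] [Fintype Om'] [DecidableEq Om] (pr : Om' → Om)
    (hpr : ∀ (g : SL(2, ℤ)) w', pr (g • w') = g • pr w') (x : SL(2, ℤ) → Om → R)
    (y' : SL(2, ℤ) → Om' → R) (n : Om → R) :
    ∑ w, x S w * push pr y' S w - 2 * ∑ w, n (T • w) * push pr y' S w
      = ∑ w', pull pr x S w' * y' S w' - 2 * ∑ w', (n ∘ pr) (T • w') * y' S w' :=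
  adj_formula pr hpr (x S) n (y' S)

theorem pull_primitive (pr : Om' → Om) (hpr : ∀ (g : SL(2, ℤ)) w', pr (g • w') = g • pr w')
    (x : SL(2, ℤ) → Om → R) (n : Om → R) (hn : ∀ w, n (T • w) - n w = x S w) (w' : Om') :
    (n ∘ pr) (T • w') - (n ∘ pr) w' = pull pr x S w' := by
  show n (pr (T • w')) - n (pr w') = x S (pr w')
  rw [hpr, hn]

end Abstract

section Cosets

variable {Γ' Γ : Subgroup SL(2, ℤ)} {R : Type*} [CommRing R]

/-- The projection `SL(2,ℤ) ⧸ Γ' → SL(2,ℤ) ⧸ Γ`. -/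
def prLE (hle : Γ' ≤ Γ) : SL(2, ℤ) ⧸ Γ' → SL(2, ℤ) ⧸ Γ := Subgroup.quotientMapOfLE hle

theorem prLE_mk (hle : Γ' ≤ Γ) (g : SL(2, ℤ)) :
    prLE hle ((g : SL(2, ℤ)) : SL(2, ℤ) ⧸ Γ') = ((g : SL(2, ℤ)) : SL(2, ℤ) ⧸ Γ) := rfl

theorem prLE_smul (hle : Γ' ≤ Γ) (g : SL(2, ℤ)) (w' : SL(2, ℤ) ⧸ Γ') :
    prLE hle (g • w') = g • prLE hle w' := by
  induction w' using QuotientGroup.induction_on with
  | H h => rfl

theorem prLE_x₀ (hle : Γ' ≤ Γ) : prLE hle (x₀ Γ') = x₀ Γ := rfl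

omit [CommRing R] in
/-- The restriction dictionary: the pulled back cocycle restricts to the restricted hom. -/
theorem pull_x₀ (hle : Γ' ≤ Γ) (x : SL(2, ℤ) → SL(2, ℤ) ⧸ Γ → R) (g : SL(2, ℤ)) :
    pull (prLE hle) x g (x₀ Γ') = x g (x₀ Γ) := rfl

/-- **The corestriction dictionary.**  For right coset representatives `t i` of `Γ'` in `Γ`
and any coset data `t i * γ = c i * t (σ i)`, the fibre-summed cocycle at `(γ, x₀)` is
`∑ i, y' (c i) x₀'`, the transfer of the restriction of `y'` to `Γ'`. -/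
theorem push_eq_cores [Fintype (SL(2, ℤ) ⧸ Γ')] [DecidableEq (SL(2, ℤ) ⧸ Γ)] (hle : Γ' ≤ Γ)
    {I : Type*} [Fintype I] (t : I → SL(2, ℤ)) (ht : ∀ i, t i ∈ Γ)
    (hsurj : ∀ g ∈ Γ, ∃ j, ∃ h ∈ Γ', g = h * t j)
    (hinj : ∀ j j', t j * (t j')⁻¹ ∈ Γ' → j = j')
    (y' : SL(2, ℤ) → SL(2, ℤ) ⧸ Γ' → R) (hy' : IsCoc y') (γ : SL(2, ℤ))
    (σ : Equiv.Perm I) (c : I → SL(2, ℤ)) (hc : ∀ i, c i ∈ Γ')
    (hrel : ∀ i, t i * γ = c i * t (σ i)) :
    push (prLE hle) y' γ (x₀ Γ) = ∑ i, y' (c i) (x₀ Γ') := by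
  classical
  -- Step 1: the fibre over `x₀` is enumerated by `i ↦ (t i)⁻¹ • x₀'`.
  have h1 : push (prLE hle) y' γ (x₀ Γ) = ∑ i, y' γ ((t i)⁻¹ • x₀ Γ') := by
    show (∑ w', if prLE hle w' = x₀ Γ then y' γ w' else 0) = _
    rw [← Finset.sum_filter]
    symm
    refine Finset.sum_nbij (fun i => (t i)⁻¹ • x₀ Γ') ?_ ?_ ?_ (fun _ _ => rfl)
    · intro i _
      rw [Finset.mem_filter]
      refine ⟨Finset.mem_univ _, ?_⟩
      rw [prLE_smul, prLE_x₀, smul_x₀_eq_iff]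
      exact Γ.inv_mem (ht i)
    · intro j _ j' _ hjj
      apply hinj
      have h2 : (((t j)⁻¹ * 1 : SL(2, ℤ)) : SL(2, ℤ) ⧸ Γ') = (((t j')⁻¹ * 1 : SL(2, ℤ)) : SL(2, ℤ) ⧸ Γ') := hjj
      rw [mul_one, mul_one, QuotientGroup.eq, inv_inv] at h2
      exact h2
    · intro w' hw'
      rw [Finset.coe_filter] at hw'
      have hw'' : prLE hle w' = x₀ Γ := hw'.2
      induction w' using QuotientGroup.induction_on with
      | H g =>
        have hg : g ∈ Γ := by
          have h5 : ((g : SL(2, ℤ)) : SL(2, ℤ) ⧸ Γ) = x₀ Γ := hw''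
          rw [← smul_x₀_eq_iff]
          show (((g * 1 : SL(2, ℤ)) : SL(2, ℤ)) : SL(2, ℤ) ⧸ Γ) = x₀ Γ
          rw [mul_one]
          exact h5
        obtain ⟨j, h, hh, hgj⟩ := hsurj g⁻¹ (Γ.inv_mem hg)
        refine ⟨j, Finset.mem_coe.2 (Finset.mem_univ _), ?_⟩
        show (((t j)⁻¹ * 1 : SL(2, ℤ)) : SL(2, ℤ) ⧸ Γ') = ((g : SL(2, ℤ)) : SL(2, ℤ) ⧸ Γ')
        rw [mul_one, QuotientGroup.eq, inv_inv]
        have : t j * g = h⁻¹ := by
          have h3 : g = (h * t j)⁻¹ := by rw [← hgj, inv_inv]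
          rw [h3]; group
        rw [this]
        exact Γ'.inv_mem hh
  -- Step 2: each term via the coset relation.
  have h2 : ∀ j, y' γ ((t (σ j))⁻¹ • x₀ Γ')
      = y' (t j)⁻¹ (x₀ Γ') + y' (c j) (x₀ Γ') - y' (t (σ j))⁻¹ (x₀ Γ') := by
    intro j
    have e1 : γ * (t (σ j))⁻¹ = (t j)⁻¹ * c j := by
      have := hrel j
      have h3 : γ = (t j)⁻¹ * (c j * t (σ j)) := by rw [← this]; group
      rw [h3]; group
    have e2 := hy' γ (t (σ j))⁻¹ (x₀ Γ')
    have e3 := hy' (t j)⁻¹ (c j) (x₀ Γ')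
    rw [(smul_x₀_eq_iff (c j)).2 (hc j)] at e3
    rw [e1, e3] at e2
    linear_combination -e2
  rw [h1, ← Equiv.sum_comp σ (fun i => y' γ ((t i)⁻¹ • x₀ Γ')), Finset.sum_congr rfl fun j _ => h2 j,
    Finset.sum_sub_distrib, Finset.sum_add_distrib,
    Equiv.sum_comp σ (fun i => y' (t i)⁻¹ (x₀ Γ'))]
  ring

end Cosets

end Fermat.Agent.S41_DUAdj
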