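/-
S41, block DU-B (helper7): primitives along a permutation, and the mod `p` lifting lemma.
-/
import Mathlib

set_option autoImplicit false

namespace Fermat.Agent.S41_DUB

open Finset

/-- If all period sums of `u` along `σ` vanish, `u = n ∘ σ - n`. -/
theorem exists_prim {Ω A : Type*} [Finite Ω] [AddCommGroup A] (σ : Equiv.Perm Ω) (u : Ω → A)
    (h : ∀ (y : Ω) (e : ℕ), (σ ^ e) y = y → ∑ i ∈ Finset.range e, u ((σ ^ i) y) = 0) :
    ∃ n : Ω → A, ∀ x, n (σ x) - n x = u x := by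
  classical
  let st := Equiv.Perm.SameCycle.setoid σ
  let r : Ω → Ω := fun x => Quotient.out (Quotient.mk st x)
  have hr : ∀ x, Equiv.Perm.SameCycle σ (r x) x := fun x =>
    @Quotient.exact _ st _ _ (Quotient.out_eq (Quotient.mk st x))
  have hrσ : ∀ x, r (σ x) = r x := by
    intro x
    show Quotient.out (Quotient.mk st (σ x)) = Quotient.out (Quotient.mk st x)
    congr 1
    apply Quotient.sound
    exact Equiv.Perm.sameCycle_apply_left.mpr (Equiv.Perm.SameCycle.refl σ x)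
  have hex : ∀ x, ∃ k : ℕ, (σ ^ k) (r x) = x := by
    intro x
    obtain ⟨i, _, hi⟩ := (hr x).exists_pow_eq'
    exact ⟨i, hi⟩
  let k : Ω → ℕ := fun x => Nat.find (hex x)
  have hk : ∀ x, (σ ^ k x) (r x) = x := fun x => Nat.find_spec (hex x)
  refine ⟨fun x => ∑ i ∈ Finset.range (k x), u ((σ ^ i) (r x)), fun x => ?_⟩
  show ∑ i ∈ Finset.range (k (σ x)), u ((σ ^ i) (r (σ x)))
      - ∑ i ∈ Finset.range (k x), u ((σ ^ i) (r x)) = u x
  rw [hrσ]
  -- σ^(k x + 1) (r x) = σ x
  have h1 : (σ ^ (k x + 1)) (r x) = σ x := by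
    rw [pow_succ', Equiv.Perm.mul_apply, hk]
  have hle : k (σ x) ≤ k x + 1 := by
    have h2 : (σ ^ (k x + 1)) (r (σ x)) = σ x := by rw [hrσ]; exact h1
    exact Nat.find_min' (hex (σ x)) h2
  have hk' : (σ ^ k (σ x)) (r x) = σ x := by
    have := hk (σ x)
    rwa [hrσ] at this
  -- period e = k x + 1 - k (σ x) at the point y = σ^(k (σ x)) (r x) = σ x
  set e := k x + 1 - k (σ x) with he
  have hper : (σ ^ e) (σ x) = σ x := by
    have : (σ ^ (k x + 1)) (r x) = (σ ^ e) ((σ ^ k (σ x)) (r x)) := by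
      rw [← Equiv.Perm.mul_apply, ← pow_add, he, Nat.sub_add_cancel hle]
    rw [hk', h1] at this
    exact this.symm
  have hsum := h (σ x) e hper
  -- ∑_{i<k x+1} u(σ^i r) = ∑_{i<k(σ x)} u(σ^i r) + ∑_{i<e} u(σ^i (σ x))
  have hsplit : ∑ i ∈ Finset.range (k x + 1), u ((σ ^ i) (r x))
      = ∑ i ∈ Finset.range (k (σ x)), u ((σ ^ i) (r x))
        + ∑ i ∈ Finset.range e, u ((σ ^ i) (σ x)) := by
    have hkk : k x + 1 = k (σ x) + e := by rw [he]; omega
    rw [hkk, Finset.sum_range_add]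
    congr 1
    apply Finset.sum_congr rfl
    intro i _
    congr 1
    rw [add_comm, pow_add, Equiv.Perm.mul_apply, hk']
  rw [hsum, add_zero, Finset.sum_range_succ, hk] at hsplit
  rw [← hsplit]
  abel

section Lift

variable {Ω : Type*} [Fintype Ω] [DecidableEq Ω]

/-- the group of `R`-coboundaries -/
def cobR (σR : Equiv.Perm Ω) : AddSubgroup (Ω → ℤ) where
  carrier := {f | ∃ n : Ω → ℤ, ∀ x, f x = n (σR x) - n x}
  zero_mem' := ⟨0, fun x => by simp⟩
  add_mem' := by
    rintro f g ⟨n, hn⟩ ⟨n', hn'⟩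
    exact ⟨n + n', fun x => by simp only [Pi.add_apply, hn x, hn' x]; ring⟩
  neg_mem' := by
    rintro f ⟨n, hn⟩
    exact ⟨-n, fun x => by simp only [Pi.neg_apply, hn x]; ring⟩

/-- the group of `S`-antisymmetric functions -/
def antiS (σS : Equiv.Perm Ω) : AddSubgroup (Ω → ℤ) where
  carrier := {v | ∀ x, v (σS x) = - v x}
  zero_mem' := fun x => by simp
  add_mem' := by
    intro f g hf hg x
    simp only [Pi.add_apply, hf x, hg x]; ring
  neg_mem' := by
    intro f hf x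
    simp only [Pi.neg_apply, hf x]

theorem single_sub_mem_cobR (σR : Equiv.Perm Ω) (y : Ω) :
    (Pi.single y (1 : ℤ) - Pi.single (σR y) (1 : ℤ) : Ω → ℤ) ∈ cobR σR := by
  refine ⟨Pi.single (σR y) (1 : ℤ), fun x => ?_⟩
  simp only [Pi.sub_apply, Pi.single_apply]
  have : σR x = σR y ↔ x = y := σR.apply_eq_iff_eq
  simp only [this]

theorem single_sub_mem_antiS (σS : Equiv.Perm Ω) (hS : ∀ x, σS (σS x) = x) (y : Ω) :
    (Pi.single y (1 : ℤ) - Pi.single (σS y) (1 : ℤ) : Ω → ℤ) ∈ antiS σS := by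
  intro x
  simp only [Pi.sub_apply, Pi.single_apply]
  have h1 : σS x = y ↔ x = σS y := by
    constructor
    · intro h; rw [← h, hS]
    · intro h; rw [h, hS]
  have h2 : σS x = σS y ↔ x = y := σS.apply_eq_iff_eq
  simp only [h1, h2]
  ring

/-- connectivity: every function of total sum zero is an `R`-coboundary plus an
`S`-antisymmetric function. -/
theorem mem_sup_of_sum_eq_zero (σS σR : Equiv.Perm Ω) (hS : ∀ x, σS (σS x) = x)
    (htrans : ∀ P : Ω → Prop, (∀ x, P x → P (σS x)) → (∀ x, P x → P (σR x)) →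
      ∀ x0, P x0 → ∀ x, P x)
    (f : Ω → ℤ) (hf : ∑ x, f x = 0) : f ∈ cobR σR ⊔ antiS σS := by
  rcases isEmpty_or_nonempty Ω with hΩ | ⟨⟨x0⟩⟩
  · have : f = 0 := by funext x; exact (hΩ.false x).elim
    rw [this]; exact zero_mem _
  have key : ∀ y, (Pi.single x0 (1 : ℤ) - Pi.single y (1 : ℤ) : Ω → ℤ) ∈ cobR σR ⊔ antiS σS := by
    refine htrans (fun y => (Pi.single x0 (1 : ℤ) - Pi.single y (1 : ℤ) : Ω → ℤ)
      ∈ cobR σR ⊔ antiS σS) ?_ ?_ x0 ?_
    rotate_left 2
    · show (Pi.single x0 (1 : ℤ) - Pi.single x0 (1 : ℤ) : Ω → ℤ) ∈ _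
      rw [sub_self]; exact zero_mem _
    · intro y hy
      have h1 : (Pi.single y (1 : ℤ) - Pi.single (σS y) (1 : ℤ) : Ω → ℤ) ∈ cobR σR ⊔ antiS σS :=
        AddSubgroup.mem_sup_right (single_sub_mem_antiS σS hS y)
      have := add_mem hy h1
      simpa using this
    · intro y hy
      have h1 : (Pi.single y (1 : ℤ) - Pi.single (σR y) (1 : ℤ) : Ω → ℤ) ∈ cobR σR ⊔ antiS σS :=
        AddSubgroup.mem_sup_left (single_sub_mem_cobR σR y)
      have := add_mem hy h1
      simpa using this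
  have hdecomp : f = - ∑ y, f y • (Pi.single x0 (1 : ℤ) - Pi.single y (1 : ℤ) : Ω → ℤ) := by
    funext x
    simp only [Pi.neg_apply, Finset.sum_apply, Pi.smul_apply, Pi.sub_apply, Pi.single_apply,
      smul_eq_mul, mul_sub, Finset.sum_sub_distrib, mul_ite, mul_one, mul_zero]
    rw [Finset.sum_ite_eq Finset.univ x]
    simp only [Finset.mem_univ, if_true]
    by_cases hx : x = x0
    · subst hx
      simp only [if_true, hf]
      ring
    · simp only [hx, if_false, Finset.sum_const_zero]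
      ring
  rw [hdecomp]
  exact neg_mem (sum_mem (fun y _ => zsmul_mem (key y) _))

/-- **Lifting lemma.** An `𝔽_p`-valued `n̄` whose `(T-1)`-image is `S`-antisymmetric has an
integral lift with the same property (`p` odd, transitive action). The antisymmetry is written
`Q n x := (n (σR x) - n x) + (n (σR (σS x)) - n (σS x)) = 0`. -/
theorem exists_lift (p : ℕ) [Fact p.Prime] (hp2 : p ≠ 2) (σS σR : Equiv.Perm Ω)
    (hS : ∀ x, σS (σS x) = x)
    (htrans : ∀ P : Ω → Prop, (∀ x, P x → P (σS x)) → (∀ x, P x → P (σR x)) →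
      ∀ x0, P x0 → ∀ x, P x)
    (nb : Ω → ZMod p)
    (hanti : ∀ x, (nb (σR x) - nb x) + (nb (σR (σS x)) - nb (σS x)) = 0) :
    ∃ n : Ω → ℤ, (∀ x, (n x : ZMod p) = nb x) ∧
      ∀ x, (n (σR x) - n x) + (n (σR (σS x)) - n (σS x)) = 0 := by
  classical
  let _ : LinearOrder Ω := IsWellOrder.linearOrder (α := Ω) WellOrderingRel
  have hpodd : ¬ (p : ℤ) ∣ 2 := by
    intro h
    have h2 : p ∣ 2 := by exact_mod_cast h
    have := (Nat.prime_dvd_prime_iff_eq (Fact.out : p.Prime) Nat.prime_two).mp h2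
    exact hp2 this
  have hpprime : Prime (p : ℤ) := Nat.prime_iff_prime_int.mp (Fact.out : p.Prime)
  -- step 1: arbitrary lift
  let n0 : Ω → ℤ := fun x => ((nb x).val : ℤ)
  have hn0 : ∀ x, ((n0 x : ℤ) : ZMod p) = nb x := by
    intro x
    show (((nb x).val : ℤ) : ZMod p) = nb x
    simp
  let Q : (Ω → ℤ) → Ω → ℤ := fun n x => (n (σR x) - n x) + (n (σR (σS x)) - n (σS x))
  have hQ0 : ∀ x, (p : ℤ) ∣ Q n0 x := by
    intro x
    rw [← ZMod.intCast_zmod_eq_zero_iff_dvd]
    show (((n0 (σR x) - n0 x) + (n0 (σR (σS x)) - n0 (σS x)) : ℤ) : ZMod p) = 0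
    push_cast
    rw [hn0, hn0, hn0, hn0]
    exact hanti x
  choose e he using hQ0
  -- e is S-symmetric
  have hpne : (p : ℤ) ≠ 0 := by exact_mod_cast (Fact.out : p.Prime).ne_zero
  have heS : ∀ x, e (σS x) = e x := by
    intro x
    have h1 : Q n0 (σS x) = Q n0 x := by
      show (n0 (σR (σS x)) - n0 (σS x)) + (n0 (σR (σS (σS x))) - n0 (σS (σS x))) = _
      rw [hS]; show _ = (n0 (σR x) - n0 x) + (n0 (σR (σS x)) - n0 (σS x)); ring
    rw [he, he] at h1
    exact mul_left_cancel₀ hpne h1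
  -- at S-fixed points e is even
  have heven : ∀ x, σS x = x → (2 : ℤ) ∣ e x := by
    intro x hx
    have h1 : Q n0 x = 2 * (n0 (σR x) - n0 x) := by
      show (n0 (σR x) - n0 x) + (n0 (σR (σS x)) - n0 (σS x)) = _
      rw [hx]; ring
    rw [he] at h1
    have h2 : (2 : ℤ) ∣ (p : ℤ) * e x := ⟨_, h1⟩
    have hcop : IsCoprime (2 : ℤ) (p : ℤ) := by
      have : Nat.Coprime 2 p :=
        (Nat.coprime_primes Nat.prime_two (Fact.out : p.Prime)).mpr (Ne.symm hp2)
      exact_mod_cast Nat.isCoprime_iff_coprime.mpr this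
    exact hcop.dvd_of_dvd_mul_left h2
  -- the half e'
  let e' : Ω → ℤ := fun x => if x < σS x then e x else if x = σS x then e x / 2 else 0
  have he' : ∀ x, e' x + e' (σS x) = e x := by
    intro x
    show (if x < σS x then e x else if x = σS x then e x / 2 else 0)
      + (if σS x < σS (σS x) then e (σS x) else if σS x = σS (σS x) then e (σS x) / 2 else 0) = e x
    rw [hS, heS]
    rcases lt_trichotomy x (σS x) with h | h | h
    · rw [if_pos h, if_neg (not_lt.mpr h.le), if_neg (ne_of_gt h)]; ring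
    · obtain ⟨c, hc⟩ := heven x h.symm
      rw [← h]
      simp only [lt_irrefl, if_false, if_true]
      rw [hc]; omega
    · rw [if_neg (not_lt.mpr h.le), if_neg (ne_of_gt h), if_pos h]; ring
  -- total sum of e' is zero
  have hsumQ : ∑ x, Q n0 x = 0 := by
    show ∑ x, ((n0 (σR x) - n0 x) + (n0 (σR (σS x)) - n0 (σS x))) = 0
    rw [Finset.sum_add_distrib, Finset.sum_sub_distrib, Finset.sum_sub_distrib]
    have h1 : ∑ x, n0 (σR x) = ∑ x, n0 x := Equiv.sum_comp σR n0
    have h2 : ∑ x, n0 (σR (σS x)) = ∑ x, n0 x := by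
      have := Equiv.sum_comp (σS.trans σR) n0
      simpa using this
    have h3 : ∑ x, n0 (σS x) = ∑ x, n0 x := Equiv.sum_comp σS n0
    rw [h1, h2, h3]; ring
  have hsume : ∑ x, e x = 0 := by
    have : (p : ℤ) * ∑ x, e x = 0 := by
      rw [Finset.mul_sum, ← hsumQ]
      exact Finset.sum_congr rfl (fun x _ => (he x).symm)
    exact (mul_eq_zero.mp this).resolve_left hpne
  have hsume' : ∑ x, e' x = 0 := by
    have h1 : ∑ x, e x = ∑ x, e' x + ∑ x, e' (σS x) := by
      rw [← Finset.sum_add_distrib]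
      exact Finset.sum_congr rfl (fun x _ => (he' x).symm)
    have h2 : ∑ x, e' (σS x) = ∑ x, e' x := Equiv.sum_comp σS e'
    rw [h2, hsume] at h1
    linarith
  -- connectivity
  have hmem := mem_sup_of_sum_eq_zero σS σR hS htrans e' hsume'
  obtain ⟨f1, ⟨n1, hn1⟩, v, hv, hfv⟩ := AddSubgroup.mem_sup.mp hmem
  have hv' : ∀ x, v (σS x) = - v x := hv
  -- Q n1 = e
  have hQ1 : ∀ x, Q n1 x = e x := by
    intro x
    show (n1 (σR x) - n1 x) + (n1 (σR (σS x)) - n1 (σS x)) = e x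
    rw [← hn1 x, ← hn1 (σS x), ← he' x]
    have h1 := congrFun hfv x
    have h2 := congrFun hfv (σS x)
    simp only [Pi.add_apply] at h1 h2
    rw [hv'] at h2
    linarith
  refine ⟨fun x => n0 x - p * n1 x, fun x => ?_, fun x => ?_⟩
  · push_cast
    rw [hn0]; simp
  · have h1 := he x
    have h2 := hQ1 x
    show ((n0 (σR x) - p * n1 (σR x)) - (n0 x - p * n1 x))
      + ((n0 (σR (σS x)) - p * n1 (σR (σS x))) - (n0 (σS x) - p * n1 (σS x))) = 0
    have h1' : (n0 (σR x) - n0 x) + (n0 (σR (σS x)) - n0 (σS x)) = p * e x := h1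
    have h2' : (n1 (σR x) - n1 x) + (n1 (σR (σS x)) - n1 (σS x)) = e x := h2
    linear_combination h1' - (p : ℤ) * h2'

end Lift

end Fermat.Agent.S41_DUB
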