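import Mathlib
import Fermat.Agent.S16_PSL

/-!
# Quadratic cocycles on an `SL(2,ℤ)`-set (blocks DU-C and DU-D)

`Om` is a set with an action of `SL(2,ℤ)`, `R` a commutative ring.  A pair of cocycles
`x y : SL(2,ℤ) → Om → R` together with `f` satisfying
`f (g * h) w = f g (h • w) + f h w + x g (h • w) * y h w` is a *quadratic cocycle triple*.

* `exists_normalized` (DU-D): for arbitrary `m m' : Om → R` there is a triple with
  `x S w = m (S • w) - m w`, `y S w = m' (S • w) - m' w`, everything vanishing on `T * S`.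
* `two_mul_sum_f_T_pow`, `two_mul_sum_f_conj` (DU-C, Theorem I): the sum of `f` over the
  parabolic elements is the explicit bilinear expression in `x S`, `y S` and a `T`-primitive.
-/

set_option autoImplicit false

open scoped MatrixGroups
open ModularGroup

namespace Fermat.Agent.S41_DUCoc

section Basics

variable {Om : Type*} [MulAction SL(2, ℤ) Om] {R : Type*} [CommRing R]

/-- `x` is a cocycle for the action of `SL(2,ℤ)` on `Om`. -/
def IsCoc (x : SL(2, ℤ) → Om → R) : Prop :=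
  ∀ g h w, x (g * h) w = x g (h • w) + x h w

/-- `f` is a quadratic cocycle over the pair `x`, `y`. -/
def IsQCoc (x y f : SL(2, ℤ) → Om → R) : Prop :=
  ∀ g h w, f (g * h) w = f g (h • w) + f h w + x g (h • w) * y h w

theorem IsCoc.one {x : SL(2, ℤ) → Om → R} (hx : IsCoc x) (w : Om) : x 1 w = 0 := by
  have h := hx 1 1 w
  rw [mul_one, one_smul] at h
  linear_combination -h

theorem IsCoc.inv {x : SL(2, ℤ) → Om → R} (hx : IsCoc x) (g : SL(2, ℤ)) (w : Om) :
    x g⁻¹ w = - x g (g⁻¹ • w) := by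
  have h := hx g g⁻¹ w
  rw [mul_inv_cancel, hx.one] at h
  linear_combination -h

theorem IsCoc.inv' {x : SL(2, ℤ) → Om → R} (hx : IsCoc x) (g : SL(2, ℤ)) (w : Om) :
    x g⁻¹ (g • w) = - x g w := by
  rw [hx.inv, inv_smul_smul]

theorem IsCoc.pow {x : SL(2, ℤ) → Om → R} (hx : IsCoc x) (g : SL(2, ℤ)) (n : ℕ) (w : Om) :
    x (g ^ n) w = ∑ i ∈ Finset.range n, x g (g ^ i • w) := by
  induction n with
  | zero => simp [hx.one]
  | succ n ih => rw [pow_succ', hx, ih, Finset.sum_range_succ]; ring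

theorem IsCoc.pow_eq_zero {x : SL(2, ℤ) → Om → R} (hx : IsCoc x) (g : SL(2, ℤ))
    (h0 : ∀ w, x g w = 0) (n : ℕ) (w : Om) : x (g ^ n) w = 0 := by
  rw [hx.pow]
  exact Finset.sum_eq_zero fun i _ => h0 _

theorem IsQCoc.one {x y f : SL(2, ℤ) → Om → R} (hx : IsCoc x) (hf : IsQCoc x y f) (w : Om) :
    f 1 w = 0 := by
  have h := hf 1 1 w
  rw [mul_one, one_smul, hx.one, zero_mul, add_zero] at h
  linear_combination -h

theorem IsQCoc.pow {x y f : SL(2, ℤ) → Om → R} (hx : IsCoc x) (hf : IsQCoc x y f)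
    (g : SL(2, ℤ)) (n : ℕ) (w : Om) :
    f (g ^ n) w = ∑ i ∈ Finset.range n, f g (g ^ i • w)
      + ∑ i ∈ Finset.range n, x g (g ^ i • w) * y (g ^ i) w := by
  induction n with
  | zero => simp [hf.one hx]
  | succ n ih => rw [pow_succ', hf, ih, Finset.sum_range_succ, Finset.sum_range_succ]; ring

theorem IsQCoc.pow_eq_zero {x y f : SL(2, ℤ) → Om → R} (hx : IsCoc x) (hf : IsQCoc x y f)
    (g : SL(2, ℤ)) (hx0 : ∀ w, x g w = 0) (hf0 : ∀ w, f g w = 0) (n : ℕ) (w : Om) :
    f (g ^ n) w = 0 := by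
  rw [hf.pow hx]
  rw [Finset.sum_eq_zero fun i _ => hf0 _, Finset.sum_eq_zero fun i _ => by rw [hx0, zero_mul],
    add_zero]

/-- Conjugation invariance of a cocycle at a fixed point. -/
theorem IsCoc.conj {x : SL(2, ℤ) → Om → R} (hx : IsCoc x) (g ρ : SL(2, ℤ)) (w : Om)
    (hfix : ρ • g • w = g • w) : x (g⁻¹ * ρ * g) w = x ρ (g • w) := by
  rw [mul_assoc, hx, hx ρ g, mul_smul, hfix, hx.inv' g w]
  ring

/-- Conjugation invariance of a quadratic cocycle at a fixed point where `x`, `y` vanish. -/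
theorem IsQCoc.conj {x y f : SL(2, ℤ) → Om → R} (hx : IsCoc x) (hy : IsCoc y)
    (hf : IsQCoc x y f) (g ρ : SL(2, ℤ)) (w : Om) (hfix : ρ • g • w = g • w)
    (hxρ : x ρ (g • w) = 0) (hyρ : y ρ (g • w) = 0) :
    f (g⁻¹ * ρ * g) w = f ρ (g • w) := by
  have h1 := hf g⁻¹ g w
  rw [inv_mul_cancel, hf.one hx] at h1
  rw [mul_assoc, hf, hf ρ g, hy ρ g, mul_smul, hfix, hxρ, hyρ]
  linear_combination -h1

/-- Two cocycles agreeing on `S` and `T * S` agree. -/
theorem IsCoc.ext_gen {x x' : SL(2, ℤ) → Om → R} (hx : IsCoc x) (hx' : IsCoc x')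
    (hS : ∀ w, x S w = x' S w) (hR : ∀ w, x (T * S) w = x' (T * S) w) (g : SL(2, ℤ)) :
    ∀ w, x g w = x' g w := by
  have hT : ∀ w, x T w = x' T w := by
    intro w
    have h2 : (T : SL(2, ℤ)) = T * S * S⁻¹ := by group
    rw [h2, hx, hx', hR, hx.inv, hx'.inv, hS]
  have hg : g ∈ Subgroup.closure ({S, T} : Set SL(2, ℤ)) := by
    rw [SpecialLinearGroup.SL2Z_generators]; trivial
  induction hg using Subgroup.closure_induction with
  | mem z hz =>
    rcases hz with rfl | rfl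
    · exact hS
    · exact hT
  | one => intro w; rw [hx.one, hx'.one]
  | mul a b _ _ ha hb => intro w; rw [hx, hx', ha, hb]
  | inv a _ ha => intro w; rw [hx.inv, hx'.inv, ha]

end Basics

section Normalized

variable {Om : Type*} [MulAction SL(2, ℤ) Om] {R : Type*} [CommRing R]

/-- A quadratic cocycle triple normalised to vanish on `T * S`. -/
structure Normalized (x y f : SL(2, ℤ) → Om → R) : Prop where
  hx : IsCoc x
  hy : IsCoc y
  hf : IsQCoc x y f
  xR : ∀ w, x (T * S) w = 0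
  yR : ∀ w, y (T * S) w = 0
  fR : ∀ w, f (T * S) w = 0

variable {x y f : SL(2, ℤ) → Om → R}

theorem Normalized.x_neg_one (h : Normalized x y f) (w : Om) : x (-1) w = 0 := by
  rw [← S16_PSL.TS_cube]; exact h.hx.pow_eq_zero _ h.xR 3 w

theorem Normalized.y_neg_one (h : Normalized x y f) (w : Om) : y (-1) w = 0 := by
  rw [← S16_PSL.TS_cube]; exact h.hy.pow_eq_zero _ h.yR 3 w

theorem Normalized.f_neg_one (h : Normalized x y f) (w : Om) : f (-1) w = 0 := by
  rw [← S16_PSL.TS_cube]; exact h.hf.pow_eq_zero h.hx _ h.xR h.fR 3 w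

theorem T_eq : (T : SL(2, ℤ)) = T * S * (-1 * S) := by decide

theorem S_mul_S : (S : SL(2, ℤ)) * S = -1 := by decide

theorem Normalized.x_T (h : Normalized x y f) (w : Om) : x T w = x S w := by
  conv_lhs => rw [T_eq]
  rw [h.hx, h.xR, h.hx (-1) S, h.x_neg_one]; ring

theorem Normalized.y_T (h : Normalized x y f) (w : Om) : y T w = y S w := by
  conv_lhs => rw [T_eq]
  rw [h.hy, h.yR, h.hy (-1) S, h.y_neg_one]; ring

theorem Normalized.f_T (h : Normalized x y f) (w : Om) : f T w = f S w := by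
  conv_lhs => rw [T_eq]
  rw [h.hf, h.fR, h.xR, h.hf (-1) S, h.f_neg_one, h.x_neg_one]; ring

theorem Normalized.x_S_S (h : Normalized x y f) (w : Om) : x S (S • w) = - x S w := by
  have h1 := h.hx S S w
  rw [S_mul_S, h.x_neg_one] at h1
  linear_combination -h1

theorem Normalized.y_S_S (h : Normalized x y f) (w : Om) : y S (S • w) = - y S w := by
  have h1 := h.hy S S w
  rw [S_mul_S, h.y_neg_one] at h1
  linear_combination -h1

theorem Normalized.f_S_S (h : Normalized x y f) (w : Om) :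
    f S w + f S (S • w) = x S w * y S w := by
  have h1 := h.hf S S w
  rw [S_mul_S, h.f_neg_one, h.x_S_S] at h1
  linear_combination -h1

/-- Abel summation for the cross term of `f (T ^ e)`. -/
theorem Normalized.cross_T_pow (h : Normalized x y f) (n : Om → R)
    (hn : ∀ w, n (T • w) - n w = x S w) (e : ℕ) (w : Om) :
    ∑ i ∈ Finset.range e, x T (T ^ i • w) * y (T ^ i) w
      = n (T ^ e • w) * y (T ^ e) w
        - ∑ i ∈ Finset.range e, n (T ^ (i + 1) • w) * y S (T ^ i • w) := by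
  induction e with
  | zero => simp [h.hy.one]
  | succ e ih =>
    rw [Finset.sum_range_succ, Finset.sum_range_succ, ih, h.x_T, ← hn (T ^ e • w),
      pow_succ' T e, h.hy T (T ^ e) w, h.y_T, mul_smul]
    ring

/-- **Theorem I, pointwise form.**  If `y (T ^ e) w = 0` then `f (T ^ e) w` is given by the
primitive `n` of `x S` along `T`. -/
theorem Normalized.f_T_pow (h : Normalized x y f) (n : Om → R)
    (hn : ∀ w, n (T • w) - n w = x S w) (e : ℕ) (w : Om) (hy : y (T ^ e) w = 0) :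
    f (T ^ e) w = ∑ i ∈ Finset.range e, f S (T ^ i • w)
      - ∑ i ∈ Finset.range e, n (T ^ (i + 1) • w) * y S (T ^ i • w) := by
  rw [h.hf.pow h.hx, h.cross_T_pow n hn, hy, mul_zero, zero_sub]
  simp only [h.f_T]
  ring

theorem sum_smul_eq [Fintype Om] (g : SL(2, ℤ)) (φ : Om → R) :
    ∑ w, φ (g • w) = ∑ w, φ w :=
  Fintype.sum_equiv (MulAction.toPerm g) _ _ fun _ => rfl

theorem Normalized.two_mul_sum_f_S [Fintype Om] (h : Normalized x y f) :
    2 * ∑ w, f S w = ∑ w, x S w * y S w := by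
  have h1 : ∑ w, f S (S • w) = ∑ w, f S w := sum_smul_eq S (f S)
  have h2 : ∑ w, (f S w + f S (S • w)) = ∑ w, x S w * y S w :=
    Finset.sum_congr rfl fun w _ => h.f_S_S w
  rw [Finset.sum_add_distrib, h1] at h2
  linear_combination h2

/-- **Theorem I, summed form.**  With a uniform exponent `E` such that `y (T ^ E)` vanishes
identically, the sum of `f (T ^ E)` over `Om` is `E` times the pairing. -/
theorem Normalized.two_mul_sum_f_T_pow [Fintype Om] (h : Normalized x y f) (n : Om → R)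
    (hn : ∀ w, n (T • w) - n w = x S w) (E : ℕ) (hy : ∀ w, y (T ^ E) w = 0) :
    2 * ∑ w, f (T ^ E) w
      = (E : R) * (∑ w, x S w * y S w - 2 * ∑ w, n (T • w) * y S w) := by
  have h1 : ∑ w, f (T ^ E) w = ∑ w, (∑ i ∈ Finset.range E, f S (T ^ i • w)
      - ∑ i ∈ Finset.range E, n (T ^ (i + 1) • w) * y S (T ^ i • w)) :=
    Finset.sum_congr rfl fun w _ => h.f_T_pow n hn E w (hy w)
  have h2 : ∑ w, ∑ i ∈ Finset.range E, f S (T ^ i • w) = (E : R) * ∑ w, f S w := by
    rw [Finset.sum_comm]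
    rw [Finset.sum_congr rfl fun i _ => sum_smul_eq (T ^ i) (f S)]
    simp
  have h3 : ∑ w, ∑ i ∈ Finset.range E, n (T ^ (i + 1) • w) * y S (T ^ i • w)
      = (E : R) * ∑ w, n (T • w) * y S w := by
    rw [Finset.sum_comm]
    have h4 : ∀ i ∈ Finset.range E, ∑ w, n (T ^ (i + 1) • w) * y S (T ^ i • w)
        = ∑ w, n (T • w) * y S w := by
      intro i _
      rw [← sum_smul_eq (T ^ i) fun w => n (T • w) * y S w]
      refine Finset.sum_congr rfl fun w _ => ?_
      rw [pow_succ', mul_smul]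
    rw [Finset.sum_congr rfl h4]
    simp
  rw [h1, Finset.sum_sub_distrib, h2, h3]
  linear_combination (E : R) * h.two_mul_sum_f_S

/-- **Theorem I for the conjugated parabolic elements.**  Given a base point `w0`, a section
`s` with `s w • w0 = w`, a uniform exponent `E` with `T ^ E` acting trivially, and vanishing
of `x`, `y` at the parabolic elements, the sum of `f` over the elements
`(s w)⁻¹ * T ^ E * s w` of the stabiliser of `w0` is `E` times the pairing. -/
theorem Normalized.two_mul_sum_f_conj [Fintype Om] (h : Normalized x y f) (n : Om → R)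
    (hn : ∀ w, n (T • w) - n w = x S w) (E : ℕ) (hE : ∀ w : Om, T ^ E • w = w)
    (hxE : ∀ w, x (T ^ E) w = 0) (hyE : ∀ w, y (T ^ E) w = 0)
    (w0 : Om) (s : Om → SL(2, ℤ)) (hs : ∀ w, s w • w0 = w) :
    2 * ∑ w, f ((s w)⁻¹ * T ^ E * s w) w0
      = (E : R) * (∑ w, x S w * y S w - 2 * ∑ w, n (T • w) * y S w) := by
  rw [← h.two_mul_sum_f_T_pow n hn E hyE]
  congr 1
  refine Finset.sum_congr rfl fun w _ => ?_
  have h1 := h.hf.conj h.hx h.hy (s w) (T ^ E) w0 (by rw [hs, hE]) (by rw [hs, hxE])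
    (by rw [hs, hyE])
  rw [h1, hs]

end Normalized

section Heis

variable {Om : Type*} [MulAction SL(2, ℤ) Om] {R : Type*} [CommRing R]

/-- The plain action of `SL(2,ℤ)` on `Om × R × R × R`. -/
def plainH (Om R : Type*) [MulAction SL(2, ℤ) Om] [CommRing R] :
    SL(2, ℤ) →* Equiv.Perm (Om × R × R × R) where
  toFun g := ⟨fun v => (g • v.1, v.2), fun v => (g⁻¹ • v.1, v.2), fun v => by simp,
    fun v => by simp⟩
  map_one' := Equiv.ext fun v => by simp
  map_mul' g h := Equiv.ext fun v => by simp [mul_smul]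

@[simp] theorem plainH_apply (g : SL(2, ℤ)) (v : Om × R × R × R) :
    plainH Om R g v = (g • v.1, v.2) := rfl

/-- A permutation of `Om × R × R × R` is a Heisenberg bundle map over `g`. -/
def IsH (g : SL(2, ℤ)) (π : Equiv.Perm (Om × R × R × R)) : Prop :=
  ∃ z u v : Om → R, ∀ w c a b, π (w, c, a, b) = (g • w, z w + c + u w * b, u w + a, v w + b)

theorem IsH.one : IsH (Om := Om) (R := R) 1 1 :=
  ⟨0, 0, 0, fun w c a b => by simp⟩

theorem IsH.mul {g h : SL(2, ℤ)} {π ρ : Equiv.Perm (Om × R × R × R)}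
    (hπ : IsH g π) (hρ : IsH h ρ) : IsH (g * h) (π * ρ) := by
  obtain ⟨z, u, v, hπ⟩ := hπ
  obtain ⟨z', u', v', hρ⟩ := hρ
  refine ⟨fun w => z (h • w) + z' w + u (h • w) * v' w, fun w => u (h • w) + u' w,
    fun w => v (h • w) + v' w, fun w c a b => ?_⟩
  rw [Equiv.Perm.mul_apply, hρ, hπ, mul_smul]
  refine Prod.ext rfl (Prod.ext ?_ (Prod.ext ?_ ?_))
  · show z (h • w) + (z' w + c + u' w * b) + u (h • w) * (v' w + b) = _
    ring
  · show u (h • w) + (u' w + a) = _
    ring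
  · show v (h • w) + (v' w + b) = _
    ring

theorem IsH.inv {g : SL(2, ℤ)} {π : Equiv.Perm (Om × R × R × R)}
    (hπ : IsH g π) : IsH g⁻¹ π⁻¹ := by
  obtain ⟨z, u, v, hπ⟩ := hπ
  refine ⟨fun w => - z (g⁻¹ • w) + u (g⁻¹ • w) * v (g⁻¹ • w), fun w => - u (g⁻¹ • w),
    fun w => - v (g⁻¹ • w), fun w c a b => ?_⟩
  rw [Equiv.Perm.inv_eq_iff_eq, hπ, smul_inv_smul]
  refine Prod.ext rfl (Prod.ext ?_ (Prod.ext ?_ ?_))
  · show c = z (g⁻¹ • w) + (- z (g⁻¹ • w) + u (g⁻¹ • w) * v (g⁻¹ • w) + c + - u (g⁻¹ • w) * b)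
      + u (g⁻¹ • w) * (- v (g⁻¹ • w) + b)
    ring
  · show a = u (g⁻¹ • w) + (- u (g⁻¹ • w) + a)
    ring
  · show b = v (g⁻¹ • w) + (- v (g⁻¹ • w) + b)
    ring

theorem isH_plainH (g : SL(2, ℤ)) : IsH g (plainH Om R g) :=
  ⟨0, 0, 0, fun w c a b => by simp⟩

/-- If `θ S` and `θ (T * S)` are Heisenberg bundle maps, so is every `θ g`. -/
theorem isH_all (θ : SL(2, ℤ) →* Equiv.Perm (Om × R × R × R))
    (hS : IsH S (θ S)) (hR : IsH (T * S) (θ (T * S))) (g : SL(2, ℤ)) : IsH g (θ g) := by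
  have hT : IsH T (θ T) := by
    have h1 : θ T = θ (T * S) * (θ S)⁻¹ := by rw [map_mul]; group
    have h2 : (T : SL(2, ℤ)) = T * S * S⁻¹ := by group
    rw [h1]
    have := hR.mul hS.inv
    rwa [← h2] at this
  have hg : g ∈ Subgroup.closure ({S, T} : Set SL(2, ℤ)) := by
    rw [SpecialLinearGroup.SL2Z_generators]; trivial
  induction hg using Subgroup.closure_induction with
  | mem x hx =>
    rcases hx with rfl | rfl
    · exact hS
    · exact hT
  | one => rw [map_one]; exact IsH.one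
  | mul x y _ _ hx hy => rw [map_mul]; exact hx.mul hy
  | inv x _ hx => rw [map_inv]; exact hx.inv

/-- The three components of a Heisenberg bundle representation. -/
def cz (θ : SL(2, ℤ) →* Equiv.Perm (Om × R × R × R)) (g : SL(2, ℤ)) (w : Om) : R :=
  (θ g (w, 0, 0, 0)).2.1

/-- Second component. -/
def cx (θ : SL(2, ℤ) →* Equiv.Perm (Om × R × R × R)) (g : SL(2, ℤ)) (w : Om) : R :=
  (θ g (w, 0, 0, 0)).2.2.1

/-- Third component. -/
def cy (θ : SL(2, ℤ) →* Equiv.Perm (Om × R × R × R)) (g : SL(2, ℤ)) (w : Om) : R :=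
  (θ g (w, 0, 0, 0)).2.2.2

theorem applyH_eq (θ : SL(2, ℤ) →* Equiv.Perm (Om × R × R × R)) (hH : ∀ g, IsH g (θ g))
    (g : SL(2, ℤ)) (w : Om) (c a b : R) :
    θ g (w, c, a, b) = (g • w, cz θ g w + c + cx θ g w * b, cx θ g w + a, cy θ g w + b) := by
  obtain ⟨z, u, v, h⟩ := hH g
  have h0 := h w 0 0 0
  have hz : cz θ g w = z w := by
    show (θ g (w, 0, 0, 0)).2.1 = z w
    rw [h0]; show z w + 0 + u w * 0 = z w; ring
  have hu : cx θ g w = u w := by
    show (θ g (w, 0, 0, 0)).2.2.1 = u w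
    rw [h0]; show u w + 0 = u w; ring
  have hv : cy θ g w = v w := by
    show (θ g (w, 0, 0, 0)).2.2.2 = v w
    rw [h0]; show v w + 0 = v w; ring
  rw [hz, hu, hv, h]

theorem coc_of_isH (θ : SL(2, ℤ) →* Equiv.Perm (Om × R × R × R)) (hH : ∀ g, IsH g (θ g)) :
    IsCoc (cx θ) ∧ IsCoc (cy θ) ∧ IsQCoc (cx θ) (cy θ) (cz θ) := by
  have key : ∀ g h w, (g • h • w, cz θ g (h • w) + (cz θ h w + 0 + cx θ h w * 0)
      + cx θ g (h • w) * (cy θ h w + 0), cx θ g (h • w) + (cx θ h w + 0),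
      cy θ g (h • w) + (cy θ h w + 0))
      = (((g * h) • w, cz θ (g * h) w + 0 + cx θ (g * h) w * 0, cx θ (g * h) w + 0,
        cy θ (g * h) w + 0) : Om × R × R × R) := by
    intro g h w
    rw [← applyH_eq θ hH (g * h) w 0 0 0, map_mul, Equiv.Perm.mul_apply,
      applyH_eq θ hH h w 0 0 0, applyH_eq θ hH g]
  refine ⟨fun g h w => ?_, fun g h w => ?_, fun g h w => ?_⟩
  · have h1 := congrArg (fun v : Om × R × R × R => v.2.2.1) (key g h w)
    simp only at h1
    linear_combination -h1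
  · have h1 := congrArg (fun v : Om × R × R × R => v.2.2.2) (key g h w)
    simp only at h1
    linear_combination -h1
  · have h1 := congrArg (fun v : Om × R × R × R => v.2.1) (key g h w)
    simp only at h1
    linear_combination -h1

/-- The generator attached to `S`. -/
def sH (a a' z : Om → R) (hneg : ∀ w : Om, (-1 : SL(2, ℤ)) • w = w)
    (ha : ∀ w, a (S • w) = - a w) (ha' : ∀ w, a' (S • w) = - a' w)
    (hz : ∀ w, z (S • w) + z w = a w * a' w) : Equiv.Perm (Om × R × R × R) :=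
  have key : ∀ v : Om × R × R × R,
      (S • S • v.1, z (S • v.1) + (z v.1 + v.2.1 + a v.1 * v.2.2.2)
        + a (S • v.1) * (a' v.1 + v.2.2.2), a (S • v.1) + (a v.1 + v.2.2.1),
        a' (S • v.1) + (a' v.1 + v.2.2.2)) = v := by
    intro v
    obtain ⟨w, c, a0, b⟩ := v
    have hw : S • S • w = w := by rw [← mul_smul, S_mul_S, hneg]
    refine Prod.ext hw (Prod.ext ?_ (Prod.ext ?_ ?_))
    · show z (S • w) + (z w + c + a w * b) + a (S • w) * (a' w + b) = c
      rw [ha]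
      linear_combination hz w
    · show a (S • w) + (a w + a0) = a0
      rw [ha]; ring
    · show a' (S • w) + (a' w + b) = b
      rw [ha']; ring
  ⟨fun v => (S • v.1, z v.1 + v.2.1 + a v.1 * v.2.2.2, a v.1 + v.2.2.1, a' v.1 + v.2.2.2),
    fun v => (S • v.1, z v.1 + v.2.1 + a v.1 * v.2.2.2, a v.1 + v.2.2.1, a' v.1 + v.2.2.2),
    key, key⟩

theorem sH_apply (a a' z : Om → R) (hneg : ∀ w : Om, (-1 : SL(2, ℤ)) • w = w)
    (ha : ∀ w, a (S • w) = - a w) (ha' : ∀ w, a' (S • w) = - a' w)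
    (hz : ∀ w, z (S • w) + z w = a w * a' w) (w : Om) (c a0 b : R) :
    sH a a' z hneg ha ha' hz (w, c, a0, b) = (S • w, z w + c + a w * b, a w + a0, a' w + b) :=
  rfl

theorem sH_sq (a a' z : Om → R) (hneg : ∀ w : Om, (-1 : SL(2, ℤ)) • w = w)
    (ha : ∀ w, a (S • w) = - a w) (ha' : ∀ w, a' (S • w) = - a' w)
    (hz : ∀ w, z (S • w) + z w = a w * a' w) : sH a a' z hneg ha ha' hz ^ 2 = 1 := by
  refine Equiv.ext fun v => ?_
  rw [sq, Equiv.Perm.mul_apply]
  exact (sH a a' z hneg ha ha' hz).left_inv v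

theorem plainH_TS_cube (hneg : ∀ w : Om, (-1 : SL(2, ℤ)) • w = w) :
    plainH Om R (T * S) ^ 3 = 1 := by
  rw [← map_pow, S16_PSL.TS_cube]
  refine Equiv.ext fun v => ?_
  rw [plainH_apply, hneg]; rfl

/-- **DU-D, general form.**  Given `a`, `a'` odd under `S` and `z` with
`z (S • w) + z w = a w * a' w`, there is a normalised quadratic cocycle triple with
`x S = a`, `y S = a'`, `f S = z`. -/
theorem exists_normalized_of (hneg : ∀ w : Om, (-1 : SL(2, ℤ)) • w = w) (a a' z : Om → R)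
    (ha : ∀ w, a (S • w) = - a w) (ha' : ∀ w, a' (S • w) = - a' w)
    (hz : ∀ w, z (S • w) + z w = a w * a' w) :
    ∃ x y f : SL(2, ℤ) → Om → R, Normalized x y f ∧ (∀ w, x S w = a w) ∧
      (∀ w, y S w = a' w) ∧ (∀ w, f S w = z w) := by
  obtain ⟨θ, hθS, hθR⟩ := S16_PSL.exists_hom (sH a a' z hneg ha ha' hz)
    (plainH Om R (T * S)) (sH_sq a a' z hneg ha ha' hz) (plainH_TS_cube hneg)
  have hH : ∀ g, IsH g (θ g) := by
    refine isH_all θ ?_ ?_
    · rw [hθS]; exact ⟨z, a, a', fun w c a0 b => sH_apply a a' z hneg ha ha' hz w c a0 b⟩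
    · rw [hθR]; exact isH_plainH _
  obtain ⟨h1, h2, h3⟩ := coc_of_isH θ hH
  refine ⟨cx θ, cy θ, cz θ, ⟨h1, h2, h3, ?_, ?_, ?_⟩, ?_, ?_, ?_⟩
  · intro w; show (θ (T * S) (w, 0, 0, 0)).2.2.1 = 0; rw [hθR]; rfl
  · intro w; show (θ (T * S) (w, 0, 0, 0)).2.2.2 = 0; rw [hθR]; rfl
  · intro w; show (θ (T * S) (w, 0, 0, 0)).2.1 = 0; rw [hθR]; rfl
  · intro w; show (θ S (w, 0, 0, 0)).2.2.1 = a w; rw [hθS, sH_apply]
    show a w + 0 = a w; ring
  · intro w; show (θ S (w, 0, 0, 0)).2.2.2 = a' w; rw [hθS, sH_apply]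
    show a' w + 0 = a' w; ring
  · intro w; show (θ S (w, 0, 0, 0)).2.1 = z w; rw [hθS, sH_apply]
    show z w + 0 + a w * 0 = z w; ring

/-- **DU-D.**  For arbitrary `m m' : Om → R` (and `2` invertible) there is a normalised
quadratic cocycle triple with `x S w = m (S • w) - m w`, `y S w = m' (S • w) - m' w`. -/
theorem exists_normalized [Invertible (2 : R)] (hneg : ∀ w : Om, (-1 : SL(2, ℤ)) • w = w)
    (m m' : Om → R) :
    ∃ x y f : SL(2, ℤ) → Om → R, Normalized x y f ∧ (∀ w, x S w = m (S • w) - m w) ∧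
      (∀ w, y S w = m' (S • w) - m' w) ∧ (∀ w, 2 * f S w = x S w * y S w) := by
  have hSS : ∀ w : Om, S • S • w = w := fun w => by rw [← mul_smul, S_mul_S, hneg]
  obtain ⟨x, y, f, hN, hx, hy, hf⟩ := exists_normalized_of hneg
    (fun w => m (S • w) - m w) (fun w => m' (S • w) - m' w)
    (fun w => ⅟(2 : R) * ((m (S • w) - m w) * (m' (S • w) - m' w)))
    (fun w => by simp only [hSS]; ring) (fun w => by simp only [hSS]; ring)
    (fun w => by
      simp only [hSS]
      have h2 : (2 : R) * ⅟(2 : R) = 1 := mul_invOf_self 2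
      linear_combination ((m (S • w) - m w) * (m' (S • w) - m' w)) * h2)
  refine ⟨x, y, f, hN, hx, hy, fun w => ?_⟩
  rw [hx, hy, hf]
  have h2 : (2 : R) * ⅟(2 : R) = 1 := mul_invOf_self 2
  linear_combination ((m (S • w) - m w) * (m' (S • w) - m' w)) * h2

end Heis

end Fermat.Agent.S41_DUCoc
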