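/-
S41, block DU (duality): shared definitions (helper7).

* `IsPrim X Y F`   : `F` is a primitive of the cup product of two integral homs on `Γ`
                      (`g ↦ (F g, X g, Y g)` is a hom into the integral Heisenberg group).
* `IsPP Γ π`       : `π` is a positive primitive parabolic element of `Γ`.
* `CuspSys Γ ι`    : a system of representatives of the `Γ`-conjugacy classes of such elements.
* `IsPairVal X Y b`: `b = ∑_cusps F(π_c)` for some primitive `F` and some cusp system.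
-/
import Mathlib

set_option autoImplicit false

namespace Fermat.Agent.S41_DU

open Matrix MatrixGroups

/-- `F` is a primitive of `X ∪ Y`. -/
def IsPrim {Γ : Subgroup SL(2, ℤ)} (X Y : Additive Γ →+ ℤ) (F : Γ → ℤ) : Prop :=
  ∀ g h : Γ, F (g * h) = F g + F h + X (Additive.ofMul g) * Y (Additive.ofMul h)

/-- positive primitive parabolic elements of `Γ`: trace `2`, not `1`, upper right entry `≥ 0`,
lower left entry `≤ 0`, and not a proper power of a trace-`2` element of `Γ`. -/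
def IsPP (Γ : Subgroup SL(2, ℤ)) (π : SL(2, ℤ)) : Prop :=
  π ∈ Γ ∧ (π : Matrix (Fin 2) (Fin 2) ℤ).trace = 2 ∧ π ≠ 1 ∧ 0 ≤ π 0 1 ∧ π 1 0 ≤ 0 ∧
    ∀ ρ ∈ Γ, (ρ : Matrix (Fin 2) (Fin 2) ℤ).trace = 2 → ∀ n : ℕ, 2 ≤ n → ρ ^ n ≠ π

/-- a system of representatives for the `Γ`-conjugacy classes of positive primitive parabolics. -/
structure CuspSys (Γ : Subgroup SL(2, ℤ)) (ι : Type) where
  π : ι → Γ
  pp : ∀ i, IsPP Γ (π i : SL(2, ℤ))
  surj : ∀ ρ : Γ, IsPP Γ (ρ : SL(2, ℤ)) → ∃ i, ∃ γ : Γ, ρ = γ * π i * γ⁻¹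
  inj : ∀ i j, (∃ γ : Γ, π j = γ * π i * γ⁻¹) → i = j

/-- `b` is the value of the cusp pairing of `X` and `Y`. -/
def IsPairVal {Γ : Subgroup SL(2, ℤ)} (X Y : Additive Γ →+ ℤ) (b : ℤ) : Prop :=
  ∃ (F : Γ → ℤ) (ι : Type) (_ : Fintype ι) (c : CuspSys Γ ι), IsPrim X Y F ∧ ∑ i, F (c.π i) = b

end Fermat.Agent.S41_DU
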