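import Fermat.Agent.S41_DUCoc
import Fermat.Agent.S16_Lift

/-!
# Dictionary between homomorphisms on `Γ` and normalised cocycles on `SL(2,ℤ) ⧸ Γ`
(blocks D1, D3, D5 of the duality argument)

* `exists_coc`   : a hom `X : Γ → R` killing the elements of finite order is the restriction
  of a cocycle `x` on `Om = SL(2,ℤ) ⧸ Γ` vanishing on `T * S`, with `x S = m ∘ S - m`.
* `exists_prim`  : for two such homs there is a normalised quadratic cocycle triple; its
  restriction `γ ↦ f γ x₀` is a primitive of `X ∪ Y`.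
* `Normalized.two_mul_sum_orbits` : Theorem I summed over a system of `T`-orbit representatives.
* `exists_orbit_system`, `exists_primitive` : orbit representatives and `T`-primitives.
-/

set_option autoImplicit false

open scoped MatrixGroups
open ModularGroup

namespace Fermat.Agent.S41_DUDict

open Fermat.Agent.S16_Lift Fermat.Agent.S41_DUCoc

section Dict

variable {Γ : Subgroup SL(2, ℤ)} {R : Type*} [CommRing R]

/-- The Schreier cocycle composed with a hom is a cocycle. -/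
theorem isCoc_kk (X : Additive Γ →+ R) :
    IsCoc (fun g (w : SL(2, ℤ) ⧸ Γ) => X (Additive.ofMul (kk g w))) := by
  intro g h w
  show X (Additive.ofMul (kk (g * h) w)) = X (Additive.ofMul (kk g (h • w)))
    + X (Additive.ofMul (kk h w))
  rw [kk_mul, ofMul_mul, map_add]

/-- **D1.**  A hom `X : Γ → R` killing the elements of finite order extends to a cocycle on
`SL(2,ℤ) ⧸ Γ` which vanishes on `T * S` and is an `S`-coboundary on `S`. -/
theorem exists_coc (hneg : (-1 : SL(2, ℤ)) ∈ Γ) (X : Additive Γ →+ R)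
    (h12 : ∀ γ : Γ, γ ^ 12 = 1 → X (Additive.ofMul γ) = 0) :
    ∃ (x : SL(2, ℤ) → SL(2, ℤ) ⧸ Γ → R) (m : SL(2, ℤ) ⧸ Γ → R), IsCoc x ∧
      (∀ w, x (T * S) w = 0) ∧ (∀ w, x S w = m (S • w) - m w) ∧
      (∀ g w, g • w = w → x g w = X (Additive.ofMul (kk g w))) := by
  classical
  have hnegx := neg_one_smul' hneg
  have hkill : ∀ (g : SL(2, ℤ)) (w : SL(2, ℤ) ⧸ Γ), g • w = w → g ^ 12 = 1 →
      X (Additive.ofMul (kk g w)) = 0 :=
    fun g w hw hg => h12 _ (kk_pow_eq_one g w hw 12 hg)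
  obtain ⟨YS, hYS⟩ := S16_Orb.exists_Y2 (fun w : SL(2, ℤ) ⧸ Γ => S • w)
    (fun w => by
      show S • S • w = w
      rw [← mul_smul, ← sq, S16_PSL.S_sq]; exact hnegx w)
    (fun w => X (Additive.ofMul (kk S w)))
    (fun w => by
      show X (Additive.ofMul (kk S (S • w))) + X (Additive.ofMul (kk S w)) = 0
      rw [← map_add, ← ofMul_mul, ← kk_mul, ← sq, S16_PSL.S_sq]
      exact hkill (-1) w (hnegx w) neg_one_pow_twelve)
    (fun w hw => hkill S w hw S_pow_twelve)
  obtain ⟨YR, hYR⟩ := S16_Orb.exists_Y3 (fun w : SL(2, ℤ) ⧸ Γ => (T * S) • w)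
    (fun w => by
      show (T * S) • (T * S) • (T * S) • w = w
      rw [← mul_smul, ← mul_smul, ← pow_three', S16_PSL.TS_cube]; exact hnegx w)
    (fun w => X (Additive.ofMul (kk (T * S) w)))
    (fun w => by
      show X (Additive.ofMul (kk (T * S) w)) + X (Additive.ofMul (kk (T * S) ((T * S) • w)))
        + X (Additive.ofMul (kk (T * S) ((T * S) • (T * S) • w))) = 0
      have e : kk ((T * S) ^ 3) w
          = kk (T * S) ((T * S) • (T * S) • w) * (kk (T * S) ((T * S) • w) * kk (T * S) w) := by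
        rw [pow_three, kk_mul (T * S) (T * S * (T * S)) w, kk_mul (T * S) (T * S) w, mul_smul]
      have h0 : X (Additive.ofMul (kk ((T * S) ^ 3) w)) = 0 := by
        rw [S16_PSL.TS_cube]
        exact hkill (-1) w (hnegx w) neg_one_pow_twelve
      rw [e, ofMul_mul, ofMul_mul, map_add, map_add] at h0
      linear_combination h0)
    (fun w hw => hkill (T * S) w hw TS_pow_twelve)
  refine ⟨fun g w => X (Additive.ofMul (kk g w)) - (YR (g • w) - YR w),
    fun w => YS w - YR w, ?_, ?_, ?_, ?_⟩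
  · intro g h w
    have h1 := isCoc_kk X g h w
    show X (Additive.ofMul (kk (g * h) w)) - (YR ((g * h) • w) - YR w)
      = X (Additive.ofMul (kk g (h • w))) - (YR (g • h • w) - YR (h • w))
        + (X (Additive.ofMul (kk h w)) - (YR (h • w) - YR w))
    rw [mul_smul]
    linear_combination h1
  · intro w
    show X (Additive.ofMul (kk (T * S) w)) - (YR ((T * S) • w) - YR w) = 0
    linear_combination -(hYR w)
  · intro w
    show X (Additive.ofMul (kk S w)) - (YR (S • w) - YR w) = YS (S • w) - YR (S • w) - (YS w - YR w)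
    linear_combination -(hYS w)
  · intro g w hw
    show X (Additive.ofMul (kk g w)) - (YR (g • w) - YR w) = X (Additive.ofMul (kk g w))
    rw [hw]; ring

/-- `kk g w` for `g` fixing `w` is the conjugate by the section. -/
theorem coe_kk_of_fixed (g : SL(2, ℤ)) (w : SL(2, ℤ) ⧸ Γ) (hw : g • w = w) :
    ((kk g w : Γ) : SL(2, ℤ)) = (sec w)⁻¹ * g * sec w := by
  show (sec (g • w))⁻¹ * g * sec w = _
  rw [hw]

theorem sec_smul_x₀ (w : SL(2, ℤ) ⧸ Γ) : sec w • x₀ Γ = w := by
  show ((sec w * 1 : SL(2, ℤ)) : SL(2, ℤ) ⧸ Γ) = w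
  rw [mul_one, sec_spec]

/-- `S`-symmetric splitting of a product vanishing at the fixed points. -/
theorem exists_half {Om : Type*} (σ : Om → Om) (hσ : ∀ w, σ (σ w) = w) (q : Om → R)
    (hq : ∀ w, q (σ w) = q w) (hf : ∀ w, σ w = w → q w = 0) :
    ∃ z : Om → R, ∀ w, z (σ w) + z w = q w := by
  classical
  let _ : LinearOrder Om := IsWellOrder.linearOrder (α := Om) WellOrderingRel
  refine ⟨fun w => if σ w < w then q w else 0, fun w => ?_⟩
  simp only [hσ]
  rcases lt_trichotomy w (σ w) with h | h | h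
  · rw [if_pos h, if_neg (not_lt.mpr h.le), add_zero, hq]
  · rw [← h, if_neg (lt_irrefl w), add_zero]
    exact (hf w h.symm).symm
  · rw [if_neg (not_lt.mpr h.le), if_pos h, zero_add]

/-- **D1 + D3.**  For two homs `X Y : Γ → R` killing the elements of finite order there is a
normalised quadratic cocycle triple `(x, y, f)` on `SL(2,ℤ) ⧸ Γ` restricting to `X`, `Y`; the
function `γ ↦ f γ x₀` is a primitive of `X ∪ Y` on `Γ`, and its values on the conjugated
stabiliser elements `kk g w` are the values `f g w`. -/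
theorem exists_prim (hneg : (-1 : SL(2, ℤ)) ∈ Γ) (X Y : Additive Γ →+ R)
    (hX : ∀ γ : Γ, γ ^ 12 = 1 → X (Additive.ofMul γ) = 0)
    (hY : ∀ γ : Γ, γ ^ 12 = 1 → Y (Additive.ofMul γ) = 0) :
    ∃ x y f : SL(2, ℤ) → SL(2, ℤ) ⧸ Γ → R, Normalized x y f ∧
      (∀ g w, g • w = w → x g w = X (Additive.ofMul (kk g w))) ∧
      (∀ g w, g • w = w → y g w = Y (Additive.ofMul (kk g w))) ∧
      (∀ γ : Γ, x (γ : SL(2, ℤ)) (x₀ Γ) = X (Additive.ofMul γ)) ∧
      (∀ γ : Γ, y (γ : SL(2, ℤ)) (x₀ Γ) = Y (Additive.ofMul γ)) ∧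
      (∀ γ δ : Γ, f ((γ * δ : Γ) : SL(2, ℤ)) (x₀ Γ) = f (γ : SL(2, ℤ)) (x₀ Γ)
        + f (δ : SL(2, ℤ)) (x₀ Γ) + X (Additive.ofMul γ) * Y (Additive.ofMul δ)) ∧
      (∀ g w, g • w = w → x g w = 0 → y g w = 0 →
        f ((kk g w : Γ) : SL(2, ℤ)) (x₀ Γ) = f g w) := by
  have hnegx := neg_one_smul' hneg
  obtain ⟨x0, m, hx0, hx0R, hx0S, hx0X⟩ := exists_coc hneg X hX
  obtain ⟨y0, m', hy0, hy0R, hy0S, hy0Y⟩ := exists_coc hneg Y hY
  have hSS : ∀ w : SL(2, ℤ) ⧸ Γ, S • S • w = w := fun w => by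
    rw [← mul_smul, S_mul_S]; exact hnegx w
  obtain ⟨z, hz⟩ := exists_half (fun w : SL(2, ℤ) ⧸ Γ => S • w) hSS
    (fun w => x0 S w * y0 S w)
    (fun w => by
      show x0 S (S • w) * y0 S (S • w) = x0 S w * y0 S w
      rw [hx0S, hy0S, hx0S, hy0S, hSS]; ring)
    (fun w hw => by
      show x0 S w * y0 S w = 0
      have hw' : S • w = w := hw
      rw [hx0S, hw', sub_self, zero_mul])
  obtain ⟨x, y, f, hN, hxS, hyS, -⟩ := exists_normalized_of hnegx (x0 S) (y0 S) z
    (fun w => by rw [hx0S, hx0S, hSS]; ring) (fun w => by rw [hy0S, hy0S, hSS]; ring) hz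
  have hxx : ∀ g w, x g w = x0 g w :=
    fun g => hN.hx.ext_gen hx0 hxS (fun w => by rw [hN.xR, hx0R]) g
  have hyy : ∀ g w, y g w = y0 g w :=
    fun g => hN.hy.ext_gen hy0 hyS (fun w => by rw [hN.yR, hy0R]) g
  have hxΓ : ∀ γ : Γ, x (γ : SL(2, ℤ)) (x₀ Γ) = X (Additive.ofMul γ) := fun γ => by
    rw [hxx, hx0X _ _ (smul_x₀ γ), map_kk_x₀]
  have hyΓ : ∀ γ : Γ, y (γ : SL(2, ℤ)) (x₀ Γ) = Y (Additive.ofMul γ) := fun γ => by
    rw [hyy, hy0Y _ _ (smul_x₀ γ), map_kk_x₀]
  refine ⟨x, y, f, hN, fun g w hw => by rw [hxx, hx0X g w hw],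
    fun g w hw => by rw [hyy, hy0Y g w hw], hxΓ, hyΓ, ?_, ?_⟩
  · intro γ δ
    rw [Subgroup.coe_mul, hN.hf, smul_x₀, hxΓ, hyΓ]
  · intro g w hw hxg hyg
    rw [coe_kk_of_fixed g w hw]
    have h1 := hN.hf.conj hN.hx hN.hy (sec w) g (x₀ Γ) (by rw [sec_smul_x₀, hw])
      (by rw [sec_smul_x₀, hxg]) (by rw [sec_smul_x₀, hyg])
    rw [h1, sec_smul_x₀]

end Dict

section Orbits

/-- A system of orbit representatives for a single element `t` acting on a finite set:
every point is uniquely `t ^ j • rep i` with `j < e i`. -/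
theorem exists_orbit_system {G : Type*} [Group G] {α : Type} [MulAction G α] [Finite α] (t : G) :
    ∃ (ι : Type) (_ : Fintype ι) (rep : ι → α) (e : ι → ℕ), (∀ i, 0 < e i) ∧
      (∀ i k, t ^ k • rep i = rep i ↔ e i ∣ k) ∧
      Function.Bijective (fun p : (i : ι) × Fin (e i) => t ^ (p.2 : ℕ) • rep p.1) := by
  classical
  let ι := Quotient (MulAction.orbitRel (Subgroup.zpowers t) α)
  haveI : Fintype ι := Fintype.ofFinite _
  let rep : ι → α := fun i => Quotient.out i
  let e : ι → ℕ := fun i => Function.minimalPeriod (fun a => t • a) (rep i)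
  have hpos : ∀ i, 0 < e i := fun i =>
    Function.minimalPeriod_pos_of_mem_periodicPts
      (Function.Injective.mem_periodicPts (MulAction.injective t) _)
  have horb : ∀ (a b : α) (k : ℤ), a = t ^ k • b →
      (Quotient.mk (MulAction.orbitRel (Subgroup.zpowers t) α) a)
        = Quotient.mk (MulAction.orbitRel (Subgroup.zpowers t) α) b := by
    intro a b k hk
    apply Quotient.sound
    show a ∈ MulAction.orbit (Subgroup.zpowers t) b
    exact ⟨⟨t ^ k, Subgroup.zpow_mem_zpowers t k⟩, hk.symm⟩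
  refine ⟨ι, inferInstance, rep, e, hpos,
    fun i k => MulAction.pow_smul_eq_iff_minimalPeriod_dvd, ?_, ?_⟩
  · rintro ⟨i, j⟩ ⟨i', j'⟩ h
    have h' : t ^ (j : ℕ) • rep i = t ^ (j' : ℕ) • rep i' := h
    have hi : i = i' := by
      have h1 : rep i = t ^ (-(j : ℤ) + (j' : ℤ)) • rep i' := by
        rw [zpow_add, mul_smul, zpow_natCast, ← h', zpow_neg, zpow_natCast, inv_smul_smul]
      have h2 := horb _ _ _ h1
      rw [Quotient.out_eq, Quotient.out_eq] at h2
      exact h2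
    subst hi
    have h3 : t ^ (-((j' : ℕ) : ℤ) + ((j : ℕ) : ℤ)) • rep i = rep i := by
      rw [zpow_add, mul_smul, zpow_natCast, h', zpow_neg, zpow_natCast, inv_smul_smul]
    rw [MulAction.zpow_smul_eq_iff_minimalPeriod_dvd] at h3
    have h4 : (-((j' : ℕ) : ℤ) + ((j : ℕ) : ℤ)) = 0 := by
      apply Int.eq_zero_of_abs_lt_dvd h3
      have hj := j.2
      have hj' := j'.2
      show |(-((j' : ℕ) : ℤ) + ((j : ℕ) : ℤ))| < ((e i : ℕ) : ℤ)
      rw [abs_lt]
      constructor <;> omega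
    have h5 : (j : ℕ) = (j' : ℕ) := by omega
    rw [Fin.ext h5]
  · intro w
    let i : ι := Quotient.mk _ w
    have h1 : rep i ∈ MulAction.orbit (Subgroup.zpowers t) w :=
      Quotient.exact (Quotient.out_eq i)
    obtain ⟨⟨g, hg⟩, hgw⟩ := h1
    obtain ⟨k, rfl⟩ := Subgroup.mem_zpowers_iff.1 hg
    have hgw' : t ^ k • w = rep i := hgw
    have hw : w = t ^ (-k) • rep i := by
      rw [← hgw', zpow_neg, inv_smul_smul]
    have hne : ((e i : ℕ) : ℤ) ≠ 0 := by
      have := hpos i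
      omega
    have hnn : 0 ≤ (-k) % ((e i : ℕ) : ℤ) := Int.emod_nonneg _ hne
    have hlt : ((-k) % ((e i : ℕ) : ℤ)).toNat < e i := by
      have := Int.emod_lt_of_pos (-k) (show (0 : ℤ) < ((e i : ℕ) : ℤ) by have := hpos i; omega)
      omega
    refine ⟨⟨i, ⟨((-k) % ((e i : ℕ) : ℤ)).toNat, hlt⟩⟩, ?_⟩
    show t ^ (((-k) % ((e i : ℕ) : ℤ)).toNat) • rep i = w
    rw [← zpow_natCast, Int.toNat_of_nonneg hnn, hw]
    exact MulAction.zpow_smul_mod_minimalPeriod t (rep i) (-k)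

/-- A function whose sums over all closed `t`-paths vanish has a `t`-primitive. -/
theorem exists_primitive {G : Type*} [Group G] {α : Type} [MulAction G α] [Finite α]
    {A : Type*} [AddCommGroup A] (t : G) (u : α → A)
    (h0 : ∀ w k, t ^ k • w = w → ∑ l ∈ Finset.range k, u (t ^ l • w) = 0) :
    ∃ n : α → A, ∀ w, n (t • w) - n w = u w := by
  classical
  obtain ⟨ι, _, rep, e, hpos, hper, hbij⟩ := exists_orbit_system (α := α) t
  let E := Equiv.ofBijective _ hbij
  have hE : ∀ (i : ι) (j : Fin (e i)), E ⟨i, j⟩ = t ^ (j : ℕ) • rep i := fun i j => rfl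
  let n : α → A := fun w => ∑ l ∈ Finset.range ((E.symm w).2 : ℕ), u (t ^ l • rep (E.symm w).1)
  have hn : ∀ (i : ι) (j : Fin (e i)),
      n (t ^ (j : ℕ) • rep i) = ∑ l ∈ Finset.range (j : ℕ), u (t ^ l • rep i) := by
    intro i j
    show ∑ l ∈ Finset.range ((E.symm (t ^ (j : ℕ) • rep i)).2 : ℕ),
      u (t ^ l • rep (E.symm (t ^ (j : ℕ) • rep i)).1) = _
    rw [← hE i j, Equiv.symm_apply_apply]
  refine ⟨n, fun w => ?_⟩
  obtain ⟨⟨i, j⟩, rfl⟩ := E.surjective w
  rw [hE, hn]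
  by_cases hj : (j : ℕ) + 1 < e i
  · have h1 : t • t ^ (j : ℕ) • rep i = t ^ ((⟨(j : ℕ) + 1, hj⟩ : Fin (e i)) : ℕ) • rep i := by
      rw [← mul_smul, ← pow_succ']
    rw [h1, hn, Finset.sum_range_succ]
    abel
  · have hj' : (j : ℕ) + 1 = e i := by have := j.2; omega
    have h1 : t • t ^ (j : ℕ) • rep i = t ^ ((⟨0, hpos i⟩ : Fin (e i)) : ℕ) • rep i := by
      rw [← mul_smul, ← pow_succ', hj', (hper i (e i)).2 dvd_rfl, pow_zero, one_smul]
    rw [h1, hn]
    have h2 := h0 (rep i) (e i) ((hper i (e i)).2 dvd_rfl)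
    rw [← hj', Finset.sum_range_succ] at h2
    rw [Finset.sum_range_zero]
    exact sub_eq_of_eq_add (by rw [add_comm]; exact h2.symm)

end Orbits

section Formula

variable {Om : Type*} [MulAction SL(2, ℤ) Om] {R : Type*} [CommRing R]
  {x y f : SL(2, ℤ) → Om → R}

/-- The value of a normalised cocycle on `T ^ e`. -/
theorem x_T_pow (h : Normalized x y f) (e : ℕ) (w : Om) :
    x (T ^ e) w = ∑ i ∈ Finset.range e, x S (T ^ i • w) := by
  rw [h.hx.pow]
  exact Finset.sum_congr rfl fun i _ => h.x_T _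

/-- The value of a normalised cocycle on `T ^ e`. -/
theorem y_T_pow (h : Normalized x y f) (e : ℕ) (w : Om) :
    y (T ^ e) w = ∑ i ∈ Finset.range e, y S (T ^ i • w) := by
  rw [h.hy.pow]
  exact Finset.sum_congr rfl fun i _ => h.y_T _

/-- **Theorem I, summed over orbit representatives (D5).**  For a system of `T`-orbit
representatives `rep i` with periods `e i`, the sum of `f (T ^ e i) (rep i)` is the pairing
`(1/2) ∑ a a' - ∑ (n ∘ T) a'` with `a = x S`, `a' = y S`, `n ∘ T - n = a`. -/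
theorem two_mul_sum_orbits [Fintype Om] (h : Normalized x y f) (n : Om → R)
    (hn : ∀ w, n (T • w) - n w = x S w) {ι : Type*} [Fintype ι] (rep : ι → Om) (e : ι → ℕ)
    (hbij : Function.Bijective (fun p : (i : ι) × Fin (e i) => T ^ (p.2 : ℕ) • rep p.1))
    (hy : ∀ i, y (T ^ e i) (rep i) = 0) :
    2 * ∑ i, f (T ^ e i) (rep i)
      = ∑ w, x S w * y S w - 2 * ∑ w, n (T • w) * y S w := by
  have h1 : ∀ i, f (T ^ e i) (rep i) = ∑ j : Fin (e i),
      (f S (T ^ (j : ℕ) • rep i) - n (T • T ^ (j : ℕ) • rep i) * y S (T ^ (j : ℕ) • rep i)) := by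
    intro i
    rw [h.f_T_pow n hn (e i) (rep i) (hy i), ← Finset.sum_sub_distrib,
      ← Fin.sum_univ_eq_sum_range (fun j => f S (T ^ j • rep i)
        - n (T ^ (j + 1) • rep i) * y S (T ^ j • rep i)) (e i)]
    refine Finset.sum_congr rfl fun j _ => ?_
    rw [pow_succ', mul_smul]
  have h2 : ∑ i, f (T ^ e i) (rep i) = ∑ w, (f S w - n (T • w) * y S w) := by
    rw [Finset.sum_congr rfl fun i _ => h1 i,
      ← Fintype.sum_bijective _ hbij (fun p : (i : ι) × Fin (e i) =>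
        f S (T ^ (p.2 : ℕ) • rep p.1)
          - n (T • T ^ (p.2 : ℕ) • rep p.1) * y S (T ^ (p.2 : ℕ) • rep p.1))
        (fun w => f S w - n (T • w) * y S w) (fun _ => rfl),
      Fintype.sum_sigma]
  rw [h2, Finset.sum_sub_distrib]
  linear_combination h.two_mul_sum_f_S

end Formula

section Indep

variable {Om : Type*} [MulAction SL(2, ℤ) Om] {R : Type*} [CommRing R]

/-- **Independence of the primitive.**  The total sum of an additive cocycle over a finite
`SL(2,ℤ)`-set vanishes (coefficients without `12`-torsion): `g ↦ ∑ w, f g w` is a hom on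
`SL(2,ℤ)`, which is generated by elements of order dividing `12`. -/
theorem sum_coc_eq_zero [Fintype Om] {f : SL(2, ℤ) → Om → R} (hf : IsCoc f)
    (hR : ∀ r : R, 12 * r = 0 → r = 0) (g : SL(2, ℤ)) : ∑ w, f g w = 0 := by
  have hε : IsCoc (Om := PUnit.{1}) (fun (g : SL(2, ℤ)) (_ : PUnit.{1}) => ∑ w, f g w) := by
    intro g k _
    show ∑ w, f (g * k) w = ∑ w, f g w + ∑ w, f k w
    rw [← sum_smul_eq k (f g), ← Finset.sum_add_distrib]
    exact Finset.sum_congr rfl fun w _ => hf g k w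
  have h0 : IsCoc (Om := PUnit.{1}) (fun (_ : SL(2, ℤ)) (_ : PUnit.{1}) => (0 : R)) := by
    intro g k _
    show (0 : R) = 0 + 0
    rw [add_zero]
  have h12 : ∀ g0 : SL(2, ℤ), g0 ^ 12 = 1 → ∑ w, f g0 w = 0 := by
    intro g0 hg0
    apply hR
    have h1 := hε.pow g0 12 PUnit.unit
    have h2 := hε.one PUnit.unit
    rw [hg0] at h1
    simp only [Finset.sum_const, Finset.card_range, nsmul_eq_mul] at h1
    rw [h2] at h1
    have h3 : ((12 : ℕ) : R) = 12 := by norm_num
    rw [h3] at h1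
    exact h1.symm
  exact hε.ext_gen h0 (fun _ => h12 S S_pow_twelve) (fun _ => h12 (T * S) TS_pow_twelve) g
    PUnit.unit

/-- The sum of a hom `h : Γ → R` over the Schreier elements `kk g w` vanishes. -/
theorem sum_kk_eq_zero {Γ : Subgroup SL(2, ℤ)} [Fintype (SL(2, ℤ) ⧸ Γ)] (h : Additive Γ →+ R)
    (hR : ∀ r : R, 12 * r = 0 → r = 0) (g : SL(2, ℤ)) :
    ∑ w : SL(2, ℤ) ⧸ Γ, h (Additive.ofMul (kk g w)) = 0 :=
  sum_coc_eq_zero (isCoc_kk h) hR g

end Indep

end Fermat.Agent.S41_DUDict
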