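import Fermat.Agent.S41_DUDict

/-!
# S41, block DU (helper7): the integral cusp pairing through normalised cocycle data

`Ω = SL(2,ℤ) ⧸ Γ` with `-1 ∈ Γ`.  A hom `X : Γ → ℤ` has a *datum* `(x, n)`: a cocycle `x` on `Ω`
vanishing on `T * S`, restricting to `X` at the base point, together with a `T`-primitive `n` of
`x S` (it exists iff `X` is parabolic).  The pairing is `bval X Y = Phi n (y S)`,
`Phi n a' = - ∑ (n + n ∘ T) a'`; it does not depend on the data (`bval_eq`).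
-/

set_option autoImplicit false

open scoped MatrixGroups
open ModularGroup

namespace Fermat.Agent.S41_DU

open Fermat.Agent.S16_Lift Fermat.Agent.S41_DUCoc Fermat.Agent.S41_DUDict ModularCurve.Period

section PhiSec

variable {Om : Type*} [Fintype Om] [MulAction SL(2, ℤ) Om] {R : Type*} [CommRing R]

/-- the integral pairing formula (twice the cusp pairing). -/
def Phi (n a' : Om → R) : R := - ∑ w, (n w + n (T • w)) * a' w

theorem Phi_add_left (n₁ n₂ a' : Om → R) : Phi (n₁ + n₂) a' = Phi n₁ a' + Phi n₂ a' := by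
  unfold Phi
  rw [← neg_add, ← Finset.sum_add_distrib]
  congr 1
  exact Finset.sum_congr rfl fun w _ => by simp only [Pi.add_apply]; ring

theorem Phi_add_right (n a₁ a₂ : Om → R) : Phi n (a₁ + a₂) = Phi n a₁ + Phi n a₂ := by
  unfold Phi
  rw [← neg_add, ← Finset.sum_add_distrib]
  congr 1
  exact Finset.sum_congr rfl fun w _ => by simp only [Pi.add_apply]; ring

theorem Phi_zero_right (n : Om → R) : Phi n (fun _ => 0) = 0 := by
  unfold Phi
  simp

/-- antisymmetry on `T`-primitives. -/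
theorem Phi_antisymm (n n' : Om → R) :
    Phi n (fun w => n' (T • w) - n' w) = - Phi n' (fun w => n (T • w) - n w) := by
  unfold Phi
  have h : ∑ w : Om, n (T • w) * n' (T • w) = ∑ w, n w * n' w :=
    sum_smul_eq T (fun w => n w * n' w)
  have key : ∑ w, ((n w + n (T • w)) * (n' (T • w) - n' w)
      + (n' w + n' (T • w)) * (n (T • w) - n w)) = 0 := by
    have e : ∀ w, (n w + n (T • w)) * (n' (T • w) - n' w)
        + (n' w + n' (T • w)) * (n (T • w) - n w)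
        = 2 * (n (T • w) * n' (T • w)) - 2 * (n w * n' w) := fun w => by ring
    rw [Finset.sum_congr rfl fun w _ => e w, Finset.sum_sub_distrib, ← Finset.mul_sum,
      ← Finset.mul_sum, h]
    ring
  rw [Finset.sum_add_distrib] at key
  linear_combination -key

/-- a `T`-invariant function pairs to zero with every `T`-coboundary. -/
theorem Phi_invariant_left (ν n' : Om → R) (hν : ∀ w, ν (T • w) = ν w) :
    Phi ν (fun w => n' (T • w) - n' w) = 0 := by
  rw [Phi_antisymm]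
  have e : (fun w => ν (T • w) - ν w) = fun _ => (0 : R) := by
    funext w; rw [hν, sub_self]
  rw [e, Phi_zero_right, neg_zero]

/-- a `T * S`-invariant function pairs to zero with every `S`-odd function. -/
theorem Phi_RS_left (hSS : ∀ w : Om, S • S • w = w) (μ a' : Om → R)
    (hμ : ∀ w, μ (T • w) = μ (S • w)) (ha' : ∀ w, a' (S • w) = - a' w) :
    Phi μ a' = 0 := by
  unfold Phi
  have h := sum_smul_eq S (fun w => μ (S • w) * a' w)
  simp only [hSS, ha'] at h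
  have e : ∑ w, (μ w + μ (T • w)) * a' w = ∑ w, μ w * a' w + ∑ w, μ (S • w) * a' w := by
    rw [← Finset.sum_add_distrib]
    exact Finset.sum_congr rfl fun w _ => by rw [hμ]; ring
  have e2 : ∑ w, μ w * -a' w = - ∑ w, μ w * a' w := by
    rw [← Finset.sum_neg_distrib]
    exact Finset.sum_congr rfl fun w _ => by ring
  rw [e, ← h, e2]
  ring

end PhiSec

section Dat

variable {Γ : Subgroup SL(2, ℤ)}

/-- `(x, n)` is a normalised cocycle datum for the hom `X`. -/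
structure IsDat (X : Additive Γ →+ ℤ) (x : SL(2, ℤ) → SL(2, ℤ) ⧸ Γ → ℤ)
    (n : SL(2, ℤ) ⧸ Γ → ℤ) : Prop where
  coc : IsCoc x
  xR : ∀ w, x (T * S) w = 0
  res : ∀ γ : Γ, x (γ : SL(2, ℤ)) (x₀ Γ) = X (Additive.ofMul γ)
  prim : ∀ w, n (T • w) - n w = x S w

theorem isCoc_zero {Om : Type*} [MulAction SL(2, ℤ) Om] {R : Type*} [CommRing R] :
    IsCoc (fun (_ : SL(2, ℤ)) (_ : Om) => (0 : R)) := fun _ _ _ => by simp

/-- a single normalised cocycle as a (degenerate) normalised triple. -/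
theorem normalized_of_coc {Om : Type*} [MulAction SL(2, ℤ) Om] {R : Type*} [CommRing R]
    {x : SL(2, ℤ) → Om → R} (hx : IsCoc x) (hR : ∀ w, x (T * S) w = 0) :
    Normalized x (fun _ _ => (0 : R)) (fun _ _ => (0 : R)) :=
  ⟨hx, isCoc_zero, fun _ _ _ => by simp, hR, fun _ => rfl, fun _ => rfl⟩

theorem IsDat.norm {X : Additive Γ →+ ℤ} {x : SL(2, ℤ) → SL(2, ℤ) ⧸ Γ → ℤ}
    {n : SL(2, ℤ) ⧸ Γ → ℤ} (h : IsDat X x n) :
    Normalized x (fun _ _ => (0 : ℤ)) (fun _ _ => (0 : ℤ)) :=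
  normalized_of_coc h.coc h.xR

theorem smul_S_S (hneg : (-1 : SL(2, ℤ)) ∈ Γ) (w : SL(2, ℤ) ⧸ Γ) : S • S • w = w := by
  rw [← mul_smul, S_mul_S]; exact neg_one_smul' hneg w

/-- Shapiro uniqueness: a cocycle on `SL(2,ℤ) ⧸ Γ` vanishing on `Γ` at the base point is a
coboundary. -/
theorem coc_eq_cob {R : Type*} [CommRing R] {d : SL(2, ℤ) → SL(2, ℤ) ⧸ Γ → R} (hd : IsCoc d)
    (h0 : ∀ γ : Γ, d (γ : SL(2, ℤ)) (x₀ Γ) = 0) (g : SL(2, ℤ)) (w : SL(2, ℤ) ⧸ Γ) :
    d g w = d (sec (g • w)) (x₀ Γ) - d (sec w) (x₀ Γ) := by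
  have e : g * sec w = sec (g • w) * ((kk g w : Γ) : SL(2, ℤ)) := by
    show g * sec w = sec (g • w) * ((sec (g • w))⁻¹ * g * sec w)
    group
  have h1 := hd g (sec w) (x₀ Γ)
  have h2 := hd (sec (g • w)) ((kk g w : Γ) : SL(2, ℤ)) (x₀ Γ)
  rw [sec_smul_x₀] at h1
  rw [smul_x₀, h0, add_zero, ← e] at h2
  linear_combination h2 - h1

variable [Fintype (SL(2, ℤ) ⧸ Γ)]

/-- independence of the datum on the left. -/
theorem Phi_congr_left (hneg : (-1 : SL(2, ℤ)) ∈ Γ) {X : Additive Γ →+ ℤ}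
    {x x' : SL(2, ℤ) → SL(2, ℤ) ⧸ Γ → ℤ} {n n' : SL(2, ℤ) ⧸ Γ → ℤ}
    (hX : IsDat X x n) (hX' : IsDat X x' n') (a' m' : SL(2, ℤ) ⧸ Γ → ℤ)
    (haS : ∀ w, a' (S • w) = - a' w) (haT : ∀ w, a' w = m' (T • w) - m' w) :
    Phi n a' = Phi n' a' := by
  have hSS := smul_S_S hneg
  set d : SL(2, ℤ) → SL(2, ℤ) ⧸ Γ → ℤ := fun g w => x' g w - x g w with hd_def
  have hd : IsCoc d := fun g h w => by
    show x' (g * h) w - x (g * h) w = x' g (h • w) - x g (h • w) + (x' h w - x h w)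
    rw [hX.coc, hX'.coc]; ring
  have hd0 : ∀ γ : Γ, d (γ : SL(2, ℤ)) (x₀ Γ) = 0 := fun γ => by
    show x' (γ : SL(2, ℤ)) (x₀ Γ) - x (γ : SL(2, ℤ)) (x₀ Γ) = 0
    rw [hX.res, hX'.res, sub_self]
  set μ : SL(2, ℤ) ⧸ Γ → ℤ := fun w => d (sec w) (x₀ Γ) with hμ_def
  have hdμ : ∀ g w, d g w = μ (g • w) - μ w := fun g w => coc_eq_cob hd hd0 g w
  have hμR : ∀ w, μ ((T * S) • w) = μ w := fun w => by
    have h1 := hdμ (T * S) w
    have h2 : d (T * S) w = 0 := by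
      show x' (T * S) w - x (T * S) w = 0
      rw [hX.xR, hX'.xR, sub_self]
    linarith
  have hμT : ∀ w, μ (T • w) = μ (S • w) := fun w => by
    have h1 := hμR (S • w)
    rw [mul_smul, hSS] at h1
    exact h1
  set ν : SL(2, ℤ) ⧸ Γ → ℤ := fun w => n' w - n w - μ w with hν_def
  have hν : ∀ w, ν (T • w) = ν w := fun w => by
    show n' (T • w) - n (T • w) - μ (T • w) = n' w - n w - μ w
    have h1 := hX.prim w
    have h2 := hX'.prim w
    have h3 := hdμ T w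
    have h4 : d T w = x' S w - x S w := by
      show x' T w - x T w = _
      rw [hX.norm.x_T, hX'.norm.x_T]
    linarith
  have e : n' = n + (μ + ν) := by
    funext w
    show n' w = n w + (μ w + (n' w - n w - μ w))
    ring
  have ea : a' = fun w => m' (T • w) - m' w := funext haT
  rw [e, Phi_add_left, Phi_add_left, Phi_RS_left hSS μ a' hμT haS]
  have h5 : Phi ν a' = 0 := by
    rw [ea]; exact Phi_invariant_left ν m' hν
  rw [h5]; ring

omit [Fintype (SL(2, ℤ) ⧸ Γ)] in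
theorem IsDat.S_S {X : Additive Γ →+ ℤ}
    {x : SL(2, ℤ) → SL(2, ℤ) ⧸ Γ → ℤ} {n : SL(2, ℤ) ⧸ Γ → ℤ} (h : IsDat X x n)
    (w : SL(2, ℤ) ⧸ Γ) : x S (S • w) = - x S w := by
  have h1 := h.coc S S w
  have h2 : x (S * S) w = 0 := by
    rw [S_mul_S]; exact h.norm.x_neg_one w
  linarith

/-- independence of the datum on the right. -/
theorem Phi_congr_right (hneg : (-1 : SL(2, ℤ)) ∈ Γ) {X Y : Additive Γ →+ ℤ}
    {x y y' : SL(2, ℤ) → SL(2, ℤ) ⧸ Γ → ℤ} {n m m' : SL(2, ℤ) ⧸ Γ → ℤ}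
    (hX : IsDat X x n) (hY : IsDat Y y m) (hY' : IsDat Y y' m') :
    Phi n (y S) = Phi n (y' S) := by
  have e1 : y S = fun w => m (T • w) - m w := funext fun w => (hY.prim w).symm
  have e2 : y' S = fun w => m' (T • w) - m' w := funext fun w => (hY'.prim w).symm
  rw [e1, e2, Phi_antisymm, Phi_antisymm n m']
  congr 1
  exact Phi_congr_left hneg hY hY' (fun w => n (T • w) - n w) n
    (fun w => by
      show n (T • S • w) - n (S • w) = - (n (T • w) - n w)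
      rw [hX.prim, hX.prim, hX.S_S])
    (fun _ => rfl)

/-- the integral cusp pairing (twice the cup-product pairing); `0` unless both homs have data. -/
noncomputable def bval (X Y : Additive Γ →+ ℤ) : ℤ :=
  Classical.epsilon fun v => ∃ (x y : SL(2, ℤ) → SL(2, ℤ) ⧸ Γ → ℤ) (n m : SL(2, ℤ) ⧸ Γ → ℤ),
    IsDat X x n ∧ IsDat Y y m ∧ v = Phi n (y S)

/-- **the pairing is computed by any data.** -/
theorem bval_eq (hneg : (-1 : SL(2, ℤ)) ∈ Γ) {X Y : Additive Γ →+ ℤ}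
    {x y : SL(2, ℤ) → SL(2, ℤ) ⧸ Γ → ℤ} {n m : SL(2, ℤ) ⧸ Γ → ℤ}
    (hX : IsDat X x n) (hY : IsDat Y y m) : bval X Y = Phi n (y S) := by
  have hex : ∃ v, ∃ (x y : SL(2, ℤ) → SL(2, ℤ) ⧸ Γ → ℤ) (n m : SL(2, ℤ) ⧸ Γ → ℤ),
      IsDat X x n ∧ IsDat Y y m ∧ v = Phi n (y S) := ⟨_, x, y, n, m, hX, hY, rfl⟩
  obtain ⟨x₁, y₁, n₁, m₁, hX₁, hY₁, hv⟩ := Classical.epsilon_spec hex
  show Classical.epsilon _ = _
  rw [hv, Phi_congr_right hneg hX₁ hY₁ hY]
  exact Phi_congr_left hneg hX₁ hX (y S) m hY.S_S (fun w => (hY.prim w).symm)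

end Dat

section Exists

variable {Γ : Subgroup SL(2, ℤ)}

theorem trace_conj (g h : SL(2, ℤ)) :
    ((g⁻¹ * h * g : SL(2, ℤ)) : Matrix (Fin 2) (Fin 2) ℤ).trace
      = (h : Matrix (Fin 2) (Fin 2) ℤ).trace := by
  rw [Matrix.SpecialLinearGroup.coe_mul, Matrix.trace_mul_comm,
    ← Matrix.SpecialLinearGroup.coe_mul, mul_inv_cancel_left]

theorem trace_T_pow (k : ℕ) : ((T ^ k : SL(2, ℤ)) : Matrix (Fin 2) (Fin 2) ℤ).trace = 2 := by
  rw [← zpow_natCast, ModularGroup.coe_T_zpow]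
  simp [Matrix.trace, Fin.sum_univ_two]

/-- a parabolic hom kills the conjugated powers of `T`. -/
theorem parabolic_kk_T_pow {X : Additive Γ →+ ℤ} (hX : IsParabolicHom Γ X) (k : ℕ)
    (w : SL(2, ℤ) ⧸ Γ) (hw : T ^ k • w = w) : X (Additive.ofMul (kk (T ^ k) w)) = 0 := by
  apply hX
  rw [coe_kk_of_fixed _ _ hw, trace_conj, trace_T_pow]
  norm_num

theorem hom_kills_torsion (X : Additive Γ →+ ℤ) (γ : Γ) (h : γ ^ 12 = 1) :
    X (Additive.ofMul γ) = 0 := by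
  have h1 : (12 : ℕ) • X (Additive.ofMul γ) = 0 := by
    rw [← map_nsmul, ← ofMul_pow, h, ofMul_one, map_zero]
  simpa using h1

/-- **existence of data** for parabolic homs. -/
theorem exists_dat [Finite (SL(2, ℤ) ⧸ Γ)] (hneg : (-1 : SL(2, ℤ)) ∈ Γ) {X : Additive Γ →+ ℤ}
    (hX : IsParabolicHom Γ X) :
    ∃ (x : SL(2, ℤ) → SL(2, ℤ) ⧸ Γ → ℤ) (n : SL(2, ℤ) ⧸ Γ → ℤ), IsDat X x n := by
  obtain ⟨x, m, hx, hR, hS, hfix⟩ := exists_coc hneg X (hom_kills_torsion X)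
  have hN := normalized_of_coc hx hR
  obtain ⟨n, hn⟩ := exists_primitive (α := SL(2, ℤ) ⧸ Γ) T (x S) (fun w k hw => by
    rw [← x_T_pow hN, hfix _ _ hw]
    exact parabolic_kk_T_pow hX k w hw)
  refine ⟨x, n, hx, hR, fun γ => ?_, hn⟩
  rw [hfix _ _ (smul_x₀ γ), map_kk_x₀]

end Exists

end Fermat.Agent.S41_DU
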