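import Fermat.Agent.S41_DUAdj
import Fermat.Agent.S41_DUPair

/-!
# The cocycle pairing in the formula model (blocks B0, B1 first half, link to primitives)

`Γ ≤ SL(2,ℤ)` of finite index containing `-1`, `Om = SL(2,ℤ) ⧸ Γ`.

* `Wit X x n` : `x` is a cocycle on `Om` vanishing on `T * S` and restricting to `X` on `Γ`,
  and `n` is a `T`-primitive of `x S`.
* `form n n' = ∑ w, (n (T • w) * n' w - n w * n' (T • w))`.
* `IsForm X Y b` : `b = form n n'` for witnesses of `X`, `Y`.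
* `exists_wit` (existence for parabolic homs), `IsForm.link` (Theorem I: for EVERY primitive
  `F` of `X ∪ Y` and every uniform exponent `E`, `2 ∑ w, F (kk (T ^ E) w) = E * b`),
  `IsForm.unique`, `IsForm.add_left`, `IsForm.antisymm`, `IsForm.adj` (restriction/transfer).
-/

set_option autoImplicit false

open scoped MatrixGroups
open ModularGroup

namespace Fermat.Agent.S41_DUForm

open Fermat.Agent.S16_Lift Fermat.Agent.S41_DUCoc Fermat.Agent.S41_DUDict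
  Fermat.Agent.S41_DUAdj ModularCurve.Period

section Single

variable {Om : Type*} [MulAction SL(2, ℤ) Om] {R : Type*} [CommRing R]
  {x : SL(2, ℤ) → Om → R}

theorem coc_neg_one (hx : IsCoc x) (hR : ∀ w, x (T * S) w = 0) (w : Om) : x (-1) w = 0 := by
  rw [← S16_PSL.TS_cube]; exact hx.pow_eq_zero _ hR 3 w

theorem coc_T (hx : IsCoc x) (hR : ∀ w, x (T * S) w = 0) (w : Om) : x T w = x S w := by
  conv_lhs => rw [T_eq]
  rw [hx, hR, hx (-1) S, coc_neg_one hx hR]; ring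

theorem coc_S_S (hx : IsCoc x) (hR : ∀ w, x (T * S) w = 0) (w : Om) :
    x S (S • w) = - x S w := by
  have h1 := hx S S w
  rw [S_mul_S, coc_neg_one hx hR] at h1
  linear_combination -h1

theorem coc_T_pow (hx : IsCoc x) (hR : ∀ w, x (T * S) w = 0) (n : Om → R)
    (hn : ∀ w, n (T • w) - n w = x S w) (e : ℕ) (w : Om) :
    x (T ^ e) w = n (T ^ e • w) - n w := by
  induction e with
  | zero => simp [hx.one]
  | succ e ih => rw [pow_succ', hx, ih, coc_T hx hR, ← hn, mul_smul]; ring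

end Single

section Form

variable {Γ : Subgroup SL(2, ℤ)}

/-- `(x, n)` is a witness for the hom `X`: a cocycle on `SL(2,ℤ) ⧸ Γ` vanishing on `T * S`
and restricting to `X`, with a `T`-primitive `n` of `x S`. -/
structure Wit (X : Additive Γ →+ ℤ) (x : SL(2, ℤ) → SL(2, ℤ) ⧸ Γ → ℤ)
    (n : SL(2, ℤ) ⧸ Γ → ℤ) : Prop where
  coc : IsCoc x
  zero : ∀ w, x (T * S) w = 0
  res : ∀ γ : Γ, x (γ : SL(2, ℤ)) (x₀ Γ) = X (Additive.ofMul γ)
  prim : ∀ w, n (T • w) - n w = x S w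

/-- The antisymmetric form on `T`-primitives. -/
def form [Fintype (SL(2, ℤ) ⧸ Γ)] (n n' : SL(2, ℤ) ⧸ Γ → ℤ) : ℤ :=
  ∑ w, (n (T • w) * n' w - n w * n' (T • w))

/-- `b` is the value of the pairing of `X` and `Y`. -/
def IsForm [Fintype (SL(2, ℤ) ⧸ Γ)] (X Y : Additive Γ →+ ℤ) (b : ℤ) : Prop :=
  ∃ x n y n', Wit X x n ∧ Wit Y y n' ∧ b = form n n'

theorem form_antisymm [Fintype (SL(2, ℤ) ⧸ Γ)] (n n' : SL(2, ℤ) ⧸ Γ → ℤ) :
    form n' n = - form n n' := by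
  unfold form
  rw [← Finset.sum_neg_distrib]
  exact Finset.sum_congr rfl fun w _ => by ring

theorem form_add_left [Fintype (SL(2, ℤ) ⧸ Γ)] (n₁ n₂ n' : SL(2, ℤ) ⧸ Γ → ℤ) :
    form (n₁ + n₂) n' = form n₁ n' + form n₂ n' := by
  unfold form
  rw [← Finset.sum_add_distrib]
  exact Finset.sum_congr rfl fun w _ => by simp only [Pi.add_apply]; ring

/-- The form in terms of `a = x S`, `a' = y S` and `n`. -/
theorem form_eq [Fintype (SL(2, ℤ) ⧸ Γ)] {X Y : Additive Γ →+ ℤ}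
    {x y : SL(2, ℤ) → SL(2, ℤ) ⧸ Γ → ℤ} {n n' : SL(2, ℤ) ⧸ Γ → ℤ}
    (hX : Wit X x n) (hY : Wit Y y n') :
    form n n' = ∑ w, x S w * y S w - 2 * ∑ w, n (T • w) * y S w := by
  have h1 : ∑ w : SL(2, ℤ) ⧸ Γ, n (T • w) * n' (T • w) = ∑ w, n w * n' w :=
    sum_smul_eq T fun w => n w * n' w
  have h3 : ∑ w : SL(2, ℤ) ⧸ Γ, (n w * n' w - n (T • w) * n' (T • w)) = 0 := by
    rw [Finset.sum_sub_distrib, h1, sub_self]
  have h4 : ∑ w, x S w * y S w - 2 * ∑ w, n (T • w) * y S w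
      = ∑ w, ((n (T • w) * n' w - n w * n' (T • w))
        + (n w * n' w - n (T • w) * n' (T • w))) := by
    rw [Finset.mul_sum, ← Finset.sum_sub_distrib]
    refine Finset.sum_congr rfl fun w _ => ?_
    rw [← hX.prim, ← hY.prim]; ring
  unfold form
  rw [h4, Finset.sum_add_distrib, h3, add_zero]

theorem Wit.add {X X' : Additive Γ →+ ℤ} {x x' : SL(2, ℤ) → SL(2, ℤ) ⧸ Γ → ℤ}
    {n n' : SL(2, ℤ) ⧸ Γ → ℤ} (h : Wit X x n) (h' : Wit X' x' n') :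
    Wit (X + X') (fun g w => x g w + x' g w) (n + n') where
  coc := fun g k w => by
    show x (g * k) w + x' (g * k) w = x g (k • w) + x' g (k • w) + (x k w + x' k w)
    rw [h.coc, h'.coc]; ring
  zero := fun w => by
    show x (T * S) w + x' (T * S) w = 0
    rw [h.zero, h'.zero]; ring
  res := fun γ => by
    show x (γ : SL(2, ℤ)) (x₀ Γ) + x' (γ : SL(2, ℤ)) (x₀ Γ) = _
    rw [h.res, h'.res]; rfl
  prim := fun w => by
    show (n (T • w) + n' (T • w)) - (n w + n' w) = x S w + x' S w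
    rw [← h.prim, ← h'.prim]; ring

/-- A cocycle at a stabiliser element is its restriction to `Γ` at the Schreier element. -/
theorem coc_kk {R : Type*} [CommRing R] {x : SL(2, ℤ) → SL(2, ℤ) ⧸ Γ → R} (hx : IsCoc x)
    (g : SL(2, ℤ)) (w : SL(2, ℤ) ⧸ Γ) (hw : g • w = w) :
    x ((kk g w : Γ) : SL(2, ℤ)) (x₀ Γ) = x g w := by
  rw [coe_kk_of_fixed g w hw]
  have h1 := hx.conj (sec w) g (x₀ Γ) (by rw [sec_smul_x₀, hw])
  rw [h1, sec_smul_x₀]

theorem trace_kk_T_pow (e : ℕ) (w : SL(2, ℤ) ⧸ Γ) (hw : T ^ e • w = w) :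
    (((kk (T ^ e) w : Γ) : SL(2, ℤ)) : Matrix (Fin 2) (Fin 2) ℤ).trace = 2 := by
  rw [coe_kk_of_fixed _ w hw, Matrix.SpecialLinearGroup.coe_mul, Matrix.trace_mul_comm,
    ← Matrix.SpecialLinearGroup.coe_mul, mul_inv_cancel_left, ← zpow_natCast,
    ModularGroup.coe_T_zpow, Matrix.trace_fin_two]
  simp

/-- A uniform period of `T` on a finite `SL(2,ℤ)`-set. -/
theorem exists_period (Om : Type*) [MulAction SL(2, ℤ) Om] [Finite Om] :
    ∃ E : ℕ, 0 < E ∧ ∀ w : Om, T ^ E • w = w := by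
  refine ⟨orderOf (MulAction.toPermHom SL(2, ℤ) Om T), orderOf_pos _, fun w => ?_⟩
  have h := pow_orderOf_eq_one (MulAction.toPermHom SL(2, ℤ) Om T)
  rw [← map_pow] at h
  have h2 := congrArg (fun σ : Equiv.Perm Om => σ w) h
  exact h2

/-- **Existence of witnesses** for parabolic integral homs. -/
theorem exists_wit [Finite (SL(2, ℤ) ⧸ Γ)] (hneg : (-1 : SL(2, ℤ)) ∈ Γ) (X : Additive Γ →+ ℤ)
    (hX : IsParabolicHom Γ X) : ∃ x n, Wit X x n := by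
  have h12 : ∀ γ : Γ, γ ^ 12 = 1 → X (Additive.ofMul γ) = 0 := by
    intro γ hγ
    have h1 : (12 : ℕ) • X (Additive.ofMul γ) = 0 := by
      rw [← map_nsmul, ← ofMul_pow, hγ, ofMul_one, map_zero]
    simpa using h1
  obtain ⟨x, m, hx, hxR, hxS, hxX⟩ := exists_coc hneg X h12
  have h0 : ∀ (w : SL(2, ℤ) ⧸ Γ) (k : ℕ), T ^ k • w = w →
      ∑ l ∈ Finset.range k, x S (T ^ l • w) = 0 := by
    intro w k hw
    have h1 : x (T ^ k) w = ∑ l ∈ Finset.range k, x S (T ^ l • w) := by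
      rw [hx.pow]
      exact Finset.sum_congr rfl fun i _ => coc_T hx hxR _
    rw [← h1, hxX _ _ hw]
    apply hX
    rw [trace_kk_T_pow k w hw]
    norm_num
  obtain ⟨n, hn⟩ := exists_primitive (T : SL(2, ℤ)) (x S) h0
  exact ⟨x, n, hx, hxR, fun γ => by rw [hxX _ _ (smul_x₀ γ), map_kk_x₀], hn⟩

end Form

section Link

variable {Γ : Subgroup SL(2, ℤ)} [Fintype (SL(2, ℤ) ⧸ Γ)]

/-- From two witnesses: a primitive `F` of `X ∪ Y` on `Γ` satisfying Theorem I. -/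
theorem exists_prim_of_wit (hneg : (-1 : SL(2, ℤ)) ∈ Γ) {X Y : Additive Γ →+ ℤ}
    {x y : SL(2, ℤ) → SL(2, ℤ) ⧸ Γ → ℤ} {n n' : SL(2, ℤ) ⧸ Γ → ℤ}
    (hX : Wit X x n) (hY : Wit Y y n') :
    ∃ F : Γ → ℤ, (∀ γ δ : Γ, F (γ * δ) = F γ + F δ
        + X (Additive.ofMul γ) * Y (Additive.ofMul δ)) ∧
      ∀ E : ℕ, (∀ w : SL(2, ℤ) ⧸ Γ, T ^ E • w = w) →
        2 * ∑ w, F (kk (T ^ E) w) = (E : ℤ) * form n n' := by
  have hnegx := neg_one_smul' hneg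
  have hSS : ∀ w : SL(2, ℤ) ⧸ Γ, S • S • w = w := fun w => by
    rw [← mul_smul, S_mul_S]; exact hnegx w
  have hxSS := coc_S_S hX.coc hX.zero
  have hySS := coc_S_S hY.coc hY.zero
  have hfix : ∀ w, S • w = w → x S w = 0 := by
    intro w hw
    have h1 := hxSS w
    rw [hw] at h1
    omega
  obtain ⟨z, hz⟩ := exists_half (fun w : SL(2, ℤ) ⧸ Γ => S • w) hSS (fun w => x S w * y S w)
    (fun w => by
      show x S (S • w) * y S (S • w) = x S w * y S w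
      rw [hxSS, hySS]; ring)
    (fun w hw => by
      show x S w * y S w = 0
      rw [hfix w hw, zero_mul])
  obtain ⟨x1, y1, f, hN, hx1, hy1, -⟩ := exists_normalized_of hnegx (x S) (y S) z hxSS hySS hz
  have hxx : ∀ g w, x1 g w = x g w :=
    fun g => hN.hx.ext_gen hX.coc hx1 (fun w => by rw [hN.xR, hX.zero]) g
  have hyy : ∀ g w, y1 g w = y g w :=
    fun g => hN.hy.ext_gen hY.coc hy1 (fun w => by rw [hN.yR, hY.zero]) g
  refine ⟨fun γ => f (γ : SL(2, ℤ)) (x₀ Γ), ?_, ?_⟩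
  · intro γ δ
    show f ((γ * δ : Γ) : SL(2, ℤ)) (x₀ Γ) = _
    rw [Subgroup.coe_mul, hN.hf, smul_x₀, hxx, hyy, hX.res, hY.res]
  · intro E hE
    have hn1 : ∀ w, n (T • w) - n w = x1 S w := fun w => by rw [hx1, hX.prim]
    have hxE : ∀ w, x1 (T ^ E) w = 0 := fun w => by
      rw [hxx, coc_T_pow hX.coc hX.zero n hX.prim, hE, sub_self]
    have hyE : ∀ w, y1 (T ^ E) w = 0 := fun w => by
      rw [hyy, coc_T_pow hY.coc hY.zero n' hY.prim, hE, sub_self]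
    have h1 := hN.two_mul_sum_f_conj n hn1 E hE hxE hyE (x₀ Γ) sec sec_smul_x₀
    have h2 : ∑ w, f ((kk (T ^ E) w : Γ) : SL(2, ℤ)) (x₀ Γ)
        = ∑ w, f ((sec w)⁻¹ * T ^ E * sec w) (x₀ Γ) :=
      Finset.sum_congr rfl fun w _ => by rw [coe_kk_of_fixed _ w (hE w)]
    rw [form_eq hX hY, h2, h1]
    simp only [hx1, hy1]

/-- **Theorem I in the formula model**: for EVERY primitive `F` of `X ∪ Y` and every uniform
exponent `E`, twice the sum of `F` over the parabolic elements `kk (T ^ E) w` is `E` times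
the form. -/
theorem link (hneg : (-1 : SL(2, ℤ)) ∈ Γ) {X Y : Additive Γ →+ ℤ}
    {x y : SL(2, ℤ) → SL(2, ℤ) ⧸ Γ → ℤ} {n n' : SL(2, ℤ) ⧸ Γ → ℤ}
    (hX : Wit X x n) (hY : Wit Y y n') (F : Γ → ℤ)
    (hF : ∀ γ δ : Γ, F (γ * δ) = F γ + F δ + X (Additive.ofMul γ) * Y (Additive.ofMul δ))
    (E : ℕ) (hE : ∀ w : SL(2, ℤ) ⧸ Γ, T ^ E • w = w) :
    2 * ∑ w, F (kk (T ^ E) w) = (E : ℤ) * form n n' := by
  obtain ⟨F0, hF0, hI⟩ := exists_prim_of_wit hneg hX hY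
  let h : Additive Γ →+ ℤ := AddMonoidHom.mk'
    (fun a => F (Additive.toMul a) - F0 (Additive.toMul a)) (fun a b => by
      show F (Additive.toMul a * Additive.toMul b) - F0 (Additive.toMul a * Additive.toMul b) = _
      rw [hF, hF0]; ring)
  have h0 := sum_kk_eq_zero h (fun r hr => by omega) (T ^ E)
  have h1 : ∑ w, F (kk (T ^ E) w) = ∑ w, F0 (kk (T ^ E) w) := by
    have h2 : ∑ w : SL(2, ℤ) ⧸ Γ, (F (kk (T ^ E) w) - F0 (kk (T ^ E) w)) = 0 := h0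
    rw [Finset.sum_sub_distrib] at h2
    linarith
  rw [h1, hI E hE]

theorem IsForm.unique (hneg : (-1 : SL(2, ℤ)) ∈ Γ) {X Y : Additive Γ →+ ℤ} {b b' : ℤ}
    (h : IsForm X Y b) (h' : IsForm X Y b') : b = b' := by
  obtain ⟨x, n, y, n', hX, hY, rfl⟩ := h
  obtain ⟨x', m, y', m', hX', hY', rfl⟩ := h'
  obtain ⟨E, hEpos, hE⟩ := exists_period (SL(2, ℤ) ⧸ Γ)
  obtain ⟨F0, hF0, hI⟩ := exists_prim_of_wit hneg hX hY
  have h1 := hI E hE
  have h2 := link hneg hX' hY' F0 hF0 E hE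
  have h3 : (E : ℤ) * form n n' = (E : ℤ) * form m m' := by rw [← h1, ← h2]
  exact mul_left_cancel₀ (by exact_mod_cast hEpos.ne') h3

theorem IsForm.antisymm {X Y : Additive Γ →+ ℤ} {b : ℤ} (h : IsForm X Y b) :
    IsForm Y X (-b) := by
  obtain ⟨x, n, y, n', hX, hY, rfl⟩ := h
  exact ⟨y, n', x, n, hY, hX, (form_antisymm n n').symm⟩

theorem IsForm.add_left (hneg : (-1 : SL(2, ℤ)) ∈ Γ) {X X' Y : Additive Γ →+ ℤ} {b b' : ℤ}
    (h : IsForm X Y b) (h' : IsForm X' Y b') : IsForm (X + X') Y (b + b') := by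
  obtain ⟨x, n, y, n', hX, hY, rfl⟩ := h
  obtain ⟨x', m, y', m', hX', hY', rfl⟩ := h'
  have h1 : form m m' = form m n' :=
    IsForm.unique hneg ⟨x', m, y', m', hX', hY', rfl⟩ ⟨x', m, y, n', hX', hY, rfl⟩
  exact ⟨_, _, y, n', hX.add hX', hY, by rw [h1, form_add_left]⟩

theorem IsForm.add_right (hneg : (-1 : SL(2, ℤ)) ∈ Γ) {X Y Y' : Additive Γ →+ ℤ} {b b' : ℤ}
    (h : IsForm X Y b) (h' : IsForm X Y' b') : IsForm X (Y + Y') (b + b') := by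
  have h1 := (IsForm.add_left hneg h.antisymm h'.antisymm).antisymm
  have h2 : -(-b + -b') = b + b' := by ring
  rwa [h2] at h1

theorem exists_isForm (hneg : (-1 : SL(2, ℤ)) ∈ Γ) (X Y : Additive Γ →+ ℤ)
    (hX : IsParabolicHom Γ X) (hY : IsParabolicHom Γ Y) : ∃ b, IsForm X Y b := by
  obtain ⟨x, n, hx⟩ := exists_wit hneg X hX
  obtain ⟨y, n', hy⟩ := exists_wit hneg Y hY
  exact ⟨_, x, n, y, n', hx, hy, rfl⟩

end Link

section Adj

variable {Γ' Γ : Subgroup SL(2, ℤ)} [Fintype (SL(2, ℤ) ⧸ Γ)] [Fintype (SL(2, ℤ) ⧸ Γ')]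
  [DecidableEq (SL(2, ℤ) ⧸ Γ)]

omit [Fintype (SL(2, ℤ) ⧸ Γ)] in
/-- Reindexing a fibre sum by a group element. -/
theorem sum_fibre_smul (hle : Γ' ≤ Γ) (g : SL(2, ℤ)) (w : SL(2, ℤ) ⧸ Γ)
    (φ : SL(2, ℤ) ⧸ Γ' → ℤ) :
    (∑ w', if prLE hle w' = g • w then φ w' else 0)
      = ∑ w', if prLE hle w' = w then φ (g • w') else 0 := by
  rw [← Fintype.sum_equiv (MulAction.toPerm g) (fun w' => if prLE hle w' = w then φ (g • w') else 0)
    (fun w' => if prLE hle w' = g • w then φ w' else 0)]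
  intro w'
  show (if prLE hle w' = w then φ (g • w') else 0)
    = if prLE hle (g • w') = g • w then φ (g • w') else 0
  rw [prLE_smul]
  by_cases hw : prLE hle w' = w
  · rw [if_pos hw, if_pos (by rw [hw])]
  · rw [if_neg hw, if_neg (fun hh => hw (smul_left_cancel g hh))]

omit [Fintype (SL(2, ℤ) ⧸ Γ)] [Fintype (SL(2, ℤ) ⧸ Γ')] [DecidableEq (SL(2, ℤ) ⧸ Γ)] in
theorem Wit.pull (hle : Γ' ≤ Γ) {X : Additive Γ →+ ℤ} {X' : Additive Γ' →+ ℤ}
    (hres : ∀ γ : Γ', X' (Additive.ofMul γ) = X (Additive.ofMul ⟨γ, hle γ.2⟩))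
    {x : SL(2, ℤ) → SL(2, ℤ) ⧸ Γ → ℤ} {n : SL(2, ℤ) ⧸ Γ → ℤ} (h : Wit X x n) :
    Wit X' (pull (prLE hle) x) (n ∘ prLE hle) where
  coc := isCoc_pull _ (prLE_smul hle) h.coc
  zero := pull_eq_zero _ _ h.zero
  res := fun γ => by
    rw [pull_x₀, hres]
    exact h.res ⟨γ, hle γ.2⟩
  prim := pull_primitive _ (prLE_smul hle) x n h.prim

omit [Fintype (SL(2, ℤ) ⧸ Γ)] in
theorem Wit.push (hle : Γ' ≤ Γ) {Y' : Additive Γ' →+ ℤ} {Z : Additive Γ →+ ℤ}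
    {I : Type*} [Fintype I] (t : I → SL(2, ℤ)) (ht : ∀ i, t i ∈ Γ)
    (hsurj : ∀ g ∈ Γ, ∃ j, ∃ h ∈ Γ', g = h * t j)
    (hinj : ∀ j j', t j * (t j')⁻¹ ∈ Γ' → j = j')
    (hZ : ∀ γ : Γ, ∃ (σ : Equiv.Perm I) (c : I → Γ'),
      (∀ i, t i * (γ : SL(2, ℤ)) = (c i : SL(2, ℤ)) * t (σ i)) ∧
      Z (Additive.ofMul γ) = ∑ i, Y' (Additive.ofMul (c i)))
    {y' : SL(2, ℤ) → SL(2, ℤ) ⧸ Γ' → ℤ} {n' : SL(2, ℤ) ⧸ Γ' → ℤ} (h : Wit Y' y' n') :
    Wit Z (push (prLE hle) y') (fun w => ∑ w', if prLE hle w' = w then n' w' else 0) where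
  coc := isCoc_push _ (prLE_smul hle) h.coc
  zero := push_eq_zero _ _ h.zero
  res := fun γ => by
    obtain ⟨σ, c, hrel, hZγ⟩ := hZ γ
    rw [push_eq_cores hle t ht hsurj hinj y' h.coc γ σ (fun i => (c i : SL(2, ℤ)))
      (fun i => (c i).2) hrel, hZγ]
    exact Finset.sum_congr rfl fun i _ => h.res (c i)
  prim := fun w => by
    show (∑ w', if prLE hle w' = T • w then n' w' else 0)
        - (∑ w', if prLE hle w' = w then n' w' else 0)
      = ∑ w', if prLE hle w' = w then y' S w' else 0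
    rw [sum_fibre_smul hle T w n', ← Finset.sum_sub_distrib]
    refine Finset.sum_congr rfl fun w' _ => ?_
    by_cases hw : prLE hle w' = w
    · rw [if_pos hw, if_pos hw, if_pos hw, h.prim]
    · rw [if_neg hw, if_neg hw, if_neg hw, sub_zero]

theorem form_push (hle : Γ' ≤ Γ) (n : SL(2, ℤ) ⧸ Γ → ℤ) (n' : SL(2, ℤ) ⧸ Γ' → ℤ) :
    form n (fun w => ∑ w', if prLE hle w' = w then n' w' else 0) = form (n ∘ prLE hle) n' := by
  unfold form
  rw [Finset.sum_sub_distrib, Finset.sum_sub_distrib]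
  congr 1
  · rw [sum_mul_push (prLE hle) (fun w => n (T • w)) n']
    exact Finset.sum_congr rfl fun w' _ => by
      show n (T • prLE hle w') * n' w' = n (prLE hle (T • w')) * n' w'
      rw [prLE_smul]
  · simp_rw [sum_fibre_smul hle T _ n']
    rw [sum_mul_push (prLE hle) n (fun w' => n' (T • w'))]
    rfl

/-- **(B1, first half) in the formula model**: adjointness of restriction and transfer. -/
theorem IsForm.adj (hneg : (-1 : SL(2, ℤ)) ∈ Γ) (hneg' : (-1 : SL(2, ℤ)) ∈ Γ') (hle : Γ' ≤ Γ)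
    {X : Additive Γ →+ ℤ} (hXpar : IsParabolicHom Γ X) {X' : Additive Γ' →+ ℤ}
    (hres : ∀ γ : Γ', X' (Additive.ofMul γ) = X (Additive.ofMul ⟨γ, hle γ.2⟩))
    {Y' : Additive Γ' →+ ℤ} {Z : Additive Γ →+ ℤ}
    {I : Type*} [Fintype I] (t : I → SL(2, ℤ)) (ht : ∀ i, t i ∈ Γ)
    (hsurj : ∀ g ∈ Γ, ∃ j, ∃ h ∈ Γ', g = h * t j)
    (hinj : ∀ j j', t j * (t j')⁻¹ ∈ Γ' → j = j')
    (hZ : ∀ γ : Γ, ∃ (σ : Equiv.Perm I) (c : I → Γ'),
      (∀ i, t i * (γ : SL(2, ℤ)) = (c i : SL(2, ℤ)) * t (σ i)) ∧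
      Z (Additive.ofMul γ) = ∑ i, Y' (Additive.ofMul (c i)))
    {b : ℤ} (h : IsForm X' Y' b) : IsForm X Z b := by
  obtain ⟨x, n, hX⟩ := exists_wit hneg X hXpar
  obtain ⟨x'', n'', y', n', hX'', hY', rfl⟩ := h
  have h1 : form n'' n' = form (n ∘ prLE hle) n' :=
    IsForm.unique hneg' ⟨x'', n'', y', n', hX'', hY', rfl⟩
      ⟨_, _, y', n', hX.pull hle hres, hY', rfl⟩
  exact ⟨x, n, _, _, hX, hY'.push hle t ht hsurj hinj hZ, by rw [h1, form_push]⟩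

end Adj

section Bval

open Fermat.Agent.S41_DU

variable {Γ : Subgroup SL(2, ℤ)}

theorem wit_of_isDat {X : Additive Γ →+ ℤ} {x : SL(2, ℤ) → SL(2, ℤ) ⧸ Γ → ℤ}
    {n : SL(2, ℤ) ⧸ Γ → ℤ} (h : IsDat X x n) : Wit X x n := ⟨h.coc, h.xR, h.res, h.prim⟩

theorem isDat_of_wit {X : Additive Γ →+ ℤ} {x : SL(2, ℤ) → SL(2, ℤ) ⧸ Γ → ℤ}
    {n : SL(2, ℤ) ⧸ Γ → ℤ} (h : Wit X x n) : IsDat X x n := ⟨h.coc, h.zero, h.res, h.prim⟩

variable [Fintype (SL(2, ℤ) ⧸ Γ)]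

theorem Phi_eq_form {X Y : Additive Γ →+ ℤ} {x y : SL(2, ℤ) → SL(2, ℤ) ⧸ Γ → ℤ}
    {n n' : SL(2, ℤ) ⧸ Γ → ℤ} (hX : Wit X x n) (hY : Wit Y y n') :
    Phi n (y S) = form n n' := by
  rw [form_eq hX hY]
  unfold Phi
  rw [Finset.mul_sum, ← Finset.sum_sub_distrib, ← Finset.sum_neg_distrib]
  exact Finset.sum_congr rfl fun w _ => by rw [← hX.prim]; ring

theorem bval_eq_form (hneg : (-1 : SL(2, ℤ)) ∈ Γ) {X Y : Additive Γ →+ ℤ}
    {x y : SL(2, ℤ) → SL(2, ℤ) ⧸ Γ → ℤ} {n n' : SL(2, ℤ) ⧸ Γ → ℤ}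
    (hX : Wit X x n) (hY : Wit Y y n') : bval X Y = form n n' := by
  rw [bval_eq hneg (isDat_of_wit hX) (isDat_of_wit hY), Phi_eq_form hX hY]

theorem bval_eq_of_isForm (hneg : (-1 : SL(2, ℤ)) ∈ Γ) {X Y : Additive Γ →+ ℤ} {b : ℤ}
    (h : IsForm X Y b) : bval X Y = b := by
  obtain ⟨x, n, y, n', hx, hy, rfl⟩ := h
  exact bval_eq_form hneg hx hy

theorem isForm_bval (hneg : (-1 : SL(2, ℤ)) ∈ Γ) {X Y : Additive Γ →+ ℤ}
    (hX : IsParabolicHom Γ X) (hY : IsParabolicHom Γ Y) : IsForm X Y (bval X Y) := by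
  obtain ⟨x, n, hx⟩ := exists_wit hneg X hX
  obtain ⟨y, n', hy⟩ := exists_wit hneg Y hY
  exact ⟨x, n, y, n', hx, hy, bval_eq_form hneg hx hy⟩

/-- **(B0)** additivity in the first variable. -/
theorem bval_add_left (hneg : (-1 : SL(2, ℤ)) ∈ Γ) {X X' Y : Additive Γ →+ ℤ}
    (hX : IsParabolicHom Γ X) (hX' : IsParabolicHom Γ X') (hY : IsParabolicHom Γ Y) :
    bval (X + X') Y = bval X Y + bval X' Y :=
  bval_eq_of_isForm hneg
    (IsForm.add_left hneg (isForm_bval hneg hX hY) (isForm_bval hneg hX' hY))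

/-- **(B0)** additivity in the second variable. -/
theorem bval_add_right (hneg : (-1 : SL(2, ℤ)) ∈ Γ) {X Y Y' : Additive Γ →+ ℤ}
    (hX : IsParabolicHom Γ X) (hY : IsParabolicHom Γ Y) (hY' : IsParabolicHom Γ Y') :
    bval X (Y + Y') = bval X Y + bval X Y' :=
  bval_eq_of_isForm hneg
    (IsForm.add_right hneg (isForm_bval hneg hX hY) (isForm_bval hneg hX hY'))

/-- **(B0)** antisymmetry. -/
theorem bval_antisymm (hneg : (-1 : SL(2, ℤ)) ∈ Γ) {X Y : Additive Γ →+ ℤ}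
    (hX : IsParabolicHom Γ X) (hY : IsParabolicHom Γ Y) : bval Y X = - bval X Y :=
  bval_eq_of_isForm hneg (isForm_bval hneg hX hY).antisymm

/-- **Theorem I for `bval`**: for every primitive `F` of `X ∪ Y` and every uniform exponent
`E` of `T` on `SL(2,ℤ) ⧸ Γ`, twice the sum of `F` over `kk (T ^ E) w` is `E * bval X Y`. -/
theorem bval_link (hneg : (-1 : SL(2, ℤ)) ∈ Γ) {X Y : Additive Γ →+ ℤ}
    (hX : IsParabolicHom Γ X) (hY : IsParabolicHom Γ Y) (F : Γ → ℤ)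
    (hF : ∀ γ δ : Γ, F (γ * δ) = F γ + F δ + X (Additive.ofMul γ) * Y (Additive.ofMul δ))
    (E : ℕ) (hE : ∀ w : SL(2, ℤ) ⧸ Γ, T ^ E • w = w) :
    2 * ∑ w, F (kk (T ^ E) w) = (E : ℤ) * bval X Y := by
  obtain ⟨x, n, hx⟩ := exists_wit hneg X hX
  obtain ⟨y, n', hy⟩ := exists_wit hneg Y hY
  rw [bval_eq_form hneg hx hy]
  exact link hneg hx hy F hF E hE

/-- **(B1, first half), abstract form.**  `Γ' ≤ Γ`, `X'` the restriction of the parabolic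
hom `X` to `Γ'`, `Z` the transfer of the parabolic hom `Y'` (for SOME right coset
representatives `t` and SOME coset data for each `γ`): `bval X' Y' = bval X Z`. -/
theorem bval_adj {Γ' : Subgroup SL(2, ℤ)} [Fintype (SL(2, ℤ) ⧸ Γ')]
    (hneg : (-1 : SL(2, ℤ)) ∈ Γ) (hneg' : (-1 : SL(2, ℤ)) ∈ Γ') (hle : Γ' ≤ Γ)
    {X : Additive Γ →+ ℤ} (hXpar : IsParabolicHom Γ X) {X' : Additive Γ' →+ ℤ}
    (hres : ∀ γ : Γ', X' (Additive.ofMul γ) = X (Additive.ofMul ⟨γ, hle γ.2⟩))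
    {Y' : Additive Γ' →+ ℤ} (hY'par : IsParabolicHom Γ' Y') {Z : Additive Γ →+ ℤ}
    {I : Type*} [Fintype I] (t : I → SL(2, ℤ)) (ht : ∀ i, t i ∈ Γ)
    (hsurj : ∀ g ∈ Γ, ∃ j, ∃ h ∈ Γ', g = h * t j)
    (hinj : ∀ j j', t j * (t j')⁻¹ ∈ Γ' → j = j')
    (hZ : ∀ γ : Γ, ∃ (σ : Equiv.Perm I) (c : I → Γ'),
      (∀ i, t i * (γ : SL(2, ℤ)) = (c i : SL(2, ℤ)) * t (σ i)) ∧
      Z (Additive.ofMul γ) = ∑ i, Y' (Additive.ofMul (c i))) :
    bval X' Y' = bval X Z := by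
  classical
  have hX'par : IsParabolicHom Γ' X' := by
    intro γ hγ
    rw [hres]
    exact hXpar ⟨γ, hle γ.2⟩ hγ
  have h := IsForm.adj hneg hneg' hle hXpar hres t ht hsurj hinj hZ
    (isForm_bval hneg' hX'par hY'par)
  exact (bval_eq_of_isForm hneg h).symm

end Bval

end Fermat.Agent.S41_DUForm
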