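/-
S41, block DU-D7/D4 (helper7): matrix lemmas on parabolic elements of `SL(2,ℤ)`.
-/
import Fermat.Agent.S41_DUDefs

set_option autoImplicit false

namespace Fermat.Agent.S41_DU

open Matrix MatrixGroups ModularGroup

/-- the sign inequality behind positivity of parabolics under `GL₂⁺(ℚ)`-conjugation. -/
theorem sign_lemma (p q x y w : ℤ) (hy : 0 ≤ y) (hw : 0 ≤ w) (hx : x ^ 2 = y * w) :
    0 ≤ p ^ 2 * y - 2 * p * q * x + q ^ 2 * w := by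
  rcases hy.eq_or_lt with h0 | hpos
  · have hx0 : x = 0 := by
      have : x ^ 2 = 0 := by rw [hx, ← h0, zero_mul]
      exact pow_eq_zero_iff (two_ne_zero) |>.mp this
    rw [← h0, hx0]
    nlinarith [sq_nonneg q]
  · have h1 : y * (p ^ 2 * y - 2 * p * q * x + q ^ 2 * w) = (p * y - q * x) ^ 2 := by
      have : q ^ 2 * (y * w) = q ^ 2 * x ^ 2 := by rw [hx]
      nlinarith [this]
    have h2 : 0 ≤ y * (p ^ 2 * y - 2 * p * q * x + q ^ 2 * w) := by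
      rw [h1]; exact sq_nonneg _
    by_contra hneg
    have hneg' := not_le.mp hneg
    have := mul_neg_of_pos_of_neg hpos hneg'
    linarith

/-- entries of a product of `2 × 2` integer matrices. -/
theorem mul_entries (A B : Matrix (Fin 2) (Fin 2) ℤ) :
    (A * B) 0 0 = A 0 0 * B 0 0 + A 0 1 * B 1 0 ∧ (A * B) 0 1 = A 0 0 * B 0 1 + A 0 1 * B 1 1 ∧
    (A * B) 1 0 = A 1 0 * B 0 0 + A 1 1 * B 1 0 ∧ (A * B) 1 1 = A 1 0 * B 0 1 + A 1 1 * B 1 1 := by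
  simp [Matrix.mul_apply, Fin.sum_univ_two]

theorem trace_two (A : Matrix (Fin 2) (Fin 2) ℤ) : A.trace = A 0 0 + A 1 1 := by
  simp [Matrix.trace, Fin.sum_univ_two]

theorem det_two (A : Matrix (Fin 2) (Fin 2) ℤ) : A.det = A 0 0 * A 1 1 - A 0 1 * A 1 0 :=
  Matrix.det_fin_two A

theorem sl_det (g : SL(2, ℤ)) : g 0 0 * g 1 1 - g 0 1 * g 1 0 = 1 := by
  have := g.det_coe
  rw [Matrix.det_fin_two] at this
  exact this

/-- the four entry equations of an intertwining relation `A * γ = γ' * A`. -/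
theorem intertwine_entries (A : Matrix (Fin 2) (Fin 2) ℤ) (γ γ' : SL(2, ℤ))
    (h : A * (γ : Matrix (Fin 2) (Fin 2) ℤ) = (γ' : Matrix (Fin 2) (Fin 2) ℤ) * A) :
    A 0 0 * γ 0 0 + A 0 1 * γ 1 0 = γ' 0 0 * A 0 0 + γ' 0 1 * A 1 0 ∧
    A 0 0 * γ 0 1 + A 0 1 * γ 1 1 = γ' 0 0 * A 0 1 + γ' 0 1 * A 1 1 ∧
    A 1 0 * γ 0 0 + A 1 1 * γ 1 0 = γ' 1 0 * A 0 0 + γ' 1 1 * A 1 0 ∧
    A 1 0 * γ 0 1 + A 1 1 * γ 1 1 = γ' 1 0 * A 0 1 + γ' 1 1 * A 1 1 := by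
  have e := mul_entries A (γ : Matrix (Fin 2) (Fin 2) ℤ)
  have e' := mul_entries (γ' : Matrix (Fin 2) (Fin 2) ℤ) A
  rw [h] at e
  exact ⟨e.1.symm.trans e'.1, e.2.1.symm.trans e'.2.1, e.2.2.1.symm.trans e'.2.2.1,
    e.2.2.2.symm.trans e'.2.2.2⟩

theorem trace_eq_of_intertwine (A : Matrix (Fin 2) (Fin 2) ℤ) (hA : A.det ≠ 0) (γ γ' : SL(2, ℤ))
    (h : A * (γ : Matrix (Fin 2) (Fin 2) ℤ) = (γ' : Matrix (Fin 2) (Fin 2) ℤ) * A) :
    (γ : Matrix (Fin 2) (Fin 2) ℤ).trace = (γ' : Matrix (Fin 2) (Fin 2) ℤ).trace := by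
  obtain ⟨e1, e2, e3, e4⟩ := intertwine_entries A γ γ' h
  rw [trace_two, trace_two]
  rw [det_two] at hA
  have : (A 0 0 * A 1 1 - A 0 1 * A 1 0) * (γ 0 0 + γ 1 1 - (γ' 0 0 + γ' 1 1)) = 0 := by
    linear_combination A 1 1 * e1 - A 1 0 * e2 - A 0 1 * e3 + A 0 0 * e4
  have := (mul_eq_zero.mp this).resolve_left hA
  linarith

/-- positivity of the off-diagonal entries is preserved. -/
theorem sign_of_intertwine (A : Matrix (Fin 2) (Fin 2) ℤ) (hA : 0 < A.det) (γ γ' : SL(2, ℤ))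
    (h : A * (γ : Matrix (Fin 2) (Fin 2) ℤ) = (γ' : Matrix (Fin 2) (Fin 2) ℤ) * A)
    (htr : (γ : Matrix (Fin 2) (Fin 2) ℤ).trace = 2) (h01 : 0 ≤ γ 0 1) (h10 : γ 1 0 ≤ 0) :
    0 ≤ γ' 0 1 ∧ γ' 1 0 ≤ 0 := by
  obtain ⟨e1, e2, e3, e4⟩ := intertwine_entries A γ γ' h
  rw [trace_two] at htr
  rw [det_two] at hA
  have hd := sl_det γ
  have hxx : (γ 0 0 - 1) ^ 2 = γ 0 1 * (- γ 1 0) := by
    have h11 : γ 1 1 = 2 - γ 0 0 := by linarith
    rw [h11] at hd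
    linear_combination -hd
  have k1 : (A 0 0 * A 1 1 - A 0 1 * A 1 0) * γ' 0 1
      = (A 0 0) ^ 2 * γ 0 1 - 2 * A 0 0 * A 0 1 * (γ 0 0 - 1) + (A 0 1) ^ 2 * (- γ 1 0) := by
    linear_combination A 0 1 * e1 - A 0 0 * e2 + A 0 0 * A 0 1 * htr
  have k2 : (A 0 0 * A 1 1 - A 0 1 * A 1 0) * (- γ' 1 0)
      = (A 1 0) ^ 2 * γ 0 1 - 2 * A 1 0 * A 1 1 * (γ 0 0 - 1) + (A 1 1) ^ 2 * (- γ 1 0) := by
    linear_combination A 1 1 * e3 - A 1 0 * e4 + A 1 0 * A 1 1 * htr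
  have s1 := sign_lemma (A 0 0) (A 0 1) (γ 0 0 - 1) (γ 0 1) (- γ 1 0) h01 (by linarith) hxx
  have s2 := sign_lemma (A 1 0) (A 1 1) (γ 0 0 - 1) (γ 0 1) (- γ 1 0) h01 (by linarith) hxx
  rw [← k1] at s1
  rw [← k2] at s2
  constructor
  · by_contra hneg
    have hneg' : γ' 0 1 < 0 := not_le.mp hneg
    have := mul_neg_of_pos_of_neg hA hneg'
    linarith
  · by_contra hneg
    have hneg' : - γ' 1 0 < 0 := by
      have := not_le.mp hneg
      linarith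
    have := mul_neg_of_pos_of_neg hA hneg'
    linarith

/-- the adjugate intertwines in the other direction. -/
theorem intertwine_symm (A : Matrix (Fin 2) (Fin 2) ℤ) (hA : A.det ≠ 0) (γ γ' : SL(2, ℤ))
    (h : A * (γ : Matrix (Fin 2) (Fin 2) ℤ) = (γ' : Matrix (Fin 2) (Fin 2) ℤ) * A) :
    A.adjugate * (γ' : Matrix (Fin 2) (Fin 2) ℤ) = (γ : Matrix (Fin 2) (Fin 2) ℤ) * A.adjugate := by
  have h1 : A.det • (A.adjugate * (γ' : Matrix (Fin 2) (Fin 2) ℤ))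
      = A.det • ((γ : Matrix (Fin 2) (Fin 2) ℤ) * A.adjugate) := by
    calc A.det • (A.adjugate * (γ' : Matrix (Fin 2) (Fin 2) ℤ))
        = A.adjugate * (γ' : Matrix (Fin 2) (Fin 2) ℤ) * (A * A.adjugate) := by
          rw [Matrix.mul_adjugate, Matrix.mul_smul, Matrix.mul_one]
      _ = A.adjugate * ((γ' : Matrix (Fin 2) (Fin 2) ℤ) * A) * A.adjugate := by
          simp only [Matrix.mul_assoc]
      _ = A.adjugate * (A * (γ : Matrix (Fin 2) (Fin 2) ℤ)) * A.adjugate := by rw [h]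
      _ = (A.adjugate * A) * (γ : Matrix (Fin 2) (Fin 2) ℤ) * A.adjugate := by
          simp only [Matrix.mul_assoc]
      _ = A.det • ((γ : Matrix (Fin 2) (Fin 2) ℤ) * A.adjugate) := by
          rw [Matrix.adjugate_mul, Matrix.smul_mul, Matrix.one_mul, Matrix.smul_mul]
  exact smul_right_injective _ hA h1

theorem det_adjugate_two (A : Matrix (Fin 2) (Fin 2) ℤ) : A.adjugate.det = A.det := by
  rw [Matrix.det_adjugate]; simp

/-- **Conjugation by a positive-determinant matrix preserves positive primitive parabolics.** -/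
theorem isPP_map {Γ Γ' : Subgroup SL(2, ℤ)} (t : Γ ≃* Γ') (A : Matrix (Fin 2) (Fin 2) ℤ)
    (hA : 0 < A.det)
    (hc : ∀ γ : Γ, A * ((γ : SL(2, ℤ)) : Matrix (Fin 2) (Fin 2) ℤ)
      = ((t γ : SL(2, ℤ)) : Matrix (Fin 2) (Fin 2) ℤ) * A)
    (γ : Γ) (h : IsPP Γ (γ : SL(2, ℤ))) : IsPP Γ' (t γ : SL(2, ℤ)) := by
  obtain ⟨-, htr, hne, h01, h10, hprim⟩ := h
  refine ⟨(t γ).2, ?_, ?_, ?_, ?_, ?_⟩
  · rw [← trace_eq_of_intertwine A hA.ne' _ _ (hc γ)]; exact htr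
  · intro h1
    apply hne
    have : t γ = 1 := Subtype.ext h1
    have : γ = 1 := by
      rw [← t.map_one] at this
      exact t.injective this
    rw [this]; rfl
  · exact (sign_of_intertwine A hA _ _ (hc γ) htr h01 h10).1
  · exact (sign_of_intertwine A hA _ _ (hc γ) htr h01 h10).2
  · intro ρ' hρ' htrρ' n hn hpow
    set ρ : Γ := t.symm ⟨ρ', hρ'⟩ with hρ
    have htρ : t ρ = ⟨ρ', hρ'⟩ := by rw [hρ, MulEquiv.apply_symm_apply]
    have hcρ := hc ρ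
    rw [htρ] at hcρ
    have htrρ : ((ρ : SL(2, ℤ)) : Matrix (Fin 2) (Fin 2) ℤ).trace = 2 := by
      rw [trace_eq_of_intertwine A hA.ne' _ _ hcρ]; exact htrρ'
    apply hprim (ρ : SL(2, ℤ)) ρ.2 htrρ n hn
    have h2 : t (ρ ^ n) = t γ := by
      rw [map_pow, htρ]
      exact Subtype.ext hpow
    have h3 := t.injective h2
    have := congrArg (fun z : Γ => (z : SL(2, ℤ))) h3
    simpa using this

/-- the converse direction. -/
theorem isPP_map_symm {Γ Γ' : Subgroup SL(2, ℤ)} (t : Γ ≃* Γ') (A : Matrix (Fin 2) (Fin 2) ℤ)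
    (hA : 0 < A.det)
    (hc : ∀ γ : Γ, A * ((γ : SL(2, ℤ)) : Matrix (Fin 2) (Fin 2) ℤ)
      = ((t γ : SL(2, ℤ)) : Matrix (Fin 2) (Fin 2) ℤ) * A)
    (γ : Γ) (h : IsPP Γ' (t γ : SL(2, ℤ))) : IsPP Γ (γ : SL(2, ℤ)) := by
  have hA' : 0 < A.adjugate.det := by rw [det_adjugate_two]; exact hA
  have hc' : ∀ γ' : Γ', A.adjugate * ((γ' : SL(2, ℤ)) : Matrix (Fin 2) (Fin 2) ℤ)
      = ((t.symm γ' : SL(2, ℤ)) : Matrix (Fin 2) (Fin 2) ℤ) * A.adjugate := by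
    intro γ'
    have := hc (t.symm γ')
    rw [MulEquiv.apply_symm_apply] at this
    exact intertwine_symm A hA.ne' _ _ this
  have := isPP_map t.symm A.adjugate hA' hc' (t γ) h
  rwa [MulEquiv.symm_apply_apply] at this

end Fermat.Agent.S41_DU
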