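import Fermat.Agent.S41_DUPair
import Fermat.Agent.S41_DUA
import Fermat.Agent.S41_DUB
import Fermat.Agent.S41_DUMat

/-!
# S41, block DU (helper7): the radical of the integral cusp pairing modulo an odd prime (B2)

* `exists_conj_T`      : an element of `SL(2,ℤ)` of trace `2` is a conjugate of a power of `T`.
* `homOfCoc`, `homOfCoc_parabolic` : a normalised cocycle with a `T`-primitive defines a
  parabolic hom.
* `bval_radical`       : if `p` is odd, `X` is parabolic and `p ∣ bval X Y` for every parabolic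
  `Y`, then `X = p • X'` with `X'` parabolic.
-/

set_option autoImplicit false

open scoped MatrixGroups
open ModularGroup

namespace Fermat.Agent.S41_DU

open Fermat.Agent.S16_Lift Fermat.Agent.S41_DUCoc Fermat.Agent.S41_DUDict ModularCurve.Period

/-! ### parabolic elements are conjugates of powers of `T` -/

theorem exists_fixed_vector (γ : SL(2, ℤ)) (h : (γ : Matrix (Fin 2) (Fin 2) ℤ).trace = 2) :
    ∃ p q : ℤ, IsCoprime p q ∧ γ 0 0 * p + γ 0 1 * q = p ∧ γ 1 0 * p + γ 1 1 * q = q := by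
  have htr : γ 0 0 + γ 1 1 = 2 := by rw [← h, trace_two]
  have hdet := sl_det γ
  have key : (1 - γ 0 0) ^ 2 = -(γ 0 1 * γ 1 0) := by linear_combination γ 0 0 * htr - hdet
  by_cases hb : γ 0 1 = 0
  · have h1 : (1 - γ 0 0) ^ 2 = 0 := by rw [key, hb]; ring
    have h2 : γ 0 0 = 1 := by
      have := (pow_eq_zero_iff (two_ne_zero)).mp h1
      linarith
    have h3 : γ 1 1 = 1 := by linarith
    exact ⟨0, 1, isCoprime_zero_left.mpr isUnit_one, by rw [hb]; ring, by rw [h3]; ring⟩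
  · have hpos : 0 < Int.gcd (γ 0 1) (1 - γ 0 0) := Int.gcd_pos_of_ne_zero_left _ hb
    obtain ⟨p, q, hpq, hp, hq⟩ := Int.exists_gcd_one hpos
    have hG0 : (Int.gcd (γ 0 1) (1 - γ 0 0) : ℤ) ≠ 0 := by exact_mod_cast hpos.ne'
    refine ⟨p, q, Int.isCoprime_iff_gcd_eq_one.mpr hpq, ?_, ?_⟩
    · have h1 : (Int.gcd (γ 0 1) (1 - γ 0 0) : ℤ) * (γ 0 0 * p + γ 0 1 * q - p) = 0 := by
        linear_combination (1 - γ 0 0) * hp - γ 0 1 * hq
      have := (mul_eq_zero.mp h1).resolve_left hG0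
      linarith
    · have h1 : (Int.gcd (γ 0 1) (1 - γ 0 0) : ℤ) * (γ 1 0 * p + γ 1 1 * q - q) = 0 := by
        linear_combination (-(γ 1 0)) * hp - (γ 1 1 - 1) * hq + key + (1 - γ 0 0) * htr
      have := (mul_eq_zero.mp h1).resolve_left hG0
      linarith

theorem exists_conj_T (γ : SL(2, ℤ)) (h : (γ : Matrix (Fin 2) (Fin 2) ℤ).trace = 2) :
    ∃ (g : SL(2, ℤ)) (e : ℤ), γ = g * T ^ e * g⁻¹ := by
  obtain ⟨p, q, hpq, h1, h2⟩ := exists_fixed_vector γ h
  obtain ⟨g, hg0, hg1⟩ := hpq.exists_SL2_col 0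
  have hdet := sl_det g
  set M : SL(2, ℤ) := g⁻¹ * γ * g with hM
  have hMc : (M : Matrix (Fin 2) (Fin 2) ℤ)
      = !![g 1 1, -g 0 1; -g 1 0, g 0 0] * (γ : Matrix (Fin 2) (Fin 2) ℤ)
        * (g : Matrix (Fin 2) (Fin 2) ℤ) := by
    rw [hM, Matrix.SpecialLinearGroup.coe_mul, Matrix.SpecialLinearGroup.coe_mul,
      Matrix.SpecialLinearGroup.coe_inv, Matrix.adjugate_fin_two]
  have e00 : M 0 0 = 1 := by
    have : (M : Matrix (Fin 2) (Fin 2) ℤ) 0 0 = 1 := by
      rw [hMc]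
      simp only [Matrix.mul_apply, Fin.sum_univ_two, Matrix.of_apply, Matrix.cons_val_zero,
        Matrix.cons_val_one, Matrix.cons_val', Matrix.cons_val_fin_one]
      rw [hg0, hg1] at *
      linear_combination g 1 1 * h1 - g 0 1 * h2 + hdet
    exact this
  have e10 : M 1 0 = 0 := by
    have : (M : Matrix (Fin 2) (Fin 2) ℤ) 1 0 = 0 := by
      rw [hMc]
      simp only [Matrix.mul_apply, Fin.sum_univ_two, Matrix.of_apply, Matrix.cons_val_zero,
        Matrix.cons_val_one, Matrix.cons_val', Matrix.cons_val_fin_one]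
      rw [hg0, hg1] at *
      linear_combination (-q) * h1 + p * h2
    exact this
  have e11 : M 1 1 = 1 := by
    have := sl_det M
    rw [e00, e10] at this
    linarith
  refine ⟨g, M 0 1, ?_⟩
  have hMT : M = T ^ (M 0 1) := by
    ext i j
    rw [ModularGroup.coe_T_zpow]
    fin_cases i <;> fin_cases j <;> simp [e00, e10, e11]
  rw [← hMT, hM]
  group

/-! ### normalised cocycles with a `T`-primitive -/

section Coc

variable {Om : Type*} [MulAction SL(2, ℤ) Om]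

theorem coc_T_pow_eq_zero {x : SL(2, ℤ) → Om → ℤ} (hx : IsCoc x) (hR : ∀ w, x (T * S) w = 0)
    (n : Om → ℤ) (hn : ∀ w, n (T • w) - n w = x S w) (k : ℕ) (w : Om) (hw : T ^ k • w = w) :
    x (T ^ k) w = 0 := by
  rw [x_T_pow (normalized_of_coc hx hR)]
  have e : ∀ i ∈ Finset.range k, x S (T ^ i • w) = n (T ^ (i + 1) • w) - n (T ^ i • w) := by
    intro i _
    rw [← hn, pow_succ', mul_smul]
  rw [Finset.sum_congr rfl e, Finset.sum_range_sub (fun i => n (T ^ i • w)) k, hw, pow_zero,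
    one_smul, sub_self]

theorem coc_T_zpow_eq_zero {x : SL(2, ℤ) → Om → ℤ} (hx : IsCoc x) (hR : ∀ w, x (T * S) w = 0)
    (n : Om → ℤ) (hn : ∀ w, n (T • w) - n w = x S w) (e : ℤ) (w : Om) (hw : T ^ e • w = w) :
    x (T ^ e) w = 0 := by
  obtain ⟨k, rfl | rfl⟩ := Int.eq_nat_or_neg e
  · rw [zpow_natCast] at hw ⊢
    exact coc_T_pow_eq_zero hx hR n hn k w hw
  · rw [zpow_neg, zpow_natCast] at hw ⊢
    have hw' : T ^ k • w = w := by
      rw [inv_smul_eq_iff] at hw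
      exact hw.symm
    rw [hx.inv, hw, coc_T_pow_eq_zero hx hR n hn k w hw', neg_zero]

/-- a normalised cocycle with a `T`-primitive vanishes at the fixed points of trace-2 elements. -/
theorem coc_parabolic {x : SL(2, ℤ) → Om → ℤ} (hx : IsCoc x) (hR : ∀ w, x (T * S) w = 0)
    (n : Om → ℤ) (hn : ∀ w, n (T • w) - n w = x S w) (ρ : SL(2, ℤ))
    (hρ : (ρ : Matrix (Fin 2) (Fin 2) ℤ).trace = 2) (w : Om) (hw : ρ • w = w) : x ρ w = 0 := by
  obtain ⟨g, e, rfl⟩ := exists_conj_T ρ hρ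
  have hfix : T ^ e • g⁻¹ • w = g⁻¹ • w := by
    have h1 := congrArg (fun v => g⁻¹ • v) hw
    simp only [mul_smul, inv_smul_smul] at h1
    exact h1
  have h2 := hx.conj g⁻¹ (T ^ e) w hfix
  rw [inv_inv] at h2
  rw [h2]
  exact coc_T_zpow_eq_zero hx hR n hn e _ hfix

end Coc

section Hom

variable {Γ : Subgroup SL(2, ℤ)}

/-- the hom attached to a cocycle on `SL(2,ℤ) ⧸ Γ` at the base point. -/
def homOfCoc {x : SL(2, ℤ) → SL(2, ℤ) ⧸ Γ → ℤ} (hx : IsCoc x) : Additive Γ →+ ℤ where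
  toFun γ := x ((Additive.toMul γ : Γ) : SL(2, ℤ)) (x₀ Γ)
  map_zero' := hx.one _
  map_add' a b := by
    show x (((Additive.toMul a * Additive.toMul b : Γ)) : SL(2, ℤ)) (x₀ Γ) = _
    rw [Subgroup.coe_mul, hx, smul_x₀]

theorem homOfCoc_apply {x : SL(2, ℤ) → SL(2, ℤ) ⧸ Γ → ℤ} (hx : IsCoc x) (γ : Γ) :
    homOfCoc hx (Additive.ofMul γ) = x (γ : SL(2, ℤ)) (x₀ Γ) := rfl

theorem isDat_homOfCoc {x : SL(2, ℤ) → SL(2, ℤ) ⧸ Γ → ℤ} (hx : IsCoc x)
    (hR : ∀ w, x (T * S) w = 0) (n : SL(2, ℤ) ⧸ Γ → ℤ) (hn : ∀ w, n (T • w) - n w = x S w) :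
    IsDat (homOfCoc hx) x n := ⟨hx, hR, fun _ => rfl, hn⟩

theorem homOfCoc_parabolic (hneg : (-1 : SL(2, ℤ)) ∈ Γ) {x : SL(2, ℤ) → SL(2, ℤ) ⧸ Γ → ℤ}
    (hx : IsCoc x) (hR : ∀ w, x (T * S) w = 0) (n : SL(2, ℤ) ⧸ Γ → ℤ)
    (hn : ∀ w, n (T • w) - n w = x S w) : IsParabolicHom Γ (homOfCoc hx) := by
  intro γ hγ
  show x (γ : SL(2, ℤ)) (x₀ Γ) = 0
  have h4 : (((γ : SL(2, ℤ)) : Matrix (Fin 2) (Fin 2) ℤ).trace - 2)
      * (((γ : SL(2, ℤ)) : Matrix (Fin 2) (Fin 2) ℤ).trace + 2) = 0 := by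
    linear_combination hγ
  rcases mul_eq_zero.mp h4 with h2 | h2
  · exact coc_parabolic hx hR n hn _ (by linarith) _ (smul_x₀ γ)
  · have htr : ((-1 * (γ : SL(2, ℤ)) : SL(2, ℤ)) : Matrix (Fin 2) (Fin 2) ℤ).trace = 2 := by
      rw [neg_one_mul, Matrix.SpecialLinearGroup.coe_neg, Matrix.trace_neg]
      linarith
    have hfix : (-1 * (γ : SL(2, ℤ))) • x₀ Γ = x₀ Γ := by
      rw [mul_smul, smul_x₀, neg_one_smul' hneg]
    have h5 := coc_parabolic hx hR n hn _ htr _ hfix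
    rw [hx, smul_x₀, (normalized_of_coc hx hR).x_neg_one, zero_add] at h5
    exact h5

/-- division of a hom by an integer dividing all its values. -/
theorem exists_hom_div (X : Additive Γ →+ ℤ) (p : ℤ)
    (h : ∀ γ : Additive Γ, p ∣ X γ) : ∃ X' : Additive Γ →+ ℤ, X = p • X' := by
  refine ⟨{ toFun := fun γ => X γ / p
            map_zero' := by simp
            map_add' := fun a b => by rw [map_add, Int.add_ediv_of_dvd_left (h a)] }, ?_⟩
  refine AddMonoidHom.ext fun γ => ?_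
  show X γ = p • (X γ / p)
  rw [smul_eq_mul, Int.mul_ediv_cancel' (h γ)]

end Hom

/-! ### the radical -/

section Rad

variable {Γ : Subgroup SL(2, ℤ)} [Fintype (SL(2, ℤ) ⧸ Γ)]

omit [Fintype (SL(2, ℤ) ⧸ Γ)] in
theorem smul_transitive [Finite (SL(2, ℤ) ⧸ Γ)] (hneg : (-1 : SL(2, ℤ)) ∈ Γ)
    (P : SL(2, ℤ) ⧸ Γ → Prop)
    (hPS : ∀ w, P w → P (S • w)) (hPT : ∀ w, P w → P (T • w)) (w0 : SL(2, ℤ) ⧸ Γ) (h0 : P w0)
    (w : SL(2, ℤ) ⧸ Γ) : P w := by
  classical
  have hSS := smul_S_S hneg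
  have QS : ∀ w, P w ↔ P (S • w) := fun w =>
    ⟨hPS w, fun h => by have := hPS _ h; rwa [hSS] at this⟩
  have hpow : ∀ (k : ℕ) w, P w → P (T ^ k • w) := by
    intro k
    induction k with
    | zero => intro w hw; rwa [pow_zero, one_smul]
    | succ k ih => intro w hw; rw [pow_succ', mul_smul]; exact hPT _ (ih w hw)
  have QT : ∀ w, P w ↔ P (T • w) := fun w => by
    refine ⟨hPT w, fun h => ?_⟩
    obtain ⟨k, hk0, hk⟩ := (isOfFinOrder_of_finite (MulAction.toPerm T :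
      Equiv.Perm (SL(2, ℤ) ⧸ Γ))).exists_pow_eq_one
    have hperm : ∀ (j : ℕ) (v : SL(2, ℤ) ⧸ Γ),
        ((MulAction.toPerm T : Equiv.Perm (SL(2, ℤ) ⧸ Γ)) ^ j) v = T ^ j • v := by
      intro j
      induction j with
      | zero => intro v; simp
      | succ j ih =>
        intro v
        rw [pow_succ', Equiv.Perm.mul_apply, ih, pow_succ', mul_smul]
        rfl
    have h1 : T ^ k • w = w := by
      rw [← hperm, hk]; rfl
    have h2 := hpow (k - 1) _ h
    rw [← mul_smul, ← pow_succ, Nat.sub_add_cancel hk0, h1] at h2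
    exact h2
  have hall : ∀ g : SL(2, ℤ), ∀ w, P w ↔ P (g • w) := by
    intro g
    have hg : g ∈ Subgroup.closure ({S, T} : Set SL(2, ℤ)) := by
      rw [SpecialLinearGroup.SL2Z_generators]; trivial
    induction hg using Subgroup.closure_induction with
    | mem z hz =>
      rcases hz with rfl | rfl
      · exact QS
      · exact QT
    | one => intro w; rw [one_smul]
    | mul a b _ _ ha hb => intro w; rw [mul_smul]; exact (hb w).trans (ha _)
    | inv a _ ha =>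
      intro w
      have := ha (a⁻¹ • w)
      rw [smul_inv_smul] at this
      exact this.symm
  obtain ⟨g, rfl⟩ := MulAction.exists_smul_eq SL(2, ℤ) w0 w
  exact (hall g w0).mp h0

/-- **(B2)**: the pairing is perfect modulo every odd prime. -/
theorem bval_radical (hneg : (-1 : SL(2, ℤ)) ∈ Γ) (p : ℕ) (hp : p.Prime) (hp2 : p ≠ 2)
    {X : Additive Γ →+ ℤ} (hX : IsParabolicHom Γ X)
    (h : ∀ Y : Additive Γ →+ ℤ, IsParabolicHom Γ Y → (p : ℤ) ∣ bval X Y) :
    ∃ X' : Additive Γ →+ ℤ, IsParabolicHom Γ X' ∧ X = (p : ℤ) • X' := by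
  classical
  have : Fact p.Prime := ⟨hp⟩
  obtain ⟨x, n, hD⟩ := exists_dat hneg hX
  have hnegx := neg_one_smul' hneg
  have hSS := smul_S_S hneg
  have h2 : (2 : ZMod p) ≠ 0 := by
    intro h0
    have h1 : ((2 : ℕ) : ZMod p) = 0 := by exact_mod_cast h0
    rw [ZMod.natCast_eq_zero_iff] at h1
    exact hp2 ((Nat.prime_dvd_prime_iff_eq hp Nat.prime_two).mp h1)
  set σS : Equiv.Perm (SL(2, ℤ) ⧸ Γ) := MulAction.toPerm S with hσS_def
  set σT : Equiv.Perm (SL(2, ℤ) ⧸ Γ) := MulAction.toPerm T with hσT_def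
  set σR : Equiv.Perm (SL(2, ℤ) ⧸ Γ) := MulAction.toPerm (T * S) with hσR_def
  have hσS : ∀ w, σS w = S • w := fun _ => rfl
  have hσT : ∀ w, σT w = T • w := fun _ => rfl
  have hσR : ∀ w, σR w = T • S • w := fun w => mul_smul T S w
  have hσRS : ∀ w, σR (σS w) = T • w := fun w => by rw [hσR, hσS, hSS]
  set nb : SL(2, ℤ) ⧸ Γ → ZMod p := fun w => (n w : ZMod p) with hnb_def
  have hprimb : ∀ w, nb (T • w) - nb w = ((x S w : ℤ) : ZMod p) := fun w => by
    show ((n (T • w) : ℤ) : ZMod p) - ((n w : ℤ) : ZMod p) = _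
    rw [← hD.prim w]; push_cast; ring
  have htrans : ∀ P : SL(2, ℤ) ⧸ Γ → Prop, (∀ x, P x → P (σS x)) → (∀ x, P x → P (σT x)) →
      ∀ x0, P x0 → ∀ x, P x := fun P h1 h2 x0 h0 x => smul_transitive hneg P h1 h2 x0 h0 x
  obtain ⟨mb, hmR, hm⟩ := S41_DUA.radical h2 σS σR (fun w => by rw [hσS, hσS, hSS]) nb
    (fun w => by
      rw [hσRS, hσR, hσS, hprimb, hprimb, hD.S_S]; push_cast; ring)
    (fun nb' hnb' => by
      -- lift `nb'`
      obtain ⟨n', hn'c, hn'a⟩ := S41_DUB.exists_lift p hp2 σS σT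
        (fun w => by rw [hσS, hσS, hSS]) htrans nb' (fun w => by
          have h1 := hnb' w
          rw [hσRS, hσR, hσS] at h1
          rw [hσT, hσT, hσS]
          linear_combination h1)
      set a' : SL(2, ℤ) ⧸ Γ → ℤ := fun w => n' (T • w) - n' w with ha'_def
      have haS : ∀ w, a' (S • w) = - a' w := fun w => by
        have h1 := hn'a w
        rw [hσT, hσT, hσS] at h1
        show n' (T • S • w) - n' (S • w) = - (n' (T • w) - n' w)
        linarith
      obtain ⟨y, y2, f, hNy, hyS, -, -⟩ := exists_normalized_of hnegx a' (fun _ => 0)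
        (fun _ => 0) haS (fun _ => by simp) (fun _ => by simp)
      have hYdat := isDat_homOfCoc hNy.hx hNy.xR n' (fun w => (hyS w).symm)
      have hYpar := homOfCoc_parabolic hneg hNy.hx hNy.xR n' (fun w => (hyS w).symm)
      have hdiv := h _ hYpar
      rw [bval_eq hneg hD hYdat] at hdiv
      have hyS' : y S = a' := funext hyS
      rw [hyS'] at hdiv
      have hz : ((Phi n a' : ℤ) : ZMod p) = 0 := (ZMod.intCast_zmod_eq_zero_iff_dvd _ p).mpr hdiv
      have hcast : ((Phi n a' : ℤ) : ZMod p) = Phi nb (fun w => nb' (T • w) - nb' w) := by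
        unfold Phi
        push_cast
        congr 1
        refine Finset.sum_congr rfl fun w _ => ?_
        show ((n w : ZMod p) + (n (T • w) : ZMod p)) * (((n' (T • w) - n' w : ℤ)) : ZMod p)
          = ((n w : ZMod p) + (n (T • w) : ZMod p)) * (nb' (T • w) - nb' w)
        rw [Int.cast_sub, hn'c, hn'c]
      unfold S41_DUA.pair
      have hsum : ∑ ω, (nb ω + nb (σR (σS ω))) * (nb' (σR (σS ω)) - nb' ω)
          = - Phi nb (fun w => nb' (T • w) - nb' w) := by
        unfold Phi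
        rw [neg_neg]
        exact Finset.sum_congr rfl fun w _ => by rw [hσRS]
      rw [hsum, ← hcast, hz]
      ring)
  -- the cocycle is a coboundary modulo `p`
  have hxb : IsCoc (fun g (w : SL(2, ℤ) ⧸ Γ) => ((x g w : ℤ) : ZMod p)) := fun g k w => by
    show ((x (g * k) w : ℤ) : ZMod p) = ((x g (k • w) : ℤ) : ZMod p) + ((x k w : ℤ) : ZMod p)
    rw [hD.coc]; push_cast; ring
  have hcb : IsCoc (fun g (w : SL(2, ℤ) ⧸ Γ) => mb (g • w) - mb w) := fun g k w => by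
    show mb ((g * k) • w) - mb w = mb (g • k • w) - mb (k • w) + (mb (k • w) - mb w)
    rw [mul_smul]; ring
  have hext := fun g => hxb.ext_gen hcb
    (fun w => by
      show ((x S w : ℤ) : ZMod p) = mb (S • w) - mb w
      rw [← hprimb, ← hσRS, hm w, hσS])
    (fun w => by
      show ((x (T * S) w : ℤ) : ZMod p) = mb ((T * S) • w) - mb w
      have := hmR w
      rw [hσR_def] at this
      rw [hD.xR, Int.cast_zero]
      show (0 : ZMod p) = mb (MulAction.toPerm (T * S) w) - mb w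
      rw [this, sub_self]) g
  have hdvd : ∀ γ : Additive Γ, (p : ℤ) ∣ X γ := by
    intro γ'
    have e : γ' = Additive.ofMul (Additive.toMul γ') := rfl
    set γ := Additive.toMul γ'
    rw [e, ← hD.res γ, ← ZMod.intCast_zmod_eq_zero_iff_dvd]
    have := hext (γ : SL(2, ℤ)) (x₀ Γ)
    show ((x (γ : SL(2, ℤ)) (x₀ Γ) : ℤ) : ZMod p) = 0
    rw [this]
    show mb ((γ : SL(2, ℤ)) • x₀ Γ) - mb (x₀ Γ) = 0
    rw [smul_x₀, sub_self]
  obtain ⟨X', hX'⟩ := exists_hom_div X (p : ℤ) hdvd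
  refine ⟨X', fun γ hγ => ?_, hX'⟩
  have h1 := hX γ hγ
  rw [hX'] at h1
  have h3 : (p : ℤ) * X' (Additive.ofMul γ) = 0 := h1
  have hp0 : (p : ℤ) ≠ 0 := by exact_mod_cast hp.ne_zero
  exact (mul_eq_zero.mp h3).resolve_left hp0

end Rad

end Fermat.Agent.S41_DU
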