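import Mathlib

/-!
# S41, block DU-E: sums over positive primitive parabolic elements

For a finite index subgroup `Γ ≤ SL(2,ℤ)` and `h : SL(2,ℤ)` let `per Γ h` be the period of `T`
at the coset `h Γ` and `par Γ h = h⁻¹ T ^ (per Γ h) h ∈ Γ` the positive generator of the
stabiliser in `Γ` of the vector `h⁻¹ e₁`.  `parSum Γ F` is the sum of `F (par Γ h)` over a set
of representatives `h` of the `T`-orbits on `SL(2,ℤ) ⧸ Γ`.

* `parSum_eq_sum`: the orbit-sum form (interface with the coset model);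
* `parSum_iso`: invariance under conjugation by an integral matrix of positive determinant.
-/

set_option autoImplicit false

open scoped MatrixGroups
open ModularGroup Matrix

namespace Fermat.Agent.S41_ParSum

section Basic

variable (Γ : Subgroup SL(2, ℤ))

/-- The period of `T` at the coset `h Γ`. -/
noncomputable def per (h : SL(2, ℤ)) : ℕ :=
  MulAction.period (T : SL(2, ℤ)) ((h : SL(2, ℤ)) : SL(2, ℤ) ⧸ Γ)

theorem zpow_smul_coe (n : ℤ) (h : SL(2, ℤ)) :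
    (T : SL(2, ℤ)) ^ n • ((h : SL(2, ℤ)) : SL(2, ℤ) ⧸ Γ) = ((T ^ n * h : SL(2, ℤ)) : SL(2, ℤ) ⧸ Γ) :=
  rfl

theorem pow_smul_coe (n : ℕ) (h : SL(2, ℤ)) :
    (T : SL(2, ℤ)) ^ n • ((h : SL(2, ℤ)) : SL(2, ℤ) ⧸ Γ) = ((T ^ n * h : SL(2, ℤ)) : SL(2, ℤ) ⧸ Γ) :=
  rfl

/-- `h⁻¹ T ^ n h ∈ Γ` iff the period divides `n`. -/
theorem conj_zpow_mem_iff (h : SL(2, ℤ)) (n : ℤ) :
    h⁻¹ * T ^ n * h ∈ Γ ↔ (per Γ h : ℤ) ∣ n := by
  rw [per, ← MulAction.zpow_smul_eq_iff_period_dvd, zpow_smul_coe, eq_comm, QuotientGroup.eq,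
    mul_assoc]

theorem conj_pow_mem_iff (h : SL(2, ℤ)) (n : ℕ) :
    h⁻¹ * T ^ n * h ∈ Γ ↔ per Γ h ∣ n := by
  have := conj_zpow_mem_iff Γ h n
  rw [zpow_natCast, Int.natCast_dvd_natCast] at this
  exact this

theorem per_pos [Γ.FiniteIndex] (h : SL(2, ℤ)) : 0 < per Γ h := by
  obtain ⟨n, hn, hn'⟩ := (isOfFinOrder_of_finite
    (MulAction.toPermHom SL(2, ℤ) (SL(2, ℤ) ⧸ Γ) T)).exists_pow_eq_one
  refine MulAction.period_pos_of_fixed hn ?_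
  rw [← map_pow] at hn'
  have := congrArg (fun σ : Equiv.Perm (SL(2, ℤ) ⧸ Γ) => σ ((h : SL(2, ℤ)) : SL(2, ℤ) ⧸ Γ)) hn'
  exact this

/-- The positive primitive parabolic element of `Γ` attached to `h`. -/
noncomputable def par (h : SL(2, ℤ)) : SL(2, ℤ) := h⁻¹ * T ^ per Γ h * h

theorem par_mem (h : SL(2, ℤ)) : par Γ h ∈ Γ :=
  (conj_pow_mem_iff Γ h _).2 dvd_rfl

/-- The same, as an element of `Γ`. -/
noncomputable def parΓ (h : SL(2, ℤ)) : Γ := ⟨par Γ h, par_mem Γ h⟩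

theorem coe_parΓ (h : SL(2, ℤ)) : ((parΓ Γ h : Γ) : SL(2, ℤ)) = par Γ h := rfl

theorem per_mul_mem (h : SL(2, ℤ)) {γ : SL(2, ℤ)} (hγ : γ ∈ Γ) : per Γ (h * γ) = per Γ h := by
  have : ((h * γ : SL(2, ℤ)) : SL(2, ℤ) ⧸ Γ) = ((h : SL(2, ℤ)) : SL(2, ℤ) ⧸ Γ) := by
    rw [eq_comm, QuotientGroup.eq]; simpa using hγ
  rw [per, this, per]

theorem per_zpow_mul (j : ℤ) (h : SL(2, ℤ)) : per Γ (T ^ j * h) = per Γ h := by
  apply Nat.dvd_antisymm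
  · rw [← conj_pow_mem_iff]
    have h1 : (T ^ j * h)⁻¹ * T ^ per Γ h * (T ^ j * h) = par Γ h := by
      rw [par, ← zpow_natCast]; group
    rw [h1]; exact par_mem Γ h
  · rw [← conj_pow_mem_iff]
    have h1 : h⁻¹ * T ^ per Γ (T ^ j * h) * h = par Γ (T ^ j * h) := by
      rw [par, ← zpow_natCast]; group
    rw [h1]; exact par_mem Γ _

theorem par_mul_mem (h : SL(2, ℤ)) {γ : SL(2, ℤ)} (hγ : γ ∈ Γ) :
    par Γ (h * γ) = γ⁻¹ * par Γ h * γ := by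
  rw [par, per_mul_mem Γ h hγ, par]; group

theorem par_zpow_mul (j : ℤ) (h : SL(2, ℤ)) : par Γ (T ^ j * h) = par Γ h := by
  rw [par, per_zpow_mul, par, ← zpow_natCast]; group

theorem coe_par (h : SL(2, ℤ)) :
    ((par Γ h : SL(2, ℤ)) : Matrix (Fin 2) (Fin 2) ℤ) =
      ((h⁻¹ : SL(2, ℤ)) : Matrix (Fin 2) (Fin 2) ℤ) * !![1, (per Γ h : ℤ); 0, 1] *
        ((h : SL(2, ℤ)) : Matrix (Fin 2) (Fin 2) ℤ) := by
  rw [par, ← zpow_natCast, Matrix.SpecialLinearGroup.coe_mul, Matrix.SpecialLinearGroup.coe_mul,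
    coe_T_zpow]

theorem trace_par (h : SL(2, ℤ)) :
    ((par Γ h : SL(2, ℤ)) : Matrix (Fin 2) (Fin 2) ℤ).trace = 2 := by
  rw [coe_par, Matrix.trace_mul_comm, ← mul_assoc, ← Matrix.SpecialLinearGroup.coe_mul,
    mul_inv_cancel, Matrix.SpecialLinearGroup.coe_one, one_mul, Matrix.trace_fin_two_of]
  norm_num

end Basic

section Orbits

variable (Γ : Subgroup SL(2, ℤ))

/-- `h₁, h₂` lie in the same double coset `⟨T⟩ h Γ`. -/
def cuspSetoid : Setoid SL(2, ℤ) where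
  r h₁ h₂ := ∃ j : ℤ, ∃ γ ∈ Γ, h₂ = T ^ j * h₁ * γ
  iseqv :=
    { refl := fun h => ⟨0, 1, Γ.one_mem, by simp⟩
      symm := by
        rintro h₁ h₂ ⟨j, γ, hγ, rfl⟩
        exact ⟨-j, γ⁻¹, Γ.inv_mem hγ, by group⟩
      trans := by
        rintro h₁ h₂ h₃ ⟨j, γ, hγ, rfl⟩ ⟨k, δ, hδ, rfl⟩
        exact ⟨k + j, γ * δ, Γ.mul_mem hγ hδ, by rw [_root_.zpow_add]; group⟩ }

/-- The cusps of `Γ`: the `T`-orbits on `SL(2,ℤ) ⧸ Γ`. -/
def Cusp : Type := Quotient (cuspSetoid Γ)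

/-- The cusp of `h`. -/
def cuspMk (h : SL(2, ℤ)) : Cusp Γ := Quotient.mk (cuspSetoid Γ) h

theorem cuspMk_eq_iff (h₁ h₂ : SL(2, ℤ)) :
    cuspMk Γ h₁ = cuspMk Γ h₂ ↔ ∃ j : ℤ, ∃ γ ∈ Γ, h₂ = T ^ j * h₁ * γ :=
  Quotient.eq (r := cuspSetoid Γ)

/-- A representative of a cusp. -/
noncomputable def cuspRep (c : Cusp Γ) : SL(2, ℤ) := Quotient.out c

theorem cuspMk_rep (c : Cusp Γ) : cuspMk Γ (cuspRep Γ c) = c := Quotient.out_eq c

theorem cuspMk_zpow_mul (j : ℤ) (h : SL(2, ℤ)) : cuspMk Γ (T ^ j * h) = cuspMk Γ h :=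
  ((cuspMk_eq_iff Γ _ _).2 ⟨j, 1, Γ.one_mem, by simp⟩).symm

theorem cuspMk_mul_mem (h : SL(2, ℤ)) {γ : SL(2, ℤ)} (hγ : γ ∈ Γ) :
    cuspMk Γ (h * γ) = cuspMk Γ h :=
  ((cuspMk_eq_iff Γ _ _).2 ⟨0, γ, hγ, by simp⟩).symm

/-- The cusp of a coset. -/
def cuspOf (x : SL(2, ℤ) ⧸ Γ) : Cusp Γ :=
  Quotient.liftOn' x (cuspMk Γ) (by
    intro a b hab
    rw [QuotientGroup.leftRel_apply] at hab
    have := cuspMk_mul_mem Γ a hab
    rw [mul_inv_cancel_left] at this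
    exact this.symm)

theorem cuspOf_coe (h : SL(2, ℤ)) : cuspOf Γ ((h : SL(2, ℤ)) : SL(2, ℤ) ⧸ Γ) = cuspMk Γ h := rfl

instance [Γ.FiniteIndex] : Finite (Cusp Γ) :=
  Finite.of_surjective (cuspOf Γ) (fun c => ⟨((cuspRep Γ c : SL(2, ℤ)) : SL(2, ℤ) ⧸ Γ), by
    rw [cuspOf_coe, cuspMk_rep]⟩)

/-- The sum of `F` over the positive primitive parabolic elements of `Γ` (one for each cusp). -/
noncomputable def parSum {A : Type*} [AddCommMonoid A] (F : Γ → A) : A :=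
  ∑ᶠ c : Cusp Γ, F (parΓ Γ (cuspRep Γ c))

/-- `F` is invariant under `Γ`-conjugation on the positive primitive parabolic elements. -/
def ConjInv {A : Type*} (F : Γ → A) : Prop :=
  ∀ (h : SL(2, ℤ)) (γ : Γ), F (γ⁻¹ * parΓ Γ h * γ) = F (parΓ Γ h)

theorem conjInv_of_trace {A : Type*} (F : Γ → A)
    (hF : ∀ π γ : Γ, ((π : SL(2, ℤ)) : Matrix (Fin 2) (Fin 2) ℤ).trace = 2 →
      F (γ⁻¹ * π * γ) = F π) : ConjInv Γ F :=
  fun h γ => hF _ γ (trace_par Γ h)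

/-- For a conjugation invariant `F` the value `F (par h)` only depends on the cusp of `h`. -/
theorem ConjInv.eq_of_cuspMk_eq {A : Type*} {F : Γ → A} (hF : ConjInv Γ F) {h₁ h₂ : SL(2, ℤ)}
    (h : cuspMk Γ h₁ = cuspMk Γ h₂) : F (parΓ Γ h₁) = F (parΓ Γ h₂) := by
  obtain ⟨j, γ, hγ, rfl⟩ := (cuspMk_eq_iff Γ _ _).1 h
  have e : parΓ Γ (T ^ j * h₁ * γ) = (⟨γ, hγ⟩ : Γ)⁻¹ * parΓ Γ h₁ * ⟨γ, hγ⟩ := by
    apply Subtype.ext
    show par Γ (T ^ j * h₁ * γ) = γ⁻¹ * par Γ h₁ * γ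
    rw [par_mul_mem Γ _ hγ, par_zpow_mul]
  rw [e, hF]

theorem ConjInv.apply_rep {A : Type*} {F : Γ → A} (hF : ConjInv Γ F) (h : SL(2, ℤ)) :
    F (parΓ Γ (cuspRep Γ (cuspMk Γ h))) = F (parΓ Γ h) :=
  hF.eq_of_cuspMk_eq Γ (cuspMk_rep Γ _)

theorem parSum_add {A : Type*} [AddCommMonoid A] [Γ.FiniteIndex] (F G : Γ → A) :
    parSum Γ (fun γ => F γ + G γ) = parSum Γ F + parSum Γ G :=
  finsum_add_distrib (Set.toFinite _) (Set.toFinite _)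

theorem parSum_zero {A : Type*} [AddCommMonoid A] : parSum Γ (fun _ => (0 : A)) = 0 :=
  finsum_zero

theorem parSum_map {A B : Type*} [AddCommMonoid A] [AddCommMonoid B] [Γ.FiniteIndex]
    (f : A →+ B) (F : Γ → A) : parSum Γ (fun γ => f (F γ)) = f (parSum Γ F) :=
  (f.map_finsum (Set.toFinite _)).symm

/-- The orbits of `T` on `SL(2,ℤ) ⧸ Γ`: the fibre of `cuspOf` over the cusp of `h` is
`{T ^ i • h Γ : i < per Γ h}`, without repetition. -/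
theorem sum_fibre [Γ.FiniteIndex] [Fintype (SL(2, ℤ) ⧸ Γ)] [DecidableEq (Cusp Γ)]
    {A : Type*} [AddCommMonoid A] (c : SL(2, ℤ) ⧸ Γ → A) (h : SL(2, ℤ)) :
    ∑ x with cuspOf Γ x = cuspMk Γ h, c x =
      ∑ i ∈ Finset.range (per Γ h), c ((T : SL(2, ℤ)) ^ i • ((h : SL(2, ℤ)) : SL(2, ℤ) ⧸ Γ)) := by
  classical
  symm
  refine Finset.sum_nbij (fun i => (T : SL(2, ℤ)) ^ i • ((h : SL(2, ℤ)) : SL(2, ℤ) ⧸ Γ))
    ?_ ?_ ?_ (fun _ _ => rfl)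
  · intro i _
    rw [Finset.mem_filter]
    refine ⟨Finset.mem_univ _, ?_⟩
    rw [pow_smul_coe, cuspOf_coe, ← zpow_natCast, cuspMk_zpow_mul]
  · intro i hi j hj hij
    have hi' : i < per Γ h := by simpa using hi
    have hj' : j < per Γ h := by simpa using hj
    have key : ∀ a b : ℕ, a ≤ b → b < per Γ h →
        (T : SL(2, ℤ)) ^ a • ((h : SL(2, ℤ)) : SL(2, ℤ) ⧸ Γ) = T ^ b • (h : SL(2, ℤ) ⧸ Γ) →
        a = b := by
      intro a b hab hb e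
      have e2 : (T : SL(2, ℤ)) ^ (b - a) • ((h : SL(2, ℤ)) : SL(2, ℤ) ⧸ Γ) = (h : SL(2, ℤ) ⧸ Γ) := by
        have : (T : SL(2, ℤ)) ^ b = T ^ a * T ^ (b - a) := by
          rw [← pow_add, Nat.add_sub_cancel' hab]
        rw [this, mul_smul] at e
        exact (smul_left_cancel _ e).symm
      rw [MulAction.pow_smul_eq_iff_period_dvd] at e2
      have h0 : b - a = 0 := Nat.eq_zero_of_dvd_of_lt e2 (lt_of_le_of_lt (Nat.sub_le _ _) hb)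
      omega
    rcases le_total i j with hle | hle
    · exact key i j hle hj' hij
    · exact (key j i hle hi' hij.symm).symm
  · intro x hx
    rw [Finset.mem_coe, Finset.mem_filter] at hx
    obtain ⟨h₂, rfl⟩ := QuotientGroup.mk_surjective x
    rw [cuspOf_coe] at hx
    obtain ⟨j, γ, hγ, e⟩ := (cuspMk_eq_iff Γ _ _).1 hx.2
    have hm : (0 : ℤ) < per Γ h := by exact_mod_cast per_pos Γ h
    have hx2 : ((h₂ : SL(2, ℤ)) : SL(2, ℤ) ⧸ Γ) = (T : SL(2, ℤ)) ^ (-j) • (h : SL(2, ℤ) ⧸ Γ) := by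
      rw [zpow_smul_coe, QuotientGroup.eq, e]
      have : h₂⁻¹ * (T ^ (-j) * (T ^ j * h₂ * γ)) = γ := by group
      rw [this]; exact hγ
    refine ⟨((-j) % (per Γ h : ℤ)).toNat, ?_, ?_⟩
    · rw [Finset.coe_range, Set.mem_Iio]
      have := Int.emod_lt_of_pos (-j) hm
      omega
    · show (T : SL(2, ℤ)) ^ _ • _ = _
      rw [hx2, ← zpow_natCast, Int.toNat_of_nonneg (Int.emod_nonneg _ hm.ne')]
      exact MulAction.zpow_mod_period_smul (-j)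

/-- **Orbit-sum form.**  If `c` is a function on `SL(2,ℤ) ⧸ Γ` whose sum over the `T`-orbit of
`h Γ` is `F (par h)` for every `h`, then `parSum Γ F` is the total sum of `c`. -/
theorem parSum_eq_sum [Γ.FiniteIndex] [Fintype (SL(2, ℤ) ⧸ Γ)] {A : Type*} [AddCommMonoid A]
    (F : Γ → A) (c : SL(2, ℤ) ⧸ Γ → A)
    (hc : ∀ h : SL(2, ℤ), ∑ i ∈ Finset.range (per Γ h),
      c ((T : SL(2, ℤ)) ^ i • ((h : SL(2, ℤ)) : SL(2, ℤ) ⧸ Γ)) = F (parΓ Γ h)) :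
    parSum Γ F = ∑ x, c x := by
  classical
  have : Fintype (Cusp Γ) := Fintype.ofFinite _
  rw [parSum, finsum_eq_sum_of_fintype, ← Finset.sum_fiberwise Finset.univ (cuspOf Γ) c]
  refine Finset.sum_congr rfl fun q _ => ?_
  have h1 := sum_fibre Γ c (cuspRep Γ q)
  rw [cuspMk_rep, hc] at h1
  rw [← h1]

end Orbits

section Upper

/-- Cancelling an element of `SL(2,ℤ)` on the right. -/
theorem mul_coe_cancel {X Y : Matrix (Fin 2) (Fin 2) ℤ} (h : SL(2, ℤ))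
    (e : X * (h : Matrix (Fin 2) (Fin 2) ℤ) = Y * (h : Matrix (Fin 2) (Fin 2) ℤ)) : X = Y := by
  have h1 : (h : Matrix (Fin 2) (Fin 2) ℤ) * ((h⁻¹ : SL(2, ℤ)) : Matrix (Fin 2) (Fin 2) ℤ) = 1 := by
    rw [← Matrix.SpecialLinearGroup.coe_mul, mul_inv_cancel, Matrix.SpecialLinearGroup.coe_one]
  have := congrArg (· * ((h⁻¹ : SL(2, ℤ)) : Matrix (Fin 2) (Fin 2) ℤ)) e
  simpa only [Matrix.mul_assoc, h1, Matrix.mul_one] using this

/-- An element of `SL(2,ℤ)` carrying an upper triangular matrix with positive diagonal to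
another one is a power of `T`. -/
theorem eq_T_zpow_of_mul_upper (k : SL(2, ℤ)) {r₁ s₁ t₁ r₂ s₂ t₂ : ℤ} (hr₁ : 0 < r₁)
    (hr₂ : 0 < r₂)
    (e : (k : Matrix (Fin 2) (Fin 2) ℤ) * !![r₁, s₁; 0, t₁] = !![r₂, s₂; 0, t₂]) :
    ∃ n : ℤ, k = T ^ n ∧ r₁ = r₂ ∧ t₁ = t₂ ∧ s₁ + n * t₁ = s₂ := by
  have hk := Matrix.eta_fin_two (k : Matrix (Fin 2) (Fin 2) ℤ)
  have hdet : (k : Matrix (Fin 2) (Fin 2) ℤ) 0 0 * (k : Matrix (Fin 2) (Fin 2) ℤ) 1 1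
      - (k : Matrix (Fin 2) (Fin 2) ℤ) 0 1 * (k : Matrix (Fin 2) (Fin 2) ℤ) 1 0 = 1 := by
    rw [← Matrix.det_fin_two]; exact k.det_coe
  generalize (k : Matrix (Fin 2) (Fin 2) ℤ) 0 0 = a at hk hdet
  generalize (k : Matrix (Fin 2) (Fin 2) ℤ) 0 1 = b at hk hdet
  generalize (k : Matrix (Fin 2) (Fin 2) ℤ) 1 0 = c at hk hdet
  generalize (k : Matrix (Fin 2) (Fin 2) ℤ) 1 1 = d at hk hdet
  rw [hk, Matrix.mul_fin_two] at e
  have e00 := congrFun (congrFun e 0) 0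
  have e01 := congrFun (congrFun e 0) 1
  have e10 := congrFun (congrFun e 1) 0
  have e11 := congrFun (congrFun e 1) 1
  simp at e00 e01 e10 e11
  have hc : c = 0 := by
    rcases e10 with h | h
    · exact h
    · omega
  subst hc
  have had : a * d = 1 := by linarith
  have ha : 0 < a := by
    by_contra hneg
    have : a * r₁ ≤ 0 := mul_nonpos_of_nonpos_of_nonneg (not_lt.1 hneg) hr₁.le
    omega
  have ha1 : a = 1 := by
    rcases Int.eq_one_or_neg_one_of_mul_eq_one' had with h | h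
    · exact h.1
    · omega
  subst ha1
  have hd1 : d = 1 := by linarith
  subst hd1
  refine ⟨b, ?_, by linarith, by linarith, by linarith⟩
  apply Subtype.ext
  rw [coe_T_zpow]
  exact hk

/-- Row reduction: for an integral matrix of positive determinant there is an element of
`SL(2,ℤ)` making it upper triangular with positive diagonal. -/
theorem exists_upper_aux (a₀ b₀ c₀ d₀ : ℤ) (hdet : 0 < a₀ * d₀ - b₀ * c₀) :
    ∃ u v c a r s t : ℤ, u * a + v * c = 1 ∧ 0 < r ∧ 0 < t ∧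
      !![u, v; -c, a] * !![a₀, b₀; c₀, d₀] = !![r, s; 0, t] := by
  have hd0 : (Int.gcd a₀ c₀ : ℤ) ≠ 0 := by
    intro h0
    have h1 : Int.gcd a₀ c₀ = 0 := by exact_mod_cast h0
    rw [Int.gcd_eq_zero_iff] at h1
    rw [h1.1, h1.2] at hdet
    simp at hdet
  have hdpos : (0 : ℤ) < Int.gcd a₀ c₀ := lt_of_le_of_ne (Int.natCast_nonneg _) (Ne.symm hd0)
  obtain ⟨a, ha⟩ := Int.gcd_dvd_left a₀ c₀
  obtain ⟨c, hc⟩ := Int.gcd_dvd_right a₀ c₀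
  have hbez := Int.gcd_eq_gcd_ab a₀ c₀
  generalize (Int.gcd a₀ c₀ : ℤ) = d at *
  generalize Int.gcdA a₀ c₀ = u at *
  generalize Int.gcdB a₀ c₀ = v at *
  have h1 : u * a + v * c = 1 := by
    have : d * (u * a + v * c) = d * 1 := by
      linear_combination (-1 : ℤ) * hbez - u * ha - v * hc
    exact mul_left_cancel₀ hd0 this
  have hrt : d * (-c * b₀ + a * d₀) = a₀ * d₀ - b₀ * c₀ := by
    rw [ha, hc]; ring1
  have ht : 0 < -c * b₀ + a * d₀ := by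
    rw [← hrt] at hdet
    exact (mul_pos_iff_of_pos_left hdpos).1 hdet
  refine ⟨u, v, c, a, d, u * b₀ + v * d₀, -c * b₀ + a * d₀, h1, hdpos, ht, ?_⟩
  have e1 : u * a₀ + v * c₀ = d := by rw [ha, hc]; linear_combination d * h1
  have e2 : -c * a₀ + a * c₀ = 0 := by rw [ha, hc]; ring1
  rw [Matrix.mul_fin_two, e1, e2]

/-- `h' g = b h` with `b` upper triangular with positive diagonal. -/
def Upper (g : Matrix (Fin 2) (Fin 2) ℤ) (h h' : SL(2, ℤ)) : Prop :=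
  ∃ r s t : ℤ, 0 < r ∧ 0 < t ∧
    (h' : Matrix (Fin 2) (Fin 2) ℤ) * g = !![r, s; 0, t] * (h : Matrix (Fin 2) (Fin 2) ℤ)

theorem exists_upper (g : Matrix (Fin 2) (Fin 2) ℤ) (hg : 0 < g.det) (h : SL(2, ℤ)) :
    ∃ h' : SL(2, ℤ), Upper g h h' := by
  have hM : g * ((h⁻¹ : SL(2, ℤ)) : Matrix (Fin 2) (Fin 2) ℤ) * (h : Matrix (Fin 2) (Fin 2) ℤ)
      = g := by
    rw [Matrix.mul_assoc, ← Matrix.SpecialLinearGroup.coe_mul, inv_mul_cancel,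
      Matrix.SpecialLinearGroup.coe_one, Matrix.mul_one]
  have hdet : (g * ((h⁻¹ : SL(2, ℤ)) : Matrix (Fin 2) (Fin 2) ℤ)).det = g.det := by
    rw [Matrix.det_mul, Matrix.SpecialLinearGroup.det_coe, mul_one]
  generalize g * ((h⁻¹ : SL(2, ℤ)) : Matrix (Fin 2) (Fin 2) ℤ) = M at hM hdet
  have hMe := Matrix.eta_fin_two M
  rw [Matrix.det_fin_two] at hdet
  obtain ⟨u, v, c, a, r, s, t, h1, hr, ht, e⟩ :=
    exists_upper_aux (M 0 0) (M 0 1) (M 1 0) (M 1 1) (by rw [hdet]; exact hg)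
  refine ⟨⟨!![u, v; -c, a], by rw [Matrix.det_fin_two_of]; linarith⟩, r, s, t, hr, ht, ?_⟩
  show !![u, v; -c, a] * g = _
  rw [← e, ← hMe, ← hM, Matrix.mul_assoc]

theorem adjugate_adjugate_two (g : Matrix (Fin 2) (Fin 2) ℤ) : g.adjugate.adjugate = g := by
  ext i j
  fin_cases i <;> fin_cases j <;> simp [Matrix.adjugate_fin_two]

/-- Passing a conjugation relation to the adjugates. -/
theorem swap_rel (X Y : SL(2, ℤ)) (g g' : Matrix (Fin 2) (Fin 2) ℤ)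
    (e : (X : Matrix (Fin 2) (Fin 2) ℤ) * g = g' * (Y : Matrix (Fin 2) (Fin 2) ℤ)) :
    (Y : Matrix (Fin 2) (Fin 2) ℤ) * g.adjugate = g'.adjugate * (X : Matrix (Fin 2) (Fin 2) ℤ) := by
  have h1 := congrArg Matrix.adjugate e
  rw [Matrix.adjugate_mul_distrib, Matrix.adjugate_mul_distrib,
    ← Matrix.SpecialLinearGroup.coe_inv, ← Matrix.SpecialLinearGroup.coe_inv] at h1
  have hX : ((X⁻¹ : SL(2, ℤ)) : Matrix (Fin 2) (Fin 2) ℤ) * (X : Matrix (Fin 2) (Fin 2) ℤ) = 1 := by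
    rw [← Matrix.SpecialLinearGroup.coe_mul, inv_mul_cancel, Matrix.SpecialLinearGroup.coe_one]
  have hY : (Y : Matrix (Fin 2) (Fin 2) ℤ) * ((Y⁻¹ : SL(2, ℤ)) : Matrix (Fin 2) (Fin 2) ℤ) = 1 := by
    rw [← Matrix.SpecialLinearGroup.coe_mul, mul_inv_cancel, Matrix.SpecialLinearGroup.coe_one]
  calc (Y : Matrix (Fin 2) (Fin 2) ℤ) * g.adjugate
      = (Y : Matrix (Fin 2) (Fin 2) ℤ) * (g.adjugate *
          ((X⁻¹ : SL(2, ℤ)) : Matrix (Fin 2) (Fin 2) ℤ)) * (X : Matrix (Fin 2) (Fin 2) ℤ) := by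
        rw [Matrix.mul_assoc, Matrix.mul_assoc, hX, Matrix.mul_one]
    _ = g'.adjugate * (X : Matrix (Fin 2) (Fin 2) ℤ) := by
        rw [h1, ← Matrix.mul_assoc, hY, Matrix.one_mul]

theorem Upper.symm {g : Matrix (Fin 2) (Fin 2) ℤ} {h h' : SL(2, ℤ)} (H : Upper g h h') :
    Upper g.adjugate h' h := by
  obtain ⟨r, s, t, hr, ht, e⟩ := H
  refine ⟨t, -s, r, ht, hr, ?_⟩
  have := swap_rel h' h g _ e
  rw [Matrix.adjugate_fin_two_of] at this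
  simpa using this

theorem Upper.symm' {g : Matrix (Fin 2) (Fin 2) ℤ} {h h' : SL(2, ℤ)}
    (H : Upper g.adjugate h' h) : Upper g h h' := by
  have := H.symm
  rwa [adjugate_adjugate_two] at this

theorem det_adjugate_two (g : Matrix (Fin 2) (Fin 2) ℤ) : g.adjugate.det = g.det := by
  rw [Matrix.det_adjugate]; simp

/-- Conjugating `h⁻¹ T ^ n h` by `g`. -/
theorem conj_T_of_upper {g : Matrix (Fin 2) (Fin 2) ℤ} {h h' : SL(2, ℤ)} {r s t : ℤ}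
    (hr : 0 < r)
    (hR : (h' : Matrix (Fin 2) (Fin 2) ℤ) * g = !![r, s; 0, t] * (h : Matrix (Fin 2) (Fin 2) ℤ))
    (n : ℤ) (γ' : SL(2, ℤ))
    (hγ' : (γ' : Matrix (Fin 2) (Fin 2) ℤ) * g
      = g * ((h⁻¹ * T ^ n * h : SL(2, ℤ)) : Matrix (Fin 2) (Fin 2) ℤ)) :
    ∃ n' : ℤ, n' * t = r * n ∧ γ' = h'⁻¹ * T ^ n' * h' := by
  have key : ((h' * γ' * h'⁻¹ : SL(2, ℤ)) : Matrix (Fin 2) (Fin 2) ℤ) * !![r, s; 0, t]
      = !![r, r * n + s; 0, t] := by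
    apply mul_coe_cancel h
    calc ((h' * γ' * h'⁻¹ : SL(2, ℤ)) : Matrix (Fin 2) (Fin 2) ℤ) * !![r, s; 0, t]
          * (h : Matrix (Fin 2) (Fin 2) ℤ)
        = ((h' * γ' * h'⁻¹ : SL(2, ℤ)) : Matrix (Fin 2) (Fin 2) ℤ)
          * ((h' : Matrix (Fin 2) (Fin 2) ℤ) * g) := by rw [Matrix.mul_assoc, hR]
      _ = (h' : Matrix (Fin 2) (Fin 2) ℤ) * ((γ' : Matrix (Fin 2) (Fin 2) ℤ) * g) := by
          rw [← Matrix.mul_assoc, ← Matrix.mul_assoc, ← Matrix.SpecialLinearGroup.coe_mul,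
            ← Matrix.SpecialLinearGroup.coe_mul, inv_mul_cancel_right]
      _ = !![r, s; 0, t] * (h : Matrix (Fin 2) (Fin 2) ℤ)
          * ((h⁻¹ * T ^ n * h : SL(2, ℤ)) : Matrix (Fin 2) (Fin 2) ℤ) := by
          rw [hγ', ← Matrix.mul_assoc, hR]
      _ = !![r, s; 0, t] * ((T ^ n : SL(2, ℤ)) : Matrix (Fin 2) (Fin 2) ℤ)
          * (h : Matrix (Fin 2) (Fin 2) ℤ) := by
          have e3 : h * (h⁻¹ * T ^ n * h) = T ^ n * h := by group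
          rw [Matrix.mul_assoc, ← Matrix.SpecialLinearGroup.coe_mul, Matrix.mul_assoc,
            ← Matrix.SpecialLinearGroup.coe_mul, e3]
      _ = !![r, r * n + s; 0, t] * (h : Matrix (Fin 2) (Fin 2) ℤ) := by
          rw [coe_T_zpow, Matrix.mul_fin_two]
          simp
  obtain ⟨n', hk, -, -, hn'⟩ := eq_T_zpow_of_mul_upper _ hr hr key
  refine ⟨n', by linarith, ?_⟩
  rw [← hk]; group

/-- Compatible upper triangularisations of two elements of the same cusp lie in the same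
cusp. -/
theorem rel_of_upper {g : Matrix (Fin 2) (Fin 2) ℤ} {h₁ h₁' h₂ h₂' : SL(2, ℤ)}
    (H₁ : Upper g h₁ h₁') (H₂ : Upper g h₂ h₂') (j : ℤ) (γ γ' : SL(2, ℤ))
    (hγ : (γ' : Matrix (Fin 2) (Fin 2) ℤ) * g = g * (γ : Matrix (Fin 2) (Fin 2) ℤ))
    (e : h₂ = T ^ j * h₁ * γ) : ∃ k : ℤ, h₂' = T ^ k * h₁' * γ' := by
  obtain ⟨r₁, s₁, t₁, hr₁, ht₁, e₁⟩ := H₁
  obtain ⟨r₂, s₂, t₂, hr₂, ht₂, e₂⟩ := H₂
  have key : ((h₂' * (h₁' * γ')⁻¹ : SL(2, ℤ)) : Matrix (Fin 2) (Fin 2) ℤ) * !![r₁, s₁; 0, t₁]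
      = !![r₂, r₂ * j + s₂; 0, t₂] := by
    apply mul_coe_cancel (h₁ * γ)
    calc ((h₂' * (h₁' * γ')⁻¹ : SL(2, ℤ)) : Matrix (Fin 2) (Fin 2) ℤ) * !![r₁, s₁; 0, t₁]
          * ((h₁ * γ : SL(2, ℤ)) : Matrix (Fin 2) (Fin 2) ℤ)
        = ((h₂' * (h₁' * γ')⁻¹ : SL(2, ℤ)) : Matrix (Fin 2) (Fin 2) ℤ)
          * ((h₁' : Matrix (Fin 2) (Fin 2) ℤ) * (g * (γ : Matrix (Fin 2) (Fin 2) ℤ))) := by
          rw [Matrix.SpecialLinearGroup.coe_mul h₁ γ, ← Matrix.mul_assoc _ g, e₁]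
          simp only [Matrix.mul_assoc]
      _ = (h₂' : Matrix (Fin 2) (Fin 2) ℤ) * g := by
          have e3 : h₂' * (h₁' * γ')⁻¹ * h₁' * γ' = h₂' := by group
          rw [← hγ, ← Matrix.mul_assoc, ← Matrix.mul_assoc, ← Matrix.SpecialLinearGroup.coe_mul,
            ← Matrix.SpecialLinearGroup.coe_mul, e3]
      _ = !![r₂, s₂; 0, t₂] * ((T ^ j : SL(2, ℤ)) : Matrix (Fin 2) (Fin 2) ℤ)
          * ((h₁ * γ : SL(2, ℤ)) : Matrix (Fin 2) (Fin 2) ℤ) := by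
          rw [e₂, e, Matrix.mul_assoc, ← Matrix.SpecialLinearGroup.coe_mul, mul_assoc]
      _ = !![r₂, r₂ * j + s₂; 0, t₂] * ((h₁ * γ : SL(2, ℤ)) : Matrix (Fin 2) (Fin 2) ℤ) := by
          rw [coe_T_zpow, Matrix.mul_fin_two]
          simp
  obtain ⟨k, hk, -, -, -⟩ := eq_T_zpow_of_mul_upper _ hr₁ hr₂ key
  refine ⟨k, ?_⟩
  rw [← hk]; group

end Upper

section Iso

/-- Conjugation by the integral matrix `g` of positive determinant carries `Γ` onto `Γ'`: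
`γ ↔ γ'` when `γ' g = g γ`. -/
structure Link (Γ Γ' : Subgroup SL(2, ℤ)) (g : Matrix (Fin 2) (Fin 2) ℤ) : Prop where
  det_pos : 0 < g.det
  fwd : ∀ γ ∈ Γ, ∃ γ' ∈ Γ',
    (γ' : Matrix (Fin 2) (Fin 2) ℤ) * g = g * (γ : Matrix (Fin 2) (Fin 2) ℤ)
  bwd : ∀ γ' ∈ Γ', ∃ γ ∈ Γ,
    (γ' : Matrix (Fin 2) (Fin 2) ℤ) * g = g * (γ : Matrix (Fin 2) (Fin 2) ℤ)

variable {Γ Γ' : Subgroup SL(2, ℤ)} {g : Matrix (Fin 2) (Fin 2) ℤ}

theorem Link.symm (L : Link Γ Γ' g) : Link Γ' Γ g.adjugate where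
  det_pos := by rw [det_adjugate_two]; exact L.det_pos
  fwd := fun γ' hγ' => by
    obtain ⟨γ, hγ, e⟩ := L.bwd γ' hγ'
    exact ⟨γ, hγ, swap_rel γ' γ g g e⟩
  bwd := fun γ hγ => by
    obtain ⟨γ', hγ', e⟩ := L.fwd γ hγ
    exact ⟨γ', hγ', swap_rel γ' γ g g e⟩

theorem Link.cusp_eq (L : Link Γ Γ' g) {h₁ h₁' h₂ h₂' : SL(2, ℤ)} (H₁ : Upper g h₁ h₁')
    (H₂ : Upper g h₂ h₂') (e : cuspMk Γ h₁ = cuspMk Γ h₂) : cuspMk Γ' h₁' = cuspMk Γ' h₂' := by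
  obtain ⟨j, γ, hγ, rfl⟩ := (cuspMk_eq_iff Γ _ _).1 e
  obtain ⟨γ', hγ', e'⟩ := L.fwd γ hγ
  obtain ⟨k, hk⟩ := rel_of_upper H₁ H₂ j γ γ' e' rfl
  exact (cuspMk_eq_iff Γ' _ _).2 ⟨k, γ', hγ', hk⟩

/-- Conjugation by `g` carries positive primitive parabolic elements to positive primitive
parabolic elements. -/
theorem Link.par_eq [Γ.FiniteIndex] [Γ'.FiniteIndex] (L : Link Γ Γ' g) {h h' : SL(2, ℤ)}
    (H : Upper g h h') (γ' : SL(2, ℤ)) (hγ' : γ' ∈ Γ')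
    (e : (γ' : Matrix (Fin 2) (Fin 2) ℤ) * g
      = g * ((par Γ h : SL(2, ℤ)) : Matrix (Fin 2) (Fin 2) ℤ)) : γ' = par Γ' h' := by
  obtain ⟨r, s, t, hr, ht, hR⟩ := H
  have e1 : (γ' : Matrix (Fin 2) (Fin 2) ℤ) * g
      = g * ((h⁻¹ * T ^ ((per Γ h : ℕ) : ℤ) * h : SL(2, ℤ)) : Matrix (Fin 2) (Fin 2) ℤ) := by
    rw [zpow_natCast]; exact e
  obtain ⟨n', hn', hγ'eq⟩ := conj_T_of_upper hr hR (per Γ h) γ' e1
  have hdvd' : (per Γ' h' : ℤ) ∣ n' := by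
    rw [← conj_zpow_mem_iff, ← hγ'eq]; exact hγ'
  obtain ⟨γ, hγ, e2⟩ := L.bwd (par Γ' h') (par_mem Γ' h')
  have e3 := swap_rel (par Γ' h') γ g g e2
  have hR' := swap_rel h' h g _ hR
  rw [Matrix.adjugate_fin_two_of] at hR'
  have hR'' : (h : Matrix (Fin 2) (Fin 2) ℤ) * g.adjugate
      = !![t, -s; 0, r] * (h' : Matrix (Fin 2) (Fin 2) ℤ) := by simpa using hR'
  have e4 : (γ : Matrix (Fin 2) (Fin 2) ℤ) * g.adjugate = g.adjugate *
      ((h'⁻¹ * T ^ ((per Γ' h' : ℕ) : ℤ) * h' : SL(2, ℤ)) : Matrix (Fin 2) (Fin 2) ℤ) := by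
    rw [zpow_natCast]; exact e3
  obtain ⟨n, hn, hγeq⟩ := conj_T_of_upper ht hR'' (per Γ' h') γ e4
  have hdvd : (per Γ h : ℤ) ∣ n := by
    rw [← conj_zpow_mem_iff, ← hγeq]; exact hγ
  have hm : (0 : ℤ) < per Γ h := by exact_mod_cast per_pos Γ h
  have hm' : (0 : ℤ) < per Γ' h' := by exact_mod_cast per_pos Γ' h'
  obtain ⟨u, rfl⟩ := hdvd'
  obtain ⟨w, rfl⟩ := hdvd
  have huw : u * w = 1 := by
    have h0 : ((per Γ' h' : ℤ) * t * ((per Γ h : ℤ) * r)) * (u * w)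
        = ((per Γ' h' : ℤ) * t * ((per Γ h : ℤ) * r)) * 1 := by
      linear_combination ((per Γ h : ℤ) * w * r) * hn' + (r * (per Γ h : ℤ)) * hn
    exact mul_left_cancel₀ (by positivity) h0
  have hu : 0 < u := by
    by_contra hneg
    have h1 : (per Γ' h' : ℤ) * u * t ≤ 0 :=
      mul_nonpos_of_nonpos_of_nonneg
        (mul_nonpos_of_nonneg_of_nonpos hm'.le (not_lt.1 hneg)) ht.le
    have h2 : 0 < r * (per Γ h : ℤ) := by positivity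
    omega
  have hu1 : u = 1 := by
    rcases Int.eq_one_or_neg_one_of_mul_eq_one' huw with h | h
    · exact h.1
    · omega
  rw [hγ'eq, hu1, mul_one, zpow_natCast, par]

/-- **Invariance of `parSum` under conjugation** (relational form). -/
theorem parSum_link [Γ.FiniteIndex] [Γ'.FiniteIndex] (L : Link Γ Γ' g) {A : Type*}
    [AddCommMonoid A] (F : Γ → A) (F' : Γ' → A) (hF' : ConjInv Γ' F')
    (hFF' : ∀ (γ : Γ) (γ' : Γ'), ((γ' : SL(2, ℤ)) : Matrix (Fin 2) (Fin 2) ℤ) * g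
      = g * ((γ : SL(2, ℤ)) : Matrix (Fin 2) (Fin 2) ℤ) → F γ = F' γ') :
    parSum Γ F = parSum Γ' F' := by
  classical
  choose c hc using fun h => exists_upper g L.det_pos h
  have hex' : ∀ h' : SL(2, ℤ), ∃ h : SL(2, ℤ), Upper g h h' := fun h' => by
    obtain ⟨h, hh⟩ := exists_upper g.adjugate (by rw [det_adjugate_two]; exact L.det_pos) h'
    exact ⟨h, hh.symm'⟩
  choose c' hc' using hex'
  let e : Cusp Γ → Cusp Γ' := fun q => Quotient.liftOn q (fun h => cuspMk Γ' (c h))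
    (fun h₁ h₂ h12 => L.cusp_eq (hc h₁) (hc h₂) (Quotient.sound h12))
  let e' : Cusp Γ' → Cusp Γ := fun q => Quotient.liftOn q (fun h => cuspMk Γ (c' h))
    (fun h₁ h₂ h12 => L.symm.cusp_eq (hc' h₁).symm (hc' h₂).symm (Quotient.sound h12))
  have he : ∀ h, e (cuspMk Γ h) = cuspMk Γ' (c h) := fun h => rfl
  have he' : ∀ h, e' (cuspMk Γ' h) = cuspMk Γ (c' h) := fun h => rfl
  have h1 : ∀ q, e' (e q) = q := by
    intro q
    rw [← cuspMk_rep Γ q, he, he']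
    exact L.symm.cusp_eq (hc' _).symm (hc _).symm rfl
  have h2 : ∀ q, e (e' q) = q := by
    intro q
    rw [← cuspMk_rep Γ' q, he', he]
    exact L.cusp_eq (hc _) (hc' _) rfl
  have hbij : Function.Bijective e :=
    ⟨Function.LeftInverse.injective h1, Function.RightInverse.surjective h2⟩
  refine finsum_eq_of_bijective e hbij fun q => ?_
  obtain ⟨γ', hγ', e1⟩ := L.fwd (par Γ (cuspRep Γ q)) (par_mem Γ _)
  have e2 := L.par_eq (hc (cuspRep Γ q)) γ' hγ' e1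
  subst e2
  rw [hFF' (parΓ Γ (cuspRep Γ q)) (parΓ Γ' (c (cuspRep Γ q))) e1]
  have e3 : e q = cuspMk Γ' (c (cuspRep Γ q)) := by
    conv_lhs => rw [← cuspMk_rep Γ q]
    exact he _
  rw [e3, hF'.apply_rep]

/-- **Invariance of `parSum` under conjugation**: if `φ : Γ → Γ'` is onto and
`φ γ = g γ g⁻¹` for an integral matrix `g` of positive determinant, then
`parSum Γ (F' ∘ φ) = parSum Γ' F'`. -/
theorem parSum_iso [Γ.FiniteIndex] [Γ'.FiniteIndex] (hg : 0 < g.det) (φ : Γ → Γ')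
    (hφ : ∀ γ : Γ, (((φ γ : Γ') : SL(2, ℤ)) : Matrix (Fin 2) (Fin 2) ℤ) * g
      = g * ((γ : SL(2, ℤ)) : Matrix (Fin 2) (Fin 2) ℤ))
    (hsurj : Function.Surjective φ) {A : Type*} [AddCommMonoid A] (F' : Γ' → A)
    (hF' : ConjInv Γ' F') : parSum Γ (fun γ => F' (φ γ)) = parSum Γ' F' := by
  have L : Link Γ Γ' g :=
    { det_pos := hg
      fwd := fun γ hγ => ⟨φ ⟨γ, hγ⟩, (φ ⟨γ, hγ⟩).2, hφ ⟨γ, hγ⟩⟩
      bwd := fun γ' hγ' => by
        obtain ⟨γ, e⟩ := hsurj ⟨γ', hγ'⟩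
        refine ⟨γ, γ.2, ?_⟩
        have := hφ γ
        rw [e] at this
        exact this }
  refine parSum_link L _ F' hF' fun γ γ' e => ?_
  have h1 : φ γ = γ' := by
    apply Subtype.ext
    apply Subtype.ext
    have h2 : (((φ γ : Γ') : SL(2, ℤ)) : Matrix (Fin 2) (Fin 2) ℤ) * g
        = ((γ' : SL(2, ℤ)) : Matrix (Fin 2) (Fin 2) ℤ) * g := by rw [hφ, e]
    have h3 := congrArg (· * g.adjugate) h2
    simp only [Matrix.mul_assoc, Matrix.mul_adjugate] at h3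
    rw [Matrix.mul_smul, Matrix.mul_smul, Matrix.mul_one, Matrix.mul_one] at h3
    exact smul_right_injective _ hg.ne' h3
  rw [h1]

end Iso

end Fermat.Agent.S41_ParSum
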