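import Mathlib

/-
S51 (part IV): rational points of `X₀(15)`.

Main results:
* `no_points`   : every rational point of `y² = x (x - 1) (x - 81)` has `y = 0`;
* `x015_points` : the affine rational points of `Y² = X (X + 9) (X - 16)` have
  `X ∈ {0, -9, 16, -4, 36}`.

Method: integer 2-descent classes, doubling, and halving with a strictly smaller numerator.
-/

set_option autoImplicit false

namespace Fermat.Agent.S51_Descent

/-- a rational number whose square is an integer is an integer -/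
theorem int_of_sq (r : ℚ) (m : ℤ) (h : r ^ 2 = m) : ∃ n : ℤ, r = n := by
  have h1 := congrArg Rat.den h
  rw [Rat.den_pow, Rat.den_intCast] at h1
  have h2 : r.den = 1 := by
    rcases Nat.pow_eq_one.1 h1 with h3 | h3
    · exact h3
    · exact absurd h3 (by norm_num)
  exact ⟨r.num, ((Rat.den_eq_one_iff r).1 h2).symm⟩

/-- splitting off the gcd of two factors of a nonzero square -/
theorem gcd_split (X Y M : ℤ) (hM : M ≠ 0) (h : X * Y = M ^ 2) :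
    ∃ (X₂ Y₂ M₂ s t σ : ℤ), (σ = 1 ∨ σ = -1) ∧ X = (Int.gcd X Y : ℤ) * X₂ ∧
      Y = (Int.gcd X Y : ℤ) * Y₂ ∧ X₂ * Y₂ = M₂ ^ 2 ∧ M₂ ≠ 0 ∧ X₂ = σ * s ^ 2 ∧ Y₂ = σ * t ^ 2 := by
  have hXY : X * Y ≠ 0 := by rw [h]; exact pow_ne_zero 2 hM
  have hX : X ≠ 0 := left_ne_zero_of_mul hXY
  have hY : Y ≠ 0 := right_ne_zero_of_mul hXY
  have hg0 : Int.gcd X Y ≠ 0 := by
    intro h0
    exact hX (Int.gcd_eq_zero_iff.1 h0).1
  have hgpos : 0 < Int.gcd X Y := Nat.pos_of_ne_zero hg0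
  have hgZ : (Int.gcd X Y : ℤ) ≠ 0 := by exact_mod_cast hg0
  obtain ⟨X₂, hX₂⟩ := Int.gcd_dvd_left X Y
  obtain ⟨Y₂, hY₂⟩ := Int.gcd_dvd_right X Y
  have hcop : Int.gcd X₂ Y₂ = 1 := by
    have h1 := Int.gcd_div_gcd_div_gcd hgpos
    have e1 : X / (Int.gcd X Y : ℤ) = X₂ := Int.ediv_eq_of_eq_mul_right hgZ hX₂
    have e2 : Y / (Int.gcd X Y : ℤ) = Y₂ := Int.ediv_eq_of_eq_mul_right hgZ hY₂
    rwa [e1, e2] at h1
  set g : ℤ := (Int.gcd X Y : ℤ) with hg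
  have hsq : g ^ 2 * (X₂ * Y₂) = M ^ 2 := by
    rw [← h]; conv_rhs => rw [hX₂, hY₂]
    ring
  have hgM : g ∣ M := by
    have : g ^ 2 ∣ M ^ 2 := ⟨X₂ * Y₂, hsq.symm⟩
    exact (Int.pow_dvd_pow_iff two_ne_zero).1 this
  obtain ⟨M₂, hM₂⟩ := hgM
  have hM₂0 : M₂ ≠ 0 := by
    rintro rfl
    exact hM (by rw [hM₂, mul_zero])
  have hprod : X₂ * Y₂ = M₂ ^ 2 := by
    have : g ^ 2 * (X₂ * Y₂) = g ^ 2 * M₂ ^ 2 := by rw [hsq, hM₂]; ring
    exact mul_left_cancel₀ (pow_ne_zero 2 hgZ) this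
  have hX₂0 : X₂ ≠ 0 := by
    rintro rfl
    exact hX (by rw [hX₂, mul_zero])
  have hY₂0 : Y₂ ≠ 0 := by
    rintro rfl
    exact hY (by rw [hY₂, mul_zero])
  obtain ⟨s, hs⟩ := Int.sq_of_gcd_eq_one hcop hprod
  have hcop' : Int.gcd Y₂ X₂ = 1 := by rw [Int.gcd_comm]; exact hcop
  have hprod' : Y₂ * X₂ = M₂ ^ 2 := by rw [mul_comm]; exact hprod
  obtain ⟨t, ht⟩ := Int.sq_of_gcd_eq_one hcop' hprod'
  have hpos : 0 < X₂ * Y₂ := by rw [hprod]; positivity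
  have hs0 : s ≠ 0 := by
    rintro rfl
    rcases hs with hs | hs <;> simp at hs <;> exact hX₂0 hs
  have ht0 : t ≠ 0 := by
    rintro rfl
    rcases ht with ht | ht <;> simp at ht <;> exact hY₂0 ht
  have hs2 : 0 < s ^ 2 := by positivity
  have ht2 : 0 < t ^ 2 := by positivity
  rcases hs with hs | hs <;> rcases ht with ht | ht
  · exact ⟨X₂, Y₂, M₂, s, t, 1, Or.inl rfl, hX₂, hY₂, hprod, hM₂0, by rw [hs]; ring, by rw [ht]; ring⟩
  · exfalso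
    rw [hs, ht] at hpos
    nlinarith
  · exfalso
    rw [hs, ht] at hpos
    nlinarith
  · exact ⟨X₂, Y₂, M₂, s, t, -1, Or.inr rfl, hX₂, hY₂, hprod, hM₂0, by rw [hs]; ring, by rw [ht]; ring⟩

theorem zmod3_aux : ∀ x ee m : ZMod 3, x ≠ 0 → ee ≠ 0 → x * (-ee ^ 2) * x = m ^ 2 → False := by
  decide

theorem zmod8_aux : ∀ x ee m : ZMod 8, 4 * x ≠ 0 → 4 * ee ≠ 0 → x * (x - 2 * ee ^ 2) = m ^ 2 → False := by
  decide

theorem eight_dvd_or_odd (a e : ℤ) (h : IsCoprime a e) :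
    (8 : ℤ) ∣ a ^ 2 - e ^ 2 ∨ ¬ (2 : ℤ) ∣ a ^ 2 - e ^ 2 := by
  have hne : ¬ ((2 : ℤ) ∣ a ∧ (2 : ℤ) ∣ e) := by
    rintro ⟨h1, h2⟩
    have := h.isUnit_of_dvd' h1 h2
    have h3 := Int.isUnit_iff.1 this
    omega
  have key : ∀ z : ℤ, z ^ 2 % 8 = 0 ∨ z ^ 2 % 8 = 1 ∨ z ^ 2 % 8 = 4 := by
    intro z
    have h8 : z % 8 = 0 ∨ z % 8 = 1 ∨ z % 8 = 2 ∨ z % 8 = 3 ∨ z % 8 = 4 ∨ z % 8 = 5 ∨
        z % 8 = 6 ∨ z % 8 = 7 := by omega
    rcases h8 with h8 | h8 | h8 | h8 | h8 | h8 | h8 | h8 <;>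
      simp [pow_two, Int.mul_emod, h8]
  have keyodd : ∀ z : ℤ, ¬ (2 : ℤ) ∣ z → z ^ 2 % 8 = 1 := by
    intro z hz
    have h8 : z % 8 = 1 ∨ z % 8 = 3 ∨ z % 8 = 5 ∨ z % 8 = 7 := by omega
    rcases h8 with h8 | h8 | h8 | h8 <;> simp [pow_two, Int.mul_emod, h8]
  have keyeven : ∀ z : ℤ, (2 : ℤ) ∣ z → z ^ 2 % 8 = 0 ∨ z ^ 2 % 8 = 4 := by
    intro z hz
    have h8 : z % 8 = 0 ∨ z % 8 = 2 ∨ z % 8 = 4 ∨ z % 8 = 6 := by omega
    rcases h8 with h8 | h8 | h8 | h8 <;> simp [pow_two, Int.mul_emod, h8]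
  by_cases ha : (2 : ℤ) ∣ a <;> by_cases he : (2 : ℤ) ∣ e
  · exact absurd ⟨ha, he⟩ hne
  · right
    have h1 := keyeven a ha
    have h2 := keyodd e he
    omega
  · right
    have h1 := keyodd a ha
    have h2 := keyeven e he
    omega
  · left
    have h1 := keyodd a ha
    have h2 := keyodd e he
    omega

theorem dvd_81 (G : ℕ) (h : G ∣ 81) : G = 1 ∨ G = 3 ∨ G = 9 ∨ G = 27 ∨ G = 81 := by
  have h1 : G ≤ 81 := Nat.le_of_dvd (by norm_num) h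
  interval_cases G <;> omega

theorem dvd_80 (G : ℕ) (h : G ∣ 80) :
    G = 1 ∨ G = 2 ∨ G = 4 ∨ G = 5 ∨ G = 8 ∨ G = 10 ∨ G = 16 ∨ G = 20 ∨ G = 40 ∨ G = 80 := by
  have h1 : G ≤ 80 := Nat.le_of_dvd (by norm_num) h
  interval_cases G <;> omega

theorem mod3_contra (X e M c1 c2 : ℤ) (hX : ¬ (3 : ℤ) ∣ X) (he : ¬ (3 : ℤ) ∣ e)
    (h : X * (3 * c1 - e ^ 2) * (X - 3 * c2) = M ^ 2) : False := by
  have h1 := congrArg (Int.cast : ℤ → ZMod 3) h
  push_cast at h1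
  have h3 : (3 : ZMod 3) = 0 := by decide
  rw [h3] at h1
  simp only [zero_mul, zero_sub, sub_zero] at h1
  refine zmod3_aux (X : ZMod 3) (e : ZMod 3) (M : ZMod 3) ?_ ?_ h1
  · intro h0
    exact hX ((ZMod.intCast_zmod_eq_zero_iff_dvd X 3).1 h0)
  · intro h0
    exact he ((ZMod.intCast_zmod_eq_zero_iff_dvd e 3).1 h0)

theorem mod8_contra (X e M c : ℤ) (hX : ¬ (2 : ℤ) ∣ X) (he : ¬ (2 : ℤ) ∣ e)
    (h : X * (X - (2 + 8 * c) * e ^ 2) = M ^ 2) : False := by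
  have h1 := congrArg (Int.cast : ℤ → ZMod 8) h
  push_cast at h1
  have h8 : (8 : ZMod 8) = 0 := by decide
  rw [h8] at h1
  simp only [zero_mul, add_zero] at h1
  refine zmod8_aux (X : ZMod 8) (e : ZMod 8) (M : ZMod 8) ?_ ?_ h1
  · intro h0
    have h2 : ((4 * X : ℤ) : ZMod 8) = 0 := by push_cast; exact h0
    have h3 := (ZMod.intCast_zmod_eq_zero_iff_dvd (4 * X) 8).1 h2
    push_cast at h3
    omega
  · intro h0
    have h2 : ((4 * e : ℤ) : ZMod 8) = 0 := by push_cast; exact h0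
    have h3 := (ZMod.intCast_zmod_eq_zero_iff_dvd (4 * e) 8).1 h2
    push_cast at h3
    omega

theorem sq_quot (a Y M : ℤ) (ha : a ≠ 0) (hM : M ≠ 0) (h : a ^ 2 * Y = M ^ 2) :
    ∃ M' : ℤ, M' ≠ 0 ∧ Y = M' ^ 2 := by
  have h1 : a ∣ M := by
    have : a ^ 2 ∣ M ^ 2 := ⟨Y, h.symm⟩
    exact (Int.pow_dvd_pow_iff two_ne_zero).1 this
  obtain ⟨M', rfl⟩ := h1
  refine ⟨M', ?_, ?_⟩
  · rintro rfl
    exact hM (mul_zero a)
  · have : a ^ 2 * Y = a ^ 2 * M' ^ 2 := by rw [h]; ring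
    exact mul_left_cancel₀ (pow_ne_zero 2 ha) this


theorem classify_p (p q n : ℤ) (hq : 0 < q) (hcop : IsCoprime p q) (hn : n ≠ 0)
    (h : n ^ 2 = p * q * (p - q) * (p - 81 * q)) :
    ∃ a e M : ℤ, a ≠ 0 ∧ e ≠ 0 ∧ M ≠ 0 ∧ p = a ^ 2 ∧ q = e ^ 2 ∧
      (p - q) * (p - 81 * q) = M ^ 2 := by
  have hc1 : IsCoprime q (p - q) := by
    have := hcop.symm.add_mul_left_right (-1)
    have e1 : p + q * (-1) = p - q := by ring
    rwa [e1] at this
  have hc2 : IsCoprime q (p - 81 * q) := by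
    have := hcop.symm.add_mul_left_right (-81)
    have e1 : p + q * (-81) = p - 81 * q := by ring
    rwa [e1] at this
  have hc3 : IsCoprime q (p * (p - q) * (p - 81 * q)) :=
    (hcop.symm.mul_right hc1).mul_right hc2
  have hprod : q * (p * (p - q) * (p - 81 * q)) = n ^ 2 := by rw [h]; ring
  have hn2 : 0 < n ^ 2 := by positivity
  have hRpos : 0 < p * (p - q) * (p - 81 * q) := by
    by_contra hneg
    have hneg' := not_lt.1 hneg
    have : q * (p * (p - q) * (p - 81 * q)) ≤ 0 := mul_nonpos_of_nonneg_of_nonpos hq.le hneg'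
    linarith
  obtain ⟨e, he⟩ := Int.sq_of_isCoprime hc3 hprod
  have hqe : q = e ^ 2 := by
    rcases he with he | he
    · exact he
    · exfalso
      have := sq_nonneg e
      linarith
  have he0 : e ≠ 0 := by
    rintro rfl
    simp at hqe
    omega
  obtain ⟨M, hM⟩ := Int.sq_of_isCoprime hc3.symm (by rw [mul_comm]; exact hprod)
  have hRM : p * (p - q) * (p - 81 * q) = M ^ 2 := by
    rcases hM with hM | hM
    · exact hM
    · exfalso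
      have := sq_nonneg M
      linarith
  have hM0 : M ≠ 0 := by
    rintro rfl
    rw [hRM] at hRpos
    norm_num at hRpos
  have hp : 0 < p := by
    by_contra hneg'
    have hneg := not_lt.1 hneg'
    have h1 : p - q < 0 := by linarith
    have h2 : p - 81 * q < 0 := by linarith
    have h3 : 0 < (p - q) * (p - 81 * q) := mul_pos_of_neg_of_neg h1 h2
    have h4 : p * ((p - q) * (p - 81 * q)) ≤ 0 := mul_nonpos_of_nonpos_of_nonneg hneg h3.le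
    linarith [mul_assoc p (p - q) (p - 81 * q)]
  -- it suffices to show that p is a square
  suffices hsq : ∃ a : ℤ, p = a ^ 2 by
    obtain ⟨a, ha⟩ := hsq
    have ha0 : a ≠ 0 := by
      rintro rfl
      simp at ha
      omega
    have h5 : a ^ 2 * ((p - q) * (p - 81 * q)) = M ^ 2 := by rw [← hRM, ← ha]; ring
    obtain ⟨M', hM', hM'2⟩ := sq_quot a _ M ha0 hM0 h5
    exact ⟨a, e, M', ha0, he0, hM', ha, hqe, hM'2⟩
  obtain ⟨X₂, Y₂, M₂, s, t, σ, hσ, hX, hY, hXY, hM₂, hXs, hYt⟩ :=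
    gcd_split p ((p - q) * (p - 81 * q)) M hM0 (by rw [← hRM]; ring)
  have hGp : ((Int.gcd p ((p - q) * (p - 81 * q)) : ℕ) : ℤ) ∣ p := Int.gcd_dvd_left _ _
  have hGY : ((Int.gcd p ((p - q) * (p - 81 * q)) : ℕ) : ℤ) ∣ (p - q) * (p - 81 * q) :=
    Int.gcd_dvd_right _ _
  have hGmax : ∀ d : ℤ, d ∣ p → d ∣ (p - q) * (p - 81 * q) →
      d ∣ ((Int.gcd p ((p - q) * (p - 81 * q)) : ℕ) : ℤ) := fun d h1 h2 => Int.dvd_coe_gcd h1 h2
  generalize Int.gcd p ((p - q) * (p - 81 * q)) = G at hX hY hGp hGY hGmax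
  have hcp1 : IsCoprime p (p - q) := by
    have := hcop.neg_right.add_mul_left_right 1
    have e1 : -q + p * 1 = p - q := by ring
    rwa [e1] at this
  have hG1 : IsCoprime (G : ℤ) (p - q) := IsCoprime.of_isCoprime_of_dvd_left hcp1 hGp
  have hGq : IsCoprime (G : ℤ) q := IsCoprime.of_isCoprime_of_dvd_left hcop hGp
  have hG2 : (G : ℤ) ∣ p - 81 * q := hG1.dvd_of_dvd_mul_left hGY
  have hG3 : (G : ℤ) ∣ 81 * q := by
    have := dvd_sub hGp hG2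
    have e1 : p - (p - 81 * q) = 81 * q := by ring
    rwa [e1] at this
  have hG4 : (G : ℤ) ∣ 81 := hGq.dvd_of_dvd_mul_right hG3
  have hG5 : G ∣ 81 := by exact_mod_cast hG4
  have hσ1 : σ = 1 := by
    rcases hσ with hσ | hσ
    · exact hσ
    · exfalso
      rw [hX, hXs, hσ] at hp
      have h1 : (0 : ℤ) ≤ (G : ℤ) := Int.natCast_nonneg G
      have h2 := sq_nonneg s
      have h3 : 0 ≤ (G : ℤ) * s ^ 2 := mul_nonneg h1 h2
      linarith
  rw [hσ1, one_mul] at hXs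
  have he3 : (3 : ℤ) ∣ p → ¬ (3 : ℤ) ∣ e := by
    intro h3p h3
    have h3q : (3 : ℤ) ∣ q := by rw [hqe]; exact dvd_pow h3 two_ne_zero
    have := hcop.isUnit_of_dvd' h3p h3q
    have := Int.isUnit_iff.1 this
    omega
  rcases dvd_81 G hG5 with hG6 | hG6 | hG6 | hG6 | hG6
  · subst hG6
    exact ⟨s, by rw [hX, hXs]; push_cast; ring⟩
  · subst hG6
    exfalso
    push_cast at hX hY
    have hY2 : Y₂ = (3 * X₂ - q) * (X₂ - 27 * q) := by
      have : (3 : ℤ) * Y₂ = 3 * ((3 * X₂ - q) * (X₂ - 27 * q)) := by rw [← hY, hX]; ring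
      exact mul_left_cancel₀ (by norm_num) this
    have hX3 : ¬ (3 : ℤ) ∣ X₂ := by
      rintro ⟨k, hk⟩
      have h9p : (9 : ℤ) ∣ p := ⟨k, by rw [hX, hk]; ring⟩
      have h9Y : (9 : ℤ) ∣ (p - q) * (p - 81 * q) :=
        Dvd.dvd.mul_left ⟨k - 9 * q, by rw [hX, hk]; ring⟩ _
      have := hGmax 9 h9p h9Y
      norm_num at this
    refine mod3_contra X₂ e M₂ X₂ (9 * e ^ 2) hX3 (he3 ⟨X₂, hX⟩) ?_
    rw [← hXY, hY2, hqe]; ring
  · subst hG6
    exact ⟨3 * s, by rw [hX, hXs]; push_cast; ring⟩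
  · subst hG6
    exfalso
    push_cast at hX hY
    have hY2 : Y₂ = (27 * X₂ - q) * (X₂ - 3 * q) := by
      have : (27 : ℤ) * Y₂ = 27 * ((27 * X₂ - q) * (X₂ - 3 * q)) := by rw [← hY, hX]; ring
      exact mul_left_cancel₀ (by norm_num) this
    have hX3 : ¬ (3 : ℤ) ∣ X₂ := by
      rintro ⟨k, hk⟩
      have h9p : (81 : ℤ) ∣ p := ⟨k, by rw [hX, hk]; ring⟩
      have h9Y : (81 : ℤ) ∣ (p - q) * (p - 81 * q) :=
        Dvd.dvd.mul_left ⟨k - q, by rw [hX, hk]; ring⟩ _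
      have := hGmax 81 h9p h9Y
      norm_num at this
    refine mod3_contra X₂ e M₂ (9 * X₂) (e ^ 2) hX3 (he3 ⟨9 * X₂, by rw [hX]; ring⟩) ?_
    rw [← hXY, hY2, hqe]; ring
  · subst hG6
    exact ⟨9 * s, by rw [hX, hXs]; push_cast; ring⟩


theorem classify_b (a e M : ℤ) (hcop : IsCoprime a e) (hM : M ≠ 0)
    (h : (a ^ 2 - e ^ 2) * (a ^ 2 - 81 * e ^ 2) = M ^ 2) :
    ∃ b δ : ℤ, b ≠ 0 ∧ (δ = 1 ∨ δ = -1 ∨ δ = 5 ∨ δ = -5) ∧ a ^ 2 - e ^ 2 = δ * b ^ 2 := by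
  obtain ⟨B₂, C₂, M₂, s, t, σ, hσ, hB, hC, hBC, hM₂, hBs, hCt⟩ :=
    gcd_split (a ^ 2 - e ^ 2) (a ^ 2 - 81 * e ^ 2) M hM h
  have hGB : ((Int.gcd (a ^ 2 - e ^ 2) (a ^ 2 - 81 * e ^ 2) : ℕ) : ℤ) ∣ a ^ 2 - e ^ 2 :=
    Int.gcd_dvd_left _ _
  have hGC : ((Int.gcd (a ^ 2 - e ^ 2) (a ^ 2 - 81 * e ^ 2) : ℕ) : ℤ) ∣ a ^ 2 - 81 * e ^ 2 :=
    Int.gcd_dvd_right _ _
  have hGmax : ∀ d : ℤ, d ∣ a ^ 2 - e ^ 2 → d ∣ a ^ 2 - 81 * e ^ 2 →
      d ∣ ((Int.gcd (a ^ 2 - e ^ 2) (a ^ 2 - 81 * e ^ 2) : ℕ) : ℤ) :=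
    fun d h1 h2 => Int.dvd_coe_gcd h1 h2
  generalize Int.gcd (a ^ 2 - e ^ 2) (a ^ 2 - 81 * e ^ 2) = G at hB hC hGB hGC hGmax
  have hcop2 : IsCoprime (a ^ 2) (e ^ 2) := hcop.pow
  have hcB : IsCoprime (a ^ 2 - e ^ 2) (e ^ 2) := by
    have := hcop2.add_mul_right_left (-1)
    have e1 : a ^ 2 + -1 * e ^ 2 = a ^ 2 - e ^ 2 := by ring
    rwa [e1] at this
  have hGe : IsCoprime (G : ℤ) (e ^ 2) := IsCoprime.of_isCoprime_of_dvd_left hcB hGB
  have hG80 : (G : ℤ) ∣ 80 * e ^ 2 := by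
    have := dvd_sub hGB hGC
    have e1 : a ^ 2 - e ^ 2 - (a ^ 2 - 81 * e ^ 2) = 80 * e ^ 2 := by ring
    rwa [e1] at this
  have hG4 : (G : ℤ) ∣ 80 := hGe.dvd_of_dvd_mul_right hG80
  have hG5 : G ∣ 80 := by exact_mod_cast hG4
  have hB0 : a ^ 2 - e ^ 2 ≠ 0 := by
    intro h0
    rw [h0, zero_mul] at h
    exact hM (pow_eq_zero_iff two_ne_zero |>.1 h.symm)
  have hs0 : s ≠ 0 := by
    rintro rfl
    apply hB0
    rw [hB, hBs]; ring
  have hC2 : (G : ℤ) * C₂ = (G : ℤ) * B₂ - 80 * e ^ 2 := by rw [← hB, ← hC]; ring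
  have hδ : ∀ k : ℤ, k ≠ 0 → a ^ 2 - e ^ 2 = σ * (k * s) ^ 2 →
      ∃ b δ : ℤ, b ≠ 0 ∧ (δ = 1 ∨ δ = -1 ∨ δ = 5 ∨ δ = -5) ∧ a ^ 2 - e ^ 2 = δ * b ^ 2 := by
    intro k hk hh
    refine ⟨k * s, σ, mul_ne_zero hk hs0, ?_, hh⟩
    rcases hσ with hσ | hσ
    · exact Or.inl hσ
    · exact Or.inr (Or.inl hσ)
  have hδ5 : ∀ k : ℤ, k ≠ 0 → a ^ 2 - e ^ 2 = (5 * σ) * (k * s) ^ 2 →
      ∃ b δ : ℤ, b ≠ 0 ∧ (δ = 1 ∨ δ = -1 ∨ δ = 5 ∨ δ = -5) ∧ a ^ 2 - e ^ 2 = δ * b ^ 2 := by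
    intro k hk hh
    refine ⟨k * s, 5 * σ, mul_ne_zero hk hs0, ?_, hh⟩
    rcases hσ with hσ | hσ
    · exact Or.inr (Or.inr (Or.inl (by rw [hσ]; norm_num)))
    · exact Or.inr (Or.inr (Or.inr (by rw [hσ]; norm_num)))
  rcases eight_dvd_or_odd a e hcop with h8 | hodd
  · have h8C : (8 : ℤ) ∣ a ^ 2 - 81 * e ^ 2 := by
      have e1 : a ^ 2 - 81 * e ^ 2 = (a ^ 2 - e ^ 2) - 8 * (10 * e ^ 2) := by ring
      rw [e1]; exact dvd_sub h8 (dvd_mul_right _ _)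
    have h8G : (8 : ℤ) ∣ (G : ℤ) := hGmax 8 h8 h8C
    have heodd : ¬ (2 : ℤ) ∣ e := by
      intro h2
      have h2a : (2 : ℤ) ∣ a := by
        have : (2 : ℤ) ∣ a ^ 2 := by
          have e1 : a ^ 2 = (a ^ 2 - e ^ 2) + e ^ 2 := by ring
          rw [e1]
          exact dvd_add (dvd_trans (by norm_num) h8) (dvd_pow h2 two_ne_zero)
        exact Int.prime_two.dvd_of_dvd_pow this
      have := hcop.isUnit_of_dvd' h2a h2
      have := Int.isUnit_iff.1 this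
      omega
    rcases dvd_80 G hG5 with hG6 | hG6 | hG6 | hG6 | hG6 | hG6 | hG6 | hG6 | hG6 | hG6 <;>
      subst hG6
    · norm_num at h8G
    · norm_num at h8G
    · norm_num at h8G
    · norm_num at h8G
    · -- G = 8
      exfalso
      push_cast at hB hC hC2
      have hC3 : C₂ = B₂ - 10 * e ^ 2 := by linarith
      have hBodd : ¬ (2 : ℤ) ∣ B₂ := by
        rintro ⟨k, hk⟩
        have h16B : (16 : ℤ) ∣ a ^ 2 - e ^ 2 := ⟨k, by rw [hB, hk]; ring⟩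
        have h16C : (16 : ℤ) ∣ a ^ 2 - 81 * e ^ 2 :=
          ⟨k - 5 * e ^ 2, by rw [hC, hC3, hk]; ring⟩
        have := hGmax 16 h16B h16C
        norm_num at this
      refine mod8_contra B₂ e M₂ 1 hBodd heodd ?_
      rw [← hBC, hC3]; ring
    · norm_num at h8G
    · -- G = 16
      exact hδ 4 (by norm_num) (by rw [hB, hBs]; push_cast; ring)
    · norm_num at h8G
    · -- G = 40
      exfalso
      push_cast at hB hC hC2
      have hC3 : C₂ = B₂ - 2 * e ^ 2 := by linarith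
      have hBodd : ¬ (2 : ℤ) ∣ B₂ := by
        rintro ⟨k, hk⟩
        have h16B : (80 : ℤ) ∣ a ^ 2 - e ^ 2 := ⟨k, by rw [hB, hk]; ring⟩
        have h16C : (80 : ℤ) ∣ a ^ 2 - 81 * e ^ 2 :=
          ⟨k - e ^ 2, by rw [hC, hC3, hk]; ring⟩
        have := hGmax 80 h16B h16C
        norm_num at this
      refine mod8_contra B₂ e M₂ 0 hBodd heodd ?_
      rw [← hBC, hC3]; ring
    · -- G = 80
      exact hδ5 4 (by norm_num) (by rw [hB, hBs]; push_cast; ring)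
  · have hGodd : ¬ (2 : ℤ) ∣ (G : ℤ) := fun h2 => hodd (dvd_trans h2 hGB)
    rcases dvd_80 G hG5 with hG6 | hG6 | hG6 | hG6 | hG6 | hG6 | hG6 | hG6 | hG6 | hG6 <;>
      subst hG6
    · exact hδ 1 (by norm_num) (by rw [hB, hBs]; push_cast; ring)
    · norm_num at hGodd
    · norm_num at hGodd
    · exact hδ5 1 (by norm_num) (by rw [hB, hBs]; push_cast; ring)
    · norm_num at hGodd
    · norm_num at hGodd
    · norm_num at hGodd
    · norm_num at hGodd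
    · norm_num at hGodd
    · norm_num at hGodd

theorem classify (p q n : ℤ) (hq : 0 < q) (hcop : IsCoprime p q) (hn : n ≠ 0)
    (h : n ^ 2 = p * q * (p - q) * (p - 81 * q)) :
    ∃ a e b δ : ℤ, a ≠ 0 ∧ e ≠ 0 ∧ b ≠ 0 ∧ p = a ^ 2 ∧ q = e ^ 2 ∧
      (δ = 1 ∨ δ = -1 ∨ δ = 5 ∨ δ = -5) ∧ p - q = δ * b ^ 2 := by
  obtain ⟨a, e, M, ha, he, hM, hpa, hqe, hprod⟩ := classify_p p q n hq hcop hn h
  have hcop' : IsCoprime a e := by
    rw [hpa, hqe] at hcop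
    exact (IsCoprime.pow_iff (by norm_num) (by norm_num)).1 hcop
  obtain ⟨b, δ, hb, hδ, hB⟩ := classify_b a e M hcop' hM (by rw [← hpa, ← hqe]; exact hprod)
  exact ⟨a, e, b, δ, ha, he, hb, hpa, hqe, hδ, by rw [hpa, hqe]; exact hB⟩


/-- nontrivial points (as a property of the abscissa) -/
def Good (x : ℚ) : Prop := ∃ y : ℚ, y ≠ 0 ∧ y ^ 2 = x * (x - 1) * (x - 81)

/-- abscissas in the image of multiplication by two -/
def Sq3 (x : ℚ) : Prop := ∃ u v w : ℚ, x = u ^ 2 ∧ x - 1 = v ^ 2 ∧ x - 81 = w ^ 2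

theorem good_classify_aux (x y : ℚ) (p q : ℤ) (hq : 0 < q) (hcop : IsCoprime p q)
    (hx : x * q = p) (hy0 : y ≠ 0) (hy : y ^ 2 = x * (x - 1) * (x - 81)) :
    ∃ u v δ : ℚ, u ≠ 0 ∧ v ≠ 0 ∧ (δ = 1 ∨ δ = -1 ∨ δ = 5 ∨ δ = -5) ∧ x = u ^ 2 ∧
      x - 1 = δ * v ^ 2 := by
  have hq0 : (q : ℚ) ≠ 0 := by exact_mod_cast hq.ne'
  have hsq : (y * (q : ℚ) ^ 2) ^ 2 = ((p * q * (p - q) * (p - 81 * q) : ℤ) : ℚ) := by
    push_cast
    rw [← hx, mul_pow, hy]; ring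
  obtain ⟨n, hn⟩ := int_of_sq _ _ hsq
  have hn0 : n ≠ 0 := by
    rintro rfl
    have h0 : y * (q : ℚ) ^ 2 = 0 := by rw [hn]; simp
    rcases mul_eq_zero.1 h0 with h | h
    · exact hy0 h
    · exact hq0 (pow_eq_zero_iff two_ne_zero |>.1 h)
  have hn2 : n ^ 2 = p * q * (p - q) * (p - 81 * q) := by
    have : ((n ^ 2 : ℤ) : ℚ) = ((p * q * (p - q) * (p - 81 * q) : ℤ) : ℚ) := by
      rw [← hsq, hn]; push_cast; ring
    exact_mod_cast this
  obtain ⟨a, e, b, δ, ha, he, hb, hpa, hqe, hδ, hB⟩ := classify p q n hq hcop hn0 hn2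
  have he' : (e : ℚ) ≠ 0 := by exact_mod_cast he
  have ha' : (a : ℚ) ≠ 0 := by exact_mod_cast ha
  have hb' : (b : ℚ) ≠ 0 := by exact_mod_cast hb
  have hxq : x = p / q := by rw [eq_div_iff hq0]; exact hx
  have hpa' : (p : ℚ) = a ^ 2 := by exact_mod_cast hpa
  have hqe' : (q : ℚ) = e ^ 2 := by exact_mod_cast hqe
  have hB' : (p : ℚ) - q = δ * b ^ 2 := by exact_mod_cast hB
  refine ⟨a / e, b / e, δ, div_ne_zero ha' he', div_ne_zero hb' he', ?_, ?_, ?_⟩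
  · rcases hδ with h | h | h | h <;> subst h <;> simp
  · rw [hxq, hpa', hqe', div_pow]
  · have h1 : x - 1 = ((p : ℚ) - q) / q := by rw [hxq]; field_simp
    rw [h1, hB', hqe', div_pow, mul_div_assoc]

theorem good_classify (x : ℚ) (hx : Good x) :
    ∃ u v δ : ℚ, u ≠ 0 ∧ v ≠ 0 ∧ (δ = 1 ∨ δ = -1 ∨ δ = 5 ∨ δ = -5) ∧ x = u ^ 2 ∧
      x - 1 = δ * v ^ 2 := by
  obtain ⟨y, hy0, hy⟩ := hx
  refine good_classify_aux x y x.num (x.den : ℤ) (by exact_mod_cast x.den_pos)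
    (Rat.isCoprime_num_den x) ?_ hy0 hy
  have := Rat.mul_den_eq_num x
  exact_mod_cast this

theorem no_sqrt5 (r : ℚ) (h : r ^ 2 = 5) : False := by
  obtain ⟨n, rfl⟩ := int_of_sq r 5 (by exact_mod_cast h)
  have h2 : n ^ 2 = 5 := by exact_mod_cast h
  have h3 : n ≤ 2 := by nlinarith
  have h4 : -2 ≤ n := by nlinarith
  interval_cases n <;> omega

theorem doubling (x : ℚ) (hx : Good x) : ∃ x' : ℚ, Good x' ∧ Sq3 x' := by
  obtain ⟨y, hy0, hy⟩ := hx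
  have h1 : x ^ 2 - 81 ≠ 0 := by
    intro h
    have h2 : (x - 9) * (x + 9) = 0 := by linear_combination h
    rcases mul_eq_zero.1 h2 with h3 | h3
    · have : x = 9 := by linarith
      subst this
      nlinarith [sq_nonneg y]
    · have : x = -9 := by linarith
      subst this
      nlinarith [sq_nonneg y]
  have h2 : x ^ 2 - 2 * x + 81 ≠ 0 := by nlinarith [sq_nonneg (x - 1)]
  have h3 : x ^ 2 - 162 * x + 81 ≠ 0 := by
    intro h
    refine no_sqrt5 ((x - 81) / 36) ?_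
    rw [div_pow, div_eq_iff (by norm_num)]
    linear_combination h
  have h2y : (2 * y) ≠ 0 := mul_ne_zero two_ne_zero hy0
  have e1 : ((x ^ 2 - 81) / (2 * y)) ^ 2 - 1 = ((x ^ 2 - 2 * x + 81) / (2 * y)) ^ 2 := by
    rw [div_pow, div_pow, eq_div_iff (pow_ne_zero 2 h2y), sub_mul,
      div_mul_cancel₀ _ (pow_ne_zero 2 h2y)]
    linear_combination (-4 : ℚ) * hy
  have e2 : ((x ^ 2 - 81) / (2 * y)) ^ 2 - 81 = ((x ^ 2 - 162 * x + 81) / (2 * y)) ^ 2 := by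
    rw [div_pow, div_pow, eq_div_iff (pow_ne_zero 2 h2y), sub_mul,
      div_mul_cancel₀ _ (pow_ne_zero 2 h2y)]
    linear_combination (-324 : ℚ) * hy
  refine ⟨((x ^ 2 - 81) / (2 * y)) ^ 2,
    ⟨(x ^ 2 - 81) * (x ^ 2 - 2 * x + 81) * (x ^ 2 - 162 * x + 81) / (2 * y) ^ 3, ?_, ?_⟩,
    ⟨(x ^ 2 - 81) / (2 * y), (x ^ 2 - 2 * x + 81) / (2 * y), (x ^ 2 - 162 * x + 81) / (2 * y),
      rfl, e1, e2⟩⟩
  · exact div_ne_zero (mul_ne_zero (mul_ne_zero h1 h2) h3) (pow_ne_zero 3 h2y)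
  · rw [e1, e2]; ring

theorem half_good (u v w : ℚ) (h1 : u ^ 2 - v ^ 2 = 1) (h2 : u ^ 2 - w ^ 2 = 81) :
    Good ((u + v) * (u + w)) := by
  have a1 : u + v ≠ 0 := by
    intro h
    have : u = -v := by linarith
    subst this
    norm_num at h1
  have a2 : u + w ≠ 0 := by
    intro h
    have : u = -w := by linarith
    subst this
    norm_num at h2
  have a3 : v + w ≠ 0 := by
    intro h
    have : v = -w := by linarith
    subst this
    linarith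
  have hX1 : (u + v) * (u + w) - 1 = (u + v) * (v + w) := by linear_combination h1
  have hX81 : (u + v) * (u + w) - 81 = (u + w) * (v + w) := by linear_combination h2
  refine ⟨(u + v) * (u + w) * (v + w), mul_ne_zero (mul_ne_zero a1 a2) a3, ?_⟩
  rw [hX1, hX81]; ring


theorem num_bound (u v w : ℚ) (a e : ℤ) (he : e ≠ 0) (hue : u * e = a)
    (h1 : u ^ 2 - v ^ 2 = 1) (h2 : u ^ 2 - w ^ 2 = 81) :
    ((u + v) * (u + w)).num.natAbs < (a ^ 2).natAbs := by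
  have he' : (e : ℚ) ≠ 0 := by exact_mod_cast he
  have hbsq : (v * (e : ℚ)) ^ 2 = ((a ^ 2 - e ^ 2 : ℤ) : ℚ) := by
    push_cast
    rw [← hue]
    linear_combination (-(e : ℚ) ^ 2) * h1
  have hcsq : (w * (e : ℚ)) ^ 2 = ((a ^ 2 - 81 * e ^ 2 : ℤ) : ℚ) := by
    push_cast
    rw [← hue]
    linear_combination (-(e : ℚ) ^ 2) * h2
  obtain ⟨b, hb⟩ := int_of_sq _ _ hbsq
  obtain ⟨c, hc⟩ := int_of_sq _ _ hcsq
  have hc2 : c ^ 2 = a ^ 2 - 81 * e ^ 2 := by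
    have : ((c ^ 2 : ℤ) : ℚ) = ((a ^ 2 - 81 * e ^ 2 : ℤ) : ℚ) := by
      rw [← hcsq, hc]; push_cast; ring
    exact_mod_cast this
  have huv : (u + v) * (u - v) = 1 := by linear_combination h1
  have hab : a - b ≠ 0 := by
    intro h
    have h' : (a : ℚ) - b = 0 := by exact_mod_cast h
    rw [← hue, ← hb] at h'
    have : (u - v) * e = 0 := by linear_combination h'
    rcases mul_eq_zero.1 this with h3 | h3
    · rw [h3, mul_zero] at huv; exact zero_ne_one huv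
    · exact he' h3
  have hab' : ((a - b : ℤ) : ℚ) ≠ 0 := by exact_mod_cast hab
  have hx1 : (u + v) * (u + w) = Rat.divInt (a + c) (a - b) := by
    rw [Rat.divInt_eq_div, eq_div_iff hab']
    push_cast
    rw [← hue, ← hb, ← hc]
    linear_combination (u + w) * e * huv
  have hdvd : ((u + v) * (u + w)).num ∣ a + c := by
    rw [hx1]; exact Rat.num_dvd _ hab
  have he2 : 1 ≤ e ^ 2 := by
    have : 0 < e ^ 2 := by positivity
    omega
  have hac : a + c ≠ 0 := by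
    intro h
    have : c = -a := by linarith
    subst this
    nlinarith
  have hle := Int.natAbs_le_of_dvd_ne_zero hdvd hac
  refine lt_of_le_of_lt hle ?_
  rw [Int.natAbs_lt_iff_sq_lt]
  have hA : 81 ≤ a ^ 2 := by nlinarith [sq_nonneg c]
  have h3 : (a + c) ^ 2 ≤ 4 * a ^ 2 := by nlinarith [sq_nonneg (a - c), sq_nonneg e]
  nlinarith

theorem halving (x : ℚ) (hs : Sq3 x) :
    ∃ x₁ : ℚ, Good x₁ ∧ Sq3 x₁ ∧ x₁.num.natAbs < x.num.natAbs := by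
  obtain ⟨u, v, w, hu, hv, hw⟩ := hs
  have h1 : u ^ 2 - v ^ 2 = 1 := by linarith
  have h2 : u ^ 2 - w ^ 2 = 81 := by linarith
  have hvw : v + w ≠ 0 := by
    intro h
    have : v = -w := by linarith
    subst this
    linarith
  obtain ⟨U, V, δ, hU0, hV0, hδ, hxU, hxV⟩ := good_classify _ (half_good u v w h1 h2)
  have hP : (u + v) * (v + w) = δ * V ^ 2 := by linear_combination hxV - h1
  have key : ∃ σ τ : ℚ, σ ^ 2 = 1 ∧ τ ^ 2 = 1 ∧
      ∃ V₁ : ℚ, (u + σ * v) * (u + τ * w) - 1 = V₁ ^ 2 := by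
    rcases hδ with h | h | h | h <;> subst h
    · exact ⟨1, 1, by norm_num, by norm_num, V, by rw [one_mul, one_mul, hxV, one_mul]⟩
    · refine ⟨-1, -1, by norm_num, by norm_num, (u - v) * V, ?_⟩
      linear_combination (1 + (u - v) * (v + w) + (u - v) ^ 2) * h1 - (u - v) ^ 2 * hxV
    · refine ⟨1, -1, by norm_num, by norm_num, 20 * V / (v + w), ?_⟩
      rw [div_pow, eq_div_iff (pow_ne_zero 2 hvw)]
      linear_combination 80 * hP + ((v + w) ^ 2 - (u + v) * (v + w)) * h1 +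
        (u + v) * (v + w) * h2
    · refine ⟨-1, 1, by norm_num, by norm_num, 20 * V * (u - v) / (v + w), ?_⟩
      rw [div_pow, eq_div_iff (pow_ne_zero 2 hvw)]
      linear_combination (-80 * (u - v) ^ 2) * hP +
        (80 * (u - v) * (v + w) + (u - v) * (v + w) + (v + w) ^ 2) * h1 -
        (u - v) * (v + w) * h2
  obtain ⟨σ, τ, hσ, hτ, V₁, hV₁⟩ := key
  have h1' : u ^ 2 - (σ * v) ^ 2 = 1 := by rw [mul_pow, hσ, one_mul]; exact h1
  have h2' : u ^ 2 - (τ * w) ^ 2 = 81 := by rw [mul_pow, hτ, one_mul]; exact h2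
  generalize σ * v = v' at h1' hV₁
  generalize τ * w = w' at h2' hV₁
  have hg : Good ((u + v') * (u + w')) := half_good u v' w' h1' h2'
  obtain ⟨U₁, _, _, hU₁0, _, _, hxU₁, _⟩ := good_classify _ hg
  refine ⟨(u + v') * (u + w'), hg, ?_, ?_⟩
  · obtain ⟨y₁, hy₁0, hy₁⟩ := hg
    have hV₁0 : V₁ ≠ 0 := by
      rintro rfl
      rw [hV₁] at hy₁
      apply hy₁0
      have : y₁ ^ 2 = 0 := by rw [hy₁]; ring
      exact pow_eq_zero_iff two_ne_zero |>.1 this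
    refine ⟨U₁, V₁, y₁ / (U₁ * V₁), hxU₁, hV₁, ?_⟩
    rw [div_pow, eq_div_iff (pow_ne_zero 2 (mul_ne_zero hU₁0 hV₁0)), hy₁, hV₁, mul_pow,
      ← hxU₁]
    ring
  · have hxnum : x.num = u.num ^ 2 := by rw [hu, Rat.num_pow]
    rw [hxnum]
    refine num_bound u v' w' u.num (u.den : ℤ) (by exact_mod_cast u.den_ne_zero) ?_ h1' h2'
    have := Rat.mul_den_eq_num u
    exact_mod_cast this

theorem no_sq3 : ∀ (N : ℕ) (x : ℚ), x.num.natAbs = N → Sq3 x → False := by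
  intro N
  induction N using Nat.strong_induction_on with
  | _ N ih =>
    intro x hN hs
    obtain ⟨x₁, _, hs₁, hlt⟩ := halving x hs
    exact ih _ (hN ▸ hlt) x₁ rfl hs₁

theorem not_good (x : ℚ) : ¬ Good x := by
  intro hx
  obtain ⟨x', _, hs'⟩ := doubling x hx
  exact no_sq3 _ x' rfl hs'

/-- The rational points of `y² = x (x - 1) (x - 81)` (a curve 2-isogenous to `X₀(15)`)
all have `y = 0`. -/
theorem no_points : ∀ x y : ℚ, y ^ 2 = x * (x - 1) * (x - 81) → y = 0 := by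
  intro x y h
  by_contra hy
  exact not_good x ⟨y, hy, h⟩

/-- The affine rational points of `Y² = X (X + 9) (X - 16)` (a model of `X₀(15)`). -/
theorem x015_points : ∀ X Y : ℚ, Y ^ 2 = X * (X + 9) * (X - 16) →
    X = 0 ∨ X = -9 ∨ X = 16 ∨ X = -4 ∨ X = 36 := by
  intro X Y h
  by_cases h16 : X = 16
  · exact Or.inr (Or.inr (Or.inl h16))
  have hX : X - 16 ≠ 0 := sub_ne_zero.2 h16
  have key := no_points (X * (X + 9) / (X - 16)) (Y * (X ^ 2 - 32 * X - 144) / (X - 16) ^ 2) (by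
    field_simp
    linear_combination (X ^ 2 - 32 * X - 144) ^ 2 * h)
  rcases div_eq_zero_iff.1 key with h0 | h0
  · rcases mul_eq_zero.1 h0 with h1 | h1
    · rw [h1] at h
      have h2 : X * (X + 9) * (X - 16) = 0 := by rw [← h]; ring
      rcases mul_eq_zero.1 h2 with h3 | h3
      · rcases mul_eq_zero.1 h3 with h4 | h4
        · exact Or.inl h4
        · exact Or.inr (Or.inl (by linarith))
      · exact absurd h3 hX
    · have h2 : (X - 36) * (X + 4) = 0 := by linear_combination h1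
      rcases mul_eq_zero.1 h2 with h3 | h3
      · exact Or.inr (Or.inr (Or.inr (Or.inr (by linarith))))
      · exact Or.inr (Or.inr (Or.inr (Or.inl (by linarith))))
  · exact absurd (pow_eq_zero_iff two_ne_zero |>.1 h0) hX

end Fermat.Agent.S51_Descent
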