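-- Helper for S51: x-coordinates of points of Weierstrass curves, the doubling formula and the
-- polynomial identities behind the 3- and 5-torsion.
import Mathlib

set_option autoImplicit false

namespace Fermat.Agent.S51_Basic

open WeierstrassCurve WeierstrassCurve.Affine

section defs

variable {R : Type*} [CommRing R]

/-- The 2-division cubic `4x³ + b₂x² + 2b₄x + b₆` (it equals `(2y + a₁x + a₃)²` on the curve). -/
def fpoly (W : WeierstrassCurve R) (x : R) : R :=
  4 * x ^ 3 + W.b₂ * x ^ 2 + 2 * W.b₄ * x + W.b₆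

/-- The numerator of the duplication formula: `x(2P) * fpoly x = npoly x`. -/
def npoly (W : WeierstrassCurve R) (x : R) : R :=
  x ^ 4 - W.b₄ * x ^ 2 - 2 * W.b₆ * x - W.b₈

/-- The 3-division polynomial. -/
def psi3 (W : WeierstrassCurve R) (x : R) : R :=
  3 * x ^ 4 + W.b₂ * x ^ 3 + 3 * W.b₄ * x ^ 2 + 3 * W.b₆ * x + W.b₈

/-- The 4-division polynomial divided by the 2-division polynomial. -/
def prepsi4 (W : WeierstrassCurve R) (x : R) : R :=
  2 * x ^ 6 + W.b₂ * x ^ 5 + 5 * W.b₄ * x ^ 4 + 10 * W.b₆ * x ^ 3 + 10 * W.b₈ * x ^ 2 +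
    (W.b₂ * W.b₈ - W.b₄ * W.b₆) * x + (W.b₄ * W.b₈ - W.b₆ ^ 2)

/-- The 5-division polynomial. -/
def psi5 (W : WeierstrassCurve R) (x : R) : R :=
  prepsi4 W x * fpoly W x ^ 2 - psi3 W x ^ 3

variable (W : WeierstrassCurve R) (x : R)

theorem npoly_sub : npoly W x - x * fpoly W x = -psi3 W x := by
  unfold npoly fpoly psi3; ring

/-- `16 ψ₃ = 2 f f'' - f'²`. -/
theorem sixteen_psi3 :
    16 * psi3 W x = 2 * fpoly W x * (24 * x + 2 * W.b₂) -
      (12 * x ^ 2 + 2 * W.b₂ * x + 2 * W.b₄) ^ 2 := by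
  unfold psi3 fpoly
  linear_combination (4 : R) * W.b_relation

variable {S : Type*} [CommRing S] (φ : R →+* S)

theorem fpoly_map : fpoly (W.map φ) (φ x) = φ (fpoly W x) := by
  simp only [fpoly, map_b₂, map_b₄, map_b₆, map_add, map_mul, map_pow, map_ofNat]

theorem npoly_map : npoly (W.map φ) (φ x) = φ (npoly W x) := by
  simp only [npoly, map_b₄, map_b₆, map_b₈, map_sub, map_mul, map_pow, map_ofNat]

theorem psi3_map : psi3 (W.map φ) (φ x) = φ (psi3 W x) := by
  simp only [psi3, map_b₂, map_b₄, map_b₆, map_b₈, map_add, map_mul, map_pow, map_ofNat]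

end defs

section identities

variable {K : Type*} [Field K] (W : WeierstrassCurve K) (x : K)

theorem four_ne_zero' (h2 : (2 : K) ≠ 0) : (4 : K) ≠ 0 := by
  have : (4 : K) = 2 * 2 := by norm_num
  rw [this]; exact mul_ne_zero h2 h2

theorem b8_eq (h2 : (2 : K) ≠ 0) : W.b₈ = (W.b₂ * W.b₆ - W.b₄ ^ 2) / 4 := by
  have h4 := four_ne_zero' h2
  have h := W.b_relation
  field_simp
  linear_combination h

/-- `f(N/f) f³ = (ψ₄/ψ₂)²`. -/
theorem fpoly_npoly (h2 : (2 : K) ≠ 0) :
    4 * npoly W x ^ 3 + W.b₂ * npoly W x ^ 2 * fpoly W x + 2 * W.b₄ * npoly W x * fpoly W x ^ 2 +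
      W.b₆ * fpoly W x ^ 3 = prepsi4 W x ^ 2 := by
  have h4 := four_ne_zero' h2
  unfold npoly fpoly prepsi4
  rw [b8_eq W h2]
  generalize W.b₂ = b2
  generalize W.b₄ = b4
  generalize W.b₆ = b6
  field_simp
  ring

/-- The numerator of `x(4P) - x(P)`. -/
theorem npoly_npoly (h2 : (2 : K) ≠ 0) :
    npoly W x ^ 4 - W.b₄ * npoly W x ^ 2 * fpoly W x ^ 2 - 2 * W.b₆ * npoly W x * fpoly W x ^ 3 -
      W.b₈ * fpoly W x ^ 4 - x * fpoly W x * prepsi4 W x ^ 2 = -(psi3 W x * psi5 W x) := by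
  have h4 := four_ne_zero' h2
  unfold psi5 npoly fpoly prepsi4 psi3
  rw [b8_eq W h2]
  generalize W.b₂ = b2
  generalize W.b₄ = b4
  generalize W.b₆ = b6
  field_simp
  ring

end identities

section points

variable {K : Type*} [Field K] {W : Affine K}

/-- The x-coordinate of a point (junk value `0` at the origin). -/
def xc (W : Affine K) : W.Point → K
  | .zero => 0
  | .some x _ _ => x

@[simp] theorem xc_zero : xc W (0 : W.Point) = 0 := rfl
@[simp] theorem xc_some {x y : K} (h : W.Nonsingular x y) : xc W (Point.some x y h) = x := rfl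

theorem xc_neg (P : W.Point) : xc W (-P) = xc W P := by
  rcases P with _ | ⟨x, y, h⟩
  · rfl
  · simp only [Point.neg_some, xc_some]

theorem eq_or_eq_neg_of_xc_eq {P Q : W.Point} (hP : P ≠ 0) (hQ : Q ≠ 0)
    (h : xc W P = xc W Q) : P = Q ∨ P = -Q := by
  rcases P with _ | ⟨x₁, y₁, h₁⟩
  · exact absurd rfl hP
  rcases Q with _ | ⟨x₂, y₂, h₂⟩
  · exact absurd rfl hQ
  simp only [xc_some] at h
  exact Point.X_eq_iff.1 h

/-- On the curve, `fpoly x = (2y + a₁x + a₃)²`. -/
theorem fpoly_eq_sq {x y : K} (h : W.Equation x y) :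
    fpoly W x = (2 * y + W.a₁ * x + W.a₃) ^ 2 := by
  rw [equation_iff] at h
  unfold fpoly
  simp only [WeierstrassCurve.b₂, WeierstrassCurve.b₄, WeierstrassCurve.b₆]
  linear_combination (-4 : K) * h

variable [DecidableEq K]

theorem add_self_eq_zero_iff (h2 : (2 : K) ≠ 0) {P : W.Point} (hP : P ≠ 0) :
    P + P = 0 ↔ fpoly W (xc W P) = 0 := by
  rcases P with _ | ⟨x, y, h⟩
  · exact absurd rfl hP
  · rw [xc_some, fpoly_eq_sq h.1]
    constructor
    · intro h0
      by_contra hη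
      have hy : y ≠ W.negY x y := by
        intro hy
        apply hη
        rw [negY] at hy
        have : 2 * y + W.a₁ * x + W.a₃ = 0 := by linear_combination hy
        rw [this]; ring
      rw [Point.add_self_of_Y_ne hy] at h0
      exact Point.some_ne_zero _ h0
    · intro h0
      have h0' : 2 * y + W.a₁ * x + W.a₃ = 0 :=
        pow_eq_zero_iff (n := 2) (by norm_num) |>.1 h0
      have hy : y = W.negY x y := by
        rw [negY]
        have h3 : (2 : K) * y = 2 * (-y - W.a₁ * x - W.a₃) := by linear_combination 2 * h0'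
        exact mul_left_cancel₀ h2 h3
      exact Point.add_self_of_Y_eq hy

/-- The duplication formula. -/
theorem xc_add_self {P : W.Point} (hP : P ≠ 0) (hf : fpoly W (xc W P) ≠ 0) :
    P + P ≠ 0 ∧ xc W (P + P) * fpoly W (xc W P) = npoly W (xc W P) := by
  rcases P with _ | ⟨x, y, h⟩
  · exact absurd rfl hP
  rw [xc_some] at hf
  have hη : 2 * y + W.a₁ * x + W.a₃ ≠ 0 := by
    intro h0; apply hf; rw [fpoly_eq_sq h.1, h0]; ring
  have hy : y ≠ W.negY x y := by
    intro hy; apply hη; rw [negY] at hy; linear_combination hy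
  rw [Point.add_self_of_Y_ne hy]
  refine ⟨Point.some_ne_zero _, ?_⟩
  simp only [xc_some, slope_of_Y_ne rfl hy, addX]
  have hden : y - W.negY x y = 2 * y + W.a₁ * x + W.a₃ := by rw [negY]; ring
  rw [hden, fpoly_eq_sq h.1]
  have heq := (equation_iff _ _).1 h.1
  unfold npoly
  simp only [WeierstrassCurve.b₄, WeierstrassCurve.b₆, WeierstrassCurve.b₈]
  set η := 2 * y + W.a₁ * x + W.a₃ with hηdef
  set M := 3 * x ^ 2 + 2 * W.a₂ * x + W.a₄ - W.a₁ * y with hM
  have hℓ : M / η * η = M := div_mul_cancel₀ _ hη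
  set ℓ := M / η
  linear_combination (ℓ * η + M + W.a₁ * η) * hℓ - (W.a₁ ^ 2 + 4 * W.a₂ + 8 * x) * heq

omit [DecidableEq K] in
/-- Over an algebraically closed field every `x` is the x-coordinate of a point. -/
theorem exists_point [IsAlgClosed K] (h2 : (2 : K) ≠ 0) (hΔ : W.Δ ≠ 0) (x : K) :
    ∃ P : W.Point, P ≠ 0 ∧ xc W P = x := by
  obtain ⟨s, hs⟩ := IsAlgClosed.exists_pow_nat_eq (fpoly W x) (n := 2) (by norm_num)
  have heq : W.Equation x ((s - W.a₁ * x - W.a₃) / 2) := by
    rw [equation_iff]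
    have h4 := four_ne_zero' h2
    unfold fpoly at hs
    simp only [WeierstrassCurve.b₂, WeierstrassCurve.b₄, WeierstrassCurve.b₆] at hs
    field_simp
    linear_combination hs
  have hns := (W.equation_iff_nonsingular_of_Δ_ne_zero hΔ).1 heq
  exact ⟨Point.some _ _ hns, Point.some_ne_zero _, rfl⟩

omit [DecidableEq K] in
/-- A 2-torsion point is not a 3-torsion point: `fpoly` and `psi3` have no common root at a
point of the curve. -/
theorem psi3_ne_zero_of_fpoly_eq_zero (h2 : (2 : K) ≠ 0) {P : W.Point} (hP : P ≠ 0)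
    (hf : fpoly W (xc W P) = 0) : psi3 W (xc W P) ≠ 0 := by
  rcases P with _ | ⟨x, y, h⟩
  · exact absurd rfl hP
  rw [xc_some] at hf ⊢
  intro h3
  have hη : 2 * y + W.a₁ * x + W.a₃ = 0 := by
    rw [fpoly_eq_sq h.1] at hf
    exact pow_eq_zero_iff (n := 2) (by norm_num) |>.1 hf
  have h16 := sixteen_psi3 W x
  rw [h3, hf] at h16
  have hd : 12 * x ^ 2 + 2 * W.b₂ * x + 2 * W.b₄ = 0 := by
    have : (12 * x ^ 2 + 2 * W.b₂ * x + 2 * W.b₄) ^ 2 = 0 := by linear_combination h16
    exact pow_eq_zero_iff (n := 2) (by norm_num) |>.1 this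
  have hns := (nonsingular_iff' _ _).1 h
  rcases hns.2 with hx | hy
  · apply hx
    have h4 := four_ne_zero' h2
    apply mul_left_cancel₀ h4
    simp only [WeierstrassCurve.b₂, WeierstrassCurve.b₄] at hd
    linear_combination -hd + 2 * W.a₁ * hη
  · exact hy hη

end points

end Fermat.Agent.S51_Basic
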