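import Mathlib

/-!
# S51: a proper nonzero subspace of a small `ZMod p`-vector space is a line
-/

set_option autoImplicit false

namespace Fermat.Agent.S51_Line

theorem exists_generator {p : ℕ} [Fact p.Prime] {V : Type*} [AddCommGroup V] [Module (ZMod p) V]
    [Finite V] (hcard : Nat.card V < p ^ 3) (N : Submodule (ZMod p) V) (h0 : N ≠ ⊥) (h1 : N ≠ ⊤) :
    ∃ P ∈ N, P ≠ 0 ∧ ∀ Q ∈ N, ∃ k : ℕ, Q = k • P := by
  have hp : p.Prime := Fact.out
  have : Module.Finite (ZMod p) V := Module.Finite.of_finite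
  have hV : Nat.card V = p ^ Module.finrank (ZMod p) V := by
    have := Module.natCard_eq_pow_finrank (K := ZMod p) (V := V)
    rwa [Nat.card_zmod] at this
  have hfr : Module.finrank (ZMod p) V < 3 := by
    rw [hV] at hcard
    exact (Nat.pow_lt_pow_iff_right hp.one_lt).mp hcard
  have hN1 : Module.finrank (ZMod p) N < Module.finrank (ZMod p) V :=
    Submodule.finrank_lt h1
  have hN0 : Module.finrank (ZMod p) N ≠ 0 := by
    intro h
    exact h0 (Submodule.finrank_eq_zero.mp h)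
  have hN : Module.finrank (ZMod p) N = 1 := by omega
  obtain ⟨v, hv, hspan⟩ := finrank_eq_one_iff'.mp hN
  refine ⟨v.1, v.2, fun h => hv (Subtype.ext h), fun Q hQ => ?_⟩
  obtain ⟨c, hc⟩ := hspan ⟨Q, hQ⟩
  refine ⟨c.val, ?_⟩
  have h1 : (c • v : N).1 = Q := by rw [hc]
  rw [← h1, Submodule.coe_smul]
  conv_lhs => rw [← ZMod.natCast_zmod_val c]
  rw [Nat.cast_smul_eq_nsmul]

end Fermat.Agent.S51_Line
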