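-- Helper for S51: duplication formula, 3- and 5-torsion relations, existence and counting of torsion points.
import Mathlib

set_option autoImplicit false

namespace Fermat.Agent.S51_Tors

open WeierstrassCurve WeierstrassCurve.Affine

variable {K : Type*} [Field K]

/-- The 2-division polynomial `4x³ + b₂x² + 2b₄x + b₆` (equal to `(2y + a₁x + a₃)²` on the curve). -/
def Fp (W : Affine K) (x : K) : K := 4 * x ^ 3 + W.b₂ * x ^ 2 + 2 * W.b₄ * x + W.b₆

/-- The numerator `x⁴ - b₄x² - 2b₆x - b₈` of the duplication formula. -/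
def Np (W : Affine K) (x : K) : K := x ^ 4 - W.b₄ * x ^ 2 - 2 * W.b₆ * x - W.b₈

/-- `b₂` of the curve translated by `x ↦ x + r`. -/
def B2 (W : Affine K) (r : K) : K := W.b₂ + 12 * r

/-- `b₄` of the curve translated by `x ↦ x + r`. -/
def B4 (W : Affine K) (r : K) : K := W.b₄ + r * W.b₂ + 6 * r ^ 2

/-- `b₆` of the curve translated by `x ↦ x + r`. -/
def B6 (W : Affine K) (r : K) : K := W.b₆ + 2 * r * W.b₄ + r ^ 2 * W.b₂ + 4 * r ^ 3

/-- `b₈` of the curve translated by `x ↦ x + r`. -/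
def B8 (W : Affine K) (r : K) : K :=
  W.b₈ + 3 * r * W.b₆ + 3 * r ^ 2 * W.b₄ + r ^ 3 * W.b₂ + 3 * r ^ 4

variable {W : Affine K}

theorem eta_sq {x y : K} (h : W.Equation x y) :
    (2 * y + W.a₁ * x + W.a₃) ^ 2 = Fp W x := by
  rw [equation_iff] at h
  simp only [Fp, WeierstrassCurve.b₂, WeierstrassCurve.b₄, WeierstrassCurve.b₆]
  linear_combination 4 * h

theorem bezout (x : K) :
    (12 * x ^ 3 - W.b₂ * x ^ 2 - 10 * W.b₄ * x + W.b₂ * W.b₄ - 27 * W.b₆) * Fp W x
      - (48 * x ^ 2 + 8 * W.b₂ * x + 32 * W.b₄ - W.b₂ ^ 2) * Np W x = W.Δ := by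
  simp only [Fp, Np, WeierstrassCurve.Δ, WeierstrassCurve.b₂, WeierstrassCurve.b₄, WeierstrassCurve.b₆, WeierstrassCurve.b₈]
  ring

theorem Fp_ne_of_Np (hΔ : W.Δ ≠ 0) {x c : K} (hN : Np W x = c * Fp W x) : Fp W x ≠ 0 := by
  intro hF
  apply hΔ
  rw [← bezout (W := W) x, hN, hF]
  ring

/-- Translated identity behind the 5-torsion relations. -/
theorem five_identity (r s : K) :
    Np W (r + s) - (r - s) * Fp W (r + s)
      = (5 * s ^ 4 + B4 W r * s ^ 2 - B8 W r) + s * (B2 W r * s ^ 2 - B6 W r) := by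
  simp only [Fp, Np, B2, B4, B6, B8]
  ring

theorem B6_eq (r : K) : B6 W r = Fp W r := by
  simp only [Fp, B6]; ring

theorem B8_eq (r : K) : B8 W r = r * Fp W r - Np W r := by
  simp only [Fp, Np, B8]; ring

theorem B6_B8_ne (hΔ : W.Δ ≠ 0) {r : K} (h6 : B6 W r = 0) : B8 W r ≠ 0 := by
  intro h8
  rw [B6_eq] at h6
  rw [B8_eq, h6, mul_zero, zero_sub, neg_eq_zero] at h8
  exact Fp_ne_of_Np hΔ (c := 0) (by rw [h8, zero_mul]) h6

variable [DecidableEq K]

theorem Y_ne_of_Fp_ne {x y : K} (h : W.Equation x y) (hF : Fp W x ≠ 0) : y ≠ W.negY x y := by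
  intro hy
  apply hF
  rw [← eta_sq h]
  rw [negY] at hy
  have : 2 * y + W.a₁ * x + W.a₃ = 0 := by linear_combination hy
  rw [this]; ring

theorem Y_eq_of_Fp_eq_zero {x y : K} (h : W.Equation x y) (hF : Fp W x = 0) : y = W.negY x y := by
  rw [← eta_sq h] at hF
  have h0 : 2 * y + W.a₁ * x + W.a₃ = 0 := by simpa using hF
  rw [negY]
  linear_combination h0

/-- Duplication formula: `x(2P) · F(x(P)) = N(x(P))` when `F(x(P)) ≠ 0`. -/
theorem dbl {x y : K} (h : W.Nonsingular x y) (hF : Fp W x ≠ 0) :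
    ∃ (x' y' : K) (h' : W.Nonsingular x' y'),
      Point.some x y h + Point.some x y h = Point.some x' y' h' ∧ x' * Fp W x = Np W x := by
  have hy : y ≠ W.negY x y := Y_ne_of_Fp_ne h.1 hF
  refine ⟨_, _, _, Point.add_self_of_Y_ne hy, ?_⟩
  have hη2 := eta_sq h.1
  have hη : 2 * y + W.a₁ * x + W.a₃ ≠ 0 := by
    intro h0; apply hF; rw [← hη2, h0]; ring
  rw [← hη2]
  simp only [slope_of_Y_ne rfl hy, addX]
  have hden : y - W.negY x y = 2 * y + W.a₁ * x + W.a₃ := by rw [negY]; ring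
  rw [hden]
  have hE := (equation_iff ..).1 h.1
  set η := 2 * y + W.a₁ * x + W.a₃ with hηdef
  set N := 3 * x ^ 2 + 2 * W.a₂ * x + W.a₄ - W.a₁ * y with hN
  have hℓ : N / η * η = N := div_mul_cancel₀ _ hη
  set ℓ := N / η
  simp only [Np, WeierstrassCurve.b₂, WeierstrassCurve.b₄, WeierstrassCurve.b₆, WeierstrassCurve.b₈]
  rw [hηdef, hN] at *
  linear_combination (ℓ * (2 * y + W.a₁ * x + W.a₃) + (3 * x ^ 2 + 2 * W.a₂ * x + W.a₄ - W.a₁ * y) + W.a₁ * (2 * y + W.a₁ * x + W.a₃)) * hℓ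
    - (W.a₁ ^ 2 + 4 * W.a₂ + 8 * x) * hE

theorem dbl_zero {x y : K} (h : W.Nonsingular x y) (hF : Fp W x = 0) :
    Point.some x y h + Point.some x y h = 0 :=
  Point.add_self_of_Y_eq (Y_eq_of_Fp_eq_zero h.1 hF)

/-- A nonzero `3`-torsion point has `ψ₃(x) = 0`, in the form `N(x) = x F(x)`. -/
theorem psi3_of_three {x y : K} (h : W.Nonsingular x y)
    (h3 : (3 : ℤ) • Point.some x y h = 0) : Np W x = x * Fp W x := by
  have hP : Point.some x y h ≠ 0 := Point.some_ne_zero h
  have h3' : Point.some x y h + Point.some x y h = -Point.some x y h := by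
    rw [eq_neg_iff_add_eq_zero, ← h3]; abel
  by_cases hF : Fp W x = 0
  · rw [dbl_zero h hF] at h3'
    exact absurd (neg_eq_zero.1 h3'.symm) hP
  · obtain ⟨x', y', h', hd, hx⟩ := dbl h hF
    rw [hd, Point.neg_some, Point.some.injEq] at h3'
    rw [← hx, h3'.1]

/-- A nonzero `5`-torsion point `P`: relations between `x(P)` and `x(2P)`. -/
theorem rel_of_five {x y : K} (h : W.Nonsingular x y)
    (h5 : (5 : ℤ) • Point.some x y h = 0) :
    ∃ (x₂ y₂ : K) (h₂ : W.Nonsingular x₂ y₂),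
      Point.some x y h + Point.some x y h = Point.some x₂ y₂ h₂ ∧ x₂ ≠ x ∧
      Np W x = x₂ * Fp W x ∧ Np W x₂ = x * Fp W x₂ := by
  have hP : Point.some x y h ≠ 0 := Point.some_ne_zero h
  have h5' : (Point.some x y h + Point.some x y h) + (Point.some x y h + Point.some x y h)
      = -Point.some x y h := by
    rw [eq_neg_iff_add_eq_zero, ← h5]; abel
  by_cases hF : Fp W x = 0
  · rw [dbl_zero h hF] at h5'
    rw [add_zero] at h5'
    exact absurd (neg_eq_zero.1 h5'.symm) hP
  obtain ⟨x₂, y₂, h₂, hd, hx⟩ := dbl h hF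
  rw [hd] at h5'
  by_cases hF₂ : Fp W x₂ = 0
  · rw [dbl_zero h₂ hF₂] at h5'
    exact absurd (neg_eq_zero.1 h5'.symm) hP
  obtain ⟨x₄, y₄, h₄, hd₄, hx₄⟩ := dbl h₂ hF₂
  refine ⟨x₂, y₂, h₂, hd, ?_, hx.symm, ?_⟩
  · intro hxx
    rcases (Point.X_eq_iff (h₁ := h₂) (h₂ := h)).1 hxx with h' | h'
    · exact hP (add_eq_left.1 (hd.trans h'))
    · -- 2P = -P, so 5P = -P
      have h2 : Point.some x y h + Point.some x y h = -Point.some x y h := hd.trans h'
      have : (5 : ℤ) • Point.some x y h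
          = (Point.some x y h + Point.some x y h) + (Point.some x y h + Point.some x y h)
            + Point.some x y h := by abel
      rw [this, h2, neg_add_cancel_right] at h5
      exact hP (neg_eq_zero.1 h5)
  · rw [hd₄, Point.neg_some, Point.some.injEq] at h5'
    rw [← hx₄, h5'.1]


/-- Converse: a point whose `x`-coordinate is a root of `ψ₃` is `3`-torsion. -/
theorem three_of_psi3 (hΔ : W.Δ ≠ 0) {x y : K} (h : W.Nonsingular x y)
    (hψ : Np W x = x * Fp W x) : (3 : ℤ) • Point.some x y h = 0 := by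
  have hF : Fp W x ≠ 0 := Fp_ne_of_Np hΔ hψ
  obtain ⟨x', y', h', hd, hx⟩ := dbl h hF
  have hxx : x' = x := by
    apply mul_right_cancel₀ hF
    rw [hx, hψ]
  have h3 : (3 : ℤ) • Point.some x y h
      = (Point.some x y h + Point.some x y h) + Point.some x y h := by abel
  rcases (Point.X_eq_iff (h₁ := h') (h₂ := h)).1 hxx with h'' | h''
  · exact absurd (add_eq_left.1 (hd.trans h'')) (Point.some_ne_zero h)
  · rw [h3, hd, h'', neg_add_cancel]

/-- Converse: the two relations between `x(P)` and a second value `x₂ ≠ x(P)` force `5P = 0`. -/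
theorem five_of_rel (hΔ : W.Δ ≠ 0) {x y x₂ : K} (h : W.Nonsingular x y) (hne : x₂ ≠ x)
    (h1 : Np W x = x₂ * Fp W x) (h2 : Np W x₂ = x * Fp W x₂) :
    (5 : ℤ) • Point.some x y h = 0 := by
  have hF : Fp W x ≠ 0 := Fp_ne_of_Np hΔ h1
  have hF₂ : Fp W x₂ ≠ 0 := Fp_ne_of_Np hΔ h2
  obtain ⟨x', y', h', hd, hx⟩ := dbl h hF
  have hxx : x' = x₂ := by
    apply mul_right_cancel₀ hF
    rw [hx, h1]
  subst hxx
  obtain ⟨x₄, y₄, h₄, hd₄, hx₄⟩ := dbl h' hF₂
  have hxx : x₄ = x := by
    apply mul_right_cancel₀ hF₂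
    rw [hx₄, h2]
  have h5 : (5 : ℤ) • Point.some x y h
      = ((Point.some x y h + Point.some x y h) + (Point.some x y h + Point.some x y h))
        + Point.some x y h := by abel
  rcases (Point.X_eq_iff (h₁ := h₄) (h₂ := h)).1 hxx with h'' | h''
  · -- 4P = P, so 3P = 0, so 2P = -P, contradiction with x' ≠ x
    exfalso
    have h4 : (Point.some x y h + Point.some x y h) + (Point.some x y h + Point.some x y h)
        = Point.some x y h := by rw [hd, hd₄, h'']
    have h2' : Point.some x y h + Point.some x y h = -Point.some x y h := by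
      rw [eq_neg_iff_add_eq_zero]
      have : (Point.some x y h + Point.some x y h) + (Point.some x y h + Point.some x y h)
          = ((Point.some x y h + Point.some x y h) + Point.some x y h) + Point.some x y h := by abel
      rw [this] at h4
      exact add_eq_right.1 h4
    rw [hd, Point.neg_some, Point.some.injEq] at h2'
    exact hne h2'.1
  · rw [h5, hd, hd₄, h'', neg_add_cancel]

/-- From the two relations, in the coordinates `x = r + s`, `x₂ = r - s`. -/
theorem pair_of_rel' (h2 : (2 : K) ≠ 0) {r s : K} (hs0 : s ≠ 0)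
    (h12 : Np W (r + s) = (r - s) * Fp W (r + s)) (h21 : Np W (r - s) = (r + s) * Fp W (r - s)) :
    B6 W r = B2 W r * s ^ 2 ∧ B8 W r = 5 * (s ^ 2) ^ 2 + B4 W r * s ^ 2 := by
  have e1 := five_identity (W := W) r s
  have e2 := five_identity (W := W) r (-s)
  have ex' : r + -s = r - s := by ring
  have ex₂' : r - -s = r + s := by ring
  rw [ex', ex₂'] at e2
  have h8 : (2 : K) * (B8 W r - (5 * (s ^ 2) ^ 2 + B4 W r * s ^ 2)) = 0 := by
    linear_combination e1 + e2 - h12 - h21
  have h6 : (2 : K) * s * (B6 W r - B2 W r * s ^ 2) = 0 := by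
    linear_combination e1 - e2 - h12 + h21
  refine ⟨?_, ?_⟩
  · have := (mul_eq_zero.1 h6).resolve_left (mul_ne_zero h2 hs0)
    exact sub_eq_zero.1 this
  · have := (mul_eq_zero.1 h8).resolve_left h2
    exact sub_eq_zero.1 this

/-- From the two relations: the pair `(r, n)`. -/
theorem pair_of_rel (h2 : (2 : K) ≠ 0) {x x₂ : K} (hne : x₂ ≠ x)
    (h12 : Np W x = x₂ * Fp W x) (h21 : Np W x₂ = x * Fp W x₂) :
    ((x - x₂) / 2) ^ 2 ≠ 0 ∧
    B6 W ((x + x₂) / 2) = B2 W ((x + x₂) / 2) * ((x - x₂) / 2) ^ 2 ∧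
    B8 W ((x + x₂) / 2) = 5 * (((x - x₂) / 2) ^ 2) ^ 2
      + B4 W ((x + x₂) / 2) * ((x - x₂) / 2) ^ 2 := by
  have hs0 : (x - x₂) / 2 ≠ 0 := div_ne_zero (sub_ne_zero.2 (Ne.symm hne)) h2
  have ex : (x + x₂) / 2 + (x - x₂) / 2 = x := by field_simp; ring
  have ex₂ : (x + x₂) / 2 - (x - x₂) / 2 = x₂ := by field_simp; ring
  refine ⟨pow_ne_zero 2 hs0, pair_of_rel' h2 hs0 ?_ ?_⟩
  · rw [ex, ex₂]; exact h12
  · rw [ex, ex₂]; exact h21

/-! ### The polynomials -/

section Polys

open Polynomial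

/-- The `3`-division polynomial. -/
noncomputable def psi3Poly (W : Affine K) : K[X] :=
  C 3 * X ^ 4 + C W.b₂ * X ^ 3 + C (3 * W.b₄) * X ^ 2 + C (3 * W.b₆) * X + C W.b₈

theorem psi3Poly_degree (h3 : (3 : K) ≠ 0) : (psi3Poly W).degree = 4 := by
  unfold psi3Poly
  compute_degree!

theorem psi3Poly_eval (x : K) : (psi3Poly W).eval x = x * Fp W x - Np W x := by
  simp only [psi3Poly, eval_add, eval_pow, eval_X, eval_mul, eval_C, Np, Fp]
  ring

/-- The sextic satisfied by `(x(P) + x(2P))/2` for `P` of order `5`. -/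
noncomputable def sexticPoly (W : Affine K) : K[X] :=
  C 64 * X ^ 6 + C (32 * W.b₂) * X ^ 5 + C (160 * W.b₄) * X ^ 4
      + C (320 * W.b₆) * X ^ 3 + C (44 * W.b₂ * W.b₆ - 44 * W.b₄ ^ 2 + 144 * W.b₈) * X ^ 2
      + C (2 * W.b₂ ^ 2 * W.b₆ - 2 * W.b₂ * W.b₄ ^ 2 + 24 * W.b₂ * W.b₈ - 32 * W.b₄ * W.b₆) * X
      + C (W.b₂ ^ 2 * W.b₈ - W.b₂ * W.b₄ * W.b₆ - 5 * W.b₆ ^ 2)

theorem sexticPoly_degree [CharZero K] : (sexticPoly W).degree = 6 := by
  unfold sexticPoly
  compute_degree!

theorem sexticPoly_eval (r : K) : (sexticPoly W).eval r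
    = B8 W r * B2 W r ^ 2 - 5 * B6 W r ^ 2 - B4 W r * B6 W r * B2 W r := by
  simp only [sexticPoly, eval_sub, eval_add, eval_pow, eval_X, eval_mul, eval_C, B2, B4, B6, B8]
  ring

/-- The quartic satisfied by `x(P)` given `r = (x(P) + x(2P))/2`. -/
noncomputable def quarticPoly (W : Affine K) (r : K) : K[X] :=
  C 5 * X ^ 4 + C (-20 * r) * X ^ 3 + C (30 * r ^ 2 + B4 W r) * X ^ 2
    + C (-20 * r ^ 3 - 2 * B4 W r * r) * X + C (5 * r ^ 4 + B4 W r * r ^ 2 - B8 W r)

theorem quarticPoly_degree [CharZero K] (r : K) : (quarticPoly W r).degree = 4 := by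
  unfold quarticPoly
  compute_degree!

theorem quarticPoly_eval (r x : K) : (quarticPoly W r).eval x
    = 5 * ((x - r) ^ 2) ^ 2 + B4 W r * (x - r) ^ 2 - B8 W r := by
  simp only [quarticPoly, eval_sub, eval_add, eval_pow, eval_X, eval_mul, eval_C]
  ring

end Polys

/-! ### Counting -/

section Count

open Classical in
/-- A chosen point above a given `x`-coordinate (or `0`). -/
noncomputable def liftX (W : Affine K) (x : K) : W.Point :=
  if h : ∃ y, W.Nonsingular x y then Point.some x h.choose h.choose_spec else 0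

theorem eq_liftX_or {x y : K} (h : W.Nonsingular x y) :
    Point.some x y h = liftX W x ∨ Point.some x y h = -liftX W x := by
  have hex : ∃ y, W.Nonsingular x y := ⟨y, h⟩
  rw [liftX, dif_pos hex]
  exact (Point.X_eq_iff (h₁ := h) (h₂ := hex.choose_spec)).1 rfl

theorem finite_of_X_mem (T : Set W.Point) (S : Finset K)
    (hT : ∀ P ∈ T, P = 0 ∨ ∃ (x y : K) (h : W.Nonsingular x y), P = Point.some x y h ∧ x ∈ S) :
    T.Finite ∧ T.ncard ≤ 2 * S.card + 1 := by
  classical
  have hsub : T ⊆ ↑(insert (0 : W.Point) (S.image (liftX W) ∪ S.image (fun x => -liftX W x))) := by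
    intro P hP
    simp only [Finset.coe_insert, Finset.coe_union, Finset.coe_image, Set.mem_insert_iff,
      Set.mem_union, Set.mem_image, Finset.mem_coe]
    rcases hT P hP with rfl | ⟨x, y, h, rfl, hx⟩
    · exact Or.inl rfl
    · rcases eq_liftX_or h with h' | h'
      · exact Or.inr (Or.inl ⟨x, hx, h'.symm⟩)
      · exact Or.inr (Or.inr ⟨x, hx, h'.symm⟩)
  refine ⟨(Finset.finite_toSet _).subset hsub, ?_⟩
  calc T.ncard ≤ (↑(insert (0 : W.Point) (S.image (liftX W) ∪ S.image (fun x => -liftX W x)))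
        : Set W.Point).ncard := Set.ncard_le_ncard hsub (Finset.finite_toSet _)
    _ = (insert (0 : W.Point) (S.image (liftX W) ∪ S.image (fun x => -liftX W x))).card :=
        Set.ncard_coe_finset _
    _ ≤ (S.image (liftX W) ∪ S.image (fun x => -liftX W x)).card + 1 := Finset.card_insert_le _ _
    _ ≤ (S.image (liftX W)).card + (S.image (fun x => -liftX W x)).card + 1 :=
        Nat.add_le_add_right (Finset.card_union_le _ _) 1
    _ ≤ S.card + S.card + 1 :=
        Nat.add_le_add_right (Nat.add_le_add Finset.card_image_le Finset.card_image_le) 1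
    _ = 2 * S.card + 1 := by ring

open Polynomial in
theorem three_tors_finite [CharZero K] :
    {P : W.Point | (3 : ℤ) • P = 0}.Finite ∧ {P : W.Point | (3 : ℤ) • P = 0}.ncard ≤ 9 := by
  classical
  have hdeg := psi3Poly_degree (W := W) (by norm_num : (3 : K) ≠ 0)
  have hne : psi3Poly W ≠ 0 := by
    intro h; rw [h] at hdeg; simp at hdeg
  have hcard : (psi3Poly W).roots.toFinset.card ≤ 4 := by
    refine (Multiset.toFinset_card_le _).trans ((card_roots' _).trans ?_)
    exact natDegree_le_of_degree_le hdeg.le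
  have key := finite_of_X_mem {P : W.Point | (3 : ℤ) • P = 0} (psi3Poly W).roots.toFinset ?_
  · exact ⟨key.1, key.2.trans (by omega)⟩
  · rintro (_ | ⟨x, y, h⟩) hP
    · exact Or.inl rfl
    · refine Or.inr ⟨x, y, h, rfl, ?_⟩
      rw [Multiset.mem_toFinset, mem_roots hne, IsRoot.def, psi3Poly_eval,
        psi3_of_three h hP, sub_self]

open Polynomial in
theorem five_tors_finite [CharZero K] :
    {P : W.Point | (5 : ℤ) • P = 0}.Finite ∧ {P : W.Point | (5 : ℤ) • P = 0}.ncard ≤ 49 := by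
  classical
  have hdeg := sexticPoly_degree (W := W)
  have hne : sexticPoly W ≠ 0 := by
    intro h; rw [h] at hdeg; simp at hdeg
  have hne4 : ∀ r, quarticPoly W r ≠ 0 := by
    intro r h
    have := quarticPoly_degree (W := W) r
    rw [h] at this; simp at this
  have hcard6 : (sexticPoly W).roots.toFinset.card ≤ 6 := by
    refine (Multiset.toFinset_card_le _).trans ((card_roots' _).trans ?_)
    exact natDegree_le_of_degree_le hdeg.le
  have hcard4 : ∀ r, (quarticPoly W r).roots.toFinset.card ≤ 4 := by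
    intro r
    refine (Multiset.toFinset_card_le _).trans ((card_roots' _).trans ?_)
    exact natDegree_le_of_degree_le (quarticPoly_degree (W := W) r).le
  have hcard : ((sexticPoly W).roots.toFinset.biUnion
      (fun r => (quarticPoly W r).roots.toFinset)).card ≤ 24 := by
    refine Finset.card_biUnion_le.trans ?_
    calc ∑ r ∈ (sexticPoly W).roots.toFinset, (quarticPoly W r).roots.toFinset.card
        ≤ ∑ _r ∈ (sexticPoly W).roots.toFinset, 4 := Finset.sum_le_sum (fun r _ => hcard4 r)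
      _ = (sexticPoly W).roots.toFinset.card * 4 := by rw [Finset.sum_const, smul_eq_mul]
      _ ≤ 24 := by omega
  have key := finite_of_X_mem {P : W.Point | (5 : ℤ) • P = 0}
    ((sexticPoly W).roots.toFinset.biUnion (fun r => (quarticPoly W r).roots.toFinset)) ?_
  · exact ⟨key.1, key.2.trans (by omega)⟩
  · rintro (_ | ⟨x, y, h⟩) hP
    · exact Or.inl rfl
    · refine Or.inr ⟨x, y, h, rfl, ?_⟩
      obtain ⟨x₂, y₂, h₂, -, hne', h12, h21⟩ := rel_of_five h hP
      obtain ⟨-, h6, h8⟩ := pair_of_rel (by norm_num : (2 : K) ≠ 0) hne' h12 h21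
      rw [Finset.mem_biUnion]
      refine ⟨(x + x₂) / 2, ?_, ?_⟩
      · rw [Multiset.mem_toFinset, mem_roots hne, IsRoot.def, sexticPoly_eval, h6, h8]
        ring
      · rw [Multiset.mem_toFinset, mem_roots (hne4 _), IsRoot.def, quarticPoly_eval, h8]
        have : x - (x + x₂) / 2 = (x - x₂) / 2 := by field_simp; ring
        rw [this]
        ring

end Count

section AlgClosed

variable [IsAlgClosed K]

open Polynomial in
theorem exists_Y (hΔ : W.Δ ≠ 0) (x : K) : ∃ y, W.Nonsingular x y := by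
  have hdeg : (X ^ 2 + C (W.a₁ * x + W.a₃) * X
      - C (x ^ 3 + W.a₂ * x ^ 2 + W.a₄ * x + W.a₆) : K[X]).degree = 2 := by
    compute_degree!
  obtain ⟨y, hy⟩ := IsAlgClosed.exists_root (X ^ 2 + C (W.a₁ * x + W.a₃) * X
      - C (x ^ 3 + W.a₂ * x ^ 2 + W.a₄ * x + W.a₆) : K[X]) (by rw [hdeg]; norm_num)
  refine ⟨y, (equation_iff_nonsingular_of_Δ_ne_zero hΔ).1 ?_⟩
  rw [equation_iff]
  simp only [IsRoot.def, eval_sub, eval_add, eval_pow, eval_X, eval_mul, eval_C] at hy
  linear_combination hy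

theorem exists_psi3_root (h3 : (3 : K) ≠ 0) : ∃ x, Np W x = x * Fp W x := by
  obtain ⟨x, hx⟩ := IsAlgClosed.exists_root (psi3Poly W)
    (by rw [psi3Poly_degree h3]; norm_num)
  refine ⟨x, ?_⟩
  rw [Polynomial.IsRoot.def, psi3Poly_eval] at hx
  linear_combination -hx

theorem exists_three_tors (hΔ : W.Δ ≠ 0) (h3 : (3 : K) ≠ 0) :
    ∃ P : W.Point, P ≠ 0 ∧ (3 : ℤ) • P = 0 := by
  obtain ⟨x, hx⟩ := exists_psi3_root (W := W) h3
  obtain ⟨y, hy⟩ := exists_Y hΔ x
  exact ⟨Point.some x y hy, Point.some_ne_zero hy, three_of_psi3 hΔ hy hx⟩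

open Polynomial in
theorem exists_five_pair [CharZero K] (hΔ : W.Δ ≠ 0) :
    ∃ r n : K, n ≠ 0 ∧ B6 W r = B2 W r * n ∧ B8 W r = 5 * n ^ 2 + B4 W r * n := by
  obtain ⟨r, hr⟩ := IsAlgClosed.exists_root (sexticPoly W)
    (by rw [sexticPoly_degree]; norm_num)
  have hQ : B8 W r * B2 W r ^ 2 - 5 * B6 W r ^ 2 - B4 W r * B6 W r * B2 W r = 0 := by
    rw [IsRoot.def, sexticPoly_eval] at hr
    exact hr
  by_cases hB2 : B2 W r = 0
  · have hB6 : B6 W r = 0 := by
      rw [hB2] at hQ
      have : (5 : K) * B6 W r ^ 2 = 0 := by linear_combination -hQ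
      simpa using this
    have hdeg2 : (C 5 * X ^ 2 + C (B4 W r) * X - C (B8 W r) : K[X]).degree = 2 := by
      compute_degree!
    obtain ⟨n, hn⟩ := IsAlgClosed.exists_root (C 5 * X ^ 2 + C (B4 W r) * X - C (B8 W r) : K[X])
      (by rw [hdeg2]; norm_num)
    simp only [IsRoot.def, eval_sub, eval_add, eval_pow, eval_X, eval_mul, eval_C] at hn
    refine ⟨r, n, ?_, ?_, ?_⟩
    · rintro rfl
      apply B6_B8_ne hΔ hB6
      linear_combination -hn
    · rw [hB6, hB2, zero_mul]
    · linear_combination -hn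
  · refine ⟨r, B6 W r / B2 W r, ?_, ?_, ?_⟩
    · intro hn
      have hB6 : B6 W r = 0 := by
        rcases div_eq_zero_iff.1 hn with h | h
        · exact h
        · exact absurd h hB2
      apply B6_B8_ne hΔ hB6
      rw [hB6] at hQ
      have : B8 W r * B2 W r ^ 2 = 0 := by linear_combination hQ
      rcases mul_eq_zero.1 this with h | h
      · exact h
      · exact absurd ((pow_eq_zero_iff two_ne_zero).1 h) hB2
    · field_simp
    · field_simp
      linear_combination hQ

theorem exists_five_tors [CharZero K] (hΔ : W.Δ ≠ 0) :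
    ∃ P : W.Point, P ≠ 0 ∧ (5 : ℤ) • P = 0 := by
  obtain ⟨r, n, hn, h6, h8⟩ := exists_five_pair (W := W) hΔ
  obtain ⟨s, rfl⟩ := IsAlgClosed.exists_eq_mul_self n
  have hs0 : s ≠ 0 := by
    rintro rfl
    exact hn (by rw [mul_zero])
  obtain ⟨y, hy⟩ := exists_Y hΔ (r + s)
  refine ⟨Point.some (r + s) y hy, Point.some_ne_zero hy, five_of_rel hΔ hy (x₂ := r - s) ?_ ?_ ?_⟩
  · intro h
    have : (2 : K) * s = 0 := by linear_combination -h
    simp [hs0] at this
  · have := five_identity (W := W) r s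
    linear_combination this - h8 - s * h6
  · have := five_identity (W := W) r (-s)
    have e : r + -s = r - s := by ring
    have e' : r - -s = r + s := by ring
    rw [e, e'] at this
    linear_combination this - h8 + s * h6

end AlgClosed

end Fermat.Agent.S51_Tors
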