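-- Helper for S51: the 3-torsion of a Weierstrass curve (x-coordinates are roots of ψ₃; existence; counting).
import Mathlib
import Fermat.Agent.S51_Basic
import Fermat.Agent.S51_Tors

set_option autoImplicit false

namespace Fermat.Agent.S51_Tors3

open WeierstrassCurve WeierstrassCurve.Affine
open Fermat.Agent.S51_Basic

variable {K : Type*} [Field K] [DecidableEq K] {W : Affine K}

/-- The `x`-coordinate of a nonzero `3`-torsion point is a root of `ψ₃`. -/
theorem psi3_eq_zero_of_three_nsmul {P : W.Point} (hP : P ≠ 0) (h3 : (3 : ℕ) • P = 0) :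
    psi3 W (xc W P) = 0 := by
  rcases P with _ | ⟨x, y, h⟩
  · exact absurd rfl hP
  · have h3' : (3 : ℤ) • Point.some x y h = 0 := by
      rw [← h3, ← natCast_zsmul]; rfl
    have key := S51_Tors.psi3_of_three h h3'
    have e := npoly_sub W x
    rw [xc_some]
    have e1 : npoly W x = S51_Tors.Np W x := rfl
    have e2 : fpoly W x = S51_Tors.Fp W x := rfl
    rw [e1, e2, key, sub_self] at e
    exact neg_eq_zero.1 e.symm

/-- Existence of a nonzero `3`-torsion point over an algebraically closed field. -/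
theorem exists_three_torsion [IsAlgClosed K] [CharZero K] (hΔ : W.Δ ≠ 0) :
    ∃ P : W.Point, P ≠ 0 ∧ (3 : ℕ) • P = 0 := by
  obtain ⟨P, hP, h3⟩ := S51_Tors.exists_three_tors hΔ (by norm_num : (3 : K) ≠ 0)
  refine ⟨P, hP, ?_⟩
  rw [← h3, ← natCast_zsmul]; rfl

variable (W) in
/-- There are at most `9` points killed by `3`. -/
theorem card_three_torsion_le [CharZero K] :
    {P : W.Point | (3 : ℕ) • P = 0}.Finite ∧ {P : W.Point | (3 : ℕ) • P = 0}.ncard ≤ 9 := by
  have e : {P : W.Point | (3 : ℕ) • P = 0} = {P : W.Point | (3 : ℤ) • P = 0} := by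
    ext P
    simp only [Set.mem_setOf_eq]
    rw [← natCast_zsmul]; rfl
  rw [e]
  exact S51_Tors.three_tors_finite

end Fermat.Agent.S51_Tors3
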