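-- Helper for S51: the 5-torsion of a Weierstrass curve (relations between x(P) and x(2P); existence; counting).
import Mathlib
import Fermat.Agent.S51_Basic
import Fermat.Agent.S51_Tors

set_option autoImplicit false

namespace Fermat.Agent.S51_Tors5

open WeierstrassCurve WeierstrassCurve.Affine
open Fermat.Agent.S51_Basic

variable {K : Type*} [Field K] [DecidableEq K] {W : Affine K}

/-- For a nonzero `5`-torsion point `P`: `2P ≠ 0`, `x(P) ≠ x(2P)` and the two doubling relations. -/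
theorem five_torsion_rel {P : W.Point} (hP : P ≠ 0) (h5 : (5 : ℕ) • P = 0) :
    (2 : ℕ) • P ≠ 0 ∧ xc W P ≠ xc W ((2 : ℕ) • P) ∧
      xc W ((2 : ℕ) • P) * fpoly W (xc W P) = npoly W (xc W P) ∧
      xc W P * fpoly W (xc W ((2 : ℕ) • P)) = npoly W (xc W ((2 : ℕ) • P)) := by
  rcases P with _ | ⟨x, y, h⟩
  · exact absurd rfl hP
  · have h5' : (5 : ℤ) • Point.some x y h = 0 := by
      rw [← h5, ← natCast_zsmul]; rfl
    obtain ⟨x₂, y₂, h₂, hd, hne, h12, h21⟩ := S51_Tors.rel_of_five h h5'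
    rw [two_nsmul, hd]
    simp only [xc_some]
    exact ⟨Point.some_ne_zero h₂, Ne.symm hne, h12.symm, h21.symm⟩

/-- Existence of a nonzero `5`-torsion point over an algebraically closed field. -/
theorem exists_five_torsion [IsAlgClosed K] [CharZero K] (hΔ : W.Δ ≠ 0) :
    ∃ P : W.Point, P ≠ 0 ∧ (5 : ℕ) • P = 0 := by
  obtain ⟨P, hP, h5⟩ := S51_Tors.exists_five_tors hΔ
  refine ⟨P, hP, ?_⟩
  rw [← h5, ← natCast_zsmul]; rfl

variable (W) in
/-- There are at most `49` points killed by `5` (in fact `25`, but any bound below `125` will do). -/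
theorem card_five_torsion_le [CharZero K] :
    {P : W.Point | (5 : ℕ) • P = 0}.Finite ∧ {P : W.Point | (5 : ℕ) • P = 0}.ncard ≤ 49 := by
  have e : {P : W.Point | (5 : ℕ) • P = 0} = {P : W.Point | (5 : ℤ) • P = 0} := by
    ext P
    simp only [Set.mem_setOf_eq]
    rw [← natCast_zsmul]; rfl
  rw [e]
  exact S51_Tors.five_tors_finite

/-- The rational pair attached to a nonzero `5`-torsion point: with `r = (x(P) + x(2P))/2` and
`n = ((x(P) - x(2P))/2)²` one has `n ≠ 0`, `B₆(r) = B₂(r) n` and `B₈(r) = 5n² + B₄(r) n`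
(`B_i(r)` the `b`-invariants of the curve translated by `x ↦ x + r`). -/
theorem five_torsion_pair (h2 : (2 : K) ≠ 0) {P : W.Point} (hP : P ≠ 0) (h5 : (5 : ℕ) • P = 0) :
    ((xc W P - xc W ((2 : ℕ) • P)) / 2) ^ 2 ≠ 0 ∧
    W.b₆ + 2 * ((xc W P + xc W ((2 : ℕ) • P)) / 2) * W.b₄
        + ((xc W P + xc W ((2 : ℕ) • P)) / 2) ^ 2 * W.b₂
        + 4 * ((xc W P + xc W ((2 : ℕ) • P)) / 2) ^ 3
      = (W.b₂ + 12 * ((xc W P + xc W ((2 : ℕ) • P)) / 2))
        * ((xc W P - xc W ((2 : ℕ) • P)) / 2) ^ 2 ∧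
    W.b₈ + 3 * ((xc W P + xc W ((2 : ℕ) • P)) / 2) * W.b₆
        + 3 * ((xc W P + xc W ((2 : ℕ) • P)) / 2) ^ 2 * W.b₄
        + ((xc W P + xc W ((2 : ℕ) • P)) / 2) ^ 3 * W.b₂
        + 3 * ((xc W P + xc W ((2 : ℕ) • P)) / 2) ^ 4
      = 5 * (((xc W P - xc W ((2 : ℕ) • P)) / 2) ^ 2) ^ 2
        + (W.b₄ + ((xc W P + xc W ((2 : ℕ) • P)) / 2) * W.b₂
            + 6 * ((xc W P + xc W ((2 : ℕ) • P)) / 2) ^ 2)
          * ((xc W P - xc W ((2 : ℕ) • P)) / 2) ^ 2 := by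
  obtain ⟨-, hne, h12, h21⟩ := five_torsion_rel hP h5
  exact S51_Tors.pair_of_rel h2 (Ne.symm hne) h12.symm h21.symm

end Fermat.Agent.S51_Tors5
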