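import Mathlib
import Fermat.Prelude.Def_FLTPrelim_GaloisRep
import Fermat.Prelude.Def_FLTPrelim_Modularity
import Fermat.Prelude.Def_FLTPrelim_ModularRep
import Fermat.Agent.S51_Basic
import Fermat.Agent.S51_Line
import Fermat.Agent.S51_Tors3
import Fermat.Agent.S51_Tors5

/-!
# S51: a Galois-stable line in `E[3]` resp. `E[5]` gives rational data

* `three_reducible` : if the mod 3 representation is reducible, the 3-division polynomial has a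
  rational root;
* `five_reducible` : if the mod 5 representation is reducible, there are rational `r`, `n ≠ 0`
  with `B₆(r) = B₂(r) n` and `B₈(r) = 5 n² + B₄(r) n` (`B_i(r)` the `b`-invariants after
  `x ↦ x + r`).
-/

set_option autoImplicit false

namespace Fermat.Agent.S51_Galois

open WeierstrassCurve WeierstrassCurve.Affine WeierstrassCurve.Affine.Point
open Fermat.Agent.S51_Basic

local notation "Kbar" => AlgebraicClosure ℚ

section general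

variable (E : Affine ℚ)

theorem mem_tors_iff (n : ℕ) (P : (E⁄Kbar).Point) :
    P ∈ Submodule.torsionBy ℤ (E⁄Kbar).Point (n : ℕ) ↔ n • P = 0 := by
  rw [Submodule.mem_torsionBy_iff, natCast_zsmul]

theorem xc_smul (σ : Kbar ≃ₐ[ℚ] Kbar) (P : (E⁄Kbar).Point) :
    xc (E⁄Kbar) (σ • P) = σ (xc (E⁄Kbar) P) := by
  rcases P with _ | ⟨x, y, h⟩
  · exact (map_zero σ).symm
  · rfl

theorem smul_ne_zero' (σ : Kbar ≃ₐ[ℚ] Kbar) {P : (E⁄Kbar).Point} (hP : P ≠ 0) : σ • P ≠ 0 :=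
  fun h => hP ((smul_eq_zero_iff_eq σ).mp h)

theorem isGalois_Kbar : IsGalois ℚ Kbar := by
  have h : (AlgebraicClosure.instAlgebra ℚ : Algebra ℚ Kbar) = DivisionRing.toRatAlgebra :=
    Subsingleton.elim _ _
  rw [← h]; infer_instance

theorem exists_rat_of_fixed (x : Kbar) (h : ∀ σ : Kbar ≃ₐ[ℚ] Kbar, σ x = x) :
    ∃ q : ℚ, algebraMap ℚ Kbar q = x :=
  haveI := isGalois_Kbar
  (InfiniteGalois.mem_range_algebraMap_iff_fixed (k := ℚ) (K := Kbar) x).mpr h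

theorem card_tors (n c : ℕ) (hfin : {P : (E⁄Kbar).Point | n • P = 0}.Finite)
    (hc : {P : (E⁄Kbar).Point | n • P = 0}.ncard ≤ c) :
    Finite (Submodule.torsionBy ℤ (E⁄Kbar).Point (n : ℕ)) ∧
      Nat.card (Submodule.torsionBy ℤ (E⁄Kbar).Point (n : ℕ)) ≤ c := by
  have hset : ((Submodule.torsionBy ℤ (E⁄Kbar).Point (n : ℕ) : Submodule ℤ (E⁄Kbar).Point) :
      Set (E⁄Kbar).Point) = {P : (E⁄Kbar).Point | n • P = 0} := by
    ext P
    exact mem_tors_iff E n P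
  constructor
  · have : Finite ↥((Submodule.torsionBy ℤ (E⁄Kbar).Point (n : ℕ) :
        Submodule ℤ (E⁄Kbar).Point) : Set (E⁄Kbar).Point) := by
      rw [hset]; exact hfin.to_subtype
    exact this
  · have : Nat.card ↥((Submodule.torsionBy ℤ (E⁄Kbar).Point (n : ℕ) :
        Submodule ℤ (E⁄Kbar).Point) : Set (E⁄Kbar).Point) ≤ c := by
      rw [hset, Nat.card_coe_set_eq]; exact hc
    exact this

theorem coe_nsmul_tors (n k : ℕ) (P : Submodule.torsionBy ℤ (E⁄Kbar).Point (n : ℕ)) :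
    ((k • P : Submodule.torsionBy ℤ (E⁄Kbar).Point (n : ℕ)) : (E⁄Kbar).Point)
      = k • (P : (E⁄Kbar).Point) := by
  simp

theorem coe_smul_tors (n : ℕ) (σ : Kbar ≃ₐ[ℚ] Kbar)
    (P : Submodule.torsionBy ℤ (E⁄Kbar).Point (n : ℕ)) :
    ((σ • P : Submodule.torsionBy ℤ (E⁄Kbar).Point (n : ℕ)) : (E⁄Kbar).Point)
      = σ • (P : (E⁄Kbar).Point) := rfl

theorem delta_baseChange (hΔ : E.Δ ≠ 0) : (E⁄Kbar).Δ ≠ 0 := by
  show (WeierstrassCurve.map E (algebraMap ℚ Kbar)).Δ ≠ 0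
  rw [WeierstrassCurve.map_Δ]
  exact (map_ne_zero_iff _ (algebraMap ℚ Kbar).injective).mpr hΔ

theorem psi3_baseChange (q : ℚ) :
    psi3 (E⁄Kbar) (algebraMap ℚ Kbar q) = algebraMap ℚ Kbar (psi3 E q) :=
  psi3_map E q (algebraMap ℚ Kbar)

theorem nsmul_mod (n k : ℕ) (P : (E⁄Kbar).Point) (hP : n • P = 0) : k • P = (k % n) • P := by
  conv_lhs => rw [← Nat.div_add_mod k n]
  rw [add_nsmul, mul_nsmul, hP, nsmul_zero, zero_add]

/-- `3`-part: a stable line gives a rational root of `ψ₃`. -/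
theorem three_core (_hΔ : E.Δ ≠ 0)
    (N : Submodule (ZMod 3) (Submodule.torsionBy ℤ (E⁄Kbar).Point (3 : ℕ)))
    (hN : IsGaloisStable ℚ N) (h0 : N ≠ ⊥) (h1 : N ≠ ⊤) :
    ∃ x₀ : ℚ, psi3 E x₀ = 0 := by
  have : Fact (Nat.Prime 3) := ⟨by norm_num⟩
  obtain ⟨hfin, hcard⟩ := card_tors E 3 9
    (S51_Tors3.card_three_torsion_le (W := E⁄Kbar)).1
    (S51_Tors3.card_three_torsion_le (W := E⁄Kbar)).2
  obtain ⟨P, hPN, hP0, hgen⟩ := S51_Line.exists_generator (p := 3)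
    (lt_of_le_of_lt hcard (by norm_num)) N h0 h1
  have hP0' : (P : (E⁄Kbar).Point) ≠ 0 := fun h => hP0 (Subtype.ext h)
  have hP3 : (3 : ℕ) • (P : (E⁄Kbar).Point) = 0 := (mem_tors_iff E 3 _).mp P.2
  have hpsi : psi3 (E⁄Kbar) (xc (E⁄Kbar) (P : (E⁄Kbar).Point)) = 0 :=
    S51_Tors3.psi3_eq_zero_of_three_nsmul hP0' hP3
  have hfix : ∀ σ : Kbar ≃ₐ[ℚ] Kbar, σ (xc (E⁄Kbar) (P : (E⁄Kbar).Point))
      = xc (E⁄Kbar) (P : (E⁄Kbar).Point) := by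
    intro σ
    obtain ⟨k, hk⟩ := hgen (σ • P) (hN σ P hPN)
    have hk' : σ • (P : (E⁄Kbar).Point) = k • (P : (E⁄Kbar).Point) := by
      rw [← coe_smul_tors, hk, coe_nsmul_tors]
    have hne : σ • (P : (E⁄Kbar).Point) ≠ 0 := smul_ne_zero' E σ hP0'
    rw [← xc_smul, hk']
    rw [hk', nsmul_mod E 3 k _ hP3] at hne
    rw [nsmul_mod E 3 k _ hP3]
    have hlt : k % 3 < 3 := Nat.mod_lt _ (by norm_num)
    interval_cases (k % 3)
    · exact absurd (zero_nsmul _) hne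
    · rw [one_nsmul]
    · have h2 : (2 : ℕ) • (P : (E⁄Kbar).Point) = -(P : (E⁄Kbar).Point) := by
        rw [eq_neg_iff_add_eq_zero, ← succ_nsmul]; exact hP3
      rw [h2, xc_neg]
  obtain ⟨q, hq⟩ := exists_rat_of_fixed _ hfix
  refine ⟨q, ?_⟩
  have h := psi3_baseChange E q
  rw [hq, hpsi] at h
  exact (algebraMap ℚ Kbar).injective (by rw [← h, _root_.map_zero])

/-- `5`-part: a stable line gives rational `τ`, `d ≠ 0` with the two normalised relations. -/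
theorem five_core (_hΔ : E.Δ ≠ 0)
    (N : Submodule (ZMod 5) (Submodule.torsionBy ℤ (E⁄Kbar).Point (5 : ℕ)))
    (hN : IsGaloisStable ℚ N) (h0 : N ≠ ⊥) (h1 : N ≠ ⊤) :
    ∃ τ d : ℚ, d ≠ 0 ∧
      E.b₆ + 2 * τ * E.b₄ + τ ^ 2 * E.b₂ + 4 * τ ^ 3 = (E.b₂ + 12 * τ) * d ∧
      E.b₈ + 3 * τ * E.b₆ + 3 * τ ^ 2 * E.b₄ + τ ^ 3 * E.b₂ + 3 * τ ^ 4
        = 5 * d ^ 2 + (E.b₄ + τ * E.b₂ + 6 * τ ^ 2) * d := by
  have : Fact (Nat.Prime 5) := ⟨by norm_num⟩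
  obtain ⟨hfin, hcard⟩ := card_tors E 5 49
    (S51_Tors5.card_five_torsion_le (W := E⁄Kbar)).1
    (S51_Tors5.card_five_torsion_le (W := E⁄Kbar)).2
  obtain ⟨P, hPN, hP0, hgen⟩ := S51_Line.exists_generator (p := 5)
    (lt_of_le_of_lt hcard (by norm_num)) N h0 h1
  have hP0' : (P : (E⁄Kbar).Point) ≠ 0 := fun h => hP0 (Subtype.ext h)
  have hP5 : (5 : ℕ) • (P : (E⁄Kbar).Point) = 0 := (mem_tors_iff E 5 _).mp P.2
  obtain ⟨hQ0, hne12, hR1, hR2⟩ := S51_Tors5.five_torsion_rel hP0' hP5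
  set P' : (E⁄Kbar).Point := (P : (E⁄Kbar).Point) with hP'
  set x₁ : Kbar := xc (E⁄Kbar) P' with hx₁
  set x₂ : Kbar := xc (E⁄Kbar) ((2 : ℕ) • P') with hx₂
  -- every nonzero element of the line has x-coordinate `x₁` or `x₂`
  have hxk : ∀ k : ℕ, k • P' ≠ 0 → xc (E⁄Kbar) (k • P') = x₁ ∨ xc (E⁄Kbar) (k • P') = x₂ := by
    intro k hk
    rw [nsmul_mod E 5 k _ hP5] at hk ⊢
    have hlt : k % 5 < 5 := Nat.mod_lt _ (by norm_num)
    interval_cases (k % 5)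
    · exact absurd (zero_nsmul _) hk
    · left; rw [one_nsmul]
    · right; rfl
    · right
      have h3 : (3 : ℕ) • P' = -((2 : ℕ) • P') := by
        rw [eq_neg_iff_add_eq_zero, ← add_nsmul]; exact hP5
      rw [h3, xc_neg]
    · left
      have h4 : (4 : ℕ) • P' = -P' := by
        rw [eq_neg_iff_add_eq_zero, ← succ_nsmul]; exact hP5
      rw [h4, xc_neg]
  have hσ1 : ∀ σ : Kbar ≃ₐ[ℚ] Kbar, σ x₁ = x₁ ∨ σ x₁ = x₂ := by
    intro σ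
    obtain ⟨k, hk⟩ := hgen (σ • P) (hN σ P hPN)
    have hk' : σ • P' = k • P' := by
      rw [hP', ← coe_smul_tors, hk, coe_nsmul_tors]
    have hne : k • P' ≠ 0 := hk' ▸ smul_ne_zero' E σ hP0'
    rw [hx₁, ← xc_smul, hk']
    exact hxk k hne
  have hσ2 : ∀ σ : Kbar ≃ₐ[ℚ] Kbar, σ x₂ = x₁ ∨ σ x₂ = x₂ := by
    intro σ
    have h2N : (2 : ℕ) • P ∈ N := N.toAddSubmonoid.nsmul_mem hPN 2
    obtain ⟨k, hk⟩ := hgen (σ • ((2 : ℕ) • P)) (hN σ _ h2N)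
    have hk' : σ • ((2 : ℕ) • P') = k • P' := by
      rw [hP', ← coe_nsmul_tors, ← coe_smul_tors, hk, coe_nsmul_tors]
    have hne : k • P' ≠ 0 := hk' ▸ smul_ne_zero' E σ hQ0
    rw [hx₂, ← xc_smul, hk']
    exact hxk k hne
  have hsum : ∀ σ : Kbar ≃ₐ[ℚ] Kbar, σ (x₁ + x₂) = x₁ + x₂ := by
    intro σ
    have hinj : σ x₁ ≠ σ x₂ := fun h => hne12 (σ.injective h)
    rw [map_add]
    rcases hσ1 σ with h1' | h1' <;> rcases hσ2 σ with h2' | h2'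
    · exact absurd (h1'.trans h2'.symm) hinj
    · rw [h1', h2']
    · rw [h1', h2', add_comm]
    · exact absurd (h1'.trans h2'.symm) hinj
  have hprod : ∀ σ : Kbar ≃ₐ[ℚ] Kbar, σ (x₁ * x₂) = x₁ * x₂ := by
    intro σ
    have hinj : σ x₁ ≠ σ x₂ := fun h => hne12 (σ.injective h)
    rw [map_mul]
    rcases hσ1 σ with h1' | h1' <;> rcases hσ2 σ with h2' | h2'
    · exact absurd (h1'.trans h2'.symm) hinj
    · rw [h1', h2']
    · rw [h1', h2', mul_comm]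
    · exact absurd (h1'.trans h2'.symm) hinj
  obtain ⟨u, hu⟩ := exists_rat_of_fixed _ hsum
  obtain ⟨w, hw⟩ := exists_rat_of_fixed _ hprod
  clear_value x₁ x₂
  clear hσ1 hσ2 hsum hprod hxk
  -- the two doubling relations, written with the b-invariants of `E`
  have hb₂ : (E⁄Kbar).b₂ = algebraMap ℚ Kbar E.b₂ := WeierstrassCurve.map_b₂ E _
  have hb₄ : (E⁄Kbar).b₄ = algebraMap ℚ Kbar E.b₄ := WeierstrassCurve.map_b₄ E _
  have hb₆ : (E⁄Kbar).b₆ = algebraMap ℚ Kbar E.b₆ := WeierstrassCurve.map_b₆ E _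
  have hb₈ : (E⁄Kbar).b₈ = algebraMap ℚ Kbar E.b₈ := WeierstrassCurve.map_b₈ E _
  unfold fpoly npoly at hR1 hR2
  rw [hb₂, hb₄, hb₆, hb₈] at hR1 hR2
  set c₂ : Kbar := algebraMap ℚ Kbar E.b₂ with hc₂
  set c₄ : Kbar := algebraMap ℚ Kbar E.b₄ with hc₄
  set c₆ : Kbar := algebraMap ℚ Kbar E.b₆ with hc₆
  set c₈ : Kbar := algebraMap ℚ Kbar E.b₈ with hc₈
  have h2 : (2 : Kbar) ≠ 0 := two_ne_zero
  set t : Kbar := (x₁ + x₂) / 2 with ht
  set s : Kbar := (x₁ - x₂) / 2 with hs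
  have hx₁' : x₁ = t + s := by rw [ht, hs]; ring
  have hx₂' : x₂ = t - s := by rw [ht, hs]; ring
  have hs0 : s ≠ 0 := by
    rw [hs]
    exact div_ne_zero (sub_ne_zero.mpr hne12) h2
  have hτ : algebraMap ℚ Kbar (u / 2) = t := by
    rw [map_div₀, hu, ht, map_ofNat]
  have hd : algebraMap ℚ Kbar (u ^ 2 / 4 - w) = s ^ 2 := by
    rw [map_sub, map_div₀, map_pow, hu, hw, hs, map_ofNat]; ring
  rw [hx₁', hx₂'] at hR1 hR2
  clear_value t s c₂ c₄ c₆ c₈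
  -- sum and difference of the two relations
  have e8 : c₈ + 3 * t * c₆ + 3 * t ^ 2 * c₄ + t ^ 3 * c₂ + 3 * t ^ 4
      = 5 * (s ^ 2) ^ 2 + (c₄ + t * c₂ + 6 * t ^ 2) * s ^ 2 := by
    have : (2 : Kbar) * (c₈ + 3 * t * c₆ + 3 * t ^ 2 * c₄ + t ^ 3 * c₂ + 3 * t ^ 4)
        = 2 * (5 * (s ^ 2) ^ 2 + (c₄ + t * c₂ + 6 * t ^ 2) * s ^ 2) := by
      linear_combination hR1 + hR2
    exact mul_left_cancel₀ h2 this
  have e6 : c₆ + 2 * t * c₄ + t ^ 2 * c₂ + 4 * t ^ 3 = (c₂ + 12 * t) * s ^ 2 := by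
    have : (2 * s) * (c₆ + 2 * t * c₄ + t ^ 2 * c₂ + 4 * t ^ 3)
        = (2 * s) * ((c₂ + 12 * t) * s ^ 2) := by
      linear_combination hR1 - hR2
    exact mul_left_cancel₀ (mul_ne_zero h2 hs0) this
  refine ⟨u / 2, u ^ 2 / 4 - w, ?_, ?_, ?_⟩
  · intro h
    rw [h, _root_.map_zero] at hd
    exact hs0 (pow_eq_zero_iff (two_ne_zero) |>.mp hd.symm)
  · apply (algebraMap ℚ Kbar).injective
    simp only [map_add, map_mul, map_pow, map_ofNat, hτ, hd, ← hc₂, ← hc₄, ← hc₆]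
    exact e6
  · apply (algebraMap ℚ Kbar).injective
    simp only [map_add, map_mul, map_pow, map_ofNat, hτ, hd, ← hc₂, ← hc₄, ← hc₆, ← hc₈]
    exact e8

theorem nontrivial_tors (n : ℕ) (h : ∃ P : (E⁄Kbar).Point, P ≠ 0 ∧ n • P = 0) :
    Nontrivial (Submodule.torsionBy ℤ (E⁄Kbar).Point (n : ℕ)) := by
  obtain ⟨P, hP, hn⟩ := h
  exact ⟨⟨⟨P, (mem_tors_iff E n P).mpr hn⟩, 0, fun h => hP (congrArg Subtype.val h)⟩⟩

theorem nontrivial_three (hΔ : E.Δ ≠ 0) :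
    Nontrivial (Submodule.torsionBy ℤ (E⁄Kbar).Point (3 : ℕ)) :=
  nontrivial_tors E 3 (S51_Tors3.exists_three_torsion (W := E⁄Kbar) (delta_baseChange E hΔ))

theorem nontrivial_five (hΔ : E.Δ ≠ 0) :
    Nontrivial (Submodule.torsionBy ℤ (E⁄Kbar).Point (5 : ℕ)) :=
  nontrivial_tors E 5 (S51_Tors5.exists_five_torsion (W := E⁄Kbar) (delta_baseChange E hΔ))

end general

/-- If the mod 3 representation is reducible, `ψ₃` has a rational root. -/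
theorem three_reducible (W : WeierstrassCurve ℤ) (hΔ : W.Δ ≠ 0)
    (h : ¬ W.ModRepIsIrreducible 3) :
    ∃ x : ℚ, 3 * x ^ 4 + (W.b₂ : ℚ) * x ^ 3 + 3 * (W.b₄ : ℚ) * x ^ 2 + 3 * (W.b₆ : ℚ) * x
      + (W.b₈ : ℚ) = 0 := by
  set E : Affine ℚ := W.map (Int.castRingHom ℚ) with hE
  have hΔE : E.Δ ≠ 0 := by
    rw [hE, WeierstrassCurve.map_Δ]
    exact (map_ne_zero_iff _ (RingHom.injective_int (Int.castRingHom ℚ))).mpr hΔ
  have hnt := nontrivial_three E hΔE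
  unfold WeierstrassCurve.ModRepIsIrreducible GaloisRepIsIrreducible at h
  rw [not_and] at h
  have h' := h hnt
  push Not at h'
  obtain ⟨N, hN, h0, h1⟩ := h'
  obtain ⟨x₀, hx₀⟩ := three_core E hΔE N hN h0 h1
  refine ⟨x₀, ?_⟩
  have e2 : E.b₂ = (W.b₂ : ℚ) := WeierstrassCurve.map_b₂ W _
  have e4 : E.b₄ = (W.b₄ : ℚ) := WeierstrassCurve.map_b₄ W _
  have e6 : E.b₆ = (W.b₆ : ℚ) := WeierstrassCurve.map_b₆ W _
  have e8 : E.b₈ = (W.b₈ : ℚ) := WeierstrassCurve.map_b₈ W _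
  unfold psi3 at hx₀
  rw [e2, e4, e6, e8] at hx₀
  exact hx₀

/-- If the mod 5 representation is reducible, there is a rational 5-cycle datum `(r, n)`. -/
theorem five_reducible (W : WeierstrassCurve ℤ) (hΔ : W.Δ ≠ 0)
    (h : ¬ W.ModRepIsIrreducible 5) :
    ∃ r n : ℚ, n ≠ 0 ∧
      (W.b₆ : ℚ) + 2 * r * (W.b₄ : ℚ) + r ^ 2 * (W.b₂ : ℚ) + 4 * r ^ 3
        = ((W.b₂ : ℚ) + 12 * r) * n ∧
      (W.b₈ : ℚ) + 3 * r * (W.b₆ : ℚ) + 3 * r ^ 2 * (W.b₄ : ℚ) + r ^ 3 * (W.b₂ : ℚ) + 3 * r ^ 4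
        = 5 * n ^ 2 + ((W.b₄ : ℚ) + r * (W.b₂ : ℚ) + 6 * r ^ 2) * n := by
  set E : Affine ℚ := W.map (Int.castRingHom ℚ) with hE
  have hΔE : E.Δ ≠ 0 := by
    rw [hE, WeierstrassCurve.map_Δ]
    exact (map_ne_zero_iff _ (RingHom.injective_int (Int.castRingHom ℚ))).mpr hΔ
  have hnt := nontrivial_five E hΔE
  unfold WeierstrassCurve.ModRepIsIrreducible GaloisRepIsIrreducible at h
  rw [not_and] at h
  have h' := h hnt
  push Not at h'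
  obtain ⟨N, hN, h0, h1⟩ := h'
  obtain ⟨τ, d, hd, h6, h8⟩ := five_core E hΔE N hN h0 h1
  have e2 : E.b₂ = (W.b₂ : ℚ) := WeierstrassCurve.map_b₂ W _
  have e4 : E.b₄ = (W.b₄ : ℚ) := WeierstrassCurve.map_b₄ W _
  have e6 : E.b₆ = (W.b₆ : ℚ) := WeierstrassCurve.map_b₆ W _
  have e8 : E.b₈ = (W.b₈ : ℚ) := WeierstrassCurve.map_b₈ W _
  rw [e2, e4, e6] at h6
  rw [e2, e4, e6, e8] at h8
  exact ⟨τ, d, hd, h6, h8⟩

end Fermat.Agent.S51_Galois
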