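-- Helper for S51: the pure algebra. From a rational root of the 3-division polynomial and the
-- rational data of a 5-isogeny one gets a rational point on `Y² = ζ(ζ-1)(9ζ-25)`; the rational
-- points of that curve are known from the descent, and each of them contradicts semistability.
import Mathlib

set_option autoImplicit false

namespace Fermat.Agent.S51_Param

/-- Transfer of the descent: rational points of `Y² = ζ(ζ-1)(9ζ-25)` from those of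
`y² = x(x-1)(x-81)` through the 2-isogeny. -/
theorem zeta_mem (hD : ∀ x y : ℚ, y ^ 2 = x * (x - 1) * (x - 81) → y = 0) (ζ Y : ℚ)
    (h : Y ^ 2 = ζ * (ζ - 1) * (9 * ζ - 25)) :
    ζ = 0 ∨ ζ = 1 ∨ ζ = 25 / 9 ∨ ζ = 5 ∨ ζ = 5 / 9 := by
  by_cases h25 : 9 * ζ - 25 = 0
  · right; right; left; linarith
  have key := hD (9 * ζ * (9 * ζ - 9) / (9 * ζ - 25))
    (9 * Y * (400 - (9 * ζ - 25) ^ 2) / (9 * ζ - 25) ^ 2) (by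
      field_simp
      linear_combination ((400 - (9 * ζ - 25) ^ 2) ^ 2) * h)
  have h2 : 9 * Y * (400 - (9 * ζ - 25) ^ 2) = 0 := by
    have := key
    rw [div_eq_zero_iff] at this
    rcases this with h' | h'
    · exact h'
    · exact absurd (pow_eq_zero_iff (n := 2) (by norm_num) |>.1 h') h25
  rcases mul_eq_zero.1 h2 with h' | h'
  · have hY : Y = 0 := by
      rcases mul_eq_zero.1 h' with h'' | h''
      · norm_num at h''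
      · exact h''
    rw [hY] at h
    have h3 : ζ * (ζ - 1) * (9 * ζ - 25) = 0 := by linarith
    rcases mul_eq_zero.1 h3 with h4 | h4
    · rcases mul_eq_zero.1 h4 with h5 | h5
      · left; exact h5
      · right; left; linarith
    · exact absurd h4 h25
  · have h3 : (9 * ζ - 45) * (9 * ζ - 5) = 0 := by linear_combination -h'
    rcases mul_eq_zero.1 h3 with h4 | h4
    · right; right; right; left; linarith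
    · right; right; right; right; linarith

/-- The elimination: a rational point on `Y² = ζ(ζ-1)(9ζ-25)` together with the parameter `ρ`
of the 5-isogeny. -/
theorem exists_zeta (b₂ b₄ b₆ b₈ : ℚ) (hrel : 4 * b₈ = b₂ * b₆ - b₄ ^ 2) (x t d : ℚ)
    (hd : d ≠ 0)
    (h3 : 3 * x ^ 4 + b₂ * x ^ 3 + 3 * b₄ * x ^ 2 + 3 * b₆ * x + b₈ = 0)
    (h6 : b₆ + 2 * t * b₄ + t ^ 2 * b₂ + 4 * t ^ 3 = (b₂ + 12 * t) * d)
    (h8 : b₈ + 3 * t * b₆ + 3 * t ^ 2 * b₄ + t ^ 3 * b₂ + 3 * t ^ 4 =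
      5 * d ^ 2 + (b₄ + t * b₂ + 6 * t ^ 2) * d) :
    ∃ ζ ρ Y : ℚ, b₂ ^ 2 - 24 * b₄ = d * (ρ ^ 2 - 20 * ρ + 20) ∧
      -b₂ ^ 2 * b₈ - 8 * b₄ ^ 3 - 27 * b₆ ^ 2 + 9 * b₂ * b₄ * b₆ = 32 * d ^ 3 * (ρ - 20) ∧
      (1 - ζ) ^ 3 * ρ ^ 2 + 2 * (1 - ζ) ^ 2 * (7 * ζ + 5) * ρ +
        (9 * ζ ^ 4 - 20 * ζ ^ 3 - 90 * ζ ^ 2 - 180 * ζ + 25) = 0 ∧
      Y ^ 2 = ζ * (ζ - 1) * (9 * ζ - 25) := by
  have hb8 : b₈ = (b₂ * b₆ - b₄ ^ 2) / 4 := by field_simp; linear_combination hrel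
  -- translated invariants
  obtain ⟨B₂, hB₂⟩ : ∃ B₂ : ℚ, B₂ = b₂ + 12 * t := ⟨_, rfl⟩
  obtain ⟨B₄, hB₄⟩ : ∃ B₄ : ℚ, B₄ = b₄ + t * b₂ + 6 * t ^ 2 := ⟨_, rfl⟩
  obtain ⟨B₆, hB₆⟩ : ∃ B₆ : ℚ, B₆ = b₆ + 2 * t * b₄ + t ^ 2 * b₂ + 4 * t ^ 3 := ⟨_, rfl⟩
  obtain ⟨B₈, hB₈⟩ : ∃ B₈ : ℚ,
      B₈ = b₈ + 3 * t * b₆ + 3 * t ^ 2 * b₄ + t ^ 3 * b₂ + 3 * t ^ 4 := ⟨_, rfl⟩
  have h6' : B₆ = B₂ * d := by rw [hB₆, hB₂]; exact h6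
  have h8' : B₈ = 5 * d ^ 2 + B₄ * d := by rw [hB₈, hB₄]; exact h8
  have hrelB : 4 * B₈ = B₂ * B₆ - B₄ ^ 2 := by
    rw [hB₈, hB₂, hB₆, hB₄, hb8]; ring
  have hc4 : b₂ ^ 2 - 24 * b₄ = B₂ ^ 2 - 24 * B₄ := by rw [hB₂, hB₄]; ring
  have hΔ : -b₂ ^ 2 * b₈ - 8 * b₄ ^ 3 - 27 * b₆ ^ 2 + 9 * b₂ * b₄ * b₆ =
      -B₂ ^ 2 * B₈ - 8 * B₄ ^ 3 - 27 * B₆ ^ 2 + 9 * B₂ * B₄ * B₆ := by
    rw [hB₈, hB₂, hB₆, hB₄, hb8]; ring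
  obtain ⟨ξ, hξdef⟩ : ∃ ξ : ℚ, ξ = x - t := ⟨_, rfl⟩
  have hξ : 3 * ξ ^ 4 + B₂ * ξ ^ 3 + 3 * B₄ * ξ ^ 2 + 3 * B₆ * ξ + B₈ = 0 := by
    rw [hB₈, hB₂, hB₆, hB₄, hξdef]
    linear_combination h3
  -- the key relation
  have hB2sq : B₂ ^ 2 * d = B₄ ^ 2 + 4 * d * B₄ + 20 * d ^ 2 := by
    have := hrelB
    rw [h6', h8'] at this
    linear_combination -this
  obtain ⟨ρ, hρ⟩ : ∃ ρ : ℚ, ρ = B₄ / d := ⟨_, rfl⟩
  obtain ⟨ζ, hζ⟩ : ∃ ζ : ℚ, ζ = ξ ^ 2 / d := ⟨_, rfl⟩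
  obtain ⟨w, hw⟩ : ∃ w : ℚ, w = B₂ * ξ / d := ⟨_, rfl⟩
  have hB4 : B₄ = ρ * d := by rw [hρ]; field_simp
  have hξ2 : ξ ^ 2 = ζ * d := by rw [hζ]; field_simp
  have hB2ξ : B₂ * ξ = w * d := by rw [hw]; field_simp
  have hB2sq' : B₂ ^ 2 = d * (ρ ^ 2 + 4 * ρ + 20) := by
    have : B₂ ^ 2 * d = d * (ρ ^ 2 + 4 * ρ + 20) * d := by rw [hB2sq, hB4]; ring
    exact mul_right_cancel₀ hd this
  have ha : 3 * ζ ^ 2 + w * ζ + 3 * ρ * ζ + 3 * w + 5 + ρ = 0 := by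
    have h1 : (3 * ζ ^ 2 + w * ζ + 3 * ρ * ζ + 3 * w + 5 + ρ) * d ^ 2 = 0 := by
      have := hξ
      rw [h6', h8', hB4] at this
      have e1 : ξ ^ 4 = (ζ * d) ^ 2 := by rw [← hξ2]; ring
      have e2 : B₂ * ξ ^ 3 = w * d * (ζ * d) := by rw [← hξ2, ← hB2ξ]; ring
      linear_combination this - 3 * e1 - e2 - 3 * ρ * d * hξ2 - 3 * d * hB2ξ
    rcases mul_eq_zero.1 h1 with h' | h'
    · exact h'
    · exact absurd (pow_eq_zero_iff (n := 2) (by norm_num) |>.1 h') hd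
  have hww : w ^ 2 = (ρ ^ 2 + 4 * ρ + 20) * ζ := by
    have h1 : w ^ 2 * d ^ 2 = (ρ ^ 2 + 4 * ρ + 20) * ζ * d ^ 2 := by
      have : (B₂ * ξ) ^ 2 = B₂ ^ 2 * ξ ^ 2 := by ring
      rw [hB2ξ, hB2sq', hξ2] at this
      linear_combination this
    exact mul_right_cancel₀ (pow_ne_zero 2 hd) h1
  have hQ : (1 - ζ) ^ 3 * ρ ^ 2 + 2 * (1 - ζ) ^ 2 * (7 * ζ + 5) * ρ +
      (9 * ζ ^ 4 - 20 * ζ ^ 3 - 90 * ζ ^ 2 - 180 * ζ + 25) = 0 := by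
    linear_combination (3 * ζ ^ 2 + 3 * ρ * ζ + ρ + 5 - w * (ζ + 3)) * ha + (ζ + 3) ^ 2 * hww
  have hζ3 : ζ + 3 ≠ 0 := by
    intro h0
    have hz : ζ = -3 := by linarith
    rw [hz] at ha hww
    have hρ4 : ρ = 4 := by linarith
    rw [hρ4] at hww
    nlinarith [sq_nonneg w]
  refine ⟨ζ, ρ, (ζ - 1) * ((1 - ζ) * ρ + 7 * ζ + 5) / (ζ + 3), ?_, ?_, hQ, ?_⟩
  · rw [hc4, hB2sq', hB4]; ring
  · rw [hΔ, h6', h8']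
    have e : -B₂ ^ 2 * (5 * d ^ 2 + B₄ * d) - 8 * B₄ ^ 3 - 27 * (B₂ * d) ^ 2 +
        9 * B₂ * B₄ * (B₂ * d) = B₂ ^ 2 * (d * (8 * B₄ - 32 * d)) - 8 * B₄ ^ 3 := by ring
    rw [e, hB2sq', hB4]; ring
  · field_simp
    linear_combination (1 - ζ) * hQ

/-- The endgame: each of the four non-cuspidal points contradicts semistability at `5`. -/
theorem false_of_relation (c₄ Δ : ℤ) (hΔ : Δ ≠ 0) (hss : (5 : ℤ) ∣ Δ → ¬ (5 : ℤ) ∣ c₄)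
    (ζ ρ d : ℚ) (hc : (c₄ : ℚ) = d * (ρ ^ 2 - 20 * ρ + 20))
    (hD : (Δ : ℚ) = 32 * d ^ 3 * (ρ - 20))
    (hQ : (1 - ζ) ^ 3 * ρ ^ 2 + 2 * (1 - ζ) ^ 2 * (7 * ζ + 5) * ρ +
        (9 * ζ ^ 4 - 20 * ζ ^ 3 - 90 * ζ ^ 2 - 180 * ζ + 25) = 0)
    (hζ : ζ = 0 ∨ ζ = 1 ∨ ζ = 25 / 9 ∨ ζ = 5 ∨ ζ = 5 / 9) : False := by
  have hρ20 : ρ - 20 ≠ 0 := by
    intro h0
    rw [h0, mul_zero] at hD
    exact hΔ (by exact_mod_cast hD)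
  -- a relation `k * c₄ ^ 3 = m * Δ` with `5 ∤ k`, `5 ∣ m`, `125 ∤ m`
  have main : ∀ k m : ℤ, ¬ (5 : ℤ) ∣ k → (5 : ℤ) ∣ m → ¬ (125 : ℤ) ∣ m →
      k * c₄ ^ 3 = m * Δ → False := by
    intro k m hk hm hm' hrel
    have h5 : Prime (5 : ℤ) := by norm_num
    have h1 : (5 : ℤ) ∣ k * c₄ ^ 3 := by rw [hrel]; exact Dvd.dvd.mul_right hm _
    have h2 : (5 : ℤ) ∣ c₄ := by
      rcases h5.dvd_or_dvd h1 with h' | h'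
      · exact absurd h' hk
      · exact h5.dvd_of_dvd_pow h'
    have h3 : ¬ (5 : ℤ) ∣ Δ := fun h' => hss h' h2
    obtain ⟨c, hc'⟩ := h2
    have h4 : (125 : ℤ) ∣ m * Δ := by
      rw [← hrel, hc']
      exact ⟨k * c ^ 3, by ring⟩
    -- `125 ∣ m * Δ` with `5 ∤ Δ` gives `125 ∣ m`
    have h5' : IsCoprime (125 : ℤ) Δ := by
      have : IsCoprime (5 : ℤ) Δ := (Prime.coprime_iff_not_dvd h5).2 h3
      have h125 : (125 : ℤ) = 5 ^ 3 := by norm_num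
      rw [h125]
      exact IsCoprime.pow_left this
    exact hm' (h5'.dvd_of_dvd_mul_right h4)
  rcases hζ with h | h | h | h | h
  · -- ζ = 0, ρ = -5
    rw [h] at hQ
    have hρ : ρ = -5 := by nlinarith [sq_nonneg (ρ + 5)]
    rw [hρ] at hc hD
    refine main 32 (-(5 * 29 ^ 3)) (by norm_num) (by norm_num) (by norm_num) ?_
    have : ((32 : ℤ) * c₄ ^ 3 : ℚ) = ((-(5 * 29 ^ 3) : ℤ) : ℚ) * Δ := by
      push_cast; rw [hc, hD]; ring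
    exact_mod_cast this
  · rw [h] at hQ; norm_num at hQ
  · -- ζ = 25/9, ρ = 55/4
    rw [h] at hQ
    have hρ : ρ = 55 / 4 := by nlinarith [sq_nonneg (8 * ρ - 110)]
    rw [hρ] at hc hD
    refine main 32768 (5 * 211 ^ 3) (by norm_num) (by norm_num) (by norm_num) ?_
    have : ((32768 : ℤ) * c₄ ^ 3 : ℚ) = (((5 * 211 ^ 3) : ℤ) : ℚ) * Δ := by
      push_cast; rw [hc, hD]; ring
    exact_mod_cast this
  · -- ζ = 5, ρ = 0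
    rw [h] at hQ
    have hρ : ρ = 0 := by
      have h1 : ρ * (ρ - 20) = 0 := by linear_combination (-1 / 64 : ℚ) * hQ
      rcases mul_eq_zero.1 h1 with h' | h'
      · exact h'
      · exact absurd h' hρ20
    rw [hρ] at hc hD
    refine main 2 (-25) (by norm_num) (by norm_num) (by norm_num) ?_
    have : ((2 : ℤ) * c₄ ^ 3 : ℚ) = ((-25 : ℤ) : ℚ) * Δ := by
      push_cast; rw [hc, hD]; ring
    exact_mod_cast this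
  · -- ζ = 5/9, ρ = -60
    rw [h] at hQ
    have hρ : ρ = -60 := by
      have h1 : (ρ + 60) * (ρ - 20) = 0 := by linear_combination (729 / 64 : ℚ) * hQ
      rcases mul_eq_zero.1 h1 with h' | h'
      · linarith
      · exact absurd h' hρ20
    rw [hρ] at hc hD
    refine main 8 (-(25 * 241 ^ 3)) (by norm_num) (by norm_num) (by norm_num) ?_
    have : ((8 : ℤ) * c₄ ^ 3 : ℚ) = ((-(25 * 241 ^ 3) : ℤ) : ℚ) * Δ := by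
      push_cast; rw [hc, hD]; ring
    exact_mod_cast this

/-- Combination of the elimination, the descent and the endgame. -/
theorem false_of_data (hD : ∀ x y : ℚ, y ^ 2 = x * (x - 1) * (x - 81) → y = 0)
    (b₂ b₄ b₆ b₈ c₄ Δ : ℤ) (hrel : 4 * b₈ = b₂ * b₆ - b₄ ^ 2)
    (hc₄ : c₄ = b₂ ^ 2 - 24 * b₄)
    (hΔdef : Δ = -b₂ ^ 2 * b₈ - 8 * b₄ ^ 3 - 27 * b₆ ^ 2 + 9 * b₂ * b₄ * b₆)
    (hΔ : Δ ≠ 0) (hss : (5 : ℤ) ∣ Δ → ¬ (5 : ℤ) ∣ c₄)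
    (x : ℚ) (h3 : 3 * x ^ 4 + (b₂ : ℚ) * x ^ 3 + 3 * (b₄ : ℚ) * x ^ 2 + 3 * (b₆ : ℚ) * x +
      (b₈ : ℚ) = 0)
    (r n : ℚ) (hn : n ≠ 0)
    (h6 : (b₆ : ℚ) + 2 * r * (b₄ : ℚ) + r ^ 2 * (b₂ : ℚ) + 4 * r ^ 3 = ((b₂ : ℚ) + 12 * r) * n)
    (h8 : (b₈ : ℚ) + 3 * r * (b₆ : ℚ) + 3 * r ^ 2 * (b₄ : ℚ) + r ^ 3 * (b₂ : ℚ) + 3 * r ^ 4 =
      5 * n ^ 2 + ((b₄ : ℚ) + r * (b₂ : ℚ) + 6 * r ^ 2) * n) : False := by
  have hrel' : (4 : ℚ) * (b₈ : ℚ) = (b₂ : ℚ) * (b₆ : ℚ) - (b₄ : ℚ) ^ 2 := by exact_mod_cast hrel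
  obtain ⟨ζ, ρ, Y, hc, hDel, hQ, hY⟩ := exists_zeta (b₂ : ℚ) (b₄ : ℚ) (b₆ : ℚ) (b₈ : ℚ) hrel' x r n hn
    h3 h6 h8
  have hζ := zeta_mem hD ζ Y hY
  refine false_of_relation c₄ Δ hΔ hss ζ ρ n ?_ ?_ hQ hζ
  · rw [← hc, hc₄]; push_cast; ring
  · rw [← hDel, hΔdef]; push_cast; ring

end Fermat.Agent.S51_Param
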