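-- Statement S51: the mod-3 or the mod-5 representation of a semistable curve is irreducible.
import Fermat.Statements.S51
import Fermat.Agent.S51_Descent
import Fermat.Agent.S51_Param
import Fermat.Agent.S51_Galois

set_option autoImplicit false
open WeierstrassCurve WeierstrassCurve.Affine WeierstrassCurve.Affine.Point
open CuspForm ModularFormClass UpperHalfPlane
open WeierstrassCurve

namespace Fermat.Agent.S51

theorem result (W : WeierstrassCurve ℤ) (hΔ : W.Δ ≠ 0) (hW : W.IsSemistableModel) : W.ModRepIsIrreducible 3 ∨ W.ModRepIsIrreducible 5 := by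
  by_contra hcon
  rw [not_or] at hcon
  obtain ⟨x, h3⟩ := S51_Galois.three_reducible W hΔ hcon.1
  obtain ⟨r, n, hn, h6, h8⟩ := S51_Galois.five_reducible W hΔ hcon.2
  refine S51_Param.false_of_data S51_Descent.no_points W.b₂ W.b₄ W.b₆ W.b₈ W.c₄ W.Δ
    W.b_relation ?_ ?_ hΔ ?_ x h3 r n hn h6 h8
  · rw [WeierstrassCurve.c₄]
  · rw [WeierstrassCurve.Δ]
  · intro h5
    exact hW 5 (by norm_num) (by exact_mod_cast h5)

end Fermat.Agent.S51
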