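import Mathlib

/-!
# S51: machine-generated polynomial certificates

Exact cofactors (computed with a small exact-arithmetic script) for the two large
polynomial identities of the explicit `X₀(15)` route to S51.
-/

set_option autoImplicit false

namespace Fermat.Agent.S51_Cert

/-- Cofactor of the key `X₀(15)` identity. -/
def keyCofactor (ξ lam : ℚ) : ℚ :=
    (1360*lam^10 - 15960*lam^9 + 75485*lam^8 - 178770*lam^7 + 199780*lam^6 - 23724*lam^5 - 181007*lam^4 + 187692*lam^3 - 86092*lam^2 + 27222*lam - 4691) * ξ^0 +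
    (-14464*lam^10 + 155712*lam^9 - 671528*lam^8 + 1467912*lam^7 - 1674178*lam^6 + 875358*lam^5 - 67240*lam^4 - 135096*lam^3 + 126790*lam^2 - 66156*lam + 12350) * ξ^1 +
    (55296*lam^10 - 547968*lam^9 + 2163072*lam^8 - 4406808*lam^7 + 5154672*lam^6 - 3884022*lam^5 + 2229516*lam^4 - 1006734*lam^3 + 332670*lam^2 - 75648*lam + 15969) * ξ^2 +
    (-66048*lam^10 + 645888*lam^9 - 2494752*lam^8 + 5078208*lam^7 - 6334992*lam^6 + 5370480*lam^5 - 3380370*lam^4 + 1773444*lam^3 - 657006*lam^2 + 184530*lam - 42282) * ξ^3 +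
    (-118272*lam^10 + 695040*lam^9 - 1336800*lam^8 + 811680*lam^7 + 298800*lam^6 - 454752*lam^5 + 484818*lam^4 - 336126*lam^3 + 105144*lam^2 - 45642*lam + 5760) * ξ^4 +
    (387072*lam^10 - 2319360*lam^9 + 5159040*lam^8 - 6207360*lam^7 + 5318880*lam^6 - 3785760*lam^5 + 2115000*lam^4 - 873960*lam^3 + 375090*lam^2 - 69810*lam + 24918) * ξ^5 +
    (-172032*lam^10 + 1038336*lam^9 - 2409984*lam^8 + 3060096*lam^7 - 2354304*lam^6 + 1905696*lam^5 - 888864*lam^4 + 443976*lam^3 - 150264*lam^2 + 35646*lam - 9552) * ξ^6 +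
    (-417792*lam^10 + 1560576*lam^9 - 1672704*lam^8 + 1560576*lam^7 - 1411584*lam^6 + 585216*lam^5 - 496704*lam^4 + 97536*lam^3 - 80064*lam^2 + 6096*lam - 4902) * ξ^7 +
    (331776*lam^10 - 1284096*lam^9 + 1046784*lam^8 - 1284096*lam^7 + 839424*lam^6 - 481536*lam^5 + 288864*lam^4 - 80256*lam^3 + 45984*lam^2 - 5016*lam + 2793) * ξ^8 +
    (262144*lam^10 + 327680*lam^8 + 163840*lam^6 + 40960*lam^4 + 5120*lam^2 + 256) * ξ^9 +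
    (-262144*lam^10 - 327680*lam^8 - 163840*lam^6 - 40960*lam^4 - 5120*lam^2 - 256) * ξ^10

/-- The key identity: with `L = 4λ²+1`, `p = λ²-3λ+1`, `q = 4λ²-18λ+19`, `τ = 4λ-11`,
`R = Lξ²-Lξ+λ²-2`, `Y = 4Lξ³-12pξ+q`, `C = L²ξ⁴-6pLξ²+qLξ-3p²`:
`(R-9)τ²R⁵ - 5τLR³Y² - (R+1)L²Y⁴ = keyCofactor · C`. -/
theorem key_identity (ξ lam : ℚ) :
    ((4*lam^2+1)*ξ^2 - (4*lam^2+1)*ξ + lam^2 - 2 - 9) * (4*lam-11)^2 *
        ((4*lam^2+1)*ξ^2 - (4*lam^2+1)*ξ + lam^2 - 2)^5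
      - 5 * (4*lam-11) * (4*lam^2+1) * ((4*lam^2+1)*ξ^2 - (4*lam^2+1)*ξ + lam^2 - 2)^3 *
        (4*(4*lam^2+1)*ξ^3 - 12*(lam^2-3*lam+1)*ξ + (4*lam^2-18*lam+19))^2
      - ((4*lam^2+1)*ξ^2 - (4*lam^2+1)*ξ + lam^2 - 2 + 1) * (4*lam^2+1)^2 *
        (4*(4*lam^2+1)*ξ^3 - 12*(lam^2-3*lam+1)*ξ + (4*lam^2-18*lam+19))^4
      = keyCofactor ξ lam *
        ((4*lam^2+1)^2*ξ^4 - 6*(lam^2-3*lam+1)*(4*lam^2+1)*ξ^2
          + (4*lam^2-18*lam+19)*(4*lam^2+1)*ξ - 3*(lam^2-3*lam+1)^2) := by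
  unfold keyCofactor
  ring

/-- Cofactor of the `3`-isogeny Hauptmodul identity. -/
def threeCofactor (X₀ A B : ℚ) : ℚ :=
    (256*A^10 + 4608*A^7*B^2 + 27648*A^4*B^4 + 62208*A*B^6) * X₀^0 +
    (-1536*A^8*B - 20736*A^5*B^3 - 41472*A^2*B^5) * X₀^1 +
    (-768*A^9 - 11520*A^6*B^2 + 10368*A^3*B^4 + 62208*B^6) * X₀^2 +
    (-5760*A^7*B - 27648*A^4*B^3 - 77760*A*B^5) * X₀^3 +
    (-4128*A^8 - 49248*A^5*B^2 - 58320*A^2*B^4) * X₀^4 +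
    (-13536*A^6*B + 32400*A^3*B^3 - 31104*B^5) * X₀^5 +
    (-8208*A^7 - 46656*A^4*B^2 - 69984*A*B^4) * X₀^6 +
    (-22680*A^5*B + 76464*A^2*B^3) * X₀^7 +
    (-11655*A^6 - 27216*B^4) * X₀^8 +
    (-25164*A^4*B + 50544*A*B^3) * X₀^9 +
    (-13122*A^5 + 24624*A^2*B^2) * X₀^10 +
    (-20736*A^3*B + 11664*B^3) * X₀^11 +
    (-11205*A^4 + 15552*A*B^2) * X₀^12 +
    (-13608*A^2*B) * X₀^13 +
    (-7452*A^3 + 3888*B^2) * X₀^14 +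
    (-5832*A*B) * X₀^15 +
    (-3969*A^2) * X₀^16 +
    (-972*B) * X₀^17 +
    (-1458*A) * X₀^18 +
    (-243) * X₀^20

/-- The `3`-isogeny Hauptmodul identity in short form `y² = X³ + AX + B`: with
`y2 = X₀³+AX₀+B`, `Dl = 4A³+27B²`, modulo `ψ₃(X₀) = 3X₀⁴+6AX₀²+12BX₀-A²`:
`-6912 A³ y2⁶ = (27 y2² - Dl)(3 y2² - Dl)³`, i.e. `j·H = (H+27)(H+3)³` for `H = -Dl/y2²`. -/
theorem three_identity (X₀ A B : ℚ) :
    -6912 * A^3 * (X₀^3 + A*X₀ + B)^6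
      - (27 * (X₀^3 + A*X₀ + B)^2 - (4*A^3 + 27*B^2)) *
        (3 * (X₀^3 + A*X₀ + B)^2 - (4*A^3 + 27*B^2))^3
      = threeCofactor X₀ A B * (3*X₀^4 + 6*A*X₀^2 + 12*B*X₀ - A^2) := by
  unfold threeCofactor
  ring

/-- The Weierstrass form of the `(f, g)`-model of `X₀(15)`. -/
theorem weierstrass_identity (f g : ℚ) :
    (2*g - 5*f*g - 18*f)^2 - g*f*(g - 4*f)*(4*g + 9*f)
      = (36*f - 4*g) * (f*g^2 + (f^2 + 5*f - 1)*g + 9*f) := by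
  ring

end Fermat.Agent.S51_Cert
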