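import Mathlib
import Fermat.Prelude.Def_GaloisRep_DeformationRingData
import Fermat.Prelude.Def_GaloisRep_DeformationCondition

set_option autoImplicit false

/-!
Shared definitions for the proof of S53 (existence of the universal deformation ring).

* `Gal` : the absolute Galois group of `ℚ`.
* `matEnd r`, `MatCont r`, `ofMatrix r hr` : the `GaloisRepAdic` attached to a matrix valued
  homomorphism `r : Gal →* Matrix (Fin 2) (Fin 2) A`.
* `mapMat φ r` : push-forward of a matrix valued homomorphism along a ring homomorphism.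
* `Frame 𝒪 ρbar` : a rigidifying frame for the residual representation.
* `IsNormLift F r` : `r` is a normalized lift of the frame `F`.
-/

namespace Fermat.Agent.S53_Defs

/-- The absolute Galois group of `ℚ`. -/
abbrev Gal : Type := AlgebraicClosure ℚ ≃ₐ[ℚ] AlgebraicClosure ℚ

section Mat

variable {A : Type} [CommRing A]

/-- The endomorphism valued homomorphism attached to a matrix valued homomorphism. -/
noncomputable def matEnd (r : Gal →* Matrix (Fin 2) (Fin 2) A) :
    Gal →* Module.End A (Fin 2 → A) where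
  toFun σ := Matrix.toLin' (r σ)
  map_one' := by rw [map_one, Matrix.toLin'_one]; rfl
  map_mul' σ τ := by rw [map_mul, Matrix.toLin'_mul]; rfl

theorem matEnd_apply (r : Gal →* Matrix (Fin 2) (Fin 2) A) (σ : Gal) :
    matEnd r σ = Matrix.toLin' (r σ) := rfl

theorem matEnd_apply_apply (r : Gal →* Matrix (Fin 2) (Fin 2) A) (σ : Gal) (v : Fin 2 → A) :
    matEnd r σ v = (r σ).mulVec v := rfl

/-- Push-forward of a matrix valued homomorphism along a ring homomorphism. -/
noncomputable def mapMat {B : Type} [CommRing B] (φ : A →+* B) (r : Gal →* Matrix (Fin 2) (Fin 2) A) :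
    Gal →* Matrix (Fin 2) (Fin 2) B :=
  (φ.mapMatrix : Matrix (Fin 2) (Fin 2) A →+* Matrix (Fin 2) (Fin 2) B).toMonoidHom.comp r

theorem mapMat_apply {B : Type} [CommRing B] (φ : A →+* B)
    (r : Gal →* Matrix (Fin 2) (Fin 2) A) (σ : Gal) (i j : Fin 2) :
    mapMat φ r σ i j = φ (r σ i j) := rfl

variable [IsLocalRing A]

/-- Adic continuity of a matrix valued homomorphism. -/
def MatCont (r : Gal →* Matrix (Fin 2) (Fin 2) A) : Prop :=
  GaloisActionIsAdicContinuous A (matEnd r)

/-- The `GaloisRepAdic` attached to a continuous matrix valued homomorphism. -/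
noncomputable def ofMatrix (r : Gal →* Matrix (Fin 2) (Fin 2) A) (hr : MatCont r) :
    GaloisRepAdic A where
  V := Fin 2 → A
  finrank_eq := by simp
  ρ := matEnd r
  isAdicContinuous := hr

theorem ofMatrix_ρ (r : Gal →* Matrix (Fin 2) (Fin 2) A) (hr : MatCont r) :
    (ofMatrix r hr).ρ = matEnd r := rfl

end Mat

section Frame

variable (𝒪 : Type) [CommRing 𝒪] [IsLocalRing 𝒪]

/-- A rigidifying frame for a residual representation: a basis in which `ρbar g₁` has first
column `(0, 1)`, an element `g₂` and a matrix position `(i₀, j₀)` at which the commutator of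
`ρbar g₂` and `ρbar g₁` does not vanish, together with a lift `c₀` of that entry of `ρbar g₂`. -/
structure Frame (ρbar : ResidualGaloisRep (IsLocalRing.ResidueField 𝒪)) : Type where
  basis : Module.Basis (Fin 2) (IsLocalRing.ResidueField 𝒪) ρbar.V
  rbar : Gal →* Matrix (Fin 2) (Fin 2) (IsLocalRing.ResidueField 𝒪)
  rbar_eq : ∀ σ, rbar σ = LinearMap.toMatrix basis basis (ρbar.ρ σ)
  g₁ : Gal
  g₂ : Gal
  i₀ : Fin 2
  j₀ : Fin 2
  c₀ : 𝒪
  g₁_00 : rbar g₁ 0 0 = 0
  g₁_10 : rbar g₁ 1 0 = 1
  comm_ne : (rbar g₂ * rbar g₁ - rbar g₁ * rbar g₂) i₀ j₀ ≠ 0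
  c₀_spec : IsLocalRing.residue 𝒪 c₀ = rbar g₂ i₀ j₀

variable {𝒪}
variable {ρbar : ResidualGaloisRep (IsLocalRing.ResidueField 𝒪)}

/-- `r` is a normalized lift of the frame `F` over the local `𝒪`-algebra `A`. -/
structure IsNormLift (F : Frame 𝒪 ρbar) {A : Type} [CommRing A] [IsLocalRing A] [Algebra 𝒪 A]
    [IsLocalHom (algebraMap 𝒪 A)] (r : Gal →* Matrix (Fin 2) (Fin 2) A) : Prop where
  lifts : ∀ σ i j, IsLocalRing.residue A (r σ i j) =
    IsLocalRing.ResidueField.map (algebraMap 𝒪 A) (F.rbar σ i j)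
  g₁_00 : r F.g₁ 0 0 = 0
  g₁_10 : r F.g₁ 1 0 = 1
  g₂_c₀ : r F.g₂ F.i₀ F.j₀ = algebraMap 𝒪 A F.c₀

end Frame

end Fermat.Agent.S53_Defs
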