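import Mathlib
import Fermat.Prelude.Def_GaloisRep_DeformationRingData
import Fermat.Prelude.Def_GaloisRep_DeformationCondition

set_option autoImplicit false
open IsLocalRing

namespace Fermat.Agent.S53_Local

/-- a module of finite length over a local ring with finite residue field is finite -/
theorem finite_of_isFiniteLength {R : Type*} [CommRing R] [IsLocalRing R] [Finite (ResidueField R)]
    {M : Type*} [AddCommGroup M] [Module R M] (h : IsFiniteLength R M) : Finite M := by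
  induction h with
  | of_subsingleton => exact Finite.of_subsingleton
  | @of_simple_quotient M _ _ N hs _ ih =>
    obtain ⟨I, hI, ⟨e⟩⟩ := isSimpleModule_iff_quot_maximal.mp hs
    have hIm : I = maximalIdeal R := IsLocalRing.eq_maximalIdeal hI
    subst hIm
    haveI : Finite (R ⧸ maximalIdeal R) := inferInstanceAs (Finite (ResidueField R))
    haveI : Finite (M ⧸ N) := Finite.of_equiv _ e.symm.toEquiv
    haveI : Finite N.toAddSubgroup := ih
    haveI : Finite (M ⧸ N.toAddSubgroup) := inferInstanceAs (Finite (M ⧸ N))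
    exact Finite.of_addSubgroup_quotient N.toAddSubgroup

variable (𝒪 : Type) [CommRing 𝒪] [IsLocalRing 𝒪]

/-- the `𝒪`-algebra structure on dual numbers used in `GaloisRep.TangentFinite` (same term) -/
@[reducible] noncomputable def dualAlg : Algebra 𝒪 (DualNumber (ResidueField 𝒪)) :=
  ((algebraMap (ResidueField 𝒪) (DualNumber (ResidueField 𝒪))).comp
    (algebraMap 𝒪 (ResidueField 𝒪))).toAlgebra

theorem residueField_isArtinianTest : GaloisRep.IsArtinianTestAlgebra 𝒪 (ResidueField 𝒪) := by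
  refine ⟨?_, ?_, inferInstance⟩
  · constructor
    intro a ha
    have h0 : algebraMap 𝒪 (ResidueField 𝒪) a ≠ 0 := ha.ne_zero
    rw [ResidueField.algebraMap_eq] at h0
    by_contra hna
    exact h0 ((residue_eq_zero_iff a).mpr hna)
  · intro x
    obtain ⟨y, rfl⟩ := residue_surjective x
    obtain ⟨a, rfl⟩ := residue_surjective y
    exact ⟨a, rfl⟩

theorem dualNumber_isArtinianTest :
    letI := dualAlg 𝒪
    GaloisRep.IsArtinianTestAlgebra 𝒪 (DualNumber (ResidueField 𝒪)) := by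
  letI := dualAlg 𝒪
  refine ⟨?_, ?_, ?_⟩
  · constructor
    intro a ha
    have h1 : IsUnit (TrivSqZeroExt.fst (algebraMap 𝒪 (DualNumber (ResidueField 𝒪)) a)) :=
      ha.map (TrivSqZeroExt.fstHom (ResidueField 𝒪) (ResidueField 𝒪) (ResidueField 𝒪))
    have h2 : TrivSqZeroExt.fst (algebraMap 𝒪 (DualNumber (ResidueField 𝒪)) a) = residue 𝒪 a := rfl
    rw [h2] at h1
    by_contra hna
    exact h1.ne_zero ((residue_eq_zero_iff a).mpr hna)
  · intro x
    obtain ⟨y, rfl⟩ := residue_surjective x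
    obtain ⟨a, ha⟩ := residue_surjective (TrivSqZeroExt.fst y)
    refine ⟨a, ?_⟩
    simp only [Function.comp_apply]
    rw [← sub_eq_zero, ← map_sub, residue_eq_zero_iff, mem_maximalIdeal, mem_nonunits_iff,
      TrivSqZeroExt.isUnit_iff_isUnit_fst, TrivSqZeroExt.fst_sub]
    have h2 : TrivSqZeroExt.fst (algebraMap 𝒪 (DualNumber (ResidueField 𝒪)) a) = residue 𝒪 a := rfl
    rw [h2, ha, sub_self]
    exact not_isUnit_zero
  · have hsub : (Set.univ : Set (Ideal (DualNumber (ResidueField 𝒪)))) ⊆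
        {⊥, Ideal.span {DualNumber.eps}, ⊤} := fun I _ => by
      rcases DualNumber.ideal_trichotomy I with h | h | h <;> simp [h]
    haveI : Finite (Ideal (DualNumber (ResidueField 𝒪))) :=
      Set.finite_univ_iff.mp ((Set.toFinite _).subset hsub)
    infer_instance
variable {𝒪}
variable {A : Type} [CommRing A] [IsLocalRing A] [Algebra 𝒪 A]

/-- Artinian test algebras are finite when the residue field of `𝒪` is finite -/
theorem finite_of_isArtinianTest [Finite (ResidueField 𝒪)]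
    (hA : GaloisRep.IsArtinianTestAlgebra 𝒪 A) : Finite A := by
  haveI := hA.isLocalHom
  haveI := hA.isArtinian
  haveI : Finite (ResidueField A) := by
    have hsurj : Function.Surjective (ResidueField.map (algebraMap 𝒪 A)) := by
      intro x
      obtain ⟨o, ho⟩ := hA.residue_surjective x
      exact ⟨residue 𝒪 o, by rw [ResidueField.map_residue]; exact ho⟩
    exact Finite.of_surjective _ hsurj
  have hfl : IsFiniteLength A A :=
    isFiniteLength_iff_isNoetherian_isArtinian.mpr ⟨inferInstance, inferInstance⟩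
  exact finite_of_isFiniteLength hfl

theorem isArtinianTest_of_finite [Finite A] [IsLocalHom (algebraMap 𝒪 A)]
    (hres : Function.Surjective (residue A ∘ algebraMap 𝒪 A)) :
    GaloisRep.IsArtinianTestAlgebra 𝒪 A :=
  ⟨inferInstance, hres, inferInstance⟩

/-- every element is congruent to a scalar modulo the maximal ideal -/
theorem exists_sub_mem_maximalIdeal (hres : Function.Surjective (residue A ∘ algebraMap 𝒪 A))
    (a : A) : ∃ o : 𝒪, a - algebraMap 𝒪 A o ∈ maximalIdeal A := by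
  obtain ⟨o, ho⟩ := hres (residue A a)
  refine ⟨o, ?_⟩
  rw [← residue_eq_zero_iff, map_sub, sub_eq_zero]
  exact ho.symm

/-- in a finite ring, a subring element which is a unit of the ambient ring is a unit of the
subring -/
theorem isUnit_of_isUnit_val [Finite A] (S : Subalgebra 𝒪 A) (x : S) (hx : IsUnit (x : A)) :
    IsUnit x := by
  obtain ⟨u, hu⟩ := hx
  obtain ⟨n, hn, hun⟩ := isOfFinOrder_iff_pow_eq_one.mp (isOfFinOrder_of_finite u)
  have h1 : (x : A) ^ n = 1 := by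
    rw [← hu, ← Units.val_pow_eq_pow_val, hun, Units.val_one]
  refine IsUnit.of_mul_eq_one (x ^ (n - 1)) ?_
  apply Subtype.ext
  rw [Subalgebra.coe_mul, Subalgebra.coe_pow, Subalgebra.coe_one, ← pow_succ',
    Nat.sub_add_cancel hn, h1]

/-- subalgebras of finite local `𝒪`-algebras are local ... -/
theorem isLocalRing_subalgebra [Finite A] (S : Subalgebra 𝒪 A) : IsLocalRing S := by
  haveI : Nontrivial S := ⟨⟨0, 1, fun h => zero_ne_one (α := A) (congrArg Subtype.val h)⟩⟩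
  refine IsLocalRing.of_nonunits_add ?_
  intro a b ha hb
  rw [mem_nonunits_iff] at ha hb ⊢
  intro hab
  have ha' : (a : A) ∈ nonunits A := fun h => ha (isUnit_of_isUnit_val S a h)
  have hb' : (b : A) ∈ nonunits A := fun h => hb (isUnit_of_isUnit_val S b h)
  have h3 : ((a + b : S) : A) ∈ nonunits A := by
    rw [Subalgebra.coe_add]
    exact IsLocalRing.nonunits_add ha' hb'
  exact h3 (hab.map S.val)

/-- ... with local inclusion -/
theorem isLocalHom_subalgebra_val [Finite A] (S : Subalgebra 𝒪 A) :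
    haveI := isLocalRing_subalgebra S
    IsLocalHom (S.val : S →+* A) :=
  ⟨fun x hx => isUnit_of_isUnit_val S x hx⟩

theorem isArtinianTest_subalgebra [Finite A] (hA : GaloisRep.IsArtinianTestAlgebra 𝒪 A)
    (S : Subalgebra 𝒪 A) :
    haveI := isLocalRing_subalgebra S
    GaloisRep.IsArtinianTestAlgebra 𝒪 S := by
  haveI := isLocalRing_subalgebra S
  haveI := hA.isLocalHom
  refine ⟨⟨?_⟩, ?_, inferInstance⟩
  · intro o ho
    have h1 : IsUnit (algebraMap 𝒪 A o) := ho.map S.val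
    exact isUnit_of_map_unit (algebraMap 𝒪 A) o h1
  · intro x
    obtain ⟨s, rfl⟩ := residue_surjective x
    obtain ⟨o, ho⟩ := exists_sub_mem_maximalIdeal hA.residue_surjective (s : A)
    refine ⟨o, ?_⟩
    simp only [Function.comp_apply]
    rw [← sub_eq_zero, ← map_sub, residue_eq_zero_iff, mem_maximalIdeal, mem_nonunits_iff]
    intro hu
    have h1 : IsUnit ((algebraMap 𝒪 S o - s : S) : A) := hu.map S.val
    have h2 : ((algebraMap 𝒪 S o - s : S) : A) = -((s : A) - algebraMap 𝒪 A o) := by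
      rw [Subalgebra.coe_sub, Subalgebra.coe_algebraMap]; ring
    rw [h2] at h1
    exact (mem_nonunits_iff.mp ((mem_maximalIdeal _).mp ho)) ((IsUnit.neg_iff _).mp h1)
/-- the fibre product `A ×_{A/m} A` as a subalgebra of `A × A` -/
def fibreSq (𝒪 : Type) [CommRing 𝒪] (A : Type) [CommRing A] [IsLocalRing A] [Algebra 𝒪 A] :
    Subalgebra 𝒪 (A × A) where
  carrier := {x | x.1 - x.2 ∈ maximalIdeal A}
  mul_mem' := by
    rintro ⟨a, a'⟩ ⟨b, b'⟩ h h'
    show a * b - a' * b' ∈ maximalIdeal A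
    have : a * b - a' * b' = (a - a') * b + a' * (b - b') := by ring
    rw [this]
    exact Ideal.add_mem _ (Ideal.mul_mem_right _ _ h) (Ideal.mul_mem_left _ _ h')
  add_mem' := by
    rintro ⟨a, a'⟩ ⟨b, b'⟩ h h'
    show a + b - (a' + b') ∈ maximalIdeal A
    have : a + b - (a' + b') = (a - a') + (b - b') := by ring
    rw [this]
    exact Ideal.add_mem _ h h'
  algebraMap_mem' o := by
    show algebraMap 𝒪 A o - algebraMap 𝒪 A o ∈ maximalIdeal A
    simp

theorem mem_fibreSq (x : A × A) : x ∈ fibreSq 𝒪 A ↔ x.1 - x.2 ∈ maximalIdeal A := Iff.rfl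

/-- units of the fibre square are detected on the first coordinate -/
theorem isUnit_fibreSq_iff (x : fibreSq 𝒪 A) : IsUnit x ↔ IsUnit (x : A × A).1 := by
  constructor
  · intro h
    exact h.map ((RingHom.fst A A).comp (fibreSq 𝒪 A).val.toRingHom)
  · intro h
    have hx : (x : A × A).1 - (x : A × A).2 ∈ maximalIdeal A := x.2
    have h2 : IsUnit (x : A × A).2 := by
      by_contra hn
      have h3 : (x : A × A).1 - (x : A × A).2 + (x : A × A).2 ∈ nonunits A :=
        IsLocalRing.nonunits_add ((mem_maximalIdeal _).mp hx) hn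
      rw [sub_add_cancel] at h3
      exact h3 h
    obtain ⟨u, hu⟩ := h
    obtain ⟨v, hv⟩ := h2
    have hy : ((↑u⁻¹ : A), (↑v⁻¹ : A)) ∈ fibreSq 𝒪 A := by
      rw [mem_fibreSq]
      have : (↑u⁻¹ : A) - (↑v⁻¹ : A) = -((↑u⁻¹ : A) * (↑v⁻¹ : A) * ((u : A) - (v : A))) := by
        have h1 : (↑u⁻¹ : A) * (u : A) = 1 := Units.inv_mul u
        have h2 : (↑v⁻¹ : A) * (v : A) = 1 := Units.inv_mul v
        linear_combination (↑v⁻¹ : A) * h1 - (↑u⁻¹ : A) * h2
      rw [this, hu, hv]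
      exact neg_mem (Ideal.mul_mem_left _ _ hx)
    refine IsUnit.of_mul_eq_one ⟨_, hy⟩ ?_
    apply Subtype.ext
    apply Prod.ext
    · show (x : A × A).1 * (↑u⁻¹ : A) = 1
      rw [← hu]; exact Units.mul_inv u
    · show (x : A × A).2 * (↑v⁻¹ : A) = 1
      rw [← hv]; exact Units.mul_inv v

theorem isLocalRing_fibreSq [Finite A] : IsLocalRing (fibreSq 𝒪 A) := by
  haveI : Nontrivial (fibreSq 𝒪 A) :=
    ⟨⟨0, 1, fun h => zero_ne_one (α := A)
      (congrArg (fun x : fibreSq 𝒪 A => (x : A × A).1) h)⟩⟩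
  refine IsLocalRing.of_nonunits_add ?_
  intro a b ha hb
  rw [mem_nonunits_iff, isUnit_fibreSq_iff] at ha hb ⊢
  exact IsLocalRing.nonunits_add ha hb

theorem isArtinianTest_fibreSq [Finite A] (hA : GaloisRep.IsArtinianTestAlgebra 𝒪 A) :
    haveI := isLocalRing_fibreSq (𝒪 := 𝒪) (A := A)
    GaloisRep.IsArtinianTestAlgebra 𝒪 (fibreSq 𝒪 A) := by
  haveI := isLocalRing_fibreSq (𝒪 := 𝒪) (A := A)
  haveI := hA.isLocalHom
  refine ⟨⟨?_⟩, ?_, inferInstance⟩
  · intro o ho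
    rw [isUnit_fibreSq_iff] at ho
    exact isUnit_of_map_unit (algebraMap 𝒪 A) o ho
  · intro x
    obtain ⟨s, rfl⟩ := residue_surjective x
    obtain ⟨o, ho⟩ := exists_sub_mem_maximalIdeal hA.residue_surjective (s : A × A).1
    refine ⟨o, ?_⟩
    simp only [Function.comp_apply]
    rw [← sub_eq_zero, ← map_sub, residue_eq_zero_iff, mem_maximalIdeal, mem_nonunits_iff,
      isUnit_fibreSq_iff]
    intro hu
    have h2 : ((algebraMap 𝒪 (fibreSq 𝒪 A) o - s : fibreSq 𝒪 A) : A × A).1 =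
        -((s : A × A).1 - algebraMap 𝒪 A o) := by
      show algebraMap 𝒪 A o - (s : A × A).1 = _
      ring
    rw [h2] at hu
    exact (mem_nonunits_iff.mp ((mem_maximalIdeal _).mp ho)) ((IsUnit.neg_iff _).mp hu)

/-- first projection -/
def fibreSqFst (𝒪 : Type) [CommRing 𝒪] (A : Type) [CommRing A] [IsLocalRing A] [Algebra 𝒪 A] :
    fibreSq 𝒪 A →ₐ[𝒪] A := (AlgHom.fst 𝒪 A A).comp (fibreSq 𝒪 A).val

/-- second projection -/
def fibreSqSnd (𝒪 : Type) [CommRing 𝒪] (A : Type) [CommRing A] [IsLocalRing A] [Algebra 𝒪 A] :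
    fibreSq 𝒪 A →ₐ[𝒪] A := (AlgHom.snd 𝒪 A A).comp (fibreSq 𝒪 A).val

theorem isLocalHom_fibreSqFst [Finite A] :
    haveI := isLocalRing_fibreSq (𝒪 := 𝒪) (A := A)
    IsLocalHom (fibreSqFst 𝒪 A : fibreSq 𝒪 A →+* A) :=
  ⟨fun x hx => (isUnit_fibreSq_iff x).mpr hx⟩

theorem isLocalHom_fibreSqSnd [Finite A] :
    haveI := isLocalRing_fibreSq (𝒪 := 𝒪) (A := A)
    IsLocalHom (fibreSqSnd 𝒪 A : fibreSq 𝒪 A →+* A) := by
  refine ⟨fun x hx => (isUnit_fibreSq_iff x).mpr ?_⟩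
  have hx' : IsUnit (x : A × A).2 := hx
  have hm : (x : A × A).1 - (x : A × A).2 ∈ maximalIdeal A := x.2
  by_contra hn
  have h3 : (x : A × A).2 ∈ nonunits A := by
    have h4 : -((x : A × A).1 - (x : A × A).2) + (x : A × A).1 ∈ nonunits A :=
      IsLocalRing.nonunits_add ((mem_maximalIdeal _).mp (neg_mem hm)) hn
    have h5 : -((x : A × A).1 - (x : A × A).2) + (x : A × A).1 = (x : A × A).2 := by ring
    rwa [h5] at h4
  exact h3 hx'
/-- Nakayama-type lemma: a subalgebra which is dense modulo the square of the maximal ideal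
is everything. -/
theorem subalgebra_eq_top_of_dense [Finite A]
    (hres : Function.Surjective (residue A ∘ algebraMap 𝒪 A)) (B : Subalgebra 𝒪 A)
    (h : ∀ a : A, ∃ b ∈ B, a - b ∈ maximalIdeal A ^ 2) : B = ⊤ := by
  have hQ : ∀ n : ℕ, ∀ y ∈ maximalIdeal A ^ (n + 1), ∃ b ∈ B, y - b ∈ maximalIdeal A ^ (n + 2) := by
    intro n
    induction n with
    | zero => intro y _; exact h y
    | succ n ih =>
      intro y hy
      rw [pow_succ] at hy
      refine Submodule.mul_induction_on hy ?_ ?_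
      · intro u hu x hx
        obtain ⟨bu, hbu, hu'⟩ := ih u hu
        obtain ⟨bx, hbx, hx'⟩ := h x
        refine ⟨bu * bx, B.mul_mem hbu hbx, ?_⟩
        have e : u * x - bu * bx = (u - bu) * x + bu * (x - bx) := by ring
        rw [e]
        have hbu' : bu ∈ maximalIdeal A ^ (n + 1) := by
          have e2 : bu = u - (u - bu) := by ring
          rw [e2]
          exact sub_mem hu (Ideal.pow_le_pow_right (Nat.le_succ _) hu')
        refine add_mem ?_ ?_
        · have : (u - bu) * x ∈ maximalIdeal A ^ (n + 2) * maximalIdeal A :=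
            Ideal.mul_mem_mul hu' hx
          rwa [← pow_succ] at this
        · have : bu * (x - bx) ∈ maximalIdeal A ^ (n + 1) * maximalIdeal A ^ 2 :=
            Ideal.mul_mem_mul hbu' hx'
          rwa [← pow_add] at this
      · intro y₁ y₂ ⟨b₁, hb₁, h₁⟩ ⟨b₂, hb₂, h₂⟩
        refine ⟨b₁ + b₂, B.add_mem hb₁ hb₂, ?_⟩
        have e : y₁ + y₂ - (b₁ + b₂) = (y₁ - b₁) + (y₂ - b₂) := by ring
        rw [e]
        exact add_mem h₁ h₂
  have hP : ∀ n : ℕ, ∀ a : A, ∃ b ∈ B, a - b ∈ maximalIdeal A ^ (n + 1) := by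
    intro n
    induction n with
    | zero =>
      intro a
      obtain ⟨o, ho⟩ := exists_sub_mem_maximalIdeal hres a
      exact ⟨algebraMap 𝒪 A o, B.algebraMap_mem o, by rwa [zero_add, pow_one]⟩
    | succ n ih =>
      intro a
      obtain ⟨b, hb, hab⟩ := ih a
      obtain ⟨b', hb', hab'⟩ := hQ n (a - b) hab
      refine ⟨b + b', B.add_mem hb hb', ?_⟩
      have e : a - (b + b') = a - b - b' := by ring
      rw [e]
      exact hab'
  obtain ⟨N, hN⟩ := (isArtinianRing_iff_isNilpotent_maximalIdeal A).mp inferInstance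
  rw [Algebra.eq_top_iff]
  intro a
  obtain ⟨b, hb, hab⟩ := hP N a
  have h0 : a - b ∈ maximalIdeal A ^ N := Ideal.pow_le_pow_right (Nat.le_succ _) hab
  rw [hN] at h0
  have : a = b := sub_eq_zero.mp ((Submodule.mem_bot A).mp h0)
  rw [this]
  exact hb
/-- scalars from the maximal ideal of `𝒪` land in the maximal ideal of `A` -/
theorem algebraMap_mem_maximalIdeal [IsLocalHom (algebraMap 𝒪 A)] {o : 𝒪}
    (ho : o ∈ maximalIdeal 𝒪) : algebraMap 𝒪 A o ∈ maximalIdeal A := by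
  rw [mem_maximalIdeal, mem_nonunits_iff] at ho ⊢
  exact fun h => ho (isUnit_of_map_unit (algebraMap 𝒪 A) o h)

/-- the `𝒪`-submodule `B + m² + m_𝒪 A` -/
def bigSub (B : Subalgebra 𝒪 A) : Submodule 𝒪 A :=
  Subalgebra.toSubmodule B ⊔ (maximalIdeal A ^ 2).restrictScalars 𝒪 ⊔
    (maximalIdeal 𝒪) • (⊤ : Submodule 𝒪 A)

theorem bigSub_ne_top [Finite A] [IsLocalHom (algebraMap 𝒪 A)]
    (hres : Function.Surjective (residue A ∘ algebraMap 𝒪 A))
    (B : Subalgebra 𝒪 A) (hB : B ≠ ⊤) : bigSub B ≠ ⊤ := by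
  intro htop
  apply hB
  apply subalgebra_eq_top_of_dense hres B
  -- elements of `m_𝒪 A` are in `B + m²`
  have hz : ∀ z ∈ (maximalIdeal 𝒪) • (⊤ : Submodule 𝒪 A),
      ∃ b ∈ B, z - b ∈ maximalIdeal A ^ 2 := by
    intro z hz
    refine Submodule.smul_induction_on hz ?_ ?_
    · intro o ho a _
      obtain ⟨c, hc⟩ := exists_sub_mem_maximalIdeal hres a
      refine ⟨algebraMap 𝒪 A (o * c), B.algebraMap_mem _, ?_⟩
      have e : o • a - algebraMap 𝒪 A (o * c) = algebraMap 𝒪 A o * (a - algebraMap 𝒪 A c) := by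
        rw [Algebra.smul_def, map_mul]; ring
      rw [e, pow_two]
      exact Ideal.mul_mem_mul (algebraMap_mem_maximalIdeal ho) hc
    · intro y₁ y₂ ⟨b₁, hb₁, h₁⟩ ⟨b₂, hb₂, h₂⟩
      refine ⟨b₁ + b₂, B.add_mem hb₁ hb₂, ?_⟩
      have e : y₁ + y₂ - (b₁ + b₂) = (y₁ - b₁) + (y₂ - b₂) := by ring
      rw [e]
      exact add_mem h₁ h₂
  intro a
  have ha : a ∈ bigSub B := by rw [htop]; exact Submodule.mem_top
  unfold bigSub at ha
  obtain ⟨w, hw, z, hz', rfl⟩ := Submodule.mem_sup.mp ha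
  obtain ⟨b, hb, y, hy, rfl⟩ := Submodule.mem_sup.mp hw
  obtain ⟨bz, hbz, hzz⟩ := hz z hz'
  refine ⟨b + bz, B.add_mem hb hbz, ?_⟩
  have e : b + y + z - (b + bz) = y + (z - bz) := by ring
  rw [e]
  exact add_mem hy hzz
/-- Nakayama-type separation: a proper subalgebra of a finite local `𝒪`-algebra is killed by
the `ε`-part of some `𝒪`-algebra map to the dual numbers which is not identically zero. -/
theorem exists_dualNumber_hom [Finite A] [IsLocalHom (algebraMap 𝒪 A)]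
    (hres : Function.Surjective (residue A ∘ algebraMap 𝒪 A))
    (B : Subalgebra 𝒪 A) (hB : B ≠ ⊤) :
    letI := dualAlg 𝒪
    ∃ π : A →ₐ[𝒪] DualNumber (ResidueField 𝒪),
      (∀ b ∈ B, TrivSqZeroExt.snd (π b) = 0) ∧ ∃ a, TrivSqZeroExt.snd (π a) ≠ 0 := by
  letI := dualAlg 𝒪
  obtain ⟨U', hU', hle⟩ :=
    (eq_top_or_exists_le_coatom (bigSub B)).resolve_left (bigSub_ne_top hres B hB)
  haveI hsimple : IsSimpleModule 𝒪 (A ⧸ U') := isSimpleModule_iff_isCoatom.mpr hU'
  obtain ⟨I, hI, ⟨e⟩⟩ := isSimpleModule_iff_quot_maximal.mp hsimple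
  have hIm : I = maximalIdeal 𝒪 := IsLocalRing.eq_maximalIdeal hI
  subst hIm
  let lam : A → ResidueField 𝒪 := fun a => e (U'.mkQ a)
  have lam_add : ∀ a a', lam (a + a') = lam a + lam a' := fun a a' => by
    show e (U'.mkQ (a + a')) = e (U'.mkQ a) + e (U'.mkQ a')
    rw [map_add, map_add]
  have lam_smul : ∀ (o : 𝒪) (a : A), lam (algebraMap 𝒪 A o * a) = residue 𝒪 o * lam a := by
    intro o a
    have h1 : algebraMap 𝒪 A o * a = o • a := (Algebra.smul_def o a).symm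
    show e (U'.mkQ (algebraMap 𝒪 A o * a)) =
      (Ideal.Quotient.mk (maximalIdeal 𝒪) o) * e (U'.mkQ a)
    rw [h1, map_smul, map_smul]
    generalize e (U'.mkQ a) = y
    obtain ⟨x, rfl⟩ := Ideal.Quotient.mk_surjective y
    rfl
  have lam_zero : ∀ u ∈ bigSub B, lam u = 0 := by
    intro u hu
    show e (U'.mkQ u) = 0
    rw [Submodule.mkQ_apply, (Submodule.Quotient.mk_eq_zero U').mpr (hle hu), map_zero]
  have lam_ne : ∃ a, lam a ≠ 0 := by
    by_contra hcon
    push Not at hcon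
    apply hU'.1
    rw [eq_top_iff]
    intro a _
    have h1 : e (U'.mkQ a) = 0 := hcon a
    rw [LinearEquiv.map_eq_zero_iff, Submodule.mkQ_apply] at h1
    exact (Submodule.Quotient.mk_eq_zero U').mp h1
  have hBU : ∀ b ∈ B, b ∈ bigSub B := fun b hb =>
    Submodule.mem_sup_left (Submodule.mem_sup_left hb)
  have hm2U : ∀ y ∈ maximalIdeal A ^ 2, y ∈ bigSub B := fun y hy =>
    Submodule.mem_sup_left (Submodule.mem_sup_right hy)
  have hbij : Function.Bijective (ResidueField.map (algebraMap 𝒪 A)) := by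
    refine ⟨RingHom.injective _, ?_⟩
    intro x
    obtain ⟨o, ho⟩ := hres x
    exact ⟨residue 𝒪 o, by rw [ResidueField.map_residue]; exact ho⟩
  let E : ResidueField 𝒪 ≃+* ResidueField A := RingEquiv.ofBijective _ hbij
  let res : A →+* ResidueField 𝒪 :=
    (E.symm : ResidueField A →+* ResidueField 𝒪).comp (residue A)
  have res_alg : ∀ o : 𝒪, res (algebraMap 𝒪 A o) = residue 𝒪 o := by
    intro o
    show E.symm (residue A (algebraMap 𝒪 A o)) = residue 𝒪 o
    have h1 : residue A (algebraMap 𝒪 A o) = E (residue 𝒪 o) := by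
      show _ = ResidueField.map (algebraMap 𝒪 A) (residue 𝒪 o)
      rw [ResidueField.map_residue]
    rw [h1, RingEquiv.symm_apply_apply]
  have res_max : ∀ x ∈ maximalIdeal A, res x = 0 := by
    intro x hx
    show E.symm (residue A x) = 0
    rw [(residue_eq_zero_iff x).mpr hx, map_zero]
  have hlamo : ∀ o : 𝒪, lam (algebraMap 𝒪 A o) = 0 := fun o =>
    lam_zero _ (hBU _ (B.algebraMap_mem o))
  have lam_mul : ∀ a b : A, lam (a * b) = res a * lam b + lam a * res b := by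
    intro a b
    obtain ⟨oa, hoa⟩ := exists_sub_mem_maximalIdeal hres a
    obtain ⟨ob, hob⟩ := exists_sub_mem_maximalIdeal hres b
    obtain ⟨x, hx, rfl⟩ : ∃ x ∈ maximalIdeal A, a = algebraMap 𝒪 A oa + x :=
      ⟨a - algebraMap 𝒪 A oa, hoa, by ring⟩
    obtain ⟨y, hy, rfl⟩ : ∃ y ∈ maximalIdeal A, b = algebraMap 𝒪 A ob + y :=
      ⟨b - algebraMap 𝒪 A ob, hob, by ring⟩
    have hlxy : lam (x * y) = 0 :=
      lam_zero _ (hm2U _ (by rw [pow_two]; exact Ideal.mul_mem_mul hx hy))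
    have e1 : (algebraMap 𝒪 A oa + x) * (algebraMap 𝒪 A ob + y) =
        algebraMap 𝒪 A (oa * ob) + algebraMap 𝒪 A oa * y + algebraMap 𝒪 A ob * x + x * y := by
      rw [map_mul]; ring
    rw [e1, lam_add, lam_add, lam_add, hlamo, lam_smul, lam_smul, hlxy, lam_add, lam_add,
      hlamo, hlamo, map_add, map_add, res_alg, res_alg, res_max x hx, res_max y hy]
    ring
  let π₀ : A →+* DualNumber (ResidueField 𝒪) :=
    { toFun := fun a => TrivSqZeroExt.inl (res a) + TrivSqZeroExt.inr (lam a)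
      map_one' := by
        have h1 : lam 1 = 0 := lam_zero _ (hBU _ B.one_mem)
        rw [h1, map_one]
        simp
      map_mul' := by
        intro a b
        rw [lam_mul, map_mul]
        apply TrivSqZeroExt.ext
        · simp
        · simp [mul_comm]
      map_zero' := by
        have h1 : lam 0 = 0 := lam_zero _ (Submodule.zero_mem _)
        rw [h1, map_zero]
        simp
      map_add' := by
        intro a b
        rw [lam_add, map_add]
        apply TrivSqZeroExt.ext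
        · simp
        · simp }
  have hπ₀ : ∀ a, TrivSqZeroExt.snd (π₀ a) = lam a := by
    intro a
    show TrivSqZeroExt.snd (TrivSqZeroExt.inl (res a) + TrivSqZeroExt.inr (lam a)) = lam a
    simp
  refine ⟨{ π₀ with
    commutes' := ?_ }, ?_, ?_⟩
  · intro o
    show TrivSqZeroExt.inl (res (algebraMap 𝒪 A o)) + TrivSqZeroExt.inr (lam (algebraMap 𝒪 A o)) =
      TrivSqZeroExt.inl (residue 𝒪 o)
    rw [res_alg, hlamo]
    simp
  · intro b hb
    show TrivSqZeroExt.snd (π₀ b) = 0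
    rw [hπ₀]
    exact lam_zero _ (hBU b hb)
  · obtain ⟨a, ha⟩ := lam_ne
    refine ⟨a, ?_⟩
    show TrivSqZeroExt.snd (π₀ a) ≠ 0
    rw [hπ₀]
    exact ha

section additions

/-- every ring hom from a finite local ring to a nontrivial ring is local -/
theorem isLocalHom_of_finite {A B : Type} [CommRing A] [IsLocalRing A] [Finite A] [CommRing B]
    [Nontrivial B] (φ : A →+* B) : IsLocalHom φ := by
  refine ⟨fun a ha => ?_⟩
  by_contra hna
  obtain ⟨N, hN⟩ := (isArtinianRing_iff_isNilpotent_maximalIdeal A).mp inferInstance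
  have h1 : a ^ N ∈ maximalIdeal A ^ N := Ideal.pow_mem_pow ((mem_maximalIdeal a).mpr hna) N
  rw [hN] at h1
  have h2 : a ^ N = 0 := (Submodule.mem_bot A).mp h1
  have h3 : IsUnit (φ a ^ N) := ha.pow N
  rw [← map_pow, h2, map_zero] at h3
  exact not_isUnit_zero h3

/-- quotients of Artinian test algebras are Artinian test algebras -/
theorem isArtinianTest_of_surjective {A B : Type} [CommRing A] [IsLocalRing A] [Algebra 𝒪 A]
    [CommRing B] [IsLocalRing B] [Algebra 𝒪 B] (hA : GaloisRep.IsArtinianTestAlgebra 𝒪 A)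
    (φ : A →ₐ[𝒪] B) (hφ : Function.Surjective φ) : GaloisRep.IsArtinianTestAlgebra 𝒪 B := by
  haveI := hA.isLocalHom
  haveI := hA.isArtinian
  have hloc : IsLocalHom (φ : A →+* B) := IsLocalHom.of_surjective (φ : A →+* B) hφ
  refine ⟨⟨?_⟩, ?_, ?_⟩
  · intro o ho
    have h1 : IsUnit ((φ : A →+* B) (algebraMap 𝒪 A o)) := by
      have e : (φ : A →+* B) (algebraMap 𝒪 A o) = algebraMap 𝒪 B o := φ.commutes o
      rw [e]; exact ho
    exact isUnit_of_map_unit (algebraMap 𝒪 A) o (hloc.map_nonunit _ h1)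
  · intro x
    obtain ⟨b, rfl⟩ := residue_surjective x
    obtain ⟨a, rfl⟩ := hφ b
    obtain ⟨o, ho⟩ := exists_sub_mem_maximalIdeal hA.residue_surjective a
    refine ⟨o, ?_⟩
    simp only [Function.comp_apply]
    rw [← sub_eq_zero, ← map_sub, residue_eq_zero_iff, mem_maximalIdeal, mem_nonunits_iff]
    intro hu
    have h2 : algebraMap 𝒪 B o - φ a = (φ : A →+* B) (-(a - algebraMap 𝒪 A o)) := by
      have e : (φ : A →+* B) (algebraMap 𝒪 A o) = algebraMap 𝒪 B o := φ.commutes o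
      rw [map_neg, map_sub, e]
      show algebraMap 𝒪 B o - φ a = -(φ a - algebraMap 𝒪 B o)
      ring
    rw [h2] at hu
    have h3 := hloc.map_nonunit _ hu
    exact (mem_nonunits_iff.mp ((mem_maximalIdeal _).mp ho)) ((IsUnit.neg_iff _).mp h3)
  · exact (show Function.Surjective (φ : A →+* B) from hφ).isArtinianRing

/-- `A ⧸ m ^ n` is an Artinian test algebra -/
theorem isArtinianTest_quotient_pow {A : Type} [CommRing A] [IsLocalRing A] [IsNoetherianRing A]
    [Algebra 𝒪 A] [IsLocalHom (algebraMap 𝒪 A)]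
    (hres : Function.Surjective (residue A ∘ algebraMap 𝒪 A)) (n : ℕ)
    [IsLocalRing (A ⧸ maximalIdeal A ^ n)] :
    GaloisRep.IsArtinianTestAlgebra 𝒪 (A ⧸ maximalIdeal A ^ n) := by
  have hmk : IsLocalHom (Ideal.Quotient.mk (maximalIdeal A ^ n)) :=
    IsLocalHom.of_surjective _ Ideal.Quotient.mk_surjective
  refine ⟨?_, ?_, ?_⟩
  · have e : algebraMap 𝒪 (A ⧸ maximalIdeal A ^ n) =
        (Ideal.Quotient.mk (maximalIdeal A ^ n)).comp (algebraMap 𝒪 A) := rfl
    rw [e]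
    exact RingHom.isLocalHom_comp _ _
  · intro x
    obtain ⟨y, rfl⟩ := residue_surjective x
    obtain ⟨a, rfl⟩ := Ideal.Quotient.mk_surjective y
    obtain ⟨o, ho⟩ := exists_sub_mem_maximalIdeal hres a
    refine ⟨o, ?_⟩
    simp only [Function.comp_apply]
    rw [← sub_eq_zero, ← map_sub, residue_eq_zero_iff, mem_maximalIdeal, mem_nonunits_iff]
    intro hu
    have h2 : algebraMap 𝒪 (A ⧸ maximalIdeal A ^ n) o - Ideal.Quotient.mk (maximalIdeal A ^ n) a =
        Ideal.Quotient.mk (maximalIdeal A ^ n) (-(a - algebraMap 𝒪 A o)) := by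
      rw [map_neg, map_sub]
      show Ideal.Quotient.mk (maximalIdeal A ^ n) (algebraMap 𝒪 A o) -
        Ideal.Quotient.mk (maximalIdeal A ^ n) a = _
      ring
    rw [h2] at hu
    have h3 := hmk.map_nonunit _ hu
    exact (mem_nonunits_iff.mp ((mem_maximalIdeal _).mp ho)) ((IsUnit.neg_iff _).mp h3)
  · rw [isArtinianRing_iff_isNilpotent_maximalIdeal]
    refine ⟨n, ?_⟩
    have hle : maximalIdeal (A ⧸ maximalIdeal A ^ n) ≤
        (maximalIdeal A).map (Ideal.Quotient.mk (maximalIdeal A ^ n)) := by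
      intro s hs
      obtain ⟨a, rfl⟩ := Ideal.Quotient.mk_surjective s
      refine Ideal.mem_map_of_mem _ ?_
      rw [mem_maximalIdeal, mem_nonunits_iff] at hs ⊢
      exact fun hu => hs (hu.map _)
    have h0 : ((maximalIdeal A).map (Ideal.Quotient.mk (maximalIdeal A ^ n))) ^ n = ⊥ := by
      rw [← Ideal.map_pow, Ideal.map_eq_bot_iff_le_ker, Ideal.mk_ker]
    rw [Ideal.zero_eq_bot, eq_bot_iff, ← h0]
    exact Ideal.pow_right_mono hle n

section fibreProd

variable {A₁ A₂ : Type} [CommRing A₁] [IsLocalRing A₁] [Algebra 𝒪 A₁]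
  [CommRing A₂] [IsLocalRing A₂] [Algebra 𝒪 A₂]

/-- the fibre product `A₁ ×_k A₂` over the residue field `k` of `𝒪`, as a subalgebra of
`A₁ × A₂` -/
def fibreProd (𝒪 : Type) [CommRing 𝒪] (A₁ A₂ : Type) [CommRing A₁] [IsLocalRing A₁] [Algebra 𝒪 A₁]
    [CommRing A₂] [IsLocalRing A₂] [Algebra 𝒪 A₂] : Subalgebra 𝒪 (A₁ × A₂) where
  carrier := {x | ∃ o : 𝒪, x.1 - algebraMap 𝒪 A₁ o ∈ maximalIdeal A₁ ∧
    x.2 - algebraMap 𝒪 A₂ o ∈ maximalIdeal A₂}
  mul_mem' := by
    rintro ⟨a, a'⟩ ⟨b, b'⟩ ⟨o, h1, h2⟩ ⟨o', h1', h2'⟩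
    refine ⟨o * o', ?_, ?_⟩
    · show a * b - algebraMap 𝒪 A₁ (o * o') ∈ maximalIdeal A₁
      have : a * b - algebraMap 𝒪 A₁ (o * o') =
          (a - algebraMap 𝒪 A₁ o) * b + algebraMap 𝒪 A₁ o * (b - algebraMap 𝒪 A₁ o') := by
        rw [map_mul]; ring
      rw [this]
      exact Ideal.add_mem _ (Ideal.mul_mem_right _ _ h1) (Ideal.mul_mem_left _ _ h1')
    · show a' * b' - algebraMap 𝒪 A₂ (o * o') ∈ maximalIdeal A₂
      have : a' * b' - algebraMap 𝒪 A₂ (o * o') =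
          (a' - algebraMap 𝒪 A₂ o) * b' + algebraMap 𝒪 A₂ o * (b' - algebraMap 𝒪 A₂ o') := by
        rw [map_mul]; ring
      rw [this]
      exact Ideal.add_mem _ (Ideal.mul_mem_right _ _ h2) (Ideal.mul_mem_left _ _ h2')
  add_mem' := by
    rintro ⟨a, a'⟩ ⟨b, b'⟩ ⟨o, h1, h2⟩ ⟨o', h1', h2'⟩
    refine ⟨o + o', ?_, ?_⟩
    · show a + b - algebraMap 𝒪 A₁ (o + o') ∈ maximalIdeal A₁
      have : a + b - algebraMap 𝒪 A₁ (o + o') =
          (a - algebraMap 𝒪 A₁ o) + (b - algebraMap 𝒪 A₁ o') := by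
        rw [map_add]; ring
      rw [this]
      exact Ideal.add_mem _ h1 h1'
    · show a' + b' - algebraMap 𝒪 A₂ (o + o') ∈ maximalIdeal A₂
      have : a' + b' - algebraMap 𝒪 A₂ (o + o') =
          (a' - algebraMap 𝒪 A₂ o) + (b' - algebraMap 𝒪 A₂ o') := by
        rw [map_add]; ring
      rw [this]
      exact Ideal.add_mem _ h2 h2'
  algebraMap_mem' o := ⟨o, by simp, by simp⟩

theorem mem_fibreProd (x : A₁ × A₂) : x ∈ fibreProd 𝒪 A₁ A₂ ↔
    ∃ o : 𝒪, x.1 - algebraMap 𝒪 A₁ o ∈ maximalIdeal A₁ ∧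
      x.2 - algebraMap 𝒪 A₂ o ∈ maximalIdeal A₂ := Iff.rfl

/-- an element congruent to a scalar `o` is a unit iff `o` is -/
theorem isUnit_iff_of_sub_mem {A : Type} [CommRing A] [IsLocalRing A] [Algebra 𝒪 A]
    [IsLocalHom (algebraMap 𝒪 A)] {a : A} {o : 𝒪}
    (ho : a - algebraMap 𝒪 A o ∈ maximalIdeal A) : IsUnit a ↔ IsUnit o := by
  constructor
  · intro h
    apply isUnit_of_map_unit (algebraMap 𝒪 A)
    by_contra hn
    have h3 : a - algebraMap 𝒪 A o + algebraMap 𝒪 A o ∈ nonunits A :=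
      IsLocalRing.nonunits_add ((mem_maximalIdeal _).mp ho) hn
    rw [sub_add_cancel] at h3
    exact h3 h
  · intro h
    by_contra hn
    have h3 : -(a - algebraMap 𝒪 A o) + a ∈ nonunits A :=
      IsLocalRing.nonunits_add ((mem_maximalIdeal _).mp (neg_mem ho)) hn
    have h5 : -(a - algebraMap 𝒪 A o) + a = algebraMap 𝒪 A o := by ring
    rw [h5] at h3
    exact h3 (h.map (algebraMap 𝒪 A))

/-- the inverse of a unit congruent to a scalar is congruent to the inverse scalar -/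
theorem inv_sub_mem_of_sub_mem {A : Type} [CommRing A] [IsLocalRing A] [Algebra 𝒪 A]
    (u : Aˣ) (c : 𝒪ˣ) (ho : (u : A) - algebraMap 𝒪 A c ∈ maximalIdeal A) :
    (↑u⁻¹ : A) - algebraMap 𝒪 A ↑c⁻¹ ∈ maximalIdeal A := by
  have e : (↑u⁻¹ : A) - algebraMap 𝒪 A ↑c⁻¹ =
      -((↑u⁻¹ : A) * algebraMap 𝒪 A ↑c⁻¹ * ((u : A) - algebraMap 𝒪 A c)) := by
    have h1 : (↑u⁻¹ : A) * (u : A) = 1 := Units.inv_mul u
    have h2 : algebraMap 𝒪 A ↑c⁻¹ * algebraMap 𝒪 A c = 1 := by
      rw [← map_mul, Units.inv_mul, map_one]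
    linear_combination (algebraMap 𝒪 A ↑c⁻¹) * h1 - (↑u⁻¹ : A) * h2
  rw [e]
  exact neg_mem (Ideal.mul_mem_left _ _ ho)

/-- units of the fibre product are detected on the first coordinate -/
theorem isUnit_fibreProd_iff (h₁ : GaloisRep.IsArtinianTestAlgebra 𝒪 A₁)
    (h₂ : GaloisRep.IsArtinianTestAlgebra 𝒪 A₂) (x : fibreProd 𝒪 A₁ A₂) :
    IsUnit x ↔ IsUnit (x : A₁ × A₂).1 := by
  haveI := h₁.isLocalHom
  haveI := h₂.isLocalHom
  constructor
  · intro h
    exact h.map ((RingHom.fst A₁ A₂).comp (fibreProd 𝒪 A₁ A₂).val.toRingHom)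
  · intro h
    obtain ⟨o, ho1, ho2⟩ := x.2
    have hou : IsUnit o := (isUnit_iff_of_sub_mem ho1).mp h
    have h2 : IsUnit (x : A₁ × A₂).2 := (isUnit_iff_of_sub_mem ho2).mpr hou
    obtain ⟨u, hu⟩ := h
    obtain ⟨w, hw⟩ := h2
    obtain ⟨c, hc⟩ := hou
    rw [← hu, ← hc] at ho1
    rw [← hw, ← hc] at ho2
    have hy : ((↑u⁻¹ : A₁), (↑w⁻¹ : A₂)) ∈ fibreProd 𝒪 A₁ A₂ :=
      ⟨(↑c⁻¹ : 𝒪), inv_sub_mem_of_sub_mem u c ho1, inv_sub_mem_of_sub_mem w c ho2⟩
    refine IsUnit.of_mul_eq_one ⟨_, hy⟩ ?_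
    apply Subtype.ext
    apply Prod.ext
    · show (x : A₁ × A₂).1 * (↑u⁻¹ : A₁) = 1
      rw [← hu]; exact Units.mul_inv u
    · show (x : A₁ × A₂).2 * (↑w⁻¹ : A₂) = 1
      rw [← hw]; exact Units.mul_inv w

/-- units of the fibre product are detected on the second coordinate -/
theorem isUnit_fibreProd_iff_snd (h₁ : GaloisRep.IsArtinianTestAlgebra 𝒪 A₁)
    (h₂ : GaloisRep.IsArtinianTestAlgebra 𝒪 A₂) (x : fibreProd 𝒪 A₁ A₂) :
    IsUnit x ↔ IsUnit (x : A₁ × A₂).2 := by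
  haveI := h₁.isLocalHom
  haveI := h₂.isLocalHom
  rw [isUnit_fibreProd_iff h₁ h₂]
  obtain ⟨o, ho1, ho2⟩ := x.2
  rw [isUnit_iff_of_sub_mem ho1, isUnit_iff_of_sub_mem ho2]

theorem isLocalRing_fibreProd (h₁ : GaloisRep.IsArtinianTestAlgebra 𝒪 A₁)
    (h₂ : GaloisRep.IsArtinianTestAlgebra 𝒪 A₂) : IsLocalRing (fibreProd 𝒪 A₁ A₂) := by
  haveI : Nontrivial (fibreProd 𝒪 A₁ A₂) :=
    ⟨⟨0, 1, fun h => zero_ne_one (α := A₁)
      (congrArg (fun x : fibreProd 𝒪 A₁ A₂ => (x : A₁ × A₂).1) h)⟩⟩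
  refine IsLocalRing.of_nonunits_add ?_
  intro a b ha hb
  rw [mem_nonunits_iff, isUnit_fibreProd_iff h₁ h₂] at ha hb ⊢
  exact IsLocalRing.nonunits_add ha hb

theorem isArtinianTest_fibreProd [Finite (ResidueField 𝒪)]
    (h₁ : GaloisRep.IsArtinianTestAlgebra 𝒪 A₁) (h₂ : GaloisRep.IsArtinianTestAlgebra 𝒪 A₂) :
    haveI := isLocalRing_fibreProd h₁ h₂
    GaloisRep.IsArtinianTestAlgebra 𝒪 (fibreProd 𝒪 A₁ A₂) := by
  haveI := isLocalRing_fibreProd h₁ h₂
  haveI := h₁.isLocalHom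
  haveI : Finite A₁ := finite_of_isArtinianTest h₁
  haveI : Finite A₂ := finite_of_isArtinianTest h₂
  refine ⟨⟨?_⟩, ?_, inferInstance⟩
  · intro o ho
    rw [isUnit_fibreProd_iff h₁ h₂] at ho
    exact isUnit_of_map_unit (algebraMap 𝒪 A₁) o ho
  · intro x
    obtain ⟨s, rfl⟩ := residue_surjective x
    obtain ⟨o, ho1, ho2⟩ := s.2
    refine ⟨o, ?_⟩
    simp only [Function.comp_apply]
    rw [← sub_eq_zero, ← map_sub, residue_eq_zero_iff, mem_maximalIdeal, mem_nonunits_iff,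
      isUnit_fibreProd_iff h₁ h₂]
    intro hu
    have h2 : ((algebraMap 𝒪 (fibreProd 𝒪 A₁ A₂) o - s : fibreProd 𝒪 A₁ A₂) : A₁ × A₂).1 =
        -((s : A₁ × A₂).1 - algebraMap 𝒪 A₁ o) := by
      show algebraMap 𝒪 A₁ o - (s : A₁ × A₂).1 = _
      ring
    rw [h2] at hu
    exact (mem_nonunits_iff.mp ((mem_maximalIdeal _).mp ho1)) ((IsUnit.neg_iff _).mp hu)

/-- first projection -/
def fibreProdFst (𝒪 : Type) [CommRing 𝒪] (A₁ A₂ : Type) [CommRing A₁] [IsLocalRing A₁]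
    [Algebra 𝒪 A₁] [CommRing A₂] [IsLocalRing A₂] [Algebra 𝒪 A₂] :
    fibreProd 𝒪 A₁ A₂ →ₐ[𝒪] A₁ := (AlgHom.fst 𝒪 A₁ A₂).comp (fibreProd 𝒪 A₁ A₂).val

/-- second projection -/
def fibreProdSnd (𝒪 : Type) [CommRing 𝒪] (A₁ A₂ : Type) [CommRing A₁] [IsLocalRing A₁]
    [Algebra 𝒪 A₁] [CommRing A₂] [IsLocalRing A₂] [Algebra 𝒪 A₂] :
    fibreProd 𝒪 A₁ A₂ →ₐ[𝒪] A₂ := (AlgHom.snd 𝒪 A₁ A₂).comp (fibreProd 𝒪 A₁ A₂).val

theorem isLocalHom_fibreProdFst (h₁ : GaloisRep.IsArtinianTestAlgebra 𝒪 A₁)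
    (h₂ : GaloisRep.IsArtinianTestAlgebra 𝒪 A₂) :
    haveI := isLocalRing_fibreProd h₁ h₂
    IsLocalHom (fibreProdFst 𝒪 A₁ A₂ : fibreProd 𝒪 A₁ A₂ →+* A₁) :=
  ⟨fun x hx => (isUnit_fibreProd_iff h₁ h₂ x).mpr hx⟩

theorem isLocalHom_fibreProdSnd (h₁ : GaloisRep.IsArtinianTestAlgebra 𝒪 A₁)
    (h₂ : GaloisRep.IsArtinianTestAlgebra 𝒪 A₂) :
    haveI := isLocalRing_fibreProd h₁ h₂
    IsLocalHom (fibreProdSnd 𝒪 A₁ A₂ : fibreProd 𝒪 A₁ A₂ →+* A₂) :=
  ⟨fun x hx => (isUnit_fibreProd_iff_snd h₁ h₂ x).mpr hx⟩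

/-- the canonical `𝒪`-algebra map from an Artinian test algebra to the residue field of `𝒪` -/
theorem exists_toResidueField {A : Type} [CommRing A] [IsLocalRing A] [Algebra 𝒪 A]
    (h : GaloisRep.IsArtinianTestAlgebra 𝒪 A) :
    ∃ f : A →ₐ[𝒪] ResidueField 𝒪, ∀ (a : A) (o : 𝒪),
      f a = residue 𝒪 o ↔ a - algebraMap 𝒪 A o ∈ maximalIdeal A := by
  haveI := h.isLocalHom
  have hbij : Function.Bijective (ResidueField.map (algebraMap 𝒪 A)) := by
    refine ⟨(ResidueField.map (algebraMap 𝒪 A)).injective, ?_⟩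
    intro x
    obtain ⟨o, ho⟩ := h.residue_surjective x
    exact ⟨residue 𝒪 o, by rw [ResidueField.map_residue]; exact ho⟩
  let e : ResidueField 𝒪 ≃+* ResidueField A := RingEquiv.ofBijective _ hbij
  have he : ∀ o : 𝒪, e (residue 𝒪 o) = residue A (algebraMap 𝒪 A o) := fun o =>
    ResidueField.map_residue (algebraMap 𝒪 A) o
  let f₀ : A →+* ResidueField 𝒪 := (e.symm : ResidueField A →+* ResidueField 𝒪).comp (residue A)
  have hf₀ : ∀ a, f₀ a = e.symm (residue A a) := fun a => rfl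
  refine ⟨{ f₀ with commutes' := ?_ }, ?_⟩
  · intro o
    show f₀ (algebraMap 𝒪 A o) = algebraMap 𝒪 (ResidueField 𝒪) o
    rw [hf₀, ← he, RingEquiv.symm_apply_apply, ResidueField.algebraMap_eq]
  · intro a o
    show f₀ a = residue 𝒪 o ↔ _
    rw [hf₀, RingEquiv.symm_apply_eq, he, ← sub_eq_zero, ← map_sub, residue_eq_zero_iff]

/-- the cospan `A₁ → k ← A₂` whose fibre product is `fibreProd` (in the shape needed by the
fibre product axiom of deformation conditions) -/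
theorem exists_cospan_fibreProd (h₁ : GaloisRep.IsArtinianTestAlgebra 𝒪 A₁)
    (h₂ : GaloisRep.IsArtinianTestAlgebra 𝒪 A₂) :
    ∃ (f : A₁ →ₐ[𝒪] ResidueField 𝒪) (g : A₂ →ₐ[𝒪] ResidueField 𝒪),
      f.comp (fibreProdFst 𝒪 A₁ A₂) = g.comp (fibreProdSnd 𝒪 A₁ A₂) ∧
      ∀ a b, f a = g b → ∃ x : fibreProd 𝒪 A₁ A₂,
        fibreProdFst 𝒪 A₁ A₂ x = a ∧ fibreProdSnd 𝒪 A₁ A₂ x = b := by
  obtain ⟨f, hf⟩ := exists_toResidueField h₁
  obtain ⟨g, hg⟩ := exists_toResidueField h₂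
  refine ⟨f, g, ?_, ?_⟩
  · apply AlgHom.ext
    intro x
    obtain ⟨o, ho1, ho2⟩ := x.2
    show f (x : A₁ × A₂).1 = g (x : A₁ × A₂).2
    rw [(hf _ o).mpr ho1, (hg _ o).mpr ho2]
  · intro a b hab
    obtain ⟨o, ho⟩ := residue_surjective (f a)
    have ha : a - algebraMap 𝒪 A₁ o ∈ maximalIdeal A₁ := (hf a o).mp ho.symm
    have hb : b - algebraMap 𝒪 A₂ o ∈ maximalIdeal A₂ := (hg b o).mp (by rw [← hab]; exact ho.symm)
    exact ⟨⟨(a, b), o, ha, hb⟩, rfl, rfl⟩

end fibreProd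

end additions

end Fermat.Agent.S53_Local
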