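import Mathlib
import Fermat.Prelude.Thm_IsLocalRing_isAdicComplete_of_module_finite
import Fermat.Prelude.Def_GaloisRep_DeformationCondition

set_option autoImplicit false

namespace Fermat.Agent.S53_PowerSeries

open IsLocalRing

section Sup

variable {R : Type*} [CommRing R]

/-- Precompleteness for two ideals gives precompleteness for their sum. -/
theorem isPrecomplete_sup (I J : Ideal R) [hI : IsPrecomplete I R] [hJ : IsPrecomplete J R] :
    IsPrecomplete (I ⊔ J) R := by
  refine ⟨fun f hf => ?_⟩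
  -- differences along the subsequence `2 n`
  have hd : ∀ n : ℕ, ∃ a ∈ I ^ n, ∃ b ∈ J ^ n, f (2 * (n + 1)) - f (2 * n) = a + b := by
    intro n
    have h1 : f (2 * n) ≡ f (2 * (n + 1)) [SMOD (I ⊔ J) ^ (2 * n) • (⊤ : Submodule R R)] :=
      hf (by omega)
    rw [SModEq.sub_mem, smul_eq_mul, Ideal.mul_top] at h1
    have h2 : f (2 * (n + 1)) - f (2 * n) ∈ I ^ n ⊔ J ^ n := by
      have h3 : (I ⊔ J) ^ (2 * n) ≤ I ^ n ⊔ J ^ n := by
        rw [two_mul]; exact Ideal.sup_pow_add_le_pow_sup_pow
      have h4 := h3 h1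
      have h5 : f (2 * (n + 1)) - f (2 * n) = -(f (2 * n) - f (2 * (n + 1))) := by ring
      rw [h5]; exact neg_mem h4
    obtain ⟨a, ha, b, hb, hab⟩ := Submodule.mem_sup.mp h2
    exact ⟨a, ha, b, hb, hab.symm⟩
  choose a ha b hb hab using hd
  set A : ℕ → R := fun n => ∑ j ∈ Finset.range n, a j with hA
  set B : ℕ → R := fun n => ∑ j ∈ Finset.range n, b j with hB
  have hAc : ∀ {m n : ℕ}, m ≤ n → A m ≡ A n [SMOD I ^ m • (⊤ : Submodule R R)] := by
    intro m n hmn
    rw [SModEq.sub_mem, smul_eq_mul, Ideal.mul_top]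
    have : A m - A n = -∑ j ∈ Finset.Ico m n, a j := by
      simp only [hA]
      rw [Finset.sum_Ico_eq_sub _ hmn]; ring
    rw [this]
    refine neg_mem (Ideal.sum_mem _ fun j hj => ?_)
    exact Ideal.pow_le_pow_right (Finset.mem_Ico.mp hj).1 (ha j)
  have hBc : ∀ {m n : ℕ}, m ≤ n → B m ≡ B n [SMOD J ^ m • (⊤ : Submodule R R)] := by
    intro m n hmn
    rw [SModEq.sub_mem, smul_eq_mul, Ideal.mul_top]
    have : B m - B n = -∑ j ∈ Finset.Ico m n, b j := by
      simp only [hB]
      rw [Finset.sum_Ico_eq_sub _ hmn]; ring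
    rw [this]
    refine neg_mem (Ideal.sum_mem _ fun j hj => ?_)
    exact Ideal.pow_le_pow_right (Finset.mem_Ico.mp hj).1 (hb j)
  obtain ⟨α, hα⟩ := hI.prec' A hAc
  obtain ⟨β, hβ⟩ := hJ.prec' B hBc
  have hf2 : ∀ n : ℕ, f (2 * n) = f 0 + A n + B n := by
    intro n
    induction n with
    | zero => simp [hA, hB]
    | succ n ih =>
      have := hab n
      simp only [hA, hB, Finset.sum_range_succ] at ih ⊢
      linear_combination ih + this
  refine ⟨f 0 + α + β, fun n => ?_⟩
  have h1 : f n ≡ f (2 * n) [SMOD (I ⊔ J) ^ n • (⊤ : Submodule R R)] := hf (by omega)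
  refine h1.trans ?_
  rw [SModEq.sub_mem, smul_eq_mul, Ideal.mul_top, hf2 n]
  have h2 := hα n
  have h3 := hβ n
  rw [SModEq.sub_mem, smul_eq_mul, Ideal.mul_top] at h2 h3
  have h4 : f 0 + A n + B n - (f 0 + α + β) = (A n - α) + (B n - β) := by ring
  rw [h4]
  exact add_mem (Ideal.pow_right_mono le_sup_left n h2) (Ideal.pow_right_mono le_sup_right n h3)

end Sup

section Coeffwise

variable {σ : Type*} {O : Type*} [CommRing O]

/-- The power series with prescribed coefficients. -/
def ofCoeff (c : (σ →₀ ℕ) → O) : MvPowerSeries σ O := c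

@[simp]
theorem coeff_ofCoeff (c : (σ →₀ ℕ) → O) (d : σ →₀ ℕ) :
    MvPowerSeries.coeff d (ofCoeff c) = c d := rfl

/-- Coefficients of elements of `Ideal.map C J` lie in `J`. -/
theorem coeff_mem_of_mem_map_C (J : Ideal O) {f : MvPowerSeries σ O}
    (hf : f ∈ Ideal.map (MvPowerSeries.C : O →+* MvPowerSeries σ O) J) :
    ∀ d : σ →₀ ℕ, MvPowerSeries.coeff d f ∈ J := by
  classical
  unfold Ideal.map at hf
  induction hf using Submodule.span_induction with
  | mem x hx =>
    obtain ⟨a, ha, rfl⟩ := hx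
    intro d
    rw [MvPowerSeries.coeff_C]
    split_ifs
    · exact ha
    · exact zero_mem _
  | zero => intro d; simp
  | add x y _ _ hx hy => intro d; rw [map_add]; exact add_mem (hx d) (hy d)
  | smul a x _ hx =>
    intro d
    rw [smul_eq_mul, MvPowerSeries.coeff_mul]
    exact Ideal.sum_mem _ fun p _ => Ideal.mul_mem_left _ _ (hx p.2)

/-- If `J` is finitely generated and all coefficients of `f` lie in `J`, then `f` lies in the
extension of `J` to the power series ring. -/
theorem mem_map_C_of_coeff_mem (J : Ideal O) (hJ : J.FG) {f : MvPowerSeries σ O}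
    (hf : ∀ d : σ →₀ ℕ, MvPowerSeries.coeff d f ∈ J) :
    f ∈ Ideal.map (MvPowerSeries.C : O →+* MvPowerSeries σ O) J := by
  classical
  obtain ⟨s, g, hg⟩ := Submodule.fg_iff_exists_fin_generating_family.mp hJ
  have hc : ∀ d : σ →₀ ℕ, ∃ c : Fin s → O, ∑ j, c j • g j = MvPowerSeries.coeff d f := by
    intro d
    have h1 := hf d
    rw [← hg] at h1
    exact (Submodule.mem_span_range_iff_exists_fun O).mp h1
  choose c hc using hc
  have hfe : f = ∑ j : Fin s, MvPowerSeries.C (g j) * ofCoeff (fun d => c d j) := by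
    ext d
    rw [map_sum, ← hc d]
    refine Finset.sum_congr rfl fun j _ => ?_
    rw [MvPowerSeries.coeff_C_mul, smul_eq_mul, mul_comm, coeff_ofCoeff]
  rw [hfe]
  refine Ideal.sum_mem _ fun j _ => Ideal.mul_mem_right _ _ (Ideal.mem_map_of_mem _ ?_)
  rw [← hg]
  exact Submodule.subset_span ⟨j, rfl⟩

/-- Coefficientwise precompleteness of the power series ring for an extended ideal. -/
theorem isPrecomplete_map_C (I : Ideal O) (hI : ∀ n : ℕ, (I ^ n).FG) [hp : IsPrecomplete I O] :
    IsPrecomplete (Ideal.map (MvPowerSeries.C : O →+* MvPowerSeries σ O) I)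
      (MvPowerSeries σ O) := by
  refine ⟨fun f hf => ?_⟩
  have hc : ∀ d : σ →₀ ℕ, ∃ L : O, ∀ n : ℕ,
      MvPowerSeries.coeff d (f n) ≡ L [SMOD I ^ n • (⊤ : Submodule O O)] := by
    intro d
    apply hp.prec'
    intro m n hmn
    have h1 := hf hmn
    rw [SModEq.sub_mem, smul_eq_mul, Ideal.mul_top] at h1 ⊢
    rw [← Ideal.map_pow] at h1
    simpa using coeff_mem_of_mem_map_C _ h1 d
  choose L hL using hc
  refine ⟨ofCoeff L, fun n => ?_⟩
  rw [SModEq.sub_mem, smul_eq_mul, Ideal.mul_top, ← Ideal.map_pow]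
  refine mem_map_C_of_coeff_mem _ (hI n) fun d => ?_
  have h2 := hL d n
  rw [SModEq.sub_mem, smul_eq_mul, Ideal.mul_top] at h2
  rw [map_sub, coeff_ofCoeff]
  exact h2

/-- A power series whose coefficients vanish at all monomials avoiding the variables in `s`
lies in the ideal generated by those variables. -/
theorem mem_span_X_image_of_coeff (s : Finset σ) :
    ∀ f : MvPowerSeries σ O,
      (∀ m : σ →₀ ℕ, (∀ k ∈ s, m k = 0) → MvPowerSeries.coeff m f = 0) →
      f ∈ Ideal.span ((fun k => (MvPowerSeries.X k : MvPowerSeries σ O)) '' (s : Set σ)) := by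
  classical
  induction s using Finset.induction_on with
  | empty =>
    intro f hf
    have : f = 0 := by
      ext m
      simpa using hf m (by simp)
    rw [this]
    exact Submodule.zero_mem _
  | insert a t hat ih =>
    intro f hf
    let f₁ : MvPowerSeries σ O := fun m => if m a = 0 then MvPowerSeries.coeff m f else 0
    have hf₁ : ∀ m, MvPowerSeries.coeff m f₁ = if m a = 0 then MvPowerSeries.coeff m f else 0 :=
      fun m => rfl
    have h1 : f₁ ∈ Ideal.span ((fun k => (MvPowerSeries.X k : MvPowerSeries σ O)) ''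
        ((insert a t : Finset σ) : Set σ)) := by
      refine Ideal.span_mono (Set.image_mono ?_) (ih f₁ ?_)
      · intro x hx
        simp only [Finset.coe_insert, Set.mem_insert_iff, Finset.mem_coe] at hx ⊢
        exact Or.inr hx
      · intro m hm
        rw [hf₁]
        split_ifs with h
        · apply hf
          intro k hk
          rcases Finset.mem_insert.mp hk with rfl | hk
          · exact h
          · exact hm k hk
        · rfl
    have h2 : f - f₁ ∈ Ideal.span ((fun k => (MvPowerSeries.X k : MvPowerSeries σ O)) ''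
        ((insert a t : Finset σ) : Set σ)) := by
      have hdvd : (MvPowerSeries.X a : MvPowerSeries σ O) ∣ f - f₁ := by
        rw [MvPowerSeries.X_dvd_iff]
        intro m hm
        rw [map_sub, hf₁, if_pos hm, sub_self]
      obtain ⟨g, hg⟩ := hdvd
      rw [hg]
      refine Ideal.mul_mem_right _ _ (Ideal.subset_span ?_)
      exact ⟨a, by simp, rfl⟩
    have := Ideal.add_mem _ h2 h1
    simpa using this

/-- A power series in finitely many variables with zero constant coefficient lies in the ideal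
generated by the variables. -/
theorem mem_span_range_X_of_constantCoeff [Finite σ] (f : MvPowerSeries σ O)
    (hf : MvPowerSeries.constantCoeff f = 0) :
    f ∈ Ideal.span (Set.range (MvPowerSeries.X : σ → MvPowerSeries σ O)) := by
  classical
  have := Fintype.ofFinite σ
  have h := mem_span_X_image_of_coeff (Finset.univ : Finset σ) f (fun m hm => by
    have : m = 0 := by
      ext k
      simpa using hm k (Finset.mem_univ k)
    rw [this, MvPowerSeries.coeff_zero_eq_constantCoeff_apply, hf])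
  simpa using h

theorem constantCoeff_eq_zero_of_mem_span_range_X (f : MvPowerSeries σ O)
    (hf : f ∈ Ideal.span (Set.range (MvPowerSeries.X : σ → MvPowerSeries σ O))) :
    MvPowerSeries.constantCoeff f = 0 := by
  have : Ideal.span (Set.range (MvPowerSeries.X : σ → MvPowerSeries σ O)) ≤
      RingHom.ker (MvPowerSeries.constantCoeff (σ := σ) (R := O)) := by
    rw [Ideal.span_le]
    rintro _ ⟨i, rfl⟩
    simp
  exact this hf

variable [IsLocalRing O]

/-- The maximal ideal of a power series ring over a local ring. -/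
theorem maximalIdeal_eq_sup [Finite σ] :
    maximalIdeal (MvPowerSeries σ O) =
      Ideal.span (Set.range (MvPowerSeries.X : σ → MvPowerSeries σ O)) ⊔
        Ideal.map (MvPowerSeries.C : O →+* MvPowerSeries σ O) (maximalIdeal O) := by
  apply le_antisymm
  · intro f hf
    rw [mem_maximalIdeal, mem_nonunits_iff, MvPowerSeries.isUnit_iff_constantCoeff] at hf
    have h1 : f = (f - MvPowerSeries.C (MvPowerSeries.constantCoeff f)) +
        MvPowerSeries.C (MvPowerSeries.constantCoeff f) := by ring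
    rw [h1]
    refine Submodule.add_mem_sup (mem_span_range_X_of_constantCoeff _ (by simp)) ?_
    exact Ideal.mem_map_of_mem _ hf
  · rw [sup_le_iff, Ideal.span_le, Ideal.map_le_iff_le_comap]
    constructor
    · rintro _ ⟨i, rfl⟩
      change _ ∈ maximalIdeal _
      rw [mem_maximalIdeal, mem_nonunits_iff, MvPowerSeries.isUnit_iff_constantCoeff]
      simp
    · intro a ha
      rw [Ideal.mem_comap, mem_maximalIdeal, mem_nonunits_iff,
        MvPowerSeries.isUnit_iff_constantCoeff]
      simpa using ha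

/-- A power series ring in finitely many variables over a complete Noetherian local ring is
complete with respect to its maximal ideal. -/
theorem isAdicComplete_maximalIdeal_of_finite [Finite σ] [IsNoetherianRing O]
    [IsAdicComplete (maximalIdeal O) O] :
    IsAdicComplete (maximalIdeal (MvPowerSeries σ O)) (MvPowerSeries σ O) := by
  have h1 : IsPrecomplete (Ideal.map (MvPowerSeries.C : O →+* MvPowerSeries σ O)
      (maximalIdeal O)) (MvPowerSeries σ O) :=
    isPrecomplete_map_C _ (fun n => IsNoetherian.noetherian _)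
  have h2 : IsPrecomplete (Ideal.span (Set.range (MvPowerSeries.X : σ → MvPowerSeries σ O)))
      (MvPowerSeries σ O) := inferInstance
  have h3 : IsPrecomplete (maximalIdeal (MvPowerSeries σ O)) (MvPowerSeries σ O) := by
    rw [maximalIdeal_eq_sup]
    exact isPrecomplete_sup _ _
  have h4 : IsHausdorff (maximalIdeal (MvPowerSeries σ O)) (MvPowerSeries σ O) := inferInstance
  exact { toIsHausdorff := h4, toIsPrecomplete := h3 }

/-- The statement for `Fin r` variables. -/
theorem isAdicComplete_maximalIdeal [IsNoetherianRing O] [IsAdicComplete (maximalIdeal O) O]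
    (r : ℕ) :
    IsAdicComplete (maximalIdeal (MvPowerSeries (Fin r) O)) (MvPowerSeries (Fin r) O) :=
  isAdicComplete_maximalIdeal_of_finite

end Coeffwise

section Trunc

variable {σ : Type*} [Finite σ] {O : Type*} [CommRing O]

/-- The truncation map sends (the power series of) a polynomial to its class. -/
theorem truncTotalAlgHom_coe (n : ℕ) (p : MvPolynomial σ O) :
    MvPowerSeries.truncTotalAlgHom σ O n (p : MvPowerSeries σ O) =
      Ideal.Quotient.mk (MvPolynomial.idealOfVars σ O ^ n) p := by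
  have h := (MvPowerSeries.truncTotalAlgHom σ O n).commutes p
  rw [MvPowerSeries.algebraMap_apply', Algebra.algebraMap_self, MvPowerSeries.map_id] at h
  exact h

/-- The ideal generated by the variables. -/
noncomputable abbrev varIdeal (σ : Type*) (O : Type*) [CommRing O] : Ideal (MvPowerSeries σ O) :=
  Ideal.span (Set.range (MvPowerSeries.X : σ → MvPowerSeries σ O))

omit [Finite σ] in
theorem coe_mem_varIdeal_pow (n : ℕ) (p : MvPolynomial σ O)
    (hp : p ∈ MvPolynomial.idealOfVars σ O ^ n) : (p : MvPowerSeries σ O) ∈ varIdeal σ O ^ n := by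
  have h1 : Ideal.map (MvPolynomial.coeToMvPowerSeries.ringHom (σ := σ) (R := O))
      (MvPolynomial.idealOfVars σ O) ≤ varIdeal σ O := by
    rw [MvPolynomial.idealOfVars, Ideal.map_span, Ideal.span_le]
    rintro _ ⟨_, ⟨j, rfl⟩, rfl⟩
    rw [MvPolynomial.coeToMvPowerSeries.ringHom_apply, MvPolynomial.coe_X]
    exact Ideal.subset_span ⟨j, rfl⟩
  have h2 := Ideal.mem_map_of_mem (MvPolynomial.coeToMvPowerSeries.ringHom (σ := σ) (R := O)) hp
  rw [Ideal.map_pow] at h2
  exact Ideal.pow_right_mono h1 n h2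

/-- Elements of the `n`-th power of the variable ideal are killed by the `n`-th truncation. -/
theorem truncTotalAlgHom_eq_zero_of_mem (n : ℕ) (p : MvPowerSeries σ O)
    (hp : p ∈ varIdeal σ O ^ n) : MvPowerSeries.truncTotalAlgHom σ O n p = 0 := by
  have h1 : Ideal.map (MvPowerSeries.truncTotalAlgHom σ O n) (varIdeal σ O) ≤
      Ideal.map (Ideal.Quotient.mk (MvPolynomial.idealOfVars σ O ^ n))
        (MvPolynomial.idealOfVars σ O) := by
    rw [varIdeal, Ideal.map_span, Ideal.span_le]
    rintro _ ⟨_, ⟨j, rfl⟩, rfl⟩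
    rw [← MvPolynomial.coe_X, truncTotalAlgHom_coe]
    exact Ideal.mem_map_of_mem _ (Ideal.subset_span ⟨j, rfl⟩)
  have h2 := Ideal.mem_map_of_mem (MvPowerSeries.truncTotalAlgHom σ O n) hp
  rw [Ideal.map_pow] at h2
  have h3 := Ideal.pow_right_mono h1 n h2
  rw [← Ideal.map_pow, Ideal.map_quotient_self] at h3
  simpa using h3

/-- Elements of the `n`-th power of the variable ideal have no coefficients in degree `< n`. -/
theorem coeff_eq_zero_of_mem_varIdeal_pow (n : ℕ) (p : MvPowerSeries σ O)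
    (hp : p ∈ varIdeal σ O ^ n) (d : σ →₀ ℕ) (hd : d.degree < n) :
    MvPowerSeries.coeff d p = 0 := by
  have h := truncTotalAlgHom_eq_zero_of_mem n p hp
  rw [MvPowerSeries.truncTotalAlgHom_apply, Ideal.Quotient.eq_zero_iff_mem,
    MvPolynomial.mem_pow_idealOfVars_iff'] at h
  have := h d hd
  rwa [MvPowerSeries.coeff_truncTotal _ hd] at this

/-- A power series is congruent to its truncation modulo the power of the variable ideal. -/
theorem sub_truncTotal_mem_varIdeal_pow (n : ℕ) (p : MvPowerSeries σ O) :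
    p - ((MvPowerSeries.truncTotal n p : MvPolynomial σ O) : MvPowerSeries σ O) ∈
      varIdeal σ O ^ n := by
  -- the truncations form a Cauchy sequence
  have hprec : IsPrecomplete (varIdeal σ O) (MvPowerSeries σ O) := inferInstance
  obtain ⟨L, hL⟩ := hprec.prec'
    (fun k => ((MvPowerSeries.truncTotal k p : MvPolynomial σ O) : MvPowerSeries σ O)) (by
      intro m k hmk
      rw [SModEq.sub_mem, smul_eq_mul, Ideal.mul_top]
      have h0 : ((MvPowerSeries.truncTotal m p : MvPolynomial σ O) : MvPowerSeries σ O) -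
          ((MvPowerSeries.truncTotal k p : MvPolynomial σ O) : MvPowerSeries σ O) =
          ((MvPowerSeries.truncTotal m p - MvPowerSeries.truncTotal k p : MvPolynomial σ O) :
            MvPowerSeries σ O) := by
        simp only [← MvPolynomial.coeToMvPowerSeries.ringHom_apply, map_sub]
      rw [h0]
      exact coe_mem_varIdeal_pow m _
        (MvPowerSeries.truncTotal_sub_truncTotal_mem_pow_idealOfVars le_rfl hmk p))
  have hLp : L = p := by
    ext d
    have h1 := hL (d.degree + 1)
    rw [SModEq.sub_mem, smul_eq_mul, Ideal.mul_top] at h1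
    have h2 := coeff_eq_zero_of_mem_varIdeal_pow _ _ h1 d (Nat.lt_succ_self _)
    rw [map_sub, MvPolynomial.coeff_coe, MvPowerSeries.coeff_truncTotal _ (Nat.lt_succ_self _),
      sub_eq_zero] at h2
    exact h2.symm
  have h3 := hL n
  rw [SModEq.sub_mem, smul_eq_mul, Ideal.mul_top, hLp] at h3
  have h4 : p - ((MvPowerSeries.truncTotal n p : MvPolynomial σ O) : MvPowerSeries σ O) =
      -(((MvPowerSeries.truncTotal n p : MvPolynomial σ O) : MvPowerSeries σ O) - p) := by ring
  rw [h4]
  exact neg_mem h3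

end Trunc

section Eval

variable {σ : Type*} [Finite σ] {O : Type*} [CommRing O]
variable {A : Type*} [CommRing A] [Algebra O A]

omit [Finite σ] in
theorem idealOfVars_pow_le_comap (I : Ideal A) (a : σ → A) (ha : ∀ j, a j ∈ I) (n : ℕ) :
    MvPolynomial.idealOfVars σ O ^ n ≤ (I ^ n).comap (MvPolynomial.aeval (R := O) a) := by
  have h1 : Ideal.map (MvPolynomial.aeval (R := O) a) (MvPolynomial.idealOfVars σ O) ≤ I := by
    rw [MvPolynomial.idealOfVars, Ideal.map_span, Ideal.span_le]
    rintro _ ⟨_, ⟨j, rfl⟩, rfl⟩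
    simpa using ha j
  rw [← Ideal.map_le_iff_le_comap, Ideal.map_pow]
  exact Ideal.pow_right_mono h1 n

/-- Evaluation of power series at elements of an ideal `I`, modulo `I ^ n`. -/
noncomputable def evalQuot (I : Ideal A) (a : σ → A) (ha : ∀ j, a j ∈ I) (n : ℕ) :
    MvPowerSeries σ O →ₐ[O] A ⧸ I ^ n :=
  (Ideal.quotientMapₐ (I ^ n) (MvPolynomial.aeval (R := O) a)
      (idealOfVars_pow_le_comap I a ha n)).comp
    ((MvPowerSeries.truncTotalAlgHom σ O n).restrictScalars O)

theorem evalQuot_apply (I : Ideal A) (a : σ → A) (ha : ∀ j, a j ∈ I) (n : ℕ)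
    (p : MvPowerSeries σ O) :
    evalQuot I a ha n p =
      Ideal.Quotient.mk (I ^ n) (MvPolynomial.aeval a (MvPowerSeries.truncTotal n p)) := by
  rfl

theorem evalQuot_coe (I : Ideal A) (a : σ → A) (ha : ∀ j, a j ∈ I) (n : ℕ)
    (p : MvPolynomial σ O) :
    evalQuot I a ha n (p : MvPowerSeries σ O) =
      Ideal.Quotient.mk (I ^ n) (MvPolynomial.aeval a p) := by
  change (Ideal.quotientMapₐ (I ^ n) (MvPolynomial.aeval (R := O) a)
      (idealOfVars_pow_le_comap I a ha n))
    (MvPowerSeries.truncTotalAlgHom σ O n (p : MvPowerSeries σ O)) = _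
  rw [truncTotalAlgHom_coe]
  rfl

theorem evalQuot_compat (I : Ideal A) (a : σ → A) (ha : ∀ j, a j ∈ I) {m n : ℕ} (hle : m ≤ n) :
    (Ideal.Quotient.factorₐ O (Ideal.pow_le_pow_right hle)).comp (evalQuot I a ha n) =
      evalQuot (O := O) I a ha m := by
  ext p
  rw [AlgHom.comp_apply, evalQuot_apply, evalQuot_apply]
  change Ideal.Quotient.mk (I ^ m) _ = Ideal.Quotient.mk (I ^ m) _
  rw [Ideal.Quotient.eq, ← map_sub]
  exact idealOfVars_pow_le_comap I a ha m
    (MvPowerSeries.truncTotal_sub_truncTotal_mem_pow_idealOfVars hle le_rfl p)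

variable (I : Ideal A) [IsAdicComplete I A]

/-- Evaluation of power series at elements of an ideal `I` for which the target is complete. -/
noncomputable def evalHom (a : σ → A) (ha : ∀ j, a j ∈ I) : MvPowerSeries σ O →ₐ[O] A :=
  IsAdicComplete.liftAlgHom I (evalQuot I a ha) (fun hle => evalQuot_compat I a ha hle)

theorem mk_evalHom (a : σ → A) (ha : ∀ j, a j ∈ I) (n : ℕ) (p : MvPowerSeries σ O) :
    Ideal.Quotient.mk (I ^ n) (evalHom I a ha p) = evalQuot I a ha n p :=
  IsAdicComplete.mk_liftAlgHom I _ _ n p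

theorem evalHom_coe (a : σ → A) (ha : ∀ j, a j ∈ I) (p : MvPolynomial σ O) :
    evalHom I a ha (p : MvPowerSeries σ O) = MvPolynomial.aeval a p := by
  rw [← sub_eq_zero]
  apply IsHausdorff.haus (inferInstance : IsHausdorff I A)
  intro n
  rw [SModEq.sub_mem, smul_eq_mul, Ideal.mul_top, sub_zero, ← Ideal.Quotient.eq, mk_evalHom,
    evalQuot_coe]

@[simp]
theorem evalHom_X (a : σ → A) (ha : ∀ j, a j ∈ I) (j : σ) :
    evalHom (O := O) I a ha (MvPowerSeries.X j) = a j := by
  rw [← MvPolynomial.coe_X, evalHom_coe, MvPolynomial.aeval_X]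

/-- Existence of evaluation homomorphisms into complete rings. -/
theorem exists_algHom_X_eq (a : σ → A) (ha : ∀ j, a j ∈ I) :
    ∃ f : MvPowerSeries σ O →ₐ[O] A, ∀ j, f (MvPowerSeries.X j) = a j :=
  ⟨evalHom I a ha, evalHom_X I a ha⟩

end Eval

section Unique

variable {σ : Type*} [Finite σ] {O : Type*} [CommRing O]
variable {A : Type*} [CommRing A] [Algebra O A]

omit [Finite σ] in
/-- An algebra homomorphism out of a power series ring maps the powers of the variable ideal
into the powers of any ideal containing the images of the variables. -/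
theorem map_mem_pow_of_mem_varIdeal_pow (f : MvPowerSeries σ O →ₐ[O] A) (I : Ideal A)
    (hf : ∀ j, f (MvPowerSeries.X j) ∈ I) (n : ℕ) (p : MvPowerSeries σ O)
    (hp : p ∈ varIdeal σ O ^ n) : f p ∈ I ^ n := by
  have h1 : Ideal.map f (varIdeal σ O) ≤ I := by
    rw [varIdeal, Ideal.map_span, Ideal.span_le]
    rintro _ ⟨_, ⟨j, rfl⟩, rfl⟩
    exact hf j
  have h2 := Ideal.mem_map_of_mem f hp
  rw [Ideal.map_pow] at h2
  exact Ideal.pow_right_mono h1 n h2

omit [Finite σ] in
/-- On polynomials, an algebra homomorphism out of a power series ring is an evaluation. -/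
theorem algHom_coe_eq_aeval (f : MvPowerSeries σ O →ₐ[O] A) (p : MvPolynomial σ O) :
    f (p : MvPowerSeries σ O) = MvPolynomial.aeval (fun j => f (MvPowerSeries.X j)) p := by
  have h : f.comp (MvPolynomial.coeToMvPowerSeries.algHom (R := O) (σ := σ) O) =
      MvPolynomial.aeval (fun j => f (MvPowerSeries.X j)) := by
    apply MvPolynomial.algHom_ext
    intro j
    simp [MvPolynomial.coeToMvPowerSeries.algHom_apply]
  have h2 := congrArg (fun g => g p) h
  simpa [MvPolynomial.coeToMvPowerSeries.algHom_apply] using h2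

/-- Two algebra homomorphisms out of a power series ring into a ring which is Hausdorff for
an ideal `I` agree as soon as they agree on the variables and send them into `I`. -/
theorem algHom_ext_of_X (I : Ideal A) [IsHausdorff I A] (f g : MvPowerSeries σ O →ₐ[O] A)
    (hf : ∀ j, f (MvPowerSeries.X j) ∈ I) (hfg : ∀ j, f (MvPowerSeries.X j) = g (MvPowerSeries.X j)) :
    f = g := by
  ext p
  rw [← sub_eq_zero]
  apply IsHausdorff.haus (inferInstance : IsHausdorff I A)
  intro n
  rw [SModEq.sub_mem, smul_eq_mul, Ideal.mul_top, sub_zero]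
  have hq := sub_truncTotal_mem_varIdeal_pow n p
  set t : MvPolynomial σ O := MvPowerSeries.truncTotal n p with ht
  have h1 : f (t : MvPowerSeries σ O) = g (t : MvPowerSeries σ O) := by
    rw [algHom_coe_eq_aeval, algHom_coe_eq_aeval]
    congr 2
    funext j
    exact hfg j
  have h2 : f p - g p = f (p - (t : MvPowerSeries σ O)) - g (p - (t : MvPowerSeries σ O)) := by
    rw [map_sub, map_sub, h1]; ring
  rw [h2]
  exact sub_mem (map_mem_pow_of_mem_varIdeal_pow f I hf n _ hq)
    (map_mem_pow_of_mem_varIdeal_pow g I (fun j => hfg j ▸ hf j) n _ hq)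

/-- Uniqueness of the evaluation homomorphism. -/
theorem eq_evalHom (I : Ideal A) [IsAdicComplete I A] (a : σ → A) (ha : ∀ j, a j ∈ I)
    (f : MvPowerSeries σ O →ₐ[O] A) (hf : ∀ j, f (MvPowerSeries.X j) = a j) :
    f = evalHom I a ha :=
  algHom_ext_of_X I f (evalHom I a ha) (fun j => by rw [hf j]; exact ha j)
    (fun j => by rw [hf j, evalHom_X])

end Unique

section LocalEval

variable {σ : Type*} [Finite σ] {O : Type*} [CommRing O]
variable {A : Type*} [CommRing A] [IsLocalRing A] [Algebra O A]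

/-- An algebra homomorphism from a power series ring over a local ring to a local algebra with
local structure map which sends the variables into the maximal ideal is local. -/
theorem isLocalHom_of_X_mem [IsLocalHom (algebraMap O A)] (f : MvPowerSeries σ O →ₐ[O] A)
    (hf : ∀ j, f (MvPowerSeries.X j) ∈ maximalIdeal A) :
    IsLocalHom (f : MvPowerSeries σ O →+* A) := by
  refine ⟨fun p hp => ?_⟩
  rw [MvPowerSeries.isUnit_iff_constantCoeff]
  have h1 : p - MvPowerSeries.C (MvPowerSeries.constantCoeff p) ∈ varIdeal σ O ^ 1 := by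
    rw [pow_one]
    exact mem_span_range_X_of_constantCoeff _ (by simp)
  have h2 := map_mem_pow_of_mem_varIdeal_pow f (maximalIdeal A) hf 1 _ h1
  rw [pow_one, map_sub] at h2
  have h3 : f (MvPowerSeries.C (MvPowerSeries.constantCoeff p)) =
      algebraMap O A (MvPowerSeries.constantCoeff p) := by
    rw [MvPowerSeries.c_eq_algebraMap, AlgHom.commutes]
  rw [h3] at h2
  have h4 : IsUnit (algebraMap O A (MvPowerSeries.constantCoeff p)) := by
    by_contra hnu
    have h5 : algebraMap O A (MvPowerSeries.constantCoeff p) ∈ maximalIdeal A := hnu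
    have h6 : f p ∈ maximalIdeal A := by
      have := add_mem h2 h5
      simpa using this
    exact h6 hp
  exact IsLocalHom.map_nonunit _ h4

end LocalEval

section QuotComplete

variable {R : Type*} [CommRing R] [IsLocalRing R] [IsNoetherianRing R]
  [IsAdicComplete (maximalIdeal R) R]

/-- Local quotients of a complete Noetherian local ring are complete. -/
theorem isAdicComplete_quotient (J : Ideal R) [IsLocalRing (R ⧸ J)] :
    IsAdicComplete (maximalIdeal (R ⧸ J)) (R ⧸ J) := by
  have h1 : IsLocalHom (algebraMap R (R ⧸ J)) :=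
    IsLocalHom.of_surjective (Ideal.Quotient.mk J) Ideal.Quotient.mk_surjective
  have h2 : Module.Finite R (R ⧸ J) :=
    Module.Finite.of_surjective (Ideal.Quotient.mkₐ R J).toLinearMap
      (Ideal.Quotient.mkₐ_surjective R J)
  exact IsLocalRing.isAdicComplete_of_module_finite (𝒪 := R) (T := R ⧸ J)

end QuotComplete

section Quot

variable {R : Type*} [CommRing R] [IsLocalRing R]

/-- In a Noetherian local ring, a quotient by an ideal containing a power of the maximal ideal
is Artinian. -/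
theorem isArtinianRing_quotient_of_pow_le [IsNoetherianRing R] (K : Ideal R) (n : ℕ)
    (h : maximalIdeal R ^ n ≤ K) : IsArtinianRing (R ⧸ K) := by
  by_cases hK : K = ⊤
  · subst hK
    have : Subsingleton (R ⧸ (⊤ : Ideal R)) := Ideal.Quotient.subsingleton_iff.mpr rfl
    infer_instance
  have : Nontrivial (R ⧸ K) := Ideal.Quotient.nontrivial_iff.mpr hK
  have := IsLocalRing.of_surjective' (Ideal.Quotient.mk K) Ideal.Quotient.mk_surjective
  have hloc := IsLocalHom.of_surjective (Ideal.Quotient.mk K) Ideal.Quotient.mk_surjective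
  rw [isArtinianRing_iff_isNilpotent_maximalIdeal]
  refine ⟨n, ?_⟩
  have hmap : (maximalIdeal R).map (Ideal.Quotient.mk K) = maximalIdeal (R ⧸ K) := by
    ext x
    obtain ⟨x, rfl⟩ := Ideal.Quotient.mk_surjective x
    simp [sup_eq_left.mpr (le_maximalIdeal hK)]
  rw [← hmap, ← Ideal.map_pow, Ideal.zero_eq_bot, Ideal.map_eq_bot_iff_le_ker, Ideal.mk_ker]
  exact h

end Quot

section Test

variable {𝒪 : Type} [CommRing 𝒪]

/-- Quotients of a Noetherian local `𝒪`-algebra (local structure map, residue field generated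
by `𝒪`) by ideals containing a power of the maximal ideal are Artinian test algebras. -/
theorem isArtinianTestAlgebra_quotient {R : Type} [CommRing R] [IsLocalRing R]
    [IsNoetherianRing R] [Algebra 𝒪 R] (hloc : IsLocalHom (algebraMap 𝒪 R))
    (hres : Function.Surjective (residue R ∘ algebraMap 𝒪 R))
    (K : Ideal R) [IsLocalRing (R ⧸ K)] (n : ℕ) (h : maximalIdeal R ^ n ≤ K) :
    GaloisRep.IsArtinianTestAlgebra 𝒪 (R ⧸ K) := by
  have hmk : IsLocalHom (Ideal.Quotient.mk K) :=
    IsLocalHom.of_surjective (Ideal.Quotient.mk K) Ideal.Quotient.mk_surjective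
  refine ⟨?_, ?_, isArtinianRing_quotient_of_pow_le K n h⟩
  · have : algebraMap 𝒪 (R ⧸ K) = (Ideal.Quotient.mk K).comp (algebraMap 𝒪 R) := rfl
    rw [this]
    exact RingHom.isLocalHom_comp _ _
  · intro x
    obtain ⟨x, rfl⟩ := residue_surjective x
    obtain ⟨r, rfl⟩ := Ideal.Quotient.mk_surjective x
    obtain ⟨o, ho⟩ := hres (residue R r)
    refine ⟨o, ?_⟩
    have h1 : algebraMap 𝒪 R o - r ∈ maximalIdeal R := by
      rw [← Ideal.Quotient.eq]
      exact ho
    have h2 : Ideal.Quotient.mk K (algebraMap 𝒪 R o - r) ∈ maximalIdeal (R ⧸ K) := by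
      rw [mem_maximalIdeal, mem_nonunits_iff] at h1 ⊢
      exact fun hu => h1 (hmk.map_nonunit _ hu)
    change residue (R ⧸ K) (Ideal.Quotient.mk K (algebraMap 𝒪 R o)) = _
    rw [map_sub] at h2
    exact (Ideal.Quotient.eq).mpr h2

variable {σ : Type*}

theorem isLocalHom_algebraMap_mvPowerSeries :
    IsLocalHom (algebraMap 𝒪 (MvPowerSeries σ 𝒪)) := by
  refine ⟨fun a ha => ?_⟩
  rw [← MvPowerSeries.c_eq_algebraMap, MvPowerSeries.isUnit_iff_constantCoeff,
    MvPowerSeries.constantCoeff_C] at ha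
  exact ha

theorem residue_surjective_mvPowerSeries [IsLocalRing 𝒪] [Finite σ] :
    Function.Surjective (residue (MvPowerSeries σ 𝒪) ∘ algebraMap 𝒪 (MvPowerSeries σ 𝒪)) := by
  intro x
  obtain ⟨p, rfl⟩ := residue_surjective x
  refine ⟨MvPowerSeries.constantCoeff p, ?_⟩
  have h1 : MvPowerSeries.C (MvPowerSeries.constantCoeff p) - p ∈
      maximalIdeal (MvPowerSeries σ 𝒪) := by
    rw [maximalIdeal_eq_sup]
    exact Ideal.mem_sup_left (mem_span_range_X_of_constantCoeff _ (by simp))
  rw [Function.comp_apply, ← MvPowerSeries.c_eq_algebraMap]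
  exact (Ideal.Quotient.eq).mpr h1

end Test

section Limit

variable {R : Type*} [CommRing R] (I : Ideal R)

/-- Successive approximation along a chain of ideals `L n ⊇ I ^ n` with
`L n ≤ L (n + 1) ⊔ I ^ n`: a sequence which is coherent modulo the `L n` from `n₀` on can be
replaced by a single element. -/
theorem exists_limit_of_chain [hp : IsPrecomplete I R] (L : ℕ → Ideal R)
    (hL : ∀ n, L n ≤ L (n + 1) ⊔ I ^ n) (hIL : ∀ n, I ^ n ≤ L n) (x : ℕ → R) (n₀ : ℕ)
    (hx : ∀ n, n₀ ≤ n → x (n + 1) - x n ∈ L n) :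
    ∃ z : R, (∀ n, n₀ ≤ n → z - x n ∈ L n) ∧ z - x n₀ ∈ I ^ n₀ := by
  -- the invariant of the recursion
  let P : ℕ → R → Prop := fun n z => (n₀ ≤ n → z - x n ∈ L n) ∧ (n ≤ n₀ → z = x n₀)
  have step : ∀ n z, P n z → ∃ z', P (n + 1) z' ∧ z' - z ∈ I ^ n := by
    intro n z hz
    by_cases hn : n₀ ≤ n
    · have h1 : x (n + 1) - z ∈ L (n + 1) ⊔ I ^ n := by
        apply hL n
        have h2 : x (n + 1) - z = (x (n + 1) - x n) - (z - x n) := by ring
        rw [h2]
        exact sub_mem (hx n hn) (hz.1 hn)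
      obtain ⟨l, hl, t, ht, hlt⟩ := Submodule.mem_sup.mp h1
      refine ⟨z + t, ⟨fun _ => ?_, fun h => by omega⟩, by simpa using ht⟩
      have h3 : z + t - x (n + 1) = -l := by linear_combination hlt
      rw [h3]
      exact neg_mem hl
    · refine ⟨z, ⟨fun h => ?_, fun _ => hz.2 (by omega)⟩, by simp⟩
      have h4 : n + 1 = n₀ := by omega
      rw [hz.2 (by omega), h4, sub_self]
      exact zero_mem _
  have h0 : P 0 (x n₀) := ⟨fun h => by
    have : n₀ = 0 := by omega
    rw [this, sub_self]; exact zero_mem _, fun _ => rfl⟩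
  let s : ∀ n, {z : R // P n z} := fun n =>
    Nat.rec ⟨x n₀, h0⟩ (fun n z => ⟨(step n z.1 z.2).choose, (step n z.1 z.2).choose_spec.1⟩) n
  have hs : ∀ n, (s (n + 1)).1 - (s n).1 ∈ I ^ n := fun n =>
    (step n (s n).1 (s n).2).choose_spec.2
  have hc : ∀ {m n : ℕ}, m ≤ n →
      (s m).1 ≡ (s n).1 [SMOD I ^ m • (⊤ : Submodule R R)] := by
    intro m n hmn
    rw [SModEq.sub_mem, smul_eq_mul, Ideal.mul_top]
    induction n, hmn using Nat.le_induction with
    | base => simp
    | succ n hmn ih =>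
      have h5 : (s m).1 - (s (n + 1)).1 = ((s m).1 - (s n).1) - ((s (n + 1)).1 - (s n).1) := by
        ring
      rw [h5]
      exact sub_mem ih (Ideal.pow_le_pow_right hmn (hs n))
  obtain ⟨z, hz⟩ := hp.prec' (fun n => (s n).1) hc
  have hz' : ∀ n, z - (s n).1 ∈ I ^ n := by
    intro n
    have h6 := hz n
    rw [SModEq.sub_mem, smul_eq_mul, Ideal.mul_top] at h6
    have h7 : z - (s n).1 = -((s n).1 - z) := by ring
    rw [h7]
    exact neg_mem h6
  refine ⟨z, fun n hn => ?_, ?_⟩
  · have h8 : z - x n = (z - (s n).1) + ((s n).1 - x n) := by ring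
    rw [h8]
    exact add_mem (hIL n (hz' n)) ((s n).2.1 hn)
  · have h9 := hz' n₀
    rwa [(s n₀).2.2 le_rfl] at h9

/-- The limit lemma for a chain: `L n ≤ (⨅ j, L j) ⊔ I ^ n`. -/
theorem chain_le_iInf_sup_pow [hp : IsPrecomplete I R] (L : ℕ → Ideal R)
    (hanti : ∀ n, L (n + 1) ≤ L n)
    (hL : ∀ n, L n ≤ L (n + 1) ⊔ I ^ n) (hIL : ∀ n, I ^ n ≤ L n) (n : ℕ) :
    L n ≤ (⨅ j, L j) ⊔ I ^ n := by
  intro x hx
  have hanti' : ∀ {a b : ℕ}, a ≤ b → L b ≤ L a := by
    intro a b hab
    induction b, hab using Nat.le_induction with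
    | base => exact le_rfl
    | succ b _ ih => exact (hanti b).trans ih
  -- the sequence `x, 0, 0, ...` starting at index `n`
  obtain ⟨z, hz1, hz2⟩ := exists_limit_of_chain I L hL hIL (fun j => if j ≤ n then x else 0) n
    (by
      intro j hj
      by_cases hjn : j = n
      · subst hjn
        simp only [le_refl, if_true, Nat.add_one_le_iff, lt_self_iff_false, if_false, zero_sub]
        exact neg_mem hx
      · have h1 : ¬ j ≤ n := by omega
        have h2 : ¬ j + 1 ≤ n := by omega
        simp only [h1, h2, if_false, sub_self]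
        exact zero_mem _)
  simp only [le_refl, if_true] at hz2
  have hzn : z ∈ L n := by
    have : z = (z - x) + x := by ring
    rw [this]
    exact add_mem (hIL n hz2) hx
  have hz : z ∈ ⨅ j, L j := by
    rw [Ideal.mem_iInf]
    intro j
    by_cases hj : j ≤ n
    · exact hanti' hj hzn
    · have h3 := hz1 j (by omega)
      simpa [hj] using h3
  have : x = z + (x - z) := by ring
  rw [this]
  refine Submodule.add_mem_sup hz ?_
  have h4 : x - z = -(z - x) := by ring
  rw [h4]
  exact neg_mem hz2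

end Limit

section Family

variable {R : Type*} [CommRing R] (I : Ideal R)

/-- In a family of ideals closed under pairwise intersection, the ideals `J' ⊔ I ^ n` have a
least element, provided `R ⧸ I ^ n` is Artinian. -/
theorem exists_min_sup_pow (FJ : Set (Ideal R)) (hne : FJ.Nonempty)
    (hinf : ∀ J₁ ∈ FJ, ∀ J₂ ∈ FJ, J₁ ⊓ J₂ ∈ FJ) (n : ℕ) [IsArtinianRing (R ⧸ I ^ n)] :
    ∃ K ∈ FJ, ∀ J' ∈ FJ, K ⊔ I ^ n ≤ J' ⊔ I ^ n := by
  obtain ⟨M, ⟨K, hK, rfl⟩, hmin⟩ := IsArtinian.set_has_minimal
    ((fun J' : Ideal R => Ideal.map (Ideal.Quotient.mk (I ^ n)) J') '' FJ) (hne.image _)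
  refine ⟨K, hK, fun J' hJ' => ?_⟩
  have h1 : Ideal.map (Ideal.Quotient.mk (I ^ n)) (K ⊓ J') =
      Ideal.map (Ideal.Quotient.mk (I ^ n)) K := by
    have hle : Ideal.map (Ideal.Quotient.mk (I ^ n)) (K ⊓ J') ≤
        Ideal.map (Ideal.Quotient.mk (I ^ n)) K := Ideal.map_mono inf_le_left
    by_contra hne'
    exact hmin _ ⟨K ⊓ J', hinf K hK J' hJ', rfl⟩ (lt_of_le_of_ne hle hne')
  have h2 : Ideal.map (Ideal.Quotient.mk (I ^ n)) K ≤
      Ideal.map (Ideal.Quotient.mk (I ^ n)) J' := by
    rw [← h1]; exact Ideal.map_mono inf_le_right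
  have h3 := Ideal.comap_mono (f := Ideal.Quotient.mk (I ^ n)) h2
  rwa [Ideal.comap_map_of_surjective _ Ideal.Quotient.mk_surjective,
    Ideal.comap_map_of_surjective _ Ideal.Quotient.mk_surjective,
    ← RingHom.ker_eq_comap_bot, Ideal.mk_ker] at h3

/-- A decreasing sequence in the family realising the least elements of all levels. -/
theorem exists_chain_in_family (FJ : Set (Ideal R)) (hne : FJ.Nonempty)
    (hinf : ∀ J₁ ∈ FJ, ∀ J₂ ∈ FJ, J₁ ⊓ J₂ ∈ FJ) (hart : ∀ n, IsArtinianRing (R ⧸ I ^ n)) :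
    ∃ K : ℕ → Ideal R, (∀ n, K n ∈ FJ) ∧ (∀ n, K (n + 1) ≤ K n) ∧
      ∀ n, ∀ J' ∈ FJ, K n ⊔ I ^ n ≤ J' ⊔ I ^ n := by
  have h := fun n => exists_min_sup_pow I FJ hne hinf n
  choose K₀ hK₀ hmin using h
  let K : ℕ → Ideal R := fun n => Nat.rec (K₀ 0) (fun n J => J ⊓ K₀ (n + 1)) n
  have hK0 : K 0 = K₀ 0 := rfl
  have hKs : ∀ n, K (n + 1) = K n ⊓ K₀ (n + 1) := fun n => rfl
  have hmem : ∀ n, K n ∈ FJ := by
    intro n
    induction n with
    | zero => rw [hK0]; exact hK₀ 0
    | succ n ih => rw [hKs]; exact hinf _ ih _ (hK₀ (n + 1))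
  have hle : ∀ n, K n ≤ K₀ n := by
    intro n
    cases n with
    | zero => rw [hK0]
    | succ n => rw [hKs]; exact inf_le_right
  refine ⟨K, hmem, fun n => by rw [hKs]; exact inf_le_left, fun n J' hJ' => ?_⟩
  exact (sup_le_sup_right (hle n) _).trans (hmin n J' hJ')

variable [IsPrecomplete I R]

/-- (e1) Every level of the intersection of the family is attained by a member. -/
theorem exists_mem_le_sInf_sup_pow (FJ : Set (Ideal R)) (hne : FJ.Nonempty)
    (hinf : ∀ J₁ ∈ FJ, ∀ J₂ ∈ FJ, J₁ ⊓ J₂ ∈ FJ) (hart : ∀ n, IsArtinianRing (R ⧸ I ^ n))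
    (hpow : ∀ J' ∈ FJ, ∃ N, I ^ N ≤ J') (n : ℕ) :
    ∃ J' ∈ FJ, J' ≤ sInf FJ ⊔ I ^ n := by
  obtain ⟨K, hKmem, hKanti, hKmin⟩ := exists_chain_in_family I FJ hne hinf hart
  refine ⟨K n, hKmem n, ?_⟩
  have h1 := chain_le_iInf_sup_pow I (fun j => K j ⊔ I ^ j)
    (fun j => sup_le_sup (hKanti j) (Ideal.pow_le_pow_right (Nat.le_succ j)))
    (fun j => (hKmin j (K (j + 1)) (hKmem (j + 1))).trans
      (sup_le_sup_right le_sup_left _))
    (fun j => le_sup_right) n
  have h2 : (⨅ j, K j ⊔ I ^ j) ≤ sInf FJ := by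
    rw [le_sInf_iff]
    intro J' hJ'
    obtain ⟨N, hN⟩ := hpow J' hJ'
    exact (iInf_le _ N).trans ((hKmin N J' hJ').trans (sup_le le_rfl hN))
  exact le_sup_left.trans (h1.trans (sup_le_sup_right h2 _))

/-- (e2) Every compatible family of classes modulo the members of the family comes from a
single element. -/
theorem exists_lift_of_compatible (FJ : Set (Ideal R)) (hne : FJ.Nonempty)
    (hinf : ∀ J₁ ∈ FJ, ∀ J₂ ∈ FJ, J₁ ⊓ J₂ ∈ FJ) (hart : ∀ n, IsArtinianRing (R ⧸ I ^ n))
    (hpow : ∀ J' ∈ FJ, ∃ N, I ^ N ≤ J')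
    (y : ∀ J' : Ideal R, J' ∈ FJ → R ⧸ J')
    (hy : ∀ (J₁ : Ideal R) (h₁ : J₁ ∈ FJ) (J₂ : Ideal R) (h₂ : J₂ ∈ FJ) (hle : J₁ ≤ J₂),
      Ideal.Quotient.factor hle (y J₁ h₁) = y J₂ h₂) :
    ∃ x : R, ∀ (J' : Ideal R) (h : J' ∈ FJ), Ideal.Quotient.mk J' x = y J' h := by
  obtain ⟨K, hKmem, hKanti, hKmin⟩ := exists_chain_in_family I FJ hne hinf hart
  -- lifts of the classes along the chain
  have hl : ∀ n, ∃ x : R, Ideal.Quotient.mk (K n) x = y (K n) (hKmem n) :=
    fun n => Ideal.Quotient.mk_surjective _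
  choose x hx using hl
  -- key: a lift modulo `J₁ ≤ J₂` is a lift modulo `J₂`
  have hkey : ∀ (J₁ : Ideal R) (h₁ : J₁ ∈ FJ) (J₂ : Ideal R) (h₂ : J₂ ∈ FJ) (_ : J₁ ≤ J₂)
      (w : R), Ideal.Quotient.mk J₁ w = y J₁ h₁ → Ideal.Quotient.mk J₂ w = y J₂ h₂ := by
    intro J₁ h₁ J₂ h₂ hle w hw
    rw [← hy J₁ h₁ J₂ h₂ hle, ← hw, Ideal.Quotient.factor_mk]
  have hxs : ∀ n, 0 ≤ n → x (n + 1) - x n ∈ K n ⊔ I ^ n := by
    intro n _
    refine Ideal.mem_sup_left ?_
    rw [← Ideal.Quotient.eq, hx n]
    exact hkey _ (hKmem (n + 1)) _ (hKmem n) (hKanti n) _ (hx (n + 1))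
  obtain ⟨z, hz, -⟩ := exists_limit_of_chain I (fun j => K j ⊔ I ^ j)
    (fun j => (hKmin j (K (j + 1)) (hKmem (j + 1))).trans
      (sup_le_sup_right le_sup_left _))
    (fun j => le_sup_right) x 0 hxs
  refine ⟨z, fun J' hJ' => ?_⟩
  obtain ⟨N, hN⟩ := hpow J' hJ'
  have hLN : K N ⊔ I ^ N ≤ J' := (hKmin N J' hJ').trans (sup_le le_rfl hN)
  -- a common refinement
  obtain ⟨w, hw⟩ := Ideal.Quotient.mk_surjective (y (K N ⊓ J') (hinf _ (hKmem N) _ hJ'))
  have hw1 : Ideal.Quotient.mk (K N) w = y (K N) (hKmem N) :=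
    hkey _ (hinf _ (hKmem N) _ hJ') _ (hKmem N) inf_le_left w hw
  have hw2 : Ideal.Quotient.mk J' w = y J' hJ' :=
    hkey _ (hinf _ (hKmem N) _ hJ') _ hJ' inf_le_right w hw
  have h1 : w - x N ∈ J' := by
    apply hLN
    refine Ideal.mem_sup_left ?_
    rw [← Ideal.Quotient.eq, hw1, hx N]
  have h2 : z - x N ∈ J' := hLN (hz N (Nat.zero_le N))
  rw [← hw2, Ideal.Quotient.eq]
  have h3 : z - w = (z - x N) - (w - x N) := by ring
  rw [h3]
  exact sub_mem h2 h1

end Family

section LocalFamily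

variable {R : Type*} [CommRing R] [IsLocalRing R] [IsNoetherianRing R]
  [IsPrecomplete (maximalIdeal R) R]

/-- (e1), local form: in a complete Noetherian local ring, for a nonempty family of ideals
with Artinian quotients which is closed under pairwise intersection, every level of the
intersection of the family is attained by a member. -/
theorem exists_mem_le_sInf_sup_maximalIdeal_pow (FJ : Set (Ideal R)) (hne : FJ.Nonempty)
    (hinf : ∀ J₁ ∈ FJ, ∀ J₂ ∈ FJ, J₁ ⊓ J₂ ∈ FJ)
    (hart : ∀ J' ∈ FJ, IsArtinianRing (R ⧸ J')) (n : ℕ) :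
    ∃ J' ∈ FJ, J' ≤ sInf FJ ⊔ maximalIdeal R ^ n :=
  exists_mem_le_sInf_sup_pow (maximalIdeal R) FJ hne hinf
    (fun n => isArtinianRing_quotient_of_pow_le _ n le_rfl)
    (fun J' hJ' => by
      have := hart J' hJ'
      exact exists_maximalIdeal_pow_le_of_isArtinianRing_quotient J') n

/-- (e2), local form. -/
theorem exists_lift_of_compatible_of_isLocalRing (FJ : Set (Ideal R)) (hne : FJ.Nonempty)
    (hinf : ∀ J₁ ∈ FJ, ∀ J₂ ∈ FJ, J₁ ⊓ J₂ ∈ FJ)
    (hart : ∀ J' ∈ FJ, IsArtinianRing (R ⧸ J'))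
    (y : ∀ J' : Ideal R, J' ∈ FJ → R ⧸ J')
    (hy : ∀ (J₁ : Ideal R) (h₁ : J₁ ∈ FJ) (J₂ : Ideal R) (h₂ : J₂ ∈ FJ) (hle : J₁ ≤ J₂),
      Ideal.Quotient.factor hle (y J₁ h₁) = y J₂ h₂) :
    ∃ x : R, ∀ (J' : Ideal R) (h : J' ∈ FJ), Ideal.Quotient.mk J' x = y J' h :=
  exists_lift_of_compatible (maximalIdeal R) FJ hne hinf
    (fun n => isArtinianRing_quotient_of_pow_le _ n le_rfl)
    (fun J' hJ' => by
      have := hart J' hJ'
      exact exists_maximalIdeal_pow_le_of_isArtinianRing_quotient J') y hy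

end LocalFamily

end Fermat.Agent.S53_PowerSeries
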