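import Mathlib
import Fermat.Agent.S53_PowerSeries

set_option autoImplicit false
set_option linter.style.haveILetI false

/-!
# Abstract pro-representability (helper module for S53)

`P = MvPolynomial E 𝒪`, a family `𝒥` of ideals of `P` (the "finite level" quotients of `P`),
closed under finite intersections and under passing to larger ideals below the residual point `𝔫`,
with uniformly finitely generated quotients.  Then the family is pro-represented by a complete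
Noetherian local `𝒪`-algebra `R` together with a tuple `x : E → R`.
-/

namespace Fermat.Agent.S53_ProRep

open IsLocalRing

section Eval
variable {𝒪 : Type*} [CommRing 𝒪] {σ : Type*} [Finite σ] {B : Type*} [CommRing B] [Algebra 𝒪 B]

theorem hasEval_bot (a : σ → B) (ha : ∀ i, IsNilpotent (a i)) :
    @MvPowerSeries.HasEval σ B _ (⊥ : TopologicalSpace B) a := by
  letI : TopologicalSpace B := ⊥
  have h2 : DiscreteTopology B := ⟨rfl⟩
  refine ⟨fun s => ?_, ?_⟩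
  · obtain ⟨n, hn⟩ := ha s
    unfold IsTopologicallyNilpotent
    refine tendsto_atTop_of_eventually_const (i₀ := n) fun i hi => ?_
    exact pow_eq_zero_of_le hi hn
  · rw [Filter.cofinite_eq_bot]
    exact Filter.tendsto_bot

/-- evaluation of power series at a finite family of nilpotent elements -/
noncomputable def evalNil (a : σ → B) (ha : ∀ i, IsNilpotent (a i)) : MvPowerSeries σ 𝒪 →ₐ[𝒪] B :=
  letI : UniformSpace 𝒪 := ⊥
  letI : UniformSpace B := ⊥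
  haveI : DiscreteTopology 𝒪 := ⟨rfl⟩
  haveI : DiscreteTopology B := ⟨rfl⟩
  haveI : ContinuousSMul 𝒪 B := ⟨continuous_of_discreteTopology⟩
  MvPowerSeries.aeval (a := a) (hasEval_bot a ha)

theorem evalNil_coe (a : σ → B) (ha : ∀ i, IsNilpotent (a i)) (q : MvPolynomial σ 𝒪) :
    evalNil a ha (q : MvPowerSeries σ 𝒪) = MvPolynomial.aeval a q := by
  letI : UniformSpace 𝒪 := ⊥
  letI : UniformSpace B := ⊥
  haveI : DiscreteTopology 𝒪 := ⟨rfl⟩
  haveI : DiscreteTopology B := ⟨rfl⟩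
  haveI : ContinuousSMul 𝒪 B := ⟨continuous_of_discreteTopology⟩
  exact MvPowerSeries.aeval_coe (hasEval_bot a ha) q

theorem evalNil_X (a : σ → B) (ha : ∀ i, IsNilpotent (a i)) (i : σ) :
    evalNil (𝒪 := 𝒪) a ha (MvPowerSeries.X i) = a i := by
  have := evalNil_coe (𝒪 := 𝒪) a ha (MvPolynomial.X i)
  simpa using this

theorem evalNil_comp {B' : Type*} [CommRing B'] [Algebra 𝒪 B'] (a : σ → B)
    (ha : ∀ i, IsNilpotent (a i)) (g : B →ₐ[𝒪] B') (ha' : ∀ i, IsNilpotent (g (a i))) :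
    g.comp (evalNil a ha) = evalNil (𝒪 := 𝒪) (fun i => g (a i)) ha' := by
  letI : UniformSpace 𝒪 := ⊥
  letI : UniformSpace B := ⊥
  letI : UniformSpace B' := ⊥
  haveI : DiscreteTopology 𝒪 := ⟨rfl⟩
  haveI : DiscreteTopology B := ⟨rfl⟩
  haveI : DiscreteTopology B' := ⟨rfl⟩
  haveI : ContinuousSMul 𝒪 B := ⟨continuous_of_discreteTopology⟩
  haveI : ContinuousSMul 𝒪 B' := ⟨continuous_of_discreteTopology⟩
  exact MvPowerSeries.comp_aeval (hasEval_bot a ha) (ε := g) continuous_of_discreteTopology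

end Eval

section Limit

/-- limit of a sequence with small successive differences -/
theorem exists_limit {R : Type*} [CommRing R] (I : Ideal R) [hI : IsPrecomplete I R] (h : ℕ → R)
    (hh : ∀ j, h (j + 1) - h j ∈ I ^ j) : ∃ L, ∀ j, L - h j ∈ I ^ j := by
  have key : ∀ m n, m ≤ n → h n - h m ∈ I ^ m := by
    intro m n hmn
    induction n, hmn using Nat.le_induction with
    | base => simp
    | succ n hmn ih =>
      have : h (n + 1) - h m = (h (n + 1) - h n) + (h n - h m) := by ring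
      rw [this]
      exact add_mem (Ideal.pow_le_pow_right hmn (hh n)) ih
  obtain ⟨L, hL⟩ := hI.prec' h (fun {m n} hmn => by
    rw [SModEq.sub_mem, smul_eq_mul, Ideal.mul_top]
    have := key m n hmn
    have h2 : h m - h n = -(h n - h m) := by ring
    rw [h2]; exact neg_mem this)
  refine ⟨L, fun j => ?_⟩
  have := hL j
  rw [SModEq.sub_mem, smul_eq_mul, Ideal.mul_top] at this
  have h2 : L - h j = -(h j - L) := by ring
  rw [h2]; exact neg_mem this

/-- shifted version -/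
theorem exists_limit_shift {R : Type*} [CommRing R] (I : Ideal R) [hI : IsPrecomplete I R]
    (n : ℕ) (h : ℕ → R) (hh : ∀ j, h (j + 1) - h j ∈ I ^ (n + j)) :
    ∃ L, ∀ j, L - h j ∈ I ^ (n + j) := by
  obtain ⟨L, hL⟩ := exists_limit I (fun i => h (i - n)) (fun j => by
    by_cases hj : j < n
    · have h1 : j + 1 - n = 0 := by omega
      have h2 : j - n = 0 := by omega
      simp [h1, h2]
    · have h1 : j + 1 - n = (j - n) + 1 := by omega
      have h2 : n + (j - n) = j := by omega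
      have := hh (j - n)
      rw [h2] at this
      simpa [h1] using this)
  refine ⟨L, fun j => ?_⟩
  have := hL (n + j)
  simpa using this

theorem isArtinianRing_quot_pow {R : Type*} [CommRing R] [IsLocalRing R] [IsNoetherianRing R]
    (n : ℕ) : IsArtinianRing (R ⧸ maximalIdeal R ^ (n + 1)) := by
  have hne : maximalIdeal R ^ (n + 1) ≠ ⊤ := by
    intro h
    have h1 : maximalIdeal R ^ (n + 1) ≤ maximalIdeal R := Ideal.pow_le_self (by omega)
    rw [h] at h1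
    exact (maximalIdeal.isMaximal R).ne_top (top_le_iff.mp h1)
  have : Nontrivial (R ⧸ maximalIdeal R ^ (n + 1)) := Ideal.Quotient.nontrivial_iff.mpr hne
  have := IsLocalRing.of_surjective' (Ideal.Quotient.mk (maximalIdeal R ^ (n + 1)))
    Ideal.Quotient.mk_surjective
  have := IsLocalHom.of_surjective (Ideal.Quotient.mk (maximalIdeal R ^ (n + 1)))
    Ideal.Quotient.mk_surjective
  rw [isArtinianRing_iff_isNilpotent_maximalIdeal]
  have hmap : (maximalIdeal R).map (Ideal.Quotient.mk (maximalIdeal R ^ (n + 1))) =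
      maximalIdeal (R ⧸ maximalIdeal R ^ (n + 1)) := by
    ext x
    obtain ⟨x, rfl⟩ := Ideal.Quotient.mk_surjective x
    simp [sup_eq_left.mpr (le_maximalIdeal hne)]
  refine ⟨n + 1, ?_⟩
  rw [← hmap, ← Ideal.map_pow, Ideal.zero_eq_bot, Ideal.map_eq_bot_iff_le_ker, Ideal.mk_ker]

/-- Chevalley-type lemma: a filtered family of open ideals with zero intersection in a complete
Noetherian local ring is cofinal with the powers of the maximal ideal. -/
theorem exists_le_maximalIdeal_pow {R : Type*} [CommRing R] [IsLocalRing R] [IsNoetherianRing R]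
    [IsAdicComplete (maximalIdeal R) R] {ι : Type*} [Nonempty ι] (K : ι → Ideal R)
    (hmeet : ∀ i j, ∃ k, K k ≤ K i ⊓ K j)
    (hopen : ∀ i, ∃ N, maximalIdeal R ^ N ≤ K i)
    (hsep : ⨅ i, K i = ⊥) (n : ℕ) : ∃ i, K i ≤ maximalIdeal R ^ n := by
  -- minimisers at each level
  have hmin : ∀ j : ℕ, ∃ i, ∀ i', K i ≤ K i' ⊔ maximalIdeal R ^ j := by
    intro j
    rcases j with _ | j
    · exact ⟨Classical.arbitrary ι, fun i' => by simp⟩
    · have hart := isArtinianRing_quot_pow (R := R) j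
      let mk := Ideal.Quotient.mk (maximalIdeal R ^ (j + 1))
      have hwf : WellFounded ((· < ·) : Ideal (R ⧸ maximalIdeal R ^ (j + 1)) → _ → Prop) :=
        wellFounded_lt
      obtain ⟨a, ⟨i, rfl⟩, hi⟩ := hwf.has_min (Set.range fun i => (K i).map mk)
        ⟨_, ⟨Classical.arbitrary ι, rfl⟩⟩
      refine ⟨i, fun i' => ?_⟩
      obtain ⟨k, hk⟩ := hmeet i i'
      have h1 : (K k).map mk ≤ (K i).map mk := Ideal.map_mono (hk.trans inf_le_left)
      have h2 : (K k).map mk = (K i).map mk := by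
        by_contra hne
        exact hi _ ⟨k, rfl⟩ (lt_of_le_of_ne h1 hne)
      have h3 : (K i).map mk ≤ (K i').map mk := by
        rw [← h2]
        exact Ideal.map_mono (hk.trans inf_le_right)
      calc K i ≤ ((K i).map mk).comap mk := Ideal.le_comap_map
        _ ≤ ((K i').map mk).comap mk := Ideal.comap_mono h3
        _ = K i' ⊔ maximalIdeal R ^ (j + 1) := by
          rw [Ideal.comap_map_of_surjective mk Ideal.Quotient.mk_surjective]
          congr 1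
          rw [← RingHom.ker_eq_comap_bot, Ideal.mk_ker]
  choose idx hidx using hmin
  refine ⟨idx n, fun f hf => ?_⟩
  have step : ∀ j g, g ∈ K (idx j) → ∃ g' ∈ K (idx (j + 1)), g' - g ∈ maximalIdeal R ^ j := by
    intro j g hg
    have := hidx j (idx (j + 1)) hg
    obtain ⟨α, hα, μ, hμ, rfl⟩ := Submodule.mem_sup.mp this
    exact ⟨α, hα, by simpa using neg_mem hμ⟩
  classical
  let nxt : ℕ → R → R := fun j g =>
    if hg : g ∈ K (idx j) then Classical.choose (step j g hg) else g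
  let h : ℕ → R := fun i => Nat.rec f (fun i g => nxt (n + i) g) i
  have hsucc : ∀ i, h (i + 1) = nxt (n + i) (h i) := fun i => rfl
  have hmem : ∀ i, h i ∈ K (idx (n + i)) := by
    intro i
    induction i with
    | zero => exact hf
    | succ i ih =>
      rw [hsucc]
      simp only [nxt, dif_pos ih]
      exact (Classical.choose_spec (step (n + i) (h i) ih)).1
  have hdiff : ∀ i, h (i + 1) - h i ∈ maximalIdeal R ^ (n + i) := by
    intro i
    rw [hsucc]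
    simp only [nxt, dif_pos (hmem i)]
    exact (Classical.choose_spec (step (n + i) (h i) (hmem i))).2
  obtain ⟨L, hL⟩ := exists_limit_shift (maximalIdeal R) n h hdiff
  have hL0 : L = 0 := by
    have : L ∈ ⨅ i, K i := by
      rw [Ideal.mem_iInf]
      intro i'
      obtain ⟨N, hN⟩ := hopen i'
      have h1 : maximalIdeal R ^ (n + N) ≤ K i' :=
        (Ideal.pow_le_pow_right (by omega)).trans hN
      have h2 : h N ∈ K i' := by
        have := hidx (n + N) i' (hmem N)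
        rwa [sup_eq_left.mpr h1] at this
      have h3 : L = (L - h N) + h N := by ring
      rw [h3]
      exact add_mem (h1 (hL N)) h2
    rw [hsep] at this
    exact this
  have := hL 0
  rw [hL0] at this
  have h4 : f = -(0 - h 0) := by simp [h]
  rw [h4]
  exact neg_mem (by simpa using this)

/-- compatible families lift -/
theorem exists_of_compatible {R : Type*} [CommRing R] [IsLocalRing R]
    [IsPrecomplete (maximalIdeal R) R] {ι : Type*} (K : ι → Ideal R) (le : ι → ι → Prop)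
    (hdir : ∀ i j, ∃ k, le k i ∧ le k j)
    (hopen : ∀ i, ∃ N, maximalIdeal R ^ N ≤ K i)
    (hsmall : ∀ n, ∃ i, K i ≤ maximalIdeal R ^ n)
    (c : ι → R) (hc : ∀ i j, le i j → c i - c j ∈ K j) : ∃ g, ∀ i, g - c i ∈ K i := by
  choose idx hidx using hsmall
  obtain ⟨L, hL⟩ := exists_limit (maximalIdeal R) (fun n => c (idx n)) (fun n => by
    obtain ⟨k, hk1, hk2⟩ := hdir (idx (n + 1)) (idx n)
    have h1 : c k - c (idx (n + 1)) ∈ maximalIdeal R ^ n :=
      Ideal.pow_le_pow_right (Nat.le_succ n) (hidx _ (hc _ _ hk1))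
    have h2 : c k - c (idx n) ∈ maximalIdeal R ^ n := hidx _ (hc _ _ hk2)
    have h3 : c (idx (n + 1)) - c (idx n) = (c k - c (idx n)) - (c k - c (idx (n + 1))) := by ring
    rw [h3]
    exact sub_mem h2 h1)
  refine ⟨L, fun i => ?_⟩
  obtain ⟨N, hN⟩ := hopen i
  obtain ⟨k, hk1, hk2⟩ := hdir (idx N) i
  have h1 : c k - c (idx N) ∈ K i := hN (hidx _ (hc _ _ hk1))
  have h2 : c k - c i ∈ K i := hc _ _ hk2
  have h3 : L - c i = (L - c (idx N)) - (c k - c (idx N)) + (c k - c i) := by ring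
  rw [h3]
  exact add_mem (sub_mem (hN (hL N)) h1) h2

end Limit
section Psi

variable {𝒪 : Type} [CommRing 𝒪] {E : Type} {t : ℕ}

open Classical in
/-- the classifying map `𝒪[[T_1..T_t]] → P ⧸ I`, `T_i ↦ p i` -/
noncomputable def psi (p : Fin t → MvPolynomial E 𝒪) (I : Ideal (MvPolynomial E 𝒪)) :
    MvPowerSeries (Fin t) 𝒪 →ₐ[𝒪] MvPolynomial E 𝒪 ⧸ I :=
  if h : ∀ i, IsNilpotent (Ideal.Quotient.mk I (p i)) then
    evalNil (fun i => Ideal.Quotient.mk I (p i)) h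
  else evalNil (fun _ => 0) (fun _ => IsNilpotent.zero)

theorem psi_X (p : Fin t → MvPolynomial E 𝒪) (I : Ideal (MvPolynomial E 𝒪))
    (h : ∀ i, IsNilpotent (Ideal.Quotient.mk I (p i))) (i : Fin t) :
    psi p I (MvPowerSeries.X i) = Ideal.Quotient.mk I (p i) := by
  rw [psi, dif_pos h, evalNil_X]

theorem psi_surjective (p : Fin t → MvPolynomial E 𝒪) (I : Ideal (MvPolynomial E 𝒪))
    (h : ∀ i, IsNilpotent (Ideal.Quotient.mk I (p i)))
    (hgen : Algebra.adjoin 𝒪 (Set.range fun i => Ideal.Quotient.mk I (p i)) = ⊤) :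
    Function.Surjective (psi p I) := by
  rw [← AlgHom.range_eq_top, _root_.eq_top_iff, ← hgen]
  refine Algebra.adjoin_le ?_
  rintro _ ⟨i, rfl⟩
  exact ⟨MvPowerSeries.X i, psi_X p I h i⟩

theorem psi_factor (p : Fin t → MvPolynomial E 𝒪) (I I' : Ideal (MvPolynomial E 𝒪))
    (hII' : I ≤ I') (h : ∀ i, IsNilpotent (Ideal.Quotient.mk I (p i))) :
    (Ideal.Quotient.factorₐ 𝒪 hII').comp (psi p I) = psi p I' := by
  have h' : ∀ i, IsNilpotent (Ideal.Quotient.mk I' (p i)) := fun i => by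
    have := (h i).map (Ideal.Quotient.factor hII')
    simpa using this
  rw [psi, psi, dif_pos h, dif_pos h']
  exact evalNil_comp _ h (Ideal.Quotient.factorₐ 𝒪 hII') h'

theorem isNilpotent_mk (𝔫 I : Ideal (MvPolynomial E 𝒪)) (N : ℕ) (hN : 𝔫 ^ N ≤ I)
    (q : MvPolynomial E 𝒪) (hq : q ∈ 𝔫) : IsNilpotent (Ideal.Quotient.mk I q) :=
  ⟨N, by rw [← map_pow, Ideal.Quotient.eq_zero_iff_mem]; exact hN (Ideal.pow_mem_pow hq N)⟩

theorem maximalIdeal_pow_le_ker_psi [IsLocalRing 𝒪] (p : Fin t → MvPolynomial E 𝒪)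
    (𝔫 I : Ideal (MvPolynomial E 𝒪)) (hC : ∀ c ∈ maximalIdeal 𝒪, MvPolynomial.C c ∈ 𝔫)
    (hp : ∀ i, p i ∈ 𝔫) (N : ℕ) (hN : 𝔫 ^ N ≤ I) :
    maximalIdeal (MvPowerSeries (Fin t) 𝒪) ^ N ≤ RingHom.ker (psi p I) := by
  have h := fun i => isNilpotent_mk 𝔫 I N hN (p i) (hp i)
  have h1 : maximalIdeal (MvPowerSeries (Fin t) 𝒪) ≤
      (𝔫.map (Ideal.Quotient.mk I)).comap (psi p I) := by
    rw [S53_PowerSeries.maximalIdeal_eq_sup, sup_le_iff, Ideal.span_le,
      Ideal.map_le_iff_le_comap]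
    constructor
    · rintro _ ⟨i, rfl⟩
      show psi p I (MvPowerSeries.X i) ∈ 𝔫.map (Ideal.Quotient.mk I)
      rw [psi_X p I h]
      exact Ideal.mem_map_of_mem _ (hp i)
    · intro c hc
      show psi p I (MvPowerSeries.C c) ∈ 𝔫.map (Ideal.Quotient.mk I)
      have h2 : psi p I (MvPowerSeries.C c) = Ideal.Quotient.mk I (MvPolynomial.C c) := by
        have h3 : (MvPowerSeries.C c : MvPowerSeries (Fin t) 𝒪) =
            algebraMap 𝒪 (MvPowerSeries (Fin t) 𝒪) c := rfl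
        rw [h3, AlgHom.commutes]
        rfl
      rw [h2]
      exact Ideal.mem_map_of_mem _ (hC c hc)
  calc maximalIdeal (MvPowerSeries (Fin t) 𝒪) ^ N
      ≤ ((𝔫.map (Ideal.Quotient.mk I)).comap (psi p I)) ^ N := Ideal.pow_right_mono h1 N
    _ ≤ ((𝔫.map (Ideal.Quotient.mk I)) ^ N).comap (psi p I) := Ideal.le_comap_pow _ N
    _ = RingHom.ker (psi p I) := by
        rw [← Ideal.map_pow, Ideal.map_mk_eq_bot_of_le hN]
        rfl

end Psi
section Core

theorem eq_of_forall_mk_eq {A : Type*} [CommRing A] (I : Ideal A) [IsHausdorff I A] (a b : A)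
    (h : ∀ n, Ideal.Quotient.mk (I ^ n) a = Ideal.Quotient.mk (I ^ n) b) : a = b := by
  rw [← sub_eq_zero]
  apply IsHausdorff.haus' (I := I)
  intro n
  rw [SModEq.zero, smul_eq_mul, Ideal.mul_top]
  exact Ideal.Quotient.eq.mp (h n)

/-- The abstract pro-representability statement, for a ring `R` already equipped with a
compatible separating family of surjections onto the quotients `P ⧸ I`, `I ∈ 𝒥`. -/
theorem core {𝒪 : Type} [CommRing 𝒪] {E : Type} (𝒥 : Set (Ideal (MvPolynomial E 𝒪)))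
    (𝔫 : Ideal (MvPolynomial E 𝒪)) (h𝔫max : 𝔫.IsMaximal) (hmem : 𝔫 ∈ 𝒥)
    (hinf : ∀ I ∈ 𝒥, ∀ I' ∈ 𝒥, I ⊓ I' ∈ 𝒥)
    (hup : ∀ I ∈ 𝒥, ∀ I', I ≤ I' → I' ≤ 𝔫 → I' ∈ 𝒥)
    {R : Type} [CommRing R] [IsLocalRing R] [IsNoetherianRing R]
    [IsAdicComplete (maximalIdeal R) R] [Algebra 𝒪 R]
    (ψ : ∀ I : 𝒥, R →ₐ[𝒪] MvPolynomial E 𝒪 ⧸ (I : Ideal (MvPolynomial E 𝒪)))
    (hs : ∀ I, Function.Surjective (ψ I))
    (hf : ∀ (a b : 𝒥) (hab : (a : Ideal (MvPolynomial E 𝒪)) ≤ b),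
      (Ideal.Quotient.factorₐ 𝒪 hab).comp (ψ a) = ψ b)
    (ho : ∀ I, ∃ N, maximalIdeal R ^ N ≤ RingHom.ker (ψ I))
    (hz : ⨅ I, RingHom.ker (ψ I) = ⊥) :
    ∃ x : E → R,
      (∀ n, 0 < n → RingHom.ker ((Ideal.Quotient.mkₐ 𝒪 (maximalIdeal R ^ n)).comp
          (MvPolynomial.aeval x)) ∈ 𝒥) ∧
      (∀ n, Function.Surjective ((Ideal.Quotient.mkₐ 𝒪 (maximalIdeal R ^ n)).comp
          (MvPolynomial.aeval x))) ∧
      ∀ (A : Type) [CommRing A] [IsLocalRing A] [IsNoetherianRing A]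
        [IsAdicComplete (maximalIdeal A) A] [Algebra 𝒪 A] [IsLocalHom (algebraMap 𝒪 A)],
        Function.Surjective (residue A ∘ algebraMap 𝒪 A) → ∀ y : E → A,
        (∀ n, 0 < n → RingHom.ker ((Ideal.Quotient.mkₐ 𝒪 (maximalIdeal A ^ n)).comp
          (MvPolynomial.aeval y)) ∈ 𝒥) →
        ∃! φ : R →ₐ[𝒪] A, ∀ e, φ (x e) = y e := by
  have hne : Nonempty 𝒥 := ⟨⟨𝔫, hmem⟩⟩
  have hker_mono : ∀ a b : 𝒥, (a : Ideal (MvPolynomial E 𝒪)) ≤ b →
      RingHom.ker (ψ a) ≤ RingHom.ker (ψ b) := by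
    intro a b hab r hr
    rw [RingHom.mem_ker] at hr ⊢
    rw [← hf a b hab, AlgHom.comp_apply, hr, map_zero]
  have hmeet : ∀ a b : 𝒥, ∃ k : 𝒥,
      RingHom.ker (ψ k) ≤ RingHom.ker (ψ a) ⊓ RingHom.ker (ψ b) :=
    fun a b => ⟨⟨a.1 ⊓ b.1, hinf _ a.2 _ b.2⟩,
      le_inf (hker_mono _ _ inf_le_left) (hker_mono _ _ inf_le_right)⟩
  have hsmall := exists_le_maximalIdeal_pow (fun I : 𝒥 => RingHom.ker (ψ I)) hmeet ho hz
  -- the universal tuple
  have hx : ∀ e : E, ∃ g : R, ∀ I : 𝒥, ψ I g = Ideal.Quotient.mk I.1 (MvPolynomial.X e) := by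
    intro e
    choose c hc using fun I : 𝒥 => hs I (Ideal.Quotient.mk I.1 (MvPolynomial.X e))
    obtain ⟨g, hg⟩ := exists_of_compatible (fun I : 𝒥 => RingHom.ker (ψ I))
      (fun a b => (a : Ideal (MvPolynomial E 𝒪)) ≤ b)
      (fun a b => ⟨⟨a.1 ⊓ b.1, hinf _ a.2 _ b.2⟩, inf_le_left, inf_le_right⟩) ho hsmall c (by
        intro a b hab
        rw [RingHom.mem_ker, map_sub, hc b, ← hf a b hab, AlgHom.comp_apply, hc a]
        simp)
    refine ⟨g, fun I => ?_⟩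
    have := hg I
    rw [RingHom.mem_ker, map_sub, hc I, sub_eq_zero] at this
    exact this
  choose x hx using hx
  have hcomp : ∀ I : 𝒥, (ψ I).comp (MvPolynomial.aeval x) = Ideal.Quotient.mkₐ 𝒪 I.1 := by
    intro I
    apply MvPolynomial.algHom_ext
    intro e
    simp [hx]
  have hcomp' : ∀ (I : 𝒥) (q : MvPolynomial E 𝒪),
      ψ I (MvPolynomial.aeval x q) = Ideal.Quotient.mk I.1 q := fun I q => by
    have := AlgHom.congr_fun (hcomp I) q
    simpa using this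
  have hk𝔫 : RingHom.ker (ψ ⟨𝔫, hmem⟩) = maximalIdeal R := by
    letI : Field (MvPolynomial E 𝒪 ⧸ 𝔫) := Ideal.Quotient.field 𝔫
    exact IsLocalRing.eq_maximalIdeal (RingHom.ker_isMaximal_of_surjective _ (hs ⟨𝔫, hmem⟩))
  have hsurjP : ∀ n, Function.Surjective ((Ideal.Quotient.mkₐ 𝒪 (maximalIdeal R ^ n)).comp
      (MvPolynomial.aeval x)) := by
    intro n r
    obtain ⟨r, rfl⟩ := Ideal.Quotient.mk_surjective r
    obtain ⟨I, hI⟩ := hsmall n
    obtain ⟨q, hq⟩ := Ideal.Quotient.mk_surjective (ψ I r)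
    refine ⟨q, ?_⟩
    show Ideal.Quotient.mk _ (MvPolynomial.aeval x q) = Ideal.Quotient.mk _ r
    rw [Ideal.Quotient.eq]
    apply hI
    rw [RingHom.mem_ker, map_sub, hcomp', hq, sub_self]
  refine ⟨x, ?_, hsurjP, ?_⟩
  · -- kernels
    intro n hn
    obtain ⟨I, hI⟩ := hsmall n
    refine hup I.1 I.2 _ ?_ ?_
    · intro q hq
      rw [RingHom.mem_ker]
      show Ideal.Quotient.mk _ (MvPolynomial.aeval x q) = 0
      rw [Ideal.Quotient.eq_zero_iff_mem]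
      apply hI
      rw [RingHom.mem_ker, hcomp', Ideal.Quotient.eq_zero_iff_mem]
      exact hq
    · intro q hq
      rw [RingHom.mem_ker] at hq
      have hq' : MvPolynomial.aeval x q ∈ maximalIdeal R ^ n :=
        Ideal.Quotient.eq_zero_iff_mem.mp hq
      have h1 : MvPolynomial.aeval x q ∈ maximalIdeal R := Ideal.pow_le_self hn.ne' hq'
      rw [← hk𝔫, RingHom.mem_ker, hcomp', Ideal.Quotient.eq_zero_iff_mem] at h1
      exact h1
  · -- universal property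
    intro A _ _ _ _ _ _ hres y hy
    -- every algebra map `R → A` is local
    have hloc : ∀ φ : R →ₐ[𝒪] A, maximalIdeal R ≤ (maximalIdeal A).comap φ := by
      intro φ
      have hsurj : Function.Surjective ((residue A).comp (φ : R →+* A)) := by
        intro z
        obtain ⟨o, ho⟩ := hres z
        exact ⟨algebraMap 𝒪 R o, by simpa using ho⟩
      have heq := IsLocalRing.eq_maximalIdeal (RingHom.ker_isMaximal_of_surjective _ hsurj)
      intro r hr
      rw [← heq, RingHom.mem_ker] at hr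
      exact (residue_eq_zero_iff _).mp hr
    have hpow : ∀ (φ : R →ₐ[𝒪] A) (n : ℕ),
        maximalIdeal R ^ n ≤ (maximalIdeal A ^ n).comap φ := fun φ n =>
      (Ideal.pow_right_mono (hloc φ) n).trans (Ideal.le_comap_pow _ n)
    have huniq : ∀ φ₁ φ₂ : R →ₐ[𝒪] A, (∀ e, φ₁ (x e) = y e) → (∀ e, φ₂ (x e) = y e) →
        φ₁ = φ₂ := by
      intro φ₁ φ₂ h₁ h₂
      refine IsAdicComplete.algHom_ext (maximalIdeal A) (fun n => ?_)
      refine AlgHom.ext fun r => ?_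
      show Ideal.Quotient.mk _ (φ₁ r) = Ideal.Quotient.mk _ (φ₂ r)
      rw [Ideal.Quotient.eq]
      obtain ⟨q, hq⟩ := hsurjP n (Ideal.Quotient.mk _ r)
      have hr : r - MvPolynomial.aeval x q ∈ maximalIdeal R ^ n := by
        rw [← Ideal.Quotient.eq]
        exact hq.symm
      have e₁ : φ₁ (MvPolynomial.aeval x q) = MvPolynomial.aeval y q := by
        rw [MvPolynomial.comp_aeval_apply]
        have hfun : (fun i => φ₁ (x i)) = y := funext h₁
        rw [hfun]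
      have e₂ : φ₂ (MvPolynomial.aeval x q) = MvPolynomial.aeval y q := by
        rw [MvPolynomial.comp_aeval_apply]
        have hfun : (fun i => φ₂ (x i)) = y := funext h₂
        rw [hfun]
      have h3 : φ₁ r - φ₂ r = φ₁ (r - MvPolynomial.aeval x q) -
          φ₂ (r - MvPolynomial.aeval x q) := by
        rw [map_sub, map_sub, e₁, e₂]
        ring
      rw [h3]
      exact sub_mem (hpow φ₁ n hr) (hpow φ₂ n hr)
    -- existence
    let g : ∀ n : ℕ, MvPolynomial E 𝒪 →ₐ[𝒪] A ⧸ maximalIdeal A ^ n := fun n =>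
      (Ideal.Quotient.mkₐ 𝒪 (maximalIdeal A ^ n)).comp (MvPolynomial.aeval y)
    let 𝔞 : ℕ → 𝒥 := fun n => ⟨RingHom.ker (g (n + 1)), hy (n + 1) (Nat.succ_pos n)⟩
    let Φ : ∀ n : ℕ, R →ₐ[𝒪] A ⧸ maximalIdeal A ^ (n + 1) := fun n =>
      (Ideal.kerLiftAlg (g (n + 1))).comp (ψ (𝔞 n))
    have h𝔞 : ∀ m n : ℕ, m ≤ n → ((𝔞 n : 𝒥) : Ideal (MvPolynomial E 𝒪)) ≤ 𝔞 m := by
      intro m n hmn q hq
      have hq1 : Ideal.Quotient.mk (maximalIdeal A ^ (n + 1)) (MvPolynomial.aeval y q) = 0 := hq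
      show Ideal.Quotient.mk (maximalIdeal A ^ (m + 1)) (MvPolynomial.aeval y q) = 0
      rw [Ideal.Quotient.eq_zero_iff_mem] at hq1 ⊢
      exact Ideal.pow_le_pow_right (by omega) hq1
    have hpw : ∀ {a b : ℕ}, a ≤ b → maximalIdeal A ^ b ≤ maximalIdeal A ^ a :=
      fun h => Ideal.pow_le_pow_right h
    have hΦ : ∀ (m n : ℕ) (hmn : m ≤ n),
        (Ideal.Quotient.factorₐ 𝒪 (hpw (Nat.succ_le_succ hmn))).comp (Φ n) = Φ m := by
      intro m n hmn
      have key : ∀ z : MvPolynomial E 𝒪 ⧸ ((𝔞 n : 𝒥) : Ideal (MvPolynomial E 𝒪)),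
          Ideal.Quotient.factorₐ 𝒪 (hpw (Nat.succ_le_succ hmn))
            (Ideal.kerLiftAlg (g (n + 1)) z) =
          Ideal.kerLiftAlg (g (m + 1)) (Ideal.Quotient.factorₐ 𝒪 (h𝔞 m n hmn) z) := by
        intro z
        obtain ⟨q, rfl⟩ := Ideal.Quotient.mk_surjective z
        rfl
      refine AlgHom.ext fun r => ?_
      show Ideal.Quotient.factorₐ 𝒪 (hpw (Nat.succ_le_succ hmn))
          (Ideal.kerLiftAlg (g (n + 1)) (ψ (𝔞 n) r)) =
        Ideal.kerLiftAlg (g (m + 1)) (ψ (𝔞 m) r)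
      rw [key, ← hf (𝔞 n) (𝔞 m) (h𝔞 m n hmn)]
      rfl
    let φ : ∀ n : ℕ, R →ₐ[𝒪] A ⧸ maximalIdeal A ^ n := fun n =>
      (Ideal.Quotient.factorₐ 𝒪 (hpw (Nat.le_succ n))).comp (Φ n)
    have hφ : ∀ {m n : ℕ} (hle : m ≤ n),
        (Ideal.Quotient.factorₐ 𝒪 (Ideal.pow_le_pow_right (I := maximalIdeal A) hle)).comp
          (φ n) = φ m := by
      intro m n hle
      refine AlgHom.ext fun r => ?_
      show Ideal.Quotient.factorₐ 𝒪 (hpw hle)
          (Ideal.Quotient.factorₐ 𝒪 (hpw (Nat.le_succ n)) (Φ n r)) =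
        Ideal.Quotient.factorₐ 𝒪 (hpw (Nat.le_succ m)) (Φ m r)
      rw [← hΦ m n hle]
      show Ideal.Quotient.factorₐ 𝒪 (hpw hle)
          (Ideal.Quotient.factorₐ 𝒪 (hpw (Nat.le_succ n)) (Φ n r)) =
        Ideal.Quotient.factorₐ 𝒪 (hpw (Nat.le_succ m))
          (Ideal.Quotient.factorₐ 𝒪 (hpw (Nat.succ_le_succ hle)) (Φ n r))
      obtain ⟨a, ha⟩ := Ideal.Quotient.mk_surjective (Φ n r)
      rw [← ha]
      rfl
    let φlim : R →ₐ[𝒪] A := IsAdicComplete.liftAlgHom (maximalIdeal A) φ hφ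
    have hφlim : ∀ e, φlim (x e) = y e := by
      intro e
      apply eq_of_forall_mk_eq (maximalIdeal A)
      intro n
      have h1 : Ideal.Quotient.mk (maximalIdeal A ^ n) (φlim (x e)) = φ n (x e) :=
        IsAdicComplete.mk_liftAlgHom (maximalIdeal A) φ hφ n (x e)
      rw [h1]
      show Ideal.Quotient.factorₐ 𝒪 (hpw (Nat.le_succ n))
          (Ideal.kerLiftAlg (g (n + 1)) (ψ (𝔞 n) (x e))) = _
      rw [hx e (𝔞 n)]
      have h2 : Ideal.kerLiftAlg (g (n + 1))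
          (Ideal.Quotient.mk ((𝔞 n : 𝒥) : Ideal (MvPolynomial E 𝒪)) (MvPolynomial.X e)) =
          g (n + 1) (MvPolynomial.X e) := Ideal.kerLiftAlg_mk _ _
      rw [h2]
      simp [g]
    exact ⟨φlim, hφlim, fun φ' hφ' => huniq φ' φlim hφ' hφlim⟩

end Core
section Final

theorem map_mk_maximalIdeal {S : Type*} [CommRing S] [IsLocalRing S] (J : Ideal S)
    [IsLocalRing (S ⧸ J)] :
    (maximalIdeal S).map (Ideal.Quotient.mk J) = maximalIdeal (S ⧸ J) := by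
  have hne : J ≠ ⊤ := Ideal.Quotient.nontrivial_iff.mp inferInstance
  have := IsLocalHom.of_surjective (Ideal.Quotient.mk J) Ideal.Quotient.mk_surjective
  ext x
  obtain ⟨x, rfl⟩ := Ideal.Quotient.mk_surjective x
  simp [sup_eq_left.mpr (le_maximalIdeal hne)]

theorem exists_pow_le_of_isArtinianRing {S : Type*} [CommRing S] (𝔫 I : Ideal S)
    (h𝔫 : 𝔫.IsMaximal) (hI : I ≤ 𝔫) [IsArtinianRing (S ⧸ I)] [IsLocalRing (S ⧸ I)] :
    ∃ N, 𝔫 ^ N ≤ I := by
  obtain ⟨n, hn⟩ := IsArtinianRing.isNilpotent_jacobson_bot (R := S ⧸ I)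
  have h1 : 𝔫.map (Ideal.Quotient.mk I) ≤ maximalIdeal (S ⧸ I) := by
    apply IsLocalRing.le_maximalIdeal
    intro h
    have h2 := congrArg (Ideal.comap (Ideal.Quotient.mk I)) h
    rw [Ideal.comap_map_of_surjective _ Ideal.Quotient.mk_surjective,
      ← RingHom.ker_eq_comap_bot, Ideal.mk_ker, sup_eq_left.mpr hI, Ideal.comap_top] at h2
    exact h𝔫.ne_top h2
  refine ⟨n, ?_⟩
  rw [IsLocalRing.jacobson_eq_maximalIdeal _ bot_ne_top, Ideal.zero_eq_bot] at hn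
  have h2 : (𝔫 ^ n).map (Ideal.Quotient.mk I) = ⊥ := by
    rw [Ideal.map_pow, _root_.eq_bot_iff, ← hn]
    exact Ideal.pow_right_mono h1 n
  rwa [Ideal.map_eq_bot_iff_le_ker, Ideal.mk_ker] at h2

variable {𝒪 : Type} [CommRing 𝒪] {E : Type} {t : ℕ}

/-- the ideal of relations -/
noncomputable def relIdeal (𝒥 : Set (Ideal (MvPolynomial E 𝒪)))
    (p : Fin t → MvPolynomial E 𝒪) : Ideal (MvPowerSeries (Fin t) 𝒪) :=
  ⨅ I : 𝒥, RingHom.ker (psi p (I : Ideal (MvPolynomial E 𝒪)))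

/-- the induced maps from the pro-representing ring -/
noncomputable def psiBar (𝒥 : Set (Ideal (MvPolynomial E 𝒪)))
    (p : Fin t → MvPolynomial E 𝒪) (I : 𝒥) :
    (MvPowerSeries (Fin t) 𝒪 ⧸ relIdeal 𝒥 p) →ₐ[𝒪]
      MvPolynomial E 𝒪 ⧸ (I : Ideal (MvPolynomial E 𝒪)) :=
  Ideal.Quotient.liftₐ (relIdeal 𝒥 p) (psi p I) (fun _ ha => (Ideal.mem_iInf.mp ha) I)

theorem psiBar_mk (𝒥 : Set (Ideal (MvPolynomial E 𝒪))) (p : Fin t → MvPolynomial E 𝒪)
    (I : 𝒥) (f : MvPowerSeries (Fin t) 𝒪) :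
    psiBar 𝒥 p I (Ideal.Quotient.mk _ f) = psi p I f := rfl

/-- **Abstract pro-representability** (strong form, with surjectivity at finite levels). -/
theorem exists_universal_strong [IsLocalRing 𝒪] [IsNoetherianRing 𝒪]
    [IsAdicComplete (maximalIdeal 𝒪) 𝒪]
    (𝒥 : Set (Ideal (MvPolynomial E 𝒪))) (𝔫 : Ideal (MvPolynomial E 𝒪))
    (h𝔫max : 𝔫.IsMaximal)
    (h𝔫 : Function.Surjective ((Ideal.Quotient.mk 𝔫).comp (algebraMap 𝒪 (MvPolynomial E 𝒪))))
    (hmem : 𝔫 ∈ 𝒥) (hle : ∀ I ∈ 𝒥, I ≤ 𝔫)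
    (hart : ∀ I ∈ 𝒥, IsArtinianRing (MvPolynomial E 𝒪 ⧸ I) ∧ IsLocalRing (MvPolynomial E 𝒪 ⧸ I))
    (hinf : ∀ I ∈ 𝒥, ∀ I' ∈ 𝒥, I ⊓ I' ∈ 𝒥)
    (hup : ∀ I ∈ 𝒥, ∀ I', I ≤ I' → I' ≤ 𝔫 → I' ∈ 𝒥)
    (t : ℕ) (p : Fin t → MvPolynomial E 𝒪) (hp : ∀ i, p i ∈ 𝔫)
    (hgen : ∀ I ∈ 𝒥, Algebra.adjoin 𝒪 (Set.range fun i => Ideal.Quotient.mk I (p i)) = ⊤) :
    ∃ (R : Type) (_ : CommRing R) (_ : IsLocalRing R) (_ : IsNoetherianRing R)
      (_ : IsAdicComplete (maximalIdeal R) R) (_ : Algebra 𝒪 R) (_ : IsLocalHom (algebraMap 𝒪 R)),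
      Function.Surjective (residue R ∘ algebraMap 𝒪 R) ∧ ∃ x : E → R,
        (∀ n, 0 < n → RingHom.ker ((Ideal.Quotient.mkₐ 𝒪 (maximalIdeal R ^ n)).comp
            (MvPolynomial.aeval x)) ∈ 𝒥) ∧
        (∀ n, Function.Surjective ((Ideal.Quotient.mkₐ 𝒪 (maximalIdeal R ^ n)).comp
            (MvPolynomial.aeval x))) ∧
        ∀ (A : Type) [CommRing A] [IsLocalRing A] [IsNoetherianRing A]
          [IsAdicComplete (maximalIdeal A) A] [Algebra 𝒪 A] [IsLocalHom (algebraMap 𝒪 A)],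
          Function.Surjective (residue A ∘ algebraMap 𝒪 A) → ∀ y : E → A,
          (∀ n, 0 < n → RingHom.ker ((Ideal.Quotient.mkₐ 𝒪 (maximalIdeal A ^ n)).comp
            (MvPolynomial.aeval y)) ∈ 𝒥) →
          ∃! φ : R →ₐ[𝒪] A, ∀ e, φ (x e) = y e := by
  classical
  -- the maximal ideal of `𝒪` maps into `𝔫`
  have hC : ∀ c ∈ maximalIdeal 𝒪, MvPolynomial.C c ∈ 𝔫 := by
    letI : Field (MvPolynomial E 𝒪 ⧸ 𝔫) := Ideal.Quotient.field 𝔫
    have heq := IsLocalRing.eq_maximalIdeal (RingHom.ker_isMaximal_of_surjective _ h𝔫)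
    intro c hc
    rw [← heq, RingHom.mem_ker] at hc
    exact Ideal.Quotient.eq_zero_iff_mem.mp hc
  have hnil : ∀ I ∈ 𝒥, ∃ N, 𝔫 ^ N ≤ I := by
    intro I hI
    obtain ⟨h1, h2⟩ := hart I hI
    exact exists_pow_le_of_isArtinianRing 𝔫 I h𝔫max (hle I hI)
  have hnilp : ∀ I ∈ 𝒥, ∀ i, IsNilpotent (Ideal.Quotient.mk I (p i)) := by
    intro I hI i
    obtain ⟨N, hN⟩ := hnil I hI
    exact isNilpotent_mk 𝔫 I N hN (p i) (hp i)
  -- the ring
  have hJ : relIdeal 𝒥 p ≠ ⊤ := by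
    intro h
    have h1 : (1 : MvPowerSeries (Fin t) 𝒪) ∈ relIdeal 𝒥 p := by rw [h]; trivial
    have h2 := (Ideal.mem_iInf.mp h1) ⟨𝔫, hmem⟩
    rw [RingHom.mem_ker, map_one] at h2
    have h3 : (1 : MvPolynomial E 𝒪) ∈ 𝔫 := Ideal.Quotient.eq_zero_iff_mem.mp h2
    exact h𝔫max.ne_top ((Ideal.eq_top_iff_one _).mpr h3)
  have hnt : Nontrivial (MvPowerSeries (Fin t) 𝒪 ⧸ relIdeal 𝒥 p) :=
    Ideal.Quotient.nontrivial_iff.mpr hJ
  have hloc : IsLocalRing (MvPowerSeries (Fin t) 𝒪 ⧸ relIdeal 𝒥 p) :=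
    IsLocalRing.of_surjective' (Ideal.Quotient.mk (relIdeal 𝒥 p)) Ideal.Quotient.mk_surjective
  have hlh : IsLocalHom (Ideal.Quotient.mk (relIdeal 𝒥 p)) :=
    IsLocalHom.of_surjective _ Ideal.Quotient.mk_surjective
  have hcompl : IsAdicComplete (maximalIdeal (MvPowerSeries (Fin t) 𝒪 ⧸ relIdeal 𝒥 p))
      (MvPowerSeries (Fin t) 𝒪 ⧸ relIdeal 𝒥 p) := by
    have := S53_PowerSeries.isAdicComplete_maximalIdeal (O := 𝒪) t
    have : IsLocalHom (algebraMap (MvPowerSeries (Fin t) 𝒪)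
        (MvPowerSeries (Fin t) 𝒪 ⧸ relIdeal 𝒥 p)) := hlh
    exact IsLocalRing.isAdicComplete_of_module_finite (𝒪 := MvPowerSeries (Fin t) 𝒪)
  have hlh𝒪 : IsLocalHom (algebraMap 𝒪 (MvPowerSeries (Fin t) 𝒪 ⧸ relIdeal 𝒥 p)) := by
    constructor
    intro a ha
    have h1 : IsUnit (Ideal.Quotient.mk (relIdeal 𝒥 p) (MvPowerSeries.C a)) := ha
    have h2 := hlh.map_nonunit _ h1
    rw [MvPowerSeries.isUnit_iff_constantCoeff] at h2
    simpa using h2
  have hres : Function.Surjective (residue (MvPowerSeries (Fin t) 𝒪 ⧸ relIdeal 𝒥 p) ∘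
      algebraMap 𝒪 (MvPowerSeries (Fin t) 𝒪 ⧸ relIdeal 𝒥 p)) := by
    intro z
    obtain ⟨r, rfl⟩ := residue_surjective z
    obtain ⟨f, rfl⟩ := Ideal.Quotient.mk_surjective r
    refine ⟨MvPowerSeries.constantCoeff f, ?_⟩
    show residue _ (Ideal.Quotient.mk _ (MvPowerSeries.C (MvPowerSeries.constantCoeff f))) =
      residue _ (Ideal.Quotient.mk _ f)
    rw [← sub_eq_zero, ← map_sub, ← map_sub, residue_eq_zero_iff]
    apply map_nonunit (Ideal.Quotient.mk (relIdeal 𝒥 p))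
    rw [mem_maximalIdeal, mem_nonunits_iff, MvPowerSeries.isUnit_iff_constantCoeff]
    simp
  refine ⟨MvPowerSeries (Fin t) 𝒪 ⧸ relIdeal 𝒥 p, inferInstance, hloc, inferInstance, hcompl,
    inferInstance, hlh𝒪, hres, ?_⟩
  refine core 𝒥 𝔫 h𝔫max hmem hinf hup (psiBar 𝒥 p) ?_ ?_ ?_ ?_
  · intro I z
    obtain ⟨f, hf⟩ := psi_surjective p I.1 (hnilp I.1 I.2) (hgen I.1 I.2) z
    exact ⟨Ideal.Quotient.mk _ f, hf⟩
  · intro a b hab
    apply Ideal.Quotient.algHom_ext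
    exact psi_factor p a.1 b.1 hab (hnilp a.1 a.2)
  · intro I
    obtain ⟨N, hN⟩ := hnil I.1 I.2
    refine ⟨N, ?_⟩
    rw [← map_mk_maximalIdeal, ← Ideal.map_pow, Ideal.map_le_iff_le_comap]
    exact maximalIdeal_pow_le_ker_psi p 𝔫 I.1 hC hp N hN
  · rw [_root_.eq_bot_iff]
    intro r hr
    obtain ⟨f, rfl⟩ := Ideal.Quotient.mk_surjective r
    rw [Ideal.mem_iInf] at hr
    rw [Ideal.mem_bot, Ideal.Quotient.eq_zero_iff_mem]
    show f ∈ relIdeal 𝒥 p
    rw [relIdeal, Ideal.mem_iInf]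
    exact hr

/-- **Abstract pro-representability.** -/
theorem exists_universal [IsLocalRing 𝒪] [IsNoetherianRing 𝒪]
    [IsAdicComplete (maximalIdeal 𝒪) 𝒪]
    (𝒥 : Set (Ideal (MvPolynomial E 𝒪))) (𝔫 : Ideal (MvPolynomial E 𝒪))
    (h𝔫max : 𝔫.IsMaximal)
    (h𝔫 : Function.Surjective ((Ideal.Quotient.mk 𝔫).comp (algebraMap 𝒪 (MvPolynomial E 𝒪))))
    (hmem : 𝔫 ∈ 𝒥) (hle : ∀ I ∈ 𝒥, I ≤ 𝔫)
    (hart : ∀ I ∈ 𝒥, IsArtinianRing (MvPolynomial E 𝒪 ⧸ I) ∧ IsLocalRing (MvPolynomial E 𝒪 ⧸ I))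
    (hinf : ∀ I ∈ 𝒥, ∀ I' ∈ 𝒥, I ⊓ I' ∈ 𝒥)
    (hup : ∀ I ∈ 𝒥, ∀ I', I ≤ I' → I' ≤ 𝔫 → I' ∈ 𝒥)
    (t : ℕ) (p : Fin t → MvPolynomial E 𝒪) (hp : ∀ i, p i ∈ 𝔫)
    (hgen : ∀ I ∈ 𝒥, Algebra.adjoin 𝒪 (Set.range fun i => Ideal.Quotient.mk I (p i)) = ⊤) :
    ∃ (R : Type) (_ : CommRing R) (_ : IsLocalRing R) (_ : IsNoetherianRing R)
      (_ : IsAdicComplete (maximalIdeal R) R) (_ : Algebra 𝒪 R) (_ : IsLocalHom (algebraMap 𝒪 R)),
      Function.Surjective (residue R ∘ algebraMap 𝒪 R) ∧ ∃ x : E → R,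
        (∀ n, 0 < n → RingHom.ker ((Ideal.Quotient.mkₐ 𝒪 (maximalIdeal R ^ n)).comp
            (MvPolynomial.aeval x)) ∈ 𝒥) ∧
        ∀ (A : Type) [CommRing A] [IsLocalRing A] [IsNoetherianRing A]
          [IsAdicComplete (maximalIdeal A) A] [Algebra 𝒪 A] [IsLocalHom (algebraMap 𝒪 A)],
          Function.Surjective (residue A ∘ algebraMap 𝒪 A) → ∀ y : E → A,
          (∀ n, 0 < n → RingHom.ker ((Ideal.Quotient.mkₐ 𝒪 (maximalIdeal A ^ n)).comp
            (MvPolynomial.aeval y)) ∈ 𝒥) →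
          ∃! φ : R →ₐ[𝒪] A, ∀ e, φ (x e) = y e := by
  obtain ⟨R, i1, i2, i3, i4, i5, i6, h1, x, h2, -, h4⟩ :=
    exists_universal_strong 𝒥 𝔫 h𝔫max h𝔫 hmem hle hart hinf hup t p hp hgen
  exact ⟨R, i1, i2, i3, i4, i5, i6, h1, x, h2, h4⟩

end Final

end Fermat.Agent.S53_ProRep
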