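import Mathlib
import Fermat.Agent.S53_Defs
import Fermat.Agent.S53_Local
import Fermat.Agent.S53_ProRep

set_option autoImplicit false

/-!
# Galois glue for S53 (universal deformation ring)

Everything is proved relative to a structure `Inputs F` collecting the facts about the matrix
model of `GaloisRepAdic` and about normalized lifts of a frame `F` that are proved in the other
`S53_*` modules.
-/

noncomputable section

namespace Fermat.Agent.S53_Glue

open IsLocalRing Fermat.Agent.S53_Defs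

/-- `2 × 2` matrices -/
abbrev M2 (A : Type) [CommRing A] : Type := Matrix (Fin 2) (Fin 2) A

section mapMat

variable {A B C : Type} [CommRing A] [CommRing B] [CommRing C]

theorem mapMat_eq_map (φ : A →+* B) (r : Gal →* M2 A) (σ : Gal) :
    mapMat φ r σ = (r σ).map φ := rfl

theorem mapMat_comp (ψ : B →+* C) (φ : A →+* B) (r : Gal →* M2 A) :
    mapMat (ψ.comp φ) r = mapMat ψ (mapMat φ r) := by
  refine MonoidHom.ext fun σ => ?_
  ext i j
  rfl

theorem mapMat_sub_one (φ : A →+* B) (r : Gal →* M2 A) (σ : Gal) (i j : Fin 2) :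
    (mapMat φ r σ - 1) i j = φ ((r σ - 1) i j) := by
  rw [Matrix.sub_apply, Matrix.sub_apply, mapMat_apply, map_sub, Matrix.one_apply,
    Matrix.one_apply]
  split_ifs <;> simp

end mapMat

section IsEquiv

variable {A : Type} [CommRing A] [IsLocalRing A]

theorem isEquiv_symm {ρ₁ ρ₂ : GaloisRepAdic A} (h : ρ₁.IsEquiv ρ₂) : ρ₂.IsEquiv ρ₁ := by
  obtain ⟨e⟩ := h
  exact ⟨e.symm⟩

theorem isEquiv_trans {ρ₁ ρ₂ ρ₃ : GaloisRepAdic A} (h : ρ₁.IsEquiv ρ₂) (h' : ρ₂.IsEquiv ρ₃) :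
    ρ₁.IsEquiv ρ₃ := by
  obtain ⟨e⟩ := h
  obtain ⟨e'⟩ := h'
  exact ⟨e.trans e'⟩

theorem isEquiv_baseChangeAlong {B : Type} [CommRing B] [IsLocalRing B] (φ : A →+* B)
    (hφ : IsLocalHom φ) {ρ₁ ρ₂ : GaloisRepAdic A} (h : ρ₁.IsEquiv ρ₂) :
    (ρ₁.baseChangeAlong φ hφ).IsEquiv (ρ₂.baseChangeAlong φ hφ) := by
  obtain ⟨e⟩ := h
  exact ⟨e.baseChangeAlong φ hφ⟩

end IsEquiv

variable {𝒪 : Type} [CommRing 𝒪] [IsLocalRing 𝒪] {ρbar : ResidualGaloisRep (ResidueField 𝒪)}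

/-- The facts about the matrix model and about normalized lifts used by the glue. -/
structure Inputs (F : Frame 𝒪 ρbar) : Prop where
  matCont_iff : ∀ {A : Type} [CommRing A] [IsLocalRing A] (r : Gal →* M2 A),
    MatCont r ↔ ∀ n : ℕ, ∃ L : IntermediateField ℚ (AlgebraicClosure ℚ),
      FiniteDimensional ℚ L ∧ ∀ σ : Gal, (∀ x ∈ L, σ x = x) →
        ∀ i j, (r σ - 1) i j ∈ maximalIdeal A ^ n
  isEquiv_iff : ∀ {A : Type} [CommRing A] [IsLocalRing A] (r r' : Gal →* M2 A)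
    (hr : MatCont r) (hr' : MatCont r'),
    (ofMatrix r hr).IsEquiv (ofMatrix r' hr') ↔
      ∃ P : M2 A, IsUnit P.det ∧ ∀ g, P * r g = r' g * P
  baseChange : ∀ {A B : Type} [CommRing A] [IsLocalRing A] [CommRing B] [IsLocalRing B]
    (φ : A →+* B) (hφ : IsLocalHom φ) (r : Gal →* M2 A) (hr : MatCont r)
    (hr' : MatCont (mapMat φ r)),
    ((ofMatrix r hr).baseChangeAlong φ hφ).IsEquiv (ofMatrix (mapMat φ r) hr')
  eq_of_conj : ∀ {A : Type} [CommRing A] [IsLocalRing A] [Algebra 𝒪 A]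
    [IsLocalHom (algebraMap 𝒪 A)] (r r' : Gal →* M2 A), IsNormLift F r → IsNormLift F r' →
    ∀ γ : M2 A, IsUnit γ.det → (∀ σ, γ * r σ = r' σ * γ) → r = r'
  exists_normLift : ∀ {A : Type} [CommRing A] [IsLocalRing A] [Algebra 𝒪 A]
    [IsLocalHom (algebraMap 𝒪 A)] [IsAdicComplete (maximalIdeal A) A] (ρ : GaloisRepAdic A),
    ρ.residual.IsEquiv (ρbar.baseChangeAlong (ResidueField.map (algebraMap 𝒪 A))) →
    ∃ (r : Gal →* M2 A) (hr : MatCont r), IsNormLift F r ∧ ρ.IsEquiv (ofMatrix r hr)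
  residual : ∀ {A : Type} [CommRing A] [IsLocalRing A] [Algebra 𝒪 A]
    [IsLocalHom (algebraMap 𝒪 A)] (r : Gal →* M2 A) (hr : MatCont r), IsNormLift F r →
    (ofMatrix r hr).residual.IsEquiv
      (ρbar.baseChangeAlong (ResidueField.map (algebraMap 𝒪 A)))
  rbar_cont : MatCont F.rbar
  rbar_equiv : ∀ h : MatCont F.rbar,
    (GaloisRepAdic.ofResidualGaloisRep ρbar).IsEquiv (ofMatrix F.rbar h)

section Cont

variable {F : Frame 𝒪 ρbar} (H : Inputs F)
include H

theorem matCont_of_eventually_one {A : Type} [CommRing A] [IsLocalRing A] (r : Gal →* M2 A)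
    (h : ∃ L : IntermediateField ℚ (AlgebraicClosure ℚ), FiniteDimensional ℚ L ∧
      ∀ σ : Gal, (∀ x ∈ L, σ x = x) → r σ = 1) : MatCont r := by
  rw [H.matCont_iff]
  intro n
  obtain ⟨L, hL, h⟩ := h
  exact ⟨L, hL, fun σ hσ i j => by rw [h σ hσ, sub_self]; exact Ideal.zero_mem _⟩

theorem eventually_one_of_matCont {A : Type} [CommRing A] [IsLocalRing A] [IsArtinianRing A]
    (r : Gal →* M2 A) (hr : MatCont r) :
    ∃ L : IntermediateField ℚ (AlgebraicClosure ℚ), FiniteDimensional ℚ L ∧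
      ∀ σ : Gal, (∀ x ∈ L, σ x = x) → r σ = 1 := by
  obtain ⟨N, hN⟩ : ∃ N, maximalIdeal A ^ N = ⊥ := by
    have := IsArtinianRing.isNilpotent_jacobson_bot (R := A)
    rw [jacobson_eq_maximalIdeal _ bot_ne_top] at this
    exact this
  obtain ⟨L, hL, h⟩ := (H.matCont_iff r).mp hr N
  refine ⟨L, hL, fun σ hσ => ?_⟩
  ext i j
  have h1 := h σ hσ i j
  rw [hN, Ideal.mem_bot] at h1
  have h2 : r σ i j = (r σ - 1) i j + (1 : M2 A) i j := by simp
  rw [h2, h1, zero_add]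

theorem matCont_map {A B : Type} [CommRing A] [IsLocalRing A] [CommRing B] [IsLocalRing B]
    (φ : A →+* B) (hφ : IsLocalHom φ) {r : Gal →* M2 A} (hr : MatCont r) :
    MatCont (mapMat φ r) := by
  rw [H.matCont_iff] at hr ⊢
  intro n
  obtain ⟨L, hL, h⟩ := hr n
  refine ⟨L, hL, fun σ hσ i j => ?_⟩
  rw [mapMat_sub_one]
  have hmap : (maximalIdeal A ^ n).map φ ≤ maximalIdeal B ^ n := by
    rw [Ideal.map_pow]
    exact Ideal.pow_right_mono (((local_hom_TFAE φ).out 0 2).mp hφ) n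
  exact hmap (Ideal.mem_map_of_mem φ (h σ hσ i j))

end Cont

section NormLift

variable {F : Frame 𝒪 ρbar}
variable {A B : Type} [CommRing A] [IsLocalRing A] [Algebra 𝒪 A] [IsLocalHom (algebraMap 𝒪 A)]
  [CommRing B] [IsLocalRing B] [Algebra 𝒪 B] [IsLocalHom (algebraMap 𝒪 B)]

theorem resMap_resMap (φ : A →ₐ[𝒪] B) [IsLocalHom (φ : A →+* B)] (x : ResidueField 𝒪) :
    ResidueField.map (φ : A →+* B) (ResidueField.map (algebraMap 𝒪 A) x) =
      ResidueField.map (algebraMap 𝒪 B) x := by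
  obtain ⟨o, rfl⟩ := residue_surjective x
  rw [ResidueField.map_residue, ResidueField.map_residue, ResidueField.map_residue]
  congr 1
  exact φ.commutes o

theorem normLift_map (φ : A →ₐ[𝒪] B) (hφ : IsLocalHom (φ : A →+* B)) {r : Gal →* M2 A}
    (hN : IsNormLift F r) : IsNormLift F (mapMat (φ : A →+* B) r) := by
  haveI := hφ
  refine ⟨fun σ i j => ?_, ?_, ?_, ?_⟩
  · rw [mapMat_apply, ← ResidueField.map_residue (φ : A →+* B), hN.lifts, resMap_resMap]
  · rw [mapMat_apply, hN.g₁_00, map_zero]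
  · rw [mapMat_apply, hN.g₁_10, map_one]
  · rw [mapMat_apply, hN.g₂_c₀]
    exact φ.commutes _

theorem normLift_of_map (φ : A →ₐ[𝒪] B) (hφ : IsLocalHom (φ : A →+* B)) {r : Gal →* M2 A}
    (hN : IsNormLift F (mapMat (φ : A →+* B) r)) (h1 : r F.g₁ 0 0 = 0) (h2 : r F.g₁ 1 0 = 1)
    (h3 : r F.g₂ F.i₀ F.j₀ = algebraMap 𝒪 A F.c₀) : IsNormLift F r := by
  haveI := hφ
  refine ⟨fun σ i j => ?_, h1, h2, h3⟩
  apply (ResidueField.map (φ : A →+* B)).injective
  rw [ResidueField.map_residue, resMap_resMap]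
  exact hN.lifts σ i j

theorem normLift_of_map_injective (φ : A →ₐ[𝒪] B) (hφ : IsLocalHom (φ : A →+* B))
    (hinj : Function.Injective φ) {r : Gal →* M2 A}
    (hN : IsNormLift F (mapMat (φ : A →+* B) r)) : IsNormLift F r := by
  refine normLift_of_map φ hφ hN (hinj ?_) (hinj ?_) (hinj ?_)
  · rw [map_zero]; exact hN.g₁_00
  · rw [map_one]; exact hN.g₁_10
  · rw [φ.commutes]; exact hN.g₂_c₀

end NormLift

section Hom

/-- a matrix valued function which becomes multiplicative after applying a jointly injective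
pair of ring homomorphisms is multiplicative -/
theorem exists_hom_of_pair {S A₁ A₂ : Type} [CommRing S] [CommRing A₁] [CommRing A₂]
    (φ₁ : S →+* A₁) (φ₂ : S →+* A₂) (hinj : ∀ s : S, φ₁ s = 0 → φ₂ s = 0 → s = 0)
    (y : Gal → M2 S) (r₁ : Gal →* M2 A₁) (r₂ : Gal →* M2 A₂)
    (h₁ : ∀ g, (y g).map φ₁ = r₁ g) (h₂ : ∀ g, (y g).map φ₂ = r₂ g) :
    ∃ r : Gal →* M2 S, (∀ g, r g = y g) ∧ mapMat φ₁ r = r₁ ∧ mapMat φ₂ r = r₂ := by
  have key : ∀ M N : M2 S, M.map φ₁ = N.map φ₁ → M.map φ₂ = N.map φ₂ → M = N := by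
    intro M N h h'
    ext i j
    rw [← sub_eq_zero]
    apply hinj
    · rw [map_sub, sub_eq_zero]
      exact congrFun (congrFun h i) j
    · rw [map_sub, sub_eq_zero]
      exact congrFun (congrFun h' i) j
  have h1 : y 1 = 1 := by
    apply key
    · rw [h₁, map_one, Matrix.map_one _ (map_zero φ₁) (map_one φ₁)]
    · rw [h₂, map_one, Matrix.map_one _ (map_zero φ₂) (map_one φ₂)]
  have hmul : ∀ g g', y (g * g') = y g * y g' := by
    intro g g'
    apply key
    · rw [h₁, map_mul, Matrix.map_mul, h₁, h₁]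
    · rw [h₂, map_mul, Matrix.map_mul, h₂, h₂]
  refine ⟨⟨⟨y, h1⟩, hmul⟩, fun g => rfl, ?_, ?_⟩
  · exact MonoidHom.ext fun g => h₁ g
  · exact MonoidHom.ext fun g => h₂ g

theorem exists_hom_of_injective {S A : Type} [CommRing S] [CommRing A]
    (φ : S →+* A) (hinj : Function.Injective φ)
    (y : Gal → M2 S) (r : Gal →* M2 A) (h : ∀ g, (y g).map φ = r g) :
    ∃ r' : Gal →* M2 S, (∀ g, r' g = y g) ∧ mapMat φ r' = r := by
  obtain ⟨r', h1, h2, -⟩ := exists_hom_of_pair φ φ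
    (fun s hs _ => hinj (by rw [hs, map_zero])) y r r h h
  exact ⟨r', h1, h2⟩

theorem eq_of_forall_mk_pow_eq {R : Type} [CommRing R] (I : Ideal R) [IsHausdorff I R] (a b : R)
    (h : ∀ n : ℕ, 0 < n → Ideal.Quotient.mk (I ^ n) a = Ideal.Quotient.mk (I ^ n) b) : a = b := by
  rw [← sub_eq_zero]
  refine IsHausdorff.haus ‹IsHausdorff I R› _ fun n => ?_
  rw [SModEq.zero, smul_eq_mul, Ideal.mul_top]
  have h1 := h (n + 1) n.succ_pos
  rw [Ideal.Quotient.eq] at h1
  exact Ideal.pow_le_pow_right n.le_succ h1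

end Hom

section DLift

variable (𝒟 : ∀ ⦃A : Type⦄ [CommRing A] [IsLocalRing A] [Algebra 𝒪 A], GaloisRepAdic A → Prop)
variable (F : Frame 𝒪 ρbar)

/-- `r` is a normalized lift of type `𝒟` -/
def IsDLift {A : Type} [CommRing A] [IsLocalRing A] [Algebra 𝒪 A] [IsLocalHom (algebraMap 𝒪 A)]
    (r : Gal →* M2 A) : Prop :=
  IsNormLift F r ∧ ∃ hr : MatCont r, 𝒟 (ofMatrix r hr)

variable {𝒟 F}

theorem eq_of_isEquiv (H : Inputs F) {A : Type} [CommRing A] [IsLocalRing A] [Algebra 𝒪 A]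
    [IsLocalHom (algebraMap 𝒪 A)] {r r' : Gal →* M2 A} (hN : IsNormLift F r)
    (hN' : IsNormLift F r') (hr : MatCont r) (hr' : MatCont r')
    (h : (ofMatrix r hr).IsEquiv (ofMatrix r' hr')) : r = r' := by
  obtain ⟨P, hP, hc⟩ := (H.isEquiv_iff r r' hr hr').mp h
  exact H.eq_of_conj r r' hN hN' P hP hc

variable (H : Inputs F) (h𝒟 : GaloisRep.IsDeformationCondition 𝒪 𝒟)
include H h𝒟

variable {A B : Type} [CommRing A] [IsLocalRing A] [Algebra 𝒪 A] [IsLocalHom (algebraMap 𝒪 A)]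
  [CommRing B] [IsLocalRing B] [Algebra 𝒪 B] [IsLocalHom (algebraMap 𝒪 B)]

theorem isDLift_map (hA : GaloisRep.IsArtinianTestAlgebra 𝒪 A)
    (hB : GaloisRep.IsArtinianTestAlgebra 𝒪 B) (φ : A →ₐ[𝒪] B)
    (hφ : IsLocalHom (φ : A →+* B)) {r : Gal →* M2 A} (hD : IsDLift 𝒟 F r) :
    IsDLift 𝒟 F (mapMat (φ : A →+* B) r) := by
  obtain ⟨hN, hr, h⟩ := hD
  refine ⟨normLift_map φ hφ hN, matCont_map H _ hφ hr, ?_⟩
  exact h𝒟.of_isEquiv hB (H.baseChange _ hφ r hr _) (h𝒟.baseChangeAlong hA hB φ hφ h)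

theorem isDLift_of_map_injective (hA : GaloisRep.IsArtinianTestAlgebra 𝒪 A)
    (hB : GaloisRep.IsArtinianTestAlgebra 𝒪 B) (φ : A →ₐ[𝒪] B)
    (hφ : IsLocalHom (φ : A →+* B)) (hinj : Function.Injective φ) {r : Gal →* M2 A}
    (hD : IsDLift 𝒟 F (mapMat (φ : A →+* B) r)) : IsDLift 𝒟 F r := by
  obtain ⟨hN, hr', h⟩ := hD
  have := hB.isArtinian
  have hr : MatCont r := by
    obtain ⟨L, hL, hL'⟩ := eventually_one_of_matCont H _ hr'
    refine matCont_of_eventually_one H r ⟨L, hL, fun σ hσ => ?_⟩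
    have h1 := hL' σ hσ
    ext i j
    apply hinj
    have h2 := congrFun (congrFun h1 i) j
    rw [mapMat_apply] at h2
    rw [← AlgHom.coe_toRingHom, h2, Matrix.one_apply, Matrix.one_apply]
    split_ifs <;> simp
  refine ⟨normLift_of_map_injective φ hφ hinj hN, hr, ?_⟩
  exact h𝒟.of_baseChangeAlong_injective hA hB φ hφ hinj
    (h𝒟.of_isEquiv hB (isEquiv_symm (H.baseChange _ hφ r hr hr')) h)

end DLift

section Poly

/-- index set of matrix entries -/
abbrev E : Type := Gal × Fin 2 × Fin 2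

/-- entries of a matrix valued homomorphism -/
def ent {A : Type} [CommRing A] (r : Gal →* M2 A) : E → A := fun e => r e.1 e.2.1 e.2.2

theorem ent_injective {A : Type} [CommRing A] {r r' : Gal →* M2 A}
    (h : ∀ e, ent r e = ent r' e) : r = r' := by
  refine MonoidHom.ext fun g => ?_
  ext i j
  exact h (g, i, j)

variable (𝒪) in
/-- evaluation of polynomials at the entries of a matrix valued homomorphism -/
def ev {A : Type} [CommRing A] [Algebra 𝒪 A] (r : Gal →* M2 A) :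
    MvPolynomial E 𝒪 →ₐ[𝒪] A := MvPolynomial.aeval (ent r)

omit [IsLocalRing 𝒪] in
theorem ev_X {A : Type} [CommRing A] [Algebra 𝒪 A] (r : Gal →* M2 A) (e : E) :
    ev 𝒪 r (MvPolynomial.X e) = r e.1 e.2.1 e.2.2 := by
  rw [ev, MvPolynomial.aeval_X]; rfl

omit [IsLocalRing 𝒪] in
theorem ev_C {A : Type} [CommRing A] [Algebra 𝒪 A] (r : Gal →* M2 A) (o : 𝒪) :
    ev 𝒪 r (MvPolynomial.C o) = algebraMap 𝒪 A o := by
  rw [ev, MvPolynomial.aeval_C]

omit [IsLocalRing 𝒪] in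
theorem ev_map {A B : Type} [CommRing A] [Algebra 𝒪 A] [CommRing B] [Algebra 𝒪 B]
    (φ : A →ₐ[𝒪] B) (r : Gal →* M2 A) :
    ev 𝒪 (mapMat (φ : A →+* B) r) = φ.comp (ev 𝒪 r) := by
  refine MvPolynomial.algHom_ext fun e => ?_
  rw [ev_X, AlgHom.comp_apply, ev_X, mapMat_apply]
  rfl

omit [IsLocalRing 𝒪] in
theorem ev_eq_of_ent {A : Type} [CommRing A] [Algebra 𝒪 A] (r : Gal →* M2 A)
    (f : MvPolynomial E 𝒪 →ₐ[𝒪] A) (h : ∀ e, f (MvPolynomial.X e) = ent r e) : ev 𝒪 r = f := by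
  refine MvPolynomial.algHom_ext fun e => ?_
  rw [ev_X, h]; rfl

end Poly

section LocalAlg

/-- every ring hom from a finite local ring to a nontrivial ring is local -/
theorem isLocalHom_of_finite {A B : Type} [CommRing A] [IsLocalRing A] [Finite A] [CommRing B]
    [Nontrivial B] (φ : A →+* B) : IsLocalHom φ := by
  refine ⟨fun a ha => ?_⟩
  by_contra hna
  have hmem : a ∈ maximalIdeal A := (mem_maximalIdeal a).mpr hna
  have hnil : IsNilpotent a := by
    have h1 := IsArtinianRing.isNilpotent_jacobson_bot (R := A)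
    rw [jacobson_eq_maximalIdeal _ bot_ne_top] at h1
    obtain ⟨N, hN⟩ := h1
    refine ⟨N, ?_⟩
    have h2 := Ideal.pow_mem_pow hmem N
    rw [hN] at h2
    exact h2
  exact (hnil.map φ).not_isUnit ha

/-- surjective images of finite Artinian test algebras are Artinian test algebras -/
theorem isArtinianTest_of_surjective {A B : Type} [CommRing A] [IsLocalRing A] [Algebra 𝒪 A]
    [Finite A] [CommRing B] [IsLocalRing B] [Algebra 𝒪 B]
    (hA : GaloisRep.IsArtinianTestAlgebra 𝒪 A)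
    (φ : A →ₐ[𝒪] B) (hφ : Function.Surjective φ) : GaloisRep.IsArtinianTestAlgebra 𝒪 B := by
  have := hA.isLocalHom
  have hl : IsLocalHom (φ : A →+* B) := isLocalHom_of_finite _
  have : Finite B := Finite.of_surjective _ hφ
  refine ⟨?_, ?_, inferInstance⟩
  · have h1 : algebraMap 𝒪 B = (φ : A →+* B).comp (algebraMap 𝒪 A) := by
      ext o
      exact (φ.commutes o).symm
    rw [h1]
    exact RingHom.isLocalHom_comp _ _
  · intro y
    obtain ⟨b, rfl⟩ := residue_surjective y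
    obtain ⟨a, rfl⟩ := hφ b
    obtain ⟨o, ho⟩ := S53_Local.exists_sub_mem_maximalIdeal hA.residue_surjective a
    refine ⟨o, ?_⟩
    simp only [Function.comp_apply]
    rw [← sub_eq_zero, ← map_sub, residue_eq_zero_iff, ← φ.commutes, ← map_sub, ← neg_sub,
      map_neg, neg_mem_iff]
    have h3 : maximalIdeal A ≤ Ideal.comap (φ : A →+* B) (maximalIdeal B) :=
      ((local_hom_TFAE (φ : A →+* B)).out 0 3).mp hl
    exact h3 ho

end LocalAlg

section Transfer

variable {𝒟 : ∀ ⦃A : Type⦄ [CommRing A] [IsLocalRing A] [Algebra 𝒪 A], GaloisRepAdic A → Prop}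
variable {F : Frame 𝒪 ρbar}
variable (H : Inputs F) (h𝒟 : GaloisRep.IsDeformationCondition 𝒪 𝒟)
include H h𝒟

/-- corestriction of a lift of type `𝒟` to the subalgebra generated by its entries -/
theorem exists_dLift_range [Finite (ResidueField 𝒪)] {A : Type} [CommRing A] [IsLocalRing A]
    [Algebra 𝒪 A] [IsLocalHom (algebraMap 𝒪 A)] (hA : GaloisRep.IsArtinianTestAlgebra 𝒪 A)
    {r : Gal →* M2 A} (hD : IsDLift 𝒟 F r) :
    haveI : Finite A := S53_Local.finite_of_isArtinianTest hA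
    ∃ (_ : IsLocalRing (ev 𝒪 r).range) (_ : IsLocalHom (algebraMap 𝒪 (ev 𝒪 r).range)),
      GaloisRep.IsArtinianTestAlgebra 𝒪 (ev 𝒪 r).range ∧ ∃ rS : Gal →* M2 (ev 𝒪 r).range,
        IsDLift 𝒟 F rS ∧ ev 𝒪 rS = (ev 𝒪 r).rangeRestrict := by
  haveI : Finite A := S53_Local.finite_of_isArtinianTest hA
  haveI : IsLocalRing (ev 𝒪 r).range := S53_Local.isLocalRing_subalgebra _
  have hS : GaloisRep.IsArtinianTestAlgebra 𝒪 (ev 𝒪 r).range :=
    S53_Local.isArtinianTest_subalgebra hA _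
  haveI := hS.isLocalHom
  have hval : IsLocalHom ((ev 𝒪 r).range.val : (ev 𝒪 r).range →+* A) :=
    S53_Local.isLocalHom_subalgebra_val _
  obtain ⟨rS, hrS, hrS'⟩ := exists_hom_of_injective
    ((ev 𝒪 r).range.val : (ev 𝒪 r).range →+* A) Subtype.val_injective
    (fun g => Matrix.of fun i j => (ev 𝒪 r).rangeRestrict (MvPolynomial.X (g, i, j))) r
    (fun g => by
      ext i j
      show ev 𝒪 r (MvPolynomial.X (g, i, j)) = r g i j
      rw [ev_X])
  have hDS : IsDLift 𝒟 F rS :=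
    isDLift_of_map_injective H h𝒟 hS hA (ev 𝒪 r).range.val hval Subtype.val_injective
      (by rw [hrS']; exact hD)
  refine ⟨inferInstance, inferInstance, hS, rS, hDS, ?_⟩
  refine ev_eq_of_ent rS _ fun e => ?_
  show _ = rS e.1 e.2.1 e.2.2
  rw [hrS]
  rfl

/-- transfer of a lift of type `𝒟` along a surjection of the polynomial ring whose kernel
contains the kernel of the evaluation map -/
theorem exists_dLift_of_ker_le [Finite (ResidueField 𝒪)] {A : Type} [CommRing A] [IsLocalRing A]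
    [Algebra 𝒪 A] [IsLocalHom (algebraMap 𝒪 A)] (hA : GaloisRep.IsArtinianTestAlgebra 𝒪 A)
    {r : Gal →* M2 A} (hD : IsDLift 𝒟 F r)
    {B : Type} [CommRing B] [Nontrivial B] [Algebra 𝒪 B] (f : MvPolynomial E 𝒪 →ₐ[𝒪] B)
    (hf : Function.Surjective f) (hker : RingHom.ker (ev 𝒪 r) ≤ RingHom.ker f) :
    ∃ (_ : IsLocalRing B) (_ : IsLocalHom (algebraMap 𝒪 B)),
      GaloisRep.IsArtinianTestAlgebra 𝒪 B ∧ ∃ r' : Gal →* M2 B, IsDLift 𝒟 F r' ∧ ev 𝒪 r' = f := by
  haveI : Finite A := S53_Local.finite_of_isArtinianTest hA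
  obtain ⟨i1, i2, hS, rS, hDS, hrS⟩ := exists_dLift_range H h𝒟 hA hD
  have hg : Function.Surjective (ev 𝒪 r).rangeRestrict := (ev 𝒪 r).rangeRestrict_surjective
  have hker' : RingHom.ker (ev 𝒪 r).rangeRestrict.toRingHom ≤ RingHom.ker f.toRingHom := by
    intro x hx
    apply hker
    rw [RingHom.mem_ker] at hx ⊢
    have := congrArg Subtype.val hx
    exact this
  let θ : (ev 𝒪 r).range →ₐ[𝒪] B := AlgHom.liftOfSurjective _ hg f hker'
  have hθ : θ.comp (ev 𝒪 r).rangeRestrict = f := AlgHom.liftOfSurjective_comp _ hg f hker'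
  have hθs : Function.Surjective θ := by
    intro b
    obtain ⟨x, rfl⟩ := hf b
    exact ⟨(ev 𝒪 r).rangeRestrict x, by rw [← hθ]; rfl⟩
  haveI : IsLocalRing B := IsLocalRing.of_surjective' (θ : (ev 𝒪 r).range →+* B) hθs
  have hB : GaloisRep.IsArtinianTestAlgebra 𝒪 B := isArtinianTest_of_surjective hS θ hθs
  haveI := hB.isLocalHom
  have hθl : IsLocalHom (θ : (ev 𝒪 r).range →+* B) := IsLocalHom.of_surjective _ hθs
  refine ⟨inferInstance, hB.isLocalHom, hB, mapMat (θ : (ev 𝒪 r).range →+* B) rS,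
    isDLift_map H h𝒟 hS hB θ hθl hDS, ?_⟩
  rw [ev_map, hrS, hθ]

end Transfer

section Tangent

/-- the `𝒪`-algebra structure on the dual numbers (the one used in `GaloisRep.TangentFinite`) -/
local instance (priority := 2000) dualAlgInst : Algebra 𝒪 (DualNumber (ResidueField 𝒪)) :=
  S53_Local.dualAlg 𝒪

local instance dualLocalHomInst : IsLocalHom (algebraMap 𝒪 (DualNumber (ResidueField 𝒪))) :=
  (S53_Local.dualNumber_isArtinianTest 𝒪).isLocalHom

/-- the endomorphism `a + bε ↦ a` of the dual numbers -/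
def constPart (𝒪 : Type) [CommRing 𝒪] [IsLocalRing 𝒪] :
    DualNumber (ResidueField 𝒪) →ₐ[𝒪] DualNumber (ResidueField 𝒪) :=
  { (TrivSqZeroExt.inlHom (ResidueField 𝒪) (ResidueField 𝒪)).comp
      (TrivSqZeroExt.fstHom (ResidueField 𝒪) (ResidueField 𝒪) (ResidueField 𝒪)).toRingHom with
    commutes' := fun _ => rfl }

theorem constPart_apply (z : DualNumber (ResidueField 𝒪)) :
    constPart 𝒪 z = TrivSqZeroExt.inl (TrivSqZeroExt.fst z) := rfl

theorem constPart_eq_self_iff (z : DualNumber (ResidueField 𝒪)) :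
    constPart 𝒪 z = z ↔ TrivSqZeroExt.snd z = 0 := by
  rw [constPart_apply]
  constructor
  · intro h
    rw [← h, TrivSqZeroExt.snd_inl]
  · intro h
    refine TrivSqZeroExt.ext ?_ ?_
    · rw [TrivSqZeroExt.fst_inl]
    · rw [TrivSqZeroExt.snd_inl, h]

variable (𝒟 : ∀ ⦃A : Type⦄ [CommRing A] [IsLocalRing A] [Algebra 𝒪 A], GaloisRepAdic A → Prop)
variable (F : Frame 𝒪 ρbar)

theorem finite_tangent (H : Inputs F) (hfin : GaloisRep.TangentFinite 𝒪 ρbar 𝒟) :
    Finite {r : Gal →* M2 (DualNumber (ResidueField 𝒪)) // IsDLift 𝒟 F r} := by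
  unfold GaloisRep.TangentFinite at hfin
  have hψ : ResidueField.map (algebraMap 𝒪 (DualNumber (ResidueField 𝒪))) =
      (residue (DualNumber (ResidueField 𝒪))).comp
        (algebraMap (ResidueField 𝒪) (DualNumber (ResidueField 𝒪))) := by
    refine RingHom.ext fun x => ?_
    obtain ⟨o, rfl⟩ := residue_surjective x
    rw [ResidueField.map_residue]
    rfl
  refine @Finite.of_injective _ _ hfin
    (fun r => Quotient.mk _ ⟨ofMatrix r.1 r.2.2.choose, r.2.2.choose_spec, ?_⟩) ?_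
  · have h1 := H.residual r.1 r.2.2.choose r.2.1
    rw [hψ] at h1
    exact h1
  · intro r r' h
    have h' := Quotient.exact h
    exact Subtype.ext (eq_of_isEquiv H r.2.1 r'.2.1 _ _ h')

theorem exists_separating (H : Inputs F) (hfin : GaloisRep.TangentFinite 𝒪 ρbar 𝒟) :
    ∃ (t : ℕ) (e : Fin t → E), ∀ r r' : Gal →* M2 (DualNumber (ResidueField 𝒪)),
      IsDLift 𝒟 F r → IsDLift 𝒟 F r' → (∀ i, ent r (e i) = ent r' (e i)) → r = r' := by
  haveI := finite_tangent 𝒟 F H hfin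
  have hw : ∀ q : {q : {r : Gal →* M2 (DualNumber (ResidueField 𝒪)) // IsDLift 𝒟 F r} ×
      {r : Gal →* M2 (DualNumber (ResidueField 𝒪)) // IsDLift 𝒟 F r} // q.1 ≠ q.2},
      ∃ e : E, ent q.1.1.1 e ≠ ent q.1.2.1 e := by
    intro q
    by_contra hcon
    simp only [not_exists, not_not] at hcon
    exact q.2 (Subtype.ext (ent_injective hcon))
  choose w hw using hw
  refine ⟨_, w ∘ (Finite.equivFin _).symm, fun r r' hr hr' h => ?_⟩
  by_contra hne
  have h1 := h (Finite.equivFin _ ⟨(⟨r, hr⟩, ⟨r', hr'⟩), fun h => hne (congrArg Subtype.val h)⟩)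
  simp only [Function.comp_apply, Equiv.symm_apply_apply] at h1
  exact hw ⟨(⟨r, hr⟩, ⟨r', hr'⟩), fun h => hne (congrArg Subtype.val h)⟩ h1

/-- the generation lemma: the entries of a lift of type `𝒟` over an Artinian test algebra are
polynomials in the separating entries -/
theorem exists_mem_adjoin_ev_eq (H : Inputs F) (h𝒟 : GaloisRep.IsDeformationCondition 𝒪 𝒟)
    [Finite (ResidueField 𝒪)] {t : ℕ} (e : Fin t → E)
    (hsep : ∀ r r' : Gal →* M2 (DualNumber (ResidueField 𝒪)),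
      IsDLift 𝒟 F r → IsDLift 𝒟 F r' → (∀ i, ent r (e i) = ent r' (e i)) → r = r')
    {A : Type} [CommRing A] [IsLocalRing A] [Algebra 𝒪 A] [IsLocalHom (algebraMap 𝒪 A)]
    (hA : GaloisRep.IsArtinianTestAlgebra 𝒪 A) {r : Gal →* M2 A} (hD : IsDLift 𝒟 F r)
    (x : MvPolynomial E 𝒪) :
    ∃ q ∈ Algebra.adjoin 𝒪 (Set.range fun i => (MvPolynomial.X (e i) : MvPolynomial E 𝒪)),
      ev 𝒪 r x = ev 𝒪 r q := by
  haveI : Finite A := S53_Local.finite_of_isArtinianTest hA
  obtain ⟨i1, i2, hS, rS, hDS, hrS⟩ := exists_dLift_range H h𝒟 hA hD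
  suffices h : (Algebra.adjoin 𝒪 (Set.range fun i =>
      (MvPolynomial.X (e i) : MvPolynomial E 𝒪))).map (ev 𝒪 r).rangeRestrict = ⊤ by
    have hx : (ev 𝒪 r).rangeRestrict x ∈ (Algebra.adjoin 𝒪 (Set.range fun i =>
        (MvPolynomial.X (e i) : MvPolynomial E 𝒪))).map (ev 𝒪 r).rangeRestrict := by
      rw [h]; exact Algebra.mem_top
    obtain ⟨q, hq, hqx⟩ := hx
    exact ⟨q, hq, (congrArg Subtype.val hqx).symm⟩
  by_contra hne
  obtain ⟨π, hπ0, a, ha⟩ := S53_Local.exists_dualNumber_hom hS.residue_surjective _ hne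
  have hkε := S53_Local.dualNumber_isArtinianTest 𝒪
  haveI : Finite (DualNumber (ResidueField 𝒪)) := S53_Local.finite_of_isArtinianTest hkε
  have hπl : IsLocalHom (π : (ev 𝒪 r).range →+* DualNumber (ResidueField 𝒪)) :=
    isLocalHom_of_finite _
  have hcl : IsLocalHom
      (constPart 𝒪 : DualNumber (ResidueField 𝒪) →+* DualNumber (ResidueField 𝒪)) :=
    isLocalHom_of_finite _
  have hD₁ := isDLift_map H h𝒟 hS hkε π hπl hDS
  have hD₂ := isDLift_map H h𝒟 hkε hkε (constPart 𝒪) hcl hD₁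
  have hent : ∀ e' : E, rS e'.1 e'.2.1 e'.2.2 = (ev 𝒪 r).rangeRestrict (MvPolynomial.X e') := by
    intro e'
    rw [← hrS, ev_X]
  have heq : mapMat (constPart 𝒪 : DualNumber (ResidueField 𝒪) →+* DualNumber (ResidueField 𝒪))
      (mapMat (π : (ev 𝒪 r).range →+* DualNumber (ResidueField 𝒪)) rS) =
      mapMat (π : (ev 𝒪 r).range →+* DualNumber (ResidueField 𝒪)) rS := by
    refine hsep _ _ hD₂ hD₁ (fun i => ?_)
    show constPart 𝒪 (π (rS (e i).1 (e i).2.1 (e i).2.2)) = π (rS (e i).1 (e i).2.1 (e i).2.2)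
    rw [constPart_eq_self_iff]
    apply hπ0
    rw [hent]
    exact ⟨_, Algebra.subset_adjoin ⟨i, rfl⟩, rfl⟩
  have hall : (constPart 𝒪).comp (π.comp (ev 𝒪 r).rangeRestrict) =
      π.comp (ev 𝒪 r).rangeRestrict := by
    refine MvPolynomial.algHom_ext fun e' => ?_
    have h1 := congrArg (fun s => ent s e') heq
    show constPart 𝒪 (π ((ev 𝒪 r).rangeRestrict (MvPolynomial.X e'))) =
      π ((ev 𝒪 r).rangeRestrict (MvPolynomial.X e'))
    rw [← hent]
    exact h1
  obtain ⟨x', rfl⟩ := (ev 𝒪 r).rangeRestrict_surjective a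
  apply ha
  rw [← constPart_eq_self_iff]
  exact congrArg (fun f => f x') hall

end Tangent

end Fermat.Agent.S53_Glue
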