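import Mathlib

set_option autoImplicit false
set_option linter.overlappingInstances false

/-!
Slice existence for S53 (pure matrix algebra over a Henselian local ring).

* `conj_monoidHom P hP r` : the conjugate `g ↦ P⁻¹ * r g * P` of a matrix valued homomorphism.
* `exists_lift_GL2` : invertible `2 × 2` matrices over the residue field lift.
* `exists_slice` : a matrix valued homomorphism `r` whose residue satisfies the frame
  normalisation (`r g1` has first column `(0, 1)` mod `m`, the `(i0, j0)` entry of `r g2` is `c`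
  mod `m`, and the commutator entry is a unit) is conjugate, by a matrix congruent to `1`, to a
  homomorphism satisfying the normalisation exactly.
-/

namespace Fermat.Agent.S53_Exist

open IsLocalRing Matrix

section Conj

variable {A : Type} [CommRing A] {G : Type} [Monoid G]

/-- Conjugation of a matrix valued homomorphism by an invertible matrix: `g ↦ P⁻¹ * r g * P`. -/
noncomputable def conj_monoidHom (P : Matrix (Fin 2) (Fin 2) A) (hP : IsUnit P.det)
    (r : G →* Matrix (Fin 2) (Fin 2) A) : G →* Matrix (Fin 2) (Fin 2) A where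
  toFun g := P⁻¹ * r g * P
  map_one' := by rw [map_one, Matrix.mul_one, Matrix.nonsing_inv_mul _ hP]
  map_mul' g h := by
    rw [map_mul]
    calc P⁻¹ * (r g * r h) * P = P⁻¹ * r g * (P * P⁻¹) * r h * P := by
          rw [Matrix.mul_nonsing_inv _ hP, Matrix.mul_one]; simp only [Matrix.mul_assoc]
      _ = P⁻¹ * r g * P * (P⁻¹ * r h * P) := by simp only [Matrix.mul_assoc]

theorem conj_monoidHom_apply (P : Matrix (Fin 2) (Fin 2) A) (hP : IsUnit P.det)
    (r : G →* Matrix (Fin 2) (Fin 2) A) (g : G) :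
    conj_monoidHom P hP r g = P⁻¹ * r g * P := rfl

theorem mul_conj_monoidHom (P : Matrix (Fin 2) (Fin 2) A) (hP : IsUnit P.det)
    (r : G →* Matrix (Fin 2) (Fin 2) A) (g : G) :
    P * conj_monoidHom P hP r g = r g * P := by
  rw [conj_monoidHom_apply, ← Matrix.mul_assoc, ← Matrix.mul_assoc, Matrix.mul_nonsing_inv _ hP,
    Matrix.one_mul]

/-- If `r g * P = P * N` then the conjugate of `r` by `P` takes the value `N` at `g`. -/
theorem conj_monoidHom_eq_of_mul_eq (P : Matrix (Fin 2) (Fin 2) A) (hP : IsUnit P.det)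
    (r : G →* Matrix (Fin 2) (Fin 2) A) (g : G) (N : Matrix (Fin 2) (Fin 2) A)
    (h : r g * P = P * N) : conj_monoidHom P hP r g = N := by
  rw [conj_monoidHom_apply, Matrix.mul_assoc, h, ← Matrix.mul_assoc, Matrix.nonsing_inv_mul _ hP,
    Matrix.one_mul]

end Conj

section Lift

variable {A : Type} [CommRing A] [IsLocalRing A]

/-- Invertible `2 × 2` matrices over the residue field lift to invertible matrices. -/
theorem exists_lift_GL2 (Q : Matrix (Fin 2) (Fin 2) (ResidueField A)) (hQ : IsUnit Q.det) :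
    ∃ Q' : Matrix (Fin 2) (Fin 2) A, IsUnit Q'.det ∧ Q'.map (residue A) = Q := by
  choose f hf using fun (i : Fin 2) (j : Fin 2) => residue_surjective (R := A) (Q i j)
  refine ⟨Matrix.of f, ?_, ?_⟩
  · have hmap : (Matrix.of f).map (residue A) = Q := by
      ext i j
      simp [hf]
    have hdet : residue A (Matrix.of f).det = Q.det := by
      rw [RingHom.map_det, RingHom.mapMatrix_apply, hmap]
    exact isUnit_of_map_unit (residue A) _ (hdet ▸ hQ)
  · ext i j
    simp [hf]

end Lift

section Slice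

variable {A : Type} [CommRing A]

theorem key_identity_aux (m00 m01 m10 m11 t d b c : A) (i0 j0 : Fin 2) :
    (adjugate (!![1, -(b * d); b, 1 + b * t] : Matrix (Fin 2) (Fin 2) A) *
        !![m00, m01; m10, m11] * !![1, -(b * d); b, 1 + b * t]) i0 j0 -
      (!![1, -(b * d); b, 1 + b * t] : Matrix (Fin 2) (Fin 2) A).det * c =
    ((!![m00, m01; m10, m11] : Matrix (Fin 2) (Fin 2) A) i0 j0 - c) +
      ((!![m00, m01; m10, m11] * !![0, -d; 1, t] -
          !![0, -d; 1, t] * !![m00, m01; m10, m11]) i0 j0 +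
        t * ((!![m00, m01; m10, m11] : Matrix (Fin 2) (Fin 2) A) i0 j0 - c)) * b +
      (t * (!![m00, m01; m10, m11] * !![0, -d; 1, t]) i0 j0 -
        (!![0, -d; 1, t] * !![m00, m01; m10, m11] * !![0, -d; 1, t]) i0 j0 - d * c) *
        b ^ 2 := by
  fin_cases i0 <;> fin_cases j0 <;>
    simp [Matrix.mul_apply, Fin.sum_univ_two, Matrix.adjugate_fin_two, Matrix.det_fin_two] <;>
    ring

/-- The polynomial identity behind the slice normalisation. -/
theorem key_identity (M : Matrix (Fin 2) (Fin 2) A) (t d b c : A) (i0 j0 : Fin 2) :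
    (adjugate (!![1, -(b * d); b, 1 + b * t] : Matrix (Fin 2) (Fin 2) A) * M *
        !![1, -(b * d); b, 1 + b * t]) i0 j0 -
      (!![1, -(b * d); b, 1 + b * t] : Matrix (Fin 2) (Fin 2) A).det * c =
    (M i0 j0 - c) +
      ((M * !![0, -d; 1, t] - !![0, -d; 1, t] * M) i0 j0 + t * (M i0 j0 - c)) * b +
      (t * (M * !![0, -d; 1, t]) i0 j0 - (!![0, -d; 1, t] * M * !![0, -d; 1, t]) i0 j0 - d * c) *
        b ^ 2 := by
  have h := key_identity_aux (M 0 0) (M 0 1) (M 1 0) (M 1 1) t d b c i0 j0
  rwa [← Matrix.eta_fin_two M] at h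

theorem companion_identity_aux (x00 x01 x10 x11 : A) :
    (!![x00, x01; x10, x11] : Matrix (Fin 2) (Fin 2) A) * !![1, x00; 0, x10] =
      !![1, x00; 0, x10] * !![0, -(x00 * x11 - x01 * x10); 1, x00 + x11] := by
  ext i j
  fin_cases i <;> fin_cases j <;>
    simp [Matrix.mul_apply, Fin.sum_univ_two] <;>
    ring

/-- The companion matrix relation: `X * (e₁ | X e₁) = (e₁ | X e₁) * companion`. -/
theorem companion_identity (X : Matrix (Fin 2) (Fin 2) A) :
    X * !![1, X 0 0; 0, X 1 0] = !![1, X 0 0; 0, X 1 0] * !![0, -X.det; 1, X.trace] := by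
  have h := companion_identity_aux (X 0 0) (X 0 1) (X 1 0) (X 1 1)
  rw [← Matrix.eta_fin_two X] at h
  rw [Matrix.det_fin_two, Matrix.trace_fin_two]
  exact h

theorem companion_comm (t d b : A) :
    (!![0, -d; 1, t] : Matrix (Fin 2) (Fin 2) A) * !![1, -(b * d); b, 1 + b * t] =
      !![1, -(b * d); b, 1 + b * t] * !![0, -d; 1, t] := by
  ext i j
  fin_cases i <;> fin_cases j <;>
    simp [Matrix.mul_apply, Fin.sum_univ_two] <;>
    ring

/-- Solving `q0 + q1 b + q2 b² = 0` with `q0` in the maximal ideal and `q1` a unit. -/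
theorem exists_root_quadratic [IsLocalRing A] [HenselianLocalRing A] (q0 q1 q2 : A)
    (h0 : q0 ∈ maximalIdeal A) (h1 : IsUnit q1) :
    ∃ b : A, b ∈ maximalIdeal A ∧ q0 + q1 * b + q2 * b ^ 2 = 0 := by
  have hmonic : (Polynomial.X ^ 2 + (Polynomial.C q1 * Polynomial.X + Polynomial.C (q0 * q2)) :
      Polynomial A).Monic := by
    apply Polynomial.monic_X_pow_add
    exact lt_of_le_of_lt (Polynomial.degree_linear_le) (by norm_num)
  obtain ⟨c', hroot, hc'⟩ := HenselianLocalRing.is_henselian
    (Polynomial.X ^ 2 + (Polynomial.C q1 * Polynomial.X + Polynomial.C (q0 * q2))) hmonic 0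
    (by simpa using Ideal.mul_mem_right q2 _ h0)
    (by simpa using h1)
  rw [sub_zero] at hc'
  have hroot' : c' ^ 2 + (q1 * c' + q0 * q2) = 0 := by
    simpa [Polynomial.IsRoot] using hroot
  have hu : IsUnit (q1 + c') := by
    by_contra hnu
    have hm : q1 + c' ∈ maximalIdeal A := (mem_maximalIdeal _).mpr hnu
    have : q1 ∈ maximalIdeal A := by
      have := Ideal.sub_mem _ hm hc'
      simpa using this
    exact (mem_maximalIdeal _).mp this h1
  obtain ⟨w, hw⟩ := hu.exists_right_inv
  refine ⟨-q0 * w, Ideal.mul_mem_right _ _ (Ideal.neg_mem_iff _ |>.mpr h0), ?_⟩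
  linear_combination (q0 * w ^ 2) * hroot' - q0 * (1 + w * c') * hw

end Slice


section Main

variable {A : Type} [CommRing A] [IsLocalRing A]

theorem residue_mapMatrix_apply (X : Matrix (Fin 2) (Fin 2) A) (i j : Fin 2) :
    (residue A).mapMatrix X i j = residue A (X i j) := rfl

/-- Slice existence: a matrix valued homomorphism which residually satisfies the frame
normalisation can be conjugated, by a matrix congruent to `1`, into normal form. -/
theorem exists_slice [HenselianLocalRing A] {G : Type} [Monoid G]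
    (r : G →* Matrix (Fin 2) (Fin 2) A) (g1 g2 : G) (i0 j0 : Fin 2) (c : A)
    (h1 : r g1 0 0 ∈ maximalIdeal A) (h2 : r g1 1 0 - 1 ∈ maximalIdeal A)
    (hc : r g2 i0 j0 - c ∈ maximalIdeal A)
    (hunit : IsUnit ((r g2 * r g1 - r g1 * r g2) i0 j0)) :
    ∃ (P : Matrix (Fin 2) (Fin 2) A) (r' : G →* Matrix (Fin 2) (Fin 2) A),
      (∀ i j, (P - 1) i j ∈ maximalIdeal A) ∧ (∀ g, P * r' g = r g * P) ∧
      r' g1 0 0 = 0 ∧ r' g1 1 0 = 1 ∧ r' g2 i0 j0 = c := by
  -- residues of the two normalising entries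
  have hres1 : residue A (r g1 0 0) = 0 := (residue_eq_zero_iff _).mpr h1
  have hres2 : residue A (r g1 1 0) = 1 := by
    have := (residue_eq_zero_iff _).mpr h2
    rwa [map_sub, map_one, sub_eq_zero] at this
  -- Step 1: the matrix `P1 = (e₁ | r(g1) e₁)`
  obtain ⟨P1, hP1⟩ : ∃ P1 : Matrix (Fin 2) (Fin 2) A, P1 = !![1, r g1 0 0; 0, r g1 1 0] :=
    ⟨_, rfl⟩
  have hP1res : (residue A).mapMatrix P1 = 1 := by
    ext i j
    rw [residue_mapMatrix_apply, hP1]
    fin_cases i <;> fin_cases j <;> simp [hres1, hres2]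
  have hP1det : IsUnit P1.det := by
    apply isUnit_of_map_unit (residue A)
    rw [RingHom.map_det, hP1res, Matrix.det_one]
    exact isUnit_one
  obtain ⟨t, ht⟩ : ∃ t : A, t = (r g1).trace := ⟨_, rfl⟩
  obtain ⟨d, hd⟩ : ∃ d : A, d = (r g1).det := ⟨_, rfl⟩
  obtain ⟨N, hN⟩ : ∃ N : Matrix (Fin 2) (Fin 2) A, N = !![0, -d; 1, t] := ⟨_, rfl⟩
  have hNP1 : r g1 * P1 = P1 * N := by
    rw [hP1, hN, hd, ht]
    exact companion_identity (r g1)
  obtain ⟨M, hM⟩ : ∃ M : Matrix (Fin 2) (Fin 2) A, M = P1⁻¹ * r g2 * P1 := ⟨_, rfl⟩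
  have hMP1 : r g2 * P1 = P1 * M := by
    rw [hM, ← Matrix.mul_assoc, ← Matrix.mul_assoc, Matrix.mul_nonsing_inv _ hP1det,
      Matrix.one_mul]
  -- residues of `N` and `M`
  have hNres : (residue A).mapMatrix N = (residue A).mapMatrix (r g1) := by
    have := congrArg (residue A).mapMatrix hNP1
    rw [map_mul, map_mul, hP1res, mul_one, one_mul] at this
    exact this.symm
  have hMres : (residue A).mapMatrix M = (residue A).mapMatrix (r g2) := by
    have := congrArg (residue A).mapMatrix hMP1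
    rw [map_mul, map_mul, hP1res, mul_one, one_mul] at this
    exact this.symm
  -- the coefficients of the quadratic equation
  obtain ⟨q0, hq0⟩ : ∃ q0 : A, q0 = M i0 j0 - c := ⟨_, rfl⟩
  obtain ⟨q1, hq1⟩ : ∃ q1 : A, q1 = (M * N - N * M) i0 j0 + t * (M i0 j0 - c) := ⟨_, rfl⟩
  obtain ⟨q2, hq2⟩ : ∃ q2 : A,
      q2 = t * (M * N) i0 j0 - (N * M * N) i0 j0 - d * c := ⟨_, rfl⟩
  have hq0res : residue A q0 = 0 := by
    rw [hq0, map_sub, ← residue_mapMatrix_apply, hMres, residue_mapMatrix_apply, ← map_sub]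
    exact (residue_eq_zero_iff _).mpr hc
  have hq0m : q0 ∈ maximalIdeal A := (residue_eq_zero_iff _).mp hq0res
  have hq1u : IsUnit q1 := by
    apply isUnit_of_map_unit (residue A)
    have : residue A q1 = residue A ((r g2 * r g1 - r g1 * r g2) i0 j0) := by
      rw [hq1, map_add, map_mul, ← hq0, hq0res, mul_zero, add_zero,
        ← residue_mapMatrix_apply, ← residue_mapMatrix_apply, map_sub, map_sub, map_mul, map_mul,
        map_mul, map_mul, hNres, hMres]
    rw [this]
    exact hunit.map (residue A)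
  obtain ⟨b, hbm, hb⟩ := exists_root_quadratic q0 q1 q2 hq0m hq1u
  have hbres : residue A b = 0 := (residue_eq_zero_iff _).mpr hbm
  -- Step 2: the matrix `U = 1 + b • N`
  obtain ⟨U, hU⟩ : ∃ U : Matrix (Fin 2) (Fin 2) A, U = !![1, -(b * d); b, 1 + b * t] :=
    ⟨_, rfl⟩
  have hUres : (residue A).mapMatrix U = 1 := by
    ext i j
    rw [residue_mapMatrix_apply, hU]
    fin_cases i <;> fin_cases j <;> simp [hbres]
  have hUdet : IsUnit U.det := by
    apply isUnit_of_map_unit (residue A)
    rw [RingHom.map_det, hUres, Matrix.det_one]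
    exact isUnit_one
  have hNU : N * U = U * N := by
    rw [hN, hU]
    exact companion_comm t d b
  have hkey : (adjugate U * M * U) i0 j0 = U.det * c := by
    have h := key_identity M t d b c i0 j0
    rw [← hU, ← hN] at h
    have h' : q0 + q1 * b + q2 * b ^ 2 = 0 := hb
    rw [hq0, hq1, hq2] at h'
    linear_combination h + h'
  obtain ⟨M', hM'⟩ : ∃ M' : Matrix (Fin 2) (Fin 2) A, M' = U⁻¹ * M * U := ⟨_, rfl⟩
  have hM'entry : M' i0 j0 = c := by
    rw [hM', Matrix.inv_def, Matrix.smul_mul, Matrix.smul_mul, Matrix.smul_apply, smul_eq_mul,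
      hkey, Ring.inverse_mul_cancel_left _ _ hUdet]
  have hMU : M * U = U * M' := by
    rw [hM', ← Matrix.mul_assoc, ← Matrix.mul_assoc, Matrix.mul_nonsing_inv _ hUdet,
      Matrix.one_mul]
  -- the conjugating matrix
  have hPdet : IsUnit (P1 * U).det := by
    rw [Matrix.det_mul]
    exact hP1det.mul hUdet
  refine ⟨P1 * U, conj_monoidHom (P1 * U) hPdet r, ?_, ?_, ?_, ?_, ?_⟩
  · intro i j
    rw [← residue_eq_zero_iff, ← residue_mapMatrix_apply, map_sub, map_mul, hP1res, hUres,
      map_one, mul_one, sub_self]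
    rfl
  · intro g
    exact mul_conj_monoidHom _ hPdet r g
  · have h : conj_monoidHom (P1 * U) hPdet r g1 = N := by
      apply conj_monoidHom_eq_of_mul_eq
      rw [← Matrix.mul_assoc, hNP1, Matrix.mul_assoc, hNU, Matrix.mul_assoc]
    rw [h, hN]
    rfl
  · have h : conj_monoidHom (P1 * U) hPdet r g1 = N := by
      apply conj_monoidHom_eq_of_mul_eq
      rw [← Matrix.mul_assoc, hNP1, Matrix.mul_assoc, hNU, Matrix.mul_assoc]
    rw [h, hN]
    rfl
  · have h : conj_monoidHom (P1 * U) hPdet r g2 = M' := by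
      apply conj_monoidHom_eq_of_mul_eq
      rw [← Matrix.mul_assoc, hMP1, Matrix.mul_assoc, hMU, Matrix.mul_assoc]
    rw [h, hM'entry]

end Main

end Fermat.Agent.S53_Exist
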