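import Mathlib
import Fermat.Agent.S53_Defs

set_option autoImplicit false

/-!
Matrix model of `GaloisRepAdic` (helper file for S53), built on `Fermat.Agent.S53_Defs`.
-/

namespace Fermat.Agent.S53_Mat

open Fermat.Agent.S53_Defs IsLocalRing
open scoped TensorProduct

section LinAlg

variable {R : Type*} [CommRing R]

/-- Membership in `I • ⊤` of a free module can be tested on coordinates. -/
theorem mem_smul_top_iff_repr {ι : Type*} [Fintype ι] {V : Type*} [AddCommGroup V] [Module R V]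
    (I : Ideal R) (b : Module.Basis ι R V) (x : V) :
    x ∈ I • (⊤ : Submodule R V) ↔ ∀ i, b.repr x i ∈ I := by
  constructor
  · intro hx
    refine Submodule.smul_induction_on hx ?_ ?_
    · intro a ha w _ i
      rw [map_smul, Finsupp.smul_apply, smul_eq_mul]
      exact I.mul_mem_right _ ha
    · intro x y hx hy i
      rw [map_add, Finsupp.add_apply]
      exact I.add_mem (hx i) (hy i)
  · intro h
    rw [← b.sum_repr x]
    exact Submodule.sum_mem _ fun i _ => Submodule.smul_mem_smul (h i) Submodule.mem_top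

/-- Two families of endomorphisms of free modules of rank two are intertwined by a linear
equivalence iff their matrix families are conjugate by an invertible matrix. -/
theorem exists_intertwine_iff {V₁ V₂ : Type*} [AddCommGroup V₁] [Module R V₁] [AddCommGroup V₂]
    [Module R V₂] {G : Type*} (f₁ : G → Module.End R V₁) (f₂ : G → Module.End R V₂)
    (b₁ : Module.Basis (Fin 2) R V₁) (b₂ : Module.Basis (Fin 2) R V₂) :
    (∃ e : V₁ ≃ₗ[R] V₂, ∀ g x, e (f₁ g x) = f₂ g (e x)) ↔
      ∃ Q : Matrix (Fin 2) (Fin 2) R, IsUnit Q.det ∧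
        ∀ g, Q * LinearMap.toMatrix b₁ b₁ (f₁ g) = LinearMap.toMatrix b₂ b₂ (f₂ g) * Q := by
  constructor
  · rintro ⟨e, he⟩
    refine ⟨LinearMap.toMatrix b₁ b₂ (e : V₁ →ₗ[R] V₂), ?_, fun g => ?_⟩
    · apply Matrix.isUnit_det_of_right_inverse
        (B := LinearMap.toMatrix b₂ b₁ (e.symm : V₂ →ₗ[R] V₁))
      rw [← LinearMap.toMatrix_comp b₂ b₁ b₂]
      have : (e : V₁ →ₗ[R] V₂) ∘ₗ (e.symm : V₂ →ₗ[R] V₁) = LinearMap.id := by
        ext x; simp
      rw [this, LinearMap.toMatrix_id]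
    · rw [← LinearMap.toMatrix_comp b₁ b₁ b₂, ← LinearMap.toMatrix_comp b₁ b₂ b₂]
      congr 1
      ext x
      exact he g x
  · rintro ⟨Q, hQ, h⟩
    have hdet : IsUnit (LinearMap.toMatrix b₁ b₂ (Matrix.toLin b₁ b₂ Q)).det := by
      rw [LinearMap.toMatrix_toLin]; exact hQ
    refine ⟨LinearEquiv.ofIsUnitDet hdet, fun g x => ?_⟩
    have h1 := congrArg (Matrix.toLin b₁ b₂) (h g)
    rw [Matrix.toLin_mul b₁ b₁ b₂, Matrix.toLin_mul b₁ b₂ b₂, Matrix.toLin_toMatrix,
      Matrix.toLin_toMatrix] at h1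
    have h2 := LinearMap.congr_fun h1 x
    rw [LinearMap.comp_apply, LinearMap.comp_apply] at h2
    rw [LinearEquiv.ofIsUnitDet_apply, LinearEquiv.ofIsUnitDet_apply]
    exact h2

end LinAlg

section Cont

variable {A : Type} [CommRing A] [IsLocalRing A]

omit [IsLocalRing A] in
theorem matEnd_sub_apply (r : Gal →* Matrix (Fin 2) (Fin 2) A) (σ : Gal) (v : Fin 2 → A) :
    matEnd r σ v - v = (r σ - 1).mulVec v := by
  rw [matEnd_apply_apply, Matrix.sub_mulVec, Matrix.one_mulVec]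

omit [IsLocalRing A] in
theorem mem_smul_top_pi_iff (I : Ideal A) (v : Fin 2 → A) :
    v ∈ I • (⊤ : Submodule A (Fin 2 → A)) ↔ ∀ i, v i ∈ I := by
  rw [mem_smul_top_iff_repr I (Pi.basisFun A (Fin 2))]
  simp

/-- Adic continuity of a matrix valued homomorphism, entrywise. -/
theorem matCont_iff (r : Gal →* Matrix (Fin 2) (Fin 2) A) :
    MatCont r ↔ ∀ n : ℕ, ∃ L : IntermediateField ℚ (AlgebraicClosure ℚ), FiniteDimensional ℚ L ∧
      ∀ σ : Gal, (∀ x ∈ L, σ x = x) → ∀ i j, (r σ - 1) i j ∈ maximalIdeal A ^ n := by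
  constructor
  · intro h n
    obtain ⟨L, hL, h1⟩ := h n
    refine ⟨L, hL, fun σ hσ i j => ?_⟩
    have h2 := h1 σ hσ (Pi.single j 1)
    rw [matEnd_sub_apply, mem_smul_top_pi_iff] at h2
    have h3 := h2 i
    rwa [Matrix.mulVec_single_one] at h3
  · intro h n
    obtain ⟨L, hL, h1⟩ := h n
    refine ⟨L, hL, fun σ hσ v => ?_⟩
    rw [matEnd_sub_apply, mem_smul_top_pi_iff]
    intro i
    rw [Matrix.mulVec, dotProduct]
    exact Ideal.sum_mem _ fun j _ => Ideal.mul_mem_right _ _ (h1 σ hσ i j)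

/-- Adic continuity is preserved by push-forward along a local homomorphism. -/
theorem _root_.Fermat.Agent.S53_Defs.MatCont.map {B : Type} [CommRing B] [IsLocalRing B]
    (φ : A →+* B) (hφ : IsLocalHom φ) {r : Gal →* Matrix (Fin 2) (Fin 2) A} (hr : MatCont r) :
    MatCont (mapMat φ r) := by
  rw [matCont_iff] at hr ⊢
  intro n
  obtain ⟨L, hL, h1⟩ := hr n
  refine ⟨L, hL, fun σ hσ i j => ?_⟩
  have hmap : (maximalIdeal A ^ n).map φ ≤ maximalIdeal B ^ n := by
    rw [Ideal.map_pow]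
    exact Ideal.pow_right_mono (Ideal.map_le_iff_le_comap.mpr fun a ha =>
      Ideal.mem_comap.mpr (haveI := hφ; map_nonunit φ a ha)) n
  have h2 : (mapMat φ r σ - 1) i j = φ ((r σ - 1) i j) := by
    rw [Matrix.sub_apply, Matrix.sub_apply, mapMat_apply, map_sub, Matrix.one_apply,
      Matrix.one_apply]
    split_ifs <;> simp
  rw [h2]
  exact hmap (Ideal.mem_map_of_mem φ (h1 σ hσ i j))

/-- Adic continuity is preserved by conjugation. -/
theorem _root_.Fermat.Agent.S53_Defs.MatCont.of_conj {r r' : Gal →* Matrix (Fin 2) (Fin 2) A}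
    (hr : MatCont r) (P : Matrix (Fin 2) (Fin 2) A) (hP : IsUnit P.det)
    (h : ∀ g, P * r' g = r g * P) : MatCont r' := by
  rw [matCont_iff] at hr ⊢
  intro n
  obtain ⟨L, hL, h1⟩ := hr n
  refine ⟨L, hL, fun σ hσ i j => ?_⟩
  have h2 : r' σ - 1 = P⁻¹ * (r σ - 1) * P := by
    rw [Matrix.mul_sub, Matrix.sub_mul, Matrix.mul_one, Matrix.nonsing_inv_mul _ hP,
      Matrix.mul_assoc, ← h σ, ← Matrix.mul_assoc, Matrix.nonsing_inv_mul _ hP, Matrix.one_mul]
  rw [h2, Matrix.mul_apply]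
  refine Ideal.sum_mem _ fun l _ => Ideal.mul_mem_right _ _ ?_
  rw [Matrix.mul_apply]
  exact Ideal.sum_mem _ fun m _ => Ideal.mul_mem_left _ _ (h1 σ hσ m l)

/-- The matrix valued homomorphism of a `GaloisRepAdic` in a basis. -/
noncomputable def adicMat (ρ : GaloisRepAdic A) (b : Module.Basis (Fin 2) A ρ.V) :
    Gal →* Matrix (Fin 2) (Fin 2) A where
  toFun σ := LinearMap.toMatrix b b (ρ.ρ σ)
  map_one' := by rw [map_one]; exact LinearMap.toMatrix_one b
  map_mul' σ τ := by rw [map_mul]; exact LinearMap.toMatrix_mul b (ρ.ρ σ) (ρ.ρ τ)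

theorem adicMat_apply (ρ : GaloisRepAdic A) (b : Module.Basis (Fin 2) A ρ.V) (σ : Gal) :
    adicMat ρ b σ = LinearMap.toMatrix b b (ρ.ρ σ) := rfl

/-- The matrix family of a `GaloisRepAdic` in a basis is adically continuous. -/
theorem matCont_of_toMatrix (ρ : GaloisRepAdic A) (b : Module.Basis (Fin 2) A ρ.V)
    (r : Gal →* Matrix (Fin 2) (Fin 2) A) (h : ∀ σ, r σ = LinearMap.toMatrix b b (ρ.ρ σ)) :
    MatCont r := by
  rw [matCont_iff]
  intro n
  obtain ⟨L, hL, h1⟩ := ρ.isAdicContinuous n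
  refine ⟨L, hL, fun σ hσ i j => ?_⟩
  have h2 := (mem_smul_top_iff_repr _ b _).mp (h1 σ hσ (b j)) i
  have h3 : (r σ - 1) i j = b.repr (ρ.ρ σ (b j) - b j) i := by
    rw [Matrix.sub_apply, h σ, LinearMap.toMatrix_apply, map_sub, Finsupp.sub_apply,
      Module.Basis.repr_self, Matrix.one_apply, Finsupp.single_apply]
    by_cases hij : i = j
    · rw [if_pos hij, if_pos hij.symm]
    · rw [if_neg hij, if_neg (Ne.symm hij)]
  rw [h3]
  exact h2

/-- A `GaloisRepAdic` is equivalent to the matrix model of its matrix family in a basis. -/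
theorem isEquiv_ofMatrix_of_toMatrix (ρ : GaloisRepAdic A) (b : Module.Basis (Fin 2) A ρ.V)
    (r : Gal →* Matrix (Fin 2) (Fin 2) A) (h : ∀ σ, r σ = LinearMap.toMatrix b b (ρ.ρ σ))
    (hr : MatCont r) : ρ.IsEquiv (ofMatrix r hr) := by
  refine ⟨⟨b.equivFun, fun σ x => ?_⟩⟩
  show b.equivFun (ρ.ρ σ x) = (r σ).mulVec (b.equivFun x)
  rw [h σ, Module.Basis.equivFun_apply, Module.Basis.equivFun_apply]
  exact (LinearMap.toMatrix_mulVec_repr b b (ρ.ρ σ) x).symm

/-- Every `GaloisRepAdic` is equivalent to a matrix model. -/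
theorem exists_ofMatrix_isEquiv (ρ : GaloisRepAdic A) :
    ∃ (r : Gal →* Matrix (Fin 2) (Fin 2) A) (hr : MatCont r), ρ.IsEquiv (ofMatrix r hr) := by
  let b : Module.Basis (Fin 2) A ρ.V := Module.finBasisOfFinrankEq A ρ.V ρ.finrank_eq
  exact ⟨adicMat ρ b, matCont_of_toMatrix ρ b _ (fun _ => rfl),
    isEquiv_ofMatrix_of_toMatrix ρ b _ (fun _ => rfl) _⟩

theorem isEquiv_iff_exists (ρ₁ ρ₂ : GaloisRepAdic A) :
    ρ₁.IsEquiv ρ₂ ↔ ∃ e : ρ₁.V ≃ₗ[A] ρ₂.V, ∀ (σ : Gal) (x : ρ₁.V), e (ρ₁.ρ σ x) = ρ₂.ρ σ (e x) :=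
  ⟨fun ⟨e⟩ => ⟨e.toLinearEquiv, e.map_apply⟩, fun ⟨e, h⟩ => ⟨⟨e, h⟩⟩⟩

omit [IsLocalRing A] in
theorem toMatrix_matEnd (r : Gal →* Matrix (Fin 2) (Fin 2) A) (σ : Gal) :
    LinearMap.toMatrix (Pi.basisFun A (Fin 2)) (Pi.basisFun A (Fin 2)) (matEnd r σ) = r σ := by
  rw [LinearMap.toMatrix_eq_toMatrix', matEnd_apply, LinearMap.toMatrix'_toLin']

/-- Two matrix models are equivalent iff the matrix families are conjugate. -/
theorem ofMatrix_isEquiv_iff (r r' : Gal →* Matrix (Fin 2) (Fin 2) A) (hr : MatCont r)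
    (hr' : MatCont r') :
    (ofMatrix r hr).IsEquiv (ofMatrix r' hr') ↔
      ∃ P : Matrix (Fin 2) (Fin 2) A, IsUnit P.det ∧ ∀ g, P * r g = r' g * P := by
  rw [isEquiv_iff_exists]
  have h := exists_intertwine_iff (fun σ : Gal => matEnd r σ) (fun σ : Gal => matEnd r' σ)
    (Pi.basisFun A (Fin 2)) (Pi.basisFun A (Fin 2))
  simp only [toMatrix_matEnd] at h
  exact h

end Cont

section BaseChange

variable {A : Type} [CommRing A] [IsLocalRing A]

/-- Base change of the matrix model is the matrix model of the push-forward. -/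
theorem ofMatrix_baseChangeAlong {B : Type} [CommRing B] [IsLocalRing B] (φ : A →+* B)
    (hφ : IsLocalHom φ) (r : Gal →* Matrix (Fin 2) (Fin 2) A) (hr : MatCont r) :
    ((ofMatrix r hr).baseChangeAlong φ hφ).IsEquiv (ofMatrix (mapMat φ r) (hr.map φ hφ)) := by
  let _ : Algebra A B := φ.toAlgebra
  rw [isEquiv_iff_exists]
  let bB : Module.Basis (Fin 2) B (B ⊗[A] (Fin 2 → A)) :=
    Algebra.TensorProduct.basis B (Pi.basisFun A (Fin 2))
  refine (exists_intertwine_iff (fun σ : Gal => ((ofMatrix r hr).baseChangeAlong φ hφ).ρ σ)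
    (fun σ : Gal => matEnd (mapMat φ r) σ) bB (Pi.basisFun B (Fin 2))).mpr
      ⟨1, by simp, fun σ => ?_⟩
  rw [one_mul, mul_one, toMatrix_matEnd]
  show LinearMap.toMatrix bB bB ((matEnd r σ).baseChange B) = mapMat φ r σ
  rw [LinearMap.toMatrix_baseChange, toMatrix_matEnd]
  rfl

end BaseChange

section Conj

variable {A : Type} [CommRing A]

/-- Conjugate of a matrix valued homomorphism. -/
noncomputable def conjMat (P : Matrix (Fin 2) (Fin 2) A) (hP : IsUnit P.det)
    (r : Gal →* Matrix (Fin 2) (Fin 2) A) : Gal →* Matrix (Fin 2) (Fin 2) A where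
  toFun σ := P * r σ * P⁻¹
  map_one' := by rw [map_one, Matrix.mul_one, Matrix.mul_nonsing_inv _ hP]
  map_mul' σ τ := by
    rw [map_mul, show P * r σ * P⁻¹ * (P * r τ * P⁻¹) = P * r σ * (P⁻¹ * P) * r τ * P⁻¹ by
      simp only [Matrix.mul_assoc], Matrix.nonsing_inv_mul _ hP, Matrix.mul_one]
    simp only [Matrix.mul_assoc]

theorem conjMat_apply (P : Matrix (Fin 2) (Fin 2) A) (hP : IsUnit P.det)
    (r : Gal →* Matrix (Fin 2) (Fin 2) A) (σ : Gal) : conjMat P hP r σ = P * r σ * P⁻¹ := rfl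

theorem conjMat_mul (P : Matrix (Fin 2) (Fin 2) A) (hP : IsUnit P.det)
    (r : Gal →* Matrix (Fin 2) (Fin 2) A) (σ : Gal) : conjMat P hP r σ * P = P * r σ := by
  rw [conjMat_apply, Matrix.mul_assoc, Matrix.nonsing_inv_mul _ hP, Matrix.mul_one]

end Conj

section Residual

variable {A : Type} [CommRing A] [IsLocalRing A]

theorem residual_isEquiv_iff_exists {K : Type} [Field K] (ρ₁ ρ₂ : ResidualGaloisRep K) :
    ρ₁.IsEquiv ρ₂ ↔
      ∃ e : ρ₁.V ≃ₗ[K] ρ₂.V, ∀ (σ : Gal) (x : ρ₁.V), e (ρ₁.ρ σ x) = ρ₂.ρ σ (e x) :=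
  ⟨fun ⟨e⟩ => ⟨e.toLinearEquiv, e.map_apply⟩, fun ⟨e, h⟩ => ⟨⟨e, h⟩⟩⟩

/-- Two residual representations are equivalent iff their matrix families (in any bases) are
conjugate. -/
theorem residual_isEquiv_iff {K : Type} [Field K] (ρ₁ ρ₂ : ResidualGaloisRep K)
    (b₁ : Module.Basis (Fin 2) K ρ₁.V) (b₂ : Module.Basis (Fin 2) K ρ₂.V) :
    ρ₁.IsEquiv ρ₂ ↔ ∃ Q : Matrix (Fin 2) (Fin 2) K, IsUnit Q.det ∧
      ∀ g : Gal, Q * LinearMap.toMatrix b₁ b₁ (ρ₁.ρ g) = LinearMap.toMatrix b₂ b₂ (ρ₂.ρ g) * Q := by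
  rw [residual_isEquiv_iff_exists]
  exact exists_intertwine_iff (fun σ : Gal => ρ₁.ρ σ) (fun σ : Gal => ρ₂.ρ σ) b₁ b₂

/-- The induced basis of the residual representation of a `GaloisRepAdic`. -/
noncomputable def residualBasis (ρ : GaloisRepAdic A) (b : Module.Basis (Fin 2) A ρ.V) :
    Module.Basis (Fin 2) (ResidueField A) ρ.residual.V :=
  Algebra.TensorProduct.basis (ResidueField A) b

theorem toMatrix_residualBasis (ρ : GaloisRepAdic A) (b : Module.Basis (Fin 2) A ρ.V) (σ : Gal) :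
    LinearMap.toMatrix (residualBasis ρ b) (residualBasis ρ b) (ρ.residual.ρ σ) =
      (LinearMap.toMatrix b b (ρ.ρ σ)).map (residue A) := by
  show LinearMap.toMatrix (Algebra.TensorProduct.basis (ResidueField A) b)
    (Algebra.TensorProduct.basis (ResidueField A) b)
    ((ρ.ρ σ).baseChange (ResidueField A)) = _
  rw [LinearMap.toMatrix_baseChange]
  rfl

/-- The induced basis of the base change of a residual representation. -/
noncomputable def baseChangeAlongBasis {k K : Type} [Field k] [Field K]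
    (ρbar : ResidualGaloisRep k) (b : Module.Basis (Fin 2) k ρbar.V) (ψ : k →+* K) :
    Module.Basis (Fin 2) K (ρbar.baseChangeAlong ψ).V :=
  letI : Algebra k K := ψ.toAlgebra
  Algebra.TensorProduct.basis K b

theorem toMatrix_baseChangeAlongBasis {k K : Type} [Field k] [Field K]
    (ρbar : ResidualGaloisRep k) (b : Module.Basis (Fin 2) k ρbar.V) (ψ : k →+* K) (σ : Gal) :
    LinearMap.toMatrix (baseChangeAlongBasis ρbar b ψ) (baseChangeAlongBasis ρbar b ψ)
      ((ρbar.baseChangeAlong ψ).ρ σ) = (LinearMap.toMatrix b b (ρbar.ρ σ)).map ψ := by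
  let _ : Algebra k K := ψ.toAlgebra
  show LinearMap.toMatrix (Algebra.TensorProduct.basis K b) (Algebra.TensorProduct.basis K b)
    ((ρbar.ρ σ).baseChange K) = _
  rw [LinearMap.toMatrix_baseChange]
  rfl

/-- The residual representation of a `GaloisRepAdic` (with a chosen basis) is equivalent to a base
change of `ρbar` iff the reduced matrix family is conjugate to the base changed one. -/
theorem residual_isEquiv_baseChangeAlong_iff {k : Type} [Field k] (ρ : GaloisRepAdic A)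
    (b₀ : Module.Basis (Fin 2) A ρ.V) (ρbar : ResidualGaloisRep k)
    (b : Module.Basis (Fin 2) k ρbar.V) (ψ : k →+* ResidueField A) :
    ρ.residual.IsEquiv (ρbar.baseChangeAlong ψ) ↔
      ∃ Q : Matrix (Fin 2) (Fin 2) (ResidueField A), IsUnit Q.det ∧
        ∀ g : Gal, Q * (LinearMap.toMatrix b₀ b₀ (ρ.ρ g)).map (residue A) =
          (LinearMap.toMatrix b b (ρbar.ρ g)).map ψ * Q := by
  rw [residual_isEquiv_iff _ _ (residualBasis ρ b₀) (baseChangeAlongBasis ρbar b ψ)]
  simp only [toMatrix_residualBasis, toMatrix_baseChangeAlongBasis]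

/-- The residual representation of a matrix model is equivalent to a base change of `ρbar` iff the
entrywise reduction is conjugate to the base changed matrix family of `ρbar`. -/
theorem ofMatrix_residual_isEquiv_iff {k : Type} [Field k] (ρbar : ResidualGaloisRep k)
    (b : Module.Basis (Fin 2) k ρbar.V) (ψ : k →+* ResidueField A)
    (r : Gal →* Matrix (Fin 2) (Fin 2) A) (hr : MatCont r) :
    (ofMatrix r hr).residual.IsEquiv (ρbar.baseChangeAlong ψ) ↔
      ∃ Q : Matrix (Fin 2) (Fin 2) (ResidueField A), IsUnit Q.det ∧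
        ∀ g : Gal, Q * (r g).map (residue A) = (LinearMap.toMatrix b b (ρbar.ρ g)).map ψ * Q := by
  have h := residual_isEquiv_baseChangeAlong_iff (ofMatrix r hr) (Pi.basisFun A (Fin 2)) ρbar b ψ
  rw [h]
  have h2 : ∀ g : Gal, (LinearMap.toMatrix (Pi.basisFun A (Fin 2)) (Pi.basisFun A (Fin 2))
      ((ofMatrix r hr).ρ g)).map (residue A) = (r g).map (residue A) :=
    fun g => congrArg (fun M : Matrix (Fin 2) (Fin 2) A => M.map (residue A)) (toMatrix_matEnd r g)
  constructor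
  · rintro ⟨Q, hQ, hc⟩
    exact ⟨Q, hQ, fun g => (congrArg (fun M => Q * M) (h2 g).symm).trans (hc g)⟩
  · rintro ⟨Q, hQ, hc⟩
    exact ⟨Q, hQ, fun g => (congrArg (fun M => Q * M) (h2 g)).trans (hc g)⟩

/-- If the entries of `r` reduce to the (base changed) entries of `ρbar`, the residual
representation of the matrix model is equivalent to the base change of `ρbar`. -/
theorem ofMatrix_residual_isEquiv_of_lifts {k : Type} [Field k] (ρbar : ResidualGaloisRep k)
    (b : Module.Basis (Fin 2) k ρbar.V) (ψ : k →+* ResidueField A)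
    (r : Gal →* Matrix (Fin 2) (Fin 2) A) (hr : MatCont r)
    (h : ∀ σ i j, residue A (r σ i j) = ψ (LinearMap.toMatrix b b (ρbar.ρ σ) i j)) :
    (ofMatrix r hr).residual.IsEquiv (ρbar.baseChangeAlong ψ) := by
  rw [ofMatrix_residual_isEquiv_iff ρbar b ψ r hr]
  refine ⟨1, by simp, fun g => ?_⟩
  rw [one_mul, mul_one]
  ext i j
  exact h g i j

/-- Invertible matrices over the residue field lift to invertible matrices. -/
theorem exists_lift_isUnit_det (Q : Matrix (Fin 2) (Fin 2) (ResidueField A))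
    (hQ : IsUnit Q.det) :
    ∃ Q' : Matrix (Fin 2) (Fin 2) A, IsUnit Q'.det ∧ Q'.map (residue A) = Q := by
  have hsurj := IsLocalRing.residue_surjective (R := A)
  choose f hf using hsurj
  have hmap : (Matrix.of fun i j => f (Q i j)).map (residue A) = Q := by
    ext i j
    simp [hf]
  refine ⟨Matrix.of fun i j => f (Q i j), ?_, hmap⟩
  have h1 : residue A (Matrix.of fun i j => f (Q i j)).det = Q.det := by
    rw [RingHom.map_det]
    exact congrArg Matrix.det hmap
  have h2 : IsUnit (residue A (Matrix.of fun i j => f (Q i j)).det) := h1 ▸ hQ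
  exact (isUnit_map_iff (residue A) _).mp h2

/-- A `GaloisRepAdic` whose residual representation is equivalent to a base change of `ρbar` is
equivalent to a matrix model whose entries reduce exactly to the (base changed) entries of
`ρbar` in the given basis. -/
theorem exists_ofMatrix_isEquiv_of_residual {k : Type} [Field k] (ρ : GaloisRepAdic A)
    (ρbar : ResidualGaloisRep k) (b : Module.Basis (Fin 2) k ρbar.V) (ψ : k →+* ResidueField A)
    (h : ρ.residual.IsEquiv (ρbar.baseChangeAlong ψ)) :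
    ∃ (r : Gal →* Matrix (Fin 2) (Fin 2) A) (hr : MatCont r), ρ.IsEquiv (ofMatrix r hr) ∧
      ∀ σ i j, residue A (r σ i j) = ψ (LinearMap.toMatrix b b (ρbar.ρ σ) i j) := by
  let b₀ : Module.Basis (Fin 2) A ρ.V := Module.finBasisOfFinrankEq A ρ.V ρ.finrank_eq
  have hr₀ : MatCont (adicMat ρ b₀) := matCont_of_toMatrix ρ b₀ _ (fun _ => rfl)
  have he₀ : ρ.IsEquiv (ofMatrix (adicMat ρ b₀) hr₀) :=
    isEquiv_ofMatrix_of_toMatrix ρ b₀ _ (fun _ => rfl) _
  obtain ⟨Q, hQ, hQc⟩ := (residual_isEquiv_baseChangeAlong_iff ρ b₀ ρbar b ψ).mp h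
  obtain ⟨Q', hQ', hQ'map⟩ := exists_lift_isUnit_det Q hQ
  have hr₁ : MatCont (conjMat Q' hQ' (adicMat ρ b₀)) := by
    refine hr₀.of_conj Q'⁻¹ (Matrix.isUnit_nonsing_inv_det _ hQ') fun g => ?_
    rw [conjMat_apply, ← Matrix.mul_assoc, ← Matrix.mul_assoc, Matrix.nonsing_inv_mul _ hQ',
      Matrix.one_mul]
  have he₁ : (ofMatrix (adicMat ρ b₀) hr₀).IsEquiv (ofMatrix (conjMat Q' hQ' (adicMat ρ b₀)) hr₁) :=
    (ofMatrix_isEquiv_iff _ _ hr₀ hr₁).mpr ⟨Q', hQ', fun g => (conjMat_mul Q' hQ' _ g).symm⟩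
  obtain ⟨e₀⟩ := he₀
  obtain ⟨e₁⟩ := he₁
  refine ⟨conjMat Q' hQ' (adicMat ρ b₀), hr₁, ⟨e₀.trans e₁⟩, fun σ i j => ?_⟩
  have h1 : (conjMat Q' hQ' (adicMat ρ b₀) σ).map (residue A) * Q =
      (LinearMap.toMatrix b b (ρbar.ρ σ)).map ψ * Q := by
    rw [← hQc σ, ← hQ'map, ← adicMat_apply, ← Matrix.map_mul, ← Matrix.map_mul, conjMat_mul]
  have h2 : (conjMat Q' hQ' (adicMat ρ b₀) σ).map (residue A) =
      (LinearMap.toMatrix b b (ρbar.ρ σ)).map ψ := by
    have h3 := congrArg (· * Q⁻¹) h1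
    simpa only [Matrix.mul_assoc, Matrix.mul_nonsing_inv _ hQ, Matrix.mul_one] using h3
  exact congrFun (congrFun h2 i) j

end Residual

section MatOfBasis

variable {k : Type} [Field k]

/-- The matrix valued homomorphism of a residual representation in a basis. -/
noncomputable def matOfBasis (ρbar : ResidualGaloisRep k) (b : Module.Basis (Fin 2) k ρbar.V) :
    Gal →* Matrix (Fin 2) (Fin 2) k where
  toFun g := LinearMap.toMatrix b b (ρbar.ρ g)
  map_one' := by rw [map_one]; exact LinearMap.toMatrix_one b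
  map_mul' g g' := by rw [map_mul]; exact LinearMap.toMatrix_mul b (ρbar.ρ g) (ρbar.ρ g')

theorem matOfBasis_apply (ρbar : ResidualGaloisRep k) (b : Module.Basis (Fin 2) k ρbar.V)
    (g : Gal) : matOfBasis ρbar b g = LinearMap.toMatrix b b (ρbar.ρ g) := rfl

theorem matCont_matOfBasis (ρbar : ResidualGaloisRep k) (b : Module.Basis (Fin 2) k ρbar.V) :
    MatCont (matOfBasis ρbar b) :=
  matCont_of_toMatrix (GaloisRepAdic.ofResidualGaloisRep ρbar) b _ (fun _ => rfl)

theorem ofResidual_isEquiv_ofMatrix (ρbar : ResidualGaloisRep k)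
    (b : Module.Basis (Fin 2) k ρbar.V) :
    (GaloisRepAdic.ofResidualGaloisRep ρbar).IsEquiv
      (ofMatrix (matOfBasis ρbar b) (matCont_matOfBasis ρbar b)) :=
  isEquiv_ofMatrix_of_toMatrix (GaloisRepAdic.ofResidualGaloisRep ρbar) b _ (fun _ => rfl) _

/-- `ofMatrix_residual_isEquiv_iff` phrased with `matOfBasis`. -/
theorem ofMatrix_residual_isEquiv_iff_matOfBasis {A : Type} [CommRing A] [IsLocalRing A]
    (ρbar : ResidualGaloisRep k) (b : Module.Basis (Fin 2) k ρbar.V) (ψ : k →+* ResidueField A)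
    (r : Gal →* Matrix (Fin 2) (Fin 2) A) (hr : MatCont r) :
    (ofMatrix r hr).residual.IsEquiv (ρbar.baseChangeAlong ψ) ↔
      ∃ Q : Matrix (Fin 2) (Fin 2) (ResidueField A), IsUnit Q.det ∧
        ∀ g : Gal, Q * (r g).map (residue A) = (matOfBasis ρbar b g).map ψ * Q :=
  ofMatrix_residual_isEquiv_iff ρbar b ψ r hr

end MatOfBasis

section FrameLemmas

variable {𝒪 : Type} [CommRing 𝒪] [IsLocalRing 𝒪]
variable {ρbar : ResidualGaloisRep (ResidueField 𝒪)}

/-- The matrix family of a frame is (adically) continuous. -/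
theorem matCont_rbar (F : Frame 𝒪 ρbar) : MatCont F.rbar :=
  matCont_of_toMatrix (GaloisRepAdic.ofResidualGaloisRep ρbar) F.basis F.rbar F.rbar_eq

/-- The residual representation, viewed as a `GaloisRepAdic`, is equivalent to the matrix model of
the frame. -/
theorem ofResidual_isEquiv_ofMatrix_rbar (F : Frame 𝒪 ρbar) :
    (GaloisRepAdic.ofResidualGaloisRep ρbar).IsEquiv (ofMatrix F.rbar (matCont_rbar F)) :=
  isEquiv_ofMatrix_of_toMatrix (GaloisRepAdic.ofResidualGaloisRep ρbar) F.basis F.rbar F.rbar_eq _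

variable {A : Type} [CommRing A] [IsLocalRing A] [Algebra 𝒪 A] [IsLocalHom (algebraMap 𝒪 A)]

/-- A matrix family lifting the frame has the right residual representation. -/
theorem ofMatrix_residual_isEquiv_of_frame (F : Frame 𝒪 ρbar)
    (r : Gal →* Matrix (Fin 2) (Fin 2) A) (hr : MatCont r)
    (h : ∀ σ i j, residue A (r σ i j) = ResidueField.map (algebraMap 𝒪 A) (F.rbar σ i j)) :
    (ofMatrix r hr).residual.IsEquiv
      (ρbar.baseChangeAlong (ResidueField.map (algebraMap 𝒪 A))) :=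
  ofMatrix_residual_isEquiv_of_lifts ρbar F.basis _ r hr
    (fun σ i j => by rw [h σ i j, F.rbar_eq σ])

/-- A normalized lift has the right residual representation. -/
theorem _root_.Fermat.Agent.S53_Defs.IsNormLift.residual_isEquiv {F : Frame 𝒪 ρbar}
    {r : Gal →* Matrix (Fin 2) (Fin 2) A} (h : IsNormLift F r) (hr : MatCont r) :
    (ofMatrix r hr).residual.IsEquiv
      (ρbar.baseChangeAlong (ResidueField.map (algebraMap 𝒪 A))) :=
  ofMatrix_residual_isEquiv_of_frame F r hr h.lifts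

/-- A `GaloisRepAdic` lifting `ρbar` is equivalent to a matrix model whose entries reduce exactly
to the entries of the frame. -/
theorem exists_ofMatrix_isEquiv_of_frame (F : Frame 𝒪 ρbar) (ρ : GaloisRepAdic A)
    (h : ρ.residual.IsEquiv (ρbar.baseChangeAlong (ResidueField.map (algebraMap 𝒪 A)))) :
    ∃ (r : Gal →* Matrix (Fin 2) (Fin 2) A) (hr : MatCont r), ρ.IsEquiv (ofMatrix r hr) ∧
      ∀ σ i j, residue A (r σ i j) = ResidueField.map (algebraMap 𝒪 A) (F.rbar σ i j) := by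
  obtain ⟨r, hr, he, hl⟩ := exists_ofMatrix_isEquiv_of_residual ρ ρbar F.basis _ h
  exact ⟨r, hr, he, fun σ i j => by rw [hl σ i j, F.rbar_eq σ]⟩

end FrameLemmas

end Fermat.Agent.S53_Mat
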