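import Mathlib
import Fermat.Prelude.Def_GaloisRep_Residual

set_option autoImplicit false

/-!
Rigidity of normalised `2 × 2` matrix families over a local ring.
-/

namespace Fermat.Agent.S53_Slice

open Matrix

section unique

variable {A : Type*} [CommRing A] [IsLocalRing A] {G : Type*} [Monoid G]

omit [IsLocalRing A] in
/-- A matrix intertwining two matrices with first column `(0, 1)` is `a + c • M'`. -/
theorem eq_add_smul_of_intertwine (γ M M' : Matrix (Fin 2) (Fin 2) A)
    (h1 : M 0 0 = 0) (h2 : M 1 0 = 1) (h1' : M' 0 0 = 0) (h2' : M' 1 0 = 1)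
    (h : γ * M = M' * γ) :
    γ = γ 0 0 • (1 : Matrix (Fin 2) (Fin 2) A) + γ 1 0 • M' := by
  have e00 := congrFun (congrFun h 0) 0
  have e10 := congrFun (congrFun h 1) 0
  simp only [Matrix.mul_apply, Fin.sum_univ_two, h1, h2, h1', h2', mul_zero, mul_one, zero_mul,
    one_mul, zero_add] at e00 e10
  ext i j
  fin_cases i <;> fin_cases j
  · simp [h1']
  · simp only [Fin.zero_eta, Fin.mk_one, Matrix.add_apply, Matrix.smul_apply, smul_eq_mul,
      Matrix.one_apply_ne (by decide : (0 : Fin 2) ≠ 1), mul_zero, zero_add]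
    rw [e00]; ring
  · simp [h2']
  · simp only [Fin.mk_one, Matrix.add_apply, Matrix.smul_apply, smul_eq_mul,
      Matrix.one_apply_eq, mul_one]
    rw [e10]; ring

theorem slice_unique
    (r r' : G →* Matrix (Fin 2) (Fin 2) A) (g1 g2 : G) (i0 j0 : Fin 2)
    (h1 : r g1 0 0 = 0) (h2 : r g1 1 0 = 1) (h1' : r' g1 0 0 = 0) (h2' : r' g1 1 0 = 1)
    (hc : r g2 i0 j0 = r' g2 i0 j0)
    (hunit : IsUnit ((r g2 * r g1 - r g1 * r g2) i0 j0))
    (hres : ∀ s i j, r s i j - r' s i j ∈ IsLocalRing.maximalIdeal A)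
    (γ : Matrix (Fin 2) (Fin 2) A) (hγ : IsUnit γ.det) (hconj : ∀ s, γ * r s = r' s * γ) :
    r = r' := by
  set M := r g1 with hM
  set M' := r' g1 with hM'
  set a := γ 0 0 with ha
  set c := γ 1 0 with hc'
  have hγform : γ = a • (1 : Matrix (Fin 2) (Fin 2) A) + c • M' :=
    eq_add_smul_of_intertwine γ M M' h1 h2 h1' h2' (hconj g1)
  have hγunit : IsUnit γ := (Matrix.isUnit_iff_isUnit_det γ).mpr hγ
  -- γ commutes with M'
  have hcomm : M' * γ = γ * M' := by
    rw [hγform]
    simp only [Matrix.mul_add, Matrix.add_mul, Matrix.mul_smul, Matrix.smul_mul, Matrix.mul_one,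
      Matrix.one_mul]
  have hMM' : M = M' := by
    have : γ * M = γ * M' := by rw [hconj g1, hcomm]
    exact hγunit.mul_left_cancel this
  have hγform' : γ = a • (1 : Matrix (Fin 2) (Fin 2) A) + c • M := by rw [hMM']; exact hγform
  -- the key identity
  have key : ∀ s, (r s - r' s) * γ = c • (r s * M - M * r s) := by
    intro s
    have h3 : r' s * γ = γ * r s := (hconj s).symm
    rw [Matrix.sub_mul, h3]
    rw [hγform']
    simp only [Matrix.mul_add, Matrix.add_mul, Matrix.mul_smul, Matrix.smul_mul, Matrix.mul_one,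
      Matrix.one_mul, smul_sub]
    abel
  -- c lies in the maximal ideal
  have hcm : c ∈ IsLocalRing.maximalIdeal A := by
    have h4 := congrFun (congrFun (key g2) i0) j0
    rw [Matrix.smul_apply, smul_eq_mul] at h4
    have h5 : ((r g2 - r' g2) * γ) i0 j0 ∈ IsLocalRing.maximalIdeal A := by
      rw [Matrix.mul_apply]
      refine Ideal.sum_mem _ fun l _ => ?_
      rw [Matrix.sub_apply]
      exact Ideal.mul_mem_right _ _ (hres g2 i0 l)
    rw [h4] at h5
    obtain ⟨u, hu⟩ := hunit
    have h6 : c = c * (r g2 * M - M * r g2) i0 j0 * ↑u⁻¹ := by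
      rw [← hu, mul_assoc, Units.mul_inv, mul_one]
    rw [h6]
    exact Ideal.mul_mem_right _ _ h5
  -- a is a unit
  have haunit : IsUnit a := by
    have hdet : γ.det = a * a + c * (a * M 1 1 - c * M 0 1) := by
      rw [hγform', Matrix.det_fin_two]
      simp only [Matrix.add_apply, Matrix.smul_apply, smul_eq_mul, Matrix.one_apply_eq,
        Matrix.one_apply_ne (by decide : (0 : Fin 2) ≠ 1),
        Matrix.one_apply_ne (by decide : (1 : Fin 2) ≠ 0), h1, h2]
      ring
    by_contra hna
    have ham : a ∈ IsLocalRing.maximalIdeal A := (IsLocalRing.mem_maximalIdeal a).mpr hna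
    have : γ.det ∈ IsLocalRing.maximalIdeal A := by
      rw [hdet]
      exact Ideal.add_mem _ (Ideal.mul_mem_left _ _ ham) (Ideal.mul_mem_right _ _ hcm)
    exact (IsLocalRing.mem_maximalIdeal _).mp this hγ
  -- c = 0
  have hc0 : c = 0 := by
    have h4 : (r g2 - r' g2) * γ * γ.adjugate = c • ((r g2 * M - M * r g2) * γ.adjugate) := by
      rw [key g2, Matrix.smul_mul]
    rw [Matrix.mul_assoc, Matrix.mul_adjugate, Matrix.mul_smul, Matrix.mul_one] at h4
    have h5 := congrFun (congrFun h4 i0) j0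
    rw [Matrix.smul_apply, Matrix.sub_apply, hc, sub_self, smul_zero, Matrix.smul_apply,
      smul_eq_mul] at h5
    -- the cofactor entry is a unit
    have hadj : γ.adjugate = a • (1 : Matrix (Fin 2) (Fin 2) A) + c • M.adjugate := by
      rw [hγform', Matrix.adjugate_fin_two, Matrix.adjugate_fin_two]
      ext i j
      fin_cases i <;> fin_cases j <;>
        simp [h1, h2]
    have h6 : ((r g2 * M - M * r g2) * γ.adjugate) i0 j0 =
        a * (r g2 * M - M * r g2) i0 j0 + c * ((r g2 * M - M * r g2) * M.adjugate) i0 j0 := by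
      rw [hadj, Matrix.mul_add, Matrix.mul_smul, Matrix.mul_smul, Matrix.mul_one,
        Matrix.add_apply, Matrix.smul_apply, Matrix.smul_apply, smul_eq_mul, smul_eq_mul]
    have h7 : IsUnit (((r g2 * M - M * r g2) * γ.adjugate) i0 j0) := by
      by_contra hnu
      have hm : ((r g2 * M - M * r g2) * γ.adjugate) i0 j0 ∈ IsLocalRing.maximalIdeal A :=
        (IsLocalRing.mem_maximalIdeal _).mpr hnu
      rw [h6] at hm
      have hm2 : a * (r g2 * M - M * r g2) i0 j0 ∈ IsLocalRing.maximalIdeal A := by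
        have := Ideal.sub_mem _ hm (Ideal.mul_mem_right
          (((r g2 * M - M * r g2) * M.adjugate) i0 j0) _ hcm)
        simpa using this
      exact (IsLocalRing.mem_maximalIdeal _).mp hm2 (haunit.mul hunit)
    obtain ⟨u, hu⟩ := h7
    have h8 : c = c * ((r g2 * M - M * r g2) * γ.adjugate) i0 j0 * ↑u⁻¹ := by
      rw [← hu, mul_assoc, Units.mul_inv, mul_one]
    rw [h8, ← h5, zero_mul]
  -- conclude
  have hγscalar : γ = a • (1 : Matrix (Fin 2) (Fin 2) A) := by
    rw [hγform', hc0, zero_smul, add_zero]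
  apply MonoidHom.ext
  intro s
  have h9 := hconj s
  rw [hγscalar, Matrix.smul_mul, Matrix.mul_smul, Matrix.one_mul, Matrix.mul_one] at h9
  obtain ⟨u, hu⟩ := haunit
  have h10 : (↑u⁻¹ : A) • (a • r s) = (↑u⁻¹ : A) • (a • r' s) := by rw [h9]
  rw [smul_smul, smul_smul, ← hu, Units.inv_mul, one_smul, one_smul] at h10
  exact h10

end unique

section frame

open scoped TensorProduct

variable {k : Type} [Field k]

/-- Absolute irreducibility forbids a common eigenvector: some `ρ(g) v` is not a multiple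
of `v`. -/
theorem exists_linearIndependent (ρbar : ResidualGaloisRep k)
    (habs : ρbar.IsAbsolutelyIrreducible) :
    ∃ (g : AlgebraicClosure ℚ ≃ₐ[ℚ] AlgebraicClosure ℚ) (v : ρbar.V),
      LinearIndependent k ![v, ρbar.ρ g v] := by
  classical
  by_contra hcon
  push Not at hcon
  let b := Module.finBasisOfFinrankEq k ρbar.V ρbar.finrank_eq
  have hv0 : b 0 ≠ 0 := b.ne_zero 0
  have hmul : ∀ g, ∃ a : k, ρbar.ρ g (b 0) = a • b 0 := by
    intro g
    have h := hcon g (b 0)
    rw [LinearIndependent.pair_iff] at h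
    push Not at h
    obtain ⟨s, t, hst, hne⟩ := h
    have ht : t ≠ 0 := by
      intro ht0
      rw [ht0, zero_smul, add_zero] at hst
      have hs : s = 0 := by
        rcases smul_eq_zero.mp hst with h | h
        · exact h
        · exact absurd h hv0
      exact hne hs ht0
    refine ⟨-(t⁻¹ * s), ?_⟩
    have e1 : ρbar.ρ g (b 0) = t⁻¹ • (t • ρbar.ρ g (b 0)) := by
      rw [smul_smul, inv_mul_cancel₀ ht, one_smul]
    have e2 : t • ρbar.ρ g (b 0) = -(s • b 0) := eq_neg_of_add_eq_zero_right hst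
    rw [e1, e2, smul_neg, smul_smul, neg_smul]
  -- a stable line in the base change
  have hstab : ∀ σ : AlgebraicClosure ℚ ≃ₐ[ℚ] AlgebraicClosure ℚ,
      ∀ x ∈ Submodule.span (AlgebraicClosure k) {(1 : AlgebraicClosure k) ⊗ₜ[k] b 0},
        (ρbar.ρ σ).baseChange (AlgebraicClosure k) x ∈
          Submodule.span (AlgebraicClosure k) {(1 : AlgebraicClosure k) ⊗ₜ[k] b 0} := by
    intro σ x hx
    obtain ⟨c, rfl⟩ := Submodule.mem_span_singleton.mp hx
    obtain ⟨a, ha⟩ := hmul σ
    have e : (ρbar.ρ σ).baseChange (AlgebraicClosure k) (c • (1 : AlgebraicClosure k) ⊗ₜ[k] b 0) =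
        (c * algebraMap k (AlgebraicClosure k) a) • ((1 : AlgebraicClosure k) ⊗ₜ[k] b 0) := by
      rw [map_smul, LinearMap.baseChange_tmul, ha, TensorProduct.tmul_smul,
        ← algebraMap_smul (AlgebraicClosure k) a, smul_smul]
    rw [e]
    exact Submodule.smul_mem _ _ (Submodule.subset_span rfl)
  rcases habs (Submodule.span (AlgebraicClosure k) {(1 : AlgebraicClosure k) ⊗ₜ[k] b 0}) hstab
    with h | h
  · have hmem : (1 : AlgebraicClosure k) ⊗ₜ[k] b 0 ∈
        Submodule.span (AlgebraicClosure k) {(1 : AlgebraicClosure k) ⊗ₜ[k] b 0} :=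
      Submodule.subset_span rfl
    rw [h, Submodule.mem_bot] at hmem
    have hb := (Algebra.TensorProduct.basis (AlgebraicClosure k) b).ne_zero 0
    rw [Algebra.TensorProduct.basis_apply] at hb
    exact hb hmem
  · have h1 : Module.finrank (AlgebraicClosure k)
        (Submodule.span (AlgebraicClosure k) {(1 : AlgebraicClosure k) ⊗ₜ[k] b 0}) ≤ 1 := by
      refine (finrank_span_le_card _).trans ?_
      simp
    have h2 : Module.finrank (AlgebraicClosure k)
        (Submodule.span (AlgebraicClosure k) {(1 : AlgebraicClosure k) ⊗ₜ[k] b 0}) = 2 := by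
      rw [h, finrank_top, Module.finrank_baseChange, ρbar.finrank_eq]
    omega

/-- The residual frame: a basis in which `ρbar g1` has first column `(0, 1)` and some
`ρbar g2` does not commute with `ρbar g1`. -/
theorem exists_frame (ρbar : ResidualGaloisRep k) (habs : ρbar.IsAbsolutelyIrreducible) :
    ∃ (b : Module.Basis (Fin 2) k ρbar.V)
      (g1 g2 : AlgebraicClosure ℚ ≃ₐ[ℚ] AlgebraicClosure ℚ) (i0 j0 : Fin 2),
      LinearMap.toMatrix b b (ρbar.ρ g1) 0 0 = 0 ∧
      LinearMap.toMatrix b b (ρbar.ρ g1) 1 0 = 1 ∧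
      (LinearMap.toMatrix b b (ρbar.ρ g2) * LinearMap.toMatrix b b (ρbar.ρ g1) -
        LinearMap.toMatrix b b (ρbar.ρ g1) * LinearMap.toMatrix b b (ρbar.ρ g2)) i0 j0 ≠ 0 := by
  classical
  obtain ⟨g1, v, hli⟩ := exists_linearIndependent ρbar habs
  have hcard : Fintype.card (Fin 2) = Module.finrank k ρbar.V := by
    rw [ρbar.finrank_eq]; rfl
  obtain ⟨b, hb⟩ : ∃ b : Module.Basis (Fin 2) k ρbar.V, ⇑b = ![v, ρbar.ρ g1 v] :=
    ⟨basisOfLinearIndependentOfCardEqFinrank hli hcard,
      coe_basisOfLinearIndependentOfCardEqFinrank hli hcard⟩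
  have hb0 : b 0 = v := by rw [hb]; rfl
  have hb1 : b 1 = ρbar.ρ g1 v := by rw [hb]; rfl
  have hcol : ∀ i, LinearMap.toMatrix b b (ρbar.ρ g1) i 0 = if i = 1 then 1 else 0 := by
    intro i
    rw [LinearMap.toMatrix_apply, hb0, ← hb1, b.repr_self, Finsupp.single_apply]
    simp [eq_comm]
  -- some g2 does not commute with g1
  have hnc : ∃ g2, ρbar.ρ g2 * ρbar.ρ g1 ≠ ρbar.ρ g1 * ρbar.ρ g2 := by
    by_contra hall
    push Not at hall
    have hfin : Module.finrank (AlgebraicClosure k) (AlgebraicClosure k ⊗[k] ρbar.V) = 2 := by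
      rw [Module.finrank_baseChange, ρbar.finrank_eq]
    have hnt : Nontrivial (AlgebraicClosure k ⊗[k] ρbar.V) :=
      Module.nontrivial_of_finrank_pos (R := AlgebraicClosure k) (by rw [hfin]; norm_num)
    obtain ⟨μ, hμ⟩ := Module.End.exists_eigenvalue
      ((ρbar.ρ g1).baseChange (AlgebraicClosure k))
    obtain ⟨w, hw⟩ := hμ.exists_hasEigenvector
    have hstab : ∀ σ : AlgebraicClosure ℚ ≃ₐ[ℚ] AlgebraicClosure ℚ,
        ∀ x ∈ Module.End.eigenspace ((ρbar.ρ g1).baseChange (AlgebraicClosure k)) μ,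
          (ρbar.ρ σ).baseChange (AlgebraicClosure k) x ∈
            Module.End.eigenspace ((ρbar.ρ g1).baseChange (AlgebraicClosure k)) μ := by
      intro σ x hx
      rw [Module.End.mem_eigenspace_iff] at hx ⊢
      have hc : (ρbar.ρ g1).baseChange (AlgebraicClosure k) *
          (ρbar.ρ σ).baseChange (AlgebraicClosure k) =
          (ρbar.ρ σ).baseChange (AlgebraicClosure k) *
            (ρbar.ρ g1).baseChange (AlgebraicClosure k) := by
        rw [← LinearMap.baseChange_mul, ← LinearMap.baseChange_mul, hall σ]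
      have hc' := congrArg (fun F : Module.End (AlgebraicClosure k)
        (AlgebraicClosure k ⊗[k] ρbar.V) => F x) hc
      simp only [Module.End.mul_apply] at hc'
      rw [hc', hx, map_smul]
    have hEtop := (habs _ hstab).resolve_left (fun hbot => hw.2 (by
      have hw1 : w ∈ Module.End.eigenspace
          ((ρbar.ρ g1).baseChange (AlgebraicClosure k)) μ := hw.1
      rw [hbot, Submodule.mem_bot] at hw1
      exact hw1))
    have hv : (1 : AlgebraicClosure k) ⊗ₜ[k] v ∈
        Module.End.eigenspace ((ρbar.ρ g1).baseChange (AlgebraicClosure k)) μ := by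
      rw [hEtop]; exact Submodule.mem_top
    rw [Module.End.mem_eigenspace_iff, LinearMap.baseChange_tmul] at hv
    have hB0 : Algebra.TensorProduct.basis (AlgebraicClosure k) b 0 =
        (1 : AlgebraicClosure k) ⊗ₜ[k] v := by
      rw [Algebra.TensorProduct.basis_apply, hb0]
    have hB1 : Algebra.TensorProduct.basis (AlgebraicClosure k) b 1 =
        (1 : AlgebraicClosure k) ⊗ₜ[k] (ρbar.ρ g1 v) := by
      rw [Algebra.TensorProduct.basis_apply, hb1]
    have hrel : Algebra.TensorProduct.basis (AlgebraicClosure k) b 1 =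
        μ • Algebra.TensorProduct.basis (AlgebraicClosure k) b 0 := by
      rw [hB0, hB1, hv]
    have h2 := congrArg
      (fun x => (Algebra.TensorProduct.basis (AlgebraicClosure k) b).repr x 1) hrel
    simp at h2
  obtain ⟨g2, hg2⟩ := hnc
  have hmat : LinearMap.toMatrix b b (ρbar.ρ g2) * LinearMap.toMatrix b b (ρbar.ρ g1) -
      LinearMap.toMatrix b b (ρbar.ρ g1) * LinearMap.toMatrix b b (ρbar.ρ g2) ≠ 0 := by
    rw [← LinearMap.toMatrix_mul, ← LinearMap.toMatrix_mul, ← map_sub]
    intro h0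
    apply hg2
    have := (LinearMap.toMatrix b b).injective (h0.trans (map_zero _).symm)
    exact sub_eq_zero.mp this
  obtain ⟨i0, j0, hij⟩ : ∃ i0 j0,
      (LinearMap.toMatrix b b (ρbar.ρ g2) * LinearMap.toMatrix b b (ρbar.ρ g1) -
        LinearMap.toMatrix b b (ρbar.ρ g1) * LinearMap.toMatrix b b (ρbar.ρ g2)) i0 j0 ≠ 0 := by
    by_contra hall
    push Not at hall
    exact hmat (Matrix.ext hall)
  exact ⟨b, g1, g2, i0, j0, by rw [hcol]; simp, by rw [hcol]; simp, hij⟩

end frame

end Fermat.Agent.S53_Slice
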