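import Mathlib
import Fermat.Agent.S53_Defs
import Fermat.Agent.S53_Slice

set_option autoImplicit false

/-!
The interface of normalized lifts (`IsNormLift`) of a frame: existence of frames, rigidity,
functoriality along local algebra maps, reflection along injective maps, and the residual
representation itself.
-/

namespace Fermat.Agent.S53_NormLift

open Fermat.Agent.S53_Defs IsLocalRing

section frame

variable (𝒪 : Type) [CommRing 𝒪] [IsLocalRing 𝒪]

/-- An absolutely irreducible residual representation admits a frame. -/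
theorem nonempty_frame (ρbar : ResidualGaloisRep (ResidueField 𝒪))
    (habs : ρbar.IsAbsolutelyIrreducible) : Nonempty (Frame 𝒪 ρbar) := by
  classical
  obtain ⟨b, g1, g2, i0, j0, h1, h2, h3⟩ := S53_Slice.exists_frame ρbar habs
  let rbar : Gal →* Matrix (Fin 2) (Fin 2) (ResidueField 𝒪) :=
    { toFun := fun σ => LinearMap.toMatrix b b (ρbar.ρ σ)
      map_one' := by rw [map_one]; exact LinearMap.toMatrix_one b
      map_mul' := fun σ τ => by rw [map_mul, LinearMap.toMatrix_mul] }
  obtain ⟨c0, hc0⟩ := IsLocalRing.residue_surjective (rbar g2 i0 j0)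
  exact ⟨{ basis := b, rbar := rbar, rbar_eq := fun σ => rfl, g₁ := g1, g₂ := g2, i₀ := i0,
           j₀ := j0, c₀ := c0, g₁_00 := h1, g₁_10 := h2, comm_ne := h3, c₀_spec := hc0 }⟩

end frame

section normLift

variable {𝒪 : Type} [CommRing 𝒪] [IsLocalRing 𝒪]
variable {ρbar : ResidualGaloisRep (ResidueField 𝒪)} (F : Frame 𝒪 ρbar)
variable {A : Type} [CommRing A] [IsLocalRing A] [Algebra 𝒪 A] [IsLocalHom (algebraMap 𝒪 A)]

/-- The residual condition in terms of lifts to `𝒪`. -/
theorem residue_eq_map_iff (x : A) (z : ResidueField 𝒪) :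
    residue A x = ResidueField.map (algebraMap 𝒪 A) z ↔
      ∀ y : 𝒪, residue 𝒪 y = z → x - algebraMap 𝒪 A y ∈ maximalIdeal A := by
  constructor
  · intro h y hy
    rw [← residue_eq_zero_iff, map_sub, h, ← hy, ResidueField.map_residue, sub_self]
  · intro h
    obtain ⟨y, hy⟩ := residue_surjective z
    have h1 := h y hy
    rw [← residue_eq_zero_iff, map_sub, sub_eq_zero] at h1
    rw [h1, ← hy, ResidueField.map_residue]

variable {F}

theorem normLift_residue_mul_apply {r : Gal →* Matrix (Fin 2) (Fin 2) A} (h : IsNormLift F r)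
    (σ τ : Gal) (i j : Fin 2) :
    residue A ((r σ * r τ) i j) =
      ResidueField.map (algebraMap 𝒪 A) ((F.rbar σ * F.rbar τ) i j) := by
  simp only [Matrix.mul_apply, map_sum, map_mul, h.lifts]

/-- The commutator entry of a normalized lift is a unit. -/
theorem normLift_isUnit_comm {r : Gal →* Matrix (Fin 2) (Fin 2) A} (h : IsNormLift F r) :
    IsUnit ((r F.g₂ * r F.g₁ - r F.g₁ * r F.g₂) F.i₀ F.j₀) := by
  rw [← residue_ne_zero_iff_isUnit, Matrix.sub_apply, map_sub, normLift_residue_mul_apply h,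
    normLift_residue_mul_apply h, ← map_sub, ← Matrix.sub_apply]
  exact (map_ne_zero _).mpr F.comm_ne

/-- Two normalized lifts differ entrywise by elements of the maximal ideal. -/
theorem normLift_sub_mem {r r' : Gal →* Matrix (Fin 2) (Fin 2) A} (h : IsNormLift F r)
    (h' : IsNormLift F r') (σ : Gal) (i j : Fin 2) : r σ i j - r' σ i j ∈ maximalIdeal A := by
  rw [← residue_eq_zero_iff, map_sub, h.lifts, h'.lifts, sub_self]

/-- Rigidity: conjugate normalized lifts are equal. -/
theorem normLift_eq_of_conj {r r' : Gal →* Matrix (Fin 2) (Fin 2) A} (h : IsNormLift F r)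
    (h' : IsNormLift F r') (γ : Matrix (Fin 2) (Fin 2) A) (hγ : IsUnit γ.det)
    (hconj : ∀ σ, γ * r σ = r' σ * γ) : r = r' :=
  S53_Slice.slice_unique r r' F.g₁ F.g₂ F.i₀ F.j₀ h.g₁_00 h.g₁_10 h'.g₁_00 h'.g₁_10
    (h.g₂_c₀.trans h'.g₂_c₀.symm) (normLift_isUnit_comm h) (normLift_sub_mem h h') γ hγ hconj

variable {B : Type} [CommRing B] [IsLocalRing B] [Algebra 𝒪 B] [IsLocalHom (algebraMap 𝒪 B)]

/-- Normalized lifts are stable under local algebra homomorphisms. -/
theorem normLift_map {r : Gal →* Matrix (Fin 2) (Fin 2) A} (h : IsNormLift F r)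
    (φ : A →ₐ[𝒪] B) (hφ : IsLocalHom (φ : A →+* B)) :
    IsNormLift F (mapMat (φ : A →+* B) r) where
  lifts σ i j := by
    rw [residue_eq_map_iff]
    intro y hy
    have h1 := (residue_eq_map_iff (r σ i j) (F.rbar σ i j)).mp (h.lifts σ i j) y hy
    have h2 : mapMat (φ : A →+* B) r σ i j - algebraMap 𝒪 B y =
        (φ : A →+* B) (r σ i j - algebraMap 𝒪 A y) := by
      rw [mapMat_apply, map_sub]
      simp
    rw [h2]
    exact (mem_maximalIdeal _).mpr (map_nonunit (φ : A →+* B) _ ((mem_maximalIdeal _).mp h1))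
  g₁_00 := by rw [mapMat_apply, h.g₁_00, map_zero]
  g₁_10 := by rw [mapMat_apply, h.g₁_10, map_one]
  g₂_c₀ := by rw [mapMat_apply, h.g₂_c₀]; simp

/-- The residual condition is reflected by algebra homomorphisms. -/
theorem lifts_of_map {r : Gal →* Matrix (Fin 2) (Fin 2) A} (φ : A →ₐ[𝒪] B)
    (h : ∀ σ i j, residue B (mapMat (φ : A →+* B) r σ i j) =
      ResidueField.map (algebraMap 𝒪 B) (F.rbar σ i j)) (σ : Gal) (i j : Fin 2) :
    residue A (r σ i j) = ResidueField.map (algebraMap 𝒪 A) (F.rbar σ i j) := by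
  rw [residue_eq_map_iff]
  intro y hy
  have h1 := (residue_eq_map_iff _ _).mp (h σ i j) y hy
  have h2 : mapMat (φ : A →+* B) r σ i j - algebraMap 𝒪 B y =
      (φ : A →+* B) (r σ i j - algebraMap 𝒪 A y) := by
    rw [mapMat_apply, map_sub]
    simp
  rw [h2] at h1
  by_contra hx
  have hu : IsUnit (r σ i j - algebraMap 𝒪 A y) := by
    by_contra hnu
    exact hx ((mem_maximalIdeal _).mpr hnu)
  exact (mem_maximalIdeal _).mp h1 (hu.map (φ : A →+* B))

/-- Normalized lifts are reflected by injective algebra homomorphisms. -/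
theorem normLift_of_map_injective {r : Gal →* Matrix (Fin 2) (Fin 2) A} (φ : A →ₐ[𝒪] B)
    (hinj : Function.Injective φ)
    (h : IsNormLift F (mapMat (φ : A →+* B) r)) : IsNormLift F r where
  lifts := lifts_of_map φ h.lifts
  g₁_00 := hinj (by
    have := h.g₁_00
    rw [mapMat_apply] at this
    rw [map_zero]; exact this)
  g₁_10 := hinj (by
    have := h.g₁_10
    rw [mapMat_apply] at this
    rw [map_one]; exact this)
  g₂_c₀ := hinj (by
    have := h.g₂_c₀
    rw [mapMat_apply] at this
    rw [AlgHom.commutes]; exact this)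

variable {C : Type} [CommRing C] [IsLocalRing C] [Algebra 𝒪 C] [IsLocalHom (algebraMap 𝒪 C)]

/-- Normalized lifts are reflected by jointly injective pairs of algebra
homomorphisms (fibre products). -/
theorem normLift_of_map_pair {r : Gal →* Matrix (Fin 2) (Fin 2) A} (φ : A →ₐ[𝒪] B)
    (ψ : A →ₐ[𝒪] C)
    (hinj : Function.Injective (fun x => (φ x, ψ x)))
    (h : IsNormLift F (mapMat (φ : A →+* B) r)) (h' : IsNormLift F (mapMat (ψ : A →+* C) r)) :
    IsNormLift F r where
  lifts := lifts_of_map φ h.lifts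
  g₁_00 := hinj (by
    have h1 := h.g₁_00
    have h2 := h'.g₁_00
    rw [mapMat_apply] at h1 h2
    apply Prod.ext
    · show φ (r F.g₁ 0 0) = φ 0
      rw [map_zero]; exact h1
    · show ψ (r F.g₁ 0 0) = ψ 0
      rw [map_zero]; exact h2)
  g₁_10 := hinj (by
    have h1 := h.g₁_10
    have h2 := h'.g₁_10
    rw [mapMat_apply] at h1 h2
    apply Prod.ext
    · show φ (r F.g₁ 1 0) = φ 1
      rw [map_one]; exact h1
    · show ψ (r F.g₁ 1 0) = ψ 1
      rw [map_one]; exact h2)
  g₂_c₀ := hinj (by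
    have h1 := h.g₂_c₀
    have h2 := h'.g₂_c₀
    rw [mapMat_apply] at h1 h2
    apply Prod.ext
    · show φ (r F.g₂ F.i₀ F.j₀) = φ (algebraMap 𝒪 A F.c₀)
      rw [AlgHom.commutes]; exact h1
    · show ψ (r F.g₂ F.i₀ F.j₀) = ψ (algebraMap 𝒪 A F.c₀)
      rw [AlgHom.commutes]; exact h2)

end normLift

section residual

variable {𝒪 : Type} [CommRing 𝒪] [IsLocalRing 𝒪]
variable {ρbar : ResidualGaloisRep (ResidueField 𝒪)} (F : Frame 𝒪 ρbar)

/-- The residual matrix family is a normalized lift of its own frame over the residue field. -/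
theorem isNormLift_rbar [IsLocalHom (algebraMap 𝒪 (ResidueField 𝒪))] :
    IsNormLift F (A := ResidueField 𝒪) F.rbar where
  lifts σ i j := by
    rw [residue_eq_map_iff]
    intro y hy
    rw [ResidueField.algebraMap_eq, hy, sub_self]
    exact Ideal.zero_mem _
  g₁_00 := F.g₁_00
  g₁_10 := F.g₁_10
  g₂_c₀ := by rw [ResidueField.algebraMap_eq]; exact F.c₀_spec.symm

end residual

end Fermat.Agent.S53_NormLift
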