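import Mathlib
import Fermat.Agent.S53_Defs
import Fermat.Agent.S53_NormLift
import Fermat.Agent.S53_Exist
import Fermat.Agent.S53_Mat

set_option autoImplicit false
set_option linter.overlappingInstances false

/-!
Existence of normalized lifts: over a Henselian local `𝒪`-algebra every lift of the residual
representation is equivalent to the representation attached to a (unique) normalized lift of a
frame.
-/

namespace Fermat.Agent.S53_Lift

open Fermat.Agent.S53_Defs Fermat.Agent.S53_NormLift IsLocalRing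

section matrix

variable {A : Type} [CommRing A] [IsLocalRing A]

/-- A matrix congruent to `1` modulo the maximal ideal has residue `1`. -/
theorem map_residue_eq_one (P : Matrix (Fin 2) (Fin 2) A)
    (hP : ∀ i j, (P - 1) i j ∈ maximalIdeal A) : (residue A).mapMatrix P = 1 := by
  ext i j
  have h := (residue_eq_zero_iff _).mpr (hP i j)
  rw [Matrix.sub_apply, map_sub, sub_eq_zero] at h
  rw [RingHom.mapMatrix_apply, Matrix.map_apply, h]
  by_cases hij : i = j
  · subst hij; simp
  · simp [Matrix.one_apply_ne hij]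

/-- A matrix congruent to `1` modulo the maximal ideal is invertible. -/
theorem isUnit_det_of_sub_one_mem (P : Matrix (Fin 2) (Fin 2) A)
    (hP : ∀ i j, (P - 1) i j ∈ maximalIdeal A) : IsUnit P.det := by
  apply isUnit_of_map_unit (residue A)
  rw [RingHom.map_det, map_residue_eq_one P hP, Matrix.det_one]
  exact isUnit_one

/-- Conjugation by a matrix congruent to `1` does not change residues. -/
theorem residue_eq_of_conj (P X X' : Matrix (Fin 2) (Fin 2) A)
    (hP : ∀ i j, (P - 1) i j ∈ maximalIdeal A) (h : P * X' = X * P) (i j : Fin 2) :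
    residue A (X' i j) = residue A (X i j) := by
  have h1 := congrArg (residue A).mapMatrix h
  rw [map_mul, map_mul, map_residue_eq_one P hP, one_mul, mul_one] at h1
  exact congrFun (congrFun h1 i) j

end matrix

section lift

variable {𝒪 : Type} [CommRing 𝒪] [IsLocalRing 𝒪]
variable {ρbar : ResidualGaloisRep (ResidueField 𝒪)} (F : Frame 𝒪 ρbar)
variable {A : Type} [CommRing A] [IsLocalRing A] [Algebra 𝒪 A] [IsLocalHom (algebraMap 𝒪 A)]

/-- The commutator entry of a matrix family reducing to the frame is a unit. -/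
theorem isUnit_comm_of_lifts (r : Gal →* Matrix (Fin 2) (Fin 2) A)
    (h : ∀ σ i j, residue A (r σ i j) = ResidueField.map (algebraMap 𝒪 A) (F.rbar σ i j)) :
    IsUnit ((r F.g₂ * r F.g₁ - r F.g₁ * r F.g₂) F.i₀ F.j₀) := by
  have hmul : ∀ σ τ i j, residue A ((r σ * r τ) i j) =
      ResidueField.map (algebraMap 𝒪 A) ((F.rbar σ * F.rbar τ) i j) := by
    intro σ τ i j
    simp only [Matrix.mul_apply, map_sum, map_mul, h]
  rw [← residue_ne_zero_iff_isUnit, Matrix.sub_apply, map_sub, hmul, hmul, ← map_sub,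
    ← Matrix.sub_apply]
  exact (map_ne_zero _).mpr F.comm_ne

/-- Equivalent normalized lifts are equal. -/
theorem normLift_unique_of_isEquiv {r r' : Gal →* Matrix (Fin 2) (Fin 2) A} (hr : MatCont r)
    (hr' : MatCont r') (h : IsNormLift F r) (h' : IsNormLift F r')
    (he : (ofMatrix r hr).IsEquiv (ofMatrix r' hr')) : r = r' := by
  obtain ⟨P, hP, hconj⟩ := (S53_Mat.ofMatrix_isEquiv_iff r r' hr hr').mp he
  exact normLift_eq_of_conj h h' P hP hconj

/-- A matrix family reducing to the frame is conjugate, by a matrix congruent to `1`, to a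
normalized lift (over a Henselian local algebra). -/
theorem exists_normLift_of_lifts [HenselianLocalRing A] (r₁ : Gal →* Matrix (Fin 2) (Fin 2) A)
    (hlift₁ : ∀ σ i j, residue A (r₁ σ i j) = ResidueField.map (algebraMap 𝒪 A) (F.rbar σ i j)) :
    ∃ (P : Matrix (Fin 2) (Fin 2) A) (r : Gal →* Matrix (Fin 2) (Fin 2) A),
      (∀ i j, (P - 1) i j ∈ maximalIdeal A) ∧ IsUnit P.det ∧ (∀ g, P * r g = r₁ g * P) ∧
        IsNormLift F r := by
  have hm1 : r₁ F.g₁ 0 0 ∈ maximalIdeal A := by
    rw [← residue_eq_zero_iff, hlift₁, F.g₁_00, map_zero]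
  have hm2 : r₁ F.g₁ 1 0 - 1 ∈ maximalIdeal A := by
    rw [← residue_eq_zero_iff, map_sub, hlift₁, F.g₁_10, map_one, map_one, sub_self]
  have hmc : r₁ F.g₂ F.i₀ F.j₀ - algebraMap 𝒪 A F.c₀ ∈ maximalIdeal A := by
    rw [← residue_eq_zero_iff, map_sub, hlift₁, ← F.c₀_spec, ResidueField.map_residue, sub_self]
  have hunit := isUnit_comm_of_lifts F r₁ hlift₁
  obtain ⟨P, r, hP, hconj, h00, h10, hc⟩ := S53_Exist.exists_slice r₁ F.g₁ F.g₂ F.i₀ F.j₀
    (algebraMap 𝒪 A F.c₀) hm1 hm2 hmc hunit
  refine ⟨P, r, hP, isUnit_det_of_sub_one_mem P hP, hconj, ⟨fun σ i j => ?_, h00, h10, hc⟩⟩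
  rw [residue_eq_of_conj P (r₁ σ) (r σ) hP (hconj σ) i j, hlift₁]

/-- Existence of normalized lifts over Henselian local algebras: every lift of the residual
representation is equivalent to the matrix model of a normalized lift. -/
theorem exists_normLift [HenselianLocalRing A] (ρ : GaloisRepAdic A)
    (hres : ρ.residual.IsEquiv (ρbar.baseChangeAlong (ResidueField.map (algebraMap 𝒪 A)))) :
    ∃ (r : Gal →* Matrix (Fin 2) (Fin 2) A) (hr : MatCont r),
      IsNormLift F r ∧ ρ.IsEquiv (ofMatrix r hr) := by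
  obtain ⟨r₁, hr₁, ⟨e₁⟩, hlift₁⟩ := S53_Mat.exists_ofMatrix_isEquiv_of_frame F ρ hres
  obtain ⟨P, r, -, hPdet, hconj, hnl⟩ := exists_normLift_of_lifts F r₁ hlift₁
  have hr : MatCont r := hr₁.of_conj P hPdet hconj
  refine ⟨r, hr, hnl, ?_⟩
  have h2 : (ofMatrix r₁ hr₁).IsEquiv (ofMatrix r hr) := by
    rw [S53_Mat.ofMatrix_isEquiv_iff]
    refine ⟨P⁻¹, Matrix.isUnit_nonsing_inv_det _ hPdet, fun g => ?_⟩
    calc P⁻¹ * r₁ g = P⁻¹ * (r₁ g * P) * P⁻¹ := by
          rw [Matrix.mul_assoc, Matrix.mul_assoc, Matrix.mul_nonsing_inv _ hPdet, Matrix.mul_one]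
      _ = P⁻¹ * (P * r g) * P⁻¹ := by rw [hconj g]
      _ = r g * P⁻¹ := by
          rw [← Matrix.mul_assoc, Matrix.nonsing_inv_mul _ hPdet, Matrix.one_mul]
  obtain ⟨e2⟩ := h2
  exact ⟨e₁.trans e2⟩

/-- Over a Henselian local algebra, the matrix models of normalized lifts are exactly the lifts
of the residual representation, up to equivalence; the normalized lift is unique. -/
theorem existsUnique_normLift [HenselianLocalRing A] (ρ : GaloisRepAdic A)
    (hres : ρ.residual.IsEquiv (ρbar.baseChangeAlong (ResidueField.map (algebraMap 𝒪 A)))) :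
    ∃! r : Gal →* Matrix (Fin 2) (Fin 2) A,
      IsNormLift F r ∧ ∃ hr : MatCont r, ρ.IsEquiv (ofMatrix r hr) := by
  obtain ⟨r, hr, hnl, ⟨e⟩⟩ := exists_normLift F ρ hres
  refine ⟨r, ⟨hnl, hr, ⟨e⟩⟩, ?_⟩
  rintro r' ⟨hnl', hr', ⟨e'⟩⟩
  exact normLift_unique_of_isEquiv F hr' hr hnl' hnl ⟨e'.symm.trans e⟩

/-- A local ring which is complete for its maximal ideal is Henselian. -/
theorem henselianLocalRing_of_isAdicComplete (B : Type*) [CommRing B] [IsLocalRing B]
    [IsAdicComplete (maximalIdeal B) B] : HenselianLocalRing B :=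
  { is_henselian := fun f hf a₀ h₁ h₂ =>
      HenselianRing.is_henselian (I := maximalIdeal B) f hf a₀ h₁ (h₂.map _) }

/-- Existence of normalized lifts over complete local algebras. -/
theorem exists_normLift_of_isAdicComplete [IsAdicComplete (maximalIdeal A) A]
    (ρ : GaloisRepAdic A)
    (hres : ρ.residual.IsEquiv (ρbar.baseChangeAlong (ResidueField.map (algebraMap 𝒪 A)))) :
    ∃ (r : Gal →* Matrix (Fin 2) (Fin 2) A) (hr : MatCont r),
      IsNormLift F r ∧ ρ.IsEquiv (ofMatrix r hr) :=
  haveI := henselianLocalRing_of_isAdicComplete A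
  exists_normLift F ρ hres

end lift

end Fermat.Agent.S53_Lift
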