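import Mathlib
import Fermat.Agent.S53_Defs
import Fermat.Agent.S53_Mat
import Fermat.Agent.S53_NormLift
import Fermat.Agent.S53_Lift
import Fermat.Agent.S53_Glue

set_option autoImplicit false

/-!
The interface `S53_Glue.Inputs F` is satisfied by every frame: this collects the facts proved in
`S53_Mat`, `S53_NormLift` and `S53_Lift`.
-/

namespace Fermat.Agent.S53_Bridge

open Fermat.Agent.S53_Defs IsLocalRing

variable {𝒪 : Type} [CommRing 𝒪] [IsLocalRing 𝒪] {ρbar : ResidualGaloisRep (ResidueField 𝒪)}

/-- Every frame satisfies the interface used by the Galois glue. -/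
theorem inputs (F : Frame 𝒪 ρbar) : S53_Glue.Inputs F where
  matCont_iff r := S53_Mat.matCont_iff r
  isEquiv_iff r r' hr hr' := S53_Mat.ofMatrix_isEquiv_iff r r' hr hr'
  baseChange φ hφ r hr _ := S53_Mat.ofMatrix_baseChangeAlong φ hφ r hr
  eq_of_conj _ _ h h' γ hγ hconj := S53_NormLift.normLift_eq_of_conj h h' γ hγ hconj
  exists_normLift ρ hres := S53_Lift.exists_normLift_of_isAdicComplete F ρ hres
  residual _ hr h := h.residual_isEquiv hr
  rbar_cont := S53_Mat.matCont_rbar F
  rbar_equiv _ := S53_Mat.ofResidual_isEquiv_ofMatrix_rbar F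

end Fermat.Agent.S53_Bridge
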