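import Mathlib
import Fermat.Agent.S53_Glue
import Fermat.Agent.S53_Local

set_option autoImplicit false

/-!
# Fibre products of normalized lifts (helper module for S53)

Two normalized lifts of type `𝒟` over Artinian test algebras `A₁`, `A₂` glue to a normalized
lift of type `𝒟` over the fibre product `A₁ ×_k A₂`.
-/

namespace Fermat.Agent.S53_Fibre

open IsLocalRing Fermat.Agent.S53_Defs Fermat.Agent.S53_Glue Fermat.Agent.S53_Local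

theorem exists_dLift_fibreProd {𝒪 : Type} [CommRing 𝒪] [IsLocalRing 𝒪] [Finite (ResidueField 𝒪)]
    {ρbar : ResidualGaloisRep (ResidueField 𝒪)}
    {𝒟 : ∀ ⦃A : Type⦄ [CommRing A] [IsLocalRing A] [Algebra 𝒪 A], GaloisRepAdic A → Prop}
    {F : Frame 𝒪 ρbar} (H : Inputs F) (h𝒟 : GaloisRep.IsDeformationCondition 𝒪 𝒟)
    {A₁ A₂ : Type} [CommRing A₁] [IsLocalRing A₁] [Algebra 𝒪 A₁] [IsLocalHom (algebraMap 𝒪 A₁)]
    [CommRing A₂] [IsLocalRing A₂] [Algebra 𝒪 A₂] [IsLocalHom (algebraMap 𝒪 A₂)]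
    (h₁ : GaloisRep.IsArtinianTestAlgebra 𝒪 A₁) (h₂ : GaloisRep.IsArtinianTestAlgebra 𝒪 A₂)
    {r₁ : Gal →* M2 A₁} {r₂ : Gal →* M2 A₂} (hD₁ : IsDLift 𝒟 F r₁) (hD₂ : IsDLift 𝒟 F r₂) :
    ∃ (B : Type) (_ : CommRing B) (_ : IsLocalRing B) (_ : Algebra 𝒪 B)
      (_ : IsLocalHom (algebraMap 𝒪 B)) (p₁ : B →ₐ[𝒪] A₁) (p₂ : B →ₐ[𝒪] A₂) (r : Gal →* M2 B),
      GaloisRep.IsArtinianTestAlgebra 𝒪 B ∧ (∀ b : B, p₁ b = 0 → p₂ b = 0 → b = 0) ∧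
      IsDLift 𝒟 F r ∧ mapMat (p₁ : B →+* A₁) r = r₁ ∧ mapMat (p₂ : B →+* A₂) r = r₂ := by
  obtain ⟨hN₁, hr₁, hd₁⟩ := hD₁
  obtain ⟨hN₂, hr₂, hd₂⟩ := hD₂
  have hloc : IsLocalRing (fibreProd 𝒪 A₁ A₂) := isLocalRing_fibreProd h₁ h₂
  have hB : GaloisRep.IsArtinianTestAlgebra 𝒪 (fibreProd 𝒪 A₁ A₂) := isArtinianTest_fibreProd h₁ h₂
  have hlh : IsLocalHom (algebraMap 𝒪 (fibreProd 𝒪 A₁ A₂)) := hB.isLocalHom
  have hp₁ : IsLocalHom (fibreProdFst 𝒪 A₁ A₂ : fibreProd 𝒪 A₁ A₂ →+* A₁) :=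
    isLocalHom_fibreProdFst h₁ h₂
  have hp₂ : IsLocalHom (fibreProdSnd 𝒪 A₁ A₂ : fibreProd 𝒪 A₁ A₂ →+* A₂) :=
    isLocalHom_fibreProdSnd h₁ h₂
  -- joint injectivity
  have hinj : ∀ b : fibreProd 𝒪 A₁ A₂, fibreProdFst 𝒪 A₁ A₂ b = 0 → fibreProdSnd 𝒪 A₁ A₂ b = 0 →
      b = 0 := by
    intro b hb1 hb2
    apply Subtype.ext
    exact Prod.ext hb1 hb2
  -- entries of the glued family
  have hmem : ∀ (σ : Gal) (i j : Fin 2), (r₁ σ i j, r₂ σ i j) ∈ fibreProd 𝒪 A₁ A₂ := by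
    intro σ i j
    obtain ⟨o, ho⟩ := residue_surjective (F.rbar σ i j)
    refine ⟨o, ?_, ?_⟩
    · show r₁ σ i j - algebraMap 𝒪 A₁ o ∈ maximalIdeal A₁
      rw [← residue_eq_zero_iff, map_sub, sub_eq_zero, hN₁.lifts, ← ho,
        ResidueField.map_residue]
    · show r₂ σ i j - algebraMap 𝒪 A₂ o ∈ maximalIdeal A₂
      rw [← residue_eq_zero_iff, map_sub, sub_eq_zero, hN₂.lifts, ← ho,
        ResidueField.map_residue]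
  let y : Gal → M2 (fibreProd 𝒪 A₁ A₂) := fun σ =>
    Matrix.of fun i j => (⟨(r₁ σ i j, r₂ σ i j), hmem σ i j⟩ : fibreProd 𝒪 A₁ A₂)
  obtain ⟨r, hry, hr1, hr2⟩ := exists_hom_of_pair
    (fibreProdFst 𝒪 A₁ A₂ : fibreProd 𝒪 A₁ A₂ →+* A₁)
    (fibreProdSnd 𝒪 A₁ A₂ : fibreProd 𝒪 A₁ A₂ →+* A₂) hinj y r₁ r₂
    (fun g => by ext i j; rfl) (fun g => by ext i j; rfl)
  have hentry : ∀ (σ : Gal) (i j : Fin 2),
      ((r σ i j : fibreProd 𝒪 A₁ A₂) : A₁ × A₂) = (r₁ σ i j, r₂ σ i j) := by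
    intro σ i j
    rw [hry σ]
    rfl
  -- normalized
  have hN : IsNormLift F r := by
    have hN' : IsNormLift F (mapMat (fibreProdFst 𝒪 A₁ A₂ : fibreProd 𝒪 A₁ A₂ →+* A₁) r) := by
      rw [hr1]; exact hN₁
    refine normLift_of_map (fibreProdFst 𝒪 A₁ A₂) hp₁ hN' ?_ ?_ ?_
    · apply Subtype.ext
      rw [hentry, hN₁.g₁_00, hN₂.g₁_00]
      rfl
    · apply Subtype.ext
      rw [hentry, hN₁.g₁_10, hN₂.g₁_10]
      rfl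
    · apply Subtype.ext
      rw [hentry, hN₁.g₂_c₀, hN₂.g₂_c₀]
      rfl
  -- continuity
  have hA₁ := h₁.isArtinian
  have hA₂ := h₂.isArtinian
  have hr : MatCont r := by
    obtain ⟨L₁, hL₁, hL₁'⟩ := eventually_one_of_matCont H r₁ hr₁
    obtain ⟨L₂, hL₂, hL₂'⟩ := eventually_one_of_matCont H r₂ hr₂
    refine matCont_of_eventually_one H r ⟨L₁ ⊔ L₂, IntermediateField.finiteDimensional_sup L₁ L₂,
      fun σ hσ => ?_⟩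
    have e1 : r₁ σ = 1 := hL₁' σ fun x hx => hσ x ((le_sup_left : L₁ ≤ L₁ ⊔ L₂) hx)
    have e2 : r₂ σ = 1 := hL₂' σ fun x hx => hσ x ((le_sup_right : L₂ ≤ L₁ ⊔ L₂) hx)
    refine Matrix.ext fun i j => ?_
    apply Subtype.ext
    rw [hentry, e1, e2, Matrix.one_apply, Matrix.one_apply, Matrix.one_apply]
    split_ifs <;> rfl
  -- type `𝒟`
  have hd : 𝒟 (ofMatrix r hr) := by
    obtain ⟨f, g, hfg, hsurj⟩ := exists_cospan_fibreProd (𝒪 := 𝒪) h₁ h₂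
    have hd₁' : ∀ (s : Gal →* M2 A₁) (hs : MatCont s), s = r₁ → 𝒟 (ofMatrix s hs) := by
      rintro s hs rfl
      exact hd₁
    have hd₂' : ∀ (s : Gal →* M2 A₂) (hs : MatCont s), s = r₂ → 𝒟 (ofMatrix s hs) := by
      rintro s hs rfl
      exact hd₂
    have hc₁ : MatCont (mapMat (fibreProdFst 𝒪 A₁ A₂ : fibreProd 𝒪 A₁ A₂ →+* A₁) r) :=
      matCont_map H _ hp₁ hr
    have hc₂ : MatCont (mapMat (fibreProdSnd 𝒪 A₁ A₂ : fibreProd 𝒪 A₁ A₂ →+* A₂) r) :=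
      matCont_map H _ hp₂ hr
    refine h𝒟.of_fibreProduct h₁ h₂ (residueField_isArtinianTest 𝒪) hB f g
      (fibreProdFst 𝒪 A₁ A₂) (fibreProdSnd 𝒪 A₁ A₂) hp₁ hp₂ hfg ?_ hsurj ?_ ?_
    · intro a b hab
      have h1 := congrArg Prod.fst hab
      have h2 := congrArg Prod.snd hab
      simp only at h1 h2
      rw [← sub_eq_zero]
      apply hinj
      · rw [map_sub, h1, sub_self]
      · rw [map_sub, h2, sub_self]
    · exact h𝒟.of_isEquiv h₁ (isEquiv_symm (H.baseChange _ hp₁ r hr hc₁)) (hd₁' _ hc₁ hr1)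
    · exact h𝒟.of_isEquiv h₂ (isEquiv_symm (H.baseChange _ hp₂ r hr hc₂)) (hd₂' _ hc₂ hr2)
  exact ⟨fibreProd 𝒪 A₁ A₂, inferInstance, hloc, inferInstance, hlh, fibreProdFst 𝒪 A₁ A₂,
    fibreProdSnd 𝒪 A₁ A₂, r, hB, hinj, ⟨hN, hr, hd⟩, hr1, hr2⟩

end Fermat.Agent.S53_Fibre
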