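import Mathlib
import Fermat.Agent.S53_Defs
import Fermat.Agent.S53_Mat
import Fermat.Agent.S53_NormLift
import Fermat.Agent.S53_PowerSeries
import Fermat.Agent.S53_Glue

set_option autoImplicit false

/-!
The universal matrix family (helper file for S53): a tuple `x : Gal × Fin 2 × Fin 2 → R` in a
complete Noetherian local ring all of whose finite levels are kernels of normalized lifts of
type `𝒟` is itself a continuous normalized lift of type `𝒟`.
-/

namespace Fermat.Agent.S53_Univ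

open Fermat.Agent.S53_Defs Fermat.Agent.S53_Mat Fermat.Agent.S53_NormLift IsLocalRing

section Artin

variable {A : Type} [CommRing A] [IsLocalRing A]

theorem exists_maximalIdeal_pow_eq_bot [IsArtinianRing A] : ∃ N : ℕ, maximalIdeal A ^ N = ⊥ := by
  have h := IsArtinianRing.isNilpotent_jacobson_bot (R := A)
  rw [IsLocalRing.jacobson_eq_maximalIdeal _ bot_ne_top] at h
  obtain ⟨N, hN⟩ := h
  exact ⟨N, hN⟩

/-- Over an Artinian local ring, adic continuity means trivial on an open subgroup. -/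
theorem matCont_iff_of_isArtinian [IsArtinianRing A] (r : Gal →* Matrix (Fin 2) (Fin 2) A) :
    MatCont r ↔ ∃ L : IntermediateField ℚ (AlgebraicClosure ℚ), FiniteDimensional ℚ L ∧
      ∀ σ : Gal, (∀ x ∈ L, σ x = x) → r σ = 1 := by
  rw [matCont_iff]
  constructor
  · intro h
    obtain ⟨N, hN⟩ := exists_maximalIdeal_pow_eq_bot (A := A)
    obtain ⟨L, hL, h1⟩ := h N
    refine ⟨L, hL, fun σ hσ => ?_⟩
    ext i j
    have h2 := h1 σ hσ i j
    rw [hN, Ideal.mem_bot, Matrix.sub_apply, sub_eq_zero] at h2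
    exact h2
  · rintro ⟨L, hL, h1⟩ n
    refine ⟨L, hL, fun σ hσ i j => ?_⟩
    rw [h1 σ hσ, sub_self]
    exact Ideal.zero_mem _

/-- Every ring homomorphism from an Artinian local ring to a nontrivial ring is local. -/
theorem isLocalHom_of_isArtinian {B : Type} [CommRing B] [Nontrivial B] [IsArtinianRing A]
    (φ : A →+* B) : IsLocalHom φ := by
  constructor
  intro a ha
  by_contra hna
  have hm : a ∈ maximalIdeal A := hna
  obtain ⟨N, hN⟩ := exists_maximalIdeal_pow_eq_bot (A := A)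
  have h1 : a ^ N = 0 := by
    have h2 := Ideal.pow_mem_pow hm N
    rwa [hN, Ideal.mem_bot] at h2
  have h0 : φ a ^ N = 0 := by rw [← map_pow, h1, map_zero]
  exact (ha.pow N).ne_zero h0

theorem ofMatrix_congr {r r' : Gal →* Matrix (Fin 2) (Fin 2) A} (h : r = r') (hr : MatCont r)
    (hr' : MatCont r') : ofMatrix r hr = ofMatrix r' hr' := by
  subst h
  rfl

end Artin

section Transport

variable {𝒪 : Type} [CommRing 𝒪]
variable {𝒟 : ∀ ⦃A : Type⦄ [CommRing A] [IsLocalRing A] [Algebra 𝒪 A], GaloisRepAdic A → Prop}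
variable {A : Type} [CommRing A] [IsLocalRing A] [Algebra 𝒪 A]
variable {B : Type} [CommRing B] [IsLocalRing B] [Algebra 𝒪 B]

theorem of_ofMatrix_eq {r r' : Gal →* Matrix (Fin 2) (Fin 2) A} (h : r = r') (hr : MatCont r)
    (hr' : MatCont r') (hD : 𝒟 (ofMatrix r hr)) : 𝒟 (ofMatrix r' hr') := by
  subst h
  exact hD

/-- Push-forward of a matrix model of type `𝒟` between Artinian test algebras. -/
theorem of_mapMat (h𝒟 : GaloisRep.IsDeformationCondition 𝒪 𝒟)
    (hA : GaloisRep.IsArtinianTestAlgebra 𝒪 A) (hB : GaloisRep.IsArtinianTestAlgebra 𝒪 B)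
    (φ : A →ₐ[𝒪] B) (hφ : IsLocalHom (φ : A →+* B))
    (r : Gal →* Matrix (Fin 2) (Fin 2) A) (hr : MatCont r)
    (hr' : MatCont (mapMat (φ : A →+* B) r)) (h : 𝒟 (ofMatrix r hr)) :
    𝒟 (ofMatrix (mapMat (φ : A →+* B) r) hr') :=
  h𝒟.of_isEquiv hB (ofMatrix_baseChangeAlong (φ : A →+* B) hφ r hr)
    (h𝒟.baseChangeAlong hA hB φ hφ h)

/-- Descent of type `𝒟` along an injective map of Artinian test algebras. -/
theorem of_mapMat_injective (h𝒟 : GaloisRep.IsDeformationCondition 𝒪 𝒟)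
    (hA : GaloisRep.IsArtinianTestAlgebra 𝒪 A) (hB : GaloisRep.IsArtinianTestAlgebra 𝒪 B)
    (φ : A →ₐ[𝒪] B) (hφ : IsLocalHom (φ : A →+* B)) (hinj : Function.Injective φ)
    (r : Gal →* Matrix (Fin 2) (Fin 2) A) (hr : MatCont r)
    (hr' : MatCont (mapMat (φ : A →+* B) r)) (h : 𝒟 (ofMatrix (mapMat (φ : A →+* B) r) hr')) :
    𝒟 (ofMatrix r hr) := by
  obtain ⟨e⟩ := ofMatrix_baseChangeAlong (φ : A →+* B) hφ r hr
  exact h𝒟.of_baseChangeAlong_injective hA hB φ hφ hinj (h𝒟.of_isEquiv hB ⟨e.symm⟩ h)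

end Transport

section Main

variable {𝒪 : Type} [CommRing 𝒪] [IsLocalRing 𝒪]
variable {ρbar : ResidualGaloisRep (ResidueField 𝒪)}
variable {𝒟 : ∀ ⦃A : Type⦄ [CommRing A] [IsLocalRing A] [Algebra 𝒪 A], GaloisRepAdic A → Prop}

/-- The universal matrix family: if all finite levels of the tuple `x` are kernels of normalized
lifts of type `𝒟` over Artinian test algebras (and the tuple generates every finite level), then
`x` is a continuous normalized lift of type `𝒟`. -/
theorem exists_univ_rep (h𝒟 : GaloisRep.IsDeformationCondition 𝒪 𝒟) (F : Frame 𝒪 ρbar)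
    {R : Type} [CommRing R] [IsLocalRing R] [IsNoetherianRing R]
    [IsAdicComplete (maximalIdeal R) R] [Algebra 𝒪 R] [IsLocalHom (algebraMap 𝒪 R)]
    (hres : Function.Surjective (residue R ∘ algebraMap 𝒪 R))
    (x : Gal × Fin 2 × Fin 2 → R)
    (hker : ∀ n, 0 < n → ∃ (A : Type) (_ : CommRing A) (_ : IsLocalRing A) (_ : Algebra 𝒪 A)
      (_ : IsLocalHom (algebraMap 𝒪 A)) (_ : GaloisRep.IsArtinianTestAlgebra 𝒪 A)
      (r : Gal →* Matrix (Fin 2) (Fin 2) A) (hr : MatCont r),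
      IsNormLift F r ∧ 𝒟 (ofMatrix r hr) ∧
      RingHom.ker (MvPolynomial.aeval (R := 𝒪) (fun e : Gal × Fin 2 × Fin 2 => r e.1 e.2.1 e.2.2)) =
        RingHom.ker ((Ideal.Quotient.mkₐ 𝒪 (maximalIdeal R ^ n)).comp (MvPolynomial.aeval x)))
    (hsurj : ∀ n, Function.Surjective
      ((Ideal.Quotient.mkₐ 𝒪 (maximalIdeal R ^ n)).comp (MvPolynomial.aeval x))) :
    ∃ (r : Gal →* Matrix (Fin 2) (Fin 2) R) (hr : MatCont r),
      (∀ σ i j, r σ i j = x (σ, i, j)) ∧ IsNormLift F r ∧ 𝒟 (ofMatrix r hr) := by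
  classical
  -- Krull intersection
  have hK : ∀ a : R, (∀ n, 0 < n → a ∈ maximalIdeal R ^ n) → a = 0 := by
    intro a ha
    have h1 : a ∈ ⨅ i, maximalIdeal R ^ i := by
      rw [Ideal.mem_iInf]
      intro i
      rcases Nat.eq_zero_or_pos i with h0 | hpos
      · rw [h0, pow_zero, Ideal.one_eq_top]; exact Submodule.mem_top
      · exact ha i hpos
    rw [Ideal.iInf_pow_eq_bot_of_isLocalRing _ (Ideal.IsMaximal.ne_top inferInstance)] at h1
    exact h1
  -- transfer between a level and the ring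
  have hT : ∀ (n : ℕ) (f : MvPolynomial (Gal × Fin 2 × Fin 2) 𝒪),
      f ∈ RingHom.ker ((Ideal.Quotient.mkₐ 𝒪 (maximalIdeal R ^ n)).comp (MvPolynomial.aeval x)) ↔
        MvPolynomial.aeval x f ∈ maximalIdeal R ^ n := by
    intro n f
    rw [RingHom.mem_ker]
    exact Ideal.Quotient.eq_zero_iff_mem
  -- vanishing principle
  have hV : ∀ f : MvPolynomial (Gal × Fin 2 × Fin 2) 𝒪,
      (∀ (A : Type) [CommRing A] [IsLocalRing A] [Algebra 𝒪 A] [IsLocalHom (algebraMap 𝒪 A)]
        (r : Gal →* Matrix (Fin 2) (Fin 2) A), IsNormLift F r →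
          MvPolynomial.aeval (fun e : Gal × Fin 2 × Fin 2 => r e.1 e.2.1 e.2.2) f = 0) →
      MvPolynomial.aeval x f = 0 := by
    intro f hf
    apply hK
    intro n hn
    obtain ⟨A, _, _, _, _, hA, rA, hrA, hnA, hDA, hkerA⟩ := hker n hn
    have h1 : f ∈ RingHom.ker
        (MvPolynomial.aeval (R := 𝒪) (fun e : Gal × Fin 2 × Fin 2 => rA e.1 e.2.1 e.2.2)) := by
      rw [RingHom.mem_ker]; exact hf A rA hnA
    rw [hkerA] at h1
    exact (hT n f).mp h1
  -- the monoid homomorphism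
  have hone : ∀ i j : Fin 2, x (1, i, j) = (1 : Matrix (Fin 2) (Fin 2) R) i j := by
    intro i j
    have h1 := hV (MvPolynomial.X (1, i, j) - MvPolynomial.C (if i = j then 1 else 0)) (by
      intro A _ _ _ _ r _
      rw [map_sub, MvPolynomial.aeval_X, MvPolynomial.aeval_C, map_one r, Matrix.one_apply]
      split_ifs <;> simp)
    rw [map_sub, MvPolynomial.aeval_X, MvPolynomial.aeval_C, sub_eq_zero] at h1
    rw [h1, Matrix.one_apply]
    split_ifs <;> simp
  have hmul : ∀ (σ τ : Gal) (i j : Fin 2),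
      x (σ * τ, i, j) = ∑ l : Fin 2, x (σ, i, l) * x (τ, l, j) := by
    intro σ τ i j
    have h1 := hV (MvPolynomial.X (σ * τ, i, j) -
        ∑ l : Fin 2, MvPolynomial.X (σ, i, l) * MvPolynomial.X (τ, l, j)) (by
      intro A _ _ _ _ r _
      rw [map_sub, MvPolynomial.aeval_X, map_sum, map_mul r, Matrix.mul_apply, sub_eq_zero]
      refine Finset.sum_congr rfl fun l _ => ?_
      rw [map_mul, MvPolynomial.aeval_X, MvPolynomial.aeval_X])
    rw [map_sub, MvPolynomial.aeval_X, map_sum, sub_eq_zero] at h1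
    rw [h1]
    refine Finset.sum_congr rfl fun l _ => ?_
    rw [map_mul, MvPolynomial.aeval_X, MvPolynomial.aeval_X]
  let rR : Gal →* Matrix (Fin 2) (Fin 2) R :=
    { toFun := fun σ => Matrix.of fun i j => x (σ, i, j)
      map_one' := by
        ext i j
        exact hone i j
      map_mul' := fun σ τ => by
        ext i j
        rw [Matrix.mul_apply]
        exact hmul σ τ i j }
  have hrR_apply : ∀ σ i j, rR σ i j = x (σ, i, j) := fun σ i j => rfl
  -- continuity
  have hcont : MatCont rR := by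
    rw [matCont_iff]
    intro n
    rcases Nat.eq_zero_or_pos n with h0 | hn
    · refine ⟨⊥, inferInstance, fun σ _ i j => ?_⟩
      rw [h0, pow_zero, Ideal.one_eq_top]; exact Submodule.mem_top
    obtain ⟨A, _, _, _, _, hA, rA, hrA, hnA, hDA, hkerA⟩ := hker n hn
    have := hA.isArtinian
    obtain ⟨L, hL, h1⟩ := (matCont_iff_of_isArtinian rA).mp hrA
    refine ⟨L, hL, fun σ hσ i j => ?_⟩
    have h2 : (MvPolynomial.X (σ, i, j) - MvPolynomial.C (if i = j then 1 else 0) :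
        MvPolynomial (Gal × Fin 2 × Fin 2) 𝒪) ∈ RingHom.ker
        (MvPolynomial.aeval (R := 𝒪) (fun e : Gal × Fin 2 × Fin 2 => rA e.1 e.2.1 e.2.2)) := by
      rw [RingHom.mem_ker, map_sub, MvPolynomial.aeval_X, MvPolynomial.aeval_C, h1 σ hσ,
        Matrix.one_apply]
      split_ifs <;> simp
    rw [hkerA] at h2
    have h3 := (hT n _).mp h2
    rw [map_sub, MvPolynomial.aeval_X, MvPolynomial.aeval_C] at h3
    rw [Matrix.sub_apply, hrR_apply, Matrix.one_apply]
    convert h3 using 2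
    split_ifs <;> simp
  -- normalization
  have hnorm : IsNormLift F rR := by
    refine ⟨fun σ i j => ?_, ?_, ?_, ?_⟩
    · obtain ⟨c, hc⟩ := IsLocalRing.residue_surjective (F.rbar σ i j)
      rw [(residue_eq_map_iff (x := rR σ i j) (z := F.rbar σ i j))]
      intro y hy
      rw [hrR_apply]
      by_contra hmem
      have hu : IsUnit (x (σ, i, j) - algebraMap 𝒪 R y) := by
        by_contra hnu
        exact hmem hnu
      obtain ⟨A, _, _, _, _, hA, rA, hrA, hnA, hDA, hkerA⟩ := hker 1 Nat.one_pos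
      obtain ⟨u, hu'⟩ := hu
      obtain ⟨g, hg⟩ := hsurj 1 (Ideal.Quotient.mkₐ 𝒪 (maximalIdeal R ^ 1) (↑u⁻¹ : R))
      have h2 : ((MvPolynomial.X (σ, i, j) - MvPolynomial.C y) * g - 1 :
          MvPolynomial (Gal × Fin 2 × Fin 2) 𝒪) ∈ RingHom.ker
          ((Ideal.Quotient.mkₐ 𝒪 (maximalIdeal R ^ 1)).comp (MvPolynomial.aeval x)) := by
        rw [RingHom.mem_ker, map_sub, map_mul, hg, map_one, AlgHom.comp_apply, map_sub,
          MvPolynomial.aeval_X, MvPolynomial.aeval_C, ← hu', ← map_mul, Units.mul_inv, map_one,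
          sub_self]
      rw [← hkerA, RingHom.mem_ker, map_sub, map_mul, map_sub, MvPolynomial.aeval_X,
        MvPolynomial.aeval_C, map_one, sub_eq_zero] at h2
      have h3 : IsUnit (rA σ i j - algebraMap 𝒪 A y) := IsUnit.of_mul_eq_one _ h2
      have h4 := (residue_eq_map_iff (x := rA σ i j) (z := F.rbar σ i j)).mp (hnA.lifts σ i j) y hy
      exact h4 h3
    · have h1 := hV (MvPolynomial.X (F.g₁, 0, 0)) (by
        intro A _ _ _ _ r hr
        rw [MvPolynomial.aeval_X]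
        exact hr.g₁_00)
      rw [MvPolynomial.aeval_X] at h1
      exact h1
    · have h1 := hV (MvPolynomial.X (F.g₁, 1, 0) - 1) (by
        intro A _ _ _ _ r hr
        rw [map_sub, MvPolynomial.aeval_X, map_one, sub_eq_zero]
        exact hr.g₁_10)
      rw [map_sub, MvPolynomial.aeval_X, map_one, sub_eq_zero] at h1
      exact h1
    · have h1 := hV (MvPolynomial.X (F.g₂, F.i₀, F.j₀) - MvPolynomial.C F.c₀) (by
        intro A _ _ _ _ r hr
        rw [map_sub, MvPolynomial.aeval_X, MvPolynomial.aeval_C, sub_eq_zero]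
        exact hr.g₂_c₀)
      rw [map_sub, MvPolynomial.aeval_X, MvPolynomial.aeval_C, sub_eq_zero] at h1
      exact h1
  refine ⟨rR, hcont, hrR_apply, hnorm, ?_⟩
  -- type `𝒟`
  rw [h𝒟.iff_forall_surjective (A := R) inferInstance hres (ofMatrix rR hcont)]
  intro B _ _ _ hB q hq hqsurj
  have := hB.isArtinian
  obtain ⟨N₀, hN₀⟩ := exists_maximalIdeal_pow_eq_bot (A := B)
  set N := N₀ + 1 with hNdef
  have hNpos : 0 < N := Nat.succ_pos _
  have hNB : maximalIdeal B ^ N = ⊥ := by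
    rw [hNdef, pow_succ, hN₀, Ideal.bot_mul]
  have hqm : ∀ a ∈ maximalIdeal R ^ N, q a = 0 := by
    intro a ha
    have hmap : (maximalIdeal R ^ N).map (q : R →+* B) ≤ maximalIdeal B ^ N := by
      rw [Ideal.map_pow]
      exact Ideal.pow_right_mono (Ideal.map_le_iff_le_comap.mpr fun a ha =>
        Ideal.mem_comap.mpr (haveI := hq; map_nonunit (q : R →+* B) a ha)) N
    have h1 := hmap (Ideal.mem_map_of_mem (q : R →+* B) ha)
    rw [hNB, Ideal.mem_bot] at h1
    exact h1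
  obtain ⟨A, _, _, _, _, hA, rA, hrA, hnA, hDA, hkerA⟩ := hker N hNpos
  -- the level ring
  have hne : maximalIdeal R ^ N ≠ ⊤ := by
    intro htop
    have h1 : (1 : R) ∈ maximalIdeal R ^ N := by rw [htop]; exact Submodule.mem_top
    exact one_notMem_nonunits (Ideal.pow_le_self hNpos.ne' h1)
  have : Nontrivial (R ⧸ maximalIdeal R ^ N) := Ideal.Quotient.nontrivial_iff.mpr hne
  have : IsLocalRing (R ⧸ maximalIdeal R ^ N) :=
    IsLocalRing.of_surjective' (Ideal.Quotient.mk (maximalIdeal R ^ N))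
      Ideal.Quotient.mk_surjective
  have hπ : IsLocalHom (Ideal.Quotient.mk (maximalIdeal R ^ N)) :=
    IsLocalHom.of_surjective (Ideal.Quotient.mk (maximalIdeal R ^ N)) Ideal.Quotient.mk_surjective
  have hTest : GaloisRep.IsArtinianTestAlgebra 𝒪 (R ⧸ maximalIdeal R ^ N) :=
    Fermat.Agent.S53_PowerSeries.isArtinianTestAlgebra_quotient inferInstance hres
      (maximalIdeal R ^ N) N le_rfl
  have := hTest.isArtinian
  let rT : Gal →* Matrix (Fin 2) (Fin 2) (R ⧸ maximalIdeal R ^ N) :=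
    mapMat (Ideal.Quotient.mk (maximalIdeal R ^ N)) rR
  have hrT : MatCont rT := hcont.map _ hπ
  -- the embedding of the level ring into `A`
  let evN : MvPolynomial (Gal × Fin 2 × Fin 2) 𝒪 →ₐ[𝒪] (R ⧸ maximalIdeal R ^ N) :=
    (Ideal.Quotient.mkₐ 𝒪 (maximalIdeal R ^ N)).comp (MvPolynomial.aeval x)
  let evA : MvPolynomial (Gal × Fin 2 × Fin 2) 𝒪 →ₐ[𝒪] A :=
    MvPolynomial.aeval (fun e : Gal × Fin 2 × Fin 2 => rA e.1 e.2.1 e.2.2)
  have hkerA' : ∀ f, evA f = 0 ↔ evN f = 0 := by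
    intro f
    rw [← RingHom.mem_ker, ← RingHom.mem_ker]
    exact hkerA ▸ Iff.rfl
  let ι : (R ⧸ maximalIdeal R ^ N) →ₐ[𝒪] A :=
    AlgHom.liftOfSurjective evN (hsurj N) evA (fun f hf => (hkerA' f).mpr hf)
  have hι : ∀ f, ι (evN f) = evA f := fun f => AlgHom.liftOfSurjective_apply _ _ _ _ f
  have hιinj : Function.Injective ι := by
    rw [injective_iff_map_eq_zero]
    intro t ht
    obtain ⟨f, rfl⟩ := hsurj N t
    rw [hι] at ht
    exact (hkerA' f).mp ht
  have hιloc : IsLocalHom (ι : (R ⧸ maximalIdeal R ^ N) →+* A) := isLocalHom_of_isArtinian _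
  have hιmap : mapMat (ι : (R ⧸ maximalIdeal R ^ N) →+* A) rT = rA := by
    ext σ i j
    have h1 : rT σ i j = evN (MvPolynomial.X (σ, i, j)) := by
      show Ideal.Quotient.mk (maximalIdeal R ^ N) (x (σ, i, j)) = _
      show _ = Ideal.Quotient.mk (maximalIdeal R ^ N) (MvPolynomial.aeval x (MvPolynomial.X (σ, i, j)))
      rw [MvPolynomial.aeval_X]
    show ι (rT σ i j) = rA σ i j
    rw [h1, hι]
    show MvPolynomial.aeval (fun e : Gal × Fin 2 × Fin 2 => rA e.1 e.2.1 e.2.2)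
      (MvPolynomial.X (σ, i, j)) = _
    rw [MvPolynomial.aeval_X]
  have hDT : 𝒟 (ofMatrix rT hrT) := by
    exact of_mapMat_injective h𝒟 hTest hA ι hιloc hιinj rT hrT (hιmap ▸ hrA)
      (of_ofMatrix_eq hιmap.symm _ _ hDA)
  -- descend to `B`
  let q' : (R ⧸ maximalIdeal R ^ N) →ₐ[𝒪] B := Ideal.Quotient.liftₐ (maximalIdeal R ^ N) q hqm
  have hq' : ∀ a : R, q' (Ideal.Quotient.mk (maximalIdeal R ^ N) a) = q a := fun a => rfl
  have hq'loc : IsLocalHom (q' : (R ⧸ maximalIdeal R ^ N) →+* B) := isLocalHom_of_isArtinian _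
  have hq'map : mapMat (q' : (R ⧸ maximalIdeal R ^ N) →+* B) rT = mapMat (q : R →+* B) rR := by
    ext σ i j
    rfl
  have hDB : 𝒟 (ofMatrix (mapMat (q : R →+* B) rR) (hcont.map _ hq)) := by
    have h1 := of_mapMat h𝒟 hTest hB q' hq'loc rT hrT (hq'map ▸ hcont.map _ hq) hDT
    exact of_ofMatrix_eq hq'map _ _ h1
  obtain ⟨e⟩ := ofMatrix_baseChangeAlong (q : R →+* B) hq rR hcont
  exact h𝒟.of_isEquiv hB ⟨e.symm⟩ hDB

end Main

section Family

open Fermat.Agent.S53_Glue

variable {𝒪 : Type} [CommRing 𝒪] [IsLocalRing 𝒪]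
variable {ρbar : ResidualGaloisRep (ResidueField 𝒪)}
variable {𝒟 : ∀ ⦃A : Type⦄ [CommRing A] [IsLocalRing A] [Algebra 𝒪 A], GaloisRepAdic A → Prop}

/-- The universal matrix family, level-wise formulation: if the reduction of the tuple `x`
modulo every power of the maximal ideal is a normalized lift of type `𝒟`, then `x` itself is a
continuous normalized lift of type `𝒟`. -/
theorem exists_univ_family [Finite (ResidueField 𝒪)]
    {F : Frame 𝒪 ρbar} (H : Inputs F) (h𝒟 : GaloisRep.IsDeformationCondition 𝒪 𝒟)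
    {R : Type} [CommRing R] [IsLocalRing R] [IsNoetherianRing R]
    [IsAdicComplete (maximalIdeal R) R] [Algebra 𝒪 R] [IsLocalHom (algebraMap 𝒪 R)]
    (hres : Function.Surjective (residue R ∘ algebraMap 𝒪 R)) (x : E → R)
    (hx : ∀ n : ℕ, 0 < n → ∃ (_ : IsLocalRing (R ⧸ maximalIdeal R ^ n))
      (_ : IsLocalHom (algebraMap 𝒪 (R ⧸ maximalIdeal R ^ n)))
      (rn : Gal →* M2 (R ⧸ maximalIdeal R ^ n)),
        IsDLift 𝒟 F rn ∧ ∀ e : E, ent rn e = Ideal.Quotient.mk (maximalIdeal R ^ n) (x e)) :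
    ∃ (r : Gal →* M2 R) (hr : MatCont r),
      IsNormLift F r ∧ 𝒟 (ofMatrix r hr) ∧ ∀ e : E, ent r e = x e := by
  classical
  have _hH := H
  -- Krull intersection
  have hK : ∀ a b : R, (∀ n, 0 < n → Ideal.Quotient.mk (maximalIdeal R ^ n) a =
      Ideal.Quotient.mk (maximalIdeal R ^ n) b) → a = b := by
    intro a b hab
    rw [← sub_eq_zero]
    have h1 : a - b ∈ ⨅ i, maximalIdeal R ^ i := by
      rw [Ideal.mem_iInf]
      intro i
      rcases Nat.eq_zero_or_pos i with h0 | hpos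
      · rw [h0, pow_zero, Ideal.one_eq_top]; exact Submodule.mem_top
      · exact Ideal.Quotient.eq.mp (hab i hpos)
    rw [Ideal.iInf_pow_eq_bot_of_isLocalRing _ (Ideal.IsMaximal.ne_top inferInstance)] at h1
    exact h1
  have hone : ∀ i j : Fin 2, x (1, i, j) = (1 : M2 R) i j := by
    intro i j
    apply hK
    intro n hn
    obtain ⟨_, _, rn, -, hent⟩ := hx n hn
    rw [← hent (1, i, j)]
    show rn 1 i j = _
    rw [map_one, Matrix.one_apply, Matrix.one_apply]
    split_ifs <;> simp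
  have hmul : ∀ (σ τ : Gal) (i j : Fin 2),
      x (σ * τ, i, j) = ∑ l : Fin 2, x (σ, i, l) * x (τ, l, j) := by
    intro σ τ i j
    apply hK
    intro n hn
    obtain ⟨_, _, rn, -, hent⟩ := hx n hn
    rw [← hent (σ * τ, i, j), map_sum]
    show rn (σ * τ) i j = _
    rw [map_mul, Matrix.mul_apply]
    refine Finset.sum_congr rfl fun l _ => ?_
    rw [map_mul, ← hent (σ, i, l), ← hent (τ, l, j)]
    rfl
  let rR : Gal →* M2 R :=
    { toFun := fun σ => Matrix.of fun i j => x (σ, i, j)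
      map_one' := by
        ext i j
        exact hone i j
      map_mul' := fun σ τ => by
        ext i j
        rw [Matrix.mul_apply]
        exact hmul σ τ i j }
  have hrR_apply : ∀ σ i j, rR σ i j = x (σ, i, j) := fun σ i j => rfl
  -- continuity
  have hcont : MatCont rR := by
    rw [matCont_iff]
    intro n
    rcases Nat.eq_zero_or_pos n with h0 | hn
    · refine ⟨⊥, inferInstance, fun σ _ i j => ?_⟩
      rw [h0, pow_zero, Ideal.one_eq_top]; exact Submodule.mem_top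
    obtain ⟨_, _, rn, ⟨-, hrn, -⟩, hent⟩ := hx n hn
    have : IsArtinianRing (R ⧸ maximalIdeal R ^ n) :=
      Fermat.Agent.S53_PowerSeries.isArtinianRing_quotient_of_pow_le _ n le_rfl
    obtain ⟨L, hL, h1⟩ := (matCont_iff_of_isArtinian rn).mp hrn
    refine ⟨L, hL, fun σ hσ i j => ?_⟩
    rw [← Ideal.Quotient.eq_zero_iff_mem, Matrix.sub_apply, map_sub, hrR_apply, ← hent (σ, i, j)]
    show rn σ i j - _ = 0
    rw [h1 σ hσ, Matrix.one_apply, Matrix.one_apply, sub_eq_zero]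
    split_ifs <;> simp
  -- normalization
  have hnorm : IsNormLift F rR := by
    obtain ⟨_, _, r1, ⟨hN1, -, -⟩, hent⟩ := hx 1 Nat.one_pos
    have hπ : IsLocalHom ((Ideal.Quotient.mkₐ 𝒪 (maximalIdeal R ^ 1) :
        R →ₐ[𝒪] R ⧸ maximalIdeal R ^ 1) : R →+* R ⧸ maximalIdeal R ^ 1) :=
      IsLocalHom.of_surjective _ (Ideal.Quotient.mkₐ_surjective 𝒪 _)
    have hmap : mapMat ((Ideal.Quotient.mkₐ 𝒪 (maximalIdeal R ^ 1) :
        R →ₐ[𝒪] R ⧸ maximalIdeal R ^ 1) : R →+* R ⧸ maximalIdeal R ^ 1) rR = r1 := by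
      ext σ i j
      exact (hent (σ, i, j)).symm
    refine Fermat.Agent.S53_Glue.normLift_of_map (Ideal.Quotient.mkₐ 𝒪 (maximalIdeal R ^ 1)) hπ
      (hmap ▸ hN1) ?_ ?_ ?_
    · rw [hrR_apply]
      apply hK
      intro n hn
      obtain ⟨_, _, rn, ⟨hNn, -, -⟩, hentn⟩ := hx n hn
      rw [← hentn (F.g₁, 0, 0), map_zero]
      exact hNn.g₁_00
    · rw [hrR_apply]
      apply hK
      intro n hn
      obtain ⟨_, _, rn, ⟨hNn, -, -⟩, hentn⟩ := hx n hn
      rw [← hentn (F.g₁, 1, 0), map_one]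
      exact hNn.g₁_10
    · rw [hrR_apply]
      apply hK
      intro n hn
      obtain ⟨_, _, rn, ⟨hNn, -, -⟩, hentn⟩ := hx n hn
      rw [← hentn (F.g₂, F.i₀, F.j₀)]
      exact hNn.g₂_c₀
  refine ⟨rR, hcont, hnorm, ?_, fun e => rfl⟩
  -- type `𝒟`
  rw [h𝒟.iff_forall_surjective (A := R) inferInstance hres (ofMatrix rR hcont)]
  intro B _ _ _ hB q hq hqsurj
  have := hB.isArtinian
  obtain ⟨N₀, hN₀⟩ := exists_maximalIdeal_pow_eq_bot (A := B)
  set N := N₀ + 1 with hNdef
  have hNpos : 0 < N := Nat.succ_pos _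
  have hNB : maximalIdeal B ^ N = ⊥ := by
    rw [hNdef, pow_succ, hN₀, Ideal.bot_mul]
  have hqm : ∀ a ∈ maximalIdeal R ^ N, q a = 0 := by
    intro a ha
    have hmap : (maximalIdeal R ^ N).map (q : R →+* B) ≤ maximalIdeal B ^ N := by
      rw [Ideal.map_pow]
      exact Ideal.pow_right_mono (Ideal.map_le_iff_le_comap.mpr fun a ha =>
        Ideal.mem_comap.mpr (haveI := hq; map_nonunit (q : R →+* B) a ha)) N
    have h1 := hmap (Ideal.mem_map_of_mem (q : R →+* B) ha)
    rw [hNB, Ideal.mem_bot] at h1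
    exact h1
  obtain ⟨_, _, rN, ⟨-, hrN, hDN⟩, hentN⟩ := hx N hNpos
  have hTest : GaloisRep.IsArtinianTestAlgebra 𝒪 (R ⧸ maximalIdeal R ^ N) :=
    Fermat.Agent.S53_PowerSeries.isArtinianTestAlgebra_quotient inferInstance hres
      (maximalIdeal R ^ N) N le_rfl
  have := hTest.isArtinian
  let q' : (R ⧸ maximalIdeal R ^ N) →ₐ[𝒪] B := Ideal.Quotient.liftₐ (maximalIdeal R ^ N) q hqm
  have hq'loc : IsLocalHom (q' : (R ⧸ maximalIdeal R ^ N) →+* B) := isLocalHom_of_isArtinian _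
  have hq'map : mapMat (q' : (R ⧸ maximalIdeal R ^ N) →+* B) rN = mapMat (q : R →+* B) rR := by
    ext σ i j
    show q' (rN σ i j) = q (x (σ, i, j))
    have h1 : rN σ i j = Ideal.Quotient.mk (maximalIdeal R ^ N) (x (σ, i, j)) := hentN (σ, i, j)
    rw [h1]
    rfl
  have hDB : 𝒟 (ofMatrix (mapMat (q : R →+* B) rR) (hcont.map _ hq)) := by
    have h1 := of_mapMat h𝒟 hTest hB q' hq'loc rN hrN (hq'map ▸ hcont.map _ hq) hDN
    exact of_ofMatrix_eq hq'map _ _ h1
  obtain ⟨e⟩ := ofMatrix_baseChangeAlong (q : R →+* B) hq rR hcont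
  exact h𝒟.of_isEquiv hB ⟨e.symm⟩ hDB

end Family

end Fermat.Agent.S53_Univ
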