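import Mathlib
import Fermat.Agent.S53_Glue
import Fermat.Agent.S53_NormLift
import Fermat.Agent.S53_PowerSeries
import Fermat.Agent.S53_ProRep
import Fermat.Agent.S53_Fibre
import Fermat.Agent.S53_Univ

set_option autoImplicit false

/-!
# Final assembly for S53: the family of kernels and the universal deformation ring
-/

noncomputable section

namespace Fermat.Agent.S53_Final

open IsLocalRing Fermat.Agent.S53_Defs Fermat.Agent.S53_Glue

variable {𝒪 : Type} [CommRing 𝒪] [IsLocalRing 𝒪] {ρbar : ResidualGaloisRep (ResidueField 𝒪)}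

section Family

variable (𝒟 : ∀ ⦃A : Type⦄ [CommRing A] [IsLocalRing A] [Algebra 𝒪 A], GaloisRepAdic A → Prop)
variable (F : Frame 𝒪 ρbar)

/-- the family of kernels of evaluation maps of lifts of type `𝒟` over Artinian test algebras -/
def famJ : Set (Ideal (MvPolynomial E 𝒪)) :=
  {I | ∃ (A : Type) (_ : CommRing A) (_ : IsLocalRing A) (_ : Algebra 𝒪 A)
      (_ : IsLocalHom (algebraMap 𝒪 A)) (r : Gal →* M2 A),
      GaloisRep.IsArtinianTestAlgebra 𝒪 A ∧ IsDLift 𝒟 F r ∧ I = RingHom.ker (ev 𝒪 r)}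

/-- the residual point -/
def nn : Ideal (MvPolynomial E 𝒪) := RingHom.ker (ev 𝒪 F.rbar)

variable {𝒟 F}

theorem mem_famJ {A : Type} [CommRing A] [IsLocalRing A] [Algebra 𝒪 A]
    [IsLocalHom (algebraMap 𝒪 A)] (hA : GaloisRep.IsArtinianTestAlgebra 𝒪 A)
    {r : Gal →* M2 A} (hD : IsDLift 𝒟 F r) : RingHom.ker (ev 𝒪 r) ∈ famJ 𝒟 F :=
  ⟨A, inferInstance, inferInstance, inferInstance, inferInstance, r, hA, hD, rfl⟩

omit [IsLocalRing 𝒪] in
theorem ker_mkₐ (I : Ideal (MvPolynomial E 𝒪)) : RingHom.ker (Ideal.Quotient.mkₐ 𝒪 I) = I := by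
  ext x
  rw [RingHom.mem_ker, Ideal.Quotient.mkₐ_eq_mk, Ideal.Quotient.eq_zero_iff_mem]

variable (F) in
theorem evBar_surjective : Function.Surjective (ev 𝒪 F.rbar) := by
  intro y
  obtain ⟨o, rfl⟩ := residue_surjective y
  exact ⟨MvPolynomial.C o, by rw [ev_C]; rfl⟩

variable (F) in
theorem nn_isMaximal : (nn F).IsMaximal :=
  RingHom.ker_isMaximal_of_surjective _ (evBar_surjective F)

variable (F) in
theorem nn_surjective : Function.Surjective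
    ((Ideal.Quotient.mk (nn F)).comp (algebraMap 𝒪 (MvPolynomial E 𝒪))) := by
  intro y
  obtain ⟨x, rfl⟩ := Ideal.Quotient.mk_surjective y
  obtain ⟨o, ho⟩ := residue_surjective (ev 𝒪 F.rbar x)
  refine ⟨o, ?_⟩
  rw [RingHom.comp_apply, Ideal.Quotient.eq, nn, RingHom.mem_ker, map_sub, AlgHom.commutes,
    sub_eq_zero, ← ho]
  rfl

theorem residue_ev {A : Type} [CommRing A] [IsLocalRing A] [Algebra 𝒪 A]
    [IsLocalHom (algebraMap 𝒪 A)] {r : Gal →* M2 A} (hN : IsNormLift F r)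
    (x : MvPolynomial E 𝒪) :
    residue A (ev 𝒪 r x) = ResidueField.map (algebraMap 𝒪 A) (ev 𝒪 F.rbar x) := by
  have h : (residue A).comp (ev 𝒪 r : MvPolynomial E 𝒪 →+* A) =
      (ResidueField.map (algebraMap 𝒪 A)).comp
        (ev 𝒪 F.rbar : MvPolynomial E 𝒪 →+* ResidueField 𝒪) := by
    refine MvPolynomial.ringHom_ext (fun o => ?_) (fun e => ?_)
    · simp only [RingHom.comp_apply, RingHom.coe_coe, ev_C]
      rw [ResidueField.algebraMap_eq, ResidueField.map_residue]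
    · simp only [RingHom.comp_apply, RingHom.coe_coe, ev_X]
      exact hN.lifts _ _ _
  exact congrArg (fun f => f x) h

theorem famJ_le_nn {I : Ideal (MvPolynomial E 𝒪)} (hI : I ∈ famJ 𝒟 F) : I ≤ nn F := by
  obtain ⟨A, _, _, _, _, r, hA, hD, rfl⟩ := hI
  intro x hx
  rw [RingHom.mem_ker] at hx
  rw [nn, RingHom.mem_ker]
  apply (ResidueField.map (algebraMap 𝒪 A)).injective
  rw [← residue_ev hD.1, hx, map_zero, map_zero]

variable (H : Inputs F) (h𝒟 : GaloisRep.IsDeformationCondition 𝒪 𝒟)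
include H h𝒟

theorem nn_mem_famJ (hbar : 𝒟 (GaloisRepAdic.ofResidualGaloisRep ρbar)) : nn F ∈ famJ 𝒟 F := by
  have hk := S53_Local.residueField_isArtinianTest 𝒪
  haveI := hk.isLocalHom
  exact mem_famJ hk ⟨S53_NormLift.isNormLift_rbar F, H.rbar_cont,
    h𝒟.of_isEquiv hk (H.rbar_equiv _) hbar⟩

variable [Finite (ResidueField 𝒪)]

/-- the tautological lift over `P ⧸ I'` for `I' ⊇ I ∈ 𝒥` -/
theorem exists_dLift_quot {I I' : Ideal (MvPolynomial E 𝒪)} (hI : I ∈ famJ 𝒟 F) (hle : I ≤ I')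
    (hI' : I' ≠ ⊤) :
    ∃ (_ : IsLocalRing (MvPolynomial E 𝒪 ⧸ I'))
      (_ : IsLocalHom (algebraMap 𝒪 (MvPolynomial E 𝒪 ⧸ I'))),
      GaloisRep.IsArtinianTestAlgebra 𝒪 (MvPolynomial E 𝒪 ⧸ I') ∧
      ∃ r' : Gal →* M2 (MvPolynomial E 𝒪 ⧸ I'), IsDLift 𝒟 F r' ∧
        ev 𝒪 r' = Ideal.Quotient.mkₐ 𝒪 I' := by
  obtain ⟨A, _, _, _, _, r, hA, hD, rfl⟩ := hI
  haveI : Nontrivial (MvPolynomial E 𝒪 ⧸ I') := Ideal.Quotient.nontrivial_iff.mpr hI'
  refine exists_dLift_of_ker_le H h𝒟 hA hD (Ideal.Quotient.mkₐ 𝒪 I')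
    (Ideal.Quotient.mkₐ_surjective 𝒪 I') ?_
  rw [ker_mkₐ]
  exact hle

theorem famJ_art {I : Ideal (MvPolynomial E 𝒪)} (hI : I ∈ famJ 𝒟 F) :
    IsArtinianRing (MvPolynomial E 𝒪 ⧸ I) ∧ IsLocalRing (MvPolynomial E 𝒪 ⧸ I) := by
  have hne : I ≠ ⊤ := fun h => (nn_isMaximal F).ne_top (top_le_iff.mp (h ▸ famJ_le_nn hI))
  obtain ⟨i1, i2, hB, -⟩ := exists_dLift_quot H h𝒟 hI le_rfl hne
  exact ⟨hB.isArtinian, i1⟩

theorem famJ_up {I : Ideal (MvPolynomial E 𝒪)} (hI : I ∈ famJ 𝒟 F)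
    (I' : Ideal (MvPolynomial E 𝒪)) (hle : I ≤ I') (hle' : I' ≤ nn F) : I' ∈ famJ 𝒟 F := by
  have hne : I' ≠ ⊤ := fun h => (nn_isMaximal F).ne_top (top_le_iff.mp (h ▸ hle'))
  obtain ⟨i1, i2, hB, r', hD', hev⟩ := exists_dLift_quot H h𝒟 hI hle hne
  have h1 := mem_famJ hB hD'
  rw [hev, ker_mkₐ] at h1
  exact h1

theorem famJ_inf {I₁ I₂ : Ideal (MvPolynomial E 𝒪)} (h₁ : I₁ ∈ famJ 𝒟 F)
    (h₂ : I₂ ∈ famJ 𝒟 F) : I₁ ⊓ I₂ ∈ famJ 𝒟 F := by
  obtain ⟨A₁, _, _, _, _, r₁, hA₁, hD₁, rfl⟩ := h₁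
  obtain ⟨A₂, _, _, _, _, r₂, hA₂, hD₂, rfl⟩ := h₂
  obtain ⟨B, _, _, _, _, p₁, p₂, r, hB, hinj, hD, hr₁, hr₂⟩ :=
    S53_Fibre.exists_dLift_fibreProd H h𝒟 hA₁ hA₂ hD₁ hD₂
  have h1 := mem_famJ hB hD
  have h2 : RingHom.ker (ev 𝒪 r) = RingHom.ker (ev 𝒪 r₁) ⊓ RingHom.ker (ev 𝒪 r₂) := by
    have e₁ : ev 𝒪 r₁ = p₁.comp (ev 𝒪 r) := by rw [← hr₁, ev_map]
    have e₂ : ev 𝒪 r₂ = p₂.comp (ev 𝒪 r) := by rw [← hr₂, ev_map]
    ext x
    rw [Ideal.mem_inf, RingHom.mem_ker, RingHom.mem_ker, RingHom.mem_ker, e₁, e₂]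
    constructor
    · intro hx
      rw [AlgHom.comp_apply, AlgHom.comp_apply, hx, map_zero, map_zero]
      exact ⟨rfl, rfl⟩
    · rintro ⟨hx₁, hx₂⟩
      exact hinj _ hx₁ hx₂
  rw [h2] at h1
  exact h1

theorem famJ_gen {t : ℕ} (e : Fin t → E)
    (hsep : ∀ r r' : Gal →* M2 (DualNumber (ResidueField 𝒪)),
      letI := S53_Local.dualAlg 𝒪
      haveI := (S53_Local.dualNumber_isArtinianTest 𝒪).isLocalHom
      IsDLift 𝒟 F r → IsDLift 𝒟 F r' → (∀ i, ent r (e i) = ent r' (e i)) → r = r')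
    (lam : Fin t → 𝒪) {I : Ideal (MvPolynomial E 𝒪)} (hI : I ∈ famJ 𝒟 F) :
    Algebra.adjoin 𝒪 (Set.range fun i => Ideal.Quotient.mk I
      (MvPolynomial.X (e i) - MvPolynomial.C (lam i))) = ⊤ := by
  obtain ⟨A, _, _, _, _, r, hA, hD, rfl⟩ := hI
  rw [eq_top_iff]
  intro y _
  obtain ⟨x, rfl⟩ := Ideal.Quotient.mk_surjective y
  obtain ⟨q, hq, hqx⟩ := exists_mem_adjoin_ev_eq 𝒟 F H h𝒟 e hsep hA hD x
  have hxq : Ideal.Quotient.mk (RingHom.ker (ev 𝒪 r)) x =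
      Ideal.Quotient.mkₐ 𝒪 (RingHom.ker (ev 𝒪 r)) q := by
    rw [Ideal.Quotient.mkₐ_eq_mk, Ideal.Quotient.eq, RingHom.mem_ker, map_sub, hqx, sub_self]
  rw [hxq]
  have hle : (Algebra.adjoin 𝒪 (Set.range fun i =>
      (MvPolynomial.X (e i) : MvPolynomial E 𝒪))).map
        (Ideal.Quotient.mkₐ 𝒪 (RingHom.ker (ev 𝒪 r))) ≤
      Algebra.adjoin 𝒪 (Set.range fun i => Ideal.Quotient.mk (RingHom.ker (ev 𝒪 r))
        (MvPolynomial.X (e i) - MvPolynomial.C (lam i))) := by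
    rw [AlgHom.map_adjoin]
    refine Algebra.adjoin_le ?_
    rintro _ ⟨_, ⟨i, rfl⟩, rfl⟩
    have h3 : Ideal.Quotient.mkₐ 𝒪 (RingHom.ker (ev 𝒪 r)) (MvPolynomial.X (e i)) =
        Ideal.Quotient.mk (RingHom.ker (ev 𝒪 r))
          (MvPolynomial.X (e i) - MvPolynomial.C (lam i)) +
        algebraMap 𝒪 _ (lam i) := by
      have h4 : algebraMap 𝒪 (MvPolynomial E 𝒪 ⧸ RingHom.ker (ev 𝒪 r)) (lam i) =
          Ideal.Quotient.mk (RingHom.ker (ev 𝒪 r)) (MvPolynomial.C (lam i)) := rfl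
      rw [Ideal.Quotient.mkₐ_eq_mk, map_sub, h4, sub_add_cancel]
    rw [h3]
    exact add_mem (Algebra.subset_adjoin ⟨i, rfl⟩) (Subalgebra.algebraMap_mem _ _)
  exact hle ⟨q, hq, rfl⟩

end Family

section Main

omit [IsLocalRing 𝒪] in
/-- every `𝒪`-algebra map between local `𝒪`-algebras whose target has residue field generated
by `𝒪` is local -/
theorem isLocalHom_of_algHom {R A : Type} [CommRing R] [IsLocalRing R] [Algebra 𝒪 R]
    [CommRing A] [IsLocalRing A] [Algebra 𝒪 A]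
    (hresA : Function.Surjective (residue A ∘ algebraMap 𝒪 A)) (ψ : R →ₐ[𝒪] A) :
    IsLocalHom (ψ : R →+* A) := by
  have hsurj : Function.Surjective ((residue A).comp (ψ : R →+* A)) := by
    intro y
    obtain ⟨o, ho⟩ := hresA y
    refine ⟨algebraMap 𝒪 R o, ?_⟩
    simp only [RingHom.comp_apply, RingHom.coe_coe, AlgHom.commutes]
    exact ho
  have hmax := RingHom.ker_isMaximal_of_surjective _ hsurj
  have hker := IsLocalRing.eq_maximalIdeal hmax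
  refine ((local_hom_TFAE (ψ : R →+* A)).out 0 3).mpr ?_
  intro a ha
  rw [← hker, RingHom.mem_ker] at ha
  rw [Ideal.mem_comap]
  exact (residue_eq_zero_iff _).mp ha

theorem pow_maximalIdeal_ne_top {A : Type} [CommRing A] [IsLocalRing A] {n : ℕ} (hn : 0 < n) :
    maximalIdeal A ^ n ≠ ⊤ := by
  intro h
  have h1 : maximalIdeal A ^ n ≤ maximalIdeal A := Ideal.pow_le_self hn.ne'
  rw [h] at h1
  exact (maximalIdeal.isMaximal A).ne_top (top_le_iff.mp h1)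

/-- existence of the universal deformation ring, relative to a frame and the `Inputs` -/
theorem nonempty_deformationRingData_of_inputs
    (𝒪 : Type) [CommRing 𝒪] [IsDomain 𝒪] [IsDiscreteValuationRing 𝒪]
    [IsAdicComplete (IsLocalRing.maximalIdeal 𝒪) 𝒪] [Finite (IsLocalRing.ResidueField 𝒪)]
    (ρbar : ResidualGaloisRep (IsLocalRing.ResidueField 𝒪))
    (𝒟 : ∀ ⦃A : Type⦄ [CommRing A] [IsLocalRing A] [Algebra 𝒪 A], GaloisRepAdic A → Prop)
    (habs : ρbar.IsAbsolutelyIrreducible)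
    (h𝒟 : GaloisRep.IsDeformationCondition 𝒪 𝒟)
    (hbar : 𝒟 (GaloisRepAdic.ofResidualGaloisRep ρbar))
    (hfin : GaloisRep.TangentFinite 𝒪 ρbar 𝒟)
    (F : Frame 𝒪 ρbar) (H : Inputs F) :
    Nonempty (GaloisRep.DeformationRingData 𝒪 ρbar 𝒟) := by
  obtain ⟨t, e, hsep⟩ := exists_separating 𝒟 F H hfin
  choose lam hlam using fun i => residue_surjective (ent F.rbar (e i))
  have hp : ∀ i, (MvPolynomial.X (e i) - MvPolynomial.C (lam i) : MvPolynomial E 𝒪) ∈ nn F := by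
    intro i
    rw [nn, RingHom.mem_ker, map_sub, ev_X, ev_C, ResidueField.algebraMap_eq, hlam, sub_eq_zero]
    rfl
  obtain ⟨R, iR1, iR2, iR3, iR4, iR5, iR6, hresR, x, hxker, hxsurj, huniv⟩ :=
    S53_ProRep.exists_universal_strong (famJ 𝒟 F) (nn F) (nn_isMaximal F) (nn_surjective F)
      (nn_mem_famJ H h𝒟 hbar) (fun I hI => famJ_le_nn hI) (fun I hI => famJ_art H h𝒟 hI)
      (fun I hI I' hI' => famJ_inf H h𝒟 hI hI') (fun I hI I' h h' => famJ_up H h𝒟 hI I' h h')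
      t (fun i => MvPolynomial.X (e i) - MvPolynomial.C (lam i)) hp
      (fun I hI => famJ_gen H h𝒟 e hsep lam hI)
  -- the universal family
  obtain ⟨rR, hrR, hentR', hNR, h𝒟R⟩ := S53_Univ.exists_univ_rep h𝒟 F hresR x
    (fun n hn => by
      obtain ⟨A, i1, i2, i3, i4, r, hA, ⟨hN, hr, hD⟩, hker⟩ := hxker n hn
      exact ⟨A, i1, i2, i3, i4, hA, r, hr, hN, hD, hker.symm⟩) hxsurj
  have hentR : ∀ e : E, ent rR e = x e := fun e => hentR' e.1 e.2.1 e.2.2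
  refine ⟨{ R := R, residue_surjective := hresR, absIrr := habs, ρ := ofMatrix rR hrR,
            isOfType := h𝒟R, residual_isEquiv := H.residual rR hrR hNR, universal := ?_ }⟩
  intro A _ _ _ _ _ _ hresA ρA h𝒟A hresidA
  obtain ⟨rA, hrA, hNA, hequivA⟩ := H.exists_normLift ρA hresidA
  have hyker : ∀ n : ℕ, 0 < n → RingHom.ker ((Ideal.Quotient.mkₐ 𝒪 (maximalIdeal A ^ n)).comp
      (MvPolynomial.aeval (ent rA))) ∈ famJ 𝒟 F := by
    intro n hn
    haveI : Nontrivial (A ⧸ maximalIdeal A ^ n) :=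
      Ideal.Quotient.nontrivial_iff.mpr (pow_maximalIdeal_ne_top hn)
    haveI : IsLocalRing (A ⧸ maximalIdeal A ^ n) :=
      IsLocalRing.of_surjective' (Ideal.Quotient.mk _) Ideal.Quotient.mk_surjective
    have hAn : GaloisRep.IsArtinianTestAlgebra 𝒪 (A ⧸ maximalIdeal A ^ n) :=
      S53_PowerSeries.isArtinianTestAlgebra_quotient inferInstance hresA _ n le_rfl
    haveI := hAn.isLocalHom
    have hmkl : IsLocalHom ((Ideal.Quotient.mkₐ 𝒪 (maximalIdeal A ^ n) :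
        A →ₐ[𝒪] A ⧸ maximalIdeal A ^ n) : A →+* A ⧸ maximalIdeal A ^ n) :=
      IsLocalHom.of_surjective _ (Ideal.Quotient.mkₐ_surjective 𝒪 _)
    have hD : IsDLift 𝒟 F (mapMat ((Ideal.Quotient.mkₐ 𝒪 (maximalIdeal A ^ n) :
        A →ₐ[𝒪] A ⧸ maximalIdeal A ^ n) : A →+* A ⧸ maximalIdeal A ^ n) rA) := by
      refine ⟨normLift_map _ hmkl hNA, matCont_map H _ hmkl hrA, ?_⟩
      have h1 := (h𝒟.iff_forall_surjective inferInstance hresA ρA).mp h𝒟A hAn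
        (Ideal.Quotient.mkₐ 𝒪 (maximalIdeal A ^ n)) hmkl (Ideal.Quotient.mkₐ_surjective 𝒪 _)
      have h2 := isEquiv_baseChangeAlong _ hmkl hequivA
      exact h𝒟.of_isEquiv hAn (isEquiv_trans h2 (H.baseChange _ hmkl rA hrA _)) h1
    have h3 := mem_famJ hAn hD
    rw [ev_map] at h3
    exact h3
  obtain ⟨φ, hφ, hφuniq⟩ := huniv A hresA (ent rA) hyker
  have hlocal : ∀ ψ : R →ₐ[𝒪] A, IsLocalHom (ψ : R →+* A) := isLocalHom_of_algHom hresA
  refine ⟨φ, ⟨hlocal φ, ?_⟩, ?_⟩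
  · have hmap : mapMat (φ : R →+* A) rR = rA := by
      refine ent_injective fun e' => ?_
      show φ (ent rR e') = ent rA e'
      rw [hentR, hφ]
    have hc := matCont_map H (φ : R →+* A) (hlocal φ) hrR
    refine isEquiv_trans (H.baseChange _ (hlocal φ) rR hrR hc)
      (isEquiv_trans ?_ (isEquiv_symm hequivA))
    refine (H.isEquiv_iff _ _ hc hrA).mpr ⟨1, by simp, fun g => ?_⟩
    rw [hmap, one_mul, mul_one]
  · rintro ψ ⟨hψl, hψ⟩
    apply hφuniq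
    intro e'
    have hc := matCont_map H (ψ : R →+* A) hψl hrR
    have h1 : (ofMatrix (mapMat (ψ : R →+* A) rR) hc).IsEquiv (ofMatrix rA hrA) :=
      isEquiv_trans (isEquiv_symm (H.baseChange _ hψl rR hrR hc)) (isEquiv_trans hψ hequivA)
    have h2 : mapMat (ψ : R →+* A) rR = rA :=
      eq_of_isEquiv H (normLift_map ψ hψl hNR) hNA hc hrA h1
    rw [← hentR]
    exact congrArg (fun s => ent s e') h2

end Main

end Fermat.Agent.S53_Final
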