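import Mathlib
import Fermat.Prelude.Def_GaloisRep_Residual

set_option autoImplicit false

namespace Fermat.Agent.S53_Burnside

open Matrix

section RankOne

variable {K : Type*} [Field K]

/-- A nonzero singular `2 × 2` matrix is a rank-one product. -/
theorem exists_vecMulVec_of_det_eq_zero (c : Matrix (Fin 2) (Fin 2) K) (hc : c ≠ 0)
    (hdet : c.det = 0) :
    ∃ u w : Fin 2 → K, u ≠ 0 ∧ w ≠ 0 ∧ c = Matrix.vecMulVec u w := by
  have hex : ∃ i0 j0, c i0 j0 ≠ 0 := by
    by_contra h
    push Not at h
    exact hc (Matrix.ext fun i j => by simpa using h i j)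
  obtain ⟨i0, j0, h0⟩ := hex
  rw [Matrix.det_fin_two] at hdet
  have key' : ∀ i j i0 j0 : Fin 2, c i j * c i0 j0 = c i j0 * c i0 j := by
    intro i j i0 j0
    fin_cases i <;> fin_cases j <;> fin_cases i0 <;> fin_cases j0 <;>
      simp only [Fin.zero_eta, Fin.mk_one] <;>
      first | ring1 | linear_combination hdet | linear_combination -hdet
  have key : ∀ i j, c i j * c i0 j0 = c i j0 * c i0 j := fun i j => key' i j i0 j0
  refine ⟨fun i => c i j0, fun j => c i0 j / c i0 j0, ?_, ?_, ?_⟩
  · intro h
    exact h0 (congrFun h i0)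
  · intro h
    have := congrFun h j0
    simp only [Pi.zero_apply] at this
    rw [div_self h0] at this
    exact one_ne_zero this
  · ext i j
    rw [Matrix.vecMulVec_apply]
    field_simp
    exact key i j

end RankOne

section Burnside

variable {K : Type*} [Field K] {G : Type*} [Monoid G]

theorem single_eq_vecMulVec (i j : Fin 2) (a : K) :
    Matrix.single i j a = Matrix.vecMulVec (Pi.single i a) (Pi.single j (1 : K)) := by
  ext i' j'
  simp only [Matrix.single_apply, Matrix.vecMulVec_apply, Pi.single_apply]
  rcases eq_or_ne i i' with rfl | hi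
  · rcases eq_or_ne j j' with rfl | hj
    · simp
    · simp [hj, hj.symm]
  · rcases eq_or_ne j j' with rfl | hj
    · simp [hi, hi.symm]
    · simp [hi, hj, hi.symm, hj.symm]

/-- The span of the image of a monoid homomorphism is multiplicatively closed. -/
theorem mul_mem_span_range (M : G →* Matrix (Fin 2) (Fin 2) K)
    {x y : Matrix (Fin 2) (Fin 2) K} (hx : x ∈ Submodule.span K (Set.range M))
    (hy : y ∈ Submodule.span K (Set.range M)) : x * y ∈ Submodule.span K (Set.range M) := by
  have hB : Submodule.span K (Set.range M) =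
      Subalgebra.toSubmodule (Algebra.adjoin K (Set.range M)) := by
    rw [Algebra.adjoin_eq_span]
    have : (Submonoid.closure (Set.range M) : Set (Matrix (Fin 2) (Fin 2) K)) = Set.range M := by
      rw [← MonoidHom.coe_mrange, Submonoid.closure_eq]
    rw [this]
  rw [hB] at hx hy ⊢
  exact (Algebra.adjoin K (Set.range M)).mul_mem hx hy

theorem one_mem_span_range (M : G →* Matrix (Fin 2) (Fin 2) K) :
    (1 : Matrix (Fin 2) (Fin 2) K) ∈ Submodule.span K (Set.range M) :=
  Submodule.subset_span ⟨1, M.map_one⟩

/-- A subspace stable under all `M g` is stable under the span. -/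
theorem mulVec_mem_of_mem_span (M : G →* Matrix (Fin 2) (Fin 2) K)
    (W : Submodule K (Fin 2 → K)) (hW : ∀ g, ∀ v ∈ W, (M g).mulVec v ∈ W)
    {x : Matrix (Fin 2) (Fin 2) K} (hx : x ∈ Submodule.span K (Set.range M))
    {v : Fin 2 → K} (hv : v ∈ W) : x.mulVec v ∈ W := by
  induction hx using Submodule.span_induction with
  | mem x hx =>
    obtain ⟨g, rfl⟩ := hx
    exact hW g v hv
  | zero => rw [Matrix.zero_mulVec]; exact W.zero_mem
  | add x y _ _ hx hy => rw [Matrix.add_mulVec]; exact W.add_mem hx hy
  | smul a x _ hx => rw [Matrix.smul_mulVec]; exact W.smul_mem a hx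

/-- **Burnside for `2 × 2` matrices** over an algebraically closed field: the image of an
irreducible monoid representation spans the full matrix algebra. -/
theorem span_range_eq_top_of_irreducible [IsAlgClosed K] (M : G →* Matrix (Fin 2) (Fin 2) K)
    (hirr : ∀ W : Submodule K (Fin 2 → K), (∀ g, ∀ v ∈ W, (M g).mulVec v ∈ W) → W = ⊥ ∨ W = ⊤) :
    Submodule.span K (Set.range M) = ⊤ := by
  classical
  set B := Submodule.span K (Set.range M) with hBdef
  -- Step 1: a non-scalar element of the image
  have hns : ∃ g, ∀ a : K, M g ≠ a • (1 : Matrix (Fin 2) (Fin 2) K) := by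
    by_contra h
    push Not at h
    have hstab : ∀ g, ∀ v ∈ Submodule.span K {(Pi.single 0 1 : Fin 2 → K)},
        (M g).mulVec v ∈ Submodule.span K {(Pi.single 0 1 : Fin 2 → K)} := by
      intro g v hv
      obtain ⟨a, ha⟩ := h g
      rw [ha, Matrix.smul_mulVec, Matrix.one_mulVec]
      exact Submodule.smul_mem _ a hv
    rcases hirr _ hstab with h0 | h1
    · have hmem : (Pi.single 0 1 : Fin 2 → K) ∈ Submodule.span K {(Pi.single 0 1 : Fin 2 → K)} :=
        Submodule.mem_span_singleton_self _
      rw [h0, Submodule.mem_bot] at hmem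
      have := congrFun hmem 0
      simp at this
    · have hmem : (Pi.single 1 1 : Fin 2 → K) ∈ Submodule.span K {(Pi.single 0 1 : Fin 2 → K)} := by
        rw [h1]; exact Submodule.mem_top
      obtain ⟨a, ha⟩ := Submodule.mem_span_singleton.mp hmem
      have := congrFun ha 1
      simp at this
  obtain ⟨g0, hg0⟩ := hns
  -- Step 2: an eigenvalue
  obtain ⟨μ, hμ⟩ := Module.End.exists_eigenvalue (Matrix.toLin' (M g0))
  obtain ⟨v0, hv0⟩ := hμ.exists_hasEigenvector
  have hv0ne : v0 ≠ 0 := hv0.2
  have hv0eq : (M g0).mulVec v0 = μ • v0 := by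
    have := hv0.apply_eq_smul
    rwa [Matrix.toLin'_apply] at this
  set c : Matrix (Fin 2) (Fin 2) K := M g0 - μ • 1 with hcdef
  have hcB : c ∈ B :=
    B.sub_mem (Submodule.subset_span ⟨g0, rfl⟩) (B.smul_mem μ (one_mem_span_range M))
  have hcne : c ≠ 0 := fun h => hg0 μ (sub_eq_zero.mp h)
  have hcdet : c.det = 0 := by
    rw [← Matrix.exists_mulVec_eq_zero_iff]
    refine ⟨v0, hv0ne, ?_⟩
    rw [hcdef, Matrix.sub_mulVec, Matrix.smul_mulVec, Matrix.one_mulVec, hv0eq, sub_self]
  obtain ⟨u, w, hu, hw, hcuw⟩ := exists_vecMulVec_of_det_eq_zero c hcne hcdet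
  -- Step 3: B u = everything
  have h1 : ∀ a : Fin 2 → K, ∃ x ∈ B, x.mulVec u = a := by
    let L : Matrix (Fin 2) (Fin 2) K →ₗ[K] (Fin 2 → K) :=
      { toFun := fun x => x.mulVec u
        map_add' := fun x y => Matrix.add_mulVec x y u
        map_smul' := fun a x => Matrix.smul_mulVec a x u }
    have hstab : ∀ g, ∀ v ∈ B.map L, (M g).mulVec v ∈ B.map L := by
      rintro g v ⟨x, hx, rfl⟩
      refine ⟨M g * x, mul_mem_span_range M (Submodule.subset_span ⟨g, rfl⟩) hx, ?_⟩
      show (M g * x).mulVec u = (M g).mulVec (x.mulVec u)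
      rw [Matrix.mulVec_mulVec]
    rcases hirr _ hstab with h0 | h1
    · exfalso
      have : u ∈ B.map L := ⟨1, one_mem_span_range M, Matrix.one_mulVec u⟩
      rw [h0, Submodule.mem_bot] at this
      exact hu this
    · intro a
      have : a ∈ B.map L := by rw [h1]; exact Submodule.mem_top
      obtain ⟨x, hx, rfl⟩ := this
      exact ⟨x, hx, rfl⟩
  -- Step 4: w B = everything
  have h2 : ∀ b : Fin 2 → K, ∃ y ∈ B, Matrix.vecMul w y = b := by
    let R : Matrix (Fin 2) (Fin 2) K →ₗ[K] (Fin 2 → K) :=
      { toFun := fun y => Matrix.vecMul w y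
        map_add' := fun x y => Matrix.vecMul_add x y w
        map_smul' := fun a x => Matrix.vecMul_smul w a x }
    let W2 : Submodule K (Fin 2 → K) :=
      { carrier := {v | ∀ y ∈ B, Matrix.vecMul w y ⬝ᵥ v = 0}
        add_mem' := fun {a b} ha hb y hy => by
          rw [dotProduct_add, ha y hy, hb y hy, add_zero]
        zero_mem' := fun y _ => dotProduct_zero _
        smul_mem' := fun a v hv y hy => by
          rw [dotProduct_smul, hv y hy, smul_zero] }
    have hstab : ∀ g, ∀ v ∈ W2, (M g).mulVec v ∈ W2 := by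
      intro g v hv y hy
      rw [Matrix.dotProduct_mulVec, Matrix.vecMul_vecMul]
      exact hv _ (mul_mem_span_range M hy (Submodule.subset_span ⟨g, rfl⟩))
    have hW2 : W2 = ⊥ := by
      rcases hirr _ hstab with h0 | h1
      · exact h0
      · exfalso
        obtain ⟨j, hj⟩ : ∃ j, w j ≠ 0 := by
          by_contra h
          push Not at h
          exact hw (funext h)
        have hmem : (Pi.single j 1 : Fin 2 → K) ∈ W2 := by rw [h1]; exact Submodule.mem_top
        have := hmem 1 (one_mem_span_range M)
        rw [Matrix.vecMul_one, dotProduct_single, mul_one] at this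
        exact hj this
    by_contra hne
    have hlt : B.map R < ⊤ := by
      rw [lt_top_iff_ne_top]
      intro htop
      apply hne
      intro b
      have : b ∈ B.map R := by rw [htop]; exact Submodule.mem_top
      obtain ⟨y, hy, rfl⟩ := this
      exact ⟨y, hy, rfl⟩
    obtain ⟨f, hf0, hfker⟩ := Submodule.exists_le_ker_of_lt_top _ hlt
    set v : Fin 2 → K := fun i => f (Pi.single i 1) with hvdef
    have hfv : ∀ s : Fin 2 → K, f s = s ⬝ᵥ v := by
      intro s
      rw [LinearMap.pi_apply_eq_sum_univ f s]
      simp only [dotProduct, hvdef, smul_eq_mul]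
      refine Finset.sum_congr rfl fun i _ => ?_
      congr 2
      ext j
      simp [Pi.single_apply, eq_comm]
    have hvW2 : v ∈ W2 := by
      intro y hy
      rw [← hfv]
      exact hfker ⟨y, hy, rfl⟩
    rw [hW2, Submodule.mem_bot] at hvW2
    apply hf0
    exact LinearMap.ext fun s => by rw [hfv, hvW2, dotProduct_zero, LinearMap.zero_apply]
  -- Step 5: all rank one matrices are in B
  have h3 : ∀ a b : Fin 2 → K, Matrix.vecMulVec a b ∈ B := by
    intro a b
    obtain ⟨x, hx, rfl⟩ := h1 a
    obtain ⟨y, hy, rfl⟩ := h2 b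
    have : Matrix.vecMulVec (x.mulVec u) (Matrix.vecMul w y) = x * c * y := by
      rw [hcuw, Matrix.mul_vecMulVec, Matrix.vecMulVec_mul]
    rw [this]
    exact mul_mem_span_range M (mul_mem_span_range M hx hcB) hy
  rw [eq_top_iff]
  intro A _
  rw [Matrix.matrix_eq_sum_single A]
  refine Submodule.sum_mem _ fun i _ => Submodule.sum_mem _ fun j _ => ?_
  rw [single_eq_vecMulVec]
  exact h3 _ _

end Burnside

section Descent

variable {k : Type*} [Field k] {G : Type*} [Monoid G]

/-- Every linear functional on `2 × 2` matrices is given by its values on matrix units. -/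
theorem linearMap_apply_eq_sum (f : Matrix (Fin 2) (Fin 2) k →ₗ[k] k)
    (A : Matrix (Fin 2) (Fin 2) k) :
    f A = ∑ i, ∑ j, A i j * f (Matrix.single i j 1) := by
  conv_lhs => rw [Matrix.matrix_eq_sum_single A]
  rw [map_sum]
  refine Finset.sum_congr rfl fun i _ => ?_
  rw [map_sum]
  refine Finset.sum_congr rfl fun j _ => ?_
  have : Matrix.single i j (A i j) = A i j • Matrix.single i j (1 : k) := by
    rw [Matrix.smul_single, smul_eq_mul, mul_one]
  rw [this, map_smul, smul_eq_mul]

/-- Descent of Burnside: if the representation becomes irreducible over an algebraically closed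
extension `K`, then its image already spans the matrix algebra over `k`. -/
theorem span_range_eq_top_of_irreducible_map (K : Type*) [Field K] [Algebra k K] [IsAlgClosed K]
    (M : G →* Matrix (Fin 2) (Fin 2) k)
    (hirr : ∀ W : Submodule K (Fin 2 → K),
      (∀ g, ∀ v ∈ W, ((M g).map (algebraMap k K)).mulVec v ∈ W) → W = ⊥ ∨ W = ⊤) :
    Submodule.span k (Set.range M) = ⊤ := by
  classical
  by_contra hne
  obtain ⟨f, hf0, hfker⟩ := Submodule.exists_le_ker_of_lt_top _ (lt_top_iff_ne_top.mpr hne)
  let MK : G →* Matrix (Fin 2) (Fin 2) K :=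
    ((algebraMap k K).mapMatrix :
      Matrix (Fin 2) (Fin 2) k →+* Matrix (Fin 2) (Fin 2) K).toMonoidHom.comp M
  have hMK : ∀ g, MK g = (M g).map (algebraMap k K) := fun g => rfl
  have htop : Submodule.span K (Set.range MK) = ⊤ :=
    span_range_eq_top_of_irreducible MK (fun W hW => hirr W (fun g v hv => hMK g ▸ hW g v hv))
  let Φ : Matrix (Fin 2) (Fin 2) K →ₗ[K] K :=
    { toFun := fun A => ∑ i, ∑ j, algebraMap k K (f (Matrix.single i j 1)) * A i j
      map_add' := fun A B => by
        simp only [Matrix.add_apply, mul_add, Finset.sum_add_distrib]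
      map_smul' := fun a A => by
        simp only [Matrix.smul_apply, smul_eq_mul, RingHom.id_apply, Finset.mul_sum]
        exact Finset.sum_congr rfl fun i _ => Finset.sum_congr rfl fun j _ => by ring }
  have hΦ : ∀ A : Matrix (Fin 2) (Fin 2) K,
      Φ A = ∑ i, ∑ j, algebraMap k K (f (Matrix.single i j 1)) * A i j := fun A => rfl
  have hΦM : ∀ g, Φ (MK g) = 0 := by
    intro g
    have h0 : f (M g) = 0 := hfker (Submodule.subset_span ⟨g, rfl⟩)
    rw [linearMap_apply_eq_sum] at h0
    rw [hΦ, hMK]
    have := congrArg (algebraMap k K) h0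
    rw [map_zero, map_sum] at this
    rw [← this]
    refine Finset.sum_congr rfl fun i _ => ?_
    rw [map_sum]
    refine Finset.sum_congr rfl fun j _ => ?_
    rw [map_mul, Matrix.map_apply, mul_comm]
  have hΦ0 : ∀ A, Φ A = 0 := by
    intro A
    have hA : A ∈ Submodule.span K (Set.range MK) := by rw [htop]; exact Submodule.mem_top
    induction hA using Submodule.span_induction with
    | mem x hx =>
      obtain ⟨g, rfl⟩ := hx
      exact hΦM g
    | zero => exact map_zero Φ
    | add x y _ _ hx hy => rw [map_add, hx, hy, add_zero]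
    | smul a x _ hx => rw [map_smul, hx, smul_zero]
  apply hf0
  refine LinearMap.ext fun A => ?_
  rw [linearMap_apply_eq_sum, LinearMap.zero_apply]
  refine Finset.sum_eq_zero fun i _ => Finset.sum_eq_zero fun j _ => ?_
  have h1 := hΦ0 (Matrix.single i j 1)
  rw [hΦ] at h1
  have h2 : ∑ i', ∑ j', algebraMap k K (f (Matrix.single i' j' 1)) *
      (Matrix.single i j (1 : K)) i' j' = algebraMap k K (f (Matrix.single i j 1)) := by
    rw [Finset.sum_eq_single i, Finset.sum_eq_single j]
    · simp
    · intro j' _ hj'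
      simp [hj'.symm]
    · simp
    · intro i' _ hi'
      refine Finset.sum_eq_zero fun j' _ => ?_
      simp [hi'.symm]
    · simp
  rw [h2] at h1
  have h3 : f (Matrix.single i j 1) = 0 := by
    apply (algebraMap k K).injective
    rw [h1, map_zero]
  rw [h3, mul_zero]

/-- Schur: a matrix commuting with a spanning family is scalar. -/
theorem mem_range_scalar_of_commute (M : G →* Matrix (Fin 2) (Fin 2) k)
    (hspan : Submodule.span k (Set.range M) = ⊤) (c : Matrix (Fin 2) (Fin 2) k)
    (hc : ∀ g, c * M g = M g * c) : c ∈ Set.range (Matrix.scalar (Fin 2)) := by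
  have hall : ∀ A : Matrix (Fin 2) (Fin 2) k, c * A = A * c := by
    intro A
    have hA : A ∈ Submodule.span k (Set.range M) := by rw [hspan]; exact Submodule.mem_top
    induction hA using Submodule.span_induction with
    | mem x hx =>
      obtain ⟨g, rfl⟩ := hx
      exact hc g
    | zero => rw [mul_zero, zero_mul]
    | add x y _ _ hx hy => rw [mul_add, add_mul, hx, hy]
    | smul a x _ hx => rw [mul_smul_comm, smul_mul_assoc, hx]
  exact Matrix.mem_range_scalar_of_commute_single fun i j _ => (hall _).symm

/-- From a spanning family one can extract a basis of `M₂(k)` consisting of four images. -/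
theorem exists_fin_four_linearIndependent (M : G →* Matrix (Fin 2) (Fin 2) k)
    (hspan : Submodule.span k (Set.range M) = ⊤) :
    ∃ h : Fin 4 → G, LinearIndependent k (fun i => M (h i)) ∧
      Submodule.span k (Set.range fun i => M (h i)) = ⊤ := by
  classical
  obtain ⟨b, hb, hbspan, hbli⟩ := exists_linearIndependent k (Set.range M)
  rw [hspan] at hbspan
  let B : Module.Basis b k (Matrix (Fin 2) (Fin 2) k) :=
    Module.Basis.mk hbli (by rw [Subtype.range_coe, hbspan])
  have : Fintype b := FiniteDimensional.fintypeBasisIndex B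
  have hcard : Fintype.card b = 4 := by
    rw [← Module.finrank_eq_card_basis B, Module.finrank_matrix, Module.finrank_self]
    simp
  let e : Fin 4 ≃ b := (Fintype.equivFinOfCardEq hcard).symm
  have hch : ∀ x : b, ∃ g, M g = x.1 := fun x => hb x.2
  choose h hh using hch
  refine ⟨fun i => h (e i), ?_, ?_⟩
  · have : (fun i => M (h (e i))) = (Subtype.val : b → _) ∘ e := by
      funext i; exact hh (e i)
    rw [this]
    exact hbli.comp e e.injective
  · have : (Set.range fun i => M (h (e i))) = b := by
      ext x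
      constructor
      · rintro ⟨i, rfl⟩
        show M (h (e i)) ∈ b
        rw [hh]; exact (e i).2
      · intro hx
        refine ⟨e.symm ⟨x, hx⟩, ?_⟩
        show M (h (e (e.symm ⟨x, hx⟩))) = x
        rw [e.apply_symm_apply, hh]
    rw [this, hbspan]

end Descent

section Residual

open scoped TensorProduct

variable {k : Type} [Field k]

/-- The matrix valued homomorphism of a residual representation in a basis. -/
noncomputable def resMat (ρbar : ResidualGaloisRep k) (b : Module.Basis (Fin 2) k ρbar.V) :
    (AlgebraicClosure ℚ ≃ₐ[ℚ] AlgebraicClosure ℚ) →* Matrix (Fin 2) (Fin 2) k where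
  toFun g := LinearMap.toMatrix b b (ρbar.ρ g)
  map_one' := by rw [map_one]; exact LinearMap.toMatrix_one b
  map_mul' g g' := by rw [map_mul]; exact LinearMap.toMatrix_mul b (ρbar.ρ g) (ρbar.ρ g')

theorem resMat_apply (ρbar : ResidualGaloisRep k) (b : Module.Basis (Fin 2) k ρbar.V)
    (g : AlgebraicClosure ℚ ≃ₐ[ℚ] AlgebraicClosure ℚ) :
    resMat ρbar b g = LinearMap.toMatrix b b (ρbar.ρ g) := rfl

/-- Burnside for an absolutely irreducible residual representation: the matrices of the
representation span the full matrix algebra. -/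
theorem span_range_resMat_eq_top (ρbar : ResidualGaloisRep k)
    (habs : ρbar.IsAbsolutelyIrreducible) (b : Module.Basis (Fin 2) k ρbar.V) :
    Submodule.span k (Set.range (resMat ρbar b)) = ⊤ := by
  classical
  refine span_range_eq_top_of_irreducible_map (AlgebraicClosure k) (resMat ρbar b) ?_
  intro W hW
  let K := AlgebraicClosure k
  let bK : Module.Basis (Fin 2) K (K ⊗[k] ρbar.V) := Algebra.TensorProduct.basis K b
  let W' : Submodule K (K ⊗[k] ρbar.V) := W.comap (bK.equivFun : (K ⊗[k] ρbar.V) →ₗ[K] (Fin 2 → K))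
  have hstab : ∀ σ : AlgebraicClosure ℚ ≃ₐ[ℚ] AlgebraicClosure ℚ, ∀ x ∈ W',
      (ρbar.baseChange K).ρ σ x ∈ W' := by
    intro σ x hx
    show bK.equivFun ((ρbar.ρ σ).baseChange K x) ∈ W
    have h1 : bK.equivFun ((ρbar.ρ σ).baseChange K x) =
        ((resMat ρbar b σ).map (algebraMap k K)).mulVec (bK.equivFun x) := by
      rw [resMat_apply, ← LinearMap.toMatrix_baseChange (A := K) (ρbar.ρ σ) b b,
        Module.Basis.equivFun_apply, Module.Basis.equivFun_apply]
      exact (LinearMap.toMatrix_mulVec_repr bK bK ((ρbar.ρ σ).baseChange K) x).symm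
    rw [h1]
    exact hW σ _ hx
  rcases habs W' hstab with h | h
  · left
    rw [eq_bot_iff]
    intro v hv
    have hv' : bK.equivFun.symm v ∈ W' := by
      show bK.equivFun (bK.equivFun.symm v) ∈ W
      rw [LinearEquiv.apply_symm_apply]; exact hv
    rw [h, Submodule.mem_bot] at hv'
    have : v = bK.equivFun (bK.equivFun.symm v) := (LinearEquiv.apply_symm_apply _ _).symm
    rw [this, hv', map_zero]
    exact Submodule.zero_mem _
  · right
    rw [eq_top_iff]
    intro v _
    have hv' : bK.equivFun.symm v ∈ W' := by rw [h]; exact Submodule.mem_top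
    have : bK.equivFun (bK.equivFun.symm v) ∈ W := hv'
    rwa [LinearEquiv.apply_symm_apply] at this

/-- Four group elements whose matrices form a basis of the matrix algebra. -/
theorem exists_basis_of_absIrr (ρbar : ResidualGaloisRep k)
    (habs : ρbar.IsAbsolutelyIrreducible) (b : Module.Basis (Fin 2) k ρbar.V) :
    ∃ h : Fin 4 → (AlgebraicClosure ℚ ≃ₐ[ℚ] AlgebraicClosure ℚ),
      LinearIndependent k (fun i => LinearMap.toMatrix b b (ρbar.ρ (h i))) ∧
      Submodule.span k (Set.range fun i => LinearMap.toMatrix b b (ρbar.ρ (h i))) = ⊤ :=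
  exists_fin_four_linearIndependent (resMat ρbar b) (span_range_resMat_eq_top ρbar habs b)

/-- Schur for an absolutely irreducible residual representation, in matrix form. -/
theorem scalar_of_commute_resMat (ρbar : ResidualGaloisRep k)
    (habs : ρbar.IsAbsolutelyIrreducible) (b : Module.Basis (Fin 2) k ρbar.V)
    (c : Matrix (Fin 2) (Fin 2) k)
    (hc : ∀ g, c * LinearMap.toMatrix b b (ρbar.ρ g) = LinearMap.toMatrix b b (ρbar.ρ g) * c) :
    c ∈ Set.range (Matrix.scalar (Fin 2)) :=
  mem_range_scalar_of_commute (resMat ρbar b) (span_range_resMat_eq_top ρbar habs b) c hc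

end Residual

end Fermat.Agent.S53_Burnside
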