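import Mathlib
import Fermat.Agent.S53_Defs
import Fermat.Agent.S53_NormLift
import Fermat.Agent.S53_Local
import Fermat.Agent.S53_Mat

set_option autoImplicit false

/-!
The tangent bound for S53: finitely many matrix entries generate every Artinian test algebra
that is generated by the entries of a normalized lift of type `𝒟`.
-/

namespace Fermat.Agent.S53_Tangent

open Fermat.Agent.S53_Defs Fermat.Agent.S53_NormLift Fermat.Agent.S53_Local Fermat.Agent.S53_Mat
open IsLocalRing

section General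

/-- Finiteness of a type mapping into a type with finite quotient, injectively up to the
relation. -/
theorem finite_of_quotient {α β : Type*} (S : Setoid β) (hS : Finite (Quotient S)) (f : α → β)
    (hf : ∀ a a', S.r (f a) (f a') → a = a') : Finite α :=
  Finite.of_injective (fun a => Quotient.mk S (f a)) (fun a a' h => hf a a' (Quotient.exact h))

/-- Finitely many points separate a finite set of functions. -/
theorem exists_separating {R X Y : Type*} (T : Set R) (hT : T.Finite) (ev : R → X → Y)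
    (hev : ∀ r r', (∀ x, ev r x = ev r' x) → r = r') :
    ∃ (t : ℕ) (e : Fin t → X), ∀ r ∈ T, ∀ r' ∈ T, (∀ i, ev r (e i) = ev r' (e i)) → r = r' := by
  classical
  have : Finite T := hT
  let Pairs : Type _ := {p : T × T // p.1 ≠ p.2}
  have : Finite Pairs := inferInstanceAs (Finite {p : T × T // p.1 ≠ p.2})
  have hx : ∀ p : Pairs, ∃ x : X, ev p.1.1.1 x ≠ ev p.1.2.1 x := by
    intro p
    by_contra hcon
    push Not at hcon
    exact p.2 (Subtype.ext (hev _ _ hcon))
  choose x hx using hx
  refine ⟨Nat.card Pairs, fun i => x ((Finite.equivFin Pairs).symm i), ?_⟩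
  intro r hr r' hr' h
  by_contra hne
  let p : Pairs := ⟨(⟨r, hr⟩, ⟨r', hr'⟩), fun hp => hne (congrArg Subtype.val hp)⟩
  have h1 := h (Finite.equivFin Pairs p)
  simp only [Equiv.symm_apply_apply] at h1
  exact hx p h1

/-- Every ring homomorphism from a finite local ring to a nontrivial ring is local. -/
theorem isLocalHom_of_finite_local {A B : Type*} [CommRing A] [IsLocalRing A] [Finite A]
    [CommRing B] [Nontrivial B] (φ : A →+* B) : IsLocalHom φ := by
  refine ⟨fun a ha => ?_⟩
  by_contra hna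
  have h1 : a ∈ maximalIdeal A := hna
  obtain ⟨n, hn⟩ := IsArtinianRing.isNilpotent_jacobson_bot (R := A)
  rw [IsLocalRing.jacobson_eq_maximalIdeal _ bot_ne_top] at hn
  have h2 : a ^ n ∈ maximalIdeal A ^ n := Ideal.pow_mem_pow h1 n
  rw [hn] at h2
  have h3 : a ^ n = 0 := h2
  have h4 : IsNilpotent (φ a) := ⟨n, by rw [← map_pow, h3, map_zero]⟩
  exact h4.not_isUnit ha

end General

section Residual

variable {𝒪 : Type} [CommRing 𝒪] [IsLocalRing 𝒪]
variable {ρbar : ResidualGaloisRep (ResidueField 𝒪)}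

/-- Rigidity in terms of equivalence of the attached representations. -/
theorem eq_of_isEquiv_ofMatrix (F : Frame 𝒪 ρbar) {A : Type} [CommRing A] [IsLocalRing A]
    [Algebra 𝒪 A] [IsLocalHom (algebraMap 𝒪 A)] (r r' : Gal →* Matrix (Fin 2) (Fin 2) A)
    (hr : MatCont r) (hr' : MatCont r') (h : IsNormLift F r) (h' : IsNormLift F r')
    (he : (ofMatrix r hr).IsEquiv (ofMatrix r' hr')) : r = r' := by
  obtain ⟨P, hP, hconj⟩ := (ofMatrix_isEquiv_iff r r' hr hr').mp he
  exact normLift_eq_of_conj h h' P hP hconj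

end Residual

section Dual

variable {𝒪 : Type} [CommRing 𝒪] [IsLocalRing 𝒪]
variable {ρbar : ResidualGaloisRep (ResidueField 𝒪)}
variable (𝒟 : ∀ ⦃A : Type⦄ [CommRing A] [IsLocalRing A] [Algebra 𝒪 A], GaloisRepAdic A → Prop)

attribute [local instance] dualAlg

/-- The structure map of the dual numbers is local. -/
theorem isLocalHom_dualAlg : IsLocalHom (algebraMap 𝒪 (DualNumber (ResidueField 𝒪))) :=
  (dualNumber_isArtinianTest 𝒪).isLocalHom

attribute [local instance] isLocalHom_dualAlg

/-- The two descriptions of the residue field map of the dual numbers agree. -/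
theorem residueField_map_dualAlg :
    ResidueField.map (algebraMap 𝒪 (DualNumber (ResidueField 𝒪))) =
    (residue (DualNumber (ResidueField 𝒪))).comp
      (algebraMap (ResidueField 𝒪) (DualNumber (ResidueField 𝒪))) := by
  ext x
  obtain ⟨y, rfl⟩ := residue_surjective x
  rfl

/-- The normalized lifts of type `𝒟` over the dual numbers. -/
def tanSet (F : Frame 𝒪 ρbar) :
    Set (Gal →* Matrix (Fin 2) (Fin 2) (DualNumber (ResidueField 𝒪))) :=
  {r | ∃ hr : MatCont r, IsNormLift F r ∧ 𝒟 (ofMatrix r hr)}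

/-- The tangent space is finite. -/
theorem finite_tanSet (hfin : GaloisRep.TangentFinite 𝒪 ρbar 𝒟) (F : Frame 𝒪 ρbar) :
    (tanSet 𝒟 F).Finite := by
  unfold GaloisRep.TangentFinite at hfin
  rw [← Set.finite_coe_iff]
  refine finite_of_quotient _ hfin
    (fun r : tanSet 𝒟 F => ⟨ofMatrix r.1 r.2.choose, r.2.choose_spec.2, ?_⟩) ?_
  · have h1 := r.2.choose_spec.1.residual_isEquiv r.2.choose
    rw [residueField_map_dualAlg] at h1
    exact h1
  · intro a a' h
    exact Subtype.ext (eq_of_isEquiv_ofMatrix F a.1 a'.1 a.2.choose a'.2.choose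
      a.2.choose_spec.1 a'.2.choose_spec.1 h)

/-- The projection of the dual numbers onto the constants, as an `𝒪`-algebra endomorphism. -/
noncomputable def dualProj : DualNumber (ResidueField 𝒪) →ₐ[𝒪] DualNumber (ResidueField 𝒪) :=
  { (TrivSqZeroExt.inlHom (ResidueField 𝒪) (ResidueField 𝒪)).comp
      (TrivSqZeroExt.fstHom (ResidueField 𝒪) (ResidueField 𝒪) (ResidueField 𝒪) :
        DualNumber (ResidueField 𝒪) →+* ResidueField 𝒪) with
    commutes' := fun _ => rfl }

theorem dualProj_apply (x : DualNumber (ResidueField 𝒪)) :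
    dualProj (𝒪 := 𝒪) x = TrivSqZeroExt.inl (TrivSqZeroExt.fst x) := rfl

theorem dualProj_eq_self_of_snd (x : DualNumber (ResidueField 𝒪))
    (hx : TrivSqZeroExt.snd x = 0) : dualProj (𝒪 := 𝒪) x = x := by
  rw [dualProj_apply]
  apply TrivSqZeroExt.ext
  · simp
  · simp [hx]

theorem snd_dualProj (x : DualNumber (ResidueField 𝒪)) :
    TrivSqZeroExt.snd (dualProj (𝒪 := 𝒪) x) = 0 := by
  rw [dualProj_apply]; simp

variable {𝒟}

/-- Push-forwards of normalized lifts of type `𝒟` to the dual numbers lie in the tangent set. -/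
theorem mapMat_mem_tanSet [Finite (ResidueField 𝒪)] (h𝒟 : GaloisRep.IsDeformationCondition 𝒪 𝒟)
    (F : Frame 𝒪 ρbar) {A : Type} [CommRing A] [IsLocalRing A] [Algebra 𝒪 A]
    [IsLocalHom (algebraMap 𝒪 A)] (hA : GaloisRep.IsArtinianTestAlgebra 𝒪 A)
    (r : Gal →* Matrix (Fin 2) (Fin 2) A) (hr : MatCont r) (hN : IsNormLift F r)
    (hD : 𝒟 (ofMatrix r hr)) (π : A →ₐ[𝒪] DualNumber (ResidueField 𝒪)) :
    mapMat (π : A →+* DualNumber (ResidueField 𝒪)) r ∈ tanSet 𝒟 F := by
  have : Finite A := finite_of_isArtinianTest hA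
  have hπ : IsLocalHom (π : A →+* DualNumber (ResidueField 𝒪)) := isLocalHom_of_finite_local _
  refine ⟨hr.map _ hπ, normLift_map hN π hπ, ?_⟩
  exact h𝒟.of_isEquiv (dualNumber_isArtinianTest 𝒪) (ofMatrix_baseChangeAlong _ hπ r hr)
    (h𝒟.baseChangeAlong hA (dualNumber_isArtinianTest 𝒪) π hπ hD)

/-- The tangent bound: finitely many entries generate every Artinian test algebra generated
by the entries of a normalized lift of type `𝒟`. -/
theorem exists_separating_entries [Finite (ResidueField 𝒪)]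
    (h𝒟 : GaloisRep.IsDeformationCondition 𝒪 𝒟) (hfin : GaloisRep.TangentFinite 𝒪 ρbar 𝒟)
    (F : Frame 𝒪 ρbar) :
    ∃ (t : ℕ) (e : Fin t → Gal × Fin 2 × Fin 2),
      ∀ (A : Type) [CommRing A] [IsLocalRing A] [Algebra 𝒪 A] [IsLocalHom (algebraMap 𝒪 A)],
        GaloisRep.IsArtinianTestAlgebra 𝒪 A →
        ∀ (r : Gal →* Matrix (Fin 2) (Fin 2) A) (hr : MatCont r), IsNormLift F r →
          𝒟 (ofMatrix r hr) →
          Algebra.adjoin 𝒪 (Set.range fun x : Gal × Fin 2 × Fin 2 => r x.1 x.2.1 x.2.2) = ⊤ →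
          Algebra.adjoin 𝒪 (Set.range fun i : Fin t => r (e i).1 (e i).2.1 (e i).2.2) = ⊤ := by
  obtain ⟨t, e, he⟩ := exists_separating (tanSet 𝒟 F) (finite_tanSet 𝒟 hfin F)
    (fun r (x : Gal × Fin 2 × Fin 2) => r x.1 x.2.1 x.2.2) (by
      intro r r' h
      exact MonoidHom.ext fun g => Matrix.ext fun i j => h (g, i, j))
  refine ⟨t, e, ?_⟩
  intro A _ _ _ _ hA r hr hN hD hgen
  by_contra hB
  have : Finite A := finite_of_isArtinianTest hA
  obtain ⟨π, hπB, a, ha⟩ := exists_dualNumber_hom hA.residue_surjective _ hB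
  -- the two lifts to the dual numbers
  have h1 := mapMat_mem_tanSet h𝒟 F hA r hr hN hD π
  have h0 := mapMat_mem_tanSet h𝒟 F hA r hr hN hD (dualProj.comp π)
  have hagree : ∀ i : Fin t,
      mapMat (π : A →+* DualNumber (ResidueField 𝒪)) r (e i).1 (e i).2.1 (e i).2.2 =
      mapMat ((dualProj.comp π : A →ₐ[𝒪] DualNumber (ResidueField 𝒪)) :
        A →+* DualNumber (ResidueField 𝒪)) r (e i).1 (e i).2.1 (e i).2.2 := by
    intro i
    rw [mapMat_apply, mapMat_apply]
    have h2 : TrivSqZeroExt.snd (π (r (e i).1 (e i).2.1 (e i).2.2)) = 0 :=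
      hπB _ (Algebra.subset_adjoin ⟨i, rfl⟩)
    exact (dualProj_eq_self_of_snd _ h2).symm
  have heq := he _ h1 _ h0 hagree
  -- hence `π` and its projection agree on all entries, hence everywhere
  have hle : Algebra.adjoin 𝒪 (Set.range fun x : Gal × Fin 2 × Fin 2 => r x.1 x.2.1 x.2.2) ≤
      AlgHom.equalizer π (dualProj.comp π) := by
    rw [Algebra.adjoin_le_iff]
    rintro _ ⟨x, rfl⟩
    have h3 := congrArg (fun q : Gal →* Matrix (Fin 2) (Fin 2) (DualNumber (ResidueField 𝒪)) =>
      q x.1 x.2.1 x.2.2) heq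
    simp only [mapMat_apply] at h3
    exact h3
  rw [hgen] at hle
  have h4 : π a = (dualProj.comp π) a := hle (Algebra.mem_top)
  apply ha
  rw [h4, AlgHom.comp_apply, snd_dualProj]

end Dual

end Fermat.Agent.S53_Tangent
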