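import Mathlib
import Fermat.Agent.S53_Glue
import Fermat.Agent.S53_PowerSeries

set_option autoImplicit false

/-!
The universal property of `DeformationRingData` from the universal property for normalized
lifts (tuples of matrix entries), and the reduction of lifts modulo powers of the maximal ideal.
-/

namespace Fermat.Agent.S53_UnivProp

open IsLocalRing Fermat.Agent.S53_Defs Fermat.Agent.S53_Glue

variable {𝒪 : Type} [CommRing 𝒪] [IsLocalRing 𝒪] {ρbar : ResidualGaloisRep (ResidueField 𝒪)}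

section LocalHom

/-- An algebra homomorphism into a local algebra whose residue field is generated by `𝒪`
(with local structure map) is automatically local. -/
theorem isLocalHom_algHom {R A : Type} [CommRing R] [IsLocalRing R] [Algebra 𝒪 R]
    [CommRing A] [IsLocalRing A] [Algebra 𝒪 A] [IsLocalHom (algebraMap 𝒪 A)]
    (hresA : Function.Surjective (residue A ∘ algebraMap 𝒪 A)) (φ : R →ₐ[𝒪] A) :
    IsLocalHom (φ : R →+* A) := by
  refine ⟨fun x hx => ?_⟩
  by_contra hnx
  have hxm : x ∈ maximalIdeal R := hnx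
  obtain ⟨o, ho⟩ := hresA (residue A (φ x))
  have h1 : φ x - algebraMap 𝒪 A o ∈ maximalIdeal A := by
    rw [← residue_eq_zero_iff, map_sub, sub_eq_zero]
    exact ho.symm
  have ho_unit : IsUnit o := by
    by_contra hno
    have h2 : algebraMap 𝒪 A o ∈ maximalIdeal A :=
      (mem_maximalIdeal _).mpr (map_nonunit (algebraMap 𝒪 A) o hno)
    have h3 : φ x ∈ maximalIdeal A := by
      have := add_mem h1 h2
      simpa using this
    exact h3 hx
  have h4 : IsUnit (x - algebraMap 𝒪 R o) := by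
    by_contra hnu
    have h5 : x - algebraMap 𝒪 R o ∈ maximalIdeal R := hnu
    have h6 : algebraMap 𝒪 R o ∈ maximalIdeal R := by
      have := sub_mem hxm h5
      simpa using this
    exact h6 (ho_unit.map (algebraMap 𝒪 R))
  have h7 : IsUnit (φ x - algebraMap 𝒪 A o) := by
    have := h4.map (φ : R →+* A)
    simpa using this
  exact h1 h7

end LocalHom

variable {𝒟 : ∀ ⦃A : Type⦄ [CommRing A] [IsLocalRing A] [Algebra 𝒪 A], GaloisRepAdic A → Prop}
variable {F : Frame 𝒪 ρbar}

section Complete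

variable {A : Type} [CommRing A] [IsLocalRing A] [IsNoetherianRing A]
  [IsAdicComplete (maximalIdeal A) A] [Algebra 𝒪 A] [IsLocalHom (algebraMap 𝒪 A)]

/-- Over complete Noetherian local algebras the deformation condition is invariant under
equivalence. -/
theorem of_isEquiv_complete (h𝒟 : GaloisRep.IsDeformationCondition 𝒪 𝒟)
    (hres : Function.Surjective (residue A ∘ algebraMap 𝒪 A)) {ρ ρ' : GaloisRepAdic A}
    (he : ρ.IsEquiv ρ') (h : 𝒟 ρ) : 𝒟 ρ' := by
  rw [h𝒟.iff_forall_surjective inferInstance hres] at h ⊢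
  intro B _ _ _ hB q hq hsurj
  exact h𝒟.of_isEquiv hB (isEquiv_baseChangeAlong _ hq he) (h hB q hq hsurj)

/-- The reduction of a normalized lift of type `𝒟` over a complete Noetherian local algebra
modulo a power of the maximal ideal is a normalized lift of type `𝒟` over an Artinian test
algebra. -/
theorem isDLift_quotient (H : Inputs F) (h𝒟 : GaloisRep.IsDeformationCondition 𝒪 𝒟)
    (hres : Function.Surjective (residue A ∘ algebraMap 𝒪 A)) {r : Gal →* M2 A}
    (hN : IsNormLift F r) (hr : MatCont r) (hD : 𝒟 (ofMatrix r hr)) (n : ℕ) (hn : 0 < n) :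
    ∃ (_ : IsLocalRing (A ⧸ maximalIdeal A ^ n))
      (_ : IsLocalHom (algebraMap 𝒪 (A ⧸ maximalIdeal A ^ n))),
      GaloisRep.IsArtinianTestAlgebra 𝒪 (A ⧸ maximalIdeal A ^ n) ∧
      IsDLift 𝒟 F (mapMat
        ((Ideal.Quotient.mkₐ 𝒪 (maximalIdeal A ^ n) : A →ₐ[𝒪] A ⧸ maximalIdeal A ^ n) :
          A →+* A ⧸ maximalIdeal A ^ n) r) := by
  have hne : maximalIdeal A ^ n ≠ ⊤ := by
    intro htop
    have h1 : maximalIdeal A ^ n ≤ maximalIdeal A := Ideal.pow_le_self hn.ne'
    rw [htop] at h1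
    exact (maximalIdeal.isMaximal A).ne_top (top_le_iff.mp h1)
  haveI : Nontrivial (A ⧸ maximalIdeal A ^ n) := Ideal.Quotient.nontrivial_iff.mpr hne
  haveI : IsLocalRing (A ⧸ maximalIdeal A ^ n) :=
    IsLocalRing.of_surjective' (Ideal.Quotient.mk (maximalIdeal A ^ n))
      Ideal.Quotient.mk_surjective
  have hB : GaloisRep.IsArtinianTestAlgebra 𝒪 (A ⧸ maximalIdeal A ^ n) :=
    S53_PowerSeries.isArtinianTestAlgebra_quotient inferInstance hres _ n le_rfl
  haveI := hB.isLocalHom
  have hq : IsLocalHom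
      ((Ideal.Quotient.mkₐ 𝒪 (maximalIdeal A ^ n) : A →ₐ[𝒪] A ⧸ maximalIdeal A ^ n) :
        A →+* A ⧸ maximalIdeal A ^ n) :=
    IsLocalHom.of_surjective _ (Ideal.Quotient.mkₐ_surjective 𝒪 _)
  refine ⟨inferInstance, hB.isLocalHom, hB, normLift_map _ hq hN, matCont_map H _ hq hr, ?_⟩
  exact h𝒟.of_isEquiv hB (H.baseChange _ hq r hr _)
    ((h𝒟.iff_forall_surjective inferInstance hres (ofMatrix r hr)).mp hD hB
      (Ideal.Quotient.mkₐ 𝒪 (maximalIdeal A ^ n)) hq (Ideal.Quotient.mkₐ_surjective 𝒪 _))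

end Complete

section Universal

/-- The universal property required by `DeformationRingData`, from the universal property for
normalized lifts of type `𝒟` over complete Noetherian local algebras. -/
theorem universal_of_normLifts (H : Inputs F) (h𝒟 : GaloisRep.IsDeformationCondition 𝒪 𝒟)
    {R : Type} [CommRing R] [IsLocalRing R] [Algebra 𝒪 R] [IsLocalHom (algebraMap 𝒪 R)]
    {rR : Gal →* M2 R} (hrR : MatCont rR) (hNR : IsNormLift F rR)
    (huniv : ∀ (A : Type) [CommRing A] [IsLocalRing A] [IsNoetherianRing A]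
      [IsAdicComplete (maximalIdeal A) A] [Algebra 𝒪 A] [IsLocalHom (algebraMap 𝒪 A)],
      Function.Surjective (residue A ∘ algebraMap 𝒪 A) →
      ∀ (r : Gal →* M2 A) (hr : MatCont r), IsNormLift F r → 𝒟 (ofMatrix r hr) →
        ∃! φ : R →ₐ[𝒪] A, ∀ e : E, φ (ent rR e) = ent r e) :
    ∀ (A : Type) [CommRing A] [IsLocalRing A] [IsNoetherianRing A]
      [IsAdicComplete (maximalIdeal A) A] [Algebra 𝒪 A] [IsLocalHom (algebraMap 𝒪 A)],
      Function.Surjective (residue A ∘ algebraMap 𝒪 A) →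
      ∀ ρA : GaloisRepAdic A, 𝒟 ρA →
        ρA.residual.IsEquiv (ρbar.baseChangeAlong (ResidueField.map (algebraMap 𝒪 A))) →
        ∃! φ : R →ₐ[𝒪] A, ∃ hφ : IsLocalHom (φ : R →+* A),
          ((ofMatrix rR hrR).baseChangeAlong (φ : R →+* A) hφ).IsEquiv ρA := by
  intro A _ _ _ _ _ _ hresA ρA hDA hresid
  obtain ⟨r, hr, hN, he⟩ := H.exists_normLift ρA hresid
  have hDr : 𝒟 (ofMatrix r hr) := of_isEquiv_complete h𝒟 hresA he hDA
  obtain ⟨φ, hφ, huniq⟩ := huniv A hresA r hr hN hDr
  have key : ∀ (ψ : R →ₐ[𝒪] A) (hψ : IsLocalHom (ψ : R →+* A)),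
      ((ofMatrix rR hrR).baseChangeAlong (ψ : R →+* A) hψ).IsEquiv ρA ↔
        ∀ e : E, ψ (ent rR e) = ent r e := by
    intro ψ hψ
    have hb := H.baseChange (ψ : R →+* A) hψ rR hrR (matCont_map H _ hψ hrR)
    constructor
    · intro h e
      have h1 : (ofMatrix (mapMat (ψ : R →+* A) rR) (matCont_map H _ hψ hrR)).IsEquiv
          (ofMatrix r hr) := isEquiv_trans (isEquiv_trans (isEquiv_symm hb) h) he
      have h2 : mapMat (ψ : R →+* A) rR = r :=
        eq_of_isEquiv H (normLift_map ψ hψ hNR) hN _ _ h1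
      rw [← h2]
      rfl
    · intro h
      have h2 : mapMat (ψ : R →+* A) rR = r := ent_injective fun e => h e
      have h3 : (ofMatrix (mapMat (ψ : R →+* A) rR) (matCont_map H _ hψ hrR)).IsEquiv
          (ofMatrix r hr) := by
        subst h2
        exact ⟨GaloisRepAdic.Equiv.refl _⟩
      exact isEquiv_trans (isEquiv_trans hb h3) (isEquiv_symm he)
  refine ⟨φ, ⟨isLocalHom_algHom hresA φ, (key φ _).mpr hφ⟩, ?_⟩
  rintro ψ ⟨hψ, hψe⟩
  exact huniq ψ ((key ψ hψ).mp hψe)

end Universal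

end Fermat.Agent.S53_UnivProp
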