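import Mathlib
import Fermat.Statements.S54

set_option autoImplicit false
open GaloisRep GaloisRep.DeformationRingData

namespace Fermat.Agent.S54_Main

open Polynomial

/-- Equivalent adic representations have the same characteristic polynomials. -/
theorem charpoly_eq_of_equiv {A : Type} [CommRing A] [IsLocalRing A] {ρ₁ ρ₂ : GaloisRepAdic A}
    (e : GaloisRepAdic.Equiv ρ₁ ρ₂) (σ : AlgebraicClosure ℚ ≃ₐ[ℚ] AlgebraicClosure ℚ) :
    LinearMap.charpoly (ρ₂.ρ σ) = LinearMap.charpoly (ρ₁.ρ σ) := by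
  have h : e.toLinearEquiv.conj (ρ₁.ρ σ) = ρ₂.ρ σ := by
    apply LinearMap.ext
    intro x
    rw [LinearEquiv.conj_apply_apply, e.map_apply, LinearEquiv.apply_symm_apply]
  rw [← h, LinearEquiv.charpoly_conj]

/-- The characteristic polynomial of a base change. -/
theorem charpoly_baseChangeAlong {A B : Type} [CommRing A] [IsLocalRing A] [CommRing B]
    [IsLocalRing B] (φ : A →+* B) (hφ : IsLocalHom φ) (ρ : GaloisRepAdic A)
    (σ : AlgebraicClosure ℚ ≃ₐ[ℚ] AlgebraicClosure ℚ) :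
    LinearMap.charpoly ((ρ.baseChangeAlong φ hφ).ρ σ) = (LinearMap.charpoly (ρ.ρ σ)).map φ := by
  let _ : Algebra A B := φ.toAlgebra
  exact LinearMap.charpoly_baseChange (ρ.ρ σ) B

/-- `R ↠ T`, assuming the existence of Frobenius elements. -/
theorem result_of_frob
    (hfrob : ∀ l : ℕ, l.Prime → ∃ (A : ValuationSubring (AlgebraicClosure ℚ))
      (σ : AlgebraicClosure ℚ ≃ₐ[ℚ] AlgebraicClosure ℚ), A.LiesOverPrime l ∧ A.IsFrobeniusAt σ l)
    {𝒪 : Type} [CommRing 𝒪] [IsDomain 𝒪] [IsDiscreteValuationRing 𝒪] [IsAdicComplete (IsLocalRing.maximalIdeal 𝒪) 𝒪] {ρbar : ResidualGaloisRep (IsLocalRing.ResidueField 𝒪)} {𝒟 : ∀ ⦃A : Type⦄ [CommRing A] [IsLocalRing A] [Algebra 𝒪 A], GaloisRepAdic A → Prop} (D : GaloisRep.DeformationRingData 𝒪 ρbar 𝒟) {N : ℕ} [NeZero N] {S : Set ℕ} {θ : CuspForm.heckeAlgebra N 2 S →+* IsLocalRing.ResidueField 𝒪} {T : Type} [CommRing T] [IsLocalRing T] [IsNoetherianRing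 T] [IsAdicComplete (IsLocalRing.maximalIdeal T) T] [Algebra 𝒪 T] [IsLocalHom (algebraMap 𝒪 T)] [Module.Finite 𝒪 T] [Module.Free 𝒪 T] (H : CuspForm.HeckeGaloisRepDatum N S 𝒪 θ T) (hS : ∀ q : ℕ, q.Prime → q ∣ N → q ∈ S) (h𝒟 : 𝒟 H.ρ) (hres : H.ρ.residual.IsEquiv (ρbar.baseChangeAlong (IsLocalRing.ResidueField.map (algebraMap 𝒪 T)))) : ∃ φ : D.R →ₐ[𝒪] T, Function.Surjective φ ∧ ∃ hφ : IsLocalHom (φ : D.R →+* T), (D.ρ.baseChangeAlong (φ : D.R →+* T) hφ).IsEquiv H.ρ := by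
  obtain ⟨φ, ⟨hφ, ⟨e⟩⟩, -⟩ := D.universal T H.residue_surjective H.ρ h𝒟 hres
  refine ⟨φ, ?_, hφ, ⟨e⟩⟩
  -- characteristic polynomials are images under `φ`
  have hchar : ∀ σ : AlgebraicClosure ℚ ≃ₐ[ℚ] AlgebraicClosure ℚ,
      LinearMap.charpoly (H.ρ.ρ σ) = (LinearMap.charpoly (D.ρ.ρ σ)).map (φ : D.R →+* T) := by
    intro σ
    rw [charpoly_eq_of_equiv e σ, charpoly_baseChangeAlong]
  -- the Hecke operators `T_ℓ` land in the range of `φ`
  have hT : ∀ (ℓ : ℕ) (hℓ : ℓ.Prime) (hℓN : ¬ ℓ ∣ N) (hℓS : ℓ ∉ S),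
      H.π (CuspForm.heckeAlgebra.T hℓ hℓN hℓS) ∈ φ.range := by
    intro ℓ hℓ hℓN hℓS
    obtain ⟨A, σ, hA, hσ⟩ := hfrob ℓ hℓ
    have h1 := H.charpoly_frob ℓ hℓ hℓN hℓS A hA σ hσ
    rw [hchar σ] at h1
    have h2 := congrArg (fun p => Polynomial.coeff p 1) h1
    simp only [Polynomial.coeff_map] at h2
    have h3 : (X ^ 2 - C (H.π (CuspForm.heckeAlgebra.T hℓ hℓN hℓS)) * X + C ((ℓ : T)) : T[X]).coeff 1
        = - H.π (CuspForm.heckeAlgebra.T hℓ hℓN hℓS) := by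
      simp [Polynomial.coeff_X_pow, Polynomial.coeff_C]
    rw [h3] at h2
    refine ⟨- (LinearMap.charpoly (D.ρ.ρ σ)).coeff 1, ?_⟩
    have h4 : φ ((LinearMap.charpoly (D.ρ.ρ σ)).coeff 1) =
        - H.π (CuspForm.heckeAlgebra.T hℓ hℓN hℓS) := h2
    show φ (- (LinearMap.charpoly (D.ρ.ρ σ)).coeff 1) = _
    rw [map_neg, h4, neg_neg]
  -- hence the whole image of `π` lands in the range of `φ`
  have hπ : ∀ (x : Module.End ℂ (CuspForm (CongruenceSubgroup.Gamma0 N) 2))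
      (hx : x ∈ Algebra.adjoin ℤ (CuspForm.heckeGenerators N 2 S)),
      H.π ⟨x, hx⟩ ∈ φ.range := by
    intro x hx
    induction hx using Algebra.adjoin_induction with
    | mem x hx =>
      rcases hx with ⟨ℓ, hℓ, hℓN, hℓS, rfl⟩ | ⟨q, hqN, hq, hqS, rfl⟩
      · exact hT ℓ hℓ hℓN hℓS
      · exact absurd (hS q hq hqN) hqS
    | algebraMap r =>
      have h1 : (⟨algebraMap ℤ _ r, Subalgebra.algebraMap_mem _ r⟩ :
          CuspForm.heckeAlgebra N 2 S) = ((r : ℤ) : CuspForm.heckeAlgebra N 2 S) := by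
        apply Subtype.ext
        simp
      rw [h1, map_intCast]
      exact ⟨(r : D.R), by simp⟩
    | add x y hx hy hx' hy' =>
      have h1 : (⟨x + y, add_mem hx hy⟩ : CuspForm.heckeAlgebra N 2 S) =
          (⟨x, hx⟩ : CuspForm.heckeAlgebra N 2 S) + ⟨y, hy⟩ := rfl
      rw [h1, map_add]
      exact add_mem hx' hy'
    | mul x y hx hy hx' hy' =>
      have h1 : (⟨x * y, mul_mem hx hy⟩ : CuspForm.heckeAlgebra N 2 S) =
          (⟨x, hx⟩ : CuspForm.heckeAlgebra N 2 S) * ⟨y, hy⟩ := rfl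
      rw [h1, map_mul]
      exact mul_mem hx' hy'
  have hrange : Algebra.adjoin 𝒪 (Set.range H.π) ≤ φ.range := by
    apply Algebra.adjoin_le
    rintro _ ⟨⟨x, hx⟩, rfl⟩
    exact hπ x hx
  rw [H.adjoin_range_π] at hrange
  intro t
  exact hrange (Algebra.mem_top)

end Fermat.Agent.S54_Main
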