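import Mathlib
import Fermat.Statements.S57

set_option autoImplicit false
open Algebra Algebra.PatchingLevel

namespace Fermat.Agent.S57

open CategoryTheory Abelian IsLocalRing Module RingTheory.Sequence

section PowerSeries

variable {σ : Type} [DecidableEq σ] {A : Type} [CommRing A]

/-- A power series whose coefficients vanish at all monomials avoiding the variables in `s`
lies in the ideal generated by those variables. -/
theorem mem_span_X_of_coeff (s : Finset σ) :
    ∀ f : MvPowerSeries σ A,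
      (∀ m : σ →₀ ℕ, (∀ k ∈ s, m k = 0) → MvPowerSeries.coeff m f = 0) →
      f ∈ Ideal.span ((fun k => (MvPowerSeries.X k : MvPowerSeries σ A)) '' (s : Set σ)) := by
  classical
  induction s using Finset.induction_on with
  | empty =>
    intro f hf
    have : f = 0 := by
      ext m
      simpa using hf m (by simp)
    rw [this]
    exact Submodule.zero_mem _
  | insert a t hat ih =>
    intro f hf
    let f₁ : MvPowerSeries σ A := fun m => if m a = 0 then MvPowerSeries.coeff m f else 0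
    have hf₁ : ∀ m, MvPowerSeries.coeff m f₁ = if m a = 0 then MvPowerSeries.coeff m f else 0 :=
      fun m => rfl
    have h1 : f₁ ∈ Ideal.span ((fun k => (MvPowerSeries.X k : MvPowerSeries σ A)) ''
        ((insert a t : Finset σ) : Set σ)) := by
      refine Ideal.span_mono (Set.image_mono ?_) (ih f₁ ?_)
      · intro x hx
        simp only [Finset.coe_insert, Set.mem_insert_iff, Finset.mem_coe] at hx ⊢
        exact Or.inr hx
      · intro m hm
        rw [hf₁]
        split_ifs with h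
        · apply hf
          intro k hk
          rcases Finset.mem_insert.mp hk with rfl | hk
          · exact h
          · exact hm k hk
        · rfl
    have h2 : f - f₁ ∈ Ideal.span ((fun k => (MvPowerSeries.X k : MvPowerSeries σ A)) ''
        ((insert a t : Finset σ) : Set σ)) := by
      have hdvd : (MvPowerSeries.X a : MvPowerSeries σ A) ∣ f - f₁ := by
        rw [MvPowerSeries.X_dvd_iff]
        intro m hm
        rw [map_sub, hf₁, if_pos hm, sub_self]
      obtain ⟨g, hg⟩ := hdvd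
      rw [hg]
      refine Ideal.mul_mem_right _ _ (Ideal.subset_span ?_)
      exact ⟨a, by simp, rfl⟩
    have := Ideal.add_mem _ h2 h1
    simpa using this

theorem coeff_eq_zero_of_mem_span_X (s : Set σ) (f : MvPowerSeries σ A)
    (hf : f ∈ Ideal.span ((fun k => (MvPowerSeries.X k : MvPowerSeries σ A)) '' s))
    (m : σ →₀ ℕ) (hm : ∀ k ∈ s, m k = 0) : MvPowerSeries.coeff m f = 0 := by
  classical
  induction hf using Submodule.span_induction generalizing m with
  | mem x hx =>
    obtain ⟨k, hk, rfl⟩ := hx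
    rw [MvPowerSeries.coeff_X, if_neg]
    intro h
    have := hm k hk
    rw [h] at this
    simp at this
  | zero => simp
  | add x y _ _ hx hy => rw [map_add, hx m hm, hy m hm, add_zero]
  | smul g x _ hx =>
    rw [smul_eq_mul, MvPowerSeries.coeff_mul]
    refine Finset.sum_eq_zero fun p hp => ?_
    rw [Finset.HasAntidiagonal.mem_antidiagonal] at hp
    rw [hx p.2, mul_zero]
    intro k hk
    have h1 := hm k hk
    rw [← hp] at h1
    simp only [Finsupp.coe_add, Pi.add_apply, Nat.add_eq_zero_iff] at h1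
    exact h1.2

theorem mem_span_X_of_coeff' [Fintype σ] (s : Set σ) (f : MvPowerSeries σ A)
    (hf : ∀ m : σ →₀ ℕ, (∀ k ∈ s, m k = 0) → MvPowerSeries.coeff m f = 0) :
    f ∈ Ideal.span ((fun k => (MvPowerSeries.X k : MvPowerSeries σ A)) '' s) := by
  classical
  have := mem_span_X_of_coeff s.toFinset f (by simpa using hf)
  simpa using this

theorem mem_span_X_univ_iff [Fintype σ] (f : MvPowerSeries σ A) :
    f ∈ Ideal.span ((fun k => (MvPowerSeries.X k : MvPowerSeries σ A)) '' Set.univ) ↔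
      MvPowerSeries.constantCoeff f = 0 := by
  constructor
  · intro hf
    rw [← MvPowerSeries.coeff_zero_eq_constantCoeff_apply]
    exact coeff_eq_zero_of_mem_span_X _ f hf 0 (by simp)
  · intro hf
    refine mem_span_X_of_coeff' _ f fun m hm => ?_
    have : m = 0 := by
      ext k
      simpa using hm k (Set.mem_univ k)
    rw [this, MvPowerSeries.coeff_zero_eq_constantCoeff_apply, hf]

end PowerSeries

section Regular

variable {𝒪 : Type} [CommRing 𝒪] (r : ℕ)

/-- The list `X_0, ..., X_{r-1}, C ϖ`. -/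
noncomputable def xs (ϖ : 𝒪) : List (MvPowerSeries (Fin r) 𝒪) :=
  List.ofFn (fun i : Fin r => (MvPowerSeries.X i : MvPowerSeries (Fin r) 𝒪)) ++
    [MvPowerSeries.C ϖ]

theorem mem_take_ofFn_X_iff (i : ℕ) (x : MvPowerSeries (Fin r) 𝒪) :
    x ∈ (List.ofFn (fun i : Fin r => (MvPowerSeries.X i : MvPowerSeries (Fin r) 𝒪))).take i ↔
      ∃ k : Fin r, (k : ℕ) < i ∧ MvPowerSeries.X k = x := by
  rw [List.mem_take_iff_getElem]
  constructor
  · rintro ⟨j, hj, rfl⟩
    rw [List.length_ofFn] at hj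
    refine ⟨⟨j, (lt_min_iff.mp hj).2⟩, (lt_min_iff.mp hj).1, ?_⟩
    rw [List.getElem_ofFn]
  · rintro ⟨k, hk, rfl⟩
    refine ⟨k, ?_, ?_⟩
    · rw [List.length_ofFn]
      exact lt_min hk k.2
    · rw [List.getElem_ofFn]

theorem ofList_take_ofFn_X (i : ℕ) :
    Ideal.ofList ((List.ofFn
      (fun i : Fin r => (MvPowerSeries.X i : MvPowerSeries (Fin r) 𝒪))).take i) =
      Ideal.span ((fun k => (MvPowerSeries.X k : MvPowerSeries (Fin r) 𝒪)) ''
        {k : Fin r | (k : ℕ) < i}) := by
  unfold Ideal.ofList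
  congr 1
  ext x
  simp only [Set.mem_ofPred_eq, Set.mem_image]
  exact mem_take_ofFn_X_iff r i x

theorem ofList_ofFn_X :
    Ideal.ofList (List.ofFn (fun i : Fin r => (MvPowerSeries.X i : MvPowerSeries (Fin r) 𝒪))) =
      Ideal.span ((fun k => (MvPowerSeries.X k : MvPowerSeries (Fin r) 𝒪)) '' Set.univ) := by
  unfold Ideal.ofList
  congr 1
  ext x
  simp

theorem isWeaklyRegular_ofFn_X :
    IsWeaklyRegular (MvPowerSeries (Fin r) 𝒪)
      (List.ofFn (fun i : Fin r => (MvPowerSeries.X i : MvPowerSeries (Fin r) 𝒪))) := by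
  classical
  rw [isWeaklyRegular_iff]
  intro i hi
  rw [isSMulRegular_quotient_iff_mem_of_smul_mem]
  intro f hf
  rw [smul_eq_mul, Ideal.mul_top, ofList_take_ofFn_X] at hf ⊢
  rw [List.getElem_ofFn] at hf
  rw [List.length_ofFn] at hi
  refine mem_span_X_of_coeff' _ f fun m hm => ?_
  have h1 := coeff_eq_zero_of_mem_span_X _ _ hf (Finsupp.single ⟨i, hi⟩ 1 + m) (by
    intro k hk
    have hne : (⟨i, hi⟩ : Fin r) ≠ k := by
      intro h
      rw [← h] at hk
      simp at hk
    simp [hm k hk, hne])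
  rw [smul_eq_mul, MvPowerSeries.X_def, MvPowerSeries.coeff_add_monomial_mul, one_mul] at h1
  exact h1

theorem isWeaklyRegular_xs [IsDomain 𝒪] (ϖ : 𝒪) (hϖ : ϖ ≠ 0) :
    IsWeaklyRegular (MvPowerSeries (Fin r) 𝒪) (xs r ϖ) := by
  classical
  unfold xs
  rw [isWeaklyRegular_append_iff]
  refine ⟨isWeaklyRegular_ofFn_X r, ?_⟩
  rw [isWeaklyRegular_singleton_iff, isSMulRegular_quotient_iff_mem_of_smul_mem]
  intro f hf
  rw [smul_eq_mul, Ideal.mul_top, ofList_ofFn_X, mem_span_X_univ_iff] at hf ⊢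
  rw [smul_eq_mul, map_mul, MvPowerSeries.constantCoeff_C] at hf
  exact (mul_eq_zero.mp hf).resolve_left hϖ

theorem ofList_xs [IsLocalRing 𝒪] (ϖ : 𝒪) (hϖ : maximalIdeal 𝒪 = Ideal.span {ϖ}) :
    Ideal.ofList (xs r ϖ) = maximalIdeal (MvPowerSeries (Fin r) 𝒪) := by
  classical
  unfold xs
  rw [Ideal.ofList_append, ofList_ofFn_X, Ideal.ofList_singleton]
  apply le_antisymm
  · rw [sup_le_iff, Ideal.span_le, Ideal.span_le]
    constructor
    · rintro _ ⟨k, -, rfl⟩
      show MvPowerSeries.X k ∈ maximalIdeal _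
      rw [mem_maximalIdeal, mem_nonunits_iff, MvPowerSeries.isUnit_iff_constantCoeff,
        MvPowerSeries.constantCoeff_X]
      exact not_isUnit_zero
    · rintro _ rfl
      show MvPowerSeries.C ϖ ∈ maximalIdeal _
      rw [mem_maximalIdeal, mem_nonunits_iff, MvPowerSeries.isUnit_iff_constantCoeff,
        MvPowerSeries.constantCoeff_C, ← mem_nonunits_iff, ← mem_maximalIdeal, hϖ]
      exact Ideal.subset_span rfl
  · intro f hf
    rw [mem_maximalIdeal, mem_nonunits_iff, MvPowerSeries.isUnit_iff_constantCoeff,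
      ← mem_nonunits_iff, ← mem_maximalIdeal, hϖ, Ideal.mem_span_singleton'] at hf
    obtain ⟨c, hc⟩ := hf
    have h1 : f - MvPowerSeries.C c * MvPowerSeries.C ϖ ∈
        Ideal.span ((fun k => (MvPowerSeries.X k : MvPowerSeries (Fin r) 𝒪)) '' Set.univ) := by
      rw [mem_span_X_univ_iff, map_sub, map_mul, MvPowerSeries.constantCoeff_C,
        MvPowerSeries.constantCoeff_C, hc, sub_self]
    have h2 : MvPowerSeries.C c * MvPowerSeries.C ϖ ∈
        Ideal.span {(MvPowerSeries.C ϖ : MvPowerSeries (Fin r) 𝒪)} :=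
      Ideal.mul_mem_left _ _ (Ideal.subset_span rfl)
    have := Submodule.add_mem_sup h1 h2
    simpa using this

end Regular

section FiniteLength

theorem hasProjectiveDimensionLT_of_isFiniteLength {A : Type} [CommRing A] [IsLocalRing A]
    (n : ℕ) (hk : HasProjectiveDimensionLT (ModuleCat.of A (A ⧸ maximalIdeal A)) (n + 1))
    {L : Type} [AddCommGroup L] [Module A L] (hL : IsFiniteLength A L) :
    HasProjectiveDimensionLT (ModuleCat.of A L) (n + 1) := by
  induction hL with
  | @of_subsingleton M _ _ _ =>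
    have h0 : Limits.IsZero (ModuleCat.of A M) := ModuleCat.isZero_of_subsingleton _
    have := h0.hasProjectiveDimensionLT_zero
    exact hasProjectiveDimensionLT_of_ge _ 0 (n + 1) (Nat.zero_le _)
  | @of_simple_quotient M _ _ N hN _ ih =>
    let S := N.mkQ.shortComplexKer
    have hS : S.ShortExact := LinearMap.shortExact_shortComplexKer N.mkQ_surjective
    have h1 : HasProjectiveDimensionLT S.X₁ (n + 1) := by
      have e : N ≃ₗ[A] LinearMap.ker N.mkQ := LinearEquiv.ofEq _ _ (Submodule.ker_mkQ N).symm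
      exact hasProjectiveDimensionLT_of_iso e.toModuleIso (n + 1)
    have h3 : HasProjectiveDimensionLT S.X₃ (n + 1) := by
      obtain ⟨I, hI, ⟨e⟩⟩ := isSimpleModule_iff_quot_maximal.mp hN
      have hIm : I = maximalIdeal A := IsLocalRing.eq_maximalIdeal hI
      subst hIm
      exact hasProjectiveDimensionLT_of_iso e.symm.toModuleIso (n + 1)
    exact hS.hasProjectiveDimensionLT_X₂ (n + 1) h1 h3

end FiniteLength

section Patching

variable {𝒪 : Type} [CommRing 𝒪] {r : ℕ} {R : Type} [CommRing R] [Algebra 𝒪 R]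
  {M : Type} [AddCommGroup M] [Module R M] {J : Ideal (MvPowerSeries (Fin r) 𝒪)}

/-- The `φ`-semilinear map `c ↦ ∑ φ (c i) • b i`. -/
noncomputable def eSL (L : Algebra.PatchingLevel 𝒪 r R M J) :
    (Fin L.d → MvPowerSeries (Fin r) 𝒪) →ₛₗ[L.φ.toRingHom] L.N where
  toFun c := ∑ i, L.φ (c i) • L.b i
  map_add' c c' := by simp [add_smul, Finset.sum_add_distrib]
  map_smul' f c := by simp [Finset.smul_sum, mul_smul]

theorem eSL_apply (L : Algebra.PatchingLevel 𝒪 r R M J) (c : Fin L.d → MvPowerSeries (Fin r) 𝒪) :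
    eSL L c = ∑ i, L.φ (c i) • L.b i := rfl

theorem eSL_surjective (L : Algebra.PatchingLevel 𝒪 r R M J) : Function.Surjective (eSL L) := by
  intro x
  obtain ⟨c, hc⟩ := L.b_span x
  exact ⟨c, hc.symm⟩

theorem eSL_injective (L : Algebra.PatchingLevel 𝒪 r R M ⊥) : Function.Injective (eSL L) := by
  rw [← LinearMap.ker_eq_bot, LinearMap.ker_eq_bot']
  intro c hc
  rw [eSL_apply, L.b_rel] at hc
  funext i
  simpa using hc i

theorem free_of_patchingLevel [IsDomain 𝒪] [IsDiscreteValuationRing 𝒪] [Nontrivial M]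
    (L : Algebra.PatchingLevel 𝒪 r R M ⊥) :
    Module.Free (MvPowerSeries (Fin r) 𝒪) L.N := by
  classical
  obtain ⟨ϖ, hϖ⟩ := IsDiscreteValuationRing.exists_irreducible 𝒪
  have hmax : maximalIdeal 𝒪 = Ideal.span {ϖ} := hϖ.maximalIdeal_eq
  have hϖ0 : ϖ ≠ 0 := hϖ.ne_zero
  have : Nontrivial R := by
    by_contra h
    rw [not_nontrivial_iff_subsingleton] at h
    have := Module.subsingleton R M
    exact false_of_nontrivial_of_subsingleton M
  -- `N` is nontrivial and finite
  have : Nontrivial L.N := by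
    obtain ⟨x, y, hxy⟩ := exists_pair_ne M
    obtain ⟨x', rfl⟩ := L.π_surjective x
    obtain ⟨y', rfl⟩ := L.π_surjective y
    exact ⟨⟨x', y', fun h => hxy (by rw [h])⟩⟩
  have : Module.Finite (MvPowerSeries (Fin r) 𝒪) L.N := by
    refine ⟨⟨Finset.univ.image L.b, ?_⟩⟩
    rw [_root_.eq_top_iff]
    intro x _
    obtain ⟨c, rfl⟩ := L.b_span x
    refine Submodule.sum_mem _ fun i _ => Submodule.smul_mem _ _ (Submodule.subset_span ?_)
    simp
  -- the regular sequence on `N`
  have hreg : IsWeaklyRegular L.N ((xs r ϖ).map L.φ) := by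
    have h1 : IsWeaklyRegular (Fin L.d → MvPowerSeries (Fin r) 𝒪) (xs r ϖ) := by
      have h2 := (isWeaklyRegular_xs r ϖ hϖ0).isWeaklyRegular_lTensor
        (M₂ := Fin L.d → MvPowerSeries (Fin r) 𝒪)
      exact ((TensorProduct.rid (MvPowerSeries (Fin r) 𝒪)
        (Fin L.d → MvPowerSeries (Fin r) 𝒪)).isWeaklyRegular_congr _).mp h2
    let e : (Fin L.d → MvPowerSeries (Fin r) 𝒪) ≃+ L.N :=
      AddEquiv.ofBijective (eSL L).toAddMonoidHom ⟨eSL_injective L, eSL_surjective L⟩
    refine (AddEquiv.isWeaklyRegular_congr (e := e) ?_).mp h1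
    rw [List.forall₂_map_right_iff]
    exact List.forall₂_same.mpr fun a _ x => (eSL L).map_smulₛₗ a x
  have hC : L.φ (MvPowerSeries.C ϖ) = MvPowerSeries.C ϖ := by
    have h := L.φ.commutes ϖ
    rwa [MvPowerSeries.algebraMap_apply, Algebra.algebraMap_self, RingHom.id_apply] at h
  have hmemx : ∀ x ∈ xs r ϖ, x ∈ maximalIdeal (MvPowerSeries (Fin r) 𝒪) := by
    intro x hx
    rw [← ofList_xs r ϖ hmax]
    exact Ideal.subset_span hx
  have hmem : ∀ y ∈ (xs r ϖ).map L.φ, y ∈ maximalIdeal (MvPowerSeries (Fin r) 𝒪) := by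
    intro y hy
    obtain ⟨x, hx, rfl⟩ := List.mem_map.mp hy
    have hx' := hx
    unfold xs at hx
    rcases List.mem_append.mp hx with hx | hx
    · obtain ⟨i, rfl⟩ := (List.mem_ofFn' _ _).mp hx
      rw [mem_maximalIdeal, mem_nonunits_iff]
      intro hu
      have h0 := hu.map L.ψ
      rw [L.ψ_φ_X] at h0
      exact not_isUnit_zero h0
    · rw [List.mem_singleton] at hx
      subst hx
      rw [hC]
      exact hmemx _ hx'
  -- projective dimension of the residue field
  have hk : HasProjectiveDimensionLT (ModuleCat.of (MvPowerSeries (Fin r) 𝒪)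
      (MvPowerSeries (Fin r) 𝒪 ⧸ maximalIdeal (MvPowerSeries (Fin r) 𝒪))) (r + 1 + 1) := by
    have hreg' : RingTheory.Sequence.IsRegular (MvPowerSeries (Fin r) 𝒪) (xs r ϖ) :=
      RingTheory.Sequence.IsRegular.of_isWeaklyRegular_of_mem_maximalIdeal _ hmemx
        (isWeaklyRegular_xs r ϖ hϖ0)
    have h1 := ModuleCat.projectiveDimension_quotient_eq_length.{0} (xs r ϖ) hreg'
    have hlen : (xs r ϖ).length = r + 1 := by simp [xs]
    rw [hlen] at h1
    have hle : projectiveDimension (ModuleCat.of (MvPowerSeries (Fin r) 𝒪)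
        (Shrink.{0} (MvPowerSeries (Fin r) 𝒪 ⧸ Ideal.ofList (xs r ϖ)))) ≤ ((r + 1 : ℕ) : WithBot ℕ∞) :=
      h1.le
    rw [projectiveDimension_le_iff] at hle
    let e1 : Shrink.{0} (MvPowerSeries (Fin r) 𝒪 ⧸ Ideal.ofList (xs r ϖ)) ≃ₗ[MvPowerSeries (Fin r) 𝒪]
        (MvPowerSeries (Fin r) 𝒪 ⧸ maximalIdeal (MvPowerSeries (Fin r) 𝒪)) :=
      (Shrink.linearEquiv (MvPowerSeries (Fin r) 𝒪) _).trans
        (Submodule.quotEquivOfEq _ _ (ofList_xs r ϖ hmax))
    exact hasProjectiveDimensionLT_of_iso e1.toModuleIso _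
  have hpd := ModuleCat.projectiveDimension_quotient_eq_add_length_of_isWeaklyRegular
    (ModuleCat.of (MvPowerSeries (Fin r) 𝒪) L.N) ((xs r ϖ).map L.φ) hreg hmem
  -- finite length of the quotient
  have hfl : IsFiniteLength (MvPowerSeries (Fin r) 𝒪)
      (L.N ⧸ (Ideal.ofList ((xs r ϖ).map L.φ) • ⊤ :
        Submodule (MvPowerSeries (Fin r) 𝒪) L.N)) := by
    rw [isFiniteLength_iff_isNoetherian_isArtinian]
    refine ⟨inferInstance, ?_⟩
    have hT : IsArtinian (MvPowerSeries (Fin r) 𝒪)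
        ((Fin L.d → MvPowerSeries (Fin r) 𝒪) ⧸
          (maximalIdeal (MvPowerSeries (Fin r) 𝒪) • ⊤ :
            Submodule (MvPowerSeries (Fin r) 𝒪) (Fin L.d → MvPowerSeries (Fin r) 𝒪))) := by
      let _ : Field (MvPowerSeries (Fin r) 𝒪 ⧸ maximalIdeal (MvPowerSeries (Fin r) 𝒪)) :=
        Ideal.Quotient.field _
      have : Module.Finite (MvPowerSeries (Fin r) 𝒪 ⧸ maximalIdeal (MvPowerSeries (Fin r) 𝒪))
          ((Fin L.d → MvPowerSeries (Fin r) 𝒪) ⧸
          (maximalIdeal (MvPowerSeries (Fin r) 𝒪) • ⊤ :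
            Submodule (MvPowerSeries (Fin r) 𝒪) (Fin L.d → MvPowerSeries (Fin r) 𝒪))) :=
        Module.Finite.of_restrictScalars_finite (MvPowerSeries (Fin r) 𝒪) _ _
      exact isArtinian_of_surjective_algebraMap
        (R := MvPowerSeries (Fin r) 𝒪 ⧸ maximalIdeal (MvPowerSeries (Fin r) 𝒪))
        Ideal.Quotient.mk_surjective
    let g : (Fin L.d → MvPowerSeries (Fin r) 𝒪) →ₛₗ[L.φ.toRingHom]
        (L.N ⧸ (Ideal.ofList ((xs r ϖ).map L.φ) • ⊤ :
          Submodule (MvPowerSeries (Fin r) 𝒪) L.N)) :=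
      (Submodule.mkQ _).comp (eSL L)
    have hg : (maximalIdeal (MvPowerSeries (Fin r) 𝒪) • ⊤ :
        Submodule (MvPowerSeries (Fin r) 𝒪) (Fin L.d → MvPowerSeries (Fin r) 𝒪)) ≤
        LinearMap.ker g := by
      rw [Submodule.smul_le]
      intro a ha c _
      rw [LinearMap.mem_ker, map_smulₛₗ]
      have h1 : L.φ a ∈ Ideal.ofList ((xs r ϖ).map L.φ) := by
        have h2 : L.φ.toRingHom a ∈ Ideal.map L.φ.toRingHom (Ideal.ofList (xs r ϖ)) := by
          rw [ofList_xs r ϖ hmax]
          exact Ideal.mem_map_of_mem _ ha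
        rw [Ideal.map_ofList] at h2
        exact h2
      obtain ⟨n, hn⟩ := Submodule.mkQ_surjective _ (g c)
      rw [← hn]
      show L.φ a • Submodule.Quotient.mk n = 0
      rw [← Submodule.Quotient.mk_smul, Submodule.Quotient.mk_eq_zero]
      exact Submodule.smul_mem_smul h1 Submodule.mem_top
    let gbar := Submodule.liftQ _ g hg
    have hgbar : Function.Surjective gbar := by
      intro y
      obtain ⟨n, rfl⟩ := Submodule.mkQ_surjective _ y
      obtain ⟨c, rfl⟩ := eSL_surjective L n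
      exact ⟨Submodule.Quotient.mk c, rfl⟩
    refine ⟨(StrictMono.wellFoundedLT (f := Submodule.comap gbar) ?_).wf⟩
    intro S S' hSS'
    refine lt_of_le_of_ne (Submodule.comap_mono hSS'.le) ?_
    intro h
    apply hSS'.ne
    apply le_antisymm hSS'.le
    intro y hy
    obtain ⟨t, rfl⟩ := hgbar y
    have ht : t ∈ Submodule.comap gbar S' := hy
    rw [← h] at ht
    exact ht
  have h2 := hasProjectiveDimensionLT_of_isFiniteLength (r + 1) hk hfl
  have h3 : projectiveDimension (ModuleCat.of (MvPowerSeries (Fin r) 𝒪)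
      (L.N ⧸ (Ideal.ofList ((xs r ϖ).map L.φ) • ⊤ :
        Submodule (MvPowerSeries (Fin r) 𝒪) L.N))) ≤ ((r + 1 : ℕ) : WithBot ℕ∞) :=
    (projectiveDimension_le_iff _ _).mpr h2
  have hlen : ((xs r ϖ).map L.φ).length = r + 1 := by simp [xs]
  rw [hlen] at hpd
  rw [hpd] at h3
  have h4 : projectiveDimension (ModuleCat.of (MvPowerSeries (Fin r) 𝒪) L.N) ≤
      ((0 : ℕ) : WithBot ℕ∞) := by
    have h3' : projectiveDimension (ModuleCat.of (MvPowerSeries (Fin r) 𝒪) L.N) +
        ((r + 1 : ℕ) : WithBot ℕ∞) ≤ ((0 : ℕ) : WithBot ℕ∞) + ((r + 1 : ℕ) : WithBot ℕ∞) := by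
      rw [Nat.cast_zero, zero_add]
      exact h3
    exact ENat.WithBot.add_le_add_natCast_right_iff.mp h3'
  rw [projectiveDimension_le_iff] at h4
  have h5 : Projective (ModuleCat.of (MvPowerSeries (Fin r) 𝒪) L.N) :=
    (projective_iff_hasProjectiveDimensionLE_zero _).mpr h4
  have h6 : Module.Projective (MvPowerSeries (Fin r) 𝒪) L.N :=
    (IsProjective.iff_projective _).mpr h5
  exact Module.free_of_flat_of_isLocalRing

end Patching

theorem result
    {𝒪 : Type} [CommRing 𝒪] [IsDomain 𝒪] [IsDiscreteValuationRing 𝒪]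
    {r : ℕ} {R : Type} [CommRing R] [Algebra 𝒪 R]
    {M : Type} [AddCommGroup M] [Module R M] [Nontrivial M]
    (L : Algebra.PatchingLevel 𝒪 r R M ⊥) :
    Module.Free R M ∧ Module.annihilator R M = ⊥ ∧
      RingHom.ker L.ψ = Ideal.span (Set.range fun i : Fin r => L.φ (MvPowerSeries.X i)) := by
  classical
  have hfree := free_of_patchingLevel L
  have hR : Nontrivial R := by
    by_contra h
    rw [not_nontrivial_iff_subsingleton] at h
    have := Module.subsingleton R M
    exact false_of_nontrivial_of_subsingleton M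
  have hN : Nontrivial L.N := by
    obtain ⟨x, y, hxy⟩ := exists_pair_ne M
    obtain ⟨x', rfl⟩ := L.π_surjective x
    obtain ⟨y', rfl⟩ := L.π_surjective y
    exact ⟨⟨x', y', fun h => hxy (by rw [h])⟩⟩
  have hfin : Module.Finite (MvPowerSeries (Fin r) 𝒪) L.N := by
    refine ⟨⟨Finset.univ.image L.b, ?_⟩⟩
    rw [_root_.eq_top_iff]
    intro x _
    obtain ⟨c, rfl⟩ := L.b_span x
    refine Submodule.sum_mem _ fun i _ => Submodule.smul_mem _ _ (Submodule.subset_span ?_)
    simp
  have hIψ : Ideal.span (Set.range fun i : Fin r => L.φ (MvPowerSeries.X i)) ≤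
      RingHom.ker L.ψ := by
    rw [Ideal.span_le]
    rintro _ ⟨i, rfl⟩
    exact L.ψ_φ_X i
  let β := Module.Free.chooseBasis (MvPowerSeries (Fin r) 𝒪) L.N
  have key : ∀ x : L.N, L.π x = 0 → ∀ j, β.repr x j ∈
      Ideal.span (Set.range fun i : Fin r => L.φ (MvPowerSeries.X i)) := by
    intro x hx j
    have hx' := (L.ker_π x).mp hx
    refine Submodule.smul_induction_on hx' ?_ ?_
    · intro a ha n _
      rw [map_smul, Finsupp.smul_apply, smul_eq_mul]
      exact Ideal.mul_mem_right _ _ ha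
    · intro x y hx hy
      rw [map_add, Finsupp.add_apply]
      exact Ideal.add_mem _ hx hy
  have hker : RingHom.ker L.ψ ≤
      Ideal.span (Set.range fun i : Fin r => L.φ (MvPowerSeries.X i)) := by
    intro f hf
    obtain ⟨j⟩ : Nonempty (Module.Free.ChooseBasisIndex (MvPowerSeries (Fin r) 𝒪) L.N) :=
      β.index_nonempty
    have h1 := key (f • β j) (by rw [L.π_smul, (RingHom.mem_ker).mp hf, zero_smul]) j
    simpa using h1
  have hπ_sum : ∀ c : Module.Free.ChooseBasisIndex (MvPowerSeries (Fin r) 𝒪) L.N →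
      MvPowerSeries (Fin r) 𝒪, L.π (∑ j, c j • β j) = ∑ j, L.ψ (c j) • L.π (β j) := by
    intro c
    rw [map_sum]
    simp [L.π_smul]
  have hli : LinearIndependent R (fun j => L.π (β j)) := by
    rw [Fintype.linearIndependent_iff]
    intro g hg j
    choose c hc using fun j => L.ψ_surjective (g j)
    have h1 : L.π (∑ j, c j • β j) = 0 := by
      rw [hπ_sum]
      simp only [hc]
      exact hg
    have h2 := key _ h1 j
    rw [β.repr_sum_self] at h2
    rw [← hc j]
    exact hIψ h2
  have hspan : ⊤ ≤ Submodule.span R (Set.range (fun j => L.π (β j))) := by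
    intro m _
    obtain ⟨x, rfl⟩ := L.π_surjective m
    rw [← β.sum_repr x, hπ_sum]
    exact Submodule.sum_mem _ fun j _ => Submodule.smul_mem _ _ (Submodule.subset_span ⟨j, rfl⟩)
  have hMfree : Module.Free R M := Module.Free.of_basis (Basis.mk hli hspan)
  refine ⟨hMfree, ?_, le_antisymm hker hIψ⟩
  rw [Module.annihilator_eq_bot]
  infer_instance

end Fermat.Agent.S57
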